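import Mathlib
import Fermat.Agent.FLTSmall_Basic

set_option autoImplicit false
set_option linter.unusedSectionVars false

open NumberField Polynomial

namespace Fermat.Agent.FLTSmall.CaseII

section Abstract

variable {R : Type*} [CommRing R] [IsDomain R]
variable {p : ℕ} {ζ : R}

theorem lam_dvd_p (hassoc : Associated ((ζ - 1) ^ (p - 1)) (p : R)) (hp : 2 ≤ p) :
    (ζ - 1) ∣ (p : R) :=
  (dvd_pow_self (ζ - 1) (by omega)).trans hassoc.dvd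

theorem p_dvd_intCast {n : ℤ} (h : (p : ℤ) ∣ n) : (p : R) ∣ (n : R) := by
  have := Int.cast_dvd_cast (α := R) _ _ h
  simpa using this

theorem int_dvd_of_lam_dvd (hp : p.Prime) (hl : Prime (ζ - 1))
    (hassoc : Associated ((ζ - 1) ^ (p - 1)) (p : R)) {n : ℤ} (h : (ζ - 1) ∣ (n : R)) :
    (p : ℤ) ∣ n := by
  by_contra hn
  have hcop : IsCoprime (p : ℤ) n :=
    (Prime.coprime_iff_not_dvd (Nat.prime_iff_prime_int.mp hp)).mpr hn
  obtain ⟨u, v, huv⟩ := hcop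
  have h1 : (ζ - 1) ∣ ((u * p + v * n : ℤ) : R) := by
    push_cast
    exact dvd_add (Dvd.dvd.mul_left (lam_dvd_p hassoc hp.two_le) _) (Dvd.dvd.mul_left h _)
  rw [huv, Int.cast_one] at h1
  exact hl.not_isUnit (isUnit_of_dvd_one h1)

theorem lam_dvd_add (hp : p.Prime) (hl : Prime (ζ - 1))
    (hassoc : Associated ((ζ - 1) ^ (p - 1)) (p : R)) {x y : R}
    (h : (ζ - 1) ∣ x ^ p + y ^ p) : (ζ - 1) ∣ x + y := by
  obtain ⟨r, hr⟩ := exists_add_pow_prime_eq hp x y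
  have h1 : (ζ - 1) ∣ (x + y) ^ p := by
    rw [hr]
    exact dvd_add h (Dvd.dvd.mul_right (Dvd.dvd.mul_right
      (Dvd.dvd.mul_right (lam_dvd_p hassoc hp.two_le) _) _) _)
  exact hl.dvd_of_dvd_pow h1

/-- Every element is congruent to an integer modulo `ζ - 1`. -/
theorem int_mod_lam (hadj : Algebra.adjoin ℤ ({ζ} : Set R) = ⊤) (x : R) :
    ∃ n : ℤ, (ζ - 1) ∣ x - n := by
  have hx : x ∈ Algebra.adjoin ℤ ({ζ} : Set R) := hadj ▸ Algebra.mem_top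
  induction hx using Algebra.adjoin_induction with
  | mem x hx =>
    rw [Set.mem_singleton_iff] at hx
    subst hx
    exact ⟨1, by simp⟩
  | algebraMap r => exact ⟨r, by simp⟩
  | add x y _ _ hx hy =>
    obtain ⟨n1, h1⟩ := hx
    obtain ⟨n2, h2⟩ := hy
    refine ⟨n1 + n2, ?_⟩
    have e : x + y - ((n1 + n2 : ℤ) : R) = (x - n1) + (y - n2) := by push_cast; ring
    rw [e]
    exact dvd_add h1 h2
  | mul x y _ _ hx hy =>
    obtain ⟨n1, h1⟩ := hx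
    obtain ⟨n2, h2⟩ := hy
    refine ⟨n1 * n2, ?_⟩
    have e : x * y - ((n1 * n2 : ℤ) : R) = (x - n1) * y + n1 * (y - n2) := by push_cast; ring
    rw [e]
    exact dvd_add (Dvd.dvd.mul_right h1 _) (Dvd.dvd.mul_left h2 _)

/-- Every `p`-th power is congruent to an integer modulo `p`. -/
theorem pow_mod_p (hp : p.Prime) (hζ : IsPrimitiveRoot ζ p)
    (hadj : Algebra.adjoin ℤ ({ζ} : Set R) = ⊤) (x : R) :
    ∃ n : ℤ, (p : R) ∣ x ^ p - n := by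
  have hx : x ∈ Algebra.adjoin ℤ ({ζ} : Set R) := hadj ▸ Algebra.mem_top
  induction hx using Algebra.adjoin_induction with
  | mem x hx =>
    rw [Set.mem_singleton_iff] at hx
    subst hx
    exact ⟨1, by simp [hζ.pow_eq_one]⟩
  | algebraMap r => exact ⟨r ^ p, by simp⟩
  | add x y _ _ hx hy =>
    obtain ⟨n1, h1⟩ := hx
    obtain ⟨n2, h2⟩ := hy
    obtain ⟨r, hr⟩ := exists_add_pow_prime_eq hp x y
    refine ⟨n1 + n2, ?_⟩
    have e : (x + y) ^ p - ((n1 + n2 : ℤ) : R) = (x ^ p - n1) + (y ^ p - n2) + p * (x * y * r) := by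
      rw [hr]; push_cast; ring
    rw [e]
    exact dvd_add (dvd_add h1 h2) (dvd_mul_right _ _)
  | mul x y _ _ hx hy =>
    obtain ⟨n1, h1⟩ := hx
    obtain ⟨n2, h2⟩ := hy
    refine ⟨n1 * n2, ?_⟩
    have e : (x * y) ^ p - ((n1 * n2 : ℤ) : R) = (x ^ p - n1) * y ^ p + n1 * (y ^ p - n2) := by
      push_cast; ring
    rw [e]
    exact dvd_add (Dvd.dvd.mul_right h1 _) (Dvd.dvd.mul_left h2 _)

/-- Twisting `y` by a root of unity so that `(ζ - 1) ^ 2` divides `x + y`. -/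
theorem exists_twist (hp : p.Prime) (hζ : IsPrimitiveRoot ζ p) (hl : Prime (ζ - 1))
    (hassoc : Associated ((ζ - 1) ^ (p - 1)) (p : R))
    (hint : ∀ x : R, ∃ n : ℤ, (ζ - 1) ∣ x - n)
    {x y : R} (hxy : IsCoprime x y) (hy : ¬ (ζ - 1) ∣ y) (h : (ζ - 1) ∣ x ^ p + y ^ p) :
    ∃ y' : R, y' ^ p = y ^ p ∧ IsCoprime x y' ∧ ¬ (ζ - 1) ∣ y' ∧ (ζ - 1) ^ 2 ∣ x + y' := by
  have hlp := lam_dvd_p hassoc hp.two_le
  obtain ⟨c, hc⟩ := lam_dvd_add hp hl hassoc h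
  obtain ⟨nc, hnc⟩ := hint c
  obtain ⟨ny, hny⟩ := hint y
  have hpny : ¬ (p : ℤ) ∣ ny := by
    intro hd
    apply hy
    have h1 : (ζ - 1) ∣ (ny : R) := hlp.trans (p_dvd_intCast hd)
    have h2 := dvd_add hny h1
    simpa using h2
  have : Fact p.Prime := ⟨hp⟩
  have hny0 : (ny : ZMod p) ≠ 0 := by
    rwa [Ne, ZMod.intCast_zmod_eq_zero_iff_dvd]
  obtain ⟨i, hi⟩ : ∃ i : ℕ, (p : ℤ) ∣ nc + i * ny := by
    refine ⟨(-(nc : ZMod p) * (ny : ZMod p)⁻¹).val, ?_⟩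
    rw [← ZMod.intCast_zmod_eq_zero_iff_dvd]
    push_cast
    rw [ZMod.natCast_zmod_val]
    field_simp
    ring
  have hg1 : (ζ - 1) * (∑ j ∈ Finset.range i, ζ ^ j) = ζ ^ i - 1 := mul_geom_sum ζ i
  have hg2 : (ζ - 1) ∣ (∑ j ∈ Finset.range i, ζ ^ j) - (i : R) := by
    have e : (∑ j ∈ Finset.range i, ζ ^ j) - (i : R) = ∑ j ∈ Finset.range i, (ζ ^ j - 1) := by
      rw [Finset.sum_sub_distrib]; simp
    rw [e]
    refine Finset.dvd_sum fun j _ => ?_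
    simpa using sub_dvd_pow_sub_pow ζ 1 j
  have hu : IsUnit (ζ ^ i) := (hζ.isUnit hp.ne_zero).pow i
  refine ⟨ζ ^ i * y, ?_, ?_, ?_, ?_⟩
  · rw [mul_pow, ← pow_mul, mul_comm i p, pow_mul, hζ.pow_eq_one, one_pow, one_mul]
  · exact (isCoprime_mul_unit_left_right hu x y).mpr hxy
  · rwa [hu.dvd_mul_left]
  · have hsum : (ζ - 1) ∣ c + (∑ j ∈ Finset.range i, ζ ^ j) * y := by
      have e : c + (∑ j ∈ Finset.range i, ζ ^ j) * y
          = (c - nc) + ((∑ j ∈ Finset.range i, ζ ^ j) - i) * y + i * (y - ny)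
            + ((nc + i * ny : ℤ) : R) := by
        push_cast; ring
      rw [e]
      exact dvd_add (dvd_add (dvd_add hnc (Dvd.dvd.mul_right hg2 _)) (Dvd.dvd.mul_left hny _))
        (hlp.trans (p_dvd_intCast hi))
    obtain ⟨d, hd⟩ := hsum
    refine ⟨d, ?_⟩
    have e : x + ζ ^ i * y = (ζ - 1) * (c + (∑ j ∈ Finset.range i, ζ ^ j) * y) := by
      linear_combination hc - y * hg1
    rw [e, hd]; ring


variable [IsPrincipalIdealRing R]

/-- The descent step of Kummer's argument. -/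
theorem descent_step (hp : p.Prime) (hodd : p ≠ 2) (hζ : IsPrimitiveRoot ζ p)
    (hl : Prime (ζ - 1)) (hassoc : Associated ((ζ - 1) ^ (p - 1)) (p : R))
    (hpow : ∀ x : R, ∃ n : ℤ, (p : R) ∣ x ^ p - n)
    (hK : ∀ u : Rˣ, (∃ n : ℤ, (p : R) ∣ (u : R) - n) → ∃ v : Rˣ, u = v ^ p)
    {x y z : R} {ε : Rˣ} {m : ℕ}
    (hxy : IsCoprime x y) (hy : ¬ (ζ - 1) ∣ y) (hz : ¬ (ζ - 1) ∣ z)
    (h2 : (ζ - 1) ^ 2 ∣ x + y)
    (heq : x ^ p + y ^ p = ε * (ζ - 1) ^ (p * (m + 1)) * z ^ p) :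
    1 ≤ m ∧ ∃ (x' y' z' : R) (ε' : Rˣ), IsCoprime x' y' ∧ ¬ (ζ - 1) ∣ y' ∧ ¬ (ζ - 1) ∣ z' ∧
      x' ^ p + y' ^ p = ε' * (ζ - 1) ^ (p * m) * z' ^ p := by
  classical
  have hp3 : 3 ≤ p := by have := hp.two_le; omega
  have hpos : 0 < p := hp.pos
  have hlp := lam_dvd_p hassoc hp.two_le
  have hmem : ∀ η : R, η ∈ nthRootsFinset p (1 : R) ↔ η ^ p = 1 :=
    fun η => mem_nthRootsFinset hpos 1
  have h1μ : (1 : R) ∈ nthRootsFinset p (1 : R) := (hmem 1).mpr (one_pow p)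
  have hζμ : ζ ∈ nthRootsFinset p (1 : R) := (hmem ζ).mpr hζ.pow_eq_one
  have hζ2μ : ζ ^ 2 ∈ nthRootsFinset p (1 : R) :=
    (hmem _).mpr (by rw [← pow_mul, mul_comm, pow_mul, hζ.pow_eq_one, one_pow])
  have hζ1 : ζ ≠ 1 := hζ.ne_one hp.one_lt
  have hζ21 : ζ ^ 2 ≠ 1 := hζ.pow_ne_one_of_pos_of_lt (by norm_num) (by omega)
  have hζ2ζ : ζ ^ 2 ≠ ζ := by
    intro h
    have h0 : ζ * (ζ - 1) = 0 := by linear_combination h
    rcases mul_eq_zero.mp h0 with h0 | h0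
    · exact hζ.ne_zero hp.ne_zero h0
    · exact hζ1 (sub_eq_zero.mp h0)
  have hpair : ∀ η ∈ nthRootsFinset p (1 : R), ∀ η' ∈ nthRootsFinset p (1 : R), η ≠ η' →
      Associated (ζ - 1) (η - η') := fun η hη η' hη' hne =>
    hζ.nthRootsFinset_pairwise_associated_sub_one_sub_of_prime hp hη hη' hne
  have hl0 : (ζ - 1) ≠ 0 := hl.ne_zero
  have hlam_dvd : (ζ - 1) ∣ x + y := (dvd_pow_self _ two_ne_zero).trans h2
  have hdiv : ∀ η ∈ nthRootsFinset p (1 : R), (ζ - 1) ∣ x + η * y := by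
    intro η hη
    by_cases h1 : η = 1
    · subst h1; simpa using hlam_dvd
    · have h3 := (hpair η hη 1 h1μ h1).dvd
      have e : x + η * y = (x + y) + (η - 1) * y := by ring
      rw [e]; exact dvd_add hlam_dvd (Dvd.dvd.mul_right h3 _)
  choose! a ha using hdiv
  -- the cofactors of the non-trivial roots are prime to `ζ - 1`
  have ha_ndvd : ∀ η ∈ nthRootsFinset p (1 : R), η ≠ 1 → ¬ (ζ - 1) ∣ a η := by
    intro η hη h1 hd
    obtain ⟨u, hu⟩ := hpair η hη 1 h1μ h1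
    have h3 : (ζ - 1) ^ 2 ∣ x + η * y := by
      rw [ha η hη, pow_two]; exact mul_dvd_mul_left _ hd
    have h4 : (ζ - 1) * (ζ - 1) ∣ (ζ - 1) * (u * y) := by
      have e : (ζ - 1) * (u * y) = (x + η * y) - (x + y) := by rw [← mul_assoc, hu]; ring
      rw [e, ← pow_two]; exact dvd_sub h3 h2
    have h5 : (ζ - 1) ∣ u * y := (mul_dvd_mul_iff_left hl0).mp h4
    exact hy ((u.isUnit.dvd_mul_left).mp h5)
  -- pairwise coprimality of the cofactors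
  have hcop : ∀ η ∈ nthRootsFinset p (1 : R), ∀ η' ∈ nthRootsFinset p (1 : R), η ≠ η' →
      IsCoprime (a η) (a η') := by
    intro η hη η' hη' hne
    obtain ⟨u, hu⟩ := hpair η hη η' hη' hne
    have e1 : a η - a η' = u * y := by
      apply mul_left_cancel₀ hl0
      rw [mul_sub, ← ha η hη, ← ha η' hη', ← mul_assoc, hu]; ring
    have e2 : η * a η' - η' * a η = u * x := by
      apply mul_left_cancel₀ hl0
      have e : (ζ - 1) * (η * a η' - η' * a η)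
          = η * ((ζ - 1) * a η') - η' * ((ζ - 1) * a η) := by ring
      rw [e, ← ha η hη, ← ha η' hη', ← mul_assoc, hu]; ring
    obtain ⟨s, t, hst⟩ := hxy
    refine ⟨(↑u⁻¹ : R) * (t - s * η'), (↑u⁻¹ : R) * (s * η - t), ?_⟩
    have hu' : (↑u⁻¹ : R) * (u : R) = 1 := by simp
    linear_combination (↑u⁻¹ : R) * t * e1 + (↑u⁻¹ : R) * s * e2 + (s * x + t * y) * hu' + hst
  -- the product formula
  have hprod : ∏ η ∈ nthRootsFinset p (1 : R), (x + η * y) = x ^ p + y ^ p :=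
    (hζ.pow_add_pow_eq_prod_add_mul x y (hp.odd_of_ne_two hodd)).symm
  have hcard : (nthRootsFinset p (1 : R)).card = p := hζ.card_nthRootsFinset
  have hprod2 : (ζ - 1) ^ p * ∏ η ∈ nthRootsFinset p (1 : R), a η = x ^ p + y ^ p := by
    rw [← hprod]
    have e : (ζ - 1) ^ p = ∏ _η ∈ nthRootsFinset p (1 : R), (ζ - 1) := by
      rw [Finset.prod_const, hcard]
    rw [e, ← Finset.prod_mul_distrib]
    exact Finset.prod_congr rfl fun η hη => (ha η hη).symm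
  have hprod3 : ∏ η ∈ nthRootsFinset p (1 : R), a η = ε * (ζ - 1) ^ (p * m) * z ^ p := by
    apply mul_left_cancel₀ (pow_ne_zero p hl0)
    rw [hprod2, heq]; ring
  have hsplit : a 1 * ∏ η ∈ (nthRootsFinset p (1 : R)).erase 1, a η
      = ε * (ζ - 1) ^ (p * m) * z ^ p := by
    rw [← hprod3, Finset.mul_prod_erase _ a h1μ]
  have hP'ndvd : ¬ (ζ - 1) ∣ ∏ η ∈ (nthRootsFinset p (1 : R)).erase 1, a η := by
    rw [Prime.dvd_finsetProd_iff hl]
    rintro ⟨η, hη, hd⟩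
    exact ha_ndvd η (Finset.mem_of_mem_erase hη) (Finset.ne_of_mem_erase hη) hd
  have hpow_dvd : (ζ - 1) ^ (p * m) ∣ a 1 := by
    apply hl.pow_dvd_of_dvd_mul_right _ hP'ndvd
    rw [hsplit]
    exact Dvd.dvd.mul_right (Dvd.intro_left _ rfl) _
  obtain ⟨A0, hA0⟩ := hpow_dvd
  have hA0P' : A0 * ∏ η ∈ (nthRootsFinset p (1 : R)).erase 1, a η = ε * z ^ p := by
    apply mul_left_cancel₀ (pow_ne_zero (p * m) hl0)
    rw [← mul_assoc, ← hA0, hsplit]; ring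
  have hA0ndvd : ¬ (ζ - 1) ∣ A0 := by
    intro hd
    have h3 : (ζ - 1) ∣ ε * z ^ p := hA0P' ▸ Dvd.dvd.mul_right hd _
    rw [ε.isUnit.dvd_mul_left] at h3
    exact hz (hl.dvd_of_dvd_pow h3)
  have hm : 1 ≤ m := by
    by_contra hm0
    have hm0' : m = 0 := by omega
    subst hm0'
    have h3 : (ζ - 1) * (ζ - 1) ∣ (ζ - 1) * a 1 := by
      rw [← ha 1 h1μ, ← pow_two, one_mul]; exact h2
    have h4 : (ζ - 1) ∣ a 1 := (mul_dvd_mul_iff_left hl0).mp h3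
    rw [hA0, mul_zero, pow_zero, one_mul] at h4
    exact hA0ndvd h4
  refine ⟨hm, ?_⟩
  -- `p`-th powers
  have hpth : ∀ η ∈ nthRootsFinset p (1 : R), ∃ ρ : R, Associated (ρ ^ p) (a η) := by
    intro η hη
    have hc : IsCoprime (a η) (∏ η' ∈ (nthRootsFinset p (1 : R)).erase η, a η') :=
      IsCoprime.prod_right fun η' hη' =>
        hcop η hη η' (Finset.mem_of_mem_erase hη') (Finset.ne_of_mem_erase hη').symm
    refine exists_associated_pow_of_associated_pow_mul (c := (ζ - 1) ^ m * z) hc ⟨ε, ?_⟩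
    rw [Finset.mul_prod_erase _ a hη, hprod3]; ring
  have hcopA0 : IsCoprime A0 (∏ η ∈ (nthRootsFinset p (1 : R)).erase 1, a η) := by
    have hc : IsCoprime (a 1) (∏ η' ∈ (nthRootsFinset p (1 : R)).erase 1, a η') :=
      IsCoprime.prod_right fun η' hη' =>
        hcop 1 h1μ η' (Finset.mem_of_mem_erase hη') (Finset.ne_of_mem_erase hη').symm
    rw [hA0] at hc
    exact hc.of_mul_left_right
  obtain ⟨ρ1, u1, hρ1⟩ := hpth ζ hζμ
  obtain ⟨ρ2, u2, hρ2⟩ := hpth (ζ ^ 2) hζ2μ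
  obtain ⟨ρ0, u0, hρ0⟩ := exists_associated_pow_of_associated_pow_mul (c := z) hcopA0
    ⟨ε, by rw [hA0P']; ring⟩
  -- `1 + ζ` is a unit
  obtain ⟨w, hw⟩ : IsUnit (1 + ζ) := by
    have h3 := hζ.geom_sum_isUnit hp.two_le (j := 2)
      ((Nat.coprime_primes Nat.prime_two hp).mpr (Ne.symm hodd))
    simpa [Finset.sum_range_succ] using h3
  -- the three key equations
  have E0 : x + y = (ζ - 1) * ((ζ - 1) ^ (p * m) * (ρ0 ^ p * u0)) := by
    rw [hρ0, ← hA0, ← ha 1 h1μ, one_mul]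
  have E1 : x + ζ * y = (ζ - 1) * (ρ1 ^ p * u1) := by rw [hρ1, ← ha ζ hζμ]
  have E2 : x + ζ ^ 2 * y = (ζ - 1) * (ρ2 ^ p * u2) := by rw [hρ2, ← ha (ζ ^ 2) hζ2μ]
  have E : ρ1 ^ p * (u1 * w) - ρ2 ^ p * u2 = ζ * ((ζ - 1) ^ (p * m) * (ρ0 ^ p * u0)) := by
    apply mul_left_cancel₀ hl0
    rw [hw]
    linear_combination (-(1 + ζ)) * E1 + E2 + ζ * E0
  set v : Rˣ := u1 * w with hv
  obtain ⟨ζu, hζu⟩ := hζ.isUnit hp.ne_zero
  have hvinv : (↑v⁻¹ : R) * (v : R) = 1 := by simp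
  have E' : ρ1 ^ p + ((-(v⁻¹ * u2) : Rˣ) : R) * ρ2 ^ p
      = ((v⁻¹ * ζu * u0 : Rˣ) : R) * (ζ - 1) ^ (p * m) * ρ0 ^ p := by
    have hvu : (v : R) = u1 * w := by rw [hv]; simp
    rw [← hvu] at E
    push_cast
    rw [hζu]
    linear_combination (↑v⁻¹ : R) * E - (ρ1 ^ p) * hvinv
  -- Kummer's lemma applies to the unit `-(v⁻¹ * u2)`
  have hpdvd : (p : R) ∣ (ζ - 1) ^ (p * m) := by
    refine hassoc.symm.dvd.trans (pow_dvd_pow _ ?_)
    calc p - 1 ≤ p := Nat.sub_le _ _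
      _ = p * 1 := (mul_one p).symm
      _ ≤ p * m := Nat.mul_le_mul_left p hm
  obtain ⟨n1, hn1⟩ := hpow ρ1
  obtain ⟨n2, hn2⟩ := hpow ρ2
  have hρ2ndvd : ¬ (ζ - 1) ∣ ρ2 := by
    intro hd
    apply ha_ndvd (ζ ^ 2) hζ2μ hζ21
    rw [← hρ2]
    exact Dvd.dvd.mul_right (dvd_pow hd hp.ne_zero) _
  have hn2ndvd : ¬ (p : ℤ) ∣ n2 := by
    intro hd
    apply hρ2ndvd
    have h3 : (ζ - 1) ∣ (n2 : R) := hlp.trans (p_dvd_intCast hd)
    have h4 : (ζ - 1) ∣ ρ2 ^ p := by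
      have h5 := dvd_add (hlp.trans hn2) h3
      simpa using h5
    exact hl.dvd_of_dvd_pow h4
  obtain ⟨s, t, hst⟩ : IsCoprime (p : ℤ) n2 :=
    (Prime.coprime_iff_not_dvd (Nat.prime_iff_prime_int.mp hp)).mpr hn2ndvd
  have hkum : ∃ n : ℤ, (p : R) ∣ ((-(v⁻¹ * u2) : Rˣ) : R) - n := by
    refine ⟨-(t * n1), ?_⟩
    have hst' : (s : R) * p + t * n2 = 1 := by exact_mod_cast congrArg (Int.cast : ℤ → R) hst
    obtain ⟨q1, hq1⟩ := hn1
    obtain ⟨q2, hq2⟩ := hn2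
    obtain ⟨q3, hq3⟩ := hpdvd
    refine ⟨((-(v⁻¹ * u2) : Rˣ) : R) * s
      + t * (((v⁻¹ * ζu * u0 : Rˣ) : R) * q3 * ρ0 ^ p - q1 - ((-(v⁻¹ * u2) : Rˣ) : R) * q2), ?_⟩
    rw [hq3] at E'
    push_cast
    push_cast at E'
    linear_combination ((↑v⁻¹ : R) * u2) * hst' + t * E' - t * hq1 + t * (↑v⁻¹ : R) * u2 * hq2
  obtain ⟨ξ, hξ⟩ := hK _ hkum
  refine ⟨ρ1, ξ * ρ2, ρ0, v⁻¹ * ζu * u0, ?_, ?_, ?_, ?_⟩
  · have h3 : IsCoprime (a ζ) (a (ζ ^ 2)) := hcop ζ hζμ (ζ ^ 2) hζ2μ (Ne.symm hζ2ζ)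
    rw [← hρ1, ← hρ2] at h3
    have h4 : IsCoprime (ρ1 ^ p) (ρ2 ^ p) := h3.of_mul_left_left.of_mul_right_left
    exact (isCoprime_mul_unit_left_right ξ.isUnit ρ1 ρ2).mpr ((IsCoprime.pow_iff hpos hpos).mp h4)
  · rwa [ξ.isUnit.dvd_mul_left]
  · intro hd
    apply hA0ndvd
    rw [← hρ0]
    exact Dvd.dvd.mul_right (dvd_pow hd hp.ne_zero) _
  · rw [mul_pow, ← Units.val_pow_eq_pow_val, ← hξ]
    exact E'


/-- There is no solution of the generalised Fermat equation of case II. -/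
theorem no_solution (hp : p.Prime) (hodd : p ≠ 2) (hζ : IsPrimitiveRoot ζ p)
    (hl : Prime (ζ - 1)) (hassoc : Associated ((ζ - 1) ^ (p - 1)) (p : R))
    (hadj : Algebra.adjoin ℤ ({ζ} : Set R) = ⊤)
    (hK : ∀ u : Rˣ, (∃ n : ℤ, (p : R) ∣ (u : R) - n) → ∃ v : Rˣ, u = v ^ p) :
    ∀ m : ℕ, 1 ≤ m → ∀ (x y z : R) (ε : Rˣ), IsCoprime x y → ¬ (ζ - 1) ∣ y → ¬ (ζ - 1) ∣ z →
      x ^ p + y ^ p = ε * (ζ - 1) ^ (p * m) * z ^ p → False := by
  intro m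
  induction m with
  | zero => intro h; omega
  | succ m ih =>
    intro _ x y z ε hxy hy hz heq
    have hdvd : (ζ - 1) ∣ x ^ p + y ^ p := by
      rw [heq]
      exact Dvd.dvd.mul_right (Dvd.dvd.mul_left
        (dvd_pow_self _ (Nat.mul_ne_zero hp.ne_zero (Nat.succ_ne_zero m))) _) _
    obtain ⟨y', hy'p, hxy', hy', h2⟩ :=
      exists_twist hp hζ hl hassoc (int_mod_lam hadj) hxy hy hdvd
    rw [← hy'p] at heq
    obtain ⟨hm, x', y'', z', ε', h1, h2', h3, h4⟩ :=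
      descent_step hp hodd hζ hl hassoc (pow_mod_p hp hζ hadj) hK hxy' hy' hz h2 heq
    exact ih hm x' y'' z' ε' h1 h2' h3 h4

end Abstract

end Fermat.Agent.FLTSmall.CaseII

namespace Fermat.Agent.FLTSmall

open Fermat.Agent.FLTSmall.CaseII in
/-- Case II of Fermat's last theorem for the exponent `p`, assuming that the ring of integers of
the `p`-th cyclotomic field is a principal ideal ring and that Kummer's lemma holds. -/
theorem caseII {p : ℕ} (hp : p.Prime) (hp5 : 5 ≤ p) (K : Type) [Field K] [NumberField K]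
    [IsCyclotomicExtension {p} ℚ K] (hpid : IsPrincipalIdealRing (𝓞 K)) (hK : KummerLemma p K)
    {a b c : ℤ} (hgcd : IsCoprime a b) (h : a ^ p + b ^ p + c ^ p = 0) (hc : c ≠ 0)
    (hdvd : (p : ℤ) ∣ c) : False := by
  have hodd : p ≠ 2 := by omega
  have : Fact p.Prime := ⟨hp⟩
  have : NeZero p := ⟨hp.ne_zero⟩
  have hζ := IsCyclotomicExtension.zeta_spec p ℚ K
  have hprim : IsPrimitiveRoot hζ.toInteger p := hζ.toInteger_isPrimitiveRoot
  have hl : Prime (hζ.toInteger - 1) := hζ.zeta_sub_one_prime'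
  have hassoc : Associated ((hζ.toInteger - 1) ^ (p - 1)) (p : 𝓞 K) :=
    IsCyclotomicExtension.Rat.associated_zeta_sub_one_pow_prime p hζ
  have hadj : Algebra.adjoin ℤ ({hζ.toInteger} : Set (𝓞 K)) = ⊤ := by
    rw [← hζ.integralPowerBasis_gen]
    exact PowerBasis.adjoin_gen_eq_top _
  have hpZ : Prime (p : ℤ) := Nat.prime_iff_prime_int.mp hp
  -- `p` does not divide `b`
  have hpb : ¬ (p : ℤ) ∣ b := by
    intro hb
    have ha : (p : ℤ) ∣ a := by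
      have h3 : (p : ℤ) ∣ a ^ p := by
        have e : a ^ p = -(b ^ p) - c ^ p := by linear_combination h
        rw [e]
        exact dvd_sub (Dvd.dvd.neg_right (dvd_pow hb hp.ne_zero)) (dvd_pow hdvd hp.ne_zero)
      exact hpZ.dvd_of_dvd_pow h3
    exact hpZ.not_isUnit (hgcd.isUnit_of_dvd' ha hb)
  -- write `c = p ^ k * c'`
  have hfin : FiniteMultiplicity (p : ℤ) c :=
    Int.finiteMultiplicity_iff.mpr ⟨by simpa using hp.ne_one, hc⟩
  obtain ⟨c', hc', hpc'⟩ := hfin.exists_eq_pow_mul_and_not_dvd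
  obtain ⟨k, hk⟩ : ∃ k : ℕ, k = multiplicity (p : ℤ) c := ⟨_, rfl⟩
  rw [← hk] at hc'
  have hk1 : 1 ≤ k := by
    by_contra hk0
    have hk0' : k = 0 := by omega
    rw [hk0', pow_zero, one_mul] at hc'
    exact hpc' (hc' ▸ hdvd)
  obtain ⟨u, hu⟩ := hassoc
  have hKR : ∀ u : (𝓞 K)ˣ, (∃ n : ℤ, (p : 𝓞 K) ∣ (u : 𝓞 K) - n) → ∃ v : (𝓞 K)ˣ, u = v ^ p := hK
  refine no_solution hp hodd hprim hl ⟨u, hu⟩ hadj hKR ((p - 1) * k)
    (Nat.mul_pos (by omega) hk1) (a : 𝓞 K) (b : 𝓞 K) (c' : 𝓞 K) (-(u ^ (k * p))) hgcd.intCast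
    (fun hd => hpb (int_dvd_of_lam_dvd hp hl ⟨u, hu⟩ hd))
    (fun hd => hpc' (int_dvd_of_lam_dvd hp hl ⟨u, hu⟩ hd)) ?_
  have h3 : (a : 𝓞 K) ^ p + (b : 𝓞 K) ^ p + (c : 𝓞 K) ^ p = 0 := by
    exact_mod_cast congrArg (Int.cast : ℤ → 𝓞 K) h
  have h4 : (c : 𝓞 K) = (p : 𝓞 K) ^ k * (c' : 𝓞 K) := by
    rw [hc']; push_cast; ring
  rw [h4, ← hu] at h3
  push_cast
  linear_combination h3

end Fermat.Agent.FLTSmall
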