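import Fermat.Agent.FLTSmall_KummerCert

set_option autoImplicit false
set_option linter.unusedSimpArgs false
set_option linter.unusedVariables false

open NumberField Polynomial TrivSqZeroExt

namespace Fermat.Agent.FLTSmall.KummerCert

section five

local instance fact_five : Fact (Nat.Prime 5) := ⟨by norm_num⟩

/-- coefficients of the logarithmic derivatives of the generators for `p = 5` -/
def coeffs_five : Fin 2 → Fin 3 → ℤ :=
  ![![1, 4, 1],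
    ![3, 1, 2]]

/-- the generators for `p = 5` -/
noncomputable def gens_five (K : Type) [Field K] [NumberField K] [IsCyclotomicExtension {5} ℚ K] :
    Fin 2 → (𝓞 K)ˣ :=
  ![zetaUnit 5 K, geomUnit 5 K 2]

theorem indep_five (K : Type) [Field K] [NumberField K] [IsCyclotomicExtension {5} ℚ K]
    (e : Fin 2 → ℤ)
    (h : ∃ n : ℤ, ((5 : ℕ) : 𝓞 K) ∣
      ((∏ i, (gens_five K i) ^ e i : (𝓞 K)ˣ) : 𝓞 K) - (n : 𝓞 K)) :
    ∀ i, ((5 : ℕ) : ℤ) ∣ e i := by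
  have ht : t 5 ^ 3 = 0 := t_pow 5
  have hp0 : (5 : B 5) = 0 := by exact_mod_cast p_eq_zero 5
  refine independent_of_cert 5 K _ coeffs_five ?_ ?_ e h
  · intro i
    fin_cases i
    · apply ell_eq_of_cert
      simp only [gens_five, Fin.zero_eta, Fin.mk_one, Fin.reduceFinMk, Matrix.cons_val_zero, Matrix.cons_val_one, Matrix.cons_val]
      rw [fst_Θ_zetaUnit, snd_Θ_zetaUnit]
      simp [Fin.sum_univ_succ, coeffs_five, Finset.sum_range_succ]
      linear_combination ((1)) * ht + ((1) * t 5 + (1) * t 5 ^ 2) * hp0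
    · apply ell_eq_of_cert
      simp only [gens_five, Fin.zero_eta, Fin.mk_one, Fin.reduceFinMk, Matrix.cons_val_zero, Matrix.cons_val_one, Matrix.cons_val]
      rw [fst_Θ_geomUnit 5 K 2 (by norm_num), snd_Θ_geomUnit 5 K 2 (by norm_num)]
      simp [Fin.sum_univ_succ, coeffs_five, Finset.sum_range_succ]
      linear_combination ((2)) * ht + ((1) + (1) * t 5 + (1) * t 5 ^ 2) * hp0
  · intro e h i
    obtain ⟨m0, hm0⟩ := h ⟨0, by norm_num⟩
    obtain ⟨m1, hm1⟩ := h ⟨1, by norm_num⟩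
    simp [Fin.sum_univ_succ, coeffs_five] at hm0 hm1
    fin_cases i
    · show (5 : ℤ) ∣ e 0
      exact ⟨(4) * m0 + (3) * m1 - ((3) * e 0 + (3) * e 1), by linear_combination (4) * hm0 + (3) * hm1⟩
    · show (5 : ℤ) ∣ e 1
      exact ⟨(4) * m0 + (4) * m1 - ((4) * e 0 + (3) * e 1), by linear_combination (4) * hm0 + (4) * hm1⟩

end five

section seven

local instance fact_seven : Fact (Nat.Prime 7) := ⟨by norm_num⟩

/-- coefficients of the logarithmic derivatives of the generators for `p = 7` -/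
def coeffs_seven : Fin 3 → Fin 5 → ℤ :=
  ![![1, 6, 1, 6, 1],
    ![4, 5, 1, 3, 2],
    ![1, 2, 0, 4, 3]]

/-- the generators for `p = 7` -/
noncomputable def gens_seven (K : Type) [Field K] [NumberField K] [IsCyclotomicExtension {7} ℚ K] :
    Fin 3 → (𝓞 K)ˣ :=
  ![zetaUnit 7 K, geomUnit 7 K 2, geomUnit 7 K 3]

theorem indep_seven (K : Type) [Field K] [NumberField K] [IsCyclotomicExtension {7} ℚ K]
    (e : Fin 3 → ℤ)
    (h : ∃ n : ℤ, ((7 : ℕ) : 𝓞 K) ∣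
      ((∏ i, (gens_seven K i) ^ e i : (𝓞 K)ˣ) : 𝓞 K) - (n : 𝓞 K)) :
    ∀ i, ((7 : ℕ) : ℤ) ∣ e i := by
  have ht : t 7 ^ 5 = 0 := t_pow 7
  have hp0 : (7 : B 7) = 0 := by exact_mod_cast p_eq_zero 7
  refine independent_of_cert 7 K _ coeffs_seven ?_ ?_ e h
  · intro i
    fin_cases i
    · apply ell_eq_of_cert
      simp only [gens_seven, Fin.zero_eta, Fin.mk_one, Fin.reduceFinMk, Matrix.cons_val_zero, Matrix.cons_val_one, Matrix.cons_val]
      rw [fst_Θ_zetaUnit, snd_Θ_zetaUnit]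
      simp [Fin.sum_univ_succ, coeffs_seven, Finset.sum_range_succ]
      linear_combination ((1)) * ht + ((1) * t 7 + (1) * t 7 ^ 2 + (1) * t 7 ^ 3 + (1) * t 7 ^ 4) * hp0
    · apply ell_eq_of_cert
      simp only [gens_seven, Fin.zero_eta, Fin.mk_one, Fin.reduceFinMk, Matrix.cons_val_zero, Matrix.cons_val_one, Matrix.cons_val]
      rw [fst_Θ_geomUnit 7 K 2 (by norm_num), snd_Θ_geomUnit 7 K 2 (by norm_num)]
      simp [Fin.sum_univ_succ, coeffs_seven, Finset.sum_range_succ]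
      linear_combination ((2)) * ht + ((1) + (2) * t 7 + (1) * t 7 ^ 2 + (1) * t 7 ^ 3 + (1) * t 7 ^ 4) * hp0
    · apply ell_eq_of_cert
      simp only [gens_seven, Fin.zero_eta, Fin.mk_one, Fin.reduceFinMk, Matrix.cons_val_zero, Matrix.cons_val_one, Matrix.cons_val]
      rw [fst_Θ_geomUnit 7 K 3 (by norm_num), snd_Θ_geomUnit 7 K 3 (by norm_num)]
      simp [Fin.sum_univ_succ, coeffs_seven, Finset.sum_range_succ]
      linear_combination ((13) + (3) * t 7) * ht + ((1) * t 7 + (1) * t 7 ^ 2 + (2) * t 7 ^ 3 + (3) * t 7 ^ 4) * hp0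
  · intro e h i
    obtain ⟨m0, hm0⟩ := h ⟨0, by norm_num⟩
    obtain ⟨m1, hm1⟩ := h ⟨1, by norm_num⟩
    obtain ⟨m3, hm3⟩ := h ⟨3, by norm_num⟩
    simp [Fin.sum_univ_succ, coeffs_seven] at hm0 hm1 hm3
    fin_cases i
    · show (7 : ℤ) ∣ e 0
      exact ⟨(0) * m0 + (5) * m1 + (1) * m3 - ((5) * e 0 + (4) * e 1 + (2) * e 2), by linear_combination (0) * hm0 + (5) * hm1 + (1) * hm3⟩
    · show (7 : ℤ) ∣ e 1
      exact ⟨(3) * m0 + (4) * m1 + (6) * m3 - ((9) * e 0 + (7) * e 1 + (5) * e 2), by linear_combination (3) * hm0 + (4) * hm1 + (6) * hm3⟩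
    · show (7 : ℤ) ∣ e 2
      exact ⟨(3) * m0 + (0) * m1 + (3) * m3 - ((3) * e 0 + (3) * e 1 + (2) * e 2), by linear_combination (3) * hm0 + (0) * hm1 + (3) * hm3⟩

end seven

section eleven

local instance fact_eleven : Fact (Nat.Prime 11) := ⟨by norm_num⟩

/-- coefficients of the logarithmic derivatives of the generators for `p = 11` -/
def coeffs_eleven : Fin 5 → Fin 9 → ℤ :=
  ![![1, 10, 1, 10, 1, 10, 1, 10, 1],
    ![6, 8, 7, 2, 10, 6, 8, 7, 2],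
    ![1, 7, 0, 5, 6, 7, 2, 3, 0],
    ![7, 8, 1, 8, 7, 6, 4, 0, 0],
    ![2, 0, 10, 3, 0, 6, 5, 6, 5]]

/-- the generators for `p = 11` -/
noncomputable def gens_eleven (K : Type) [Field K] [NumberField K] [IsCyclotomicExtension {11} ℚ K] :
    Fin 5 → (𝓞 K)ˣ :=
  ![zetaUnit 11 K, geomUnit 11 K 2, geomUnit 11 K 3, geomUnit 11 K 4, geomUnit 11 K 5]

theorem indep_eleven (K : Type) [Field K] [NumberField K] [IsCyclotomicExtension {11} ℚ K]
    (e : Fin 5 → ℤ)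
    (h : ∃ n : ℤ, ((11 : ℕ) : 𝓞 K) ∣
      ((∏ i, (gens_eleven K i) ^ e i : (𝓞 K)ˣ) : 𝓞 K) - (n : 𝓞 K)) :
    ∀ i, ((11 : ℕ) : ℤ) ∣ e i := by
  have ht : t 11 ^ 9 = 0 := t_pow 11
  have hp0 : (11 : B 11) = 0 := by exact_mod_cast p_eq_zero 11
  refine independent_of_cert 11 K _ coeffs_eleven ?_ ?_ e h
  · intro i
    fin_cases i
    · apply ell_eq_of_cert
      simp only [gens_eleven, Fin.zero_eta, Fin.mk_one, Fin.reduceFinMk, Matrix.cons_val_zero, Matrix.cons_val_one, Matrix.cons_val]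
      rw [fst_Θ_zetaUnit, snd_Θ_zetaUnit]
      simp [Fin.sum_univ_succ, coeffs_eleven, Finset.sum_range_succ]
      linear_combination ((1)) * ht + ((1) * t 11 + (1) * t 11 ^ 2 + (1) * t 11 ^ 3 + (1) * t 11 ^ 4 + (1) * t 11 ^ 5 + (1) * t 11 ^ 6 + (1) * t 11 ^ 7 + (1) * t 11 ^ 8) * hp0
    · apply ell_eq_of_cert
      simp only [gens_eleven, Fin.zero_eta, Fin.mk_one, Fin.reduceFinMk, Matrix.cons_val_zero, Matrix.cons_val_one, Matrix.cons_val]
      rw [fst_Θ_geomUnit 11 K 2 (by norm_num), snd_Θ_geomUnit 11 K 2 (by norm_num)]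
      simp [Fin.sum_univ_succ, coeffs_eleven, Finset.sum_range_succ]
      linear_combination ((2)) * ht + ((1) + (2) * t 11 + (2) * t 11 ^ 2 + (1) * t 11 ^ 3 + (2) * t 11 ^ 4 + (2) * t 11 ^ 5 + (2) * t 11 ^ 6 + (2) * t 11 ^ 7 + (1) * t 11 ^ 8) * hp0
    · apply ell_eq_of_cert
      simp only [gens_eleven, Fin.zero_eta, Fin.mk_one, Fin.reduceFinMk, Matrix.cons_val_zero, Matrix.cons_val_one, Matrix.cons_val]
      rw [fst_Θ_geomUnit 11 K 3 (by norm_num), snd_Θ_geomUnit 11 K 3 (by norm_num)]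
      simp [Fin.sum_univ_succ, coeffs_eleven, Finset.sum_range_succ]
      linear_combination ((3)) * ht + ((2) * t 11 + (2) * t 11 ^ 2 + (2) * t 11 ^ 3 + (3) * t 11 ^ 4 + (4) * t 11 ^ 5 + (3) * t 11 ^ 6 + (2) * t 11 ^ 7 + (1) * t 11 ^ 8) * hp0
    · apply ell_eq_of_cert
      simp only [gens_eleven, Fin.zero_eta, Fin.mk_one, Fin.reduceFinMk, Matrix.cons_val_zero, Matrix.cons_val_one, Matrix.cons_val]
      rw [fst_Θ_geomUnit 11 K 4 (by norm_num), snd_Θ_geomUnit 11 K 4 (by norm_num)]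
      simp [Fin.sum_univ_succ, coeffs_eleven, Finset.sum_range_succ]
      linear_combination ((4)) * ht + ((2) + (6) * t 11 + (7) * t 11 ^ 2 + (7) * t 11 ^ 3 + (8) * t 11 ^ 4 + (9) * t 11 ^ 5 + (8) * t 11 ^ 6 + (5) * t 11 ^ 7 + (2) * t 11 ^ 8) * hp0
    · apply ell_eq_of_cert
      simp only [gens_eleven, Fin.zero_eta, Fin.mk_one, Fin.reduceFinMk, Matrix.cons_val_zero, Matrix.cons_val_one, Matrix.cons_val]
      rw [fst_Θ_geomUnit 11 K 5 (by norm_num), snd_Θ_geomUnit 11 K 5 (by norm_num)]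
      simp [Fin.sum_univ_succ, coeffs_eleven, Finset.sum_range_succ]
      linear_combination ((141) + (85) * t 11 + (31) * t 11 ^ 2 + (5) * t 11 ^ 3) * ht + ((5) * t 11 ^ 2 + (11) * t 11 ^ 3 + (12) * t 11 ^ 4 + (10) * t 11 ^ 5 + (10) * t 11 ^ 6 + (13) * t 11 ^ 7 + (15) * t 11 ^ 8) * hp0
  · intro e h i
    obtain ⟨m0, hm0⟩ := h ⟨0, by norm_num⟩
    obtain ⟨m1, hm1⟩ := h ⟨1, by norm_num⟩
    obtain ⟨m3, hm3⟩ := h ⟨3, by norm_num⟩
    obtain ⟨m5, hm5⟩ := h ⟨5, by norm_num⟩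
    obtain ⟨m7, hm7⟩ := h ⟨7, by norm_num⟩
    simp [Fin.sum_univ_succ, coeffs_eleven] at hm0 hm1 hm3 hm5 hm7
    fin_cases i
    · show (11 : ℤ) ∣ e 0
      exact ⟨(9) * m0 + (1) * m1 + (9) * m3 + (0) * m5 + (9) * m7 - ((18) * e 0 + (13) * e 1 + (8) * e 2 + (13) * e 3 + (9) * e 4), by linear_combination (9) * hm0 + (1) * hm1 + (9) * hm3 + (0) * hm5 + (9) * hm7⟩
    · show (11 : ℤ) ∣ e 1
      exact ⟨(6) * m0 + (8) * m1 + (0) * m3 + (8) * m5 + (1) * m7 - ((16) * e 0 + (14) * e 1 + (11) * e 2 + (14) * e 3 + (6) * e 4), by linear_combination (6) * hm0 + (8) * hm1 + (0) * hm3 + (8) * hm5 + (1) * hm7⟩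
    · show (11 : ℤ) ∣ e 2
      exact ⟨(7) * m0 + (7) * m1 + (1) * m3 + (5) * m5 + (5) * m7 - ((17) * e 0 + (15) * e 1 + (10) * e 2 + (13) * e 3 + (7) * e 4), by linear_combination (7) * hm0 + (7) * hm1 + (1) * hm3 + (5) * hm5 + (5) * hm7⟩
    · show (11 : ℤ) ∣ e 3
      exact ⟨(0) * m0 + (4) * m1 + (3) * m3 + (0) * m5 + (4) * m7 - ((10) * e 0 + (6) * e 1 + (5) * e 2 + (5) * e 3 + (3) * e 4), by linear_combination (0) * hm0 + (4) * hm1 + (3) * hm3 + (0) * hm5 + (4) * hm7⟩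
    · show (11 : ℤ) ∣ e 4
      exact ⟨(2) * m0 + (2) * m1 + (1) * m3 + (1) * m5 + (9) * m7 - ((12) * e 0 + (9) * e 1 + (5) * e 2 + (4) * e 3 + (6) * e 4), by linear_combination (2) * hm0 + (2) * hm1 + (1) * hm3 + (1) * hm5 + (9) * hm7⟩

end eleven

section thirteen

local instance fact_thirteen : Fact (Nat.Prime 13) := ⟨by norm_num⟩

/-- coefficients of the logarithmic derivatives of the generators for `p = 13` -/
def coeffs_thirteen : Fin 6 → Fin 11 → ℤ :=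
  ![![1, 12, 1, 12, 1, 12, 1, 12, 1, 12, 1],
    ![7, 3, 5, 4, 11, 1, 6, 10, 8, 9, 2],
    ![1, 4, 0, 3, 10, 2, 12, 9, 0, 10, 3],
    ![8, 3, 11, 11, 1, 1, 11, 5, 4, 9, 4],
    ![2, 0, 12, 6, 0, 2, 11, 4, 7, 3, 5],
    ![9, 8, 3, 8, 9, 1, 6, 7, 6, 7, 6]]

/-- the generators for `p = 13` -/
noncomputable def gens_thirteen (K : Type) [Field K] [NumberField K] [IsCyclotomicExtension {13} ℚ K] :
    Fin 6 → (𝓞 K)ˣ :=
  ![zetaUnit 13 K, geomUnit 13 K 2, geomUnit 13 K 3, geomUnit 13 K 4, geomUnit 13 K 5, geomUnit 13 K 6]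

theorem indep_thirteen (K : Type) [Field K] [NumberField K] [IsCyclotomicExtension {13} ℚ K]
    (e : Fin 6 → ℤ)
    (h : ∃ n : ℤ, ((13 : ℕ) : 𝓞 K) ∣
      ((∏ i, (gens_thirteen K i) ^ e i : (𝓞 K)ˣ) : 𝓞 K) - (n : 𝓞 K)) :
    ∀ i, ((13 : ℕ) : ℤ) ∣ e i := by
  have ht : t 13 ^ 11 = 0 := t_pow 13
  have hp0 : (13 : B 13) = 0 := by exact_mod_cast p_eq_zero 13
  refine independent_of_cert 13 K _ coeffs_thirteen ?_ ?_ e h
  · intro i
    fin_cases i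
    · apply ell_eq_of_cert
      simp only [gens_thirteen, Fin.zero_eta, Fin.mk_one, Fin.reduceFinMk, Matrix.cons_val_zero, Matrix.cons_val_one, Matrix.cons_val]
      rw [fst_Θ_zetaUnit, snd_Θ_zetaUnit]
      simp [Fin.sum_univ_succ, coeffs_thirteen, Finset.sum_range_succ]
      linear_combination ((1)) * ht + ((1) * t 13 + (1) * t 13 ^ 2 + (1) * t 13 ^ 3 + (1) * t 13 ^ 4 + (1) * t 13 ^ 5 + (1) * t 13 ^ 6 + (1) * t 13 ^ 7 + (1) * t 13 ^ 8 + (1) * t 13 ^ 9 + (1) * t 13 ^ 10) * hp0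
    · apply ell_eq_of_cert
      simp only [gens_thirteen, Fin.zero_eta, Fin.mk_one, Fin.reduceFinMk, Matrix.cons_val_zero, Matrix.cons_val_one, Matrix.cons_val]
      rw [fst_Θ_geomUnit 13 K 2 (by norm_num), snd_Θ_geomUnit 13 K 2 (by norm_num)]
      simp [Fin.sum_univ_succ, coeffs_thirteen, Finset.sum_range_succ]
      linear_combination ((2)) * ht + ((1) + (1) * t 13 + (1) * t 13 ^ 2 + (1) * t 13 ^ 3 + (2) * t 13 ^ 4 + (1) * t 13 ^ 5 + (1) * t 13 ^ 6 + (2) * t 13 ^ 7 + (2) * t 13 ^ 8 + (2) * t 13 ^ 9 + (1) * t 13 ^ 10) * hp0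
    · apply ell_eq_of_cert
      simp only [gens_thirteen, Fin.zero_eta, Fin.mk_one, Fin.reduceFinMk, Matrix.cons_val_zero, Matrix.cons_val_one, Matrix.cons_val]
      rw [fst_Θ_geomUnit 13 K 3 (by norm_num), snd_Θ_geomUnit 13 K 3 (by norm_num)]
      simp [Fin.sum_univ_succ, coeffs_thirteen, Finset.sum_range_succ]
      linear_combination ((19) + (3) * t 13) * ht + ((1) * t 13 + (1) * t 13 ^ 2 + (1) * t 13 ^ 3 + (3) * t 13 ^ 4 + (3) * t 13 ^ 5 + (4) * t 13 ^ 6 + (5) * t 13 ^ 7 + (3) * t 13 ^ 8 + (3) * t 13 ^ 9 + (3) * t 13 ^ 10) * hp0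
    · apply ell_eq_of_cert
      simp only [gens_thirteen, Fin.zero_eta, Fin.mk_one, Fin.reduceFinMk, Matrix.cons_val_zero, Matrix.cons_val_one, Matrix.cons_val]
      rw [fst_Θ_geomUnit 13 K 4 (by norm_num), snd_Θ_geomUnit 13 K 4 (by norm_num)]
      simp [Fin.sum_univ_succ, coeffs_thirteen, Finset.sum_range_succ]
      linear_combination ((64) + (25) * t 13 + (4) * t 13 ^ 2) * ht + ((2) + (4) * t 13 + (7) * t 13 ^ 2 + (10) * t 13 ^ 3 + (9) * t 13 ^ 4 + (5) * t 13 ^ 5 + (5) * t 13 ^ 6 + (7) * t 13 ^ 7 + (7) * t 13 ^ 8 + (7) * t 13 ^ 9 + (7) * t 13 ^ 10) * hp0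
    · apply ell_eq_of_cert
      simp only [gens_thirteen, Fin.zero_eta, Fin.mk_one, Fin.reduceFinMk, Matrix.cons_val_zero, Matrix.cons_val_one, Matrix.cons_val]
      rw [fst_Θ_geomUnit 13 K 5 (by norm_num), snd_Θ_geomUnit 13 K 5 (by norm_num)]
      simp [Fin.sum_univ_succ, coeffs_thirteen, Finset.sum_range_succ]
      linear_combination ((119) + (72) * t 13 + (28) * t 13 ^ 2 + (5) * t 13 ^ 3) * ht + ((5) * t 13 ^ 2 + (12) * t 13 ^ 3 + (14) * t 13 ^ 4 + (10) * t 13 ^ 5 + (9) * t 13 ^ 6 + (12) * t 13 ^ 7 + (15) * t 13 ^ 8 + (14) * t 13 ^ 9 + (12) * t 13 ^ 10) * hp0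
    · apply ell_eq_of_cert
      simp only [gens_thirteen, Fin.zero_eta, Fin.mk_one, Fin.reduceFinMk, Matrix.cons_val_zero, Matrix.cons_val_one, Matrix.cons_val]
      rw [fst_Θ_geomUnit 13 K 6 (by norm_num), snd_Θ_geomUnit 13 K 6 (by norm_num)]
      simp [Fin.sum_univ_succ, coeffs_thirteen, Finset.sum_range_succ]
      linear_combination ((368) + (268) * t 13 + (138) * t 13 ^ 2 + (43) * t 13 ^ 3 + (6) * t 13 ^ 4) * ht + ((3) + (11) * t 13 + (21) * t 13 ^ 2 + (28) * t 13 ^ 3 + (31) * t 13 ^ 4 + (31) * t 13 ^ 5 + (29) * t 13 ^ 6 + (26) * t 13 ^ 7 + (26) * t 13 ^ 8 + (29) * t 13 ^ 9 + (31) * t 13 ^ 10) * hp0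
  · intro e h i
    obtain ⟨m0, hm0⟩ := h ⟨0, by norm_num⟩
    obtain ⟨m1, hm1⟩ := h ⟨1, by norm_num⟩
    obtain ⟨m3, hm3⟩ := h ⟨3, by norm_num⟩
    obtain ⟨m5, hm5⟩ := h ⟨5, by norm_num⟩
    obtain ⟨m7, hm7⟩ := h ⟨7, by norm_num⟩
    obtain ⟨m9, hm9⟩ := h ⟨9, by norm_num⟩
    simp [Fin.sum_univ_succ, coeffs_thirteen] at hm0 hm1 hm3 hm5 hm7 hm9
    fin_cases i
    · show (13 : ℤ) ∣ e 0
      exact ⟨(1) * m0 + (3) * m1 + (3) * m3 + (9) * m5 + (7) * m7 + (4) * m9 - ((24) * e 0 + (11) * e 1 + (11) * e 2 + (10) * e 3 + (6) * e 4 + (11) * e 5), by linear_combination (1) * hm0 + (3) * hm1 + (3) * hm3 + (9) * hm5 + (7) * hm7 + (4) * hm9⟩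
    · show (13 : ℤ) ∣ e 1
      exact ⟨(10) * m0 + (2) * m1 + (10) * m3 + (7) * m5 + (11) * m7 + (6) * m9 - ((34) * e 0 + (22) * e 1 + (17) * e 2 + (24) * e 3 + (12) * e 4 + (24) * e 5), by linear_combination (10) * hm0 + (2) * hm1 + (10) * hm3 + (7) * hm5 + (11) * hm7 + (6) * hm9⟩
    · show (13 : ℤ) ∣ e 2
      exact ⟨(12) * m0 + (12) * m1 + (2) * m3 + (4) * m5 + (0) * m7 + (7) * m9 - ((24) * e 0 + (15) * e 1 + (11) * e 2 + (17) * e 3 + (5) * e 4 + (21) * e 5), by linear_combination (12) * hm0 + (12) * hm1 + (2) * hm3 + (4) * hm5 + (0) * hm7 + (7) * hm9⟩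
    · show (13 : ℤ) ∣ e 3
      exact ⟨(7) * m0 + (11) * m1 + (9) * m3 + (9) * m5 + (6) * m7 + (11) * m9 - ((43) * e 0 + (22) * e 1 + (20) * e 2 + (25) * e 3 + (11) * e 4 + (27) * e 5), by linear_combination (7) * hm0 + (11) * hm1 + (9) * hm3 + (9) * hm5 + (6) * hm7 + (11) * hm9⟩
    · show (13 : ℤ) ∣ e 4
      exact ⟨(4) * m0 + (2) * m1 + (2) * m3 + (7) * m5 + (1) * m7 + (5) * m9 - ((16) * e 0 + (8) * e 1 + (7) * e 2 + (9) * e 3 + (4) * e 4 + (9) * e 5), by linear_combination (4) * hm0 + (2) * hm1 + (2) * hm3 + (7) * hm5 + (1) * hm7 + (5) * hm9⟩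
    · show (13 : ℤ) ∣ e 5
      exact ⟨(4) * m0 + (1) * m1 + (2) * m3 + (11) * m5 + (1) * m7 + (2) * m9 - ((16) * e 0 + (6) * e 1 + (5) * e 2 + (7) * e 3 + (4) * e 4 + (7) * e 5), by linear_combination (4) * hm0 + (1) * hm1 + (2) * hm3 + (11) * hm5 + (1) * hm7 + (2) * hm9⟩

end thirteen

end Fermat.Agent.FLTSmall.KummerCert
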