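import Fermat.Agent.FLTSmall_KummerIndep
import Fermat.Agent.FLTSmall_KummerInst

set_option autoImplicit false

open NumberField

namespace Fermat.Agent.FLTSmall

/-- Kummer's lemma for `p = 5`. -/
theorem kummerLemma_five (K : Type) [Field K] [NumberField K] [IsCyclotomicExtension {5} ℚ K] :
    KummerLemma 5 K :=
  kummerLemma_of_independent (by norm_num) (by norm_num) K (KummerCert.gens_five K)
    (fun e h => KummerCert.indep_five K e h)

/-- Kummer's lemma for `p = 7`. -/
theorem kummerLemma_seven (K : Type) [Field K] [NumberField K] [IsCyclotomicExtension {7} ℚ K] :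
    KummerLemma 7 K :=
  kummerLemma_of_independent (by norm_num) (by norm_num) K (KummerCert.gens_seven K)
    (fun e h => KummerCert.indep_seven K e h)

/-- Kummer's lemma for `p = 11`. -/
theorem kummerLemma_eleven (K : Type) [Field K] [NumberField K]
    [IsCyclotomicExtension {11} ℚ K] : KummerLemma 11 K :=
  kummerLemma_of_independent (by norm_num) (by norm_num) K (KummerCert.gens_eleven K)
    (fun e h => KummerCert.indep_eleven K e h)

/-- Kummer's lemma for `p = 13`. -/
theorem kummerLemma_thirteen (K : Type) [Field K] [NumberField K]
    [IsCyclotomicExtension {13} ℚ K] : KummerLemma 13 K :=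
  kummerLemma_of_independent (by norm_num) (by norm_num) K (KummerCert.gens_thirteen K)
    (fun e h => KummerCert.indep_thirteen K e h)

end Fermat.Agent.FLTSmall
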