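import Mathlib

set_option autoImplicit false

open NumberField Polynomial Ideal

namespace Fermat.Agent.FLTSmall.PIDLib

section Generic

variable {p : ℕ} [hp : Fact p.Prime] {K : Type} [Field K] [NumberField K]
  [IsCyclotomicExtension {p} ℚ K] {ζ : K} (hζ : IsPrimitiveRoot ζ p)

omit [NumberField K] [IsCyclotomicExtension {p} ℚ K] in
/-- `1 + ζ + ⋯ + ζ ^ (p - 1) = 0` in the ring of integers. -/
theorem sum_pow_toInteger : ∑ i ∈ Finset.range p, hζ.toInteger ^ i = 0 := by
  have h := hζ.toInteger_isPrimitiveRoot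
  have h1 : (∑ i ∈ Finset.range p, hζ.toInteger ^ i) * (hζ.toInteger - 1) = 0 := by
    rw [geom_sum_mul, h.pow_eq_one, sub_self]
  rcases mul_eq_zero.mp h1 with h2 | h2
  · exact h2
  · exact absurd (sub_eq_zero.mp h2) (h.ne_one hp.out.one_lt)

/-- A root `a` of the `p`-th cyclotomic polynomial in a commutative ring `F` gives a ring
homomorphism `𝓞 K → F` sending `ζ` to `a`. -/
theorem exists_ringHom {F : Type*} [CommRing F] (a : F)
    (ha : ∑ i ∈ Finset.range p, a ^ i = 0) :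
    ∃ ψ : 𝓞 K →+* F, ψ hζ.toInteger = a := by
  have hmin : minpoly ℤ hζ.integralPowerBasis.gen = cyclotomic p ℤ := by
    rw [hζ.integralPowerBasis_gen, ← RingOfIntegers.minpoly_coe,
      cyclotomic_eq_minpoly hζ hp.out.pos]
    rfl
  have hy : aeval a (minpoly ℤ hζ.integralPowerBasis.gen) = 0 := by
    rw [hmin, cyclotomic_prime, map_sum]
    simpa using ha
  refine ⟨(hζ.integralPowerBasis.lift a hy).toRingHom, ?_⟩
  have := hζ.integralPowerBasis.lift_gen a hy
  rwa [hζ.integralPowerBasis_gen] at this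

/-- Modulo an ideal containing `ζ - a` (`a` a rational integer), every algebraic integer of the
cyclotomic field is congruent to a rational integer. -/
theorem exists_int_sub_mem (I : Ideal (𝓞 K)) (a : ℤ) (ha : hζ.toInteger - (a : 𝓞 K) ∈ I)
    (x : 𝓞 K) : ∃ n : ℤ, x - (n : 𝓞 K) ∈ I := by
  have hx : x ∈ Algebra.adjoin ℤ {hζ.toInteger} := by
    rw [IsCyclotomicExtension.Rat.adjoin_singleton_eq_top hζ]
    trivial
  induction hx using Algebra.adjoin_induction with
  | mem y hy =>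
    rw [Set.mem_singleton_iff] at hy
    subst hy
    exact ⟨a, ha⟩
  | algebraMap r => exact ⟨r, by simp⟩
  | add y z _ _ hy hz =>
    obtain ⟨m, hm⟩ := hy
    obtain ⟨n, hn⟩ := hz
    refine ⟨m + n, ?_⟩
    have : y + z - ((m + n : ℤ) : 𝓞 K) = (y - m) + (z - n) := by push_cast; ring
    rw [this]
    exact I.add_mem hm hn
  | mul y z _ _ hy hz =>
    obtain ⟨m, hm⟩ := hy
    obtain ⟨n, hn⟩ := hz
    refine ⟨m * n, ?_⟩
    have : y * z - ((m * n : ℤ) : 𝓞 K) = (y - m) * z + m * (z - n) := by push_cast; ring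
    rw [this]
    exact I.add_mem (I.mul_mem_right _ hm) (I.mul_mem_left _ hn)

/-- Certificate for a principal prime of degree one: if `ψ : 𝓞 K → ZMod q` kills `π`, and
`q = π * π'`, `ζ - a = π * μ`, then `(π)` is a prime ideal lying over `q`. -/
theorem span_mem_primesOver {q : ℕ} [Fact q.Prime] (ψ : 𝓞 K →+* ZMod q) (a : ℤ)
    (π π' μ : 𝓞 K) (hψ : ψ π = 0) (h1 : (q : 𝓞 K) = π * π')
    (h2 : hζ.toInteger - (a : 𝓞 K) = π * μ) :
    span {π} ∈ primesOver (span {(q : ℤ)}) (𝓞 K) := by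
  have hle : span {π} ≤ RingHom.ker ψ := by
    rw [span_le, Set.singleton_subset_iff]
    exact hψ
  have hqmem : (q : 𝓞 K) ∈ span {π} := by
    rw [h1]
    exact Ideal.mul_mem_right _ _ (Ideal.subset_span rfl)
  have hζmem : hζ.toInteger - (a : 𝓞 K) ∈ span {π} := by
    rw [h2]
    exact Ideal.mul_mem_right _ _ (Ideal.subset_span rfl)
  have hker : RingHom.ker ψ = span {π} := by
    apply le_antisymm _ hle
    intro x hx
    obtain ⟨n, hn⟩ := exists_int_sub_mem hζ (span {π}) a hζmem x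
    have h3 : ψ (x - n) = 0 := hle hn
    rw [map_sub, RingHom.mem_ker.mp hx, zero_sub, neg_eq_zero, map_intCast,
      ZMod.intCast_zmod_eq_zero_iff_dvd] at h3
    obtain ⟨k, rfl⟩ := h3
    have : x = (x - (((q : ℤ) * k : ℤ) : 𝓞 K)) + (q : 𝓞 K) * k := by push_cast; ring
    rw [this]
    exact Ideal.add_mem _ hn (Ideal.mul_mem_right _ _ hqmem)
  rw [← hker]
  refine ⟨RingHom.ker_isPrime ψ, ?_⟩
  rw [liesOver_iff, Ideal.under_def, RingHom.comap_ker, ← ZMod.ker_intCastRingHom]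
  congr 1
  exact RingHom.ext_int _ _

/-- For a prime `q ≠ p` and a prime `P` of the `p`-th cyclotomic field over `q`, the norm
`q ^ f` of `P` is `≡ 1 mod p` (and `f > 0`). -/
theorem pow_inertiaDeg_mod {q : ℕ} [Fact q.Prime] (hqp : q ≠ p) (P : Ideal (𝓞 K))
    [P.IsPrime] [P.LiesOver (span {(q : ℤ)})] :
    0 < P.inertiaDeg ℤ ∧ q ^ P.inertiaDeg ℤ % p = 1 := by
  have hq : q.Prime := Fact.out
  have hdvd : ¬ q ∣ p := fun h => hqp ((Nat.prime_dvd_prime_iff_eq hq hp.out).mp h)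
  rw [IsCyclotomicExtension.Rat.inertiaDeg_eq_of_not_dvd q K P hdvd]
  have hne : (q : ZMod p) ≠ 0 := by
    rw [Ne, ZMod.natCast_eq_zero_iff]
    intro h
    exact hqp ((Nat.prime_dvd_prime_iff_eq hp.out hq).mp h).symm
  have h1 := ZMod.pow_card_sub_one_eq_one hne
  have hpos : 0 < orderOf (q : ZMod p) := by
    apply Nat.pos_of_ne_zero
    intro h0
    have h2 := orderOf_dvd_of_pow_eq_one h1
    rw [h0, zero_dvd_iff] at h2
    have := hp.out.two_le
    omega
  refine ⟨hpos, ?_⟩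
  have h2 : ((q ^ orderOf (q : ZMod p) : ℕ) : ZMod p) = ((1 : ℕ) : ZMod p) := by
    push_cast
    exact pow_orderOf_eq_one _
  rw [ZMod.natCast_eq_natCast_iff'] at h2
  rw [h2, Nat.mod_eq_of_lt hp.out.one_lt]

/-- The ramified prime `(ζ - 1)` is a (principal) prime ideal lying over `p`. -/
theorem span_zeta_sub_one_mem_primesOver :
    span {hζ.toInteger - 1} ∈ primesOver (span {(p : ℤ)}) (𝓞 K) := by
  refine ⟨IsCyclotomicExtension.Rat.isPrime_span_zeta_sub_one' p hζ, ?_⟩
  have hK' : IsCyclotomicExtension {p ^ (0 + 1)} ℚ K := by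
    rw [zero_add, pow_one]
    infer_instance
  have hζ' : IsPrimitiveRoot ζ (p ^ (0 + 1)) := by
    rw [zero_add, pow_one]
    exact hζ
  exact IsCyclotomicExtension.Rat.liesOver_span_zeta_sub_one p 0 hζ'

end Generic

end Fermat.Agent.FLTSmall.PIDLib
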