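import Mathlib
import Fermat.Agent.FLTSmall_PIDLib

set_option autoImplicit false

open NumberField Polynomial Ideal

namespace Fermat.Agent.FLTSmall

namespace PID11

/-- The Minkowski bound of `ℚ(ζ₁₁)` is `< 67` (it is `≈ 58.96`). -/
theorem minkowski_lt :
    (4 / Real.pi) ^ ((11 - 1) / 2) *
      (((11 - 1).factorial : ℝ) / ((11 - 1 : ℕ) : ℝ) ^ (11 - 1) *
        √|(((-1 : ℤ) ^ ((11 - 1) / 2) * ((11 : ℕ) : ℤ) ^ (11 - 2) : ℤ) : ℝ)|) <
      ((67 : ℕ) : ℝ) := by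
  have h1 : (4 / Real.pi) < 4 / 3.14 := by
    have := Real.pi_gt_d2
    gcongr
  have h0 : (0 : ℝ) < 4 / Real.pi := by positivity
  have h2 : √|(((-1 : ℤ) ^ ((11 - 1) / 2) * ((11 : ℕ) : ℤ) ^ (11 - 2) : ℤ) : ℝ)| < 48559 := by
    rw [Real.sqrt_lt' (by norm_num)]
    norm_num
  have h3 : (((11 - 1).factorial : ℝ) / ((11 - 1 : ℕ) : ℝ) ^ (11 - 1)) = 567 / 1562500 := by
    norm_num [Nat.factorial]
  rw [h3]
  have h4 : (4 / Real.pi) ^ ((11 - 1) / 2) < (4 / 3.14) ^ ((11 - 1) / 2) := by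
    gcongr
  calc (4 / Real.pi) ^ ((11 - 1) / 2) *
        (567 / 1562500 *
          √|(((-1 : ℤ) ^ ((11 - 1) / 2) * ((11 : ℕ) : ℤ) ^ (11 - 2) : ℤ) : ℝ)|)
      < (4 / 3.14) ^ ((11 - 1) / 2) * (567 / 1562500 * 48559) := by
        apply mul_lt_mul h4 _ (by positivity) (by positivity)
        gcongr
    _ < ((67 : ℕ) : ℝ) := by norm_num

/-- The only prime powers `≡ 1 mod 11` below `67` are powers of `23` (candidates listed). -/
theorem small_check : ∀ q ∈ Finset.range 67, ∀ f ∈ Finset.range 7,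
    (0 < f ∧ 2 ≤ q ∧ q ^ f < 67 ∧ q ^ f % 11 = 1) →
    (q = 12 ∨ q = 23 ∨ q = 34 ∨ q = 45 ∨ q = 56) := by
  decide

/-- `13` is a root of the `11`-th cyclotomic polynomial modulo `23`. -/
theorem cyc_root : ∑ i ∈ Finset.range 11, (13 : ZMod 23) ^ i = 0 := by decide

/-- `1 - X + X³` vanishes at `13` modulo `23`. -/
theorem pi_root : (1 - 13 + 13 ^ 3 : ZMod 23) = 0 := by decide

/-- A principal prime over `23` in `ℤ[ζ₁₁]`: `π = 1 - ζ + ζ³` has norm `23`. -/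
theorem exists_principal_prime_23 (K : Type) [Field K] [NumberField K]
    [IsCyclotomicExtension {11} ℚ K] {ζ : K} (hζ : IsPrimitiveRoot ζ 11) :
    ∃ π : 𝓞 K, span {π} ∈ primesOver (span {((23 : ℕ) : ℤ)}) (𝓞 K) := by
  have : Fact (Nat.Prime 11) := ⟨by norm_num⟩
  have : Fact (Nat.Prime 23) := ⟨by norm_num⟩
  obtain ⟨ψ, hψ⟩ := PIDLib.exists_ringHom hζ (13 : ZMod 23) cyc_root
  have hΦ := PIDLib.sum_pow_toInteger hζ
  simp only [Finset.sum_range_succ, Finset.range_zero, Finset.sum_empty, pow_zero, pow_one,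
    zero_add] at hΦ
  refine ⟨1 - hζ.toInteger + hζ.toInteger ^ 3,
    PIDLib.span_mem_primesOver hζ ψ 13 (1 - hζ.toInteger + hζ.toInteger ^ 3)
      (8 - 2 * hζ.toInteger - 1 * hζ.toInteger ^ 2 - 8 * hζ.toInteger ^ 3
        - 5 * hζ.toInteger ^ 4 - 3 * hζ.toInteger ^ 5 + 6 * hζ.toInteger ^ 6
        + 12 * hζ.toInteger ^ 7 + 16 * hζ.toInteger ^ 8 + 11 * hζ.toInteger ^ 9)
      (-5 + 1 * hζ.toInteger + 4 * hζ.toInteger ^ 3 + 2 * hζ.toInteger ^ 4
        + 1 * hζ.toInteger ^ 5 - 4 * hζ.toInteger ^ 6 - 7 * hζ.toInteger ^ 7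
        - 9 * hζ.toInteger ^ 8 - 6 * hζ.toInteger ^ 9) ?_ ?_ ?_⟩
  · simp only [map_sub, map_add, map_pow, map_one, hψ]
    exact pi_root
  · push_cast
    linear_combination (15 - 5 * hζ.toInteger - 11 * hζ.toInteger ^ 2) * hΦ
  · push_cast
    linear_combination (-8 + 3 * hζ.toInteger + 6 * hζ.toInteger ^ 2) * hΦ

end PID11

/-- The ring of integers of the `11`-th cyclotomic field is a principal ideal domain. -/
theorem pid_eleven (K : Type) [Field K] [NumberField K] [IsCyclotomicExtension {11} ℚ K] :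
    IsPrincipalIdealRing (𝓞 K) := by
  have : Fact (Nat.Prime 11) := ⟨by norm_num⟩
  have : IsGalois ℚ K := IsCyclotomicExtension.isGalois {11} ℚ K
  have hζ := IsCyclotomicExtension.zeta_spec 11 ℚ K
  apply RingOfIntegers.isPrincipalIdealRing_of_isPrincipal_of_lt_or_isPrincipal_of_mem_primesOver_of_mem_Icc
  intro q hq hqp
  rw [IsCyclotomicExtension.Rat.discr_prime 11 K, IsCyclotomicExtension.Rat.finrank 11 K,
    IsCyclotomicExtension.Rat.nrComplexPlaces_eq_totient_div_two 11,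
    Nat.totient_prime (by norm_num)] at hq ⊢
  have hM := (Nat.floor_lt (n := 67) (by positivity)).mpr PID11.minkowski_lt
  have hq67 : q < 67 := lt_of_le_of_lt (Finset.mem_Icc.mp hq).2 hM
  have : Fact q.Prime := ⟨hqp⟩
  by_cases h11 : q = 11
  · subst h11
    exact ⟨span {hζ.toInteger - 1}, PIDLib.span_zeta_sub_one_mem_primesOver hζ,
      Or.inr ⟨_, rfl⟩⟩
  by_cases h23 : q = 23
  · subst h23
    obtain ⟨π, hπ⟩ := PID11.exists_principal_prime_23 K hζ
    exact ⟨span {π}, hπ, Or.inr ⟨π, rfl⟩⟩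
  · obtain ⟨⟨P, hP1, hP2⟩⟩ := (span {(q : ℤ)}).nonempty_primesOver (S := 𝓞 K)
    refine ⟨P, ⟨hP1, hP2⟩, Or.inl ?_⟩
    obtain ⟨hf, hmod⟩ := PIDLib.pow_inertiaDeg_mod (p := 11) (K := K) (q := q) h11 P
    by_contra hlt
    have hlt' : q ^ P.inertiaDeg ℤ < 67 := by omega
    have hf7 : P.inertiaDeg ℤ < 7 := by
      by_contra h7
      have h8 : 2 ^ 7 ≤ q ^ P.inertiaDeg ℤ :=
        le_trans (Nat.pow_le_pow_right (by norm_num) (by omega))
          (Nat.pow_le_pow_left hqp.two_le _)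
      omega
    rcases PID11.small_check q (Finset.mem_range.mpr hq67) _ (Finset.mem_range.mpr hf7)
        ⟨hf, hqp.two_le, hlt', hmod⟩ with h | h | h | h | h
    · subst h; norm_num at hqp
    · exact h23 h
    · subst h; norm_num at hqp
    · subst h; norm_num at hqp
    · subst h; norm_num at hqp

end Fermat.Agent.FLTSmall
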