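import Fermat.Agent.FLTSmall_Main
import Fermat.Agent.FLTSmall_Kummer
import Fermat.Agent.FLTSmall_PID11

set_option autoImplicit false

open NumberField

namespace Fermat.Agent.FLTSmall

namespace Main

set_option maxRecDepth 100000 in
lemma pow11_mem : ∀ x : ZMod 23, x ^ 11 ∈ ({0, 1, 22} : Finset (ZMod 23)) := by decide

set_option maxRecDepth 100000 in
lemma sum11 : ∀ r1 ∈ ({0, 1, 22} : Finset (ZMod 23)), ∀ r2 ∈ ({0, 1, 22} : Finset (ZMod 23)),
    ∀ r3 ∈ ({0, 1, 22} : Finset (ZMod 23)), r1 + r2 + r3 = 0 → r1 = 0 ∨ r2 = 0 ∨ r3 = 0 := by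
  decide

end Main

open Main in
theorem fermat_eleven {a b c : ℤ} (ha : a ≠ 0) (hb : b ≠ 0) (hc : c ≠ 0) (hab : IsCoprime a b) :
    a ^ 11 + b ^ 11 ≠ c ^ 11 := by
  obtain ⟨h1, h2⟩ := sg_hyps (p := 11) (q := 23) (by norm_num) (by norm_num)
    ({0, 1, 22} : Finset (ZMod 23)) pow11_mem sum11 (by decide)
  exact fermat_of (p := 11) (q := 23) (by norm_num) (by norm_num) (by norm_num) h1 h2
    (fun K _ _ _ => pid_eleven K) (fun K _ _ _ => kummerLemma_eleven K) ha hb hc hab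

end Fermat.Agent.FLTSmall
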