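import Mathlib
import Fermat.Agent.FLTSmall_Basic

set_option autoImplicit false

open NumberField Polynomial Ideal RingOfIntegers

namespace Fermat.Agent.FLTSmall

namespace PID13

variable (K : Type) [Field K] [NumberField K] [IsCyclotomicExtension {13} ℚ K]

/-- the chosen primitive root as an algebraic integer -/
noncomputable abbrev θ : 𝓞 K := (IsCyclotomicExtension.zeta_spec 13 ℚ K).toInteger

lemma theta_sum : ∑ i ∈ Finset.range 13, (θ K) ^ i = 0 :=
  (IsCyclotomicExtension.zeta_spec 13 ℚ K).toInteger_isPrimitiveRoot.geom_sum_eq_zero (by norm_num)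

lemma theta_rel : 1 + θ K + θ K ^ 2 + θ K ^ 3 + θ K ^ 4 + θ K ^ 5 + θ K ^ 6 + θ K ^ 7 + θ K ^ 8
    + θ K ^ 9 + θ K ^ 10 + θ K ^ 11 + θ K ^ 12 = 0 := by
  have h := theta_sum K
  simp only [Finset.sum_range_succ, Finset.sum_range_zero, pow_zero, pow_one, zero_add] at h
  exact h

lemma minpoly_theta : minpoly ℤ (θ K) = cyclotomic 13 ℤ := by
  rw [← RingOfIntegers.minpoly_coe]
  exact (cyclotomic_eq_minpoly (IsCyclotomicExtension.zeta_spec 13 ℚ K) (by norm_num)).symm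

lemma not_dvd_exponent (q : ℕ) [Fact q.Prime] : ¬ q ∣ exponent (θ K) := by
  rw [exponent_eq_one_iff.mpr <|
    IsCyclotomicExtension.Rat.adjoin_singleton_eq_top (IsCyclotomicExtension.zeta_spec 13 ℚ K)]
  exact (Fact.out : q.Prime).not_dvd_one

/-- principal prime above `q` from a linear factor and certificates -/
lemma exists_principal_linear (q : ℕ) [Fact q.Prime] (a : ℤ)
    (ha : ∑ i ∈ Finset.range 13, (a : ZMod q) ^ i = 0)
    (π π' μ m g : 𝓞 K) (h1 : (q : 𝓞 K) = π * π') (h2 : θ K - (a : 𝓞 K) = π * μ)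
    (h3 : π = (q : 𝓞 K) * m + (θ K - (a : 𝓞 K)) * g) :
    ∃ P ∈ primesOver (span {(q : ℤ)}) (𝓞 K), Submodule.IsPrincipal P := by
  have h₁ := not_dvd_exponent K q
  have h13 : Fact (Nat.Prime 13) := ⟨by norm_num⟩
  have hQ : (X - C a : ℤ[X]).map (Int.castRingHom (ZMod q)) ∈ monicFactorsMod (θ K) q := by
    rw [Multiset.mem_toFinset, Polynomial.mem_normalizedFactors_iff
      (map_monic_ne_zero (minpoly.monic (θ K).isIntegral))]
    have hmap : (X - C a : ℤ[X]).map (Int.castRingHom (ZMod q)) = X - C (a : ZMod q) := by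
      simp
    rw [hmap]
    refine ⟨irreducible_X_sub_C _, monic_X_sub_C _, ?_⟩
    rw [dvd_iff_isRoot, minpoly_theta, map_cyclotomic_int, cyclotomic_prime, IsRoot.def,
      eval_finsetSum]
    simpa using ha
  refine ⟨((NumberField.Ideal.primesOverSpanEquivMonicFactorsMod h₁).symm ⟨_, hQ⟩ : Ideal (𝓞 K)),
    ((NumberField.Ideal.primesOverSpanEquivMonicFactorsMod h₁).symm ⟨_, hQ⟩).2, ?_⟩
  rw [NumberField.Ideal.primesOverSpanEquivMonicFactorsMod_symm_apply_eq_span h₁ hQ]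
  have hae : aeval (θ K) (X - C a : ℤ[X]) = θ K - (a : 𝓞 K) := by simp
  rw [hae]
  have hspan : span {(q : 𝓞 K), θ K - (a : 𝓞 K)} = span {π} := by
    apply le_antisymm
    · rw [span_le]
      intro x hx
      rcases hx with rfl | hx
      · exact mem_span_singleton.mpr ⟨π', h1⟩
      · rw [Set.mem_singleton_iff] at hx
        rw [hx]
        exact mem_span_singleton.mpr ⟨μ, h2⟩
    · rw [span_le]
      intro x hx
      rw [Set.mem_singleton_iff] at hx
      rw [hx, SetLike.mem_coe, mem_span_pair]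
      exact ⟨m, g, by rw [h3]; ring⟩
  rw [hspan]
  exact ⟨π, rfl⟩

lemma exists_principal_53 : ∃ P ∈ primesOver (span {((53 : ℕ) : ℤ)}) (𝓞 K),
    Submodule.IsPrincipal P := by
  have ha : ∑ i ∈ Finset.range 13, (((16) : ℤ) : ZMod 53) ^ i = 0 := by decide
  have : Fact (Nat.Prime 53) := ⟨by norm_num⟩
  have hΦ := theta_rel K
  set t := θ K with ht
  refine exists_principal_linear K 53 (16) ha
    (1 - t + t ^ 3)
    (25 + 10 * t + 19 * t ^ 2 + 3 * t ^ 3 + 2 * t ^ 4 - 8 * t ^ 5 - 2 * t ^ 6 + 5 * t ^ 7 + 22 * t ^ 8 + 33 * t ^ 9 + 37 * t ^ 10 + 24 * t ^ 11)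
    (-8 - 3 * t - 6 * t ^ 2 - t ^ 3 - t ^ 4 + 2 * t ^ 5 - 2 * t ^ 7 - 7 * t ^ 8 - 10 * t ^ 9 - 11 * t ^ 10 - 7 * t ^ 11)
    (77) (255 + 16 * t + t ^ 2) ?_ ?_ ?_
  · push_cast
    linear_combination (-(-28 + 13 * t + 24 * t ^ 2)) * hΦ
  · push_cast
    linear_combination (-(8 - 4 * t - 7 * t ^ 2)) * hΦ
  · push_cast
    ring

lemma exists_principal_79 : ∃ P ∈ primesOver (span {((79 : ℕ) : ℤ)}) (𝓞 K),
    Submodule.IsPrincipal P := by
  have ha : ∑ i ∈ Finset.range 13, (((-17) : ℤ) : ZMod 79) ^ i = 0 := by decide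
  have : Fact (Nat.Prime 79) := ⟨by norm_num⟩
  have hΦ := theta_rel K
  set t := θ K with ht
  refine exists_principal_linear K 79 (-17) ha
    (1 - t - t ^ 4)
    (62 + 63 * t + 49 * t ^ 2 + 8 * t ^ 3 + 29 * t ^ 4 + 51 * t ^ 5 + 59 * t ^ 6 + 26 * t ^ 7 + 14 * t ^ 8 + 24 * t ^ 9 + 42 * t ^ 10 + 27 * t ^ 11)
    (13 + 14 * t + 11 * t ^ 2 + 2 * t ^ 3 + 6 * t ^ 4 + 11 * t ^ 5 + 13 * t ^ 6 + 6 * t ^ 7 + 3 * t ^ 8 + 5 * t ^ 9 + 9 * t ^ 10 + 6 * t ^ 11)
    (-1057) (4912 - 289 * t + 17 * t ^ 2 - t ^ 3) ?_ ?_ ?_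
  · push_cast
    linear_combination (-(-17 + 18 * t - 15 * t ^ 2 - 27 * t ^ 3)) * hΦ
  · push_cast
    linear_combination (-(-4 + 4 * t - 3 * t ^ 2 - 6 * t ^ 3)) * hΦ
  · push_cast
    ring

lemma exists_principal_131 : ∃ P ∈ primesOver (span {((131 : ℕ) : ℤ)}) (𝓞 K),
    Submodule.IsPrincipal P := by
  have ha : ∑ i ∈ Finset.range 13, (((-51) : ℤ) : ZMod 131) ^ i = 0 := by decide
  have : Fact (Nat.Prime 131) := ⟨by norm_num⟩
  have hΦ := theta_rel K
  set t := θ K with ht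
  refine exists_principal_linear K 131 (-51) ha
    (1 - t - t ^ 3)
    (111 + 78 * t + 17 * t ^ 2 + 67 * t ^ 3 + 84 * t ^ 4 + 40 * t ^ 5 + 46 * t ^ 6 + 69 * t ^ 7 + 48 * t ^ 8 + 33 * t ^ 9 + 41 * t ^ 10 + 28 * t ^ 11)
    (43 + 31 * t + 7 * t ^ 2 + 26 * t ^ 3 + 33 * t ^ 4 + 16 * t ^ 5 + 18 * t ^ 6 + 27 * t ^ 7 + 19 * t ^ 8 + 13 * t ^ 9 + 16 * t ^ 10 + 11 * t ^ 11)
    (1013) (-2602 + 51 * t - t ^ 2) ?_ ?_ ?_
  · push_cast
    linear_combination (-(-20 - 13 * t - 28 * t ^ 2)) * hΦ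
  · push_cast
    linear_combination (-(-8 - 5 * t - 11 * t ^ 2)) * hΦ
  · push_cast
    ring

lemma exists_principal_157 : ∃ P ∈ primesOver (span {((157 : ℕ) : ℤ)}) (𝓞 K),
    Submodule.IsPrincipal P := by
  have ha : ∑ i ∈ Finset.range 13, (((75) : ℤ) : ZMod 157) ^ i = 0 := by decide
  have : Fact (Nat.Prime 157) := ⟨by norm_num⟩
  have hΦ := theta_rel K
  set t := θ K with ht
  refine exists_principal_linear K 157 (75) ha
    (1 - t + t ^ 2 + t ^ 4)
    (89 + 86 * t + 42 * t ^ 2 + 77 * t ^ 3 + 67 * t ^ 4 + 25 * t ^ 5 + 37 * t ^ 6 + 56 * t ^ 7 + 73 * t ^ 8 + 113 * t ^ 9 + 124 * t ^ 10 + 76 * t ^ 11)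
    (-43 - 41 * t - 20 * t ^ 2 - 37 * t ^ 3 - 32 * t ^ 4 - 12 * t ^ 5 - 18 * t ^ 6 - 27 * t ^ 7 - 35 * t ^ 8 - 54 * t ^ 9 - 59 * t ^ 10 - 36 * t ^ 11)
    (201568) (421949 + 5626 * t + 75 * t ^ 2 + t ^ 3) ?_ ?_ ?_
  · push_cast
    linear_combination (-(-68 + 65 * t + 48 * t ^ 2 + 76 * t ^ 3)) * hΦ
  · push_cast
    linear_combination (-(32 - 31 * t - 23 * t ^ 2 - 36 * t ^ 3)) * hΦ
  · push_cast
    ring

lemma exists_principal_3 : ∃ P ∈ primesOver (span {((3 : ℕ) : ℤ)}) (𝓞 K),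
    Submodule.IsPrincipal P := by
  have hroot : ∀ x : ZMod 3, x ^ 3 - x - 1 ≠ 0 := by decide
  have h3 : Fact (Nat.Prime 3) := ⟨by norm_num⟩
  have h13 : Fact (Nat.Prime 13) := ⟨by norm_num⟩
  have h₁ := not_dvd_exponent K 3
  have hΦ := theta_rel K
  have hQ : (X ^ 3 - X - 1 : ℤ[X]).map (Int.castRingHom (ZMod 3)) ∈ monicFactorsMod (θ K) 3 := by
    rw [Multiset.mem_toFinset, Polynomial.mem_normalizedFactors_iff
      (map_monic_ne_zero (minpoly.monic (θ K).isIntegral))]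
    have hmap : (X ^ 3 - X - 1 : ℤ[X]).map (Int.castRingHom (ZMod 3)) = X ^ 3 - X - 1 := by
      simp
    rw [hmap]
    have hdeg : (X ^ 3 - X - 1 : (ZMod 3)[X]).natDegree = 3 := by compute_degree!
    refine ⟨?_, ?_, ?_⟩
    · apply irreducible_of_degree_le_three_of_not_isRoot
      · rw [hdeg]; decide
      · intro x hx
        exact hroot x (by simp [IsRoot] at hx)
    · monicity!
    · rw [minpoly_theta, map_cyclotomic_int]
      have hdiv : (cyclotomic 13 ℤ) = (X ^ 3 - X - 1) *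
          (20 + 15 * X + 11 * X ^ 2 + 8 * X ^ 3 + 6 * X ^ 4 + 4 * X ^ 5 + 3 * X ^ 6 + 2 * X ^ 7
            + X ^ 8 + X ^ 9) + 3 * (7 + 12 * X + 9 * X ^ 2) := by
        rw [cyclotomic_prime]
        simp only [Finset.sum_range_succ, Finset.sum_range_zero, pow_zero, pow_one, zero_add]
        ring
      have h3z : (3 : (ZMod 3)[X]) = 0 := by
        rw [← Nat.cast_ofNat (R := (ZMod 3)[X]), ← C_eq_natCast, ZMod.natCast_self, C_0]
      have hmap2 := congrArg (Polynomial.map (Int.castRingHom (ZMod 3))) hdiv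
      rw [map_cyclotomic_int] at hmap2
      rw [hmap2]
      simp only [Polynomial.map_add, Polynomial.map_mul, Polynomial.map_sub, Polynomial.map_pow,
        Polynomial.map_X, Polynomial.map_one, Polynomial.map_ofNat, h3z, zero_mul, add_zero]
      exact Dvd.intro _ rfl
  refine ⟨((NumberField.Ideal.primesOverSpanEquivMonicFactorsMod h₁).symm ⟨_, hQ⟩ : Ideal (𝓞 K)),
    ((NumberField.Ideal.primesOverSpanEquivMonicFactorsMod h₁).symm ⟨_, hQ⟩).2, ?_⟩
  rw [NumberField.Ideal.primesOverSpanEquivMonicFactorsMod_symm_apply_eq_span h₁ hQ]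
  have hae : aeval (θ K) (X ^ 3 - X - 1 : ℤ[X]) = θ K ^ 3 - θ K - 1 := by simp
  rw [hae]
  set t := θ K with ht
  have hspan : span {((3 : ℕ) : 𝓞 K), t ^ 3 - t - 1} = span {1 + t - t ^ 3} := by
    apply le_antisymm
    · rw [span_le]
      intro x hx
      rcases hx with rfl | hx
      · refine mem_span_singleton.mpr ⟨-1 - t ^ 2 - t ^ 3 - 2 * t ^ 5 - t ^ 7 - 2 * t ^ 8 + t ^ 9
          - 3 * t ^ 10, ?_⟩
        push_cast
        linear_combination (-(-4 + 3 * t)) * hΦ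
      · rw [Set.mem_singleton_iff] at hx
        rw [hx]
        exact mem_span_singleton.mpr ⟨-1, by ring⟩
    · rw [span_le]
      intro x hx
      rw [Set.mem_singleton_iff] at hx
      rw [hx, SetLike.mem_coe, mem_span_pair]
      exact ⟨0, -1, by ring⟩
  rw [hspan]
  exact ⟨_, rfl⟩

lemma exists_principal_13 : ∃ P ∈ primesOver (span {((13 : ℕ) : ℤ)}) (𝓞 K),
    Submodule.IsPrincipal P := by
  have h13 : Fact (Nat.Prime 13) := ⟨by norm_num⟩
  have hK : IsCyclotomicExtension {13 ^ (0 + 1)} ℚ K := by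
    rw [zero_add, pow_one]; infer_instance
  have hζ : IsPrimitiveRoot (IsCyclotomicExtension.zeta 13 ℚ K) (13 ^ (0 + 1)) := by
    rw [zero_add, pow_one]; exact IsCyclotomicExtension.zeta_spec 13 ℚ K
  exact ⟨span {hζ.toInteger - 1},
    ⟨IsCyclotomicExtension.Rat.isPrime_span_zeta_sub_one 13 0 hζ,
      IsCyclotomicExtension.Rat.liesOver_span_zeta_sub_one 13 0 hζ⟩, ⟨_, rfl⟩⟩

lemma order_bound (q : ℕ) (hq : q.Prime) (hq13 : q ≠ 13)
    (hne : q ≠ 3 ∧ q ≠ 53 ∧ q ≠ 79 ∧ q ≠ 131 ∧ q ≠ 157) :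
    306 < q ^ orderOf (q : ZMod 13) := by
  have h13 : Fact (Nat.Prime 13) := ⟨by norm_num⟩
  have hq0 : (q : ZMod 13) ≠ 0 := by
    intro h
    rw [ZMod.natCast_eq_zero_iff] at h
    exact hq13 ((Nat.prime_dvd_prime_iff_eq (by norm_num) hq).mp h).symm
  have h12 : (q : ZMod 13) ^ 12 = 1 := ZMod.pow_card_sub_one_eq_one hq0
  have hdvd : orderOf (q : ZMod 13) ∣ 12 := orderOf_dvd_of_pow_eq_one h12
  have hpow : (q : ZMod 13) ^ orderOf (q : ZMod 13) = 1 := pow_orderOf_eq_one _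
  have hmod : q ^ orderOf (q : ZMod 13) % 13 = 1 := by
    have h1 : ((q ^ orderOf (q : ZMod 13) : ℕ) : ZMod 13) = ((1 : ℕ) : ZMod 13) := by
      push_cast; exact hpow
    have h2 := (ZMod.natCast_eq_natCast_iff' _ _ _).mp h1
    simpa using h2
  generalize orderOf (q : ZMod 13) = f at hdvd hmod ⊢
  have hf : f ∈ Nat.divisors 12 := Nat.mem_divisors.mpr ⟨hdvd, by norm_num⟩
  have hdiv12 : Nat.divisors 12 = {1, 2, 3, 4, 6, 12} := by decide
  rw [hdiv12] at hf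
  simp only [Finset.mem_insert, Finset.mem_singleton] at hf
  by_contra hcon
  push Not at hcon
  have hq2 := hq.two_le
  rcases hf with rfl | rfl | rfl | rfl | rfl | rfl
  · rw [pow_one] at hmod hcon
    obtain ⟨k, rfl⟩ : ∃ k, q = 13 * k + 1 := ⟨q / 13, by omega⟩
    have hk : k ≤ 23 := by omega
    interval_cases k <;> first | omega | (norm_num at hq)
  · have hq17 : q ≤ 17 := by nlinarith
    interval_cases q <;> first | omega | (norm_num at hq)
  · have hq6 : q ≤ 6 := by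
      by_contra h
      push Not at h
      have : 7 ^ 3 ≤ q ^ 3 := Nat.pow_le_pow_left h 3
      omega
    interval_cases q <;> first | omega | (norm_num at hq)
  · have hq4 : q ≤ 4 := by
      by_contra h
      push Not at h
      have : 5 ^ 4 ≤ q ^ 4 := Nat.pow_le_pow_left h 4
      omega
    interval_cases q <;> first | omega | (norm_num at hq)
  · have hq2' : q ≤ 2 := by
      by_contra h
      push Not at h
      have : 3 ^ 6 ≤ q ^ 6 := Nat.pow_le_pow_left h 6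
      omega
    interval_cases q <;> first | omega | (norm_num at hq)
  · have : 2 ^ 12 ≤ q ^ 12 := Nat.pow_le_pow_left hq2 12
    omega

open Real in
lemma minkowski_bound : ⌊(4 / π) ^ InfinitePlace.nrComplexPlaces K *
    ((Module.finrank ℚ K).factorial / (Module.finrank ℚ K) ^ (Module.finrank ℚ K) *
      √|discr K|)⌋₊ ≤ 306 := by
  have h13 : Fact (Nat.Prime 13) := ⟨by norm_num⟩
  rw [IsCyclotomicExtension.Rat.discr_prime 13 K, IsCyclotomicExtension.finrank (n := 13) K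
    (cyclotomic.irreducible_rat (by norm_num)),
    IsCyclotomicExtension.Rat.nrComplexPlaces_eq_totient_div_two 13,
    Nat.totient_prime (by norm_num : Nat.Prime 13)]
  have e1 : |(((-1 : ℤ) ^ ((13 - 1) / 2) * ((13 : ℕ) : ℤ) ^ (13 - 2) : ℤ) : ℝ)| = 13 ^ 11 := by
    norm_num
  rw [e1]
  have hπ : (3.1415 : ℝ) < π := Real.pi_gt_d4
  have h1 : (4 / π) ^ 6 < (4 / 3.1415 : ℝ) ^ 6 := by
    gcongr
  have h2 : √(13 ^ 11 : ℝ) < 1338717 := by
    rw [Real.sqrt_lt' (by norm_num)]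
    norm_num
  have hlt : (4 / π) ^ ((13 - 1) / 2) * (((13 - 1 : ℕ).factorial : ℝ) /
      ((13 - 1 : ℕ) : ℝ) ^ (13 - 1) * √(13 ^ 11 : ℝ)) < 307 := by
    have e2 : (13 - 1) / 2 = 6 := by norm_num
    have e3 : (((13 - 1 : ℕ).factorial : ℝ) / ((13 - 1 : ℕ) : ℝ) ^ (13 - 1)) =
        479001600 / 8916100448256 := by
      norm_num [Nat.factorial]
    rw [e2, e3]
    calc (4 / π) ^ 6 * (479001600 / 8916100448256 * √(13 ^ 11 : ℝ))
        < (4 / 3.1415 : ℝ) ^ 6 * (479001600 / 8916100448256 * 1338717) := by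
          gcongr
      _ < 307 := by norm_num
  have hfl := (Nat.floor_lt' (by norm_num : (307 : ℕ) ≠ 0)).mpr
    (show _ < ((307 : ℕ) : ℝ) from by rw [Nat.cast_ofNat]; exact hlt)
  exact Nat.lt_succ_iff.mp hfl

end PID13

open PID13 in
theorem pid_thirteen (K : Type) [Field K] [NumberField K] [IsCyclotomicExtension {13} ℚ K] :
    IsPrincipalIdealRing (𝓞 K) := by
  have hgal : IsGalois ℚ K := IsCyclotomicExtension.isGalois {13} ℚ K
  apply RingOfIntegers.isPrincipalIdealRing_of_isPrincipal_of_lt_or_isPrincipal_of_mem_primesOver_of_mem_Icc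
  intro q hq hqp
  have hM := minkowski_bound K
  have hq306 : q ≤ 306 := le_trans (Finset.mem_Icc.mp hq).2 hM
  by_cases h13 : q = 13
  · subst h13
    obtain ⟨P, hP, hpr⟩ := exists_principal_13 K
    exact ⟨P, hP, Or.inr hpr⟩
  by_cases h3 : q = 3
  · subst h3
    obtain ⟨P, hP, hpr⟩ := exists_principal_3 K
    exact ⟨P, hP, Or.inr hpr⟩
  by_cases h53 : q = 53
  · subst h53
    obtain ⟨P, hP, hpr⟩ := exists_principal_53 K
    exact ⟨P, hP, Or.inr hpr⟩
  by_cases h79 : q = 79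
  · subst h79
    obtain ⟨P, hP, hpr⟩ := exists_principal_79 K
    exact ⟨P, hP, Or.inr hpr⟩
  by_cases h131 : q = 131
  · subst h131
    obtain ⟨P, hP, hpr⟩ := exists_principal_131 K
    exact ⟨P, hP, Or.inr hpr⟩
  by_cases h157 : q = 157
  · subst h157
    obtain ⟨P, hP, hpr⟩ := exists_principal_157 K
    exact ⟨P, hP, Or.inr hpr⟩
  have hqF : Fact q.Prime := ⟨hqp⟩
  have hmax : (span {(q : ℤ)}).IsMaximal := Int.ideal_span_isMaximal_of_prime q
  obtain ⟨⟨P, hP1, hP2⟩⟩ := (span {(q : ℤ)}).nonempty_primesOver (S := 𝓞 K)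
  refine ⟨P, ⟨hP1, hP2⟩, Or.inl ?_⟩
  have hdvd : ¬ q ∣ 13 := by
    intro h
    exact h13 ((Nat.prime_dvd_prime_iff_eq hqp (by norm_num)).mp h)
  rw [IsCyclotomicExtension.Rat.inertiaDeg_eq_of_not_dvd q K P hdvd]
  exact lt_of_le_of_lt hM (order_bound q hqp h13 ⟨h3, h53, h79, h131, h157⟩)

end Fermat.Agent.FLTSmall
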