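import Mathlib
import Fermat.Agent.FLTSmall_PIDLib

set_option autoImplicit false

open NumberField Polynomial Ideal

namespace Fermat.Agent.FLTSmall

namespace PID7

/-- The Minkowski bound of `ℚ(ζ₇)` is `< 7` (it is `≈ 4.13`). -/
theorem minkowski_lt :
    (4 / Real.pi) ^ ((7 - 1) / 2) *
      (((7 - 1).factorial : ℝ) / ((7 - 1 : ℕ) : ℝ) ^ (7 - 1) *
        √|(((-1 : ℤ) ^ ((7 - 1) / 2) * ((7 : ℕ) : ℤ) ^ (7 - 2) : ℤ) : ℝ)|) < ((7 : ℕ) : ℝ) := by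
  have h1 : (4 / Real.pi) < 4 / 3 := by
    have := Real.pi_gt_three
    gcongr
  have h0 : (0 : ℝ) < 4 / Real.pi := by positivity
  have h2 : √|(((-1 : ℤ) ^ ((7 - 1) / 2) * ((7 : ℕ) : ℤ) ^ (7 - 2) : ℤ) : ℝ)| < 130 := by
    rw [Real.sqrt_lt' (by norm_num)]
    norm_num
  have h3 : (((7 - 1).factorial : ℝ) / ((7 - 1 : ℕ) : ℝ) ^ (7 - 1)) = 5 / 324 := by
    norm_num [Nat.factorial]
  rw [h3]
  have h4 : (4 / Real.pi) ^ ((7 - 1) / 2) < (4 / 3) ^ ((7 - 1) / 2) := by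
    gcongr
  calc (4 / Real.pi) ^ ((7 - 1) / 2) *
        (5 / 324 * √|(((-1 : ℤ) ^ ((7 - 1) / 2) * ((7 : ℕ) : ℤ) ^ (7 - 2) : ℤ) : ℝ)|)
      < (4 / 3) ^ ((7 - 1) / 2) * (5 / 324 * 130) := by
        apply mul_lt_mul h4 _ (by positivity) (by positivity)
        gcongr
    _ < ((7 : ℕ) : ℝ) := by norm_num

end PID7

/-- The ring of integers of the `7`-th cyclotomic field is a principal ideal domain. -/
theorem pid_seven (K : Type) [Field K] [NumberField K] [IsCyclotomicExtension {7} ℚ K] :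
    IsPrincipalIdealRing (𝓞 K) := by
  have : Fact (Nat.Prime 7) := ⟨by norm_num⟩
  have : IsGalois ℚ K := IsCyclotomicExtension.isGalois {7} ℚ K
  apply RingOfIntegers.isPrincipalIdealRing_of_isPrincipal_of_lt_or_isPrincipal_of_mem_primesOver_of_mem_Icc
  intro q hq hqp
  rw [IsCyclotomicExtension.Rat.discr_prime 7 K, IsCyclotomicExtension.Rat.finrank 7 K,
    IsCyclotomicExtension.Rat.nrComplexPlaces_eq_totient_div_two 7,
    Nat.totient_prime (by norm_num)] at hq ⊢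
  have hM := (Nat.floor_lt (n := 7) (by positivity)).mpr PID7.minkowski_lt
  have hq7 : q < 7 := lt_of_le_of_lt (Finset.mem_Icc.mp hq).2 hM
  have : Fact q.Prime := ⟨hqp⟩
  obtain ⟨⟨P, hP1, hP2⟩⟩ := (span {(q : ℤ)}).nonempty_primesOver (S := 𝓞 K)
  refine ⟨P, ⟨hP1, hP2⟩, Or.inl ?_⟩
  obtain ⟨hf, hmod⟩ := PIDLib.pow_inertiaDeg_mod (p := 7) (K := K) (q := q) (by omega) P
  have h2 : 2 ≤ q ^ P.inertiaDeg ℤ :=
    le_trans hqp.two_le (Nat.le_self_pow (by omega) q)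
  omega

end Fermat.Agent.FLTSmall
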