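import Fermat.Agent.FLTSmall_Main
import Fermat.Agent.FLTSmall_Kummer
import Fermat.Agent.FLTSmall_PID7
import Fermat.Agent.FLTSmall_PID13

set_option autoImplicit false

open NumberField

namespace Fermat.Agent.FLTSmall

namespace Main

set_option maxRecDepth 100000 in
lemma pow5_mem : ∀ x : ZMod 11, x ^ 5 ∈ ({0, 1, 10} : Finset (ZMod 11)) := by decide

set_option maxRecDepth 100000 in
lemma sum5 : ∀ r1 ∈ ({0, 1, 10} : Finset (ZMod 11)), ∀ r2 ∈ ({0, 1, 10} : Finset (ZMod 11)),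
    ∀ r3 ∈ ({0, 1, 10} : Finset (ZMod 11)), r1 + r2 + r3 = 0 → r1 = 0 ∨ r2 = 0 ∨ r3 = 0 := by
  decide

set_option maxRecDepth 100000 in
lemma pow7_mem : ∀ x : ZMod 29, x ^ 7 ∈ ({0, 1, 12, 17, 28} : Finset (ZMod 29)) := by decide

set_option maxRecDepth 100000 in
lemma sum7 : ∀ r1 ∈ ({0, 1, 12, 17, 28} : Finset (ZMod 29)),
    ∀ r2 ∈ ({0, 1, 12, 17, 28} : Finset (ZMod 29)),
    ∀ r3 ∈ ({0, 1, 12, 17, 28} : Finset (ZMod 29)),
    r1 + r2 + r3 = 0 → r1 = 0 ∨ r2 = 0 ∨ r3 = 0 := by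
  decide

set_option maxRecDepth 100000 in
lemma pow13_mem : ∀ x : ZMod 53, x ^ 13 ∈ ({0, 1, 23, 30, 52} : Finset (ZMod 53)) := by decide

set_option maxRecDepth 100000 in
lemma sum13 : ∀ r1 ∈ ({0, 1, 23, 30, 52} : Finset (ZMod 53)),
    ∀ r2 ∈ ({0, 1, 23, 30, 52} : Finset (ZMod 53)),
    ∀ r3 ∈ ({0, 1, 23, 30, 52} : Finset (ZMod 53)),
    r1 + r2 + r3 = 0 → r1 = 0 ∨ r2 = 0 ∨ r3 = 0 := by
  decide

end Main

open Main in
theorem fermat_five {a b c : ℤ} (ha : a ≠ 0) (hb : b ≠ 0) (hc : c ≠ 0) (hab : IsCoprime a b) :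
    a ^ 5 + b ^ 5 ≠ c ^ 5 := by
  obtain ⟨h1, h2⟩ := sg_hyps (p := 5) (q := 11) (by norm_num) (by norm_num)
    ({0, 1, 10} : Finset (ZMod 11)) pow5_mem sum5 (by decide)
  exact fermat_of (p := 5) (q := 11) (by norm_num) (by norm_num) (by norm_num) h1 h2
    (fun K _ _ _ => IsCyclotomicExtension.Rat.five_pid K) (fun K _ _ _ => kummerLemma_five K) ha hb hc hab

open Main in
theorem fermat_seven {a b c : ℤ} (ha : a ≠ 0) (hb : b ≠ 0) (hc : c ≠ 0) (hab : IsCoprime a b) :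
    a ^ 7 + b ^ 7 ≠ c ^ 7 := by
  obtain ⟨h1, h2⟩ := sg_hyps (p := 7) (q := 29) (by norm_num) (by norm_num)
    ({0, 1, 12, 17, 28} : Finset (ZMod 29)) pow7_mem sum7 (by decide)
  exact fermat_of (p := 7) (q := 29) (by norm_num) (by norm_num) (by norm_num) h1 h2
    (fun K _ _ _ => pid_seven K) (fun K _ _ _ => kummerLemma_seven K) ha hb hc hab

open Main in
theorem fermat_thirteen {a b c : ℤ} (ha : a ≠ 0) (hb : b ≠ 0) (hc : c ≠ 0)
    (hab : IsCoprime a b) : a ^ 13 + b ^ 13 ≠ c ^ 13 := by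
  obtain ⟨h1, h2⟩ := sg_hyps (p := 13) (q := 53) (by norm_num) (by norm_num)
    ({0, 1, 23, 30, 52} : Finset (ZMod 53)) pow13_mem sum13 (by decide)
  exact fermat_of (p := 13) (q := 53) (by norm_num) (by norm_num) (by norm_num) h1 h2
    (fun K _ _ _ => pid_thirteen K) (fun K _ _ _ => kummerLemma_thirteen K) ha hb hc hab

end Fermat.Agent.FLTSmall
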