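import Mathlib
import Fermat.Agent.FLTSmall_Basic

set_option autoImplicit false

open NumberField Polynomial TrivSqZeroExt

namespace Fermat.Agent.FLTSmall.KummerCert

variable (p : ℕ) [hp : Fact p.Prime]

/-- truncated polynomial ring `𝔽_p[t]/(t^(p-2))` -/
abbrev B : Type := (ZMod p)[X] ⧸ Ideal.span {(X : (ZMod p)[X]) ^ (p - 2)}

noncomputable def t : B p := Ideal.Quotient.mk _ X

lemma t_pow : t p ^ (p - 2) = 0 := by
  rw [t, ← map_pow]
  exact Ideal.Quotient.eq_zero_iff_mem.mpr (Ideal.mem_span_singleton_self _)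

lemma p_eq_zero : (p : B p) = 0 := by
  rw [← map_natCast (algebraMap (ZMod p) (B p)) p, ZMod.natCast_self, map_zero]

/-- dual numbers over `B` -/
abbrev C : Type := TrivSqZeroExt (B p) (B p)

noncomputable def s : C p := inl (1 + t p) + inr 1

noncomputable example : CommRing (C p) := inferInstance
noncomputable example : Algebra (ZMod p) (C p) := inferInstance

lemma pC_eq_zero : (p : C p) = 0 := by
  rw [← map_natCast (algebraMap (ZMod p) (C p)) p, ZMod.natCast_self, map_zero]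

lemma fst_s_pow (n : ℕ) : fst (s p ^ n) = (1 + t p) ^ n := by
  simp [s]

lemma snd_s_pow (n : ℕ) : snd (s p ^ n) = n • (1 + t p) ^ (n - 1) := by
  rw [TrivSqZeroExt.snd_pow]
  simp [s]

/-- `Φ_p(1+Y) = Y^(p-1)` over `𝔽_p`. -/
lemma geom_sum_one_add (R : Type) [CommRing R] [Algebra (ZMod p) R] (T : R) :
    ∑ i ∈ Finset.range p, (1 + T) ^ i = T ^ (p - 1) := by
  have key : ∑ i ∈ Finset.range p, (1 + (X : (ZMod p)[X])) ^ i = X ^ (p - 1) := by
    have h1 : (∑ i ∈ Finset.range p, (1 + (X : (ZMod p)[X])) ^ i) * X = X ^ (p - 1) * X := by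
      have := geom_sum_mul (1 + (X : (ZMod p)[X])) p
      rw [add_sub_cancel_left] at this
      rw [this, add_pow_char, one_pow, add_sub_cancel_left, ← pow_succ,
        Nat.sub_add_cancel hp.out.one_le]
    exact mul_right_cancel₀ X_ne_zero h1
  have := congrArg (aeval T) key
  simpa using this

lemma s_sum : ∑ i ∈ Finset.range p, s p ^ i = 0 := by
  have h := geom_sum_one_add p (C p) (inl (t p) + inr 1)
  have hs : s p = 1 + (inl (t p) + inr 1) := by
    simp [s, add_assoc]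
  rw [hs, h]
  have hp2 : p - 1 = (p - 2) + 1 := by have := hp.out.two_le; omega
  ext
  · simp only [fst_pow, fst_add, fst_inl, fst_inr, add_zero, fst_zero]
    rw [hp2, pow_succ, t_pow, zero_mul]
  · rw [TrivSqZeroExt.snd_pow]
    simp only [fst_add, fst_inl, fst_inr, add_zero, snd_add, snd_inl, snd_inr, zero_add, snd_zero]
    rw [hp2, Nat.pred_succ, t_pow]
    simp

variable (K : Type) [Field K] [NumberField K] [hcyc : IsCyclotomicExtension {p} ℚ K]

/-- the chosen primitive root, as an algebraic integer -/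
noncomputable def zeta : 𝓞 K :=
  haveI : NeZero p := ⟨hp.out.ne_zero⟩
  (IsCyclotomicExtension.zeta_spec p ℚ K).toInteger

lemma zeta_isPrimitiveRoot : IsPrimitiveRoot (zeta p K) p := by
  have : NeZero p := ⟨hp.out.ne_zero⟩
  exact (IsCyclotomicExtension.zeta_spec p ℚ K).toInteger_isPrimitiveRoot

lemma aeval_s_minpoly :
    haveI : NeZero p := ⟨hp.out.ne_zero⟩
    aeval (s p) (minpoly ℤ (IsCyclotomicExtension.zeta_spec p ℚ K).integralPowerBasis.gen) = 0 := by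
  have : NeZero p := ⟨hp.out.ne_zero⟩
  have hζ := IsCyclotomicExtension.zeta_spec p ℚ K
  rw [IsPrimitiveRoot.integralPowerBasis_gen, ← RingOfIntegers.minpoly_coe]
  change aeval (s p) (minpoly ℤ (IsCyclotomicExtension.zeta p ℚ K)) = 0
  rw [← cyclotomic_eq_minpoly hζ hp.out.pos, cyclotomic_prime]
  simpa using s_sum p

/-- reduction mod `p` composed with `t ↦ t + ε` -/
noncomputable def Θ : 𝓞 K →ₐ[ℤ] C p :=
  haveI : NeZero p := ⟨hp.out.ne_zero⟩
  (IsCyclotomicExtension.zeta_spec p ℚ K).integralPowerBasis.lift (s p) (aeval_s_minpoly p K)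

lemma Θ_zeta : Θ p K (zeta p K) = s p := by
  have : NeZero p := ⟨hp.out.ne_zero⟩
  have := (IsCyclotomicExtension.zeta_spec p ℚ K).integralPowerBasis.lift_gen (s p)
    (aeval_s_minpoly p K)
  rw [IsPrimitiveRoot.integralPowerBasis_gen] at this
  exact this

/-- logarithmic derivative on units of the dual numbers -/
noncomputable def L : (C p)ˣ →* Multiplicative (B p) where
  toFun x := Multiplicative.ofAdd (snd (x : C p) * fst ((x⁻¹ : (C p)ˣ) : C p))
  map_one' := by simp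
  map_mul' x y := by
    have hx : fst (x : C p) * fst ((x⁻¹ : (C p)ˣ) : C p) = 1 := by
      rw [← fst_mul]; simp
    have hy : fst (y : C p) * fst ((y⁻¹ : (C p)ˣ) : C p) = 1 := by
      rw [← fst_mul]; simp
    rw [← ofAdd_add]
    congr 1
    simp only [Units.val_mul, mul_inv_rev, snd_mul, fst_mul, smul_eq_mul,
      MulOpposite.smul_eq_mul_unop, MulOpposite.unop_op]
    linear_combination (snd (y : C p) * fst ((y⁻¹ : (C p)ˣ) : C p)) * hx +
      (snd (x : C p) * fst ((x⁻¹ : (C p)ˣ) : C p)) * hy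

/-- the logarithmic derivative of a unit of `𝓞 K`, as a monoid hom -/
noncomputable def ellHom : (𝓞 K)ˣ →* Multiplicative (B p) :=
  (L p).comp (Units.map (Θ p K : 𝓞 K →* C p))

/-- the logarithmic derivative of a unit of `𝓞 K` -/
noncomputable def ell (u : (𝓞 K)ˣ) : B p :=
  Multiplicative.toAdd (ellHom p K u)

lemma ell_prod_zpow {ι : Type} [Fintype ι] (g : ι → (𝓞 K)ˣ) (e : ι → ℤ) :
    ell p K (∏ i, g i ^ e i) = ∑ i, e i • ell p K (g i) := by
  unfold ell
  rw [map_prod, toAdd_prod]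
  refine Finset.sum_congr rfl fun i _ => ?_
  rw [map_zpow, toAdd_zpow]

lemma ell_eq_zero_of_cong (u : (𝓞 K)ˣ) (n : ℤ) (h : (p : 𝓞 K) ∣ (u : 𝓞 K) - (n : 𝓞 K)) :
    ell p K u = 0 := by
  obtain ⟨c, hc⟩ := h
  have h1 : Θ p K (u : 𝓞 K) = (n : C p) := by
    have := congrArg (Θ p K) hc
    rw [map_sub, map_mul, map_natCast, pC_eq_zero, zero_mul, sub_eq_zero, map_intCast] at this
    exact this
  change snd (Θ p K (u : 𝓞 K)) * fst (Θ p K ((u⁻¹ : (𝓞 K)ˣ) : 𝓞 K)) = 0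
  rw [h1, snd_intCast, zero_mul]

lemma ell_eq_of_cert (u : (𝓞 K)ˣ) (w : B p)
    (h : w * fst (Θ p K (u : 𝓞 K)) = snd (Θ p K (u : 𝓞 K))) : ell p K u = w := by
  set x : (C p)ˣ := Units.map (Θ p K : 𝓞 K →* C p) u with hx
  have hxv : (x : C p) = Θ p K (u : 𝓞 K) := rfl
  have hx1 : fst (x : C p) * fst ((x⁻¹ : (C p)ˣ) : C p) = 1 := by
    rw [← fst_mul]; simp
  change snd (x : C p) * fst ((x⁻¹ : (C p)ˣ) : C p) = w
  rw [hxv] at hx1 ⊢
  rw [← h]
  linear_combination w * hx1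

/-- coefficient extraction in `B p`. -/
lemma coeff_extract {d : ℕ} (c : Fin d → Fin (p - 2) → ℤ) (e : Fin d → ℤ)
    (h : ∑ i, e i • (∑ k : Fin (p - 2), (c i k : B p) * t p ^ (k : ℕ)) = 0) :
    ∀ k : Fin (p - 2), (p : ℤ) ∣ ∑ i, e i * c i k := by
  intro k
  set f : (ZMod p)[X] := ∑ i, ∑ k : Fin (p - 2), Polynomial.C ((e i * c i k : ℤ) : ZMod p) * X ^ (k : ℕ)
    with hf
  have hmk : Ideal.Quotient.mk (Ideal.span {(X : (ZMod p)[X]) ^ (p - 2)}) f = 0 := by
    rw [← h, hf, map_sum]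
    refine Finset.sum_congr rfl fun i _ => ?_
    rw [map_sum, Finset.smul_sum]
    refine Finset.sum_congr rfl fun k _ => ?_
    rw [map_mul, map_pow]
    change _ * t p ^ (k : ℕ) = _
    rw [zsmul_eq_mul, ← mul_assoc]
    congr 1
    have : (Ideal.Quotient.mk (Ideal.span {(X : (ZMod p)[X]) ^ (p - 2)}))
        (Polynomial.C ((e i * c i k : ℤ) : ZMod p)) = ((e i * c i k : ℤ) : B p) := by
      rw [map_intCast (Polynomial.C : ZMod p →+* (ZMod p)[X]), map_intCast]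
    rw [this]; push_cast; ring
  have hdvd : (X : (ZMod p)[X]) ^ (p - 2) ∣ f :=
    Ideal.mem_span_singleton.mp (Ideal.Quotient.eq_zero_iff_mem.mp hmk)
  have hcoef := (Polynomial.X_pow_dvd_iff.mp hdvd) k k.2
  rw [hf] at hcoef
  simp only [Polynomial.finsetSum_coeff, Polynomial.coeff_C_mul, Polynomial.coeff_X_pow] at hcoef
  have h3 : ∀ i : Fin d, (∑ x : Fin (p - 2), (((e i * c i x : ℤ) : ZMod p) *
      if (k : ℕ) = (x : ℕ) then (1 : ZMod p) else 0)) = ((e i * c i k : ℤ) : ZMod p) := by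
    intro i
    rw [Finset.sum_eq_single k]
    · simp
    · intro b _ hb
      have : (k : ℕ) ≠ (b : ℕ) := fun h => hb (Fin.ext h.symm)
      simp [this]
    · intro hk; exact absurd (Finset.mem_univ k) hk
  simp only [h3] at hcoef
  rw [← Int.cast_sum] at hcoef
  exact (ZMod.intCast_zmod_eq_zero_iff_dvd _ p).mp hcoef

/-- assembling the certificates -/
theorem independent_of_cert {d : ℕ} (g : Fin d → (𝓞 K)ˣ) (c : Fin d → Fin (p - 2) → ℤ)
    (hc : ∀ i, ell p K (g i) = ∑ k : Fin (p - 2), (c i k : B p) * t p ^ (k : ℕ))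
    (hind : ∀ e : Fin d → ℤ, (∀ k : Fin (p - 2), (p : ℤ) ∣ ∑ i, e i * c i k) → ∀ i, (p : ℤ) ∣ e i)
    (e : Fin d → ℤ)
    (h : ∃ n : ℤ, (p : 𝓞 K) ∣ ((∏ i, g i ^ e i : (𝓞 K)ˣ) : 𝓞 K) - (n : 𝓞 K)) :
    ∀ i, (p : ℤ) ∣ e i := by
  obtain ⟨n, hn⟩ := h
  have h0 := ell_eq_zero_of_cong p K _ n hn
  rw [ell_prod_zpow] at h0
  simp only [hc] at h0
  exact hind e (coeff_extract p c e h0)

/-- the unit `ζ` -/
noncomputable def zetaUnit : (𝓞 K)ˣ :=
  ((zeta_isPrimitiveRoot p K).isUnit hp.out.ne_zero).unit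

/-- the cyclotomic unit `1 + ζ + ⋯ + ζ^(a-1)` (junk `1` if `p ∣ a`). -/
noncomputable def geomUnit (a : ℕ) : (𝓞 K)ˣ :=
  if h : a.Coprime p then
    ((zeta_isPrimitiveRoot p K).geom_sum_isUnit hp.out.two_le h).unit
  else 1

lemma coe_geomUnit (a : ℕ) (h : a.Coprime p) :
    ((geomUnit p K a : (𝓞 K)ˣ) : 𝓞 K) = ∑ i ∈ Finset.range a, zeta p K ^ i := by
  rw [geomUnit, dif_pos h]; rfl

lemma fst_Θ_zetaUnit : fst (Θ p K (zetaUnit p K : 𝓞 K)) = 1 + t p := by
  change fst (Θ p K (zeta p K)) = _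
  rw [Θ_zeta]; simp [s]

lemma snd_Θ_zetaUnit : snd (Θ p K (zetaUnit p K : 𝓞 K)) = 1 := by
  change snd (Θ p K (zeta p K)) = _
  rw [Θ_zeta]; simp [s]

lemma fst_Θ_geomUnit (a : ℕ) (h : a.Coprime p) :
    fst (Θ p K (geomUnit p K a : 𝓞 K)) = ∑ i ∈ Finset.range a, (1 + t p) ^ i := by
  rw [coe_geomUnit p K a h, map_sum]
  simp only [map_pow, Θ_zeta]
  rw [TrivSqZeroExt.fst_sum]
  simp only [fst_s_pow]

lemma snd_Θ_geomUnit (a : ℕ) (h : a.Coprime p) :
    snd (Θ p K (geomUnit p K a : 𝓞 K)) = ∑ i ∈ Finset.range a, i • (1 + t p) ^ (i - 1) := by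
  rw [coe_geomUnit p K a h, map_sum]
  simp only [map_pow, Θ_zeta]
  rw [TrivSqZeroExt.snd_sum]
  simp only [snd_s_pow]

end Fermat.Agent.FLTSmall.KummerCert
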