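import Mathlib
import Fermat.Agent.FLTSmall_Basic

set_option autoImplicit false

open NumberField

namespace Fermat.Agent.FLTSmall.KummerIndep

/-- Abstract linear algebra over `𝔽_p`: in an abelian group generated by at most `d` elements,
`d` elements that are independent modulo `p` generate the group modulo `p`. -/
theorem exists_eq_sum_add_nsmul {M : Type*} [AddCommGroup M] {p : ℕ} (hp : p.Prime) {d : ℕ}
    {ι : Type} [Fintype ι] (hι : Fintype.card ι ≤ d) (h : ι → M)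
    (hgen : ∀ m : M, ∃ x : ι → ℤ, m = ∑ i, x i • h i)
    (g : Fin d → M)
    (hg : ∀ e : Fin d → ℤ, (∃ w : M, ∑ i, e i • g i = p • w) → ∀ i, (p : ℤ) ∣ e i) :
    ∀ m : M, ∃ e : Fin d → ℤ, ∃ w : M, m = ∑ i, e i • g i + p • w := by
  classical
  have : Fact p.Prime := ⟨hp⟩
  obtain ⟨S, hS⟩ : ∃ S : AddSubgroup M, S = (nsmulAddMonoidHom p : M →+ M).range := ⟨_, rfl⟩
  have hSmem : ∀ m : M, m ∈ S ↔ ∃ w : M, p • w = m := by
    intro m
    rw [hS, AddMonoidHom.mem_range]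
    simp
  have hQ : ∀ x : M ⧸ S, p • x = 0 := by
    intro x
    induction x using QuotientAddGroup.induction_on with
    | H m =>
      rw [← QuotientAddGroup.mk_nsmul, QuotientAddGroup.eq_zero_iff, hSmem]
      exact ⟨m, rfl⟩
  have instQ : Module (ZMod p) (M ⧸ S) := AddCommGroup.zmodModule hQ
  have hmk_sum : ∀ (κ : Type) [Fintype κ] (e : κ → ℤ) (b : κ → M),
      ((∑ i, e i • b i : M) : M ⧸ S) = ∑ i, (e i : ZMod p) • (b i : M ⧸ S) := by
    intro κ _ e b
    rw [QuotientAddGroup.mk_sum]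
    refine Finset.sum_congr rfl fun i _ => ?_
    rw [Int.cast_smul_eq_zsmul, QuotientAddGroup.mk_zsmul]
  -- the images of the `h i` span
  have hspan : Submodule.span (ZMod p) (Set.range fun i => ((h i : M) : M ⧸ S)) =
      (⊤ : Submodule (ZMod p) (M ⧸ S)) := by
    rw [eq_top_iff]
    rintro x -
    induction x using QuotientAddGroup.induction_on with
    | H m =>
      obtain ⟨x, rfl⟩ := hgen m
      rw [hmk_sum]
      exact Submodule.sum_mem _ fun i _ =>
        Submodule.smul_mem _ _ (Submodule.subset_span ⟨i, rfl⟩)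
  -- the images of the `g i` are linearly independent
  have hli : LinearIndependent (ZMod p) (fun i => ((g i : M) : M ⧸ S)) := by
    rw [Fintype.linearIndependent_iff]
    intro c hc i
    have hcast : ∀ j, ((((c j).val : ℕ) : ℤ) : ZMod p) = c j := fun j => by
      rw [Int.cast_natCast, ZMod.natCast_zmod_val]
    have hc' : ((∑ j, (((c j).val : ℕ) : ℤ) • g j : M) : M ⧸ S) = 0 := by
      rw [hmk_sum]
      simp only [hcast]
      exact hc
    obtain ⟨w, hw⟩ := (hSmem _).mp ((QuotientAddGroup.eq_zero_iff _).mp hc')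
    have h1 := hg (fun j => (((c j).val : ℕ) : ℤ)) ⟨w, hw.symm⟩ i
    have h2 : ((((c i).val : ℕ) : ℤ) : ZMod p) = 0 := (ZMod.intCast_zmod_eq_zero_iff_dvd _ _).mpr h1
    rw [hcast] at h2
    exact h2
  have hfin : Module.Finite (ZMod p) (M ⧸ S) :=
    Module.finite_def.mpr (hspan ▸ Submodule.fg_span (Set.finite_range _))
  have hle : Module.finrank (ZMod p) (M ⧸ S) ≤ d := by
    rw [← finrank_top (ZMod p) (M ⧸ S), ← hspan]
    exact (finrank_range_le_card _).trans hι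
  have hcard : Fintype.card (Fin d) = Module.finrank (ZMod p) (M ⧸ S) := by
    have := hli.fintype_card_le_finrank
    rw [Fintype.card_fin] at this ⊢
    omega
  have hspan' := hli.span_eq_top_of_card_eq_finrank' hcard
  intro m
  have hm : (m : M ⧸ S) ∈ Submodule.span (ZMod p) (Set.range fun i => ((g i : M) : M ⧸ S)) := by
    rw [hspan']
    trivial
  obtain ⟨c, hc⟩ := (Submodule.mem_span_range_iff_exists_fun _).mp hm
  refine ⟨fun i => (((c i).val : ℕ) : ℤ), ?_⟩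
  have hcast : ∀ j, ((((c j).val : ℕ) : ℤ) : ZMod p) = c j := fun j => by
    rw [Int.cast_natCast, ZMod.natCast_zmod_val]
  have h0 : ((m - ∑ i, (((c i).val : ℕ) : ℤ) • g i : M) : M ⧸ S) = 0 := by
    rw [QuotientAddGroup.mk_sub, hmk_sum, sub_eq_zero, ← hc]
    simp only [hcast]
  obtain ⟨w, hw⟩ := (hSmem _).mp ((QuotientAddGroup.eq_zero_iff _).mp h0)
  exact ⟨w, by rw [hw]; abel⟩

/-- In the `p`-th cyclotomic field, every `p`-th power of an integer of the field is congruent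
to a rational integer modulo `p`. -/
theorem exists_int_dvd_pow_sub {p : ℕ} (hp : p.Prime) (K : Type) [Field K] [NumberField K]
    [IsCyclotomicExtension {p} ℚ K] (x : 𝓞 K) :
    ∃ n : ℤ, (p : 𝓞 K) ∣ x ^ p - (n : 𝓞 K) := by
  have : NeZero p := ⟨hp.ne_zero⟩
  have hζ := IsCyclotomicExtension.zeta_spec p ℚ K
  have htop := IsCyclotomicExtension.Rat.adjoin_singleton_eq_top hζ
  have hx : x ∈ Algebra.adjoin ℤ {hζ.toInteger} := by
    rw [htop]
    trivial
  induction hx using Algebra.adjoin_induction with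
  | mem y hy =>
    rw [Set.mem_singleton_iff] at hy
    subst hy
    refine ⟨1, ?_⟩
    rw [hζ.toInteger_isPrimitiveRoot.pow_eq_one]
    simp
  | algebraMap r =>
    refine ⟨r ^ p, ?_⟩
    simp
  | add y z _ _ hy hz =>
    obtain ⟨a, ha⟩ := hy
    obtain ⟨b, hb⟩ := hz
    obtain ⟨r, hr⟩ := exists_add_pow_prime_eq hp y z
    refine ⟨a + b, ?_⟩
    rw [hr]
    have e1 : y ^ p + z ^ p + (p : 𝓞 K) * y * z * r - ((a + b : ℤ) : 𝓞 K) =
        (y ^ p - (a : 𝓞 K)) + (z ^ p - (b : 𝓞 K)) + (p : 𝓞 K) * (y * z * r) := by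
      push_cast
      ring
    rw [e1]
    exact dvd_add (dvd_add ha hb) (dvd_mul_right _ _)
  | mul y z _ _ hy hz =>
    obtain ⟨a, ha⟩ := hy
    obtain ⟨b, hb⟩ := hz
    refine ⟨a * b, ?_⟩
    have e1 : (y * z) ^ p - ((a * b : ℤ) : 𝓞 K) =
        y ^ p * (z ^ p - (b : 𝓞 K)) + (b : 𝓞 K) * (y ^ p - (a : 𝓞 K)) := by
      push_cast
      ring
    rw [e1]
    exact dvd_add (dvd_mul_of_dvd_right hb _) (dvd_mul_of_dvd_right ha _)

/-- The unit rank of the `p`-th cyclotomic field. -/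
theorem rank_add_one {p : ℕ} (hp : p.Prime) (hp2 : p ≠ 2) (K : Type) [Field K] [NumberField K]
    [IsCyclotomicExtension {p} ℚ K] : Units.rank K + 1 = (p - 1) / 2 := by
  have : NeZero p := ⟨hp.ne_zero⟩
  have h3 : 2 < p := lt_of_le_of_ne hp.two_le (Ne.symm hp2)
  have h1 := IsCyclotomicExtension.Rat.nrRealPlaces_eq_zero (n := p) K h3
  have h2 := IsCyclotomicExtension.Rat.nrComplexPlaces_eq_totient_div_two p K
  rw [Nat.totient_prime hp] at h2
  have h4 : Units.rank K = Fintype.card (InfinitePlace K) - 1 := rfl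
  rw [h4, InfinitePlace.card_eq_nrRealPlaces_add_nrComplexPlaces, h1, h2]
  omega

/-- The unit group of a number field is generated by `rank + 1` elements. -/
theorem exists_generators (K : Type) [Field K] [NumberField K] :
    ∃ h : Option (Fin (Units.rank K)) → Additive (𝓞 K)ˣ,
      ∀ m : Additive (𝓞 K)ˣ, ∃ x : Option (Fin (Units.rank K)) → ℤ, m = ∑ i, x i • h i := by
  obtain ⟨t, ht⟩ := IsCyclic.exists_generator (α := Units.torsion K)
  refine ⟨fun o => Additive.ofMul (o.elim (t : (𝓞 K)ˣ) (Units.fundSystem K)), fun m => ?_⟩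
  obtain ⟨⟨ζ, e⟩, hu, -⟩ := Units.exist_unique_eq_mul_prod K (Additive.toMul m)
  obtain ⟨k, hk⟩ := Subgroup.mem_zpowers_iff.mp (ht ζ)
  refine ⟨fun o => o.elim k e, ?_⟩
  rw [Fintype.sum_option]
  simp only [Option.elim_none, Option.elim_some]
  have hm : m = Additive.ofMul (Additive.toMul m) := rfl
  rw [hm, hu, ← hk, ofMul_mul, ofMul_prod]
  simp only [ofMul_zpow, Subgroup.coe_zpow]

end Fermat.Agent.FLTSmall.KummerIndep

namespace Fermat.Agent.FLTSmall

open KummerIndep in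
/-- Kummer's lemma for the `p`-th cyclotomic field follows from the existence of `(p - 1) / 2`
units that are "independent modulo `p`-th powers and integers". -/
theorem kummerLemma_of_independent {p : ℕ} (hp : p.Prime) (hp2 : p ≠ 2) (K : Type) [Field K]
    [NumberField K] [IsCyclotomicExtension {p} ℚ K] (g : Fin ((p - 1) / 2) → (𝓞 K)ˣ)
    (hg : ∀ e : Fin ((p - 1) / 2) → ℤ,
      (∃ n : ℤ, (p : 𝓞 K) ∣ ((∏ i, g i ^ e i : (𝓞 K)ˣ) : 𝓞 K) - (n : 𝓞 K)) →
        ∀ i, (p : ℤ) ∣ e i) :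
    KummerLemma p K := by
  intro u hu
  obtain ⟨n, hn⟩ := hu
  obtain ⟨h, hgen⟩ := exists_generators K
  have hcard : Fintype.card (Option (Fin (Units.rank K))) ≤ (p - 1) / 2 := by
    rw [Fintype.card_option, Fintype.card_fin, rank_add_one hp hp2 K]
  have hindep : ∀ e : Fin ((p - 1) / 2) → ℤ,
      (∃ w : Additive (𝓞 K)ˣ, ∑ i, e i • Additive.ofMul (g i) = p • w) →
        ∀ i, (p : ℤ) ∣ e i := by
    rintro e ⟨w, hw⟩
    apply hg e
    obtain ⟨m, hm⟩ := exists_int_dvd_pow_sub hp K ((Additive.toMul w : (𝓞 K)ˣ) : 𝓞 K)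
    refine ⟨m, ?_⟩
    have h1 : (∏ i, g i ^ e i : (𝓞 K)ˣ) = (Additive.toMul w) ^ p := by
      have h2 := congrArg Additive.toMul hw
      simpa using h2
    rw [h1, Units.val_pow_eq_pow_val]
    exact hm
  obtain ⟨e, w, hw⟩ := exists_eq_sum_add_nsmul (M := Additive (𝓞 K)ˣ) hp hcard h hgen
    (fun i => Additive.ofMul (g i)) hindep (Additive.ofMul u)
  obtain ⟨v, hv⟩ : ∃ v : (𝓞 K)ˣ, v = Additive.toMul w := ⟨_, rfl⟩
  have hu' : u = (∏ i, g i ^ e i) * v ^ p := by
    have h2 := congrArg Additive.toMul hw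
    rw [hv]
    simpa using h2
  obtain ⟨m, hm⟩ := exists_int_dvd_pow_sub hp K ((v⁻¹ : (𝓞 K)ˣ) : 𝓞 K)
  have hprod : (∏ i, g i ^ e i : (𝓞 K)ˣ) = u * (v⁻¹) ^ p := by
    rw [hu', inv_pow, mul_inv_cancel_right]
  have hdiv : ∀ i, (p : ℤ) ∣ e i := by
    apply hg e
    refine ⟨n * m, ?_⟩
    rw [hprod, Units.val_mul, Units.val_pow_eq_pow_val]
    have e1 : (u : 𝓞 K) * ((v⁻¹ : (𝓞 K)ˣ) : 𝓞 K) ^ p - ((n * m : ℤ) : 𝓞 K) =
        ((u : 𝓞 K) - (n : 𝓞 K)) * ((v⁻¹ : (𝓞 K)ˣ) : 𝓞 K) ^ p +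
          (n : 𝓞 K) * (((v⁻¹ : (𝓞 K)ˣ) : 𝓞 K) ^ p - (m : 𝓞 K)) := by
      push_cast
      ring
    rw [e1]
    exact dvd_add (dvd_mul_of_dvd_left hn _) (dvd_mul_of_dvd_right hm _)
  choose e' he' using hdiv
  refine ⟨(∏ i, g i ^ e' i) * v, ?_⟩
  rw [hu', mul_pow, ← Finset.prod_pow]
  congr 1
  refine Finset.prod_congr rfl fun i _ => ?_
  rw [he' i, ← zpow_natCast (g i ^ e' i) p, ← zpow_mul, mul_comm]

end Fermat.Agent.FLTSmall
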