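import Fermat.Agent.FLTSmall_SophieGermain
import Fermat.Agent.FLTSmall_CaseII

set_option autoImplicit false

open NumberField

namespace Fermat.Agent.FLTSmall

namespace Main

lemma isCoprime_right_of_eq {p : ℕ} (hp : 0 < p) {a b c : ℤ} (hab : IsCoprime a b)
    (h : a ^ p + b ^ p = c ^ p) : IsCoprime a c := by
  rw [← IsCoprime.pow_right_iff hp, ← h]
  have h1 : IsCoprime a (b ^ p) := hab.pow_right
  have h2 : a ^ p + b ^ p = b ^ p + a * a ^ (p - 1) := by
    rw [← pow_succ', Nat.sub_add_cancel hp]; ring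
  rw [h2]
  exact h1.add_mul_left_right _

end Main

open Main in
/-- Fermat's last theorem for one prime exponent `p ≥ 5`, given a Sophie Germain auxiliary
prime `q`, the PID property of `ℤ[ζ_p]` and Kummer's lemma. -/
theorem fermat_of {p q : ℕ} (hp : p.Prime) (hp5 : 5 ≤ p) (hq : q.Prime)
    (h1 : ∀ x y z : ZMod q, x ^ p + y ^ p + z ^ p = 0 → x = 0 ∨ y = 0 ∨ z = 0)
    (h2 : ∀ x : ZMod q, x ^ p ≠ (p : ZMod q))
    (hpid : ∀ (K : Type) [Field K] [NumberField K] [IsCyclotomicExtension {p} ℚ K],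
      IsPrincipalIdealRing (𝓞 K))
    (hK : ∀ (K : Type) [Field K] [NumberField K] [IsCyclotomicExtension {p} ℚ K],
      KummerLemma p K)
    {a b c : ℤ} (ha : a ≠ 0) (hb : b ≠ 0) (hc : c ≠ 0) (hab : IsCoprime a b) :
    a ^ p + b ^ p ≠ c ^ p := by
  intro h
  have hp2 : p ≠ 2 := by omega
  have hodd : Odd p := hp.odd_of_ne_two hp2
  haveI : NeZero p := ⟨hp.ne_zero⟩
  haveI hcyc : IsCyclotomicExtension {p} ℚ (CyclotomicField p ℚ) := by
    have h := CyclotomicField.isCyclotomicExtension p ℚ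
    have e : (DivisionRing.toRatAlgebra : Algebra ℚ (CyclotomicField p ℚ)) =
        CyclotomicField.algebra p ℚ := Subsingleton.elim _ _
    rw [e]; exact h
  have hac : IsCoprime a c := isCoprime_right_of_eq hp.pos hab h
  have hbc : IsCoprime b c := isCoprime_right_of_eq hp.pos hab.symm (by rw [add_comm]; exact h)
  have h0 : a ^ p + b ^ p + (-c) ^ p = 0 := by rw [hodd.neg_pow, h]; ring
  have hdvd := sophieGermain hp hp2 hq h1 h2 hab h0
  have hpZ : Prime (p : ℤ) := Nat.prime_iff_prime_int.mp hp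
  rcases hpZ.dvd_or_dvd hdvd with hd | hd
  · rcases hpZ.dvd_or_dvd hd with hd | hd
    · -- p ∣ a : b^p + (-c)^p + a^p = 0
      exact caseII hp hp5 (CyclotomicField p ℚ) (hpid _) (hK _) (a := b) (b := -c) (c := a)
        hbc.neg_right (by rw [← h0]; ring) ha hd
    · -- p ∣ b : (-c)^p + a^p + b^p = 0
      exact caseII hp hp5 (CyclotomicField p ℚ) (hpid _) (hK _) (a := -c) (b := a) (c := b)
        hac.symm.neg_left (by rw [← h0]; ring) hb hd
  · exact caseII hp hp5 (CyclotomicField p ℚ) (hpid _) (hK _) hab h0 (neg_ne_zero.mpr hc) hd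

namespace Main

/-- the Sophie Germain hypotheses from the list of `p`-th power residues -/
lemma sg_hyps {p q : ℕ} (hq : q.Prime) (hp : p ≠ 0) (R : Finset (ZMod q))
    (hmem : ∀ x : ZMod q, x ^ p ∈ R)
    (hsum : ∀ r1 ∈ R, ∀ r2 ∈ R, ∀ r3 ∈ R, r1 + r2 + r3 = 0 → r1 = 0 ∨ r2 = 0 ∨ r3 = 0)
    (hpR : (p : ZMod q) ∉ R) :
    (∀ x y z : ZMod q, x ^ p + y ^ p + z ^ p = 0 → x = 0 ∨ y = 0 ∨ z = 0) ∧
      (∀ x : ZMod q, x ^ p ≠ (p : ZMod q)) := by
  haveI : Fact q.Prime := ⟨hq⟩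
  refine ⟨fun x y z h => ?_, fun x hx => hpR (hx ▸ hmem x)⟩
  rcases hsum _ (hmem x) _ (hmem y) _ (hmem z) h with h | h | h
  · exact Or.inl (pow_eq_zero_iff hp |>.mp h)
  · exact Or.inr (Or.inl (pow_eq_zero_iff hp |>.mp h))
  · exact Or.inr (Or.inr (pow_eq_zero_iff hp |>.mp h))

end Main

end Fermat.Agent.FLTSmall
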