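import Mathlib

set_option autoImplicit false

namespace Fermat.Agent.FLTSmall

theorem sg_prime_eleven : Nat.Prime 11 := by norm_num
theorem sg_prime_twentyNine : Nat.Prime 29 := by norm_num
theorem sg_prime_twentyThree : Nat.Prime 23 := by norm_num
theorem sg_prime_fiftyThree : Nat.Prime 53 := by norm_num

/-- Sophie Germain conditions for `p = 5`, `q = 11`. -/
theorem sg_h1_five : ∀ x y z : ZMod 11, x ^ 5 + y ^ 5 + z ^ 5 = 0 → x = 0 ∨ y = 0 ∨ z = 0 := by
  have hpow : ∀ x : ZMod 11, x = 0 ∨ (x ^ 5 = 1 ∨ x ^ 5 = 10) := by decide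
  intro x y z h
  rcases hpow x with hx | hx
  · exact Or.inl hx
  rcases hpow y with hy | hy
  · exact Or.inr (Or.inl hy)
  rcases hpow z with hz | hz
  · exact Or.inr (Or.inr hz)
  exfalso
  rcases hx with hx | hx <;> rcases hy with hy | hy <;> rcases hz with hz | hz <;>
    (rw [hx, hy, hz] at h; revert h; decide)

theorem sg_h2_five : ∀ x : ZMod 11, x ^ 5 ≠ ((5 : ℕ) : ZMod 11) := by decide

/-- Sophie Germain conditions for `p = 7`, `q = 29`. -/
theorem sg_h1_seven : ∀ x y z : ZMod 29, x ^ 7 + y ^ 7 + z ^ 7 = 0 → x = 0 ∨ y = 0 ∨ z = 0 := by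
  have hpow : ∀ x : ZMod 29,
      x = 0 ∨ (x ^ 7 = 1 ∨ x ^ 7 = 12 ∨ x ^ 7 = 17 ∨ x ^ 7 = 28) := by decide
  intro x y z h
  rcases hpow x with hx | hx
  · exact Or.inl hx
  rcases hpow y with hy | hy
  · exact Or.inr (Or.inl hy)
  rcases hpow z with hz | hz
  · exact Or.inr (Or.inr hz)
  exfalso
  rcases hx with hx | hx | hx | hx <;> rcases hy with hy | hy | hy | hy <;>
    rcases hz with hz | hz | hz | hz <;> (rw [hx, hy, hz] at h; revert h; decide)

theorem sg_h2_seven : ∀ x : ZMod 29, x ^ 7 ≠ ((7 : ℕ) : ZMod 29) := by decide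

/-- Sophie Germain conditions for `p = 11`, `q = 23`. -/
theorem sg_h1_eleven :
    ∀ x y z : ZMod 23, x ^ 11 + y ^ 11 + z ^ 11 = 0 → x = 0 ∨ y = 0 ∨ z = 0 := by
  have hpow : ∀ x : ZMod 23, x = 0 ∨ (x ^ 11 = 1 ∨ x ^ 11 = 22) := by decide
  intro x y z h
  rcases hpow x with hx | hx
  · exact Or.inl hx
  rcases hpow y with hy | hy
  · exact Or.inr (Or.inl hy)
  rcases hpow z with hz | hz
  · exact Or.inr (Or.inr hz)
  exfalso
  rcases hx with hx | hx <;> rcases hy with hy | hy <;> rcases hz with hz | hz <;>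
    (rw [hx, hy, hz] at h; revert h; decide)

theorem sg_h2_eleven : ∀ x : ZMod 23, x ^ 11 ≠ ((11 : ℕ) : ZMod 23) := by decide

/-- Sophie Germain conditions for `p = 13`, `q = 53`. -/
theorem sg_h1_thirteen :
    ∀ x y z : ZMod 53, x ^ 13 + y ^ 13 + z ^ 13 = 0 → x = 0 ∨ y = 0 ∨ z = 0 := by
  have hpow : ∀ x : ZMod 53,
      x = 0 ∨ (x ^ 13 = 1 ∨ x ^ 13 = 23 ∨ x ^ 13 = 30 ∨ x ^ 13 = 52) := by decide
  intro x y z h
  rcases hpow x with hx | hx
  · exact Or.inl hx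
  rcases hpow y with hy | hy
  · exact Or.inr (Or.inl hy)
  rcases hpow z with hz | hz
  · exact Or.inr (Or.inr hz)
  exfalso
  rcases hx with hx | hx | hx | hx <;> rcases hy with hy | hy | hy | hy <;>
    rcases hz with hz | hz | hz | hz <;> (rw [hx, hy, hz] at h; revert h; decide)

theorem sg_h2_thirteen : ∀ x : ZMod 53, x ^ 13 ≠ ((13 : ℕ) : ZMod 53) := by decide

end Fermat.Agent.FLTSmall
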