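import Mathlib

set_option autoImplicit false

namespace Fermat.Agent.FLTSmall.SG

open Finset

/-- The cofactor `(y ^ p + z ^ p) / (y + z)`. -/
def phi (p : ℕ) (y z : ℤ) : ℤ := ∑ i ∈ range p, y ^ i * (-z) ^ (p - 1 - i)

theorem phi_mul {p : ℕ} (hodd : Odd p) (y z : ℤ) : phi p y z * (y + z) = y ^ p + z ^ p := by
  have h := geom_sum₂_mul y (-z) p
  rw [hodd.neg_pow, sub_neg_eq_add, sub_neg_eq_add] at h
  exact h

theorem dvd_phi_sub (p : ℕ) (y z : ℤ) : y + z ∣ (p : ℤ) * (-z) ^ (p - 1) - phi p y z := by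
  have h1 : y ≡ -z [ZMOD (y + z)] := by
    rw [Int.modEq_iff_dvd]
    exact ⟨-1, by ring⟩
  have h2 : phi p y z ≡ (p : ℤ) * (-z) ^ (p - 1) [ZMOD (y + z)] := by
    rw [← geom_sum₂_self (-z) p]
    exact Int.ModEq.sum fun i _ => (h1.pow i).mul_right _
  exact (Int.modEq_iff_dvd.mp h2)

theorem exists_pow_eq {p : ℕ} (hp : p.Prime) (hodd : Odd p) {x y z : ℤ}
    (h : x ^ p + y ^ p + z ^ p = 0) (hyz : IsCoprime y z) (hx : ¬ (p : ℤ) ∣ x) :
    ∃ A T : ℤ, y + z = A ^ p ∧ phi p y z = T ^ p := by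
  have hpp := Nat.prime_iff_prime_int.mp hp
  have hprod : (y + z) * phi p y z = (-x) ^ p := by
    rw [mul_comm, phi_mul hodd, hodd.neg_pow]
    linarith
  have hcop : IsCoprime (y + z) (phi p y z) := by
    apply isCoprime_of_prime_dvd
    · rintro ⟨h0, -⟩
      rw [h0, zero_mul] at hprod
      have hx0 : -x = 0 := (pow_eq_zero_iff hp.ne_zero).mp hprod.symm
      have hx0' : x = 0 := neg_eq_zero.mp hx0
      exact hx (hx0' ▸ dvd_zero _)
    · intro r hr h1 h2
      have h3 : r ∣ (p : ℤ) * (-z) ^ (p - 1) := by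
        have h4 := dvd_add (h1.trans (dvd_phi_sub p y z)) h2
        rwa [sub_add_cancel] at h4
      rcases hr.dvd_or_dvd h3 with h5 | h5
      · have hpr : (p : ℤ) ∣ r := hr.irreducible.dvd_symm hpp.irreducible h5
        have h6 : (p : ℤ) ∣ (y + z) * phi p y z := Dvd.dvd.mul_right (hpr.trans h1) _
        rw [hprod, hodd.neg_pow] at h6
        exact hx (hpp.dvd_of_dvd_pow (dvd_neg.mp h6))
      · have hz : r ∣ z := dvd_neg.mp (hr.dvd_of_dvd_pow h5)
        have hy : r ∣ y := by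
          have h7 := dvd_sub h1 hz
          rwa [add_sub_cancel_right] at h7
        exact hr.not_isUnit (hyz.isUnit_of_dvd' hy hz)
  obtain ⟨A, hA⟩ := Int.eq_pow_of_mul_eq_pow_odd_left hcop hodd hprod
  obtain ⟨T, hT⟩ := Int.eq_pow_of_mul_eq_pow_odd_right hcop hodd hprod
  exact ⟨A, T, hA, hT⟩

theorem core {p q : ℕ} (hp : p.Prime) (hodd : Odd p) [Fact q.Prime]
    (h1 : ∀ x y z : ZMod q, x ^ p + y ^ p + z ^ p = 0 → x = 0 ∨ y = 0 ∨ z = 0)
    (h2 : ∀ x : ZMod q, x ^ p ≠ (p : ZMod q))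
    {a b c : ℤ} (hab : IsCoprime a b) (hac : IsCoprime a c) (hbc : IsCoprime b c)
    (h : a ^ p + b ^ p + c ^ p = 0)
    (hpa : ¬ (p : ℤ) ∣ a) (hpb : ¬ (p : ℤ) ∣ b) (hpc : ¬ (p : ℤ) ∣ c)
    (hqa : (a : ZMod q) = 0) : False := by
  obtain ⟨A, T, hA, hT⟩ := exists_pow_eq hp hodd h hbc hpa
  obtain ⟨B, -, hB, -⟩ := exists_pow_eq hp hodd (x := b) (y := a) (z := c) (by linarith) hac hpb
  obtain ⟨C, S, hC, hS⟩ := exists_pow_eq hp hodd (x := c) (y := a) (z := b) (by linarith) hab hpc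
  have hA' : (b : ZMod q) + c = (A : ZMod q) ^ p := by
    exact_mod_cast congrArg (Int.cast : ℤ → ZMod q) hA
  have hB' : (a : ZMod q) + c = (B : ZMod q) ^ p := by
    exact_mod_cast congrArg (Int.cast : ℤ → ZMod q) hB
  have hC' : (a : ZMod q) + b = (C : ZMod q) ^ p := by
    exact_mod_cast congrArg (Int.cast : ℤ → ZMod q) hC
  have hb0 : (b : ZMod q) ≠ 0 := by
    intro hb
    obtain ⟨u, v, huv⟩ := hab
    have h3 := congrArg (Int.cast : ℤ → ZMod q) huv
    push_cast at h3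
    rw [hqa, hb] at h3
    simp at h3
  have hc0 : (c : ZMod q) ≠ 0 := by
    intro hc
    obtain ⟨u, v, huv⟩ := hac
    have h3 := congrArg (Int.cast : ℤ → ZMod q) huv
    push_cast at h3
    rw [hqa, hc] at h3
    simp at h3
  have key : (B : ZMod q) ^ p + (C : ZMod q) ^ p + (-(A : ZMod q)) ^ p = 0 := by
    rw [hodd.neg_pow, ← hA', ← hB', ← hC', hqa]
    ring
  rcases h1 _ _ _ key with hB0 | hC0 | hA0
  · rw [hB0, zero_pow hp.ne_zero, hqa, zero_add] at hB'
    exact hc0 hB'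
  · rw [hC0, zero_pow hp.ne_zero, hqa, zero_add] at hC'
    exact hb0 hC'
  · have hA0' : (A : ZMod q) = 0 := neg_eq_zero.mp hA0
    rw [hA0', zero_pow hp.ne_zero] at hA'
    have hcb : (c : ZMod q) = -b := by linear_combination hA'
    have hT' : (T : ZMod q) ^ p = (p : ZMod q) * (b : ZMod q) ^ (p - 1) := by
      have h3 := congrArg (Int.cast : ℤ → ZMod q) hT
      rw [phi] at h3
      push_cast at h3
      rw [← h3, hcb, neg_neg, geom_sum₂_self]
    have hS' : (S : ZMod q) ^ p = (b : ZMod q) ^ (p - 1) := by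
      have h3 := congrArg (Int.cast : ℤ → ZMod q) hS
      rw [phi] at h3
      push_cast at h3
      rw [← h3, hqa, Finset.sum_eq_single 0]
      · rw [pow_zero, one_mul, Nat.sub_zero]
        exact (hp.even_sub_one (fun h2' => by rw [h2'] at hodd; exact absurd hodd (by decide))).neg_pow _
      · intro i _ hi
        rw [zero_pow hi, zero_mul]
      · intro h0
        exact absurd (Finset.mem_range.mpr hp.pos) h0
    have hS0 : (S : ZMod q) ≠ 0 := by
      intro h0
      rw [h0, zero_pow hp.ne_zero] at hS'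
      exact pow_ne_zero _ hb0 hS'.symm
    apply h2 ((T : ZMod q) * (S : ZMod q)⁻¹)
    have hbp : (b : ZMod q) ^ (p - 1) ≠ 0 := pow_ne_zero _ hb0
    rw [mul_pow, inv_pow, hT', hS', mul_assoc, mul_inv_cancel₀ hbp, mul_one]

end Fermat.Agent.FLTSmall.SG

namespace Fermat.Agent.FLTSmall

open SG in
/-- **Sophie Germain's theorem** (first case of Fermat's Last Theorem for the exponent `p`,
given an auxiliary prime `q`). -/
theorem sophieGermain {p q : ℕ} (hp : p.Prime) (hp2 : p ≠ 2) (hq : q.Prime)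
    (h1 : ∀ x y z : ZMod q, x ^ p + y ^ p + z ^ p = 0 → x = 0 ∨ y = 0 ∨ z = 0)
    (h2 : ∀ x : ZMod q, x ^ p ≠ (p : ZMod q))
    {a b c : ℤ} (hgcd : IsCoprime a b) (h : a ^ p + b ^ p + c ^ p = 0) :
    (p : ℤ) ∣ a * b * c := by
  by_contra hcon
  have : Fact q.Prime := ⟨hq⟩
  have hodd : Odd p := hp.odd_of_ne_two hp2
  have hpa : ¬ (p : ℤ) ∣ a := fun h' => hcon (Dvd.dvd.mul_right (Dvd.dvd.mul_right h' b) c)
  have hpb : ¬ (p : ℤ) ∣ b := fun h' => hcon (Dvd.dvd.mul_right (Dvd.dvd.mul_left h' a) c)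
  have hpc : ¬ (p : ℤ) ∣ c := fun h' => hcon (Dvd.dvd.mul_left h' _)
  have hpow : ∀ t : ℤ, t ^ p = t * t ^ (p - 1) := fun t => by
    rw [← pow_succ', Nat.sub_add_cancel hp.one_le]
  have hac : IsCoprime a c := by
    have h3 : IsCoprime a (c ^ p) := by
      have h4 : c ^ p = -(b ^ p) + a * (-(a ^ (p - 1))) := by
        have := hpow a
        linarith
      rw [h4]
      exact (hgcd.pow_right.neg_right).add_mul_left_right _
    exact (IsCoprime.pow_right_iff hp.pos).mp h3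
  have hbc : IsCoprime b c := by
    have h3 : IsCoprime b (c ^ p) := by
      have h4 : c ^ p = -(a ^ p) + b * (-(b ^ (p - 1))) := by
        have := hpow b
        linarith
      rw [h4]
      exact (hgcd.symm.pow_right.neg_right).add_mul_left_right _
    exact (IsCoprime.pow_right_iff hp.pos).mp h3
  have hq0 : (a : ZMod q) ^ p + (b : ZMod q) ^ p + (c : ZMod q) ^ p = 0 := by
    exact_mod_cast congrArg (Int.cast : ℤ → ZMod q) h
  rcases h1 _ _ _ hq0 with ha | hb | hc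
  · exact core hp hodd h1 h2 hgcd hac hbc h hpa hpb hpc ha
  · exact core hp hodd h1 h2 hgcd.symm hbc hac (by linarith) hpb hpa hpc hb
  · exact core hp hodd h1 h2 hac.symm hbc.symm hgcd (by linarith) hpc hpa hpb hc

end Fermat.Agent.FLTSmall
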