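import Mathlib
import Fermat.Prelude.Def_EllipticCurve_FrobeniusTrace

set_option autoImplicit false

namespace Fermat.Agent.LibFrobenius

open Polynomial

section Kaplansky

variable {R K : Type*} [CommRing R] [Field K] [Algebra R K]

theorem kaplansky_aux (B : Subalgebra R K) (hB : ∀ x : K, IsIntegral B x → x ∈ B)
    (Q : Ideal B) (u : K) : ∀ (n : ℕ) (p : B[X]), p.natDegree ≤ n → aeval u p = 0 →
      (∃ i, p.coeff i ∉ Q) →
      (∃ a b : B, b ∉ Q ∧ u * (b : K) = a) ∨ (∃ a b : B, b ∉ Q ∧ u⁻¹ * (b : K) = a) := by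
  intro n
  induction n with
  | zero =>
    intro p hp h0 hi
    exfalso
    obtain ⟨i, hi⟩ := hi
    have hpC : p = C (p.coeff 0) := eq_C_of_natDegree_le_zero hp
    rw [hpC, aeval_C] at h0
    have h00 : p.coeff 0 = 0 := by
      have : ((p.coeff 0 : B) : K) = 0 := h0
      exact_mod_cast this
    have : p = 0 := by rw [hpC, h00, C_0]
    rw [this] at hi
    simp at hi
  | succ n ih =>
    intro p hp h0 hi
    by_cases hdeg : p.natDegree ≤ n
    · exact ih p hdeg h0 hi
    have hdeg' : p.natDegree = n + 1 := by omega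
    obtain ⟨i, hi⟩ := hi
    have hint : IsIntegral B (p.leadingCoeff • u) := isIntegral_leadingCoeff_smul p u h0
    have hcu : p.leadingCoeff • u = (p.leadingCoeff : K) * u := by
      rw [Algebra.smul_def]; rfl
    obtain ⟨b, hb⟩ : ∃ b : B, (b : K) = (p.leadingCoeff : K) * u :=
      ⟨⟨_, hB _ hint⟩, hcu⟩
    by_cases hc : p.leadingCoeff ∈ Q
    · by_cases hbQ : b ∈ Q
      · -- reduce the degree
        have hp0 : p ≠ 0 := by
          rintro rfl; simp at hdeg'
        apply ih (p.eraseLead + C b * X ^ n)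
        · refine (natDegree_add_le _ _).trans (max_le ?_ ?_)
          · have := eraseLead_natDegree_le p
            omega
          · exact natDegree_C_mul_X_pow_le b n
        · have h1 : aeval u p = aeval u p.eraseLead + (p.leadingCoeff : K) * u ^ (n + 1) := by
            conv_lhs => rw [← eraseLead_add_C_mul_X_pow p]
            rw [map_add, aeval_mul, aeval_C, map_pow, aeval_X, hdeg']
            rfl
          rw [map_add, aeval_mul, aeval_C, map_pow, aeval_X]
          have h2 : (algebraMap B K) b = (b : K) := rfl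
          rw [h2, hb]
          rw [h1] at h0
          rw [← h0]; ring
        · have hin : i ≠ n + 1 := by
            rintro rfl
            apply hi
            rw [← hdeg']; exact hc
          refine ⟨i, ?_⟩
          rw [coeff_add, coeff_C_mul, coeff_X_pow, eraseLead_coeff, hdeg', if_neg hin]
          by_cases hin' : i = n
          · rw [if_pos hin', mul_one]
            intro h
            exact hi ((Ideal.add_mem_iff_left Q hbQ).mp h)
          · rw [if_neg hin', mul_zero, add_zero]; exact hi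
      · right
        refine ⟨p.leadingCoeff, b, hbQ, ?_⟩
        have hb0 : (b : K) ≠ 0 := by
          intro h
          apply hbQ
          have : b = 0 := by exact_mod_cast h
          rw [this]; exact Q.zero_mem
        have hu : u ≠ 0 := by
          rintro rfl
          rw [mul_zero] at hb
          exact hb0 hb
        rw [hb]; field_simp
    · left
      exact ⟨b, p.leadingCoeff, hc, by rw [hb]; ring⟩

end Kaplansky

section Main

open scoped Pointwise

/-- The Galois action on the ring of all algebraic integers. -/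
@[instance_reducible]
noncomputable def zbarAction :
    MulSemiringAction (AlgebraicClosure ℚ ≃ₐ[ℚ] AlgebraicClosure ℚ)
      (integralClosure ℤ (AlgebraicClosure ℚ)) where
  smul σ b := ⟨σ (b : AlgebraicClosure ℚ), map_isIntegral_int σ b.2⟩
  one_smul b := Subtype.ext rfl
  mul_smul σ τ b := Subtype.ext rfl
  smul_zero σ := Subtype.ext (map_zero σ)
  smul_add σ a b := Subtype.ext (map_add σ _ _)
  smul_one σ := Subtype.ext (map_one σ)
  smul_mul σ a b := Subtype.ext (map_mul σ _ _)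

attribute [local instance] zbarAction

theorem zbarAction_coe (σ : AlgebraicClosure ℚ ≃ₐ[ℚ] AlgebraicClosure ℚ)
    (b : integralClosure ℤ (AlgebraicClosure ℚ)) :
    ((σ • b : integralClosure ℤ (AlgebraicClosure ℚ)) : AlgebraicClosure ℚ) =
      σ (b : AlgebraicClosure ℚ) := rfl

instance zbar_smulCommClass :
    SMulCommClass (AlgebraicClosure ℚ ≃ₐ[ℚ] AlgebraicClosure ℚ) ℤ
      (integralClosure ℤ (AlgebraicClosure ℚ)) where
  smul_comm σ n b := by
    apply Subtype.ext
    rw [zbarAction_coe]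
    simp

theorem isAlgClosure_qbar : IsAlgClosure ℚ (AlgebraicClosure ℚ) :=
  AlgebraicClosure.instIsAlgClosure ℚ

instance isGalois_qbar : IsGalois ℚ (AlgebraicClosure ℚ) :=
  haveI := isAlgClosure_qbar
  inferInstance

instance zbar_isInvariant :
    Algebra.IsInvariant ℤ (integralClosure ℤ (AlgebraicClosure ℚ))
      (AlgebraicClosure ℚ ≃ₐ[ℚ] AlgebraicClosure ℚ) where
  isInvariant b hb := by
    have hfix : ∀ f : (AlgebraicClosure ℚ ≃ₐ[ℚ] AlgebraicClosure ℚ),
        f (b : AlgebraicClosure ℚ) = b := fun f => congrArg Subtype.val (hb f)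
    obtain ⟨r, hr⟩ := (InfiniteGalois.mem_range_algebraMap_iff_fixed
      (k := ℚ) (K := AlgebraicClosure ℚ) (b : AlgebraicClosure ℚ)).mpr hfix
    have hint : IsIntegral ℤ (algebraMap ℚ (AlgebraicClosure ℚ) r) := hr ▸ b.2
    have hintQ : IsIntegral ℤ r :=
      (isIntegral_algebraMap_iff (algebraMap ℚ (AlgebraicClosure ℚ)).injective).mp hint
    obtain ⟨m, hm⟩ := IsIntegrallyClosed.isIntegral_iff.mp hintQ
    refine ⟨m, Subtype.ext ?_⟩
    rw [← hr, ← hm]
    simp

/-- Membership in the localisation of the ring of algebraic integers at `Q`. -/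
def locSet (Q : Ideal (integralClosure ℤ (AlgebraicClosure ℚ))) : Set (AlgebraicClosure ℚ) :=
  {x | ∃ a b : integralClosure ℤ (AlgebraicClosure ℚ), b ∉ Q ∧ x * (b : AlgebraicClosure ℚ) = a}

theorem zbar_closed (x : AlgebraicClosure ℚ)
    (hx : IsIntegral (integralClosure ℤ (AlgebraicClosure ℚ)) x) :
    x ∈ integralClosure ℤ (AlgebraicClosure ℚ) :=
  isIntegral_trans (R := ℤ) (A := integralClosure ℤ (AlgebraicClosure ℚ)) x hx

theorem span_prime_isMaximal (l : ℕ) (hl : l.Prime) :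
    (Ideal.span {(l : ℤ)}).IsMaximal :=
  PrincipalIdealRing.isMaximal_of_irreducible (Nat.prime_iff_prime_int.mp hl).irreducible

theorem exists_coeff_not_mem (l : ℕ) (hl : l.Prime)
    (Q : Ideal (integralClosure ℤ (AlgebraicClosure ℚ)))
    (hQ : Q.comap (algebraMap ℤ (integralClosure ℤ (AlgebraicClosure ℚ))) = Ideal.span {(l : ℤ)})
    (u : AlgebraicClosure ℚ) :
    ∃ p : (integralClosure ℤ (AlgebraicClosure ℚ))[X], aeval u p = 0 ∧ ∃ i, p.coeff i ∉ Q := by
  have halg : IsAlgebraic ℤ u :=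
    (IsFractionRing.isAlgebraic_iff ℤ ℚ (AlgebraicClosure ℚ)).mpr
      (Algebra.IsAlgebraic.isAlgebraic u)
  obtain ⟨p, hp0, hp⟩ := halg
  have hcont : p.content ≠ 0 := by rwa [Ne, content_eq_zero_iff]
  have hprim : p.primPart.IsPrimitive := p.isPrimitive_primPart
  have hroot : aeval u p.primPart = 0 := by
    have h1 : aeval u p = aeval u (C p.content * p.primPart) := by
      rw [← eq_C_content_mul_primPart]
    rw [hp, aeval_mul, aeval_C] at h1
    have h2 : (algebraMap ℤ (AlgebraicClosure ℚ)) p.content ≠ 0 := by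
      simpa using hcont
    exact (mul_eq_zero.mp h1.symm).resolve_left h2
  have hex : ∃ i, ¬ (l : ℤ) ∣ p.primPart.coeff i := by
    by_contra hcon
    simp only [not_exists, not_not] at hcon
    have hdvd : C (l : ℤ) ∣ p.primPart := (C_dvd_iff_dvd_coeff _ _).mpr hcon
    have hunit : IsUnit (l : ℤ) := hprim _ hdvd
    exact (Nat.prime_iff_prime_int.mp hl).not_unit hunit
  obtain ⟨i, hi⟩ := hex
  refine ⟨p.primPart.map (algebraMap ℤ (integralClosure ℤ (AlgebraicClosure ℚ))), ?_, i, ?_⟩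
  · rw [aeval_map_algebraMap]; exact hroot
  · rw [coeff_map]
    intro hmem
    have : p.primPart.coeff i ∈ Q.comap (algebraMap ℤ (integralClosure ℤ (AlgebraicClosure ℚ))) :=
      hmem
    rw [hQ, Ideal.mem_span_singleton] at this
    exact hi this

theorem locSet_mem_or_inv_mem (l : ℕ) (hl : l.Prime)
    (Q : Ideal (integralClosure ℤ (AlgebraicClosure ℚ)))
    (hQ : Q.comap (algebraMap ℤ (integralClosure ℤ (AlgebraicClosure ℚ))) = Ideal.span {(l : ℤ)})
    (u : AlgebraicClosure ℚ) : u ∈ locSet Q ∨ u⁻¹ ∈ locSet Q := by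
  obtain ⟨p, hp, hi⟩ := exists_coeff_not_mem l hl Q hQ u
  exact kaplansky_aux (integralClosure ℤ (AlgebraicClosure ℚ)) zbar_closed Q u p.natDegree p
    le_rfl hp hi

/-- The valuation subring of `AlgebraicClosure ℚ` attached to a prime of the algebraic integers. -/
def locValuationSubring (l : ℕ) (hl : l.Prime)
    (Q : Ideal (integralClosure ℤ (AlgebraicClosure ℚ))) (hQp : Q.IsPrime)
    (hQ : Q.comap (algebraMap ℤ (integralClosure ℤ (AlgebraicClosure ℚ))) = Ideal.span {(l : ℤ)}) :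
    ValuationSubring (AlgebraicClosure ℚ) where
  carrier := locSet Q
  mul_mem' := by
    rintro x y ⟨a, b, hb, hx⟩ ⟨c, d, hd, hy⟩
    refine ⟨a * c, b * d, fun h => (hQp.mem_or_mem h).elim hb hd, ?_⟩
    push_cast
    rw [← hx, ← hy]; ring
  one_mem' := ⟨1, 1, fun h => hQp.ne_top ((Ideal.eq_top_iff_one Q).mpr h), by simp⟩
  add_mem' := by
    rintro x y ⟨a, b, hb, hx⟩ ⟨c, d, hd, hy⟩
    refine ⟨a * d + c * b, b * d, fun h => (hQp.mem_or_mem h).elim hb hd, ?_⟩
    push_cast
    rw [← hx, ← hy]; ring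
  zero_mem' := ⟨0, 1, fun h => hQp.ne_top ((Ideal.eq_top_iff_one Q).mpr h), by simp⟩
  neg_mem' := by
    rintro x ⟨a, b, hb, hx⟩
    refine ⟨-a, b, hb, ?_⟩
    push_cast
    rw [← hx]; ring
  mem_or_inv_mem' := locSet_mem_or_inv_mem l hl Q hQ

theorem mem_locValuationSubring (l : ℕ) (hl : l.Prime)
    (Q : Ideal (integralClosure ℤ (AlgebraicClosure ℚ))) (hQp : Q.IsPrime)
    (hQ : Q.comap (algebraMap ℤ (integralClosure ℤ (AlgebraicClosure ℚ))) = Ideal.span {(l : ℤ)})
    (x : AlgebraicClosure ℚ) :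
    x ∈ locValuationSubring l hl Q hQp hQ ↔
      ∃ a b : integralClosure ℤ (AlgebraicClosure ℚ), b ∉ Q ∧ x * (b : AlgebraicClosure ℚ) = a :=
  Iff.rfl

theorem stabilizer_zbar_isOpen (b : integralClosure ℤ (AlgebraicClosure ℚ)) :
    IsOpen (MulAction.stabilizer (AlgebraicClosure ℚ ≃ₐ[ℚ] AlgebraicClosure ℚ) b :
      Set (AlgebraicClosure ℚ ≃ₐ[ℚ] AlgebraicClosure ℚ)) := by
  have h := stabilizer_isOpen_of_isIntegral (K := ℚ) (L := AlgebraicClosure ℚ)
    (b : AlgebraicClosure ℚ)
  have heq : (MulAction.stabilizer (AlgebraicClosure ℚ ≃ₐ[ℚ] AlgebraicClosure ℚ) b :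
      Set (AlgebraicClosure ℚ ≃ₐ[ℚ] AlgebraicClosure ℚ)) =
      (MulAction.stabilizer (AlgebraicClosure ℚ ≃ₐ[ℚ] AlgebraicClosure ℚ)
        (b : AlgebraicClosure ℚ) : Set (AlgebraicClosure ℚ ≃ₐ[ℚ] AlgebraicClosure ℚ)) := by
    ext g
    simp only [SetLike.mem_coe, MulAction.mem_stabilizer_iff]
    constructor
    · intro h; exact congrArg Subtype.val h
    · intro h; exact Subtype.ext h
  rw [heq]; exact h

/-- Frobenius elements exist on the ring of algebraic integers. -/
theorem exists_frob_zbar (l : ℕ) (hl : l.Prime) :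
    ∃ (Q : Ideal (integralClosure ℤ (AlgebraicClosure ℚ))) (_ : Q.IsMaximal)
      (σ : AlgebraicClosure ℚ ≃ₐ[ℚ] AlgebraicClosure ℚ),
      Q.comap (algebraMap ℤ (integralClosure ℤ (AlgebraicClosure ℚ))) = Ideal.span {(l : ℤ)} ∧
      (∀ b : integralClosure ℤ (AlgebraicClosure ℚ), σ • b ∈ Q ↔ b ∈ Q) ∧
      (∀ b : integralClosure ℤ (AlgebraicClosure ℚ), σ⁻¹ • b ∈ Q ↔ b ∈ Q) ∧
      ∀ b : integralClosure ℤ (AlgebraicClosure ℚ), σ • b - b ^ l ∈ Q := by
  haveI := span_prime_isMaximal l hl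
  have hker : RingHom.ker (algebraMap ℤ (integralClosure ℤ (AlgebraicClosure ℚ))) ≤
      Ideal.span {(l : ℤ)} := by
    intro x hx
    rw [RingHom.mem_ker] at hx
    have : x = 0 := by
      have h2 := congrArg (Subtype.val) hx
      simpa using h2
    rw [this]; exact Ideal.zero_mem _
  obtain ⟨Q, hQmax, hQ⟩ := Ideal.exists_ideal_over_maximal_of_isIntegral
    (S := integralClosure ℤ (AlgebraicClosure ℚ)) (Ideal.span {(l : ℤ)}) hker
  haveI : Q.IsPrime := hQmax.isPrime
  haveI : Q.LiesOver (Ideal.span {(l : ℤ)}) := ⟨hQ.symm⟩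
  letI : TopologicalSpace (integralClosure ℤ (AlgebraicClosure ℚ)) := ⊥
  haveI : DiscreteTopology (integralClosure ℤ (AlgebraicClosure ℚ)) := ⟨rfl⟩
  haveI : ContinuousSMul (AlgebraicClosure ℚ ≃ₐ[ℚ] AlgebraicClosure ℚ)
      (integralClosure ℤ (AlgebraicClosure ℚ)) :=
    continuousSMul_iff_stabilizer_isOpen.mpr stabilizer_zbar_isOpen
  -- the residue field
  letI : Field (integralClosure ℤ (AlgebraicClosure ℚ) ⧸ Q) := Ideal.Quotient.field Q
  have hlQ : ((l : ℤ) : integralClosure ℤ (AlgebraicClosure ℚ)) ∈ Q := by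
    have : (l : ℤ) ∈ Q.comap (algebraMap ℤ (integralClosure ℤ (AlgebraicClosure ℚ))) := by
      rw [hQ]; exact Ideal.subset_span rfl
    simpa using this
  haveI hchar : CharP (integralClosure ℤ (AlgebraicClosure ℚ) ⧸ Q) l := by
    rw [CharP.charP_iff_prime_eq_zero hl]
    have : ((l : ℤ) : integralClosure ℤ (AlgebraicClosure ℚ) ⧸ Q) = 0 := by
      have h := (Ideal.Quotient.eq_zero_iff_mem (I := Q)).mpr hlQ
      simpa using h
    simpa using this
  haveI : Fact l.Prime := ⟨hl⟩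
  letI : Algebra (ZMod l) (integralClosure ℤ (AlgebraicClosure ℚ) ⧸ Q) := ZMod.algebra _ l
  haveI : Algebra.IsAlgebraic (ZMod l) (integralClosure ℤ (AlgebraicClosure ℚ) ⧸ Q) := by
    refine ⟨fun y => ?_⟩
    obtain ⟨b, rfl⟩ := Ideal.Quotient.mk_surjective y
    have hb : IsIntegral ℤ b := Algebra.IsIntegral.isIntegral b
    have hb' : IsIntegral ℤ (Ideal.Quotient.mk Q b) := hb.map (Ideal.Quotient.mkₐ ℤ Q)
    exact (hb'.tower_top (A := ZMod l)).isAlgebraic
  haveI : PerfectField (integralClosure ℤ (AlgebraicClosure ℚ) ⧸ Q) :=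
    Algebra.IsAlgebraic.perfectField (K := ZMod l)
  haveI : PerfectRing (integralClosure ℤ (AlgebraicClosure ℚ) ⧸ Q) l :=
    PerfectField.toPerfectRing l
  let φ : (integralClosure ℤ (AlgebraicClosure ℚ) ⧸ Q) ≃ₐ[ℤ ⧸ Ideal.span {(l : ℤ)}]
      (integralClosure ℤ (AlgebraicClosure ℚ) ⧸ Q) :=
    AlgEquiv.ofRingEquiv (f := frobeniusEquiv (integralClosure ℤ (AlgebraicClosure ℚ) ⧸ Q) l)
      (by
        intro r
        obtain ⟨n, rfl⟩ := Ideal.Quotient.mk_surjective r
        have : algebraMap (ℤ ⧸ Ideal.span {(l : ℤ)})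
            (integralClosure ℤ (AlgebraicClosure ℚ) ⧸ Q) (Ideal.Quotient.mk _ n) =
            ((n : ℤ) : integralClosure ℤ (AlgebraicClosure ℚ) ⧸ Q) := by
          rw [Ideal.Quotient.algebraMap_mk_of_liesOver]
          simp
        rw [this, map_intCast])
  obtain ⟨σ, hσ⟩ := Ideal.Quotient.stabilizerHom_surjective_of_profinite
    (G := AlgebraicClosure ℚ ≃ₐ[ℚ] AlgebraicClosure ℚ) (Ideal.span {(l : ℤ)}) Q φ
  have hstab : (σ : AlgebraicClosure ℚ ≃ₐ[ℚ] AlgebraicClosure ℚ) • Q = Q := σ.2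
  have hmem : ∀ b : integralClosure ℤ (AlgebraicClosure ℚ),
      (σ : AlgebraicClosure ℚ ≃ₐ[ℚ] AlgebraicClosure ℚ) • b ∈ Q ↔ b ∈ Q := by
    intro b
    have h := Ideal.smul_mem_pointwise_smul_iff
      (a := (σ : AlgebraicClosure ℚ ≃ₐ[ℚ] AlgebraicClosure ℚ)) (S := Q) (x := b)
    rw [hstab] at h
    exact h
  refine ⟨Q, hQmax, σ, hQ, hmem, ?_, ?_⟩
  · intro b
    have h := hmem ((σ : AlgebraicClosure ℚ ≃ₐ[ℚ] AlgebraicClosure ℚ)⁻¹ • b)
    rw [smul_inv_smul] at h
    exact h.symm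
  · intro b
    have h := congrArg (fun f => f (Ideal.Quotient.mk Q b)) hσ
    simp only [Ideal.Quotient.stabilizerHom_apply] at h
    have h2 : φ (Ideal.Quotient.mk Q b) = (Ideal.Quotient.mk Q b) ^ l := by
      show frobeniusEquiv _ l (Ideal.Quotient.mk Q b) = _
      rw [frobeniusEquiv_apply, frobenius_def]
    rw [h2, ← map_pow] at h
    exact Ideal.Quotient.eq.mp h

theorem locSet_map_mem (Q : Ideal (integralClosure ℤ (AlgebraicClosure ℚ)))
    (τ : AlgebraicClosure ℚ ≃ₐ[ℚ] AlgebraicClosure ℚ)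
    (hτ : ∀ b : integralClosure ℤ (AlgebraicClosure ℚ), τ • b ∈ Q ↔ b ∈ Q)
    (x : AlgebraicClosure ℚ) (hx : x ∈ locSet Q) : τ x ∈ locSet Q := by
  obtain ⟨a, b, hb, h⟩ := hx
  refine ⟨τ • a, τ • b, fun hmem => hb ((hτ b).mp hmem), ?_⟩
  rw [zbarAction_coe, zbarAction_coe, ← map_mul, h]

theorem locSet_nonunit (Q : Ideal (integralClosure ℤ (AlgebraicClosure ℚ))) (hQp : Q.IsPrime)
    (z : AlgebraicClosure ℚ) (num den : integralClosure ℤ (AlgebraicClosure ℚ))
    (hnum : num ∈ Q) (hden : den ∉ Q)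
    (h : z * (den : AlgebraicClosure ℚ) = num) : z = 0 ∨ z⁻¹ ∉ locSet Q := by
  by_cases hz : z = 0
  · exact Or.inl hz
  right
  rintro ⟨c, d, hd, hcd⟩
  have hprod : den * d = num * c := by
    apply Subtype.ext
    push_cast
    rw [← h, ← hcd]
    field_simp
  have hmem : den * d ∈ Q := by rw [hprod]; exact Q.mul_mem_right _ hnum
  exact (hQp.mem_or_mem hmem).elim hden hd

/-- Existence of Frobenius elements in the absolute Galois group of `ℚ`, in the prelude's form. -/
theorem exists_isFrobeniusAt (l : ℕ) (hl : l.Prime) :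
    ∃ (A : ValuationSubring (AlgebraicClosure ℚ))
      (σ : AlgebraicClosure ℚ ≃ₐ[ℚ] AlgebraicClosure ℚ),
      A.LiesOverPrime l ∧ A.IsFrobeniusAt σ l := by
  obtain ⟨Q, hQmax, σ, hQ, hmem, hmem', hfrob⟩ := exists_frob_zbar l hl
  have hQp : Q.IsPrime := hQmax.isPrime
  have hlQ : ((l : ℕ) : integralClosure ℤ (AlgebraicClosure ℚ)) ∈ Q := by
    have : (l : ℤ) ∈ Q.comap (algebraMap ℤ (integralClosure ℤ (AlgebraicClosure ℚ))) := by
      rw [hQ]; exact Ideal.subset_span rfl
    simpa using this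
  refine ⟨locValuationSubring l hl Q hQp hQ, σ, ?_, ?_⟩
  · show (l : AlgebraicClosure ℚ) ∈ (locValuationSubring l hl Q hQp hQ).nonunits
    rw [ValuationSubring.mem_nonunits_iff_or]
    right
    have h1 : ((l : ℕ) : AlgebraicClosure ℚ) * ((1 : integralClosure ℤ (AlgebraicClosure ℚ)) :
        AlgebraicClosure ℚ) = ((l : integralClosure ℤ (AlgebraicClosure ℚ)) : AlgebraicClosure ℚ) := by
      push_cast; ring
    have h1' : (1 : integralClosure ℤ (AlgebraicClosure ℚ)) ∉ Q :=
      fun h => hQp.ne_top ((Ideal.eq_top_iff_one Q).mpr h)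
    have hl0 : ((l : ℕ) : AlgebraicClosure ℚ) ≠ 0 := by exact_mod_cast hl.ne_zero
    exact (locSet_nonunit Q hQp _ _ 1 hlQ h1' h1).resolve_left hl0
  · have hσA : σ ∈ (locValuationSubring l hl Q hQp hQ).decompositionSubgroup ℚ := by
      rw [MulAction.mem_stabilizer_iff]
      ext x
      rw [ValuationSubring.mem_pointwise_smul_iff_inv_smul_mem]
      constructor
      · intro hx
        have := locSet_map_mem Q σ hmem _ hx
        rw [AlgEquiv.smul_def] at this
        have h2 : σ (σ⁻¹ x) = x := by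
          rw [← AlgEquiv.mul_apply, mul_inv_cancel, AlgEquiv.one_apply]
        rwa [h2] at this
      · intro hx
        exact locSet_map_mem Q σ⁻¹ hmem' x hx
    refine ⟨hσA, fun x => ?_⟩
    obtain ⟨y, rfl⟩ := IsLocalRing.residue_surjective x
    rw [← IsLocalRing.ResidueField.residue_smul, ← map_pow]
    refine Ideal.Quotient.eq.mpr ?_
    rw [← ValuationSubring.coe_mem_nonunits_iff, ValuationSubring.mem_nonunits_iff_or]
    obtain ⟨a, b, hb, hab⟩ := y.2
    have hcoe : (((⟨σ, hσA⟩ : (locValuationSubring l hl Q hQp hQ).decompositionSubgroup ℚ) • y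
        - y ^ l : (locValuationSubring l hl Q hQp hQ)) : AlgebraicClosure ℚ) =
        σ (y : AlgebraicClosure ℚ) - (y : AlgebraicClosure ℚ) ^ l := rfl
    rw [hcoe]
    refine locSet_nonunit Q hQp _ ((σ • a - a ^ l) * b ^ l - a ^ l * (σ • b - b ^ l))
      (σ • b * b ^ l) ?_ ?_ ?_
    · exact Q.sub_mem (Q.mul_mem_right _ (hfrob a)) (Q.mul_mem_left _ (hfrob b))
    · intro h
      rcases hQp.mem_or_mem h with h | h
      · exact hb ((hmem b).mp h)
      · exact hb (hQp.mem_of_pow_mem l h)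
    · push_cast
      rw [zbarAction_coe, zbarAction_coe, ← hab, map_mul]
      ring

end Main

end Fermat.Agent.LibFrobenius

namespace Fermat.Agent.LibFrobenius

/-- Variant of `exists_isFrobeniusAt` with the existentials nested differently. -/
theorem exists_liesOver_isFrobeniusAt (l : ℕ) (hl : l.Prime) :
    ∃ A : ValuationSubring (AlgebraicClosure ℚ), A.LiesOverPrime l ∧
      ∃ σ : AlgebraicClosure ℚ ≃ₐ[ℚ] AlgebraicClosure ℚ, A.IsFrobeniusAt σ l := by
  obtain ⟨A, σ, hA, hσ⟩ := exists_isFrobeniusAt l hl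
  exact ⟨A, hA, σ, hσ⟩

end Fermat.Agent.LibFrobenius
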