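import Mathlib

set_option autoImplicit false

namespace Fermat.Agent.LibValuationIntegral

open Polynomial

variable {L : Type*} [Field L]

theorem integral_mem (A : ValuationSubring L) {x : L} (hx : IsIntegral ℤ x) : x ∈ A := by
  have h1 : IsIntegral A x := hx.tower_top
  obtain ⟨y, rfl⟩ := IsIntegrallyClosed.isIntegral_iff.mp h1
  exact y.2

theorem mul_mem_nonunits (A : ValuationSubring L) {c y : L} (hc : c ∈ A.nonunits) (hy : y ∈ A) :
    c * y ∈ A.nonunits := by
  rw [ValuationSubring.mem_nonunits_iff] at hc ⊢
  rw [map_mul]
  have hy' := (A.valuation_le_one_iff y).mpr hy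
  exact mul_lt_one_of_lt_of_le hc hy'

theorem zero_mem_nonunits (A : ValuationSubring L) : (0 : L) ∈ A.nonunits :=
  A.nonunits.zero_mem

/-- Kaplansky-style induction. -/
theorem exists_of_poly (A : ValuationSubring L) (y : L) (hy : y ∈ A) :
    ∀ (n : ℕ) (p : (integralClosure ℤ L)[X]), p.natDegree ≤ n → aeval y p = 0 →
      (∃ i, ((p.coeff i : integralClosure ℤ L) : L) ∉ A.nonunits) →
      ∃ s a : L, IsIntegral ℤ s ∧ IsIntegral ℤ a ∧ s ∉ A.nonunits ∧ s * y = a := by
  intro n
  induction n with
  | zero =>
    intro p hp h0 hex
    exfalso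
    rw [Polynomial.eq_C_of_natDegree_le_zero hp, aeval_C] at h0
    obtain ⟨i, hi⟩ := hex
    apply hi
    rw [Polynomial.eq_C_of_natDegree_le_zero hp, coeff_C]
    split_ifs
    · have : ((p.coeff 0 : integralClosure ℤ L) : L) = 0 := h0
      rw [this]; exact zero_mem_nonunits A
    · simp [zero_mem_nonunits A]
  | succ n ih =>
    intro p hp h0 hex
    by_cases hdeg : p.natDegree ≤ n
    · exact ih p hdeg h0 hex
    have hdeg' : p.natDegree = n + 1 := by omega
    have hint : IsIntegral ℤ (((p.leadingCoeff : integralClosure ℤ L) : L) * y) := by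
      have h1 : IsIntegral (integralClosure ℤ L) (p.leadingCoeff • y) :=
        isIntegral_leadingCoeff_smul p y h0
      have h2 : IsIntegral ℤ (p.leadingCoeff • y) := isIntegral_trans _ h1
      exact h2
    by_cases hc : ((p.leadingCoeff : integralClosure ℤ L) : L) ∈ A.nonunits
    · -- reduce the degree
      let b : integralClosure ℤ L := ⟨((p.leadingCoeff : integralClosure ℤ L) : L) * y, hint⟩
      let p' : (integralClosure ℤ L)[X] := C b * X ^ n + p.eraseLead
      have hp' : p'.natDegree ≤ n := by
        refine (natDegree_add_le _ _).trans (max_le ?_ ?_)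
        · exact natDegree_C_mul_X_pow_le b n
        · have := eraseLead_natDegree_le p
          omega
      have h0' : aeval y p' = 0 := by
        have h3 : aeval y p = aeval y p.eraseLead
            + ((p.leadingCoeff : integralClosure ℤ L) : L) * y ^ (n + 1) := by
          conv_lhs => rw [← eraseLead_add_C_mul_X_pow p]
          rw [map_add, map_mul, aeval_C, map_pow, aeval_X, hdeg']
          rfl
        have h4 : aeval y p' = ((p.leadingCoeff : integralClosure ℤ L) : L) * y * y ^ n
            + aeval y p.eraseLead := by
          simp only [p', map_add, map_mul, aeval_C, map_pow, aeval_X]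
          rfl
        rw [h4]
        rw [h3] at h0
        rw [← h0]
        ring
      by_cases hex' : ∃ i, ((p'.coeff i : integralClosure ℤ L) : L) ∉ A.nonunits
      · exact ih p' hp' h0' hex'
      · exfalso
        push Not at hex'
        obtain ⟨i, hi⟩ := hex
        have hcoeff : ∀ j, p'.coeff j = (if j = n then b else 0)
            + (if j = n + 1 then 0 else p.coeff j) := by
          intro j
          simp only [p', coeff_add, coeff_C_mul_X_pow, eraseLead_coeff, hdeg']
        have hin1 : i ≠ n + 1 := by
          rintro rfl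
          apply hi
          rw [← hdeg']
          exact hc
        by_cases hin : i = n
        · subst hin
          have h5 := hex' i
          rw [hcoeff i] at h5
          simp only [if_true, if_neg hin1] at h5
          have hb : ((b : integralClosure ℤ L) : L) ∈ A.nonunits := mul_mem_nonunits A hc hy
          apply hi
          have h6 : ((p.coeff i : integralClosure ℤ L) : L)
              = ((b + p.coeff i : integralClosure ℤ L) : L) - (b : L) := by
            push_cast; ring
          rw [h6]
          exact A.nonunits.sub_mem h5 hb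
        · have h5 := hex' i
          rw [hcoeff i] at h5
          simp only [if_neg hin, if_neg hin1, zero_add] at h5
          exact hi h5
    · exact ⟨_, _, p.leadingCoeff.2, hint, hc, rfl⟩

theorem intCast_not_mem_nonunits (A : ValuationSubring L) (l : ℕ) (hl : l.Prime)
    (hA : (l : L) ∈ A.nonunits) (c : ℤ) (hc : ¬ (l : ℤ) ∣ c) : (c : L) ∉ A.nonunits := by
  intro hcA
  have hcop : IsCoprime (l : ℤ) c := (Nat.prime_iff_prime_int.mp hl).coprime_iff_not_dvd.mpr hc
  obtain ⟨u, v, huv⟩ := hcop
  have h1 : (u : L) * (l : L) + (v : L) * (c : L) = 1 := by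
    have := congrArg (Int.cast : ℤ → L) huv
    push_cast at this
    exact this
  have hu : (u : L) ∈ A := integral_mem A (by simpa using (isIntegral_algebraMap (R := ℤ) (A := L) (x := u)))
  have hv : (v : L) ∈ A := integral_mem A (by simpa using (isIntegral_algebraMap (R := ℤ) (A := L) (x := v)))
  have h2 : (1 : L) ∈ A.nonunits := by
    rw [← h1]
    refine A.nonunits.add_mem ?_ ?_
    · rw [mul_comm]; exact mul_mem_nonunits A hA hu
    · rw [mul_comm]; exact mul_mem_nonunits A hcA hv
  rw [ValuationSubring.mem_nonunits_iff, map_one] at h2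
  exact lt_irrefl _ h2

/-- Every element of a valuation subring over a prime `l` of a characteristic zero field that is
algebraic over `ℤ` is a quotient of integral elements with denominator a unit. -/
theorem exists_integral_mul_eq [CharZero L] (A : ValuationSubring L) (l : ℕ) (hl : l.Prime)
    (hA : (l : L) ∈ A.nonunits) (y : L) (hyalg : IsAlgebraic ℤ y) (hy : y ∈ A) :
    ∃ s a : L, IsIntegral ℤ s ∧ IsIntegral ℤ a ∧ s ∉ A.nonunits ∧ s * y = a := by
  obtain ⟨q, hq0, hq⟩ := hyalg
  have hcont : q.content ≠ 0 := by rwa [Ne, content_eq_zero_iff]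
  have hprim : q.primPart.IsPrimitive := isPrimitive_primPart q
  have hq' : aeval y q.primPart = 0 := by
    have h1 : aeval y q = (q.content : L) * aeval y q.primPart := by
      conv_lhs => rw [eq_C_content_mul_primPart q]
      rw [map_mul, aeval_C]
      simp
    rw [h1] at hq
    rcases mul_eq_zero.mp hq with h | h
    · exact absurd (by exact_mod_cast h) hcont
    · exact h
  have hex : ∃ i, ¬ (l : ℤ) ∣ q.primPart.coeff i := by
    by_contra hall
    push Not at hall
    have hdvd : C (l : ℤ) ∣ q.primPart := (C_dvd_iff_dvd_coeff _ _).mpr hall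
    have hunit : IsUnit (l : ℤ) := hprim _ hdvd
    exact (Nat.prime_iff_prime_int.mp hl).not_isUnit hunit
  obtain ⟨i, hi⟩ := hex
  refine exists_of_poly A y hy _ (q.primPart.map (algebraMap ℤ (integralClosure ℤ L))) le_rfl ?_ ⟨i, ?_⟩
  · rw [aeval_map_algebraMap]; exact hq'
  · rw [coeff_map]
    have : ((algebraMap ℤ (integralClosure ℤ L) (q.primPart.coeff i) : integralClosure ℤ L) : L)
        = ((q.primPart.coeff i : ℤ) : L) := by
      simp
    rw [this]
    exact intCast_not_mem_nonunits A l hl hA _ hi

end Fermat.Agent.LibValuationIntegral
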