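import Mathlib
import Fermat.Prelude.Def_AlgebraicCurve_CanonicalDivisor

/-!
# Riemann–Roch for function fields: shared definitions

`K` is the constant field, `F/K` a function field of one variable, in the language of the
prelude (`AlgebraicCurve.Place`, `Place.ord`, `Divisor`, `Place.ordDifferential`).

* `Place.ord_add_ge`, `Place.ord_algebraMap`: basic valuation properties of `Place.ord`.
* `LSpace K F D`: the Riemann–Roch space `L(D) = {f | f = 0 ∨ ∀ v, 0 ≤ ord_v f + D v}`.
* `Adele K F`: repartitions (families `a : Place K F → F`, integral at almost all places).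
* `AdeleD K F D`: the repartitions with `ord_v (a v) ≥ -D v` everywhere.
* `WeilDiff K F D`: `K`-linear forms on `Adele K F` vanishing on `AdeleD K F D` and on the
  principal repartitions (constant families).
* `ResidueSystem K F`: residue maps `Ω[F⁄K] → K` at all places with the local properties and the
  residue theorem.
-/

set_option autoImplicit false

noncomputable section

open AlgebraicCurve KaehlerDifferential

namespace Fermat.Agent.RR

variable {K F : Type*} [Field K] [Field F] [Algebra K F]

/-- `ord_v (f + g) ≥ min (ord_v f) (ord_v g)`. -/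
theorem ord_add_ge (v : Place K F) {f g : F} (hf : f ≠ 0) (hg : g ≠ 0) (hfg : f + g ≠ 0) :
    min (v.ord f) (v.ord g) ≤ v.ord (f + g) := by
  have h := v.adicValuation.map_add f g
  have hf' := v.adicValuation_ne_zero hf
  have hg' := v.adicValuation_ne_zero hg
  have hfg' := v.adicValuation_ne_zero hfg
  simp only [Place.ord]
  rcases le_max_iff.mp h with h1 | h1
  · have := (WithZero.log_le_log hfg' hf').mpr h1
    omega
  · have := (WithZero.log_le_log hfg' hg').mpr h1
    omega

/-- Nonzero constants have order zero. -/
theorem ord_algebraMap (v : Place K F) (c : K) : v.ord (algebraMap K F c) = 0 := by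
  rcases eq_or_ne c 0 with rfl | hc
  · simp
  · have hu : IsUnit (algebraMap K v.toValuationSubring c) :=
      (IsUnit.mk0 c hc).map (algebraMap K v.toValuationSubring)
    have h1 : v.adicValuation (algebraMap K F c) = 1 := by
      have := (v.adicValuation_coe_eq_one_iff (algebraMap K v.toValuationSubring c)).mpr hu
      simpa using this
    simp [Place.ord, h1]

theorem ord_smul_const (v : Place K F) {c : K} (hc : c ≠ 0) (f : F) :
    v.ord (c • f) = v.ord f := by
  rcases eq_or_ne f 0 with rfl | hf
  · simp
  · rw [Algebra.smul_def, v.ord_mul ((map_ne_zero _).mpr hc) hf, ord_algebraMap, zero_add]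

theorem ord_neg (v : Place K F) (f : F) : v.ord (-f) = v.ord f := by
  simp [Place.ord]

variable (K F)

/-- The Riemann–Roch space `L(D)`. -/
def LSpace (D : Divisor K F) : Submodule K F where
  carrier := {f | f = 0 ∨ ∀ v : Place K F, 0 ≤ v.ord f + D v}
  zero_mem' := Or.inl rfl
  add_mem' := by
    rintro f g hf hg
    rcases eq_or_ne f 0 with rfl | hf0
    · simpa using hg
    rcases eq_or_ne g 0 with rfl | hg0
    · simpa using hf
    rcases eq_or_ne (f + g) 0 with h0 | h0
    · exact Or.inl h0
    refine Or.inr fun v => ?_
    have h1 := (hf.resolve_left hf0) v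
    have h2 := (hg.resolve_left hg0) v
    have h3 := ord_add_ge v hf0 hg0 h0
    rcases min_le_iff.mp h3 with h | h <;> omega
  smul_mem' := by
    rintro c f hf
    rcases eq_or_ne c 0 with rfl | hc
    · exact Or.inl (zero_smul _ _)
    rcases hf with rfl | hf
    · exact Or.inl (smul_zero _)
    · exact Or.inr fun v => by rw [ord_smul_const v hc]; exact hf v

variable {K F} in
theorem mem_LSpace {D : Divisor K F} {f : F} :
    f ∈ LSpace K F D ↔ f = 0 ∨ ∀ v : Place K F, 0 ≤ v.ord f + D v := Iff.rfl

/-- Repartitions: families that are integral at all but finitely many places. -/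
def Adele : Submodule K (Place K F → F) where
  carrier := {a | {v : Place K F | a v ≠ 0 ∧ v.ord (a v) < 0}.Finite}
  zero_mem' := by simp
  add_mem' := by
    rintro a b ha hb
    refine (ha.union hb).subset ?_
    rintro v ⟨hv0, hv⟩
    simp only [Pi.add_apply] at hv0 hv
    by_contra hcon
    simp only [Set.mem_union, Set.mem_ofPred_eq, not_or, not_and, not_lt] at hcon
    rcases eq_or_ne (a v) 0 with h1 | h1
    · rw [h1, zero_add] at hv hv0
      exact absurd (hcon.2 hv0) (not_le.mpr hv)
    rcases eq_or_ne (b v) 0 with h2 | h2
    · rw [h2, add_zero] at hv hv0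
      exact absurd (hcon.1 hv0) (not_le.mpr hv)
    have h3 := ord_add_ge v h1 h2 hv0
    have := hcon.1 h1
    have := hcon.2 h2
    rcases min_le_iff.mp h3 with h | h <;> omega
  smul_mem' := by
    rintro c a ha
    refine ha.subset ?_
    rintro v ⟨hv0, hv⟩
    simp only [Pi.smul_apply] at hv0 hv
    have hc : c ≠ 0 := by rintro rfl; simp at hv0
    have ha0 : a v ≠ 0 := by rintro h; simp [h] at hv0
    exact ⟨ha0, by rwa [ord_smul_const v hc] at hv⟩

/-- The repartitions bounded by the divisor `D`: `ord_v (a v) ≥ -D v` at every place. -/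
def AdeleD (D : Divisor K F) : Submodule K (Place K F → F) where
  carrier := {a | ∀ v : Place K F, a v = 0 ∨ 0 ≤ v.ord (a v) + D v}
  zero_mem' := fun _ => Or.inl rfl
  add_mem' := by
    rintro a b ha hb v
    simp only [Pi.add_apply]
    rcases eq_or_ne (a v) 0 with h1 | h1
    · rw [h1, zero_add]; exact hb v
    rcases eq_or_ne (b v) 0 with h2 | h2
    · rw [h2, add_zero]; exact ha v
    rcases eq_or_ne (a v + b v) 0 with h0 | h0
    · exact Or.inl h0
    refine Or.inr ?_
    have h3 := ord_add_ge v h1 h2 h0
    have := (ha v).resolve_left h1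
    have := (hb v).resolve_left h2
    rcases min_le_iff.mp h3 with h | h <;> omega
  smul_mem' := by
    rintro c a ha v
    simp only [Pi.smul_apply]
    rcases eq_or_ne c 0 with rfl | hc
    · exact Or.inl (zero_smul _ _)
    rcases ha v with h | h
    · exact Or.inl (by rw [h, smul_zero])
    · exact Or.inr (by rw [ord_smul_const v hc]; exact h)

/-- The principal repartition of `f` (the constant family). -/
def diag : F →ₗ[K] (Place K F → F) where
  toFun f := fun _ => f
  map_add' _ _ := rfl
  map_smul' _ _ := rfl

variable {K F} in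
@[simp] theorem diag_apply (f : F) (v : Place K F) : diag K F f v = f := rfl

/-- Weil differentials of level `D`: linear forms on the repartitions vanishing on
`AdeleD K F D` and on the principal repartitions. -/
def WeilDiff (D : Divisor K F) : Submodule K (Module.Dual K (Adele K F)) where
  carrier := {l | (∀ a : Adele K F, (a : Place K F → F) ∈ AdeleD K F D → l a = 0) ∧
    ∀ a : Adele K F, (∃ f : F, (a : Place K F → F) = diag K F f) → l a = 0}
  zero_mem' := ⟨fun _ _ => rfl, fun _ _ => rfl⟩
  add_mem' := by
    rintro l m ⟨hl1, hl2⟩ ⟨hm1, hm2⟩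
    exact ⟨fun a ha => by rw [LinearMap.add_apply, hl1 a ha, hm1 a ha, add_zero],
      fun a ha => by rw [LinearMap.add_apply, hl2 a ha, hm2 a ha, add_zero]⟩
  smul_mem' := by
    rintro c l ⟨hl1, hl2⟩
    exact ⟨fun a ha => by rw [LinearMap.smul_apply, hl1 a ha, smul_zero],
      fun a ha => by rw [LinearMap.smul_apply, hl2 a ha, smul_zero]⟩

/-- A residue system: residue maps at all places, vanishing on differentials regular at the
place, nonvanishing on differentials with a simple pole, and satisfying the residue theorem. -/
structure ResidueSystem where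
  /-- the residue at a place -/
  res : Place K F → Ω[F⁄K] →ₗ[K] K
  res_eq_zero : ∀ (v : Place K F) (ω : Ω[F⁄K]), 0 ≤ v.ordDifferential ω → res v ω = 0
  res_ne_zero : ∀ (v : Place K F) (ω : Ω[F⁄K]), v.ordDifferential ω = -1 → res v ω ≠ 0
  finite_support : ∀ ω : Ω[F⁄K], {v : Place K F | res v ω ≠ 0}.Finite
  sum_res : ∀ ω : Ω[F⁄K], ∑ᶠ v : Place K F, res v ω = 0

end Fermat.Agent.RR
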