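import Mathlib
import Fermat.Prelude.Def_AlgebraicCurve_CanonicalDivisor
import Fermat.Prelude.Def_ModularCurve_ArithmeticGalois
import Fermat.Prelude.Def_ModularCurve_GenusNumerics

/-!
# S24: shared definitions

* `IsGenerator K x`: `x` is a separating generator of the function field `F/K`
  (transcendental, `F` finite over `K(x)`).
* `PlacesAt K x x₀`: the places of `F/K` at which `x - x₀` has positive order.
* `IntVal K L`: a lightweight integer valued valuation on a field `L`, trivial on `K`.
* `jBar N`: the element `j` of the function field of `X₀(N)` over `ℚ̄`.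
-/

set_option autoImplicit false

noncomputable section

open AlgebraicCurve

namespace Fermat.Agent.S24

/-- `x` generates the function field `F/K`: it is transcendental over `K` and `F` is finite
over `K(x)`. -/
def IsGenerator (K : Type*) {F : Type*} [Field K] [Field F] [Algebra K F] (x : F) : Prop :=
  Transcendental K x ∧ FiniteDimensional (IntermediateField.adjoin K {x}) F

/-- The places of `F/K` lying over the point `x = x₀`. -/
def PlacesAt (K : Type*) {F : Type*} [Field K] [Field F] [Algebra K F] (x : F) (x₀ : K) :
    Set (Place K F) :=
  {v | 0 < v.ord (x - algebraMap K F x₀)}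

/-- An integer valued valuation on `L`, trivial on the nonzero constants (the value at `0` is
irrelevant). -/
structure IntVal (K L : Type*) [Field K] [Field L] [Algebra K L] where
  /-- the underlying function -/
  toFun : L → ℤ
  map_mul' : ∀ a b : L, a ≠ 0 → b ≠ 0 → toFun (a * b) = toFun a + toFun b
  map_add' : ∀ a b : L, a ≠ 0 → b ≠ 0 → a + b ≠ 0 → min (toFun a) (toFun b) ≤ toFun (a + b)
  map_algebraMap' : ∀ c : K, c ≠ 0 → toFun (algebraMap K L c) = 0

/-- The `j`-function as an element of the function field of `X₀(N)` over `ℚ̄`. -/
def jBar (N : ℕ) [NeZero N] : ↥(ModularCurve.modularFunctionFieldBar N) :=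
  ⟨ModularCurve.coeffEmb (AlgebraicClosure ℚ) ModularCurve.jq,
    ModularCurve.coeffEmb_mem_laurentBaseChange (AlgebraicClosure ℚ)
      (ModularCurve.modularFunctionField_le_full N (ModularCurve.jq_mem N))⟩

end Fermat.Agent.S24
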