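import Mathlib
import Fermat.Agent.S24_Defs

set_option autoImplicit false
set_option linter.style.haveILetI false
set_option linter.unusedSectionVars false

noncomputable section

open AlgebraicCurve Polynomial IsDedekindDomain

namespace Fermat.Agent.S24.Places

section Basic

variable {K F : Type*} [Field K] [Field F] [Algebra K F]

/-- elements of the valuation ring have nonnegative order -/
theorem ord_nonneg_of_mem (v : Place K F) {f : F} (hf : f ∈ v.toValuationSubring) :
    0 ≤ v.ord f := by
  rcases eq_or_ne f 0 with rfl | hf0
  · simp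
  have h1 : v.adicValuation f ≤ 1 := by
    have := v.adicValuation_coe ⟨f, hf⟩
    rw [this]
    exact HeightOneSpectrum.intValuation_le_one _ _
  have h2 := WithZero.log_le_log (v.adicValuation_ne_zero hf0) one_ne_zero |>.mpr h1
  rw [WithZero.log_one] at h2
  unfold Place.ord
  omega

/-- elements of the maximal ideal have positive order -/
theorem ord_pos_of_mem_maximalIdeal (v : Place K F) {a : v.toValuationSubring}
    (ha : a ∈ IsLocalRing.maximalIdeal v.toValuationSubring) (ha0 : a ≠ 0) :
    0 < v.ord (a : F) := by
  have hf0 : (a : F) ≠ 0 := fun h => ha0 (Subtype.ext h)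
  have h1 : v.adicValuation (a : F) < 1 := by
    rw [v.adicValuation_coe a]
    exact (HeightOneSpectrum.intValuation_lt_one_iff_mem _ _).mpr ha
  have h2 := WithZero.log_lt_log (v.adicValuation_ne_zero hf0) one_ne_zero |>.mpr h1
  rw [WithZero.log_one] at h2
  unfold Place.ord
  omega

/-- units of the valuation ring have order zero -/
theorem ord_eq_zero_of_isUnit (v : Place K F) {a : v.toValuationSubring} (ha : IsUnit a) :
    v.ord (a : F) = 0 := v.ord_coe_unit ha.unit

theorem mem_of_ord_nonneg (v : Place K F) {f : F} (hf : 0 ≤ v.ord f) :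
    f ∈ v.toValuationSubring := by
  by_contra hmem
  have hf0 : f ≠ 0 := fun h => hmem (h ▸ zero_mem _)
  have hinv : f⁻¹ ∈ v.toValuationSubring := (v.toValuationSubring.mem_or_inv_mem f).resolve_left hmem
  have hnu : (⟨f⁻¹, hinv⟩ : v.toValuationSubring) ∈ IsLocalRing.maximalIdeal v.toValuationSubring := by
    rw [IsLocalRing.mem_maximalIdeal, mem_nonunits_iff]
    intro hu
    obtain ⟨u, hu⟩ := hu
    apply hmem
    have : ((u⁻¹ : v.toValuationSubringˣ) : F) = f := by
      have h1 : ((u : v.toValuationSubring) : F) = f⁻¹ := congrArg Subtype.val hu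
      have h2 : ((u : v.toValuationSubring) : F) * ((u⁻¹ : v.toValuationSubringˣ) : F) = 1 := by
        rw [← MulMemClass.coe_mul, Units.mul_inv]
        rfl
      rw [h1] at h2
      field_simp at h2
      exact h2
    rw [← this]
    exact Subtype.property _
  have hpos := ord_pos_of_mem_maximalIdeal v hnu (fun h => by
    have := congrArg Subtype.val h
    simp at this
    exact hf0 this)
  rw [show ((⟨f⁻¹, hinv⟩ : v.toValuationSubring) : F) = f⁻¹ from rfl, v.ord_inv] at hpos
  omega

theorem mem_iff_ord_nonneg (v : Place K F) {f : F} :
    f ∈ v.toValuationSubring ↔ 0 ≤ v.ord f :=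
  ⟨ord_nonneg_of_mem v, mem_of_ord_nonneg v⟩

/-- positive order means: in the maximal ideal -/
theorem mem_maximalIdeal_of_ord_pos (v : Place K F) {f : F} (hf : 0 < v.ord f) :
    ∃ h : f ∈ v.toValuationSubring,
      (⟨f, h⟩ : v.toValuationSubring) ∈ IsLocalRing.maximalIdeal v.toValuationSubring := by
  have hmem := mem_of_ord_nonneg v hf.le
  refine ⟨hmem, ?_⟩
  rw [IsLocalRing.mem_maximalIdeal, mem_nonunits_iff]
  intro hu
  have := ord_eq_zero_of_isUnit v hu
  simp only at this
  omega

theorem ord_algebraMap (v : Place K F) (c : K) : v.ord (algebraMap K F c) = 0 := by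
  rcases eq_or_ne c 0 with rfl | hc
  · simp
  have hu : IsUnit (algebraMap K v.toValuationSubring c) := (IsUnit.mk0 c hc).map _
  have := ord_eq_zero_of_isUnit v hu
  rwa [v.coe_algebraMap] at this

/-- the ultrametric inequality -/
theorem min_ord_le_ord_add (v : Place K F) {f g : F} (hf : f ≠ 0) (hg : g ≠ 0) (hfg : f + g ≠ 0) :
    min (v.ord f) (v.ord g) ≤ v.ord (f + g) := by
  have h := Valuation.map_add v.adicValuation f g
  have hlog := WithZero.log_le_log (v.adicValuation_ne_zero hfg)
    (by
      rcases max_choice (v.adicValuation f) (v.adicValuation g) with h' | h'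
      · rw [h']; exact v.adicValuation_ne_zero hf
      · rw [h']; exact v.adicValuation_ne_zero hg) |>.mpr h
  unfold Place.ord
  rcases max_choice (v.adicValuation f) (v.adicValuation g) with h' | h'
  · rw [h'] at hlog
    exact (min_le_left _ _).trans (by omega)
  · rw [h'] at hlog
    exact (min_le_right _ _).trans (by omega)

end Basic

section Exchange

variable {K F : Type*} [Field K] [Field F] [Algebra K F]

open IntermediateField in
/-- a generator makes `F` algebraic over `K[x]` -/
theorem isTranscendenceBasis_of_isGenerator {x : F} (hx : IsGenerator K x) :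
    IsTranscendenceBasis K (fun _ : Unit => x) := by
  have hind : AlgebraicIndependent K (fun _ : Unit => x) :=
    algebraicIndependent_unique_type_iff.mpr hx.1
  rw [hind.isTranscendenceBasis_iff_isAlgebraic]
  have hrange : Set.range (fun _ : Unit => x) = {x} := by
    ext y; simp [eq_comm]
  rw [hrange]
  haveI := hx.2
  open algebraAdjoinAdjoin in
  exact Algebra.IsAlgebraic.trans (Algebra.adjoin K {x}) (IntermediateField.adjoin K {x}) F

open IntermediateField in
theorem essFiniteType_of_isGenerator {x : F} (hx : IsGenerator K x) :
    Algebra.EssFiniteType K F := by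
  haveI := hx.2
  haveI : Algebra.EssFiniteType K (IntermediateField.adjoin K {x}) :=
    (IntermediateField.essFiniteType_iff (K := IntermediateField.adjoin K {x})).mpr
      (IntermediateField.fg_adjoin_of_finite (Set.finite_singleton x))
  exact Algebra.EssFiniteType.comp K (IntermediateField.adjoin K {x}) F

/-- exchange: any transcendental element is again a generator. -/
theorem isGenerator_of_transcendental {x y : F} (hx : IsGenerator K x) (hy : Transcendental K y) :
    IsGenerator K y := by
  refine ⟨hy, ?_⟩
  have hbx := isTranscendenceBasis_of_isGenerator hx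
  have hind : AlgebraicIndependent K (fun _ : Unit => y) :=
    algebraicIndependent_unique_type_iff.mpr hy
  have hby : IsTranscendenceBasis K (fun _ : Unit => y) :=
    hind.isTranscendenceBasis_of_lift_trdeg_le_of_finite hbx.lift_cardinalMk_eq_trdeg.ge
  have halg := hby.isAlgebraic_field
  have hrange : Set.range (fun _ : Unit => y) = {y} := by
    ext z; simp [eq_comm]
  rw [hrange] at halg
  haveI := essFiniteType_of_isGenerator hx
  haveI : Algebra.EssFiniteType (IntermediateField.adjoin K {y}) F :=
    Algebra.EssFiniteType.of_comp K (IntermediateField.adjoin K {y}) F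
  exact Algebra.finite_of_essFiniteType_of_isAlgebraic

end Exchange

section AlgClosed

variable {K F : Type*} [Field K] [IsAlgClosed K] [Field F] [Algebra K F]

/-- algebraic elements over an algebraically closed field are constants -/
theorem exists_algebraMap_eq_of_isAlgebraic {y : F} (hy : IsAlgebraic K y) :
    ∃ c : K, algebraMap K F c = y := by
  have hint : IsIntegral K y := hy.isIntegral
  have hdeg := IsAlgClosed.degree_eq_one_of_irreducible K (minpoly.irreducible hint)
  exact (minpoly.degree_eq_one_iff).mp hdeg

/-- an element with a zero or a pole somewhere is transcendental. -/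
theorem transcendental_of_ord_ne_zero (v : Place K F) {y : F} (hy : v.ord y ≠ 0) :
    Transcendental K y := by
  intro halg
  obtain ⟨c, rfl⟩ := exists_algebraMap_eq_of_isAlgebraic halg
  exact hy (ord_algebraMap v c)

theorem placesAt_disjoint {x : F} (x₀ x₁ : K) (h : x₀ ≠ x₁) :
    Disjoint (PlacesAt K x x₀) (PlacesAt K x x₁) := by
  rw [Set.disjoint_left]
  intro v h0 h1
  change 0 < v.ord _ at h0 h1
  have hc : algebraMap K F (x₁ - x₀) ≠ 0 := by
    rw [Ne, map_eq_zero]
    exact sub_ne_zero.mpr (Ne.symm h)
  have hne0 : x - algebraMap K F x₀ ≠ 0 := fun h' => by rw [h', Place.ord_zero] at h0; omega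
  have hne1 : x - algebraMap K F x₁ ≠ 0 := fun h' => by rw [h', Place.ord_zero] at h1; omega
  have hsum : (x - algebraMap K F x₀) + -(x - algebraMap K F x₁) = algebraMap K F (x₁ - x₀) := by
    rw [map_sub]; ring
  have hneg : v.ord (-(x - algebraMap K F x₁)) = v.ord (x - algebraMap K F x₁) := by
    have : -(x - algebraMap K F x₁) = algebraMap K F (-1) * (x - algebraMap K F x₁) := by
      rw [map_neg, map_one]; ring
    rw [this, v.ord_mul (by rw [Ne, map_eq_zero]; norm_num) hne1, ord_algebraMap, zero_add]
  have := min_ord_le_ord_add v hne0 (neg_ne_zero.mpr hne1) (by rw [hsum]; exact hc)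
  rw [hsum, ord_algebraMap, hneg] at this
  have := lt_min h0 h1
  omega

theorem not_mem_placesAt_of_ord_neg {x : F} (v : Place K F) (hv : v.ord x < 0) (x₀ : K) :
    v ∉ PlacesAt K x x₀ := by
  intro h0
  change 0 < v.ord _ at h0
  have h1 : x - algebraMap K F x₀ ∈ v.toValuationSubring := mem_of_ord_nonneg v h0.le
  have h2 : x ∈ v.toValuationSubring := by
    have := add_mem h1 (v.algebraMap_mem' x₀)
    simpa using this
  have := ord_nonneg_of_mem v h2
  omega

/-- the residue field of a place of a function field over an algebraically closed field is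
algebraic over the constants -/
theorem isAlgebraic_residueField {x : F} (hx : IsGenerator K x) (v : Place K F) :
    Algebra.IsAlgebraic K v.ResidueField := by
  constructor
  intro zbar
  obtain ⟨z, rfl⟩ := IsLocalRing.residue_surjective zbar
  by_contra htr
  -- `z` is transcendental over `K`
  have hz : Transcendental K (z : F) := by
    intro halg
    obtain ⟨c, hc⟩ := exists_algebraMap_eq_of_isAlgebraic halg
    apply htr
    have : z = algebraMap K v.toValuationSubring c := Subtype.ext hc.symm
    rw [this]
    exact isAlgebraic_algebraMap (R := K) (A := v.ResidueField) c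
  have hgen := isGenerator_of_transcendental hx hz
  -- every nonzero polynomial in `z` is a unit of the valuation ring
  have hunit : ∀ p : K[X], p ≠ 0 → IsUnit (Polynomial.aeval z p) := by
    intro p hp
    by_contra hnu
    apply htr
    refine ⟨p, hp, ?_⟩
    have hmem : Polynomial.aeval z p ∈ IsLocalRing.maximalIdeal v.toValuationSubring := hnu
    have h0 : IsLocalRing.residue v.toValuationSubring (Polynomial.aeval z p) = 0 :=
      (IsLocalRing.residue_eq_zero_iff _).mpr hmem
    rw [← h0]
    exact (Polynomial.aeval_algHom_apply
      (IsScalarTower.toAlgHom K v.toValuationSubring v.ResidueField) z p)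
  -- hence `K(z)` is contained in the valuation ring
  have hsub : ∀ y ∈ IntermediateField.adjoin K {(z : F)}, y ∈ v.toValuationSubring := by
    intro y hy
    rw [IntermediateField.mem_adjoin_simple_iff] at hy
    obtain ⟨r, s, rfl⟩ := hy
    by_cases hs : s = 0
    · rw [hs, map_zero, div_zero]; exact zero_mem _
    have h1 : Polynomial.aeval (z : F) r = ((Polynomial.aeval z r : v.toValuationSubring) : F) :=
      Polynomial.aeval_algHom_apply (IsScalarTower.toAlgHom K v.toValuationSubring F) z r
    have h2 : Polynomial.aeval (z : F) s = ((Polynomial.aeval z s : v.toValuationSubring) : F) :=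
      Polynomial.aeval_algHom_apply (IsScalarTower.toAlgHom K v.toValuationSubring F) z s
    obtain ⟨u, hu⟩ := hunit s hs
    have h3 : (Polynomial.aeval (z : F) s)⁻¹ = ((u⁻¹ : v.toValuationSubringˣ) : F) := by
      rw [h2, ← hu]
      apply inv_eq_of_mul_eq_one_right
      rw [← MulMemClass.coe_mul, Units.mul_inv]
      rfl
    rw [div_eq_mul_inv, h1, h3]
    exact mul_mem (Subtype.property _) (Subtype.property _)
  -- so every element of `F` is integral over the valuation ring
  apply v.ne_top'
  rw [eq_top_iff]
  intro y _
  haveI := hgen.2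
  have hint : IsIntegral (IntermediateField.adjoin K {(z : F)}) y :=
    (Algebra.IsIntegral.of_finite (IntermediateField.adjoin K {(z : F)}) F).isIntegral y
  obtain ⟨p, hp, hpy⟩ := hint
  let φ : IntermediateField.adjoin K {(z : F)} →+* v.toValuationSubring :=
    { toFun := fun y => ⟨y.1, hsub y.1 y.2⟩
      map_one' := rfl
      map_mul' := fun _ _ => rfl
      map_zero' := rfl
      map_add' := fun _ _ => rfl }
  have hint' : IsIntegral v.toValuationSubring y := by
    refine ⟨p.map φ, hp.map φ, ?_⟩
    rw [← hpy, Polynomial.eval₂_map]
    rfl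
  obtain ⟨a, ha⟩ := (IsIntegrallyClosed.isIntegral_iff (R := v.toValuationSubring) (K := F)).mp hint'
  rw [← ha]
  exact a.2

/-- every place has degree one (residue field `= K`). -/
theorem deg_eq_one {x : F} (hx : IsGenerator K x) (v : Place K F) : v.deg = 1 := by
  haveI := isAlgebraic_residueField hx v
  have : Algebra.IsIntegral K v.ResidueField := Algebra.IsAlgebraic.isIntegral
  have hbij : Function.Bijective (algebraMap K v.ResidueField) :=
    IsAlgClosed.algebraMap_bijective_of_isIntegral
  show Module.finrank K v.ResidueField = 1
  rw [← Module.finrank_self K]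
  exact ((AlgEquiv.ofBijective (Algebra.ofId K v.ResidueField) hbij).toLinearEquiv.finrank_eq).symm

/-- the residue map from the constants is surjective -/
theorem residue_algebraMap_surjective {x : F} (hx : IsGenerator K x) (v : Place K F) :
    Function.Surjective (algebraMap K v.ResidueField) := by
  haveI := isAlgebraic_residueField hx v
  have : Algebra.IsIntegral K v.ResidueField := Algebra.IsAlgebraic.isIntegral
  exact (IsAlgClosed.algebraMap_bijective_of_isIntegral (k := K) (K := v.ResidueField)).2

/-- every element of the valuation ring is congruent to a constant -/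
theorem exists_sub_mem_maximalIdeal {x : F} (hx : IsGenerator K x) (v : Place K F)
    (a : v.toValuationSubring) :
    ∃ c : K, a - algebraMap K v.toValuationSubring c ∈
      IsLocalRing.maximalIdeal v.toValuationSubring := by
  obtain ⟨c, hc⟩ := residue_algebraMap_surjective hx v (IsLocalRing.residue _ a)
  refine ⟨c, ?_⟩
  rw [← IsLocalRing.residue_eq_zero_iff, map_sub, sub_eq_zero, ← hc]
  rfl

/-- every place is a pole of `x` or has a unique centre `x₀`. -/
theorem ord_neg_or_exists_center {x : F} (hx : IsGenerator K x) (v : Place K F) :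
    v.ord x < 0 ∨ ∃ x₀ : K, v ∈ PlacesAt K x x₀ := by
  by_cases hneg : v.ord x < 0
  · exact Or.inl hneg
  right
  have hmem : x ∈ v.toValuationSubring := mem_of_ord_nonneg v (not_lt.mp hneg)
  obtain ⟨c, hc⟩ := exists_sub_mem_maximalIdeal hx v ⟨x, hmem⟩
  refine ⟨c, ?_⟩
  have hne : (⟨x, hmem⟩ : v.toValuationSubring) - algebraMap K v.toValuationSubring c ≠ 0 := by
    intro h0
    apply hx.1
    have h1 : x = algebraMap K F c := by
      have := congrArg Subtype.val (sub_eq_zero.mp h0)
      exact this
    rw [h1]
    exact isAlgebraic_algebraMap c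
  have hpos := ord_pos_of_mem_maximalIdeal v hc hne
  have hcoe : (((⟨x, hmem⟩ : v.toValuationSubring) - algebraMap K v.toValuationSubring c :
      v.toValuationSubring) : F) = x - algebraMap K F c := by
    rw [AddSubgroupClass.coe_sub, v.coe_algebraMap]
  rw [hcoe] at hpos
  exact hpos

end AlgClosed

end Fermat.Agent.S24.Places
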