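import Mathlib
import Fermat.Agent.S24_Defs
import Fermat.Agent.S24_PlacesBasic
import Fermat.Agent.RR_Defs

set_option autoImplicit false

/-!
# Riemann–Roch spaces: elementary properties (core, with the inputs from the theory of places
as explicit hypotheses)

Hypotheses used below:
* `hres`: every element of a valuation ring is congruent to a constant modulo the maximal ideal
  (residue field `= K`);
* `hdeg`: every place has degree one;
* `hpr : HasPrincipalDivisors K F`;
* `hne : Nonempty (Place K F)`.
-/

noncomputable section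

open AlgebraicCurve Fermat.Agent.S24

namespace Fermat.Agent.RR.LCore

variable {K F : Type*} [Field K] [Field F] [Algebra K F]

/-- The residue hypothesis: every element of a valuation ring is a constant modulo the maximal
ideal. -/
def ResConst (K F : Type*) [Field K] [Field F] [Algebra K F] : Prop :=
  ∀ (v : Place K F) (a : v.toValuationSubring), ∃ c : K,
    a - algebraMap K v.toValuationSubring c ∈ IsLocalRing.maximalIdeal v.toValuationSubring

theorem LSpace_mono {D E : Divisor K F} (h : D ≤ E) : LSpace K F D ≤ LSpace K F E := by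
  intro f hf
  rcases hf with rfl | hf
  · exact Or.inl rfl
  · exact Or.inr fun v => le_trans (hf v) (by have := h v; omega)

theorem degree_eq_sum (D : Divisor K F) :
    Divisor.degree D = D.sum fun v k => k * (v.deg : ℤ) := by
  simp [Divisor.degree]

theorem degree_nonneg {D : Divisor K F} (h : 0 ≤ D) : 0 ≤ Divisor.degree D := by
  rw [degree_eq_sum]
  exact Finset.sum_nonneg fun v _ => mul_nonneg (h v) (Int.natCast_nonneg _)

theorem degree_mono {D E : Divisor K F} (h : D ≤ E) : Divisor.degree D ≤ Divisor.degree E := by
  have h1 := degree_nonneg (sub_nonneg.mpr h)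
  rw [map_sub] at h1
  linarith

theorem degree_single_one (hdeg : ∀ v : Place K F, v.deg = 1) (v : Place K F) :
    Divisor.degree (Finsupp.single v (1 : ℤ)) = 1 := by
  rw [Divisor.degree_single, hdeg]; simp

/-- One step: `L(D + v) = L(D) + K g`. -/
theorem exists_sub_smul_mem (hres : ResConst K F) (D : Divisor K F) (v : Place K F) {f g : F}
    (hf : f ∈ LSpace K F (D + Finsupp.single v 1))
    (hg : g ∈ LSpace K F (D + Finsupp.single v 1)) (hgD : g ∉ LSpace K F D) :
    ∃ c : K, f - c • g ∈ LSpace K F D := by
  classical
  have hg0 : g ≠ 0 := fun h => hgD (h ▸ Or.inl rfl)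
  have hg' := hg.resolve_left hg0
  have hother : ∀ w : Place K F, w ≠ v → (D + Finsupp.single v 1 : Divisor K F) w = D w := by
    intro w hw
    rw [Finsupp.add_apply, Finsupp.single_apply, if_neg (Ne.symm hw), add_zero]
  have hat : (D + Finsupp.single v 1 : Divisor K F) v = D v + 1 := by
    rw [Finsupp.add_apply, Finsupp.single_apply, if_pos rfl]
  -- the order of `g` at `v`
  have hgv : v.ord g + D v < 0 := by
    by_contra hcon
    apply hgD
    refine Or.inr fun w => ?_
    by_cases hw : w = v
    · subst hw; exact not_lt.mp hcon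
    · have := hg' w; rwa [hother w hw] at this
  have hgv' : 0 ≤ v.ord g + (D v + 1) := by have := hg' v; rwa [hat] at this
  rcases eq_or_ne f 0 with rfl | hf0
  · exact ⟨0, by simp⟩
  have hf' := hf.resolve_left hf0
  have hfv : 0 ≤ v.ord f + (D v + 1) := by have := hf' v; rwa [hat] at this
  have hh : 0 ≤ v.ord (f * g⁻¹) := by
    rw [v.ord_mul hf0 (inv_ne_zero hg0), v.ord_inv]; omega
  have hmem : f * g⁻¹ ∈ v.toValuationSubring := Places.mem_of_ord_nonneg v hh
  obtain ⟨c, hc⟩ := hres v ⟨f * g⁻¹, hmem⟩
  refine ⟨c, ?_⟩
  rcases eq_or_ne (f - c • g) 0 with h0 | h0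
  · exact Or.inl h0
  have hmemE : f - c • g ∈ LSpace K F (D + Finsupp.single v 1) :=
    Submodule.sub_mem _ hf (Submodule.smul_mem _ c hg)
  have hE := hmemE.resolve_left h0
  refine Or.inr fun w => ?_
  by_cases hw : w = v
  · subst hw
    have hfac : f - c • g = g * (f * g⁻¹ - algebraMap K F c) := by
      rw [Algebra.smul_def]; field_simp
    have hne : (⟨f * g⁻¹, hmem⟩ : w.toValuationSubring) - algebraMap K w.toValuationSubring c ≠ 0 := by
      intro h
      apply h0
      rw [hfac]
      have h1 : f * g⁻¹ - algebraMap K F c = 0 := by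
        have := congrArg Subtype.val h
        simpa using this
      rw [h1, mul_zero]
    have hpos := Places.ord_pos_of_mem_maximalIdeal w hc hne
    have hcoe : (((⟨f * g⁻¹, hmem⟩ : w.toValuationSubring) - algebraMap K w.toValuationSubring c :
        w.toValuationSubring) : F) = f * g⁻¹ - algebraMap K F c := by
      rw [AddSubgroupClass.coe_sub, w.coe_algebraMap]
    rw [hcoe] at hpos
    have hne' : f * g⁻¹ - algebraMap K F c ≠ 0 := by
      intro h; apply h0; rw [hfac, h, mul_zero]
    rw [hfac, w.ord_mul hg0 hne']
    omega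
  · have := hE w; rwa [hother w hw] at this

theorem LSpace_single_le (hres : ResConst K F) (D : Divisor K F) (v : Place K F) :
    ∃ g : F, LSpace K F (D + Finsupp.single v 1) ≤ LSpace K F D ⊔ Submodule.span K {g} := by
  by_cases h : LSpace K F (D + Finsupp.single v 1) ≤ LSpace K F D
  · exact ⟨0, h.trans le_sup_left⟩
  · obtain ⟨g, hg, hgD⟩ := SetLike.not_le_iff_exists.mp h
    refine ⟨g, fun f hf => ?_⟩
    obtain ⟨c, hc⟩ := exists_sub_smul_mem hres D v hf hg hgD
    have : f = (f - c • g) + c • g := by ring
    rw [this]
    exact Submodule.add_mem _ (Submodule.mem_sup_left hc)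
      (Submodule.mem_sup_right (Submodule.smul_mem _ c (Submodule.mem_span_singleton_self g)))

theorem finrank_LSpace_single_le (hres : ResConst K F) (D : Divisor K F) (v : Place K F)
    [FiniteDimensional K (LSpace K F D)] :
    FiniteDimensional K (LSpace K F (D + Finsupp.single v 1)) ∧
      Module.finrank K (LSpace K F (D + Finsupp.single v 1))
        ≤ Module.finrank K (LSpace K F D) + 1 := by
  obtain ⟨g, hg⟩ := LSpace_single_le hres D v
  have hfd : FiniteDimensional K (LSpace K F (D + Finsupp.single v 1)) :=
    Submodule.finiteDimensional_of_le hg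
  refine ⟨hfd, ?_⟩
  calc Module.finrank K (LSpace K F (D + Finsupp.single v 1))
      ≤ Module.finrank K (LSpace K F D ⊔ Submodule.span K {g} : Submodule K F) :=
        Submodule.finrank_mono hg
    _ ≤ Module.finrank K (LSpace K F D) + Module.finrank K (Submodule.span K ({g} : Set F)) :=
        Submodule.finrank_add_le_finrank_add_finrank _ _
    _ ≤ Module.finrank K (LSpace K F D) + 1 := by
        have := finrank_span_le_card (R := K) ({g} : Set F)
        simp only [Set.toFinset_singleton, Finset.card_singleton] at this
        omega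

/-- Chain of one-place steps from `D` to `E ≥ D`. -/
theorem chain (hres : ResConst K F) (hdeg : ∀ v : Place K F, v.deg = 1) :
    ∀ (n : ℕ) (D E : Divisor K F), D ≤ E → Divisor.degree E - Divisor.degree D = n →
      FiniteDimensional K (LSpace K F D) →
      FiniteDimensional K (LSpace K F E) ∧
        (Module.finrank K (LSpace K F E) : ℤ) ≤ Module.finrank K (LSpace K F D) + n := by
  have step : ∀ (D E : Divisor K F), D ≤ E → D ≠ E →
      ∃ v : Place K F, D ≤ E - Finsupp.single v 1 ∧
        Divisor.degree (E - Finsupp.single v 1) = Divisor.degree E - 1 := by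
    classical
    intro D E hDE hne
    obtain ⟨v, hv⟩ : ∃ v, D v ≠ E v := by
      by_contra hcon
      push Not at hcon
      exact hne (Finsupp.ext hcon)
    have hlt : D v < E v := lt_of_le_of_ne (hDE v) hv
    refine ⟨v, fun w => ?_, ?_⟩
    · rw [Finsupp.sub_apply, Finsupp.single_apply]
      by_cases hw : v = w
      · subst hw; rw [if_pos rfl]; omega
      · rw [if_neg hw, sub_zero]; exact hDE w
    · rw [map_sub, degree_single_one hdeg]
  intro n
  induction n with
  | zero =>
    intro D E hDE hdegDE hfd
    have hED : D = E := by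
      by_contra hne
      obtain ⟨v, hv1, hv2⟩ := step D E hDE hne
      have := degree_mono hv1
      rw [hv2] at this
      simp only [CharP.cast_eq_zero] at hdegDE
      omega
    subst hED
    exact ⟨hfd, by simp⟩
  | succ n ih =>
    intro D E hDE hdegDE hfd
    by_cases hED : D = E
    · subst hED
      exact ⟨hfd, by push_cast; omega⟩
    · obtain ⟨v, hv1, hv2⟩ := step D E hDE hED
      obtain ⟨hfd', hle⟩ := ih D (E - Finsupp.single v 1) hv1 (by rw [hv2]; push_cast at hdegDE; omega) hfd
      have hE : E = (E - Finsupp.single v 1) + Finsupp.single v 1 := by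
        rw [sub_add_cancel]
      have := finrank_LSpace_single_le hres (E - Finsupp.single v 1) v
      rw [← hE] at this
      refine ⟨this.1, ?_⟩
      have h2 := this.2
      push_cast
      omega

/-- `L(D) = 0` for divisors of negative degree. -/
theorem LSpace_eq_bot_of_degree_neg (hpr : HasPrincipalDivisors K F) (D : Divisor K F)
    (h : Divisor.degree D < 0) : LSpace K F D = ⊥ := by
  rw [eq_bot_iff]
  intro f hf
  rw [Submodule.mem_bot]
  by_contra hf0
  obtain ⟨P, hP, hdegP⟩ := hpr.exists_divisor f hf0
  have hf' := hf.resolve_left hf0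
  have hnn : 0 ≤ D + P := fun v => by
    have h1 := hf' v
    have h2 : (D + P : Divisor K F) v = D v + v.ord f := by rw [Finsupp.add_apply, hP v]
    rw [h2]
    simp only [Finsupp.coe_zero, Pi.zero_apply]
    omega
  have := degree_nonneg hnn
  rw [map_add, hdegP] at this
  omega

/-- linear equivalence: `ℓ(D + div f) = ℓ(D)`. -/
theorem finrank_LSpace_add_principal (D P : Divisor K F) (f : F) (hf : f ≠ 0)
    (hP : ∀ v : Place K F, P v = v.ord f) :
    Module.finrank K (LSpace K F (D + P)) = Module.finrank K (LSpace K F D) := by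
  have hat : ∀ v : Place K F, (D + P : Divisor K F) v = D v + v.ord f := fun v => by
    rw [Finsupp.add_apply, hP v]
  have hmap : (LSpace K F (D + P)).map (LinearMap.mulLeft K f) = LSpace K F D := by
    ext g
    simp only [Submodule.mem_map, LinearMap.mulLeft_apply]
    constructor
    · rintro ⟨h, hh, rfl⟩
      rcases eq_or_ne h 0 with rfl | h0
      · rw [mul_zero]; exact Submodule.zero_mem _
      refine Or.inr fun v => ?_
      have := (hh.resolve_left h0) v
      rw [hat] at this
      rw [v.ord_mul hf h0]; omega
    · intro hg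
      refine ⟨f⁻¹ * g, ?_, by field_simp⟩
      rcases eq_or_ne g 0 with rfl | g0
      · rw [mul_zero]; exact Submodule.zero_mem _
      refine Or.inr fun v => ?_
      have := (hg.resolve_left g0) v
      rw [hat, v.ord_mul (inv_ne_zero hf) g0, v.ord_inv]; omega
  rw [← hmap]
  exact (Submodule.equivMapOfInjective (LinearMap.mulLeft K f)
    (fun a b hab => mul_left_cancel₀ hf (by simpa using hab)) (LSpace K F (D + P))).finrank_eq

theorem algebraMap_mem_LSpace_zero (c : K) : algebraMap K F c ∈ LSpace K F (0 : Divisor K F) :=
  Or.inr fun v => by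
    rw [ord_algebraMap]; simp

section AlgClosed

variable [IsAlgClosed K]

/-- `L(0) = K`. -/
theorem mem_LSpace_zero_iff {x : F} (hx : IsGenerator K x)
    (hdeg : ∀ v : Place K F, v.deg = 1) (hpr : HasPrincipalDivisors K F)
    (hne : Nonempty (Place K F)) (f : F) :
    f ∈ LSpace K F (0 : Divisor K F) ↔ ∃ c : K, algebraMap K F c = f := by
  classical
  constructor
  · intro hf
    by_contra hcon
    have htr : Transcendental K f := fun halg =>
      hcon (Places.exists_algebraMap_eq_of_isAlgebraic halg)
    have hgen := Places.isGenerator_of_transcendental hx htr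
    obtain ⟨v⟩ := hne
    have hf0 : f ≠ 0 := fun h => hcon ⟨0, by rw [h, map_zero]⟩
    have hf' := hf.resolve_left hf0
    rcases Places.ord_neg_or_exists_center hgen v with h | ⟨c, hc⟩
    · have := hf' v
      simp only [Finsupp.coe_zero, Pi.zero_apply] at this
      omega
    · have hg0 : f - algebraMap K F c ≠ 0 := fun h => hcon ⟨c, (sub_eq_zero.mp h).symm⟩
      have hgmem : f - algebraMap K F c ∈ LSpace K F (0 : Divisor K F) :=
        Submodule.sub_mem _ hf (algebraMap_mem_LSpace_zero c)
      obtain ⟨P, hP, hdegP⟩ := hpr.exists_divisor _ hg0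
      have hPnn : ∀ w : Place K F, 0 ≤ P w := fun w => by
        rw [hP w]
        have := (hgmem.resolve_left hg0) w
        simpa using this
      have hPv : 0 < P v := by rw [hP v]; exact hc
      have hle : (Finsupp.single v 1 : Divisor K F) ≤ P := fun w => by
        rw [Finsupp.single_apply]
        by_cases hw : v = w
        · subst hw; rw [if_pos rfl]; omega
        · rw [if_neg hw]; exact hPnn w
      have := degree_mono hle
      rw [degree_single_one hdeg, hdegP] at this
      omega
  · rintro ⟨c, rfl⟩
    exact algebraMap_mem_LSpace_zero c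

theorem LSpace_zero_eq {x : F} (hx : IsGenerator K x)
    (hdeg : ∀ v : Place K F, v.deg = 1) (hpr : HasPrincipalDivisors K F)
    (hne : Nonempty (Place K F)) :
    LSpace K F (0 : Divisor K F) = Submodule.span K {(1 : F)} := by
  ext f
  rw [mem_LSpace_zero_iff hx hdeg hpr hne, Submodule.mem_span_singleton]
  simp only [Algebra.smul_def, mul_one]

theorem finrank_LSpace_zero {x : F} (hx : IsGenerator K x)
    (hdeg : ∀ v : Place K F, v.deg = 1) (hpr : HasPrincipalDivisors K F)
    (hne : Nonempty (Place K F)) :
    Module.finrank K (LSpace K F (0 : Divisor K F)) = 1 := by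
  rw [LSpace_zero_eq hx hdeg hpr hne]
  exact finrank_span_singleton one_ne_zero

theorem finiteDimensional_LSpace {x : F} (hx : IsGenerator K x) (hres : ResConst K F)
    (hdeg : ∀ v : Place K F, v.deg = 1) (hpr : HasPrincipalDivisors K F)
    (hne : Nonempty (Place K F)) (D : Divisor K F) :
    FiniteDimensional K (LSpace K F D) := by
  have h0 : FiniteDimensional K (LSpace K F (0 : Divisor K F)) := by
    rw [LSpace_zero_eq hx hdeg hpr hne]
    infer_instance
  have hle : (0 : Divisor K F) ≤ D ⊔ 0 := le_sup_right
  have hd := degree_mono hle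
  obtain ⟨hfd, -⟩ := chain hres hdeg (Divisor.degree (D ⊔ 0) - Divisor.degree 0).toNat 0 (D ⊔ 0)
    hle (by omega) h0
  exact Submodule.finiteDimensional_of_le (LSpace_mono (le_sup_left : D ≤ D ⊔ 0))

/-- `ℓ(E) ≤ ℓ(D) + deg E - deg D` for `D ≤ E`. -/
theorem finrank_LSpace_le_of_le {x : F} (hx : IsGenerator K x) (hres : ResConst K F)
    (hdeg : ∀ v : Place K F, v.deg = 1) (hpr : HasPrincipalDivisors K F)
    (hne : Nonempty (Place K F)) {D E : Divisor K F} (h : D ≤ E) :
    (Module.finrank K (LSpace K F E) : ℤ)
      ≤ Module.finrank K (LSpace K F D) + (Divisor.degree E - Divisor.degree D) := by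
  have hfd := finiteDimensional_LSpace hx hres hdeg hpr hne D
  have hd := degree_mono h
  obtain ⟨-, hle⟩ := chain hres hdeg (Divisor.degree E - Divisor.degree D).toNat D E h
    (by omega) hfd
  rw [Int.toNat_of_nonneg (by omega)] at hle
  exact hle

end AlgClosed

end Fermat.Agent.RR.LCore
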