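import Mathlib
import Fermat.Agent.S24_Defs
import Fermat.Agent.S24_PlacesBasic
import Fermat.Agent.RR_Defs
import Fermat.Agent.RR_LSpaceCore

set_option autoImplicit false

/-!
# Riemann's inequality (core, with the inputs from the theory of places as explicit hypotheses)

There is a constant `γ` with `deg D - ℓ(D) ≤ γ` for all divisors `D` (Stichtenoth 1.4.14).
-/

noncomputable section

open AlgebraicCurve Fermat.Agent.S24

namespace Fermat.Agent.RR.RCore

variable {K F : Type*} [Field K] [Field F] [Algebra K F]

/-- powers of a transcendental element are linearly independent -/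
theorem linearIndependent_pow_of_transcendental {A : Type*} [Ring A] [Algebra K A] {y : A}
    (hy : Transcendental K y) : LinearIndependent K (fun j : ℕ => y ^ j) := by
  have h1 : LinearIndependent K (fun j : ℕ => (Polynomial.monomial j (1 : K))) := by
    have := (Polynomial.basisMonomials K).linearIndependent
    simpa using this
  have h2 := h1.map' (Polynomial.aeval y).toLinearMap
    (LinearMap.ker_eq_bot.mpr (transcendental_iff_injective.mp hy))
  have h3 : ((Polynomial.aeval y).toLinearMap ∘ fun j : ℕ => (Polynomial.monomial j (1 : K)))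
      = fun j : ℕ => y ^ j := by
    funext j
    simp [Polynomial.aeval_monomial]
  rwa [h3] at h2

theorem pow_mul_mem {x u : F} (hx0 : x ≠ 0) (hu0 : u ≠ 0) (B C : Divisor K F)
    (hB : ∀ v : Place K F, B v = max (-(v.ord x)) 0)
    (hC : ∀ v : Place K F, 0 ≤ v.ord u + C v) (l j : ℕ) (hj : j ≤ l) :
    x ^ j * u ∈ LSpace K F (l • B + C) := by
  refine Or.inr fun v => ?_
  have h1 : v.ord (x ^ j) = j * v.ord x := by
    have := v.ord_zpow x j
    rwa [zpow_natCast] at this
  have h2 : (l • B + C : Divisor K F) v = l * B v + C v := by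
    rw [Finsupp.add_apply, Finsupp.smul_apply, nsmul_eq_mul]
  rw [v.ord_mul (pow_ne_zero j hx0) hu0, h1, h2, hB v]
  have h3 := hC v
  rcases le_or_gt 0 (v.ord x) with h | h
  · rw [max_eq_right (by omega)]
    have : 0 ≤ (j : ℤ) * v.ord x := by positivity
    omega
  · rw [max_eq_left (by omega)]
    have h4 : (j : ℤ) * v.ord x + l * (-(v.ord x)) = ((l : ℤ) - j) * (-(v.ord x)) := by ring
    have h5 : 0 ≤ ((l : ℤ) - j) * (-(v.ord x)) := mul_nonneg (by omega) (by omega)
    omega

/-- Riemann's inequality. -/
theorem exists_riemann_bound [IsAlgClosed K] {x : F} (hx : IsGenerator K x)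
    (hres : LCore.ResConst K F) (hdeg : ∀ v : Place K F, v.deg = 1)
    (hpr : HasPrincipalDivisors K F) (hpol : {v : Place K F | v.ord x < 0}.Finite)
    (hsum : ∑ v ∈ hpol.toFinset, v.ord x
      = -(Module.finrank (IntermediateField.adjoin K {x}) F : ℤ)) :
    ∃ γ : ℤ, ∀ D : Divisor K F,
      Divisor.degree D - (Module.finrank K (LSpace K F D) : ℤ) ≤ γ := by
  classical
  have := hx.2
  set n := Module.finrank (IntermediateField.adjoin K {x}) F with hn
  have hnpos : 0 < n := Module.finrank_pos
  have hx0 : x ≠ 0 := fun h => hx.1 (h ▸ isAlgebraic_zero)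
  -- a place exists
  have hne : Nonempty (Place K F) := by
    by_contra hcon
    rw [not_nonempty_iff] at hcon
    have : hpol.toFinset = ∅ := Finset.eq_empty_of_isEmpty _
    rw [this, Finset.sum_empty] at hsum
    omega
  -- the facts on `L(D)` used below
  have hfd : ∀ D : Divisor K F, FiniteDimensional K (LSpace K F D) :=
    LCore.finiteDimensional_LSpace hx hres hdeg hpr hne
  have hmono : ∀ {D E : Divisor K F}, D ≤ E → (Module.finrank K (LSpace K F E) : ℤ)
      ≤ Module.finrank K (LSpace K F D) + (Divisor.degree E - Divisor.degree D) :=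
    fun h => LCore.finrank_LSpace_le_of_le hx hres hdeg hpr hne h
  -- the pole divisor of `x`
  obtain ⟨P, hP, hPdeg⟩ := hpr.exists_divisor x hx0
  set B : Divisor K F := (-P) ⊔ 0 with hBdef
  have hB : ∀ v : Place K F, B v = max (-(v.ord x)) 0 := fun v => by
    rw [hBdef, Finsupp.sup_apply, Finsupp.neg_apply, hP v]; rfl
  have hBdeg : Divisor.degree B = n := by
    rw [LCore.degree_eq_sum, Finsupp.sum]
    have hsupp : B.support = hpol.toFinset := by
      ext v
      rw [Finsupp.mem_support_iff, hB v, Set.Finite.mem_toFinset, Set.mem_ofPred_eq]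
      constructor
      · intro h
        by_contra hc
        exact h (max_eq_right (by omega))
      · intro h
        rw [max_eq_left (by omega)]
        omega
    rw [hsupp]
    have : ∀ v ∈ hpol.toFinset, B v * (v.deg : ℤ) = -(v.ord x) := by
      intro v hv
      rw [Set.Finite.mem_toFinset, Set.mem_ofPred_eq] at hv
      rw [hB v, hdeg v, max_eq_left (by omega)]
      simp
    rw [Finset.sum_congr rfl this, Finset.sum_neg_distrib, hsum, neg_neg]
  -- a basis of `F` over `K(x)` and a divisor bounding its poles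
  let u := Module.finBasis (IntermediateField.adjoin K {x}) F
  have hu0 : ∀ i, u i ≠ 0 := fun i => u.ne_zero i
  choose Q hQ hQdeg using fun i => hpr.exists_divisor (u i) (hu0 i)
  set C : Divisor K F := ∑ i, ((-(Q i)) ⊔ 0) with hCdef
  have hCv : ∀ v : Place K F, C v = ∑ i, max (-(v.ord (u i))) 0 := fun v => by
    rw [hCdef, Finsupp.finsetSum_apply]
    refine Finset.sum_congr rfl fun i _ => ?_
    rw [Finsupp.sup_apply, Finsupp.neg_apply, hQ i v]; rfl
  have hC0 : 0 ≤ C := fun v => by
    rw [hCv v]; exact Finset.sum_nonneg fun i _ => le_max_right _ _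
  have hCu : ∀ i (v : Place K F), 0 ≤ v.ord (u i) + C v := fun i v => by
    rw [hCv v]
    have h1 : max (-(v.ord (u i))) 0 ≤ ∑ j, max (-(v.ord (u j))) 0 :=
      Finset.single_le_sum (f := fun j => max (-(v.ord (u j))) 0)
        (fun j _ => le_max_right _ _) (Finset.mem_univ i)
    have h2 := le_max_left (-(v.ord (u i))) 0
    omega
  -- `ℓ(lB + C) ≥ (l+1) n`
  have hkey : ∀ l : ℕ, (((l : ℤ) + 1) * n : ℤ)
      ≤ Module.finrank K (LSpace K F (l • B)) + Divisor.degree C := by
    intro l
    let xK : IntermediateField.adjoin K {x} := IntermediateField.AdjoinSimple.gen K x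
    have hxK : Transcendental K xK := by
      intro halg
      apply hx.1
      have := halg.algebraMap (A := F)
      simpa [xK] using this
    have hb : LinearIndependent K (fun j : Fin (l + 1) => xK ^ (j : ℕ)) :=
      (linearIndependent_pow_of_transcendental hxK).comp _ Fin.val_injective
    have hli := linearIndependent_smul hb u.linearIndependent
    have hmem : ∀ p : Fin (l + 1) × Fin n, xK ^ (p.1 : ℕ) • u p.2 ∈ LSpace K F (l • B + C) := by
      intro p
      have : xK ^ (p.1 : ℕ) • u p.2 = x ^ (p.1 : ℕ) * u p.2 := by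
        rw [Algebra.smul_def]
        simp [xK]
      rw [this]
      exact pow_mul_mem hx0 (hu0 _) B C hB (hCu _) l p.1 (by omega)
    have hle : Submodule.span K (Set.range fun p : Fin (l + 1) × Fin n => xK ^ (p.1 : ℕ) • u p.2)
        ≤ LSpace K F (l • B + C) :=
      Submodule.span_le.mpr (by rintro _ ⟨p, rfl⟩; exact hmem p)
    have := hfd (l • B + C)
    have h1 := Submodule.finrank_mono hle
    rw [finrank_span_eq_card hli] at h1
    simp only [Fintype.card_prod, Fintype.card_fin] at h1
    have h2 := hmono (D := l • B) (E := l • B + C) (le_add_of_nonneg_right hC0)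
    rw [map_add] at h2
    have h3 : (((l : ℤ) + 1) * n : ℤ) ≤ Module.finrank K (LSpace K F (l • B + C)) := by
      exact_mod_cast h1
    linarith
  refine ⟨Divisor.degree C - n, fun A => ?_⟩
  set A₁ : Divisor K F := A ⊔ 0 with hA₁
  have hAA₁ : A ≤ A₁ := le_sup_left
  have hA₁0 : 0 ≤ A₁ := le_sup_right
  have hA₁deg : 0 ≤ Divisor.degree A₁ := LCore.degree_nonneg hA₁0
  have hCdeg : 0 ≤ Divisor.degree C := LCore.degree_nonneg hC0
  set l : ℕ := (Divisor.degree C + Divisor.degree A₁).toNat with hl
  have hl' : (l : ℤ) = Divisor.degree C + Divisor.degree A₁ := Int.toNat_of_nonneg (by omega)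
  have hlB : Divisor.degree (l • B) = l * n := by rw [map_nsmul, hBdeg, nsmul_eq_mul]
  -- `ℓ(lB - A₁) > 0`
  have h3 := hmono (D := l • B - A₁) (E := l • B) (sub_le_self _ hA₁0)
  rw [map_sub, sub_sub_cancel] at h3
  have h4 := hkey l
  have hpos : 0 < Module.finrank K (LSpace K F (l • B - A₁)) := by
    have : (0 : ℤ) < Module.finrank K (LSpace K F (l • B - A₁)) := by
      have h5 : (l : ℤ) * n ≥ l := by
        have : (1 : ℤ) ≤ n := by exact_mod_cast hnpos
        nlinarith
      nlinarith
    exact_mod_cast this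
  have := hfd (l • B - A₁)
  obtain ⟨⟨z, hz⟩, hz0⟩ : ∃ z : LSpace K F (l • B - A₁), z ≠ 0 := by
    have := Module.finrank_pos_iff.mp hpos
    exact exists_ne 0
  have hz0' : z ≠ 0 := fun h => hz0 (Subtype.ext h)
  obtain ⟨Pz, hPz, hPzdeg⟩ := hpr.exists_divisor z hz0'
  set D' : Divisor K F := A₁ - Pz with hD'
  have hD'le : D' ≤ l • B := fun v => by
    have := (hz.resolve_left hz0') v
    rw [Finsupp.sub_apply] at this
    rw [hD', Finsupp.sub_apply, hPz v]
    omega
  have hD'deg : Divisor.degree D' = Divisor.degree A₁ := by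
    rw [hD', map_sub, hPzdeg, sub_zero]
  have hD'rank : Module.finrank K (LSpace K F A₁) = Module.finrank K (LSpace K F D') := by
    have := LCore.finrank_LSpace_add_principal D' Pz z hz0' hPz
    rwa [hD', sub_add_cancel] at this
  have h5 := hmono hAA₁
  have h6 := hmono hD'le
  rw [hD'deg, hlB, ← hD'rank] at h6
  linarith

end Fermat.Agent.RR.RCore
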