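import Mathlib
import Fermat.Agent.S24_PlacesBasic

/-!
# S24, M1 (part 2): places of a function field over a point of the line

For a generator `x` of a function field `F/K` (`K` algebraically closed of characteristic zero),
the places of `F` over `x = x₀` correspond to the primes of the integral closure of `K[x]` in `F`
containing `x - x₀`; there are finitely many, and the fundamental identity `∑ e f = n` gives
`∑ ord_v (x - x₀) = [F : K(x)]`.  The same at infinity, and the principal divisors theorem.
-/

set_option autoImplicit false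
set_option linter.style.haveILetI false
set_option linter.unusedSectionVars false
set_option linter.deprecated false

noncomputable section

open AlgebraicCurve Polynomial IsDedekindDomain

namespace Fermat.Agent.S24.Places

section OfHeightOne

variable {K F : Type*} [Field K] [Field F] [Algebra K F]
variable {R : Type*} [CommRing R] [IsDedekindDomain R] [Algebra R F] [IsFractionRing R F]
  [Algebra K R] [IsScalarTower K R F]

theorem mem_ofHeightOneSpectrum_iff (w : HeightOneSpectrum R) (f : F) :
    f ∈ (Place.ofHeightOneSpectrum (K := K) w).toValuationSubring ↔ w.valuation F f ≤ 1 :=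
  Iff.rfl

/-- an element of valuation one is a unit of the valuation ring -/
theorem ord_ofHeightOneSpectrum_eq_zero (w : HeightOneSpectrum R) {f : F}
    (hf : w.valuation F f = 1) : (Place.ofHeightOneSpectrum (K := K) w).ord f = 0 := by
  have hf0 : f ≠ 0 := fun h => by rw [h, map_zero] at hf; exact zero_ne_one hf
  have h1 : f ∈ (Place.ofHeightOneSpectrum (K := K) w).toValuationSubring :=
    (mem_ofHeightOneSpectrum_iff w f).mpr hf.le
  have h2 : f⁻¹ ∈ (Place.ofHeightOneSpectrum (K := K) w).toValuationSubring := by
    rw [mem_ofHeightOneSpectrum_iff, map_inv₀, hf, inv_one]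
  have hu : IsUnit (⟨f, h1⟩ : (Place.ofHeightOneSpectrum (K := K) w).toValuationSubring) := by
    rw [isUnit_iff_exists_inv]
    exact ⟨⟨f⁻¹, h2⟩, Subtype.ext (mul_inv_cancel₀ hf0)⟩
  exact ord_eq_zero_of_isUnit (Place.ofHeightOneSpectrum (K := K) (F := F) w) hu

/-- the order at the place attached to a prime of a Dedekind domain is the adic valuation -/
theorem ord_ofHeightOneSpectrum (w : HeightOneSpectrum R) (f : F) :
    (Place.ofHeightOneSpectrum (K := K) w).ord f = -(WithZero.log (w.valuation F f)) := by
  set v : Place K F := Place.ofHeightOneSpectrum (K := K) w with hv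
  rcases eq_or_ne f 0 with rfl | hf0
  · simp
  obtain ⟨π, hπ⟩ := w.valuation_exists_uniformizer F
  have hπ0 : π ≠ 0 := fun h => by rw [h, map_zero] at hπ; exact WithZero.exp_ne_zero.symm hπ
  -- key: `ord g = n(g) * ord π` for all `g ≠ 0`
  have key : ∀ g : F, g ≠ 0 → v.ord g = -(WithZero.log (w.valuation F g)) * v.ord π := by
    intro g hg
    set n : ℤ := -(WithZero.log (w.valuation F g)) with hn
    have hval : w.valuation F g = WithZero.exp (-n) := by
      rw [hn, neg_neg, WithZero.exp_log ((Valuation.ne_zero_iff _).mpr hg)]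
    have hu : w.valuation F (g * π ^ (-n)) = 1 := by
      rw [map_mul, map_zpow₀, hπ, hval, ← WithZero.exp_zsmul, ← WithZero.exp_add]
      simp
    have h0 := ord_ofHeightOneSpectrum_eq_zero (K := K) w hu
    rw [← hv, v.ord_mul hg (zpow_ne_zero _ hπ0), v.ord_zpow] at h0
    linarith
  -- an irreducible element of the valuation ring
  obtain ⟨ϖ, hϖ⟩ := IsDiscreteValuationRing.exists_irreducible v.toValuationSubring
  have hϖ0 : (ϖ : F) ≠ 0 := fun h => hϖ.ne_zero (Subtype.ext h)
  have h1 := v.ord_coe_irreducible hϖ
  have h2 := key ϖ hϖ0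
  rw [h1] at h2
  have hle : w.valuation F (ϖ : F) ≤ 1 := (mem_ofHeightOneSpectrum_iff (K := K) w _).mp ϖ.2
  have hlog : WithZero.log (w.valuation F (ϖ : F)) ≤ 0 := by
    have := (WithZero.log_le_log ((Valuation.ne_zero_iff _).mpr hϖ0) one_ne_zero).mpr hle
    rwa [WithZero.log_one] at this
  have hk : v.ord π = 1 := by
    have hmul : -(WithZero.log (w.valuation F (ϖ : F))) * v.ord π = 1 := h2.symm
    rcases Int.eq_one_or_neg_one_of_mul_eq_one' hmul with ⟨_, h⟩ | ⟨h, _⟩
    · exact h
    · omega
  rw [key f hf0, hk, mul_one]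

/-- positivity of the order at the place of a prime: membership in the prime -/
theorem ord_ofHeightOneSpectrum_pos_iff (w : HeightOneSpectrum R) {r : R} (hr : r ≠ 0) :
    0 < (Place.ofHeightOneSpectrum (K := K) w).ord (algebraMap R F r) ↔ r ∈ w.asIdeal := by
  rw [ord_ofHeightOneSpectrum, ← w.valuation_lt_one_iff_mem (K := F)]
  have hne : w.valuation F (algebraMap R F r) ≠ 0 :=
    (Valuation.ne_zero_iff _).mpr ((map_ne_zero_iff _ (IsFractionRing.injective R F)).mpr hr)
  rw [← WithZero.log_lt_log hne one_ne_zero, WithZero.log_one]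
  omega

/-- the order of an element of the Dedekind domain is its multiplicity in the prime -/
theorem ord_ofHeightOneSpectrum_algebraMap (w : HeightOneSpectrum R) {r : R} (hr : r ≠ 0) :
    (Place.ofHeightOneSpectrum (K := K) w).ord (algebraMap R F r) =
      (multiplicity w.asIdeal (Ideal.span {r}) : ℤ) := by
  rw [ord_ofHeightOneSpectrum, w.valuation_of_algebraMap, w.intValuation_eq_exp_neg_multiplicity hr,
    WithZero.log_exp, neg_neg]

theorem ofHeightOneSpectrum_injective :
    Function.Injective (Place.ofHeightOneSpectrum (K := K) (F := F) (R := R)) := by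
  intro w w' h
  apply HeightOneSpectrum.ext
  ext r
  rcases eq_or_ne r 0 with rfl | hr
  · simp
  rw [← ord_ofHeightOneSpectrum_pos_iff (K := K) (F := F) w hr,
    ← ord_ofHeightOneSpectrum_pos_iff (K := K) (F := F) w' hr, h]

/-- every place whose valuation ring contains the Dedekind domain comes from a prime -/
theorem exists_ofHeightOneSpectrum_eq (v : Place K F)
    (hv : ∀ r : R, algebraMap R F r ∈ v.toValuationSubring) :
    ∃ w : HeightOneSpectrum R, Place.ofHeightOneSpectrum (K := K) w = v := by
  let φ : R →+* v.toValuationSubring :=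
    (algebraMap R F).codRestrict v.toValuationSubring.toSubring hv
  have hφ : ∀ r : R, ((φ r : v.toValuationSubring) : F) = algebraMap R F r := fun r => rfl
  set P : Ideal R := (IsLocalRing.maximalIdeal v.toValuationSubring).comap φ with hP
  have hPprime : P.IsPrime := Ideal.comap_isPrime φ _
  have hPne : P ≠ ⊥ := by
    intro hbot
    apply v.ne_top'
    rw [eq_top_iff]
    intro f _
    obtain ⟨a, s, hs, rfl⟩ := IsFractionRing.div_surjective (A := R) f
    have hs0 : s ≠ 0 := nonZeroDivisors.ne_zero hs
    have hsP : s ∉ P := by rw [hbot]; exact hs0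
    have hunit : IsUnit (φ s) := by
      by_contra hnu
      exact hsP hnu
    obtain ⟨u, hu⟩ := hunit
    have hinv : (algebraMap R F s)⁻¹ = ((u⁻¹ : v.toValuationSubringˣ) : F) := by
      rw [← hφ s, ← hu]
      apply inv_eq_of_mul_eq_one_right
      rw [← MulMemClass.coe_mul, Units.mul_inv]
      rfl
    rw [div_eq_mul_inv, hinv]
    exact mul_mem (hv a) (Subtype.property _)
  let w : HeightOneSpectrum R := ⟨P, hPprime, hPne⟩
  refine ⟨w, ?_⟩
  apply Place.ext
  rw [Place.ofHeightOneSpectrum_toValuationSubring,
    ← HeightOneSpectrum.valuationSubringAtPrime_eq_valuationSubring]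
  apply ValuationSubring.eq_of_le_of_ne_top _ _ v.ne_top'
  rw [HeightOneSpectrum.valuationSubringAtPrime_eq_valuationSubring]
  intro f hf
  obtain ⟨n, d, hnd⟩ := w.exists_primeCompl_mul_eq_of_integer f hf
  have hdP : (d : R) ∉ P := d.2
  have hunit : IsUnit (φ d) := by
    by_contra hnu
    exact hdP hnu
  obtain ⟨u, hu⟩ := hunit
  have hd0 : algebraMap R F d ≠ 0 := by
    rw [← hφ d, ← hu]
    intro h0
    have : ((u : v.toValuationSubring) : F) * ((u⁻¹ : v.toValuationSubringˣ) : F) = 1 := by
      rw [← MulMemClass.coe_mul, Units.mul_inv]; rfl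
    rw [h0, zero_mul] at this
    exact zero_ne_one this
  have hinv : (algebraMap R F d)⁻¹ = ((u⁻¹ : v.toValuationSubringˣ) : F) := by
    rw [← hφ d, ← hu]
    apply inv_eq_of_mul_eq_one_right
    rw [← MulMemClass.coe_mul, Units.mul_inv]
    rfl
  have hf' : f = algebraMap R F n * (algebraMap R F d)⁻¹ := by
    rw [← hnd, mul_assoc, mul_inv_cancel₀ hd0, mul_one]
  rw [hf', hinv]
  exact mul_mem (hv n) (Subtype.property _)

end OfHeightOne

section Rings

variable {K F : Type*} [Field K] [Field F] [Algebra K F] {x : F}

theorem isPrincipalIdealRing_adjoin (hx : Transcendental K x) :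
    IsPrincipalIdealRing (Algebra.adjoin K {x}) :=
  IsPrincipalIdealRing.of_surjective (Polynomial.algEquivOfTranscendental K x hx).toRingEquiv
    (Polynomial.algEquivOfTranscendental K x hx).surjective

open IntermediateField algebraAdjoinAdjoin in
theorem isDedekindDomain_intRing [CharZero K] (hx : IsGenerator K x) :
    IsDedekindDomain (integralClosure (Algebra.adjoin K {x}) F) := by
  haveI := isPrincipalIdealRing_adjoin hx.1
  haveI := hx.2
  haveI : CharZero (IntermediateField.adjoin K {x}) :=
    charZero_of_injective_algebraMap (algebraMap K (IntermediateField.adjoin K {x})).injective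
  exact integralClosure.isDedekindDomain (Algebra.adjoin K {x}) (IntermediateField.adjoin K {x}) F

open IntermediateField algebraAdjoinAdjoin in
theorem isFractionRing_intRing (hx : IsGenerator K x) :
    IsFractionRing (integralClosure (Algebra.adjoin K {x}) F) F := by
  haveI := hx.2
  exact integralClosure.isFractionRing_of_finite_extension (IntermediateField.adjoin K {x}) F

open IntermediateField algebraAdjoinAdjoin in
theorem finite_intRing [CharZero K] (hx : IsGenerator K x) :
    Module.Finite (Algebra.adjoin K {x}) (integralClosure (Algebra.adjoin K {x}) F) := by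
  haveI := isPrincipalIdealRing_adjoin hx.1
  haveI := hx.2
  haveI : CharZero (IntermediateField.adjoin K {x}) :=
    charZero_of_injective_algebraMap (algebraMap K (IntermediateField.adjoin K {x})).injective
  exact IsIntegralClosure.finite (Algebra.adjoin K {x}) (IntermediateField.adjoin K {x}) F _

/-- the integral closure of `K[x]` lies in every valuation ring containing `x` -/
theorem intRing_mem (v : Place K F) (hxv : x ∈ v.toValuationSubring)
    (t : integralClosure (Algebra.adjoin K {x}) F) : (t : F) ∈ v.toValuationSubring := by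
  have hR : ∀ y ∈ Algebra.adjoin K {x}, y ∈ v.toValuationSubring := by
    intro y hy
    induction hy using Algebra.adjoin_induction with
    | mem y hy => rw [Set.mem_singleton_iff.mp hy]; exact hxv
    | algebraMap c => exact v.algebraMap_mem' c
    | add a b _ _ ha hb => exact add_mem ha hb
    | mul a b _ _ ha hb => exact mul_mem ha hb
  let φ : Algebra.adjoin K {x} →+* v.toValuationSubring :=
    { toFun := fun r => ⟨r.1, hR r.1 r.2⟩
      map_one' := rfl
      map_mul' := fun _ _ => rfl
      map_zero' := rfl
      map_add' := fun _ _ => rfl }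
  obtain ⟨p, hp, hpt⟩ := t.2
  have hint' : IsIntegral v.toValuationSubring (t : F) := by
    refine ⟨p.map φ, hp.map φ, ?_⟩
    rw [← hpt, Polynomial.eval₂_map]
    rfl
  obtain ⟨a, ha⟩ := (IsIntegrallyClosed.isIntegral_iff (R := v.toValuationSubring) (K := F)).mp hint'
  rw [← ha]
  exact a.2

end Rings

section Dictionary

variable {K F : Type*} [Field K] [Field F] [Algebra K F]

/-- the element `x - x₀` of `K[x]` -/
def xiR (K : Type*) {F : Type*} [Field K] [Field F] [Algebra K F] (x : F) (x₀ : K) :
    Algebra.adjoin K {x} :=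
  ⟨x, Algebra.self_mem_adjoin_singleton K x⟩ - algebraMap K (Algebra.adjoin K {x}) x₀

/-- the element `x - x₀` of the integral closure of `K[x]` -/
def xi (K : Type*) {F : Type*} [Field K] [Field F] [Algebra K F] (x : F) (x₀ : K) :
    integralClosure (Algebra.adjoin K {x}) F :=
  algebraMap (Algebra.adjoin K {x}) (integralClosure (Algebra.adjoin K {x}) F) (xiR K x x₀)

theorem coe_xiR (x : F) (x₀ : K) : ((xiR K x x₀ : Algebra.adjoin K {x}) : F) = x - algebraMap K F x₀ :=
  rfl

theorem coe_xi (x : F) (x₀ : K) :
    ((xi K x x₀ : integralClosure (Algebra.adjoin K {x}) F) : F) = x - algebraMap K F x₀ := rfl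

theorem algebraMap_xi (x : F) (x₀ : K) :
    algebraMap (integralClosure (Algebra.adjoin K {x}) F) F (xi K x x₀) = x - algebraMap K F x₀ :=
  rfl

theorem xi_ne_zero {x : F} (hx : Transcendental K x) (x₀ : K) : xi K x x₀ ≠ 0 := by
  intro h
  apply hx
  have h1 : x - algebraMap K F x₀ = 0 := by rw [← coe_xi, h]; rfl
  rw [sub_eq_zero.mp h1]
  exact isAlgebraic_algebraMap x₀

theorem xiR_ne_zero {x : F} (hx : Transcendental K x) (x₀ : K) : xiR K x x₀ ≠ 0 := by
  intro h
  apply xi_ne_zero hx x₀
  rw [xi, h, map_zero]

variable {x : F}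
  [hD : IsDedekindDomain (integralClosure (Algebra.adjoin K {x}) F)]
  [hFr : IsFractionRing (integralClosure (Algebra.adjoin K {x}) F) F]

theorem mem_placesAt_ofHeightOneSpectrum_iff (hx : Transcendental K x) (x₀ : K)
    (w : HeightOneSpectrum (integralClosure (Algebra.adjoin K {x}) F)) :
    Place.ofHeightOneSpectrum (K := K) (F := F) w ∈ PlacesAt K x x₀ ↔ xi K x x₀ ∈ w.asIdeal := by
  rw [← ord_ofHeightOneSpectrum_pos_iff (K := K) (F := F) w (xi_ne_zero hx x₀), algebraMap_xi]
  rfl

theorem exists_prime_of_mem_placesAt (hx : Transcendental K x) (x₀ : K) (v : Place K F)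
    (hv : v ∈ PlacesAt K x x₀) :
    ∃ w : HeightOneSpectrum (integralClosure (Algebra.adjoin K {x}) F),
      Place.ofHeightOneSpectrum (K := K) w = v ∧ xi K x x₀ ∈ w.asIdeal := by
  have h1 : x - algebraMap K F x₀ ∈ v.toValuationSubring := mem_of_ord_nonneg v (le_of_lt hv)
  have hxv : x ∈ v.toValuationSubring := by
    have := add_mem h1 (v.algebraMap_mem' x₀)
    simpa using this
  obtain ⟨w, hw⟩ := exists_ofHeightOneSpectrum_eq (K := K) (F := F)
    (R := integralClosure (Algebra.adjoin K {x}) F) v (fun t => intRing_mem v hxv t)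
  refine ⟨w, hw, ?_⟩
  rw [← mem_placesAt_ofHeightOneSpectrum_iff hx x₀ w, hw]
  exact hv

/-- the set of places over `x = x₀` is finite -/
theorem finite_placesAt_aux (hx : Transcendental K x) (x₀ : K) : (PlacesAt K x x₀).Finite := by
  have hfin := Ideal.finite_factors (R := integralClosure (Algebra.adjoin K {x}) F)
    (I := Ideal.span {xi K x x₀}) (by
      rw [Ne, Ideal.zero_eq_bot, Ideal.span_singleton_eq_bot]
      exact xi_ne_zero hx x₀)
  refine (hfin.image (Place.ofHeightOneSpectrum (K := K) (F := F))).subset ?_
  intro v hv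
  obtain ⟨w, hw, hmem⟩ := exists_prime_of_mem_placesAt hx x₀ v hv
  exact ⟨w, Ideal.dvd_span_singleton.mpr hmem, hw⟩

/-- the dictionary between places over `x = x₀` and primes of the integral closure of `K[x]`
containing `x - x₀`, as an equality of cardinalities -/
theorem card_placesAt_eq_card_primes_aux (hx : Transcendental K x) (x₀ : K) :
    Nat.card (PlacesAt K x x₀) =
      Nat.card {Q : Ideal (integralClosure (Algebra.adjoin K {x}) F) // Q.IsPrime ∧
        ∀ b : integralClosure (Algebra.adjoin K {x}) F,
          (b : F) = x - algebraMap K F x₀ → b ∈ Q} := by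
  symm
  have hne : ∀ Q : {Q : Ideal (integralClosure (Algebra.adjoin K {x}) F) // Q.IsPrime ∧
        ∀ b : integralClosure (Algebra.adjoin K {x}) F,
          (b : F) = x - algebraMap K F x₀ → b ∈ Q}, Q.1 ≠ ⊥ := by
    intro Q hbot
    have := Q.2.2 (xi K x x₀) (coe_xi x x₀)
    rw [hbot, Ideal.mem_bot] at this
    exact xi_ne_zero hx x₀ this
  let f : {Q : Ideal (integralClosure (Algebra.adjoin K {x}) F) // Q.IsPrime ∧
        ∀ b : integralClosure (Algebra.adjoin K {x}) F,
          (b : F) = x - algebraMap K F x₀ → b ∈ Q} → PlacesAt K x x₀ := fun Q =>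
    ⟨Place.ofHeightOneSpectrum (K := K) (F := F) ⟨Q.1, Q.2.1, hne Q⟩,
      (mem_placesAt_ofHeightOneSpectrum_iff hx x₀ _).mpr (Q.2.2 (xi K x x₀) (coe_xi x x₀))⟩
  refine Nat.card_congr (Equiv.ofBijective f ⟨?_, ?_⟩)
  · intro Q Q' h
    have h1 := congrArg Subtype.val h
    have h2 := ofHeightOneSpectrum_injective (K := K) (F := F) h1
    exact Subtype.ext (congrArg HeightOneSpectrum.asIdeal h2)
  · rintro ⟨v, hv⟩
    obtain ⟨w, hw, hmem⟩ := exists_prime_of_mem_placesAt hx x₀ v hv
    refine ⟨⟨w.asIdeal, w.isPrime, fun b hb => ?_⟩, ?_⟩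
    · have : b = xi K x x₀ := Subtype.ext (hb.trans (coe_xi x x₀).symm)
      rw [this]; exact hmem
    · exact Subtype.ext hw

end Dictionary

section Sum

variable {K F : Type*} [Field K] [IsAlgClosed K] [Field F] [Algebra K F] {x : F}

theorem irreducible_xiR (hx : Transcendental K x) (x₀ : K) : Irreducible (xiR K x x₀) := by
  have h : xiR K x x₀ = Polynomial.algEquivOfTranscendental K x hx (X - C x₀) := by
    apply Subtype.ext
    simp [xiR, Polynomial.algEquivOfTranscendental_apply]
  rw [h]
  exact (MulEquiv.irreducible_iff (Polynomial.algEquivOfTranscendental K x hx).toMulEquiv).mpr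
    (Polynomial.irreducible_X_sub_C x₀)

/-- all residue degrees over `K[x]` are one -/
theorem inertiaDeg_eq_one (hx : IsGenerator K x)
    [IsDedekindDomain (integralClosure (Algebra.adjoin K {x}) F)]
    [IsFractionRing (integralClosure (Algebra.adjoin K {x}) F) F]
    (p : Ideal (Algebra.adjoin K {x})) [p.IsMaximal]
    (P : Ideal (integralClosure (Algebra.adjoin K {x}) F)) [hPp : P.IsPrime] (hP0 : P ≠ ⊥)
    [P.LiesOver p] : Ideal.inertiaDeg' p P = 1 := by
  rw [Ideal.inertiaDeg'_algebraMap]
  haveI : P.IsMaximal := hPp.isMaximal hP0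
  letI : Field (Algebra.adjoin K {x} ⧸ p) := Ideal.Quotient.field p
  letI : Field (integralClosure (Algebra.adjoin K {x}) F ⧸ P) := Ideal.Quotient.field P
  have hsurj : Function.Surjective (algebraMap (Algebra.adjoin K {x} ⧸ p)
      (integralClosure (Algebra.adjoin K {x}) F ⧸ P)) := by
    intro tbar
    obtain ⟨t, rfl⟩ := Ideal.Quotient.mk_surjective tbar
    set w : HeightOneSpectrum (integralClosure (Algebra.adjoin K {x}) F) := ⟨P, hPp, hP0⟩ with hw
    set v : Place K F := Place.ofHeightOneSpectrum (K := K) w with hv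
    have htv : (t : F) ∈ v.toValuationSubring :=
      (mem_ofHeightOneSpectrum_iff (K := K) w _).mpr (w.valuation_le_one t)
    obtain ⟨c, hc⟩ := exists_sub_mem_maximalIdeal hx v ⟨(t : F), htv⟩
    have hmem : t - algebraMap K (integralClosure (Algebra.adjoin K {x}) F) c ∈ P := by
      by_cases h0 : t - algebraMap K (integralClosure (Algebra.adjoin K {x}) F) c = 0
      · rw [h0]; exact zero_mem _
      · have hne : (⟨(t : F), htv⟩ : v.toValuationSubring) - algebraMap K v.toValuationSubring c ≠ 0 := by
          intro h
          apply h0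
          apply Subtype.ext
          have := congrArg Subtype.val h
          exact this
        have hpos := ord_pos_of_mem_maximalIdeal v hc hne
        exact (ord_ofHeightOneSpectrum_pos_iff (K := K) (F := F) w h0).mp hpos
    refine ⟨Ideal.Quotient.mk p (algebraMap K (Algebra.adjoin K {x}) c), ?_⟩
    rw [Ideal.Quotient.algebraMap_mk_of_liesOver, eq_comm, Ideal.Quotient.eq]
    exact hmem
  have hbij : Function.Bijective (algebraMap (Algebra.adjoin K {x} ⧸ p)
      (integralClosure (Algebra.adjoin K {x}) F ⧸ P)) :=
    ⟨(algebraMap (Algebra.adjoin K {x} ⧸ p)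
      (integralClosure (Algebra.adjoin K {x}) F ⧸ P)).injective, hsurj⟩
  rw [← Module.finrank_self (Algebra.adjoin K {x} ⧸ p)]
  exact ((AlgEquiv.ofBijective (Algebra.ofId (Algebra.adjoin K {x} ⧸ p)
    (integralClosure (Algebra.adjoin K {x}) F ⧸ P)) hbij).toLinearEquiv.finrank_eq).symm

open IntermediateField algebraAdjoinAdjoin in
/-- the fundamental identity over a finite point -/
theorem sum_ord_placesAt_aux [CharZero K] (hx : IsGenerator K x) (x₀ : K)
    (hfin : (PlacesAt K x x₀).Finite) :
    ∑ v ∈ hfin.toFinset, v.ord (x - algebraMap K F x₀)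
      = (Module.finrank (IntermediateField.adjoin K {x}) F : ℤ) := by
  classical
  haveI := isPrincipalIdealRing_adjoin hx.1
  haveI := isDedekindDomain_intRing hx
  haveI := isFractionRing_intRing hx
  haveI := finite_intRing hx
  haveI := hx.2
  set p : Ideal (Algebra.adjoin K {x}) := Ideal.span {xiR K x x₀} with hp
  have hp0 : p ≠ ⊥ := by
    rw [hp, Ne, Ideal.span_singleton_eq_bot]; exact xiR_ne_zero hx.1 x₀
  haveI hpmax : p.IsMaximal :=
    PrincipalIdealRing.isMaximal_of_irreducible (irreducible_xiR hx.1 x₀)
  have hmap : p.map (algebraMap (Algebra.adjoin K {x}) (integralClosure (Algebra.adjoin K {x}) F))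
      = Ideal.span {xi K x x₀} := by
    rw [hp, Ideal.map_span, Set.image_singleton]; rfl
  have hmap0 : p.map (algebraMap (Algebra.adjoin K {x})
      (integralClosure (Algebra.adjoin K {x}) F)) ≠ ⊥ := by
    rw [hmap, Ne, Ideal.span_singleton_eq_bot]; exact xi_ne_zero hx.1 x₀
  have hsum := Ideal.sum_ramification_inertia (R := Algebra.adjoin K {x})
    (S := integralClosure (Algebra.adjoin K {x}) F) (IntermediateField.adjoin K {x}) F (p := p) hp0
  rw [← hsum, Nat.cast_sum]
  symm
  -- properties of the primes over `p`
  have hprop : ∀ P ∈ IsDedekindDomain.primesOverFinset p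
      (integralClosure (Algebra.adjoin K {x}) F), P.IsPrime ∧ P.LiesOver p ∧ P ≠ ⊥ ∧
        xi K x x₀ ∈ P := by
    intro P hP
    have hP' := (IsDedekindDomain.mem_primesOverFinset_iff hp0 _).mp hP
    obtain ⟨hprime, hlies⟩ := hP'
    have hxi : xi K x x₀ ∈ P := by
      have h1 : xiR K x x₀ ∈ p := Ideal.subset_span rfl
      rw [hlies.over] at h1
      exact h1
    exact ⟨hprime, hlies, fun h => xi_ne_zero hx.1 x₀ (by rw [h] at hxi; exact hxi), hxi⟩
  refine Finset.sum_bij
    (fun P hP => Place.ofHeightOneSpectrum (K := K) (F := F)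
      ⟨P, (hprop P hP).1, (hprop P hP).2.2.1⟩) ?_ ?_ ?_ ?_
  · intro P hP
    rw [Set.Finite.mem_toFinset]
    exact (mem_placesAt_ofHeightOneSpectrum_iff hx.1 x₀ _).mpr (hprop P hP).2.2.2
  · intro P hP Q hQ h
    exact congrArg HeightOneSpectrum.asIdeal (ofHeightOneSpectrum_injective (K := K) (F := F) h)
  · intro v hv
    rw [Set.Finite.mem_toFinset] at hv
    obtain ⟨w, hw, hmem⟩ := exists_prime_of_mem_placesAt hx.1 x₀ v hv
    have hlies : w.asIdeal.LiesOver p := by
      constructor
      have hle : p ≤ w.asIdeal.under (Algebra.adjoin K {x}) := by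
        rw [hp, Ideal.span_le, Set.singleton_subset_iff]
        exact hmem
      exact hpmax.eq_of_le (Ideal.IsPrime.under _ _).ne_top hle
    have hmemP : w.asIdeal ∈ IsDedekindDomain.primesOverFinset p
        (integralClosure (Algebra.adjoin K {x}) F) :=
      (IsDedekindDomain.mem_primesOverFinset_iff hp0 _).mpr ⟨w.isPrime, hlies⟩
    exact ⟨w.asIdeal, hmemP, hw⟩
  · intro P hP
    obtain ⟨hprime, hlies, hne, hxi⟩ := hprop P hP
    haveI := hprime
    haveI := hlies
    rw [inertiaDeg_eq_one hx p P hne, mul_one,
      Ideal.IsDedekindDomain.ramificationIdx'_eq_multiplicity hmap0 hprime, hmap,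
      ← ord_ofHeightOneSpectrum_algebraMap (K := K) (F := F) ⟨P, hprime, hne⟩ (xi_ne_zero hx.1 x₀),
      algebraMap_xi]

end Sum


section Final

variable {K F : Type*} [Field K] [IsAlgClosed K] [CharZero K] [Field F] [Algebra K F]

/-- the integral closure of `K[x]` in `F` as a Dedekind domain with fraction field `F`, finite
over `K[x]`: all three facts at once -/
theorem intRing_facts {x : F} (hx : IsGenerator K x) :
    IsPrincipalIdealRing (Algebra.adjoin K {x}) ∧
    IsDedekindDomain (integralClosure (Algebra.adjoin K {x}) F) ∧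
    IsFractionRing (integralClosure (Algebra.adjoin K {x}) F) F ∧
    Module.Finite (Algebra.adjoin K {x}) (integralClosure (Algebra.adjoin K {x}) F) :=
  ⟨isPrincipalIdealRing_adjoin hx.1, isDedekindDomain_intRing hx, isFractionRing_intRing hx,
    finite_intRing hx⟩

theorem finite_placesAt {x : F} (hx : IsGenerator K x) (x₀ : K) : (PlacesAt K x x₀).Finite := by
  haveI := isDedekindDomain_intRing hx
  haveI := isFractionRing_intRing hx
  exact finite_placesAt_aux hx.1 x₀

/-- fundamental identity `∑ e_v = [F : K(x)]` over a finite point. -/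
theorem sum_ord_placesAt {x : F} (hx : IsGenerator K x) (x₀ : K) :
    ∑ v ∈ (finite_placesAt hx x₀).toFinset, v.ord (x - algebraMap K F x₀)
      = (Module.finrank (IntermediateField.adjoin K {x}) F : ℤ) :=
  sum_ord_placesAt_aux hx x₀ (finite_placesAt hx x₀)

/-- the places over `x = x₀` are counted by the primes of the integral closure of `K[x]`
containing `x - x₀` -/
theorem card_placesAt_eq_card_primes {x : F} (hx : IsGenerator K x) (x₀ : K) :
    Nat.card (PlacesAt K x x₀) =
      Nat.card {Q : Ideal (integralClosure (Algebra.adjoin K {x}) F) // Q.IsPrime ∧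
        ∀ b : integralClosure (Algebra.adjoin K {x}) F,
          (b : F) = x - algebraMap K F x₀ → b ∈ Q} := by
  haveI := isDedekindDomain_intRing hx
  haveI := isFractionRing_intRing hx
  exact card_placesAt_eq_card_primes_aux hx.1 x₀

theorem transcendental_inv {x : F} (hx : Transcendental K x) : Transcendental K x⁻¹ := by
  intro h
  apply hx
  have h' := h.inv
  rwa [inv_inv] at h'

theorem adjoin_inv (x : F) :
    IntermediateField.adjoin K {x⁻¹} = IntermediateField.adjoin K {x} := by
  apply le_antisymm
  · rw [IntermediateField.adjoin_simple_le_iff]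
    exact inv_mem (IntermediateField.mem_adjoin_simple_self K x)
  · rw [IntermediateField.adjoin_simple_le_iff]
    have := inv_mem (IntermediateField.mem_adjoin_simple_self K x⁻¹)
    rwa [inv_inv] at this

theorem finrank_adjoin_inv (x : F) :
    Module.finrank (IntermediateField.adjoin K {x⁻¹}) F
      = Module.finrank (IntermediateField.adjoin K {x}) F := by
  have key : ∀ E₁ E₂ : IntermediateField K F, E₁ = E₂ →
      Module.finrank E₁ F = Module.finrank E₂ F := by
    rintro _ _ rfl; rfl
  exact key _ _ (adjoin_inv x)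

theorem placesAt_inv_zero (x : F) : PlacesAt K x⁻¹ 0 = {v : Place K F | v.ord x < 0} := by
  ext v
  simp only [PlacesAt, Set.mem_setOf_eq, map_zero, sub_zero, Place.ord_inv]
  omega

theorem finite_poles {x : F} (hx : IsGenerator K x) : {v : Place K F | v.ord x < 0}.Finite := by
  have h := finite_placesAt (isGenerator_of_transcendental hx (transcendental_inv hx.1)) (0 : K)
  rwa [placesAt_inv_zero] at h

/-- fundamental identity over the point at infinity. -/
theorem sum_ord_poles {x : F} (hx : IsGenerator K x) :
    ∑ v ∈ (finite_poles hx).toFinset, v.ord x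
      = -(Module.finrank (IntermediateField.adjoin K {x}) F : ℤ) := by
  have hx' := isGenerator_of_transcendental hx (transcendental_inv hx.1)
  have h := sum_ord_placesAt hx' (0 : K)
  have hset : (finite_placesAt hx' (0 : K)).toFinset = (finite_poles hx).toFinset := by
    ext v
    rw [Set.Finite.mem_toFinset, Set.Finite.mem_toFinset, placesAt_inv_zero]
  rw [hset, finrank_adjoin_inv] at h
  simp only [map_zero, sub_zero, Place.ord_inv, Finset.sum_neg_distrib] at h
  omega

/-- principal divisors exist and have degree zero. -/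
theorem hasPrincipalDivisors {x : F} (hx : IsGenerator K x) : HasPrincipalDivisors K F := by
  classical
  refine ⟨fun f _ => ?_⟩
  by_cases hft : Transcendental K f
  · have hf' := isGenerator_of_transcendental hx hft
    have hZmem : ∀ v, v ∈ (finite_placesAt hf' (0 : K)).toFinset ↔ 0 < v.ord f := by
      intro v
      rw [Set.Finite.mem_toFinset]
      simp [PlacesAt]
    have hPmem : ∀ v, v ∈ (finite_poles hf').toFinset ↔ v.ord f < 0 := by
      intro v
      rw [Set.Finite.mem_toFinset]
      rfl
    have hdisj : Disjoint (finite_placesAt hf' (0 : K)).toFinset (finite_poles hf').toFinset := by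
      rw [Finset.disjoint_left]
      intro v h1 h2
      rw [hZmem] at h1
      rw [hPmem] at h2
      omega
    refine ⟨Finsupp.onFinset
      ((finite_placesAt hf' (0 : K)).toFinset ∪ (finite_poles hf').toFinset)
      (fun v => v.ord f) (fun v hv => ?_), fun v => rfl, ?_⟩
    · rw [Finset.mem_union, hZmem, hPmem]
      omega
    · have hdeg : ∀ D : Divisor K F, Divisor.degree D = D.sum fun v n => n * (v.deg : ℤ) := by
        intro D
        simp [Divisor.degree, Finsupp.liftAddHom_apply]
      rw [hdeg, Finsupp.onFinset_sum _ (fun v => by simp), Finset.sum_union hdisj]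
      have h1 := sum_ord_placesAt hf' (0 : K)
      have h2 := sum_ord_poles hf'
      simp only [map_zero, sub_zero] at h1
      simp only [deg_eq_one hx, Nat.cast_one, mul_one]
      rw [h1, h2]
      ring
  · obtain ⟨c, rfl⟩ := exists_algebraMap_eq_of_isAlgebraic (not_not.mp hft)
    exact ⟨0, fun v => by rw [ord_algebraMap]; rfl, map_zero _⟩

end Final

end Fermat.Agent.S24.Places
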