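import Mathlib
import Fermat.Agent.S24_Defs
import Fermat.Agent.S24_PlacesBasic
import Fermat.Agent.S24_Places
import Fermat.Agent.RR_Defs
import Fermat.Agent.RR_LSpaceCore
import Fermat.Agent.RR_RiemannCore

/-!
# Riemann–Roch, RR3: repartitions and the dimension of the Weil differentials of level `D`

`dim_K (A / (A(D) + F))^* = ℓ(D) - deg D - 1 + g₀` (Stichtenoth 1.5.4), where `g₀ - 1` is the
maximum of `deg D - ℓ(D)`.
-/

set_option autoImplicit false
set_option linter.unusedSectionVars false
set_option linter.unusedVariables false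
set_option linter.style.haveILetI false

noncomputable section

open AlgebraicCurve Fermat.Agent.S24

namespace Fermat.Agent.RR

namespace ACore

/-! ### linear algebra -/
section LinAlg

variable {K V : Type*} [Field K] [AddCommGroup V] [Module K V]

/-- adding a new vector to a finite-dimensional subspace raises the dimension by one -/
theorem finrank_sup_span_singleton (M : Submodule K V) [FiniteDimensional K M] {b : V}
    (hb : b ∉ M) :
    Module.finrank K ↥(M ⊔ Submodule.span K {b}) = Module.finrank K M + 1 := by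
  have hb0 : b ≠ 0 := fun h => hb (h ▸ M.zero_mem)
  have hdisj : M ⊓ Submodule.span K {b} = ⊥ := by
    rw [← disjoint_iff]
    exact (Submodule.disjoint_span_singleton' hb0).mpr hb
  have h := Submodule.finrank_sup_add_finrank_inf_eq M (Submodule.span K {b})
  rw [hdisj, finrank_bot, add_zero, finrank_span_singleton hb0] at h
  exact h

end LinAlg

/-! ### the chain argument -/
section Chain

variable {K F : Type*} [Field K] [Field F] [Algebra K F]

theorem le_add_single (D : Divisor K F) (P : Place K F) : D ≤ D + Finsupp.single P 1 := by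
  classical
  intro w
  rw [Finsupp.add_apply, Finsupp.single_apply]
  split_ifs <;> omega

theorem exists_sub_single (hdeg : ∀ v : Place K F, v.deg = 1) (D E : Divisor K F)
    (hDE : D ≤ E) (hne : D ≠ E) :
    ∃ v : Place K F, D ≤ E - Finsupp.single v 1 ∧
      Divisor.degree (E - Finsupp.single v 1) = Divisor.degree E - 1 := by
  classical
  obtain ⟨v, hv⟩ : ∃ v, D v ≠ E v := by
    by_contra hcon
    push Not at hcon
    exact hne (Finsupp.ext hcon)
  have hlt : D v < E v := lt_of_le_of_ne (hDE v) hv
  refine ⟨v, fun w => ?_, ?_⟩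
  · rw [Finsupp.sub_apply, Finsupp.single_apply]
    by_cases hw : v = w
    · subst hw; rw [if_pos rfl]; omega
    · rw [if_neg hw, sub_zero]; exact hDE w
  · rw [map_sub, LCore.degree_single_one hdeg]

/-- A family of subspaces indexed by divisors, growing by at most one dimension at each
one-place step, with the growth recorded by an integer valued function `q`: the image of `S E`
in `V ⧸ S D` has dimension `q E - q D`. -/
theorem chain_quot {V : Type*} [AddCommGroup V] [Module K V]
    (hdeg : ∀ v : Place K F, v.deg = 1)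
    (S : Divisor K F → Submodule K V) (q : Divisor K F → ℤ)
    (hstep : ∀ (D : Divisor K F) (P : Place K F), S D ≤ S (D + Finsupp.single P 1) ∧
      ∃ a₀ : V, a₀ ∈ S (D + Finsupp.single P 1) ∧
        S (D + Finsupp.single P 1) ≤ S D ⊔ Submodule.span K {a₀} ∧
        ((a₀ ∈ S D ∧ q (D + Finsupp.single P 1) = q D) ∨
         (a₀ ∉ S D ∧ q (D + Finsupp.single P 1) = q D + 1)))
    (D : Divisor K F) :
    ∀ (n : ℕ) (E : Divisor K F), D ≤ E → Divisor.degree E - Divisor.degree D = n →
      S D ≤ S E ∧ FiniteDimensional K ((S E).map (S D).mkQ) ∧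
        (Module.finrank K ((S E).map (S D).mkQ) : ℤ) = q E - q D := by
  have base : S D ≤ S D ∧ FiniteDimensional K ((S D).map (S D).mkQ) ∧
      (Module.finrank K ((S D).map (S D).mkQ) : ℤ) = q D - q D := by
    refine ⟨le_rfl, ?_, ?_⟩
    · rw [Submodule.mkQ_map_self]; infer_instance
    · rw [Submodule.mkQ_map_self, finrank_bot]; simp
  intro n
  induction n with
  | zero =>
    intro E hDE hdegDE
    have hED : D = E := by
      by_contra hne
      obtain ⟨v, hv1, hv2⟩ := exists_sub_single hdeg D E hDE hne
      have := LCore.degree_mono hv1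
      rw [hv2] at this
      simp only [CharP.cast_eq_zero] at hdegDE
      omega
    subst hED
    exact base
  | succ n ih =>
    intro E hDE hdegDE
    by_cases hED : D = E
    · subst hED
      exact base
    · obtain ⟨v, hv1, hv2⟩ := exists_sub_single hdeg D E hDE hED
      obtain ⟨hle', hfd', hrk'⟩ := ih (E - Finsupp.single v 1) hv1
        (by rw [hv2]; push_cast at hdegDE; omega)
      obtain ⟨hmono, a₀, ha₀, hgen, hdich⟩ := hstep (E - Finsupp.single v 1) v
      rw [sub_add_cancel] at hmono ha₀ hgen hdich
      rcases hdich with ⟨hmem, hq⟩ | ⟨hnmem, hq⟩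
      · have hSE : S E = S (E - Finsupp.single v 1) := by
          apply le_antisymm _ hmono
          refine hgen.trans (sup_le le_rfl ?_)
          rw [Submodule.span_le, Set.singleton_subset_iff]
          exact hmem
        rw [hSE, hq]
        exact ⟨hle', hfd', hrk'⟩
      · have hmap : (S E).map (S D).mkQ
            = (S (E - Finsupp.single v 1)).map (S D).mkQ ⊔ Submodule.span K {(S D).mkQ a₀} := by
          apply le_antisymm
          · refine (Submodule.map_mono hgen).trans ?_
            rw [Submodule.map_sup, Submodule.map_span, Set.image_singleton]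
          · refine sup_le (Submodule.map_mono hmono) ?_
            rw [Submodule.span_le, Set.singleton_subset_iff]
            exact Submodule.mem_map_of_mem ha₀
        have hb : (S D).mkQ a₀ ∉ (S (E - Finsupp.single v 1)).map (S D).mkQ := by
          rintro ⟨y, hy, hya⟩
          apply hnmem
          have h1 : y - a₀ ∈ S D := by
            rw [← Submodule.Quotient.mk_eq_zero, Submodule.Quotient.mk_sub, sub_eq_zero]
            exact hya
          have h2 : a₀ = y - (y - a₀) := by abel
          rw [h2]
          exact Submodule.sub_mem _ hy (hle' h1)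
        haveI := hfd'
        have hrk := finrank_sup_span_singleton _ hb
        refine ⟨hle'.trans hmono, ?_, ?_⟩
        · rw [hmap]; infer_instance
        · rw [hmap, hrk, hq]; push_cast; omega

end Chain

/-! ### repartitions -/
section Adeles

variable {K F : Type*} [Field K] [Field F] [Algebra K F]

theorem adeleD_le_adele' (D : Divisor K F) : AdeleD K F D ≤ Adele K F := by
  intro a ha
  refine (D.support.finite_toSet).subset ?_
  rintro v ⟨hv0, hv⟩
  rcases ha v with h | h
  · exact absurd h hv0
  · rw [Finset.mem_coe, Finsupp.mem_support_iff]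
    intro h0
    rw [h0] at h
    omega

/-- the repartitions bounded by `D`, inside the adeles -/
def adD (D : Divisor K F) : Submodule K (Adele K F) :=
  (AdeleD K F D).comap (Adele K F).subtype

theorem mem_adD {D : Divisor K F} {a : Adele K F} :
    a ∈ adD D ↔ ∀ v : Place K F, (a : Place K F → F) v = 0 ∨
      0 ≤ v.ord ((a : Place K F → F) v) + D v :=
  Iff.rfl

theorem adD_mono {D E : Divisor K F} (h : D ≤ E) : adD D ≤ adD E := by
  intro a ha
  refine mem_adD.mpr fun v => ?_
  rcases mem_adD.mp ha v with h0 | h0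
  · exact Or.inl h0
  · exact Or.inr (by have := h v; omega)

/-- the principal adeles -/
def prin (hdiag : ∀ f : F, diag K F f ∈ Adele K F) : Submodule K (Adele K F) :=
  LinearMap.range ((diag K F).codRestrict (Adele K F) hdiag)

theorem mem_prin (hdiag : ∀ f : F, diag K F f ∈ Adele K F) {a : Adele K F} :
    a ∈ prin hdiag ↔ ∃ f : F, (a : Place K F → F) = diag K F f := by
  constructor
  · rintro ⟨f, rfl⟩; exact ⟨f, rfl⟩
  · rintro ⟨f, hf⟩; exact ⟨f, Subtype.ext hf.symm⟩

/-- `A(D) + F` -/
def SD (hdiag : ∀ f : F, diag K F f ∈ Adele K F) (D : Divisor K F) : Submodule K (Adele K F) :=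
  adD D ⊔ prin hdiag

theorem SD_mono (hdiag : ∀ f : F, diag K F f ∈ Adele K F) {D E : Divisor K F} (h : D ≤ E) :
    SD hdiag D ≤ SD hdiag E :=
  sup_le_sup_right (adD_mono h) _

theorem weilDiff_eq (hdiag : ∀ f : F, diag K F f ∈ Adele K F) (D : Divisor K F) :
    WeilDiff K F D = (SD hdiag D).dualAnnihilator := by
  ext l
  rw [Submodule.mem_dualAnnihilator]
  constructor
  · rintro ⟨h1, h2⟩ a ha
    obtain ⟨b, hb, c, hc, rfl⟩ := Submodule.mem_sup.mp ha
    rw [map_add, h1 b hb, h2 c ((mem_prin hdiag).mp hc), add_zero]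
  · intro h
    exact ⟨fun a ha => h a (Submodule.mem_sup_left ha),
      fun a ha => h a (Submodule.mem_sup_right ((mem_prin hdiag).mpr ha))⟩

/-- the diagonal adele of `f` -/
def dg (hdiag : ∀ f : F, diag K F f ∈ Adele K F) (f : F) : Adele K F := ⟨diag K F f, hdiag f⟩

theorem dg_mem_prin (hdiag : ∀ f : F, diag K F f ∈ Adele K F) (f : F) :
    dg hdiag f ∈ prin hdiag := (mem_prin hdiag).mpr ⟨f, rfl⟩

theorem dg_mem_adD_iff (hdiag : ∀ f : F, diag K F f ∈ Adele K F) (f : F) (D : Divisor K F) :
    dg hdiag f ∈ adD D ↔ f ∈ LSpace K F D := by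
  rw [mem_adD, mem_LSpace, ← forall_or_left]
  rfl

open Classical in
/-- the family supported at `P` with value `y` -/
def sglFun (P : Place K F) (y : F) : Place K F → F := fun v => if v = P then y else 0

open Classical in
theorem sglFun_self (P : Place K F) (y : F) : sglFun P y P = y := if_pos rfl

open Classical in
theorem sglFun_ne (P : Place K F) (y : F) {v : Place K F} (hv : v ≠ P) : sglFun P y v = 0 :=
  if_neg hv

/-- the adele supported at `P` with value `y` -/
def sgl (P : Place K F) (y : F) : Adele K F :=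
  ⟨sglFun P y, by
    refine (Set.finite_singleton P).subset ?_
    rintro v ⟨hv0, -⟩
    by_contra hne
    exact hv0 (sglFun_ne P y hne)⟩

theorem sgl_apply_self (P : Place K F) (y : F) : (sgl P y : Place K F → F) P = y :=
  sglFun_self P y

theorem sgl_apply_ne (P : Place K F) (y : F) {v : Place K F} (hv : v ≠ P) :
    (sgl P y : Place K F → F) v = 0 :=
  sglFun_ne P y hv

theorem exists_ord_eq_one (P : Place K F) : ∃ t : F, P.ord t = 1 := by
  obtain ⟨ϖ, hϖ⟩ := IsDiscreteValuationRing.exists_irreducible P.toValuationSubring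
  exact ⟨ϖ, P.ord_coe_irreducible hϖ⟩

theorem add_single_apply_ne (D : Divisor K F) (P : Place K F) {w : Place K F} (hw : w ≠ P) :
    (D + Finsupp.single P 1 : Divisor K F) w = D w := by
  classical
  rw [Finsupp.add_apply, Finsupp.single_apply, if_neg (Ne.symm hw), add_zero]

theorem add_single_apply_self (D : Divisor K F) (P : Place K F) :
    (D + Finsupp.single P 1 : Divisor K F) P = D P + 1 := by
  classical
  rw [Finsupp.add_apply, Finsupp.single_apply, if_pos rfl]

/-- `A(D + P) = A(D) + K a₀` for the adele `a₀ = t^{-(D(P)+1)}` at `P` -/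
theorem exists_sub_smul_sgl_mem (hres : LCore.ResConst K F) (D : Divisor K F) (P : Place K F)
    {t : F} (ht : P.ord t = 1) {a : Adele K F} (ha : a ∈ adD (D + Finsupp.single P 1)) :
    ∃ c : K, a - c • sgl P (t ^ (-(D P + 1))) ∈ adD D := by
  have ht0 : t ≠ 0 := by rintro rfl; simp at ht
  set s : F := t ^ (-(D P + 1)) with hs
  have hs0 : s ≠ 0 := zpow_ne_zero _ ht0
  have hords : P.ord s = -(D P + 1) := by rw [hs, P.ord_zpow, ht, mul_one]
  have key : ∀ c : K, ∀ w : Place K F, w ≠ P →
      ((a - c • sgl P s : Adele K F) : Place K F → F) w = (a : Place K F → F) w := by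
    intro c w hw
    have : ((a - c • sgl P s : Adele K F) : Place K F → F) w
        = (a : Place K F → F) w - c • (sgl P s : Place K F → F) w := rfl
    rw [this, sgl_apply_ne P s hw, smul_zero, sub_zero]
  have keyP : ∀ c : K, ((a - c • sgl P s : Adele K F) : Place K F → F) P
      = (a : Place K F → F) P - c • s := by
    intro c
    have : ((a - c • sgl P s : Adele K F) : Place K F → F) P
        = (a : Place K F → F) P - c • (sgl P s : Place K F → F) P := rfl
    rw [this, sgl_apply_self]
  rcases eq_or_ne ((a : Place K F → F) P) 0 with h0 | h0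
  · refine ⟨0, ?_⟩
    rw [zero_smul, sub_zero]
    refine mem_adD.mpr fun w => ?_
    by_cases hw : w = P
    · subst hw; exact Or.inl h0
    · have := mem_adD.mp ha w; rwa [add_single_apply_ne D P hw] at this
  · have haP : 0 ≤ P.ord ((a : Place K F → F) P) + (D P + 1) := by
      have := (mem_adD.mp ha P).resolve_left h0; rwa [add_single_apply_self] at this
    set u : F := (a : Place K F → F) P * s⁻¹ with hu
    have hordu : 0 ≤ P.ord u := by
      rw [hu, P.ord_mul h0 (inv_ne_zero hs0), P.ord_inv, hords]; omega
    have hmem : u ∈ P.toValuationSubring := Places.mem_of_ord_nonneg P hordu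
    obtain ⟨c, hc⟩ := hres P ⟨u, hmem⟩
    refine ⟨c, mem_adD.mpr fun w => ?_⟩
    by_cases hw : w = P
    · subst hw
      have hval : ((a - c • sgl w s : Adele K F) : Place K F → F) w
          = (u - algebraMap K F c) * s := by
        rw [keyP, hu, Algebra.smul_def]; field_simp
      rw [hval]
      rcases eq_or_ne (u - algebraMap K F c) 0 with h1 | h1
      · left; rw [h1, zero_mul]
      · right
        have hne : (⟨u, hmem⟩ : w.toValuationSubring) - algebraMap K w.toValuationSubring c ≠ 0 := by
          intro h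
          apply h1
          have := congrArg Subtype.val h
          simpa using this
        have hpos := Places.ord_pos_of_mem_maximalIdeal w hc hne
        have hcoe : (((⟨u, hmem⟩ : w.toValuationSubring) - algebraMap K w.toValuationSubring c :
            w.toValuationSubring) : F) = u - algebraMap K F c := by
          rw [AddSubgroupClass.coe_sub, w.coe_algebraMap]
        rw [hcoe] at hpos
        rw [w.ord_mul h1 hs0, hords]
        omega
    · rw [key c w hw]
      have := mem_adD.mp ha w; rwa [add_single_apply_ne D P hw] at this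

theorem sgl_mem_adD (D : Divisor K F) (P : Place K F) {t : F} (ht : P.ord t = 1) :
    sgl P (t ^ (-(D P + 1))) ∈ adD (D + Finsupp.single P 1) := by
  refine mem_adD.mpr fun w => ?_
  by_cases hw : w = P
  · subst hw
    right
    rw [sgl_apply_self, w.ord_zpow, ht, mul_one, add_single_apply_self]
    omega
  · left; exact sgl_apply_ne P _ hw

theorem sgl_not_mem_adD (D : Divisor K F) (P : Place K F) {t : F} (ht : P.ord t = 1) :
    sgl P (t ^ (-(D P + 1))) ∉ adD D := by
  have ht0 : t ≠ 0 := by rintro rfl; simp at ht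
  intro h
  rcases mem_adD.mp h P with h0 | h0
  · rw [sgl_apply_self] at h0
    exact zpow_ne_zero _ ht0 h0
  · rw [sgl_apply_self, P.ord_zpow, ht, mul_one] at h0
    omega

theorem SD_step_le (hdiag : ∀ f : F, diag K F f ∈ Adele K F) (hres : LCore.ResConst K F)
    (D : Divisor K F) (P : Place K F) {t : F} (ht : P.ord t = 1) :
    SD hdiag (D + Finsupp.single P 1)
      ≤ SD hdiag D ⊔ Submodule.span K {sgl P (t ^ (-(D P + 1)))} := by
  refine sup_le ?_ (le_sup_of_le_left le_sup_right)
  intro a ha
  obtain ⟨c, hc⟩ := exists_sub_smul_sgl_mem hres D P ht ha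
  have : a = (a - c • sgl P (t ^ (-(D P + 1)))) + c • sgl P (t ^ (-(D P + 1))) :=
    (sub_add_cancel _ _).symm
  rw [this]
  exact Submodule.add_mem _ (Submodule.mem_sup_left (Submodule.mem_sup_left hc))
    (Submodule.mem_sup_right (Submodule.smul_mem _ c (Submodule.mem_span_singleton_self _)))

theorem sgl_mem_SD_iff (hdiag : ∀ f : F, diag K F f ∈ Adele K F) (hres : LCore.ResConst K F)
    (D : Divisor K F) (P : Place K F) {t : F} (ht : P.ord t = 1) :
    sgl P (t ^ (-(D P + 1))) ∈ SD hdiag D ↔
      ∃ g : F, g ∈ LSpace K F (D + Finsupp.single P 1) ∧ g ∉ LSpace K F D := by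
  constructor
  · intro h
    obtain ⟨b, hb, c, hc, hsum⟩ := Submodule.mem_sup.mp h
    obtain ⟨f, hf⟩ := (mem_prin hdiag).mp hc
    have hcf : c = dg hdiag f := Subtype.ext hf
    refine ⟨f, ?_, ?_⟩
    · rw [← dg_mem_adD_iff hdiag, ← hcf]
      have : c = sgl P (t ^ (-(D P + 1))) - b := by rw [← hsum]; abel
      rw [this]
      exact Submodule.sub_mem _ (sgl_mem_adD D P ht) (adD_mono (le_add_single D P) hb)
    · intro hfD
      rw [← dg_mem_adD_iff hdiag, ← hcf] at hfD
      apply sgl_not_mem_adD D P ht
      rw [← hsum]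
      exact Submodule.add_mem _ hb hfD
  · rintro ⟨g, hg, hgD⟩
    rw [← dg_mem_adD_iff hdiag] at hg hgD
    obtain ⟨c, hc⟩ := exists_sub_smul_sgl_mem hres D P ht hg
    have hc0 : c ≠ 0 := by
      rintro rfl
      rw [zero_smul, sub_zero] at hc
      exact hgD hc
    have : c⁻¹ • dg hdiag g - c⁻¹ • (dg hdiag g - c • sgl P (t ^ (-(D P + 1))))
        = sgl P (t ^ (-(D P + 1))) := by
      rw [smul_sub, sub_sub_cancel, smul_smul, inv_mul_cancel₀ hc0, one_smul]
    rw [← this]
    exact Submodule.sub_mem _
      (Submodule.smul_mem _ _ (Submodule.mem_sup_right (dg_mem_prin hdiag g)))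
      (Submodule.smul_mem _ _ (Submodule.mem_sup_left hc))

/-- the one-place dichotomy for `L(D)` -/
theorem LSpace_step (hres : LCore.ResConst K F) (D : Divisor K F) (P : Place K F)
    [FiniteDimensional K (LSpace K F D)] :
    ((¬ ∃ g : F, g ∈ LSpace K F (D + Finsupp.single P 1) ∧ g ∉ LSpace K F D) ∧
      Module.finrank K (LSpace K F (D + Finsupp.single P 1))
        = Module.finrank K (LSpace K F D)) ∨
    ((∃ g : F, g ∈ LSpace K F (D + Finsupp.single P 1) ∧ g ∉ LSpace K F D) ∧
      Module.finrank K (LSpace K F (D + Finsupp.single P 1))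
        = Module.finrank K (LSpace K F D) + 1) := by
  by_cases h : ∃ g : F, g ∈ LSpace K F (D + Finsupp.single P 1) ∧ g ∉ LSpace K F D
  · right
    refine ⟨h, ?_⟩
    obtain ⟨g, hg, hgD⟩ := h
    have heq : LSpace K F (D + Finsupp.single P 1) = LSpace K F D ⊔ Submodule.span K {g} := by
      apply le_antisymm
      · intro f hf
        obtain ⟨c, hc⟩ := LCore.exists_sub_smul_mem hres D P hf hg hgD
        have : f = (f - c • g) + c • g := by ring
        rw [this]
        exact Submodule.add_mem _ (Submodule.mem_sup_left hc)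
          (Submodule.mem_sup_right (Submodule.smul_mem _ c (Submodule.mem_span_singleton_self g)))
      · refine sup_le (LCore.LSpace_mono (le_add_single D P)) ?_
        rw [Submodule.span_le, Set.singleton_subset_iff]
        exact hg
    rw [heq]
    exact finrank_sup_span_singleton _ hgD
  · left
    refine ⟨h, ?_⟩
    have heq : LSpace K F (D + Finsupp.single P 1) = LSpace K F D := by
      apply le_antisymm _ (LCore.LSpace_mono (le_add_single D P))
      intro f hf
      by_contra hfD
      exact h ⟨f, hf, hfD⟩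
    rw [heq]

/-- every adele lies in some `A(E)` with `E ≥ B` -/
theorem exists_ge_mem_adD (B : Divisor K F) (a : Adele K F) :
    ∃ E : Divisor K F, B ≤ E ∧ a ∈ adD E := by
  classical
  have hbad : {v : Place K F | (a : Place K F → F) v ≠ 0 ∧
      v.ord ((a : Place K F → F) v) < 0}.Finite := a.2
  set s : Finset (Place K F) := B.support ∪ hbad.toFinset with hs
  let C : Divisor K F := Finsupp.onFinset s
    (fun v => if v ∈ s then |B v| + |v.ord ((a : Place K F → F) v)| else 0)
    (fun v hv => by by_contra h; exact hv (if_neg h))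
  have hC : ∀ v, C v = if v ∈ s then |B v| + |v.ord ((a : Place K F → F) v)| else 0 :=
    fun v => rfl
  refine ⟨B + C, fun v => ?_, mem_adD.mpr fun v => ?_⟩
  · rw [Finsupp.add_apply, hC]
    split_ifs
    · have := abs_nonneg (B v)
      have := abs_nonneg (v.ord ((a : Place K F → F) v))
      omega
    · omega
  · by_cases h0 : (a : Place K F → F) v = 0
    · exact Or.inl h0
    right
    rw [Finsupp.add_apply, hC]
    split_ifs with hv
    · have := neg_abs_le (B v)
      have := neg_abs_le (v.ord ((a : Place K F → F) v))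
      omega
    · rw [hs, Finset.mem_union, not_or, Finsupp.mem_support_iff, not_not,
        Set.Finite.mem_toFinset] at hv
      have h1 : ¬ v.ord ((a : Place K F → F) v) < 0 := fun h => hv.2 ⟨h0, h⟩
      rw [hv.1]
      omega

end Adeles

/-! ### the index of speciality -/
section Main

variable {K F : Type*} [Field K] [Field F] [Algebra K F]

/-- the combined one-place step for `S D = A(D) + F` and `q D = deg D - ℓ(D)` -/
theorem SD_step (hdiag : ∀ f : F, diag K F f ∈ Adele K F) (hres : LCore.ResConst K F)
    (hdeg : ∀ v : Place K F, v.deg = 1)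
    (hfd : ∀ D : Divisor K F, FiniteDimensional K (LSpace K F D))
    (D : Divisor K F) (P : Place K F) :
    SD hdiag D ≤ SD hdiag (D + Finsupp.single P 1) ∧
      ∃ a₀ : Adele K F, a₀ ∈ SD hdiag (D + Finsupp.single P 1) ∧
        SD hdiag (D + Finsupp.single P 1) ≤ SD hdiag D ⊔ Submodule.span K {a₀} ∧
        ((a₀ ∈ SD hdiag D ∧
            Divisor.degree (D + Finsupp.single P 1)
              - (Module.finrank K (LSpace K F (D + Finsupp.single P 1)) : ℤ)
            = Divisor.degree D - (Module.finrank K (LSpace K F D) : ℤ)) ∨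
         (a₀ ∉ SD hdiag D ∧
            Divisor.degree (D + Finsupp.single P 1)
              - (Module.finrank K (LSpace K F (D + Finsupp.single P 1)) : ℤ)
            = Divisor.degree D - (Module.finrank K (LSpace K F D) : ℤ) + 1)) := by
  obtain ⟨t, ht⟩ := exists_ord_eq_one P
  refine ⟨SD_mono hdiag (le_add_single D P), sgl P (t ^ (-(D P + 1))),
    Submodule.mem_sup_left (sgl_mem_adD D P ht), SD_step_le hdiag hres D P ht, ?_⟩
  have hdegE : Divisor.degree (D + Finsupp.single P 1) = Divisor.degree D + 1 := by
    rw [map_add, LCore.degree_single_one hdeg]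
  haveI := hfd D
  rcases LSpace_step hres D P with ⟨hno, hrk⟩ | ⟨hyes, hrk⟩
  · right
    refine ⟨fun h => hno ((sgl_mem_SD_iff hdiag hres D P ht).mp h), ?_⟩
    rw [hdegE, hrk]; ring
  · left
    refine ⟨(sgl_mem_SD_iff hdiag hres D P ht).mpr hyes, ?_⟩
    rw [hdegE, hrk]; push_cast; ring

/-- `dim A / (A(D) + F) = (g₀ - 1) - (deg D - ℓ(D))`, where `g₀ - 1 = max (deg D - ℓ(D))`. -/
theorem exists_genus_quot (hdiag : ∀ f : F, diag K F f ∈ Adele K F) (hres : LCore.ResConst K F)
    (hdeg : ∀ v : Place K F, v.deg = 1)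
    (hfd : ∀ D : Divisor K F, FiniteDimensional K (LSpace K F D))
    (hbound : ∃ γ : ℤ, ∀ D : Divisor K F,
      Divisor.degree D - (Module.finrank K (LSpace K F D) : ℤ) ≤ γ) :
    ∃ g₀ : ℤ, (∀ D : Divisor K F,
        Divisor.degree D - (Module.finrank K (LSpace K F D) : ℤ) ≤ g₀ - 1) ∧
      ∀ D : Divisor K F, FiniteDimensional K (Adele K F ⧸ SD hdiag D) ∧
        (Module.finrank K (Adele K F ⧸ SD hdiag D) : ℤ)
          = g₀ - 1 - (Divisor.degree D - (Module.finrank K (LSpace K F D) : ℤ)) := by
  classical
  set q : Divisor K F → ℤ :=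
    fun D => Divisor.degree D - (Module.finrank K (LSpace K F D) : ℤ) with hq
  have hchain := fun D => chain_quot (V := Adele K F) hdeg (SD hdiag) q
    (SD_step hdiag hres hdeg hfd) D
  have hchain' : ∀ D E : Divisor K F, D ≤ E →
      FiniteDimensional K ((SD hdiag E).map (SD hdiag D).mkQ) ∧
        (Module.finrank K ((SD hdiag E).map (SD hdiag D).mkQ) : ℤ) = q E - q D := by
    intro D E hDE
    have hd := LCore.degree_mono hDE
    exact (hchain D (Divisor.degree E - Divisor.degree D).toNat E hDE (by omega)).2
  have hqmono : ∀ D E : Divisor K F, D ≤ E → q D ≤ q E := by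
    intro D E hDE
    have := (hchain' D E hDE).2
    omega
  -- the maximum of `q`
  obtain ⟨γ, hγ⟩ := hbound
  obtain ⟨m, ⟨B, hB⟩, hm⟩ := Int.exists_greatest_of_bdd (P := fun z => ∃ D : Divisor K F, q D = z)
    ⟨γ, by rintro z ⟨D, rfl⟩; exact hγ D⟩ ⟨q 0, 0, rfl⟩
  have hmax : ∀ D : Divisor K F, q D ≤ m := fun D => hm (q D) ⟨D, rfl⟩
  have hqB : ∀ E : Divisor K F, B ≤ E → q E = m := by
    intro E hE
    have h1 := hqmono B E hE
    have h2 := hmax E
    omega
  -- `A = A(B) + F`
  have htop : ∀ E : Divisor K F, B ≤ E → SD hdiag E = ⊤ := by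
    intro E hE
    rw [eq_top_iff]
    intro a _
    obtain ⟨E', hE', ha⟩ := exists_ge_mem_adD E a
    have hBE' : B ≤ E' := hE.trans hE'
    obtain ⟨hfin, hrk⟩ := hchain' E E' hE'
    rw [hqB E hE, hqB E' hBE', sub_self] at hrk
    haveI := hfin
    have hbot : (SD hdiag E').map (SD hdiag E).mkQ = ⊥ :=
      Submodule.finrank_eq_zero.mp (by exact_mod_cast hrk)
    have hle : SD hdiag E' ≤ SD hdiag E := by
      have := (LinearMap.le_ker_iff_map (f := (SD hdiag E).mkQ)).mpr hbot
      rwa [Submodule.ker_mkQ] at this
    exact hle (Submodule.mem_sup_left ha)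
  refine ⟨m + 1, fun D => by have := hmax D; simp only [hq] at this; omega, fun D => ?_⟩
  have hE : B ≤ D ⊔ B := le_sup_right
  obtain ⟨hfin, hrk⟩ := hchain' D (D ⊔ B) le_sup_left
  rw [htop (D ⊔ B) hE, Submodule.map_top, Submodule.range_mkQ] at hfin hrk
  rw [hqB (D ⊔ B) hE, finrank_top] at hrk
  refine ⟨?_, ?_⟩
  · haveI := hfin
    exact Module.Finite.equiv (Submodule.topEquiv (R := K) (M := Adele K F ⧸ SD hdiag D))
  · rw [hrk]; ring

/-- Stichtenoth 1.5.4 with the inputs from the theory of places as hypotheses -/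
theorem exists_genus_weilDiff_core (hdiag : ∀ f : F, diag K F f ∈ Adele K F)
    (hres : LCore.ResConst K F) (hdeg : ∀ v : Place K F, v.deg = 1)
    (hfd : ∀ D : Divisor K F, FiniteDimensional K (LSpace K F D))
    (hbound : ∃ γ : ℤ, ∀ D : Divisor K F,
      Divisor.degree D - (Module.finrank K (LSpace K F D) : ℤ) ≤ γ) :
    ∃ g₀ : ℤ, (∀ D : Divisor K F,
        Divisor.degree D - (Module.finrank K (LSpace K F D) : ℤ) ≤ g₀ - 1) ∧
      ∀ D : Divisor K F, FiniteDimensional K (WeilDiff K F D) ∧
        (Module.finrank K (WeilDiff K F D) : ℤ)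
          = Module.finrank K (LSpace K F D) - Divisor.degree D - 1 + g₀ := by
  obtain ⟨g₀, h1, h2⟩ := exists_genus_quot hdiag hres hdeg hfd hbound
  refine ⟨g₀, h1, fun D => ?_⟩
  obtain ⟨hfin, hrk⟩ := h2 D
  haveI := hfin
  rw [weilDiff_eq hdiag D]
  have e := Submodule.dualQuotEquivDualAnnihilator (SD hdiag D)
  refine ⟨Module.Finite.equiv e, ?_⟩
  rw [← e.finrank_eq, Subspace.dual_finrank_eq, hrk]
  ring

end Main

/-! ### the inputs for a function field with a generator -/
section Inputs

variable {K F : Type*} [Field K] [IsAlgClosed K] [CharZero K] [Field F] [Algebra K F]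

theorem nonempty_place {x : F} (hx : IsGenerator K x) : Nonempty (Place K F) := by
  by_contra h
  rw [not_nonempty_iff] at h
  have h1 := Places.sum_ord_placesAt hx (0 : K)
  haveI := hx.2
  have h2 : 0 < Module.finrank (IntermediateField.adjoin K {x}) F := Module.finrank_pos
  rw [Finset.sum_eq_zero (fun v _ => (h.false v).elim)] at h1
  omega

theorem resConst {x : F} (hx : IsGenerator K x) : LCore.ResConst K F :=
  fun v a => Places.exists_sub_mem_maximalIdeal hx v a

theorem finite_ord_neg {x : F} (hx : IsGenerator K x) (f : F) :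
    {v : Place K F | v.ord f < 0}.Finite := by
  by_cases hf : Transcendental K f
  · exact Places.finite_poles (Places.isGenerator_of_transcendental hx hf)
  · obtain ⟨c, rfl⟩ := Places.exists_algebraMap_eq_of_isAlgebraic (not_not.mp hf)
    convert Set.finite_empty
    ext v
    simp [Places.ord_algebraMap]

end Inputs

end ACore

open ACore

/-! ### the statements of RR3 -/
section Final

variable {K F : Type*} [Field K] [IsAlgClosed K] [CharZero K] [Field F] [Algebra K F]

theorem diag_mem_adele {x : F} (hx : IsGenerator K x) (f : F) : diag K F f ∈ Adele K F :=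
  (finite_ord_neg hx f).subset fun v hv => hv.2

/-- The module structure of the repartitions over `F` (pointwise), as a map. -/
theorem smul_mem_adele {x : F} (hx : IsGenerator K x) (f : F) {a : Place K F → F}
    (ha : a ∈ Adele K F) : (fun v => f * a v) ∈ Adele K F := by
  have ha' : {v : Place K F | a v ≠ 0 ∧ v.ord (a v) < 0}.Finite := ha
  refine (ha'.union (finite_ord_neg hx f)).subset ?_
  rintro v ⟨hv0, hv⟩
  have hf0 : f ≠ 0 := left_ne_zero_of_mul hv0
  have ha0 : a v ≠ 0 := right_ne_zero_of_mul hv0
  rw [v.ord_mul hf0 ha0] at hv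
  by_cases h : v.ord f < 0
  · exact Or.inr h
  · exact Or.inl ⟨ha0, by omega⟩

theorem adeleD_le_adele (D : Divisor K F) : AdeleD K F D ≤ Adele K F :=
  adeleD_le_adele' D

/-- Stichtenoth 1.5.4: there is `g₀` (the genus) with
`dim_K (A / (A(D) + F))^* = ℓ(D) - deg D - 1 + g₀` for all `D`; moreover `g₀` is the maximum
of `deg D - ℓ(D) + 1`. -/
theorem exists_genus_weilDiff {x : F} (hx : IsGenerator K x) :
    ∃ g₀ : ℤ, (∀ D : Divisor K F,
        Divisor.degree D - (Module.finrank K (LSpace K F D) : ℤ) ≤ g₀ - 1) ∧
      ∀ D : Divisor K F, FiniteDimensional K (WeilDiff K F D) ∧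
        (Module.finrank K (WeilDiff K F D) : ℤ)
          = Module.finrank K (LSpace K F D) - Divisor.degree D - 1 + g₀ := by
  have hres := resConst hx
  have hdeg : ∀ v : Place K F, v.deg = 1 := Places.deg_eq_one hx
  have hpr := Places.hasPrincipalDivisors hx
  have hne := nonempty_place hx
  exact exists_genus_weilDiff_core (diag_mem_adele hx) hres hdeg
    (LCore.finiteDimensional_LSpace hx hres hdeg hpr hne)
    (RCore.exists_riemann_bound hx hres hdeg hpr (Places.finite_poles hx) (Places.sum_ord_poles hx))

end Final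

end Fermat.Agent.RR
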