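import Mathlib
import Fermat.Agent.S24_Defs
import Fermat.Agent.S24_PlacesBasic

/-!
# S24, M2: Kähler differentials of a function field of one variable

`K` algebraically closed of characteristic zero, `F/K` a function field with a generator `x`
(`IsGenerator K x`).

* `exists_kaehler_equiv`: `Ω[F⁄K]` is free of rank one on `dx` (formally étale over `K[X]`).
* `deriv_mem`: for a place `v` with uniformizer `ϖ`, the derivation `d/dϖ` of `F` preserves the
  valuation ring of `v` (successive approximation by polynomials in `ϖ` + a separable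
  annihilating polynomial; no completion needed).
* `ord_deriv`: `ord_v (df/dϖ) = ord_v f - 1` whenever `ord_v f ≠ 0`.
* the skeleton statements: `span_D_eq_top`, `D_ne_zero`, `nontrivial_kaehler`, `dCoordGenerates`,
  `ordDifferential_D_of_mem_placesAt`, `ordDifferential_D_of_ord_neg`, `ordDifferential_smul_D`.
-/

set_option autoImplicit false
set_option linter.unusedSectionVars false

noncomputable section

open AlgebraicCurve Polynomial

namespace Fermat.Agent.S24

namespace Kaehler

open KaehlerDifferential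
open scoped IntermediateField TensorProduct

/-! ### `Ω[F⁄K]` is free of rank one on `dx` -/

section Generic

variable {K F : Type*} [Field K] [Field F] [Algebra K F]

/-- If `x` is transcendental over `K`, then `K(x)` is the fraction field of `K[X]`
(acting through `X ↦ x`). -/
theorem isFractionRing_adjoin_simple {x : F} (hx : Transcendental K x) :
    letI : Algebra K[X] K⟮x⟯ :=
      (aeval (IntermediateField.AdjoinSimple.gen K x) : K[X] →ₐ[K] K⟮x⟯).toRingHom.toAlgebra
    IsFractionRing K[X] K⟮x⟯ := by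
  let algE : Algebra K[X] K⟮x⟯ :=
    (aeval (IntermediateField.AdjoinSimple.gen K x) : K[X] →ₐ[K] K⟮x⟯).toRingHom.toAlgebra
  have hmapE : ∀ p : K[X],
      algebraMap K[X] K⟮x⟯ p = aeval (IntermediateField.AdjoinSimple.gen K x) p := fun p => rfl
  have hcoe : ∀ p : K[X], ((aeval (IntermediateField.AdjoinSimple.gen K x) p : K⟮x⟯) : F)
      = aeval x p := by
    intro p
    simp
  have : FaithfulSMul K[X] K⟮x⟯ := by
    rw [faithfulSMul_iff_algebraMap_injective]
    intro p q hpq
    rw [hmapE, hmapE] at hpq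
    have h2 := congrArg (fun e : K⟮x⟯ => (e : F)) hpq
    simp only [hcoe] at h2
    exact (transcendental_iff_injective.mp hx) h2
  refine IsFractionRing.of_field _ _ ?_
  intro z
  obtain ⟨r, s, hrs⟩ := (IntermediateField.mem_adjoin_simple_iff K (z : F)).mp z.2
  refine ⟨r, s, ?_⟩
  apply Subtype.ext
  rw [hmapE, hmapE]
  push_cast
  rw [hcoe, hcoe]
  exact hrs

/-- Every element of `F` is a root of a nonzero polynomial with coefficients in `K[x]`, if `F`
is algebraic over `K(x)` and `x` is transcendental. -/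
theorem exists_bivariate {x : F} (hx : Transcendental K x)
    (halg : Algebra.IsAlgebraic K⟮x⟯ F) (f : F) :
    ∃ P : K[X][X], P ≠ 0 ∧ P.eval₂ ((aeval x : K[X] →ₐ[K] F) : K[X] →+* F) f = 0 := by
  let algF : Algebra K[X] F := (aeval x : K[X] →ₐ[K] F).toRingHom.toAlgebra
  let algE : Algebra K[X] K⟮x⟯ :=
    (aeval (IntermediateField.AdjoinSimple.gen K x) : K[X] →ₐ[K] K⟮x⟯).toRingHom.toAlgebra
  have hmapE : ∀ p : K[X],
      algebraMap K[X] K⟮x⟯ p = aeval (IntermediateField.AdjoinSimple.gen K x) p := fun p => rfl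
  have hmapF : ∀ p : K[X], algebraMap K[X] F p = aeval x p := fun p => rfl
  have hcoe : ∀ p : K[X], ((aeval (IntermediateField.AdjoinSimple.gen K x) p : K⟮x⟯) : F)
      = aeval x p := by
    intro p
    simp
  have : IsScalarTower K[X] K⟮x⟯ F := IsScalarTower.of_algebraMap_eq fun p => by
    rw [hmapF, hmapE]; exact (hcoe p).symm
  have : IsFractionRing K[X] K⟮x⟯ := isFractionRing_adjoin_simple hx
  have h1 : IsAlgebraic K[X] f :=
    (IsFractionRing.isAlgebraic_iff K[X] K⟮x⟯ F).mpr (halg.isAlgebraic f)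
  obtain ⟨P, hP0, hP⟩ := h1
  exact ⟨P, hP0, hP⟩

variable [CharZero K]

/-- If `x` is transcendental over `K` and `F` is algebraic over `K(x)` (characteristic zero),
then `F` is formally étale over `K[X]` (acting through `X ↦ x`). -/
theorem formallyEtale_polynomial {x : F} (hx : Transcendental K x)
    (halg : Algebra.IsAlgebraic K⟮x⟯ F) :
    letI : Algebra K[X] F := (aeval x : K[X] →ₐ[K] F).toRingHom.toAlgebra
    Algebra.FormallyEtale K[X] F := by
  let algF : Algebra K[X] F := (aeval x : K[X] →ₐ[K] F).toRingHom.toAlgebra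
  let algE : Algebra K[X] K⟮x⟯ :=
    (aeval (IntermediateField.AdjoinSimple.gen K x) : K[X] →ₐ[K] K⟮x⟯).toRingHom.toAlgebra
  have hmapE : ∀ p : K[X],
      algebraMap K[X] K⟮x⟯ p = aeval (IntermediateField.AdjoinSimple.gen K x) p := fun p => rfl
  have hmapF : ∀ p : K[X], algebraMap K[X] F p = aeval x p := fun p => rfl
  have hcoe : ∀ p : K[X], ((aeval (IntermediateField.AdjoinSimple.gen K x) p : K⟮x⟯) : F)
      = aeval x p := by
    intro p
    simp
  have : IsScalarTower K[X] K⟮x⟯ F := IsScalarTower.of_algebraMap_eq fun p => by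
    rw [hmapF, hmapE]; exact (hcoe p).symm
  have : IsFractionRing K[X] K⟮x⟯ := isFractionRing_adjoin_simple hx
  have : Algebra.FormallyEtale K[X] K⟮x⟯ :=
    Algebra.FormallyEtale.of_isLocalization (nonZeroDivisors K[X])
  have : CharZero K⟮x⟯ := charZero_of_injective_algebraMap (algebraMap K K⟮x⟯).injective
  have : Algebra.IsSeparable K⟮x⟯ F := inferInstance
  have : Algebra.FormallyEtale K⟮x⟯ F := Algebra.FormallyEtale.of_isSeparable K⟮x⟯ F
  exact Algebra.FormallyEtale.comp K[X] K⟮x⟯ F

/-- Under the same hypotheses, `Ω[F⁄K]` is free of rank one on `dx`. -/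
theorem exists_kaehler_equiv {x : F} (hx : Transcendental K x)
    (halg : Algebra.IsAlgebraic K⟮x⟯ F) :
    ∃ e : Ω[F⁄K] ≃ₗ[F] F, e (D K F x) = 1 := by
  let algF : Algebra K[X] F := (aeval x : K[X] →ₐ[K] F).toRingHom.toAlgebra
  have : IsScalarTower K K[X] F := IsScalarTower.of_algebraMap_eq fun c => by
    change algebraMap K F c = aeval x (C c)
    simp
  have : Algebra.FormallyEtale K[X] F := formallyEtale_polynomial hx halg
  let e₁ := tensorKaehlerEquivOfFormallyEtale K K[X] F
  let e₂ : F ⊗[K[X]] Ω[K[X]⁄K] ≃ₗ[F] F ⊗[K[X]] K[X] :=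
    TensorProduct.AlgebraTensorModule.congr (LinearEquiv.refl F F) (polynomialEquiv K)
  let e₃ : F ⊗[K[X]] K[X] ≃ₗ[F] F := TensorProduct.AlgebraTensorModule.rid K[X] F F
  refine ⟨e₁.symm ≪≫ₗ e₂ ≪≫ₗ e₃, ?_⟩
  have hx' : x = algebraMap K[X] F X := by
    change x = aeval x X
    simp
  rw [LinearEquiv.trans_apply, LinearEquiv.trans_apply]
  conv_lhs => rw [hx']
  rw [tensorKaehlerEquivOfFormallyEtale_symm_D_algebraMap]
  simp [e₂, e₃]

end Generic

/-! ### The derivation `d/dϖ` preserves the valuation ring -/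

section Core

variable {K F : Type*} [Field K] [Field F] [Algebra K F]

/-- coefficientwise derivative of a bivariate polynomial -/
def coeffDeriv (P : K[X][X]) : K[X][X] := P.sum fun n q => monomial n (derivative q)

theorem coeffDeriv_add (P Q : K[X][X]) : coeffDeriv (P + Q) = coeffDeriv P + coeffDeriv Q := by
  unfold coeffDeriv
  exact Polynomial.sum_add_index _ _ _ (by simp) (by intros; simp)

theorem coeffDeriv_monomial (n : ℕ) (q : K[X]) :
    coeffDeriv (monomial n q) = monomial n (derivative q) := by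
  unfold coeffDeriv
  exact Polynomial.sum_monomial_index _ _ (by simp)

variable (v : Place K F)

/-- the evaluation `K[X] → O_v`, `X ↦ ϖ`. -/
abbrev evalO (ϖ : v.toValuationSubring) : K[X] →+* v.toValuationSubring :=
  (aeval ϖ : K[X] →ₐ[K] v.toValuationSubring).toRingHom

theorem coe_evalO (ϖ : v.toValuationSubring) (q : K[X]) :
    ((evalO v ϖ q : v.toValuationSubring) : F) = aeval (ϖ : F) q := by
  have := aeval_algebraMap_apply F ϖ q
  exact this.symm

theorem coe_eval_map (ϖ : v.toValuationSubring) (P : K[X][X]) (a : v.toValuationSubring) :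
    (((P.map (evalO v ϖ)).eval a : v.toValuationSubring) : F)
      = P.eval₂ ((aeval (ϖ : F) : K[X] →ₐ[K] F) : K[X] →+* F) (a : F) := by
  rw [eval_map]
  have h := Polynomial.hom_eval₂ P (evalO v ϖ) v.toValuationSubring.subtype a
  have h2 : (v.toValuationSubring.subtype).comp (evalO v ϖ)
      = ((aeval (ϖ : F) : K[X] →ₐ[K] F) : K[X] →+* F) := RingHom.ext (coe_evalO v ϖ)
  rw [h2] at h
  exact h

theorem deriv_evalO (ϖ : v.toValuationSubring) (δ : Derivation K F F) (hδ : δ (ϖ : F) = 1)
    (q : K[X]) : δ ((evalO v ϖ q : v.toValuationSubring) : F)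
      = ((evalO v ϖ (derivative q) : v.toValuationSubring) : F) := by
  rw [coe_evalO, coe_evalO, Derivation.map_aeval, hδ, smul_eq_mul, mul_one]

/-- chain rule for a derivation with `δ ϖ = 1`. -/
theorem deriv_eval (ϖ : v.toValuationSubring) (δ : Derivation K F F) (hδ : δ (ϖ : F) = 1)
    (P : K[X][X]) (a : v.toValuationSubring) :
    δ (((P.map (evalO v ϖ)).eval a : v.toValuationSubring) : F)
      = ((((coeffDeriv P).map (evalO v ϖ)).eval a : v.toValuationSubring) : F)
        + ((((derivative P).map (evalO v ϖ)).eval a : v.toValuationSubring) : F) * δ (a : F) := by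
  induction P using Polynomial.induction_on' with
  | add P Q hP hQ =>
    simp only [Polynomial.map_add, eval_add, coeffDeriv_add, derivative_add] at hP hQ ⊢
    push_cast
    rw [map_add, hP, hQ]
    ring
  | monomial n q =>
    rw [coeffDeriv_monomial, derivative_monomial, Polynomial.map_monomial, Polynomial.map_monomial,
      Polynomial.map_monomial, eval_monomial, eval_monomial, eval_monomial]
    push_cast
    rw [Derivation.leibniz, Derivation.leibniz_pow, deriv_evalO v ϖ δ hδ]
    simp only [smul_eq_mul, map_mul, map_natCast]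
    push_cast
    ring

variable {v} {ϖ : v.toValuationSubring} (hϖ : Irreducible ϖ)

include hϖ

theorem not_dvd_algebraMap {c : K} (hc : c ≠ 0) : ¬ ϖ ∣ algebraMap K v.toValuationSubring c := by
  intro h
  have hu : IsUnit (algebraMap K v.toValuationSubring c) := (isUnit_iff_ne_zero.mpr hc).map _
  exact hϖ.not_isUnit (isUnit_of_dvd_unit h hu)

theorem X_pow_dvd_of_dvd (n : ℕ) : ∀ p : K[X], ϖ ^ n ∣ evalO v ϖ p → X ^ n ∣ p := by
  induction n with
  | zero => intro p _; simp
  | succ n ih =>
    intro p hp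
    have hp' : p = divX p * X + C (p.coeff 0) := (divX_mul_X_add p).symm
    have h0 : p.coeff 0 = 0 := by
      by_contra hne
      apply not_dvd_algebraMap hϖ hne
      have h1 : ϖ ∣ evalO v ϖ p := dvd_trans (dvd_pow_self ϖ (Nat.succ_ne_zero n)) hp
      have h2 : evalO v ϖ p
          = evalO v ϖ (divX p) * ϖ + algebraMap K v.toValuationSubring (p.coeff 0) := by
        conv_lhs => rw [hp']
        simp [evalO]
      rw [h2] at h1
      exact (dvd_add_right (Dvd.intro_left _ rfl)).mp h1
    rw [h0, map_zero, add_zero] at hp'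
    have h3 : ϖ ^ n ∣ evalO v ϖ (divX p) := by
      have h2 : evalO v ϖ p = evalO v ϖ (divX p) * ϖ := by
        conv_lhs => rw [hp']
        simp [evalO]
      rw [h2, pow_succ] at hp
      exact (mul_dvd_mul_iff_right hϖ.ne_zero).mp hp
    obtain ⟨q, hq⟩ := ih _ h3
    exact ⟨q, by rw [hp', hq]; ring⟩

theorem evalO_injective : Function.Injective (evalO v ϖ) := by
  rw [injective_iff_map_eq_zero]
  intro p hp
  by_contra hne
  have h := X_pow_dvd_of_dvd hϖ (p.natDegree + 1) p (by rw [hp]; exact dvd_zero _)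
  have := Polynomial.natDegree_le_of_dvd h hne
  rw [natDegree_X_pow] at this
  omega

theorem dvd_derivative (n : ℕ) (p : K[X]) (hp : ϖ ^ (n + 1) ∣ evalO v ϖ p) :
    ϖ ^ n ∣ evalO v ϖ (derivative p) := by
  obtain ⟨q, rfl⟩ := X_pow_dvd_of_dvd hϖ (n + 1) p hp
  have : derivative (X ^ (n + 1) * q)
      = X ^ n * (((n + 1 : ℕ) : K[X]) * q + X * derivative q) := by
    rw [derivative_mul, derivative_X_pow]
    simp only [Nat.add_sub_cancel, map_natCast]
    ring
  rw [this, map_mul, map_pow]
  have hX : evalO v ϖ X = ϖ := by simp [evalO]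
  rw [hX]
  exact Dvd.intro _ rfl

omit hϖ in
/-- successive approximation by polynomials in the uniformizer -/
theorem exists_approx (hres : ∀ f : v.toValuationSubring, ∃ c : K,
      ϖ ∣ f - algebraMap K v.toValuationSubring c) (f : v.toValuationSubring) (n : ℕ) :
    ∃ p : K[X], ϖ ^ n ∣ f - evalO v ϖ p := by
  induction n with
  | zero => exact ⟨0, by simp⟩
  | succ n ih =>
    obtain ⟨p, g, hg⟩ := ih
    obtain ⟨c, g', hg'⟩ := hres g
    refine ⟨p + C c * X ^ n, g', ?_⟩
    have : evalO v ϖ (p + C c * X ^ n)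
        = evalO v ϖ p + algebraMap K v.toValuationSubring c * ϖ ^ n := by
      simp [evalO]
    rw [this]
    linear_combination hg + ϖ ^ n * hg'

/-- a separable annihilating polynomial -/
theorem exists_sep [CharZero K] (f : v.toValuationSubring) :
    ∀ (n : ℕ) (P : K[X][X]), P ≠ 0 → P.natDegree = n → (P.map (evalO v ϖ)).eval f = 0 →
      ∃ P' : K[X][X], (P'.map (evalO v ϖ)).eval f = 0 ∧
        ((derivative P').map (evalO v ϖ)).eval f ≠ 0 := by
  intro n
  induction n using Nat.strong_induction_on with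
  | _ n ih =>
    intro P hP0 hPn hPf
    by_cases hd : ((derivative P).map (evalO v ϖ)).eval f = 0
    · by_cases hd0 : derivative P = 0
      · exfalso
        have h1 := Polynomial.derivative_eq_zero.mp hd0
        rw [eq_C_of_natDegree_eq_zero h1] at hPf hP0
        rw [Polynomial.map_C, eval_C] at hPf
        have h2 : P.coeff 0 = 0 := evalO_injective hϖ (by rw [hPf, map_zero])
        exact hP0 (by rw [h2, map_zero])
      · have hlt : (derivative P).natDegree < n := by
          rw [← hPn]
          apply natDegree_derivative_lt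
          intro h0
          apply hd0
          rw [eq_C_of_natDegree_eq_zero h0, derivative_C]
        exact ih _ hlt (derivative P) hd0 rfl hd
    · exact ⟨P, hPf, hd⟩

/-- **Key lemma**: the derivation `d/dϖ` preserves the valuation ring. -/
theorem deriv_mem [CharZero K] (hres : ∀ f : v.toValuationSubring, ∃ c : K,
      ϖ ∣ f - algebraMap K v.toValuationSubring c)
    (halg : ∀ f : v.toValuationSubring, ∃ P : K[X][X], P ≠ 0 ∧ (P.map (evalO v ϖ)).eval f = 0)
    (δ : Derivation K F F) (hδ : δ (ϖ : F) = 1) (f : v.toValuationSubring) :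
    ∃ b : v.toValuationSubring, δ (f : F) = (b : F) := by
  obtain ⟨P₀, hP₀, hP₀f⟩ := halg f
  obtain ⟨P, hPf, hP'f⟩ := exists_sep hϖ f _ P₀ hP₀ rfl hP₀f
  obtain ⟨m, u, hu⟩ := IsDiscreteValuationRing.eq_unit_mul_pow_irreducible hP'f hϖ
  obtain ⟨p, g, hg⟩ := exists_approx hres f (m + 1)
  set a := evalO v ϖ p with ha
  have haf : a - f = ϖ ^ (m + 1) * (-g) := by linear_combination -hg
  -- Taylor expansion of `P` at `f`
  obtain ⟨k, hk⟩ := (P.map (evalO v ϖ)).binomExpansion f (a - f)
  rw [add_sub_cancel, hPf, zero_add, derivative_map, hu, haf] at hk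
  have h1 : ϖ ^ (m + (m + 1)) ∣ (P.map (evalO v ϖ)).eval a :=
    ⟨(u : v.toValuationSubring) * (-g) + k * (-g) ^ 2 * ϖ, by rw [hk]; ring⟩
  -- `P(a)` is a polynomial in `ϖ`
  have h2 : (P.map (evalO v ϖ)).eval a = evalO v ϖ (P.eval p) := by
    rw [eval_map, ha, eval₂_at_apply]
  rw [h2] at h1
  have h3 := dvd_derivative hϖ (m + m) _ h1
  have h4 := deriv_eval v ϖ δ hδ P a
  rw [h2, deriv_evalO v ϖ δ hδ, ha, deriv_evalO v ϖ δ hδ, ← ha] at h4
  have h5 : evalO v ϖ (derivative (P.eval p)) = ((coeffDeriv P).map (evalO v ϖ)).eval a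
      + ((derivative P).map (evalO v ϖ)).eval a * evalO v ϖ (derivative p) := by
    apply Subtype.ext
    rw [h4]
    push_cast
    rfl
  -- `P'(a)` is divisible by `ϖ ^ m`
  obtain ⟨z, hz⟩ := ((derivative P).map (evalO v ϖ)).evalSubFactor a f
  have h6 : ϖ ^ m ∣ ((derivative P).map (evalO v ϖ)).eval a :=
    ⟨(u : v.toValuationSubring) + z * ϖ * (-g), by
      linear_combination hz + hu + z * haf⟩
  -- so `P^∂(a)` is divisible by `ϖ ^ m`
  have h7 : ϖ ^ m ∣ ((coeffDeriv P).map (evalO v ϖ)).eval a := by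
    have h8 : ϖ ^ m ∣ evalO v ϖ (derivative (P.eval p)) :=
      dvd_trans (pow_dvd_pow ϖ (Nat.le_add_right m m)) h3
    rw [h5] at h8
    exact (dvd_add_left (Dvd.dvd.mul_right h6 _)).mp h8
  -- and `P^∂(f)` too
  obtain ⟨z', hz'⟩ := ((coeffDeriv P).map (evalO v ϖ)).evalSubFactor a f
  obtain ⟨w', hw'⟩ := h7
  have h9 : ((coeffDeriv P).map (evalO v ϖ)).eval f = ϖ ^ m * (w' + z' * ϖ * g) := by
    linear_combination hw' - hz' - z' * haf
  -- conclude
  have h10 := deriv_eval v ϖ δ hδ P f
  rw [hPf] at h10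
  simp only [ZeroMemClass.coe_zero, map_zero] at h10
  rw [h9, hu] at h10
  refine ⟨-(w' + z' * ϖ * g) * ((u⁻¹ : (v.toValuationSubring)ˣ) : v.toValuationSubring), ?_⟩
  have hϖ0 : (ϖ : F) ≠ 0 := by
    simpa [ne_eq, ZeroMemClass.coe_eq_zero] using hϖ.ne_zero
  have hu0 : ((u : v.toValuationSubring) : F) ≠ 0 := by
    simp [ne_eq, ZeroMemClass.coe_eq_zero]
  have huinv : (((u⁻¹ : (v.toValuationSubring)ˣ) : v.toValuationSubring) : F)
      = ((u : v.toValuationSubring) : F)⁻¹ := by
    apply eq_inv_of_mul_eq_one_left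
    rw [← MulMemClass.coe_mul, Units.inv_mul]
    rfl
  push_cast at h10 ⊢
  rw [huinv]
  have hm : (ϖ : F) ^ m ≠ 0 := pow_ne_zero _ hϖ0
  have h11 : ((w' : F) + z' * ϖ * g) + ((u : v.toValuationSubring) : F) * δ (f : F) = 0 := by
    apply mul_left_cancel₀ hm
    linear_combination -h10
  field_simp
  linear_combination h11

/-- `ord_v (df/dϖ) = ord_v f - 1` whenever `ord_v f ≠ 0` (characteristic zero). -/
theorem ord_deriv [CharZero K] (hres : ∀ f : v.toValuationSubring, ∃ c : K,
      ϖ ∣ f - algebraMap K v.toValuationSubring c)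
    (halg : ∀ f : v.toValuationSubring, ∃ P : K[X][X], P ≠ 0 ∧ (P.map (evalO v ϖ)).eval f = 0)
    (δ : Derivation K F F) (hδ : δ (ϖ : F) = 1) {f : F} (hf : v.ord f ≠ 0) :
    v.ord (δ f) = v.ord f - 1 := by
  have hf0 : f ≠ 0 := by
    rintro rfl
    simp at hf
  obtain ⟨u, hu⟩ := v.exists_unit_mul_zpow hf0 hϖ
  obtain ⟨b, hb⟩ := deriv_mem hϖ hres halg δ hδ (u : v.toValuationSubring)
  set n := v.ord f with hn
  have hϖ0 : (ϖ : F) ≠ 0 := by
    simpa [ne_eq, ZeroMemClass.coe_eq_zero] using hϖ.ne_zero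
  -- the unit part of the derivative
  have hw : IsUnit (algebraMap K v.toValuationSubring (n : K) * (u : v.toValuationSubring)
      + ϖ * b) := by
    by_contra hnu
    have h1 : ϖ * b ∈ nonunits v.toValuationSubring := fun h =>
      hϖ.not_isUnit (isUnit_of_mul_isUnit_left h)
    have h2 : -(ϖ * b) ∈ nonunits v.toValuationSubring := fun h => h1 (by simpa using h.neg)
    have h3 := IsLocalRing.nonunits_add (show _ ∈ nonunits v.toValuationSubring from hnu) h2
    rw [add_neg_cancel_right] at h3
    apply h3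
    exact ((isUnit_iff_ne_zero.mpr (Int.cast_ne_zero.mpr hf)).map _).mul u.isUnit
  obtain ⟨w, hw⟩ := hw
  have key : δ f = ((w : v.toValuationSubring) : F) * (ϖ : F) ^ (n - 1) := by
    rw [hw, hu, Derivation.leibniz, Derivation.leibniz_zpow, hδ, hb]
    push_cast
    have h4 : (ϖ : F) ^ n = ϖ ^ (n - 1) * ϖ := by
      rw [← zpow_add_one₀ hϖ0]
      congr 1
      ring
    simp only [smul_eq_mul, zsmul_eq_mul, mul_one, map_intCast]
    push_cast
    rw [h4]
    ring
  rw [key, v.ord_unit_smul_zpow w hϖ]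

end Core

/-! ### The skeleton statements -/

variable {K F : Type*} [Field K] [IsAlgClosed K] [CharZero K] [Field F] [Algebra K F]

omit [IsAlgClosed K] [CharZero K] in
theorem isAlgebraic_of_isGenerator {x : F} (hx : IsGenerator K x) :
    Algebra.IsAlgebraic K⟮x⟯ F := by
  have := hx.2
  exact Algebra.IsAlgebraic.of_finite _ _

theorem span_D_eq_top {x : F} (hx : IsGenerator K x) :
    Submodule.span F {KaehlerDifferential.D K F x} = ⊤ := by
  obtain ⟨e, he⟩ := exists_kaehler_equiv hx.1 (isAlgebraic_of_isGenerator hx)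
  refine Submodule.eq_top_iff'.mpr fun ω => Submodule.mem_span_singleton.mpr ⟨e ω, ?_⟩
  apply e.injective
  rw [map_smul, he, smul_eq_mul, mul_one]

theorem D_ne_zero {x : F} (hx : IsGenerator K x) : KaehlerDifferential.D K F x ≠ 0 := by
  obtain ⟨e, he⟩ := exists_kaehler_equiv hx.1 (isAlgebraic_of_isGenerator hx)
  intro h
  rw [h, map_zero] at he
  exact zero_ne_one he

theorem nontrivial_kaehler {x : F} (hx : IsGenerator K x) : Nontrivial Ω[F⁄K] :=
  ⟨⟨_, 0, D_ne_zero hx⟩⟩

omit [IsAlgClosed K] [CharZero K] in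
/-- the coordinate differential of the prelude is `dϖ` for a uniformizer `ϖ`. -/
theorem exists_dCoord_eq (v : Place K F) :
    ∃ ϖ : v.toValuationSubring, Irreducible ϖ ∧ v.dCoord = KaehlerDifferential.D K F (ϖ : F) :=
  ⟨_, (IsDiscreteValuationRing.exists_irreducible v.toValuationSubring).choose_spec, rfl⟩

omit [CharZero K] in
/-- a uniformizer is a generator -/
theorem isGenerator_of_irreducible {x : F} (hx : IsGenerator K x) (v : Place K F)
    {ϖ : v.toValuationSubring} (hϖ : Irreducible ϖ) : IsGenerator K (ϖ : F) :=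
  Places.isGenerator_of_transcendental hx
    (Places.transcendental_of_ord_ne_zero v (by rw [v.ord_coe_irreducible hϖ]; exact one_ne_zero))

theorem dCoordGenerates {x : F} (hx : IsGenerator K x) (v : Place K F) : v.DCoordGenerates := by
  obtain ⟨ϖ, hϖ, hd⟩ := exists_dCoord_eq v
  exact ⟨by rw [hd]; exact span_D_eq_top (isGenerator_of_irreducible hx v hϖ)⟩

/-- **Local structure of differentials**: at a place `v` with uniformizer `ϖ` (the one used by
the prelude for `dCoord`), there is a `K`-derivation `δ = d/dϖ` of `F` such that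
`dy = δ y • dϖ` for all `y`, and `ord_v (δ f) = ord_v f - 1` whenever `ord_v f ≠ 0`. -/
theorem exists_derivation {x : F} (hx : IsGenerator K x) (v : Place K F) :
    ∃ δ : Derivation K F F,
      (∀ y : F, KaehlerDifferential.D K F y = δ y • v.dCoord) ∧
      (∀ f : F, v.ord f ≠ 0 → v.ord (δ f) = v.ord f - 1) ∧
      (∀ f : F, f ∈ v.toValuationSubring → δ f ∈ v.toValuationSubring) := by
  obtain ⟨ϖ, hϖ, hd⟩ := exists_dCoord_eq v
  have hgen := isGenerator_of_irreducible hx v hϖ
  obtain ⟨e, he⟩ := exists_kaehler_equiv hgen.1 (isAlgebraic_of_isGenerator hgen)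
  let δ : Derivation K F F := e.toLinearMap.compDer (KaehlerDifferential.D K F)
  have hδ : δ (ϖ : F) = 1 := he
  have hres : ∀ f : v.toValuationSubring, ∃ c : K,
      ϖ ∣ f - algebraMap K v.toValuationSubring c := by
    intro f
    obtain ⟨c, hc⟩ := Places.exists_sub_mem_maximalIdeal hx v f
    refine ⟨c, ?_⟩
    rw [hϖ.maximalIdeal_eq, Ideal.mem_span_singleton] at hc
    exact hc
  have halg : ∀ f : v.toValuationSubring, ∃ P : K[X][X], P ≠ 0 ∧
      (P.map (evalO v ϖ)).eval f = 0 := by
    intro f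
    obtain ⟨P, hP0, hP⟩ := exists_bivariate hgen.1 (isAlgebraic_of_isGenerator hgen) (f : F)
    refine ⟨P, hP0, Subtype.ext ?_⟩
    rw [coe_eval_map, hP]
    rfl
  refine ⟨δ, fun y => ?_, fun f hf => ord_deriv hϖ hres halg δ hδ hf, fun f hf => ?_⟩
  · rw [hd]
    apply e.injective
    rw [map_smul, he, smul_eq_mul, mul_one]
    rfl
  · obtain ⟨b, hb⟩ := deriv_mem hϖ hres halg δ hδ ⟨f, hf⟩
    rw [show δ f = (b : F) from hb]
    exact b.2

/-- order of `dy` at a zero of `y - y₀`. -/
theorem ordDifferential_D_of_mem_placesAt {x : F} (hx : IsGenerator K x) (v : Place K F)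
    (y : F) (y₀ : K) (hv : v ∈ PlacesAt K y y₀) :
    v.ordDifferential (KaehlerDifferential.D K F y) = v.ord (y - algebraMap K F y₀) - 1 := by
  have := dCoordGenerates hx v
  have := nontrivial_kaehler hx
  obtain ⟨δ, h1, h2, -⟩ := exists_derivation hx v
  have hv' : 0 < v.ord (y - algebraMap K F y₀) := hv
  rw [Place.ordDifferential, v.differentialCoeff_unique (h1 y), ← h2 _ hv'.ne']
  rw [map_sub, Derivation.map_algebraMap, sub_zero]

/-- order of `dy` at a pole of `y`. -/
theorem ordDifferential_D_of_ord_neg {x : F} (hx : IsGenerator K x) (v : Place K F)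
    (y : F) (hv : v.ord y < 0) :
    v.ordDifferential (KaehlerDifferential.D K F y) = v.ord y - 1 := by
  have := dCoordGenerates hx v
  have := nontrivial_kaehler hx
  obtain ⟨δ, h1, h2, -⟩ := exists_derivation hx v
  rw [Place.ordDifferential, v.differentialCoeff_unique (h1 y), h2 _ hv.ne]

/-- order of `c • dy`. -/
theorem ordDifferential_smul_D {x : F} (hx : IsGenerator K x) (v : Place K F)
    (y : F) (hy : Transcendental K y) (c : F) (hc : c ≠ 0) :
    v.ordDifferential (c • KaehlerDifferential.D K F y)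
      = v.ord c + v.ordDifferential (KaehlerDifferential.D K F y) := by
  have := dCoordGenerates hx v
  have := nontrivial_kaehler hx
  refine v.ordDifferential_smul hc ?_
  intro h0
  have h1 := v.differentialCoeff_smul_dCoord (KaehlerDifferential.D K F y)
  rw [h0, zero_smul] at h1
  exact D_ne_zero (Places.isGenerator_of_transcendental hx hy) h1.symm

end Kaehler

end Fermat.Agent.S24
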