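import Mathlib
import Fermat.Agent.S24_Defs
import Fermat.Agent.RR_Defs
import Fermat.Agent.S24_PlacesBasic
import Fermat.Agent.S24_Kaehler

/-!
# RR4a: Laurent expansion of a function field at a place

For a place `v` of `F/K` with residue field `K` and a uniformizer `τ`, every element of the
valuation ring is approximated modulo `τ ^ n` by a unique polynomial in `τ` of degree `< n`
(`S24.Kaehler.exists_approx`); the coefficients define a `K`-algebra embedding
`O_v → K⟦X⟧`, `τ ↦ X`, which extends to `F → K⸨X⸩` and transports `ord_v` to the order.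
-/

set_option autoImplicit false
set_option linter.unusedSectionVars false

noncomputable section

open AlgebraicCurve KaehlerDifferential Fermat.Agent.S24 Polynomial

namespace Fermat.Agent.RR

namespace Expand

open Fermat.Agent.S24.Kaehler

variable {K F : Type*} [Field K] [Field F] [Algebra K F] {v : Place K F}
  {τ : v.toValuationSubring}

/-- the chosen approximation of `f` modulo `τ ^ n` by a polynomial in `τ`. -/
def approx (hres : ∀ f : v.toValuationSubring, ∃ c : K,
      τ ∣ f - algebraMap K v.toValuationSubring c) (f : v.toValuationSubring) (n : ℕ) : K[X] :=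
  (exists_approx hres f n).choose

theorem approx_spec (hres : ∀ f : v.toValuationSubring, ∃ c : K,
      τ ∣ f - algebraMap K v.toValuationSubring c) (f : v.toValuationSubring) (n : ℕ) :
    τ ^ n ∣ f - evalO v τ (approx hres f n) :=
  (exists_approx hres f n).choose_spec

/-- the power series of coefficients of `f` in the uniformizer `τ`. -/
def coeffs (hres : ∀ f : v.toValuationSubring, ∃ c : K,
      τ ∣ f - algebraMap K v.toValuationSubring c) (f : v.toValuationSubring) : PowerSeries K :=
  PowerSeries.mk fun n => (approx hres f (n + 1)).coeff n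

variable (hτ : Irreducible τ) (hres : ∀ f : v.toValuationSubring, ∃ c : K,
      τ ∣ f - algebraMap K v.toValuationSubring c)

include hτ

/-- the coefficients are determined by any approximation. -/
theorem coeff_coeffs (f : v.toValuationSubring) (n : ℕ) (p : K[X])
    (hp : τ ^ n ∣ f - evalO v τ p) (i : ℕ) (hi : i < n) :
    PowerSeries.coeff i (coeffs hres f) = p.coeff i := by
  rw [coeffs, PowerSeries.coeff_mk]
  have h1 := approx_spec hres f (i + 1)
  have h2 : τ ^ (i + 1) ∣ f - evalO v τ p := dvd_trans (pow_dvd_pow τ hi) hp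
  have h3 : τ ^ (i + 1) ∣ evalO v τ (approx hres f (i + 1) - p) := by
    have := dvd_sub h2 h1
    rw [map_sub]
    convert this using 1
    ring
  have h4 := X_pow_dvd_of_dvd hτ (i + 1) _ h3
  have h5 := (Polynomial.X_pow_dvd_iff.mp h4) i (Nat.lt_succ_self i)
  rw [coeff_sub, sub_eq_zero] at h5
  exact h5

theorem coeffs_evalO (p : K[X]) : coeffs hres (evalO v τ p) = (p : PowerSeries K) := by
  ext i
  rw [coeff_coeffs hτ hres _ (i + 1) p (by simp) i (Nat.lt_succ_self i), Polynomial.coeff_coe]

theorem coeffs_add (f g : v.toValuationSubring) :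
    coeffs hres (f + g) = coeffs hres f + coeffs hres g := by
  ext i
  have hf := approx_spec hres f (i + 1)
  have hg := approx_spec hres g (i + 1)
  have hfg : τ ^ (i + 1) ∣ (f + g) - evalO v τ (approx hres f (i + 1) + approx hres g (i + 1)) := by
    have := dvd_add hf hg
    rw [map_add]
    convert this using 1
    ring
  rw [coeff_coeffs hτ hres _ (i + 1) _ hfg i (Nat.lt_succ_self i), map_add,
    coeff_coeffs hτ hres _ (i + 1) _ hf i (Nat.lt_succ_self i),
    coeff_coeffs hτ hres _ (i + 1) _ hg i (Nat.lt_succ_self i), coeff_add]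

theorem coeffs_mul (f g : v.toValuationSubring) :
    coeffs hres (f * g) = coeffs hres f * coeffs hres g := by
  ext i
  obtain ⟨a, ha⟩ := approx_spec hres f (i + 1)
  obtain ⟨b, hb⟩ := approx_spec hres g (i + 1)
  have hf := approx_spec hres f (i + 1)
  have hg := approx_spec hres g (i + 1)
  have hfg : τ ^ (i + 1) ∣ (f * g) - evalO v τ (approx hres f (i + 1) * approx hres g (i + 1)) := by
    refine ⟨a * g + evalO v τ (approx hres f (i + 1)) * b, ?_⟩
    rw [map_mul]
    linear_combination g * ha + evalO v τ (approx hres f (i + 1)) * hb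
  rw [coeff_coeffs hτ hres _ (i + 1) _ hfg i (Nat.lt_succ_self i), PowerSeries.coeff_mul,
    Polynomial.coeff_mul]
  refine Finset.sum_congr rfl fun jk hjk => ?_
  have hjk' := Finset.HasAntidiagonal.mem_antidiagonal.mp hjk
  rw [coeff_coeffs hτ hres _ (i + 1) _ hf jk.1 (by omega),
    coeff_coeffs hτ hres _ (i + 1) _ hg jk.2 (by omega)]

/-- the expansion of the valuation ring in the uniformizer `τ`. -/
def expandO : v.toValuationSubring →ₐ[K] PowerSeries K where
  toFun := coeffs hres
  map_one' := by
    have := coeffs_evalO hτ hres 1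
    rwa [map_one, Polynomial.coe_one] at this
  map_mul' := coeffs_mul hτ hres
  map_zero' := by
    have := coeffs_evalO hτ hres 0
    rwa [map_zero, Polynomial.coe_zero] at this
  map_add' := coeffs_add hτ hres
  commutes' c := by
    have := coeffs_evalO hτ hres (C c)
    rw [Polynomial.coe_C] at this
    rw [PowerSeries.algebraMap_eq, ← this]
    congr 1
    simp [evalO]

theorem expandO_apply (f : v.toValuationSubring) : expandO hτ hres f = coeffs hres f := rfl

theorem expandO_uniformizer : expandO hτ hres τ = PowerSeries.X := by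
  have := coeffs_evalO hτ hres X
  rw [Polynomial.coe_X] at this
  rw [expandO_apply]
  convert this using 2
  simp [evalO]

theorem constantCoeff_expandO_ne_zero {u : v.toValuationSubring} (hu : IsUnit u) :
    PowerSeries.constantCoeff (expandO hτ hres u) ≠ 0 := by
  obtain ⟨c, hc⟩ := hres u
  have h1 : τ ^ 1 ∣ u - evalO v τ (C c) := by
    rw [pow_one]
    convert hc using 2
    simp [evalO]
  rw [← PowerSeries.coeff_zero_eq_constantCoeff_apply, expandO_apply,
    coeff_coeffs hτ hres u 1 (C c) h1 0 Nat.zero_lt_one, coeff_C_zero]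
  rintro rfl
  rw [map_zero, sub_zero] at hc
  exact hτ.not_isUnit (isUnit_of_dvd_unit hc hu)

theorem expandO_injective : Function.Injective (expandO hτ hres) := by
  rw [injective_iff_map_eq_zero]
  intro f hf
  by_contra hne
  obtain ⟨n, u, hu⟩ := IsDiscreteValuationRing.eq_unit_mul_pow_irreducible hne hτ
  rw [hu, map_mul, map_pow, expandO_uniformizer] at hf
  have h1 := constantCoeff_expandO_ne_zero hτ hres u.isUnit
  rcases mul_eq_zero.mp hf with h | h
  · rw [h, map_zero] at h1
    exact h1 rfl
  · exact pow_ne_zero n PowerSeries.X_ne_zero h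

omit hτ in
/-- power series as Laurent series, as a `K`-algebra map. -/
def ofPS (K : Type*) [Field K] : PowerSeries K →ₐ[K] LaurentSeries K :=
  { HahnSeries.ofPowerSeries ℤ K with commutes' := fun _ => rfl }

theorem injective_ofPS_comp :
    Function.Injective ((ofPS K).comp (expandO hτ hres)) := by
  rw [AlgHom.coe_comp]
  exact (HahnSeries.ofPowerSeries_injective).comp (expandO_injective hτ hres)

/-- the Laurent expansion of `F` at `v` in the uniformizer `τ`. -/
def expand : F →ₐ[K] LaurentSeries K :=
  IsFractionRing.liftAlgHom (g := (ofPS K).comp (expandO hτ hres)) (injective_ofPS_comp hτ hres)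

theorem expand_coe (f : v.toValuationSubring) :
    expand hτ hres (f : F) = HahnSeries.ofPowerSeries ℤ K (expandO hτ hres f) := by
  have := IsFractionRing.lift_algebraMap (K := F) (injective_ofPS_comp hτ hres) f
  exact this

theorem expand_uniformizer : expand hτ hres (τ : F) = HahnSeries.single 1 1 := by
  rw [expand_coe, expandO_uniformizer, HahnSeries.ofPowerSeries_X]

theorem order_expand_unit (u : (v.toValuationSubring)ˣ) :
    (expand hτ hres ((u : v.toValuationSubring) : F)).order = 0 := by
  rw [expand_coe]
  have h1 := constantCoeff_expandO_ne_zero hτ hres u.isUnit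
  set s := expandO hτ hres (u : v.toValuationSubring) with hs
  have h0 : (HahnSeries.ofPowerSeries ℤ K s).coeff 0 ≠ 0 := by
    have := HahnSeries.ofPowerSeries_apply_coeff (Γ := ℤ) s 0
    rw [Nat.cast_zero] at this
    rw [this, PowerSeries.coeff_zero_eq_constantCoeff_apply]
    exact h1
  have hne : HahnSeries.ofPowerSeries ℤ K s ≠ 0 := HahnSeries.ne_zero_of_coeff_ne_zero h0
  apply le_antisymm
  · exact HahnSeries.order_le_of_coeff_ne_zero h0
  · rw [HahnSeries.le_order_iff_forall hne]
    intro j hj
    have := PowerSeries.coeff_coe s j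
    rw [if_pos hj] at this
    exact this

theorem order_expand {f : F} (hf : f ≠ 0) : (expand hτ hres f).order = v.ord f := by
  obtain ⟨u, hu⟩ := v.exists_unit_mul_zpow hf hτ
  have hu0 : expand hτ hres ((u : v.toValuationSubring) : F) ≠ 0 := by
    rw [_root_.map_ne_zero]
    simp [ne_eq, ZeroMemClass.coe_eq_zero]
  conv_lhs => rw [hu]
  rw [map_mul, map_zpow₀, expand_uniformizer, ← RatFunc.single_zpow,
    HahnSeries.order_mul hu0 (HahnSeries.single_ne_zero one_ne_zero), order_expand_unit,
    HahnSeries.order_single one_ne_zero, zero_add]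

end Expand

variable {K F : Type*} [Field K] [IsAlgClosed K] [CharZero K] [Field F] [Algebra K F]

/-- expansion of `F` at the place `v` in the uniformizer `t` (successive approximation; the
residue field is `K`). -/
theorem exists_expand {x : F} (hx : IsGenerator K x) (v : Place K F) (t : F) (ht : v.ord t = 1) :
    ∃ ε : F →ₐ[K] LaurentSeries K,
      (∀ f : F, f ≠ 0 → (ε f).order = v.ord f) ∧ ε t = HahnSeries.single 1 1 := by
  have ht0 : t ≠ 0 := by
    rintro rfl
    simp at ht
  obtain ⟨ϖ, hϖ⟩ := IsDiscreteValuationRing.exists_irreducible v.toValuationSubring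
  obtain ⟨u, hu⟩ := v.exists_unit_mul_zpow ht0 hϖ
  rw [ht, zpow_one] at hu
  have hτ : Irreducible ((u : v.toValuationSubring) * ϖ) := (irreducible_units_mul u).mpr hϖ
  have hcoe : (((u : v.toValuationSubring) * ϖ : v.toValuationSubring) : F) = t := by
    rw [hu]; rfl
  have hres : ∀ f : v.toValuationSubring, ∃ c : K,
      ((u : v.toValuationSubring) * ϖ) ∣ f - algebraMap K v.toValuationSubring c := by
    intro f
    obtain ⟨c, hc⟩ := Places.exists_sub_mem_maximalIdeal hx v f
    refine ⟨c, ?_⟩
    rw [hτ.maximalIdeal_eq, Ideal.mem_span_singleton] at hc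
    exact hc
  refine ⟨Expand.expand hτ hres, fun f hf => Expand.order_expand hτ hres hf, ?_⟩
  rw [← hcoe]
  exact Expand.expand_uniformizer hτ hres

end Fermat.Agent.RR
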