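import Mathlib
import Fermat.Agent.S24_Defs
import Fermat.Agent.RR_Defs

/-!
# Places from integer valued valuations

`exists_place_of_intVal`: a nontrivial `IntVal K F` (an integer valued valuation, trivial on the
constants) is `e` times the order function of a (unique) place of `F/K`, for some `e > 0`.
-/

set_option autoImplicit false

noncomputable section

open AlgebraicCurve Fermat.Agent.S24

namespace Fermat.Agent.RR

namespace IntValPlace

variable {K F : Type*} [Field K] [Field F] [Algebra K F]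

theorem toFun_one (w : IntVal K F) : w.toFun 1 = 0 := by
  have h := w.map_mul' 1 1 one_ne_zero one_ne_zero
  rw [mul_one] at h
  omega

theorem toFun_neg_one (w : IntVal K F) : w.toFun (-1) = 0 := by
  have h := w.map_mul' (-1) (-1) (neg_ne_zero.mpr one_ne_zero) (neg_ne_zero.mpr one_ne_zero)
  rw [neg_mul_neg, mul_one, toFun_one] at h
  omega

theorem toFun_neg (w : IntVal K F) {f : F} (hf : f ≠ 0) : w.toFun (-f) = w.toFun f := by
  have h := w.map_mul' (-1) f (neg_ne_zero.mpr one_ne_zero) hf
  rw [neg_one_mul, toFun_neg_one, zero_add] at h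
  exact h

theorem toFun_inv (w : IntVal K F) {f : F} (hf : f ≠ 0) : w.toFun f⁻¹ = -w.toFun f := by
  have h := w.map_mul' f f⁻¹ hf (inv_ne_zero hf)
  rw [mul_inv_cancel₀ hf, toFun_one] at h
  omega

theorem toFun_pow (w : IntVal K F) {f : F} (hf : f ≠ 0) (n : ℕ) :
    w.toFun (f ^ n) = n * w.toFun f := by
  induction n with
  | zero => simp [toFun_one]
  | succ n ih =>
    rw [pow_succ, w.map_mul' _ _ (pow_ne_zero n hf) hf, ih]
    push_cast; ring

theorem toFun_zpow (w : IntVal K F) {f : F} (hf : f ≠ 0) (n : ℤ) :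
    w.toFun (f ^ n) = n * w.toFun f := by
  obtain ⟨m, rfl | rfl⟩ := n.eq_nat_or_neg
  · rw [zpow_natCast, toFun_pow w hf]
  · rw [zpow_neg, zpow_natCast, toFun_inv w (pow_ne_zero m hf), toFun_pow w hf]
    ring

/-- the valuation subring of an integer valued valuation. -/
def valSubring (w : IntVal K F) : ValuationSubring F where
  carrier := {f | f = 0 ∨ 0 ≤ w.toFun f}
  mul_mem' := by
    rintro a b ha hb
    rcases eq_or_ne a 0 with rfl | ha0
    · left; simp
    rcases eq_or_ne b 0 with rfl | hb0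
    · left; simp
    right
    rw [w.map_mul' a b ha0 hb0]
    have := ha.resolve_left ha0
    have := hb.resolve_left hb0
    omega
  one_mem' := Or.inr (by rw [toFun_one])
  add_mem' := by
    rintro a b ha hb
    rcases eq_or_ne a 0 with rfl | ha0
    · simpa using hb
    rcases eq_or_ne b 0 with rfl | hb0
    · simpa using ha
    rcases eq_or_ne (a + b) 0 with h0 | h0
    · exact Or.inl h0
    right
    have h := w.map_add' a b ha0 hb0 h0
    have := ha.resolve_left ha0
    have := hb.resolve_left hb0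
    rcases min_le_iff.mp h with h | h <;> omega
  zero_mem' := Or.inl rfl
  neg_mem' := by
    rintro a ha
    rcases eq_or_ne a 0 with rfl | ha0
    · left; simp
    right
    rw [toFun_neg w ha0]
    exact ha.resolve_left ha0
  mem_or_inv_mem' := by
    intro a
    rcases eq_or_ne a 0 with rfl | ha0
    · exact Or.inl (Or.inl rfl)
    rcases le_total 0 (w.toFun a) with h | h
    · exact Or.inl (Or.inr h)
    · refine Or.inr (Or.inr ?_)
      rw [toFun_inv w ha0]
      omega

theorem mem_valSubring (w : IntVal K F) {f : F} :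
    f ∈ valSubring w ↔ f = 0 ∨ 0 ≤ w.toFun f := Iff.rfl

theorem mem_valSubring_of_ne (w : IntVal K F) {f : F} (hf : f ≠ 0) :
    f ∈ valSubring w ↔ 0 ≤ w.toFun f := by
  rw [mem_valSubring]
  exact ⟨fun h => h.resolve_left hf, Or.inr⟩

/-- a uniformizer: positive value dividing all values. -/
theorem exists_uniformizer (w : IntVal K F) (hw : ∃ f : F, f ≠ 0 ∧ w.toFun f ≠ 0) :
    ∃ (π : F) (e : ℕ), π ≠ 0 ∧ 0 < e ∧ w.toFun π = e ∧
      ∀ f : F, f ≠ 0 → ∃ n : ℤ, w.toFun f = n * e := by
  classical
  -- positive values exist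
  have hpos : ∃ m : ℕ, 0 < m ∧ ∃ f : F, f ≠ 0 ∧ w.toFun f = m := by
    obtain ⟨f, hf0, hf⟩ := hw
    rcases lt_or_gt_of_ne hf with h | h
    · refine ⟨(-w.toFun f).toNat, by omega, f⁻¹, inv_ne_zero hf0, ?_⟩
      rw [toFun_inv w hf0]; omega
    · refine ⟨(w.toFun f).toNat, by omega, f, hf0, ?_⟩
      omega
  let e := Nat.find hpos
  obtain ⟨he, π, hπ0, hπ⟩ := Nat.find_spec hpos
  refine ⟨π, e, hπ0, he, hπ, ?_⟩
  intro f hf
  refine ⟨w.toFun f / e, ?_⟩
  have hdiv := Int.emod_add_mul_ediv (w.toFun f) e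
  have hr0 : 0 ≤ w.toFun f % e := Int.emod_nonneg _ (by omega)
  have hr1 : w.toFun f % e < e := Int.emod_lt_of_pos _ (by omega)
  -- the element `f * π ^ (-q)` has value the remainder
  have hval : w.toFun (f * π ^ (-(w.toFun f / e))) = w.toFun f % e := by
    rw [w.map_mul' _ _ hf (zpow_ne_zero _ hπ0), toFun_zpow w hπ0, hπ]
    linarith
  by_contra hne
  have hrpos : 0 < w.toFun f % e := by
    rcases hr0.lt_or_eq with h | h
    · exact h
    · exfalso; apply hne; linarith
  have hmin := Nat.find_min' hpos (m := (w.toFun f % e).toNat)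
    ⟨by omega, f * π ^ (-(w.toFun f / e)), mul_ne_zero hf (zpow_ne_zero _ hπ0), by rw [hval]; omega⟩
  have : (e : ℤ) ≤ ((w.toFun f % e).toNat : ℤ) := by exact_mod_cast hmin
  omega

theorem isPrincipalIdealRing_valSubring (w : IntVal K F) :
    IsPrincipalIdealRing (valSubring w) := by
  classical
  refine ⟨fun I => ?_⟩
  rcases eq_or_ne I ⊥ with rfl | hI
  · exact ⟨0, by simp⟩
  -- an element of minimal value
  have hex : ∃ m : ℕ, ∃ a : valSubring w, a ∈ I ∧ a ≠ 0 ∧ w.toFun (a : F) = m := by
    obtain ⟨a, haI, ha0⟩ := Submodule.exists_mem_ne_zero_of_ne_bot hI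
    have ha0' : (a : F) ≠ 0 := fun h => ha0 (Subtype.ext h)
    have := (mem_valSubring_of_ne w ha0').mp a.2
    exact ⟨(w.toFun (a : F)).toNat, a, haI, ha0, by omega⟩
  obtain ⟨a, haI, ha0, ha⟩ := Nat.find_spec hex
  have ha0' : (a : F) ≠ 0 := fun h => ha0 (Subtype.ext h)
  refine ⟨a, ?_⟩
  apply le_antisymm
  · intro b hb
    rw [Ideal.submodule_span_eq, Ideal.mem_span_singleton']
    rcases eq_or_ne b 0 with rfl | hb0
    · exact ⟨0, by simp⟩
    have hb0' : (b : F) ≠ 0 := fun h => hb0 (Subtype.ext h)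
    have hbnn := (mem_valSubring_of_ne w hb0').mp b.2
    have hmin := Nat.find_min' hex (m := (w.toFun (b : F)).toNat) ⟨b, hb, hb0, by omega⟩
    have hle : w.toFun (a : F) ≤ w.toFun (b : F) := by
      rw [ha]
      have : ((Nat.find hex : ℕ) : ℤ) ≤ ((w.toFun (b : F)).toNat : ℤ) := by exact_mod_cast hmin
      omega
    have hmem : (b : F) * (a : F)⁻¹ ∈ valSubring w := by
      rw [mem_valSubring_of_ne w (mul_ne_zero hb0' (inv_ne_zero ha0')),
        w.map_mul' _ _ hb0' (inv_ne_zero ha0'), toFun_inv w ha0']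
      omega
    refine ⟨⟨_, hmem⟩, ?_⟩
    apply Subtype.ext
    show (b : F) * (a : F)⁻¹ * (a : F) = b
    rw [mul_assoc, inv_mul_cancel₀ ha0', mul_one]
  · rw [Ideal.submodule_span_eq, Ideal.span_singleton_le_iff_mem]
    exact haI

/-- the place attached to a nontrivial integer valued valuation. -/
def toPlace (w : IntVal K F) (hw : ∃ f : F, f ≠ 0 ∧ w.toFun f ≠ 0) : Place K F where
  toValuationSubring := valSubring w
  algebraMap_mem' := by
    intro a
    rcases eq_or_ne a 0 with rfl | ha
    · left; simp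
    · right; rw [w.map_algebraMap' a ha]
  ne_top' := by
    obtain ⟨f, hf0, hf⟩ := hw
    intro htop
    have h1 : f ∈ valSubring w := htop ▸ ValuationSubring.mem_top f
    have h2 : f⁻¹ ∈ valSubring w := htop ▸ ValuationSubring.mem_top f⁻¹
    rw [mem_valSubring_of_ne w hf0] at h1
    rw [mem_valSubring_of_ne w (inv_ne_zero hf0), toFun_inv w hf0] at h2
    omega
  isPrincipalIdealRing' := isPrincipalIdealRing_valSubring w

end IntValPlace

open IntValPlace in
/-- A nontrivial integer valued valuation is a positive multiple of the order function of a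
place. -/
theorem exists_place_of_intVal {K F : Type*} [Field K] [Field F] [Algebra K F]
    (w : IntVal K F) (hw : ∃ f : F, f ≠ 0 ∧ w.toFun f ≠ 0) :
    ∃ (v : Place K F) (e : ℕ), 0 < e ∧ ∀ f : F, f ≠ 0 → w.toFun f = e * v.ord f := by
  obtain ⟨π, e, hπ0, he, hπ, hdiv⟩ := exists_uniformizer w hw
  let v : Place K F := toPlace w hw
  have hπmem : π ∈ v.toValuationSubring := by
    show π ∈ valSubring w
    rw [mem_valSubring_of_ne w hπ0, hπ]; omega
  -- units of the valuation ring are the elements of value zero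
  have hunit : ∀ a : v.toValuationSubring, (a : F) ≠ 0 → w.toFun (a : F) = 0 → IsUnit a := by
    intro a ha0 ha
    have hmem : (a : F)⁻¹ ∈ v.toValuationSubring := by
      show (a : F)⁻¹ ∈ valSubring w
      rw [mem_valSubring_of_ne w (inv_ne_zero ha0), toFun_inv w ha0, ha]; simp
    refine IsUnit.of_mul_eq_one (⟨_, hmem⟩ : v.toValuationSubring) ?_
    apply Subtype.ext
    show (a : F) * (a : F)⁻¹ = 1
    exact mul_inv_cancel₀ ha0
  have hval_unit : ∀ a : v.toValuationSubring, IsUnit a → w.toFun (a : F) = 0 := by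
    intro a ha
    obtain ⟨b, hb⟩ := ha.exists_right_inv
    have hb' : (a : F) * (b : F) = 1 := congrArg Subtype.val hb
    have ha0 : (a : F) ≠ 0 := left_ne_zero_of_mul_eq_one hb'
    have hb0 : (b : F) ≠ 0 := right_ne_zero_of_mul_eq_one hb'
    have h1 := w.map_mul' _ _ ha0 hb0
    rw [hb', toFun_one] at h1
    have h2 : 0 ≤ w.toFun (a : F) := (mem_valSubring_of_ne w ha0).mp a.2
    have h3 : 0 ≤ w.toFun (b : F) := (mem_valSubring_of_ne w hb0).mp b.2
    omega
  -- `π` is irreducible
  have hirr : Irreducible (⟨π, hπmem⟩ : v.toValuationSubring) := by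
    refine ⟨fun hu => ?_, fun a b hab => ?_⟩
    · have := hval_unit _ hu
      simp only at this
      omega
    · have hab' : π = (a : F) * (b : F) := congrArg Subtype.val hab
      have ha0 : (a : F) ≠ 0 := by rintro h; rw [h, zero_mul] at hab'; exact hπ0 hab'
      have hb0 : (b : F) ≠ 0 := by rintro h; rw [h, mul_zero] at hab'; exact hπ0 hab'
      have h1 := w.map_mul' _ _ ha0 hb0
      rw [← hab', hπ] at h1
      obtain ⟨n, hn⟩ := hdiv _ ha0
      obtain ⟨m, hm⟩ := hdiv _ hb0
      have h2 : 0 ≤ w.toFun (a : F) := (mem_valSubring_of_ne w ha0).mp a.2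
      have h3 : 0 ≤ w.toFun (b : F) := (mem_valSubring_of_ne w hb0).mp b.2
      have he' : (0 : ℤ) < e := by exact_mod_cast he
      have hn0 : 0 ≤ n := by
        by_contra hneg
        have : n * (e : ℤ) < 0 := mul_neg_of_neg_of_pos (by omega) he'
        omega
      have hm0 : 0 ≤ m := by
        by_contra hneg
        have : m * (e : ℤ) < 0 := mul_neg_of_neg_of_pos (by omega) he'
        omega
      have hnm : n + m = 1 := by
        have : (n + m) * (e : ℤ) = 1 * e := by rw [add_mul, ← hn, ← hm]; omega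
        exact mul_right_cancel₀ he'.ne' this
      rcases (by omega : n = 0 ∨ m = 0) with h | h
      · left; exact hunit a ha0 (by rw [hn, h, zero_mul])
      · right; exact hunit b hb0 (by rw [hm, h, zero_mul])
  refine ⟨v, e, he, fun f hf => ?_⟩
  obtain ⟨u, hu⟩ := v.exists_unit_mul_zpow hf hirr
  have hu0 : ((u : v.toValuationSubring) : F) ≠ 0 := by
    intro h
    rw [h, zero_mul] at hu
    exact hf hu
  have h1 : w.toFun f = w.toFun ((u : v.toValuationSubring) : F) + w.toFun (π ^ v.ord f) := by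
    conv_lhs => rw [hu]
    exact w.map_mul' _ _ hu0 (zpow_ne_zero _ hπ0)
  rw [h1, hval_unit _ u.isUnit, toFun_zpow w hπ0, hπ]
  ring

end Fermat.Agent.RR
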