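import Mathlib
import Fermat.Agent.S24_Defs
import Fermat.Agent.S24_Places
import Fermat.Agent.RR_Defs
import Fermat.Agent.RR_LSpaceCore

set_option autoImplicit false

/-!
# RR1: elementary properties of the Riemann–Roch spaces `L(D)`

The statements of the shared skeleton, obtained from `RR_LSpaceCore` and the theory of places
(`S24_Places`).
-/

noncomputable section

open AlgebraicCurve KaehlerDifferential Fermat.Agent.S24

namespace Fermat.Agent.RR

variable {K F : Type*} [Field K] [IsAlgClosed K] [CharZero K] [Field F] [Algebra K F]

/-- the residue hypothesis of the core file -/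
theorem resConst_of_isGenerator {x : F} (hx : IsGenerator K x) : LCore.ResConst K F :=
  fun v a => Places.exists_sub_mem_maximalIdeal hx v a

/-- a function field has a place -/
theorem nonempty_place_of_isGenerator {x : F} (hx : IsGenerator K x) : Nonempty (Place K F) := by
  have := hx.2
  have hnpos : 0 < Module.finrank (IntermediateField.adjoin K {x}) F := Module.finrank_pos
  have hsum := Places.sum_ord_poles hx
  by_contra hcon
  rw [not_nonempty_iff] at hcon
  have : (Places.finite_poles hx).toFinset = ∅ := Finset.eq_empty_of_isEmpty _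
  rw [this, Finset.sum_empty] at hsum
  omega

theorem LSpace_mono {D E : Divisor K F} (h : D ≤ E) : LSpace K F D ≤ LSpace K F E :=
  LCore.LSpace_mono h

theorem finiteDimensional_LSpace {x : F} (hx : IsGenerator K x) (D : Divisor K F) :
    FiniteDimensional K (LSpace K F D) :=
  LCore.finiteDimensional_LSpace hx (resConst_of_isGenerator hx) (Places.deg_eq_one hx)
    (Places.hasPrincipalDivisors hx) (nonempty_place_of_isGenerator hx) D

theorem LSpace_eq_bot_of_degree_neg {x : F} (hx : IsGenerator K x) (D : Divisor K F)
    (h : Divisor.degree D < 0) : LSpace K F D = ⊥ :=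
  LCore.LSpace_eq_bot_of_degree_neg (Places.hasPrincipalDivisors hx) D h

/-- `ℓ(E) ≤ ℓ(D) + deg E - deg D` for `D ≤ E`. -/
theorem finrank_LSpace_le_of_le {x : F} (hx : IsGenerator K x) {D E : Divisor K F} (h : D ≤ E) :
    (Module.finrank K (LSpace K F E) : ℤ)
      ≤ Module.finrank K (LSpace K F D) + (Divisor.degree E - Divisor.degree D) :=
  LCore.finrank_LSpace_le_of_le hx (resConst_of_isGenerator hx) (Places.deg_eq_one hx)
    (Places.hasPrincipalDivisors hx) (nonempty_place_of_isGenerator hx) h

theorem finrank_LSpace_zero {x : F} (hx : IsGenerator K x) :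
    Module.finrank K (LSpace K F (0 : Divisor K F)) = 1 :=
  LCore.finrank_LSpace_zero hx (Places.deg_eq_one hx) (Places.hasPrincipalDivisors hx)
    (nonempty_place_of_isGenerator hx)

/-- linear equivalence: `ℓ(D + div f) = ℓ(D)`. -/
theorem finrank_LSpace_add_principal {x : F} (hx : IsGenerator K x) (D P : Divisor K F)
    (f : F) (hf : f ≠ 0) (hP : ∀ v : Place K F, P v = v.ord f) :
    Module.finrank K (LSpace K F (D + P)) = Module.finrank K (LSpace K F D) :=
  LCore.finrank_LSpace_add_principal D P f hf hP

/-- `L(0)` consists of the constants. -/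
theorem mem_LSpace_zero_iff {x : F} (hx : IsGenerator K x) (f : F) :
    f ∈ LSpace K F (0 : Divisor K F) ↔ ∃ c : K, algebraMap K F c = f :=
  LCore.mem_LSpace_zero_iff hx (Places.deg_eq_one hx) (Places.hasPrincipalDivisors hx)
    (nonempty_place_of_isGenerator hx) f

end Fermat.Agent.RR
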