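import Mathlib
import Fermat.Agent.S24_Places
import Fermat.Agent.S24_Kaehler
import Fermat.Agent.RR_LSpace
import Fermat.Agent.RR_Adele

/-!
# Riemann–Roch for function fields: duality and the canonical divisor (RR5)

Given a residue system `R` (residues at all places with the residue theorem) and the divisor
`W` of the differential `dx`, the residue pairing `⟨f, a⟩ = ∑_v res_v (a_v f dx)` identifies
`L(W - D)` with the Weil differentials of level `D`:

* `Main.finrank_LSpace_sub`: `ℓ(W - D) = dim Ω(D)`;
* `two_mul_finrank_LSpace_canonical`: `2 ℓ(W) - 2 = deg W`;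
* `riemann_roch`: `ℓ(D) - ℓ(W - D) = deg D + 1 - ℓ(W)`.
-/

set_option autoImplicit false
set_option linter.unusedSectionVars false

noncomputable section

open AlgebraicCurve KaehlerDifferential Fermat.Agent.S24

namespace Fermat.Agent.RR

variable {K F : Type*} [Field K] [IsAlgClosed K] [CharZero K] [Field F] [Algebra K F]

namespace Main

/-- a function field has a place. -/
theorem nonempty_place {x : F} (hx : IsGenerator K x) : Nonempty (Place K F) := by
  have h := Places.sum_ord_poles hx
  have : FiniteDimensional (IntermediateField.adjoin K {x}) F := hx.2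
  have hpos : 0 < Module.finrank (IntermediateField.adjoin K {x}) F := Module.finrank_pos
  by_contra hne
  rw [not_nonempty_iff] at hne
  have : (Places.finite_poles hx).toFinset = ∅ := by
    ext v; exact (hne.false v).elim
  rw [this, Finset.sum_empty] at h
  omega

/-- zeros and poles of a nonzero function are finite in number. -/
theorem finite_ord_ne_zero {x : F} (hx : IsGenerator K x) (f : F) :
    {v : Place K F | v.ord f ≠ 0}.Finite := by
  rcases eq_or_ne f 0 with rfl | hf
  · simp
  have := Places.hasPrincipalDivisors hx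
  obtain ⟨P, hP, -⟩ := HasPrincipalDivisors.exists_divisor (K := K) f hf
  refine P.support.finite_toSet.subset ?_
  intro v hv
  simp only [Set.mem_ofPred_eq] at hv
  simpa [hP v] using hv

/-- elements of prescribed order at a place. -/
theorem exists_ord_eq (v : Place K F) (n : ℤ) : ∃ u : F, u ≠ 0 ∧ v.ord u = n := by
  obtain ⟨π, hπ⟩ := IsDiscreteValuationRing.exists_irreducible v.toValuationSubring
  have hπ0 : (π : F) ≠ 0 := by
    simpa [ne_eq, ZeroMemClass.coe_eq_zero] using hπ.ne_zero
  refine ⟨(π : F) ^ n, zpow_ne_zero n hπ0, ?_⟩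
  rw [v.ord_zpow, v.ord_coe_irreducible hπ, mul_one]

section Pairing

variable {x : F} (hx : IsGenerator K x) (R : ResidueSystem K F) (W : Divisor K F)
  (hW : ∀ v : Place K F, W v = v.ordDifferential (D K F x))

include hx hW in
theorem ordDifferential_smul (v : Place K F) {c : F} (hc : c ≠ 0) :
    v.ordDifferential (c • D K F x) = v.ord c + W v := by
  rw [Kaehler.ordDifferential_smul_D hx v x hx.1 c hc, hW v]

include hx hW in
theorem res_eq_zero_of_nonneg (v : Place K F) {c : F} (hc : c = 0 ∨ 0 ≤ v.ord c + W v) :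
    R.res v (c • D K F x) = 0 := by
  rcases eq_or_ne c 0 with rfl | hc0
  · simp
  · exact R.res_eq_zero v _ (by rw [ordDifferential_smul hx W hW v hc0]; exact hc.resolve_left hc0)

include hx hW in
theorem finite_res_support (f : F) {a : Place K F → F} (ha : a ∈ Adele K F) :
    (Function.support fun v : Place K F => R.res v ((a v * f) • D K F x)).Finite := by
  have h1 : {v : Place K F | a v ≠ 0 ∧ v.ord (a v) < 0}.Finite := ha
  have h2 := finite_ord_ne_zero hx f
  have h3 : {v : Place K F | W v ≠ 0}.Finite := by
    refine W.support.finite_toSet.subset ?_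
    intro v hv
    simpa using hv
  refine ((h1.union h2).union h3).subset ?_
  intro v hv
  rw [Function.mem_support] at hv
  by_contra hcon
  simp only [Set.mem_union, Set.mem_ofPred_eq, not_or, not_and, not_lt, not_not] at hcon
  obtain ⟨⟨h1, h2⟩, h3⟩ := hcon
  apply hv
  apply res_eq_zero_of_nonneg hx R W hW
  rcases eq_or_ne (a v * f) 0 with h0 | h0
  · exact Or.inl h0
  · right
    have ha0 : a v ≠ 0 := left_ne_zero_of_mul h0
    have hf0 : f ≠ 0 := right_ne_zero_of_mul h0
    rw [v.ord_mul ha0 hf0, h2, h3]
    have := h1 ha0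
    omega

/-- the residue pairing `⟨f, a⟩ = ∑_v res_v (a_v f dx)`. -/
def pairing (R : ResidueSystem K F) (x : F) (f : F) (a : Place K F → F) : K :=
  ∑ᶠ v : Place K F, R.res v ((a v * f) • D K F x)

include hx hW in
theorem pairing_add_right (f : F) {a b : Place K F → F} (ha : a ∈ Adele K F)
    (hb : b ∈ Adele K F) :
    pairing R x f (a + b) = pairing R x f a + pairing R x f b := by
  unfold pairing
  rw [← finsum_add_distrib (finite_res_support hx R W hW f ha) (finite_res_support hx R W hW f hb)]
  refine finsum_congr fun v => ?_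
  rw [Pi.add_apply, add_mul, add_smul, map_add]

theorem pairing_smul_right (f : F) (c : K) (a : Place K F → F) :
    pairing R x f (c • a) = c * pairing R x f a := by
  unfold pairing
  rw [← smul_eq_mul, smul_finsum]
  refine finsum_congr fun v => ?_
  rw [Pi.smul_apply, smul_mul_assoc, smul_assoc, map_smul]

include hx hW in
theorem pairing_add_left (f g : F) {a : Place K F → F} (ha : a ∈ Adele K F) :
    pairing R x (f + g) a = pairing R x f a + pairing R x g a := by
  unfold pairing
  rw [← finsum_add_distrib (finite_res_support hx R W hW f ha) (finite_res_support hx R W hW g ha)]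
  refine finsum_congr fun v => ?_
  rw [mul_add, add_smul, map_add]

theorem pairing_smul_left (c : K) (f : F) (a : Place K F → F) :
    pairing R x (c • f) a = c * pairing R x f a := by
  unfold pairing
  rw [← smul_eq_mul, smul_finsum]
  refine finsum_congr fun v => ?_
  rw [mul_smul_comm, smul_assoc, map_smul]

theorem pairing_mul (f h : F) (a : Place K F → F) :
    pairing R x (h * f) a = pairing R x f (fun v => h * a v) := by
  unfold pairing
  refine finsum_congr fun v => ?_
  congr 2
  ring

theorem pairing_diag (f h : F) : pairing R x f (diag K F h) = 0 := by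
  unfold pairing
  simp only [diag_apply]
  exact R.sum_res _

theorem pairing_single [DecidableEq (Place K F)] (f u : F) (v₀ : Place K F) :
    pairing R x f (Pi.single v₀ u) = R.res v₀ ((u * f) • D K F x) := by
  unfold pairing
  rw [finsum_eq_single _ v₀]
  · rw [Pi.single_eq_same]
  · intro v hv
    rw [Pi.single_eq_of_ne hv, zero_mul, zero_smul, map_zero]

include hx hW in
theorem pairing_eq_zero_of_mem (D₀ : Divisor K F) {f : F} (hf : f ∈ LSpace K F (W - D₀))
    {a : Place K F → F} (ha : a ∈ AdeleD K F D₀) : pairing R x f a = 0 := by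
  unfold pairing
  refine finsum_eq_zero_of_forall_eq_zero fun v => ?_
  apply res_eq_zero_of_nonneg hx R W hW
  rcases eq_or_ne (a v * f) 0 with h0 | h0
  · exact Or.inl h0
  · right
    have ha0 : a v ≠ 0 := left_ne_zero_of_mul h0
    have hf0 : f ≠ 0 := right_ne_zero_of_mul h0
    have h1 := (ha v).resolve_left ha0
    have h2 := (hf.resolve_left hf0) v
    rw [Finsupp.sub_apply] at h2
    rw [v.ord_mul ha0 hf0]
    omega

end Pairing

section Weil

variable {x : F} (hx : IsGenerator K x) (R : ResidueSystem K F) (W : Divisor K F)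
  (hW : ∀ v : Place K F, W v = v.ordDifferential (D K F x))

/-- multiplication by `h` on repartitions. -/
def mulAdele (hx : IsGenerator K x) (h : F) : Adele K F →ₗ[K] Adele K F where
  toFun a := ⟨fun v => h * a.1 v, smul_mem_adele hx h a.2⟩
  map_add' a b := by
    apply Subtype.ext
    funext v
    simp [mul_add]
  map_smul' c a := by
    apply Subtype.ext
    funext v
    simp

theorem mulAdele_apply (h : F) (a : Adele K F) (v : Place K F) :
    (mulAdele hx h a).1 v = h * a.1 v := rfl

theorem mulAdele_mulAdele (h k : F) (a : Adele K F) :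
    mulAdele hx h (mulAdele hx k a) = mulAdele hx (h * k) a := by
  apply Subtype.ext
  funext v
  simp [mulAdele_apply, mul_assoc]

theorem mulAdele_one (a : Adele K F) : mulAdele hx 1 a = a := by
  apply Subtype.ext
  funext v
  simp [mulAdele_apply]

/-- `h ↦ h • ω`, the `F`-module structure on linear forms on the repartitions. -/
def mulDual (hx : IsGenerator K x) (ω : Module.Dual K (Adele K F)) :
    F →ₗ[K] Module.Dual K (Adele K F) where
  toFun h := ω ∘ₗ mulAdele hx h
  map_add' h k := by
    ext a
    simp only [LinearMap.comp_apply, LinearMap.add_apply]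
    rw [← map_add]
    congr 1
    apply Subtype.ext
    funext v
    simp [mulAdele_apply, add_mul]
  map_smul' c h := by
    ext a
    simp only [LinearMap.comp_apply, LinearMap.smul_apply, RingHom.id_apply]
    rw [← map_smul]
    congr 1
    apply Subtype.ext
    funext v
    simp [mulAdele_apply]

theorem mulDual_apply (ω : Module.Dual K (Adele K F)) (h : F) (a : Adele K F) :
    mulDual hx ω h a = ω (mulAdele hx h a) := rfl

/-- the linear form `a ↦ ∑_v res_v (a_v f dx)` attached to `f`. -/
def toDual (hx : IsGenerator K x) (R : ResidueSystem K F) (W : Divisor K F)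
    (hW : ∀ v : Place K F, W v = v.ordDifferential (D K F x)) :
    F →ₗ[K] Module.Dual K (Adele K F) where
  toFun f :=
    { toFun := fun a => pairing R x f a.1
      map_add' := fun a b => pairing_add_right hx R W hW f a.2 b.2
      map_smul' := fun c a => pairing_smul_right R f c a.1 }
  map_add' f g := by
    ext a
    exact pairing_add_left hx R W hW f g a.2
  map_smul' c f := by
    ext a
    exact pairing_smul_left R c f a.1

theorem toDual_apply (f : F) (a : Adele K F) :
    toDual hx R W hW f a = pairing R x f a.1 := rfl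

theorem toDual_mul (h f : F) (a : Adele K F) :
    toDual hx R W hW (h * f) a = toDual hx R W hW f (mulAdele hx h a) := by
  rw [toDual_apply, toDual_apply, pairing_mul]
  rfl

theorem toDual_mem_weilDiff (D₀ : Divisor K F) {f : F} (hf : f ∈ LSpace K F (W - D₀)) :
    toDual hx R W hW f ∈ WeilDiff K F D₀ := by
  refine ⟨fun a ha => ?_, fun a ha => ?_⟩
  · exact pairing_eq_zero_of_mem hx R W hW D₀ hf ha
  · obtain ⟨k, hk⟩ := ha
    rw [toDual_apply, hk]
    exact pairing_diag R f k

theorem single_mem_adele [DecidableEq (Place K F)] (v₀ : Place K F) (u : F) :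
    (Pi.single v₀ u : Place K F → F) ∈ Adele K F := by
  refine (Set.finite_singleton v₀).subset ?_
  rintro v ⟨hv, -⟩
  by_contra hne
  have hne' : v ≠ v₀ := fun h => hne (by rw [h]; exact Set.mem_singleton v₀)
  exact hv (by simp [hne'])

theorem mem_LSpace_of_toDual (D₀ : Divisor K F) {f : F}
    (h : ∀ a : Adele K F, (a : Place K F → F) ∈ AdeleD K F D₀ → toDual hx R W hW f a = 0) :
    f ∈ LSpace K F (W - D₀) := by
  classical
  by_contra hcon
  rw [mem_LSpace, not_or] at hcon
  obtain ⟨hf0, hcon⟩ := hcon
  push Not at hcon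
  obtain ⟨v₀, hv₀⟩ := hcon
  rw [Finsupp.sub_apply] at hv₀
  obtain ⟨u, hu0, hu⟩ := exists_ord_eq v₀ (-(v₀.ord f + W v₀) - 1)
  have hmem : (Pi.single v₀ u : Place K F → F) ∈ AdeleD K F D₀ := by
    intro v
    rcases eq_or_ne v v₀ with rfl | hne
    · right
      rw [Pi.single_eq_same, hu]
      omega
    · left
      simp [hne]
  have h1 := h ⟨_, single_mem_adele v₀ u⟩ hmem
  rw [toDual_apply, pairing_single] at h1
  refine R.res_ne_zero v₀ _ ?_ h1
  rw [ordDifferential_smul hx W hW v₀ (mul_ne_zero hu0 hf0), v₀.ord_mul hu0 hf0, hu]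
  ring

theorem toDual_injective : Function.Injective (toDual hx R W hW) := by
  classical
  rw [← LinearMap.ker_eq_bot, LinearMap.ker_eq_bot']
  intro f hf
  obtain ⟨v₀⟩ := nonempty_place hx
  have h1 : f ∈ LSpace K F (W - (W + Finsupp.single v₀ (v₀.ord f + 1))) :=
    mem_LSpace_of_toDual hx R W hW _ (fun a _ => by rw [hf]; rfl)
  rcases h1 with h1 | h1
  · exact h1
  · have h2 := h1 v₀
    simp only [Finsupp.sub_apply, Finsupp.add_apply, Finsupp.single_eq_same] at h2
    omega

theorem mulDual_injective {ω : Module.Dual K (Adele K F)} (hω : ω ≠ 0) :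
    Function.Injective (mulDual hx ω) := by
  rw [← LinearMap.ker_eq_bot, LinearMap.ker_eq_bot']
  intro h hh
  by_contra h0
  apply hω
  ext a
  have h1 : mulDual hx ω h (mulAdele hx h⁻¹ a) = 0 := by rw [hh]; rfl
  rw [mulDual_apply, mulAdele_mulAdele, mul_inv_cancel₀ h0, mulAdele_one] at h1
  simpa using h1

theorem mulDual_mem_weilDiff (D₀ B : Divisor K F) {ω : Module.Dual K (Adele K F)}
    (hω : ω ∈ WeilDiff K F D₀) {h : F} (hh : h ∈ LSpace K F (D₀ + B)) :
    mulDual hx ω h ∈ WeilDiff K F (-B) := by
  refine ⟨fun a ha => ?_, fun a ha => ?_⟩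
  · rw [mulDual_apply]
    refine hω.1 _ fun v => ?_
    rw [mulAdele_apply]
    rcases eq_or_ne (h * a.1 v) 0 with h0 | h0
    · exact Or.inl h0
    · right
      have hh0 : h ≠ 0 := left_ne_zero_of_mul h0
      have ha0 : a.1 v ≠ 0 := right_ne_zero_of_mul h0
      have h1 := (ha v).resolve_left ha0
      have h2 := (hh.resolve_left hh0) v
      rw [Finsupp.neg_apply] at h1
      rw [Finsupp.add_apply] at h2
      rw [v.ord_mul hh0 ha0]
      omega
  · obtain ⟨k, hk⟩ := ha
    rw [mulDual_apply]
    refine hω.2 _ ⟨h * k, ?_⟩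
    funext v
    rw [mulAdele_apply, hk]
    rfl

end Weil

section Final

variable {x : F} (hx : IsGenerator K x) (R : ResidueSystem K F) (W : Divisor K F)
  (hW : ∀ v : Place K F, W v = v.ordDifferential (D K F x))

/-- linear algebra: two injective maps into a space of smaller dimension than the sum have a
common nonzero value. -/
theorem exists_common_value {V₁ V₂ T : Type*} [AddCommGroup V₁] [Module K V₁]
    [AddCommGroup V₂] [Module K V₂] [AddCommGroup T] [Module K T]
    [FiniteDimensional K V₁] [FiniteDimensional K V₂]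
    (S : Submodule K T) [FiniteDimensional K S]
    (α : V₁ →ₗ[K] T) (β : V₂ →ₗ[K] T) (hα : Function.Injective α) (hβ : Function.Injective β)
    (hαS : ∀ a, α a ∈ S) (hβS : ∀ b, β b ∈ S)
    (hdim : Module.finrank K S < Module.finrank K V₁ + Module.finrank K V₂) :
    ∃ a b, α a = β b ∧ a ≠ 0 := by
  have h1 : Module.finrank K (LinearMap.range α) = Module.finrank K V₁ :=
    LinearMap.finrank_range_of_inj hα
  have h2 : Module.finrank K (LinearMap.range β) = Module.finrank K V₂ :=
    LinearMap.finrank_range_of_inj hβ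
  have h3 := Submodule.finrank_sup_add_finrank_inf_eq (LinearMap.range α) (LinearMap.range β)
  have h4 : LinearMap.range α ⊔ LinearMap.range β ≤ S := by
    refine sup_le ?_ ?_
    · rintro _ ⟨a, rfl⟩; exact hαS a
    · rintro _ ⟨b, rfl⟩; exact hβS b
  have h5 := Submodule.finrank_mono h4
  have h6 : 0 < Module.finrank K ↥(LinearMap.range α ⊓ LinearMap.range β) := by omega
  obtain ⟨⟨t, ht⟩, ht0⟩ := Module.finrank_pos_iff_exists_ne_zero.mp h6
  obtain ⟨⟨a, rfl⟩, ⟨b, hb⟩⟩ := ht
  refine ⟨a, b, hb.symm, ?_⟩
  rintro rfl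
  apply ht0
  apply Subtype.ext
  simp

theorem toDual_surjective (D₀ : Divisor K F) {ω : Module.Dual K (Adele K F)}
    (hω : ω ∈ WeilDiff K F D₀) :
    ∃ f ∈ LSpace K F (W - D₀), toDual hx R W hW f = ω := by
  classical
  rcases eq_or_ne ω 0 with rfl | hω0
  · exact ⟨0, Submodule.zero_mem _, map_zero _⟩
  obtain ⟨g₀, hRiem, hdim⟩ := exists_genus_weilDiff hx
  obtain ⟨v₀⟩ := nonempty_place hx
  set n : ℕ := (3 * g₀ - Divisor.degree D₀ - Divisor.degree W).toNat + 1 with hn
  set B : Divisor K F := Finsupp.single v₀ (n : ℤ) with hB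
  have hdegB : Divisor.degree B = n := by
    rw [hB, Divisor.degree_single, Places.deg_eq_one hx v₀]; simp
  have : FiniteDimensional K (LSpace K F (D₀ + B)) := finiteDimensional_LSpace hx _
  have : FiniteDimensional K (LSpace K F (W + B)) := finiteDimensional_LSpace hx _
  have : FiniteDimensional K (WeilDiff K F (-B)) := (hdim (-B)).1
  have hT : (Module.finrank K (WeilDiff K F (-B)) : ℤ) = n - 1 + g₀ := by
    rw [(hdim (-B)).2, LSpace_eq_bot_of_degree_neg hx (-B) (by rw [map_neg, hdegB]; omega),
      finrank_bot, map_neg, hdegB]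
    push_cast; ring
  have hR1 := hRiem (D₀ + B)
  have hR2 := hRiem (W + B)
  rw [map_add, hdegB] at hR1 hR2
  have hlt : Module.finrank K (WeilDiff K F (-B))
      < Module.finrank K (LSpace K F (D₀ + B)) + Module.finrank K (LSpace K F (W + B)) := by
    have h3 : (3 * g₀ - Divisor.degree D₀ - Divisor.degree W) ≤ 
        ((3 * g₀ - Divisor.degree D₀ - Divisor.degree W).toNat : ℤ) := Int.self_le_toNat _
    have hn' : (n : ℤ) = ((3 * g₀ - Divisor.degree D₀ - Divisor.degree W).toNat : ℤ) + 1 := by
      rw [hn]; push_cast; rfl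
    zify
    omega
  obtain ⟨h, f, hEq, hh0⟩ := exists_common_value (WeilDiff K F (-B))
    ((mulDual hx ω).comp (LSpace K F (D₀ + B)).subtype)
    ((toDual hx R W hW).comp (LSpace K F (W + B)).subtype)
    ((mulDual_injective hx hω0).comp Subtype.val_injective)
    ((toDual_injective hx R W hW).comp Subtype.val_injective)
    (fun a => mulDual_mem_weilDiff hx D₀ B hω a.2)
    (fun b => toDual_mem_weilDiff hx R W hW (-B) (by rw [sub_neg_eq_add]; exact b.2))
    hlt
  simp only [LinearMap.comp_apply, Submodule.subtype_apply] at hEq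
  have hh0' : (h : F) ≠ 0 := fun h0 => hh0 (Subtype.ext h0)
  have key : toDual hx R W hW ((h : F)⁻¹ * f) = ω := by
    ext a
    rw [toDual_mul, ← hEq, mulDual_apply, mulAdele_mulAdele, mul_inv_cancel₀ hh0', mulAdele_one]
  refine ⟨(h : F)⁻¹ * f, ?_, key⟩
  apply mem_LSpace_of_toDual hx R W hW
  intro a ha
  rw [key]
  exact hω.1 a ha

include hx R hW in
/-- Riemann–Roch duality `ℓ(W - D) = dim Ω(D)`. -/
theorem finrank_LSpace_sub (D₀ : Divisor K F) :
    Module.finrank K (LSpace K F (W - D₀)) = Module.finrank K (WeilDiff K F D₀) := by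
  have hinj : Function.Injective ((toDual hx R W hW).comp (LSpace K F (W - D₀)).subtype) :=
    (toDual_injective hx R W hW).comp Subtype.val_injective
  have hrange : LinearMap.range ((toDual hx R W hW).comp (LSpace K F (W - D₀)).subtype)
      = WeilDiff K F D₀ := by
    ext ω
    constructor
    · rintro ⟨f, rfl⟩
      exact toDual_mem_weilDiff hx R W hW D₀ f.2
    · intro hω
      obtain ⟨f, hf, rfl⟩ := toDual_surjective hx R W hW D₀ hω
      exact ⟨⟨f, hf⟩, rfl⟩
  rw [← LinearMap.finrank_range_of_inj hinj, hrange]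

end Final

end Main

/-- Riemann–Roch for the canonical divisor: `2 ℓ(W) - 2 = deg W` (so `ℓ(W) = g`). -/
theorem two_mul_finrank_LSpace_canonical {x : F} (hx : IsGenerator K x)
    (R : ResidueSystem K F) (W : Divisor K F)
    (hW : ∀ v : Place K F, W v = v.ordDifferential (D K F x)) :
    2 * (Module.finrank K (LSpace K F W) : ℤ) - 2 = Divisor.degree W := by
  obtain ⟨g₀, -, hdim⟩ := exists_genus_weilDiff hx
  have h0 := Main.finrank_LSpace_sub hx R W hW 0
  have h1 := Main.finrank_LSpace_sub hx R W hW W
  rw [sub_zero] at h0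
  rw [sub_self] at h1
  have h2 := (hdim 0).2
  have h3 := (hdim W).2
  rw [← h0, finrank_LSpace_zero hx, map_zero] at h2
  rw [← h1, finrank_LSpace_zero hx] at h3
  push_cast at h2 h3
  omega

/-- general Riemann–Roch: `ℓ(D) - ℓ(W - D) = deg D + 1 - g` with `g = ℓ(W)`. -/
theorem riemann_roch {x : F} (hx : IsGenerator K x)
    (R : ResidueSystem K F) (W : Divisor K F)
    (hW : ∀ v : Place K F, W v = v.ordDifferential (D K F x)) (D₀ : Divisor K F) :
    (Module.finrank K (LSpace K F D₀) : ℤ) - Module.finrank K (LSpace K F (W - D₀))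
      = Divisor.degree D₀ + 1 - Module.finrank K (LSpace K F W) := by
  obtain ⟨g₀, -, hdim⟩ := exists_genus_weilDiff hx
  have h0 := Main.finrank_LSpace_sub hx R W hW 0
  have h1 := Main.finrank_LSpace_sub hx R W hW D₀
  rw [sub_zero] at h0
  have h2 := (hdim 0).2
  have h3 := (hdim D₀).2
  rw [← h0, finrank_LSpace_zero hx, map_zero] at h2
  rw [← h1] at h3
  push_cast at h2 h3
  omega

end Fermat.Agent.RR
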