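import Mathlib
import Fermat.Agent.S24_Defs
import Fermat.Agent.S24_Places
import Fermat.Agent.RR_Defs
import Fermat.Agent.RR_LSpace
import Fermat.Agent.RR_RiemannCore

set_option autoImplicit false

/-!
# RR2: Riemann's inequality

There is a constant `γ` with `deg D - ℓ(D) ≤ γ` for all divisors `D`; from `RR_RiemannCore` and
the theory of places (`S24_Places`).
-/

noncomputable section

open AlgebraicCurve KaehlerDifferential Fermat.Agent.S24

namespace Fermat.Agent.RR

variable {K F : Type*} [Field K] [IsAlgClosed K] [CharZero K] [Field F] [Algebra K F]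

theorem exists_riemann_bound {x : F} (hx : IsGenerator K x) :
    ∃ γ : ℤ, ∀ D : Divisor K F,
      Divisor.degree D - (Module.finrank K (LSpace K F D) : ℤ) ≤ γ :=
  RCore.exists_riemann_bound hx (resConst_of_isGenerator hx) (Places.deg_eq_one hx)
    (Places.hasPrincipalDivisors hx) (Places.finite_poles hx) (Places.sum_ord_poles hx)

end Fermat.Agent.RR
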