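import Mathlib
import Fermat.Agent.S24_Defs
import Fermat.Agent.S24_Places
import Fermat.Agent.RR_Defs
import Fermat.Agent.RR_LSpace
import Fermat.Agent.RR_Riemann
import Fermat.Agent.RR_IntVal

set_option autoImplicit false

/-!
# Places in a finite extension of function fields

`L/F` a finite extension of function fields over the algebraically closed field `K`.

* `exists_restrict`: every place `w` of `L` lies over a place `v` of `F`, with a ramification
  index `e > 0`: `ord_w f = e * ord_v f` for `f ∈ F`.
* `finsum_ramification`: the fundamental identity `∑_{w | v} e(w | v) = [L : F]`, summed against a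
  finitely supported function on the places of `F`.
* `isGenerator_algebraMap`: `L` is again a function field, with the same generator.
* `PlaceExt.exists_only_zero`: a function whose only zero is a given place (from Riemann's
  inequality).
* `PlaceExt.sum_ramification_fiber`: the fundamental identity over one place.
* `PlaceExt.restrict_unique`: the place below and the ramification index are unique.
-/

noncomputable section

open AlgebraicCurve KaehlerDifferential Fermat.Agent.S24

namespace Fermat.Agent.RR

namespace PlaceExt

section Tower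

variable {K F L : Type*} [Field K] [Field F] [Algebra K F] [Field L] [Algebra K L] [Algebra F L]
  [IsScalarTower K F L]

example (x : F) : Algebra (IntermediateField.adjoin K {x}) L := inferInstance
example (x : F) : IsScalarTower (IntermediateField.adjoin K {x}) F L := inferInstance

theorem algebraMap_mem_adjoin (x : F) (a : IntermediateField.adjoin K {x}) :
    algebraMap F L (a : F) ∈ IntermediateField.adjoin K {algebraMap F L x} := by
  have h := IntermediateField.adjoin_map K {x} (IsScalarTower.toAlgHom K F L)
  rw [Set.image_singleton] at h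
  have h2 : algebraMap F L (a : F) ∈ (IntermediateField.adjoin K {x}).map
      (IsScalarTower.toAlgHom K F L) := ⟨a, a.2, rfl⟩
  rw [h] at h2
  exact h2

/-- the map `K(x) → K(ι x)` -/
def adjoinMap (x : F) :
    IntermediateField.adjoin K {x} →+* IntermediateField.adjoin K {algebraMap F L x} :=
  RingHom.codRestrict ((algebraMap F L).comp (algebraMap (IntermediateField.adjoin K {x}) F))
    (IntermediateField.adjoin K {algebraMap F L x}) (fun a => algebraMap_mem_adjoin x a)

theorem adjoinMap_surjective (x : F) : Function.Surjective (adjoinMap (K := K) (L := L) x) := by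
  rintro ⟨b, hb⟩
  have h := IntermediateField.adjoin_map K {x} (IsScalarTower.toAlgHom K F L)
  rw [Set.image_singleton] at h
  have hb' : b ∈ (IntermediateField.adjoin K {x}).map (IsScalarTower.toAlgHom K F L) := by
    rw [h]; exact hb
  obtain ⟨a, ha, rfl⟩ := hb'
  exact ⟨⟨a, ha⟩, Subtype.ext rfl⟩

theorem finrank_adjoin_algebraMap (x : F) [FiniteDimensional (IntermediateField.adjoin K {x}) F]
    [FiniteDimensional F L] :
    FiniteDimensional (IntermediateField.adjoin K {algebraMap F L x}) L ∧
    Module.finrank (IntermediateField.adjoin K {algebraMap F L x}) L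
      = Module.finrank (IntermediateField.adjoin K {x}) F * Module.finrank F L := by
  letI : Algebra (IntermediateField.adjoin K {x}) (IntermediateField.adjoin K {algebraMap F L x}) :=
    (adjoinMap x).toAlgebra
  haveI : IsScalarTower (IntermediateField.adjoin K {x})
      (IntermediateField.adjoin K {algebraMap F L x}) L :=
    IsScalarTower.of_algebraMap_eq (fun a => rfl)
  haveI : Module.Finite (IntermediateField.adjoin K {x}) L := Module.Finite.trans F L
  have hfin : Module.Finite (IntermediateField.adjoin K {algebraMap F L x}) L :=
    Module.Finite.of_restrictScalars_finite (IntermediateField.adjoin K {x}) _ L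
  refine ⟨hfin, ?_⟩
  have h1 := Module.finrank_mul_finrank (IntermediateField.adjoin K {x}) F L
  have h2 := Module.finrank_mul_finrank (IntermediateField.adjoin K {x})
    (IntermediateField.adjoin K {algebraMap F L x}) L
  have h3 : Module.finrank (IntermediateField.adjoin K {x})
      (IntermediateField.adjoin K {algebraMap F L x}) = 1 := by
    have hbij : Function.Bijective (Algebra.linearMap (IntermediateField.adjoin K {x})
        (IntermediateField.adjoin K {algebraMap F L x})) :=
      ⟨(algebraMap (IntermediateField.adjoin K {x})
        (IntermediateField.adjoin K {algebraMap F L x})).injective, adjoinMap_surjective x⟩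
    rw [← (LinearEquiv.ofBijective _ hbij).finrank_eq, Module.finrank_self]
  rw [h3, one_mul] at h2
  rw [h2, h1]

end Tower

end PlaceExt

section Ext

variable {K F L : Type*} [Field K] [IsAlgClosed K] [CharZero K] [Field F] [Algebra K F]
  [Field L] [Algebra K L] [Algebra F L] [IsScalarTower K F L] [FiniteDimensional F L]

/-- a finite extension of a function field is a function field, with the same generator -/
theorem isGenerator_algebraMap {x : F} (hx : IsGenerator K x) :
    IsGenerator K (algebraMap F L x) := by
  have := hx.2
  exact ⟨(transcendental_algebraMap_iff (algebraMap F L).injective).mpr hx.1,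
    (PlaceExt.finrank_adjoin_algebraMap x).1⟩

namespace PlaceExt

/-- a function with its only zero at `v` -/
theorem exists_only_zero {x : F} (hx : IsGenerator K x) (v : Place K F) :
    ∃ t : F, 0 < v.ord t ∧ ∀ u : Place K F, u ≠ v → u.ord t ≤ 0 := by
  classical
  obtain ⟨γ, hγ⟩ := exists_riemann_bound hx
  set m : ℕ := (γ + 2).toNat with hm
  set D : Divisor K F := Finsupp.single v (m : ℤ) with hD
  have hdegD : Divisor.degree D = m := by
    rw [hD, Divisor.degree_single, Places.deg_eq_one hx v]; simp
  have h1 := hγ D
  have hfd := finiteDimensional_LSpace hx D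
  have h2 : 2 ≤ Module.finrank K (LSpace K F D) := by
    have : (2 : ℤ) ≤ Module.finrank K (LSpace K F D) := by omega
    exact_mod_cast this
  have hnot : ¬ LSpace K F D ≤ LSpace K F (0 : Divisor K F) := by
    intro hle
    have := finiteDimensional_LSpace hx (0 : Divisor K F)
    have := Submodule.finrank_mono hle
    rw [finrank_LSpace_zero hx] at this
    omega
  obtain ⟨s, hs, hs0⟩ := SetLike.not_le_iff_exists.mp hnot
  have hsne : s ≠ 0 := fun h => hs0 (h ▸ Submodule.zero_mem _)
  have hs' := hs.resolve_left hsne
  have hu : ∀ u : Place K F, u ≠ v → 0 ≤ u.ord s := by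
    intro u hu
    have := hs' u
    rw [hD, Finsupp.single_apply, if_neg (Ne.symm hu), add_zero] at this
    exact this
  have hv : v.ord s < 0 := by
    by_contra hcon
    apply hs0
    refine Or.inr fun u => ?_
    simp only [Finsupp.coe_zero, Pi.zero_apply, add_zero]
    by_cases h : u = v
    · subst h; omega
    · exact hu u h
  refine ⟨s⁻¹, by rw [v.ord_inv]; omega, fun u hne => ?_⟩
  rw [u.ord_inv]
  have := hu u hne
  omega

/-- the fundamental identity `∑_{w | v} e(w | v) = [L : F]` -/
theorem sum_ramification_fiber {x : F} (hx : IsGenerator K x) (ρ : Place K L → Place K F)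
    (e : Place K L → ℕ)
    (hρ : ∀ w, 0 < e w ∧ ∀ f : F, f ≠ 0 → w.ord (algebraMap F L f) = e w * (ρ w).ord f)
    (v : Place K F) :
    ∃ hfin : {w : Place K L | ρ w = v}.Finite, ∑ w ∈ hfin.toFinset, e w = Module.finrank F L := by
  classical
  obtain ⟨t, htv, htu⟩ := exists_only_zero hx v
  have ht0 : t ≠ 0 := by
    rintro rfl
    simp at htv
  have htr : Transcendental K t := Places.transcendental_of_ord_ne_zero v (by omega)
  have hgen : IsGenerator K t := Places.isGenerator_of_transcendental hx htr
  have hgenL : IsGenerator K (algebraMap F L t) := isGenerator_algebraMap hgen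
  have hF : PlacesAt K t 0 = {v} := by
    ext u
    simp only [PlacesAt, Set.mem_ofPred_eq, map_zero, sub_zero, Set.mem_singleton_iff]
    constructor
    · intro h
      by_contra hne
      have := htu u hne
      omega
    · rintro rfl
      exact htv
  have hL : PlacesAt K (algebraMap F L t) 0 = {w | ρ w = v} := by
    ext w
    simp only [PlacesAt, Set.mem_ofPred_eq, map_zero, sub_zero]
    rw [(hρ w).2 t ht0]
    constructor
    · intro h
      by_contra hne
      have h1 := htu (ρ w) hne
      have h2 : (e w : ℤ) * (ρ w).ord t ≤ 0 :=
        mul_nonpos_of_nonneg_of_nonpos (by positivity) h1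
      omega
    · intro h
      rw [h]
      have := (hρ w).1
      positivity
  have h1 := Places.sum_ord_placesAt hgen 0
  have h2 := Places.sum_ord_placesAt hgenL 0
  have := hgen.2
  obtain ⟨-, hfr⟩ := finrank_adjoin_algebraMap (K := K) (L := L) t
  have hfin : {w : Place K L | ρ w = v}.Finite := hL ▸ Places.finite_placesAt hgenL 0
  refine ⟨hfin, ?_⟩
  have e1 : (Places.finite_placesAt hgen 0).toFinset = {v} := by
    ext u
    rw [Set.Finite.mem_toFinset, hF]
    simp
  have e2 : (Places.finite_placesAt hgenL 0).toFinset = hfin.toFinset := by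
    ext u
    rw [Set.Finite.mem_toFinset, Set.Finite.mem_toFinset, hL]
  rw [e1, Finset.sum_singleton, map_zero, sub_zero] at h1
  rw [e2] at h2
  have h3 : ∀ w ∈ hfin.toFinset, w.ord (algebraMap F L t - algebraMap K L 0)
      = (e w : ℤ) * v.ord t := by
    intro w hw
    rw [Set.Finite.mem_toFinset] at hw
    rw [map_zero, sub_zero, (hρ w).2 t ht0, hw]
  rw [Finset.sum_congr rfl h3, ← Finset.sum_mul, h1, hfr] at h2
  have hpos : (0 : ℤ) < (Module.finrank (IntermediateField.adjoin K {t}) F : ℤ) := by
    rw [← h1]; exact htv
  have h4 : ((∑ w ∈ hfin.toFinset, e w : ℕ) : ℤ) = (Module.finrank F L : ℤ) := by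
    push_cast at h2 ⊢
    have h5 : (∑ w ∈ hfin.toFinset, (e w : ℤ)) * (Module.finrank (IntermediateField.adjoin K {t}) F : ℤ)
        = (Module.finrank F L : ℤ) * (Module.finrank (IntermediateField.adjoin K {t}) F : ℤ) := by
      rw [h2]; ring
    exact mul_right_cancel₀ hpos.ne' h5
  exact_mod_cast h4

end PlaceExt

/-- (b) the fundamental identity, summed against a finitely supported function -/
theorem finsum_ramification {x : F} (hx : IsGenerator K x) (ρ : Place K L → Place K F)
    (e : Place K L → ℕ)
    (hρ : ∀ w, 0 < e w ∧ ∀ f : F, f ≠ 0 → w.ord (algebraMap F L f) = e w * (ρ w).ord f)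
    (c : Place K F → K) (hc : (Function.support c).Finite) :
    ∑ᶠ w : Place K L, (e w : K) * c (ρ w)
      = (Module.finrank F L : K) * ∑ᶠ v : Place K F, c v := by
  classical
  choose hfin hsum using PlaceExt.sum_ramification_fiber hx ρ e hρ
  have hS : Function.support c ⊆ ↑hc.toFinset := by
    intro v hv
    simpa using hv
  have hT : Function.support (fun w => (e w : K) * c (ρ w))
      ⊆ ↑(hc.toFinset.biUnion fun v => (hfin v).toFinset) := by
    intro w hw
    have hcw : c (ρ w) ≠ 0 := fun h => hw (by simp [h])
    rw [Finset.mem_coe, Finset.mem_biUnion]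
    exact ⟨ρ w, hc.mem_toFinset.mpr hcw, (hfin (ρ w)).mem_toFinset.mpr rfl⟩
  rw [finsum_eq_sum_of_support_subset _ hT, finsum_eq_sum_of_support_subset c hS,
    Finset.sum_biUnion, Finset.mul_sum]
  · refine Finset.sum_congr rfl fun v _ => ?_
    have h1 : ∀ w ∈ (hfin v).toFinset, (e w : K) * c (ρ w) = (e w : K) * c v := by
      intro w hw
      rw [(hfin v).mem_toFinset.mp hw]
    rw [Finset.sum_congr rfl h1, ← Finset.sum_mul, ← Nat.cast_sum, hsum v]
  · intro v _ v' _ hne
    rw [Function.onFun, Finset.disjoint_left]
    intro w hw hw'
    rw [Set.Finite.mem_toFinset] at hw hw'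
    exact hne (hw.symm.trans hw')

/-- (a) every place of `L` restricts to a place of `F`, with a ramification index -/
theorem exists_restrict (w : Place K L) :
    ∃ (v : Place K F) (e : ℕ), 0 < e ∧
      ∀ f : F, f ≠ 0 → w.ord (algebraMap F L f) = e * v.ord f := by
  have hne : ∀ {a : F}, a ≠ 0 → algebraMap F L a ≠ 0 := fun ha => (map_ne_zero _).mpr ha
  let W : IntVal K F :=
    { toFun := fun f => w.ord (algebraMap F L f)
      map_mul' := fun a b ha hb => by
        rw [map_mul, w.ord_mul (hne ha) (hne hb)]
      map_add' := fun a b ha hb hab => by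
        rw [map_add]
        exact ord_add_ge w (hne ha) (hne hb) (by rw [← map_add]; exact hne hab)
      map_algebraMap' := fun c _ => by
        rw [← IsScalarTower.algebraMap_apply]
        exact ord_algebraMap w c }
  have hW : ∃ f : F, f ≠ 0 ∧ W.toFun f ≠ 0 := by
    by_contra hcon
    push Not at hcon
    apply w.ne_top'
    have hmem : ∀ f : F, algebraMap F L f ∈ w.toValuationSubring := by
      intro f
      rcases eq_or_ne f 0 with rfl | hf
      · rw [map_zero]; exact zero_mem _
      · exact Places.mem_of_ord_nonneg w (le_of_eq (hcon f hf).symm)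
    let φ : F →+* w.toValuationSubring := RingHom.codRestrict (algebraMap F L) _ hmem
    letI : Algebra F w.toValuationSubring := φ.toAlgebra
    haveI : IsScalarTower F w.toValuationSubring L := IsScalarTower.of_algebraMap_eq (fun _ => rfl)
    rw [eq_top_iff]
    intro y _
    have hy : IsIntegral F y := Algebra.IsIntegral.isIntegral y
    have hy' : IsIntegral w.toValuationSubring y := hy.tower_top
    obtain ⟨z, hz⟩ := IsIntegrallyClosed.isIntegral_iff.mp hy'
    rw [← hz]
    exact z.2
  exact exists_place_of_intVal W hW

namespace PlaceExt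

/-- the restriction of a place and its ramification index are unique -/
theorem restrict_unique (w : Place K L) {v v' : Place K F} {e e' : ℕ} (he : 0 < e)
    (he' : 0 < e') (h : ∀ f : F, f ≠ 0 → w.ord (algebraMap F L f) = e * v.ord f)
    (h' : ∀ f : F, f ≠ 0 → w.ord (algebraMap F L f) = e' * v'.ord f) : v = v' ∧ e = e' := by
  have hv : v = v' := by
    apply Place.ext
    ext f
    rcases eq_or_ne f 0 with rfl | hf
    · simp only [zero_mem]
    rw [Places.mem_iff_ord_nonneg, Places.mem_iff_ord_nonneg]
    have h1 := h f hf
    have h2 := h' f hf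
    have he0 : (0 : ℤ) < e := by exact_mod_cast he
    have he0' : (0 : ℤ) < e' := by exact_mod_cast he'
    constructor
    · intro h3
      have h4 : (0 : ℤ) ≤ e' * v'.ord f := by rw [← h2, h1]; positivity
      exact nonneg_of_mul_nonneg_right h4 he0'
    · intro h3
      have h4 : (0 : ℤ) ≤ e * v.ord f := by rw [← h1, h2]; positivity
      exact nonneg_of_mul_nonneg_right h4 he0
  refine ⟨hv, ?_⟩
  subst hv
  obtain ⟨π, hπ⟩ := IsDiscreteValuationRing.exists_irreducible v.toValuationSubring
  have hπ0 : (π : F) ≠ 0 := fun h0 => hπ.ne_zero (Subtype.ext h0)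
  have h1 := h (π : F) hπ0
  have h2 := h' (π : F) hπ0
  rw [v.ord_coe_irreducible hπ, mul_one] at h1 h2
  exact_mod_cast h1.symm.trans h2

end PlaceExt

end Ext

end Fermat.Agent.RR
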