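import Mathlib
import Fermat.Agent.S24_Defs
import Fermat.Agent.RR_Defs
import Fermat.Agent.S24_Places
import Fermat.Agent.S24_Kaehler
import Fermat.Agent.RR_Expand

/-!
# RR4b: formal residues and the local residue at a place

* `derivL`: the derivation `d/dT` of `K((T))` (`LaurentSeries.hasseDeriv K 1` + Leibniz).
* `resOf ε`: the residue functional `f dg ↦ coeff_{-1} (ε f * (ε g)')` attached to an embedding
  `ε : F → K((T))`.
* `resOf_eq_smul` (Lemma U): two expansions at the same place, of relative index `e`, give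
  residues differing by the factor `e`.
* `localRes hx v`: the residue at a place, with its API.
-/

set_option autoImplicit false
set_option linter.unusedSectionVars false
set_option linter.style.haveILetI false
set_option linter.unusedVariables false

noncomputable section

open AlgebraicCurve KaehlerDifferential Fermat.Agent.S24

namespace Fermat.Agent.RR

namespace ResLocal

section Laurent

variable {K : Type*} [Field K]

open HahnSeries

/-- `d/dT` on Laurent series, as a function. -/
def dT (s : LaurentSeries K) : LaurentSeries K := LaurentSeries.hasseDeriv K 1 s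

theorem dT_coeff (s : LaurentSeries K) (n : ℤ) :
    (dT s).coeff n = (n + 1 : ℤ) • s.coeff (n + 1) := by
  rw [dT, LaurentSeries.hasseDeriv_coeff]
  simp

theorem dT_add (s s' : LaurentSeries K) : dT (s + s') = dT s + dT s' := by
  simp [dT]

theorem dT_C_mul (c : K) (s : LaurentSeries K) : dT (C c * s) = C c * dT s := by
  rw [C_mul_eq_smul, C_mul_eq_smul, dT, dT, map_smul]

theorem dT_ofPowerSeries (p : PowerSeries K) :
    dT (ofPowerSeries ℤ K p) = ofPowerSeries ℤ K (PowerSeries.derivative K p) := by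
  ext n
  rw [dT_coeff, PowerSeries.coeff_coe, PowerSeries.coeff_coe]
  rcases lt_trichotomy n (-1) with h | h | h
  · rw [if_pos (by omega), if_pos (by omega), smul_zero]
  · subst h
    simp
  · obtain ⟨m, rfl⟩ := Int.eq_ofNat_of_zero_le (show 0 ≤ n by omega)
    rw [if_neg (by omega), if_neg (by omega), PowerSeries.coeff_derivative]
    have : ((m : ℤ) + 1).natAbs = m + 1 := by omega
    rw [this, Int.natAbs_natCast]
    simp [zsmul_eq_mul, mul_comm]

theorem dT_single_mul (a : ℤ) (s : LaurentSeries K) :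
    dT (single a (1 : K) * s)
      = C (a : K) * (single (a - 1) (1 : K) * s) + single a (1 : K) * dT s := by
  ext n
  rw [dT_coeff, coeff_add, C_mul_eq_smul, coeff_smul, coeff_single_mul, coeff_single_mul,
    coeff_single_mul, dT_coeff]
  have h1 : n - (a - 1) = n + 1 - a := by ring
  have h2 : n - a + 1 = n + 1 - a := by ring
  rw [h1, h2]
  simp only [one_mul, zsmul_eq_mul, smul_eq_mul]
  push_cast
  ring

theorem dT_mul (f g : LaurentSeries K) : dT (f * g) = f * dT g + g * dT f := by
  have hf := LaurentSeries.single_order_mul_powerSeriesPart f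
  have hg := LaurentSeries.single_order_mul_powerSeriesPart g
  set a := f.order
  set b := g.order
  set P := f.powerSeriesPart
  set Q := g.powerSeriesPart
  have hfg : f * g = single (a + b) (1 : K) * ofPowerSeries ℤ K (P * Q) := by
    rw [← hf, ← hg, map_mul]
    have : single (a + b) (1 : K) = single a 1 * single b 1 := by
      rw [single_mul_single, mul_one]
    rw [this]
    ring
  have h1 : single (a + b - 1) (1 : K) = single a 1 * single (b - 1) 1 := by
    rw [single_mul_single, mul_one, show a + (b - 1) = a + b - 1 by ring]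
  have h2 : single (a + b - 1) (1 : K) = single (a - 1) 1 * single b 1 := by
    rw [single_mul_single, mul_one, show a - 1 + b = a + b - 1 by ring]
  have h3 : single (a + b) (1 : K) = single a 1 * single b 1 := by
    rw [single_mul_single, mul_one]
  have hd : PowerSeries.derivative K (P * Q)
      = P * PowerSeries.derivative K Q + Q * PowerSeries.derivative K P := by
    rw [Derivation.leibniz]; rfl
  rw [hfg, dT_single_mul, dT_ofPowerSeries, hd]
  conv_rhs => rw [← hf, ← hg, dT_single_mul, dT_single_mul, dT_ofPowerSeries, dT_ofPowerSeries]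
  simp only [map_add, map_mul]
  push_cast
  rw [map_add, h3]
  have h4 : single (a + b - 1) (1 : K) * (ofPowerSeries ℤ K P * ofPowerSeries ℤ K Q)
      = single a 1 * ofPowerSeries ℤ K P * (single (b - 1) 1 * ofPowerSeries ℤ K Q) := by
    rw [h1]; ring
  have h5 : single (a + b - 1) (1 : K) * (ofPowerSeries ℤ K P * ofPowerSeries ℤ K Q)
      = single b 1 * ofPowerSeries ℤ K Q * (single (a - 1) 1 * ofPowerSeries ℤ K P) := by
    rw [h2]; ring
  linear_combination (C (a : K)) * h5 + (C (b : K)) * h4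

/-- elements of nonnegative order: the coefficient `-1` of a product vanishes. -/
theorem coeff_neg_one_mul_eq_zero {f g : LaurentSeries K} (hf : f = 0 ∨ 0 ≤ f.order)
    (hg : g = 0 ∨ 0 ≤ g.order) : (f * g).coeff (-1) = 0 := by
  rcases eq_or_ne f 0 with rfl | hf0
  · simp
  rcases eq_or_ne g 0 with rfl | hg0
  · simp
  apply coeff_eq_zero_of_lt_order
  rw [order_mul hf0 hg0]
  have := hf.resolve_left hf0
  have := hg.resolve_left hg0
  omega

theorem order_dT_ge (s : LaurentSeries K) : dT s = 0 ∨ s.order - 1 ≤ (dT s).order := by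
  rcases eq_or_ne (dT s) 0 with h | h
  · exact Or.inl h
  refine Or.inr ((le_order_iff_forall h).mpr fun j hj => ?_)
  rw [dT_coeff, coeff_eq_zero_of_lt_order (by omega), smul_zero]

theorem coeff_neg_one_dT (s : LaurentSeries K) : (dT s).coeff (-1) = 0 := by
  rw [dT_coeff]
  simp

/-- the residue of a logarithmic derivative is the order. -/
theorem coeff_neg_one_inv_mul_dT {s : LaurentSeries K} (hs : s ≠ 0) :
    (s⁻¹ * dT s).coeff (-1) = ((s.order : ℤ) : K) := by
  have hs' := LaurentSeries.single_order_mul_powerSeriesPart s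
  set n := s.order with hn
  set u := s.powerSeriesPart with hu
  have hu0 : PowerSeries.constantCoeff u ≠ 0 := by
    rw [← PowerSeries.coeff_zero_eq_constantCoeff_apply, hu, LaurentSeries.powerSeriesPart_coeff]
    simpa using coeff_order_eq_zero.not.mpr hs
  have huu : u * u⁻¹ = 1 := PowerSeries.mul_inv_cancel u hu0
  have key : s⁻¹ * dT s = C (n : K) * single (-1) (1 : K)
      + ofPowerSeries ℤ K (u⁻¹ * PowerSeries.derivative K u) := by
    rw [inv_mul_eq_iff_eq_mul₀ hs]
    conv_lhs => rw [← hs', dT_single_mul, dT_ofPowerSeries]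
    have h1 : single n (1 : K) = single (n - 1) 1 * single 1 1 := by
      rw [single_mul_single, mul_one, show n - 1 + 1 = n by ring]
    have h2 : (single 1 (1 : K)) * single (-1) 1 = 1 := by
      rw [single_mul_single, mul_one]; rfl
    have h3 : ofPowerSeries ℤ K u * ofPowerSeries ℤ K u⁻¹ = 1 := by
      rw [← map_mul, huu, map_one]
    rw [← hs', map_mul]
    linear_combination (-C (n : K) * single (n - 1) 1 * ofPowerSeries ℤ K u) * h2
      - (single n 1 * ofPowerSeries ℤ K (PowerSeries.derivative K u)) * h3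
      - (C (n : K) * ofPowerSeries ℤ K u * single (-1) 1) * h1
  rw [key, coeff_add, C_mul_eq_smul, coeff_smul, coeff_single_same, PowerSeries.coeff_coe,
    if_pos (by norm_num)]
  simp

end Laurent

end ResLocal

/-- the derivation `d/dT` of `K((T))`. -/
def derivL {K : Type*} [Field K] : Derivation K (LaurentSeries K) (LaurentSeries K) :=
  Derivation.mk'
    (@LinearMap.mk K K _ _ (RingHom.id K) (LaurentSeries K) (LaurentSeries K) _ _
      Algebra.toModule HahnSeries.instModule ⟨ResLocal.dT, ResLocal.dT_add⟩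
      (fun c s => by
        have h0 : algebraMap K (LaurentSeries K) c = HahnSeries.C c := by
          change HahnSeries.ofPowerSeries ℤ K (PowerSeries.C c) = _
          exact HahnSeries.ofPowerSeries_C c
        change ResLocal.dT (algebraMap K (LaurentSeries K) c * s) = c • ResLocal.dT s
        rw [h0, ResLocal.dT_C_mul, HahnSeries.C_mul_eq_smul]))
    (fun a b => by
      change ResLocal.dT (a * b) = a * ResLocal.dT b + b * ResLocal.dT a
      exact ResLocal.dT_mul a b)

theorem derivL_apply {K : Type*} [Field K] (s : LaurentSeries K) : derivL s = ResLocal.dT s := rfl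

namespace ResLocal

variable {K F : Type*} [Field K] [Field F] [Algebra K F]

/-- the coefficient of `T⁻¹`, as a `K`-linear form. -/
def coeffNegOne (K : Type*) [Field K] : LaurentSeries K →ₗ[K] K where
  toFun s := s.coeff (-1)
  map_add' _ _ := HahnSeries.coeff_add
  map_smul' _ _ := HahnSeries.coeff_smul

theorem algebraMap_laurent (c : K) : algebraMap K (LaurentSeries K) c = HahnSeries.C c := by
  change HahnSeries.ofPowerSeries ℤ K (PowerSeries.C c) = _
  exact HahnSeries.ofPowerSeries_C c

/-- the `F`-module structure on `K((T))` through an embedding `ε`. -/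
@[reducible] def modOf (ε : F →ₐ[K] LaurentSeries K) : Module F (LaurentSeries K) :=
  Module.compHom (LaurentSeries K) ε.toRingHom

theorem isScalarTower_modOf (ε : F →ₐ[K] LaurentSeries K) :
    letI := modOf ε
    IsScalarTower K F (LaurentSeries K) := by
  letI := modOf ε
  refine ⟨fun c f s => ?_⟩
  change ε (c • f) * s = c • (ε f * s)
  rw [Algebra.smul_def, map_mul, AlgHom.commutes, algebraMap_laurent, mul_assoc,
    HahnSeries.C_mul_eq_smul]

/-- the derivation `f ↦ (ε f)'` of `F` with values in `K((T))`. -/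
def derOf (ε : F →ₐ[K] LaurentSeries K) :
    letI := modOf ε
    Derivation K F (LaurentSeries K) :=
  letI := modOf ε
  Derivation.mk' ((derivL (K := K)).toLinearMap.comp ε.toLinearMap) (fun a b => by
    change derivL (ε (a * b)) = ε a * derivL (ε b) + ε b * derivL (ε a)
    rw [map_mul, Derivation.leibniz]
    rfl)

theorem derOf_apply (ε : F →ₐ[K] LaurentSeries K) (f : F) :
    letI := modOf ε
    derOf ε f = derivL (ε f) := rfl

end ResLocal

open ResLocal in
/-- the residue functional attached to an embedding `ε : F → K((T))`: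
`f dg ↦ coeff_{-1} (ε f * (ε g)')`. -/
def resOf {K F : Type*} [Field K] [Field F] [Algebra K F] (ε : F →ₐ[K] LaurentSeries K) :
    Ω[F⁄K] →ₗ[K] K :=
  letI := modOf ε
  haveI := isScalarTower_modOf ε
  (coeffNegOne K).comp ((derOf ε).liftKaehlerDifferential.restrictScalars K)

variable {K F : Type*} [Field K] [IsAlgClosed K] [CharZero K] [Field F] [Algebra K F]

theorem derivL_coeff (s : LaurentSeries K) (n : ℤ) :
    (derivL s).coeff n = (n + 1 : ℤ) • s.coeff (n + 1) :=
  ResLocal.dT_coeff s n

theorem resOf_smul_D (ε : F →ₐ[K] LaurentSeries K) (f g : F) :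
    resOf ε (f • D K F g) = (ε f * derivL (ε g)).coeff (-1) := by
  letI := ResLocal.modOf ε
  haveI := ResLocal.isScalarTower_modOf ε
  change ((ResLocal.derOf ε).liftKaehlerDifferential (f • D K F g)).coeff (-1) = _
  rw [map_smul, Derivation.liftKaehlerDifferential_comp_D]
  rfl

namespace ResLocal

open Fermat.Agent.S24.Kaehler

/-- the residue of an exact differential vanishes. -/
theorem resOf_D (ε : F →ₐ[K] LaurentSeries K) (g : F) : resOf ε (D K F g) = 0 := by
  have := resOf_smul_D ε 1 g
  rw [one_smul, map_one, one_mul, derivL_apply, coeff_neg_one_dT] at this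
  exact this

variable {v : Place K F} {ϖ : v.toValuationSubring} (hϖ : Irreducible ϖ)
  {ε : F →ₐ[K] LaurentSeries K} {e : ℕ} (he : 0 < e)
  (hε : ∀ f : F, f ≠ 0 → (ε f).order = (e : ℤ) * v.ord f)

include hϖ he hε

/-- differentials regular at the place have residue zero. -/
theorem resOf_regular {h : F} (hh : h ∈ v.toValuationSubring) :
    resOf ε (h • D K F (ϖ : F)) = 0 := by
  rw [resOf_smul_D, derivL_apply]
  have hϖ0 : (ϖ : F) ≠ 0 := by
    simpa [ne_eq, ZeroMemClass.coe_eq_zero] using hϖ.ne_zero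
  apply coeff_neg_one_mul_eq_zero
  · rcases eq_or_ne h 0 with rfl | h0
    · left; simp
    · right
      rw [hε h h0]
      exact mul_nonneg (Int.natCast_nonneg e) (Places.ord_nonneg_of_mem v hh)
  · rcases order_dT_ge (ε (ϖ : F)) with h1 | h1
    · exact Or.inl h1
    · right
      rw [hε _ hϖ0, v.ord_coe_irreducible hϖ] at h1
      have : (1 : ℤ) ≤ e := by exact_mod_cast he
      omega

/-- the residue of `dϖ/ϖ` is the index. -/
theorem resOf_inv_unif : resOf ε ((ϖ : F)⁻¹ • D K F (ϖ : F)) = (e : K) := by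
  have hϖ0 : (ϖ : F) ≠ 0 := by
    simpa [ne_eq, ZeroMemClass.coe_eq_zero] using hϖ.ne_zero
  rw [resOf_smul_D, derivL_apply, map_inv₀,
    coeff_neg_one_inv_mul_dT ((map_ne_zero ε).mpr hϖ0), hε _ hϖ0, v.ord_coe_irreducible hϖ]
  simp

omit he hε in
/-- the residue of `ϖ ^ k dϖ` vanishes for `k ≠ -1`. -/
theorem resOf_zpow_unif {k : ℤ} (hk : k ≠ -1) :
    resOf ε ((ϖ : F) ^ k • D K F (ϖ : F)) = 0 := by
  have h1 : D K F ((ϖ : F) ^ (k + 1)) = (k + 1) • ((ϖ : F) ^ k • D K F (ϖ : F)) := by
    rw [Derivation.leibniz_zpow, add_sub_cancel_right]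
  have h2 := resOf_D ε ((ϖ : F) ^ (k + 1))
  rw [h1, map_zsmul, zsmul_eq_mul] at h2
  have h3 : ((k + 1 : ℤ) : K) ≠ 0 := by
    rw [Int.cast_ne_zero]
    omega
  exact (mul_eq_zero.mp h2).resolve_left h3

omit hε he in
/-- comparison of two expansions on differentials with a pole of order at most `N`. -/
theorem resOf_compare {x : F} (hx : IsGenerator K x)
    {ε₁ ε₂ : F →ₐ[K] LaurentSeries K}
    (hε₁ : ∀ f : F, f ≠ 0 → (ε₁ f).order = ((1 : ℕ) : ℤ) * v.ord f)
    (hε₂ : ∀ f : F, f ≠ 0 → (ε₂ f).order = (e : ℤ) * v.ord f) (he : 0 < e) :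
    ∀ (N : ℕ) (h : F), (ϖ : F) ^ N * h ∈ v.toValuationSubring →
      resOf ε₂ (h • D K F (ϖ : F)) = (e : K) * resOf ε₁ (h • D K F (ϖ : F)) := by
  have hϖ0 : (ϖ : F) ≠ 0 := by
    simpa [ne_eq, ZeroMemClass.coe_eq_zero] using hϖ.ne_zero
  intro N
  induction N with
  | zero =>
    intro h hh
    rw [pow_zero, one_mul] at hh
    rw [resOf_regular hϖ he hε₂ hh, resOf_regular hϖ Nat.one_pos hε₁ hh, mul_zero]
  | succ N ih =>
    intro h hh
    obtain ⟨c, hc⟩ := Places.exists_sub_mem_maximalIdeal hx v ⟨_, hh⟩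
    rw [hϖ.maximalIdeal_eq, Ideal.mem_span_singleton] at hc
    obtain ⟨g, hg⟩ := hc
    have hg' : (ϖ : F) ^ (N + 1) * h - algebraMap K F c = ϖ * g := by
      have := congrArg (fun y : v.toValuationSubring => (y : F)) hg
      simpa using this
    -- `h = c ϖ^{-(N+1)} + ϖ^{-N} g`
    have hdec : h = c • (ϖ : F) ^ (-(N + 1 : ℤ)) + ((ϖ : F) ^ N)⁻¹ * g := by
      rw [Algebra.smul_def, zpow_neg]
      have h1 : (ϖ : F) ^ ((N : ℤ) + 1) = ϖ ^ (N + 1) := by
        rw [← zpow_natCast]; push_cast; rfl
      rw [h1]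
      have h2 : (ϖ : F) ^ (N + 1) ≠ 0 := pow_ne_zero _ hϖ0
      have h3 : (ϖ : F) ^ N ≠ 0 := pow_ne_zero _ hϖ0
      field_simp
      linear_combination (ϖ : F) ^ N * hg'
    have hmem : (ϖ : F) ^ N * (((ϖ : F) ^ N)⁻¹ * g) ∈ v.toValuationSubring := by
      rw [mul_inv_cancel_left₀ (pow_ne_zero _ hϖ0)]
      exact g.2
    have hlin : ∀ ε' : F →ₐ[K] LaurentSeries K, resOf ε' (h • D K F (ϖ : F))
        = c * resOf ε' ((ϖ : F) ^ (-(N + 1 : ℤ)) • D K F (ϖ : F))
          + resOf ε' ((((ϖ : F) ^ N)⁻¹ * g) • D K F (ϖ : F)) := by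
      intro ε'
      conv_lhs => rw [hdec]
      rw [add_smul, map_add, smul_assoc, map_smul, smul_eq_mul]
    rw [hlin ε₂, hlin ε₁, ih _ hmem]
    rcases Nat.eq_zero_or_pos N with hN | hN
    · subst hN
      have h1 : (ϖ : F) ^ (-((0 : ℕ) + 1 : ℤ)) = (ϖ : F)⁻¹ := by simp
      rw [h1, resOf_inv_unif hϖ he hε₂, resOf_inv_unif hϖ Nat.one_pos hε₁]
      push_cast
      ring
    · have hk : (-(N + 1 : ℤ)) ≠ -1 := by omega
      rw [resOf_zpow_unif hϖ hk, resOf_zpow_unif hϖ hk]
      ring

end ResLocal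

open ResLocal Fermat.Agent.S24.Kaehler in
/-- Independence of the expansion ("Lemma U"): two expansions at the same place, of relative
index `e`, give residues differing by the factor `e`. -/
theorem resOf_eq_smul {x : F} (hx : IsGenerator K x) (v : Place K F)
    (ε ε' : F →ₐ[K] LaurentSeries K) (e : ℕ) (he : 0 < e)
    (hε : ∀ f : F, f ≠ 0 → (ε f).order = v.ord f)
    (hε' : ∀ f : F, f ≠ 0 → (ε' f).order = e * v.ord f) :
    resOf ε' = (e : K) • resOf ε := by
  obtain ⟨ϖ, hϖ, hd⟩ := exists_dCoord_eq v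
  have hϖ0 : (ϖ : F) ≠ 0 := by
    simpa [ne_eq, ZeroMemClass.coe_eq_zero] using hϖ.ne_zero
  haveI := dCoordGenerates hx v
  have hε₁ : ∀ f : F, f ≠ 0 → (ε f).order = ((1 : ℕ) : ℤ) * v.ord f := by
    intro f hf
    rw [hε f hf]
    simp
  refine LinearMap.ext fun ω => ?_
  obtain ⟨f, hf⟩ := v.exists_eq_smul_dCoord ω
  rw [LinearMap.smul_apply, smul_eq_mul, hf, hd]
  rcases eq_or_ne f 0 with rfl | hf0
  · rw [zero_smul, map_zero, map_zero, mul_zero]
  have hmem : (ϖ : F) ^ (-(v.ord f)).toNat * f ∈ v.toValuationSubring := by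
    apply Places.mem_of_ord_nonneg
    rw [v.ord_mul (pow_ne_zero _ hϖ0) hf0, ← zpow_natCast, v.ord_zpow, v.ord_coe_irreducible hϖ]
    have := Int.self_le_toNat (-(v.ord f))
    omega
  exact resOf_compare hϖ hx hε₁ hε' he (-(v.ord f)).toNat f hmem

/-- the residue at a place. -/
def localRes {x : F} (hx : IsGenerator K x) (v : Place K F) : Ω[F⁄K] →ₗ[K] K :=
  letI := Classical.propDecidable
  if h : ∃ ε : F →ₐ[K] LaurentSeries K, ∀ f : F, f ≠ 0 → (ε f).order = v.ord f
  then resOf h.choose else 0

theorem localRes_eq_resOf {x : F} (hx : IsGenerator K x) (v : Place K F)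
    (ε : F →ₐ[K] LaurentSeries K) (hε : ∀ f : F, f ≠ 0 → (ε f).order = v.ord f) :
    localRes hx v = resOf ε := by
  have hex : ∃ ε : F →ₐ[K] LaurentSeries K, ∀ f : F, f ≠ 0 → (ε f).order = v.ord f := ⟨ε, hε⟩
  rw [localRes, dif_pos hex]
  have := resOf_eq_smul hx v ε hex.choose 1 Nat.one_pos hε (by
    intro f hf
    rw [hex.choose_spec f hf]
    simp)
  rw [this]
  simp

open ResLocal Fermat.Agent.S24.Kaehler in
theorem localRes_eq_zero {x : F} (hx : IsGenerator K x) (v : Place K F) (ω : Ω[F⁄K])
    (h : 0 ≤ v.ordDifferential ω) : localRes hx v ω = 0 := by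
  obtain ⟨ϖ, hϖ, hd⟩ := exists_dCoord_eq v
  obtain ⟨ε, hε, -⟩ := exists_expand hx v ϖ (v.ord_coe_irreducible hϖ)
  haveI := dCoordGenerates hx v
  have hε₁ : ∀ f : F, f ≠ 0 → (ε f).order = ((1 : ℕ) : ℤ) * v.ord f := by
    intro f hf
    rw [hε f hf]
    simp
  rw [localRes_eq_resOf hx v ε hε, ← v.differentialCoeff_smul_dCoord ω, hd]
  exact resOf_regular hϖ Nat.one_pos hε₁ (Places.mem_of_ord_nonneg v h)

open ResLocal Fermat.Agent.S24.Kaehler in
theorem localRes_ne_zero {x : F} (hx : IsGenerator K x) (v : Place K F) (ω : Ω[F⁄K])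
    (h : v.ordDifferential ω = -1) : localRes hx v ω ≠ 0 := by
  obtain ⟨ϖ, hϖ, hd⟩ := exists_dCoord_eq v
  obtain ⟨ε, hε, -⟩ := exists_expand hx v ϖ (v.ord_coe_irreducible hϖ)
  haveI := dCoordGenerates hx v
  have hε₁ : ∀ f : F, f ≠ 0 → (ε f).order = ((1 : ℕ) : ℤ) * v.ord f := by
    intro f hf
    rw [hε f hf]
    simp
  have hϖ0 : (ϖ : F) ≠ 0 := by
    simpa [ne_eq, ZeroMemClass.coe_eq_zero] using hϖ.ne_zero
  set f := v.differentialCoeff ω with hf
  have hord : v.ord f = -1 := h
  have hf0 : f ≠ 0 := by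
    rintro h0
    rw [h0] at hord
    simp at hord
  have hmem : (ϖ : F) * f ∈ v.toValuationSubring := by
    apply Places.mem_of_ord_nonneg
    rw [v.ord_mul hϖ0 hf0, v.ord_coe_irreducible hϖ, hord]
    norm_num
  obtain ⟨c, hc⟩ := Places.exists_sub_mem_maximalIdeal hx v ⟨_, hmem⟩
  rw [hϖ.maximalIdeal_eq, Ideal.mem_span_singleton] at hc
  obtain ⟨g, hg⟩ := hc
  have hg' : (ϖ : F) * f - algebraMap K F c = ϖ * g := by
    have := congrArg (fun y : v.toValuationSubring => (y : F)) hg
    simpa using this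
  have hc0 : c ≠ 0 := by
    rintro rfl
    rw [map_zero, sub_zero] at hg'
    have hfg : f = g := mul_left_cancel₀ hϖ0 hg'
    have := Places.ord_nonneg_of_mem v g.2
    rw [← hfg, hord] at this
    norm_num at this
  have hdec : f = c • (ϖ : F)⁻¹ + g := by
    rw [Algebra.smul_def]
    field_simp
    linear_combination hg'
  rw [localRes_eq_resOf hx v ε hε, ← v.differentialCoeff_smul_dCoord ω, hd, ← hf, hdec,
    add_smul, map_add, smul_assoc, map_smul, smul_eq_mul, resOf_inv_unif hϖ Nat.one_pos hε₁,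
    resOf_regular hϖ Nat.one_pos hε₁ g.2]
  simpa using hc0

open ResLocal in
theorem localRes_D {x : F} (hx : IsGenerator K x) (v : Place K F) (g : F) :
    localRes hx v (D K F g) = 0 := by
  obtain ⟨ϖ, hϖ⟩ := IsDiscreteValuationRing.exists_irreducible v.toValuationSubring
  obtain ⟨ε, hε, -⟩ := exists_expand hx v ϖ (v.ord_coe_irreducible hϖ)
  rw [localRes_eq_resOf hx v ε hε]
  exact resOf_D ε g

open ResLocal in
theorem localRes_logD {x : F} (hx : IsGenerator K x) (v : Place K F) (g : F) (hg : g ≠ 0) :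
    localRes hx v (g⁻¹ • D K F g) = (v.ord g : K) := by
  obtain ⟨ϖ, hϖ⟩ := IsDiscreteValuationRing.exists_irreducible v.toValuationSubring
  obtain ⟨ε, hε, -⟩ := exists_expand hx v ϖ (v.ord_coe_irreducible hϖ)
  rw [localRes_eq_resOf hx v ε hε, resOf_smul_D, derivL_apply, map_inv₀,
    coeff_neg_one_inv_mul_dT ((map_ne_zero ε).mpr hg), hε g hg]

open ResLocal Fermat.Agent.S24.Kaehler in
theorem finite_support_localRes {x : F} (hx : IsGenerator K x) (ω : Ω[F⁄K]) :
    {v : Place K F | localRes hx v ω ≠ 0}.Finite := by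
  obtain ⟨f, hf⟩ : ∃ f : F, ω = f • D K F x := by
    have : ω ∈ Submodule.span F {D K F x} := by
      rw [span_D_eq_top hx]
      trivial
    obtain ⟨f, hf⟩ := Submodule.mem_span_singleton.mp this
    exact ⟨f, hf.symm⟩
  rcases eq_or_ne f 0 with rfl | hf0
  · rw [zero_smul] at hf
    simp [hf]
  have hfin : {v : Place K F | v.ord f < 0}.Finite := by
    by_cases hft : Transcendental K f
    · exact Places.finite_poles (Places.isGenerator_of_transcendental hx hft)
    · rw [Transcendental, not_not] at hft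
      obtain ⟨c, rfl⟩ := Places.exists_algebraMap_eq_of_isAlgebraic hft
      convert Set.finite_empty
      ext v
      simp [Places.ord_algebraMap]
  refine (hfin.union (Places.finite_poles hx)).subset ?_
  intro v hv
  by_contra hcon
  simp only [Set.mem_union, Set.mem_ofPred_eq, not_or, not_lt] at hcon
  apply hv
  apply localRes_eq_zero
  rw [hf, ordDifferential_smul_D hx v x hx.1 f hf0]
  have : 0 ≤ v.ordDifferential (D K F x) := by
    obtain ⟨δ, h1, -, h3⟩ := exists_derivation hx v
    haveI := dCoordGenerates hx v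
    haveI := nontrivial_kaehler hx
    rw [Place.ordDifferential, v.differentialCoeff_unique (h1 x)]
    exact Places.ord_nonneg_of_mem v (h3 x (Places.mem_of_ord_nonneg v hcon.2))
  omega

/-- functoriality: for an embedding `ι : F → L` of function fields and a place `w` of `L` over
the place `v` of `F` with ramification index `e`, `res_w (ι f d(ι g)) = e * res_v (f dg)`.
(Automorphisms: `L = F`, `w = σ • v`, `e = 1`.) -/
theorem localRes_map {L : Type*} [Field L] [Algebra K L] {x : F} (hx : IsGenerator K x)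
    {y : L} (hy : IsGenerator K y) (ι : F →ₐ[K] L) (w : Place K L) (v : Place K F)
    (e : ℕ) (he : 0 < e) (hord : ∀ f : F, f ≠ 0 → w.ord (ι f) = e * v.ord f) (f g : F) :
    localRes hy w (ι f • D K L (ι g)) = (e : K) * localRes hx v (f • D K F g) := by
  obtain ⟨ϖw, hϖw⟩ := IsDiscreteValuationRing.exists_irreducible w.toValuationSubring
  obtain ⟨εw, hεw, -⟩ := exists_expand hy w ϖw (w.ord_coe_irreducible hϖw)
  obtain ⟨ϖv, hϖv⟩ := IsDiscreteValuationRing.exists_irreducible v.toValuationSubring
  obtain ⟨εv, hεv, -⟩ := exists_expand hx v ϖv (v.ord_coe_irreducible hϖv)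
  rw [localRes_eq_resOf hy w εw hεw, localRes_eq_resOf hx v εv hεv]
  have hU := resOf_eq_smul hx v εv (εw.comp ι) e he hεv (fun f hf => by
    rw [AlgHom.comp_apply, hεw _ ((map_ne_zero ι).mpr hf), hord f hf])
  have h1 : (e : K) * resOf εv (f • D K F g) = resOf (εw.comp ι) (f • D K F g) := by
    rw [hU, LinearMap.smul_apply, smul_eq_mul]
  rw [h1, resOf_smul_D, resOf_smul_D]
  rfl

end Fermat.Agent.RR
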