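import Mathlib
import Fermat.Agent.S24_Defs
import Fermat.Agent.S24_Places
import Fermat.Agent.S24_Kaehler
import Fermat.Agent.RR_Defs

/-!
# RR4c: the residue theorem on the projective line

If `F = K(x)` (`K` algebraically closed of characteristic zero), every differential of `F/K` is
a `K`-linear combination of exact differentials and logarithmic differentials `dg / g`
(partial fractions).  Hence any system of `K`-linear "residue" functionals killing exact
differentials and sending `dg / g` to `ord_v g` has sum zero (the degree of a principal divisor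
is zero).

* `ResP1.pfSpan_eq_top`: partial fractions — `K(x)` is spanned over `K` by the `x ^ n` and the
  `(x - a)⁻¹ ^ (k + 1)`.
* `ResP1.sum_res_eq_zero_of_adjoin_eq_top`: the residue theorem for an abstract residue system.
-/

set_option autoImplicit false

noncomputable section

open AlgebraicCurve KaehlerDifferential Fermat.Agent.S24

namespace Fermat.Agent.RR.ResP1

variable {K F : Type*} [Field K] [Field F] [Algebra K F]

/-! ### ring identities -/

theorem aux_x_mul {R : Type*} [CommRing R] (x A u : R) (hu : (x - A) * u = 1) (k : ℕ) :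
    x * u ^ (k + 1) = u ^ k + A * u ^ (k + 1) := by
  linear_combination u ^ k * hu

theorem aux_u_mul {R : Type*} [CommRing R] (x A u : R) (hu : (x - A) * u = 1) (n : ℕ) :
    u * x ^ (n + 1) = x ^ n + A * (u * x ^ n) := by
  linear_combination x ^ n * hu

theorem aux_u_u {R : Type*} [CommRing R] (x A B u w c : R) (hu : (x - A) * u = 1)
    (hw : (x - B) * w = 1) (hc : (A - B) * c = 1) (k : ℕ) :
    u * w ^ (k + 1) = c * (u * w ^ k - w ^ (k + 1)) := by
  linear_combination w ^ k * ((-u * w) * hc + c * u * hw - c * w * hu)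

variable (K) in
/-- the `K`-span of the partial-fraction monomials `x ^ n`, `(x - a)⁻¹ ^ (k + 1)`. -/
def pfSpan (x : F) : Submodule K F :=
  Submodule.span K (Set.range (fun n : ℕ => x ^ n) ∪
    Set.range (fun p : K × ℕ => ((x - algebraMap K F p.1)⁻¹) ^ (p.2 + 1)))

theorem pow_mem_pfSpan (x : F) (n : ℕ) : x ^ n ∈ pfSpan K x :=
  Submodule.subset_span (Or.inl ⟨n, rfl⟩)

theorem inv_pow_mem_pfSpan (x : F) (a : K) (k : ℕ) :
    ((x - algebraMap K F a)⁻¹) ^ (k + 1) ∈ pfSpan K x :=
  Submodule.subset_span (Or.inr ⟨(a, k), rfl⟩)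

theorem one_mem_pfSpan (x : F) : (1 : F) ∈ pfSpan K x := by
  simpa using pow_mem_pfSpan (K := K) x 0

/-- a multiplication preserving the span on generators preserves the span. -/
theorem mul_mem_pfSpan_of_gen {x y : F} (h1 : ∀ n : ℕ, y * x ^ n ∈ pfSpan K x)
    (h2 : ∀ (a : K) (k : ℕ), y * ((x - algebraMap K F a)⁻¹) ^ (k + 1) ∈ pfSpan K x)
    {f : F} (hf : f ∈ pfSpan K x) : y * f ∈ pfSpan K x := by
  induction hf using Submodule.span_induction with
  | mem g hg =>
    rcases hg with ⟨n, rfl⟩ | ⟨⟨a, k⟩, rfl⟩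
    · exact h1 n
    · exact h2 a k
  | zero => simp
  | add g h _ _ hg hh => rw [mul_add]; exact add_mem hg hh
  | smul c g _ hg => rw [mul_smul_comm]; exact Submodule.smul_mem _ c hg

theorem x_mul_mem_pfSpan {x : F} (hxa : ∀ a : K, x - algebraMap K F a ≠ 0) {f : F}
    (hf : f ∈ pfSpan K x) : x * f ∈ pfSpan K x := by
  refine mul_mem_pfSpan_of_gen (fun n => ?_) (fun a k => ?_) hf
  · rw [← pow_succ']; exact pow_mem_pfSpan x (n + 1)
  · have h : x * ((x - algebraMap K F a)⁻¹) ^ (k + 1) =
        ((x - algebraMap K F a)⁻¹) ^ k + a • ((x - algebraMap K F a)⁻¹) ^ (k + 1) := by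
      rw [Algebra.smul_def]
      exact aux_x_mul x _ _ (mul_inv_cancel₀ (hxa a)) k
    rw [h]
    refine add_mem ?_ (Submodule.smul_mem _ _ (inv_pow_mem_pfSpan x a k))
    cases k with
    | zero => simpa using one_mem_pfSpan (K := K) x
    | succ k => exact inv_pow_mem_pfSpan x a k

theorem inv_mul_mem_pfSpan {x : F} (hxa : ∀ a : K, x - algebraMap K F a ≠ 0) (a : K) {f : F}
    (hf : f ∈ pfSpan K x) : (x - algebraMap K F a)⁻¹ * f ∈ pfSpan K x := by
  refine mul_mem_pfSpan_of_gen (fun n => ?_) (fun b k => ?_) hf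
  · induction n with
    | zero => simpa using inv_pow_mem_pfSpan x a 0
    | succ n ih =>
      have h : (x - algebraMap K F a)⁻¹ * x ^ (n + 1) =
          x ^ n + a • ((x - algebraMap K F a)⁻¹ * x ^ n) := by
        rw [Algebra.smul_def]
        exact aux_u_mul x _ _ (mul_inv_cancel₀ (hxa a)) n
      rw [h]
      exact add_mem (pow_mem_pfSpan x n) (Submodule.smul_mem _ _ ih)
  · by_cases hab : a = b
    · subst hab
      rw [← pow_succ']
      exact inv_pow_mem_pfSpan x a (k + 1)
    · have hab' : algebraMap K F a - algebraMap K F b ≠ 0 := by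
        rw [← map_sub]
        exact (map_ne_zero _).mpr (sub_ne_zero.mpr hab)
      have ha := hxa a
      have hb := hxa b
      induction k with
      | zero =>
        have h : (x - algebraMap K F a)⁻¹ * ((x - algebraMap K F b)⁻¹) ^ (0 + 1) =
            (a - b)⁻¹ • (((x - algebraMap K F a)⁻¹) ^ (0 + 1) -
              ((x - algebraMap K F b)⁻¹) ^ (0 + 1)) := by
          rw [Algebra.smul_def, map_inv₀, map_sub]
          have := aux_u_u x _ _ _ _ _ (mul_inv_cancel₀ ha) (mul_inv_cancel₀ hb)
            (mul_inv_cancel₀ hab') 0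
          simpa using this
        rw [h]
        exact Submodule.smul_mem _ _
          (sub_mem (inv_pow_mem_pfSpan x a 0) (inv_pow_mem_pfSpan x b 0))
      | succ k ih =>
        have h : (x - algebraMap K F a)⁻¹ * ((x - algebraMap K F b)⁻¹) ^ (k + 1 + 1) =
            (a - b)⁻¹ • ((x - algebraMap K F a)⁻¹ * ((x - algebraMap K F b)⁻¹) ^ (k + 1) -
              ((x - algebraMap K F b)⁻¹) ^ (k + 1 + 1)) := by
          rw [Algebra.smul_def, map_inv₀, map_sub]
          exact aux_u_u x _ _ _ _ _ (mul_inv_cancel₀ ha) (mul_inv_cancel₀ hb)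
            (mul_inv_cancel₀ hab') (k + 1)
        rw [h]
        exact Submodule.smul_mem _ _ (sub_mem ih (inv_pow_mem_pfSpan x b (k + 1)))

theorem aeval_mul_mem_pfSpan {x : F} (hxa : ∀ a : K, x - algebraMap K F a ≠ 0)
    (p : Polynomial K) {f : F} (hf : f ∈ pfSpan K x) :
    Polynomial.aeval x p * f ∈ pfSpan K x := by
  induction p using Polynomial.induction_on with
  | C c =>
    rw [Polynomial.aeval_C, ← Algebra.smul_def]
    exact Submodule.smul_mem _ _ hf
  | add p q hp hq => rw [map_add, add_mul]; exact add_mem hp hq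
  | monomial n c ih =>
    have h : Polynomial.aeval x (Polynomial.C c * Polynomial.X ^ (n + 1)) * f =
        x * (Polynomial.aeval x (Polynomial.C c * Polynomial.X ^ n) * f) := by
      simp only [map_mul, map_pow, Polynomial.aeval_X, Polynomial.aeval_C]
      ring
    rw [h]
    exact x_mul_mem_pfSpan hxa ih

theorem inv_prod_mul_mem_pfSpan {x : F} (hxa : ∀ a : K, x - algebraMap K F a ≠ 0)
    (m : Multiset K) {f : F} (hf : f ∈ pfSpan K x) :
    ((m.map fun a => x - algebraMap K F a).prod)⁻¹ * f ∈ pfSpan K x := by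
  induction m using Multiset.induction with
  | empty => simpa using hf
  | cons a m ih =>
    rw [Multiset.map_cons, Multiset.prod_cons, mul_inv, mul_assoc]
    exact inv_mul_mem_pfSpan hxa a ih

theorem inv_aeval_mul_mem_pfSpan [IsAlgClosed K] {x : F}
    (hxa : ∀ a : K, x - algebraMap K F a ≠ 0) (s : Polynomial K) {f : F}
    (hf : f ∈ pfSpan K x) : (Polynomial.aeval x s)⁻¹ * f ∈ pfSpan K x := by
  have h := (IsAlgClosed.splits s).eq_prod_roots
  have h2 : Polynomial.aeval x s = algebraMap K F s.leadingCoeff *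
      (s.roots.map fun a => x - algebraMap K F a).prod := by
    conv_lhs => rw [h]
    rw [map_mul, Polynomial.aeval_C, map_multiset_prod, Multiset.map_map]
    congr 2
    refine Multiset.map_congr rfl fun a _ => ?_
    simp
  rw [h2, mul_inv, mul_assoc, ← map_inv₀, ← Algebra.smul_def]
  exact Submodule.smul_mem _ _ (inv_prod_mul_mem_pfSpan hxa _ hf)

/-- **Partial fractions**: if `F = K(x)` with `K` algebraically closed, `F` is spanned over `K`
by the powers of `x` and the powers of the `(x - a)⁻¹`. -/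
theorem pfSpan_eq_top [IsAlgClosed K] {x : F} (hxa : ∀ a : K, x - algebraMap K F a ≠ 0)
    (htop : IntermediateField.adjoin K {x} = ⊤) : pfSpan K x = ⊤ := by
  rw [eq_top_iff]
  rintro f -
  have hf : f ∈ IntermediateField.adjoin K {x} := by rw [htop]; trivial
  obtain ⟨r, s, rfl⟩ := (IntermediateField.mem_adjoin_simple_iff K f).mp hf
  rw [div_eq_inv_mul]
  have := aeval_mul_mem_pfSpan hxa r (one_mem_pfSpan (K := K) x)
  rw [mul_one] at this
  exact inv_aeval_mul_mem_pfSpan hxa s this

/-- `x ^ n dx` is exact. -/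
theorem pow_smul_D_eq [CharZero K] (x : F) (n : ℕ) :
    x ^ n • D K F x = ((n + 1 : ℕ) : K)⁻¹ • D K F (x ^ (n + 1)) := by
  have hc : ((n + 1 : ℕ) : K) ≠ 0 := Nat.cast_ne_zero.mpr (Nat.succ_ne_zero n)
  rw [Derivation.leibniz_pow, Nat.add_sub_cancel, ← Nat.cast_smul_eq_nsmul K, smul_smul,
    inv_mul_cancel₀ hc, one_smul]

/-- `(x - a)⁻¹ ^ (k + 2) dx` is exact. -/
theorem inv_pow_smul_D_eq [CharZero K] (x : F) (a : K) (k : ℕ) :
    ((x - algebraMap K F a)⁻¹) ^ (k + 1 + 1) • D K F x =
      (-((k + 1 : ℕ) : K))⁻¹ • D K F (((x - algebraMap K F a)⁻¹) ^ (k + 1)) := by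
  have hc : (-((k + 1 : ℕ) : K)) ≠ 0 :=
    neg_ne_zero.mpr (Nat.cast_ne_zero.mpr (Nat.succ_ne_zero k))
  have h1 : D K F (((x - algebraMap K F a)⁻¹) ^ (k + 1)) =
      (-((k + 1 : ℕ) : K)) • (((x - algebraMap K F a)⁻¹) ^ (k + 1 + 1) • D K F x) := by
    rw [Derivation.leibniz_pow, Derivation.leibniz_inv, map_sub, Derivation.map_algebraMap,
      sub_zero, Nat.add_sub_cancel, ← Nat.cast_smul_eq_nsmul K, neg_smul, smul_neg, smul_neg,
      neg_smul, smul_smul (((x - algebraMap K F a)⁻¹) ^ k), ← pow_add]
  rw [h1, smul_smul, inv_mul_cancel₀ hc, one_smul]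

/-- **Residue theorem on the projective line**, for an abstract system of residue functionals:
if `F = K(x)`, the functionals kill exact differentials, send `dg / g` to `ord_v g`, and
principal divisors have degree zero, then the sum of the residues of any differential is zero. -/
theorem sum_res_eq_zero_of_adjoin_eq_top [IsAlgClosed K] [CharZero K] {x : F}
    (htop : IntermediateField.adjoin K {x} = ⊤)
    (hspan : Submodule.span F {D K F x} = ⊤)
    (res : Place K F → Ω[F⁄K] →ₗ[K] K)
    (hfin : ∀ ω : Ω[F⁄K], {v : Place K F | res v ω ≠ 0}.Finite)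
    (hD : ∀ (v : Place K F) (g : F), res v (D K F g) = 0)
    (hlog : ∀ (v : Place K F) (g : F), g ≠ 0 → res v (g⁻¹ • D K F g) = (v.ord g : K))
    (hdeg : ∀ g : F, g ≠ 0 → ∑ᶠ v : Place K F, ((v.ord g : ℤ) : K) = 0)
    (ω : Ω[F⁄K]) : ∑ᶠ v : Place K F, res v ω = 0 := by
  have hω : ω ∈ Submodule.span F {D K F x} := by rw [hspan]; trivial
  obtain ⟨f, rfl⟩ := Submodule.mem_span_singleton.mp hω
  clear hω
  by_cases hxa : ∀ a : K, x - algebraMap K F a ≠ 0
  swap
  · -- degenerate case: `x` constant, all differentials vanish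
    push Not at hxa
    obtain ⟨a, ha⟩ := hxa
    have hx0 : D K F x = 0 := by
      rw [sub_eq_zero.mp ha]; exact Derivation.map_algebraMap _ _
    simp [hx0]
  have hf : f ∈ pfSpan K x := by rw [pfSpan_eq_top hxa htop]; trivial
  induction hf using Submodule.span_induction with
  | mem g hg =>
    rcases hg with ⟨n, rfl⟩ | ⟨⟨a, k⟩, rfl⟩
    · simp only [pow_smul_D_eq (K := K), map_smul, hD, smul_zero, finsum_zero]
    · cases k with
      | zero =>
        have hg0 := hxa a
        have h : ((x - algebraMap K F a)⁻¹) ^ (0 + 1) • D K F x =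
            (x - algebraMap K F a)⁻¹ • D K F (x - algebraMap K F a) := by
          rw [map_sub, Derivation.map_algebraMap, sub_zero, zero_add, pow_one]
        simp only [h, hlog _ _ hg0]
        exact hdeg _ hg0
      | succ k =>
        simp only [inv_pow_smul_D_eq (K := K), map_smul, hD, smul_zero, finsum_zero]
  | zero => simp
  | add g h _ _ hg hh =>
    simp only [add_smul, map_add]
    rw [finsum_add_distrib (hfin _) (hfin _), hg, hh, add_zero]
  | smul c g _ hg =>
    simp only [smul_assoc, map_smul]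
    rw [← smul_finsum, hg, smul_zero]

/-- the orders of a nonzero function sum to zero (degree of a principal divisor, all places
having degree one). -/
theorem finsum_ord_eq_zero [IsAlgClosed K] [CharZero K] {x : F} (hx : IsGenerator K x) {g : F}
    (hg : g ≠ 0) : ∑ᶠ v : Place K F, ((v.ord g : ℤ) : K) = 0 := by
  have := Places.hasPrincipalDivisors hx
  obtain ⟨E, hE, hdeg⟩ := HasPrincipalDivisors.exists_divisor (K := K) g hg
  have h1 : ∑ᶠ v : Place K F, ((v.ord g : ℤ) : K) = ∑ v ∈ E.support, ((E v : ℤ) : K) := by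
    rw [finsum_eq_sum_of_support_subset]
    · exact Finset.sum_congr rfl fun v _ => by rw [hE]
    · intro v hv
      simp only [Function.mem_support] at hv
      simp only [Finset.mem_coe, Finsupp.mem_support_iff]
      rw [hE]
      intro h
      exact hv (by rw [h]; simp)
  have h2 : Divisor.degree E = ∑ v ∈ E.support, E v := by
    simp [Divisor.degree, Finsupp.sum, Places.deg_eq_one hx]
  rw [h1, ← Int.cast_sum, ← h2, hdeg, Int.cast_zero]

/-- **Residue theorem on the projective line** for a generator `x` with `F = K(x)`: only the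
local properties of the residue functionals remain as hypotheses. -/
theorem sum_res_eq_zero_of_isGenerator [IsAlgClosed K] [CharZero K] {x : F}
    (hx : IsGenerator K x) (htop : IntermediateField.adjoin K {x} = ⊤)
    (res : Place K F → Ω[F⁄K] →ₗ[K] K)
    (hfin : ∀ ω : Ω[F⁄K], {v : Place K F | res v ω ≠ 0}.Finite)
    (hD : ∀ (v : Place K F) (g : F), res v (D K F g) = 0)
    (hlog : ∀ (v : Place K F) (g : F), g ≠ 0 → res v (g⁻¹ • D K F g) = (v.ord g : K))
    (ω : Ω[F⁄K]) : ∑ᶠ v : Place K F, res v ω = 0 :=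
  sum_res_eq_zero_of_adjoin_eq_top htop (Kaehler.span_D_eq_top hx) res hfin hD hlog
    (fun _ hg => finsum_ord_eq_zero hx hg) ω

end Fermat.Agent.RR.ResP1
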