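import Mathlib
import Fermat.Agent.S24_Defs
import Fermat.Agent.S24_Places
import Fermat.Agent.S24_Kaehler
import Fermat.Agent.RR_Defs
import Fermat.Agent.RR_ResP1
import Fermat.Agent.RR_PlaceExt
import Fermat.Agent.RR_ResLocal

/-!
# The residue theorem for function fields (RR4d, part 2)

`∑_v res_v ω = 0` for every differential `ω` of a function field `F/K` (`K` algebraically closed of
characteristic zero), from:

* the residue theorem on the projective line (`sum_localRes_eq_zero_of_adjoin_eq_top`),
* functoriality of the local residue (`localRes_map`),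
* the fundamental identity `∑_{w ∣ v} e(w ∣ v) = [L : F]` (`exists_restrict`,
  `finsum_ramification`).

Proof: let `F₀ = K(x) ⊆ F ⊆ L` with `L/F₀` finite Galois (normal closure), `G = Gal(L/F₀)`.
1. for `g ∈ F₀`: `∑_w res_w (g dx) = [L : F₀] ∑_u res_u (g dx) = 0`;
2. for `f ∈ L`: `|G| ∑_w res_w (f dx) = ∑_w res_w (Tr(f) dx) = 0` (`G` permutes the places of `L`);
3. for `f ∈ F`: `[L : F] ∑_v res_v (f dx) = ∑_w res_w (f dx) = 0`.
-/

set_option autoImplicit false

noncomputable section

open AlgebraicCurve KaehlerDifferential Fermat.Agent.S24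

namespace Fermat.Agent.RR

section P1

variable {K F : Type*} [Field K] [IsAlgClosed K] [CharZero K] [Field F] [Algebra K F]

/-- The residue theorem on the projective line (RR4c). -/
theorem sum_localRes_eq_zero_of_adjoin_eq_top {x : F} (hx : IsGenerator K x)
    (htop : IntermediateField.adjoin K {x} = ⊤) (ω : Ω[F⁄K]) :
    ∑ᶠ v : Place K F, localRes hx v ω = 0 :=
  ResP1.sum_res_eq_zero_of_isGenerator hx htop (localRes hx) (finite_support_localRes hx)
    (localRes_D hx) (localRes_logD hx) ω

end P1

namespace ResThm

section Push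

variable {K F L : Type*} [Field K] [IsAlgClosed K] [CharZero K] [Field F] [Algebra K F]
  [Field L] [Algebra K L] [Algebra F L] [IsScalarTower K F L] [FiniteDimensional F L]

/-- Step A: residues of pulled-back differentials sum to `[L:F]` times the sum downstairs. -/
theorem finsum_localRes_algebraMap {x : F} (hx : IsGenerator K x) {y : L} (hy : IsGenerator K y)
    (f g : F) :
    ∑ᶠ w : Place K L, localRes hy w (algebraMap F L f • D K L (algebraMap F L g))
      = (Module.finrank F L : K) * ∑ᶠ v : Place K F, localRes hx v (f • D K F g) := by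
  choose ρ e he hord using fun w : Place K L => exists_restrict (K := K) (F := F) (L := L) w
  have h1 : ∀ w : Place K L, localRes hy w (algebraMap F L f • D K L (algebraMap F L g))
      = (e w : K) * localRes hx (ρ w) (f • D K F g) := fun w =>
    localRes_map hx hy (IsScalarTower.toAlgHom K F L) w (ρ w) (e w) (he w) (hord w) f g
  rw [finsum_congr h1]
  exact finsum_ramification hx ρ e (fun w => ⟨he w, hord w⟩)
    (fun v => localRes hx v (f • D K F g)) (finite_support_localRes hx _)

end Push

section Galois

variable {K F0 L : Type*} [Field K] [IsAlgClosed K] [CharZero K] [Field F0] [Algebra K F0]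
  [Field L] [Algebra K L] [Algebra F0 L] [IsScalarTower K F0 L] [FiniteDimensional F0 L]
  [IsGalois F0 L]

omit [FiniteDimensional F0 L] [IsGalois F0 L] in
/-- The local residue is invariant under automorphisms. -/
theorem localRes_smul_galois {y : L} (hy : IsGenerator K y) (σ : L ≃ₐ[F0] L) (w : Place K L)
    (f g : L) :
    localRes hy (σ.restrictScalars K • w) (σ f • D K L (σ g)) = localRes hy w (f • D K L g) := by
  have := localRes_map hy hy ((σ.restrictScalars K : L ≃ₐ[K] L) : L →ₐ[K] L)
    (σ.restrictScalars K • w) w 1 one_pos (fun f _ => by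
      rw [Nat.cast_one, one_mul]; exact Place.ord_smul (σ.restrictScalars K) w f) f g
  simpa using this

/-- Step B: the residue theorem on a finite Galois cover of the projective line, for differentials
`f dx`. -/
theorem finsum_localRes_galois {x0 : F0} (hx0 : IsGenerator K x0)
    (htop : IntermediateField.adjoin K {x0} = ⊤) {y : L} (hy : IsGenerator K y) (f : L) :
    ∑ᶠ w : Place K L, localRes hy w (f • D K L (algebraMap F0 L x0)) = 0 := by
  have h1 : ∀ σ : L ≃ₐ[F0] L,
      ∑ᶠ w : Place K L, localRes hy w (σ f • D K L (algebraMap F0 L x0))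
        = ∑ᶠ w : Place K L, localRes hy w (f • D K L (algebraMap F0 L x0)) := by
    intro σ
    rw [← finsum_comp_equiv (MulAction.toPerm (σ.restrictScalars K : L ≃ₐ[K] L))]
    refine finsum_congr fun w => ?_
    have := localRes_smul_galois hy σ w f (algebraMap F0 L x0)
    rwa [σ.commutes] at this
  have h2 : ∑ᶠ w : Place K L,
      localRes hy w ((∑ σ : L ≃ₐ[F0] L, σ f) • D K L (algebraMap F0 L x0))
      = (Fintype.card (L ≃ₐ[F0] L) : K)
        * ∑ᶠ w : Place K L, localRes hy w (f • D K L (algebraMap F0 L x0)) := by
    simp only [Finset.sum_smul, map_sum]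
    rw [finsum_sum_comm]
    · simp [h1]
    · intro σ _; exact finite_support_localRes hy _
  rw [← trace_eq_sum_automorphisms] at h2
  have h3 := finsum_localRes_algebraMap (F := F0) (L := L) hx0 hy (Algebra.trace F0 L f) x0
  rw [sum_localRes_eq_zero_of_adjoin_eq_top hx0 htop, mul_zero] at h3
  rw [h3] at h2
  have hcard : (Fintype.card (L ≃ₐ[F0] L) : K) ≠ 0 := Nat.cast_ne_zero.mpr Fintype.card_ne_zero
  exact (mul_eq_zero.mp h2.symm).resolve_left hcard

end Galois

section Tower

/-- The residue theorem for `F`, given a tower `K(x₀) = F₀ ⊆ F ⊆ L` with `L/F₀` finite Galois. -/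
theorem sum_localRes_eq_zero_of_tower {K F0 F : Type*} (L : Type*) [Field K] [IsAlgClosed K]
    [CharZero K] [Field F0] [Field F] [Field L]
    [Algebra K F0] [Algebra K F] [Algebra K L] [Algebra F0 F] [Algebra F L] [Algebra F0 L]
    [IsScalarTower K F0 F] [IsScalarTower K F0 L] [IsScalarTower F0 F L]
    [FiniteDimensional F0 L] [IsGalois F0 L] {x0 : F0} (hx0 : IsGenerator K x0)
    (htop : IntermediateField.adjoin K {x0} = ⊤) {x : F} (hx : IsGenerator K x) (ω : Ω[F⁄K]) :
    ∑ᶠ v : Place K F, localRes hx v ω = 0 := by
  have : IsScalarTower K F L := IsScalarTower.of_algebraMap_eq fun c => by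
    rw [IsScalarTower.algebraMap_apply K F0 L, IsScalarTower.algebraMap_apply F0 F L,
      ← IsScalarTower.algebraMap_apply K F0 F]
  have : FiniteDimensional F0 F := FiniteDimensional.left F0 F L
  have : FiniteDimensional F L := FiniteDimensional.right F0 F L
  have hx1 : IsGenerator K (algebraMap F0 F x0) := isGenerator_algebraMap hx0
  have hy : IsGenerator K (algebraMap F0 L x0) := isGenerator_algebraMap hx0
  obtain ⟨f, rfl⟩ : ∃ f : F, f • D K F (algebraMap F0 F x0) = ω := by
    have hspan := Kaehler.span_D_eq_top hx1
    have hω : ω ∈ Submodule.span F {D K F (algebraMap F0 F x0)} := by rw [hspan]; trivial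
    exact Submodule.mem_span_singleton.mp hω
  have h1 := finsum_localRes_algebraMap (F := F) (L := L) hx hy f (algebraMap F0 F x0)
  rw [← IsScalarTower.algebraMap_apply F0 F L, finsum_localRes_galois hx0 htop hy] at h1
  have hfin : (Module.finrank F L : K) ≠ 0 := Nat.cast_ne_zero.mpr Module.finrank_pos.ne'
  exact (mul_eq_zero.mp h1.symm).resolve_left hfin

end Tower

end ResThm

section Main

variable {K F : Type*} [Field K] [IsAlgClosed K] [CharZero K] [Field F] [Algebra K F]

open IntermediateField in
/-- The residue theorem. -/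
theorem sum_localRes_eq_zero {x : F} (hx : IsGenerator K x) (ω : Ω[F⁄K]) :
    ∑ᶠ v : Place K F, localRes hx v ω = 0 := by
  have hfd : FiniteDimensional (adjoin K {x}) F := hx.2
  have htop : adjoin K {(⟨x, mem_adjoin_simple_self K x⟩ : adjoin K {x})} = ⊤ := by
    apply lift_injective
    rw [lift_adjoin_simple, lift_top]
  have hx0 : IsGenerator K (⟨x, mem_adjoin_simple_self K x⟩ : adjoin K {x}) := by
    refine ⟨?_, ?_⟩
    · have h := hx.1
      exact (transcendental_algebraMap_iff (algebraMap (adjoin K {x}) F).injective).mp h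
    · rw [htop]
      exact Module.Finite.of_surjective
        (Algebra.linearMap (⊤ : IntermediateField K (adjoin K {x})) (adjoin K {x}))
        (fun z => ⟨⟨z, IntermediateField.mem_top⟩, rfl⟩)
  have : CharZero (adjoin K {x}) :=
    charZero_of_injective_algebraMap (algebraMap K (adjoin K {x})).injective
  have halg : Algebra.IsAlgebraic (adjoin K {x}) (AlgebraicClosure F) :=
    Algebra.IsAlgebraic.trans (adjoin K {x}) F (AlgebraicClosure F)
  have : IsAlgClosure (adjoin K {x}) (AlgebraicClosure F) := ⟨inferInstance, halg⟩
  have : Normal (adjoin K {x}) (AlgebraicClosure F) := IsAlgClosure.normal _ _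
  have : IsGalois (adjoin K {x}) (normalClosure (adjoin K {x}) F (AlgebraicClosure F)) := ⟨⟩
  exact ResThm.sum_localRes_eq_zero_of_tower (F0 := adjoin K {x})
    (normalClosure (adjoin K {x}) F (AlgebraicClosure F)) hx0 htop hx ω

/-- Residue systems exist. -/
theorem exists_residueSystem {x : F} (hx : IsGenerator K x) : Nonempty (ResidueSystem K F) :=
  ⟨{ res := localRes hx
     res_eq_zero := localRes_eq_zero hx
     res_ne_zero := localRes_ne_zero hx
     finite_support := finite_support_localRes hx
     sum_res := sum_localRes_eq_zero hx }⟩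

end Main

end Fermat.Agent.RR
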