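import Fermat.Statements.S02

set_option autoImplicit false
open FreyPackage

namespace Fermat.Agent.S02

/-- Coprime case, `b` even, `a ≡ 3 mod 4`. -/
theorem step3 (a b c : ℤ) (ha : a ≠ 0) (hb : b ≠ 0) (hc : c ≠ 0) (p : ℕ) (pp : p.Prime)
    (hp5 : 5 ≤ p) (H : a ^ p + b ^ p = c ^ p) (hg : gcd a b = 1)
    (hb2 : (b : ZMod 2) = 0) : Nonempty FreyPackage := by
  have p_odd : Odd p := pp.odd_of_ne_two (by omega)
  have hbe : (2 : ℤ) ∣ b := (ZMod.intCast_zmod_eq_zero_iff_dvd b 2).1 hb2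
  -- a is odd
  have hao : ¬ (2 : ℤ) ∣ a := by
    intro h2
    have h3 : (2 : ℤ) ∣ gcd a b := dvd_gcd h2 hbe
    rw [hg] at h3
    norm_num at h3
  by_cases ha4 : (a : ZMod 4) = 3
  · exact ⟨{ a := a, b := b, c := c, ha0 := ha, hb0 := hb, hc0 := hc, p := p, pp := pp,
             hp5 := hp5, hFLT := H, hgcdab := hg, ha4 := ha4, hb2 := hb2 }⟩
  · have ha4' : ((-a : ℤ) : ZMod 4) = 3 := by
      have h1 : (a : ZMod 4) = 1 := by
        have hmod : a % 4 = 1 ∨ a % 4 = 3 := by omega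
        rcases hmod with h | h
        · have : ((a % 4 : ℤ) : ZMod 4) = (a : ZMod 4) := ZMod.intCast_mod a 4
          rw [← this, h]; rfl
        · exfalso; apply ha4
          have : ((a % 4 : ℤ) : ZMod 4) = (a : ZMod 4) := ZMod.intCast_mod a 4
          rw [← this, h]; rfl
      push_cast
      rw [h1]; decide
    refine ⟨{ a := -a, b := -b, c := -c, ha0 := neg_ne_zero.2 ha, hb0 := neg_ne_zero.2 hb,
              hc0 := neg_ne_zero.2 hc, p := p, pp := pp, hp5 := hp5, hFLT := ?_,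
              hgcdab := ?_, ha4 := ha4', hb2 := ?_ }⟩
    · rw [p_odd.neg_pow, p_odd.neg_pow, p_odd.neg_pow, ← H]; ring
    · rw [gcd_neg, neg_gcd]; exact hg
    · push_cast; rw [hb2]; simp

/-- Coprime case. -/
theorem step2 (a b c : ℤ) (ha : a ≠ 0) (hb : b ≠ 0) (hc : c ≠ 0) (p : ℕ) (pp : p.Prime)
    (hp5 : 5 ≤ p) (H : a ^ p + b ^ p = c ^ p) (hg : gcd a b = 1) : Nonempty FreyPackage := by
  have p_odd : Odd p := pp.odd_of_ne_two (by omega)
  have hp0 : 0 < p := by omega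
  by_cases hbe : (2 : ℤ) ∣ b
  · exact step3 a b c ha hb hc p pp hp5 H hg ((ZMod.intCast_zmod_eq_zero_iff_dvd b 2).2 hbe)
  by_cases hae : (2 : ℤ) ∣ a
  · exact step3 b a c hb ha hc p pp hp5 (by rw [add_comm]; exact H) (by rw [gcd_comm]; exact hg)
      ((ZMod.intCast_zmod_eq_zero_iff_dvd a 2).2 hae)
  · -- both odd, so c is even
    have hce : (2 : ℤ) ∣ c := by
      have hao : Odd a := Int.not_even_iff_odd.1 (fun h => hae h.two_dvd)
      have hbo : Odd b := Int.not_even_iff_odd.1 (fun h => hbe h.two_dvd)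
      have hcp : Even (c ^ p) := by
        rw [← H]; exact (hao.pow).add_odd (hbo.pow)
      have : Even c := (Int.even_pow.1 hcp).1
      exact this.two_dvd
    have hgac : gcd a c = 1 := by rw [← gcdab_eq_gcdac hp0 H, hg]
    refine step3 a (-c) (-b) ha (neg_ne_zero.2 hc) (neg_ne_zero.2 hb) p pp hp5 ?_ ?_ ?_
    · rw [p_odd.neg_pow, p_odd.neg_pow, ← H]; ring
    · rw [gcd_neg]; exact hgac
    · exact (ZMod.intCast_zmod_eq_zero_iff_dvd (-c) 2).2 ((dvd_neg).2 hce)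

theorem result (a b c : ℤ) (ha : a ≠ 0) (hb : b ≠ 0) (hc : c ≠ 0) (p : ℕ) (pp : p.Prime) (hp5 : 5 ≤ p) (H : a ^ p + b ^ p = c ^ p) : Nonempty FreyPackage := by
  have hp0 : p ≠ 0 := by omega
  -- divide by the gcd
  have hg0 : gcd a b ≠ 0 := fun h => ha ((gcd_eq_zero_iff a b).1 h).1
  obtain ⟨a', ha'⟩ := gcd_dvd_left a b
  obtain ⟨b', hb'⟩ := gcd_dvd_right a b
  have hgc : gcd a b ∣ c := by
    rw [← Int.pow_dvd_pow_iff hp0, ← H]
    exact dvd_add (pow_dvd_pow_of_dvd (gcd_dvd_left a b) p) (pow_dvd_pow_of_dvd (gcd_dvd_right a b) p)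
  obtain ⟨c', hc'⟩ := hgc
  set g := gcd a b with hg
  have ha'0 : a' ≠ 0 := by rintro rfl; apply ha; rw [ha']; ring
  have hb'0 : b' ≠ 0 := by rintro rfl; apply hb; rw [hb']; ring
  have hc'0 : c' ≠ 0 := by rintro rfl; apply hc; rw [hc']; ring
  have H' : a' ^ p + b' ^ p = c' ^ p := by
    have h1 : g ^ p * (a' ^ p + b' ^ p) = g ^ p * c' ^ p := by
      rw [mul_add, ← mul_pow, ← mul_pow, ← mul_pow, ← ha', ← hb', ← hc']; exact H
    exact mul_left_cancel₀ (pow_ne_zero p hg0) h1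
  have hg' : gcd a' b' = 1 := by
    have h1 : g = g * gcd a' b' := by
      conv_lhs => rw [hg, ha', hb']
      rw [gcd_mul_left]
      rw [Int.normalize_of_nonneg (by rw [hg]; exact Int.natCast_nonneg _)]
    have h2 : g * 1 = g * gcd a' b' := by rw [mul_one]; exact h1
    exact (mul_left_cancel₀ hg0 h2).symm
  exact step2 a' b' c' ha'0 hb'0 hc'0 p pp hp5 H' hg'

end Fermat.Agent.S02
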