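import Mathlib

set_option autoImplicit false

/-!
# S05: abstract setting

A real-valued additive valuation with a junk value at `0` (`RVal`), and an abstract
"curve with group law in coordinates" datum (`KDatum`), plus an inertia-like automorphism
(`IDatum`).  The hard valuation-theoretic part of S05 is proved for these abstract data.
-/

namespace Fermat.Agent.S05

/-- A real-valued additive valuation on a field, with an arbitrary (junk) value at `0`. -/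
structure RVal (K : Type*) [Field K] where
  /-- the valuation (junk at `0`) -/
  w : K → ℝ
  w_mul : ∀ x y : K, x ≠ 0 → y ≠ 0 → w (x * y) = w x + w y
  w_add : ∀ x y : K, x ≠ 0 → y ≠ 0 → x + y ≠ 0 → min (w x) (w y) ≤ w (x + y)

namespace RVal

variable {K : Type*} [Field K] (v : RVal K)

theorem w_one : v.w 1 = 0 := by
  have := v.w_mul 1 1 one_ne_zero one_ne_zero
  rw [mul_one] at this; linarith

theorem w_neg_one : v.w (-1) = 0 := by
  have := v.w_mul (-1) (-1) (by simp) (by simp)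
  rw [neg_mul_neg, mul_one, v.w_one] at this; linarith

theorem w_neg (x : K) : v.w (-x) = v.w x := by
  rcases eq_or_ne x 0 with rfl | hx
  · simp
  · have := v.w_mul (-1) x (by simp) hx
    rw [neg_one_mul, v.w_neg_one] at this; linarith

theorem w_inv {x : K} (hx : x ≠ 0) : v.w x⁻¹ = -v.w x := by
  have := v.w_mul x x⁻¹ hx (inv_ne_zero hx)
  rw [mul_inv_cancel₀ hx, v.w_one] at this; linarith

theorem w_div {x y : K} (hx : x ≠ 0) (hy : y ≠ 0) : v.w (x / y) = v.w x - v.w y := by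
  rw [div_eq_mul_inv, v.w_mul x y⁻¹ hx (inv_ne_zero hy), v.w_inv hy]; ring

theorem w_pow {x : K} (hx : x ≠ 0) (n : ℕ) : v.w (x ^ n) = n * v.w x := by
  induction n with
  | zero => simp [v.w_one]
  | succ n ih =>
    rw [pow_succ, v.w_mul _ _ (pow_ne_zero n hx) hx, ih]; push_cast; ring

theorem w_sub_comm (x y : K) : v.w (x - y) = v.w (y - x) := by
  rw [← v.w_neg (x - y), neg_sub]

/-- `x = 0` or `c ≤ w x`: "`x` has valuation at least `c`". -/
def GE (c : ℝ) (x : K) : Prop := x = 0 ∨ c ≤ v.w x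

/-- `x = 0` or `c < w x`: "`x` has valuation greater than `c`". -/
def GT (c : ℝ) (x : K) : Prop := x = 0 ∨ c < v.w x

variable {v}

theorem GE.zero (c : ℝ) : v.GE c (0 : K) := Or.inl rfl

theorem GT.zero (c : ℝ) : v.GT c (0 : K) := Or.inl rfl

theorem GE.of_le {c : ℝ} {x : K} (h : c ≤ v.w x) : v.GE c x := Or.inr h

theorem GT.of_lt {c : ℝ} {x : K} (h : c < v.w x) : v.GT c x := Or.inr h

theorem GE.le {c : ℝ} {x : K} (h : v.GE c x) (hx : x ≠ 0) : c ≤ v.w x :=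
  h.resolve_left hx

theorem GT.lt {c : ℝ} {x : K} (h : v.GT c x) (hx : x ≠ 0) : c < v.w x :=
  h.resolve_left hx

theorem GT.ge {c : ℝ} {x : K} (h : v.GT c x) : v.GE c x :=
  h.imp id le_of_lt

theorem GE.mono {c d : ℝ} {x : K} (h : v.GE c x) (hdc : d ≤ c) : v.GE d x :=
  h.imp id (le_trans hdc)

theorem GT.mono {c d : ℝ} {x : K} (h : v.GT c x) (hdc : d ≤ c) : v.GT d x :=
  h.imp id (lt_of_le_of_lt hdc)

theorem GE.gt_of_lt {c d : ℝ} {x : K} (h : v.GE c x) (hdc : d < c) : v.GT d x :=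
  h.imp id (lt_of_lt_of_le hdc)

theorem GE.neg {c : ℝ} {x : K} (h : v.GE c x) : v.GE c (-x) := by
  rcases h with rfl | h
  · simp [GE.zero]
  · exact Or.inr (by rwa [v.w_neg])

theorem GT.neg {c : ℝ} {x : K} (h : v.GT c x) : v.GT c (-x) := by
  rcases h with rfl | h
  · simp [GT.zero]
  · exact Or.inr (by rwa [v.w_neg])

theorem GE.add {c : ℝ} {x y : K} (hx : v.GE c x) (hy : v.GE c y) : v.GE c (x + y) := by
  rcases eq_or_ne x 0 with rfl | hx0
  · simpa using hy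
  rcases eq_or_ne y 0 with rfl | hy0
  · simpa using hx
  rcases eq_or_ne (x + y) 0 with h | h
  · exact Or.inl h
  · exact Or.inr (le_trans (le_min (hx.le hx0) (hy.le hy0)) (v.w_add x y hx0 hy0 h))

theorem GT.add {c : ℝ} {x y : K} (hx : v.GT c x) (hy : v.GT c y) : v.GT c (x + y) := by
  rcases eq_or_ne x 0 with rfl | hx0
  · simpa using hy
  rcases eq_or_ne y 0 with rfl | hy0
  · simpa using hx
  rcases eq_or_ne (x + y) 0 with h | h
  · exact Or.inl h
  · exact Or.inr (lt_of_lt_of_le (lt_min (hx.lt hx0) (hy.lt hy0)) (v.w_add x y hx0 hy0 h))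

theorem GE.sub {c : ℝ} {x y : K} (hx : v.GE c x) (hy : v.GE c y) : v.GE c (x - y) := by
  rw [sub_eq_add_neg]; exact hx.add hy.neg

theorem GT.sub {c : ℝ} {x y : K} (hx : v.GT c x) (hy : v.GT c y) : v.GT c (x - y) := by
  rw [sub_eq_add_neg]; exact hx.add hy.neg

theorem GE.mul {c d : ℝ} {x y : K} (hx : v.GE c x) (hy : v.GE d y) : v.GE (c + d) (x * y) := by
  rcases eq_or_ne x 0 with rfl | hx0
  · simp [GE.zero]
  rcases eq_or_ne y 0 with rfl | hy0
  · simp [GE.zero]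
  · refine Or.inr ?_
    rw [v.w_mul x y hx0 hy0]
    exact add_le_add (hx.le hx0) (hy.le hy0)

theorem GT.mul_ge {c d : ℝ} {x y : K} (hx : v.GT c x) (hy : v.GE d y) :
    v.GT (c + d) (x * y) := by
  rcases eq_or_ne x 0 with rfl | hx0
  · simp [GT.zero]
  rcases eq_or_ne y 0 with rfl | hy0
  · simp [GT.zero]
  · refine Or.inr ?_
    rw [v.w_mul x y hx0 hy0]
    exact add_lt_add_of_lt_of_le (hx.lt hx0) (hy.le hy0)

theorem GE.mul_gt {c d : ℝ} {x y : K} (hx : v.GE c x) (hy : v.GT d y) :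
    v.GT (c + d) (x * y) := by
  rw [mul_comm, add_comm]; exact hy.mul_ge hx

theorem GE.pow {c : ℝ} {x : K} (hx : v.GE c x) (n : ℕ) : v.GE (n * c) (x ^ n) := by
  induction n with
  | zero => simpa using GE.of_le (le_of_eq v.w_one.symm)
  | succ n ih =>
    rw [pow_succ]
    have := ih.mul hx
    convert this using 1
    push_cast; ring

theorem GE.one : v.GE 0 (1 : K) := GE.of_le (le_of_eq v.w_one.symm)

theorem GE.natCast (n : ℕ) : v.GE 0 (n : K) := by
  induction n with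
  | zero => simp [GE.zero]
  | succ n ih => rw [Nat.cast_succ]; exact ih.add GE.one

theorem GE.intCast (n : ℤ) : v.GE 0 (n : K) := by
  rcases Int.eq_nat_or_neg n with ⟨k, rfl | rfl⟩
  · simpa using GE.natCast (v := v) k
  · simpa using (GE.natCast (v := v) k).neg

theorem GE.ofNat (n : ℕ) [n.AtLeastTwo] : v.GE 0 (OfNat.ofNat n : K) := by
  rw [← Nat.cast_ofNat]
  exact GE.natCast _

/-- multiplication by an integral element keeps a lower bound -/
theorem GE.mul_int {c : ℝ} {x y : K} (hx : v.GE c x) (hy : v.GE 0 y) : v.GE c (x * y) := by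
  simpa using hx.mul hy

theorem GE.int_mul {c : ℝ} {x y : K} (hy : v.GE 0 y) (hx : v.GE c x) : v.GE c (y * x) := by
  simpa using hy.mul hx

theorem GT.mul_int {c : ℝ} {x y : K} (hx : v.GT c x) (hy : v.GE 0 y) : v.GT c (x * y) := by
  simpa using hx.mul_ge hy

theorem GT.int_mul {c : ℝ} {x y : K} (hy : v.GE 0 y) (hx : v.GT c x) : v.GT c (y * x) := by
  simpa using hy.mul_gt hx

/-- The dominant term wins: if `y = 0` or `w x < w y` then `w (x + y) = w x`. -/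
theorem w_add_eq_left {x y : K} (hx : x ≠ 0) (hy : v.GT (v.w x) y) :
    x + y ≠ 0 ∧ v.w (x + y) = v.w x := by
  rcases eq_or_ne y 0 with rfl | hy0
  · simp [hx]
  have hlt := hy.lt hy0
  have hne : x + y ≠ 0 := by
    intro h
    have : y = -x := by linear_combination h
    rw [this, v.w_neg] at hlt
    exact lt_irrefl _ hlt
  refine ⟨hne, le_antisymm ?_ ?_⟩
  · by_contra hcon
    push Not at hcon
    have h1 := v.w_add (x + y) (-y) hne (neg_ne_zero.mpr hy0) (by simpa using hx)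
    rw [v.w_neg] at h1
    have h2 : v.w (x + y + -y) = v.w x := by congr 1; ring
    rw [h2] at h1
    have := lt_min hcon hlt
    linarith
  · have := v.w_add x y hx hy0 hne
    rwa [min_eq_left hlt.le] at this

theorem w_add_eq_right {x y : K} (hy : y ≠ 0) (hx : v.GT (v.w y) x) :
    x + y ≠ 0 ∧ v.w (x + y) = v.w y := by
  rw [add_comm]; exact w_add_eq_left hy hx

theorem w_sub_eq_left {x y : K} (hx : x ≠ 0) (hy : v.GT (v.w x) y) :
    x - y ≠ 0 ∧ v.w (x - y) = v.w x := by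
  rw [sub_eq_add_neg]; exact w_add_eq_left hx hy.neg

theorem w_sub_eq_right {x y : K} (hy : y ≠ 0) (hx : v.GT (v.w y) x) :
    x - y ≠ 0 ∧ v.w (x - y) = v.w y := by
  have := w_sub_eq_left hy hx
  rw [v.w_sub_comm]
  exact ⟨fun h => this.1 (by linear_combination -h), this.2⟩

/-- If two nonzero elements have different valuations, their sum has the smaller one. -/
theorem w_add_of_ne {x y : K} (hx : x ≠ 0) (hy : y ≠ 0) (h : v.w x ≠ v.w y) :
    x + y ≠ 0 ∧ v.w (x + y) = min (v.w x) (v.w y) := by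
  rcases lt_or_gt_of_ne h with h | h
  · rw [min_eq_left h.le]; exact w_add_eq_left hx (GT.of_lt h)
  · rw [min_eq_right h.le]; exact w_add_eq_right hy (GT.of_lt h)

/-- If a sum of two nonzero elements has valuation larger than one of them, both have the
same valuation. -/
theorem w_eq_of_add_gt {x y : K} (hx : x ≠ 0) (hy : y ≠ 0) (h : v.GT (v.w x) (x + y)) :
    v.w y = v.w x := by
  by_contra hne
  obtain ⟨h0, h1⟩ := w_add_of_ne hx hy (Ne.symm hne)
  have := h.lt h0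
  rw [h1] at this
  exact absurd (min_le_left _ _) (not_le.mpr this)

end RVal

/-- Abstract datum: a curve `η² = ξ (ξ² + A2 ξ + A4)` over a valued field `K`, whose group of
points is an abstract commutative group `G` with coordinate functions `ξ η : G → K`
(junk at `0`) satisfying the chord and tangent formulas. -/
structure KDatum (K : Type*) [Field K] (G : Type*) [AddCommGroup G] extends RVal K where
  two_ne : (2 : K) ≠ 0
  w_two : w 2 = 0
  /-- coefficient of `ξ²` -/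
  A2 : K
  /-- coefficient of `ξ` -/
  A4 : K
  A2_int : A2 = 0 ∨ 0 ≤ w A2
  A4_int : A4 = 0 ∨ 0 ≤ w A4
  /-- first coordinate -/
  ξ : G → K
  /-- second coordinate -/
  η : G → K
  eqn : ∀ P : G, P ≠ 0 → η P ^ 2 = ξ P * (ξ P ^ 2 + A2 * ξ P + A4)
  ξ_neg : ∀ P : G, ξ (-P) = ξ P
  η_neg : ∀ P : G, P ≠ 0 → η (-P) = -η P
  inj : ∀ P Q : G, P ≠ 0 → Q ≠ 0 → ξ P = ξ Q → η P = η Q → P = Q
  ξ_add : ∀ P Q : G, P ≠ 0 → Q ≠ 0 → ξ P ≠ ξ Q →
    ξ (P + Q) = ((η P - η Q) / (ξ P - ξ Q)) ^ 2 - A2 - ξ P - ξ Q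
  ξ_dbl : ∀ P : G, P ≠ 0 → η P ≠ 0 → ξ (P + P) = (ξ P ^ 2 - A4) ^ 2 / (4 * η P ^ 2)
  dbl_zero : ∀ P : G, P ≠ 0 → η P = 0 → P + P = 0

/-- A `KDatum` together with an "inertia" automorphism: a ring endomorphism `σ` of `K`
preserving the valuation and congruent to the identity on integral elements, and a compatible
endomorphism `φ` of the group of points. -/
structure IDatum (K : Type*) [Field K] (G : Type*) [AddCommGroup G] extends KDatum K G where
  /-- the field automorphism -/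
  σ : K →+* K
  /-- its action on points -/
  φ : G →+ G
  w_σ : ∀ x : K, x ≠ 0 → w (σ x) = w x
  σ_cong : ∀ x : K, x ≠ 0 → 0 ≤ w x → σ x = x ∨ 0 < w (σ x - x)
  σ_A2 : σ A2 = A2
  σ_A4 : σ A4 = A4
  ξ_φ : ∀ P : G, P ≠ 0 → ξ (φ P) = σ (ξ P)
  η_φ : ∀ P : G, P ≠ 0 → η (φ P) = σ (η P)
  φ_ne : ∀ P : G, P ≠ 0 → φ P ≠ 0

namespace KDatum

variable {K : Type*} [Field K] {G : Type*} [AddCommGroup G] (D : KDatum K G)

/-- the cubic `f(x) = x (x² + A2 x + A4)` -/
def f (x : K) : K := x * (x ^ 2 + D.A2 * x + D.A4)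

/-- its derivative `f'(x) = 3x² + 2 A2 x + A4` -/
def f' (x : K) : K := 3 * x ^ 2 + 2 * D.A2 * x + D.A4

theorem A2_ge : D.GE 0 D.A2 := D.A2_int

theorem A4_ge : D.GE 0 D.A4 := D.A4_int

theorem neg_ne_zero' {P : G} (hP : P ≠ 0) : -P ≠ 0 := neg_ne_zero.mpr hP

include D in
theorem four_ne : (4 : K) ≠ 0 := by
  have : (4 : K) = 2 * 2 := by norm_num
  rw [this]; exact mul_ne_zero D.two_ne D.two_ne

theorem w_four : D.w 4 = 0 := by
  have : (4 : K) = 2 * 2 := by norm_num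
  rw [this, D.w_mul 2 2 D.two_ne D.two_ne, D.w_two]; ring

/-- Points with the same `ξ` are equal or opposite. -/
theorem eq_or_eq_neg_of_ξ_eq {P Q : G} (hP : P ≠ 0) (hQ : Q ≠ 0) (h : D.ξ P = D.ξ Q) :
    P = Q ∨ P = -Q := by
  have h1 := D.eqn P hP
  have h2 := D.eqn Q hQ
  have h3 : (D.η P - D.η Q) * (D.η P + D.η Q) = 0 := by
    rw [h] at h1; linear_combination h1 - h2
  rcases mul_eq_zero.mp h3 with h4 | h4
  · exact Or.inl (D.inj P Q hP hQ h (sub_eq_zero.mp h4))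
  · refine Or.inr (D.inj P (-Q) hP (neg_ne_zero.mpr hQ) (by rw [D.ξ_neg]; exact h) ?_)
    rw [D.η_neg Q hQ]; linear_combination h4

theorem add_ne_zero_of_ξ_ne {P Q : G} (h : D.ξ P ≠ D.ξ Q) : P + Q ≠ 0 := by
  intro h0
  apply h
  have : P = -Q := eq_neg_of_add_eq_zero_left h0
  rw [this, D.ξ_neg]

theorem sub_ne_zero_of_ξ_ne {P Q : G} (h : D.ξ P ≠ D.ξ Q) : P - Q ≠ 0 := by
  intro h0
  apply h
  rw [sub_eq_zero.mp h0]

theorem dbl_ne_zero {P : G} (hP : P ≠ 0) (hη : D.η P ≠ 0) : P + P ≠ 0 := by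
  intro h0
  apply hη
  have h1 : P = -P := eq_neg_of_add_eq_zero_left h0
  have h2 := D.η_neg P hP
  rw [← h1] at h2
  have h3 : (2 : K) * D.η P = 0 := by linear_combination h2
  exact (mul_eq_zero.mp h3).resolve_left D.two_ne

/-- `ξ (P - Q)` by the chord formula. -/
theorem ξ_sub (P Q : G) (hP : P ≠ 0) (hQ : Q ≠ 0) (h : D.ξ P ≠ D.ξ Q) :
    D.ξ (P - Q) = ((D.η P + D.η Q) / (D.ξ P - D.ξ Q)) ^ 2 - D.A2 - D.ξ P - D.ξ Q := by
  have := D.ξ_add P (-Q) hP (neg_ne_zero.mpr hQ) (by rwa [D.ξ_neg])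
  rw [sub_eq_add_neg, this, D.ξ_neg, D.η_neg Q hQ, sub_neg_eq_add]

/-- Sum formula: `ξ(P+Q) + ξ(P-Q)`. -/
theorem ξ_add_add_ξ_sub (P Q : G) (hP : P ≠ 0) (hQ : Q ≠ 0) (h : D.ξ P ≠ D.ξ Q) :
    D.ξ (P + Q) + D.ξ (P - Q) =
      2 * (D.ξ P * D.ξ Q * (D.ξ P + D.ξ Q + 2 * D.A2) + D.A4 * (D.ξ P + D.ξ Q)) /
        (D.ξ P - D.ξ Q) ^ 2 := by
  rw [D.ξ_add P Q hP hQ h, D.ξ_sub P Q hP hQ h]
  have h1 := D.eqn P hP
  have h2 := D.eqn Q hQ
  have hne : D.ξ P - D.ξ Q ≠ 0 := sub_ne_zero.mpr h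
  field_simp
  linear_combination 2 * h1 + 2 * h2

/-- Product formula: `ξ(P+Q) * ξ(P-Q)`. -/
theorem ξ_add_mul_ξ_sub (P Q : G) (hP : P ≠ 0) (hQ : Q ≠ 0) (h : D.ξ P ≠ D.ξ Q) :
    D.ξ (P + Q) * D.ξ (P - Q) = (D.ξ P * D.ξ Q - D.A4) ^ 2 / (D.ξ P - D.ξ Q) ^ 2 := by
  rw [D.ξ_add P Q hP hQ h, D.ξ_sub P Q hP hQ h]
  have h1 := D.eqn P hP
  have h2 := D.eqn Q hQ
  have hne : D.ξ P - D.ξ Q ≠ 0 := sub_ne_zero.mpr h
  field_simp
  set x₁ := D.ξ P
  set x₂ := D.ξ Q
  set y₁ := D.η P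
  set y₂ := D.η Q
  set a := D.A2
  set b := D.A4
  linear_combination (y₁ ^ 2 + x₁ * (x₁ ^ 2 + a * x₁ + b) - 2 * y₂ ^ 2
      - 2 * (a + x₁ + x₂) * (x₁ - x₂) ^ 2) * h1
    + (y₂ ^ 2 + x₂ * (x₂ ^ 2 + a * x₂ + b) - 2 * (x₁ * (x₁ ^ 2 + a * x₁ + b))
      - 2 * (a + x₁ + x₂) * (x₁ - x₂) ^ 2) * h2

/-- Duplication formula in terms of `ξ` only. -/
theorem ξ_dbl' (P : G) (hP : P ≠ 0) (hη : D.η P ≠ 0) :
    D.ξ (P + P) = (D.ξ P ^ 2 - D.A4) ^ 2 / (4 * D.f (D.ξ P)) := by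
  rw [D.ξ_dbl P hP hη, D.eqn P hP, f]

theorem f_ξ_ne_zero {P : G} (hP : P ≠ 0) (hη : D.η P ≠ 0) : D.f (D.ξ P) ≠ 0 := by
  rw [f, ← D.eqn P hP]; exact pow_ne_zero 2 hη

/-- The set `E₀` of points "with nonsingular reduction" (for a node at the origin):
the identity, and points with `ξ ≠ 0` of valuation `≤ 0`. -/
def E0 : Set G := {P | P = 0 ∨ (D.ξ P ≠ 0 ∧ D.w (D.ξ P) ≤ 0)}

/-- The set `E₁` ("kernel of reduction"): the identity, and points with `w ξ < 0`. -/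
def E1 : Set G := {P | P = 0 ∨ (D.ξ P ≠ 0 ∧ D.w (D.ξ P) < 0)}

theorem zero_mem_E0 : (0 : G) ∈ D.E0 := Or.inl rfl

theorem neg_mem_E0 {P : G} (h : P ∈ D.E0) : -P ∈ D.E0 := by
  rcases h with rfl | h
  · simp [zero_mem_E0]
  · right; rwa [D.ξ_neg]

theorem E1_subset_E0 : D.E1 ⊆ D.E0 := fun _ h => h.imp id (fun h => ⟨h.1, h.2.le⟩)

end KDatum

end Fermat.Agent.S05
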