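import Fermat.Agent.S05_Defs
import Fermat.Agent.S05_E0

set_option autoImplicit false

/-!
# S05, step (L5): the valuations of the `ξ`-coordinates of a cyclic group of `p`-torsion points
outside `E₀` fold additively; consequently `w (ξ P) ∈ 2 δ ℕ` when `w A4 = p δ`.
-/

namespace Fermat.Agent.S05

variable {K : Type*} [Field K] {G : Type*} [AddCommGroup G]

namespace Comp

/-- `a ≡ ± b` modulo `2 m ℤ`. -/
def R (m a b : ℝ) : Prop := ∃ z : ℤ, a = b + 2 * m * z ∨ a = -b + 2 * m * z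

theorem R.refl (m a : ℝ) : R m a a := ⟨0, Or.inl (by simp)⟩

theorem R.symm {m a b : ℝ} (h : R m a b) : R m b a := by
  obtain ⟨z, h | h⟩ := h
  · exact ⟨-z, Or.inl (by push_cast; linarith)⟩
  · exact ⟨z, Or.inr (by linarith)⟩

theorem R.trans {m a b c : ℝ} (h1 : R m a b) (h2 : R m b c) : R m a c := by
  obtain ⟨z, h | h⟩ := h1 <;> obtain ⟨z', h' | h'⟩ := h2
  · exact ⟨z + z', Or.inl (by push_cast; linarith)⟩
  · exact ⟨z + z', Or.inr (by push_cast; linarith)⟩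
  · exact ⟨z - z', Or.inr (by push_cast; linarith)⟩
  · exact ⟨z - z', Or.inl (by push_cast; linarith)⟩

theorem R.neg_right {m a b : ℝ} (h : R m a b) : R m a (-b) := by
  obtain ⟨z, h | h⟩ := h
  · exact ⟨z, Or.inr (by linarith)⟩
  · exact ⟨z, Or.inl (by linarith)⟩

theorem R.shift {m a b : ℝ} (h : R m a b) (c : ℝ) :
    (R m (a + c) (b + c) ∧ R m (a - c) (b - c)) ∨
      (R m (a + c) (b - c) ∧ R m (a - c) (b + c)) := by
  obtain ⟨z, h | h⟩ := h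
  · exact Or.inl ⟨⟨z, Or.inl (by linarith)⟩, ⟨z, Or.inl (by linarith)⟩⟩
  · exact Or.inr ⟨⟨z, Or.inr (by linarith)⟩, ⟨z, Or.inr (by linarith)⟩⟩

/-- Interior points: nonzero, with `0 < w ξ < w A4`. -/
def Inter (D : KDatum K G) (Q : G) : Prop :=
  Q ≠ 0 ∧ D.ξ Q ≠ 0 ∧ 0 < D.w (D.ξ Q) ∧ D.w (D.ξ Q) < D.w D.A4

theorem Inter.neg {D : KDatum K G} {Q : G} (h : Inter D Q) : Inter D (-Q) := by
  obtain ⟨h1, h2, h3, h4⟩ := h
  refine ⟨neg_ne_zero.mpr h1, ?_, ?_, ?_⟩ <;> rw [D.ξ_neg] <;> assumption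

/-- A point with `w ξ ≥ w A4` (or `ξ = 0`) doubles into `E₀`. -/
theorem dbl_mem_E0 (D : KDatum K G) (hA4 : D.A4 ≠ 0)
    (hm : 0 < D.w D.A4) {Q : G} (hQ : Q ≠ 0)
    (h : D.ξ Q = 0 ∨ D.w D.A4 ≤ D.w (D.ξ Q)) : Q + Q ∈ D.E0 := by
  by_cases hη : D.η Q = 0
  · rw [D.dbl_zero Q hQ hη]; exact D.zero_mem_E0
  have hξ : D.ξ Q ≠ 0 := by
    intro h0
    apply hη
    have := D.eqn Q hQ
    rw [h0, zero_mul] at this
    exact pow_eq_zero_iff (two_ne_zero) |>.mp this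
  have hle : D.w D.A4 ≤ D.w (D.ξ Q) := h.resolve_left hξ
  have hsq : D.w (D.ξ Q ^ 2) = 2 * D.w (D.ξ Q) := by
    rw [D.w_pow hξ]; push_cast; ring
  have hnum : D.ξ Q ^ 2 - D.A4 ≠ 0 ∧ D.w (D.ξ Q ^ 2 - D.A4) = D.w D.A4 :=
    RVal.w_sub_eq_right hA4 (RVal.GT.of_lt (by rw [hsq]; linarith))
  have hf := D.f_ξ_ne_zero hQ hη
  have hg0 : D.ξ Q ^ 2 + D.A2 * D.ξ Q + D.A4 ≠ 0 := by
    intro h0; apply hf; rw [KDatum.f, h0, mul_zero]
  have hg : D.GE (D.w D.A4) (D.ξ Q ^ 2 + D.A2 * D.ξ Q + D.A4) := by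
    refine RVal.GE.add (RVal.GE.add ?_ ?_) (RVal.GE.of_le le_rfl)
    · exact RVal.GE.of_le (by rw [hsq]; linarith)
    · have := (D.A2_ge).mul (RVal.GE.of_le hle (x := D.ξ Q))
      simpa using this
  have hwf : D.w (D.f (D.ξ Q)) = D.w (D.ξ Q) + D.w (D.ξ Q ^ 2 + D.A2 * D.ξ Q + D.A4) := by
    rw [KDatum.f, D.w_mul _ _ hξ hg0]
  have hgw := hg.le hg0
  have h4f : (4 : K) * D.f (D.ξ Q) ≠ 0 := mul_ne_zero D.four_ne hf
  refine Or.inr ⟨?_, ?_⟩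
  · rw [D.ξ_dbl' Q hQ hη]
    exact div_ne_zero (pow_ne_zero 2 hnum.1) h4f
  · rw [D.ξ_dbl' Q hQ hη, D.w_div (pow_ne_zero 2 hnum.1) h4f, D.w_pow hnum.1,
      D.w_mul _ _ D.four_ne hf, D.w_four, hwf, hnum.2]
    push_cast
    linarith

theorem nsmul_mem_E0 (D : KDatum K G) (hA4 : D.GT 0 D.A4) {Q : G} (hQ : Q ∈ D.E0) (n : ℕ) :
    n • Q ∈ D.E0 := by
  induction n with
  | zero => rw [zero_nsmul]; exact D.zero_mem_E0
  | succ n ih => rw [succ_nsmul]; exact add_mem_E0 D hA4 ih hQ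

/-- Multiples of a `p`-torsion point outside `E₀` by integers prime to `p` stay outside `E₀`. -/
theorem nsmul_not_mem_E0 (D : KDatum K G) (hA4 : D.GT 0 D.A4) (p : ℕ) (hp : p.Prime) {P : G}
    (hpP : p • P = 0) (hP : P ∉ D.E0) (n : ℕ) (hn : ¬ p ∣ n) : n • P ∉ D.E0 := by
  intro hmem
  apply hP
  have hcop : n.Coprime p := ((Nat.Prime.coprime_iff_not_dvd hp).mpr hn).symm
  obtain ⟨l, -, hl⟩ := Nat.exists_mul_mod_eq_one_of_coprime hcop hp.one_lt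
  have h1 : (n * l) • P = P := by
    have h2 : n * l = p * (n * l / p) + 1 := by
      have := Nat.div_add_mod (n * l) p
      omega
    rw [h2, add_nsmul, mul_nsmul, hpP, nsmul_zero, zero_add, one_nsmul]
  have h3 : (n * l) • P = l • (n • P) := by
    rw [mul_nsmul]
  rw [← h1, h3]
  exact nsmul_mem_E0 D hA4 hmem l

/-- All multiples `n • P`, `p ∤ n`, of a `p`-torsion point outside `E₀` (`p` odd) are interior. -/
theorem inter_nsmul (D : KDatum K G) (hA4 : D.A4 ≠ 0)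
    (hm : 0 < D.w D.A4) (p : ℕ) (hp : p.Prime) (hp2 : p ≠ 2) {P : G}
    (hpP : p • P = 0) (hP : P ∉ D.E0) (n : ℕ) (hn : ¬ p ∣ n) : Inter D (n • P) := by
  have hGT : D.GT 0 D.A4 := RVal.GT.of_lt hm
  have h1 := nsmul_not_mem_E0 D hGT p hp hpP hP n hn
  have h2 : ¬ p ∣ 2 * n := by
    intro hd
    rcases (Nat.Prime.dvd_mul hp).mp hd with h | h
    · exact hp2 ((Nat.prime_dvd_prime_iff_eq hp Nat.prime_two).mp h)
    · exact hn h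
  have h3 := nsmul_not_mem_E0 D hGT p hp hpP hP (2 * n) h2
  have h0 : n • P ≠ 0 := fun h => h1 (h ▸ D.zero_mem_E0)
  have h4 : ¬ (D.ξ (n • P) = 0 ∨ D.w D.A4 ≤ D.w (D.ξ (n • P))) := by
    intro h
    apply h3
    have := dbl_mem_E0 D hA4 hm h0 h
    rwa [← two_nsmul, ← mul_nsmul'] at this
  push Not at h4
  refine ⟨h0, h4.1, ?_, h4.2⟩
  by_contra hle
  exact h1 (Or.inr ⟨h4.1, not_lt.mp hle⟩)

/-- The pair formula, ordered case `w ξ₁ < w ξ₂`. -/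
theorem pair_of_lt (D : KDatum K G) (hA2 : D.A2 ≠ 0) (hwA2 : D.w D.A2 = 0) (hA4 : D.A4 ≠ 0)
    {Q₁ Q₂ : G} (h1 : Inter D Q₁) (h2 : Inter D Q₂) (hs : Inter D (Q₁ + Q₂))
    (hd : Inter D (Q₁ - Q₂)) (hlt : D.w (D.ξ Q₁) < D.w (D.ξ Q₂)) :
    (R (D.w D.A4) (D.w (D.ξ (Q₁ + Q₂))) (D.w (D.ξ Q₁) + D.w (D.ξ Q₂)) ∧
      R (D.w D.A4) (D.w (D.ξ (Q₁ - Q₂))) (D.w (D.ξ Q₁) - D.w (D.ξ Q₂))) ∨
    (R (D.w D.A4) (D.w (D.ξ (Q₁ + Q₂))) (D.w (D.ξ Q₁) - D.w (D.ξ Q₂)) ∧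
      R (D.w D.A4) (D.w (D.ξ (Q₁ - Q₂))) (D.w (D.ξ Q₁) + D.w (D.ξ Q₂))) := by
  obtain ⟨hQ₁, hx₁, hpos₁, hlt₁⟩ := h1
  obtain ⟨hQ₂, hx₂, hpos₂, hlt₂⟩ := h2
  obtain ⟨-, hxs, hposs, hlts⟩ := hs
  obtain ⟨-, hxd, hposd, hltd⟩ := hd
  set x₁ := D.ξ Q₁ with hx₁def
  set x₂ := D.ξ Q₂ with hx₂def
  set l₁ := D.w x₁ with hl₁
  set l₂ := D.w x₂ with hl₂
  set m := D.w D.A4 with hmdef
  have hne : x₁ ≠ x₂ := by
    intro h; rw [hl₁, hl₂, h] at hlt; exact lt_irrefl _ hlt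
  have hsum := D.ξ_add_add_ξ_sub Q₁ Q₂ hQ₁ hQ₂ hne
  have hprod := D.ξ_add_mul_ξ_sub Q₁ Q₂ hQ₁ hQ₂ hne
  rw [← hx₁def, ← hx₂def] at hsum hprod
  -- the difference
  have hdiff : x₁ - x₂ ≠ 0 ∧ D.w (x₁ - x₂) = l₁ :=
    RVal.w_sub_eq_left hx₁ (RVal.GT.of_lt hlt)
  have hdiff2 : (x₁ - x₂) ^ 2 ≠ 0 := pow_ne_zero 2 hdiff.1
  have hwdiff2 : D.w ((x₁ - x₂) ^ 2) = 2 * l₁ := by
    rw [D.w_pow hdiff.1, hdiff.2]; push_cast; ring
  have h12 : x₁ * x₂ ≠ 0 := mul_ne_zero hx₁ hx₂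
  have hw12 : D.w (x₁ * x₂) = l₁ + l₂ := D.w_mul _ _ hx₁ hx₂
  -- the numerator of the sum
  have hmain : 2 * D.A2 * (x₁ * x₂) ≠ 0 := mul_ne_zero (mul_ne_zero D.two_ne hA2) h12
  have hwmain : D.w (2 * D.A2 * (x₁ * x₂)) = l₁ + l₂ := by
    rw [D.w_mul _ _ (mul_ne_zero D.two_ne hA2) h12, D.w_mul _ _ D.two_ne hA2, D.w_two, hwA2,
      hw12]; ring
  have hgt1 : D.GT 0 (x₁ + x₂) := (RVal.GT.of_lt hpos₁).add (RVal.GT.of_lt hpos₂)
  have hge1 : D.GE l₁ (x₁ + x₂) :=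
    (RVal.GE.of_le le_rfl).add (RVal.GE.of_le hlt.le)
  have hrest : D.GT (l₁ + l₂) (x₁ * x₂ * (x₁ + x₂) + D.A4 * (x₁ + x₂)) := by
    refine RVal.GT.add ?_ ?_
    · have := (RVal.GE.of_le (le_of_eq hw12.symm) (x := x₁ * x₂)).mul_gt hgt1
      simpa using this
    · have := (RVal.GE.of_le (le_refl m) (x := D.A4)).mul hge1
      exact this.gt_of_lt (by linarith)
  have hN : x₁ * x₂ * (x₁ + x₂ + 2 * D.A2) + D.A4 * (x₁ + x₂) =
      2 * D.A2 * (x₁ * x₂) + (x₁ * x₂ * (x₁ + x₂) + D.A4 * (x₁ + x₂)) := by ring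
  have hNw : x₁ * x₂ * (x₁ + x₂ + 2 * D.A2) + D.A4 * (x₁ + x₂) ≠ 0 ∧
      D.w (x₁ * x₂ * (x₁ + x₂ + 2 * D.A2) + D.A4 * (x₁ + x₂)) = l₁ + l₂ := by
    rw [hN, ← hwmain]
    exact RVal.w_add_eq_left hmain (by rw [hwmain]; exact hrest)
  have hS0 : D.ξ (Q₁ + Q₂) + D.ξ (Q₁ - Q₂) ≠ 0 := by
    rw [hsum]
    exact div_ne_zero (mul_ne_zero D.two_ne hNw.1) hdiff2
  have hSw : D.w (D.ξ (Q₁ + Q₂) + D.ξ (Q₁ - Q₂)) = l₂ - l₁ := by
    rw [hsum, D.w_div (mul_ne_zero D.two_ne hNw.1) hdiff2, D.w_mul _ _ D.two_ne hNw.1, D.w_two,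
      hNw.2, hwdiff2]; ring
  -- the product
  have hT0 : D.ξ (Q₁ + Q₂) * D.ξ (Q₁ - Q₂) ≠ 0 := mul_ne_zero hxs hxd
  have hM0 : x₁ * x₂ - D.A4 ≠ 0 := by
    intro h0
    apply hT0
    rw [hprod, h0]; simp
  have hTw : D.w (D.ξ (Q₁ + Q₂)) + D.w (D.ξ (Q₁ - Q₂)) = 2 * D.w (x₁ * x₂ - D.A4) - 2 * l₁ := by
    rw [← D.w_mul _ _ hxs hxd, hprod, D.w_div (pow_ne_zero 2 hM0) hdiff2, D.w_pow hM0, hwdiff2]
    push_cast; ring
  set a := D.w (D.ξ (Q₁ + Q₂)) with ha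
  set b := D.w (D.ξ (Q₁ - Q₂)) with hb
  -- lower bound for the valuation of `x₁ x₂ - A4`
  have hMge : min (l₁ + l₂) m ≤ D.w (x₁ * x₂ - D.A4) := by
    have := D.w_add (x₁ * x₂) (-D.A4) h12 (neg_ne_zero.mpr hA4) (by rwa [← sub_eq_add_neg])
    rwa [D.w_neg, hw12, ← sub_eq_add_neg] at this
  -- `a ≠ b`
  have hab : a ≠ b := by
    intro hab
    have h3 := D.w_add _ _ hxs hxd hS0
    rw [hSw, ← ha, ← hb, ← hab, min_self] at h3
    rcases le_total (l₁ + l₂) m with h4 | h4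
    · rw [min_eq_left h4] at hMge; linarith
    · rw [min_eq_right h4] at hMge; linarith
  have hmin : l₂ - l₁ = min a b := by
    rw [← hSw]; exact (RVal.w_add_of_ne hxs hxd hab).2
  -- the three cases
  rcases lt_trichotomy (l₁ + l₂) m with hc | hc | hc
  · have hMw : D.w (x₁ * x₂ - D.A4) = l₁ + l₂ := by
      rw [← hw12]
      exact (RVal.w_sub_eq_left h12 (RVal.GT.of_lt (by rw [hw12]; exact hc))).2
    rw [hMw] at hTw
    rcases le_total a b with h5 | h5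
    · rw [min_eq_left h5] at hmin
      exact Or.inr ⟨⟨0, Or.inr (by push_cast; linarith)⟩, ⟨0, Or.inl (by push_cast; linarith)⟩⟩
    · rw [min_eq_right h5] at hmin
      exact Or.inl ⟨⟨0, Or.inl (by push_cast; linarith)⟩, ⟨0, Or.inr (by push_cast; linarith)⟩⟩
  · exfalso
    rw [hc, min_self] at hMge
    rcases le_total a b with h5 | h5
    · rw [min_eq_left h5] at hmin; linarith
    · rw [min_eq_right h5] at hmin; linarith
  · have hMw : D.w (x₁ * x₂ - D.A4) = m :=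
      (RVal.w_sub_eq_right hA4 (RVal.GT.of_lt (by rw [hw12]; exact hc))).2
    rw [hMw] at hTw
    rcases le_total a b with h5 | h5
    · rw [min_eq_left h5] at hmin
      exact Or.inr ⟨⟨0, Or.inr (by push_cast; linarith)⟩, ⟨1, Or.inr (by push_cast; linarith)⟩⟩
    · rw [min_eq_right h5] at hmin
      exact Or.inl ⟨⟨1, Or.inr (by push_cast; linarith)⟩, ⟨0, Or.inr (by push_cast; linarith)⟩⟩

/-- Two interior points whose sum and difference are interior have different valuations. -/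
theorem w_ne_of_inter (D : KDatum K G) (hA2 : D.A2 ≠ 0) (hwA2 : D.w D.A2 = 0)
    {Q₁ Q₂ : G} (h1 : Inter D Q₁) (h2 : Inter D Q₂) (hs : Inter D (Q₁ + Q₂))
    (hd : Inter D (Q₁ - Q₂)) : D.w (D.ξ Q₁) ≠ D.w (D.ξ Q₂) := by
  intro heq
  obtain ⟨hQ₁, hx₁, hpos₁, hlt₁⟩ := h1
  obtain ⟨hQ₂, hx₂, hpos₂, hlt₂⟩ := h2
  obtain ⟨hs0, hxs, hposs, hlts⟩ := hs
  obtain ⟨hd0, hxd, hposd, hltd⟩ := hd
  have hne : D.ξ Q₁ ≠ D.ξ Q₂ := by
    intro h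
    rcases D.eq_or_eq_neg_of_ξ_eq hQ₁ hQ₂ h with h' | h'
    · exact hd0 (by rw [h', sub_self])
    · exact hs0 (by rw [h', neg_add_cancel])
  have hsum := D.ξ_add_add_ξ_sub Q₁ Q₂ hQ₁ hQ₂ hne
  set x₁ := D.ξ Q₁ with hx₁def
  set x₂ := D.ξ Q₂ with hx₂def
  set l := D.w x₂ with hl
  have hdiff : x₁ - x₂ ≠ 0 := sub_ne_zero.mpr hne
  have hdge : l ≤ D.w (x₁ - x₂) :=
    ((RVal.GE.of_le (le_of_eq heq.symm)).sub (RVal.GE.of_le le_rfl) : D.GE l (x₁ - x₂)).le hdiff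
  have hdiff2 : (x₁ - x₂) ^ 2 ≠ 0 := pow_ne_zero 2 hdiff
  have hwdiff2 : D.w ((x₁ - x₂) ^ 2) = 2 * D.w (x₁ - x₂) := by
    rw [D.w_pow hdiff]; push_cast; ring
  have h12 : x₁ * x₂ ≠ 0 := mul_ne_zero hx₁ hx₂
  have hw12 : D.w (x₁ * x₂) = 2 * l := by rw [D.w_mul _ _ hx₁ hx₂, heq]; ring
  have hmain : 2 * D.A2 * (x₁ * x₂) ≠ 0 := mul_ne_zero (mul_ne_zero D.two_ne hA2) h12
  have hwmain : D.w (2 * D.A2 * (x₁ * x₂)) = 2 * l := by
    rw [D.w_mul _ _ (mul_ne_zero D.two_ne hA2) h12, D.w_mul _ _ D.two_ne hA2, D.w_two, hwA2,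
      hw12]; ring
  have hgt1 : D.GT 0 (x₁ + x₂) := (RVal.GT.of_lt hpos₁).add (RVal.GT.of_lt hpos₂)
  have hge1 : D.GE l (x₁ + x₂) :=
    (RVal.GE.of_le (le_of_eq heq.symm)).add (RVal.GE.of_le le_rfl)
  have hrest : D.GT (2 * l) (x₁ * x₂ * (x₁ + x₂) + D.A4 * (x₁ + x₂)) := by
    refine RVal.GT.add ?_ ?_
    · have := (RVal.GE.of_le (le_of_eq hw12.symm) (x := x₁ * x₂)).mul_gt hgt1
      simpa using this
    · by_cases hA4 : D.A4 = 0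
      · rw [hA4, zero_mul]; exact RVal.GT.zero _
      have := (RVal.GE.of_le (le_refl (D.w D.A4)) (x := D.A4)).mul hge1
      exact this.gt_of_lt (by linarith)
  have hN : x₁ * x₂ * (x₁ + x₂ + 2 * D.A2) + D.A4 * (x₁ + x₂) =
      2 * D.A2 * (x₁ * x₂) + (x₁ * x₂ * (x₁ + x₂) + D.A4 * (x₁ + x₂)) := by ring
  have hNw : x₁ * x₂ * (x₁ + x₂ + 2 * D.A2) + D.A4 * (x₁ + x₂) ≠ 0 ∧
      D.w (x₁ * x₂ * (x₁ + x₂ + 2 * D.A2) + D.A4 * (x₁ + x₂)) = 2 * l := by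
    rw [hN, ← hwmain]
    exact RVal.w_add_eq_left hmain (by rw [hwmain]; exact hrest)
  have hS0 : D.ξ (Q₁ + Q₂) + D.ξ (Q₁ - Q₂) ≠ 0 := by
    rw [hsum]
    exact div_ne_zero (mul_ne_zero D.two_ne hNw.1) hdiff2
  have hSw : D.w (D.ξ (Q₁ + Q₂) + D.ξ (Q₁ - Q₂)) = 2 * l - 2 * D.w (x₁ - x₂) := by
    rw [hsum, D.w_div (mul_ne_zero D.two_ne hNw.1) hdiff2, D.w_mul _ _ D.two_ne hNw.1, D.w_two,
      hNw.2, hwdiff2]; ring
  have h3 := D.w_add _ _ hxs hxd hS0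
  have h4 : 0 < min (D.w (D.ξ (Q₁ + Q₂))) (D.w (D.ξ (Q₁ - Q₂))) := lt_min hposs hposd
  linarith

/-- The pair formula. -/
theorem pair (D : KDatum K G) (hA2 : D.A2 ≠ 0) (hwA2 : D.w D.A2 = 0) (hA4 : D.A4 ≠ 0)
    {Q₁ Q₂ : G} (h1 : Inter D Q₁) (h2 : Inter D Q₂) (hs : Inter D (Q₁ + Q₂))
    (hd : Inter D (Q₁ - Q₂)) :
    (R (D.w D.A4) (D.w (D.ξ (Q₁ + Q₂))) (D.w (D.ξ Q₁) + D.w (D.ξ Q₂)) ∧
      R (D.w D.A4) (D.w (D.ξ (Q₁ - Q₂))) (D.w (D.ξ Q₁) - D.w (D.ξ Q₂))) ∨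
    (R (D.w D.A4) (D.w (D.ξ (Q₁ + Q₂))) (D.w (D.ξ Q₁) - D.w (D.ξ Q₂)) ∧
      R (D.w D.A4) (D.w (D.ξ (Q₁ - Q₂))) (D.w (D.ξ Q₁) + D.w (D.ξ Q₂))) := by
  rcases lt_trichotomy (D.w (D.ξ Q₁)) (D.w (D.ξ Q₂)) with hlt | heq | hgt
  · exact pair_of_lt D hA2 hwA2 hA4 h1 h2 hs hd hlt
  · exact absurd heq (w_ne_of_inter D hA2 hwA2 h1 h2 hs hd)
  · have hs' : Inter D (Q₂ + Q₁) := by rwa [add_comm]
    have hd' : Inter D (Q₂ - Q₁) := by
      have := hd.neg; rwa [neg_sub] at this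
    have key := pair_of_lt D hA2 hwA2 hA4 h2 h1 hs' hd' hgt
    have e1 : D.ξ (Q₂ - Q₁) = D.ξ (Q₁ - Q₂) := by rw [← D.ξ_neg, neg_sub]
    rw [add_comm Q₂ Q₁, e1, add_comm (D.w (D.ξ Q₂))] at key
    have e2 : D.w (D.ξ Q₂) - D.w (D.ξ Q₁) = -(D.w (D.ξ Q₁) - D.w (D.ξ Q₂)) := by ring
    rw [e2] at key
    rcases key with ⟨k1, k2⟩ | ⟨k1, k2⟩
    · exact Or.inl ⟨k1, by simpa using k2.neg_right⟩
    · exact Or.inr ⟨by simpa using k1.neg_right, k2⟩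

/-- The duplication formula for interior points. -/
theorem dbl (D : KDatum K G) (hA2 : D.A2 ≠ 0) (hwA2 : D.w D.A2 = 0) (hA4 : D.A4 ≠ 0)
    {Q : G} (h1 : Inter D Q) (hs : Inter D (Q + Q)) :
    R (D.w D.A4) (D.w (D.ξ (Q + Q))) (2 * D.w (D.ξ Q)) := by
  obtain ⟨hQ, hx, hpos, hlt⟩ := h1
  obtain ⟨hs0, hxs, hposs, hlts⟩ := hs
  have hη : D.η Q ≠ 0 := fun h => hs0 (D.dbl_zero Q hQ h)
  have hf := D.f_ξ_ne_zero hQ hη
  have hform := D.ξ_dbl' Q hQ hη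
  set x := D.ξ Q with hxdef
  set l := D.w x with hl
  set m := D.w D.A4 with hmdef
  have hsq : D.w (x ^ 2) = 2 * l := by rw [D.w_pow hx]; push_cast; ring
  -- the factor `x² + A2 x + A4` has valuation `l`
  have hA2x : D.A2 * x ≠ 0 := mul_ne_zero hA2 hx
  have hwA2x : D.w (D.A2 * x) = l := by rw [D.w_mul _ _ hA2 hx, hwA2]; ring
  have hg : x ^ 2 + D.A2 * x + D.A4 ≠ 0 ∧ D.w (x ^ 2 + D.A2 * x + D.A4) = l := by
    have e : x ^ 2 + D.A2 * x + D.A4 = D.A2 * x + (x ^ 2 + D.A4) := by ring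
    rw [e, ← hwA2x]
    refine RVal.w_add_eq_left hA2x ?_
    rw [hwA2x]
    exact (RVal.GT.of_lt (by rw [hsq]; linarith)).add (RVal.GT.of_lt hlt)
  have hwf : D.w (D.f x) = 2 * l := by
    rw [KDatum.f, D.w_mul _ _ hx hg.1, hg.2]; ring
  have h4f : (4 : K) * D.f x ≠ 0 := mul_ne_zero D.four_ne hf
  have hnum0 : x ^ 2 - D.A4 ≠ 0 := by
    intro h0; apply hxs; rw [hform, h0]; simp
  have hw : D.w (D.ξ (Q + Q)) = 2 * D.w (x ^ 2 - D.A4) - 2 * l := by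
    rw [hform, D.w_div (pow_ne_zero 2 hnum0) h4f, D.w_pow hnum0, D.w_mul _ _ D.four_ne hf,
      D.w_four, hwf]; push_cast; ring
  rcases lt_trichotomy (2 * l) m with hc | hc | hc
  · have : D.w (x ^ 2 - D.A4) = 2 * l := by
      rw [← hsq]
      exact (RVal.w_sub_eq_left (pow_ne_zero 2 hx) (RVal.GT.of_lt (by rw [hsq]; exact hc))).2
    exact ⟨0, Or.inl (by push_cast; linarith)⟩
  · exfalso
    have h5 := D.w_add (x ^ 2) (-D.A4) (pow_ne_zero 2 hx) (neg_ne_zero.mpr hA4)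
      (by rwa [← sub_eq_add_neg])
    rw [D.w_neg, hsq, ← sub_eq_add_neg, hc, min_self] at h5
    linarith
  · have : D.w (x ^ 2 - D.A4) = m :=
      (RVal.w_sub_eq_right hA4 (RVal.GT.of_lt (by rw [hsq]; exact hc))).2
    exact ⟨1, Or.inr (by push_cast; linarith)⟩

/-- The folding induction: `w ξ ((k+1) • P) ≡ ± (k+1) w ξ P` modulo `2 w A4`. -/
theorem fold (D : KDatum K G) (hA2 : D.A2 ≠ 0) (hwA2 : D.w D.A2 = 0) (hA4 : D.A4 ≠ 0)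
    (hm : 0 < D.w D.A4) (p : ℕ) (hp : p.Prime) (hp2 : p ≠ 2) {P : G}
    (hpP : p • P = 0) (hP : P ∉ D.E0) :
    ∀ k : ℕ, k + 1 < p →
      R (D.w D.A4) (D.w (D.ξ ((k + 1) • P))) (((k + 1 : ℕ) : ℝ) * D.w (D.ξ P)) := by
  have hint : ∀ n : ℕ, 0 < n → n < p → Inter D (n • P) := fun n h0 hn =>
    inter_nsmul D hA4 hm p hp hp2 hpP hP n (Nat.not_dvd_of_pos_of_lt h0 hn)
  intro k
  induction k using Nat.twoStepInduction with
  | zero =>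
    intro _
    simp only [zero_add, one_nsmul, Nat.cast_one, one_mul]
    exact R.refl _ _
  | one =>
    intro h2
    have h1 := hint 1 one_pos (by omega)
    have h2' := hint 2 (by omega) (by omega)
    rw [one_nsmul] at h1
    rw [two_nsmul] at h2'
    have := dbl D hA2 hwA2 hA4 h1 h2'
    have e : (1 + 1) • P = P + P := by rw [one_add_one_eq_two, two_nsmul]
    rw [e]
    convert this using 1
    push_cast; ring
  | more j ih1 ih2 =>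
    intro h3
    have i1 := hint (j + 1) (by omega) (by omega)
    have i2 := hint (j + 2) (by omega) (by omega)
    have i3 := hint (j + 3) (by omega) (by omega)
    have iP := hint 1 one_pos (by omega)
    rw [one_nsmul] at iP
    have e3 : (j + 2) • P + P = (j + 3) • P := by
      rw [← succ_nsmul]
    have e1 : (j + 2) • P - P = (j + 1) • P := by
      rw [sub_eq_iff_eq_add, ← succ_nsmul]
    have key := pair D hA2 hwA2 hA4 i2 iP (by rwa [e3]) (by rwa [e1])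
    rw [e3, e1] at key
    have r2 := ih2 (by omega)
    have r1 := ih1 (by omega)
    have sh := r2.shift (D.w (D.ξ P))
    have c3 : ((j + 1 + 1 : ℕ) : ℝ) * D.w (D.ξ P) + D.w (D.ξ P)
        = ((j + 1 + 1 + 1 : ℕ) : ℝ) * D.w (D.ξ P) := by push_cast; ring
    have c1 : ((j + 1 + 1 : ℕ) : ℝ) * D.w (D.ξ P) - D.w (D.ξ P)
        = ((j + 1 : ℕ) : ℝ) * D.w (D.ξ P) := by push_cast; ring
    rw [c3, c1] at sh
    have e3' : (j + 1 + 1 + 1) • P = (j + 3) • P := rfl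
    have e2' : (j + 1 + 1) • P = (j + 2) • P := rfl
    rw [e2'] at r2 sh
    rw [e3']
    rcases key with ⟨k3, k1⟩ | ⟨k3, k1⟩ <;> rcases sh with ⟨s3, s1⟩ | ⟨s3, s1⟩
    · exact k3.trans s3
    · -- c_{j+3} ~ (j+1)θ, c_{j+1} ~ (j+3)θ, c_{j+1} ~ (j+1)θ
      exact (k3.trans s3).trans ((r1.symm).trans (k1.trans s1))
    · exact (k3.trans s1).trans ((r1.symm).trans (k1.trans s3))
    · exact k3.trans s1

end Comp

open Fermat.Agent.S05.Comp in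
/-- (L5) Multiplicative reduction with `w A4 = p δ`: a `p`-torsion point outside `E₀` has
`0 < w ξ < w A4` and `w ξ ∈ 2 δ ℕ`. -/
theorem exists_w_ξ_eq (D : KDatum K G) (p : ℕ) (hp : p.Prime) (hp2 : p ≠ 2)
    (hA2 : D.A2 ≠ 0) (hwA2 : D.w D.A2 = 0) (hA4 : D.A4 ≠ 0) (δ : ℝ) (hδ : 0 < δ)
    (hm : D.w D.A4 = p * δ) {P : G} (hpP : p • P = 0) (hP : P ∉ D.E0) :
    D.ξ P ≠ 0 ∧ 0 < D.w (D.ξ P) ∧ D.w (D.ξ P) < D.w D.A4 ∧
      ∃ j : ℕ, D.w (D.ξ P) = 2 * j * δ := by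
  have hp3 : 3 ≤ p := by
    have := hp.two_le
    omega
  obtain ⟨n, rfl⟩ : ∃ n, p = n + 3 := ⟨p - 3, by omega⟩
  have hppos : (0 : ℝ) < ((n + 3 : ℕ) : ℝ) := by positivity
  have hmpos : 0 < D.w D.A4 := by rw [hm]; positivity
  have hint : ∀ k : ℕ, 0 < k → k < n + 3 → Inter D (k • P) := fun k h0 hk =>
    inter_nsmul D hA4 hmpos (n + 3) hp hp2 hpP hP k (Nat.not_dvd_of_pos_of_lt h0 hk)
  have iP := hint 1 one_pos (by omega)
  rw [one_nsmul] at iP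
  obtain ⟨-, hx, hpos, hlt⟩ := iP
  refine ⟨hx, hpos, hlt, ?_⟩
  have hfold := fold D hA2 hwA2 hA4 hmpos (n + 3) hp hp2 hpP hP
  -- `(p - 1) • P = -P`
  have hneg : (n + 1 + 1) • P = -P := by
    rw [eq_neg_iff_add_eq_zero, ← succ_nsmul]; exact hpP
  have h1 := hfold (n + 1) (by omega)
  rw [hneg, D.ξ_neg] at h1
  obtain ⟨z, h | h⟩ := h1
  · -- `(p - 2) θ ∈ 2 m ℤ`: impossible
    exfalso
    have h2 := hfold n (by omega)
    have i2 := hint (n + 1) (by omega) (by omega)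
    obtain ⟨-, -, hpos2, hlt2⟩ := i2
    push_cast at h h2
    obtain ⟨z', h' | h'⟩ := h2
    · have e : D.w (D.ξ ((n + 1) • P)) = 2 * D.w D.A4 * ((z' - z : ℤ) : ℝ) := by
        push_cast; linarith
      rw [e] at hpos2 hlt2
      have hz : (0 : ℝ) < ((z' - z : ℤ) : ℝ) := by
        by_contra hcon
        push Not at hcon
        nlinarith
      have hz0 : 0 < z' - z := by exact_mod_cast hz
      have hz1 : (1 : ℝ) ≤ ((z' - z : ℤ) : ℝ) := by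
        exact_mod_cast (show 1 ≤ z' - z by omega)
      nlinarith
    · have e : D.w (D.ξ ((n + 1) • P)) = 2 * D.w D.A4 * ((z' + z : ℤ) : ℝ) := by
        push_cast; linarith
      rw [e] at hpos2 hlt2
      have hz : (0 : ℝ) < ((z' + z : ℤ) : ℝ) := by
        by_contra hcon
        push Not at hcon
        nlinarith
      have hz0 : 0 < z' + z := by exact_mod_cast hz
      have hz1 : (1 : ℝ) ≤ ((z' + z : ℤ) : ℝ) := by
        exact_mod_cast (show 1 ≤ z' + z by omega)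
      nlinarith
  · -- `p θ = 2 m z`
    push_cast at h
    rw [hm] at h
    push_cast at h hppos
    have hθ : D.w (D.ξ P) = 2 * (z : ℝ) * δ := by
      have h3 : ((n : ℝ) + 3) * D.w (D.ξ P) = ((n : ℝ) + 3) * (2 * (z : ℝ) * δ) := by
        linarith
      exact mul_left_cancel₀ hppos.ne' h3
    have hz : (0 : ℝ) < (z : ℝ) := by
      by_contra hcon
      push Not at hcon
      rw [hθ] at hpos
      nlinarith
    have hz' : 0 < z := by exact_mod_cast hz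
    refine ⟨z.toNat, ?_⟩
    rw [hθ]
    have : ((z.toNat : ℕ) : ℝ) = (z : ℝ) := by
      have := Int.toNat_of_nonneg hz'.le
      exact_mod_cast this
    rw [this]

end Fermat.Agent.S05
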