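import Mathlib
import Fermat.Agent.S05_Defs

/-!
# S05 (L3): no `p`-torsion in the kernel of reduction

For the abstract curve `η² = ξ (ξ² + A2 ξ + A4)` over a valued field, a point `P` of odd prime
order `p` with `w p = 0` has `w (ξ P) ≥ 0`.

Proof: if `w (ξ P) = -c < 0`, put `t_k = 1 / ξ (k P)`.  The duplication formula gives
`t_2 ≡ 4 t_1` and the sum and product formulas give `t_{k+1} + t_{k-1} ≡ 2 (t_k + t_1)` modulo
elements of valuation `≥ 2c`; hence `t_k ≡ k² t_1`.  Since `((p+1)/2) P = -((p-1)/2) P`, we get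
`p t_1 ≡ 0`, contradicting `w (p t_1) = c < 2c`.
-/

set_option autoImplicit false

namespace Fermat.Agent.S05

namespace Tors

variable {K : Type*} [Field K] (v : RVal K)

/-- dividing by an element of valuation `0` keeps a lower bound. -/
theorem ge_mul_unit {c : ℝ} {y e : K} (hy : v.GE c y) (he : v.w e = 0) : v.GE c (y * e) :=
  hy.mul_int (RVal.GE.of_le (le_of_eq he.symm))

/-- the duplication step: `t₂ ≡ 4 t₁`. -/
theorem dbl_core {x A2 A4 : K} {c : ℝ} (hc : 0 < c) (hx : x ≠ 0) (hwx : v.w x = -c)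
    (hA2 : v.GE 0 A2) (hA4 : v.GE 0 A4) (h4 : (4 : K) ≠ 0) :
    (x ^ 2 - A4) ^ 2 / (4 * (x * (x ^ 2 + A2 * x + A4))) ≠ 0 ∧
      v.GE (2 * c) (((x ^ 2 - A4) ^ 2 / (4 * (x * (x ^ 2 + A2 * x + A4))))⁻¹ - 4 * x⁻¹) := by
  have hx2 : x ^ 2 ≠ 0 := pow_ne_zero 2 hx
  have hwx2 : v.w (x ^ 2) = -(2 * c) := by
    rw [v.w_pow hx, hwx]; push_cast; ring
  -- `x² - A4` and `x² + A2 x + A4` are dominated by `x²`
  have hA4gt : v.GT (v.w (x ^ 2)) A4 := by
    rw [hwx2]; exact hA4.gt_of_lt (by linarith)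
  obtain ⟨hd, hwd⟩ := RVal.w_sub_eq_left hx2 hA4gt
  have hA2x : v.GT (v.w (x ^ 2)) (A2 * x) := by
    rw [hwx2]
    have h1 : v.GE (0 + -c) (A2 * x) := hA2.mul (RVal.GE.of_le (le_of_eq hwx.symm))
    exact h1.gt_of_lt (by linarith)
  have hn' : x ^ 2 + A2 * x + A4 ≠ 0 := by
    have := RVal.w_add_eq_left hx2 (hA2x.add hA4gt)
    rw [← add_assoc] at this
    exact this.1
  have hden : 4 * (x * (x ^ 2 + A2 * x + A4)) ≠ 0 := mul_ne_zero h4 (mul_ne_zero hx hn')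
  refine ⟨div_ne_zero (pow_ne_zero 2 hd) hden, ?_⟩
  -- the unit `e = x² / (x² - A4)`
  set e : K := x ^ 2 / (x ^ 2 - A4) with he
  have hwe : v.w e = 0 := by
    rw [he, v.w_div hx2 hd, hwd]; ring
  set t : K := x⁻¹ with ht
  have hwt : v.w t = c := by rw [ht, v.w_inv hx, hwx]; ring
  have htge : v.GE c t := RVal.GE.of_le (le_of_eq hwt.symm)
  have hid : ((x ^ 2 - A4) ^ 2 / (4 * (x * (x ^ 2 + A2 * x + A4))))⁻¹ - 4 * x⁻¹
      = 4 * t ^ 2 * (A2 + 3 * A4 * t - A4 ^ 2 * t ^ 3) * e ^ 2 := by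
    rw [he, ht]
    field_simp
    ring
  rw [hid]
  have ht2 : v.GE (2 * c) (t ^ 2) := by
    have := htge.pow 2
    simpa using this
  have ht0 : v.GE 0 t := htge.mono hc.le
  have h3 : v.GE 0 (3 : K) := RVal.GE.ofNat 3
  have hbr : v.GE 0 (A2 + 3 * A4 * t - A4 ^ 2 * t ^ 3) := by
    refine (hA2.add ((h3.int_mul hA4).mul_int ht0)).sub ?_
    have h1 : v.GE 0 (A4 ^ 2) := by simpa using hA4.pow 2
    have h2 : v.GE 0 (t ^ 3) := by simpa using ht0.pow 3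
    exact h1.mul_int h2
  have he2 : v.w (e ^ 2) = 0 := by
    have hene : e ≠ 0 := div_ne_zero hx2 hd
    rw [v.w_pow hene, hwe]; ring
  exact ge_mul_unit v (((RVal.GE.ofNat 4).int_mul ht2).mul_int hbr) he2

/-- the three term step: `t_{k+1} + t_{k-1} ≡ 2 (t_k + t_1)`. -/
theorem three_core {x1 xk A2 A4 xa xb : K} {c : ℝ} (hc : 0 < c) (hx1 : x1 ≠ 0)
    (hwx1 : v.w x1 = -c) (hxk : xk ≠ 0) (hwxk : v.w xk ≤ -c)
    (hA2 : v.GE 0 A2) (hA4 : v.GE 0 A4) (hne : xk ≠ x1)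
    (hS : xa + xb = 2 * (xk * x1 * (xk + x1 + 2 * A2) + A4 * (xk + x1)) / (xk - x1) ^ 2)
    (hT : xa * xb = (xk * x1 - A4) ^ 2 / (xk - x1) ^ 2) :
    xa ≠ 0 ∧ xb ≠ 0 ∧ v.GE (2 * c) (xa⁻¹ + xb⁻¹ - 2 * (xk⁻¹ + x1⁻¹)) := by
  have hne' : xk - x1 ≠ 0 := sub_ne_zero.mpr hne
  have hprod : xk * x1 ≠ 0 := mul_ne_zero hxk hx1
  have hwprod : v.w (xk * x1) = v.w xk + v.w x1 := v.w_mul xk x1 hxk hx1
  have hA4gt : v.GT (v.w (xk * x1)) A4 := by
    rw [hwprod]; exact hA4.gt_of_lt (by linarith)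
  obtain ⟨hd, hwd⟩ := RVal.w_sub_eq_left hprod hA4gt
  have hT0 : xa * xb ≠ 0 := by
    rw [hT]; exact div_ne_zero (pow_ne_zero 2 hd) (pow_ne_zero 2 hne')
  have hxa : xa ≠ 0 := left_ne_zero_of_mul hT0
  have hxb : xb ≠ 0 := right_ne_zero_of_mul hT0
  refine ⟨hxa, hxb, ?_⟩
  set e : K := xk * x1 / (xk * x1 - A4) with he
  have hene : e ≠ 0 := div_ne_zero hprod hd
  have hwe : v.w e = 0 := by
    rw [he, v.w_div hprod hd, hwd]; ring
  set t : K := x1⁻¹ with ht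
  set s : K := xk⁻¹ with hs
  have hwt : v.w t = c := by rw [ht, v.w_inv hx1, hwx1]; ring
  have htge : v.GE c t := RVal.GE.of_le (le_of_eq hwt.symm)
  have hsge : v.GE c s := RVal.GE.of_le (by rw [hs, v.w_inv hxk]; linarith)
  have h1 : xa⁻¹ + xb⁻¹ = (xa + xb) / (xa * xb) := by
    field_simp
    ring
  have hid : xa⁻¹ + xb⁻¹ - 2 * (xk⁻¹ + x1⁻¹)
      = 2 * (s * t) * (2 * A2 + 3 * A4 * (s + t) - A4 ^ 2 * (s * t) * (s + t)) * e ^ 2 := by
    rw [h1, hS, hT, he, hs, ht]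
    field_simp
    ring
  rw [hid]
  have hst : v.GE (2 * c) (s * t) := by
    have := hsge.mul htge
    convert this using 1
    ring
  have ht0 : v.GE 0 t := htge.mono hc.le
  have hs0 : v.GE 0 s := hsge.mono hc.le
  have hst0 : v.GE 0 (s * t) := hst.mono (by linarith)
  have h2 : v.GE 0 (2 : K) := RVal.GE.ofNat 2
  have h3 : v.GE 0 (3 : K) := RVal.GE.ofNat 3
  have hbr : v.GE 0 (2 * A2 + 3 * A4 * (s + t) - A4 ^ 2 * (s * t) * (s + t)) := by
    refine ((h2.int_mul hA2).add ((h3.int_mul hA4).mul_int (hs0.add ht0))).sub ?_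
    have hA42 : v.GE 0 (A4 ^ 2) := by simpa using hA4.pow 2
    exact (hA42.mul_int hst0).mul_int (hs0.add ht0)
  have he2 : v.w (e ^ 2) = 0 := by
    rw [v.w_pow hene, hwe]; ring
  exact ge_mul_unit v ((h2.int_mul hst).mul_int hbr) he2

end Tors

variable {K : Type*} [Field K] {G : Type*} [AddCommGroup G]

/-- (L3) A point of odd prime order `p` with `w p = 0` has `w ξ ≥ 0` (no `p`-torsion in `E₁`). -/
theorem w_ξ_nonneg_of_torsion (D : KDatum K G) (p : ℕ) (hp : p.Prime) (hp2 : p ≠ 2)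
    (hpK : (p : K) ≠ 0) (hwp : D.w (p : K) = 0) {P : G} (hP : P ≠ 0) (hpP : p • P = 0)
    (hξ : D.ξ P ≠ 0) : 0 ≤ D.w (D.ξ P) := by
  by_contra hneg
  push Not at hneg
  set c : ℝ := -D.w (D.ξ P) with hc
  have hc0 : 0 < c := by linarith
  have hwx1 : D.w (D.ξ P) = -c := by rw [hc]; ring
  have hp3 : 3 ≤ p := by
    have := hp.two_le
    omega
  -- the multiples `k P`, `0 < k < p`, are nonzero
  have hk0 : ∀ k : ℕ, 0 < k → k < p → k • P ≠ 0 := by
    intro k hk hkp h0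
    have hord : addOrderOf P ∣ p := addOrderOf_dvd_of_nsmul_eq_zero hpP
    rcases (Nat.dvd_prime hp).mp hord with h1 | h1
    · exact hP (AddMonoid.addOrderOf_eq_one_iff.mp h1)
    · have hdvd : addOrderOf P ∣ k := addOrderOf_dvd_of_nsmul_eq_zero h0
      rw [h1] at hdvd
      exact absurd (Nat.le_of_dvd hk hdvd) (not_le.mpr hkp)
  have hη : D.η P ≠ 0 := by
    intro h0
    have h2 : 2 • P = 0 := by
      rw [two_nsmul]; exact D.dbl_zero P hP h0
    exact hk0 2 (by norm_num) (by omega) h2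
  have hA2 : D.GE 0 D.A2 := D.A2_ge
  have hA4 : D.GE 0 D.A4 := D.A4_ge
  -- `ξ (k P) ≠ ξ P` for `2 ≤ k ≤ p - 2`
  have hξne : ∀ k : ℕ, 2 ≤ k → k + 1 < p → D.ξ (k • P) ≠ D.ξ P := by
    intro k hk2 hkp h
    rcases D.eq_or_eq_neg_of_ξ_eq (hk0 k (by omega) (by omega)) hP h with h1 | h1
    · refine hk0 (k - 1) (by omega) (by omega) ?_
      have : k • P = (k - 1) • P + P := by
        rw [← succ_nsmul]; congr 1; omega
      rw [this] at h1
      exact add_eq_right.mp h1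
    · refine hk0 (k + 1) (by omega) hkp ?_
      rw [succ_nsmul, h1, neg_add_cancel]
  -- the key congruence
  have key : ∀ k : ℕ, 1 ≤ k → k < p → D.ξ (k • P) ≠ 0 ∧
      D.GE (2 * c) ((D.ξ (k • P))⁻¹ - (k : K) ^ 2 * (D.ξ P)⁻¹) := by
    intro k
    induction k using Nat.strong_induction_on with
    | _ k ih =>
      intro hk1 hkp
      rcases Nat.lt_or_ge k 3 with hk3 | hk3
      · interval_cases k
        · refine ⟨by rwa [one_nsmul], ?_⟩
          rw [one_nsmul]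
          have : (D.ξ P)⁻¹ - ((1 : ℕ) : K) ^ 2 * (D.ξ P)⁻¹ = 0 := by push_cast; ring
          rw [this]
          exact RVal.GE.zero _
        · have h := Tors.dbl_core D.toRVal hc0 hξ hwx1 hA2 hA4 D.four_ne
          have hdbl : D.ξ (2 • P) = (D.ξ P ^ 2 - D.A4) ^ 2
              / (4 * (D.ξ P * (D.ξ P ^ 2 + D.A2 * D.ξ P + D.A4))) := by
            rw [two_nsmul, D.ξ_dbl' P hP hη, KDatum.f]
          rw [hdbl]
          refine ⟨h.1, ?_⟩
          have h2 := h.2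
          have : ((2 : ℕ) : K) ^ 2 = 4 := by push_cast; norm_num
          rw [this]
          exact h2
      · obtain ⟨i, rfl⟩ : ∃ i, k = i + 2 := ⟨k - 2, by omega⟩
        have hi1 : 1 ≤ i := by omega
        obtain ⟨hxk, hk⟩ := ih (i + 1) (by omega) (by omega) (by omega)
        obtain ⟨hxb0, hb⟩ := ih i (by omega) hi1 (by omega)
        have hP1 : (i + 1) • P ≠ 0 := hk0 (i + 1) (by omega) (by omega)
        have hne : D.ξ ((i + 1) • P) ≠ D.ξ P := hξne (i + 1) (by omega) (by omega)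
        have hadd : (i + 1) • P + P = (i + 2) • P := by
          rw [← succ_nsmul]
        have hsub : (i + 1) • P - P = i • P := by
          rw [succ_nsmul, add_sub_cancel_right]
        have hS := D.ξ_add_add_ξ_sub ((i + 1) • P) P hP1 hP hne
        have hT := D.ξ_add_mul_ξ_sub ((i + 1) • P) P hP1 hP hne
        rw [hadd, hsub] at hS hT
        -- `t_{i+1}` has valuation `≥ c`
        have hnat : D.GE 0 (((i + 1 : ℕ) : K) ^ 2) := by
          simpa using (RVal.GE.natCast (v := D.toRVal) (i + 1)).pow 2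
        have ht1 : D.GE c ((D.ξ P)⁻¹) :=
          RVal.GE.of_le (by rw [D.w_inv hξ, hwx1]; linarith)
        have htk : D.GE c ((D.ξ ((i + 1) • P))⁻¹) := by
          have h1 : D.GE c (((i + 1 : ℕ) : K) ^ 2 * (D.ξ P)⁻¹) := hnat.int_mul ht1
          have h2 := (hk.mono (by linarith : c ≤ 2 * c)).add h1
          have h3 : (D.ξ ((i + 1) • P))⁻¹ - ((i + 1 : ℕ) : K) ^ 2 * (D.ξ P)⁻¹
              + ((i + 1 : ℕ) : K) ^ 2 * (D.ξ P)⁻¹ = (D.ξ ((i + 1) • P))⁻¹ := by ring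
          rwa [h3] at h2
        have hwxk : D.w (D.ξ ((i + 1) • P)) ≤ -c := by
          have := htk.le (inv_ne_zero hxk)
          rw [D.w_inv hxk] at this
          linarith
        obtain ⟨hxa, -, h3⟩ := Tors.three_core D.toRVal hc0 hξ hwx1 hxk hwxk hA2 hA4 hne hS hT
        refine ⟨hxa, ?_⟩
        have h2K : D.GE 0 (2 : K) := RVal.GE.ofNat 2
        have hcomb := (h3.sub hb).add (h2K.int_mul hk)
        have heq : (D.ξ ((i + 2) • P))⁻¹ + (D.ξ (i • P))⁻¹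
              - 2 * ((D.ξ ((i + 1) • P))⁻¹ + (D.ξ P)⁻¹)
              - ((D.ξ (i • P))⁻¹ - (i : K) ^ 2 * (D.ξ P)⁻¹)
              + 2 * ((D.ξ ((i + 1) • P))⁻¹ - ((i + 1 : ℕ) : K) ^ 2 * (D.ξ P)⁻¹)
            = (D.ξ ((i + 2) • P))⁻¹ - ((i + 2 : ℕ) : K) ^ 2 * (D.ξ P)⁻¹ := by
          push_cast
          ring
        rwa [heq] at hcomb
  -- the middle of the cycle
  obtain ⟨m, hm⟩ := hp.odd_of_ne_two hp2
  have hm1 : 1 ≤ m := by omega
  obtain ⟨-, h1⟩ := key m hm1 (by omega)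
  obtain ⟨-, h2⟩ := key (m + 1) (by omega) (by omega)
  have hneg' : (m + 1) • P = -(m • P) := by
    apply eq_neg_of_add_eq_zero_left
    rw [← add_nsmul]
    have : m + 1 + m = p := by omega
    rw [this, hpP]
  rw [hneg', D.ξ_neg] at h2
  have h3 := h1.sub h2
  have heq : (D.ξ (m • P))⁻¹ - (m : K) ^ 2 * (D.ξ P)⁻¹
      - ((D.ξ (m • P))⁻¹ - ((m + 1 : ℕ) : K) ^ 2 * (D.ξ P)⁻¹) = (p : K) * (D.ξ P)⁻¹ := by
    rw [hm]
    push_cast
    ring
  rw [heq] at h3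
  have hne0 : (p : K) * (D.ξ P)⁻¹ ≠ 0 := mul_ne_zero hpK (inv_ne_zero hξ)
  have h4 := h3.le hne0
  rw [D.w_mul _ _ hpK (inv_ne_zero hξ), hwp, D.w_inv hξ, hwx1] at h4
  linarith

end Fermat.Agent.S05
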