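import Mathlib
import Fermat.Agent.S05_Defs
import Fermat.Agent.S05_Tors

set_option autoImplicit false

/-!
# S05: points with the same nonsingular reduction (L4)

Two integral points of a `KDatum` which are congruent modulo the maximal ideal and whose common
reduction is nonsingular differ by a point of `E₁`.  Combined with the absence of `p`-torsion in
`E₁`, an inertia-like automorphism fixes every `p`-torsion point with nonsingular reduction; in
the good reduction case it fixes all `p`-torsion points.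
-/

namespace Fermat.Agent.S05

variable {K : Type*} [Field K] {G : Type*} [AddCommGroup G]

namespace Red

/-- product of two integral elements is integral -/
theorem ge_mul {v : RVal K} {x y : K} (hx : v.GE 0 x) (hy : v.GE 0 y) : v.GE 0 (x * y) :=
  hx.mul_int hy

/-- square of an integral element is integral -/
theorem ge_sq {v : RVal K} {x : K} (hx : v.GE 0 x) : v.GE 0 (x ^ 2) := by
  rw [pow_two]; exact ge_mul hx hx

/-- the cubic is integral at integral arguments -/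
theorem f_ge (D : KDatum K G) {x : K} (hx : D.GE 0 x) : D.GE 0 (D.f x) := by
  rw [KDatum.f]
  exact ge_mul hx (((ge_sq hx).add (ge_mul D.A2_ge hx)).add D.A4_ge)

/-- a nonzero element whose square is integral is integral -/
theorem ge_of_sq_ge {v : RVal K} {x : K} (h : v.GE 0 (x ^ 2)) : v.GE 0 x := by
  rcases eq_or_ne x 0 with rfl | hx
  · exact RVal.GE.zero 0
  · have h1 := h.le (pow_ne_zero 2 hx)
    rw [v.w_pow hx 2] at h1
    refine RVal.GE.of_le ?_
    push_cast at h1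
    linarith

/-- `η` is integral when `ξ` is -/
theorem η_ge (D : KDatum K G) {P : G} (hP : P ≠ 0) (hξ : D.GE 0 (D.ξ P)) :
    D.GE 0 (D.η P) := by
  apply ge_of_sq_ge
  rw [D.eqn P hP]
  exact f_ge D hξ

/-- `GT 0` times integral is `GT 0` -/
theorem gt_mul_ge {v : RVal K} {x y : K} (hx : v.GT 0 x) (hy : v.GE 0 y) : v.GT 0 (x * y) :=
  hx.mul_int hy

/-- the dominant unit wins -/
theorem unit_add {v : RVal K} {x y : K} (hx : x ≠ 0) (hwx : v.w x = 0) (hy : v.GT 0 y) :
    x + y ≠ 0 ∧ v.w (x + y) = 0 := by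
  have := RVal.w_add_eq_left (v := v) hx (by rw [hwx]; exact hy)
  exact ⟨this.1, this.2.trans hwx⟩

/-- the identity `(ξ² - A4)² = f'(ξ)² - 4 (A2 + 2ξ) f(ξ)` -/
theorem sq_sub_eq (D : KDatum K G) (x : K) :
    (x ^ 2 - D.A4) ^ 2 = D.f' x ^ 2 + (-(4 * (D.A2 + 2 * x))) * D.f x := by
  rw [KDatum.f', KDatum.f]; ring

end Red

open Red in
/-- (L4) Two integral points with the same nonsingular reduction differ by an element of `E₁`. -/
theorem sub_mem_E1_of_cong (D : KDatum K G) {P P' : G} (hP : P ≠ 0) (hP' : P' ≠ 0)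
    (hξ : D.GE 0 (D.ξ P)) (hcξ : D.GT 0 (D.ξ P' - D.ξ P)) (hcη : D.GT 0 (D.η P' - D.η P))
    (hns : (D.η P ≠ 0 ∧ D.w (D.η P) = 0) ∨ (D.f' (D.ξ P) ≠ 0 ∧ D.w (D.f' (D.ξ P)) = 0)) :
    P' - P ∈ D.E1 := by
  have hξ' : D.GE 0 (D.ξ P') := by
    have : D.ξ P' = D.ξ P + (D.ξ P' - D.ξ P) := by ring
    rw [this]; exact hξ.add hcξ.ge
  by_cases hξeq : D.ξ P' = D.ξ P
  · -- `P' = P` or `P' = -P`
    rcases D.eq_or_eq_neg_of_ξ_eq hP' hP hξeq with h | h
    · left; rw [h, sub_self]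
    · have hPP : P' - P = -(P + P) := by rw [h]; abel
      by_cases hη0 : D.η P = 0
      · left; rw [hPP, D.dbl_zero P hP hη0, neg_zero]
      · have hη' : D.η P' = - D.η P := by rw [h, D.η_neg P hP]
        have h2η : D.GT 0 (2 * D.η P) := by
          have h1 : D.η P' - D.η P = -(2 * D.η P) := by rw [hη']; ring
          rw [h1] at hcη
          simpa using hcη.neg
        have hwη : 0 < D.w (D.η P) := by
          have h1 := h2η.lt (mul_ne_zero D.two_ne hη0)
          rw [D.w_mul 2 _ D.two_ne hη0, D.w_two, zero_add] at h1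
          exact h1
        have hf' : D.f' (D.ξ P) ≠ 0 ∧ D.w (D.f' (D.ξ P)) = 0 := by
          rcases hns with h1 | h1
          · exact absurd h1.2 (ne_of_gt hwη)
          · exact h1
        have hη2 : D.η P ^ 2 ≠ 0 := pow_ne_zero 2 hη0
        have hwη2 : D.w (D.η P ^ 2) = 2 * D.w (D.η P) := by
          rw [D.w_pow hη0 2]; push_cast; ring
        -- numerator is a unit
        have hnum : (D.ξ P ^ 2 - D.A4) ^ 2 ≠ 0 ∧ D.w ((D.ξ P ^ 2 - D.A4) ^ 2) = 0 := by
          rw [sq_sub_eq D (D.ξ P)]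
          refine unit_add (pow_ne_zero 2 hf'.1) ?_ ?_
          · rw [D.w_pow hf'.1 2, hf'.2]; simp
          · rw [KDatum.f, ← D.eqn P hP, mul_comm]
            refine gt_mul_ge (RVal.GT.of_lt (by rw [hwη2]; linarith)) ?_
            exact (ge_mul (RVal.GE.ofNat 4)
              (D.A2_ge.add (ge_mul (RVal.GE.ofNat 2) hξ))).neg
        have hden : (4 : K) * D.η P ^ 2 ≠ 0 := mul_ne_zero D.four_ne hη2
        have hwden : D.w (4 * D.η P ^ 2) = 2 * D.w (D.η P) := by
          rw [D.w_mul 4 _ D.four_ne hη2, D.w_four, hwη2, zero_add]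
        right
        rw [hPP, D.ξ_neg, D.ξ_dbl P hP hη0]
        refine ⟨div_ne_zero hnum.1 hden, ?_⟩
        rw [D.w_div hnum.1 hden, hnum.2, hwden]
        linarith
  · -- chord case
    have hΔ : D.ξ P' - D.ξ P ≠ 0 := sub_ne_zero.mpr hξeq
    have hwΔ : 0 < D.w (D.ξ P' - D.ξ P) := hcξ.lt hΔ
    -- the slope has negative valuation
    have hslope : (D.η P' + D.η P) / (D.ξ P' - D.ξ P) ≠ 0 ∧
        D.w ((D.η P' + D.η P) / (D.ξ P' - D.ξ P)) < 0 := by
      rcases hns with ⟨hη0, hwη⟩ | ⟨hf0, hwf⟩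
      · have h2 : (2 : K) * D.η P ≠ 0 := mul_ne_zero D.two_ne hη0
        have hw2 : D.w (2 * D.η P) = 0 := by
          rw [D.w_mul 2 _ D.two_ne hη0, D.w_two, hwη, zero_add]
        have hsum : D.η P' + D.η P = 2 * D.η P + (D.η P' - D.η P) := by ring
        have h3 := unit_add h2 hw2 hcη
        rw [← hsum] at h3
        refine ⟨div_ne_zero h3.1 hΔ, ?_⟩
        rw [D.w_div h3.1 hΔ, h3.2]
        linarith
      · -- `g = (f(ξ') - f(ξ)) / (ξ' - ξ)` is a unit
        set g : K := D.f' (D.ξ P) + (D.ξ P' - D.ξ P) * (D.ξ P' + 2 * D.ξ P + D.A2) with hg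
        have hg1 : g ≠ 0 ∧ D.w g = 0 := by
          refine unit_add hf0 hwf (gt_mul_ge hcξ ?_)
          exact (hξ'.add (ge_mul (RVal.GE.ofNat 2) hξ)).add D.A2_ge
        have hkey : (D.η P' - D.η P) * (D.η P' + D.η P) = (D.ξ P' - D.ξ P) * g := by
          have h1 := D.eqn P hP
          have h1' := D.eqn P' hP'
          rw [hg, KDatum.f']
          linear_combination h1' - h1
        have hprod : (D.ξ P' - D.ξ P) * g ≠ 0 := mul_ne_zero hΔ hg1.1
        have hd : D.η P' - D.η P ≠ 0 := by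
          intro h0; rw [h0, zero_mul] at hkey; exact hprod hkey.symm
        have hs : D.η P' + D.η P ≠ 0 := by
          intro h0; rw [h0, mul_zero] at hkey; exact hprod hkey.symm
        have hwd : 0 < D.w (D.η P' - D.η P) := hcη.lt hd
        have heq : (D.η P' + D.η P) / (D.ξ P' - D.ξ P) = g / (D.η P' - D.η P) := by
          rw [div_eq_div_iff hΔ hd]
          linear_combination hkey
        rw [heq]
        refine ⟨div_ne_zero hg1.1 hd, ?_⟩
        rw [D.w_div hg1.1 hd, hg1.2]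
        linarith
    obtain ⟨hl0, hwl⟩ := hslope
    right
    rw [D.ξ_sub P' P hP' hP hξeq]
    set l : K := (D.η P' + D.η P) / (D.ξ P' - D.ξ P) with hl
    have hl2 : l ^ 2 ≠ 0 := pow_ne_zero 2 hl0
    have hwl2 : D.w (l ^ 2) = 2 * D.w l := by
      rw [D.w_pow hl0 2]; push_cast; ring
    have hrest : D.GE 0 (-(D.A2 + D.ξ P' + D.ξ P)) := ((D.A2_ge.add hξ').add hξ).neg
    have h3 := RVal.w_add_eq_left (v := D.toRVal) hl2
      (hrest.gt_of_lt (by rw [hwl2]; linarith))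
    have hform : l ^ 2 - D.A2 - D.ξ P' - D.ξ P = l ^ 2 + -(D.A2 + D.ξ P' + D.ξ P) := by ring
    rw [hform]
    refine ⟨h3.1, ?_⟩
    rw [h3.2, hwl2]
    linarith

open Red in
/-- (L4') `φ` fixes every `p`-torsion point with nonsingular reduction. -/
theorem φ_eq_of_nonsingular (D : IDatum K G) (p : ℕ) (hp : p.Prime) (hp2 : p ≠ 2)
    (hpK : (p : K) ≠ 0) (hwp : D.w (p : K) = 0) {P : G} (hP : P ≠ 0) (hpP : p • P = 0)
    (hns : (D.η P ≠ 0 ∧ D.w (D.η P) = 0) ∨ (D.f' (D.ξ P) ≠ 0 ∧ D.w (D.f' (D.ξ P)) = 0)) :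
    D.φ P = P := by
  -- `ξ P` is integral
  have hξ : D.GE 0 (D.ξ P) := by
    rcases eq_or_ne (D.ξ P) 0 with h | h
    · exact Or.inl h
    · exact RVal.GE.of_le (w_ξ_nonneg_of_torsion D.toKDatum p hp hp2 hpK hwp hP hpP h)
  have hη : D.GE 0 (D.η P) := η_ge D.toKDatum hP hξ
  have hcong : ∀ x : K, D.GE 0 x → D.GT 0 (D.σ x - x) := by
    intro x hx
    rcases eq_or_ne x 0 with rfl | hx0
    · rw [map_zero, sub_zero]; exact RVal.GT.zero 0
    · rcases D.σ_cong x hx0 (hx.le hx0) with h | h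
      · rw [h, sub_self]; exact RVal.GT.zero 0
      · exact RVal.GT.of_lt h
  have hφ : D.φ P ≠ 0 := D.φ_ne P hP
  have hcξ : D.GT 0 (D.ξ (D.φ P) - D.ξ P) := by rw [D.ξ_φ P hP]; exact hcong _ hξ
  have hcη : D.GT 0 (D.η (D.φ P) - D.η P) := by rw [D.η_φ P hP]; exact hcong _ hη
  have hmem := sub_mem_E1_of_cong D.toKDatum hP hφ hξ hcξ hcη hns
  by_contra hne
  have hsub : D.φ P - P ≠ 0 := sub_ne_zero.mpr hne
  have htors : p • (D.φ P - P) = 0 := by
    rw [smul_sub, ← map_nsmul, hpP, map_zero, sub_zero]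
  rcases hmem with h | ⟨h1, h2⟩
  · exact hsub h
  · have := w_ξ_nonneg_of_torsion D.toKDatum p hp hp2 hpK hwp hsub htors h1
    linarith

open Red in
/-- Good reduction: `φ` fixes all `p`-torsion points. -/
theorem φ_eq_of_good (D : IDatum K G) (p : ℕ) (hp : p.Prime) (hp2 : p ≠ 2)
    (hpK : (p : K) ≠ 0) (hwp : D.w (p : K) = 0)
    (hA4 : D.A4 ≠ 0) (hwA4 : D.w D.A4 = 0)
    (hdisc : D.A2 ^ 2 - 4 * D.A4 ≠ 0) (hwdisc : D.w (D.A2 ^ 2 - 4 * D.A4) = 0)
    (P : G) (hpP : p • P = 0) : D.φ P = P := by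
  rcases eq_or_ne P 0 with rfl | hP
  · exact map_zero D.φ
  refine φ_eq_of_nonsingular D p hp hp2 hpK hwp hP hpP ?_
  have hξ : D.GE 0 (D.ξ P) := by
    rcases eq_or_ne (D.ξ P) 0 with h | h
    · exact Or.inl h
    · exact RVal.GE.of_le (w_ξ_nonneg_of_torsion D.toKDatum p hp hp2 hpK hwp hP hpP h)
  have hη : D.GE 0 (D.η P) := η_ge D.toKDatum hP hξ
  by_cases hunit : D.η P ≠ 0 ∧ D.w (D.η P) = 0
  · exact Or.inl hunit
  right
  -- `η² = f(ξ)` has positive valuation
  have hη2 : D.GT 0 (D.η P ^ 2) := by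
    rcases eq_or_ne (D.η P) 0 with h | h
    · rw [h]; simp [RVal.GT.zero]
    · have h1 : 0 ≤ D.w (D.η P) := hη.le h
      have h2 : D.w (D.η P) ≠ 0 := fun h0 => hunit ⟨h, h0⟩
      have h3 : 0 < D.w (D.η P) := lt_of_le_of_ne h1 (Ne.symm h2)
      refine RVal.GT.of_lt ?_
      rw [D.w_pow h 2]; push_cast; linarith
  rw [D.eqn P hP] at hη2
  set x : K := D.ξ P with hx
  -- `f' x = A4 + x (3x + 2 A2)`
  rcases eq_or_ne x 0 with hx0 | hx0
  · have : D.f' x = D.A4 := by rw [KDatum.f', hx0]; ring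
    rw [this]; exact ⟨hA4, hwA4⟩
  have hwx : 0 ≤ D.w x := hξ.le hx0
  rcases eq_or_lt_of_le hwx with hwx0 | hwxpos
  · -- `x` is a unit, so `h = x² + A2 x + A4` has positive valuation
    set h : K := x ^ 2 + D.A2 * x + D.A4 with hh
    have hhgt : D.GT 0 h := by
      rcases eq_or_ne h 0 with h0 | h0
      · exact Or.inl h0
      · have h1 := hη2.lt (mul_ne_zero hx0 h0)
        rw [D.w_mul x h hx0 h0, ← hwx0, zero_add] at h1
        exact RVal.GT.of_lt h1
    -- `(2x + A2)² = (A2² - 4 A4) + 4 h`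
    have hsq : (2 * x + D.A2) ^ 2 = (D.A2 ^ 2 - 4 * D.A4) + 4 * h := by rw [hh]; ring
    have h4h : D.GT 0 (4 * h) := by
      rw [mul_comm]; exact gt_mul_ge hhgt (RVal.GE.ofNat 4)
    have hsq1 := unit_add hdisc hwdisc h4h
    rw [← hsq] at hsq1
    have hlin : 2 * x + D.A2 ≠ 0 := fun h0 => hsq1.1 (by rw [h0]; ring)
    have hwlin : D.w (2 * x + D.A2) = 0 := by
      have h1 := hsq1.2
      rw [D.w_pow hlin 2] at h1
      push_cast at h1
      linarith
    have hprod : x * (2 * x + D.A2) ≠ 0 := mul_ne_zero hx0 hlin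
    have hwprod : D.w (x * (2 * x + D.A2)) = 0 := by
      rw [D.w_mul _ _ hx0 hlin, ← hwx0, hwlin, add_zero]
    have hf' : D.f' x = x * (2 * x + D.A2) + h := by rw [KDatum.f', hh]; ring
    rw [hf']
    exact unit_add hprod hwprod hhgt
  · -- `x` has positive valuation: `f' x ≡ A4`
    have hf' : D.f' x = D.A4 + x * (3 * x + 2 * D.A2) := by rw [KDatum.f']; ring
    rw [hf']
    refine unit_add hA4 hwA4 (gt_mul_ge (RVal.GT.of_lt hwxpos) ?_)
    exact (ge_mul (RVal.GE.ofNat 3) hξ).add (ge_mul (RVal.GE.ofNat 2) D.A2_ge)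

end Fermat.Agent.S05
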