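import Fermat.Agent.S05_Defs
import Fermat.Agent.S05_E0
import Fermat.Agent.S05_Tors
import Fermat.Agent.S05_Red
import Fermat.Agent.S05_Comp

set_option autoImplicit false

/-!
# S05: the abstract theorem for multiplicative reduction
-/

namespace Fermat.Agent.S05

variable {K : Type*} [Field K] {G : Type*} [AddCommGroup G]

namespace Mult

/-- `p`-torsion points of `E₀` are fixed by `φ` (multiplicative reduction, node at the origin). -/
theorem φ_eq_of_mem_E0 (D : IDatum K G) (p : ℕ) (hp : p.Prime) (hp2 : p ≠ 2)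
    (hpK : (p : K) ≠ 0) (hwp : D.w (p : K) = 0) (hA2 : D.A2 ≠ 0) (hwA2 : D.w D.A2 = 0)
    (hA4 : D.GT 0 D.A4) {P : G} (hP : P ∈ D.E0) (hpP : p • P = 0) : D.φ P = P := by
  by_cases hP0 : P = 0
  · rw [hP0]; exact map_zero _
  obtain ⟨hx, hle⟩ := hP.resolve_left hP0
  have hge := w_ξ_nonneg_of_torsion D.toKDatum p hp hp2 hpK hwp hP0 hpP hx
  have hw0 : D.w (D.ξ P) = 0 := le_antisymm hle hge
  apply φ_eq_of_nonsingular D p hp hp2 hpK hwp hP0 hpP
  set x := D.ξ P with hxdef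
  have hxge : D.GE 0 x := RVal.GE.of_le hge
  have hgge : D.GE 0 (x ^ 2 + D.A2 * x + D.A4) :=
    ((Red.ge_sq hxge).add (Red.ge_mul D.A2_ge hxge)).add D.A4_ge
  by_cases hg : D.GT 0 (x ^ 2 + D.A2 * x + D.A4)
  · right
    have h1 : (2 * x + D.A2) ^ 2 =
        D.A2 ^ 2 + (4 * (x ^ 2 + D.A2 * x + D.A4) - 4 * D.A4) := by ring
    have hA2sq : D.A2 ^ 2 ≠ 0 := pow_ne_zero 2 hA2
    have hwA2sq : D.w (D.A2 ^ 2) = 0 := by rw [D.w_pow hA2, hwA2]; simp
    have h4 : D.GE 0 (4 : K) := RVal.GE.of_le (le_of_eq D.w_four.symm)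
    have h2 := Red.unit_add (v := D.toRVal) hA2sq hwA2sq
      (y := 4 * (x ^ 2 + D.A2 * x + D.A4) - 4 * D.A4)
      ((RVal.GT.int_mul h4 hg).sub (RVal.GT.int_mul h4 hA4))
    rw [← h1] at h2
    have h3 : 2 * x + D.A2 ≠ 0 := by
      intro h0; apply h2.1; rw [h0]; simp
    have hw3 : D.w (2 * x + D.A2) = 0 := by
      have := h2.2
      rw [D.w_pow h3] at this
      push_cast at this
      linarith
    have h5 : x * (2 * x + D.A2) ≠ 0 := mul_ne_zero hx h3
    have hw5 : D.w (x * (2 * x + D.A2)) = 0 := by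
      rw [D.w_mul _ _ hx h3, hw0, hw3]; ring
    have h6 : D.f' x = x * (2 * x + D.A2) + (x ^ 2 + D.A2 * x + D.A4) := by
      rw [KDatum.f']; ring
    rw [h6]
    exact Red.unit_add h5 hw5 hg
  · left
    have hg0 : x ^ 2 + D.A2 * x + D.A4 ≠ 0 := fun h => hg (Or.inl h)
    have hwg : D.w (x ^ 2 + D.A2 * x + D.A4) = 0 := by
      have h1 := hgge.le hg0
      have h2 : ¬ 0 < D.w (x ^ 2 + D.A2 * x + D.A4) := fun h => hg (Or.inr h)
      linarith
    have hη2 := D.eqn P hP0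
    have hη0 : D.η P ≠ 0 := by
      intro h0
      rw [h0] at hη2
      have : x * (x ^ 2 + D.A2 * x + D.A4) ≠ 0 := mul_ne_zero hx hg0
      apply this
      rw [← hη2]; simp
    refine ⟨hη0, ?_⟩
    have := congrArg D.w hη2
    rw [D.w_pow hη0, D.w_mul _ _ hx hg0, hw0, hwg] at this
    push_cast at this
    linarith

end Mult

/-- Multiplicative reduction, `A4 = u d^p` with `u` a unit and `d` fixed by `σ`:
`φ` fixes all `p`-torsion points. -/
theorem φ_eq_of_mult (D : IDatum K G) (p : ℕ) (hp : p.Prime) (hp2 : p ≠ 2)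
    (hpK : (p : K) ≠ 0) (hwp : D.w (p : K) = 0)
    (hA2 : D.A2 ≠ 0) (hwA2 : D.w D.A2 = 0)
    (d u : K) (hd : d ≠ 0) (hwd : 0 < D.w d) (hσd : D.σ d = d) (hu : u ≠ 0) (hwu : D.w u = 0)
    (hA4 : D.A4 = u * d ^ p) (P : G) (hpP : p • P = 0) : D.φ P = P := by
  have hA4ne : D.A4 ≠ 0 := by rw [hA4]; exact mul_ne_zero hu (pow_ne_zero p hd)
  have hm : D.w D.A4 = p * D.w d := by
    rw [hA4, D.w_mul _ _ hu (pow_ne_zero p hd), hwu, D.w_pow hd]; ring
  have hppos : (0 : ℝ) < p := by exact_mod_cast hp.pos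
  have hmpos : 0 < D.w D.A4 := by rw [hm]; positivity
  by_cases hE : P ∈ D.E0
  · exact Mult.φ_eq_of_mem_E0 D p hp hp2 hpK hwp hA2 hwA2 (RVal.GT.of_lt hmpos) hE hpP
  obtain ⟨hx, hpos, hlt, j, hj⟩ :=
    exists_w_ξ_eq D.toKDatum p hp hp2 hA2 hwA2 hA4ne (D.w d) hwd hm hpP hE
  have hP0 : P ≠ 0 := fun h => hE (h ▸ D.zero_mem_E0)
  set x := D.ξ P with hxdef
  set l := D.w x with hl
  set e := d ^ (2 * j) with he
  have he0 : e ≠ 0 := pow_ne_zero _ hd
  have hwe : D.w e = l := by rw [he, D.w_pow hd, hj]; push_cast; ring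
  have hσe : D.σ e = e := by rw [he, map_pow, hσd]
  -- elements of valuation `l` are moved by `σ` by something of valuation `> l`
  have key : ∀ y : K, y ≠ 0 → D.w y = l → D.σ y = y ∨ (D.σ y ≠ y ∧ l < D.w (D.σ y - y)) := by
    intro y hy hwy
    by_cases hfix : D.σ y = y
    · exact Or.inl hfix
    right
    refine ⟨hfix, ?_⟩
    have hq : y / e ≠ 0 := div_ne_zero hy he0
    have hwq : D.w (y / e) = 0 := by rw [D.w_div hy he0, hwy, hwe]; ring
    have h2 : D.σ y - y = e * (D.σ (y / e) - y / e) := by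
      rw [map_div₀, hσe]; field_simp
    have h3 : D.σ (y / e) - y / e ≠ 0 := by
      intro h0
      rw [h0, mul_zero] at h2
      exact hfix (sub_eq_zero.mp h2)
    rcases D.σ_cong (y / e) hq hwq.ge with h | h
    · exact absurd (sub_eq_zero.mpr h) h3
    · rw [h2, D.w_mul _ _ he0 h3, hwe]; linarith
  have hx' : D.ξ (D.φ P) = D.σ x := D.ξ_φ P hP0
  have hφ0 : D.φ P ≠ 0 := D.φ_ne P hP0
  -- the factor `x² + A2 x + A4` has valuation `l`
  have hsq : D.w (x ^ 2) = 2 * l := by rw [D.w_pow hx]; push_cast; ring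
  have hA2x : D.A2 * x ≠ 0 := mul_ne_zero hA2 hx
  have hwA2x : D.w (D.A2 * x) = l := by rw [D.w_mul _ _ hA2 hx, hwA2]; ring
  have hg : x ^ 2 + D.A2 * x + D.A4 ≠ 0 ∧ D.w (x ^ 2 + D.A2 * x + D.A4) = l := by
    have e1 : x ^ 2 + D.A2 * x + D.A4 = D.A2 * x + (x ^ 2 + D.A4) := by ring
    rw [e1, ← hwA2x]
    refine RVal.w_add_eq_left hA2x ?_
    rw [hwA2x]
    exact (RVal.GT.of_lt (by rw [hsq]; linarith)).add (RVal.GT.of_lt hlt)
  rcases key x hx rfl with hfix | ⟨hnfix, hgt⟩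
  · -- `σ x = x`: `φ P = ± P`
    rcases D.eq_or_eq_neg_of_ξ_eq hφ0 hP0 (hx'.trans hfix) with h | h
    · exact h
    · exfalso
      have hη' : D.σ (D.η P) = -D.η P := by rw [← D.η_φ P hP0, h, D.η_neg P hP0]
      have hη2 := D.eqn P hP0
      have hη0 : D.η P ≠ 0 := by
        intro h0
        rw [h0] at hη2
        have : x * (x ^ 2 + D.A2 * x + D.A4) ≠ 0 := mul_ne_zero hx hg.1
        apply this
        rw [← hη2]; simp
      have hwη : D.w (D.η P) = l := by
        have := congrArg D.w hη2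
        rw [D.w_pow hη0, D.w_mul _ _ hx hg.1, hg.2] at this
        push_cast at this
        linarith
      rcases key (D.η P) hη0 hwη with h1 | ⟨-, h1⟩
      · rw [hη'] at h1
        have h2 : (2 : K) * D.η P = 0 := by linear_combination -h1
        exact hη0 ((mul_eq_zero.mp h2).resolve_left D.two_ne)
      · rw [hη'] at h1
        have h2 : -D.η P - D.η P = -(2 * D.η P) := by ring
        rw [h2, D.w_neg, D.w_mul _ _ D.two_ne hη0, D.w_two, hwη] at h1
        linarith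
  · -- `σ x ≠ x`: impossible
    exfalso
    set x' := D.σ x with hx'def
    have hx'0 : x' ≠ 0 := by
      rw [hx'def]; exact (map_ne_zero_iff _ D.σ.injective).mpr hx
    have hwx' : D.w x' = l := D.w_σ x hx
    have hne : D.ξ (D.φ P) ≠ D.ξ P := by rw [hx']; exact hnfix
    have hsum := D.ξ_add_add_ξ_sub (D.φ P) P hφ0 hP0 hne
    rw [hx', ← hxdef] at hsum
    have hdiff : x' - x ≠ 0 := sub_ne_zero.mpr hnfix
    have hdiff2 : (x' - x) ^ 2 ≠ 0 := pow_ne_zero 2 hdiff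
    have hwdiff2 : D.w ((x' - x) ^ 2) = 2 * D.w (x' - x) := by
      rw [D.w_pow hdiff]; push_cast; ring
    have h12 : x' * x ≠ 0 := mul_ne_zero hx'0 hx
    have hw12 : D.w (x' * x) = 2 * l := by rw [D.w_mul _ _ hx'0 hx, hwx']; ring
    have hmain : 2 * D.A2 * (x' * x) ≠ 0 := mul_ne_zero (mul_ne_zero D.two_ne hA2) h12
    have hwmain : D.w (2 * D.A2 * (x' * x)) = 2 * l := by
      rw [D.w_mul _ _ (mul_ne_zero D.two_ne hA2) h12, D.w_mul _ _ D.two_ne hA2, D.w_two, hwA2,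
        hw12]; ring
    have hgt1 : D.GT 0 (x' + x) :=
      (RVal.GT.of_lt (by rw [hwx']; exact hpos)).add (RVal.GT.of_lt hpos)
    have hge1 : D.GE l (x' + x) :=
      (RVal.GE.of_le (le_of_eq hwx'.symm)).add (RVal.GE.of_le le_rfl)
    have hrest : D.GT (2 * l) (x' * x * (x' + x) + D.A4 * (x' + x)) := by
      refine RVal.GT.add ?_ ?_
      · have := (RVal.GE.of_le (le_of_eq hw12.symm) (x := x' * x)).mul_gt hgt1
        simpa using this
      · have := (RVal.GE.of_le (le_refl (D.w D.A4)) (x := D.A4)).mul hge1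
        exact this.gt_of_lt (by linarith)
    have hN : x' * x * (x' + x + 2 * D.A2) + D.A4 * (x' + x) =
        2 * D.A2 * (x' * x) + (x' * x * (x' + x) + D.A4 * (x' + x)) := by ring
    have hNw : x' * x * (x' + x + 2 * D.A2) + D.A4 * (x' + x) ≠ 0 ∧
        D.w (x' * x * (x' + x + 2 * D.A2) + D.A4 * (x' + x)) = 2 * l := by
      rw [hN, ← hwmain]
      exact RVal.w_add_eq_left hmain (by rw [hwmain]; exact hrest)
    have hS0 : D.ξ (D.φ P + P) + D.ξ (D.φ P - P) ≠ 0 := by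
      rw [hsum]
      exact div_ne_zero (mul_ne_zero D.two_ne hNw.1) hdiff2
    have hSw : D.w (D.ξ (D.φ P + P) + D.ξ (D.φ P - P)) = 2 * l - 2 * D.w (x' - x) := by
      rw [hsum, D.w_div (mul_ne_zero D.two_ne hNw.1) hdiff2, D.w_mul _ _ D.two_ne hNw.1,
        D.w_two, hNw.2, hwdiff2]; ring
    -- both `φ P ± P` are nonzero `p`-torsion points, so their `ξ` are integral
    have hint : ∀ R : G, R ≠ 0 → p • R = 0 → D.GE 0 (D.ξ R) := by
      intro R hR hpR
      by_cases h0 : D.ξ R = 0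
      · exact Or.inl h0
      · exact Or.inr (w_ξ_nonneg_of_torsion D.toKDatum p hp hp2 hpK hwp hR hpR h0)
    have hφp : p • D.φ P = 0 := by rw [← map_nsmul, hpP, map_zero]
    have h1 := hint (D.φ P + P) (D.add_ne_zero_of_ξ_ne hne) (by rw [nsmul_add, hφp, hpP, add_zero])
    have h2 := hint (D.φ P - P) (D.sub_ne_zero_of_ξ_ne hne) (by rw [nsmul_sub, hφp, hpP, sub_zero])
    have h3 := (h1.add h2).le hS0
    linarith

end Fermat.Agent.S05
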