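import Mathlib
import Fermat.Prelude.Def_FLTPrelim_Ramification
import Fermat.Agent.S05_Defs

/-!
# S05: the rational-valued valuation attached to a valuation subring of an algebraic
extension of `ℚ` lying over a prime `q`

`Fermat.Agent.S05.Val.w A q : L → ℚ` (junk value `0` at `0`), normalised by `w q = 1`, with its
multiplicativity, ultrametric inequality, invariance under the decomposition group and the
congruence property of the inertia group; `Fermat.Agent.S05.exists_rval` packages it as an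
`RVal`.
-/

set_option autoImplicit false
set_option linter.unusedSectionVars false

namespace Fermat.Agent.S05.Val

open ValuationSubring

variable {L : Type*} [Field L]

section core

variable (A : ValuationSubring L) {q : ℕ}

theorem valuation_intCast_le_one (m : ℤ) : A.valuation (m : L) ≤ 1 :=
  (A.valuation_le_one_iff _).2 (intCast_mem A m)

theorem valuation_natCast_lt_one (hq : (q : L) ∈ A.nonunits) : A.valuation (q : L) < 1 :=
  A.mem_nonunits_iff.1 hq

theorem valuation_natCast_ne_zero [CharZero L] (hq0 : q ≠ 0) : A.valuation (q : L) ≠ 0 := by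
  rw [Ne, Valuation.zero_iff]
  exact_mod_cast hq0

/-- Integers prime to `q` are units of `A`. -/
theorem valuation_intCast_eq_one (hq : (q : L) ∈ A.nonunits) (m : ℤ)
    (hm : IsCoprime m (q : ℤ)) : A.valuation (m : L) = 1 := by
  obtain ⟨u, v, huv⟩ := hm
  refine le_antisymm (valuation_intCast_le_one A m) ?_
  by_contra hlt
  rw [not_le] at hlt
  have h1 : A.valuation ((u : L) * m) < 1 := by
    rw [map_mul]
    calc A.valuation (u : L) * A.valuation (m : L) ≤ 1 * A.valuation (m : L) :=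
          mul_le_mul_left (valuation_intCast_le_one A u) _
      _ = A.valuation (m : L) := one_mul _
      _ < 1 := hlt
  have h2 : A.valuation ((v : L) * q) < 1 := by
    rw [map_mul]
    calc A.valuation (v : L) * A.valuation (q : L) ≤ 1 * A.valuation (q : L) :=
          mul_le_mul_left (valuation_intCast_le_one A v) _
      _ = A.valuation (q : L) := one_mul _
      _ < 1 := valuation_natCast_lt_one A hq
  have h3 : A.valuation ((u : L) * m + (v : L) * q) < 1 :=
    lt_of_le_of_lt (A.valuation.map_add _ _) (max_lt h1 h2)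
  have h4 : (u : L) * m + (v : L) * q = 1 := by
    have := congrArg (Int.cast : ℤ → L) huv
    push_cast at this
    exact this
  rw [h4, map_one] at h3
  exact lt_irrefl _ h3

theorem valuation_natCast_eq_one (hq : q.Prime) (hqA : (q : L) ∈ A.nonunits) (m : ℕ)
    (hm : ¬ q ∣ m) : A.valuation (m : L) = 1 := by
  have h := valuation_intCast_eq_one A hqA (m : ℤ)
    (Nat.isCoprime_iff_coprime.2 ((Nat.Prime.coprime_iff_not_dvd hq).2 hm).symm)
  simpa using h

theorem exists_valuation_natCast (hq : q.Prime) (hqA : (q : L) ∈ A.nonunits)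
    (n : ℕ) (hn : n ≠ 0) : ∃ e : ℕ, A.valuation (n : L) = A.valuation (q : L) ^ e := by
  obtain ⟨e, m, hm, rfl⟩ := Nat.exists_eq_pow_mul_and_not_dvd hn q hq.ne_one
  refine ⟨e, ?_⟩
  push_cast
  rw [map_mul, map_pow, valuation_natCast_eq_one A hq hqA m hm, mul_one]

theorem exists_valuation_intCast (hq : q.Prime) (hqA : (q : L) ∈ A.nonunits)
    (n : ℤ) (hn : n ≠ 0) : ∃ e : ℕ, A.valuation (n : L) = A.valuation (q : L) ^ e := by
  obtain ⟨e, he⟩ := exists_valuation_natCast A hq hqA n.natAbs (Int.natAbs_ne_zero.2 hn)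
  refine ⟨e, ?_⟩
  rw [← he]
  rcases Int.natAbs_eq n with h | h
  · conv_lhs => rw [h]
    simp
  · conv_lhs => rw [h]
    simp

theorem exists_valuation_ratCast [CharZero L] (hq : q.Prime) (hqA : (q : L) ∈ A.nonunits)
    (r : ℚ) (hr : r ≠ 0) : ∃ k : ℤ, A.valuation (r : L) = A.valuation (q : L) ^ k := by
  obtain ⟨e₁, h₁⟩ := exists_valuation_intCast A hq hqA r.num (Rat.num_ne_zero.2 hr)
  obtain ⟨e₂, h₂⟩ := exists_valuation_natCast A hq hqA r.den r.den_ne_zero
  refine ⟨(e₁ : ℤ) - e₂, ?_⟩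
  rw [Rat.cast_def, map_div₀, h₁, h₂, zpow_sub₀ (valuation_natCast_ne_zero A hq.ne_zero)]
  simp

theorem exists_ne_valuation_eq {Γ₀ : Type*} [LinearOrderedCommGroupWithZero Γ₀]
    (v : Valuation L Γ₀) {ι : Type*} (s : Finset ι) (t : ι → L)
    (hsum : ∑ i ∈ s, t i = 0) (j : ι) (hj : j ∈ s) (htj : t j ≠ 0) :
    ∃ i ∈ s, ∃ i' ∈ s, i ≠ i' ∧ v (t i) = v (t i') ∧ t i ≠ 0 := by
  classical
  obtain ⟨j₀, hj₀, hmax⟩ := Finset.exists_max_image s (fun i => v (t i)) ⟨j, hj⟩
  have hj₀ne : v (t j₀) ≠ 0 := by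
    have h1 : v (t j) ≠ 0 := (Valuation.ne_zero_iff v).2 htj
    have h2 := hmax j hj
    exact ne_of_gt (lt_of_lt_of_le (zero_lt_iff.2 h1) h2)
  by_contra hcon
  push Not at hcon
  have hlt : ∀ i ∈ s \ {j₀}, v (t i) < v (t j₀) := by
    intro i hi
    rw [Finset.mem_sdiff, Finset.mem_singleton] at hi
    refine lt_of_le_of_ne (hmax i hi.1) ?_
    intro heq
    exact (Valuation.ne_zero_iff v).1 hj₀ne (hcon j₀ hj₀ i hi.1 (Ne.symm hi.2) heq.symm)
  have := Valuation.map_sum_eq_of_lt v hj₀ hlt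
  rw [hsum, map_zero] at this
  exact hj₀ne this.symm

/-- Every nonzero element of an algebraic extension of `ℚ` has a power whose valuation is an
integral power of the valuation of `q`. -/
theorem exists_pow_valuation [CharZero L] [Algebra ℚ L] [Algebra.IsAlgebraic ℚ L] (hq : q.Prime)
    (hqA : (q : L) ∈ A.nonunits) (x : L) (hx : x ≠ 0) :
    ∃ n : ℕ, 0 < n ∧ ∃ k : ℤ, A.valuation x ^ n = A.valuation (q : L) ^ k := by
  classical
  obtain ⟨f, hf0, hf⟩ := Algebra.IsAlgebraic.isAlgebraic (R := ℚ) x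
  rw [Polynomial.aeval_def, Polynomial.eval₂_eq_sum, Polynomial.sum_def] at hf
  have hsupp : f.support.Nonempty := Polynomial.support_nonempty.2 hf0
  obtain ⟨j, hj⟩ := hsupp
  have hterm : ∀ i ∈ f.support, algebraMap ℚ L (f.coeff i) * x ^ i ≠ 0 := by
    intro i hi
    rw [Polynomial.mem_support_iff] at hi
    exact mul_ne_zero (by simpa using hi) (pow_ne_zero _ hx)
  obtain ⟨i, hi, i', hi', hne, hv, -⟩ := exists_ne_valuation_eq A.valuation f.support
    (fun i => algebraMap ℚ L (f.coeff i) * x ^ i) hf j hj (hterm j hj)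
  have hvx : A.valuation x ≠ 0 := (Valuation.ne_zero_iff _).2 hx
  have hvq : A.valuation (q : L) ≠ 0 := valuation_natCast_ne_zero A hq.ne_zero
  -- the key computation, for `i < i'`
  have key : ∀ i i' : ℕ, i ∈ f.support → i' ∈ f.support → i < i' →
      A.valuation (algebraMap ℚ L (f.coeff i) * x ^ i)
        = A.valuation (algebraMap ℚ L (f.coeff i') * x ^ i') →
      ∃ n : ℕ, 0 < n ∧ ∃ k : ℤ, A.valuation x ^ n = A.valuation (q : L) ^ k := by
    intro i i' hi hi' hlt hv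
    rw [Polynomial.mem_support_iff] at hi hi'
    obtain ⟨k, hk⟩ := exists_valuation_ratCast A hq hqA (f.coeff i) hi
    obtain ⟨k', hk'⟩ := exists_valuation_ratCast A hq hqA (f.coeff i') hi'
    refine ⟨i' - i, Nat.sub_pos_of_lt hlt, k - k', ?_⟩
    rw [map_mul, map_mul, map_pow, map_pow, eq_ratCast, eq_ratCast, hk, hk'] at hv
    have h1 : A.valuation x ^ i' = A.valuation x ^ (i' - i) * A.valuation x ^ i := by
      rw [← pow_add, Nat.sub_add_cancel hlt.le]
    rw [h1] at hv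
    have h2 : A.valuation (q : L) ^ k = A.valuation (q : L) ^ k' * A.valuation x ^ (i' - i) := by
      have h3 : A.valuation x ^ i ≠ 0 := pow_ne_zero _ hvx
      apply mul_right_cancel₀ h3
      rw [hv, mul_assoc]
    rw [zpow_sub₀ hvq, h2, mul_div_cancel_left₀ _ (zpow_ne_zero _ hvq)]
  rcases lt_or_gt_of_ne hne with h | h
  · exact key i i' hi hi' h hv
  · exact key i' i hi' hi h hv.symm

end core

section wdef

variable (A : ValuationSubring L) (q : ℕ)

/-- `IsVal A q x r`: the rational number `r` is the `q`-normalised additive valuation of `x`,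
i.e. `r = k / n` with `v(x) ^ n = v(q) ^ k`. -/
def IsVal (x : L) (r : ℚ) : Prop :=
  ∃ n : ℕ, 0 < n ∧ ∃ k : ℤ, A.valuation x ^ n = A.valuation (q : L) ^ k ∧ r = (k : ℚ) / n

open Classical in
/-- The `ℚ`-valued additive valuation attached to `A` and normalised by `w q = 1`
(junk value `0` at `0`). -/
noncomputable def w (x : L) : ℚ := if h : ∃ r, IsVal A q x r then h.choose else 0

variable {A q}

theorem IsVal.ne_zero {x : L} {r : ℚ} [CharZero L] (hq0 : q ≠ 0) (h : IsVal A q x r) : x ≠ 0 := by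
  obtain ⟨n, hn, k, hk, -⟩ := h
  rintro rfl
  rw [map_zero, zero_pow hn.ne'] at hk
  exact zpow_ne_zero k (valuation_natCast_ne_zero A hq0) hk.symm

theorem IsVal.unique [CharZero L] (hq0 : q ≠ 0) (hqA : (q : L) ∈ A.nonunits) {x : L} {r r' : ℚ}
    (h : IsVal A q x r) (h' : IsVal A q x r') : r = r' := by
  obtain ⟨n, hn, k, hk, rfl⟩ := h
  obtain ⟨n', hn', k', hk', rfl⟩ := h'
  have hvq0 := valuation_natCast_ne_zero A hq0
  have hvq1 := valuation_natCast_lt_one A hqA
  have h1 : A.valuation (q : L) ^ (k * n') = A.valuation (q : L) ^ (k' * n) := by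
    rw [zpow_mul, zpow_mul, ← hk, ← hk', zpow_natCast, zpow_natCast, ← pow_mul, ← pow_mul,
      mul_comm]
  have h2 : k * n' = k' * n := zpow_right_injective₀ (zero_lt_iff.2 hvq0) hvq1.ne h1
  have hn0 : (n : ℚ) ≠ 0 := by exact_mod_cast hn.ne'
  have hn0' : (n' : ℚ) ≠ 0 := by exact_mod_cast hn'.ne'
  rw [div_eq_div_iff hn0 hn0']
  exact_mod_cast h2

theorem IsVal.w_eq [CharZero L] (hq0 : q ≠ 0) (hqA : (q : L) ∈ A.nonunits) {x : L} {r : ℚ}
    (h : IsVal A q x r) : w A q x = r := by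
  have hex : ∃ r, IsVal A q x r := ⟨r, h⟩
  rw [w, dif_pos hex]
  exact IsVal.unique hq0 hqA hex.choose_spec h

theorem isVal_w [CharZero L] [Algebra ℚ L] [Algebra.IsAlgebraic ℚ L] (hq : q.Prime)
    (hqA : (q : L) ∈ A.nonunits) {x : L} (hx : x ≠ 0) : IsVal A q x (w A q x) := by
  obtain ⟨n, hn, k, hk⟩ := exists_pow_valuation A hq hqA x hx
  have h : IsVal A q x ((k : ℚ) / n) := ⟨n, hn, k, hk, rfl⟩
  rw [h.w_eq hq.ne_zero hqA]
  exact h

theorem w_zero [CharZero L] (hq0 : q ≠ 0) : w A q (0 : L) = 0 := by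
  rw [w, dif_neg]
  rintro ⟨r, hr⟩
  exact hr.ne_zero hq0 rfl

theorem IsVal.mul [CharZero L] (hq0 : q ≠ 0) {x y : L} {r s : ℚ} (hx : IsVal A q x r)
    (hy : IsVal A q y s) : IsVal A q (x * y) (r + s) := by
  obtain ⟨n, hn, k, hk, rfl⟩ := hx
  obtain ⟨n', hn', k', hk', rfl⟩ := hy
  have hvq := valuation_natCast_ne_zero A hq0
  refine ⟨n * n', Nat.mul_pos hn hn', k * n' + k' * n, ?_, ?_⟩
  · rw [map_mul, mul_pow, pow_mul, hk, mul_comm n n', pow_mul, hk', zpow_add₀ hvq, zpow_mul,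
      zpow_mul, zpow_natCast, zpow_natCast]
  · have hn0 : (n : ℚ) ≠ 0 := by exact_mod_cast hn.ne'
    have hn0' : (n' : ℚ) ≠ 0 := by exact_mod_cast hn'.ne'
    push_cast
    field_simp

theorem IsVal.inv {x : L} {r : ℚ} (hx : IsVal A q x r) : IsVal A q x⁻¹ (-r) := by
  obtain ⟨n, hn, k, hk, rfl⟩ := hx
  refine ⟨n, hn, -k, ?_, ?_⟩
  · rw [map_inv₀, inv_pow, hk, zpow_neg]
  · push_cast
    ring

theorem isVal_one : IsVal A q (1 : L) 0 :=
  ⟨1, one_pos, 0, by simp, by simp⟩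

theorem isVal_prime : IsVal A q (q : L) 1 :=
  ⟨1, one_pos, 1, by simp, by simp⟩

theorem IsVal.nonneg_iff [CharZero L] (hq0 : q ≠ 0) (hqA : (q : L) ∈ A.nonunits) {x : L} {r : ℚ}
    (hx : IsVal A q x r) : 0 ≤ r ↔ x ∈ A := by
  obtain ⟨n, hn, k, hk, rfl⟩ := hx
  have hvq0 := valuation_natCast_ne_zero A hq0
  have hvq1 := valuation_natCast_lt_one A hqA
  have hn0 : (0 : ℚ) < n := by exact_mod_cast hn
  rw [← A.valuation_le_one_iff, ← pow_le_one_iff_of_nonneg zero_le hn.ne', hk,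
    zpow_le_one_iff_right_of_lt_one₀ (zero_lt_iff.2 hvq0) hvq1, div_nonneg_iff]
  constructor
  · rintro (⟨h, -⟩ | ⟨-, h⟩)
    · exact_mod_cast h
    · exact absurd h (not_le.2 hn0)
  · intro h
    exact Or.inl ⟨by exact_mod_cast h, hn0.le⟩

theorem IsVal.pos_iff [CharZero L] (hq0 : q ≠ 0) (hqA : (q : L) ∈ A.nonunits) {x : L} {r : ℚ}
    (hx : IsVal A q x r) : 0 < r ↔ x ∈ A.nonunits := by
  obtain ⟨n, hn, k, hk, rfl⟩ := hx
  have hvq0 := valuation_natCast_ne_zero A hq0
  have hvq1 := valuation_natCast_lt_one A hqA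
  have hn0 : (0 : ℚ) < n := by exact_mod_cast hn
  rw [A.mem_nonunits_iff, ← pow_lt_one_iff_of_nonneg zero_le hn.ne', hk,
    zpow_lt_one_iff_right_of_lt_one₀ (zero_lt_iff.2 hvq0) hvq1, div_pos_iff]
  constructor
  · rintro (⟨h, -⟩ | ⟨-, h⟩)
    · exact_mod_cast h
    · exact absurd h (not_lt.2 hn0.le)
  · intro h
    exact Or.inl ⟨by exact_mod_cast h, hn0⟩

end wdef

section api

variable [CharZero L] [Algebra ℚ L] [Algebra.IsAlgebraic ℚ L] {A : ValuationSubring L} {q : ℕ}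
  (hq : q.Prime) (hqA : (q : L) ∈ A.nonunits)

include hq hqA

theorem w_one : w A q (1 : L) = 0 := isVal_one.w_eq hq.ne_zero hqA

theorem w_prime : w A q (q : L) = 1 := isVal_prime.w_eq hq.ne_zero hqA

theorem w_mul {x y : L} (hx : x ≠ 0) (hy : y ≠ 0) : w A q (x * y) = w A q x + w A q y :=
  ((isVal_w hq hqA hx).mul hq.ne_zero (isVal_w hq hqA hy)).w_eq hq.ne_zero hqA

theorem w_inv (x : L) : w A q x⁻¹ = -w A q x := by
  rcases eq_or_ne x 0 with rfl | hx
  · rw [inv_zero, w_zero hq.ne_zero, neg_zero]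
  · exact (isVal_w hq hqA hx).inv.w_eq hq.ne_zero hqA

theorem w_div {x y : L} (hx : x ≠ 0) (hy : y ≠ 0) : w A q (x / y) = w A q x - w A q y := by
  rw [div_eq_mul_inv, w_mul hq hqA hx (inv_ne_zero hy), w_inv hq hqA, sub_eq_add_neg]

theorem w_pow (x : L) (n : ℕ) : w A q (x ^ n) = n * w A q x := by
  rcases eq_or_ne x 0 with rfl | hx
  · rcases Nat.eq_zero_or_pos n with rfl | hn
    · simp [w_one hq hqA]
    · rw [zero_pow hn.ne', w_zero hq.ne_zero, mul_zero]
  · induction n with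
    | zero => simp [w_one hq hqA]
    | succ n ih =>
      rw [pow_succ, w_mul hq hqA (pow_ne_zero n hx) hx, ih]
      push_cast
      ring

theorem w_neg (x : L) : w A q (-x) = w A q x := by
  rcases eq_or_ne x 0 with rfl | hx
  · rw [neg_zero]
  · have h := isVal_w hq hqA hx
    obtain ⟨n, hn, k, hk, hr⟩ := h
    exact IsVal.w_eq hq.ne_zero hqA ⟨n, hn, k, by rw [Valuation.map_neg]; exact hk, hr⟩

theorem w_nonneg_iff {x : L} (hx : x ≠ 0) : 0 ≤ w A q x ↔ x ∈ A :=
  (isVal_w hq hqA hx).nonneg_iff hq.ne_zero hqA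

theorem w_pos_iff {x : L} (hx : x ≠ 0) : 0 < w A q x ↔ x ∈ A.nonunits :=
  (isVal_w hq hqA hx).pos_iff hq.ne_zero hqA

theorem w_nonneg_of_mem {x : L} (hx : x ∈ A) : 0 ≤ w A q x := by
  rcases eq_or_ne x 0 with rfl | hx0
  · rw [w_zero hq.ne_zero]
  · exact (w_nonneg_iff hq hqA hx0).2 hx

theorem mem_of_w_nonneg {x : L} (hx : 0 ≤ w A q x) : x ∈ A := by
  rcases eq_or_ne x 0 with rfl | hx0
  · exact A.zero_mem
  · exact (w_nonneg_iff hq hqA hx0).1 hx

theorem mem_nonunits_of_w_pos {x : L} (hx : 0 < w A q x) : x ∈ A.nonunits := by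
  rcases eq_or_ne x 0 with rfl | hx0
  · exact A.nonunits.zero_mem
  · exact (w_pos_iff hq hqA hx0).1 hx

theorem w_le_iff {x y : L} (hx : x ≠ 0) (hy : y ≠ 0) :
    w A q x ≤ w A q y ↔ A.valuation y ≤ A.valuation x := by
  have h1 : w A q x ≤ w A q y ↔ 0 ≤ w A q (y / x) := by
    rw [w_div hq hqA hy hx, sub_nonneg]
  rw [h1, w_nonneg_iff hq hqA (div_ne_zero hy hx), ← A.valuation_le_one_iff, map_div₀,
    div_le_one₀ (zero_lt_iff.2 ((Valuation.ne_zero_iff _).2 hx))]

theorem w_add {x y : L} (hxy : x + y ≠ 0) : min (w A q x) (w A q y) ≤ w A q (x + y) := by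
  rcases eq_or_ne x 0 with rfl | hx
  · rw [zero_add]; exact min_le_right _ _
  rcases eq_or_ne y 0 with rfl | hy
  · rw [add_zero]; exact min_le_left _ _
  rcases le_total (A.valuation x) (A.valuation y) with h | h
  · refine le_trans (min_le_right _ _) ((w_le_iff hq hqA hy hxy).2 ?_)
    exact le_trans (A.valuation.map_add x y) (max_le h le_rfl)
  · refine le_trans (min_le_left _ _) ((w_le_iff hq hqA hx hxy).2 ?_)
    exact le_trans (A.valuation.map_add x y) (max_le le_rfl h)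

theorem w_sub {x y : L} (hxy : x - y ≠ 0) : min (w A q x) (w A q y) ≤ w A q (x - y) := by
  rw [sub_eq_add_neg] at hxy ⊢
  have := w_add hq hqA hxy
  rwa [w_neg hq hqA] at this

theorem w_add_eq_of_lt {x y : L} (hx : x ≠ 0) (hy : y ≠ 0) (h : w A q x < w A q y) :
    w A q (x + y) = w A q x := by
  have hlt : A.valuation y < A.valuation x := by
    rw [← not_le]
    intro hle
    exact absurd ((w_le_iff hq hqA hy hx).2 hle) (not_le.2 h)
  have hv : A.valuation (x + y) = A.valuation x := Valuation.map_add_eq_of_lt_left _ hlt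
  have hxy : x + y ≠ 0 := by
    intro h0
    rw [h0, map_zero] at hv
    exact (Valuation.ne_zero_iff _).2 hx hv.symm
  exact le_antisymm ((w_le_iff hq hqA hxy hx).2 hv.symm.le) ((w_le_iff hq hqA hx hxy).2 hv.le)

theorem w_natCast {n : ℕ} (hn : ¬ q ∣ n) : w A q (n : L) = 0 :=
  IsVal.w_eq hq.ne_zero hqA
    ⟨1, one_pos, 0, by rw [pow_one, zpow_zero, valuation_natCast_eq_one A hq hqA n hn], by simp⟩

theorem w_intCast {n : ℤ} (hn : ¬ (q : ℤ) ∣ n) : w A q (n : L) = 0 := by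
  have h : IsCoprime n (q : ℤ) :=
    ((Nat.prime_iff_prime_int.1 hq).coprime_iff_not_dvd.2 hn).symm
  exact IsVal.w_eq hq.ne_zero hqA
    ⟨1, one_pos, 0, by rw [pow_one, zpow_zero, valuation_intCast_eq_one A hqA n h], by simp⟩

theorem w_intCast_nonneg (n : ℤ) : 0 ≤ w A q (n : L) :=
  w_nonneg_of_mem hq hqA (intCast_mem A n)

theorem w_intCast_pos {n : ℤ} (hn : (q : ℤ) ∣ n) (hn0 : n ≠ 0) : 0 < w A q (n : L) := by
  obtain ⟨m, rfl⟩ := hn
  have hm0 : m ≠ 0 := by rintro rfl; simp at hn0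
  push_cast
  rw [w_mul hq hqA (by exact_mod_cast hq.ne_zero) (by exact_mod_cast hm0), w_prime hq hqA]
  have := w_intCast_nonneg hq hqA (A := A) m
  linarith

end api

section galois

open scoped Pointwise

variable {K : Type*} [Field K] [Algebra K L] {A : ValuationSubring L}

theorem mem_iff_of_mem_decomposition {σ : L ≃ₐ[K] L} (hσ : σ ∈ A.decompositionSubgroup K)
    (x : L) : σ x ∈ A ↔ x ∈ A := by
  have h : σ • A = A := hσ
  constructor
  · intro hx
    rw [← h, ValuationSubring.mem_pointwise_smul_iff_inv_smul_mem] at hx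
    simpa [AlgEquiv.smul_def] using hx
  · intro hx
    rw [← h]
    exact ValuationSubring.smul_mem_pointwise_smul σ x A hx

theorem valuation_le_iff_of_mem_decomposition {σ : L ≃ₐ[K] L}
    (hσ : σ ∈ A.decompositionSubgroup K) (x y : L) :
    A.valuation (σ x) ≤ A.valuation (σ y) ↔ A.valuation x ≤ A.valuation y := by
  rcases eq_or_ne y 0 with rfl | hy
  · simp
  · have hσy : σ y ≠ 0 := by simpa using hy
    have h1 : A.valuation (σ x) ≤ A.valuation (σ y) ↔ σ (x / y) ∈ A := by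
      rw [← A.valuation_le_one_iff, map_div₀, map_div₀,
        div_le_one₀ (zero_lt_iff.2 ((Valuation.ne_zero_iff _).2 hσy))]
    have h2 : A.valuation x ≤ A.valuation y ↔ x / y ∈ A := by
      rw [← A.valuation_le_one_iff, map_div₀,
        div_le_one₀ (zero_lt_iff.2 ((Valuation.ne_zero_iff _).2 hy))]
    rw [h1, h2, mem_iff_of_mem_decomposition hσ]

theorem valuation_eq_iff_of_mem_decomposition {σ : L ≃ₐ[K] L}
    (hσ : σ ∈ A.decompositionSubgroup K) (x y : L) :
    A.valuation (σ x) = A.valuation (σ y) ↔ A.valuation x = A.valuation y := by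
  rw [le_antisymm_iff, le_antisymm_iff, valuation_le_iff_of_mem_decomposition hσ,
    valuation_le_iff_of_mem_decomposition hσ]

theorem mem_nonunits_iff_of_mem_decomposition {σ : L ≃ₐ[K] L}
    (hσ : σ ∈ A.decompositionSubgroup K) (x : L) : σ x ∈ A.nonunits ↔ x ∈ A.nonunits := by
  rw [A.mem_nonunits_iff, A.mem_nonunits_iff]
  have h := valuation_le_iff_of_mem_decomposition hσ 1 x
  rw [map_one, map_one] at h
  rw [← not_le, ← not_le, h]

theorem mem_decomposition_of_mem_inertiaSubgroupIn {σ : L ≃ₐ[K] L}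
    (hσ : σ ∈ A.inertiaSubgroupIn K) : σ ∈ A.decompositionSubgroup K := by
  obtain ⟨τ, -, rfl⟩ := Subgroup.mem_map.1 hσ
  exact τ.2

/-- Elements of the inertia group act trivially modulo the maximal ideal. -/
theorem sub_mem_nonunits_of_mem_inertiaSubgroupIn {σ : L ≃ₐ[K] L}
    (hσ : σ ∈ A.inertiaSubgroupIn K) {x : L} (hx : x ∈ A) : σ x - x ∈ A.nonunits := by
  obtain ⟨τ, hτ, rfl⟩ := Subgroup.mem_map.1 hσ
  have h1 : MulSemiringAction.toRingAut (A.decompositionSubgroup K)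
      (IsLocalRing.ResidueField A) τ = 1 := hτ
  have h2 : τ • IsLocalRing.residue A ⟨x, hx⟩ = IsLocalRing.residue A ⟨x, hx⟩ := by
    have := congrArg (fun f => f (IsLocalRing.residue A ⟨x, hx⟩)) h1
    simpa using this
  rw [← IsLocalRing.ResidueField.residue_smul, ← sub_eq_zero, ← map_sub,
    IsLocalRing.residue_eq_zero_iff] at h2
  have h3 := (A.coe_mem_nonunits_iff).2 h2
  exact h3

end galois

section galoisw

variable [CharZero L] [Algebra ℚ L] [Algebra.IsAlgebraic ℚ L] {A : ValuationSubring L} {q : ℕ}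
  (hq : q.Prime) (hqA : (q : L) ∈ A.nonunits)

include hq hqA

theorem w_apply_of_mem_decomposition {σ : L ≃ₐ[ℚ] L} (hσ : σ ∈ A.decompositionSubgroup ℚ)
    (x : L) : w A q (σ x) = w A q x := by
  rcases eq_or_ne x 0 with rfl | hx
  · rw [map_zero]
  · obtain ⟨n, hn, k, hk, hr⟩ := isVal_w hq hqA hx
    refine IsVal.w_eq hq.ne_zero hqA ⟨n, hn, k, ?_, hr⟩
    have h1 : A.valuation (x ^ n) = A.valuation ((q : L) ^ k) := by
      rw [map_pow, map_zpow₀]; exact hk
    have h2 := (valuation_eq_iff_of_mem_decomposition hσ (x ^ n) ((q : L) ^ k)).2 h1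
    rw [map_pow, map_zpow₀, map_natCast, map_pow, map_zpow₀] at h2
    exact h2

theorem w_apply_of_mem_inertia {σ : L ≃ₐ[ℚ] L} (hσ : σ ∈ A.inertiaSubgroupIn ℚ)
    (x : L) : w A q (σ x) = w A q x :=
  w_apply_of_mem_decomposition hq hqA (mem_decomposition_of_mem_inertiaSubgroupIn hσ) x

theorem w_sub_pos_of_mem_inertia {σ : L ≃ₐ[ℚ] L} (hσ : σ ∈ A.inertiaSubgroupIn ℚ)
    {x : L} (hx : 0 ≤ w A q x) (hne : σ x ≠ x) : 0 < w A q (σ x - x) :=
  (w_pos_iff hq hqA (sub_ne_zero.2 hne)).2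
    (sub_mem_nonunits_of_mem_inertiaSubgroupIn hσ (mem_of_w_nonneg hq hqA hx))

end galoisw

end Fermat.Agent.S05.Val

namespace Fermat.Agent.S05

open Val in
/-- The real-valued valuation attached to a valuation subring of `ℚ̄` over `q`, with the
properties of the decomposition/inertia group. -/
theorem exists_rval (A : ValuationSubring (AlgebraicClosure ℚ)) (q : ℕ) (hq : q.Prime)
    (hA : A.LiesOverPrime q) :
    ∃ v : RVal (AlgebraicClosure ℚ),
      (∀ x : AlgebraicClosure ℚ, x ≠ 0 → (0 ≤ v.w x ↔ x ∈ A)) ∧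
      (∀ x : AlgebraicClosure ℚ, x ≠ 0 → (0 < v.w x ↔ x ∈ A.nonunits)) ∧
      (∀ n : ℤ, ¬ (q : ℤ) ∣ n → v.w (n : AlgebraicClosure ℚ) = 0) ∧
      (∀ n : ℤ, n ≠ 0 → (q : ℤ) ∣ n → 0 < v.w (n : AlgebraicClosure ℚ)) ∧
      (∀ σ ∈ A.inertiaSubgroupIn ℚ, ∀ x : AlgebraicClosure ℚ, x ≠ 0 → v.w (σ x) = v.w x) ∧
      (∀ σ ∈ A.inertiaSubgroupIn ℚ, ∀ x : AlgebraicClosure ℚ, x ≠ 0 → 0 ≤ v.w x →
        σ x = x ∨ 0 < v.w (σ x - x)) := by
  have hqA : (q : AlgebraicClosure ℚ) ∈ A.nonunits := hA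
  have : Algebra.IsAlgebraic ℚ (AlgebraicClosure ℚ) := AlgebraicClosure.isAlgebraic ℚ
  refine ⟨⟨fun x => ((w A q x : ℚ) : ℝ), ?_, ?_⟩, ?_, ?_, ?_, ?_, ?_, ?_⟩
  · intro x y hx hy
    rw [w_mul hq hqA hx hy]
    push_cast
    rfl
  · intro x y _ _ hxy
    have h := w_add hq hqA (A := A) hxy
    have h' : ((min (w A q x) (w A q y) : ℚ) : ℝ) ≤ ((w A q (x + y) : ℚ) : ℝ) := by
      exact_mod_cast h
    rwa [Rat.cast_min] at h'
  · intro x hx
    show (0 : ℝ) ≤ ((w A q x : ℚ) : ℝ) ↔ x ∈ A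
    rw [← w_nonneg_iff hq hqA hx]
    exact_mod_cast Iff.rfl
  · intro x hx
    show (0 : ℝ) < ((w A q x : ℚ) : ℝ) ↔ x ∈ A.nonunits
    rw [← w_pos_iff hq hqA hx]
    exact_mod_cast Iff.rfl
  · intro n hn
    show ((w A q (n : AlgebraicClosure ℚ) : ℚ) : ℝ) = 0
    rw [w_intCast hq hqA hn]
    simp
  · intro n hn0 hn
    show (0 : ℝ) < ((w A q (n : AlgebraicClosure ℚ) : ℚ) : ℝ)
    exact_mod_cast w_intCast_pos hq hqA hn hn0
  · intro σ hσ x _
    show ((w A q (σ x) : ℚ) : ℝ) = ((w A q x : ℚ) : ℝ)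
    rw [w_apply_of_mem_inertia hq hqA hσ]
  · intro σ hσ x _ hx
    by_cases hne : σ x = x
    · exact Or.inl hne
    · right
      have hx'' : (0 : ℝ) ≤ ((w A q x : ℚ) : ℝ) := hx
      have hx' : 0 ≤ w A q x := by exact_mod_cast hx''
      show (0 : ℝ) < ((w A q (σ x - x) : ℚ) : ℝ)
      exact_mod_cast w_sub_pos_of_mem_inertia hq hqA hσ hx' hne

end Fermat.Agent.S05
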