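-- Statement S05: the mod-p Galois representation of the Frey curve is unramified at every
-- prime q with q ≠ 2 and q ≠ p.  Assembly of the elementary route: the real-valued valuation of
-- a valuation subring of the algebraic closure (S05_Val), the coordinate datum of the Frey curve
-- (S05_Datum), the good-reduction case (S05_Red) and the multiplicative case (S05_Mult).
import Fermat.Statements.S05
import Fermat.Agent.S05_Val
import Fermat.Agent.S05_Datum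
import Fermat.Agent.S05_Red
import Fermat.Agent.S05_Mult

set_option autoImplicit false
open WeierstrassCurve WeierstrassCurve.Affine WeierstrassCurve.Affine.Point
open CuspForm ModularFormClass UpperHalfPlane
open FreyPackage

namespace Fermat.Agent.S05

namespace Glue

/-- `q ∤ n` for an integer `n`: the cast of `n` to `ℚ̄` is a nonzero `v`-unit. -/
theorem unit_of_not_dvd {q : ℕ} {v : RVal (AlgebraicClosure ℚ)}
    (hv0 : ∀ n : ℤ, ¬ (q : ℤ) ∣ n → v.w (n : AlgebraicClosure ℚ) = 0)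
    {n : ℤ} (hn : ¬ (q : ℤ) ∣ n) :
    (n : AlgebraicClosure ℚ) ≠ 0 ∧ v.w (n : AlgebraicClosure ℚ) = 0 := by
  refine ⟨?_, hv0 n hn⟩
  rw [Int.cast_ne_zero]
  rintro rfl
  exact hn (dvd_zero _)

/-- A prime not dividing `x` does not divide `x ^ n`. -/
theorem not_dvd_pow {q : ℕ} (hq : q.Prime) {x : ℤ} (hx : ¬ (q : ℤ) ∣ x) (n : ℕ) :
    ¬ (q : ℤ) ∣ x ^ n :=
  fun h => hx ((Nat.prime_iff_prime_int.mp hq).dvd_of_dvd_pow h)

/-- A prime dividing one of two coprime integers does not divide the other. -/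
theorem not_dvd_of_gcd {q : ℕ} (hq : q.Prime) {x y : ℤ} (h : gcd x y = 1) (hx : (q : ℤ) ∣ x) :
    ¬ (q : ℤ) ∣ y := by
  intro hy
  have h1 : (q : ℤ) ∣ gcd x y := dvd_gcd hx hy
  rw [h] at h1
  exact (Nat.prime_iff_prime_int.mp hq).not_dvd_one h1

/-- The good-reduction case, from an `IDatum` with integer coefficients. -/
theorem fix_of_good (P : FreyPackage) {q : ℕ}
    (v : RVal (AlgebraicClosure ℚ))
    (hv0 : ∀ n : ℤ, ¬ (q : ℤ) ∣ n → v.w (n : AlgebraicClosure ℚ) = 0)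
    (hwp : v.w (P.p : AlgebraicClosure ℚ) = 0)
    (σ : AlgebraicClosure ℚ ≃ₐ[ℚ] AlgebraicClosure ℚ)
    (D : IDatum (AlgebraicClosure ℚ) ((P.freyCurve)⁄(AlgebraicClosure ℚ)).Point)
    (hDw : D.w = v.w) (a2 a4 : ℤ)
    (hDA2 : D.A2 = (a2 : AlgebraicClosure ℚ)) (hDA4 : D.A4 = (a4 : AlgebraicClosure ℚ))
    (hDφ : ∀ Q : ((P.freyCurve)⁄(AlgebraicClosure ℚ)).Point, D.φ Q = σ • Q)
    (h4 : ¬ (q : ℤ) ∣ a4) (hdisc : ¬ (q : ℤ) ∣ a2 ^ 2 - 4 * a4)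
    (Q : ((P.freyCurve)⁄(AlgebraicClosure ℚ)).Point) (hQ : P.p • Q = 0) : σ • Q = Q := by
  rw [← hDφ Q]
  have hp2 : P.p ≠ 2 := by have := P.hp5; omega
  have hpK : ((P.p : ℕ) : AlgebraicClosure ℚ) ≠ 0 := Nat.cast_ne_zero.mpr P.hp0
  have e4 := unit_of_not_dvd hv0 h4
  have ed := unit_of_not_dvd hv0 hdisc
  have hd : D.A2 ^ 2 - 4 * D.A4 = ((a2 ^ 2 - 4 * a4 : ℤ) : AlgebraicClosure ℚ) := by
    rw [hDA2, hDA4]; push_cast; ring
  refine φ_eq_of_good D P.p P.pp hp2 hpK ?_ ?_ ?_ ?_ ?_ Q hQ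
  · rw [hDw]; exact hwp
  · rw [hDA4]; exact e4.1
  · rw [hDw, hDA4]; exact e4.2
  · rw [hd]; exact ed.1
  · rw [hDw, hd]; exact ed.2

/-- The multiplicative-reduction case, from an `IDatum` with integer coefficients
`A4 = u d^p`, `q ∣ d`, `q ∤ u`, `q ∤ A2`. -/
theorem fix_of_mult (P : FreyPackage) {q : ℕ}
    (v : RVal (AlgebraicClosure ℚ))
    (hv0 : ∀ n : ℤ, ¬ (q : ℤ) ∣ n → v.w (n : AlgebraicClosure ℚ) = 0)
    (hvpos : ∀ n : ℤ, n ≠ 0 → (q : ℤ) ∣ n → 0 < v.w (n : AlgebraicClosure ℚ))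
    (hwp : v.w (P.p : AlgebraicClosure ℚ) = 0)
    (σ : AlgebraicClosure ℚ ≃ₐ[ℚ] AlgebraicClosure ℚ)
    (D : IDatum (AlgebraicClosure ℚ) ((P.freyCurve)⁄(AlgebraicClosure ℚ)).Point)
    (hDw : D.w = v.w) (a2 a4 : ℤ)
    (hDA2 : D.A2 = (a2 : AlgebraicClosure ℚ)) (hDA4 : D.A4 = (a4 : AlgebraicClosure ℚ))
    (hDσ : ∀ x : AlgebraicClosure ℚ, D.σ x = σ x)
    (hDφ : ∀ Q : ((P.freyCurve)⁄(AlgebraicClosure ℚ)).Point, D.φ Q = σ • Q)
    (h2 : ¬ (q : ℤ) ∣ a2) (d u : ℤ) (hd0 : d ≠ 0) (hd : (q : ℤ) ∣ d) (hu : ¬ (q : ℤ) ∣ u)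
    (h4 : a4 = u * d ^ P.p)
    (Q : ((P.freyCurve)⁄(AlgebraicClosure ℚ)).Point) (hQ : P.p • Q = 0) : σ • Q = Q := by
  rw [← hDφ Q]
  have hp2 : P.p ≠ 2 := by have := P.hp5; omega
  have hpK : ((P.p : ℕ) : AlgebraicClosure ℚ) ≠ 0 := Nat.cast_ne_zero.mpr P.hp0
  have e2 := unit_of_not_dvd hv0 h2
  have eu := unit_of_not_dvd hv0 hu
  refine φ_eq_of_mult D P.p P.pp hp2 hpK ?_ ?_ ?_ (d : AlgebraicClosure ℚ)
    (u : AlgebraicClosure ℚ) ?_ ?_ ?_ eu.1 ?_ ?_ Q hQ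
  · rw [hDw]; exact hwp
  · rw [hDA2]; exact e2.1
  · rw [hDw, hDA2]; exact e2.2
  · exact Int.cast_ne_zero.mpr hd0
  · rw [hDw]; exact hvpos d hd0 hd
  · rw [hDσ]; exact map_intCast σ d
  · rw [hDw]; exact eu.2
  · rw [hDA4, h4]; push_cast; ring

/-- Every inertia-like automorphism fixes the `p`-torsion of the Frey curve. -/
theorem smul_eq_self (P : FreyPackage) {q : ℕ} (hq : q.Prime) (hq2 : q ≠ 2) (hqp : q ≠ P.p)
    (v : RVal (AlgebraicClosure ℚ))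
    (hv0 : ∀ n : ℤ, ¬ (q : ℤ) ∣ n → v.w (n : AlgebraicClosure ℚ) = 0)
    (hvpos : ∀ n : ℤ, n ≠ 0 → (q : ℤ) ∣ n → 0 < v.w (n : AlgebraicClosure ℚ))
    (σ : AlgebraicClosure ℚ ≃ₐ[ℚ] AlgebraicClosure ℚ)
    (hσw : ∀ x : AlgebraicClosure ℚ, x ≠ 0 → v.w (σ x) = v.w x)
    (hσc : ∀ x : AlgebraicClosure ℚ, x ≠ 0 → 0 ≤ v.w x → σ x = x ∨ 0 < v.w (σ x - x))
    (Q : ((P.freyCurve)⁄(AlgebraicClosure ℚ)).Point) (hQ : P.p • Q = 0) : σ • Q = Q := by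
  -- the valuation of `2` and of `p`
  have hw2 : v.w (2 : AlgebraicClosure ℚ) = 0 := by
    have h : ¬ (q : ℤ) ∣ (2 : ℤ) := by
      intro h
      have h' : q ∣ 2 := by exact_mod_cast h
      exact hq2 ((Nat.prime_dvd_prime_iff_eq hq Nat.prime_two).mp h')
    have := hv0 2 h
    simpa using this
  have hwp : v.w (P.p : AlgebraicClosure ℚ) = 0 := by
    have h : ¬ (q : ℤ) ∣ (P.p : ℤ) := by
      intro h
      have h' : q ∣ P.p := by exact_mod_cast h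
      exact hqp ((Nat.prime_dvd_prime_iff_eq hq P.pp).mp h')
    have := hv0 (P.p : ℤ) h
    simpa using this
  have hFLT := P.hFLT
  have hFLTq : (P.a : ℚ) ^ P.p + (P.b : ℚ) ^ P.p = (P.c : ℚ) ^ P.p := by exact_mod_cast P.hFLT
  -- integrality of integer coefficients
  have hint : ∀ n : ℤ, v.GE 0 (algebraMap ℚ (AlgebraicClosure ℚ) (n : ℚ)) := by
    intro n
    rw [map_intCast]
    exact RVal.GE.intCast n
  -- the datum for `r = 0`
  have key0 : ∃ D : IDatum (AlgebraicClosure ℚ) ((P.freyCurve)⁄(AlgebraicClosure ℚ)).Point,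
      D.w = v.w ∧ D.A2 = ((P.b ^ P.p - P.a ^ P.p : ℤ) : AlgebraicClosure ℚ) ∧
      D.A4 = ((-(P.a ^ P.p * P.b ^ P.p) : ℤ) : AlgebraicClosure ℚ) ∧
      (∀ x : AlgebraicClosure ℚ, D.σ x = σ x) ∧
      (∀ Q : ((P.freyCurve)⁄(AlgebraicClosure ℚ)).Point, D.φ Q = σ • Q) := by
    obtain ⟨D, h1, h2, h3, h4, h5⟩ := exists_idatum P 0
      ((P.b ^ P.p - P.a ^ P.p : ℤ) : ℚ) ((-(P.a ^ P.p * P.b ^ P.p) : ℤ) : ℚ)
      (by ring) (by push_cast; ring) (by push_cast; ring) v hw2 (hint _) (hint _) σ hσw hσc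
    exact ⟨D, h1, by rw [h2, map_intCast], by rw [h3, map_intCast], h4, h5⟩
  by_cases hqa : (q : ℤ) ∣ P.a
  · -- `q ∣ a`: multiplicative, `A4 = (-b^p) a^p`
    obtain ⟨D, hDw, hDA2, hDA4, hDσ, hDφ⟩ := key0
    have hqb : ¬ (q : ℤ) ∣ P.b := not_dvd_of_gcd hq P.hgcdab hqa
    refine fix_of_mult P v hv0 hvpos hwp σ D hDw _ _ hDA2 hDA4 hDσ hDφ ?_ P.a (-(P.b ^ P.p))
      P.ha0 hqa ?_ (by ring) Q hQ
    · intro h
      have h1 : (q : ℤ) ∣ P.a ^ P.p := dvd_pow hqa P.hp0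
      have h2 : (q : ℤ) ∣ P.b ^ P.p := by
        have := dvd_add h h1
        simpa using this
      exact not_dvd_pow hq hqb _ h2
    · rw [dvd_neg]; exact not_dvd_pow hq hqb _
  by_cases hqb : (q : ℤ) ∣ P.b
  · -- `q ∣ b`: multiplicative, `A4 = (-a^p) b^p`
    obtain ⟨D, hDw, hDA2, hDA4, hDσ, hDφ⟩ := key0
    refine fix_of_mult P v hv0 hvpos hwp σ D hDw _ _ hDA2 hDA4 hDσ hDφ ?_ P.b (-(P.a ^ P.p))
      P.hb0 hqb ?_ (by ring) Q hQ
    · intro h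
      have h1 : (q : ℤ) ∣ P.b ^ P.p := dvd_pow hqb P.hp0
      have h2 : (q : ℤ) ∣ P.a ^ P.p := by
        have := dvd_sub h1 h
        simpa using this
      exact not_dvd_pow hq hqa _ h2
    · rw [dvd_neg]; exact not_dvd_pow hq hqa _
  by_cases hqc : (q : ℤ) ∣ P.c
  · -- `q ∣ c`: multiplicative after the shift `r = a^p`, `A4 = a^p c^p`
    obtain ⟨D, hDw, hDA2, hDA4, hDσ, hDφ⟩ := exists_idatum P ((P.a ^ P.p : ℤ) : ℚ)
      ((P.a ^ P.p + P.c ^ P.p : ℤ) : ℚ) ((P.a ^ P.p * P.c ^ P.p : ℤ) : ℚ)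
      (by push_cast; ring) (by push_cast; linear_combination -hFLTq)
      (by push_cast; linear_combination -(P.a : ℚ) ^ P.p * hFLTq)
      v hw2 (hint _) (hint _) σ hσw hσc
    rw [map_intCast] at hDA2 hDA4
    refine fix_of_mult P v hv0 hvpos hwp σ D hDw _ _ hDA2 hDA4 hDσ hDφ ?_ P.c (P.a ^ P.p)
      P.hc0 hqc (not_dvd_pow hq hqa _) rfl Q hQ
    intro h
    have h1 : (q : ℤ) ∣ P.c ^ P.p := dvd_pow hqc P.hp0
    have h2 : (q : ℤ) ∣ P.a ^ P.p := by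
      have := dvd_sub h h1
      simpa using this
    exact not_dvd_pow hq hqa _ h2
  · -- `q ∤ abc`: good reduction, discriminant `c^(2p)`
    obtain ⟨D, hDw, hDA2, hDA4, hDσ, hDφ⟩ := key0
    refine fix_of_good P v hv0 hwp σ D hDw _ _ hDA2 hDA4 hDφ ?_ ?_ Q hQ
    · rw [dvd_neg]
      intro h
      rcases (Nat.prime_iff_prime_int.mp hq).dvd_or_dvd h with h | h
      · exact not_dvd_pow hq hqa _ h
      · exact not_dvd_pow hq hqb _ h
    · have e : (P.b ^ P.p - P.a ^ P.p) ^ 2 - 4 * -(P.a ^ P.p * P.b ^ P.p) = (P.c ^ P.p) ^ 2 := by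
        rw [← hFLT]; ring
      rw [e]
      exact not_dvd_pow hq (not_dvd_pow hq hqc _) _

end Glue

theorem result (P : FreyPackage) {q : ℕ} (hq : q.Prime) (hq2 : q ≠ 2) (hqp : q ≠ P.p) : P.GaloisRepUnramifiedAt q := by
  intro A hA σ hσ x
  obtain ⟨v, -, -, hv0, hvpos, hvσ, hvc⟩ := exists_rval A q hq hA
  apply Subtype.ext
  have hx := (Submodule.mem_torsionBy_iff _ _).mp x.2
  rw [natCast_zsmul] at hx
  exact Glue.smul_eq_self P hq hq2 hqp v hv0 hvpos σ (hvσ σ hσ) (hvc σ hσ) _ hx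

end Fermat.Agent.S05
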