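import Fermat.Agent.S05_Defs
import Fermat.Prelude.Def_FLTPrelim_Ramification

set_option autoImplicit false
set_option linter.unusedSectionVars false

/-!
# S05: the concrete datum

The abstract `KDatum` / `IDatum` of `S05_Defs` for a Weierstrass curve
`y² + x y = x³ + a₂ x² + a₄ x` over a field of characteristic `≠ 2`, in the coordinates
`ξ = 4 x - r`, `η = 8 y + 4 x`, and its specialisation to the Frey curve over `ℚ̄`.
-/

open WeierstrassCurve WeierstrassCurve.Affine WeierstrassCurve.Affine.Point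

namespace Fermat.Agent.S05.Datum

section General

variable {K : Type*} [Field K] [DecidableEq K] (W : Affine K)

/-- The coordinate `ξ = 4 x - r` (junk value `0` at the point at infinity). -/
def xi (r : K) : W.Point → K
  | .zero => 0
  | .some x _ _ => 4 * x - r

/-- The coordinate `η = 8 y + 4 x` (junk value `0` at the point at infinity). -/
def eta : W.Point → K
  | .zero => 0
  | .some x y _ => 8 * y + 4 * x

@[simp] theorem xi_some (r : K) {x y : K} (h : W.Nonsingular x y) :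
    xi W r (Point.some x y h) = 4 * x - r := rfl

@[simp] theorem eta_some {x y : K} (h : W.Nonsingular x y) :
    eta W (Point.some x y h) = 8 * y + 4 * x := rfl

@[simp] theorem xi_zero (r : K) : xi W r (0 : W.Point) = 0 := rfl

@[simp] theorem eta_zero : eta W (0 : W.Point) = 0 := rfl

variable {W}

/-- The hypotheses on the curve and the shift `r`: `a₁ = 1`, `a₃ = a₆ = 0`, and
`(4x)³ + (4a₂+1)(4x)² + 16 a₄ (4x) = ξ³ + A2 ξ² + A4 ξ` for `ξ = 4x - r`. -/
structure Shape (W : Affine K) (r A2 A4 : K) : Prop where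
  two_ne : (2 : K) ≠ 0
  a₁ : W.a₁ = 1
  a₃ : W.a₃ = 0
  a₆ : W.a₆ = 0
  a₂ : 4 * W.a₂ + 1 = A2 - 3 * r
  a₄ : 16 * W.a₄ = A4 - 2 * A2 * r + 3 * r ^ 2
  root : r * (r ^ 2 - A2 * r + A4) = 0

variable {r A2 A4 : K}

theorem Shape.four_ne (S : Shape W r A2 A4) : (4 : K) ≠ 0 := by
  have : (4 : K) = 2 * 2 := by norm_num
  rw [this]; exact mul_ne_zero S.two_ne S.two_ne

theorem Shape.eqn (S : Shape W r A2 A4) {x y : K} (h : W.Equation x y) :
    (8 * y + 4 * x) ^ 2 = (4 * x - r) * ((4 * x - r) ^ 2 + A2 * (4 * x - r) + A4) := by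
  rw [equation_iff, S.a₁, S.a₃, S.a₆] at h
  have h2 := S.a₂
  have h4 := S.a₄
  have hr := S.root
  linear_combination 64 * h + 16 * x ^ 2 * h2 + 4 * x * h4 + hr

theorem Shape.eqn_point (S : Shape W r A2 A4) (P : W.Point) (hP : P ≠ 0) :
    eta W P ^ 2 = xi W r P * (xi W r P ^ 2 + A2 * xi W r P + A4) := by
  cases P with
  | zero => exact absurd rfl hP
  | some x y h => exact S.eqn h.1

theorem xi_neg (r : K) (P : W.Point) : xi W r (-P) = xi W r P := by
  cases P with
  | zero => rfl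
  | some x y h => rfl

theorem Shape.eta_neg (S : Shape W r A2 A4) (P : W.Point) (hP : P ≠ 0) :
    eta W (-P) = -eta W P := by
  cases P with
  | zero => exact absurd rfl hP
  | some x y h =>
    rw [neg_some, eta_some, eta_some, negY, S.a₁, S.a₃]
    ring

theorem Shape.inj (S : Shape W r A2 A4) (P Q : W.Point) (hP : P ≠ 0) (hQ : Q ≠ 0)
    (hξ : xi W r P = xi W r Q) (hη : eta W P = eta W Q) : P = Q := by
  cases P with
  | zero => exact absurd rfl hP
  | some x₁ y₁ h₁ =>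
    cases Q with
    | zero => exact absurd rfl hQ
    | some x₂ y₂ h₂ =>
      rw [xi_some, xi_some] at hξ
      rw [eta_some, eta_some] at hη
      have h4 := S.four_ne
      have hx : x₁ = x₂ := by
        apply mul_left_cancel₀ h4
        linear_combination hξ
      subst hx
      have hy : y₁ = y₂ := by
        have h8 : (8 : K) ≠ 0 := by
          have : (8 : K) = 2 * 4 := by norm_num
          rw [this]; exact mul_ne_zero S.two_ne h4
        apply mul_left_cancel₀ h8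
        linear_combination hη
      subst hy
      rfl

theorem Shape.xi_add (S : Shape W r A2 A4) (P Q : W.Point) (hP : P ≠ 0) (hQ : Q ≠ 0)
    (hξ : xi W r P ≠ xi W r Q) :
    xi W r (P + Q) = ((eta W P - eta W Q) / (xi W r P - xi W r Q)) ^ 2 - A2 - xi W r P
      - xi W r Q := by
  cases P with
  | zero => exact absurd rfl hP
  | some x₁ y₁ h₁ =>
    cases Q with
    | zero => exact absurd rfl hQ
    | some x₂ y₂ h₂ =>
      have hx : x₁ ≠ x₂ := by
        rintro rfl
        exact hξ rfl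
      rw [add_of_X_ne hx, xi_some, xi_some, xi_some, eta_some, eta_some, slope_of_X_ne hx,
        addX, S.a₁]
      have h4 := S.four_ne
      have hx' : x₁ - x₂ ≠ 0 := sub_ne_zero.mpr hx
      have h2 := S.a₂
      have e : (8 * y₁ + 4 * x₁ - (8 * y₂ + 4 * x₂)) / (4 * x₁ - r - (4 * x₂ - r)) =
          2 * ((y₁ - y₂) / (x₁ - x₂)) + 1 := by
        have hd : 4 * x₁ - r - (4 * x₂ - r) = 4 * (x₁ - x₂) := by ring
        rw [hd]
        field_simp
        ring
      rw [e]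
      linear_combination -h2

theorem Shape.xi_dbl (S : Shape W r A2 A4) (P : W.Point) (hP : P ≠ 0) (hη : eta W P ≠ 0) :
    xi W r (P + P) = (xi W r P ^ 2 - A4) ^ 2 / (4 * eta W P ^ 2) := by
  cases P with
  | zero => exact absurd rfl hP
  | some x y h =>
    rw [eta_some] at hη
    have h4 := S.four_ne
    have hy : y ≠ W.negY x y := by
      intro hy
      apply hη
      rw [negY, S.a₁, S.a₃] at hy
      linear_combination 4 * hy
    have hy' : y - W.negY x y ≠ 0 := sub_ne_zero.mpr hy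
    have hyy : y - W.negY x y = 2 * y + x := by
      rw [negY, S.a₁, S.a₃]; ring
    rw [hyy] at hy'
    rw [add_self_of_Y_ne hy, xi_some, xi_some, eta_some, slope_of_Y_ne rfl hy, addX, S.a₁, hyy]
    have heq := h.1
    rw [equation_iff, S.a₁, S.a₃, S.a₆] at heq
    have h2 := S.a₂
    have h4' := S.a₄
    have hr := S.root
    have key : 64 * (4 * ((3 * x ^ 2 + 2 * W.a₂ * x + W.a₄ - y) ^ 2
        + (3 * x ^ 2 + 2 * W.a₂ * x + W.a₄ - y) * (2 * y + x)
        - (W.a₂ + 2 * x) * (2 * y + x) ^ 2) - r * (2 * y + x) ^ 2) =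
        ((4 * x - r) ^ 2 - A4) ^ 2 := by
      linear_combination (-256 * A2 + 512 * r - 2048 * x) * heq
        + (256 * W.a₂ * x ^ 2 + 256 * W.a₄ * x - 256 * y ^ 2 - 256 * y * x - 64 * r * x ^ 2
          + 256 * x ^ 3) * h2
        + (16 * W.a₄ + A4 - 2 * A2 * r + 3 * r ^ 2 - 16 * r * x - 32 * x ^ 2) * h4'
        + (-4 * A2 + 8 * r - 32 * x) * hr
    rw [eq_div_iff (mul_ne_zero h4 (pow_ne_zero 2 hη))]
    have e8 : (8 * y + 4 * x) = 4 * (2 * y + x) := by ring
    rw [e8]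
    field_simp
    linear_combination key

theorem Shape.dbl_zero (S : Shape W r A2 A4) (P : W.Point) (hP : P ≠ 0) (hη : eta W P = 0) :
    P + P = 0 := by
  cases P with
  | zero => exact absurd rfl hP
  | some x y h =>
    rw [eta_some] at hη
    apply add_self_of_Y_eq
    rw [negY, S.a₁, S.a₃]
    have h8 : (8 : K) ≠ 0 := by
      have : (8 : K) = 2 * 4 := by norm_num
      rw [this]; exact mul_ne_zero S.two_ne S.four_ne
    apply mul_left_cancel₀ h8
    linear_combination 2 * hη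

/-- The abstract datum attached to a curve of the given shape and a valuation. -/
noncomputable def kDatum (S : Shape W r A2 A4) (v : RVal K) (hw2 : v.w 2 = 0)
    (hA2 : v.GE 0 A2) (hA4 : v.GE 0 A4) : KDatum K W.Point where
  toRVal := v
  two_ne := S.two_ne
  w_two := hw2
  A2 := A2
  A4 := A4
  A2_int := hA2
  A4_int := hA4
  ξ := xi W r
  η := eta W
  eqn := S.eqn_point
  ξ_neg := xi_neg r
  η_neg := S.eta_neg
  inj := S.inj
  ξ_add := S.xi_add
  ξ_dbl := S.xi_dbl
  dbl_zero := S.dbl_zero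

end General

section Galois

variable {F K : Type*} [Field F] [Field K] [DecidableEq K] [Algebra F K] (W : WeierstrassCurve F)

/-- The Galois action on affine points is the coordinatewise one. -/
theorem smul_some' (σ : K ≃ₐ[F] K) {x y : K} (h : (W⁄K).Nonsingular x y) :
    ∃ h' : (W⁄K).Nonsingular (σ x) (σ y),
      σ • (Point.some x y h : (W⁄K).Point) = Point.some (σ x) (σ y) h' :=
  ⟨_, rfl⟩

theorem smul_eq_zero_iff' (σ : K ≃ₐ[F] K) (P : (W⁄K).Point) : σ • P = 0 ↔ P = 0 := by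
  constructor
  · intro h
    cases P with
    | zero => rfl
    | some x y hxy =>
      obtain ⟨h', he⟩ := smul_some' W σ hxy
      rw [he] at h
      exact absurd h (Point.some_ne_zero h')
  · rintro rfl
    exact smul_zero σ

theorem xi_smul {r : K} (σ : K ≃ₐ[F] K) (hr : σ r = r) (P : (W⁄K).Point) :
    xi (W⁄K) r (σ • P) = σ (xi (W⁄K) r P) := by
  cases P with
  | zero => exact (map_zero σ).symm
  | some x y h =>
    obtain ⟨h', he⟩ := smul_some' W σ h
    rw [he, xi_some, xi_some, map_sub, map_mul, hr, map_ofNat]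

theorem eta_smul (σ : K ≃ₐ[F] K) (P : (W⁄K).Point) :
    eta (W⁄K) (σ • P) = σ (eta (W⁄K) P) := by
  cases P with
  | zero => exact (map_zero σ).symm
  | some x y h =>
    obtain ⟨h', he⟩ := smul_some' W σ h
    rw [he, eta_some, eta_some, map_add, map_mul, map_mul, map_ofNat, map_ofNat]

/-- The abstract datum with automorphism attached to a base-changed curve of the given shape,
a valuation, and an automorphism of the top field that preserves the valuation and is congruent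
to the identity on integral elements. -/
noncomputable def iDatum {r A2 A4 : K} (S : Shape (W⁄K) r A2 A4) (v : RVal K)
    (hw2 : v.w 2 = 0) (hA2 : v.GE 0 A2) (hA4 : v.GE 0 A4) (σ : K ≃ₐ[F] K)
    (hr : σ r = r) (hσA2 : σ A2 = A2) (hσA4 : σ A4 = A4)
    (hwσ : ∀ x : K, x ≠ 0 → v.w (σ x) = v.w x)
    (hcong : ∀ x : K, x ≠ 0 → 0 ≤ v.w x → σ x = x ∨ 0 < v.w (σ x - x)) :
    IDatum K (W⁄K).Point where
  toKDatum := kDatum S v hw2 hA2 hA4
  σ := (σ : K →+* K)
  φ := DistribSMul.toAddMonoidHom (W⁄K).Point σ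
  w_σ := hwσ
  σ_cong := hcong
  σ_A2 := hσA2
  σ_A4 := hσA4
  ξ_φ := fun P _ => xi_smul W σ hr P
  η_φ := fun P _ => eta_smul W σ P
  φ_ne := fun P hP h => hP ((smul_eq_zero_iff' W σ P).mp h)

end Galois

section Frey

variable (P : FreyPackage)

theorem frey_a₁ : (P.freyCurve⁄(AlgebraicClosure ℚ)).a₁ = 1 := by
  simp [WeierstrassCurve.baseChange, FreyPackage.freyCurve]

theorem frey_a₃ : (P.freyCurve⁄(AlgebraicClosure ℚ)).a₃ = 0 := by
  simp [WeierstrassCurve.baseChange, FreyPackage.freyCurve]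

theorem frey_a₆ : (P.freyCurve⁄(AlgebraicClosure ℚ)).a₆ = 0 := by
  simp [WeierstrassCurve.baseChange, FreyPackage.freyCurve]

theorem frey_a₂ : (P.freyCurve⁄(AlgebraicClosure ℚ)).a₂ =
    ((P.b : AlgebraicClosure ℚ) ^ P.p - 1 - (P.a : AlgebraicClosure ℚ) ^ P.p) / 4 := by
  simp [WeierstrassCurve.baseChange, FreyPackage.freyCurve]

theorem frey_a₄ : (P.freyCurve⁄(AlgebraicClosure ℚ)).a₄ =
    -((P.a : AlgebraicClosure ℚ) ^ P.p) * (P.b : AlgebraicClosure ℚ) ^ P.p / 16 := by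
  simp [WeierstrassCurve.baseChange, FreyPackage.freyCurve]

/-- `a^p + b^p = c^p` in `ℚ̄`. -/
theorem frey_flt : (P.a : AlgebraicClosure ℚ) ^ P.p + (P.b : AlgebraicClosure ℚ) ^ P.p =
    (P.c : AlgebraicClosure ℚ) ^ P.p := by
  exact_mod_cast congrArg (Int.cast : ℤ → AlgebraicClosure ℚ) P.hFLT

/-- The Frey curve in the coordinates `ξ = 4x`, `η = 8y + 4x`:
`η² = ξ (ξ² + (b^p - a^p) ξ - a^p b^p)`. -/
theorem frey_shape_zero : Shape (P.freyCurve⁄(AlgebraicClosure ℚ)) 0
    ((P.b : AlgebraicClosure ℚ) ^ P.p - (P.a : AlgebraicClosure ℚ) ^ P.p)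
    (-((P.a : AlgebraicClosure ℚ) ^ P.p * (P.b : AlgebraicClosure ℚ) ^ P.p)) where
  two_ne := two_ne_zero
  a₁ := frey_a₁ P
  a₃ := frey_a₃ P
  a₆ := frey_a₆ P
  a₂ := by rw [frey_a₂]; ring
  a₄ := by rw [frey_a₄]; ring
  root := by ring

/-- The Frey curve in the coordinates `ξ = 4x - a^p`, `η = 8y + 4x`:
`η² = ξ (ξ² + (a^p + c^p) ξ + a^p c^p)`. -/
theorem frey_shape_a : Shape (P.freyCurve⁄(AlgebraicClosure ℚ)) ((P.a : AlgebraicClosure ℚ) ^ P.p)
    ((P.a : AlgebraicClosure ℚ) ^ P.p + (P.c : AlgebraicClosure ℚ) ^ P.p)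
    ((P.a : AlgebraicClosure ℚ) ^ P.p * (P.c : AlgebraicClosure ℚ) ^ P.p) where
  two_ne := two_ne_zero
  a₁ := frey_a₁ P
  a₃ := frey_a₃ P
  a₆ := frey_a₆ P
  a₂ := by rw [frey_a₂, ← frey_flt]; ring
  a₄ := by rw [frey_a₄, ← frey_flt]; ring
  root := by rw [← frey_flt]; ring

/-- Powers of integers are integral for any valuation. -/
theorem int_pow_ge {K : Type*} [Field K] (v : RVal K) (n : ℤ) (k : ℕ) :
    v.GE 0 ((n : K) ^ k) := by
  have h := RVal.GE.intCast (v := v) (n ^ k)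
  rwa [Int.cast_pow] at h

section Zero

variable (v : RVal (AlgebraicClosure ℚ)) (hw2 : v.w 2 = 0)
  (σ : AlgebraicClosure ℚ ≃ₐ[ℚ] AlgebraicClosure ℚ)
  (hwσ : ∀ x : AlgebraicClosure ℚ, x ≠ 0 → v.w (σ x) = v.w x)
  (hcong : ∀ x : AlgebraicClosure ℚ, x ≠ 0 → 0 ≤ v.w x → σ x = x ∨ 0 < v.w (σ x - x))

/-- The datum of the Frey curve over `ℚ̄` in the coordinates `ξ = 4x`, `η = 8y + 4x`
(node at `ξ = 0` when the residue characteristic divides `a b`), with the automorphism `σ`. -/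
noncomputable def freyIDatumZero :
    IDatum (AlgebraicClosure ℚ) (P.freyCurve⁄(AlgebraicClosure ℚ)).Point :=
  iDatum P.freyCurve (frey_shape_zero P) v hw2
    ((int_pow_ge v P.b P.p).sub (int_pow_ge v P.a P.p))
    (((int_pow_ge v P.a P.p).mul_int (int_pow_ge v P.b P.p)).neg)
    σ (map_zero σ) (by simp) (by simp) hwσ hcong

@[simp] theorem freyIDatumZero_w : (freyIDatumZero P v hw2 σ hwσ hcong).w = v.w := rfl

@[simp] theorem freyIDatumZero_toRVal : (freyIDatumZero P v hw2 σ hwσ hcong).toRVal = v := rfl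

@[simp] theorem freyIDatumZero_A2 : (freyIDatumZero P v hw2 σ hwσ hcong).A2 =
    (P.b : AlgebraicClosure ℚ) ^ P.p - (P.a : AlgebraicClosure ℚ) ^ P.p := rfl

@[simp] theorem freyIDatumZero_A4 : (freyIDatumZero P v hw2 σ hwσ hcong).A4 =
    -((P.a : AlgebraicClosure ℚ) ^ P.p * (P.b : AlgebraicClosure ℚ) ^ P.p) := rfl

@[simp] theorem freyIDatumZero_ξ_some {x y : AlgebraicClosure ℚ}
    (h : (P.freyCurve⁄(AlgebraicClosure ℚ)).Nonsingular x y) :
    (freyIDatumZero P v hw2 σ hwσ hcong).ξ (Point.some x y h) = 4 * x :=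
  sub_zero _

@[simp] theorem freyIDatumZero_η_some {x y : AlgebraicClosure ℚ}
    (h : (P.freyCurve⁄(AlgebraicClosure ℚ)).Nonsingular x y) :
    (freyIDatumZero P v hw2 σ hwσ hcong).η (Point.some x y h) = 8 * y + 4 * x := rfl

@[simp] theorem freyIDatumZero_σ (x : AlgebraicClosure ℚ) :
    (freyIDatumZero P v hw2 σ hwσ hcong).σ x = σ x := rfl

@[simp] theorem freyIDatumZero_φ (Q : (P.freyCurve⁄(AlgebraicClosure ℚ)).Point) :
    (freyIDatumZero P v hw2 σ hwσ hcong).φ Q = σ • Q := rfl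

/-- The datum of the Frey curve over `ℚ̄` in the coordinates `ξ = 4x - a^p`, `η = 8y + 4x`
(node at `ξ = 0` when the residue characteristic divides `c`), with the automorphism `σ`. -/
noncomputable def freyIDatumA :
    IDatum (AlgebraicClosure ℚ) (P.freyCurve⁄(AlgebraicClosure ℚ)).Point :=
  iDatum P.freyCurve (frey_shape_a P) v hw2
    ((int_pow_ge v P.a P.p).add (int_pow_ge v P.c P.p))
    ((int_pow_ge v P.a P.p).mul_int (int_pow_ge v P.c P.p))
    σ (by simp) (by simp) (by simp) hwσ hcong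

@[simp] theorem freyIDatumA_w : (freyIDatumA P v hw2 σ hwσ hcong).w = v.w := rfl

@[simp] theorem freyIDatumA_toRVal : (freyIDatumA P v hw2 σ hwσ hcong).toRVal = v := rfl

@[simp] theorem freyIDatumA_A2 : (freyIDatumA P v hw2 σ hwσ hcong).A2 =
    (P.a : AlgebraicClosure ℚ) ^ P.p + (P.c : AlgebraicClosure ℚ) ^ P.p := rfl

@[simp] theorem freyIDatumA_A4 : (freyIDatumA P v hw2 σ hwσ hcong).A4 =
    (P.a : AlgebraicClosure ℚ) ^ P.p * (P.c : AlgebraicClosure ℚ) ^ P.p := rfl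

@[simp] theorem freyIDatumA_ξ_some {x y : AlgebraicClosure ℚ}
    (h : (P.freyCurve⁄(AlgebraicClosure ℚ)).Nonsingular x y) :
    (freyIDatumA P v hw2 σ hwσ hcong).ξ (Point.some x y h) =
      4 * x - (P.a : AlgebraicClosure ℚ) ^ P.p := rfl

@[simp] theorem freyIDatumA_η_some {x y : AlgebraicClosure ℚ}
    (h : (P.freyCurve⁄(AlgebraicClosure ℚ)).Nonsingular x y) :
    (freyIDatumA P v hw2 σ hwσ hcong).η (Point.some x y h) = 8 * y + 4 * x := rfl

@[simp] theorem freyIDatumA_σ (x : AlgebraicClosure ℚ) :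
    (freyIDatumA P v hw2 σ hwσ hcong).σ x = σ x := rfl

@[simp] theorem freyIDatumA_φ (Q : (P.freyCurve⁄(AlgebraicClosure ℚ)).Point) :
    (freyIDatumA P v hw2 σ hwσ hcong).φ Q = σ • Q := rfl

end Zero

/-- Reduction of the statement of S05 to a statement about points: it suffices that every
inertia element at a place over `q` fixes every point killed by `p`. -/
theorem galoisRepUnramifiedAt_of_forall (q : ℕ)
    (H : ∀ A : ValuationSubring (AlgebraicClosure ℚ), A.LiesOverPrime q →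
      ∀ σ ∈ A.inertiaSubgroupIn ℚ, ∀ Q : (P.freyCurve⁄(AlgebraicClosure ℚ)).Point,
        P.p • Q = 0 → σ • Q = Q) :
    P.GaloisRepUnramifiedAt q := by
  intro A hA σ hσ x
  apply Subtype.ext
  have hx := x.2
  rw [Submodule.mem_torsionBy_iff, natCast_zsmul] at hx
  exact H A hA σ hσ x.1 hx

/-- The shape of the Frey curve for a rational shift `r`, a root of `X (X - a^p) (X + b^p)`. -/
theorem frey_shape_rat (r A2 A4 : ℚ)
    (hr : r * (r - (P.a : ℚ) ^ P.p) * (r + (P.b : ℚ) ^ P.p) = 0)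
    (hA2 : A2 = (P.b : ℚ) ^ P.p - (P.a : ℚ) ^ P.p + 3 * r)
    (hA4 : A4 = 3 * r ^ 2 + 2 * ((P.b : ℚ) ^ P.p - (P.a : ℚ) ^ P.p) * r
      - (P.a : ℚ) ^ P.p * (P.b : ℚ) ^ P.p) :
    Shape (P.freyCurve⁄(AlgebraicClosure ℚ)) (algebraMap ℚ (AlgebraicClosure ℚ) r)
      (algebraMap ℚ (AlgebraicClosure ℚ) A2) (algebraMap ℚ (AlgebraicClosure ℚ) A4) where
  two_ne := two_ne_zero
  a₁ := frey_a₁ P
  a₃ := frey_a₃ P
  a₆ := frey_a₆ P
  a₂ := by
    have h : (4 * P.freyCurve.a₂ + 1 : ℚ) = A2 - 3 * r := by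
      rw [hA2]; simp only [FreyPackage.freyCurve]; ring
    have h' := congrArg (algebraMap ℚ (AlgebraicClosure ℚ)) h
    rw [map_add, map_mul, map_sub, map_mul, map_one, map_ofNat, map_ofNat] at h'
    exact h'
  a₄ := by
    have h : (16 * P.freyCurve.a₄ : ℚ) = A4 - 2 * A2 * r + 3 * r ^ 2 := by
      rw [hA4, hA2]; simp only [FreyPackage.freyCurve]; ring
    have h' := congrArg (algebraMap ℚ (AlgebraicClosure ℚ)) h
    rw [map_add, map_sub, map_mul, map_mul, map_mul, map_mul, map_pow, map_ofNat, map_ofNat,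
      map_ofNat] at h'
    exact h'
  root := by
    have h : r * (r ^ 2 - A2 * r + A4) = 0 := by
      rw [hA4, hA2]; linear_combination hr
    have h' := congrArg (algebraMap ℚ (AlgebraicClosure ℚ)) h
    rw [map_mul, map_add, map_sub, map_mul, map_pow, _root_.map_zero] at h'
    exact h'

end Frey

end Fermat.Agent.S05.Datum

namespace Fermat.Agent.S05

open WeierstrassCurve WeierstrassCurve.Affine WeierstrassCurve.Affine.Point in
/-- The abstract datum of the Frey curve over `ℚ̄` in the coordinates `ξ = 4x - r`,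
`η = 8y + 4x`, where `r` is a root of `X (X - a^p) (X + b^p)`. -/
theorem exists_idatum (P : FreyPackage) (r A2 A4 : ℚ)
    (hr : r * (r - (P.a : ℚ) ^ P.p) * (r + (P.b : ℚ) ^ P.p) = 0)
    (hA2 : A2 = (P.b : ℚ) ^ P.p - (P.a : ℚ) ^ P.p + 3 * r)
    (hA4 : A4 = 3 * r ^ 2 + 2 * ((P.b : ℚ) ^ P.p - (P.a : ℚ) ^ P.p) * r
      - (P.a : ℚ) ^ P.p * (P.b : ℚ) ^ P.p)
    (v : RVal (AlgebraicClosure ℚ)) (hw2 : v.w 2 = 0)
    (hA2i : v.GE 0 (algebraMap ℚ (AlgebraicClosure ℚ) A2))
    (hA4i : v.GE 0 (algebraMap ℚ (AlgebraicClosure ℚ) A4))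
    (σ : AlgebraicClosure ℚ ≃ₐ[ℚ] AlgebraicClosure ℚ)
    (hσw : ∀ x : AlgebraicClosure ℚ, x ≠ 0 → v.w (σ x) = v.w x)
    (hσc : ∀ x : AlgebraicClosure ℚ, x ≠ 0 → 0 ≤ v.w x → σ x = x ∨ 0 < v.w (σ x - x)) :
    ∃ D : IDatum (AlgebraicClosure ℚ) ((P.freyCurve)⁄(AlgebraicClosure ℚ)).Point,
      D.w = v.w ∧ D.A2 = algebraMap ℚ (AlgebraicClosure ℚ) A2 ∧
      D.A4 = algebraMap ℚ (AlgebraicClosure ℚ) A4 ∧
      (∀ x : AlgebraicClosure ℚ, D.σ x = σ x) ∧
      (∀ Q : ((P.freyCurve)⁄(AlgebraicClosure ℚ)).Point, D.φ Q = σ • Q) :=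
  ⟨Datum.iDatum P.freyCurve (Datum.frey_shape_rat P r A2 A4 hr hA2 hA4) v hw2 hA2i hA4i σ
      (σ.commutes r) (σ.commutes A2) (σ.commutes A4) hσw hσc,
    rfl, rfl, rfl, fun _ => rfl, fun _ => rfl⟩

end Fermat.Agent.S05
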