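import Mathlib

/-!
# S05: the folding induction (pure real-number part of L5)

If a sequence `lam k ∈ (0, m)`, `1 ≤ k ≤ p - 1`, satisfies the "folding" recurrence
`{lam (k+1), lam (k-1)} = {|lam k - lam 1|, min (lam k + lam 1) (2m - lam k - lam 1)}`,
`lam 2 = min (2 lam 1) (2m - 2 lam 1)` and is symmetric in the middle, then
`p * lam 1 ∈ 2 m ℕ`.
-/

set_option autoImplicit false

namespace Fermat.Agent.S05.Fold

/-- `x ≡ ± y` modulo `2 m ℤ`. -/
def Rel (m x y : ℝ) : Prop := ∃ n : ℤ, x = y + 2 * m * n ∨ x = -y + 2 * m * n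

theorem Rel.refl (m x : ℝ) : Rel m x x := ⟨0, Or.inl (by simp)⟩

theorem Rel.symm {m x y : ℝ} (h : Rel m x y) : Rel m y x := by
  obtain ⟨n, h | h⟩ := h
  · exact ⟨-n, Or.inl (by rw [h]; push_cast; ring)⟩
  · exact ⟨n, Or.inr (by rw [h]; ring)⟩

theorem Rel.trans {m x y z : ℝ} (h1 : Rel m x y) (h2 : Rel m y z) : Rel m x z := by
  obtain ⟨n, h1 | h1⟩ := h1 <;> obtain ⟨k, h2 | h2⟩ := h2
  · exact ⟨n + k, Or.inl (by rw [h1, h2]; push_cast; ring)⟩
  · exact ⟨n + k, Or.inr (by rw [h1, h2]; push_cast; ring)⟩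
  · exact ⟨n - k, Or.inr (by rw [h1, h2]; push_cast; ring)⟩
  · exact ⟨n - k, Or.inl (by rw [h1, h2]; push_cast; ring)⟩

theorem rel_abs (m x : ℝ) : Rel m |x| x := by
  rcases abs_choice x with h | h
  · exact ⟨0, Or.inl (by rw [h]; simp)⟩
  · exact ⟨0, Or.inr (by rw [h]; simp)⟩

theorem rel_min (m x : ℝ) : Rel m (min x (2 * m - x)) x := by
  rcases min_choice x (2 * m - x) with h | h
  · exact ⟨0, Or.inl (by rw [h]; simp)⟩
  · exact ⟨1, Or.inr (by rw [h]; push_cast; ring)⟩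

/-- the two candidates are equivalent to `(k-1) lam 1` and `(k+1) lam 1` in some order -/
theorem rel_pair {m l1 lk : ℝ} (k : ℕ) (h : Rel m lk (k * l1)) :
    (Rel m |lk - l1| ((k : ℝ) * l1 - l1) ∧ Rel m (min (lk + l1) (2 * m - lk - l1))
        ((k : ℝ) * l1 + l1)) ∨
    (Rel m |lk - l1| ((k : ℝ) * l1 + l1) ∧ Rel m (min (lk + l1) (2 * m - lk - l1))
        ((k : ℝ) * l1 - l1)) := by
  have hmin : Rel m (min (lk + l1) (2 * m - lk - l1)) (lk + l1) := by
    have := rel_min m (lk + l1)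
    rwa [show 2 * m - (lk + l1) = 2 * m - lk - l1 by ring] at this
  obtain ⟨n, h | h⟩ := h
  · left
    refine ⟨(rel_abs m _).trans ⟨n, Or.inl (by rw [h]; ring)⟩,
      hmin.trans ⟨n, Or.inl (by rw [h]; ring)⟩⟩
  · right
    refine ⟨(rel_abs m _).trans ⟨n, Or.inr (by rw [h]; ring)⟩,
      hmin.trans ⟨n, Or.inr (by rw [h]; ring)⟩⟩

theorem fold_rel (m : ℝ) (p : ℕ) (lam : ℕ → ℝ)
    (h2 : lam 2 = min (2 * lam 1) (2 * m - 2 * lam 1))
    (hstep : ∀ k, 2 ≤ k → k + 2 ≤ p →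
      (lam (k + 1) = |lam k - lam 1| ∧
          lam (k - 1) = min (lam k + lam 1) (2 * m - lam k - lam 1)) ∨
      (lam (k + 1) = min (lam k + lam 1) (2 * m - lam k - lam 1) ∧
          lam (k - 1) = |lam k - lam 1|)) :
    ∀ k : ℕ, (k + 2 ≤ p → Rel m (lam (k + 1)) ((k + 1 : ℕ) * lam 1)) ∧
      (k + 3 ≤ p → Rel m (lam (k + 2)) ((k + 2 : ℕ) * lam 1)) := by
  intro k
  induction k with
  | zero =>
    refine ⟨fun _ => ?_, fun _ => ?_⟩
    · simpa using Rel.refl m (lam 1)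
    · rw [h2]
      have := rel_min m (2 * lam 1)
      simpa using this
  | succ k ih =>
    refine ⟨fun hk => ih.2 (by omega), fun hk => ?_⟩
    have ih1 := ih.1 (by omega)
    have ih2 := ih.2 (by omega)
    have hs := hstep (k + 2) (by omega) (by omega)
    have e1 : k + 2 + 1 = k + 1 + 2 := by ring
    have e2 : k + 2 - 1 = k + 1 := by omega
    rw [e1, e2] at hs
    have hpair := rel_pair (m := m) (l1 := lam 1) (lk := lam (k + 2)) (k + 2) ih2
    have c1 : ((k + 2 : ℕ) : ℝ) * lam 1 - lam 1 = ((k + 1 : ℕ) : ℝ) * lam 1 := by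
      push_cast; ring
    have c2 : ((k + 2 : ℕ) : ℝ) * lam 1 + lam 1 = ((k + 1 + 2 : ℕ) : ℝ) * lam 1 := by
      push_cast; ring
    rw [c1, c2] at hpair
    rcases hs with ⟨ha, hb⟩ | ⟨ha, hb⟩ <;> rcases hpair with ⟨pa, pb⟩ | ⟨pa, pb⟩
    · -- lam (k+3) = a ~ (k+1) lam 1 ~ lam (k+1) = b ~ (k+3) lam 1
      rw [ha]
      refine pa.trans (ih1.symm.trans ?_)
      rw [hb]; exact pb
    · rw [ha]; exact pa
    · rw [ha]; exact pb
    · rw [ha]
      refine pb.trans (ih1.symm.trans ?_)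
      rw [hb]; exact pa

/-- **The folding induction.** -/
theorem fold_mul_mem (m : ℝ) (p : ℕ) (hp : Odd p) (hp3 : 3 ≤ p) (lam : ℕ → ℝ)
    (hpos : ∀ k, 1 ≤ k → k ≤ p - 1 → 0 < lam k ∧ lam k < m)
    (h2 : lam 2 = min (2 * lam 1) (2 * m - 2 * lam 1))
    (hstep : ∀ k, 2 ≤ k → k + 2 ≤ p →
      (lam (k + 1) = |lam k - lam 1| ∧
          lam (k - 1) = min (lam k + lam 1) (2 * m - lam k - lam 1)) ∨
      (lam (k + 1) = min (lam k + lam 1) (2 * m - lam k - lam 1) ∧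
          lam (k - 1) = |lam k - lam 1|))
    (hsymm : lam ((p + 1) / 2) = lam ((p - 1) / 2)) :
    ∃ j : ℕ, (p : ℝ) * lam 1 = 2 * m * j := by
  obtain ⟨t, rfl⟩ := hp
  have ht : 1 ≤ t := by omega
  have e1 : (2 * t + 1 + 1) / 2 = t + 1 := by omega
  have e2 : (2 * t + 1 - 1) / 2 = t := by omega
  rw [e1, e2] at hsymm
  obtain ⟨h1pos, h1lt⟩ := hpos 1 le_rfl (by omega)
  have hm : 0 < m := h1pos.trans h1lt
  have key := fold_rel m (2 * t + 1) lam h2 hstep (t - 1)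
  have ra : Rel m (lam t) ((t : ℕ) * lam 1) := by
    have := key.1 (by omega)
    rwa [show t - 1 + 1 = t by omega] at this
  have rb : Rel m (lam (t + 1)) ((t + 1 : ℕ) * lam 1) := by
    have := key.2 (by omega)
    rwa [show t - 1 + 2 = t + 1 by omega] at this
  rw [hsymm] at rb
  obtain ⟨n, h | h⟩ := rb.symm.trans ra
  · -- lam 1 = 2 m n : impossible
    exfalso
    have h' : lam 1 = 2 * m * n := by push_cast at h; linarith
    have hn0 : (0 : ℝ) < n := by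
      by_contra hcon
      push Not at hcon
      have : 2 * m * (n : ℝ) ≤ 0 := mul_nonpos_of_nonneg_of_nonpos (by linarith) hcon
      linarith
    have hn0' : (0 : ℤ) < n := by exact_mod_cast hn0
    have hn1 : (1 : ℤ) ≤ n := hn0'
    have : (1 : ℝ) ≤ n := by exact_mod_cast hn1
    nlinarith
  · have h' : ((2 * t + 1 : ℕ) : ℝ) * lam 1 = 2 * m * n := by push_cast at h ⊢; linarith
    have hn0 : (0 : ℝ) < n := by
      by_contra hcon
      push Not at hcon
      have h3 : 2 * m * (n : ℝ) ≤ 0 := mul_nonpos_of_nonneg_of_nonpos (by linarith) hcon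
      have h4 : (0 : ℝ) < ((2 * t + 1 : ℕ) : ℝ) * lam 1 := by positivity
      linarith
    have hn : (0 : ℤ) ≤ n := by exact_mod_cast hn0.le
    refine ⟨n.toNat, ?_⟩
    rw [h']
    congr 1
    have : ((n.toNat : ℤ) : ℝ) = (n : ℝ) := by rw [Int.toNat_of_nonneg hn]
    exact_mod_cast this.symm

end Fermat.Agent.S05.Fold
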