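import Mathlib
import Fermat.Agent.S05_Defs
import Fermat.Agent.S05_Tors
import Fermat.Agent.S05_Red

set_option autoImplicit false

/-!
# S05: multiplicative reduction, points of `E₀`

For a node at the origin (`A2` a unit, `w A4 > 0`), every `p`-torsion point of `E₀` has
nonsingular reduction, hence is fixed by the inertia-like automorphism.
-/

namespace Fermat.Agent.S05

variable {K : Type*} [Field K] {G : Type*} [AddCommGroup G]

namespace MultE0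

open Red

/-- A nonzero `p`-torsion point of `E₀` has `w ξ = 0`. -/
theorem w_ξ_eq_zero (D : KDatum K G) (p : ℕ) (hp : p.Prime) (hp2 : p ≠ 2)
    (hpK : (p : K) ≠ 0) (hwp : D.w (p : K) = 0) {P : G} (hP0 : P ≠ 0) (hP : P ∈ D.E0)
    (hpP : p • P = 0) : D.ξ P ≠ 0 ∧ D.w (D.ξ P) = 0 := by
  rcases hP with h | ⟨h1, h2⟩
  · exact absurd h hP0
  · exact ⟨h1, le_antisymm h2 (w_ξ_nonneg_of_torsion D p hp hp2 hpK hwp hP0 hpP h1)⟩

/-- Node at the origin: a point with `ξ` a unit has nonsingular reduction. -/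
theorem nonsingular_of_unit (D : KDatum K G)
    (hA4 : D.GT 0 D.A4) {P : G} (hP0 : P ≠ 0) (hξ : D.ξ P ≠ 0) (hwξ : D.w (D.ξ P) = 0) :
    (D.η P ≠ 0 ∧ D.w (D.η P) = 0) ∨ (D.f' (D.ξ P) ≠ 0 ∧ D.w (D.f' (D.ξ P)) = 0) := by
  have hξge : D.GE 0 (D.ξ P) := RVal.GE.of_le hwξ.ge
  have hη : D.GE 0 (D.η P) := η_ge D hP0 hξge
  by_cases hunit : D.η P ≠ 0 ∧ D.w (D.η P) = 0
  · exact Or.inl hunit
  right
  set x : K := D.ξ P with hx
  -- `η²` has positive valuation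
  have hη2 : D.GT 0 (D.η P ^ 2) := by
    rcases eq_or_ne (D.η P) 0 with h | h
    · rw [h]; simp [RVal.GT.zero]
    · have h1 : 0 ≤ D.w (D.η P) := hη.le h
      have h2 : D.w (D.η P) ≠ 0 := fun h0 => hunit ⟨h, h0⟩
      have h3 : 0 < D.w (D.η P) := lt_of_le_of_ne h1 (Ne.symm h2)
      refine RVal.GT.of_lt ?_
      rw [D.w_pow h 2]; push_cast; linarith
  rw [D.eqn P hP0] at hη2
  -- hence `x + A2` has positive valuation
  have hx2 : x ^ 2 ≠ 0 := pow_ne_zero 2 hξ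
  have hwx2 : D.w (x ^ 2) = 0 := by rw [D.w_pow hξ 2, hwξ]; simp
  have hsum : D.GT 0 (x ^ 2 * (x + D.A2)) := by
    have h1 : x ^ 2 * (x + D.A2) = x * (x ^ 2 + D.A2 * x + D.A4) - D.A4 * x := by ring
    rw [h1]
    exact hη2.sub (gt_mul_ge hA4 hξge)
  have hlin : D.GT 0 (x + D.A2) := by
    rcases eq_or_ne (x + D.A2) 0 with h0 | h0
    · exact Or.inl h0
    · have h1 := hsum.lt (mul_ne_zero hx2 h0)
      rw [D.w_mul _ _ hx2 h0, hwx2, zero_add] at h1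
      exact RVal.GT.of_lt h1
  -- `3x + 2 A2 = x + 2 (x + A2)` is a unit
  have h3 : (3 * x + 2 * D.A2) ≠ 0 ∧ D.w (3 * x + 2 * D.A2) = 0 := by
    have h1 : 3 * x + 2 * D.A2 = x + (x + D.A2) * 2 := by ring
    rw [h1]
    exact unit_add hξ hwξ (gt_mul_ge hlin (RVal.GE.ofNat 2))
  have hprod : x * (3 * x + 2 * D.A2) ≠ 0 := mul_ne_zero hξ h3.1
  have hwprod : D.w (x * (3 * x + 2 * D.A2)) = 0 := by
    rw [D.w_mul _ _ hξ h3.1, hwξ, h3.2, add_zero]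
  have hf' : D.f' x = x * (3 * x + 2 * D.A2) + D.A4 := by rw [KDatum.f']; ring
  rw [hf']
  exact unit_add hprod hwprod hA4

/-- Multiplicative reduction: `φ` fixes every `p`-torsion point of `E₀`. -/
theorem φ_eq_of_mem_E0 (D : IDatum K G) (p : ℕ) (hp : p.Prime) (hp2 : p ≠ 2)
    (hpK : (p : K) ≠ 0) (hwp : D.w (p : K) = 0)
    (_hA2 : D.A2 ≠ 0) (_hwA2 : D.w D.A2 = 0) (hA4 : D.GT 0 D.A4)
    {P : G} (hP : P ∈ D.E0) (hpP : p • P = 0) : D.φ P = P := by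
  rcases eq_or_ne P 0 with rfl | hP0
  · exact map_zero D.φ
  obtain ⟨hξ, hwξ⟩ := w_ξ_eq_zero D.toKDatum p hp hp2 hpK hwp hP0 hP hpP
  exact φ_eq_of_nonsingular D p hp hp2 hpK hwp hP0 hpP
    (nonsingular_of_unit D.toKDatum hA4 hP0 hξ hwξ)

end MultE0

end Fermat.Agent.S05
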