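import Fermat.Statements.S07
import Fermat.Prelude.Thm_ModularForm_sturm_bound_Gamma0
import Fermat.Prelude.Thm_CongruenceSubgroup_one_mem_strictPeriods_Gamma0

set_option autoImplicit false
open WeierstrassCurve WeierstrassCurve.Affine WeierstrassCurve.Affine.Point
open CuspForm ModularFormClass UpperHalfPlane
open ModularForm

namespace Fermat.Agent.S07

open scoped MatrixGroups in
theorem index_Gamma0_two_le : (CongruenceSubgroup.Gamma0 2).index ≤ 4 := by
  classical
  let φ : SL(2, ℤ) → ZMod 2 × ZMod 2 := fun g => (((g 0 0 : ℤ) : ZMod 2), ((g 1 0 : ℤ) : ZMod 2))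
  let ψ : SL(2, ℤ) ⧸ (CongruenceSubgroup.Gamma0 2) → ZMod 2 × ZMod 2 := fun q => φ q.out
  have hψ : Function.Injective ψ := by
    intro q₁ q₂ h
    rw [← QuotientGroup.out_eq' q₁, ← QuotientGroup.out_eq' q₂]
    rw [QuotientGroup.eq]
    simp only [ψ, φ, Prod.mk.injEq] at h
    obtain ⟨h1, h2⟩ := h
    rw [CongruenceSubgroup.Gamma0_mem]
    rw [Matrix.SpecialLinearGroup.coe_mul, Matrix.SpecialLinearGroup.coe_inv,
      Matrix.adjugate_fin_two, Matrix.mul_apply, Fin.sum_univ_two]
    simp only [Matrix.of_apply, Matrix.cons_val', Matrix.cons_val_one, Matrix.cons_val_zero,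
      Matrix.cons_val_fin_one]
    push_cast
    rw [h1, h2]
    ring
  have := Nat.card_le_card_of_injective ψ hψ
  simpa [Subgroup.index, Nat.card_prod] using this

theorem result (f : CuspForm (CongruenceSubgroup.Gamma0 2) 2) : f = 0 := by
  let g : ModularForm (CongruenceSubgroup.Gamma0 2) 2 :=
    { toSlashInvariantForm := f.toSlashInvariantForm
      holo' := f.holo'
      bdd_at_cusps' := fun hc γ hγ => (f.zero_at_cusps' hc γ hγ).boundedAtFilter }
  have hg : g = 0 := by
    refine ModularForm.sturm_bound_Gamma0 2 g ?_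
    intro n hn
    have h4 := index_Gamma0_two_le
    have hn0 : n = 0 := by
      have : ((2 : ℤ) * ((CongruenceSubgroup.Gamma0 2).index : ℤ)).toNat / 12 = 0 := by
        omega
      omega
    subst hn0
    exact CuspFormClass.qExpansion_coeff_zero f one_pos
      (CongruenceSubgroup.one_mem_strictPeriods_Gamma0 2)
  ext z
  exact DFunLike.congr_fun hg z

end Fermat.Agent.S07
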