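import Fermat.Agent.S05_Defs

set_option autoImplicit false

/-!
# S13: shared definitions

* `RVal.trivialVal`: the trivial valuation (used to make purely algebraic `KDatum`s);
* `DivSeq`: the sequence of numerators / denominators `a n / b n` of the rational functions
  `ξ(nP) = a_n(ξ P) / b_n(ξ P)` for the curve `η² = ξ (ξ² + A2 ξ + A4)`, axiomatised by the
  three "parallelogram" identities;
* `E0two`, `E1two`: the sets `E₀`, `E₁` of a `KDatum` with respect to a second (`2`-adic)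
  valuation `v` and the coordinate `x = ξ / 4`.
-/

namespace Fermat.Agent.S13

open Polynomial
open Fermat.Agent.S05

/-- The trivial valuation. -/
def trivialVal (K : Type*) [Field K] : RVal K where
  w := fun _ => 0
  w_mul := by intros; simp
  w_add := by intros; simp

@[simp] theorem trivialVal_w (K : Type*) [Field K] (x : K) : (trivialVal K).w x = 0 := rfl

/-- Numerators `a n` and denominators `b n` of the multiplication-by-`n` maps on the
`ξ`-line of the curve `η² = ξ (ξ² + A2 ξ + A4)`: `ξ (n P) = a_n (ξ P) / b_n (ξ P)`. -/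
structure DivSeq (K : Type*) [Field K] (A2 A4 : K) where
  /-- numerators -/
  a : ℕ → K[X]
  /-- denominators -/
  b : ℕ → K[X]
  a_one : a 1 = X
  b_one : b 1 = 1
  a_two : a 2 = (X ^ 2 - C A4) ^ 2
  b_two : b 2 = 4 * (X * (X ^ 2 + C A2 * X + C A4))
  I1 : ∀ n : ℕ, 2 ≤ n → a (n + 1) * a (n - 1) = (a n * X - C A4 * b n) ^ 2
  I2 : ∀ n : ℕ, 2 ≤ n → b (n + 1) * b (n - 1) = (a n - X * b n) ^ 2
  I3 : ∀ n : ℕ, 2 ≤ n → a (n + 1) * b (n - 1) + a (n - 1) * b (n + 1) =
    2 * (a n * X * (a n + X * b n + 2 * C A2 * b n) + C A4 * b n * (a n + X * b n))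
  coprime : ∀ n : ℕ, 1 ≤ n → IsCoprime (a n) (b n)
  monic : ∀ n : ℕ, 1 ≤ n → (a n).Monic
  natDegree_a : ∀ n : ℕ, 1 ≤ n → (a n).natDegree = n ^ 2
  natDegree_b : ∀ n : ℕ, 1 ≤ n → (b n).natDegree = n ^ 2 - 1
  leadingCoeff_b : ∀ n : ℕ, 1 ≤ n → (b n).leadingCoeff = (n : K) ^ 2

variable {K : Type*} [Field K] {G : Type*} [AddCommGroup G]

/-- `E₀` for a second valuation `v` with `v 2 > 0` and the coordinate `x = ξ / 4`:
the identity and the points with `v (ξ / 4) ≤ 0`. -/
def E0two (D : KDatum K G) (v : RVal K) : Set G :=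
  {P | P = 0 ∨ (D.ξ P ≠ 0 ∧ v.w (D.ξ P) ≤ 2 * v.w 2)}

/-- `E₁` for a second valuation `v` with `v 2 > 0` and the coordinate `x = ξ / 4`:
the identity and the points with `v (ξ / 4) < 0`. -/
def E1two (D : KDatum K G) (v : RVal K) : Set G :=
  {P | P = 0 ∨ (D.ξ P ≠ 0 ∧ v.w (D.ξ P) < 2 * v.w 2)}

theorem E1two_subset_E0two (D : KDatum K G) (v : RVal K) : E1two D v ⊆ E0two D v :=
  fun _ h => h.imp id (fun h => ⟨h.1, h.2.le⟩)

end Fermat.Agent.S13
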