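import Fermat.Agent.S05_Datum

set_option autoImplicit false
set_option linter.unusedSectionVars false

/-!
# S13: the datum of the Frey curve over a general field

The port of the Frey section of `S05_Datum` from `ℚ̄` to an arbitrary field `L` with a
`ℚ`-algebra structure: the Frey curve over `L` in the coordinates `ξ = 4x - r`, `η = 8y + 4x`
for a rational root `r` of `X (X - a^p) (X + b^p)`, as an abstract `KDatum` / `IDatum`.
-/

open WeierstrassCurve WeierstrassCurve.Affine WeierstrassCurve.Affine.Point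

namespace Fermat.Agent.S13.FreyDatum

open Fermat.Agent.S05 Fermat.Agent.S05.Datum

variable (P : FreyPackage) (L : Type*) [Field L] [DecidableEq L] [Algebra ℚ L]

theorem frey_a₁ : (P.freyCurve⁄L).a₁ = 1 := by
  simp [WeierstrassCurve.baseChange, FreyPackage.freyCurve]

theorem frey_a₃ : (P.freyCurve⁄L).a₃ = 0 := by
  simp [WeierstrassCurve.baseChange, FreyPackage.freyCurve]

theorem frey_a₆ : (P.freyCurve⁄L).a₆ = 0 := by
  simp [WeierstrassCurve.baseChange, FreyPackage.freyCurve]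

theorem two_ne : (2 : L) ≠ 0 := by
  have : CharZero L := algebraRat.charZero L
  exact two_ne_zero

/-- The shape of the Frey curve over `L` for a rational shift `r`, a root of
`X (X - a^p) (X + b^p)`. -/
theorem frey_shape_rat (r A2 A4 : ℚ)
    (hr : r * (r - (P.a : ℚ) ^ P.p) * (r + (P.b : ℚ) ^ P.p) = 0)
    (hA2 : A2 = (P.b : ℚ) ^ P.p - (P.a : ℚ) ^ P.p + 3 * r)
    (hA4 : A4 = 3 * r ^ 2 + 2 * ((P.b : ℚ) ^ P.p - (P.a : ℚ) ^ P.p) * r
      - (P.a : ℚ) ^ P.p * (P.b : ℚ) ^ P.p) :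
    Shape (P.freyCurve⁄L) (algebraMap ℚ L r) (algebraMap ℚ L A2) (algebraMap ℚ L A4) where
  two_ne := two_ne L
  a₁ := frey_a₁ P L
  a₃ := frey_a₃ P L
  a₆ := frey_a₆ P L
  a₂ := by
    have h : (4 * P.freyCurve.a₂ + 1 : ℚ) = A2 - 3 * r := by
      rw [hA2]; simp only [FreyPackage.freyCurve]; ring
    have h' := congrArg (algebraMap ℚ L) h
    rw [map_add, map_mul, map_sub, map_mul, map_one, map_ofNat, map_ofNat] at h'
    exact h'
  a₄ := by
    have h : (16 * P.freyCurve.a₄ : ℚ) = A4 - 2 * A2 * r + 3 * r ^ 2 := by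
      rw [hA4, hA2]; simp only [FreyPackage.freyCurve]; ring
    have h' := congrArg (algebraMap ℚ L) h
    rw [map_add, map_sub, map_mul, map_mul, map_mul, map_mul, map_pow, map_ofNat, map_ofNat,
      map_ofNat] at h'
    exact h'
  root := by
    have h : r * (r ^ 2 - A2 * r + A4) = 0 := by
      rw [hA4, hA2]; linear_combination hr
    have h' := congrArg (algebraMap ℚ L) h
    rw [map_mul, map_add, map_sub, map_mul, map_pow, _root_.map_zero] at h'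
    exact h'

variable {L}

/-- The abstract datum (without automorphism) of the Frey curve over `L` in the coordinates
`ξ = 4x - r`, `η = 8y + 4x`, where `r` is a rational root of `X (X - a^p) (X + b^p)`. -/
theorem exists_kdatum (r A2 A4 : ℚ)
    (hr : r * (r - (P.a : ℚ) ^ P.p) * (r + (P.b : ℚ) ^ P.p) = 0)
    (hA2 : A2 = (P.b : ℚ) ^ P.p - (P.a : ℚ) ^ P.p + 3 * r)
    (hA4 : A4 = 3 * r ^ 2 + 2 * ((P.b : ℚ) ^ P.p - (P.a : ℚ) ^ P.p) * r
      - (P.a : ℚ) ^ P.p * (P.b : ℚ) ^ P.p)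
    (v : RVal L) (hw2 : v.w 2 = 0)
    (hA2i : v.GE 0 (algebraMap ℚ L A2)) (hA4i : v.GE 0 (algebraMap ℚ L A4)) :
    ∃ D : KDatum L ((P.freyCurve)⁄L).Point,
      D.toRVal = v ∧ D.A2 = algebraMap ℚ L A2 ∧ D.A4 = algebraMap ℚ L A4 ∧
      (∀ Q : ((P.freyCurve)⁄L).Point, D.ξ Q = xi (P.freyCurve⁄L) (algebraMap ℚ L r) Q) ∧
      (∀ Q : ((P.freyCurve)⁄L).Point, D.η Q = eta (P.freyCurve⁄L) Q) :=
  ⟨kDatum (frey_shape_rat P L r A2 A4 hr hA2 hA4) v hw2 hA2i hA4i,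
    rfl, rfl, rfl, fun _ => rfl, fun _ => rfl⟩

/-- The abstract datum with automorphism of the Frey curve over `L` in the coordinates
`ξ = 4x - r`, `η = 8y + 4x`, where `r` is a rational root of `X (X - a^p) (X + b^p)`
(general-field version of `Fermat.Agent.S05.exists_idatum`). -/
theorem exists_idatum (r A2 A4 : ℚ)
    (hr : r * (r - (P.a : ℚ) ^ P.p) * (r + (P.b : ℚ) ^ P.p) = 0)
    (hA2 : A2 = (P.b : ℚ) ^ P.p - (P.a : ℚ) ^ P.p + 3 * r)
    (hA4 : A4 = 3 * r ^ 2 + 2 * ((P.b : ℚ) ^ P.p - (P.a : ℚ) ^ P.p) * r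
      - (P.a : ℚ) ^ P.p * (P.b : ℚ) ^ P.p)
    (v : RVal L) (hw2 : v.w 2 = 0)
    (hA2i : v.GE 0 (algebraMap ℚ L A2)) (hA4i : v.GE 0 (algebraMap ℚ L A4))
    (σ : L ≃ₐ[ℚ] L)
    (hσw : ∀ x : L, x ≠ 0 → v.w (σ x) = v.w x)
    (hσc : ∀ x : L, x ≠ 0 → 0 ≤ v.w x → σ x = x ∨ 0 < v.w (σ x - x)) :
    ∃ D : IDatum L ((P.freyCurve)⁄L).Point,
      D.toRVal = v ∧ D.A2 = algebraMap ℚ L A2 ∧ D.A4 = algebraMap ℚ L A4 ∧
      (∀ x : L, D.σ x = σ x) ∧
      (∀ Q : ((P.freyCurve)⁄L).Point, D.φ Q = σ • Q) ∧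
      (∀ Q : ((P.freyCurve)⁄L).Point, D.ξ Q = xi (P.freyCurve⁄L) (algebraMap ℚ L r) Q) ∧
      (∀ Q : ((P.freyCurve)⁄L).Point, D.η Q = eta (P.freyCurve⁄L) Q) :=
  ⟨iDatum P.freyCurve (frey_shape_rat P L r A2 A4 hr hA2 hA4) v hw2 hA2i hA4i σ
      (σ.commutes r) (σ.commutes A2) (σ.commutes A4) hσw hσc,
    rfl, rfl, rfl, fun _ => rfl, fun _ => rfl, fun _ => rfl, fun _ => rfl⟩

end Fermat.Agent.S13.FreyDatum
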