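import Mathlib
import Fermat.Prelude.Def_FLTPrelim_CofixedLine
import Fermat.Agent.S05_Val

/-!
# S13: transfer between the algebraic closure and a finite Galois level

For a Weierstrass curve `W` over `ℚ` and an intermediate field `L` of `ℚ̄/ℚ` which is normal and
contains the coordinates of all `n`-torsion points, the `n`-torsion over `L` is identified with the
`n`-torsion over `ℚ̄`, compatibly with the Galois actions along the restriction map.
-/

set_option autoImplicit false
set_option linter.unusedSectionVars false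

open WeierstrassCurve WeierstrassCurve.Affine WeierstrassCurve.Affine.Point

namespace Fermat.Agent.S13.Transfer

variable (W : WeierstrassCurve ℚ) (L : IntermediateField ℚ (AlgebraicClosure ℚ)) [DecidableEq ↥L]

/-- The inclusion of `L`-points into `ℚ̄`-points. -/
noncomputable def incl : (W⁄↥L).Point →+ (W⁄(AlgebraicClosure ℚ)).Point :=
  Point.map (W' := W) L.val

theorem incl_injective : Function.Injective (incl W L) :=
  Point.map_injective (W' := W) L.val

theorem incl_smul [Normal ℚ L] (σ : AlgebraicClosure ℚ ≃ₐ[ℚ] AlgebraicClosure ℚ)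
    (P : (W⁄↥L).Point) :
    incl W L ((σ.restrictNormal L) • P) = σ • incl W L P := by
  rw [algEquiv_smul_def, algEquiv_smul_def]
  rcases P with _ | ⟨x, y, h⟩
  · rfl
  · show Point.some _ _ _ = Point.some _ _ _
    simp only [Point.some.injEq]
    exact ⟨AlgEquiv.restrictNormal_commutes σ L x, AlgEquiv.restrictNormal_commutes σ L y⟩

/-- A point with coordinates in `L` comes from an `L`-point. -/
theorem mem_range_incl_of_coord {x y : AlgebraicClosure ℚ}
    (h : (W⁄(AlgebraicClosure ℚ)).Nonsingular x y) (hx : x ∈ L) (hy : y ∈ L) :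
    Point.some _ _ h ∈ Set.range (incl W L) := by
  have h' : (W⁄↥L).Nonsingular (⟨x, hx⟩ : ↥L) ⟨y, hy⟩ := by
    have := (WeierstrassCurve.Affine.baseChange_nonsingular (W := W)
      (f := (L.val : ↥L →ₐ[ℚ] AlgebraicClosure ℚ)) L.val.injective (⟨x, hx⟩ : ↥L) ⟨y, hy⟩).mp
    exact this h
  exact ⟨Point.some _ _ h', rfl⟩

section equiv

variable (n : ℕ)

/-- The inclusion on `n`-torsion. -/
noncomputable def torsMap :
    Submodule.torsionBy ℤ (W⁄↥L).Point n →+
      Submodule.torsionBy ℤ (W⁄(AlgebraicClosure ℚ)).Point n where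
  toFun x := ⟨incl W L x, by
    have h := (Submodule.mem_torsionBy_iff _ _).mp x.2
    rw [Submodule.mem_torsionBy_iff, ← map_zsmul, h, _root_.map_zero]⟩
  map_zero' := Subtype.ext (_root_.map_zero _)
  map_add' x y := Subtype.ext (map_add _ _ _)

theorem coe_torsMap (x : Submodule.torsionBy ℤ (W⁄↥L).Point n) :
    ((torsMap W L n x : Submodule.torsionBy ℤ (W⁄(AlgebraicClosure ℚ)).Point n) :
      (W⁄(AlgebraicClosure ℚ)).Point) = incl W L x := rfl

theorem torsMap_injective : Function.Injective (torsMap W L n) := by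
  intro x y h
  apply Subtype.ext
  apply incl_injective W L
  exact congrArg Subtype.val h

theorem torsMap_surjective
    (hL : ∀ P : (W⁄(AlgebraicClosure ℚ)).Point, (n : ℤ) • P = 0 → P ∈ Set.range (incl W L)) :
    Function.Surjective (torsMap W L n) := by
  intro y
  have hy := (Submodule.mem_torsionBy_iff _ _).mp y.2
  obtain ⟨x, hx⟩ := hL y hy
  refine ⟨⟨x, ?_⟩, Subtype.ext hx⟩
  rw [Submodule.mem_torsionBy_iff]
  apply incl_injective W L
  rw [map_zsmul, hx, hy, _root_.map_zero]

theorem torsMap_smul [Normal ℚ L] (σ : AlgebraicClosure ℚ ≃ₐ[ℚ] AlgebraicClosure ℚ)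
    (x : Submodule.torsionBy ℤ (W⁄↥L).Point n) :
    torsMap W L n ((σ.restrictNormal L) • x) = σ • torsMap W L n x :=
  Subtype.ext (incl_smul W L σ x)

/-- The `ZMod n`-linear version of `torsMap`. -/
noncomputable def torsLin :
    Submodule.torsionBy ℤ (W⁄↥L).Point n →ₗ[ZMod n]
      Submodule.torsionBy ℤ (W⁄(AlgebraicClosure ℚ)).Point n :=
  (torsMap W L n).toZModLinearMap n

theorem torsLin_apply (x : Submodule.torsionBy ℤ (W⁄↥L).Point n) :
    torsLin W L n x = torsMap W L n x := rfl

theorem exists_restrictNormal_eq [Normal ℚ L] (τ : ↥L ≃ₐ[ℚ] ↥L) :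
    ∃ σ : AlgebraicClosure ℚ ≃ₐ[ℚ] AlgebraicClosure ℚ, σ.restrictNormal L = τ := by
  have : IsAlgClosure ℚ (AlgebraicClosure ℚ) :=
    ⟨inferInstance, AlgebraicClosure.isAlgebraic ℚ⟩
  have : Normal ℚ (AlgebraicClosure ℚ) := IsAlgClosure.normal ℚ (AlgebraicClosure ℚ)
  exact AlgEquiv.restrictNormalHom_surjective (F := ℚ) (K₁ := ↥L) (AlgebraicClosure ℚ) τ

variable [Normal ℚ L]
  (hL : ∀ P : (W⁄(AlgebraicClosure ℚ)).Point, (n : ℤ) • P = 0 → P ∈ Set.range (incl W L))

include hL in
/-- Reducibility descends to the finite level. -/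
theorem not_irreducible_of_not_irreducible
    (h : ¬ GaloisRepIsIrreducible (K := AlgebraicClosure ℚ) ℚ W n) :
    ¬ GaloisRepIsIrreducible (K := ↥L) ℚ W n := by
  rintro ⟨hnt, hN⟩
  apply h
  refine ⟨(torsMap_injective W L n).nontrivial, ?_⟩
  intro N hNstab
  have hstab' : IsGaloisStable ℚ (N.comap (torsLin W L n)) := by
    intro τ x hx
    obtain ⟨σ, rfl⟩ := exists_restrictNormal_eq L τ
    rw [Submodule.mem_comap, torsLin_apply, torsMap_smul]
    exact hNstab σ _ hx
  rcases hN _ hstab' with h0 | h1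
  · left
    rw [eq_bot_iff]
    intro y hy
    obtain ⟨x, rfl⟩ := torsMap_surjective W L n hL y
    have hx : x ∈ N.comap (torsLin W L n) := hy
    rw [h0, Submodule.mem_bot] at hx
    rw [hx, _root_.map_zero]
    exact Submodule.zero_mem _
  · right
    rw [eq_top_iff]
    intro y _
    obtain ⟨x, rfl⟩ := torsMap_surjective W L n hL y
    have hx : x ∈ N.comap (torsLin W L n) := by rw [h1]; exact Submodule.mem_top
    exact hx

include hL in
/-- A cofixed line at the finite level gives one over the algebraic closure. -/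
theorem hasCofixedLine_of_hasCofixedLine
    (h : HasGaloisStableCofixedLine (K := ↥L) ℚ W n) :
    HasGaloisStableCofixedLine (K := AlgebraicClosure ℚ) ℚ W n := by
  obtain ⟨N', hstab, hbot, htop, hcof⟩ := h
  refine ⟨N'.map (torsLin W L n), ?_, ?_, ?_, ?_⟩
  · intro σ y hy
    obtain ⟨x, hx, rfl⟩ := Submodule.mem_map.1 hy
    rw [torsLin_apply, ← torsMap_smul]
    exact Submodule.mem_map.2 ⟨_, hstab _ x hx, rfl⟩
  · intro h0
    apply hbot
    rw [eq_bot_iff]
    intro x hx
    have h1 : torsLin W L n x ∈ N'.map (torsLin W L n) := Submodule.mem_map.2 ⟨x, hx, rfl⟩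
    rw [h0, Submodule.mem_bot] at h1
    rw [Submodule.mem_bot]
    apply torsMap_injective W L n
    rw [_root_.map_zero]
    exact h1
  · intro h1
    apply htop
    rw [eq_top_iff]
    intro x _
    have h2 : torsLin W L n x ∈ N'.map (torsLin W L n) := by rw [h1]; exact Submodule.mem_top
    obtain ⟨x', hx', he⟩ := Submodule.mem_map.1 h2
    have : x' = x := torsMap_injective W L n he
    rw [← this]
    exact hx'
  · intro σ y
    obtain ⟨x, rfl⟩ := torsMap_surjective W L n hL y
    rw [← torsMap_smul, ← map_sub]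
    exact Submodule.mem_map.2 ⟨_, hcof _ x, rfl⟩

include hL in
theorem card_torsion_eq :
    Nat.card (Submodule.torsionBy ℤ (W⁄↥L).Point n) =
      Nat.card (Submodule.torsionBy ℤ (W⁄(AlgebraicClosure ℚ)).Point n) :=
  Nat.card_congr (Equiv.ofBijective _ ⟨torsMap_injective W L n, torsMap_surjective W L n hL⟩)

end equiv

section field

/-- First coordinate of a point (junk `0` at the origin). -/
noncomputable def cx : (W⁄(AlgebraicClosure ℚ)).Point → AlgebraicClosure ℚ
  | .zero => 0
  | .some x _ _ => x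

/-- Second coordinate of a point (junk `0` at the origin). -/
noncomputable def cy : (W⁄(AlgebraicClosure ℚ)).Point → AlgebraicClosure ℚ
  | .zero => 0
  | .some _ y _ => y

theorem cx_smul (σ : AlgebraicClosure ℚ ≃ₐ[ℚ] AlgebraicClosure ℚ)
    (P : (W⁄(AlgebraicClosure ℚ)).Point) : cx W (σ • P) = σ (cx W P) := by
  rcases P with _ | ⟨x, y, h⟩
  · exact (_root_.map_zero σ).symm
  · rfl

theorem cy_smul (σ : AlgebraicClosure ℚ ≃ₐ[ℚ] AlgebraicClosure ℚ)
    (P : (W⁄(AlgebraicClosure ℚ)).Point) : cy W (σ • P) = σ (cy W P) := by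
  rcases P with _ | ⟨x, y, h⟩
  · exact (_root_.map_zero σ).symm
  · rfl

/-- If a point has coordinates in `L`, it comes from an `L`-point. -/
theorem mem_range_incl {P : (W⁄(AlgebraicClosure ℚ)).Point} (hx : cx W P ∈ L)
    (hy : cy W P ∈ L) : P ∈ Set.range (incl W L) := by
  rcases P with _ | ⟨x, y, h⟩
  · exact ⟨0, _root_.map_zero _⟩
  · exact mem_range_incl_of_coord W L h hx hy

/-- The field generated by the coordinates of the `n`-torsion points: a finite normal extension of
`ℚ` containing all these coordinates. -/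
theorem exists_field (n : ℕ)
    [hfin : Finite (Submodule.torsionBy ℤ (W⁄(AlgebraicClosure ℚ)).Point n)] :
    ∃ L : IntermediateField ℚ (AlgebraicClosure ℚ), FiniteDimensional ℚ L ∧ Normal ℚ L ∧
      ∀ P : (W⁄(AlgebraicClosure ℚ)).Point, (n : ℤ) • P = 0 → cx W P ∈ L ∧ cy W P ∈ L := by
  have hIAC : IsAlgClosure ℚ (AlgebraicClosure ℚ) :=
    ⟨inferInstance, AlgebraicClosure.isAlgebraic ℚ⟩
  have hNorm : Normal ℚ (AlgebraicClosure ℚ) := IsAlgClosure.normal ℚ (AlgebraicClosure ℚ)
  let T : Set (W⁄(AlgebraicClosure ℚ)).Point := {P | (n : ℤ) • P = 0}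
  have hT : T.Finite := by
    have h1 : T = Set.range
        (Subtype.val : Submodule.torsionBy ℤ (W⁄(AlgebraicClosure ℚ)).Point n → _) := by
      ext P
      constructor
      · intro hP
        exact ⟨⟨P, (Submodule.mem_torsionBy_iff _ _).mpr hP⟩, rfl⟩
      · rintro ⟨Q, rfl⟩
        exact (Submodule.mem_torsionBy_iff _ _).mp Q.2
    rw [h1]
    exact Set.finite_range _
  let S : Set (AlgebraicClosure ℚ) := cx W '' T ∪ cy W '' T
  have hS : S.Finite := (hT.image _).union (hT.image _)
  have hTσ : ∀ (σ : AlgebraicClosure ℚ ≃ₐ[ℚ] AlgebraicClosure ℚ), ∀ P ∈ T, σ • P ∈ T := by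
    intro σ P hP
    show (n : ℤ) • (σ • P) = 0
    rw [← algEquiv_smul_zsmul, show (n : ℤ) • P = 0 from hP, smul_zero]
  have hSσ : ∀ (σ : AlgebraicClosure ℚ ≃ₐ[ℚ] AlgebraicClosure ℚ), σ '' S ⊆ S := by
    rintro σ _ ⟨c, hc, rfl⟩
    rcases hc with ⟨P, hP, rfl⟩ | ⟨P, hP, rfl⟩
    · exact Or.inl ⟨σ • P, hTσ σ P hP, cx_smul W σ P⟩
    · exact Or.inr ⟨σ • P, hTσ σ P hP, cy_smul W σ P⟩
  refine ⟨IntermediateField.adjoin ℚ S, ?_, ?_, ?_⟩
  · have : Finite S := hS
    have h : @FiniteDimensional ℚ ↥(IntermediateField.adjoin ℚ S) _ _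
        (IntermediateField.adjoin ℚ S).algebra'.toModule :=
      IntermediateField.finiteDimensional_adjoin
        (fun x _ => (AlgebraicClosure.isAlgebraic ℚ).isIntegral.1 x)
    convert h
  · have h : @Normal ℚ ↥(IntermediateField.adjoin ℚ S) _ _
        (IntermediateField.adjoin ℚ S).algebra' := by
      rw [IntermediateField.normal_iff_forall_map_le']
      intro σ
      rw [IntermediateField.adjoin_map]
      exact IntermediateField.adjoin.mono ℚ _ _ (hSσ σ)
    convert h
    exact Subsingleton.elim _ _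
  · intro P hP
    exact ⟨IntermediateField.subset_adjoin ℚ S (Or.inl ⟨P, hP, rfl⟩),
      IntermediateField.subset_adjoin ℚ S (Or.inr ⟨P, hP, rfl⟩)⟩

end field

section valuation

open Fermat.Agent.S05.Val

variable (Abar : ValuationSubring (AlgebraicClosure ℚ))

/-- The restriction to `L` of a valuation subring of `ℚ̄`. -/
noncomputable def restrictVal : ValuationSubring ↥L :=
  Abar.comap (algebraMap ↥L (AlgebraicClosure ℚ))

theorem mem_restrictVal (x : ↥L) :
    x ∈ restrictVal L Abar ↔ (x : AlgebraicClosure ℚ) ∈ Abar := Iff.rfl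

theorem valuation_le_iff_restrictVal (x y : ↥L) :
    (restrictVal L Abar).valuation x ≤ (restrictVal L Abar).valuation y ↔
      Abar.valuation (x : AlgebraicClosure ℚ) ≤ Abar.valuation (y : AlgebraicClosure ℚ) := by
  rcases eq_or_ne y 0 with rfl | hy
  · simp
  · have hy' : (y : AlgebraicClosure ℚ) ≠ 0 := by simpa using hy
    have h1 : (restrictVal L Abar).valuation x ≤ (restrictVal L Abar).valuation y ↔
        x / y ∈ restrictVal L Abar := by
      rw [← (restrictVal L Abar).valuation_le_one_iff, map_div₀,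
        div_le_one₀ (zero_lt_iff.2 ((Valuation.ne_zero_iff _).2 hy))]
    have h2 : Abar.valuation (x : AlgebraicClosure ℚ) ≤ Abar.valuation (y : AlgebraicClosure ℚ) ↔
        (x : AlgebraicClosure ℚ) / (y : AlgebraicClosure ℚ) ∈ Abar := by
      rw [← Abar.valuation_le_one_iff, map_div₀,
        div_le_one₀ (zero_lt_iff.2 ((Valuation.ne_zero_iff _).2 hy'))]
    rw [h1, h2, mem_restrictVal]
    push_cast
    rfl

theorem valuation_eq_iff_restrictVal (x y : ↥L) :
    (restrictVal L Abar).valuation x = (restrictVal L Abar).valuation y ↔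
      Abar.valuation (x : AlgebraicClosure ℚ) = Abar.valuation (y : AlgebraicClosure ℚ) := by
  rw [le_antisymm_iff, le_antisymm_iff, valuation_le_iff_restrictVal,
    valuation_le_iff_restrictVal]

theorem mem_nonunits_restrictVal (x : ↥L) :
    x ∈ (restrictVal L Abar).nonunits ↔ (x : AlgebraicClosure ℚ) ∈ Abar.nonunits := by
  rw [ValuationSubring.mem_nonunits_iff, ValuationSubring.mem_nonunits_iff]
  have h := valuation_le_iff_restrictVal L Abar 1 x
  rw [map_one] at h
  have h1 : ((1 : ↥L) : AlgebraicClosure ℚ) = 1 := rfl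
  rw [h1, map_one] at h
  rw [← not_le, ← not_le, h]

theorem restrictVal_liesOver {q : ℕ} (h : Abar.LiesOverPrime q) :
    (restrictVal L Abar).LiesOverPrime q := by
  show ((q : ℕ) : ↥L) ∈ (restrictVal L Abar).nonunits
  rw [mem_nonunits_restrictVal]
  have : (((q : ℕ) : ↥L) : AlgebraicClosure ℚ) = (q : AlgebraicClosure ℚ) := by simp
  rw [this]
  exact h

/-- The normalised valuation of the restriction is the restriction of the normalised
valuation. -/
theorem w_restrictVal {q : ℕ} (hq : q.Prime) (hA : Abar.LiesOverPrime q) (x : ↥L) :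
    w (restrictVal L Abar) q x = w Abar q (x : AlgebraicClosure ℚ) := by
  have hA' : (q : AlgebraicClosure ℚ) ∈ Abar.nonunits := hA
  have hAL : ((q : ℕ) : ↥L) ∈ (restrictVal L Abar).nonunits := restrictVal_liesOver L Abar hA
  have : Algebra.IsAlgebraic ℚ (AlgebraicClosure ℚ) := AlgebraicClosure.isAlgebraic ℚ
  rcases eq_or_ne x 0 with rfl | hx
  · rw [w_zero hq.ne_zero]
    exact (w_zero hq.ne_zero).symm
  · have hx' : (x : AlgebraicClosure ℚ) ≠ 0 := by simpa using hx
    obtain ⟨n, hn, k, hk, hr⟩ := isVal_w hq hA' (A := Abar) hx'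
    refine IsVal.w_eq hq.ne_zero hAL ⟨n, hn, k, ?_, hr⟩
    have e1 : (((x ^ n : ↥L)) : AlgebraicClosure ℚ) = (x : AlgebraicClosure ℚ) ^ n := rfl
    have e2 : ((((q : ℕ) : ↥L) ^ k : ↥L) : AlgebraicClosure ℚ) = (q : AlgebraicClosure ℚ) ^ k := by
      have := map_zpow₀ (algebraMap ↥L (AlgebraicClosure ℚ)) ((q : ℕ) : ↥L) k
      rw [map_natCast] at this
      exact this
    have h1 : Abar.valuation (((x ^ n : ↥L)) : AlgebraicClosure ℚ) =
        Abar.valuation ((((q : ℕ) : ↥L) ^ k : ↥L) : AlgebraicClosure ℚ) := by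
      rw [e1, e2, map_pow, map_zpow₀]
      exact hk
    have h2 := (valuation_eq_iff_restrictVal L Abar (x ^ n) (((q : ℕ) : ↥L) ^ k)).2 h1
    rw [map_pow, map_zpow₀] at h2
    exact h2

end valuation

end Fermat.Agent.S13.Transfer
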