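import Mathlib
import Fermat.Agent.S05_Datum
import Fermat.Agent.S13_Transfer

/-!
# S13: every solution of the equation is a point; coordinates and base change; card conversion
-/

set_option autoImplicit false
set_option linter.unusedSectionVars false

open WeierstrassCurve WeierstrassCurve.Affine WeierstrassCurve.Affine.Point

namespace Fermat.Agent.S13.FreySurj

open Fermat.Agent.S05 Fermat.Agent.S05.Datum

section surj

variable {K : Type*} [Field K] [DecidableEq K] {W : Affine K} {r A2 A4 : K}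

/-- (S1) For a curve of the given shape with separable cubic, every solution of
`η² = ξ (ξ² + A2 ξ + A4)` is a point. -/
theorem exists_point (S : Shape W r A2 A4) (hA4 : A4 ≠ 0) (hdisc : A2 ^ 2 - 4 * A4 ≠ 0)
    (x y : K) (h : y ^ 2 = x * (x ^ 2 + A2 * x + A4)) :
    ∃ Q : W.Point, Q ≠ 0 ∧ xi W r Q = x ∧ eta W Q = y := by
  have h2 : (2 : K) ≠ 0 := S.two_ne
  have h4 : (4 : K) ≠ 0 := S.four_ne
  have h8 : (8 : K) ≠ 0 := by
    have : (8 : K) = 2 * 4 := by norm_num
    rw [this]; exact mul_ne_zero h2 h4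
  have h64 : (64 : K) ≠ 0 := by
    have : (64 : K) = 8 * 8 := by norm_num
    rw [this]; exact mul_ne_zero h8 h8
  obtain ⟨X, hξ⟩ : ∃ X : K, 4 * X - r = x := ⟨(x + r) / 4, by field_simp; ring⟩
  obtain ⟨Y, hη⟩ : ∃ Y : K, 8 * Y + 4 * X = y := ⟨(y - 4 * X) / 8, by field_simp; ring⟩
  have ha2 := S.a₂
  have ha4 := S.a₄
  have hr := S.root
  have heq : W.Equation X Y := by
    rw [equation_iff, S.a₁, S.a₃, S.a₆]
    have h' : (8 * Y + 4 * X) ^ 2 =
        (4 * X - r) * ((4 * X - r) ^ 2 + A2 * (4 * X - r) + A4) := by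
      rw [hξ, hη]; exact h
    apply mul_left_cancel₀ h64
    linear_combination h' - 16 * X ^ 2 * ha2 - 4 * X * ha4 - hr
  have hns : W.Nonsingular X Y := by
    rw [nonsingular_iff]
    refine ⟨heq, ?_⟩
    by_contra hcon
    push Not at hcon
    obtain ⟨hc1, hc2⟩ := hcon
    rw [S.a₁] at hc1
    rw [S.a₁, S.a₃] at hc2
    -- η = 0
    have hy0 : y = 0 := by
      rw [← hη]
      linear_combination 4 * hc2
    -- f'(ξ) = 0
    have hf' : 3 * x ^ 2 + 2 * A2 * x + A4 = 0 := by
      rw [← hξ]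
      linear_combination (-8 * X) * ha2 - ha4 - 16 * hc1 + 2 * hη + 2 * hy0
    have hf : x * (x ^ 2 + A2 * x + A4) = 0 := by rw [← h, hy0]; ring
    rcases mul_eq_zero.1 hf with hx0 | hq
    · apply hA4
      rw [hx0] at hf'
      linear_combination hf'
    · have h5 : x * (2 * x + A2) = 0 := by linear_combination hf' - hq
      rcases mul_eq_zero.1 h5 with hx0 | h6
      · apply hA4
        rw [hx0] at hf'
        linear_combination hf'
      · apply hdisc
        linear_combination (2 * x + A2) * h6 - 4 * hq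
  refine ⟨Point.some X Y hns, Point.some_ne_zero hns, ?_, ?_⟩
  · rw [xi_some]; exact hξ
  · rw [eta_some]; exact hη

end surj

section card

/-- (S3) The points killed by `p` (as a subtype) and the `p`-torsion submodule have the same
cardinality. -/
theorem card_torsion {G : Type*} [AddCommGroup G] (p : ℕ) :
    Nat.card {Q : G // p • Q = 0} = Nat.card (Submodule.torsionBy ℤ G p) := by
  apply Nat.card_congr
  refine Equiv.subtypeEquivRight (fun Q => ?_)
  rw [Submodule.mem_torsionBy_iff, natCast_zsmul]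

end card

section transfer

open Fermat.Agent.S13.Transfer

variable (W : WeierstrassCurve ℚ) (L : IntermediateField ℚ (AlgebraicClosure ℚ)) [DecidableEq ↥L]

/-- (S2) `ξ` commutes with the inclusion of `L`-points into `ℚ̄`-points. -/
theorem xi_incl (r : ℚ) (Q : (W⁄↥L).Point) :
    xi (W⁄(AlgebraicClosure ℚ)) (algebraMap ℚ (AlgebraicClosure ℚ) r) (incl W L Q) =
      algebraMap ↥L (AlgebraicClosure ℚ) (xi (W⁄↥L) (algebraMap ℚ ↥L r) Q) := by
  rcases Q with _ | ⟨x, y, h⟩
  · exact (_root_.map_zero _).symm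
  · show 4 * (x : AlgebraicClosure ℚ) - algebraMap ℚ (AlgebraicClosure ℚ) r =
      algebraMap ↥L (AlgebraicClosure ℚ) (4 * x - algebraMap ℚ ↥L r)
    rw [map_sub, map_mul, ← IsScalarTower.algebraMap_apply, map_ofNat]
    rfl

/-- (S2) `η` commutes with the inclusion of `L`-points into `ℚ̄`-points. -/
theorem eta_incl (Q : (W⁄↥L).Point) :
    eta (W⁄(AlgebraicClosure ℚ)) (incl W L Q) =
      algebraMap ↥L (AlgebraicClosure ℚ) (eta (W⁄↥L) Q) := by
  rcases Q with _ | ⟨x, y, h⟩
  · exact (_root_.map_zero _).symm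
  · show 8 * (y : AlgebraicClosure ℚ) + 4 * (x : AlgebraicClosure ℚ) =
      algebraMap ↥L (AlgebraicClosure ℚ) (8 * y + 4 * x)
    rw [map_add, map_mul, map_mul, map_ofNat, map_ofNat]
    rfl

theorem incl_eq_zero_iff (Q : (W⁄↥L).Point) : incl W L Q = 0 ↔ Q = 0 := by
  constructor
  · intro h
    apply incl_injective W L
    rw [h, _root_.map_zero]
  · rintro rfl
    exact _root_.map_zero _

/-- Pull back the finite set of `ξ`-values of the nonzero `p`-torsion points, together with the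
product identity, from `ℚ̄` to a field `L` over which all the `p`-torsion is defined. -/
theorem exists_finset_of_closure (p : ℕ) (r A2 A4 : ℚ)
    (hL : ∀ Pt : (W⁄(AlgebraicClosure ℚ)).Point, (p : ℤ) • Pt = 0 →
      Pt ∈ Set.range (incl W L))
    (X : Finset (AlgebraicClosure ℚ))
    (hX1 : ∀ Q : (W⁄(AlgebraicClosure ℚ)).Point, Q ≠ 0 → p • Q = 0 →
      xi (W⁄(AlgebraicClosure ℚ)) (algebraMap ℚ (AlgebraicClosure ℚ) r) Q ∈ X)
    (hX2 : ∀ x ∈ X, ∃ Q : (W⁄(AlgebraicClosure ℚ)).Point, Q ≠ 0 ∧ p • Q = 0 ∧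
      xi (W⁄(AlgebraicClosure ℚ)) (algebraMap ℚ (AlgebraicClosure ℚ) r) Q = x)
    (hM2 : ∀ e : AlgebraicClosure ℚ,
      e ^ 2 + algebraMap ℚ (AlgebraicClosure ℚ) A2 * e +
        algebraMap ℚ (AlgebraicClosure ℚ) A4 = 0 →
      ∏ x ∈ X, ((e - algebraMap ℚ (AlgebraicClosure ℚ) A4 / x) / (e - x)) ^ 2 =
        (p : AlgebraicClosure ℚ) ^ 2) :
    ∃ X' : Finset ↥L,
      (∀ Q : (W⁄↥L).Point, Q ≠ 0 → p • Q = 0 → xi (W⁄↥L) (algebraMap ℚ ↥L r) Q ∈ X') ∧
      (∀ x ∈ X', ∃ Q : (W⁄↥L).Point, Q ≠ 0 ∧ p • Q = 0 ∧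
        xi (W⁄↥L) (algebraMap ℚ ↥L r) Q = x) ∧
      ∀ e : ↥L, e ^ 2 + algebraMap ℚ ↥L A2 * e + algebraMap ℚ ↥L A4 = 0 →
        ∏ x ∈ X', ((e - algebraMap ℚ ↥L A4 / x) / (e - x)) ^ 2 = (p : ↥L) ^ 2 := by
  classical
  have hinj : Function.Injective (algebraMap ↥L (AlgebraicClosure ℚ)) :=
    (algebraMap ↥L (AlgebraicClosure ℚ)).injective
  refine ⟨X.preimage (algebraMap ↥L (AlgebraicClosure ℚ)) hinj.injOn, ?_, ?_, ?_⟩
  · intro Q hQ hpQ
    rw [Finset.mem_preimage, ← xi_incl]
    refine hX1 _ ?_ ?_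
    · rwa [Ne, incl_eq_zero_iff]
    · rw [← map_nsmul, hpQ, _root_.map_zero]
  · intro x hx
    rw [Finset.mem_preimage] at hx
    obtain ⟨Q, hQ, hpQ, hξ⟩ := hX2 _ hx
    obtain ⟨Q', rfl⟩ := hL Q (by rw [natCast_zsmul]; exact hpQ)
    refine ⟨Q', ?_, ?_, ?_⟩
    · rintro rfl
      exact hQ (_root_.map_zero _)
    · apply incl_injective W L
      rw [map_nsmul, hpQ, _root_.map_zero]
    · apply hinj
      rw [← xi_incl]
      exact hξ
  · intro e he
    have himg : (X.preimage (algebraMap ↥L (AlgebraicClosure ℚ)) hinj.injOn).image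
        (algebraMap ↥L (AlgebraicClosure ℚ)) = X := by
      ext x
      rw [Finset.mem_image]
      constructor
      · rintro ⟨x', hx', rfl⟩
        exact Finset.mem_preimage.1 hx'
      · intro hx
        obtain ⟨Q, hQ, hpQ, hξ⟩ := hX2 _ hx
        obtain ⟨Q', rfl⟩ := hL Q (by rw [natCast_zsmul]; exact hpQ)
        refine ⟨xi (W⁄↥L) (algebraMap ℚ ↥L r) Q', ?_, ?_⟩
        · rw [Finset.mem_preimage, ← xi_incl, hξ]
          exact hx
        · rw [← xi_incl, hξ]
    have he' : (algebraMap ↥L (AlgebraicClosure ℚ) e) ^ 2 +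
        algebraMap ℚ (AlgebraicClosure ℚ) A2 * algebraMap ↥L (AlgebraicClosure ℚ) e +
        algebraMap ℚ (AlgebraicClosure ℚ) A4 = 0 := by
      have := congrArg (algebraMap ↥L (AlgebraicClosure ℚ)) he
      rw [map_add, map_add, map_pow, map_mul, ← IsScalarTower.algebraMap_apply,
        ← IsScalarTower.algebraMap_apply, _root_.map_zero] at this
      exact this
    have h1 := hM2 _ he'
    rw [← himg, Finset.prod_image (fun a _ b _ hab => hinj hab)] at h1
    apply hinj
    rw [map_prod, map_pow, map_natCast, ← h1]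
    refine Finset.prod_congr rfl (fun x _ => ?_)
    rw [map_pow, map_div₀, map_sub, map_sub, map_div₀, ← IsScalarTower.algebraMap_apply]

end transfer

end Fermat.Agent.S13.FreySurj
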