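import Fermat.Agent.S05_Defs
import Fermat.Agent.S13_Defs

set_option autoImplicit false

/-!
# S13 / WP-A (MX-2): the division sequence computes `ξ (n • Q)`

For a `KDatum` (whose valuation is ignored) and a `DivSeq` for its coefficients, the polynomials
`a n`, `b n` evaluated at `ξ Q` give `ξ (n • Q) = a_n (ξ Q) / b_n (ξ Q)`, and `b_n (ξ Q) = 0`
exactly when `n • Q = 0`.  Two-step induction on `n` with the three parallelogram identities
evaluated at `z = ξ Q`.
-/

namespace Fermat.Agent.S13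

open Polynomial
open Fermat.Agent.S05

variable {K : Type*} [Field K] {G : Type*} [AddCommGroup G]

namespace MulEval

/-- `a n` and `b n` have no common root. -/
theorem not_both_zero {A2 A4 : K} (S : DivSeq K A2 A4) {n : ℕ} (hn : 1 ≤ n) (z : K)
    (ha : (S.a n).eval z = 0) (hb : (S.b n).eval z = 0) : False := by
  obtain ⟨u, v, h⟩ := S.coprime n hn
  have h' := congrArg (Polynomial.eval z) h
  rw [eval_add, eval_mul, eval_mul, ha, hb, mul_zero, mul_zero, add_zero, eval_one] at h'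
  exact zero_ne_one h'

theorem eval_I1 {A2 A4 : K} (S : DivSeq K A2 A4) {n : ℕ} (hn : 2 ≤ n) (z : K) :
    (S.a (n + 1)).eval z * (S.a (n - 1)).eval z =
      ((S.a n).eval z * z - A4 * (S.b n).eval z) ^ 2 := by
  have h := congrArg (Polynomial.eval z) (S.I1 n hn)
  simpa only [eval_mul, eval_pow, eval_sub, eval_C, eval_X] using h

theorem eval_I2 {A2 A4 : K} (S : DivSeq K A2 A4) {n : ℕ} (hn : 2 ≤ n) (z : K) :
    (S.b (n + 1)).eval z * (S.b (n - 1)).eval z =
      ((S.a n).eval z - z * (S.b n).eval z) ^ 2 := by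
  have h := congrArg (Polynomial.eval z) (S.I2 n hn)
  simpa only [eval_mul, eval_pow, eval_sub, eval_C, eval_X] using h

theorem eval_I3 {A2 A4 : K} (S : DivSeq K A2 A4) {n : ℕ} (hn : 2 ≤ n) (z : K) :
    (S.a (n + 1)).eval z * (S.b (n - 1)).eval z + (S.a (n - 1)).eval z * (S.b (n + 1)).eval z =
      2 * ((S.a n).eval z * z * ((S.a n).eval z + z * (S.b n).eval z + 2 * A2 * (S.b n).eval z)
        + A4 * (S.b n).eval z * ((S.a n).eval z + z * (S.b n).eval z)) := by
  have h := congrArg (Polynomial.eval z) (S.I3 n hn)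
  simpa only [eval_mul, eval_add, eval_pow, eval_sub, eval_C, eval_X, eval_ofNat] using h

/-- The statement proved by induction. -/
def Good (D : KDatum K G) (S : DivSeq K D.A2 D.A4) (Q : G) (n : ℕ) : Prop :=
  (n • Q ≠ 0 → (S.b n).eval (D.ξ Q) ≠ 0 ∧
      (S.a n).eval (D.ξ Q) = D.ξ (n • Q) * (S.b n).eval (D.ξ Q)) ∧
    (n • Q = 0 → (S.b n).eval (D.ξ Q) = 0)

/-- A point of order two has `η = 0`. -/
theorem eta_eq_zero_of_dbl (D : KDatum K G) {Q : G} (hQ : Q ≠ 0) (h : Q + Q = 0) :
    D.η Q = 0 := by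
  by_contra hη
  exact D.dbl_ne_zero hQ hη h

theorem good_one (D : KDatum K G) (S : DivSeq K D.A2 D.A4) (Q : G) (hQ : Q ≠ 0) :
    Good D S Q 1 := by
  refine ⟨fun _ => ?_, fun h => ?_⟩
  · rw [S.b_one, S.a_one, eval_one, eval_X, one_nsmul, mul_one]
    exact ⟨one_ne_zero, rfl⟩
  · rw [one_nsmul] at h
    exact absurd h hQ

theorem good_two (D : KDatum K G) (S : DivSeq K D.A2 D.A4) (Q : G) (hQ : Q ≠ 0) :
    Good D S Q 2 := by
  have hb : (S.b 2).eval (D.ξ Q) = 4 * D.f (D.ξ Q) := by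
    rw [S.b_two]
    simp only [eval_mul, eval_add, eval_pow, eval_C, eval_X, eval_ofNat, KDatum.f]
  have ha : (S.a 2).eval (D.ξ Q) = (D.ξ Q ^ 2 - D.A4) ^ 2 := by
    rw [S.a_two]
    simp only [eval_pow, eval_sub, eval_C, eval_X]
  have hf : D.f (D.ξ Q) = D.η Q ^ 2 := by rw [KDatum.f, ← D.eqn Q hQ]
  refine ⟨fun h => ?_, fun h => ?_⟩
  · rw [two_nsmul] at h ⊢
    have hη : D.η Q ≠ 0 := fun h0 => h (D.dbl_zero Q hQ h0)
    have hf0 : D.f (D.ξ Q) ≠ 0 := D.f_ξ_ne_zero hQ hη
    have h4 : (4 : K) ≠ 0 := D.four_ne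
    refine ⟨?_, ?_⟩
    · rw [hb]; exact mul_ne_zero h4 hf0
    · rw [ha, hb, D.ξ_dbl' Q hQ hη]
      field_simp
  · rw [two_nsmul] at h
    rw [hb, hf, eta_eq_zero_of_dbl D hQ h]
    ring

/-- The induction step. -/
theorem step (D : KDatum K G) (S : DivSeq K D.A2 D.A4) (Q : G) (hQ : Q ≠ 0) (n : ℕ)
    (hn : 2 ≤ n) (h1 : Good D S Q (n - 1)) (h2 : Good D S Q n) : Good D S Q (n + 1) := by
  have hn1 : 1 ≤ n - 1 := by omega
  have hn0 : 1 ≤ n := by omega
  have e1 := eval_I1 S hn (D.ξ Q)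
  have e2 := eval_I2 S hn (D.ξ Q)
  have e3 := eval_I3 S hn (D.ξ Q)
  have c0 := not_both_zero S hn0 (D.ξ Q)
  have cm := not_both_zero S hn1 (D.ξ Q)
  have hplus : (n + 1) • Q = n • Q + Q := succ_nsmul Q n
  have hminus : (n - 1) • Q = n • Q - Q := by
    have h : (n - 1 + 1) • Q = (n - 1) • Q + Q := succ_nsmul Q (n - 1)
    rw [Nat.sub_add_cancel hn0] at h
    rw [h]; abel
  obtain ⟨h1a, h1b⟩ := h1
  obtain ⟨h2a, h2b⟩ := h2
  rw [hminus] at h1a h1b
  unfold Good
  rw [hplus]
  generalize (S.a (n + 1)).eval (D.ξ Q) = αp at *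
  generalize (S.b (n + 1)).eval (D.ξ Q) = βp at *
  generalize (S.a (n - 1)).eval (D.ξ Q) = αm at *
  generalize (S.b (n - 1)).eval (D.ξ Q) = βm at *
  generalize (S.a n).eval (D.ξ Q) = α at *
  generalize (S.b n).eval (D.ξ Q) = β at *
  generalize n • Q = R at *
  have heqn := D.eqn Q hQ
  by_cases hR : R = 0
  · -- case (i): `n Q = 0`
    subst hR
    have hβ : β = 0 := h2b rfl
    have hα : α ≠ 0 := fun h => c0 h hβ
    have hmQ : (0 : G) - Q ≠ 0 := by rw [zero_sub]; exact neg_ne_zero.mpr hQ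
    obtain ⟨hβm, hαm⟩ := h1a hmQ
    rw [zero_sub, D.ξ_neg] at hαm
    rw [zero_add]
    subst hβ
    have hβp : βp ≠ 0 := by
      intro h
      rw [h] at e2
      have : α ^ 2 = 0 := by linear_combination -e2
      exact hα ((pow_eq_zero_iff two_ne_zero).mp this)
    refine ⟨fun _ => ⟨hβp, ?_⟩, fun h => absurd h hQ⟩
    apply mul_right_cancel₀ hβm
    rw [hαm] at e3
    linear_combination e3 - 2 * D.ξ Q * e2
  · obtain ⟨hβ, hα⟩ := h2a hR
    subst hα
    by_cases hp : R + Q = 0
    · -- case (ii): `(n+1) Q = 0`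
      refine ⟨fun h => absurd hp h, fun _ => ?_⟩
      have hRQ : R = -Q := eq_neg_of_add_eq_zero_left hp
      have hu : D.ξ R = D.ξ Q := by rw [hRQ, D.ξ_neg]
      rw [hu] at e1 e2 e3
      by_cases hm : R - Q = 0
      · have hβm : βm = 0 := h1b hm
        have hαm : αm ≠ 0 := fun h => cm h hβm
        have h2Q : Q + Q = 0 := by
          have : R = Q := sub_eq_zero.mp hm
          rw [this] at hp; exact hp
        have hη : D.η Q = 0 := eta_eq_zero_of_dbl D hQ h2Q
        rw [hη] at heqn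
        rw [hβm] at e3
        have : αm * βp = 0 := by
          linear_combination e3 - 4 * β ^ 2 * heqn
        exact (mul_eq_zero.mp this).resolve_left hαm
      · obtain ⟨hβm, -⟩ := h1a hm
        have : βp * βm = 0 := by linear_combination e2
        exact (mul_eq_zero.mp this).resolve_right hβm
    · refine ⟨fun _ => ?_, fun h => absurd h hp⟩
      by_cases hm : R - Q = 0
      · -- case (iii): `(n-1) Q = 0`
        have hRQ : R = Q := sub_eq_zero.mp hm
        subst hRQ
        have hβm : βm = 0 := h1b hm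
        have hαm : αm ≠ 0 := fun h => cm h hβm
        have hη : D.η R ≠ 0 := fun h0 => hp (D.dbl_zero R hQ h0)
        have hf0 : D.f (D.ξ R) ≠ 0 := D.f_ξ_ne_zero hQ hη
        have h4 : (4 : K) ≠ 0 := D.four_ne
        rw [hβm] at e3
        have e3' : αm * βp = 4 * β ^ 2 * D.f (D.ξ R) := by
          rw [KDatum.f]; linear_combination e3
        have hβp : βp ≠ 0 := by
          intro h
          rw [h, mul_zero] at e3'
          exact mul_ne_zero (mul_ne_zero h4 (pow_ne_zero 2 hβ)) hf0 e3'.symm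
        refine ⟨hβp, ?_⟩
        apply mul_right_cancel₀ hαm
        rw [D.ξ_dbl' R hQ hη]
        have e1' : αp * αm = β ^ 2 * (D.ξ R ^ 2 - D.A4) ^ 2 := by linear_combination e1
        rw [e1', mul_assoc, mul_comm βp αm, e3']
        field_simp
      · -- case (iv): all three multiples are nonzero
        obtain ⟨hβm, hαm⟩ := h1a hm
        have hne : D.ξ R ≠ D.ξ Q := by
          intro h
          rcases D.eq_or_eq_neg_of_ξ_eq hR hQ h with h | h
          · exact hm (sub_eq_zero.mpr h)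
          · exact hp (by rw [h]; exact neg_add_cancel Q)
        have hsub : D.ξ R - D.ξ Q ≠ 0 := sub_ne_zero.mpr hne
        have hsum := D.ξ_add_add_ξ_sub R Q hR hQ hne
        have hsum' : (D.ξ (R + Q) + D.ξ (R - Q)) * (D.ξ R - D.ξ Q) ^ 2 =
            2 * (D.ξ R * D.ξ Q * (D.ξ R + D.ξ Q + 2 * D.A2) + D.A4 * (D.ξ R + D.ξ Q)) := by
          rw [hsum]; field_simp
        have e2' : βp * βm = β ^ 2 * (D.ξ R - D.ξ Q) ^ 2 := by linear_combination e2
        have hβp : βp ≠ 0 := by
          intro h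
          rw [h, zero_mul] at e2'
          exact mul_ne_zero (pow_ne_zero 2 hβ) (pow_ne_zero 2 hsub) e2'.symm
        refine ⟨hβp, ?_⟩
        apply mul_right_cancel₀ hβm
        rw [hαm] at e3
        linear_combination e3 - β ^ 2 * hsum' - (D.ξ (R + Q) + D.ξ (R - Q)) * e2'

end MulEval

/-- (MX-2) the sequence computes `ξ (n • Q)`, and `b n` vanishes exactly at the `ξ`-values of
the nonzero `n`-torsion points. -/
theorem DivSeq.eval_nsmul (D : KDatum K G) (S : DivSeq K D.A2 D.A4) (n : ℕ) (hn : 1 ≤ n)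
    (Q : G) (hQ : Q ≠ 0) :
    (n • Q ≠ 0 → (S.b n).eval (D.ξ Q) ≠ 0 ∧
      (S.a n).eval (D.ξ Q) = D.ξ (n • Q) * (S.b n).eval (D.ξ Q)) ∧
    (n • Q = 0 → (S.b n).eval (D.ξ Q) = 0) := by
  have key : ∀ m : ℕ, 1 ≤ m → MulEval.Good D S Q m := by
    intro m
    induction m using Nat.strong_induction_on with
    | _ m ih =>
      intro hm
      rcases Nat.lt_or_ge m 3 with h | h
      · interval_cases m
        · exact MulEval.good_one D S Q hQ
        · exact MulEval.good_two D S Q hQ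
      · have h' := MulEval.step D S Q hQ (m - 1) (by omega)
          (by
            have := ih (m - 2) (by omega) (by omega)
            have e : m - 1 - 1 = m - 2 := by omega
            rw [e]; exact this)
          (ih (m - 1) (by omega) (by omega))
        rwa [Nat.sub_add_cancel (by omega)] at h'
  exact key n hn

end Fermat.Agent.S13
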