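import Mathlib
import Fermat.Agent.S13_MulEval

set_option autoImplicit false

/-!
# S13 / WP-A: the number of `n`-torsion points is `n²`

Over an algebraically closed field of characteristic zero, for a `KDatum` all of whose equation
solutions are points and a `DivSeq` for its coefficients, there are exactly `n²` points killed by
`n`.  Generic-fibre count: for a generic `c` the polynomial `a_n - c b_n` (monic of degree `n²`)
is separable; if `ξ P₀ = c` then `ξ` maps `{Q | n • Q = P₀}` bijectively onto its roots, and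
`{Q | n • Q = P₀}` is a coset of the `n`-torsion.
-/

namespace Fermat.Agent.S13.MulCard

open Polynomial
open Fermat.Agent.S05

variable {K : Type*} [Field K] {G : Type*} [AddCommGroup G]

/-- The Wronskian `a_n' b_n - a_n b_n'` is not zero: its coefficient of degree `2 n² - 2` is
`n²`. -/
theorem wr_ne_zero [CharZero K] {A2 A4 : K} (S : DivSeq K A2 A4) (n : ℕ) (hn : 1 ≤ n) :
    derivative (S.a n) * S.b n - S.a n * derivative (S.b n) ≠ 0 := by
  rcases Nat.lt_or_ge n 2 with h | h
  · have h1 : n = 1 := by omega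
    subst h1
    rw [S.a_one, S.b_one]
    simp
  · obtain ⟨m, hm⟩ : ∃ m, n ^ 2 = m + 2 :=
      ⟨n ^ 2 - 2, by have : 4 ≤ n ^ 2 := by nlinarith
                     omega⟩
    have hda := S.natDegree_a n hn
    have hdb := S.natDegree_b n hn
    have hma := S.monic n hn
    have hlb := S.leadingCoeff_b n hn
    rw [hm] at hda
    have hdb' : (S.b n).natDegree = m + 1 := by rw [hdb, hm]; rfl
    have ha2 : (S.a n).coeff (m + 2) = 1 := by
      have := hma.coeff_natDegree
      rwa [hda] at this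
    have hb1 : (S.b n).coeff (m + 1) = (n : K) ^ 2 := by
      rw [← hlb, leadingCoeff, hdb']
    have hnK : (n : K) ^ 2 = (m : K) + 2 := by exact_mod_cast congrArg (Nat.cast : ℕ → K) hm
    intro h0
    have hc := congrArg (fun q => q.coeff ((m + 1) + (m + 1))) h0
    simp only [coeff_sub, coeff_zero] at hc
    have c1 : (derivative (S.a n) * S.b n).coeff ((m + 1) + (m + 1)) =
        ((m : K) + 2) * (n : K) ^ 2 := by
      rw [coeff_mul_add_eq_of_natDegree_le
        (by have := natDegree_derivative_le (S.a n); omega) hdb'.le, coeff_derivative, ha2, hb1]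
      push_cast; ring
    have c2 : (S.a n * derivative (S.b n)).coeff ((m + 2) + m) =
        ((m : K) + 1) * (n : K) ^ 2 := by
      rw [coeff_mul_add_eq_of_natDegree_le hda.le
        (by have := natDegree_derivative_le (S.b n); omega), coeff_derivative, ha2, hb1]
      ring
    have e : (m + 1) + (m + 1) = (m + 2) + m := by ring
    rw [c1, e, c2] at hc
    have hn0 : (n : K) ≠ 0 := by
      have : n ≠ 0 := by omega
      exact_mod_cast this
    have h2 : (n : K) ^ 2 = 0 := by linear_combination hc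
    exact hn0 ((pow_eq_zero_iff two_ne_zero).mp h2)

/-- For all `c` outside a finite set, `a_n - c b_n` is separable. -/
theorem exists_separable_fibre [IsAlgClosed K] [CharZero K] {A2 A4 : K} (S : DivSeq K A2 A4)
    (n : ℕ) (hn : 1 ≤ n) (F : Finset K) :
    ∃ c : K, c ∉ F ∧ (S.a n - C c * S.b n).Separable := by
  classical
  have hW0 := wr_ne_zero S n hn
  set W := derivative (S.a n) * S.b n - S.a n * derivative (S.b n) with hW
  let bad : Finset K := (W.roots.toFinset.image fun x => (S.a n).eval x / (S.b n).eval x) ∪ F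
  obtain ⟨c, hc⟩ := Infinite.exists_notMem_finset bad
  refine ⟨c, fun h => hc (Finset.mem_union_right _ h), ?_⟩
  rw [separable_def, isCoprime_iff_aeval_ne_zero_of_isAlgClosed (k := K) K]
  intro x
  by_contra hcon
  push Not at hcon
  obtain ⟨h1, h2⟩ := hcon
  rw [coe_aeval_eq_eval] at h1 h2
  have e1 : (S.a n).eval x = c * (S.b n).eval x := by
    rw [eval_sub, eval_mul, eval_C] at h1
    linear_combination h1
  have e2 : (derivative (S.a n)).eval x = c * (derivative (S.b n)).eval x := by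
    rw [derivative_sub, derivative_C_mul, eval_sub, eval_mul, eval_C] at h2
    linear_combination h2
  have hWx : W.eval x = 0 := by
    rw [hW, eval_sub, eval_mul, eval_mul, e1, e2]; ring
  have hb : (S.b n).eval x ≠ 0 := fun hb =>
    MulEval.not_both_zero S hn x (by rw [e1, hb, mul_zero]) hb
  apply hc
  apply Finset.mem_union_left
  rw [Finset.mem_image]
  refine ⟨x, ?_, ?_⟩
  · rw [Multiset.mem_toFinset, mem_roots hW0]; exact hWx
  · rw [e1]; field_simp

/-- `a_n - c b_n` is monic of degree `n²`. -/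
theorem natDegree_fibre {A2 A4 : K} (S : DivSeq K A2 A4) (n : ℕ) (hn : 1 ≤ n) (c : K) :
    (S.a n - C c * S.b n).natDegree = n ^ 2 := by
  have hlt : (C c * S.b n).natDegree < (S.a n).natDegree := by
    have h1 : (C c * S.b n).natDegree ≤ (S.b n).natDegree := natDegree_C_mul_le c (S.b n)
    rw [S.natDegree_b n hn] at h1
    rw [S.natDegree_a n hn]
    have : 1 ≤ n ^ 2 := Nat.one_le_pow _ _ hn
    omega
  rw [natDegree_sub_eq_left_of_natDegree_lt hlt, S.natDegree_a n hn]

/-- **The count**: there are exactly `n²` points killed by `n`. -/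
theorem card_torsion [IsAlgClosed K] [CharZero K] (D : KDatum K G) (S : DivSeq K D.A2 D.A4)
    (hsurj : ∀ x y : K, y ^ 2 = x * (x ^ 2 + D.A2 * x + D.A4) →
      ∃ Q : G, Q ≠ 0 ∧ D.ξ Q = x ∧ D.η Q = y)
    (n : ℕ) (hn : 1 ≤ n) : Nat.card {Q : G // n • Q = 0} = n ^ 2 := by
  classical
  -- the cubic as a polynomial
  have hq : (X ^ 2 + C D.A2 * X + C D.A4 : K[X]) ≠ 0 := by
    intro h
    have h2 := congrArg (fun q => q.coeff 2) h
    simp at h2
  have hcub : (X * (X ^ 2 + C D.A2 * X + C D.A4) : K[X]) ≠ 0 := mul_ne_zero X_ne_zero hq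
  obtain ⟨c, hcF, hsep⟩ := exists_separable_fibre S n hn
    ((X * (X ^ 2 + C D.A2 * X + C D.A4) : K[X]).roots.toFinset)
  have hfc : c * (c ^ 2 + D.A2 * c + D.A4) ≠ 0 := by
    intro h
    apply hcF
    rw [Multiset.mem_toFinset, mem_roots hcub, IsRoot.def]
    simpa using h
  -- the point `P0` above `c`
  obtain ⟨y, hy⟩ := IsAlgClosed.exists_pow_nat_eq (c * (c ^ 2 + D.A2 * c + D.A4)) two_pos
  obtain ⟨P0, hP0, hξ0, hη0⟩ := hsurj c y hy
  have hy0 : D.η P0 ≠ 0 := by
    rw [hη0]
    intro h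
    rw [h] at hy
    exact hfc (by rw [← hy]; ring)
  have h2P0 : P0 + P0 ≠ 0 := D.dbl_ne_zero hP0 hy0
  set g : K[X] := S.a n - C c * S.b n with hg
  have hgdeg : g.natDegree = n ^ 2 := natDegree_fibre S n hn c
  have hn2 : 1 ≤ n ^ 2 := Nat.one_le_pow _ _ hn
  have hg0 : g ≠ 0 := by
    intro h
    rw [h, natDegree_zero] at hgdeg
    omega
  -- (A) points over `P0` give roots
  have hA : ∀ Q : G, n • Q = P0 → g.eval (D.ξ Q) = 0 := by
    intro Q hQ
    have hQ0 : Q ≠ 0 := by
      rintro rfl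
      rw [nsmul_zero] at hQ
      exact hP0 hQ.symm
    obtain ⟨hb, ha⟩ := (DivSeq.eval_nsmul D S n hn Q hQ0).1 (by rw [hQ]; exact hP0)
    rw [hQ, hξ0] at ha
    rw [hg, eval_sub, eval_mul, eval_C, ha, sub_self]
  -- (B) injectivity
  have hB : ∀ Q Q' : G, n • Q = P0 → n • Q' = P0 → D.ξ Q = D.ξ Q' → Q = Q' := by
    intro Q Q' hQ hQ' h
    have hQ0 : Q ≠ 0 := by
      rintro rfl
      rw [nsmul_zero] at hQ
      exact hP0 hQ.symm
    have hQ0' : Q' ≠ 0 := by
      rintro rfl
      rw [nsmul_zero] at hQ'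
      exact hP0 hQ'.symm
    rcases D.eq_or_eq_neg_of_ξ_eq hQ0 hQ0' h with h | h
    · exact h
    · exfalso
      apply h2P0
      have h3 : n • Q = -(n • Q') := by rw [h, smul_neg]
      rw [hQ, hQ'] at h3
      nth_rewrite 1 [h3]
      exact neg_add_cancel P0
  -- (C) surjectivity
  have hC : ∀ x : K, g.eval x = 0 → ∃ Q : G, n • Q = P0 ∧ D.ξ Q = x := by
    intro x hx
    obtain ⟨y1, hy1⟩ := IsAlgClosed.exists_pow_nat_eq (x * (x ^ 2 + D.A2 * x + D.A4)) two_pos
    obtain ⟨Q1, hQ1, hξ1, -⟩ := hsurj x y1 hy1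
    have e1 : (S.a n).eval x = c * (S.b n).eval x := by
      rw [hg, eval_sub, eval_mul, eval_C] at hx
      linear_combination hx
    have hb : (S.b n).eval x ≠ 0 := fun hb =>
      MulEval.not_both_zero S hn x (by rw [e1, hb, mul_zero]) hb
    have hev := DivSeq.eval_nsmul D S n hn Q1 hQ1
    rw [hξ1] at hev
    have hnQ1 : n • Q1 ≠ 0 := fun h => hb (hev.2 h)
    obtain ⟨-, ha⟩ := hev.1 hnQ1
    have hξ : D.ξ (n • Q1) = D.ξ P0 := by
      rw [hξ0]
      apply mul_right_cancel₀ hb
      rw [← ha, e1]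
    rcases D.eq_or_eq_neg_of_ξ_eq hnQ1 hP0 hξ with h | h
    · exact ⟨Q1, h, hξ1⟩
    · refine ⟨-Q1, ?_, by rw [D.ξ_neg, hξ1]⟩
      rw [smul_neg, h, neg_neg]
  -- a base point
  obtain ⟨x0, hx0⟩ := IsAlgClosed.exists_root g (by
    rw [degree_eq_natDegree hg0, hgdeg]
    exact_mod_cast (by omega : n ^ 2 ≠ 0))
  obtain ⟨Q0, hQ0, -⟩ := hC x0 hx0
  -- the torsion is in bijection with the fibre over `P0`
  have card1 : Nat.card {Q : G // n • Q = 0} = Nat.card {Q : G // n • Q = P0} :=
    Nat.card_congr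
      { toFun := fun T => ⟨Q0 + T.1, by rw [nsmul_add, hQ0, T.2, add_zero]⟩
        invFun := fun Q => ⟨Q.1 - Q0, by rw [nsmul_sub, Q.2, hQ0, sub_self]⟩
        left_inv := fun T => Subtype.ext (by simp)
        right_inv := fun Q => Subtype.ext (by simp) }
  -- the fibre is in bijection with the roots
  have card2 : Nat.card {Q : G // n • Q = P0} = Nat.card {x : K // x ∈ g.roots.toFinset} := by
    refine Nat.card_congr (Equiv.ofBijective
      (fun Q => ⟨D.ξ Q.1, by
        rw [Multiset.mem_toFinset, mem_roots hg0]; exact hA Q.1 Q.2⟩) ⟨?_, ?_⟩)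
    · intro Q Q' h
      exact Subtype.ext (hB Q.1 Q'.1 Q.2 Q'.2 (congrArg Subtype.val h))
    · rintro ⟨x, hx⟩
      rw [Multiset.mem_toFinset, mem_roots hg0] at hx
      obtain ⟨Q, hQ, hξ⟩ := hC x hx
      exact ⟨⟨Q, hQ⟩, Subtype.ext hξ⟩
  rw [card1, card2, Nat.card_eq_fintype_card, Fintype.card_coe,
    Multiset.toFinset_card_of_nodup (nodup_roots hsep), IsAlgClosed.card_roots_eq_natDegree, hgdeg]

end Fermat.Agent.S13.MulCard
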