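import Mathlib

/-!
# S13 / WP-A: the inductive step for the multiplication sequence `(a n, b n)`

Pure polynomial algebra over a field `K` of characteristic zero: if `(a, b) = (a n, b n)` and
`(c, d) = (a (n-1), b (n-1))` and `(a', b')` satisfy the three "parallelogram" identities, then
`a'`, `b'` are coprime, `a'` is monic of degree `(n+1)²`, `b'` has degree `(n+1)² - 1` and leading
coefficient `(n+1)²`.
-/

set_option autoImplicit false

namespace Fermat.Agent.S13.MulStep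

open Polynomial

variable {K : Type*} [Field K]

/-- no prime divides both `X² - A4` and `X (X² + A2 X + A4)` when `A4 (A2² - 4 A4) ≠ 0`. -/
theorem core (A2 A4 : K) (hA4 : A4 ≠ 0) (hdisc : A2 ^ 2 - 4 * A4 ≠ 0) {π : K[X]} (hπ : Prime π)
    (h1 : π ∣ X ^ 2 - C A4) (h2 : π ∣ X * (X ^ 2 + C A2 * X + C A4)) : False := by
  have hunit : ∀ t : K, t ≠ 0 → ¬ π ∣ C t := fun t ht hd =>
    hπ.not_isUnit (isUnit_of_dvd_unit hd (Polynomial.isUnit_C.mpr (isUnit_iff_ne_zero.mpr ht)))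
  rcases hπ.dvd_or_dvd h2 with h | h
  · apply hunit A4 hA4
    have e : C A4 = X * X - (X ^ 2 - C A4) := by ring
    rw [e]
    exact dvd_sub (dvd_mul_of_dvd_left h X) h1
  · have h3 : π ∣ C A2 * X + 2 * C A4 := by
      have e : C A2 * X + 2 * C A4 = (X ^ 2 + C A2 * X + C A4) - (X ^ 2 - C A4) := by ring
      rw [e]; exact dvd_sub h h1
    apply hunit (A4 * (A2 ^ 2 - 4 * A4)) (mul_ne_zero hA4 hdisc)
    have e : C (A4 * (A2 ^ 2 - 4 * A4))
        = (C A2 * X - 2 * C A4) * (C A2 * X + 2 * C A4) - C A2 ^ 2 * (X ^ 2 - C A4) := by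
      simp only [map_mul, map_sub, map_pow, map_ofNat]
      ring
    rw [e]
    exact dvd_sub (dvd_mul_of_dvd_right h3 _) (dvd_mul_of_dvd_right h1 _)

theorem isUnit_four [CharZero K] : IsUnit (4 : K[X]) := by
  have e : (4 : K[X]) = C (4 : K) := (map_ofNat C 4).symm
  rw [e]
  exact Polynomial.isUnit_C.mpr (isUnit_iff_ne_zero.mpr (by norm_num))

/-- coprimality is propagated by the recursion. -/
theorem isCoprime_step [CharZero K] (A2 A4 : K) (hA4 : A4 ≠ 0) (hdisc : A2 ^ 2 - 4 * A4 ≠ 0)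
    (a b c d a' b' : K[X]) (hab : IsCoprime a b)
    (h1 : a' * c = (a * X - C A4 * b) ^ 2) (h2 : b' * d = (a - X * b) ^ 2)
    (h3 : a' * d + c * b'
      = 2 * (a * X * (a + X * b + 2 * C A2 * b) + C A4 * b * (a + X * b)))
    (hne : ¬ (a' = 0 ∧ b' = 0)) : IsCoprime a' b' := by
  refine isCoprime_of_prime_dvd hne (fun π hπ hπa hπb => ?_)
  have hδ : π ∣ a - X * b := hπ.dvd_of_dvd_pow (h2 ▸ dvd_mul_of_dvd_left hπb d)
  have hε : π ∣ a * X - C A4 * b := hπ.dvd_of_dvd_pow (h1 ▸ dvd_mul_of_dvd_left hπa c)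
  have hNs : π ∣ 2 * (a * X * (a + X * b + 2 * C A2 * b) + C A4 * b * (a + X * b)) :=
    h3 ▸ dvd_add (dvd_mul_of_dvd_left hπa d) (dvd_mul_of_dvd_right hπb c)
  have hb : ¬ π ∣ b := by
    intro hb
    have ha : π ∣ a := by
      have e : a = (a - X * b) + X * b := by ring
      rw [e]; exact dvd_add hδ (dvd_mul_of_dvd_right hb X)
    exact hπ.not_isUnit (hab.isUnit_of_dvd' ha hb)
  have hX : π ∣ X ^ 2 - C A4 := by
    have h : π ∣ (X ^ 2 - C A4) * b := by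
      have e : (X ^ 2 - C A4) * b = (a * X - C A4 * b) - X * (a - X * b) := by ring
      rw [e]; exact dvd_sub hε (dvd_mul_of_dvd_right hδ X)
    exact (hπ.dvd_or_dvd h).resolve_right hb
  have h4 : π ∣ 4 * (X * (X ^ 2 + C A2 * X + C A4)) * b ^ 2 := by
    have e : 4 * (X * (X ^ 2 + C A2 * X + C A4)) * b ^ 2
        = 2 * (a * X * (a + X * b + 2 * C A2 * b) + C A4 * b * (a + X * b))
          - (a - X * b) * (2 * (3 * X ^ 2 * b + 2 * C A2 * X * b + C A4 * b + X * (a - X * b))) := by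
      ring
    rw [e]; exact dvd_sub hNs (dvd_mul_of_dvd_left hδ _)
  have h5 : π ∣ X * (X ^ 2 + C A2 * X + C A4) := by
    have h6 := (hπ.dvd_or_dvd h4).resolve_right (fun h => hb (hπ.dvd_of_dvd_pow h))
    exact (hπ.dvd_or_dvd h6).resolve_left
      (fun h => hπ.not_isUnit (isUnit_of_dvd_unit h isUnit_four))
  exact core A2 A4 hA4 hdisc hπ hX h5

/-- the base pair `(a 2, b 2)` is coprime. -/
theorem isCoprime_two [CharZero K] (A2 A4 : K) (hA4 : A4 ≠ 0) (hdisc : A2 ^ 2 - 4 * A4 ≠ 0) :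
    IsCoprime ((X ^ 2 - C A4) ^ 2 : K[X]) (4 * (X * (X ^ 2 + C A2 * X + C A4))) := by
  have hne : ¬ (((X ^ 2 - C A4) ^ 2 : K[X]) = 0 ∧
      (4 * (X * (X ^ 2 + C A2 * X + C A4)) : K[X]) = 0) := by
    rintro ⟨h, -⟩
    have h' : (X ^ 2 - C A4 : K[X]) = 0 := by simpa using h
    have h2 := congrArg (fun p : K[X] => p.coeff 2) h'
    simp [coeff_X_pow] at h2
  refine isCoprime_of_prime_dvd hne (fun π hπ hπa hπb => ?_)
  have hX : π ∣ X ^ 2 - C A4 := hπ.dvd_of_dvd_pow hπa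
  have h5 : π ∣ X * (X ^ 2 + C A2 * X + C A4) :=
    (hπ.dvd_or_dvd hπb).resolve_left (fun h => hπ.not_isUnit (isUnit_of_dvd_unit h isUnit_four))
  exact core A2 A4 hA4 hdisc hπ hX h5

/-- degrees and leading coefficients are propagated by the recursion. -/
theorem degree_step [CharZero K] (A4 : K) (n : ℕ) (hn : 2 ≤ n) (a b c d a' b' : K[X])
    (h1 : a' * c = (a * X - C A4 * b) ^ 2) (h2 : b' * d = (a - X * b) ^ 2)
    (ha : a.Monic) (hda : a.natDegree = n ^ 2) (hdb : b.natDegree = n ^ 2 - 1)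
    (hlb : b.leadingCoeff = (n : K) ^ 2)
    (hc : c.Monic) (hdc : c.natDegree = (n - 1) ^ 2) (hdd : d.natDegree = (n - 1) ^ 2 - 1)
    (hld : d.leadingCoeff = ((n - 1 : ℕ) : K) ^ 2) :
    a'.Monic ∧ a'.natDegree = (n + 1) ^ 2 ∧ b'.natDegree = (n + 1) ^ 2 - 1 ∧
      b'.leadingCoeff = ((n + 1 : ℕ) : K) ^ 2 := by
  obtain ⟨m, rfl⟩ : ∃ m, n = m + 2 := ⟨n - 2, by omega⟩
  have hm1 : m + 2 - 1 = m + 1 := rfl
  rw [hm1] at hdc hdd hld
  have hm1K : ((m + 1 : ℕ) : K) ≠ 0 := Nat.cast_ne_zero.mpr (by omega)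
  have hm2K : ((m + 2 : ℕ) : K) ≠ 0 := Nat.cast_ne_zero.mpr (by omega)
  have hb0 : b ≠ 0 := by
    intro h
    rw [h, leadingCoeff_zero] at hlb
    exact pow_ne_zero 2 hm2K hlb.symm
  have hd0 : d ≠ 0 := by
    intro h
    rw [h, leadingCoeff_zero] at hld
    exact pow_ne_zero 2 hm1K hld.symm
  -- the numerator
  have haX : (a * X).Monic := ha.mul monic_X
  have haXd : (a * X).natDegree = (m + 2) ^ 2 + 1 := by
    rw [natDegree_mul_X ha.ne_zero, hda]
  have h3' : (C A4 * b).natDegree ≤ (m + 2) ^ 2 - 1 :=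
    (natDegree_C_mul_le A4 b).trans hdb.le
  have h4' : (C A4 * b).natDegree < (a * X).natDegree := by
    rw [haXd]; omega
  have hlt : (C A4 * b).degree < (a * X).degree := by
    rw [degree_eq_natDegree haX.ne_zero, haXd]
    refine lt_of_le_of_lt degree_le_natDegree ?_
    have h4 : (m + 2) ^ 2 - 1 < (m + 2) ^ 2 + 1 := by omega
    exact_mod_cast lt_of_le_of_lt h3' h4
  have hE : (a * X - C A4 * b).Monic := haX.sub_of_left hlt
  have hEd : (a * X - C A4 * b).natDegree = (m + 2) ^ 2 + 1 := by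
    rw [natDegree_sub_eq_left_of_natDegree_lt h4', haXd]
  have hE2 : ((a * X - C A4 * b) ^ 2).Monic := hE.pow 2
  have hE2d : ((a * X - C A4 * b) ^ 2).natDegree = 2 * ((m + 2) ^ 2 + 1) := by
    rw [hE.natDegree_pow, hEd]
  have ha' : a'.Monic := by
    have h : (a' * c).Monic := by rw [h1]; exact hE2
    exact hc.of_mul_monic_right h
  have ha'd : a'.natDegree = (m + 2 + 1) ^ 2 := by
    have h := ha'.natDegree_mul hc
    rw [h1, hE2d, hdc] at h
    have e : 2 * ((m + 2) ^ 2 + 1) = (m + 2 + 1) ^ 2 + (m + 1) ^ 2 := by ring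
    omega
  -- the denominator
  have hXb : (X * b).natDegree = (m + 2) ^ 2 := by
    rw [natDegree_X_mul hb0, hdb]
    have : 1 ≤ (m + 2) ^ 2 := Nat.one_le_pow _ _ (by omega)
    omega
  have hcoeff : (a - X * b).coeff ((m + 2) ^ 2) = 1 - ((m + 2 : ℕ) : K) ^ 2 := by
    rw [coeff_sub]
    have e1 : a.coeff ((m + 2) ^ 2) = 1 := by
      rw [← hda]; exact ha.coeff_natDegree
    have e2 : (X * b).coeff ((m + 2) ^ 2) = ((m + 2 : ℕ) : K) ^ 2 := by
      rw [← hXb, coeff_natDegree, leadingCoeff_mul, leadingCoeff_X, one_mul, hlb]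
    rw [e1, e2]
  have hne1 : (1 : K) - ((m + 2 : ℕ) : K) ^ 2 ≠ 0 := by
    have h : ((m + 2 : ℕ) : K) ^ 2 = (((m + 2) ^ 2 : ℕ) : K) := by push_cast; ring
    rw [h, sub_ne_zero]
    have h1 : (1 : K) = ((1 : ℕ) : K) := by simp
    rw [h1]
    intro h2
    have h3 := Nat.cast_injective h2
    nlinarith
  have hδd : (a - X * b).natDegree = (m + 2) ^ 2 := by
    apply le_antisymm
    · refine (natDegree_sub_le _ _).trans ?_
      rw [hda, hXb, max_self]
    · exact le_natDegree_of_ne_zero (by rw [hcoeff]; exact hne1)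
  have hδl : (a - X * b).leadingCoeff = 1 - ((m + 2 : ℕ) : K) ^ 2 := by
    rw [leadingCoeff, hδd, hcoeff]
  have hδ0 : a - X * b ≠ 0 := by
    intro h
    rw [h, leadingCoeff_zero] at hδl
    exact hne1 hδl.symm
  have hb'0 : b' ≠ 0 := by
    intro h
    rw [h, zero_mul] at h2
    exact pow_ne_zero 2 hδ0 h2.symm
  have hb'd : b'.natDegree = (m + 2 + 1) ^ 2 - 1 := by
    have h := natDegree_mul hb'0 hd0
    rw [h2, natDegree_pow, hδd, hdd] at h
    have e : 2 * (m + 2) ^ 2 + 1 = (m + 2 + 1) ^ 2 - 1 + (m + 1) ^ 2 := by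
      have e' : (m + 2 + 1) ^ 2 = 2 * (m + 2) ^ 2 + 1 + 1 - (m + 1) ^ 2 + 0 := by
        have : (m + 2 + 1) ^ 2 + (m + 1) ^ 2 = 2 * (m + 2) ^ 2 + 2 := by ring
        omega
      have h5 : 1 ≤ (m + 2 + 1) ^ 2 := Nat.one_le_pow _ _ (by omega)
      have : (m + 2 + 1) ^ 2 + (m + 1) ^ 2 = 2 * (m + 2) ^ 2 + 2 := by ring
      omega
    have h6 : 1 ≤ (m + 1) ^ 2 := Nat.one_le_pow _ _ (by omega)
    omega
  have hb'l : b'.leadingCoeff = ((m + 2 + 1 : ℕ) : K) ^ 2 := by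
    have h := leadingCoeff_mul b' d
    rw [h2, leadingCoeff_pow, hδl, hld] at h
    have hne : (((m + 1 : ℕ) : K)) ^ 2 ≠ 0 := pow_ne_zero 2 hm1K
    apply mul_right_cancel₀ hne
    rw [← h]
    push_cast
    ring
  exact ⟨ha', ha'd, hb'd, hb'l⟩

/-- **The step lemma** for the multiplication sequence. -/
theorem step [CharZero K] (A2 A4 : K) (hA4 : A4 ≠ 0) (hdisc : A2 ^ 2 - 4 * A4 ≠ 0)
    (n : ℕ) (hn : 2 ≤ n) (a b c d a' b' : K[X]) (hab : IsCoprime a b)
    (h1 : a' * c = (a * X - C A4 * b) ^ 2) (h2 : b' * d = (a - X * b) ^ 2)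
    (h3 : a' * d + c * b'
      = 2 * (a * X * (a + X * b + 2 * C A2 * b) + C A4 * b * (a + X * b)))
    (ha : a.Monic) (hda : a.natDegree = n ^ 2) (hdb : b.natDegree = n ^ 2 - 1)
    (hlb : b.leadingCoeff = (n : K) ^ 2)
    (hc : c.Monic) (hdc : c.natDegree = (n - 1) ^ 2) (hdd : d.natDegree = (n - 1) ^ 2 - 1)
    (hld : d.leadingCoeff = ((n - 1 : ℕ) : K) ^ 2) :
    IsCoprime a' b' ∧ a'.Monic ∧ a'.natDegree = (n + 1) ^ 2 ∧ b'.natDegree = (n + 1) ^ 2 - 1 ∧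
      b'.leadingCoeff = ((n + 1 : ℕ) : K) ^ 2 := by
  have h := degree_step A4 n hn a b c d a' b' h1 h2 ha hda hdb hlb hc hdc hdd hld
  refine ⟨isCoprime_step A2 A4 hA4 hdisc a b c d a' b' hab h1 h2 h3 ?_, h⟩
  rintro ⟨h0, -⟩
  exact h.1.ne_zero h0

/-- degrees and leading coefficients of the base pair `(a 2, b 2)`. -/
theorem degree_two [CharZero K] (A2 A4 : K) :
    ((X ^ 2 - C A4) ^ 2 : K[X]).Monic ∧ ((X ^ 2 - C A4) ^ 2 : K[X]).natDegree = 2 ^ 2 ∧
      (4 * (X * (X ^ 2 + C A2 * X + C A4)) : K[X]).natDegree = 2 ^ 2 - 1 ∧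
      (4 * (X * (X ^ 2 + C A2 * X + C A4)) : K[X]).leadingCoeff = ((2 : ℕ) : K) ^ 2 := by
  have h1 : (X ^ 2 - C A4 : K[X]).Monic := monic_X_pow_sub_C A4 (by norm_num)
  have h1d : (X ^ 2 - C A4 : K[X]).natDegree = 2 := natDegree_X_pow_sub_C
  have h2 : (X ^ 2 + C A2 * X + C A4 : K[X]).Monic := by
    have e : (X ^ 2 + C A2 * X + C A4 : K[X]) = X ^ 2 + (C A2 * X + C A4) := by ring
    rw [e]
    refine monic_X_pow_add ?_
    refine lt_of_le_of_lt (degree_linear_le) (by norm_num)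
  have h2d : (X ^ 2 + C A2 * X + C A4 : K[X]).natDegree = 2 := by
    have e : (X ^ 2 + C A2 * X + C A4 : K[X]) = X ^ 2 + (C A2 * X + C A4) := by ring
    rw [e, natDegree_add_eq_left_of_degree_lt, natDegree_X_pow]
    rw [degree_X_pow]
    exact lt_of_le_of_lt (degree_linear_le) (by norm_num)
  have h3 : (X * (X ^ 2 + C A2 * X + C A4) : K[X]).Monic := monic_X.mul h2
  have h3d : (X * (X ^ 2 + C A2 * X + C A4) : K[X]).natDegree = 3 := by
    rw [monic_X.natDegree_mul h2, natDegree_X, h2d]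
  have e4 : (4 : K[X]) = C (4 : K) := (map_ofNat C 4).symm
  have h4 : (4 : K) ≠ 0 := by norm_num
  refine ⟨h1.pow 2, ?_, ?_, ?_⟩
  · rw [h1.natDegree_pow, h1d]; norm_num
  · rw [e4, natDegree_C_mul h4, h3d]; norm_num
  · rw [e4, leadingCoeff_mul, leadingCoeff_C, h3.leadingCoeff]
    push_cast
    ring

end Fermat.Agent.S13.MulStep
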