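import Fermat.Agent.S13_Defs
import Fermat.Agent.S13_MulStep

set_option autoImplicit false

/-!
# S13 / WP-A (MX-1): the recursion defining the sequence `(a n, b n)`

`a (n+1) = (a n X - A4 b n)² / a (n-1)`, `b (n+1) = (a n - X b n)² / b (n-1)`, which is an exact
division because of the invariant `Th (a n) (b n) (a (n-1)) (b (n-1)) = 0` for the homogenised
symmetric biquadratic `Th`.  The step lemma (coprimality, degrees, leading coefficients) is taken
as a hypothesis `StepHyp` and supplied from `S13_MulStep` at the end.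
-/

noncomputable section

open Polynomial

namespace Fermat.Agent.S13.MulSeq

variable {K : Type*} [Field K] (A2 A4 : K)

/-- denominator of the sum and product formulas. -/
def Dd (a b : K[X]) : K[X] := (a - X * b) ^ 2

/-- numerator of the product formula. -/
def Np (a b : K[X]) : K[X] := (a * X - C A4 * b) ^ 2

/-- numerator of the sum formula. -/
def Ns (a b : K[X]) : K[X] :=
  2 * (a * X * (a + X * b + 2 * C A2 * b) + C A4 * b * (a + X * b))

/-- the homogenised symmetric biquadratic. -/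
def Th (a b c d : K[X]) : K[X] :=
  Dd a b * c ^ 2 - Ns A2 A4 a b * c * d + Np A4 a b * d ^ 2

theorem Th_symm (a b c d : K[X]) : Th A2 A4 a b c d = Th A2 A4 c d a b := by
  simp only [Th, Dd, Np, Ns]; ring

/-- the step statement (coprimality, degrees and leading coefficients propagate). -/
def StepHyp : Prop :=
  ∀ (n : ℕ) (_ : 2 ≤ n) (a b c d a' b' : K[X]), IsCoprime a b →
    a' * c = (a * X - C A4 * b) ^ 2 → b' * d = (a - X * b) ^ 2 →
    a' * d + c * b' =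
      2 * (a * X * (a + X * b + 2 * C A2 * b) + C A4 * b * (a + X * b)) →
    a.Monic → a.natDegree = n ^ 2 → b.natDegree = n ^ 2 - 1 → b.leadingCoeff = (n : K) ^ 2 →
    c.Monic → c.natDegree = (n - 1) ^ 2 → d.natDegree = (n - 1) ^ 2 - 1 →
    d.leadingCoeff = ((n - 1 : ℕ) : K) ^ 2 →
    IsCoprime a' b' ∧ a'.Monic ∧ a'.natDegree = (n + 1) ^ 2 ∧ b'.natDegree = (n + 1) ^ 2 - 1 ∧
      b'.leadingCoeff = ((n + 1 : ℕ) : K) ^ 2

/-- one step of the recursion on states `((a (n-1), b (n-1)), (a n, b n))`. -/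
def next (s : (K[X] × K[X]) × (K[X] × K[X])) : (K[X] × K[X]) × (K[X] × K[X]) :=
  (s.2, (Np A4 s.2.1 s.2.2 / s.1.1, Dd s.2.1 s.2.2 / s.1.2))

/-- the sequence of states: `seq k = ((a (k+1), b (k+1)), (a (k+2), b (k+2)))`. -/
def seq : ℕ → (K[X] × K[X]) × (K[X] × K[X])
  | 0 => ((X, 1), ((X ^ 2 - C A4) ^ 2, 4 * (X * (X ^ 2 + C A2 * X + C A4))))
  | k + 1 => next A4 (seq k)

/-- the invariants of a state at index `n`. -/
structure Good (n : ℕ) (s : (K[X] × K[X]) × (K[X] × K[X])) : Prop where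
  inv : Th A2 A4 s.2.1 s.2.2 s.1.1 s.1.2 = 0
  hab : IsCoprime s.2.1 s.2.2
  hcd : IsCoprime s.1.1 s.1.2
  ha : s.2.1.Monic
  hda : s.2.1.natDegree = n ^ 2
  hdb : s.2.2.natDegree = n ^ 2 - 1
  hlb : s.2.2.leadingCoeff = (n : K) ^ 2
  hc : s.1.1.Monic
  hdc : s.1.1.natDegree = (n - 1) ^ 2
  hdd : s.1.2.natDegree = (n - 1) ^ 2 - 1
  hld : s.1.2.leadingCoeff = ((n - 1 : ℕ) : K) ^ 2

variable {A2 A4}

theorem four_eq_C : (4 : K[X]) = C (4 : K) := (map_ofNat C 4).symm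

theorem isCoprime_base [CharZero K] (hA4 : A4 ≠ 0) (hdisc : A2 ^ 2 - 4 * A4 ≠ 0) :
    IsCoprime ((X ^ 2 - C A4) ^ 2 : K[X]) (4 * (X * (X ^ 2 + C A2 * X + C A4))) := by
  have h4 : IsUnit (4 : K[X]) := by
    rw [four_eq_C]
    exact isUnit_C.2 (isUnit_iff_ne_zero.2 (by norm_num))
  have hw : A4 * (A2 ^ 2 - 4 * A4) ≠ 0 := mul_ne_zero hA4 hdisc
  have hwi : (C (A4 * (A2 ^ 2 - 4 * A4))⁻¹ : K[X]) * (C A4 * (C A2 ^ 2 - 4 * C A4)) = 1 := by
    rw [four_eq_C, ← C_pow, ← C_mul, ← C_sub, ← C_mul, ← C_mul, inv_mul_cancel₀ hw, C_1]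
  have hA4i : (C A4⁻¹ : K[X]) * C A4 = 1 := by
    rw [← C_mul, inv_mul_cancel₀ hA4, C_1]
  refine IsCoprime.pow_left ?_
  refine (isCoprime_mul_unit_left_right h4 _ _).2 ?_
  refine IsCoprime.mul_right ?_ ?_
  · exact ⟨-C A4⁻¹, C A4⁻¹ * X, by linear_combination hA4i⟩
  · exact ⟨-C (A4 * (A2 ^ 2 - 4 * A4))⁻¹ * (C A2 ^ 2 + C A2 * X - 2 * C A4),
      C (A4 * (A2 ^ 2 - 4 * A4))⁻¹ * (C A2 * X - 2 * C A4), by linear_combination hwi⟩

theorem monic_quad : (X ^ 2 + C A2 * X + C A4 : K[X]).Monic := by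
  rw [add_assoc]
  refine monic_X_pow_add ?_
  refine lt_of_le_of_lt (degree_add_le _ _) (max_lt ?_ ?_)
  · exact lt_of_le_of_lt (degree_C_mul_X_le A2) (by norm_num)
  · exact lt_of_le_of_lt degree_C_le (by norm_num)

theorem natDegree_quad : (X ^ 2 + C A2 * X + C A4 : K[X]).natDegree = 2 := by
  have h : (C A2 * X + C A4 : K[X]).degree < ((2 : ℕ) : WithBot ℕ) := by
    refine lt_of_le_of_lt (degree_add_le _ _) (max_lt ?_ ?_)
    · exact lt_of_le_of_lt (degree_C_mul_X_le A2) (by norm_num)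
    · exact lt_of_le_of_lt degree_C_le (by norm_num)
  rw [add_assoc]
  apply natDegree_eq_of_degree_eq_some
  rw [degree_add_eq_left_of_degree_lt (by rw [degree_X_pow]; exact h), degree_X_pow]

theorem good_base [CharZero K] (hA4 : A4 ≠ 0) (hdisc : A2 ^ 2 - 4 * A4 ≠ 0) :
    Good A2 A4 2 (seq A2 A4 0) := by
  have h4 : (4 : K) ≠ 0 := by norm_num
  have hm : (X * (X ^ 2 + C A2 * X + C A4) : K[X]).Monic := monic_X.mul monic_quad
  have hd : (X * (X ^ 2 + C A2 * X + C A4) : K[X]).natDegree = 3 := by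
    rw [monic_X.natDegree_mul monic_quad, natDegree_X, natDegree_quad]
  refine ⟨?_, isCoprime_base hA4 hdisc, isCoprime_one_right, ?_, ?_, ?_, ?_, monic_X, ?_, ?_, ?_⟩
  · simp only [seq, Th, Dd, Np, Ns]; ring
  · exact (monic_X_pow_sub_C A4 two_ne_zero).pow 2
  · show ((X ^ 2 - C A4) ^ 2 : K[X]).natDegree = 2 ^ 2
    rw [(monic_X_pow_sub_C A4 two_ne_zero).natDegree_pow, natDegree_X_pow_sub_C]
    norm_num
  · show (4 * (X * (X ^ 2 + C A2 * X + C A4)) : K[X]).natDegree = 2 ^ 2 - 1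
    rw [four_eq_C, natDegree_C_mul h4, hd]
    norm_num
  · show (4 * (X * (X ^ 2 + C A2 * X + C A4)) : K[X]).leadingCoeff = ((2 : ℕ) : K) ^ 2
    rw [four_eq_C, leadingCoeff_mul, leadingCoeff_C, hm.leadingCoeff]
    norm_num
  · show (X : K[X]).natDegree = (2 - 1) ^ 2
    rw [natDegree_X]
    norm_num
  · show (1 : K[X]).natDegree = (2 - 1) ^ 2 - 1
    rw [natDegree_one]
    norm_num
  · show (1 : K[X]).leadingCoeff = ((2 - 1 : ℕ) : K) ^ 2
    simp

theorem good_step [CharZero K] (hstep : StepHyp A2 A4) {n : ℕ} (hn : 2 ≤ n)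
    {s : (K[X] × K[X]) × (K[X] × K[X])} (hs : Good A2 A4 n s) :
    Good A2 A4 (n + 1) (next A4 s) ∧
      (next A4 s).2.1 * s.1.1 = (s.2.1 * X - C A4 * s.2.2) ^ 2 ∧
      (next A4 s).2.2 * s.1.2 = (s.2.1 - X * s.2.2) ^ 2 ∧
      (next A4 s).2.1 * s.1.2 + s.1.1 * (next A4 s).2.2 =
        2 * (s.2.1 * X * (s.2.1 + X * s.2.2 + 2 * C A2 * s.2.2) +
          C A4 * s.2.2 * (s.2.1 + X * s.2.2)) := by
  obtain ⟨⟨c, d⟩, ⟨a, b⟩⟩ := s
  obtain ⟨inv, hab, hcd, ha, hda, hdb, hlb, hc, hdc, hdd, hld⟩ := hs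
  simp only at inv hab hcd ha hda hdb hlb hc hdc hdd hld
  have hc0 : c ≠ 0 := hc.ne_zero
  have hd0 : d ≠ 0 := by
    intro h
    rw [h, leadingCoeff_zero] at hld
    have h1 : ((n - 1 : ℕ) : K) ≠ 0 := by
      rw [Nat.cast_ne_zero]; omega
    exact pow_ne_zero 2 h1 hld.symm
  have hcNp : c ∣ Np A4 a b := by
    refine (hcd.pow_right (n := 2)).dvd_of_dvd_mul_right ?_
    refine ⟨Ns A2 A4 a b * d - Dd a b * c, ?_⟩
    simp only [Th] at inv
    linear_combination inv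
  have hdDd : d ∣ Dd a b := by
    refine (hcd.symm.pow_right (n := 2)).dvd_of_dvd_mul_right ?_
    refine ⟨Ns A2 A4 a b * c - Np A4 a b * d, ?_⟩
    simp only [Th] at inv
    linear_combination inv
  have h1 : Np A4 a b / c * c = Np A4 a b := by
    rw [mul_comm]; exact EuclideanDomain.mul_div_cancel' hc0 hcNp
  have h2 : Dd a b / d * d = Dd a b := by
    rw [mul_comm]; exact EuclideanDomain.mul_div_cancel' hd0 hdDd
  have h3 : Np A4 a b / c * d + c * (Dd a b / d) = Ns A2 A4 a b := by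
    refine mul_left_cancel₀ (mul_ne_zero hc0 hd0) ?_
    simp only [Th] at inv
    linear_combination d ^ 2 * h1 + c ^ 2 * h2 + inv
  have hinv : Th A2 A4 (Np A4 a b / c) (Dd a b / d) a b = 0 := by
    have e1 : (c * d) ^ 2 * Th A2 A4 (Np A4 a b / c) (Dd a b / d) a b =
        Th A2 A4 (Np A4 a b / c * c * d) (Dd a b / d * d * c) a b := by
      simp only [Th, Dd, Np, Ns]; ring
    have e2 : Th A2 A4 (Np A4 a b * d) (Dd a b * c) a b =
        Np A4 a b * Dd a b * Th A2 A4 a b c d := by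
      rw [Th_symm]; simp only [Th]; ring
    rw [h1, h2, e2, inv, mul_zero] at e1
    exact (mul_eq_zero.1 e1).resolve_left (pow_ne_zero 2 (mul_ne_zero hc0 hd0))
  obtain ⟨hab', ha', hda', hdb', hlb'⟩ :=
    hstep n hn a b c d (Np A4 a b / c) (Dd a b / d) hab h1 h2 h3 ha hda hdb hlb hc hdc hdd hld
  refine ⟨⟨hinv, hab', hab, ha', hda', hdb', hlb', ha, ?_, ?_, ?_⟩, h1, h2, h3⟩
  · show a.natDegree = (n + 1 - 1) ^ 2
    simpa using hda
  · show b.natDegree = (n + 1 - 1) ^ 2 - 1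
    simpa using hdb
  · show b.leadingCoeff = ((n + 1 - 1 : ℕ) : K) ^ 2
    simpa using hlb

theorem good_seq [CharZero K] (hA4 : A4 ≠ 0) (hdisc : A2 ^ 2 - 4 * A4 ≠ 0)
    (hstep : StepHyp A2 A4) (k : ℕ) : Good A2 A4 (k + 2) (seq A2 A4 k) := by
  induction k with
  | zero => exact good_base hA4 hdisc
  | succ k ih => exact (good_step hstep (by omega) ih).1

/-- (MX-1), modulo the step lemma. -/
theorem exists_divSeq_of_step [CharZero K] (hA4 : A4 ≠ 0) (hdisc : A2 ^ 2 - 4 * A4 ≠ 0)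
    (hstep : StepHyp A2 A4) : Nonempty (DivSeq K A2 A4) := by
  have key : ∀ k : ℕ, _ := fun k => good_step hstep (by omega) (good_seq hA4 hdisc hstep k)
  have hg : ∀ k : ℕ, _ := fun k => good_seq hA4 hdisc hstep k
  refine ⟨{
    a := fun n => (seq A2 A4 (n - 1)).1.1
    b := fun n => (seq A2 A4 (n - 1)).1.2
    a_one := rfl
    b_one := rfl
    a_two := rfl
    b_two := rfl
    I1 := ?_
    I2 := ?_
    I3 := ?_
    coprime := ?_
    monic := ?_
    natDegree_a := ?_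
    natDegree_b := ?_
    leadingCoeff_b := ?_ }⟩
  · intro n hn
    obtain ⟨k, rfl⟩ : ∃ k, n = k + 2 := ⟨n - 2, by omega⟩
    exact (key k).2.1
  · intro n hn
    obtain ⟨k, rfl⟩ : ∃ k, n = k + 2 := ⟨n - 2, by omega⟩
    exact (key k).2.2.1
  · intro n hn
    obtain ⟨k, rfl⟩ : ∃ k, n = k + 2 := ⟨n - 2, by omega⟩
    exact (key k).2.2.2
  · intro n hn
    obtain ⟨k, rfl⟩ : ∃ k, n = k + 1 := ⟨n - 1, by omega⟩
    exact (hg k).hcd
  · intro n hn
    obtain ⟨k, rfl⟩ : ∃ k, n = k + 1 := ⟨n - 1, by omega⟩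
    exact (hg k).hc
  · intro n hn
    obtain ⟨k, rfl⟩ : ∃ k, n = k + 1 := ⟨n - 1, by omega⟩
    exact (hg k).hdc
  · intro n hn
    obtain ⟨k, rfl⟩ : ∃ k, n = k + 1 := ⟨n - 1, by omega⟩
    exact (hg k).hdd
  · intro n hn
    obtain ⟨k, rfl⟩ : ∃ k, n = k + 1 := ⟨n - 1, by omega⟩
    exact (hg k).hld

end Fermat.Agent.S13.MulSeq

namespace Fermat.Agent.S13

variable {K : Type*} [Field K]

/-- (MX-1) existence of the sequence of numerators and denominators of multiplication by `n`. -/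
theorem exists_divSeq [CharZero K] (A2 A4 : K) (hA4 : A4 ≠ 0) (hdisc : A2 ^ 2 - 4 * A4 ≠ 0) :
    Nonempty (DivSeq K A2 A4) :=
  MulSeq.exists_divSeq_of_step hA4 hdisc (fun n hn a b c d a' b' hab h1 h2 h3 ha hda hdb hlb hc
    hdc hdd hld =>
    MulStep.step A2 A4 hA4 hdisc n hn a b c d a' b' hab h1 h2 h3 ha hda hdb hlb hc hdc hdd hld)

end Fermat.Agent.S13
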