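import Fermat.Agent.S13_Defs

set_option autoImplicit false

/-!
# S13 / WP-A (MX-3b): squareness of the division sequence and the product identity

For a `DivSeq` (`ξ (n P) = a_n (ξ P) / b_n (ξ P)` on the curve `η² = ξ (ξ² + A2 ξ + A4)`):

* `exists_sq`: for odd `n`, `b n` is a constant times a square and `a n` is `X` times a square
  (pure polynomial algebra from the identities `I1`, `I2`);
* `prod_identity`: if the group of points killed by the odd prime `p` has `p²` elements, then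
  with `X` the set of `ξ`-values of the nonzero `p`-torsion points,
  `b_p = p² ∏_{x ∈ X} (X - x)²`, `a_p = X ∏_{x ∈ X} (X - A4 / x)²`, and hence for every root `e`
  of `ξ² + A2 ξ + A4`: `∏_{x ∈ X} ((e - A4 / x) / (e - x))² = p²`.
-/

namespace Fermat.Agent.S13.MulProd

open Polynomial
open Fermat.Agent.S05

section poly

variable {K : Type*} [Field K]

/-- A monic divisor of degree at least that of `f` is `f` up to the leading coefficient. -/
theorem eq_C_mul_of_monic_dvd {f q : K[X]} (hq : q.Monic) (hdvd : q ∣ f) (hf : f ≠ 0)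
    (hdeg : f.natDegree ≤ q.natDegree) : f = C f.leadingCoeff * q := by
  obtain ⟨r, rfl⟩ := hdvd
  have hr : r ≠ 0 := right_ne_zero_of_mul hf
  have h1 : (q * r).natDegree = q.natDegree + r.natDegree := natDegree_mul hq.ne_zero hr
  have h2 : r.natDegree = 0 := by omega
  obtain ⟨c, rfl⟩ := natDegree_eq_zero.mp h2
  rw [leadingCoeff_mul, hq.leadingCoeff, one_mul, leadingCoeff_C, mul_comm]

/-- Distinct roots give a product of linear factors dividing the polynomial. -/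
theorem prod_dvd_of_roots {ι : Type*} (s : Finset ι) (g : ι → K) (hg : Set.InjOn g s)
    (ψ : K[X]) (h : ∀ i ∈ s, ψ.eval (g i) = 0) : ∏ i ∈ s, (X - C (g i)) ∣ ψ := by
  refine Finset.prod_dvd_of_coprime ?_ ?_
  · intro i hi j hj hij
    exact isCoprime_X_sub_C_of_isUnit_sub
      (IsUnit.mk0 _ (sub_ne_zero.mpr (fun h => hij (hg hi hj h))))
  · intro i hi
    exact dvd_iff_isRoot.mpr (h i hi)

theorem monic_prod_sq {ι : Type*} (s : Finset ι) (g : ι → K) :
    (∏ i ∈ s, (X - C (g i)) ^ 2).Monic :=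
  monic_prod_of_monic _ _ (fun i _ => (monic_X_sub_C (g i)).pow 2)

theorem natDegree_prod_sq {ι : Type*} (s : Finset ι) (g : ι → K) :
    (∏ i ∈ s, (X - C (g i)) ^ 2).natDegree = 2 * s.card := by
  rw [natDegree_prod_of_monic _ _ (fun i _ => (monic_X_sub_C (g i)).pow 2)]
  have : ∀ i ∈ s, ((X - C (g i)) ^ 2).natDegree = 2 := by
    intro i _
    rw [natDegree_pow, natDegree_X_sub_C]
  rw [Finset.sum_congr rfl this, Finset.sum_const, smul_eq_mul, mul_comm]

end poly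

section seq

variable {K : Type*} [Field K] {A2 A4 : K}

theorem a_ne_zero (S : DivSeq K A2 A4) {n : ℕ} (hn : 1 ≤ n) : S.a n ≠ 0 :=
  (S.monic n hn).ne_zero

theorem b_ne_zero (S : DivSeq K A2 A4) {n : ℕ} (hn : 1 ≤ n) : S.b n ≠ 0 := by
  intro h
  have hc := S.coprime n hn
  rw [h, isCoprime_zero_right] at hc
  have h1 := natDegree_eq_zero_of_isUnit hc
  rw [S.natDegree_a n hn] at h1
  have : 0 < n ^ 2 := by positivity
  omega

/-- **Squareness**: for odd `n`, `b n` is a nonzero constant times a square and `a n` is `X`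
times a square. -/
theorem exists_sq (S : DivSeq K A2 A4) (k : ℕ) :
    (∃ c : K, c ≠ 0 ∧ ∃ ψ : K[X], S.b (2 * k + 1) = C c * ψ ^ 2) ∧
    (∃ φ : K[X], S.a (2 * k + 1) = X * φ ^ 2) := by
  induction k with
  | zero => exact ⟨⟨1, one_ne_zero, 1, by simp [S.b_one]⟩, ⟨1, by simp [S.a_one]⟩⟩
  | succ k ih =>
    obtain ⟨⟨c, hc, ψ, hψ⟩, ⟨φ, hφ⟩⟩ := ih
    have h2 := S.I2 (2 * k + 2) (by omega)
    have h1 := S.I1 (2 * k + 2) (by omega)
    have e1 : 2 * k + 2 + 1 = 2 * (k + 1) + 1 := by ring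
    have e2 : 2 * k + 2 - 1 = 2 * k + 1 := by omega
    rw [e1, e2] at h1 h2
    constructor
    · -- the denominators
      have hψ0 : ψ ≠ 0 := by
        rintro rfl
        exact b_ne_zero S (n := 2 * k + 1) (by omega) (by rw [hψ]; simp)
      have hdvd : ψ ∣ S.a (2 * k + 2) - X * S.b (2 * k + 2) := by
        rw [← IsIntegrallyClosed.pow_dvd_pow_iff (n := 2) two_ne_zero, ← h2, hψ]
        exact Dvd.intro_left (S.b (2 * (k + 1) + 1) * C c) (mul_assoc _ _ _)
      obtain ⟨χ, hχ⟩ := hdvd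
      refine ⟨c⁻¹, inv_ne_zero hc, χ, ?_⟩
      have h3 : S.b (2 * (k + 1) + 1) * C c = χ ^ 2 := by
        apply mul_right_cancel₀ (pow_ne_zero 2 hψ0)
        rw [hχ, hψ] at h2
        linear_combination h2
      have h4 : (C c : K[X]) * C c⁻¹ = 1 := by rw [← C_mul, mul_inv_cancel₀ hc, C_1]
      linear_combination (C c⁻¹ : K[X]) * h3 - S.b (2 * (k + 1) + 1) * h4
    · -- the numerators
      have hφ0 : φ ≠ 0 := by
        rintro rfl
        exact a_ne_zero S (n := 2 * k + 1) (by omega) (by rw [hφ]; simp)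
      have hXM : X ∣ S.a (2 * k + 2) * X - C A4 * S.b (2 * k + 2) := by
        have h : X ∣ (S.a (2 * k + 2) * X - C A4 * S.b (2 * k + 2)) ^ 2 := by
          rw [← h1, hφ]
          exact Dvd.intro_left (S.a (2 * (k + 1) + 1) * φ ^ 2) (by ring)
        exact prime_X.dvd_of_dvd_pow h
      obtain ⟨m, hm⟩ := hXM
      have h3 : S.a (2 * (k + 1) + 1) * φ ^ 2 = X * m ^ 2 := by
        apply mul_left_cancel₀ (X_ne_zero (R := K))
        rw [hm, hφ] at h1
        linear_combination h1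
      have hdvd : φ ∣ X * m := by
        rw [← IsIntegrallyClosed.pow_dvd_pow_iff (n := 2) two_ne_zero]
        exact ⟨X * S.a (2 * (k + 1) + 1), by linear_combination -(X : K[X]) * h3⟩
      obtain ⟨g, hg⟩ := hdvd
      have h4 : X * S.a (2 * (k + 1) + 1) = g ^ 2 := by
        apply mul_left_cancel₀ (pow_ne_zero 2 hφ0)
        have h5 : (X * m) ^ 2 = (φ * g) ^ 2 := by rw [hg]
        linear_combination (X : K[X]) * h3 + h5
      have hXg : X ∣ g := prime_X.dvd_of_dvd_pow (by rw [← h4]; exact dvd_mul_right _ _)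
      obtain ⟨g', hg'⟩ := hXg
      refine ⟨g', ?_⟩
      apply mul_left_cancel₀ (X_ne_zero (R := K))
      rw [h4, hg']
      ring

/-- `exists_sq` for an odd index. -/
theorem exists_sq_of_odd (S : DivSeq K A2 A4) {n : ℕ} (hn : Odd n) :
    (∃ c : K, c ≠ 0 ∧ ∃ ψ : K[X], S.b n = C c * ψ ^ 2) ∧ (∃ φ : K[X], S.a n = X * φ ^ 2) := by
  obtain ⟨k, rfl⟩ := hn
  exact exists_sq S k

end seq

section main

variable {K : Type*} [Field K] {G : Type*} [AddCommGroup G]

/-- **Product identity given the count.**  `heval` is the statement of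
`DivSeq.eval_nsmul` at `n = p`. -/
theorem prod_identity (D : KDatum K G) (S : DivSeq K D.A2 D.A4) (p : ℕ) (hp : p.Prime)
    (hp2 : p ≠ 2)
    (heval : ∀ Q : G, Q ≠ 0 →
      (p • Q ≠ 0 → (S.b p).eval (D.ξ Q) ≠ 0 ∧
        (S.a p).eval (D.ξ Q) = D.ξ (p • Q) * (S.b p).eval (D.ξ Q)) ∧
      (p • Q = 0 → (S.b p).eval (D.ξ Q) = 0))
    (hA4 : D.A4 ≠ 0)
    (hsurj : ∀ x y : K, y ^ 2 = x * (x ^ 2 + D.A2 * x + D.A4) →
      ∃ Q : G, Q ≠ 0 ∧ D.ξ Q = x ∧ D.η Q = y)
    (hcard : Nat.card {Q : G // p • Q = 0} = p ^ 2) :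
    ∃ X : Finset K, (∀ Q : G, Q ≠ 0 → p • Q = 0 → D.ξ Q ∈ X) ∧
      (∀ x ∈ X, ∃ Q : G, Q ≠ 0 ∧ p • Q = 0 ∧ D.ξ Q = x) ∧
      2 * X.card = p ^ 2 - 1 ∧
      S.b p = C ((p : K) ^ 2) * ∏ x ∈ X, (Polynomial.X - C x) ^ 2 ∧
      S.a p = Polynomial.X * ∏ x ∈ X, (Polynomial.X - C (D.A4 / x)) ^ 2 ∧
      ∀ e : K, e ^ 2 + D.A2 * e + D.A4 = 0 →
        ∏ x ∈ X, ((e - D.A4 / x) / (e - x)) ^ 2 = (p : K) ^ 2 := by
  classical
  have hp1 : 1 ≤ p := hp.one_lt.le
  obtain ⟨m, hm⟩ := hp.odd_of_ne_two hp2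
  -- points killed by `2` are fixed by `p`
  have h2tors : ∀ R : G, R + R = 0 → p • R = R := by
    intro R hR
    have h2 : (2 : ℕ) • R = 0 := by rw [two_smul]; exact hR
    rw [hm, add_smul, one_smul, mul_comm, mul_smul, h2, smul_zero, zero_add]
  -- the finite set of `p`-torsion points
  have hfin : Finite {Q : G // p • Q = 0} :=
    Nat.finite_of_card_ne_zero (by rw [hcard]; exact pow_ne_zero _ hp.ne_zero)
  have hfinset : Set.Finite {Q : G | p • Q = 0} := Set.finite_coe_iff.mp hfin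
  set V : Finset G := hfinset.toFinset with hVdef
  have hV : ∀ Q, Q ∈ V ↔ p • Q = 0 := by
    intro Q
    rw [hVdef, Set.Finite.mem_toFinset]
    exact Iff.rfl
  have hVcard : V.card = p ^ 2 := by
    rw [← hcard, hVdef, ← Set.ncard_eq_toFinset_card _ hfinset]
    exact (Nat.card_coe_set_eq _).symm
  set V' : Finset G := V.erase 0 with hV'def
  set X : Finset K := V'.image D.ξ with hXdef
  have hV' : ∀ Q, Q ∈ V' ↔ Q ≠ 0 ∧ p • Q = 0 := by
    intro Q
    rw [hV'def, Finset.mem_erase, hV]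
  have hX1 : ∀ Q : G, Q ≠ 0 → p • Q = 0 → D.ξ Q ∈ X :=
    fun Q h0 h => Finset.mem_image_of_mem _ ((hV' Q).2 ⟨h0, h⟩)
  have hX2 : ∀ x ∈ X, ∃ Q : G, Q ≠ 0 ∧ p • Q = 0 ∧ D.ξ Q = x := by
    intro x hx
    obtain ⟨Q, hQ, rfl⟩ := Finset.mem_image.mp hx
    exact ⟨Q, ((hV' Q).1 hQ).1, ((hV' Q).1 hQ).2, rfl⟩
  -- `ξ` is at most `2`-to-`1`
  have hcardX : p ^ 2 - 1 ≤ 2 * X.card := by
    have h0V : (0 : G) ∈ V := (hV 0).2 (smul_zero _)
    have h1 : V'.card = p ^ 2 - 1 := by rw [hV'def, Finset.card_erase_of_mem h0V, hVcard]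
    rw [← h1]
    refine Finset.card_le_mul_card_image V' 2 ?_
    intro x hx
    obtain ⟨Q, hQ, rfl⟩ := Finset.mem_image.mp hx
    have hQ0 := ((hV' Q).1 hQ).1
    calc (V'.filter fun Q' => D.ξ Q' = D.ξ Q).card ≤ ({Q, -Q} : Finset G).card := by
          apply Finset.card_le_card
          intro Q' hQ'
          rw [Finset.mem_filter] at hQ'
          have := D.eq_or_eq_neg_of_ξ_eq ((hV' Q').1 hQ'.1).1 hQ0 hQ'.2
          rw [Finset.mem_insert, Finset.mem_singleton]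
          exact this
      _ ≤ 2 := Finset.card_le_two
  -- the `2`-torsion point `T = (0, 0)`
  obtain ⟨T, hT0, hξT, hηT⟩ := hsurj 0 0 (by ring)
  have hTT : T + T = 0 := D.dbl_zero T hT0 hηT
  have hpT : p • T = T := h2tors T hTT
  have hXne : ∀ Q : G, Q ≠ 0 → p • Q = 0 → D.ξ Q ≠ 0 := by
    intro Q hQ0 hpQ h0
    have hnegT : -T = T := neg_eq_of_add_eq_zero_left hTT
    rcases D.eq_or_eq_neg_of_ξ_eq hQ0 hT0 (h0.trans hξT.symm) with h | h
    · rw [h, hpT] at hpQ; exact hT0 hpQ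
    · rw [h, hnegT, hpT] at hpQ; exact hT0 hpQ
  -- translation by `T`: `A4 / ξ Q` is a root of `a p`
  have htrans : ∀ Q : G, Q ≠ 0 → p • Q = 0 → (S.a p).eval (D.A4 / D.ξ Q) = 0 := by
    intro Q hQ0 hpQ
    have hx0 := hXne Q hQ0 hpQ
    have hne : D.ξ Q ≠ D.ξ T := by rw [hξT]; exact hx0
    have hξ : D.ξ (Q + T) = D.A4 / D.ξ Q := by
      rw [D.ξ_add Q T hQ0 hT0 hne, hξT, hηT, sub_zero, sub_zero, sub_zero, div_pow, D.eqn Q hQ0]
      field_simp
      ring
    have hQT0 : Q + T ≠ 0 := D.add_ne_zero_of_ξ_ne hne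
    have hpQT : p • (Q + T) = T := by rw [smul_add, hpQ, hpT, zero_add]
    have := (heval (Q + T) hQT0).1 (by rw [hpQT]; exact hT0)
    rw [hpQT, hξT, zero_mul, hξ] at this
    exact this.2
  -- squareness
  obtain ⟨⟨c, hc, ψ, hψ⟩, ⟨φ, hφ⟩⟩ := exists_sq_of_odd S (hp.odd_of_ne_two hp2)
  -- the denominator
  have hb0 : S.b p ≠ 0 := b_ne_zero S hp1
  have hψroot : ∀ x ∈ X, ψ.eval x = 0 := by
    intro x hx
    obtain ⟨Q, hQ0, hpQ, rfl⟩ := hX2 x hx
    have := (heval Q hQ0).2 hpQ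
    rw [hψ, eval_mul, eval_C, eval_pow] at this
    rcases mul_eq_zero.mp this with h | h
    · exact absurd h hc
    · exact (pow_eq_zero_iff two_ne_zero).mp h
  have hdvdb : ∏ x ∈ X, (Polynomial.X - C x) ^ 2 ∣ S.b p := by
    rw [Finset.prod_pow, hψ]
    exact Dvd.dvd.mul_left
      (pow_dvd_pow_of_dvd (prod_dvd_of_roots X id (Set.injOn_id _) ψ hψroot) 2) _
  have hdegP : (∏ x ∈ X, (Polynomial.X - C x) ^ 2).natDegree = 2 * X.card :=
    natDegree_prod_sq X id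
  have hmonP : (∏ x ∈ X, (Polynomial.X - C x) ^ 2).Monic := monic_prod_sq X id
  have hbeq : S.b p = C ((p : K) ^ 2) * ∏ x ∈ X, (Polynomial.X - C x) ^ 2 := by
    have := eq_C_mul_of_monic_dvd hmonP hdvdb hb0
      (by rw [hdegP, S.natDegree_b p hp1]; exact hcardX)
    rwa [S.leadingCoeff_b p hp1] at this
  have hcardX' : 2 * X.card = p ^ 2 - 1 := by
    have := natDegree_le_of_dvd hdvdb hb0
    rw [hdegP, S.natDegree_b p hp1] at this
    omega
  -- the numerator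
  have hφroot : ∀ x ∈ X, φ.eval (D.A4 / x) = 0 := by
    intro x hx
    obtain ⟨Q, hQ0, hpQ, rfl⟩ := hX2 x hx
    have := htrans Q hQ0 hpQ
    rw [hφ, eval_mul, eval_X, eval_pow] at this
    rcases mul_eq_zero.mp this with h | h
    · exact absurd h (div_ne_zero hA4 (hXne Q hQ0 hpQ))
    · exact (pow_eq_zero_iff two_ne_zero).mp h
  have hX0 : ∀ x ∈ X, x ≠ 0 := by
    intro x hx
    obtain ⟨Q, hQ0, hpQ, rfl⟩ := hX2 x hx
    exact hXne Q hQ0 hpQ
  have hinj : Set.InjOn (fun x => D.A4 / x) (X : Set K) := by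
    intro x hx y hy hxy
    have hx0 := hX0 x hx
    have hy0 := hX0 y hy
    have h : D.A4 / x = D.A4 / y := hxy
    rw [div_eq_div_iff hx0 hy0] at h
    exact (mul_left_cancel₀ hA4 h).symm
  have hdvda : Polynomial.X * ∏ x ∈ X, (Polynomial.X - C (D.A4 / x)) ^ 2 ∣ S.a p := by
    rw [Finset.prod_pow, hφ]
    exact mul_dvd_mul_left _
      (pow_dvd_pow_of_dvd (prod_dvd_of_roots X (fun x => D.A4 / x) hinj φ hφroot) 2)
  have hmonA : (Polynomial.X * ∏ x ∈ X, (Polynomial.X - C (D.A4 / x)) ^ 2).Monic :=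
    monic_X.mul (monic_prod_sq X _)
  have hdegA : (Polynomial.X * ∏ x ∈ X, (Polynomial.X - C (D.A4 / x)) ^ 2).natDegree
      = 1 + 2 * X.card := by
    rw [Monic.natDegree_mul monic_X (monic_prod_sq X _), natDegree_X, natDegree_prod_sq]
  have haeq : S.a p = Polynomial.X * ∏ x ∈ X, (Polynomial.X - C (D.A4 / x)) ^ 2 := by
    have := eq_C_mul_of_monic_dvd hmonA hdvda (a_ne_zero S hp1)
      (by rw [hdegA, S.natDegree_a p hp1]; omega)
    rwa [(S.monic p hp1).leadingCoeff, C_1, one_mul] at this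
  refine ⟨X, hX1, hX2, hcardX', hbeq, haeq, ?_⟩
  -- evaluation at a root `e` of `ξ² + A2 ξ + A4`
  intro e he
  have he0 : e ≠ 0 := by
    rintro rfl
    apply hA4
    simpa using he
  obtain ⟨Te, hTe0, hξTe, hηTe⟩ := hsurj e 0 (by rw [he]; ring)
  have hTeTe : Te + Te = 0 := D.dbl_zero Te hTe0 hηTe
  have hpTe : p • Te = Te := h2tors Te hTeTe
  have hev := (heval Te hTe0).1 (by rw [hpTe]; exact hTe0)
  rw [hpTe, hξTe] at hev
  obtain ⟨hbe, hae⟩ := hev
  rw [hbeq] at hbe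
  rw [haeq, hbeq] at hae
  simp only [eval_mul, eval_C, eval_X, eval_prod, eval_pow, eval_sub] at hbe hae
  have hprod : ∏ x ∈ X, (e - x) ^ 2 ≠ 0 := right_ne_zero_of_mul hbe
  have h1 : ∏ x ∈ X, (e - D.A4 / x) ^ 2 = (p : K) ^ 2 * ∏ x ∈ X, (e - x) ^ 2 :=
    mul_left_cancel₀ he0 hae
  simp_rw [div_pow]
  rw [Finset.prod_div_distrib, h1, mul_div_assoc, div_self hprod, mul_one]

end main

end Fermat.Agent.S13.MulProd
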