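import Fermat.Agent.S13_MulSeq
import Fermat.Agent.S13_MulEval
import Fermat.Agent.S13_MulCard
import Fermat.Agent.S13_MulProd

set_option autoImplicit false

/-!
# S13 / WP-A (MX-3): the `p`-torsion of the curve `η² = ξ (ξ² + A2 ξ + A4)`

Assembly of the multiplication sequence (`exists_divSeq`), its evaluation (`DivSeq.eval_nsmul`),
the count (`MulCard.card_torsion`) and the product identity (`MulProd.prod_identity`).
-/

namespace Fermat.Agent.S13

open Polynomial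
open Fermat.Agent.S05

variable {K : Type*} [Field K] {G : Type*} [AddCommGroup G]

/-- (MX-3) Over an algebraically closed field of characteristic zero, if every solution of the
equation is a point, then there are exactly `p²` points killed by the odd prime `p`, and for
every root `e` of `ξ² + A2 ξ + A4`: `∏_{x ∈ X} ((e - A4 / x) / (e - x))² = p²`, where `X` is
the set of `ξ`-values of the nonzero `p`-torsion points. -/
theorem exists_torsion_finset [IsAlgClosed K] [CharZero K] (D : KDatum K G)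
    (hA4 : D.A4 ≠ 0) (hdisc : D.A2 ^ 2 - 4 * D.A4 ≠ 0)
    (hsurj : ∀ x y : K, y ^ 2 = x * (x ^ 2 + D.A2 * x + D.A4) →
      ∃ Q : G, Q ≠ 0 ∧ D.ξ Q = x ∧ D.η Q = y)
    (p : ℕ) (hp : p.Prime) (hp2 : p ≠ 2) :
    ∃ X : Finset K, (∀ Q : G, Q ≠ 0 → p • Q = 0 → D.ξ Q ∈ X) ∧
      (∀ x ∈ X, ∃ Q : G, Q ≠ 0 ∧ p • Q = 0 ∧ D.ξ Q = x) ∧
      Nat.card {Q : G // p • Q = 0} = p ^ 2 ∧
      ∀ e : K, e ^ 2 + D.A2 * e + D.A4 = 0 →
        ∏ x ∈ X, ((e - D.A4 / x) / (e - x)) ^ 2 = (p : K) ^ 2 := by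
  obtain ⟨S⟩ := exists_divSeq D.A2 D.A4 hA4 hdisc
  have hcard : Nat.card {Q : G // p • Q = 0} = p ^ 2 :=
    MulCard.card_torsion D S hsurj p hp.one_lt.le
  obtain ⟨X, h1, h2, -, -, -, h3⟩ := MulProd.prod_identity D S p hp hp2
    (fun Q hQ => DivSeq.eval_nsmul D S p hp.one_lt.le Q hQ) hA4 hsurj hcard
  exact ⟨X, h1, h2, hcard, h3⟩

/-- The count alone, for every `n ≥ 1`. -/
theorem card_nsmul_eq_zero [IsAlgClosed K] [CharZero K] (D : KDatum K G)
    (hA4 : D.A4 ≠ 0) (hdisc : D.A2 ^ 2 - 4 * D.A4 ≠ 0)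
    (hsurj : ∀ x y : K, y ^ 2 = x * (x ^ 2 + D.A2 * x + D.A4) →
      ∃ Q : G, Q ≠ 0 ∧ D.ξ Q = x ∧ D.η Q = y)
    (n : ℕ) (hn : 1 ≤ n) : Nat.card {Q : G // n • Q = 0} = n ^ 2 := by
  obtain ⟨S⟩ := exists_divSeq D.A2 D.A4 hA4 hdisc
  exact MulCard.card_torsion D S hsurj n hn

end Fermat.Agent.S13
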