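import Mathlib
import Fermat.Agent.S05_Defs
import Fermat.Agent.S05_Red
import Fermat.Agent.S05_Comp
import Fermat.Agent.S05_MultE0

/-!
# S13, local analysis at `p` (abstract part)

For the abstract curve datum `KDatum` / `IDatum` of S05 (valuation `w` with `w 2 = 0`; no
hypothesis on `w p`):

* `add_mem_E1` : the kernel of reduction `E₁ = {w ξ < 0}` is a subgroup;
* `φ_sub_mem_E1_of_good`, `φ_sub_mem_E1_of_mult` : an inertia automorphism `φ` moves every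
  (`p`-torsion) point by an element of `E₁`;
* `tame_bound` : a point of `E₁` whose coordinates have valuations in `(1/n) w(p) ℤ` has
  `-w ξ ≥ 2 w(p) / n`;
* `mem_of_mem_E1` : (Newton bound + tame bound) if a line `N` of `p`-torsion points meets `E₁`
  nontrivially then every `p`-torsion point of `E₁` lies in `N`;
* `dichotomy` : for a stable line `N`, either inertia fixes `N` pointwise or it acts trivially
  on the `p`-torsion modulo `N`.
-/

set_option autoImplicit false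

namespace Fermat.Agent.S13.PLocal

open Fermat.Agent.S05

variable {K : Type*} [Field K] {G : Type*} [AddCommGroup G]

theorem neg_mem_E1 (D : KDatum K G) {P : G} (hP : P ∈ D.E1) : -P ∈ D.E1 := by
  rcases hP with rfl | h
  · rw [neg_zero]; exact Or.inl rfl
  · right; rwa [D.ξ_neg]

/-- For a point with `w ξ < 0` the quadratic factor `ξ² + A2 ξ + A4` is dominated by `ξ²`. -/
theorem quad_of_neg (D : KDatum K G) {x : K} (hx : x ≠ 0) (hw : D.w x < 0) :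
    x ^ 2 + D.A2 * x + D.A4 ≠ 0 ∧ D.w (x ^ 2 + D.A2 * x + D.A4) = 2 * D.w x := by
  have hx2 : x ^ 2 ≠ 0 := pow_ne_zero 2 hx
  have hwx2 : D.w (x ^ 2) = 2 * D.w x := by rw [D.w_pow hx 2]; push_cast; ring
  have h1 : x ^ 2 + D.A2 * x + D.A4 = x ^ 2 + (D.A2 * x + D.A4) := by ring
  rw [h1, ← hwx2]
  refine RVal.w_add_eq_left hx2 ?_
  rw [hwx2]
  refine RVal.GT.add ?_ ?_
  · exact (RVal.GE.int_mul D.A2_ge (RVal.GE.of_le le_rfl)).gt_of_lt (by linarith)
  · exact D.A4_ge.gt_of_lt (by linarith)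

/-- Doubling in `E₁`. -/
theorem dbl_mem_E1 (D : KDatum K G) {P : G} (hP0 : P ≠ 0) (hξ : D.ξ P ≠ 0)
    (hw : D.w (D.ξ P) < 0) : P + P ∈ D.E1 := by
  set x := D.ξ P with hx
  set a := D.w x with ha
  obtain ⟨hq0, hwq⟩ := quad_of_neg D hξ hw
  have hf0 : D.f x ≠ 0 := by rw [KDatum.f]; exact mul_ne_zero hξ hq0
  have hwf : D.w (D.f x) = 3 * a := by
    rw [KDatum.f, D.w_mul _ _ hξ hq0, hwq]; ring
  have hη : D.η P ≠ 0 := by
    intro h0
    have := D.eqn P hP0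
    rw [h0] at this
    apply hf0
    rw [KDatum.f, ← this]; simp
  right
  have h4f : (4 : K) * D.f x ≠ 0 := mul_ne_zero D.four_ne hf0
  have hx2 : x ^ 2 ≠ 0 := pow_ne_zero 2 hξ
  have hwx2 : D.w (x ^ 2) = 2 * a := by rw [D.w_pow hξ 2]; push_cast; ring
  have hnum := RVal.w_sub_eq_left (v := D.toRVal) hx2
    (y := D.A4) (D.A4_ge.gt_of_lt (by rw [hwx2]; linarith))
  have hnum2 : (x ^ 2 - D.A4) ^ 2 ≠ 0 := pow_ne_zero 2 hnum.1
  have hwnum2 : D.w ((x ^ 2 - D.A4) ^ 2) = 4 * a := by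
    rw [D.w_pow hnum.1 2, hnum.2, hwx2]; push_cast; ring
  have hw4f : D.w (4 * D.f x) = 3 * a := by
    rw [D.w_mul 4 _ D.four_ne hf0, D.w_four, hwf]; ring
  rw [D.ξ_dbl' P hP0 hη]
  refine ⟨div_ne_zero hnum2 h4f, ?_⟩
  rw [RVal.w_div D.toRVal hnum2 h4f, hwnum2, hw4f]
  linarith

/-- The kernel of reduction `E₁` is closed under addition. -/
theorem add_mem_E1 (D : KDatum K G) {P Q : G} (hP : P ∈ D.E1) (hQ : Q ∈ D.E1) :
    P + Q ∈ D.E1 := by
  by_cases hP0 : P = 0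
  · rw [hP0, zero_add]; exact hQ
  by_cases hQ0 : Q = 0
  · rw [hQ0, add_zero]; exact hP
  obtain ⟨hξP, hwP⟩ := hP.resolve_left hP0
  obtain ⟨hξQ, hwQ⟩ := hQ.resolve_left hQ0
  by_cases hne : D.ξ P = D.ξ Q
  · rcases D.eq_or_eq_neg_of_ξ_eq hP0 hQ0 hne with h | h
    · rw [← h]; exact dbl_mem_E1 D hP0 hξP hwP
    · rw [h, neg_add_cancel]; exact Or.inl rfl
  set x := D.ξ P with hx
  set y := D.ξ Q with hy
  set a := D.w x with ha
  set b := D.w y with hb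
  have hsum := D.ξ_add_add_ξ_sub P Q hP0 hQ0 hne
  have hprod := D.ξ_add_mul_ξ_sub P Q hP0 hQ0 hne
  rw [← hx, ← hy] at hsum hprod
  have hd0 : x - y ≠ 0 := sub_ne_zero.mpr hne
  set d := D.w (x - y) with hd
  have hmin_le : min a b ≤ d :=
    (RVal.GE.sub ((RVal.GE.of_le (le_refl a)).mono (min_le_left a b))
      ((RVal.GE.of_le (le_refl b)).mono (min_le_right a b))).le hd0
  have hab : a + b < min a b := by
    rcases le_total a b with h | h
    · rw [min_eq_left h]; linarith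
    · rw [min_eq_right h]; linarith
  have hd2 : (x - y) ^ 2 ≠ 0 := pow_ne_zero 2 hd0
  have hwd2 : D.w ((x - y) ^ 2) = 2 * d := by rw [D.w_pow hd0 2]; push_cast; ring
  have hxy : x * y ≠ 0 := mul_ne_zero hξP hξQ
  have hwxy : D.w (x * y) = a + b := D.w_mul _ _ hξP hξQ
  have hnum := RVal.w_sub_eq_left (v := D.toRVal) hxy
    (y := D.A4) (D.A4_ge.gt_of_lt (by rw [hwxy]; linarith))
  have hnum2 : (x * y - D.A4) ^ 2 ≠ 0 := pow_ne_zero 2 hnum.1
  have hwnum2 : D.w ((x * y - D.A4) ^ 2) = 2 * (a + b) := by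
    rw [D.w_pow hnum.1 2, hnum.2, hwxy]; push_cast; ring
  have hpr0 : D.ξ (P + Q) * D.ξ (P - Q) ≠ 0 := by rw [hprod]; exact div_ne_zero hnum2 hd2
  have hprw : D.w (D.ξ (P + Q) * D.ξ (P - Q)) = 2 * (a + b) - 2 * d := by
    rw [hprod, RVal.w_div D.toRVal hnum2 hd2, hwnum2, hwd2]
  have h10 : D.ξ (P + Q) ≠ 0 := left_ne_zero_of_mul hpr0
  have h20 : D.ξ (P - Q) ≠ 0 := right_ne_zero_of_mul hpr0
  rw [D.w_mul _ _ h10 h20] at hprw
  right
  refine ⟨h10, ?_⟩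
  by_contra hcon
  push Not at hcon
  -- the sum has valuation `> 2 (a + b) - 2 d`
  have hxge : D.GE (min a b) x := (RVal.GE.of_le (le_refl a)).mono (min_le_left a b)
  have hyge : D.GE (min a b) y := (RVal.GE.of_le (le_refl b)).mono (min_le_right a b)
  have hmin0 : min a b ≤ 0 := le_trans (min_le_left a b) hwP.le
  have hlin : D.GE (min a b) (x + y + 2 * D.A2) :=
    (hxge.add hyge).add ((RVal.GE.int_mul (RVal.GE.ofNat 2) D.A2_ge).mono hmin0)
  have hN : D.GE (a + b + min a b) (x * y * (x + y + 2 * D.A2) + D.A4 * (x + y)) := by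
    refine RVal.GE.add ?_ ?_
    · exact (RVal.GE.of_le (le_of_eq hwxy.symm)).mul hlin
    · have := D.A4_ge.mul (hxge.add hyge)
      exact this.mono (by linarith)
  have hS : D.GT (2 * (a + b) - 2 * d) (D.ξ (P + Q) + D.ξ (P - Q)) := by
    rw [hsum]
    set Nm := x * y * (x + y + 2 * D.A2) + D.A4 * (x + y) with hNm
    rcases eq_or_ne Nm 0 with h0 | h0
    · rw [h0, mul_zero, zero_div]; exact RVal.GT.zero _
    · refine RVal.GT.of_lt ?_
      rw [RVal.w_div D.toRVal (mul_ne_zero D.two_ne h0) hd2, D.w_mul _ _ D.two_ne h0, D.w_two,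
        hwd2]
      have := hN.le h0
      linarith
  have h1gt : D.GT (2 * (a + b) - 2 * d) (D.ξ (P + Q)) :=
    RVal.GT.of_lt (by linarith)
  have h2gt : D.GT (2 * (a + b) - 2 * d) (D.ξ (P - Q)) := by
    have : D.ξ (P - Q) = (D.ξ (P + Q) + D.ξ (P - Q)) - D.ξ (P + Q) := by ring
    rw [this]; exact hS.sub h1gt
  have := h2gt.lt h20
  linarith

theorem sub_mem_E1 (D : KDatum K G) {P Q : G} (hP : P ∈ D.E1) (hQ : Q ∈ D.E1) :
    P - Q ∈ D.E1 := by
  rw [sub_eq_add_neg]; exact add_mem_E1 D hP (neg_mem_E1 D hQ)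

theorem nsmul_mem_E1 (D : KDatum K G) {P : G} (hP : P ∈ D.E1) (n : ℕ) : n • P ∈ D.E1 := by
  induction n with
  | zero => rw [zero_nsmul]; exact Or.inl rfl
  | succ n ih => rw [succ_nsmul]; exact add_mem_E1 D ih hP

/-- the image under `φ` of a point of `E₁` is in `E₁`. -/
theorem φ_mem_E1 (D : IDatum K G) {P : G} (hP : P ∈ D.E1) : D.φ P ∈ D.E1 := by
  by_cases hP0 : P = 0
  · rw [hP0, map_zero]; exact Or.inl rfl
  obtain ⟨h1, h2⟩ := hP.resolve_left hP0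
  right
  rw [D.ξ_φ P hP0]
  exact ⟨(map_ne_zero_iff _ D.σ.injective).mpr h1, by rw [D.w_σ _ h1]; exact h2⟩

open Red in
/-- An integral point with nonsingular reduction is moved by `φ` by an element of `E₁`. -/
theorem φ_sub_mem_E1_of_nonsingular (D : IDatum K G) {P : G} (hP : P ≠ 0)
    (hξ : D.GE 0 (D.ξ P))
    (hns : (D.η P ≠ 0 ∧ D.w (D.η P) = 0) ∨ (D.f' (D.ξ P) ≠ 0 ∧ D.w (D.f' (D.ξ P)) = 0)) :
    D.φ P - P ∈ D.E1 := by
  have hη : D.GE 0 (D.η P) := η_ge D.toKDatum hP hξ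
  have hcong : ∀ x : K, D.GE 0 x → D.GT 0 (D.σ x - x) := by
    intro x hx
    rcases eq_or_ne x 0 with rfl | hx0
    · rw [map_zero, sub_zero]; exact RVal.GT.zero 0
    · rcases D.σ_cong x hx0 (hx.le hx0) with h | h
      · rw [h, sub_self]; exact RVal.GT.zero 0
      · exact RVal.GT.of_lt h
  have hφ : D.φ P ≠ 0 := D.φ_ne P hP
  have hcξ : D.GT 0 (D.ξ (D.φ P) - D.ξ P) := by rw [D.ξ_φ P hP]; exact hcong _ hξ
  have hcη : D.GT 0 (D.η (D.φ P) - D.η P) := by rw [D.η_φ P hP]; exact hcong _ hη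
  exact sub_mem_E1_of_cong D.toKDatum hP hφ hξ hcξ hcη hns

open Red in
/-- Good reduction: every integral point has nonsingular reduction. -/
theorem nonsingular_of_good (D : KDatum K G)
    (hA4 : D.A4 ≠ 0) (hwA4 : D.w D.A4 = 0)
    (hdisc : D.A2 ^ 2 - 4 * D.A4 ≠ 0) (hwdisc : D.w (D.A2 ^ 2 - 4 * D.A4) = 0)
    {P : G} (hP : P ≠ 0) (hξ : D.GE 0 (D.ξ P)) :
    (D.η P ≠ 0 ∧ D.w (D.η P) = 0) ∨ (D.f' (D.ξ P) ≠ 0 ∧ D.w (D.f' (D.ξ P)) = 0) := by
  have hη : D.GE 0 (D.η P) := η_ge D hP hξ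
  by_cases hunit : D.η P ≠ 0 ∧ D.w (D.η P) = 0
  · exact Or.inl hunit
  right
  -- `η² = f(ξ)` has positive valuation
  have hη2 : D.GT 0 (D.η P ^ 2) := by
    rcases eq_or_ne (D.η P) 0 with h | h
    · rw [h]; simp [RVal.GT.zero]
    · have h1 : 0 ≤ D.w (D.η P) := hη.le h
      have h2 : D.w (D.η P) ≠ 0 := fun h0 => hunit ⟨h, h0⟩
      have h3 : 0 < D.w (D.η P) := lt_of_le_of_ne h1 (Ne.symm h2)
      refine RVal.GT.of_lt ?_
      rw [D.w_pow h 2]; push_cast; linarith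
  rw [D.eqn P hP] at hη2
  set x : K := D.ξ P with hx
  rcases eq_or_ne x 0 with hx0 | hx0
  · have : D.f' x = D.A4 := by rw [KDatum.f', hx0]; ring
    rw [this]; exact ⟨hA4, hwA4⟩
  have hwx : 0 ≤ D.w x := hξ.le hx0
  rcases eq_or_lt_of_le hwx with hwx0 | hwxpos
  · set h : K := x ^ 2 + D.A2 * x + D.A4 with hh
    have hhgt : D.GT 0 h := by
      rcases eq_or_ne h 0 with h0 | h0
      · exact Or.inl h0
      · have h1 := hη2.lt (mul_ne_zero hx0 h0)
        rw [D.w_mul x h hx0 h0, ← hwx0, zero_add] at h1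
        exact RVal.GT.of_lt h1
    have hsq : (2 * x + D.A2) ^ 2 = (D.A2 ^ 2 - 4 * D.A4) + 4 * h := by rw [hh]; ring
    have h4h : D.GT 0 (4 * h) := by
      rw [mul_comm]; exact gt_mul_ge hhgt (RVal.GE.ofNat 4)
    have hsq1 := unit_add hdisc hwdisc h4h
    rw [← hsq] at hsq1
    have hlin : 2 * x + D.A2 ≠ 0 := fun h0 => hsq1.1 (by rw [h0]; ring)
    have hwlin : D.w (2 * x + D.A2) = 0 := by
      have h1 := hsq1.2
      rw [D.w_pow hlin 2] at h1
      push_cast at h1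
      linarith
    have hprod : x * (2 * x + D.A2) ≠ 0 := mul_ne_zero hx0 hlin
    have hwprod : D.w (x * (2 * x + D.A2)) = 0 := by
      rw [D.w_mul _ _ hx0 hlin, ← hwx0, hwlin, add_zero]
    have hf' : D.f' x = x * (2 * x + D.A2) + h := by rw [KDatum.f', hh]; ring
    rw [hf']
    exact unit_add hprod hwprod hhgt
  · have hf' : D.f' x = D.A4 + x * (3 * x + 2 * D.A2) := by rw [KDatum.f']; ring
    rw [hf']
    refine unit_add hA4 hwA4 (gt_mul_ge (RVal.GT.of_lt hwxpos) ?_)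
    exact (ge_mul (RVal.GE.ofNat 3) hξ).add (ge_mul (RVal.GE.ofNat 2) D.A2_ge)

/-- Good reduction: an inertia automorphism moves every point by an element of `E₁`. -/
theorem φ_sub_mem_E1_of_good (D : IDatum K G)
    (hA4 : D.A4 ≠ 0) (hwA4 : D.w D.A4 = 0)
    (hdisc : D.A2 ^ 2 - 4 * D.A4 ≠ 0) (hwdisc : D.w (D.A2 ^ 2 - 4 * D.A4) = 0)
    (P : G) : D.φ P - P ∈ D.E1 := by
  by_cases hP0 : P = 0
  · rw [hP0, map_zero, sub_zero]; exact Or.inl rfl
  by_cases hE : D.ξ P ≠ 0 ∧ D.w (D.ξ P) < 0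
  · exact sub_mem_E1 D.toKDatum (φ_mem_E1 D (Or.inr hE)) (Or.inr hE)
  have hξ : D.GE 0 (D.ξ P) := by
    rcases eq_or_ne (D.ξ P) 0 with h | h
    · exact Or.inl h
    · exact RVal.GE.of_le (not_lt.mp fun hlt => hE ⟨h, hlt⟩)
  exact φ_sub_mem_E1_of_nonsingular D hP0 hξ
    (nonsingular_of_good D.toKDatum hA4 hwA4 hdisc hwdisc hP0 hξ)

/-- Multiplicative reduction, `A4 = u d^p` with `u` a unit and `d` fixed by `σ`: an inertia
automorphism moves every `p`-torsion point by an element of `E₁` (no hypothesis on `w p`). -/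
theorem φ_sub_mem_E1_of_mult (D : IDatum K G) (p : ℕ) (hp : p.Prime) (hp2 : p ≠ 2)
    (hA2 : D.A2 ≠ 0) (hwA2 : D.w D.A2 = 0)
    (d u : K) (hd : d ≠ 0) (hwd : 0 < D.w d) (hσd : D.σ d = d) (hu : u ≠ 0) (hwu : D.w u = 0)
    (hA4 : D.A4 = u * d ^ p) (P : G) (hpP : p • P = 0) : D.φ P - P ∈ D.E1 := by
  by_cases hP0 : P = 0
  · rw [hP0, map_zero, sub_zero]; exact Or.inl rfl
  by_cases hE1 : D.ξ P ≠ 0 ∧ D.w (D.ξ P) < 0
  · exact sub_mem_E1 D.toKDatum (φ_mem_E1 D (Or.inr hE1)) (Or.inr hE1)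
  have hA4ne : D.A4 ≠ 0 := by rw [hA4]; exact mul_ne_zero hu (pow_ne_zero p hd)
  have hm : D.w D.A4 = p * D.w d := by
    rw [hA4, D.w_mul _ _ hu (pow_ne_zero p hd), hwu, D.w_pow hd]; ring
  have hppos : (0 : ℝ) < p := by exact_mod_cast hp.pos
  have hmpos : 0 < D.w D.A4 := by rw [hm]; positivity
  by_cases hE : P ∈ D.E0
  · obtain ⟨h1, h2⟩ := hE.resolve_left hP0
    have hw0 : D.w (D.ξ P) = 0 := le_antisymm h2 (not_lt.mp fun hlt => hE1 ⟨h1, hlt⟩)
    exact φ_sub_mem_E1_of_nonsingular D hP0 (RVal.GE.of_le hw0.ge)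
      (MultE0.nonsingular_of_unit D.toKDatum (RVal.GT.of_lt hmpos) hP0 h1 hw0)
  obtain ⟨hx, hpos, hlt, j, hj⟩ :=
    exists_w_ξ_eq D.toKDatum p hp hp2 hA2 hwA2 hA4ne (D.w d) hwd hm hpP hE
  set x := D.ξ P with hxdef
  set l := D.w x with hl
  set e := d ^ (2 * j) with he
  have he0 : e ≠ 0 := pow_ne_zero _ hd
  have hwe : D.w e = l := by rw [he, D.w_pow hd, hj]; push_cast; ring
  have hσe : D.σ e = e := by rw [he, map_pow, hσd]
  -- elements of valuation `l` are moved by `σ` by something of valuation `> l`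
  have key : ∀ y : K, y ≠ 0 → D.w y = l → D.σ y = y ∨ (D.σ y ≠ y ∧ l < D.w (D.σ y - y)) := by
    intro y hy hwy
    by_cases hfix : D.σ y = y
    · exact Or.inl hfix
    right
    refine ⟨hfix, ?_⟩
    have hq : y / e ≠ 0 := div_ne_zero hy he0
    have hwq : D.w (y / e) = 0 := by rw [D.w_div hy he0, hwy, hwe]; ring
    have h2 : D.σ y - y = e * (D.σ (y / e) - y / e) := by
      rw [map_div₀, hσe]; field_simp
    have h3 : D.σ (y / e) - y / e ≠ 0 := by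
      intro h0
      rw [h0, mul_zero] at h2
      exact hfix (sub_eq_zero.mp h2)
    rcases D.σ_cong (y / e) hq hwq.ge with h | h
    · exact absurd (sub_eq_zero.mpr h) h3
    · rw [h2, D.w_mul _ _ he0 h3, hwe]; linarith
  have hx' : D.ξ (D.φ P) = D.σ x := D.ξ_φ P hP0
  have hφ0 : D.φ P ≠ 0 := D.φ_ne P hP0
  -- the factor `x² + A2 x + A4` has valuation `l`
  have hsq : D.w (x ^ 2) = 2 * l := by rw [D.w_pow hx]; push_cast; ring
  have hA2x : D.A2 * x ≠ 0 := mul_ne_zero hA2 hx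
  have hwA2x : D.w (D.A2 * x) = l := by rw [D.w_mul _ _ hA2 hx, hwA2]; ring
  have hg : x ^ 2 + D.A2 * x + D.A4 ≠ 0 ∧ D.w (x ^ 2 + D.A2 * x + D.A4) = l := by
    have e1 : x ^ 2 + D.A2 * x + D.A4 = D.A2 * x + (x ^ 2 + D.A4) := by ring
    rw [e1, ← hwA2x]
    refine RVal.w_add_eq_left hA2x ?_
    rw [hwA2x]
    exact (RVal.GT.of_lt (by rw [hsq]; linarith)).add (RVal.GT.of_lt hlt)
  -- `η P` has valuation `l`
  have hη2 := D.eqn P hP0
  have hη0 : D.η P ≠ 0 := by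
    intro h0
    rw [h0] at hη2
    have : x * (x ^ 2 + D.A2 * x + D.A4) ≠ 0 := mul_ne_zero hx hg.1
    apply this
    rw [← hη2]; simp
  have hwη : D.w (D.η P) = l := by
    have := congrArg D.w hη2
    rw [D.w_pow hη0, D.w_mul _ _ hx hg.1, hg.2] at this
    push_cast at this
    linarith
  have h2η : (2 : K) * D.η P ≠ 0 := mul_ne_zero D.two_ne hη0
  have hw2η : D.w (2 * D.η P) = l := by rw [D.w_mul _ _ D.two_ne hη0, D.w_two, hwη]; ring
  -- `σ η + η` has valuation `l`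
  have hηsum : D.σ (D.η P) + D.η P ≠ 0 ∧ D.w (D.σ (D.η P) + D.η P) = l := by
    have e1 : D.σ (D.η P) + D.η P = 2 * D.η P + (D.σ (D.η P) - D.η P) := by ring
    rw [e1, ← hw2η]
    refine RVal.w_add_eq_left h2η ?_
    rw [hw2η]
    rcases key (D.η P) hη0 hwη with h1 | ⟨-, h1⟩
    · rw [h1, sub_self]; exact RVal.GT.zero _
    · exact RVal.GT.of_lt h1
  rcases key x hx rfl with hfix | ⟨hnfix, hgt⟩
  · -- `σ x = x`: `φ P = ± P`
    rcases D.eq_or_eq_neg_of_ξ_eq hφ0 hP0 (hx'.trans hfix) with h | h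
    · rw [h, sub_self]; exact Or.inl rfl
    · exfalso
      have hη' : D.σ (D.η P) = -D.η P := by rw [← D.η_φ P hP0, h, D.η_neg P hP0]
      apply hηsum.1
      rw [hη']; ring
  · -- `σ x ≠ x`: the chord formula
    set x' := D.σ x with hx'def
    have hx'0 : x' ≠ 0 := by
      rw [hx'def]; exact (map_ne_zero_iff _ D.σ.injective).mpr hx
    have hwx' : D.w x' = l := D.w_σ x hx
    have hne : D.ξ (D.φ P) ≠ D.ξ P := by rw [hx']; exact hnfix
    have hchord := D.ξ_sub (D.φ P) P hφ0 hP0 hne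
    rw [hx', ← hxdef, D.η_φ P hP0] at hchord
    have hdiff : x' - x ≠ 0 := sub_ne_zero.mpr hnfix
    set T := (D.σ (D.η P) + D.η P) / (x' - x) with hT
    have hT0 : T ≠ 0 := div_ne_zero hηsum.1 hdiff
    have hwT : D.w T = l - D.w (x' - x) := by
      rw [hT, D.w_div hηsum.1 hdiff, hηsum.2]
    have hT2 : T ^ 2 ≠ 0 := pow_ne_zero 2 hT0
    have hwT2 : D.w (T ^ 2) = 2 * (l - D.w (x' - x)) := by
      rw [D.w_pow hT0 2, hwT]; push_cast; ring
    have hrest : D.GE 0 (-D.A2 - x' - x) :=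
      (D.A2_ge.neg.sub (RVal.GE.of_le (by rw [hwx']; exact hpos.le))).sub
        (RVal.GE.of_le hpos.le)
    have e1 : T ^ 2 - D.A2 - x' - x = T ^ 2 + (-D.A2 - x' - x) := by ring
    rw [e1] at hchord
    have hfin := RVal.w_add_eq_left (v := D.toRVal) hT2
      (y := -D.A2 - x' - x) (hrest.gt_of_lt (by rw [hwT2]; linarith))
    right
    rw [hchord]
    exact ⟨hfin.1, by rw [hfin.2, hwT2]; linarith⟩

/-- Tame bound: if `n w(ξ P)` and `n w(η P)` are integral multiples of `wp > 0` for a nonzero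
point `P` of `E₁` (`n > 0`), then `2 wp ≤ n (-w (ξ P))`. -/
theorem tame_bound (D : KDatum K G) {P : G} (hP : P ≠ 0) (hE : P ∈ D.E1) (n : ℕ) (hn : 0 < n)
    (wp : ℝ) (hwp : 0 < wp) (hξ : ∃ k : ℤ, (n : ℝ) * D.w (D.ξ P) = k * wp)
    (hη : ∃ k : ℤ, (n : ℝ) * D.w (D.η P) = k * wp) :
    2 * wp ≤ (n : ℝ) * (-D.w (D.ξ P)) := by
  obtain ⟨hx, hw⟩ := hE.resolve_left hP
  obtain ⟨hq0, hwq⟩ := quad_of_neg D hx hw
  have heq := D.eqn P hP
  have hη0 : D.η P ≠ 0 := by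
    intro h0
    rw [h0] at heq
    have : D.ξ P * (D.ξ P ^ 2 + D.A2 * D.ξ P + D.A4) ≠ 0 := mul_ne_zero hx hq0
    apply this
    rw [← heq]; simp
  have hwη : 2 * D.w (D.η P) = 3 * D.w (D.ξ P) := by
    have := congrArg D.w heq
    rw [D.w_pow hη0, D.w_mul _ _ hx hq0, hwq] at this
    push_cast at this
    linarith
  obtain ⟨a, ha⟩ := hξ
  obtain ⟨b, hb⟩ := hη
  have hnpos : (0 : ℝ) < n := by exact_mod_cast hn
  -- `2 b = 3 a` as integers
  have h1 : (2 * b : ℝ) * wp = (3 * a : ℝ) * wp := by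
    have : (n : ℝ) * (2 * D.w (D.η P)) = (n : ℝ) * (3 * D.w (D.ξ P)) := by rw [hwη]
    linarith
  have h2 : (2 * b : ℝ) = 3 * a := mul_right_cancel₀ hwp.ne' h1
  have h3 : 2 * b = 3 * a := by exact_mod_cast h2
  -- `a < 0`
  have ha0 : (a : ℝ) * wp < 0 := by rw [← ha]; exact mul_neg_of_pos_of_neg hnpos hw
  have ha1 : (a : ℝ) < 0 := by
    by_contra hcon
    push Not at hcon
    have := mul_nonneg hcon hwp.le
    linarith
  have ha2 : a < 0 := by exact_mod_cast ha1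
  have ha3 : a ≤ -2 := by omega
  have ha4 : (a : ℝ) ≤ -2 := by exact_mod_cast ha3
  have : (n : ℝ) * (-D.w (D.ξ P)) = -(a : ℝ) * wp := by rw [mul_neg, ha]; ring
  rw [this]
  nlinarith

/-- Newton bound + tame bound: if the subgroup `N` contains a nonzero `p`-torsion point of
`E₁`, then every `p`-torsion point of `E₁` lies in `N`. -/
theorem mem_of_mem_E1 (D : KDatum K G) (p : ℕ) (hp : p.Prime) (wp : ℝ)
    (hNewton : ∀ T : Finset G, (∀ P ∈ T, P ≠ 0 ∧ p • P = 0 ∧ P ∈ D.E1) →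
      ∑ P ∈ T, (-D.w (D.ξ P)) ≤ 2 * wp)
    (N : AddSubgroup G)
    (htame : ∀ P ∈ N, P ≠ 0 → P ∈ D.E1 → 2 * wp ≤ ((p : ℝ) - 1) * (-D.w (D.ξ P)))
    {P₀ : G} (hP₀N : P₀ ∈ N) (hP₀ : P₀ ≠ 0) (hpP₀ : p • P₀ = 0) (hP₀E : P₀ ∈ D.E1)
    {Q : G} (hpQ : p • Q = 0) (hQ : Q ∈ D.E1) : Q ∈ N := by
  classical
  by_contra hQN
  have hQ0 : Q ≠ 0 := fun h => hQN (h ▸ N.zero_mem)
  have hord : addOrderOf P₀ = p := by
    have h1 : addOrderOf P₀ ∣ p := addOrderOf_dvd_of_nsmul_eq_zero hpP₀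
    rcases (Nat.dvd_prime hp).mp h1 with h | h
    · exact absurd (AddMonoid.addOrderOf_eq_one_iff.mp h) hP₀
    · exact h
  -- the multiples `k P₀`, `1 ≤ k ≤ p - 1`
  have hk0 : ∀ k ∈ Finset.Icc 1 (p - 1), k • P₀ ≠ 0 := by
    intro k hk h0
    rw [Finset.mem_Icc] at hk
    have h1 : p ∣ k := by rw [← hord]; exact addOrderOf_dvd_of_nsmul_eq_zero h0
    have := Nat.le_of_dvd (by omega) h1
    have := hp.two_le
    omega
  have hinj : Set.InjOn (fun k : ℕ => k • P₀) (Finset.Icc 1 (p - 1) : Finset ℕ) := by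
    intro k hk k' hk' h
    simp only [Finset.coe_Icc, Set.mem_Icc] at hk hk'
    have h1 : k • P₀ = k' • P₀ := h
    rw [← hord] at hk hk'
    have h2 := (nsmul_eq_nsmul_iff_modEq (x := P₀)).mp h1
    have hpos := hp.two_le
    rw [hord] at h2 hk hk'
    have e1 : k % p = k := Nat.mod_eq_of_lt (by omega)
    have e2 : k' % p = k' := Nat.mod_eq_of_lt (by omega)
    have : k % p = k' % p := h2
    omega
  set M : Finset G := (Finset.Icc 1 (p - 1)).image (fun k : ℕ => k • P₀) with hM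
  have hMN : ∀ R ∈ M, R ∈ N := by
    intro R hR
    obtain ⟨k, -, rfl⟩ := Finset.mem_image.mp hR
    exact N.nsmul_mem hP₀N k
  have hQM : Q ∉ M := fun h => hQN (hMN Q h)
  have hT : ∀ R ∈ insert Q M, R ≠ 0 ∧ p • R = 0 ∧ R ∈ D.E1 := by
    intro R hR
    rcases Finset.mem_insert.mp hR with rfl | hR
    · exact ⟨hQ0, hpQ, hQ⟩
    · obtain ⟨k, hk, rfl⟩ := Finset.mem_image.mp hR
      exact ⟨hk0 k hk, by rw [smul_comm, hpP₀, smul_zero], nsmul_mem_E1 D hP₀E k⟩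
  have hbound := hNewton (insert Q M) hT
  rw [Finset.sum_insert hQM, hM, Finset.sum_image hinj] at hbound
  have hQneg : 0 < -D.w (D.ξ Q) := by
    have := (hQ.resolve_left hQ0).2
    linarith
  have hp1 : (0 : ℝ) < (p : ℝ) - 1 := by
    have : (2 : ℝ) ≤ p := by exact_mod_cast hp.two_le
    linarith
  have hterm : ∀ k ∈ Finset.Icc 1 (p - 1),
      2 * wp / ((p : ℝ) - 1) ≤ -D.w (D.ξ (k • P₀)) := by
    intro k hk
    rw [div_le_iff₀ hp1]
    have := htame (k • P₀) (N.nsmul_mem hP₀N k) (hk0 k hk) (nsmul_mem_E1 D hP₀E k)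
    linarith
  have hsum := Finset.sum_le_sum hterm
  rw [Finset.sum_const, Nat.card_Icc, nsmul_eq_mul] at hsum
  have hcast : ((p - 1 + 1 - 1 : ℕ) : ℝ) = (p : ℝ) - 1 := by
    have := hp.one_le
    have e : p - 1 + 1 - 1 = p - 1 := by omega
    rw [e, Nat.cast_sub this]; simp
  rw [hcast, mul_div_cancel₀ _ hp1.ne'] at hsum
  linarith

/-- **Local dichotomy at `p`** (Case I / Case II): for a subgroup `N` of `p`-torsion points
stable under a family `φ i` of inertia automorphisms, either every `φ i` fixes `N` pointwise,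
or every `φ i` moves every `p`-torsion point by an element of `N`. -/
theorem dichotomy (D : KDatum K G) (p : ℕ) (hp : p.Prime) (wp : ℝ)
    (hNewton : ∀ T : Finset G, (∀ P ∈ T, P ≠ 0 ∧ p • P = 0 ∧ P ∈ D.E1) →
      ∑ P ∈ T, (-D.w (D.ξ P)) ≤ 2 * wp)
    (N : AddSubgroup G) (hNp : ∀ P ∈ N, p • P = 0)
    (htame : ∀ P ∈ N, P ≠ 0 → P ∈ D.E1 → 2 * wp ≤ ((p : ℝ) - 1) * (-D.w (D.ξ P)))
    {ι : Type*} (φ : ι → G →+ G)
    (hφE : ∀ i, ∀ P : G, p • P = 0 → φ i P - P ∈ D.E1)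
    (hφN : ∀ i, ∀ P ∈ N, φ i P ∈ N) :
    (∀ i, ∀ P ∈ N, φ i P = P) ∨ (∀ i, ∀ Q : G, p • Q = 0 → φ i Q - Q ∈ N) := by
  by_cases h : ∃ P₀ ∈ N, P₀ ≠ 0 ∧ P₀ ∈ D.E1
  · right
    obtain ⟨P₀, hP₀N, hP₀, hP₀E⟩ := h
    intro i Q hpQ
    refine mem_of_mem_E1 D p hp wp hNewton N htame hP₀N hP₀ (hNp P₀ hP₀N) hP₀E ?_ (hφE i Q hpQ)
    rw [nsmul_sub, ← map_nsmul, hpQ, map_zero, sub_zero]
  · left
    intro i P hP
    by_contra hne
    exact h ⟨φ i P - P, N.sub_mem (hφN i P hP) hP, sub_ne_zero.mpr hne, hφE i P (hNp P hP)⟩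

end Fermat.Agent.S13.PLocal
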