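import Mathlib
import Fermat.Agent.S05_Defs
import Fermat.Agent.S13_PLocal

/-!
# S13, the Newton bound at `p`

For the abstract curve datum `KDatum` of S05 (`η² = ξ (ξ² + A2 ξ + A4)`, valuation `w` with
`w 2 = 0`), given the product identity `hM2` of the multiplication-by-`p` block
(`∏_{x} ((e - A4 / x) / (e - x))² = p²`, the product over the abscissas of the nonzero
`p`-torsion points, `e` a unit root of `ξ² + A2 ξ + A4` with `2 e + A2` a unit):

* `newton_bound` : the abscissas `x` of `p`-torsion points with `w x < 0` satisfy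
  `∑ (-w x) ≤ w p`;
* `newton_points` : the same in terms of points, `∑_{P} (-w (ξ P)) ≤ 2 w p` over any finite set
  of nonzero `p`-torsion points of `E₁` (the hypothesis `hNewton` of `PLocal.dichotomy`).
-/

set_option autoImplicit false

namespace Fermat.Agent.S13

open Fermat.Agent.S05

variable {K : Type*} [Field K] {G : Type*} [AddCommGroup G]

namespace Newton

/-- valuation of a finite product of nonzero elements -/
theorem w_prod (v : RVal K) {ι : Type*} (s : Finset ι) (f : ι → K) (hf : ∀ i ∈ s, f i ≠ 0) :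
    v.w (∏ i ∈ s, f i) = ∑ i ∈ s, v.w (f i) := by
  classical
  induction s using Finset.induction_on with
  | empty => simp [v.w_one]
  | insert a s ha ih =>
    rw [Finset.prod_insert ha, Finset.sum_insert ha,
      v.w_mul _ _ (hf a (Finset.mem_insert_self a s))
        (Finset.prod_ne_zero_iff.mpr fun i hi => hf i (Finset.mem_insert_of_mem hi)),
      ih fun i hi => hf i (Finset.mem_insert_of_mem hi)]

/-- a point whose abscissa is a root of the cubic has `η = 0` -/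
theorem η_eq_zero_of_root (D : KDatum K G) {T : G} (hT : T ≠ 0)
    (h : D.ξ T * (D.ξ T ^ 2 + D.A2 * D.ξ T + D.A4) = 0) : D.η T = 0 := by
  have := D.eqn T hT
  rw [h] at this
  exact (pow_eq_zero_iff two_ne_zero).mp this

/-- odd multiples of a `2`-torsion point -/
theorem odd_nsmul_of_two_torsion {T : G} (h2 : T + T = 0) {p : ℕ} (hp : Odd p) :
    p • T = T := by
  obtain ⟨k, rfl⟩ := hp
  rw [add_nsmul, mul_nsmul, two_nsmul, h2, smul_zero, zero_add, one_nsmul]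

/-- a point killed by `2` and by an odd number is zero -/
theorem eq_zero_of_two_of_odd {Q : G} (h2 : Q + Q = 0) {p : ℕ} (hp : Odd p)
    (hpQ : p • Q = 0) : Q = 0 := by
  rw [odd_nsmul_of_two_torsion h2 hp] at hpQ; exact hpQ

/-- a nonzero point of odd order does not have the abscissa of a `2`-torsion point -/
theorem ξ_ne_of_two_torsion (D : KDatum K G) {p : ℕ} (hp : Odd p) {T : G} (hT : T ≠ 0)
    (hηT : D.η T = 0) {Q : G} (hQ : Q ≠ 0) (hpQ : p • Q = 0) : D.ξ Q ≠ D.ξ T := by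
  intro h
  have h2 : T + T = 0 := D.dbl_zero T hT hηT
  rcases D.eq_or_eq_neg_of_ξ_eq hQ hT h with rfl | rfl
  · exact hQ (eq_zero_of_two_of_odd h2 hp hpQ)
  · have : -T + -T = 0 := by rw [← neg_add, h2, neg_zero]
    exact hQ (eq_zero_of_two_of_odd this hp hpQ)

/-- translation by the `2`-torsion point `T = (0, 0)` -/
theorem ξ_add_T (D : KDatum K G) {T : G} (hT : T ≠ 0) (hξT : D.ξ T = 0) {Q : G} (hQ : Q ≠ 0)
    (hx : D.ξ Q ≠ 0) : D.ξ (Q + T) = D.A4 / D.ξ Q := by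
  have hηT : D.η T = 0 := η_eq_zero_of_root D hT (by rw [hξT]; ring)
  rw [D.ξ_add Q T hQ hT (by rw [hξT]; exact hx), hηT, hξT, sub_zero, sub_zero, sub_zero,
    div_pow, D.eqn Q hQ]
  field_simp
  ring

/-- for a nonzero point `Q` of odd order, `A4 / ξ Q = ξ (Q + T)` is integral -/
theorem w_A4_div_nonneg (D : KDatum K G) {p : ℕ} (hp : Odd p) (hA4 : D.A4 ≠ 0) {T : G}
    (hT : T ≠ 0) (hξT : D.ξ T = 0) {Q : G} (hQ : Q ≠ 0) (hpQ : p • Q = 0) :
    D.ξ Q ≠ 0 ∧ 0 ≤ D.w (D.A4 / D.ξ Q) := by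
  have hηT : D.η T = 0 := η_eq_zero_of_root D hT (by rw [hξT]; ring)
  have hx : D.ξ Q ≠ 0 := by
    have := ξ_ne_of_two_torsion D hp hT hηT hQ hpQ
    rwa [hξT] at this
  refine ⟨hx, ?_⟩
  by_contra hneg
  rw [not_le] at hneg
  have hQT : Q + T ∈ D.E1 := by
    right
    rw [ξ_add_T D hT hξT hQ hx]
    exact ⟨div_ne_zero hA4 hx, hneg⟩
  have h1 := PLocal.nsmul_mem_E1 D hQT p
  rw [nsmul_add, hpQ, zero_add, odd_nsmul_of_two_torsion (D.dbl_zero T hT hηT) hp] at h1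
  rcases h1 with h | ⟨h, -⟩
  · exact hT h
  · exact h hξT

/-- a nonzero point `Q` of odd order does not reduce to the `2`-torsion point `(e, 0)` -/
theorem w_e_sub_le (D : KDatum K G) {p : ℕ} (hp : Odd p)
    (e : K) (he : e ^ 2 + D.A2 * e + D.A4 = 0) (he0 : e ≠ 0) (hwe : D.w e = 0)
    (hde : 2 * e + D.A2 ≠ 0) (hwde : D.w (2 * e + D.A2) = 0)
    {Q : G} (hQ : Q ≠ 0) (hpQ : p • Q = 0) (hne : e - D.ξ Q ≠ 0) (hx0 : D.ξ Q ≠ 0) :
    D.w (e - D.ξ Q) ≤ 0 := by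
  by_contra hcon
  rw [not_le] at hcon
  set x := D.ξ Q with hx
  set δ := x - e with hδ
  have hδ0 : δ ≠ 0 := fun h => hne (by rw [hδ] at h; linear_combination -h)
  have hwδ : 0 < D.w δ := by rw [hδ, D.w_sub_comm]; exact hcon
  have hδgt : D.GT 0 δ := RVal.GT.of_lt hwδ
  have hege : D.GE 0 e := RVal.GE.of_le (le_of_eq hwe.symm)
  -- `η Q ≠ 0`
  have hη : D.η Q ≠ 0 := fun h =>
    hQ (eq_zero_of_two_of_odd (D.dbl_zero Q hQ h) hp hpQ)
  -- the quadratic factor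
  have hq : x ^ 2 + D.A2 * x + D.A4 = δ * (2 * e + D.A2 + δ) := by
    rw [hδ]; linear_combination he
  have hu := RVal.w_add_eq_left (v := D.toRVal) hde (y := δ) (by rw [hwde]; exact hδgt)
  have hη2 : D.η Q ^ 2 = x * (δ * (2 * e + D.A2 + δ)) := by
    rw [D.eqn Q hQ, ← hx, hq]
  have hη20 : D.η Q ^ 2 ≠ 0 := pow_ne_zero 2 hη
  have hwx0 : D.w x = 0 := by
    have := RVal.w_add_eq_left (v := D.toRVal) he0 (y := δ) (by rw [hwe]; exact hδgt)
    have hxe : e + δ = x := by rw [hδ]; ring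
    rw [hxe, hwe] at this
    exact this.2
  have hwη2 : D.w (D.η Q ^ 2) = D.w δ := by
    rw [hη2, D.w_mul _ _ hx0 (mul_ne_zero hδ0 hu.1), D.w_mul _ _ hδ0 hu.1, hu.2, hwde, hwx0]
    ring
  -- the numerator
  have hnum : x ^ 2 - D.A4 = e * (2 * e + D.A2) + δ * (2 * e + δ) := by
    rw [hδ]; linear_combination -he
  have hun0 : e * (2 * e + D.A2) ≠ 0 := mul_ne_zero he0 hde
  have hwun : D.w (e * (2 * e + D.A2)) = 0 := by
    rw [D.w_mul _ _ he0 hde, hwe, hwde]; ring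
  have hn := RVal.w_add_eq_left (v := D.toRVal) hun0 (y := δ * (2 * e + δ)) (by
    rw [hwun]
    exact RVal.GT.mul_int hδgt ((RVal.GE.int_mul (RVal.GE.ofNat 2) hege).add hδgt.ge))
  rw [← hnum, hwun] at hn
  -- `2 Q ∈ E₁`
  have h2Q : Q + Q ∈ D.E1 := by
    right
    rw [D.ξ_dbl Q hQ hη, ← hx]
    have hden : (4 : K) * D.η Q ^ 2 ≠ 0 := mul_ne_zero D.four_ne hη20
    refine ⟨div_ne_zero (pow_ne_zero 2 hn.1) hden, ?_⟩
    rw [RVal.w_div D.toRVal (pow_ne_zero 2 hn.1) hden, D.w_pow hn.1 2, hn.2,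
      D.w_mul _ _ D.four_ne hη20, D.w_four, hwη2]
    push_cast
    linarith
  -- hence `Q ∈ E₁`
  obtain ⟨k, hk⟩ := hp
  have hQE : (k + 1) • (Q + Q) ∈ D.E1 := PLocal.nsmul_mem_E1 D h2Q (k + 1)
  have hQeq : (k + 1) • (Q + Q) = Q := by
    have : (k + 1) • (Q + Q) = p • Q + Q := by
      rw [hk, ← succ_nsmul, ← two_nsmul, ← mul_nsmul]
      congr 1
    rw [this, hpQ, zero_add]
  rw [hQeq] at hQE
  have := (hQE.resolve_left hQ).2
  rw [← hx, hwx0] at this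
  exact lt_irrefl _ this

end Newton

set_option linter.unusedVariables false in
open Newton in
/-- (Newton) the `p`-torsion points in `E₁` have total depth at most `w p`.
`e` is a unit root of `ξ² + A2 ξ + A4` with `2e + A2` a unit, `T = (0, 0)`, `Te = (e, 0)`,
`X` is the set of `ξ`-values of the nonzero `p`-torsion points and `hM2` is the identity
`a_p(e) = e b_p(e)` (statement (M2) of the multiplication-by-`p` block). -/
theorem newton_bound (D : KDatum K G) (p : ℕ) (hp : p.Prime) (hp2 : p ≠ 2)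
    (hpK : (p : K) ≠ 0) (hA4 : D.A4 ≠ 0)
    (e : K) (he : e ^ 2 + D.A2 * e + D.A4 = 0) (he0 : e ≠ 0) (hwe : D.w e = 0)
    (hde : 2 * e + D.A2 ≠ 0) (hwde : D.w (2 * e + D.A2) = 0)
    (T Te : G) (hT : T ≠ 0) (hξT : D.ξ T = 0) (hTe : Te ≠ 0) (hξTe : D.ξ Te = e)
    (X : Finset K) (hX1 : ∀ Q : G, Q ≠ 0 → p • Q = 0 → D.ξ Q ∈ X)
    (hX2 : ∀ x ∈ X, ∃ Q : G, Q ≠ 0 ∧ p • Q = 0 ∧ D.ξ Q = x)
    (hM2 : ∏ x ∈ X, ((e - D.A4 / x) / (e - x)) ^ 2 = (p : K) ^ 2)
    (Y : Finset K) (hYX : Y ⊆ X) (hY : ∀ x ∈ Y, D.w x < 0) :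
    ∑ x ∈ Y, (-D.w x) ≤ D.w (p : K) := by
  have hodd : Odd p := hp.odd_of_ne_two hp2
  -- every factor is nonzero
  have hfac : ∀ x ∈ X, ((e - D.A4 / x) / (e - x)) ^ 2 ≠ 0 := by
    have h0 : ∏ x ∈ X, ((e - D.A4 / x) / (e - x)) ^ 2 ≠ 0 := by
      rw [hM2]; exact pow_ne_zero 2 hpK
    exact Finset.prod_ne_zero_iff.mp h0
  have hnum : ∀ x ∈ X, e - D.A4 / x ≠ 0 := fun x hx h =>
    hfac x hx (by rw [h, zero_div]; ring)
  have hden : ∀ x ∈ X, e - x ≠ 0 := fun x hx h =>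
    hfac x hx (by rw [h, div_zero]; ring)
  -- the valuation of the product
  set g : K → ℝ := fun x => D.w (e - D.A4 / x) - D.w (e - x) with hg
  have hsum : ∑ x ∈ X, g x = D.w (p : K) := by
    have h1 := w_prod D.toRVal X (fun x => ((e - D.A4 / x) / (e - x)) ^ 2) hfac
    rw [hM2, D.w_pow hpK 2] at h1
    have h2 : ∑ x ∈ X, D.w (((e - D.A4 / x) / (e - x)) ^ 2) = ∑ x ∈ X, 2 * g x := by
      refine Finset.sum_congr rfl fun x hx => ?_
      rw [D.w_pow (div_ne_zero (hnum x hx) (hden x hx)) 2,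
        RVal.w_div D.toRVal (hnum x hx) (hden x hx)]
      push_cast; ring
    rw [h2, ← Finset.mul_sum] at h1
    push_cast at h1
    linarith
  -- the terms
  have hx0 : ∀ x ∈ X, x ≠ 0 := by
    intro x hx
    obtain ⟨Q, hQ, hpQ, rfl⟩ := hX2 x hx
    exact (w_A4_div_nonneg D hodd hA4 hT hξT hQ hpQ).1
  have hneg : ∀ x ∈ X, D.w x < 0 → g x = -D.w x := by
    intro x hx hw
    have hx00 := hx0 x hx
    have h1 := RVal.w_sub_eq_right (v := D.toRVal) hx00 (x := e)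
      (RVal.GT.of_lt (by rw [hwe]; exact hw))
    have hA : D.A4 / x ≠ 0 := div_ne_zero hA4 hx00
    have hwA : 0 < D.w (D.A4 / x) := by
      rw [RVal.w_div D.toRVal hA4 hx00]
      have := D.A4_ge.le hA4
      linarith
    have h2 := RVal.w_sub_eq_left (v := D.toRVal) he0 (y := D.A4 / x)
      (RVal.GT.of_lt (by rw [hwe]; exact hwA))
    simp only [hg]
    rw [h1.2, h2.2, hwe]; ring
  have hnonneg : ∀ x ∈ X, 0 ≤ g x := by
    intro x hx
    rcases lt_or_ge (D.w x) 0 with hw | hw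
    · rw [hneg x hx hw]; linarith
    · obtain ⟨Q, hQ, hpQ, rfl⟩ := hX2 x hx
      have h1 := w_A4_div_nonneg D hodd hA4 hT hξT hQ hpQ
      have h2 := w_e_sub_le D hodd e he he0 hwe hde hwde hQ hpQ (hden _ hx) h1.1
      have hA : D.A4 / D.ξ Q ≠ 0 := div_ne_zero hA4 h1.1
      have h3 : D.GE 0 (e - D.A4 / D.ξ Q) :=
        (RVal.GE.of_le (le_of_eq hwe.symm)).sub (RVal.GE.of_le h1.2)
      have h4 := h3.le (hnum _ hx)
      simp only [hg]
      linarith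
  calc ∑ x ∈ Y, (-D.w x) = ∑ x ∈ Y, g x :=
        Finset.sum_congr rfl fun x hx => (hneg x (hYX hx) (hY x hx)).symm
    _ ≤ ∑ x ∈ X, g x :=
        Finset.sum_le_sum_of_subset_of_nonneg hYX fun x hx _ => hnonneg x hx
    _ = D.w (p : K) := hsum

/-- (Newton, points form) the total depth of any finite set of nonzero `p`-torsion points of
`E₁` is at most `2 w p`: this is the hypothesis `hNewton` of `PLocal.dichotomy`. -/
theorem newton_points (D : KDatum K G) (p : ℕ) (hp : p.Prime) (hp2 : p ≠ 2)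
    (hpK : (p : K) ≠ 0) (hA4 : D.A4 ≠ 0)
    (e : K) (he : e ^ 2 + D.A2 * e + D.A4 = 0) (he0 : e ≠ 0) (hwe : D.w e = 0)
    (hde : 2 * e + D.A2 ≠ 0) (hwde : D.w (2 * e + D.A2) = 0)
    (T Te : G) (hT : T ≠ 0) (hξT : D.ξ T = 0) (hTe : Te ≠ 0) (hξTe : D.ξ Te = e)
    (X : Finset K) (hX1 : ∀ Q : G, Q ≠ 0 → p • Q = 0 → D.ξ Q ∈ X)
    (hX2 : ∀ x ∈ X, ∃ Q : G, Q ≠ 0 ∧ p • Q = 0 ∧ D.ξ Q = x)
    (hM2 : ∏ x ∈ X, ((e - D.A4 / x) / (e - x)) ^ 2 = (p : K) ^ 2) :
    ∀ S : Finset G, (∀ P ∈ S, P ≠ 0 ∧ p • P = 0 ∧ P ∈ D.E1) →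
      ∑ P ∈ S, (-D.w (D.ξ P)) ≤ 2 * D.w (p : K) := by
  classical
  intro S hS
  set Y : Finset K := S.image D.ξ with hYdef
  have hYX : Y ⊆ X := by
    intro x hx
    obtain ⟨P, hP, rfl⟩ := Finset.mem_image.mp hx
    exact hX1 P (hS P hP).1 (hS P hP).2.1
  have hY : ∀ x ∈ Y, D.w x < 0 := by
    intro x hx
    obtain ⟨P, hP, rfl⟩ := Finset.mem_image.mp hx
    exact ((hS P hP).2.2.resolve_left (hS P hP).1).2
  have hb := newton_bound D p hp hp2 hpK hA4 e he he0 hwe hde hwde T Te hT hξT hTe hξTe X hX1 hX2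
    hM2 Y hYX hY
  have hfib : ∑ P ∈ S, (-D.w (D.ξ P)) = ∑ x ∈ Y, ∑ P ∈ S with D.ξ P = x, (-D.w (D.ξ P)) :=
    (Finset.sum_fiberwise_of_maps_to (fun P hP => Finset.mem_image_of_mem D.ξ hP) _).symm
  rw [hfib]
  have hterm : ∀ x ∈ Y, ∑ P ∈ S with D.ξ P = x, (-D.w (D.ξ P)) ≤ 2 * (-D.w x) := by
    intro x hx
    obtain ⟨Q, hQS, hQx⟩ := Finset.mem_image.mp hx
    have hsub : (S.filter fun P => D.ξ P = x) ⊆ {Q, -Q} := by
      intro P hP
      rw [Finset.mem_filter] at hP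
      rw [Finset.mem_insert, Finset.mem_singleton]
      exact D.eq_or_eq_neg_of_ξ_eq (hS P hP.1).1 (hS Q hQS).1 (by rw [hP.2, hQx])
    have hcard : (S.filter fun P => D.ξ P = x).card ≤ 2 :=
      le_trans (Finset.card_le_card hsub) Finset.card_le_two
    have hconst : ∑ P ∈ S with D.ξ P = x, (-D.w (D.ξ P))
        = ((S.filter fun P => D.ξ P = x).card : ℝ) * (-D.w x) := by
      rw [← nsmul_eq_mul, ← Finset.sum_const]
      refine Finset.sum_congr rfl fun P hP => ?_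
      rw [(Finset.mem_filter.mp hP).2]
    rw [hconst]
    have hpos : 0 ≤ -D.w x := by have := hY x hx; linarith
    have hc : ((S.filter fun P => D.ξ P = x).card : ℝ) ≤ 2 := by exact_mod_cast hcard
    exact mul_le_mul_of_nonneg_right hc hpos
  calc ∑ x ∈ Y, ∑ P ∈ S with D.ξ P = x, (-D.w (D.ξ P)) ≤ ∑ x ∈ Y, 2 * (-D.w x) :=
        Finset.sum_le_sum hterm
    _ = 2 * ∑ x ∈ Y, (-D.w x) := by rw [Finset.mul_sum]
    _ ≤ 2 * D.w (p : K) := by linarith

end Fermat.Agent.S13
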