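import Mathlib
import Fermat.Agent.S05_Val
import Fermat.Agent.Lib_ValuationIntegral

/-!
# S13, global part: valuation subrings of a Galois number field versus primes of its ring of
integers, the inertia groups, a Minkowski-type generation statement and the index lemma.
-/

set_option autoImplicit false
set_option linter.unusedSectionVars false

open NumberField

namespace Fermat.Agent.S13.Global

variable {L : Type*} [Field L] [NumberField L]

/-- The inclusion of the ring of integers into a valuation subring. -/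
def toValSubring (A : ValuationSubring L) : 𝓞 L →+* A where
  toFun x := ⟨(x : L), LibValuationIntegral.integral_mem A (RingOfIntegers.isIntegral_coe x)⟩
  map_one' := rfl
  map_mul' _ _ := rfl
  map_zero' := rfl
  map_add' _ _ := rfl

@[simp] theorem coe_toValSubring (A : ValuationSubring L) (x : 𝓞 L) :
    ((toValSubring A x : A) : L) = (x : L) := rfl

/-- The prime ideal of the ring of integers cut out by a valuation subring. -/
def primeOf (A : ValuationSubring L) : Ideal (𝓞 L) :=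
  (IsLocalRing.maximalIdeal A).comap (toValSubring A)

theorem mem_primeOf (A : ValuationSubring L) (x : 𝓞 L) :
    x ∈ primeOf A ↔ (x : L) ∈ A.nonunits := by
  rw [primeOf, Ideal.mem_comap, ← A.coe_mem_nonunits_iff]
  rfl

instance primeOf_isPrime (A : ValuationSubring L) : (primeOf A).IsPrime := by
  unfold primeOf
  infer_instance

theorem integer_mem (A : ValuationSubring L) (x : 𝓞 L) : (x : L) ∈ A :=
  (toValSubring A x).2

/-- An integer outside the prime is a unit of the valuation subring. -/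
theorem valuation_eq_one_of_notMem (A : ValuationSubring L) {x : 𝓞 L} (hx : x ∉ primeOf A) :
    A.valuation (x : L) = 1 := by
  rw [mem_primeOf, A.mem_nonunits_iff, not_lt] at hx
  exact le_antisymm ((A.valuation_le_one_iff _).2 (integer_mem A x)) hx

section prime

variable (A : ValuationSubring L) {q : ℕ} (hq : q.Prime) (hA : (q : L) ∈ A.nonunits)

include hA in
theorem natCast_mem_primeOf : ((q : ℕ) : 𝓞 L) ∈ primeOf A := by
  rw [mem_primeOf]
  simpa using hA

include hq hA in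
theorem primeOf_ne_bot : primeOf A ≠ ⊥ := by
  intro h
  have h1 := natCast_mem_primeOf A hA
  rw [h, Ideal.mem_bot] at h1
  have : (q : 𝓞 L) ≠ 0 := Nat.cast_ne_zero.mpr hq.ne_zero
  exact this h1

include hq hA in
theorem primeOf_isMaximal : (primeOf A).IsMaximal :=
  (primeOf_isPrime A).isMaximal (primeOf_ne_bot A hq hA)

include hq hA in
theorem primeOf_liesOver : (primeOf A).LiesOver (Ideal.span {(q : ℤ)}) := by
  rw [Ideal.liesOver_span_iff (primeOf_isPrime A).ne_top (Nat.prime_iff_prime_int.mp hq)]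
  have := natCast_mem_primeOf A hA
  simpa using this

include hq hA in
/-- Every element of the valuation subring is a fraction of integers with denominator outside
the prime. -/
theorem exists_frac {x : L} (hx : x ∈ A) :
    ∃ n d : 𝓞 L, d ∉ primeOf A ∧ x * (d : L) = (n : L) := by
  let v : IsDedekindDomain.HeightOneSpectrum (𝓞 L) :=
    ⟨primeOf A, primeOf_isPrime A, primeOf_ne_bot A hq hA⟩
  obtain ⟨n, d, h | h⟩ := v.exists_primeCompl_mul_eq_or_mul_eq x
  · exact ⟨n, d, d.2, h⟩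
  · -- `x * n = d` with `d` a unit of `A`, so `n` is a unit of `A`
    have hd : A.valuation ((d : 𝓞 L) : L) = 1 := valuation_eq_one_of_notMem A d.2
    have hxn : A.valuation x * A.valuation (n : L) = 1 := by
      rw [← map_mul]
      exact (congrArg A.valuation h).trans hd
    have hx1 : A.valuation x ≤ 1 := (A.valuation_le_one_iff _).2 hx
    have hn1 : A.valuation (n : L) ≤ 1 := (A.valuation_le_one_iff _).2 (integer_mem A n)
    have hn : A.valuation (n : L) = 1 := by
      refine le_antisymm hn1 ?_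
      calc (1 : _) = A.valuation x * A.valuation (n : L) := hxn.symm
        _ ≤ 1 * A.valuation (n : L) := by gcongr
        _ = A.valuation (n : L) := one_mul _
    have hx' : A.valuation x = 1 := by rw [hn, mul_one] at hxn; exact hxn
    have hnmem : n ∉ primeOf A := by
      rw [mem_primeOf, A.mem_nonunits_iff, hn]
      exact lt_irrefl _
    have hn0 : (n : L) ≠ 0 := by
      intro h0
      rw [h0, map_zero] at hn
      exact zero_ne_one hn
    have hd0 : ((d : 𝓞 L) : L) ≠ 0 := by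
      intro h0
      rw [h0, map_zero] at hd
      exact zero_ne_one hd
    refine ⟨d, n, hnmem, ?_⟩
    -- x * n = d  means x = d / n; we need x * n = d : this is `h`
    exact h

end prime

section inertia

variable (A : ValuationSubring L) {q : ℕ} (hq : q.Prime) (hA : (q : L) ∈ A.nonunits)

theorem coe_smul_integer (σ : L ≃ₐ[ℚ] L) (x : 𝓞 L) : ((σ • x : 𝓞 L) : L) = σ (x : L) := rfl

/-- Valuation-theoretic inertia is contained in the ideal-theoretic inertia. -/
theorem mem_ideal_inertia_of_mem {σ : L ≃ₐ[ℚ] L} (hσ : σ ∈ A.inertiaSubgroupIn ℚ) :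
    σ ∈ (primeOf A).inertia (L ≃ₐ[ℚ] L) := by
  intro x
  have h := S05.Val.sub_mem_nonunits_of_mem_inertiaSubgroupIn hσ (integer_mem A x)
  show σ • x - x ∈ primeOf A
  rw [mem_primeOf]
  exact h

include hq hA in
/-- An element of the ideal-theoretic inertia group moves every element of the valuation
subring by a non-unit. -/
theorem sub_mem_nonunits_of_mem_ideal_inertia {σ : L ≃ₐ[ℚ] L}
    (hσ : σ ∈ (primeOf A).inertia (L ≃ₐ[ℚ] L)) {x : L} (hx : x ∈ A) :
    σ x ∈ A ∧ σ x - x ∈ A.nonunits := by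
  obtain ⟨n, d, hd, hxd⟩ := exists_frac A hq hA hx
  have hσn : (σ • n - n : 𝓞 L) ∈ primeOf A := hσ n
  have hσd : (σ • d - d : 𝓞 L) ∈ primeOf A := hσ d
  have hσd' : σ • d ∉ primeOf A := by
    intro h
    apply hd
    have := (primeOf A).sub_mem h hσd
    simpa using this
  have hvd : A.valuation ((d : 𝓞 L) : L) = 1 := valuation_eq_one_of_notMem A hd
  have hvσd : A.valuation (σ ((d : 𝓞 L) : L)) = 1 := valuation_eq_one_of_notMem A hσd'
  have hd0 : ((d : 𝓞 L) : L) ≠ 0 := by
    intro h0; rw [h0, map_zero] at hvd; exact zero_ne_one hvd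
  have hσd0 : σ ((d : 𝓞 L) : L) ≠ 0 := by
    intro h0; rw [h0, map_zero] at hvσd; exact zero_ne_one hvσd
  have hx_eq : x = (n : L) / (d : L) := by
    rw [eq_div_iff hd0]; exact hxd
  have hσx : σ x = σ (n : L) / σ (d : L) := by
    rw [hx_eq, map_div₀]
  -- the difference
  have hdiff : σ x - x =
      ((σ (n : L) - (n : L)) * (d : L) - (n : L) * (σ (d : L) - (d : L))) /
        ((d : L) * σ (d : L)) := by
    rw [hσx, hx_eq]
    field_simp
    ring
  have hnum1 : A.valuation (σ (n : L) - (n : L)) < 1 := by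
    have := (mem_primeOf A _).1 hσn
    rw [A.mem_nonunits_iff] at this
    exact this
  have hnum2 : A.valuation (σ (d : L) - (d : L)) < 1 := by
    have := (mem_primeOf A _).1 hσd
    rw [A.mem_nonunits_iff] at this
    exact this
  have hvn : A.valuation (n : L) ≤ 1 := (A.valuation_le_one_iff _).2 (integer_mem A n)
  have hlt : A.valuation (σ x - x) < 1 := by
    rw [hdiff, map_div₀, map_mul, hvd, hvσd, mul_one, div_one]
    refine lt_of_le_of_lt (Valuation.map_sub _ _ _) (max_lt ?_ ?_)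
    · rw [map_mul, hvd, mul_one]; exact hnum1
    · rw [map_mul]
      calc A.valuation (n : L) * A.valuation (σ (d : L) - (d : L))
          ≤ 1 * A.valuation (σ (d : L) - (d : L)) := by gcongr
        _ = A.valuation (σ (d : L) - (d : L)) := one_mul _
        _ < 1 := hnum2
  have hmem : σ x - x ∈ A.nonunits := by rw [A.mem_nonunits_iff]; exact hlt
  refine ⟨?_, hmem⟩
  have : σ x = (σ x - x) + x := by ring
  rw [this]
  exact A.add_mem _ _ (A.nonunits_subset hmem) hx

open scoped Pointwise in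
include hq hA in
/-- The ideal-theoretic inertia group is contained in the valuation-theoretic one. -/
theorem mem_inertiaSubgroupIn_of_mem_ideal_inertia {σ : L ≃ₐ[ℚ] L}
    (hσ : σ ∈ (primeOf A).inertia (L ≃ₐ[ℚ] L)) : σ ∈ A.inertiaSubgroupIn ℚ := by
  have hσinv : σ⁻¹ ∈ (primeOf A).inertia (L ≃ₐ[ℚ] L) := inv_mem hσ
  have hdec : σ ∈ A.decompositionSubgroup ℚ := by
    show σ • A = A
    ext x
    rw [ValuationSubring.mem_pointwise_smul_iff_inv_smul_mem]
    constructor
    · intro hx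
      have := (sub_mem_nonunits_of_mem_ideal_inertia A hq hA hσ hx).1
      simpa [AlgEquiv.smul_def] using this
    · intro hx
      exact (sub_mem_nonunits_of_mem_ideal_inertia A hq hA hσinv hx).1
  refine Subgroup.mem_map.2 ⟨⟨σ, hdec⟩, ?_, rfl⟩
  show MulSemiringAction.toRingAut (A.decompositionSubgroup ℚ) (IsLocalRing.ResidueField A)
    ⟨σ, hdec⟩ = 1
  ext r
  obtain ⟨x, rfl⟩ := IsLocalRing.residue_surjective r
  show (⟨σ, hdec⟩ : A.decompositionSubgroup ℚ) • IsLocalRing.residue A x =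
    IsLocalRing.residue A x
  rw [← IsLocalRing.ResidueField.residue_smul, ← sub_eq_zero, ← map_sub,
    IsLocalRing.residue_eq_zero_iff, ← A.coe_mem_nonunits_iff]
  exact (sub_mem_nonunits_of_mem_ideal_inertia A hq hA hσ x.2).2

include hq hA in
/-- The two inertia groups agree. -/
theorem inertiaSubgroupIn_eq :
    A.inertiaSubgroupIn ℚ = (primeOf A).inertia (L ≃ₐ[ℚ] L) :=
  le_antisymm (fun _ h => mem_ideal_inertia_of_mem A h)
    (fun _ h => mem_inertiaSubgroupIn_of_mem_ideal_inertia A hq hA h)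

end inertia

section ramification

variable [IsGalois ℚ L]

/-- The ramification index of the prime below `Q` in the fixed field of a subgroup `H`:
`|I(Q)| = e(Q ∩ 𝓞 M | ℤ) * |I(Q) ∩ H|`. -/
theorem card_inertia_eq_mul (H : Subgroup (L ≃ₐ[ℚ] L)) (Q : Ideal (𝓞 L)) [Q.IsMaximal]
    {q : ℕ} (hq : q.Prime) [Q.LiesOver (Ideal.span {(q : ℤ)})] :
    Nat.card (Q.inertia (L ≃ₐ[ℚ] L)) =
      (Q.under (𝓞 (IntermediateField.fixedField H))).ramificationIdx ℤ *
        Nat.card (Q.inertia (L ≃ₐ[ℚ] L) ⊓ H : Subgroup (L ≃ₐ[ℚ] L)) := by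
  let M : IntermediateField ℚ L := IntermediateField.fixedField H
  have hqp : (Ideal.span {(q : ℤ)}).IsPrime :=
    (Ideal.span_singleton_prime (by exact_mod_cast hq.ne_zero)).2 (Nat.prime_iff_prime_int.mp hq)
  have hG1 : IsGaloisGroup H M L := IsGaloisGroup.subgroup (L ≃ₐ[ℚ] L) ℚ L H
  have hG2 : IsGaloisGroup H (𝓞 M) (𝓞 L) := IsGaloisGroup.of_isFractionRing H (𝓞 M) (𝓞 L) M L
  have h1 : Nat.card (Q.inertia (L ≃ₐ[ℚ] L)) = (Ideal.span {(q : ℤ)}).ramificationIdxIn (𝓞 L) :=
    Ideal.card_inertia_eq_ramificationIdxIn (Ideal.span {(q : ℤ)}) Q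
  have h1' : (Ideal.span {(q : ℤ)}).ramificationIdxIn (𝓞 L) = Q.ramificationIdx ℤ :=
    Ideal.ramificationIdxIn_eq_ramificationIdx (Ideal.span {(q : ℤ)}) Q (L ≃ₐ[ℚ] L)
  have h2 : Nat.card (Q.inertia H) = (Q.under (𝓞 M)).ramificationIdxIn (𝓞 L) :=
    Ideal.card_inertia_eq_ramificationIdxIn (Q.under (𝓞 M)) Q
  have h2' : (Q.under (𝓞 M)).ramificationIdxIn (𝓞 L) = Q.ramificationIdx (𝓞 M) :=
    Ideal.ramificationIdxIn_eq_ramificationIdx (Q.under (𝓞 M)) Q H
  have h3 : Q.ramificationIdx ℤ = (Q.under (𝓞 M)).ramificationIdx ℤ * Q.ramificationIdx (𝓞 M) :=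
    Ideal.ramificationIdx_tower (Q.under (𝓞 M)) Q
  have h4 : Nat.card (Q.inertia H) =
      Nat.card (Q.inertia (L ≃ₐ[ℚ] L) ⊓ H : Subgroup (L ≃ₐ[ℚ] L)) := by
    rw [← AddSubgroup.inertia_map_subtype]
    exact (Nat.card_congr
      (Subgroup.equivMapOfInjective _ H.subtype H.subtype_injective).toEquiv)
  rw [h1, h1', h3, ← h2', ← h2, h4]

end ramification

section minkowski

variable [IsGalois ℚ L]

/-- **Minkowski-type generation**: a normal subgroup of `Gal(L/ℚ)` that contains, for every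
prime `q`, the inertia group of some valuation subring over `q`, is the whole group. -/
theorem eq_top_of_inertia_le (H : Subgroup (L ≃ₐ[ℚ] L)) [H.Normal]
    (h : ∀ q : ℕ, q.Prime →
      ∃ A : ValuationSubring L, A.LiesOverPrime q ∧ A.inertiaSubgroupIn ℚ ≤ H) :
    H = ⊤ := by
  let M : IntermediateField ℚ L := IntermediateField.fixedField H
  by_contra hH
  have hfin : 1 < Module.finrank ℚ M := by
    by_contra hle
    have hpos : 0 < Module.finrank ℚ M := Module.finrank_pos
    have h1 : Module.finrank ℚ M = 1 := by omega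
    have hM : M = ⊥ := IntermediateField.finrank_eq_one_iff.mp h1
    apply hH
    have h2 : M.fixingSubgroup = H := IntermediateField.fixingSubgroup_fixedField H
    rw [← h2, hM]
    exact IntermediateField.fixingSubgroup_bot
  have : IsGalois ℚ M := IsGalois.of_fixedField_normal_subgroup H
  obtain ⟨p, hp, hram⟩ :=
    NumberField.exists_not_isUnramifiedAt_int_of_isGalois (K := M) (𝒪 := 𝓞 M) hfin
  obtain ⟨A, hA, hAH⟩ := h p hp
  have hA' : (p : L) ∈ A.nonunits := hA
  have : (primeOf A).IsMaximal := primeOf_isMaximal A hp hA'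
  have : (primeOf A).LiesOver (Ideal.span {(p : ℤ)}) := primeOf_liesOver A hp hA'
  have hcard := card_inertia_eq_mul H (primeOf A) hp
  have hle : (primeOf A).inertia (L ≃ₐ[ℚ] L) ≤ H := by
    rw [← inertiaSubgroupIn_eq A hp hA']; exact hAH
  rw [inf_eq_left.mpr hle] at hcard
  have hpos : 0 < Nat.card ((primeOf A).inertia (L ≃ₐ[ℚ] L)) := Nat.card_pos
  have he : ((primeOf A).under (𝓞 M)).ramificationIdx ℤ = 1 := by
    by_contra hne
    rcases Nat.lt_or_gt_of_ne hne with h0 | h1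
    · have : ((primeOf A).under (𝓞 M)).ramificationIdx ℤ = 0 := by omega
      rw [this, zero_mul] at hcard
      omega
    · nlinarith
  refine hram ((primeOf A).under (𝓞 M)) inferInstance ?_ ?_
  · rw [Ideal.mem_comap]
    have := natCast_mem_primeOf A hA'
    simpa using this
  · rw [← Ideal.ramificationIdx_eq_one_iff]
    exact he

end minkowski

section index

variable [IsGalois ℚ L]

open IsDedekindDomain in
/-- **Index lemma**: if `x ≠ 0` is fixed by a subgroup `I'` of the inertia group of `A`, then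
`[I_A : I'] * w(x)` is an integer (`w` normalised by `w q = 1`). -/
theorem exists_int_relIndex_mul_w (A : ValuationSubring L) {q : ℕ} (hq : q.Prime)
    (hA : (q : L) ∈ A.nonunits) (I' : Subgroup (L ≃ₐ[ℚ] L))
    (hI' : I' ≤ A.inertiaSubgroupIn ℚ) {x : L} (hx : x ≠ 0) (hfix : ∀ σ ∈ I', σ x = x) :
    ∃ k : ℤ, ((I'.relIndex (A.inertiaSubgroupIn ℚ) : ℕ) : ℚ) * S05.Val.w A q x = k := by
  let M : IntermediateField ℚ L := IntermediateField.fixedField I'
  have hxM : x ∈ M := (IntermediateField.mem_fixedField_iff I' x).2 hfix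
  have : (primeOf A).IsMaximal := primeOf_isMaximal A hq hA
  have : (primeOf A).LiesOver (Ideal.span {(q : ℤ)}) := primeOf_liesOver A hq hA
  have hqprime : Prime (q : ℤ) := Nat.prime_iff_prime_int.mp hq
  have hq0 : (q : ℤ) ≠ 0 := hqprime.ne_zero
  -- the prime of the fixed field
  set 𝔮 : Ideal (𝓞 M) := (primeOf A).under (𝓞 M) with h𝔮
  have hq𝔮 : ((q : ℕ) : 𝓞 M) ∈ 𝔮 := by
    rw [h𝔮, Ideal.mem_comap]
    have := natCast_mem_primeOf A hA
    simpa using this
  have h𝔮0 : 𝔮 ≠ ⊥ := by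
    intro h
    rw [h, Ideal.mem_bot] at hq𝔮
    exact (Nat.cast_ne_zero.mpr hq.ne_zero : (q : 𝓞 M) ≠ 0) hq𝔮
  have h𝔮prime : 𝔮.IsPrime := by rw [h𝔮]; infer_instance
  -- cardinalities
  have hcard := card_inertia_eq_mul I' (primeOf A) hq
  have hle : I' ≤ (primeOf A).inertia (L ≃ₐ[ℚ] L) := by
    rw [← inertiaSubgroupIn_eq A hq hA]; exact hI'
  rw [inf_eq_right.mpr hle] at hcard
  have hrel : I'.relIndex (A.inertiaSubgroupIn ℚ) = 𝔮.ramificationIdx ℤ := by
    have h1 : (I'.subgroupOf (A.inertiaSubgroupIn ℚ)).index *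
        Nat.card (I'.subgroupOf (A.inertiaSubgroupIn ℚ)) = Nat.card (A.inertiaSubgroupIn ℚ) := by
      rw [mul_comm]; exact Subgroup.card_mul_index _
    have h2 : Nat.card (I'.subgroupOf (A.inertiaSubgroupIn ℚ)) = Nat.card I' :=
      Nat.card_congr (Subgroup.subgroupOfEquivOfLe hI').toEquiv
    have h3 : Nat.card (A.inertiaSubgroupIn ℚ) =
        Nat.card ((primeOf A).inertia (L ≃ₐ[ℚ] L)) := by
      rw [inertiaSubgroupIn_eq A hq hA]
    rw [h2, h3, hcard] at h1
    have hpos : 0 < Nat.card I' := Nat.card_pos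
    exact Nat.eq_of_mul_eq_mul_right hpos h1
  -- valuations
  let v0 : HeightOneSpectrum ℤ := ⟨Ideal.span {(q : ℤ)},
    (Ideal.span_singleton_prime hq0).2 hqprime, by simpa using hq0⟩
  let v : HeightOneSpectrum (𝓞 M) := ⟨𝔮, h𝔮prime, h𝔮0⟩
  have hlies : v.asIdeal.LiesOver v0.asIdeal := by
    show 𝔮.LiesOver (Ideal.span {(q : ℤ)})
    rw [Ideal.liesOver_span_iff h𝔮prime.ne_top hqprime]
    simpa using hq𝔮
  have he : v0.asIdeal.ramificationIdx' v.asIdeal = 𝔮.ramificationIdx ℤ :=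
    Ideal.ramificationIdx'_eq_ramificationIdx (Ideal.span {(q : ℤ)}) 𝔮 (by simpa using hq0)
  have hvq0 : v0.valuation ℚ ((q : ℤ) : ℚ) = WithZero.exp (-1 : ℤ) := by
    have h1 : v0.valuation ℚ (algebraMap ℤ ℚ (q : ℤ)) = v0.intValuation (q : ℤ) :=
      v0.valuation_of_algebraMap (K := ℚ) (q : ℤ)
    have h2 : algebraMap ℤ ℚ (q : ℤ) = ((q : ℤ) : ℚ) := rfl
    rw [h2] at h1
    rw [h1]
    exact v0.intValuation_singleton hq0 rfl
  have hvq : v.valuation M ((q : ℕ) : M) =
      WithZero.exp (-(𝔮.ramificationIdx ℤ : ℤ)) := by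
    have := HeightOneSpectrum.valuation_liesOver (K := ℚ) M v0 v ((q : ℤ) : ℚ)
    rw [he, hvq0] at this
    rw [show ((q : ℕ) : M) = algebraMap ℚ M ((q : ℤ) : ℚ) by simp, ← this, ← WithZero.exp_nsmul]
    simp
  -- the value of `x`
  let xM : M := ⟨x, hxM⟩
  have hxM0 : xM ≠ 0 := by
    intro h
    exact hx (congrArg Subtype.val h)
  have hvx0 : v.valuation M xM ≠ 0 := (Valuation.ne_zero_iff _).2 hxM0
  obtain ⟨k, hvx⟩ : ∃ k : ℤ, v.valuation M xM = WithZero.exp k :=
    ⟨WithZero.log (v.valuation M xM), (WithZero.exp_log hvx0).symm⟩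
  have he_pos : 0 < 𝔮.ramificationIdx ℤ := Ideal.ramificationIdx_pos 𝔮 ℤ
  let y : M := xM ^ (𝔮.ramificationIdx ℤ) * ((q : ℕ) : M) ^ k
  have hy : v.valuation M y = 1 := by
    simp only [y, map_mul, map_pow, map_zpow₀, hvx, hvq]
    rw [← WithZero.exp_nsmul, ← WithZero.exp_zsmul, ← WithZero.exp_add, ← WithZero.exp_zero]
    congr 1
    simp only [nsmul_eq_mul, smul_eq_mul]
    ring
  obtain ⟨n, d, hnd⟩ := v.exists_primeCompl_mul_eq_of_integer y hy.le
  have hd : (d : 𝓞 M) ∉ 𝔮 := d.2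
  have hvd : v.valuation M (algebraMap (𝓞 M) M d) = 1 := by
    refine le_antisymm (v.valuation_le_one _) ?_
    rw [← not_lt, v.valuation_lt_one_iff_mem]
    exact hd
  have hvn : v.valuation M (algebraMap (𝓞 M) M n) = 1 := by
    rw [← hnd, map_mul, hy, hvd, one_mul]
  have hn : n ∉ 𝔮 := by
    rw [← v.valuation_lt_one_iff_mem (K := M), hvn]
    exact lt_irrefl _
  -- transfer to `L` and `A`
  have key : ∀ z : 𝓞 M, z ∉ 𝔮 → A.valuation ((algebraMap (𝓞 M) M z : M) : L) = 1 := by
    intro z hz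
    have hz' : algebraMap (𝓞 M) (𝓞 L) z ∉ primeOf A := hz
    exact valuation_eq_one_of_notMem A hz'
  have hAd := key d hd
  have hAn := key n hn
  have hyL : A.valuation ((y : M) : L) = 1 := by
    have h1 : ((y : M) : L) * ((algebraMap (𝓞 M) M d : M) : L) =
        ((algebraMap (𝓞 M) M n : M) : L) := by
      rw [← hnd]; push_cast; rfl
    have h2 := congrArg A.valuation h1
    rw [map_mul, hAd, hAn, mul_one] at h2
    exact h2
  have hyx : ((y : M) : L) = x ^ (𝔮.ramificationIdx ℤ) * ((q : ℕ) : L) ^ k := by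
    simp only [y]
    push_cast
    rfl
  rw [hyx, map_mul, map_pow, map_zpow₀] at hyL
  have hvq_ne : A.valuation ((q : ℕ) : L) ≠ 0 := by
    rw [Valuation.ne_zero_iff]
    exact Nat.cast_ne_zero.mpr hq.ne_zero
  have hIsVal : S05.Val.IsVal A q x (((-k : ℤ) : ℚ) / (𝔮.ramificationIdx ℤ : ℕ)) := by
    refine ⟨𝔮.ramificationIdx ℤ, he_pos, -k, ?_, rfl⟩
    rw [zpow_neg]
    exact eq_inv_of_mul_eq_one_left hyL
  have hw := hIsVal.w_eq hq.ne_zero hA
  refine ⟨-k, ?_⟩
  rw [hrel, hw]
  have : ((𝔮.ramificationIdx ℤ : ℕ) : ℚ) ≠ 0 := by exact_mod_cast he_pos.ne'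
  field_simp

end index

section existence

/-- Over every prime there is a valuation subring of the number field. -/
theorem exists_valuationSubring_liesOver {q : ℕ} (hq : q.Prime) :
    ∃ A : ValuationSubring L, A.LiesOverPrime q := by
  have hqprime : Prime (q : ℤ) := Nat.prime_iff_prime_int.mp hq
  have hq0 : (q : ℤ) ≠ 0 := hqprime.ne_zero
  have hmax : (Ideal.span {(q : ℤ)}).IsMaximal :=
    ((Ideal.span_singleton_prime hq0).2 hqprime).isMaximal (by simpa using hq0)
  obtain ⟨Q, hQ, hQq⟩ := Ideal.exists_ideal_over_maximal_of_isIntegral (S := 𝓞 L)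
    (Ideal.span {(q : ℤ)}) (by
      rw [(RingHom.injective_iff_ker_eq_bot _).1 (FaithfulSMul.algebraMap_injective ℤ (𝓞 L))]
      exact bot_le)
  have hqQ : ((q : ℕ) : 𝓞 L) ∈ Q := by
    have h1 : (q : ℤ) ∈ Q.comap (algebraMap ℤ (𝓞 L)) := by
      rw [hQq]; exact Ideal.mem_span_singleton_self _
    rw [Ideal.mem_comap] at h1
    simpa using h1
  have hQ0 : Q ≠ ⊥ := by
    intro h
    rw [h, Ideal.mem_bot] at hqQ
    exact (Nat.cast_ne_zero.mpr hq.ne_zero : (q : 𝓞 L) ≠ 0) hqQ
  let v : IsDedekindDomain.HeightOneSpectrum (𝓞 L) := ⟨Q, hQ.isPrime, hQ0⟩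
  refine ⟨(v.valuation L).valuationSubring, ?_⟩
  show (q : L) ∈ (v.valuation L).valuationSubring.nonunits
  rw [ValuationSubring.mem_nonunits_iff]
  have hlt : v.valuation L (algebraMap (𝓞 L) L ((q : ℕ) : 𝓞 L)) < 1 :=
    (v.valuation_lt_one_iff_mem _).2 hqQ
  have hcast : algebraMap (𝓞 L) L ((q : ℕ) : 𝓞 L) = (q : L) := by simp
  rw [hcast] at hlt
  exact ((Valuation.isEquiv_iff_val_lt_one).1
    (Valuation.isEquiv_valuation_valuationSubring (v.valuation L))).1 hlt

end existence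

end Fermat.Agent.S13.Global

namespace Fermat.Agent.S13

open Fermat.Agent.S05 Fermat.Agent.S05.Val in
/-- The real-valued valuation attached to a valuation subring over `q` of an algebraic extension
of `ℚ` (general-field version of `Fermat.Agent.S05.exists_rval`). -/
theorem exists_rval_of_isAlgebraic {L : Type*} [Field L] [CharZero L] [Algebra ℚ L]
    [Algebra.IsAlgebraic ℚ L] (A : ValuationSubring L) (q : ℕ) (hq : q.Prime)
    (hA : A.LiesOverPrime q) :
    ∃ v : RVal L,
      (∀ x : L, v.w x = ((Val.w A q x : ℚ) : ℝ)) ∧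
      (∀ x : L, x ≠ 0 → (0 ≤ v.w x ↔ x ∈ A)) ∧
      (∀ x : L, x ≠ 0 → (0 < v.w x ↔ x ∈ A.nonunits)) ∧
      (∀ n : ℤ, ¬ (q : ℤ) ∣ n → v.w (n : L) = 0) ∧
      (∀ n : ℤ, n ≠ 0 → (q : ℤ) ∣ n → 0 < v.w (n : L)) ∧
      v.w (q : L) = 1 ∧
      (∀ σ ∈ A.inertiaSubgroupIn ℚ, ∀ x : L, x ≠ 0 → v.w (σ x) = v.w x) ∧
      (∀ σ ∈ A.inertiaSubgroupIn ℚ, ∀ x : L, x ≠ 0 → 0 ≤ v.w x →
        σ x = x ∨ 0 < v.w (σ x - x)) := by
  have hqA : (q : L) ∈ A.nonunits := hA
  refine ⟨⟨fun x => ((w A q x : ℚ) : ℝ), ?_, ?_⟩, fun _ => rfl, ?_, ?_, ?_, ?_, ?_, ?_, ?_⟩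
  · intro x y hx hy
    rw [w_mul hq hqA hx hy]
    push_cast
    rfl
  · intro x y _ _ hxy
    have h := w_add hq hqA (A := A) hxy
    have h' : ((min (w A q x) (w A q y) : ℚ) : ℝ) ≤ ((w A q (x + y) : ℚ) : ℝ) := by
      exact_mod_cast h
    rwa [Rat.cast_min] at h'
  · intro x hx
    show (0 : ℝ) ≤ ((w A q x : ℚ) : ℝ) ↔ x ∈ A
    rw [← w_nonneg_iff hq hqA hx]
    exact_mod_cast Iff.rfl
  · intro x hx
    show (0 : ℝ) < ((w A q x : ℚ) : ℝ) ↔ x ∈ A.nonunits
    rw [← w_pos_iff hq hqA hx]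
    exact_mod_cast Iff.rfl
  · intro n hn
    show ((w A q (n : L) : ℚ) : ℝ) = 0
    rw [w_intCast hq hqA hn]
    simp
  · intro n hn0 hn
    show (0 : ℝ) < ((w A q (n : L) : ℚ) : ℝ)
    exact_mod_cast w_intCast_pos hq hqA hn hn0
  · show ((w A q (q : L) : ℚ) : ℝ) = 1
    rw [w_prime hq hqA]
    simp
  · intro σ hσ x _
    show ((w A q (σ x) : ℚ) : ℝ) = ((w A q x : ℚ) : ℝ)
    rw [w_apply_of_mem_inertia hq hqA hσ]
  · intro σ hσ x _ hx
    by_cases hne : σ x = x
    · exact Or.inl hne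
    · right
      have hx'' : (0 : ℝ) ≤ ((w A q x : ℚ) : ℝ) := hx
      have hx' : 0 ≤ w A q x := by exact_mod_cast hx''
      show (0 : ℝ) < ((w A q (σ x - x) : ℚ) : ℝ)
      exact_mod_cast w_sub_pos_of_mem_inertia hq hqA hσ hx' hne

end Fermat.Agent.S13
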