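import Fermat.Agent.S13_FreyDatum
import Fermat.Agent.S13_Global
import Fermat.Agent.S13_PLocal
import Fermat.Agent.S13_QLocal

/-!
# S13: the local statement `(Lp)` at `p` for the Frey curve (instantiation of `S13_PLocal`)

Over a Galois number field `L`, for a valuation subring `A` over `p` (normalised valuation
`w`, `w p = 1`) and the Frey curve in the coordinates `ξ = 4x - r`, `η = 8y + 4x`:

* `lp_of_datum` : tame bound on a stable line from the index lemma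
  `Global.exists_int_relIndex_mul_w` (orbit–stabiliser: the index of the stabiliser of a
  point of the line is `≤ p - 1`), then `PLocal.dichotomy`;
* `frey_lp` : the four reduction cases `p ∣ a`, `p ∣ b`, `p ∣ c`, `p ∤ abc` — conclusion in the
  shape of the hypothesis `(Lp)` of `S13_Reduce.LocalPackage`, from the Newton bound
  `NewtonAt P L` and the torsion count.
-/

set_option autoImplicit false
set_option linter.unusedSectionVars false

open WeierstrassCurve WeierstrassCurve.Affine WeierstrassCurve.Affine.Point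

namespace Fermat.Agent.S13.PFrey

open Fermat.Agent.S05 Fermat.Agent.S05.Datum Fermat.Agent.S13.FreyDatum Fermat.Agent.S13.PLocal

/-- Orbit–stabiliser: the index in `I` of the stabiliser of `x` is positive and at most the
size of any finite set containing the `I`-orbit of `x`. -/
theorem relIndex_stabilizer {Γ X : Type*} [Group Γ] [MulAction Γ X] (I : Subgroup Γ) (x : X)
    (S : Set X) (hS : S.Finite) (horb : ∀ σ ∈ I, σ • x ∈ S) :
    0 < (I ⊓ MulAction.stabilizer Γ x).relIndex I ∧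
      (I ⊓ MulAction.stabilizer Γ x).relIndex I ≤ S.ncard := by
  rw [Subgroup.inf_relIndex_left, Subgroup.relIndex]
  have hst : (MulAction.stabilizer Γ x).subgroupOf I = MulAction.stabilizer I x := by
    ext σ
    simp [Subgroup.mem_subgroupOf, Subgroup.smul_def]
  rw [hst, MulAction.index_stabilizer]
  have hsub : MulAction.orbit I x ⊆ S := by
    rintro _ ⟨σ, rfl⟩
    exact horb σ σ.2
  refine ⟨?_, Set.ncard_le_ncard hsub hS⟩
  rw [Set.ncard_pos (hS.subset hsub)]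
  exact MulAction.nonempty_orbit x

variable {L : Type*} [Field L] [NumberField L] [IsGalois ℚ L] [DecidableEq L]

/-- **The local statement at `p` from a datum**: a `KDatum` for the Frey curve over the Galois
number field `L` whose valuation is the normalised valuation of a valuation subring `A` over
`p`, with inertia moving the `p`-torsion by elements of `E₁` and with the Newton bound, gives
the dichotomy for every Galois-stable line. -/
theorem lp_of_datum (P : FreyPackage) (A : ValuationSubring L) (hA : A.LiesOverPrime P.p)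
    (r : ℚ) (D : KDatum L (P.freyCurve⁄L).Point)
    (hDw : ∀ x : L, D.w x = ((Val.w A P.p x : ℚ) : ℝ))
    (hDξ : ∀ Q, D.ξ Q = xi (P.freyCurve⁄L) (algebraMap ℚ L r) Q)
    (hDη : ∀ Q, D.η Q = eta (P.freyCurve⁄L) Q)
    (hφE : ∀ σ ∈ A.inertiaSubgroupIn ℚ, ∀ Q : (P.freyCurve⁄L).Point,
      P.p • Q = 0 → σ • Q - Q ∈ D.E1)
    (hNewton : ∀ T : Finset (P.freyCurve⁄L).Point,
      (∀ Q ∈ T, Q ≠ 0 ∧ P.p • Q = 0 ∧ Q ∈ D.E1) → ∑ Q ∈ T, (-D.w (D.ξ Q)) ≤ 2 * (1 : ℝ))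
    (hcard : Nat.card (Submodule.torsionBy ℤ (P.freyCurve⁄L).Point P.p) = P.p ^ 2)
    (N : Submodule (ZMod P.p) (Submodule.torsionBy ℤ (P.freyCurve⁄L).Point P.p))
    (hN : IsGaloisStable ℚ N) (hN0 : N ≠ ⊥) (hN1 : N ≠ ⊤) :
    (∀ σ ∈ A.inertiaSubgroupIn ℚ, ∀ x ∈ N, σ • x = x) ∨
      (∀ σ ∈ A.inertiaSubgroupIn ℚ,
        ∀ x : Submodule.torsionBy ℤ (P.freyCurve⁄L).Point P.p, σ • x - x ∈ N) := by
  classical
  have hp := P.pp
  have hfin : Finite (Submodule.torsionBy ℤ (P.freyCurve⁄L).Point P.p) :=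
    Nat.finite_of_card_ne_zero (by rw [hcard]; exact pow_ne_zero _ hp.ne_zero)
  -- `N` has `p` elements
  have hcardN : Nat.card N = P.p := by
    have hdvd : Nat.card N.toAddSubgroup ∣
        Nat.card (Submodule.torsionBy ℤ (P.freyCurve⁄L).Point P.p) :=
      AddSubgroup.card_addSubgroup_dvd_card N.toAddSubgroup
    rw [hcard] at hdvd
    obtain ⟨i, hi, hci⟩ := (Nat.dvd_prime_pow hp).mp hdvd
    have hci' : Nat.card N = P.p ^ i := hci
    interval_cases i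
    · exfalso
      apply hN0
      rw [pow_zero] at hci'
      have := (Nat.card_eq_one_iff_unique.mp hci').1
      exact Submodule.eq_bot_of_subsingleton
    · rw [hci', pow_one]
    · exfalso
      apply hN1
      have h1 : N.toAddSubgroup = ⊤ :=
        AddSubgroup.eq_top_of_card_eq _ (by rw [hci, hcard])
      rw [eq_top_iff]
      intro x _
      have : x ∈ N.toAddSubgroup := by rw [h1]; trivial
      exact this
  -- the subgroup of points of `N`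
  let N' : AddSubgroup (P.freyCurve⁄L).Point :=
    N.toAddSubgroup.map (Submodule.torsionBy ℤ (P.freyCurve⁄L).Point P.p).subtype.toAddMonoidHom
  have hN'mem : ∀ Q : (P.freyCurve⁄L).Point, Q ∈ N' ↔
      ∃ x ∈ N, (x : (P.freyCurve⁄L).Point) = Q := fun Q => Iff.rfl
  have htors : ∀ x : Submodule.torsionBy ℤ (P.freyCurve⁄L).Point P.p,
      P.p • (x : (P.freyCurve⁄L).Point) = 0 := by
    intro x
    have hx := (Submodule.mem_torsionBy_iff _ _).mp x.2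
    rwa [natCast_zsmul] at hx
  have hNp : ∀ Q ∈ N', P.p • Q = 0 := by
    rintro Q ⟨x, -, rfl⟩
    exact htors x
  -- the tame bound on `N`
  have htame : ∀ Q ∈ N', Q ≠ 0 → Q ∈ D.E1 →
      2 * (1 : ℝ) ≤ ((P.p : ℝ) - 1) * (-D.w (D.ξ Q)) := by
    intro Q hQ hQ0 hQE
    obtain ⟨x, hxN', hxQ⟩ := (hN'mem Q).mp hQ
    subst hxQ
    have hx0 : x ≠ 0 := fun h => hQ0 (by rw [h]; rfl)
    obtain ⟨hnpos, hnle⟩ := relIndex_stabilizer (A.inertiaSubgroupIn ℚ) x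
      {y : Submodule.torsionBy ℤ (P.freyCurve⁄L).Point P.p | y ∈ N ∧ y ≠ 0} (Set.toFinite _)
      (fun σ _ => ⟨hN σ x hxN', fun h => hx0 ((smul_eq_zero_iff_eq σ).mp h)⟩)
    have hS : ({y : Submodule.torsionBy ℤ (P.freyCurve⁄L).Point P.p | y ∈ N ∧ y ≠ 0}).ncard
        = P.p - 1 := by
      have e : {y : Submodule.torsionBy ℤ (P.freyCurve⁄L).Point P.p | y ∈ N ∧ y ≠ 0}
          = (N : Set (Submodule.torsionBy ℤ (P.freyCurve⁄L).Point P.p)) \ {0} := by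
        ext y; simp
      rw [e, Set.ncard_sdiff_singleton_of_mem (show (0 : Submodule.torsionBy ℤ (P.freyCurve⁄L).Point P.p) ∈ (N : Set _) from N.zero_mem),
        ← Nat.card_coe_set_eq]
      exact congrArg (· - 1) hcardN
    rw [hS] at hnle
    set I' := A.inertiaSubgroupIn ℚ ⊓ MulAction.stabilizer (L ≃ₐ[ℚ] L) x with hI'
    set n := I'.relIndex (A.inertiaSubgroupIn ℚ) with hn
    obtain ⟨hξ0, hξw⟩ := hQE.resolve_left hQ0
    -- `η ≠ 0`
    obtain ⟨hq0, -⟩ := quad_of_neg D hξ0 hξw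
    have hη0 : D.η (x : (P.freyCurve⁄L).Point) ≠ 0 := by
      intro h0
      have heq := D.eqn _ hQ0
      rw [h0] at heq
      have : D.ξ (x : (P.freyCurve⁄L).Point) * (D.ξ (x : (P.freyCurve⁄L).Point) ^ 2
          + D.A2 * D.ξ (x : (P.freyCurve⁄L).Point) + D.A4) ≠ 0 := mul_ne_zero hξ0 hq0
      apply this
      rw [← heq]; simp
    have hstab : ∀ σ ∈ I', σ • (x : (P.freyCurve⁄L).Point) = x := by
      intro σ hσ
      have h1 : σ • x = x := hσ.2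
      exact congrArg Subtype.val h1
    have hfixξ : ∀ σ ∈ I', σ (D.ξ (x : (P.freyCurve⁄L).Point))
        = D.ξ (x : (P.freyCurve⁄L).Point) := by
      intro σ hσ
      rw [hDξ, ← xi_smul P.freyCurve σ (σ.commutes r), hstab σ hσ]
    have hfixη : ∀ σ ∈ I', σ (D.η (x : (P.freyCurve⁄L).Point))
        = D.η (x : (P.freyCurve⁄L).Point) := by
      intro σ hσ
      rw [hDη, ← eta_smul P.freyCurve σ, hstab σ hσ]
    obtain ⟨k1, hk1⟩ := Global.exists_int_relIndex_mul_w A hp hA I' inf_le_left hξ0 hfixξ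
    obtain ⟨k2, hk2⟩ := Global.exists_int_relIndex_mul_w A hp hA I' inf_le_left hη0 hfixη
    have hb := tame_bound D hQ0 hQE n hnpos 1 one_pos
      ⟨k1, by
        rw [hDw, mul_one]
        have := congrArg (fun t : ℚ => (t : ℝ)) hk1
        push_cast at this
        exact this⟩
      ⟨k2, by
        rw [hDw, mul_one]
        have := congrArg (fun t : ℚ => (t : ℝ)) hk2
        push_cast at this
        exact this⟩
    have hnle' : (n : ℝ) ≤ (P.p : ℝ) - 1 := by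
      have h1 : (n : ℝ) ≤ ((P.p - 1 : ℕ) : ℝ) := by exact_mod_cast hnle
      rwa [Nat.cast_sub hp.one_le, Nat.cast_one] at h1
    have hneg : 0 ≤ -D.w (D.ξ (x : (P.freyCurve⁄L).Point)) := by linarith
    calc 2 * (1 : ℝ) ≤ (n : ℝ) * (-D.w (D.ξ (x : (P.freyCurve⁄L).Point))) := hb
      _ ≤ ((P.p : ℝ) - 1) * (-D.w (D.ξ (x : (P.freyCurve⁄L).Point))) :=
        mul_le_mul_of_nonneg_right hnle' hneg
  -- the family of inertia automorphisms
  have key := dichotomy D P.p hp 1 hNewton N' hNp htame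
    (fun σ : ↥(A.inertiaSubgroupIn ℚ) =>
      DistribSMul.toAddMonoidHom (P.freyCurve⁄L).Point (σ : L ≃ₐ[ℚ] L))
    (fun σ Q hQ => hφE σ σ.2 Q hQ)
    (fun σ Q hQ => by
      obtain ⟨x, hx, rfl⟩ := hQ
      exact ⟨(σ : L ≃ₐ[ℚ] L) • x, hN σ x hx, rfl⟩)
  rcases key with h | h
  · left
    intro σ hσ x hx
    exact Subtype.ext (h ⟨σ, hσ⟩ x ⟨x, hx, rfl⟩)
  · right
    intro σ hσ x
    obtain ⟨y, hy, hyx⟩ := h ⟨σ, hσ⟩ x (htors x)
    have : y = σ • x - x := Subtype.ext hyx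
    rw [← this]
    exact hy

/-- The Newton bound for the Frey curve over `L`, in every model `ξ = 4x - r` and for every
real valuation with `w 2 = 0`: the nonzero `p`-torsion points with `w ξ < 0` have total depth
at most `2 w(p)`.  (Supplied by the multiplication-by-`p` block when `L` contains the
coordinates of the `p`-torsion.) -/
def NewtonAt (P : FreyPackage) (L : Type*) [Field L] [DecidableEq L] [Algebra ℚ L] : Prop :=
  ∀ (v : RVal L), v.w 2 = 0 → ∀ (r A2 A4 e : ℚ),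
    r * (r - (P.a : ℚ) ^ P.p) * (r + (P.b : ℚ) ^ P.p) = 0 →
    A2 = (P.b : ℚ) ^ P.p - (P.a : ℚ) ^ P.p + 3 * r →
    A4 = 3 * r ^ 2 + 2 * ((P.b : ℚ) ^ P.p - (P.a : ℚ) ^ P.p) * r
      - (P.a : ℚ) ^ P.p * (P.b : ℚ) ^ P.p →
    v.GE 0 (algebraMap ℚ L A2) → v.GE 0 (algebraMap ℚ L A4) → A4 ≠ 0 →
    e ^ 2 + A2 * e + A4 = 0 → e ≠ 0 → v.w (algebraMap ℚ L e) = 0 →
    2 * e + A2 ≠ 0 → v.w (algebraMap ℚ L (2 * e + A2)) = 0 →
    ∀ T : Finset (P.freyCurve⁄L).Point,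
      (∀ Q ∈ T, Q ≠ 0 ∧ P.p • Q = 0 ∧ xi (P.freyCurve⁄L) (algebraMap ℚ L r) Q ≠ 0 ∧
        v.w (xi (P.freyCurve⁄L) (algebraMap ℚ L r) Q) < 0) →
      ∑ Q ∈ T, (-v.w (xi (P.freyCurve⁄L) (algebraMap ℚ L r) Q)) ≤ 2 * v.w (P.p : L)

/-- The good-reduction case, from an `IDatum` with integer coefficients. -/
theorem sub_mem_E1_of_good (P : FreyPackage) (v : RVal L)
    (hv0 : ∀ n : ℤ, ¬ (P.p : ℤ) ∣ n → v.w (n : L) = 0)
    (σ : L ≃ₐ[ℚ] L) (D : IDatum L (P.freyCurve⁄L).Point)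
    (hDw : D.toRVal = v) (a2 a4 : ℤ)
    (hDA2 : D.A2 = (a2 : L)) (hDA4 : D.A4 = (a4 : L))
    (hDφ : ∀ Q : (P.freyCurve⁄L).Point, D.φ Q = σ • Q)
    (h4 : ¬ (P.p : ℤ) ∣ a4) (hdisc : ¬ (P.p : ℤ) ∣ a2 ^ 2 - 4 * a4)
    (Q : (P.freyCurve⁄L).Point) : σ • Q - Q ∈ D.E1 := by
  rw [← hDφ Q]
  have e4 := QLocal.unit_of_not_dvd hv0 h4
  have ed := QLocal.unit_of_not_dvd hv0 hdisc
  have hd : D.A2 ^ 2 - 4 * D.A4 = ((a2 ^ 2 - 4 * a4 : ℤ) : L) := by
    rw [hDA2, hDA4]; push_cast; ring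
  refine φ_sub_mem_E1_of_good D ?_ ?_ ?_ ?_ Q
  · rw [hDA4]; exact e4.1
  · rw [hDw, hDA4]; exact e4.2
  · rw [hd]; exact ed.1
  · rw [hDw, hd]; exact ed.2

/-- The multiplicative-reduction case, from an `IDatum` with integer coefficients
`A4 = u d^p`, `p ∣ d`, `p ∤ u`, `p ∤ A2`. -/
theorem sub_mem_E1_of_mult (P : FreyPackage) (v : RVal L)
    (hv0 : ∀ n : ℤ, ¬ (P.p : ℤ) ∣ n → v.w (n : L) = 0)
    (hvpos : ∀ n : ℤ, n ≠ 0 → (P.p : ℤ) ∣ n → 0 < v.w (n : L))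
    (σ : L ≃ₐ[ℚ] L) (D : IDatum L (P.freyCurve⁄L).Point)
    (hDw : D.toRVal = v) (a2 a4 : ℤ)
    (hDA2 : D.A2 = (a2 : L)) (hDA4 : D.A4 = (a4 : L))
    (hDσ : ∀ x : L, D.σ x = σ x)
    (hDφ : ∀ Q : (P.freyCurve⁄L).Point, D.φ Q = σ • Q)
    (h2 : ¬ (P.p : ℤ) ∣ a2) (d u : ℤ) (hd0 : d ≠ 0) (hd : (P.p : ℤ) ∣ d)
    (hu : ¬ (P.p : ℤ) ∣ u) (h4 : a4 = u * d ^ P.p)
    (Q : (P.freyCurve⁄L).Point) (hQ : P.p • Q = 0) : σ • Q - Q ∈ D.E1 := by
  rw [← hDφ Q]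
  have hp2 : P.p ≠ 2 := by have := P.hp5; omega
  have e2 := QLocal.unit_of_not_dvd hv0 h2
  have eu := QLocal.unit_of_not_dvd hv0 hu
  refine φ_sub_mem_E1_of_mult D P.p P.pp hp2 ?_ ?_ (d : L) (u : L) ?_ ?_ ?_ eu.1 ?_ ?_ Q hQ
  · rw [hDA2]; exact e2.1
  · rw [hDw, hDA2]; exact e2.2
  · exact Int.cast_ne_zero.mpr hd0
  · rw [hDw]; exact hvpos d hd0 hd
  · rw [hDσ]; exact map_intCast σ d
  · rw [hDw]; exact eu.2
  · rw [hDA4, h4]; push_cast; ring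

/-- **The local statement `(Lp)` for the Frey curve** over a Galois number field `L`, given
the Newton bound and the torsion count. -/
theorem frey_lp (P : FreyPackage) (hNewton : NewtonAt P L)
    (hcard : Nat.card (Submodule.torsionBy ℤ (P.freyCurve⁄L).Point P.p) = P.p ^ 2)
    (N : Submodule (ZMod P.p) (Submodule.torsionBy ℤ (P.freyCurve⁄L).Point P.p))
    (hN : IsGaloisStable ℚ N) (hN0 : N ≠ ⊥) (hN1 : N ≠ ⊤) :
    ∃ A : ValuationSubring L, A.LiesOverPrime P.p ∧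
      ((∀ σ ∈ A.inertiaSubgroupIn ℚ, ∀ x ∈ N, σ • x = x) ∨
        (∀ σ ∈ A.inertiaSubgroupIn ℚ,
          ∀ x : Submodule.torsionBy ℤ (P.freyCurve⁄L).Point P.p, σ • x - x ∈ N)) := by
  have hp := P.pp
  have hp2 : P.p ≠ 2 := by have := P.hp5; omega
  obtain ⟨A, hA⟩ := Global.exists_valuationSubring_liesOver (L := L) hp
  refine ⟨A, hA, ?_⟩
  obtain ⟨v, hvw, -, -, hv0, hvpos, hvp, hvσ, hvc⟩ := exists_rval_of_isAlgebraic A P.p hp hA
  have hw2 : v.w (2 : L) = 0 := by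
    have h : ¬ (P.p : ℤ) ∣ (2 : ℤ) := by
      intro h
      have h' : P.p ∣ 2 := by exact_mod_cast h
      exact hp2 ((Nat.prime_dvd_prime_iff_eq hp Nat.prime_two).mp h')
    have := hv0 2 h
    simpa using this
  have hFLT := P.hFLT
  have hFLTq : (P.a : ℚ) ^ P.p + (P.b : ℚ) ^ P.p = (P.c : ℚ) ^ P.p := by exact_mod_cast P.hFLT
  have hint : ∀ n : ℤ, v.GE 0 (algebraMap ℚ L (n : ℚ)) := by
    intro n
    rw [map_intCast]
    exact RVal.GE.intCast n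
  have hunit : ∀ n : ℤ, ¬ (P.p : ℤ) ∣ n → v.w (algebraMap ℚ L (n : ℚ)) = 0 := by
    intro n hn
    rw [map_intCast]
    exact hv0 n hn
  -- the generic step
  have step : ∀ (r A2 A4 e : ℚ)
      (hr : r * (r - (P.a : ℚ) ^ P.p) * (r + (P.b : ℚ) ^ P.p) = 0)
      (hA2 : A2 = (P.b : ℚ) ^ P.p - (P.a : ℚ) ^ P.p + 3 * r)
      (hA4 : A4 = 3 * r ^ 2 + 2 * ((P.b : ℚ) ^ P.p - (P.a : ℚ) ^ P.p) * r
        - (P.a : ℚ) ^ P.p * (P.b : ℚ) ^ P.p)
      (hA2i : v.GE 0 (algebraMap ℚ L A2)) (hA4i : v.GE 0 (algebraMap ℚ L A4)),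
      A4 ≠ 0 → e ^ 2 + A2 * e + A4 = 0 → e ≠ 0 → v.w (algebraMap ℚ L e) = 0 →
      2 * e + A2 ≠ 0 → v.w (algebraMap ℚ L (2 * e + A2)) = 0 →
      (∀ σ ∈ A.inertiaSubgroupIn ℚ, ∀ Q : (P.freyCurve⁄L).Point, P.p • Q = 0 →
        σ • Q - Q ∈ (kDatum (frey_shape_rat P L r A2 A4 hr hA2 hA4) v hw2 hA2i hA4i).E1) →
      ((∀ σ ∈ A.inertiaSubgroupIn ℚ, ∀ x ∈ N, σ • x = x) ∨
        (∀ σ ∈ A.inertiaSubgroupIn ℚ,
          ∀ x : Submodule.torsionBy ℤ (P.freyCurve⁄L).Point P.p, σ • x - x ∈ N)) := by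
    intro r A2 A4 e hr hA2 hA4 hA2i hA4i hA4ne he he0 hwe hde hwde hφE
    refine lp_of_datum P A hA r (kDatum (frey_shape_rat P L r A2 A4 hr hA2 hA4) v hw2 hA2i hA4i)
      (fun x => hvw x) (fun _ => rfl) (fun _ => rfl) hφE ?_ hcard N hN hN0 hN1
    intro T hT
    have h := hNewton v hw2 r A2 A4 e hr hA2 hA4 hA2i hA4i hA4ne he he0 hwe hde hwde T
      (fun Q hQ => ⟨(hT Q hQ).1, (hT Q hQ).2.1, (hT Q hQ).2.2.resolve_left (hT Q hQ).1⟩)
    rw [hvp] at h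
    exact h
  -- the datum for `r = 0`
  have hr0 : (0 : ℚ) * (0 - (P.a : ℚ) ^ P.p) * (0 + (P.b : ℚ) ^ P.p) = 0 := by ring
  have hA20 : ((P.b ^ P.p - P.a ^ P.p : ℤ) : ℚ)
      = (P.b : ℚ) ^ P.p - (P.a : ℚ) ^ P.p + 3 * 0 := by push_cast; ring
  have hA40 : ((-(P.a ^ P.p * P.b ^ P.p) : ℤ) : ℚ) = 3 * (0 : ℚ) ^ 2
      + 2 * ((P.b : ℚ) ^ P.p - (P.a : ℚ) ^ P.p) * 0 - (P.a : ℚ) ^ P.p * (P.b : ℚ) ^ P.p := by
    push_cast; ring
  have hA4ne0 : ((-(P.a ^ P.p * P.b ^ P.p) : ℤ) : ℚ) ≠ 0 := by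
    rw [Int.cast_ne_zero, neg_ne_zero]
    exact mul_ne_zero (pow_ne_zero _ P.ha0) (pow_ne_zero _ P.hb0)
  by_cases hpa : (P.p : ℤ) ∣ P.a
  · -- `p ∣ a`: multiplicative, `A4 = (-b^p) a^p`, `e = -b^p`
    have hpb : ¬ (P.p : ℤ) ∣ P.b := QLocal.not_dvd_of_gcd hp P.hgcdab hpa
    have hpc : ¬ (P.p : ℤ) ∣ P.c := QLocal.not_dvd_of_gcd hp P.hgcdac hpa
    have he2 : 2 * ((-(P.b ^ P.p) : ℤ) : ℚ) + ((P.b ^ P.p - P.a ^ P.p : ℤ) : ℚ)
        = ((-(P.c ^ P.p) : ℤ) : ℚ) := by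
      push_cast; linear_combination -hFLTq
    refine step 0 _ _ ((-(P.b ^ P.p) : ℤ) : ℚ) hr0 hA20 hA40 (hint _) (hint _) hA4ne0
      (by push_cast; ring) ?_ (hunit _ ?_) ?_ ?_ ?_
    · rw [Int.cast_ne_zero, neg_ne_zero]; exact pow_ne_zero _ P.hb0
    · rw [dvd_neg]; exact QLocal.not_dvd_pow hp hpb _
    · rw [he2, Int.cast_ne_zero, neg_ne_zero]; exact pow_ne_zero _ P.hc0
    · rw [he2]; exact hunit _ (by rw [dvd_neg]; exact QLocal.not_dvd_pow hp hpc _)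
    · intro σ hσ Q hQ
      refine sub_mem_E1_of_mult P v hv0 hvpos σ
        (iDatum P.freyCurve (frey_shape_rat P L 0 _ _ hr0 hA20 hA40) v hw2 (hint _) (hint _) σ
          (σ.commutes _) (σ.commutes _) (σ.commutes _) (hvσ σ hσ) (hvc σ hσ))
        rfl (P.b ^ P.p - P.a ^ P.p) (-(P.a ^ P.p * P.b ^ P.p)) (map_intCast _ _) (map_intCast _ _)
        (fun _ => rfl) (fun _ => rfl) ?_ P.a (-(P.b ^ P.p)) P.ha0 hpa ?_ (by ring) Q hQ
      · intro h
        have h1 : (P.p : ℤ) ∣ P.a ^ P.p := dvd_pow hpa P.hp0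
        have h2 : (P.p : ℤ) ∣ P.b ^ P.p := by
          have := dvd_add h h1
          simpa using this
        exact QLocal.not_dvd_pow hp hpb _ h2
      · rw [dvd_neg]; exact QLocal.not_dvd_pow hp hpb _
  by_cases hpb : (P.p : ℤ) ∣ P.b
  · -- `p ∣ b`: multiplicative, `A4 = (-a^p) b^p`, `e = a^p`
    have hpc : ¬ (P.p : ℤ) ∣ P.c := QLocal.not_dvd_of_gcd hp P.hgcdbc hpb
    have he2 : 2 * ((P.a ^ P.p : ℤ) : ℚ) + ((P.b ^ P.p - P.a ^ P.p : ℤ) : ℚ)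
        = ((P.c ^ P.p : ℤ) : ℚ) := by
      push_cast; linear_combination hFLTq
    refine step 0 _ _ ((P.a ^ P.p : ℤ) : ℚ) hr0 hA20 hA40 (hint _) (hint _) hA4ne0
      (by push_cast; ring) ?_ (hunit _ ?_) ?_ ?_ ?_
    · rw [Int.cast_ne_zero]; exact pow_ne_zero _ P.ha0
    · exact QLocal.not_dvd_pow hp hpa _
    · rw [he2, Int.cast_ne_zero]; exact pow_ne_zero _ P.hc0
    · rw [he2]; exact hunit _ (QLocal.not_dvd_pow hp hpc _)
    · intro σ hσ Q hQ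
      refine sub_mem_E1_of_mult P v hv0 hvpos σ
        (iDatum P.freyCurve (frey_shape_rat P L 0 _ _ hr0 hA20 hA40) v hw2 (hint _) (hint _) σ
          (σ.commutes _) (σ.commutes _) (σ.commutes _) (hvσ σ hσ) (hvc σ hσ))
        rfl (P.b ^ P.p - P.a ^ P.p) (-(P.a ^ P.p * P.b ^ P.p)) (map_intCast _ _) (map_intCast _ _)
        (fun _ => rfl) (fun _ => rfl) ?_ P.b (-(P.a ^ P.p)) P.hb0 hpb ?_ (by ring) Q hQ
      · intro h
        have h1 : (P.p : ℤ) ∣ P.b ^ P.p := dvd_pow hpb P.hp0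
        have h2 : (P.p : ℤ) ∣ P.a ^ P.p := by
          have := dvd_sub h1 h
          simpa using this
        exact QLocal.not_dvd_pow hp hpa _ h2
      · rw [dvd_neg]; exact QLocal.not_dvd_pow hp hpa _
  by_cases hpc : (P.p : ℤ) ∣ P.c
  · -- `p ∣ c`: multiplicative after the shift `r = a^p`, `A4 = a^p c^p`, `e = -a^p`
    have hr1 : ((P.a ^ P.p : ℤ) : ℚ) * (((P.a ^ P.p : ℤ) : ℚ) - (P.a : ℚ) ^ P.p)
        * (((P.a ^ P.p : ℤ) : ℚ) + (P.b : ℚ) ^ P.p) = 0 := by push_cast; ring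
    have hA21 : ((P.a ^ P.p + P.c ^ P.p : ℤ) : ℚ)
        = (P.b : ℚ) ^ P.p - (P.a : ℚ) ^ P.p + 3 * ((P.a ^ P.p : ℤ) : ℚ) := by
      push_cast; linear_combination -hFLTq
    have hA41 : ((P.a ^ P.p * P.c ^ P.p : ℤ) : ℚ) = 3 * ((P.a ^ P.p : ℤ) : ℚ) ^ 2
        + 2 * ((P.b : ℚ) ^ P.p - (P.a : ℚ) ^ P.p) * ((P.a ^ P.p : ℤ) : ℚ)
        - (P.a : ℚ) ^ P.p * (P.b : ℚ) ^ P.p := by
      push_cast; linear_combination -(P.a : ℚ) ^ P.p * hFLTq
    have he2 : 2 * ((-(P.a ^ P.p) : ℤ) : ℚ) + ((P.a ^ P.p + P.c ^ P.p : ℤ) : ℚ)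
        = ((P.c ^ P.p - P.a ^ P.p : ℤ) : ℚ) := by
      push_cast; ring
    have hca : ¬ (P.p : ℤ) ∣ P.c ^ P.p - P.a ^ P.p := by
      intro h
      have h1 : (P.p : ℤ) ∣ P.c ^ P.p := dvd_pow hpc P.hp0
      have h2 : (P.p : ℤ) ∣ P.a ^ P.p := by
        have := dvd_sub h1 h
        simpa using this
      exact QLocal.not_dvd_pow hp hpa _ h2
    refine step ((P.a ^ P.p : ℤ) : ℚ) _ _ ((-(P.a ^ P.p) : ℤ) : ℚ) hr1 hA21 hA41 (hint _) (hint _)
      ?_ (by push_cast; ring) ?_ (hunit _ ?_) ?_ ?_ ?_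
    · rw [Int.cast_ne_zero]
      exact mul_ne_zero (pow_ne_zero _ P.ha0) (pow_ne_zero _ P.hc0)
    · rw [Int.cast_ne_zero, neg_ne_zero]; exact pow_ne_zero _ P.ha0
    · rw [dvd_neg]; exact QLocal.not_dvd_pow hp hpa _
    · rw [he2, Int.cast_ne_zero]
      rintro h0
      exact hca (by rw [h0]; exact dvd_zero _)
    · rw [he2]; exact hunit _ hca
    · intro σ hσ Q hQ
      refine sub_mem_E1_of_mult P v hv0 hvpos σ
        (iDatum P.freyCurve (frey_shape_rat P L _ _ _ hr1 hA21 hA41) v hw2 (hint _) (hint _) σ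
          (σ.commutes _) (σ.commutes _) (σ.commutes _) (hvσ σ hσ) (hvc σ hσ))
        rfl (P.a ^ P.p + P.c ^ P.p) (P.a ^ P.p * P.c ^ P.p) (map_intCast _ _) (map_intCast _ _)
        (fun _ => rfl) (fun _ => rfl) ?_ P.c (P.a ^ P.p) P.hc0 hpc
        (QLocal.not_dvd_pow hp hpa _) rfl Q hQ
      intro h
      have h1 : (P.p : ℤ) ∣ P.c ^ P.p := dvd_pow hpc P.hp0
      have h2 : (P.p : ℤ) ∣ P.a ^ P.p := by
        have := dvd_sub h h1
        simpa using this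
      exact QLocal.not_dvd_pow hp hpa _ h2
  · -- `p ∤ abc`: good reduction, discriminant `c^(2p)`, `e = a^p`
    have he2 : 2 * ((P.a ^ P.p : ℤ) : ℚ) + ((P.b ^ P.p - P.a ^ P.p : ℤ) : ℚ)
        = ((P.c ^ P.p : ℤ) : ℚ) := by
      push_cast; linear_combination hFLTq
    refine step 0 _ _ ((P.a ^ P.p : ℤ) : ℚ) hr0 hA20 hA40 (hint _) (hint _) hA4ne0
      (by push_cast; ring) ?_ (hunit _ ?_) ?_ ?_ ?_
    · rw [Int.cast_ne_zero]; exact pow_ne_zero _ P.ha0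
    · exact QLocal.not_dvd_pow hp hpa _
    · rw [he2, Int.cast_ne_zero]; exact pow_ne_zero _ P.hc0
    · rw [he2]; exact hunit _ (QLocal.not_dvd_pow hp hpc _)
    · intro σ hσ Q _
      refine sub_mem_E1_of_good P v hv0 σ
        (iDatum P.freyCurve (frey_shape_rat P L 0 _ _ hr0 hA20 hA40) v hw2 (hint _) (hint _) σ
          (σ.commutes _) (σ.commutes _) (σ.commutes _) (hvσ σ hσ) (hvc σ hσ))
        rfl (P.b ^ P.p - P.a ^ P.p) (-(P.a ^ P.p * P.b ^ P.p)) (map_intCast _ _) (map_intCast _ _)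
        (fun _ => rfl) ?_ ?_ Q
      · rw [dvd_neg]
        intro h
        rcases (Nat.prime_iff_prime_int.mp hp).dvd_or_dvd h with h | h
        · exact QLocal.not_dvd_pow hp hpa _ h
        · exact QLocal.not_dvd_pow hp hpb _ h
      · have e : (P.b ^ P.p - P.a ^ P.p) ^ 2 - 4 * -(P.a ^ P.p * P.b ^ P.p)
            = (P.c ^ P.p) ^ 2 := by
          rw [← hFLT]; ring
        rw [e]
        exact QLocal.not_dvd_pow hp (QLocal.not_dvd_pow hp hpc _) _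

end Fermat.Agent.S13.PFrey
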