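import Mathlib
import Fermat.Agent.S05_Datum
import Fermat.Agent.S13_Defs
import Fermat.Agent.S13_Transfer
import Fermat.Agent.S13_FreyDatum
import Fermat.Agent.S13_Newton
import Fermat.Agent.S13_FreySurj
import Fermat.Agent.S13_MulSeq
import Fermat.Agent.S13_MulCard
import Fermat.Agent.S13_MulTors
import Fermat.Agent.S13_PFrey

/-!
# S13: the torsion count and the Newton bound for the Frey curve

* `card_torsion_frey` : the Frey curve has exactly `p²` points of order dividing `p` over `ℚ̄`;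
* `newton_frey` : the Newton bound at `p` (hypothesis `hNewton` of `PLocal.dichotomy`) for any
  abstract datum of the Frey curve over a level `L` containing the `p`-torsion.
-/

set_option autoImplicit false

open WeierstrassCurve WeierstrassCurve.Affine WeierstrassCurve.Affine.Point

namespace Fermat.Agent.S13.FreyW

open Fermat.Agent.S05 Fermat.Agent.S05.Datum

/-- `a^p + b^p = c^p` in `ℚ`. -/
theorem flt_rat (P : FreyPackage) :
    (P.a : ℚ) ^ P.p + (P.b : ℚ) ^ P.p = (P.c : ℚ) ^ P.p := by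
  exact_mod_cast congrArg (Int.cast : ℤ → ℚ) P.hFLT

/-- For a rational root `r` of `X (X - a^p) (X + b^p)` the shifted cubic
`ξ (ξ² + A2 ξ + A4)` has `A4 ≠ 0` and nonzero discriminant. -/
theorem A4_ne_and_disc_ne (P : FreyPackage) (r A2 A4 : ℚ)
    (hr : r * (r - (P.a : ℚ) ^ P.p) * (r + (P.b : ℚ) ^ P.p) = 0)
    (hA2 : A2 = (P.b : ℚ) ^ P.p - (P.a : ℚ) ^ P.p + 3 * r)
    (hA4 : A4 = 3 * r ^ 2 + 2 * ((P.b : ℚ) ^ P.p - (P.a : ℚ) ^ P.p) * r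
      - (P.a : ℚ) ^ P.p * (P.b : ℚ) ^ P.p) :
    A4 ≠ 0 ∧ A2 ^ 2 - 4 * A4 ≠ 0 := by
  have hflt := flt_rat P
  have ha : (P.a : ℚ) ^ P.p ≠ 0 := pow_ne_zero _ (Int.cast_ne_zero.mpr P.ha0)
  have hb : (P.b : ℚ) ^ P.p ≠ 0 := pow_ne_zero _ (Int.cast_ne_zero.mpr P.hb0)
  have hc : (P.c : ℚ) ^ P.p ≠ 0 := pow_ne_zero _ (Int.cast_ne_zero.mpr P.hc0)
  set α := (P.a : ℚ) ^ P.p
  set β := (P.b : ℚ) ^ P.p
  set γ := (P.c : ℚ) ^ P.p
  rcases mul_eq_zero.mp hr with h | h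
  · rcases mul_eq_zero.mp h with h | h
    · -- `r = 0`
      subst h
      have e4 : A4 = -(α * β) := by rw [hA4]; ring
      have ed : A2 ^ 2 - 4 * A4 = γ ^ 2 := by rw [hA4, hA2, ← hflt]; ring
      exact ⟨by rw [e4]; exact neg_ne_zero.mpr (mul_ne_zero ha hb), by
        rw [ed]; exact pow_ne_zero 2 hc⟩
    · -- `r = a^p`
      have hrα : r = α := by linear_combination h
      have e4 : A4 = α * γ := by rw [hA4, hrα, ← hflt]; ring
      have ed : A2 ^ 2 - 4 * A4 = β ^ 2 := by rw [hA4, hA2, hrα]; ring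
      exact ⟨by rw [e4]; exact mul_ne_zero ha hc, by rw [ed]; exact pow_ne_zero 2 hb⟩
  · -- `r = -b^p`
    have hrβ : r = -β := by linear_combination h
    have e4 : A4 = β * γ := by rw [hA4, hrβ, ← hflt]; ring
    have ed : A2 ^ 2 - 4 * A4 = α ^ 2 := by rw [hA4, hA2, hrβ]; ring
    exact ⟨by rw [e4]; exact mul_ne_zero hb hc, by rw [ed]; exact pow_ne_zero 2 ha⟩

/-- **(W1)** the Frey curve has exactly `p²` points of order dividing `p` over `ℚ̄`. -/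
theorem card_torsion_frey (P : FreyPackage) :
    Nat.card (Submodule.torsionBy ℤ (P.freyCurve⁄(AlgebraicClosure ℚ)).Point P.p) = P.p ^ 2 := by
  have hr : (0 : ℚ) * (0 - (P.a : ℚ) ^ P.p) * (0 + (P.b : ℚ) ^ P.p) = 0 := by ring
  have hA2 : (P.b : ℚ) ^ P.p - (P.a : ℚ) ^ P.p
      = (P.b : ℚ) ^ P.p - (P.a : ℚ) ^ P.p + 3 * 0 := by ring
  have hA4 : -((P.a : ℚ) ^ P.p * (P.b : ℚ) ^ P.p)
      = 3 * (0 : ℚ) ^ 2 + 2 * ((P.b : ℚ) ^ P.p - (P.a : ℚ) ^ P.p) * 0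
        - (P.a : ℚ) ^ P.p * (P.b : ℚ) ^ P.p := by ring
  obtain ⟨h4, hd⟩ := A4_ne_and_disc_ne P 0 _ _ hr hA2 hA4
  have hS := FreyDatum.frey_shape_rat P (AlgebraicClosure ℚ) 0 _ _ hr hA2 hA4
  obtain ⟨D, -, hDA2, hDA4, hDξ, hDη⟩ :=
    FreyDatum.exists_kdatum (L := AlgebraicClosure ℚ) P 0 _ _ hr hA2 hA4
      (trivialVal (AlgebraicClosure ℚ)) rfl (Or.inr le_rfl) (Or.inr le_rfl)
  have inj := (algebraMap ℚ (AlgebraicClosure ℚ)).injective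
  have h4' : D.A4 ≠ 0 := by
    rw [hDA4]; exact (map_ne_zero_iff _ inj).mpr h4
  have hd' : D.A2 ^ 2 - 4 * D.A4 ≠ 0 := by
    rw [hDA2, hDA4]
    have := (map_ne_zero_iff _ inj).mpr hd
    rwa [map_sub, map_mul, map_pow, map_ofNat] at this
  have hsurj : ∀ x y : AlgebraicClosure ℚ, y ^ 2 = x * (x ^ 2 + D.A2 * x + D.A4) →
      ∃ Q : (P.freyCurve⁄(AlgebraicClosure ℚ)).Point, Q ≠ 0 ∧ D.ξ Q = x ∧ D.η Q = y := by
    intro x y h
    rw [hDA2, hDA4] at h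
    obtain ⟨Q, hQ, h1, h2⟩ := FreySurj.exists_point hS
      (by rw [← hDA4]; exact h4') (by rw [← hDA2, ← hDA4]; exact hd') x y h
    exact ⟨Q, hQ, by rw [hDξ]; exact h1, by rw [hDη]; exact h2⟩
  obtain ⟨S⟩ := exists_divSeq D.A2 D.A4 h4' hd'
  rw [← FreySurj.card_torsion, MulCard.card_torsion D S hsurj P.p P.pp.one_lt.le]

set_option linter.unusedVariables false in
/-- **(W2)** the Newton bound at `p` for an abstract datum of the Frey curve over a level `L`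
containing the coordinates of the `p`-torsion points. -/
theorem newton_frey (P : FreyPackage) (L : IntermediateField ℚ (AlgebraicClosure ℚ))
    [DecidableEq ↥L]
    (hL : ∀ Pt : (P.freyCurve⁄(AlgebraicClosure ℚ)).Point, (P.p : ℤ) • Pt = 0 →
      Pt ∈ Set.range (Transfer.incl P.freyCurve L))
    (r A2 A4 : ℚ)
    (hr : r * (r - (P.a : ℚ) ^ P.p) * (r + (P.b : ℚ) ^ P.p) = 0)
    (hA2 : A2 = (P.b : ℚ) ^ P.p - (P.a : ℚ) ^ P.p + 3 * r)
    (hA4 : A4 = 3 * r ^ 2 + 2 * ((P.b : ℚ) ^ P.p - (P.a : ℚ) ^ P.p) * r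
      - (P.a : ℚ) ^ P.p * (P.b : ℚ) ^ P.p)
    (D : KDatum ↥L (P.freyCurve⁄↥L).Point)
    (hDA2 : D.A2 = algebraMap ℚ ↥L A2) (hDA4 : D.A4 = algebraMap ℚ ↥L A4)
    (hDξ : ∀ Q, D.ξ Q = xi (P.freyCurve⁄↥L) (algebraMap ℚ ↥L r) Q)
    (hDη : ∀ Q, D.η Q = eta (P.freyCurve⁄↥L) Q)
    (e : ℚ) (he : e ^ 2 + A2 * e + A4 = 0) (he0 : e ≠ 0)
    (hwe : D.w (algebraMap ℚ ↥L e) = 0)
    (hde : 2 * e + A2 ≠ 0) (hwde : D.w (algebraMap ℚ ↥L (2 * e + A2)) = 0) :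
    ∀ T : Finset (P.freyCurve⁄↥L).Point, (∀ Q ∈ T, Q ≠ 0 ∧ P.p • Q = 0 ∧ Q ∈ D.E1) →
      ∑ Q ∈ T, (-D.w (D.ξ Q)) ≤ 2 * D.w ((P.p : ℕ) : ↥L) := by
  classical
  obtain ⟨h4, hd⟩ := A4_ne_and_disc_ne P r A2 A4 hr hA2 hA4
  have hp2 : P.p ≠ 2 := by have := P.hp5; omega
  -- notation
  let ι : ↥L →+* AlgebraicClosure ℚ := algebraMap ↥L (AlgebraicClosure ℚ)
  have hι : Function.Injective ι := ι.injective
  have hιℚ : ∀ q : ℚ, ι (algebraMap ℚ ↥L q) = algebraMap ℚ (AlgebraicClosure ℚ) q :=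
    fun q => (IsScalarTower.algebraMap_apply ℚ ↥L (AlgebraicClosure ℚ) q).symm
  have injL := (algebraMap ℚ ↥L).injective
  have injK := (algebraMap ℚ (AlgebraicClosure ℚ)).injective
  -- the data over `L`
  have hSL := FreyDatum.frey_shape_rat P ↥L r A2 A4 hr hA2 hA4
  have h4L : D.A4 ≠ 0 := by rw [hDA4]; exact (map_ne_zero_iff _ injL).mpr h4
  have hdL : (algebraMap ℚ ↥L A2) ^ 2 - 4 * (algebraMap ℚ ↥L A4) ≠ 0 := by
    have := (map_ne_zero_iff _ injL).mpr hd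
    rwa [map_sub, map_mul, map_pow, map_ofNat] at this
  have heL : (algebraMap ℚ ↥L e) ^ 2 + D.A2 * (algebraMap ℚ ↥L e) + D.A4 = 0 := by
    rw [hDA2, hDA4, ← map_pow, ← map_mul, ← map_add, ← map_add, he, _root_.map_zero]
  have he0L : algebraMap ℚ ↥L e ≠ 0 := (map_ne_zero_iff _ injL).mpr he0
  have hdeq : 2 * algebraMap ℚ ↥L e + D.A2 = algebraMap ℚ ↥L (2 * e + A2) := by
    rw [hDA2, map_add, map_mul, map_ofNat]
  have hdeL : 2 * algebraMap ℚ ↥L e + D.A2 ≠ 0 := by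
    rw [hdeq]; exact (map_ne_zero_iff _ injL).mpr hde
  have hwdeL : D.w (2 * algebraMap ℚ ↥L e + D.A2) = 0 := by rw [hdeq]; exact hwde
  have hpL : ((P.p : ℕ) : ↥L) ≠ 0 := Nat.cast_ne_zero.mpr P.hp0
  -- the `2`-torsion points `T = (0, 0)` and `Te = (e, 0)` over `L`
  obtain ⟨T0, hT0, hT0ξ, -⟩ := FreySurj.exists_point hSL
    (by rw [← hDA4]; exact h4L) hdL 0 0 (by ring)
  obtain ⟨Te, hTe, hTeξ, -⟩ := FreySurj.exists_point hSL
    (by rw [← hDA4]; exact h4L) hdL (algebraMap ℚ ↥L e) 0 (by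
      rw [← hDA2, ← hDA4, heL]; ring)
  -- the datum over `ℚ̄`
  have hSK := FreyDatum.frey_shape_rat P (AlgebraicClosure ℚ) r A2 A4 hr hA2 hA4
  obtain ⟨Dk, -, hKA2, hKA4, hKξ, hKη⟩ :=
    FreyDatum.exists_kdatum (L := AlgebraicClosure ℚ) P r A2 A4 hr hA2 hA4
      (trivialVal (AlgebraicClosure ℚ)) rfl (Or.inr le_rfl) (Or.inr le_rfl)
  have h4K : Dk.A4 ≠ 0 := by rw [hKA4]; exact (map_ne_zero_iff _ injK).mpr h4
  have hdK : Dk.A2 ^ 2 - 4 * Dk.A4 ≠ 0 := by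
    rw [hKA2, hKA4]
    have := (map_ne_zero_iff _ injK).mpr hd
    rwa [map_sub, map_mul, map_pow, map_ofNat] at this
  have hsurj : ∀ x y : AlgebraicClosure ℚ, y ^ 2 = x * (x ^ 2 + Dk.A2 * x + Dk.A4) →
      ∃ Q : (P.freyCurve⁄(AlgebraicClosure ℚ)).Point, Q ≠ 0 ∧ Dk.ξ Q = x ∧ Dk.η Q = y := by
    intro x y h
    rw [hKA2, hKA4] at h
    obtain ⟨Q, hQ, h1, h2⟩ := FreySurj.exists_point hSK
      (by rw [← hKA4]; exact h4K) (by rw [← hKA2, ← hKA4]; exact hdK) x y h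
    exact ⟨Q, hQ, by rw [hKξ]; exact h1, by rw [hKη]; exact h2⟩
  obtain ⟨Xk, hXk1, hXk2, -, hMk⟩ := exists_torsion_finset Dk h4K hdK hsurj P.p P.pp hp2
  -- comparison of the two data along `incl`
  have hξ : ∀ Q : (P.freyCurve⁄↥L).Point,
      Dk.ξ (Transfer.incl P.freyCurve L Q) = ι (D.ξ Q) := by
    intro Q
    rw [hKξ, hDξ]
    exact FreySurj.xi_incl P.freyCurve L r Q
  have hincl0 : ∀ Q : (P.freyCurve⁄↥L).Point, Transfer.incl P.freyCurve L Q = 0 ↔ Q = 0 :=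
    fun Q => map_eq_zero_iff _ (Transfer.incl_injective P.freyCurve L)
  have hinclp : ∀ Q : (P.freyCurve⁄↥L).Point,
      P.p • Transfer.incl P.freyCurve L Q = 0 ↔ P.p • Q = 0 := by
    intro Q
    rw [← map_nsmul]
    exact hincl0 _
  -- the set `X` over `L`
  set X : Finset ↥L := Xk.preimage ι hι.injOn with hX
  have hX1 : ∀ Q : (P.freyCurve⁄↥L).Point, Q ≠ 0 → P.p • Q = 0 → D.ξ Q ∈ X := by
    intro Q hQ hpQ
    rw [hX, Finset.mem_preimage, ← hξ]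
    exact hXk1 _ (fun h => hQ ((hincl0 Q).mp h)) ((hinclp Q).mpr hpQ)
  have hlift : ∀ x ∈ Xk, ∃ Q : (P.freyCurve⁄↥L).Point, Q ≠ 0 ∧ P.p • Q = 0 ∧ ι (D.ξ Q) = x := by
    intro x hx
    obtain ⟨Qk, hQk, hpQk, hQkξ⟩ := hXk2 x hx
    obtain ⟨Q, rfl⟩ := hL Qk (by rw [natCast_zsmul]; exact hpQk)
    exact ⟨Q, fun h => hQk ((hincl0 Q).mpr h), (hinclp Q).mp hpQk, by rw [← hξ]; exact hQkξ⟩
  have hX2 : ∀ x ∈ X, ∃ Q : (P.freyCurve⁄↥L).Point, Q ≠ 0 ∧ P.p • Q = 0 ∧ D.ξ Q = x := by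
    intro x hx
    rw [hX, Finset.mem_preimage] at hx
    obtain ⟨Q, hQ, hpQ, hQξ⟩ := hlift _ hx
    exact ⟨Q, hQ, hpQ, hι hQξ⟩
  have himage : X.image ι = Xk := by
    ext x
    rw [Finset.mem_image]
    constructor
    · rintro ⟨y, hy, rfl⟩
      rw [hX, Finset.mem_preimage] at hy
      exact hy
    · intro hx
      obtain ⟨Q, hQ, hpQ, hQξ⟩ := hlift x hx
      exact ⟨D.ξ Q, hX1 Q hQ hpQ, hQξ⟩
  -- the product identity over `L`
  have hM2 : ∏ x ∈ X, ((algebraMap ℚ ↥L e - D.A4 / x) / (algebraMap ℚ ↥L e - x)) ^ 2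
      = ((P.p : ℕ) : ↥L) ^ 2 := by
    apply hι
    have heK : (ι (algebraMap ℚ ↥L e)) ^ 2 + Dk.A2 * ι (algebraMap ℚ ↥L e) + Dk.A4 = 0 := by
      rw [hKA2, hKA4, ← hιℚ A2, ← hιℚ A4, ← hDA2, ← hDA4, ← map_pow, ← map_mul, ← map_add,
        ← map_add, heL, _root_.map_zero]
    have h1 := hMk _ heK
    rw [← himage, Finset.prod_image (fun x _ y _ h => hι h)] at h1
    rw [map_prod, map_pow, map_natCast, ← h1]
    refine Finset.prod_congr rfl fun x _ => ?_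
    rw [map_pow, map_div₀, map_sub, map_sub, map_div₀, hKA4, hDA4, hιℚ A4]
  exact newton_points D P.p P.pp hp2 hpL h4L (algebraMap ℚ ↥L e) heL he0L hwe hdeL hwdeL
    T0 Te hT0 (by rw [hDξ]; exact hT0ξ) hTe (by rw [hDξ]; exact hTeξ) X hX1 hX2 hM2

/-- **(W2)** in the packaged form `PFrey.NewtonAt` used by `PFrey.frey_lp`. -/
theorem newtonAt_frey (P : FreyPackage) (L : IntermediateField ℚ (AlgebraicClosure ℚ))
    [DecidableEq ↥L]
    (hL : ∀ Pt : (P.freyCurve⁄(AlgebraicClosure ℚ)).Point, (P.p : ℤ) • Pt = 0 →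
      Pt ∈ Set.range (Transfer.incl P.freyCurve L)) :
    PFrey.NewtonAt P ↥L := by
  intro v hw2 r A2 A4 e hr hA2 hA4 hA2i hA4i _ he he0 hwe hde hwde T hT
  exact newton_frey P L hL r A2 A4 hr hA2 hA4
    (kDatum (FreyDatum.frey_shape_rat P ↥L r A2 A4 hr hA2 hA4) v hw2 hA2i hA4i)
    rfl rfl (fun _ => rfl) (fun _ => rfl) e he he0 hwe hde hwde T
    (fun Q hQ => ⟨(hT Q hQ).1, (hT Q hQ).2.1, Or.inr (hT Q hQ).2.2⟩)

end Fermat.Agent.S13.FreyW
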