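import Mathlib
import Fermat.Agent.S05_Defs

set_option autoImplicit false

/-!
# S13, local analysis at `2`: abstract setting

A curve `y² + x y = x³ + a2 x² + a4 x` over a field `K` with a real-valued valuation `w` such
that `w 2 > 0`, `a2` is integral and `w a4 > 0` (multiplicative reduction in residue
characteristic `2`, node at the origin), whose group of points is an abstract commutative group
`G` with coordinate functions `x y : G → K` (junk at `0`) satisfying the chord and tangent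
formulas (`K2Datum`); and such a datum with an inertia-like automorphism (`I2Datum`).
-/

namespace Fermat.Agent.S13.K2

open Fermat.Agent.S05

/-- Abstract datum: the curve `y² + x y = x³ + a2 x² + a4 x` over a valued field with
`w 2 > 0`, `a2` integral, `w a4 > 0`, with an abstract group of points `G`. -/
structure K2Datum (K : Type*) [Field K] (G : Type*) [AddCommGroup G] extends RVal K where
  two_ne : (2 : K) ≠ 0
  w_two : 0 < w 2
  /-- coefficient of `x²` -/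
  a2 : K
  /-- coefficient of `x` -/
  a4 : K
  a2_int : a2 = 0 ∨ 0 ≤ w a2
  a4_ne : a4 ≠ 0
  w_a4 : 0 < w a4
  /-- first coordinate -/
  x : G → K
  /-- second coordinate -/
  y : G → K
  eqn : ∀ P : G, P ≠ 0 → y P ^ 2 + x P * y P = x P ^ 3 + a2 * x P ^ 2 + a4 * x P
  x_neg : ∀ P : G, x (-P) = x P
  y_neg : ∀ P : G, P ≠ 0 → y (-P) = -y P - x P
  inj : ∀ P Q : G, P ≠ 0 → Q ≠ 0 → x P = x Q → y P = y Q → P = Q
  x_add : ∀ P Q : G, P ≠ 0 → Q ≠ 0 → x P ≠ x Q →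
    x (P + Q) = ((y P - y Q) / (x P - x Q)) ^ 2 + (y P - y Q) / (x P - x Q) - a2 - x P - x Q
  x_dbl : ∀ P : G, P ≠ 0 → 2 * y P + x P ≠ 0 →
    x (P + P) = (x P ^ 2 - a4) ^ 2 / (2 * y P + x P) ^ 2
  dbl_zero : ∀ P : G, P ≠ 0 → 2 * y P + x P = 0 → P + P = 0

/-- A `K2Datum` together with an "inertia" automorphism: a ring endomorphism `σ` of `K`
preserving the valuation and congruent to the identity on integral elements, and a compatible
endomorphism `φ` of the group of points. -/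
structure I2Datum (K : Type*) [Field K] (G : Type*) [AddCommGroup G] extends K2Datum K G where
  /-- the field automorphism -/
  σ : K →+* K
  /-- its action on points -/
  φ : G →+ G
  w_σ : ∀ z : K, z ≠ 0 → w (σ z) = w z
  σ_cong : ∀ z : K, z ≠ 0 → 0 ≤ w z → σ z = z ∨ 0 < w (σ z - z)
  x_φ : ∀ P : G, P ≠ 0 → x (φ P) = σ (x P)
  y_φ : ∀ P : G, P ≠ 0 → y (φ P) = σ (y P)
  φ_ne : ∀ P : G, P ≠ 0 → φ P ≠ 0

namespace K2Datum

variable {K : Type*} [Field K] {G : Type*} [AddCommGroup G] (D : K2Datum K G)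

theorem a2_ge : D.GE 0 D.a2 := D.a2_int

theorem a4_gt : D.GT 0 D.a4 := RVal.GT.of_lt D.w_a4

theorem a4_ge : D.GE 0 D.a4 := D.a4_gt.ge

theorem two_gt : D.GT 0 (2 : K) := RVal.GT.of_lt D.w_two

include D in
theorem four_ne : (4 : K) ≠ 0 := by
  have : (4 : K) = 2 * 2 := by norm_num
  rw [this]; exact mul_ne_zero D.two_ne D.two_ne

theorem w_four : D.w 4 = 2 * D.w 2 := by
  have : (4 : K) = 2 * 2 := by norm_num
  rw [this, D.w_mul 2 2 D.two_ne D.two_ne]; ring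

theorem four_gt : D.GT 0 (4 : K) := RVal.GT.of_lt (by rw [D.w_four]; linarith [D.w_two])

/-- the quantity `b2 = 1 + 4 a2` is a unit -/
theorem b2_unit : 1 + 4 * D.a2 ≠ 0 ∧ D.w (1 + 4 * D.a2) = 0 := by
  have h := RVal.w_add_eq_left (v := D.toRVal) (x := 1) (y := 4 * D.a2) one_ne_zero
    (by rw [D.w_one]; exact D.four_gt.mul_int D.a2_ge)
  exact ⟨h.1, h.2.trans D.w_one⟩

theorem b2_ne : 1 + 4 * D.a2 ≠ 0 := D.b2_unit.1

theorem w_b2 : D.w (1 + 4 * D.a2) = 0 := D.b2_unit.2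

theorem b2_ge : D.GE 0 (1 + 4 * D.a2) := RVal.GE.of_le (le_of_eq D.w_b2.symm)

/-- Points with the same `x` are equal or opposite. -/
theorem eq_or_eq_neg_of_x_eq {P Q : G} (hP : P ≠ 0) (hQ : Q ≠ 0) (h : D.x P = D.x Q) :
    P = Q ∨ P = -Q := by
  have h1 := D.eqn P hP
  have h2 := D.eqn Q hQ
  have h3 : (D.y P - D.y Q) * (D.y P + D.y Q + D.x Q) = 0 := by
    rw [h] at h1; linear_combination h1 - h2
  rcases mul_eq_zero.mp h3 with h4 | h4
  · exact Or.inl (D.inj P Q hP hQ h (sub_eq_zero.mp h4))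
  · refine Or.inr (D.inj P (-Q) hP (neg_ne_zero.mpr hQ) (by rw [D.x_neg]; exact h) ?_)
    rw [D.y_neg Q hQ]; linear_combination h4

theorem add_ne_zero_of_x_ne {P Q : G} (h : D.x P ≠ D.x Q) : P + Q ≠ 0 := by
  intro h0
  apply h
  have : P = -Q := eq_neg_of_add_eq_zero_left h0
  rw [this, D.x_neg]

theorem sub_ne_zero_of_x_ne {P Q : G} (h : D.x P ≠ D.x Q) : P - Q ≠ 0 := by
  intro h0
  apply h
  rw [sub_eq_zero.mp h0]

/-- `(2y + x)² = x (4x² + (1 + 4 a2) x + 4 a4)`. -/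
theorem sq_two_y_add_x (P : G) (hP : P ≠ 0) :
    (2 * D.y P + D.x P) ^ 2 =
      D.x P * (4 * D.x P ^ 2 + (1 + 4 * D.a2) * D.x P + 4 * D.a4) := by
  linear_combination 4 * D.eqn P hP

theorem dbl_ne_zero {P : G} (hP : P ≠ 0) (h : 2 * D.y P + D.x P ≠ 0) : P + P ≠ 0 := by
  intro h0
  apply h
  have h1 : P = -P := eq_neg_of_add_eq_zero_left h0
  have h2 := D.y_neg P hP
  rw [← h1] at h2
  linear_combination h2

/-- A point with `x = 0` is `2`-torsion. -/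
theorem dbl_eq_zero_of_x_eq_zero {P : G} (hP : P ≠ 0) (hx : D.x P = 0) : P + P = 0 := by
  apply D.dbl_zero P hP
  have h := D.eqn P hP
  rw [hx] at h
  have hy : D.y P = 0 := by
    have : D.y P ^ 2 = 0 := by linear_combination h
    exact pow_eq_zero_iff (two_ne_zero) |>.mp this
  rw [hx, hy]; ring

/-- duplication formula in terms of `x` only -/
theorem x_dbl' (P : G) (hP : P ≠ 0) (h : 2 * D.y P + D.x P ≠ 0) :
    D.x (P + P) = (D.x P ^ 2 - D.a4) ^ 2 /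
      (D.x P * (4 * D.x P ^ 2 + (1 + 4 * D.a2) * D.x P + 4 * D.a4)) := by
  rw [D.x_dbl P hP h, D.sq_two_y_add_x P hP]

theorem den_ne_zero {P : G} (hP : P ≠ 0) (h : 2 * D.y P + D.x P ≠ 0) :
    D.x P * (4 * D.x P ^ 2 + (1 + 4 * D.a2) * D.x P + 4 * D.a4) ≠ 0 := by
  rw [← D.sq_two_y_add_x P hP]; exact pow_ne_zero 2 h

/-- `x (P - Q)` by the chord formula. -/
theorem x_sub (P Q : G) (hP : P ≠ 0) (hQ : Q ≠ 0) (h : D.x P ≠ D.x Q) :
    D.x (P - Q) = ((D.y P + D.y Q + D.x Q) / (D.x P - D.x Q)) ^ 2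
      + (D.y P + D.y Q + D.x Q) / (D.x P - D.x Q) - D.a2 - D.x P - D.x Q := by
  have := D.x_add P (-Q) hP (neg_ne_zero.mpr hQ) (by rwa [D.x_neg])
  rw [sub_eq_add_neg, this, D.x_neg, D.y_neg Q hQ]
  have e : D.y P - (-D.y Q - D.x Q) = D.y P + D.y Q + D.x Q := by ring
  rw [e]

/-- Sum formula: `x(P+Q) + x(P-Q)`. -/
theorem x_add_add_x_sub (P Q : G) (hP : P ≠ 0) (hQ : Q ≠ 0) (h : D.x P ≠ D.x Q) :
    D.x (P + Q) + D.x (P - Q) =
      (D.x P * D.x Q * (2 * (D.x P + D.x Q) + (1 + 4 * D.a2)) + 2 * D.a4 * (D.x P + D.x Q)) /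
        (D.x P - D.x Q) ^ 2 := by
  rw [D.x_add P Q hP hQ h, D.x_sub P Q hP hQ h]
  have h1 := D.eqn P hP
  have h2 := D.eqn Q hQ
  have hne : D.x P - D.x Q ≠ 0 := sub_ne_zero.mpr h
  field_simp
  linear_combination 2 * h1 + 2 * h2

/-- Product formula: `x(P+Q) * x(P-Q)`. -/
theorem x_add_mul_x_sub (P Q : G) (hP : P ≠ 0) (hQ : Q ≠ 0) (h : D.x P ≠ D.x Q) :
    D.x (P + Q) * D.x (P - Q) = (D.x P * D.x Q - D.a4) ^ 2 / (D.x P - D.x Q) ^ 2 := by
  rw [D.x_add P Q hP hQ h, D.x_sub P Q hP hQ h]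
  have h1 := D.eqn P hP
  have h2 := D.eqn Q hQ
  have hne : D.x P - D.x Q ≠ 0 := sub_ne_zero.mpr h
  field_simp
  set x1 := D.x P
  set x2 := D.x Q
  set y1 := D.y P
  set y2 := D.y Q
  set a2 := D.a2
  set a4 := D.a4
  linear_combination (-x1 ^ 3 + 2 * x1 ^ 2 * x2 - x1 ^ 2 * a2 + 2 * x1 * x2 ^ 2
      + 4 * x1 * x2 * a2 + x1 * x2 + x1 * y1 + x1 * a4 - 2 * x2 ^ 3 - 2 * x2 ^ 2 * a2 - x2 ^ 2
      - 2 * x2 * y2 + y1 ^ 2 - 2 * y2 ^ 2) * h1
    + (-4 * x1 ^ 3 + 2 * x1 ^ 2 * x2 - 4 * x1 ^ 2 * a2 - x1 ^ 2 + 2 * x1 * x2 ^ 2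
      + 4 * x1 * x2 * a2 + x1 * x2 - 2 * x1 * a4 - x2 ^ 3 - x2 ^ 2 * a2 + x2 * y2 + x2 * a4
      + y2 ^ 2) * h2

/-- The set `E₀` of points "with nonsingular reduction" (for a node at the origin):
the identity, and points with `x ≠ 0` of valuation `≤ 0`. -/
def E0 : Set G := {P | P = 0 ∨ (D.x P ≠ 0 ∧ D.w (D.x P) ≤ 0)}

/-- The set `E₁` ("kernel of reduction"): the identity, and points with `w x < 0`. -/
def E1 : Set G := {P | P = 0 ∨ (D.x P ≠ 0 ∧ D.w (D.x P) < 0)}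

theorem zero_mem_E0 : (0 : G) ∈ D.E0 := Or.inl rfl

theorem zero_mem_E1 : (0 : G) ∈ D.E1 := Or.inl rfl

theorem neg_mem_E0 {P : G} (h : P ∈ D.E0) : -P ∈ D.E0 := by
  rcases h with rfl | h
  · simp [zero_mem_E0]
  · right; rwa [D.x_neg]

theorem neg_mem_E1 {P : G} (h : P ∈ D.E1) : -P ∈ D.E1 := by
  rcases h with rfl | h
  · simp [zero_mem_E1]
  · right; rwa [D.x_neg]

theorem E1_subset_E0 : D.E1 ⊆ D.E0 := fun _ h => h.imp id (fun h => ⟨h.1, h.2.le⟩)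

end K2Datum

end Fermat.Agent.S13.K2
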