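import Mathlib
import Fermat.Agent.S13_K2Defs

set_option autoImplicit false

/-!
# S13, local analysis at `2`: the set `E₀` of a `K2Datum` is closed under addition

Port of `S05_E0` to the curve `y² + x y = x³ + a2 x² + a4 x` with `w 2 > 0`, `a2` integral and
`w a4 > 0`: the points with `w x ≤ 0` (together with the identity) are closed under addition.
The proof only uses the sum and product formulas for `x (P + Q)`, `x (P - Q)` and the duplication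
formula.
-/

namespace Fermat.Agent.S13.K2

open Fermat.Agent.S05

variable {K : Type*} [Field K] {G : Type*} [AddCommGroup G]

namespace E0

/-- Doubling stays in `E₀`. -/
theorem dbl_mem_E0 (D : K2Datum K G) {P : G} (hP0 : P ≠ 0)
    (hξ : D.x P ≠ 0) (hw : D.w (D.x P) ≤ 0) : P + P ∈ D.E0 := by
  by_cases hη : 2 * D.y P + D.x P = 0
  · exact Or.inl (D.dbl_zero P hP0 hη)
  right
  have hden0 := D.den_ne_zero hP0 hη
  set x := D.x P with hx
  set a := D.w x with ha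
  -- numerator
  have hx2 : x ^ 2 ≠ 0 := pow_ne_zero 2 hξ
  have hwx2 : D.w (x ^ 2) = 2 * a := by
    rw [D.w_pow hξ 2]; push_cast; ring
  have hnum := RVal.w_sub_eq_left (v := D.toRVal) hx2
    (y := D.a4) (D.a4_gt.mono (by rw [hwx2]; linarith))
  have hnum2 : (x ^ 2 - D.a4) ^ 2 ≠ 0 := pow_ne_zero 2 hnum.1
  have hwnum2 : D.w ((x ^ 2 - D.a4) ^ 2) = 4 * a := by
    rw [D.w_pow hnum.1 2, hnum.2, hwx2]; push_cast; ring
  -- denominator
  have hxge : D.GE a x := RVal.GE.of_le le_rfl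
  have hq : D.GE (2 * a) (4 * x ^ 2 + (1 + 4 * D.a2) * x + 4 * D.a4) := by
    refine RVal.GE.add (RVal.GE.add ?_ ?_) ?_
    · exact RVal.GE.int_mul (RVal.GE.ofNat 4) (RVal.GE.of_le (le_of_eq hwx2.symm))
    · exact (RVal.GE.int_mul D.b2_ge hxge).mono (by linarith)
    · exact (RVal.GE.int_mul (RVal.GE.ofNat 4) D.a4_ge).mono (by linarith)
  have hfge : D.GE (3 * a) (x * (4 * x ^ 2 + (1 + 4 * D.a2) * x + 4 * D.a4)) := by
    have := RVal.GE.mul hxge hq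
    exact this.mono (by linarith)
  have hwf : 3 * a ≤ D.w (x * (4 * x ^ 2 + (1 + 4 * D.a2) * x + 4 * D.a4)) := hfge.le hden0
  rw [D.x_dbl' P hP0 hη]
  refine ⟨div_ne_zero hnum2 hden0, ?_⟩
  rw [RVal.w_div D.toRVal hnum2 hden0, hwnum2]
  linarith

/-- The generic case `x P ≠ x Q`. -/
theorem add_mem_E0_of_ne (D : K2Datum K G) {P Q : G}
    (hP0 : P ≠ 0) (hξP : D.x P ≠ 0) (hwP : D.w (D.x P) ≤ 0)
    (hQ0 : Q ≠ 0) (hξQ : D.x Q ≠ 0) (hwQ : D.w (D.x Q) ≤ 0)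
    (hne : D.x P ≠ D.x Q) : P + Q ∈ D.E0 := by
  right
  have hprod := D.x_add_mul_x_sub P Q hP0 hQ0 hne
  have hsum := D.x_add_add_x_sub P Q hP0 hQ0 hne
  set x₁ := D.x P with hx₁
  set x₂ := D.x Q with hx₂
  set a := D.w x₁ with ha
  set b := D.w x₂ with hb
  set s := D.x (P + Q) with hs
  set t := D.x (P - Q) with ht
  have hd : x₁ - x₂ ≠ 0 := sub_ne_zero.mpr hne
  have hd2 : (x₁ - x₂) ^ 2 ≠ 0 := pow_ne_zero 2 hd
  set δ := D.w (x₁ - x₂) with hδ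
  have hwd2 : D.w ((x₁ - x₂) ^ 2) = 2 * δ := by
    rw [D.w_pow hd 2]; push_cast; ring
  -- the minimum of the two valuations
  obtain ⟨c, hca, hcb, hc⟩ : ∃ c : ℝ, c ≤ a ∧ c ≤ b ∧ (c = a ∨ c = b) :=
    ⟨min a b, min_le_left _ _, min_le_right _ _, min_choice a b⟩
  have hx₁ge : D.GE c x₁ := RVal.GE.of_le hca
  have hx₂ge : D.GE c x₂ := RVal.GE.of_le hcb
  have hcδ : c ≤ δ := (RVal.GE.sub hx₁ge hx₂ge).le hd
  -- the product
  have h12 : x₁ * x₂ ≠ 0 := mul_ne_zero hξP hξQ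
  have hw12 : D.w (x₁ * x₂) = a + b := D.w_mul x₁ x₂ hξP hξQ
  have hnum := RVal.w_sub_eq_left (v := D.toRVal) h12
    (y := D.a4) (D.a4_gt.mono (by rw [hw12]; linarith))
  have hnum2 : (x₁ * x₂ - D.a4) ^ 2 ≠ 0 := pow_ne_zero 2 hnum.1
  have hwnum2 : D.w ((x₁ * x₂ - D.a4) ^ 2) = 2 * (a + b) := by
    rw [D.w_pow hnum.1 2, hnum.2, hw12]; push_cast; ring
  have hst : s * t ≠ 0 := by rw [hprod]; exact div_ne_zero hnum2 hd2
  have hs0 : s ≠ 0 := left_ne_zero_of_mul hst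
  have ht0 : t ≠ 0 := right_ne_zero_of_mul hst
  have hwst : D.w s + D.w t = 2 * (a + b) - 2 * δ := by
    rw [← D.w_mul s t hs0 ht0, hprod, RVal.w_div D.toRVal hnum2 hd2, hwnum2, hwd2]
  refine ⟨hs0, ?_⟩
  by_contra hcon
  push Not at hcon
  -- `w t < w s`, so the sum has valuation `w t`
  have hlt : D.w t < D.w s := by
    rcases hc with hc | hc <;> linarith
  have hsumne := RVal.w_add_eq_right (v := D.toRVal) ht0 (x := s) (RVal.GT.of_lt hlt)
  -- lower bound for the numerator of the sum formula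
  have hN : D.GE (a + b + c)
      (x₁ * x₂ * (2 * (x₁ + x₂) + (1 + 4 * D.a2)) + 2 * D.a4 * (x₁ + x₂)) := by
    refine RVal.GE.add ?_ ?_
    · refine RVal.GE.mul (RVal.GE.of_le (le_of_eq hw12.symm)) ?_
      refine RVal.GE.add (RVal.GE.int_mul (RVal.GE.ofNat 2) (RVal.GE.add hx₁ge hx₂ge)) ?_
      exact D.b2_ge.mono (by linarith)
    · have h2a4 : D.GE 0 (2 * D.a4) := RVal.GE.int_mul (RVal.GE.ofNat 2) D.a4_ge
      have := RVal.GE.mul h2a4 (RVal.GE.add hx₁ge hx₂ge)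
      exact this.mono (by linarith)
  have hNeq : x₁ * x₂ * (2 * (x₁ + x₂) + (1 + 4 * D.a2)) + 2 * D.a4 * (x₁ + x₂)
      = (s + t) * (x₁ - x₂) ^ 2 := by
    rw [hsum]; field_simp
  rw [hNeq] at hN
  have hNne : (s + t) * (x₁ - x₂) ^ 2 ≠ 0 := mul_ne_zero hsumne.1 hd2
  have hle := hN.le hNne
  rw [D.w_mul _ _ hsumne.1 hd2, hsumne.2, hwd2] at hle
  rcases hc with hc | hc <;> linarith

end E0

/-- `E₀` is closed under addition. -/
theorem add_mem_E0 (D : K2Datum K G) {P Q : G}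
    (hP : P ∈ D.E0) (hQ : Q ∈ D.E0) : P + Q ∈ D.E0 := by
  rcases hP with rfl | ⟨hξP, hwP⟩
  · rw [zero_add]; exact hQ
  rcases hQ with rfl | ⟨hξQ, hwQ⟩
  · rw [add_zero]; exact Or.inr ⟨hξP, hwP⟩
  by_cases hP0 : P = 0
  · rw [hP0, zero_add]; exact Or.inr ⟨hξQ, hwQ⟩
  by_cases hQ0 : Q = 0
  · rw [hQ0, add_zero]; exact Or.inr ⟨hξP, hwP⟩
  by_cases hne : D.x P = D.x Q
  · rcases D.eq_or_eq_neg_of_x_eq hP0 hQ0 hne with h | h
    · rw [← h]; exact E0.dbl_mem_E0 D hP0 hξP hwP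
    · rw [h, neg_add_cancel]; exact D.zero_mem_E0
  · exact E0.add_mem_E0_of_ne D hP0 hξP hwP hQ0 hξQ hwQ hne

/-- `E₀` is closed under subtraction. -/
theorem sub_mem_E0 (D : K2Datum K G) {P Q : G}
    (hP : P ∈ D.E0) (hQ : Q ∈ D.E0) : P - Q ∈ D.E0 := by
  rw [sub_eq_add_neg]
  exact add_mem_E0 D hP (D.neg_mem_E0 hQ)

/-- `E₀` is closed under multiples. -/
theorem nsmul_mem_E0 (D : K2Datum K G) {Q : G} (hQ : Q ∈ D.E0) (n : ℕ) : n • Q ∈ D.E0 := by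
  induction n with
  | zero => rw [zero_smul]; exact D.zero_mem_E0
  | succ n ih => rw [succ_nsmul]; exact add_mem_E0 D ih hQ

end Fermat.Agent.S13.K2
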