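import Mathlib
import Fermat.Agent.S13_K2Defs

set_option autoImplicit false

/-!
# S13, local analysis at `2`: no odd torsion in the kernel of reduction

For a `K2Datum` (residue characteristic `2`), doubling a point of `E₁` goes strictly deeper
into the filtration `w x ≤ c`, and adding a strictly deeper point does not change the depth.
Hence an odd multiple of a nonzero point `R` of `E₁` has the same depth as `R`; in particular
`E₁` has no nonzero point of odd order.
-/

namespace Fermat.Agent.S13.K2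

open Fermat.Agent.S05

variable {K : Type*} [Field K] {G : Type*} [AddCommGroup G]

/-- quotient of an element of valuation `> c` by a nonzero element -/
theorem gt_div {v : RVal K} {c : ℝ} {n d : K} (hn : v.GT c n) (hd : d ≠ 0) :
    v.GT (c - v.w d) (n / d) := by
  rcases eq_or_ne n 0 with rfl | hn0
  · simp [RVal.GT.zero]
  · refine RVal.GT.of_lt ?_
    rw [v.w_div hn0 hd]
    linarith [hn.lt hn0]

/-- quotient of an element of valuation `≥ c` by a nonzero element -/
theorem ge_div {v : RVal K} {c : ℝ} {n d : K} (hn : v.GE c n) (hd : d ≠ 0) :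
    v.GE (c - v.w d) (n / d) := by
  rcases eq_or_ne n 0 with rfl | hn0
  · simp [RVal.GE.zero]
  · refine RVal.GE.of_le ?_
    rw [v.w_div hn0 hd]
    linarith [hn.le hn0]

namespace Tors

/-- Doubling a point of `E₁` goes strictly deeper. -/
theorem dbl_deeper (D : K2Datum K G) {P : G} (hP : P ≠ 0) (hx : D.x P ≠ 0)
    (hw : D.w (D.x P) < 0) :
    P + P = 0 ∨ (D.x (P + P) ≠ 0 ∧ D.w (D.x (P + P)) < D.w (D.x P)) := by
  by_cases h : 2 * D.y P + D.x P = 0
  · exact Or.inl (D.dbl_zero P hP h)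
  right
  have hden := D.den_ne_zero hP h
  rw [D.x_dbl' P hP h]
  set x := D.x P with hxdef
  set c := D.w x with hc
  -- numerator
  have hx2 : x ^ 2 ≠ 0 := pow_ne_zero 2 hx
  have hwx2 : D.w (x ^ 2) = 2 * c := by rw [D.w_pow hx 2]; push_cast; ring
  have hnum := RVal.w_sub_eq_left (v := D.toRVal) hx2 (y := D.a4)
    (D.a4_gt.mono (by rw [hwx2]; linarith))
  have hnum2 : (x ^ 2 - D.a4) ^ 2 ≠ 0 := pow_ne_zero 2 hnum.1
  have hwnum2 : D.w ((x ^ 2 - D.a4) ^ 2) = 4 * c := by
    rw [D.w_pow hnum.1 2, hnum.2, hwx2]; push_cast; ring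
  -- denominator
  have hxge : D.GE c x := RVal.GE.of_le le_rfl
  have hq : D.GT (2 * c) (4 * x ^ 2 + (1 + 4 * D.a2) * x + 4 * D.a4) := by
    refine RVal.GT.add (RVal.GT.add ?_ ?_) ?_
    · have := D.four_gt.mul_ge (RVal.GE.of_le (le_of_eq hwx2.symm) (x := x ^ 2))
      simpa using this
    · exact (RVal.GE.int_mul D.b2_ge hxge).gt_of_lt (by linarith)
    · exact (D.four_gt.mul_int D.a4_ge).mono (by linarith)
  have hden_gt : D.GT (3 * c) (x * (4 * x ^ 2 + (1 + 4 * D.a2) * x + 4 * D.a4)) :=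
    (hxge.mul_gt hq).mono (by linarith)
  have hwden := hden_gt.lt hden
  refine ⟨div_ne_zero hnum2 hden, ?_⟩
  rw [RVal.w_div D.toRVal hnum2 hden, hwnum2]
  linarith

/-- Adding a strictly deeper point of `E₁` does not change the depth. -/
theorem w_x_add_of_lt (D : K2Datum K G) {P Q : G} (hP : P ≠ 0) (hQ : Q ≠ 0)
    (hxP : D.x P ≠ 0) (hxQ : D.x Q ≠ 0) (hlt : D.w (D.x Q) < D.w (D.x P))
    (hneg : D.w (D.x P) < 0) :
    P + Q ≠ 0 ∧ D.x (P + Q) ≠ 0 ∧ D.w (D.x (P + Q)) = D.w (D.x P) := by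
  have hne : D.x P ≠ D.x Q := fun h => by rw [h] at hlt; exact lt_irrefl _ hlt
  have hsum := D.x_add_add_x_sub P Q hP hQ hne
  have hprod := D.x_add_mul_x_sub P Q hP hQ hne
  refine ⟨D.add_ne_zero_of_x_ne hne, ?_⟩
  set x1 := D.x P with hx1
  set x2 := D.x Q with hx2
  set c1 := D.w x1 with hc1
  set c2 := D.w x2 with hc2
  have hd := RVal.w_sub_eq_right (v := D.toRVal) hxQ (x := x1) (RVal.GT.of_lt hlt)
  have hd2 : (x1 - x2) ^ 2 ≠ 0 := pow_ne_zero 2 hd.1
  have hwd2 : D.w ((x1 - x2) ^ 2) = 2 * c2 := by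
    rw [D.w_pow hd.1 2, hd.2]; push_cast; ring
  -- the product
  have h12 : x1 * x2 ≠ 0 := mul_ne_zero hxP hxQ
  have hw12 : D.w (x1 * x2) = c1 + c2 := D.w_mul _ _ hxP hxQ
  have hn := RVal.w_sub_eq_left (v := D.toRVal) h12 (y := D.a4)
    (D.a4_gt.mono (by rw [hw12]; linarith))
  have hn2 : (x1 * x2 - D.a4) ^ 2 ≠ 0 := pow_ne_zero 2 hn.1
  have hwn2 : D.w ((x1 * x2 - D.a4) ^ 2) = 2 * (c1 + c2) := by
    rw [D.w_pow hn.1 2, hn.2, hw12]; push_cast; ring
  have hT0 : D.x (P + Q) * D.x (P - Q) ≠ 0 := by rw [hprod]; exact div_ne_zero hn2 hd2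
  have hTw : D.w (D.x (P + Q) * D.x (P - Q)) = 2 * c1 := by
    rw [hprod, RVal.w_div D.toRVal hn2 hd2, hwn2, hwd2]; ring
  have hA0 : D.x (P + Q) ≠ 0 := left_ne_zero_of_mul hT0
  have hB0 : D.x (P - Q) ≠ 0 := right_ne_zero_of_mul hT0
  rw [D.w_mul _ _ hA0 hB0] at hTw
  -- the sum
  have h1ge : D.GE c2 x1 := RVal.GE.of_le hlt.le
  have h2ge : D.GE c2 x2 := RVal.GE.of_le le_rfl
  have hsge : D.GE c2 (x1 + x2) := h1ge.add h2ge
  have hfac : D.GT c2 (2 * (x1 + x2) + (1 + 4 * D.a2)) := by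
    refine RVal.GT.add ?_ ?_
    · have := D.two_gt.mul_ge hsge
      simpa using this
    · exact D.b2_ge.gt_of_lt (by linarith)
  have hnum : D.GT (c1 + 2 * c2)
      (x1 * x2 * (2 * (x1 + x2) + (1 + 4 * D.a2)) + 2 * D.a4 * (x1 + x2)) := by
    refine RVal.GT.add ?_ ?_
    · have := (RVal.GE.of_le (le_of_eq hw12.symm) (x := x1 * x2)).mul_gt hfac
      exact this.mono (by linarith)
    · have := (D.two_gt.mul_int D.a4_ge).mul_ge hsge
      exact this.mono (by linarith)
  have hS : D.GT c1 (D.x (P + Q) + D.x (P - Q)) := by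
    rw [hsum]
    have := gt_div hnum hd2
    rw [hwd2] at this
    exact this.mono (by linarith)
  refine ⟨hA0, ?_⟩
  by_contra hcon
  have hneq : D.w (D.x (P + Q)) ≠ D.w (D.x (P - Q)) := by
    intro heq
    apply hcon
    linarith
  obtain ⟨hs0, hsw⟩ := RVal.w_add_of_ne (v := D.toRVal) hA0 hB0 hneq
  have hlt' := hS.lt hs0
  rw [hsw] at hlt'
  rcases lt_or_gt_of_ne hneq with h | h
  · rw [min_eq_left h.le] at hlt'; linarith
  · rw [min_eq_right h.le] at hlt'; linarith

/-- Odd multiples of a nonzero point of `E₁` keep its depth, even multiples are `0` or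
strictly deeper. -/
theorem nsmul_aux (D : K2Datum K G) {R : G} (hR : R ≠ 0) (hx : D.x R ≠ 0)
    (hw : D.w (D.x R) < 0) :
    ∀ k : ℕ, 0 < k →
      (Odd k → k • R ≠ 0 ∧ D.x (k • R) ≠ 0 ∧ D.w (D.x (k • R)) = D.w (D.x R)) ∧
      (Even k → k • R = 0 ∨ (D.x (k • R) ≠ 0 ∧ D.w (D.x (k • R)) < D.w (D.x R))) := by
  intro k
  induction k using Nat.strong_induction_on with
  | _ k ih =>
    intro hk
    constructor
    · rintro ⟨j, rfl⟩
      rcases Nat.eq_zero_or_pos j with rfl | hj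
      · simp [hR, hx]
      · have h2j : Even (2 * j) := even_two_mul j
        have hsplit : (2 * j + 1) • R = R + (2 * j) • R := by
          rw [add_nsmul, one_nsmul, add_comm]
        rw [hsplit]
        rcases eq_or_ne ((2 * j) • R) 0 with h0 | hQ
        · rw [h0, add_zero]; exact ⟨hR, hx, rfl⟩
        · rcases (ih (2 * j) (by omega) (by omega)).2 h2j with h0 | ⟨hx2, hw2⟩
          · exact absurd h0 hQ
          · exact w_x_add_of_lt D hR hQ hx hx2 hw2 hw
    · rintro ⟨j, rfl⟩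
      have hj : 0 < j := by omega
      have hsplit : (j + j) • R = j • R + j • R := add_nsmul R j j
      rw [hsplit]
      have key : j • R = 0 ∨ (D.x (j • R) ≠ 0 ∧ D.w (D.x (j • R)) ≤ D.w (D.x R)) := by
        rcases Nat.even_or_odd j with hje | hjo
        · rcases (ih j (by omega) hj).2 hje with h0 | ⟨h1, h2⟩
          · exact Or.inl h0
          · exact Or.inr ⟨h1, h2.le⟩
        · obtain ⟨-, h1, h2⟩ := (ih j (by omega) hj).1 hjo
          exact Or.inr ⟨h1, h2.le⟩
      rcases key with h0 | ⟨h1, h2⟩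
      · left; rw [h0, add_zero]
      · by_cases hQ : j • R = 0
        · left; rw [hQ, add_zero]
        · rcases dbl_deeper D hQ h1 (lt_of_le_of_lt h2 hw) with h | ⟨h3, h4⟩
          · exact Or.inl h
          · exact Or.inr ⟨h3, lt_of_lt_of_le h4 h2⟩

end Tors

/-- (B2) `E₁` has no nonzero point of odd order: a nonzero point of odd order has integral
`x`-coordinate. -/
theorem w_x_nonneg_of_torsion (D : K2Datum K G) (n : ℕ) (hn : Odd n) {P : G} (hP : P ≠ 0)
    (hnP : n • P = 0) (hx : D.x P ≠ 0) : 0 ≤ D.w (D.x P) := by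
  by_contra hneg
  push Not at hneg
  exact ((Tors.nsmul_aux D hP hx hneg n hn.pos).1 hn).1 hnP

end Fermat.Agent.S13.K2
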