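import Mathlib
import Fermat.Agent.S13_K2Defs
import Fermat.Agent.S13_K2Tors

set_option autoImplicit false

/-!
# S13, local analysis at `2`: points on the same component and branch; unipotent inertia

For a `K2Datum`, two points `P`, `Q` whose `x`-coordinates have the same valuation
`0 ≤ λ < w a4` and which lie on the same branch (`y Q * x P - y P * x Q` has valuation `> 2λ`)
satisfy `w (x (Q - P)) = 2λ - 2 w (x Q - x P) ≤ 0`; in particular `Q - P ∈ E₀`.  With the absence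
of odd torsion in `E₁` this gives: an inertia-like automorphism `φ` acts unipotently on the
points of odd order, `φ (φ P - P) = φ P - P`.
-/

namespace Fermat.Agent.S13.K2

open Fermat.Agent.S05

variable {K : Type*} [Field K] {G : Type*} [AddCommGroup G]

namespace Red

/-- `y` is divisible by `x` when `0 ≤ w x < w a4`. -/
theorem y_ge (D : K2Datum K G) {P : G} (hP : P ≠ 0)
    (h0 : 0 ≤ D.w (D.x P)) (hm : D.w (D.x P) < D.w D.a4) : D.GE (D.w (D.x P)) (D.y P) := by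
  by_contra hcon
  have hy0 : D.y P ≠ 0 := fun h => hcon (Or.inl h)
  have hlt : D.w (D.y P) < D.w (D.x P) := by
    by_contra h
    push Not at h
    exact hcon (Or.inr h)
  have heq := D.eqn P hP
  set x := D.x P with hxdef
  set y := D.y P with hydef
  set l := D.w x with hl
  have h1 := RVal.w_add_eq_left (v := D.toRVal) hy0 (y := x) (RVal.GT.of_lt hlt)
  have h2 : y ^ 2 + x * y = y * (y + x) := by ring
  have hw : D.w (y ^ 2 + x * y) = 2 * D.w y := by
    rw [h2, D.w_mul _ _ hy0 h1.1, h1.2]; ring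
  have hne : y ^ 2 + x * y ≠ 0 := by rw [h2]; exact mul_ne_zero hy0 h1.1
  have hxge : D.GE l x := RVal.GE.of_le le_rfl
  have hx2 : D.GE (2 * l) (x ^ 2) := by
    have := hxge.mul hxge
    rw [pow_two]; exact this.mono (by linarith)
  have hrhs : D.GE (2 * l) (x ^ 3 + D.a2 * x ^ 2 + D.a4 * x) := by
    refine RVal.GE.add (RVal.GE.add ?_ ?_) ?_
    · have := hx2.mul hxge
      have e : x ^ 3 = x ^ 2 * x := by ring
      rw [e]; exact this.mono (by linarith)
    · exact RVal.GE.int_mul D.a2_ge hx2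
    · have := (RVal.GE.of_le (le_refl (D.w D.a4)) (x := D.a4)).mul hxge
      exact this.mono (by linarith)
  rw [← heq] at hrhs
  have := hrhs.le hne
  rw [hw] at this
  linarith

/-- `2y + x` has the valuation of `x` when `0 ≤ w x < w a4`. -/
theorem w_two_y_add_x (D : K2Datum K G) {P : G} (hP : P ≠ 0) (hx : D.x P ≠ 0)
    (h0 : 0 ≤ D.w (D.x P)) (hm : D.w (D.x P) < D.w D.a4) :
    2 * D.y P + D.x P ≠ 0 ∧ D.w (2 * D.y P + D.x P) = D.w (D.x P) := by
  have hsq := D.sq_two_y_add_x P hP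
  set x := D.x P with hxdef
  set l := D.w x with hl
  have hb : (1 + 4 * D.a2) * x ≠ 0 := mul_ne_zero D.b2_ne hx
  have hwb : D.w ((1 + 4 * D.a2) * x) = l := by
    rw [D.w_mul _ _ D.b2_ne hx, D.w_b2]; ring
  have hxge : D.GE l x := RVal.GE.of_le le_rfl
  have hrest : D.GT l (4 * x ^ 2 + 4 * D.a4) := by
    refine RVal.GT.add ?_ ?_
    · have h1 : D.GE l (x ^ 2) := by
        have := hxge.mul hxge
        rw [pow_two]; exact this.mono (by linarith)
      have := D.four_gt.mul_ge h1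
      simpa using this
    · have := D.four_gt.mul_ge (RVal.GE.of_le (le_refl (D.w D.a4)) (x := D.a4))
      exact this.mono (by linarith)
  have hin : 4 * x ^ 2 + (1 + 4 * D.a2) * x + 4 * D.a4 ≠ 0 ∧
      D.w (4 * x ^ 2 + (1 + 4 * D.a2) * x + 4 * D.a4) = l := by
    have e : 4 * x ^ 2 + (1 + 4 * D.a2) * x + 4 * D.a4 =
        (1 + 4 * D.a2) * x + (4 * x ^ 2 + 4 * D.a4) := by ring
    rw [e, ← hwb]
    exact RVal.w_add_eq_left hb (by rw [hwb]; exact hrest)
  have hne2 : (2 * D.y P + x) ^ 2 ≠ 0 := by rw [hsq]; exact mul_ne_zero hx hin.1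
  have hne : 2 * D.y P + x ≠ 0 := fun h => hne2 (by rw [h]; ring)
  refine ⟨hne, ?_⟩
  have := congrArg D.w hsq
  rw [D.w_pow hne 2, D.w_mul _ _ hx hin.1, hin.2] at this
  push_cast at this
  linarith

/-- Same valuation `0 ≤ λ < w a4` of `x`, same branch, different `x`: the difference has
`w x = 2λ - 2 w (x Q - x P)`. -/
theorem w_x_sub (D : K2Datum K G) {P Q : G} (hP : P ≠ 0) (hQ : Q ≠ 0)
    (hxP : D.x P ≠ 0) (hxQ : D.x Q ≠ 0) (hw : D.w (D.x Q) = D.w (D.x P))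
    (h0 : 0 ≤ D.w (D.x P)) (hm : D.w (D.x P) < D.w D.a4)
    (hs : D.GT 0 (D.x P + D.x Q))
    (he : D.GT (2 * D.w (D.x P)) (D.y Q * D.x P - D.y P * D.x Q))
    (hne : D.x Q ≠ D.x P) :
    D.x (Q - P) ≠ 0 ∧ D.w (D.x (Q - P)) = 2 * D.w (D.x P) - 2 * D.w (D.x Q - D.x P) := by
  have hyge := y_ge D hP h0 hm
  have hform := D.x_sub Q P hQ hP hne
  have h1 := D.eqn P hP
  set x1 := D.x P with hx1
  set x2 := D.x Q with hx2
  set y1 := D.y P with hy1
  set y2 := D.y Q with hy2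
  set l := D.w x1 with hl
  set e := y2 * x1 - y1 * x2 with hedef
  have hd : x2 - x1 ≠ 0 := sub_ne_zero.mpr hne
  have hd2 : (x2 - x1) ^ 2 ≠ 0 := pow_ne_zero 2 hd
  -- the exact formula
  have hX : D.x (Q - P) = ((1 + 4 * D.a2) * (x1 * x2) + (D.a4 * (x1 + x2) ^ 2 / x1
      + x2 * (x1 + x2) * (3 * x1 - x2)
      + e * (2 * y1 * (x1 + x2) + x1 ^ 2 + x1 * x2) / x1 ^ 2 + e ^ 2 / x1 ^ 2)) /
        (x2 - x1) ^ 2 := by
    rw [hform, hedef]
    field_simp
    linear_combination (x1 + x2) ^ 2 * h1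
  -- valuations
  have h1ge : D.GE l x1 := RVal.GE.of_le le_rfl
  have h2ge : D.GE l x2 := RVal.GE.of_le (le_of_eq hw.symm)
  have hsge : D.GE l (x1 + x2) := h1ge.add h2ge
  have h12 : x1 * x2 ≠ 0 := mul_ne_zero hxP hxQ
  have hw12 : D.w (x1 * x2) = 2 * l := by rw [D.w_mul _ _ hxP hxQ, hw]; ring
  have hx1sq : x1 ^ 2 ≠ 0 := pow_ne_zero 2 hxP
  have hwx1sq : D.w (x1 ^ 2) = 2 * l := by rw [D.w_pow hxP 2]; push_cast; ring
  have hmain : (1 + 4 * D.a2) * (x1 * x2) ≠ 0 := mul_ne_zero D.b2_ne h12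
  have hwmain : D.w ((1 + 4 * D.a2) * (x1 * x2)) = 2 * l := by
    rw [D.w_mul _ _ D.b2_ne h12, D.w_b2, hw12]; ring
  have hrest : D.GT (2 * l) (D.a4 * (x1 + x2) ^ 2 / x1
      + x2 * (x1 + x2) * (3 * x1 - x2)
      + e * (2 * y1 * (x1 + x2) + x1 ^ 2 + x1 * x2) / x1 ^ 2 + e ^ 2 / x1 ^ 2) := by
    refine RVal.GT.add (RVal.GT.add (RVal.GT.add ?_ ?_) ?_) ?_
    · -- a4 (x1+x2)^2 / x1
      have hs2 : D.GE (2 * l) ((x1 + x2) ^ 2) := by
        have := hsge.mul hsge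
        rw [pow_two]; exact this.mono (by linarith)
      have h3 := (RVal.GE.of_le (le_refl (D.w D.a4)) (x := D.a4)).mul hs2
      have h4 := ge_div h3 hxP
      exact h4.gt_of_lt (by rw [← hl]; linarith)
    · -- x2 (x1+x2) (3 x1 - x2)
      have h3 : D.GE l (3 * x1 - x2) := by
        refine RVal.GE.sub ?_ h2ge
        exact RVal.GE.int_mul (RVal.GE.ofNat 3) h1ge
      have h4 := (h2ge.mul_gt hs).mul_ge h3
      exact h4.mono (by linarith)
    · -- e (...) / x1^2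
      have h3 : D.GE (2 * l) (2 * y1 * (x1 + x2) + x1 ^ 2 + x1 * x2) := by
        refine RVal.GE.add (RVal.GE.add ?_ ?_) ?_
        · have := (RVal.GE.int_mul (RVal.GE.ofNat 2) hyge).mul hsge
          exact this.mono (by linarith)
        · exact RVal.GE.of_le (le_of_eq hwx1sq.symm)
        · exact RVal.GE.of_le (le_of_eq hw12.symm)
      have h4 := gt_div (he.mul_ge h3) hx1sq
      rw [hwx1sq] at h4
      exact h4.mono (by linarith)
    · -- e^2 / x1^2
      have h3 : D.GT (2 * l + 2 * l) (e ^ 2) := by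
        rw [pow_two]; exact he.mul_ge he.ge
      have h4 := gt_div h3 hx1sq
      rw [hwx1sq] at h4
      exact h4.mono (by linarith)
  have hN := RVal.w_add_eq_left (v := D.toRVal) hmain (by rw [hwmain]; exact hrest)
  rw [hX]
  refine ⟨div_ne_zero hN.1 hd2, ?_⟩
  rw [RVal.w_div D.toRVal hN.1 hd2, hN.2, hwmain, D.w_pow hd 2]
  push_cast; ring

/-- Same `x` with `0 ≤ w x < w a4` and same branch: equal points. -/
theorem eq_of_x_eq (D : K2Datum K G) {P Q : G} (hP : P ≠ 0) (hQ : Q ≠ 0) (hxP : D.x P ≠ 0)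
    (h0 : 0 ≤ D.w (D.x P)) (hm : D.w (D.x P) < D.w D.a4)
    (he : D.GT (2 * D.w (D.x P)) (D.y Q * D.x P - D.y P * D.x Q)) (heq : D.x Q = D.x P) :
    Q = P := by
  rcases D.eq_or_eq_neg_of_x_eq hQ hP heq with h | h
  · exact h
  exfalso
  have hy : D.y Q = -D.y P - D.x P := by rw [h, D.y_neg P hP]
  obtain ⟨hne, hwt⟩ := w_two_y_add_x D hP hxP h0 hm
  have e1 : D.y Q * D.x P - D.y P * D.x Q = -(D.x P * (2 * D.y P + D.x P)) := by
    rw [hy, heq]; ring
  rw [e1] at he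
  have hprod : D.x P * (2 * D.y P + D.x P) ≠ 0 := mul_ne_zero hxP hne
  have := he.lt (neg_ne_zero.mpr hprod)
  rw [D.w_neg, D.w_mul _ _ hxP hne, hwt] at this
  linarith

/-- Doubling a point with `w x ≥ w a4` lands in `E₀`. -/
theorem dbl_mem_E0_of_ge (D : K2Datum K G) {P : G} (hP : P ≠ 0) (hx : D.x P ≠ 0)
    (hw : D.w D.a4 ≤ D.w (D.x P)) : P + P ∈ D.E0 := by
  by_cases h : 2 * D.y P + D.x P = 0
  · exact Or.inl (D.dbl_zero P hP h)
  right
  have hden := D.den_ne_zero hP h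
  rw [D.x_dbl' P hP h]
  set x := D.x P with hxdef
  set m := D.w D.a4 with hmdef
  have hmpos : 0 < m := D.w_a4
  have hx2 : D.GT m (x ^ 2) := by
    refine RVal.GT.of_lt ?_
    rw [D.w_pow hx 2]; push_cast; linarith
  have hnum := RVal.w_sub_eq_right (v := D.toRVal) D.a4_ne (x := x ^ 2) hx2
  have hnum2 : (x ^ 2 - D.a4) ^ 2 ≠ 0 := pow_ne_zero 2 hnum.1
  have hwnum2 : D.w ((x ^ 2 - D.a4) ^ 2) = 2 * m := by
    rw [D.w_pow hnum.1 2, hnum.2]; push_cast; ring
  have hxge : D.GE (D.w x) x := RVal.GE.of_le le_rfl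
  have hin : D.GE m (4 * x ^ 2 + (1 + 4 * D.a2) * x + 4 * D.a4) := by
    refine RVal.GE.add (RVal.GE.add ?_ ?_) ?_
    · exact RVal.GE.int_mul (RVal.GE.ofNat 4) hx2.ge
    · exact (RVal.GE.int_mul D.b2_ge hxge).mono hw
    · exact RVal.GE.int_mul (RVal.GE.ofNat 4) (RVal.GE.of_le le_rfl)
  have hdge := (hxge.mul hin).le hden
  refine ⟨div_ne_zero hnum2 hden, ?_⟩
  rw [RVal.w_div D.toRVal hnum2 hden, hwnum2]
  linarith

/-- A point killed by `2` and by an odd number is zero. -/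
theorem eq_zero_of_odd_nsmul {n : ℕ} (hn : Odd n) {R : G} (h2 : R + R = 0) (hnR : n • R = 0) :
    R = 0 := by
  obtain ⟨j, rfl⟩ := hn
  have : (2 * j + 1) • R = j • (R + R) + R := by
    rw [add_nsmul, one_nsmul, two_mul, add_nsmul, nsmul_add]
  rw [this, h2, nsmul_zero, zero_add] at hnR
  exact hnR

end Red

namespace I2Datum

variable (D : I2Datum K G)

theorem σ_ne_zero {z : K} (hz : z ≠ 0) : D.σ z ≠ 0 :=
  (map_ne_zero_iff _ D.σ.injective).mpr hz

/-- `σ z - z` has positive valuation for integral `z` -/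
theorem σ_sub_gt {z : K} (hz : D.GE 0 z) : D.GT 0 (D.σ z - z) := by
  rcases eq_or_ne z 0 with rfl | hz0
  · simp [RVal.GT.zero]
  rcases D.σ_cong z hz0 (hz.le hz0) with h | h
  · rw [h, sub_self]; exact RVal.GT.zero 0
  · exact RVal.GT.of_lt h

/-- The key computation: for a point with `0 ≤ w x < w a4`, either `φ P = P` or
`σ x ≠ x` and `w (x (φ P - P)) = 2 w x - 2 w (σ x - x)`. -/
theorem φ_sub (D : I2Datum K G) {P : G} (hP : P ≠ 0) (hx : D.x P ≠ 0)
    (h0 : 0 ≤ D.w (D.x P)) (hm : D.w (D.x P) < D.w D.a4) :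
    D.φ P = P ∨ (D.σ (D.x P) ≠ D.x P ∧ D.x (D.φ P - P) ≠ 0 ∧
      D.w (D.x (D.φ P - P)) = 2 * D.w (D.x P) - 2 * D.w (D.σ (D.x P) - D.x P)) := by
  have hQ : D.φ P ≠ 0 := D.φ_ne P hP
  have hxQ : D.x (D.φ P) = D.σ (D.x P) := D.x_φ P hP
  have hyQ : D.y (D.φ P) = D.σ (D.y P) := D.y_φ P hP
  have hσx : D.σ (D.x P) ≠ 0 := D.σ_ne_zero hx
  have hwσ : D.w (D.σ (D.x P)) = D.w (D.x P) := D.w_σ _ hx
  have hyge := Red.y_ge D.toK2Datum hP h0 hm
  -- the branch condition
  have hu : D.GE 0 (D.y P / D.x P) := by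
    have := ge_div hyge hx
    simpa using this
  have hε := D.σ_sub_gt hu
  have he : D.GT (2 * D.w (D.x P)) (D.y (D.φ P) * D.x P - D.y P * D.x (D.φ P)) := by
    have e1 : D.y (D.φ P) * D.x P - D.y P * D.x (D.φ P) =
        D.x P * D.σ (D.x P) * (D.σ (D.y P / D.x P) - D.y P / D.x P) := by
      rw [hxQ, hyQ, map_div₀]
      field_simp
    rw [e1]
    have h2 : D.GE (2 * D.w (D.x P)) (D.x P * D.σ (D.x P)) := by
      refine RVal.GE.of_le ?_
      rw [D.w_mul _ _ hx hσx, hwσ]; linarith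
    have := h2.mul_gt hε
    simpa using this
  have hs : D.GT 0 (D.x P + D.x (D.φ P)) := by
    rw [hxQ]
    have e2 : D.x P + D.σ (D.x P) = 2 * D.x P + (D.σ (D.x P) - D.x P) := by ring
    rw [e2]
    exact (D.two_gt.mul_int (RVal.GE.of_le h0)).add (D.σ_sub_gt (RVal.GE.of_le h0))
  by_cases hfix : D.σ (D.x P) = D.x P
  · left
    exact Red.eq_of_x_eq D.toK2Datum hP hQ hx h0 hm he (hxQ.trans hfix)
  · right
    have := Red.w_x_sub D.toK2Datum hP hQ hx (hxQ ▸ hσx) (by rw [hxQ, hwσ]) h0 hm hs he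
      (by rw [hxQ]; exact hfix)
    rw [hxQ] at this
    exact ⟨hfix, this⟩

/-- Points of odd order in `E₀` are fixed by `φ`. -/
theorem φ_eq_of_mem_E0 (D : I2Datum K G) (n : ℕ) (hn : Odd n) {R : G} (hnR : n • R = 0)
    (hR : R ∈ D.E0) : D.φ R = R := by
  rcases hR with rfl | ⟨hx, hle⟩
  · exact map_zero _
  by_cases hR0 : R = 0
  · rw [hR0]; exact map_zero _
  have hge := w_x_nonneg_of_torsion D.toK2Datum n hn hR0 hnR hx
  have hw0 : D.w (D.x R) = 0 := le_antisymm hle hge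
  rcases φ_sub D hR0 hx hge (by rw [hw0]; exact D.w_a4) with h | ⟨hne, hx', hw'⟩
  · exact h
  exfalso
  have hd : D.σ (D.x R) - D.x R ≠ 0 := sub_ne_zero.mpr hne
  have hpos : 0 < D.w (D.σ (D.x R) - D.x R) :=
    (D.σ_sub_gt (RVal.GE.of_le hge)).lt hd
  have hS0 : D.φ R - R ≠ 0 := by
    apply D.sub_ne_zero_of_x_ne
    rw [D.x_φ R hR0]; exact hne
  have hnS : n • (D.φ R - R) = 0 := by
    rw [nsmul_sub, ← map_nsmul, hnR, map_zero, sub_zero]
  have := w_x_nonneg_of_torsion D.toK2Datum n hn hS0 hnS hx'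
  rw [hw', hw0] at this
  linarith

/-- (U2) An inertia-like automorphism acts unipotently on the points of odd order. -/
theorem φ_sub_fixed (D : I2Datum K G) (n : ℕ) (hn : Odd n) (P : G) (hnP : n • P = 0) :
    D.φ (D.φ P - P) = D.φ P - P := by
  by_cases hP : P = 0
  · rw [hP]; simp
  have hnφ : n • (D.φ P - P) = 0 := by
    rw [nsmul_sub, ← map_nsmul, hnP, map_zero, sub_zero]
  by_cases hx : D.x P = 0
  · exact absurd (Red.eq_zero_of_odd_nsmul hn (D.dbl_eq_zero_of_x_eq_zero hP hx) hnP) hP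
  rcases le_or_gt (D.w (D.x P)) 0 with hle | hpos
  · have := φ_eq_of_mem_E0 D n hn hnP (Or.inr ⟨hx, hle⟩)
    rw [this, sub_self, map_zero]
  rcases lt_or_ge (D.w (D.x P)) (D.w D.a4) with hlt | hge
  · rcases φ_sub D hP hx hpos.le hlt with h | ⟨hne, hx', hw'⟩
    · rw [h, sub_self, map_zero]
    · apply φ_eq_of_mem_E0 D n hn hnφ
      right
      refine ⟨hx', ?_⟩
      have hd : D.σ (D.x P) - D.x P ≠ 0 := sub_ne_zero.mpr hne
      have h1 : D.GE (D.w (D.x P)) (D.σ (D.x P) - D.x P) :=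
        (RVal.GE.of_le (le_of_eq (D.w_σ _ hx).symm)).sub (RVal.GE.of_le le_rfl)
      have := h1.le hd
      rw [hw']
      linarith
  · have h2 := Red.dbl_mem_E0_of_ge D.toK2Datum hP hx hge
    have hn2 : n • (P + P) = 0 := by rw [nsmul_add, hnP, add_zero]
    have hfix := φ_eq_of_mem_E0 D n hn hn2 h2
    have hzero : D.φ P - P = 0 := by
      apply Red.eq_zero_of_odd_nsmul hn _ hnφ
      rw [map_add] at hfix
      have : D.φ P - P + (D.φ P - P) = D.φ P + D.φ P - (P + P) := by abel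
      rw [this, hfix, sub_self]
    rw [hzero, map_zero]

end I2Datum

end Fermat.Agent.S13.K2
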