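import Mathlib
import Fermat.Agent.S05_Comp
import Fermat.Agent.S13_K2E0
import Fermat.Agent.S13_K2Red

set_option autoImplicit false

/-!
# S13, local analysis at `2`: folding of levels (port of `S05_Comp`)

For the curve `y² + x y = x³ + a2 x² + a4 x` with `w 2 > 0`, `a2` integral, `m = w a4 > 0`:
the valuations of the `x`-coordinates of a cyclic group of `p`-torsion points (`p` odd) outside
`E₀` fold additively modulo `2 m`; consequently `p · w (x P) ∈ 2 m ℤ`.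
-/

namespace Fermat.Agent.S13.K2

open Fermat.Agent.S05

variable {K : Type*} [Field K] {G : Type*} [AddCommGroup G]

namespace Fold

/-- Interior points: nonzero, with `0 < w x < w a4`. -/
def Inter (D : K2Datum K G) (Q : G) : Prop :=
  Q ≠ 0 ∧ D.x Q ≠ 0 ∧ 0 < D.w (D.x Q) ∧ D.w (D.x Q) < D.w D.a4

theorem Inter.neg {D : K2Datum K G} {Q : G} (h : Inter D Q) : Inter D (-Q) := by
  obtain ⟨h1, h2, h3, h4⟩ := h
  refine ⟨neg_ne_zero.mpr h1, ?_, ?_, ?_⟩ <;> rw [D.x_neg] <;> assumption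

/-- Multiples of a `p`-torsion point outside `E₀` by integers prime to `p` stay outside `E₀`. -/
theorem nsmul_not_mem_E0 (D : K2Datum K G) (p : ℕ) (hp : p.Prime) {P : G}
    (hpP : p • P = 0) (hP : P ∉ D.E0) (n : ℕ) (hn : ¬ p ∣ n) : n • P ∉ D.E0 := by
  intro hmem
  apply hP
  have hcop : n.Coprime p := ((Nat.Prime.coprime_iff_not_dvd hp).mpr hn).symm
  obtain ⟨l, -, hl⟩ := Nat.exists_mul_mod_eq_one_of_coprime hcop hp.one_lt
  have h1 : (n * l) • P = P := by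
    have h2 : n * l = p * (n * l / p) + 1 := by
      have := Nat.div_add_mod (n * l) p
      omega
    rw [h2, add_nsmul, mul_nsmul, hpP, nsmul_zero, zero_add, one_nsmul]
  have h3 : (n * l) • P = l • (n • P) := by
    rw [mul_nsmul]
  rw [← h1, h3]
  exact nsmul_mem_E0 D hmem l

/-- All multiples `n • P`, `p ∤ n`, of a `p`-torsion point outside `E₀` (`p` odd) are interior. -/
theorem inter_nsmul (D : K2Datum K G) (p : ℕ) (hp : p.Prime) (hp2 : p ≠ 2) {P : G}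
    (hpP : p • P = 0) (hP : P ∉ D.E0) (n : ℕ) (hn : ¬ p ∣ n) : Inter D (n • P) := by
  have h1 := nsmul_not_mem_E0 D p hp hpP hP n hn
  have h2 : ¬ p ∣ 2 * n := by
    intro hd
    rcases (Nat.Prime.dvd_mul hp).mp hd with h | h
    · exact hp2 ((Nat.prime_dvd_prime_iff_eq hp Nat.prime_two).mp h)
    · exact hn h
  have h3 := nsmul_not_mem_E0 D p hp hpP hP (2 * n) h2
  have h0 : n • P ≠ 0 := fun h => h1 (h ▸ D.zero_mem_E0)
  have hdbl : (2 * n) • P = n • P + n • P := by rw [mul_nsmul', two_nsmul]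
  have hx0 : D.x (n • P) ≠ 0 := by
    intro h
    apply h3
    rw [hdbl, D.dbl_eq_zero_of_x_eq_zero h0 h]
    exact D.zero_mem_E0
  have hlt : D.w (D.x (n • P)) < D.w D.a4 := by
    by_contra hle
    apply h3
    rw [hdbl]
    exact Red.dbl_mem_E0_of_ge D h0 hx0 (not_lt.mp hle)
  refine ⟨h0, hx0, ?_, hlt⟩
  by_contra hle
  exact h1 (Or.inr ⟨hx0, not_lt.mp hle⟩)

/-- The pair formula, ordered case `w x₁ < w x₂`. -/
theorem pair_of_lt (D : K2Datum K G)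
    {Q₁ Q₂ : G} (h1 : Inter D Q₁) (h2 : Inter D Q₂) (hs : Inter D (Q₁ + Q₂))
    (hd : Inter D (Q₁ - Q₂)) (hlt : D.w (D.x Q₁) < D.w (D.x Q₂)) :
    (Comp.R (D.w D.a4) (D.w (D.x (Q₁ + Q₂))) (D.w (D.x Q₁) + D.w (D.x Q₂)) ∧
      Comp.R (D.w D.a4) (D.w (D.x (Q₁ - Q₂))) (D.w (D.x Q₁) - D.w (D.x Q₂))) ∨
    (Comp.R (D.w D.a4) (D.w (D.x (Q₁ + Q₂))) (D.w (D.x Q₁) - D.w (D.x Q₂)) ∧
      Comp.R (D.w D.a4) (D.w (D.x (Q₁ - Q₂))) (D.w (D.x Q₁) + D.w (D.x Q₂))) := by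
  have hA4 : D.a4 ≠ 0 := D.a4_ne
  obtain ⟨hQ₁, hx₁, hpos₁, hlt₁⟩ := h1
  obtain ⟨hQ₂, hx₂, hpos₂, hlt₂⟩ := h2
  obtain ⟨-, hxs, hposs, hlts⟩ := hs
  obtain ⟨-, hxd, hposd, hltd⟩ := hd
  set x₁ := D.x Q₁ with hx₁def
  set x₂ := D.x Q₂ with hx₂def
  set l₁ := D.w x₁ with hl₁
  set l₂ := D.w x₂ with hl₂
  set m := D.w D.a4 with hmdef
  have hne : x₁ ≠ x₂ := by
    intro h; rw [hl₁, hl₂, h] at hlt; exact lt_irrefl _ hlt
  have hsum := D.x_add_add_x_sub Q₁ Q₂ hQ₁ hQ₂ hne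
  have hprod := D.x_add_mul_x_sub Q₁ Q₂ hQ₁ hQ₂ hne
  rw [← hx₁def, ← hx₂def] at hsum hprod
  -- the difference
  have hdiff : x₁ - x₂ ≠ 0 ∧ D.w (x₁ - x₂) = l₁ :=
    RVal.w_sub_eq_left hx₁ (RVal.GT.of_lt hlt)
  have hdiff2 : (x₁ - x₂) ^ 2 ≠ 0 := pow_ne_zero 2 hdiff.1
  have hwdiff2 : D.w ((x₁ - x₂) ^ 2) = 2 * l₁ := by
    rw [D.w_pow hdiff.1, hdiff.2]; push_cast; ring
  have h12 : x₁ * x₂ ≠ 0 := mul_ne_zero hx₁ hx₂
  have hw12 : D.w (x₁ * x₂) = l₁ + l₂ := D.w_mul _ _ hx₁ hx₂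
  -- the numerator of the sum
  have hmain : (1 + 4 * D.a2) * (x₁ * x₂) ≠ 0 := mul_ne_zero D.b2_ne h12
  have hwmain : D.w ((1 + 4 * D.a2) * (x₁ * x₂)) = l₁ + l₂ := by
    rw [D.w_mul _ _ D.b2_ne h12, D.w_b2, hw12]; ring
  have hgt1 : D.GT 0 (x₁ + x₂) := (RVal.GT.of_lt hpos₁).add (RVal.GT.of_lt hpos₂)
  have hge1 : D.GE l₁ (x₁ + x₂) :=
    (RVal.GE.of_le le_rfl).add (RVal.GE.of_le hlt.le)
  have hrest : D.GT (l₁ + l₂) (x₁ * x₂ * (2 * (x₁ + x₂)) + 2 * D.a4 * (x₁ + x₂)) := by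
    refine RVal.GT.add ?_ ?_
    · have := (RVal.GE.of_le (le_of_eq hw12.symm) (x := x₁ * x₂)).mul_gt
        (RVal.GT.int_mul (RVal.GE.ofNat 2) hgt1)
      simpa using this
    · have h2a4 : D.GE m (2 * D.a4) :=
        RVal.GE.int_mul (RVal.GE.ofNat 2) (RVal.GE.of_le (le_refl m))
      have := h2a4.mul hge1
      exact this.gt_of_lt (by linarith)
  have hN : x₁ * x₂ * (2 * (x₁ + x₂) + (1 + 4 * D.a2)) + 2 * D.a4 * (x₁ + x₂) =
      (1 + 4 * D.a2) * (x₁ * x₂) + (x₁ * x₂ * (2 * (x₁ + x₂)) + 2 * D.a4 * (x₁ + x₂)) := by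
    ring
  have hNw : x₁ * x₂ * (2 * (x₁ + x₂) + (1 + 4 * D.a2)) + 2 * D.a4 * (x₁ + x₂) ≠ 0 ∧
      D.w (x₁ * x₂ * (2 * (x₁ + x₂) + (1 + 4 * D.a2)) + 2 * D.a4 * (x₁ + x₂)) = l₁ + l₂ := by
    rw [hN, ← hwmain]
    exact RVal.w_add_eq_left hmain (by rw [hwmain]; exact hrest)
  have hS0 : D.x (Q₁ + Q₂) + D.x (Q₁ - Q₂) ≠ 0 := by
    rw [hsum]
    exact div_ne_zero hNw.1 hdiff2
  have hSw : D.w (D.x (Q₁ + Q₂) + D.x (Q₁ - Q₂)) = l₂ - l₁ := by
    rw [hsum, D.w_div hNw.1 hdiff2, hNw.2, hwdiff2]; ring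
  -- the product
  have hT0 : D.x (Q₁ + Q₂) * D.x (Q₁ - Q₂) ≠ 0 := mul_ne_zero hxs hxd
  have hM0 : x₁ * x₂ - D.a4 ≠ 0 := by
    intro h0
    apply hT0
    rw [hprod, h0]; simp
  have hTw : D.w (D.x (Q₁ + Q₂)) + D.w (D.x (Q₁ - Q₂)) = 2 * D.w (x₁ * x₂ - D.a4) - 2 * l₁ := by
    rw [← D.w_mul _ _ hxs hxd, hprod, D.w_div (pow_ne_zero 2 hM0) hdiff2, D.w_pow hM0, hwdiff2]
    push_cast; ring
  set a := D.w (D.x (Q₁ + Q₂)) with ha
  set b := D.w (D.x (Q₁ - Q₂)) with hb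
  -- lower bound for the valuation of `x₁ x₂ - a4`
  have hMge : min (l₁ + l₂) m ≤ D.w (x₁ * x₂ - D.a4) := by
    have := D.w_add (x₁ * x₂) (-D.a4) h12 (neg_ne_zero.mpr hA4) (by rwa [← sub_eq_add_neg])
    rwa [D.w_neg, hw12, ← sub_eq_add_neg] at this
  -- `a ≠ b`
  have hab : a ≠ b := by
    intro hab
    have h3 := D.w_add _ _ hxs hxd hS0
    rw [hSw, ← ha, ← hb, ← hab, min_self] at h3
    rcases le_total (l₁ + l₂) m with h4 | h4
    · rw [min_eq_left h4] at hMge; linarith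
    · rw [min_eq_right h4] at hMge; linarith
  have hmin : l₂ - l₁ = min a b := by
    rw [← hSw]; exact (RVal.w_add_of_ne hxs hxd hab).2
  -- the three cases
  rcases lt_trichotomy (l₁ + l₂) m with hc | hc | hc
  · have hMw : D.w (x₁ * x₂ - D.a4) = l₁ + l₂ := by
      rw [← hw12]
      exact (RVal.w_sub_eq_left h12 (RVal.GT.of_lt (by rw [hw12]; exact hc))).2
    rw [hMw] at hTw
    rcases le_total a b with h5 | h5
    · rw [min_eq_left h5] at hmin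
      exact Or.inr ⟨⟨0, Or.inr (by push_cast; linarith)⟩, ⟨0, Or.inl (by push_cast; linarith)⟩⟩
    · rw [min_eq_right h5] at hmin
      exact Or.inl ⟨⟨0, Or.inl (by push_cast; linarith)⟩, ⟨0, Or.inr (by push_cast; linarith)⟩⟩
  · exfalso
    rw [hc, min_self] at hMge
    rcases le_total a b with h5 | h5
    · rw [min_eq_left h5] at hmin; linarith
    · rw [min_eq_right h5] at hmin; linarith
  · have hMw : D.w (x₁ * x₂ - D.a4) = m :=
      (RVal.w_sub_eq_right hA4 (RVal.GT.of_lt (by rw [hw12]; exact hc))).2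
    rw [hMw] at hTw
    rcases le_total a b with h5 | h5
    · rw [min_eq_left h5] at hmin
      exact Or.inr ⟨⟨0, Or.inr (by push_cast; linarith)⟩, ⟨1, Or.inr (by push_cast; linarith)⟩⟩
    · rw [min_eq_right h5] at hmin
      exact Or.inl ⟨⟨1, Or.inr (by push_cast; linarith)⟩, ⟨0, Or.inr (by push_cast; linarith)⟩⟩

/-- Two interior points whose sum and difference are interior have different valuations. -/
theorem w_ne_of_inter (D : K2Datum K G)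
    {Q₁ Q₂ : G} (h1 : Inter D Q₁) (h2 : Inter D Q₂) (hs : Inter D (Q₁ + Q₂))
    (hd : Inter D (Q₁ - Q₂)) : D.w (D.x Q₁) ≠ D.w (D.x Q₂) := by
  intro heq
  obtain ⟨hQ₁, hx₁, hpos₁, hlt₁⟩ := h1
  obtain ⟨hQ₂, hx₂, hpos₂, hlt₂⟩ := h2
  obtain ⟨hs0, hxs, hposs, hlts⟩ := hs
  obtain ⟨hd0, hxd, hposd, hltd⟩ := hd
  have hne : D.x Q₁ ≠ D.x Q₂ := by
    intro h
    rcases D.eq_or_eq_neg_of_x_eq hQ₁ hQ₂ h with h' | h'
    · exact hd0 (by rw [h', sub_self])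
    · exact hs0 (by rw [h', neg_add_cancel])
  have hsum := D.x_add_add_x_sub Q₁ Q₂ hQ₁ hQ₂ hne
  set x₁ := D.x Q₁ with hx₁def
  set x₂ := D.x Q₂ with hx₂def
  set l := D.w x₂ with hl
  have hdiff : x₁ - x₂ ≠ 0 := sub_ne_zero.mpr hne
  have hdge : l ≤ D.w (x₁ - x₂) :=
    ((RVal.GE.of_le (le_of_eq heq.symm)).sub (RVal.GE.of_le le_rfl) : D.GE l (x₁ - x₂)).le hdiff
  have hdiff2 : (x₁ - x₂) ^ 2 ≠ 0 := pow_ne_zero 2 hdiff
  have hwdiff2 : D.w ((x₁ - x₂) ^ 2) = 2 * D.w (x₁ - x₂) := by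
    rw [D.w_pow hdiff]; push_cast; ring
  have h12 : x₁ * x₂ ≠ 0 := mul_ne_zero hx₁ hx₂
  have hw12 : D.w (x₁ * x₂) = 2 * l := by rw [D.w_mul _ _ hx₁ hx₂, heq]; ring
  have hmain : (1 + 4 * D.a2) * (x₁ * x₂) ≠ 0 := mul_ne_zero D.b2_ne h12
  have hwmain : D.w ((1 + 4 * D.a2) * (x₁ * x₂)) = 2 * l := by
    rw [D.w_mul _ _ D.b2_ne h12, D.w_b2, hw12]; ring
  have hgt1 : D.GT 0 (x₁ + x₂) := (RVal.GT.of_lt hpos₁).add (RVal.GT.of_lt hpos₂)
  have hge1 : D.GE l (x₁ + x₂) :=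
    (RVal.GE.of_le (le_of_eq heq.symm)).add (RVal.GE.of_le le_rfl)
  have hrest : D.GT (2 * l) (x₁ * x₂ * (2 * (x₁ + x₂)) + 2 * D.a4 * (x₁ + x₂)) := by
    refine RVal.GT.add ?_ ?_
    · have := (RVal.GE.of_le (le_of_eq hw12.symm) (x := x₁ * x₂)).mul_gt
        (RVal.GT.int_mul (RVal.GE.ofNat 2) hgt1)
      simpa using this
    · have h2a4 : D.GE (D.w D.a4) (2 * D.a4) :=
        RVal.GE.int_mul (RVal.GE.ofNat 2) (RVal.GE.of_le (le_refl (D.w D.a4)))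
      have := h2a4.mul hge1
      exact this.gt_of_lt (by linarith)
  have hN : x₁ * x₂ * (2 * (x₁ + x₂) + (1 + 4 * D.a2)) + 2 * D.a4 * (x₁ + x₂) =
      (1 + 4 * D.a2) * (x₁ * x₂) + (x₁ * x₂ * (2 * (x₁ + x₂)) + 2 * D.a4 * (x₁ + x₂)) := by
    ring
  have hNw : x₁ * x₂ * (2 * (x₁ + x₂) + (1 + 4 * D.a2)) + 2 * D.a4 * (x₁ + x₂) ≠ 0 ∧
      D.w (x₁ * x₂ * (2 * (x₁ + x₂) + (1 + 4 * D.a2)) + 2 * D.a4 * (x₁ + x₂)) = 2 * l := by
    rw [hN, ← hwmain]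
    exact RVal.w_add_eq_left hmain (by rw [hwmain]; exact hrest)
  have hS0 : D.x (Q₁ + Q₂) + D.x (Q₁ - Q₂) ≠ 0 := by
    rw [hsum]
    exact div_ne_zero hNw.1 hdiff2
  have hSw : D.w (D.x (Q₁ + Q₂) + D.x (Q₁ - Q₂)) = 2 * l - 2 * D.w (x₁ - x₂) := by
    rw [hsum, D.w_div hNw.1 hdiff2, hNw.2, hwdiff2]
  have h3 := D.w_add _ _ hxs hxd hS0
  have h4 : 0 < min (D.w (D.x (Q₁ + Q₂))) (D.w (D.x (Q₁ - Q₂))) := lt_min hposs hposd
  linarith

/-- The pair formula. -/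
theorem pair (D : K2Datum K G)
    {Q₁ Q₂ : G} (h1 : Inter D Q₁) (h2 : Inter D Q₂) (hs : Inter D (Q₁ + Q₂))
    (hd : Inter D (Q₁ - Q₂)) :
    (Comp.R (D.w D.a4) (D.w (D.x (Q₁ + Q₂))) (D.w (D.x Q₁) + D.w (D.x Q₂)) ∧
      Comp.R (D.w D.a4) (D.w (D.x (Q₁ - Q₂))) (D.w (D.x Q₁) - D.w (D.x Q₂))) ∨
    (Comp.R (D.w D.a4) (D.w (D.x (Q₁ + Q₂))) (D.w (D.x Q₁) - D.w (D.x Q₂)) ∧
      Comp.R (D.w D.a4) (D.w (D.x (Q₁ - Q₂))) (D.w (D.x Q₁) + D.w (D.x Q₂))) := by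
  rcases lt_trichotomy (D.w (D.x Q₁)) (D.w (D.x Q₂)) with hlt | heq | hgt
  · exact pair_of_lt D h1 h2 hs hd hlt
  · exact absurd heq (w_ne_of_inter D h1 h2 hs hd)
  · have hs' : Inter D (Q₂ + Q₁) := by rwa [add_comm]
    have hd' : Inter D (Q₂ - Q₁) := by
      have := hd.neg; rwa [neg_sub] at this
    have key := pair_of_lt D h2 h1 hs' hd' hgt
    have e1 : D.x (Q₂ - Q₁) = D.x (Q₁ - Q₂) := by rw [← D.x_neg, neg_sub]
    rw [add_comm Q₂ Q₁, e1, add_comm (D.w (D.x Q₂))] at key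
    have e2 : D.w (D.x Q₂) - D.w (D.x Q₁) = -(D.w (D.x Q₁) - D.w (D.x Q₂)) := by ring
    rw [e2] at key
    rcases key with ⟨k1, k2⟩ | ⟨k1, k2⟩
    · exact Or.inl ⟨k1, by simpa using k2.neg_right⟩
    · exact Or.inr ⟨by simpa using k1.neg_right, k2⟩

/-- The duplication formula for interior points. -/
theorem dbl (D : K2Datum K G)
    {Q : G} (h1 : Inter D Q) (hs : Inter D (Q + Q)) :
    Comp.R (D.w D.a4) (D.w (D.x (Q + Q))) (2 * D.w (D.x Q)) := by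
  have hA4 : D.a4 ≠ 0 := D.a4_ne
  obtain ⟨hQ, hx, hpos, hlt⟩ := h1
  obtain ⟨hs0, hxs, hposs, hlts⟩ := hs
  have hη : 2 * D.y Q + D.x Q ≠ 0 := fun h => hs0 (D.dbl_zero Q hQ h)
  have hden := D.den_ne_zero hQ hη
  have hform := D.x_dbl' Q hQ hη
  set x := D.x Q with hxdef
  set l := D.w x with hl
  set m := D.w D.a4 with hmdef
  have hsq : D.w (x ^ 2) = 2 * l := by rw [D.w_pow hx]; push_cast; ring
  -- the factor `4 x² + b2 x + 4 a4` has valuation `l`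
  have hb2x : (1 + 4 * D.a2) * x ≠ 0 := mul_ne_zero D.b2_ne hx
  have hwb2x : D.w ((1 + 4 * D.a2) * x) = l := by rw [D.w_mul _ _ D.b2_ne hx, D.w_b2]; ring
  have hg : 4 * x ^ 2 + (1 + 4 * D.a2) * x + 4 * D.a4 ≠ 0 ∧
      D.w (4 * x ^ 2 + (1 + 4 * D.a2) * x + 4 * D.a4) = l := by
    have e : 4 * x ^ 2 + (1 + 4 * D.a2) * x + 4 * D.a4
        = (1 + 4 * D.a2) * x + (4 * x ^ 2 + 4 * D.a4) := by ring
    rw [e, ← hwb2x]
    refine RVal.w_add_eq_left hb2x ?_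
    rw [hwb2x]
    refine RVal.GT.add ?_ ?_
    · exact RVal.GT.int_mul (RVal.GE.ofNat 4) (RVal.GT.of_lt (by rw [hsq]; linarith))
    · exact RVal.GT.int_mul (RVal.GE.ofNat 4) (RVal.GT.of_lt hlt)
  have hwden : D.w (x * (4 * x ^ 2 + (1 + 4 * D.a2) * x + 4 * D.a4)) = 2 * l := by
    rw [D.w_mul _ _ hx hg.1, hg.2]; ring
  have hnum0 : x ^ 2 - D.a4 ≠ 0 := by
    intro h0; apply hxs; rw [hform, h0]; simp
  have hw : D.w (D.x (Q + Q)) = 2 * D.w (x ^ 2 - D.a4) - 2 * l := by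
    rw [hform, D.w_div (pow_ne_zero 2 hnum0) hden, D.w_pow hnum0, hwden]; push_cast; ring
  rcases lt_trichotomy (2 * l) m with hc | hc | hc
  · have : D.w (x ^ 2 - D.a4) = 2 * l := by
      rw [← hsq]
      exact (RVal.w_sub_eq_left (pow_ne_zero 2 hx) (RVal.GT.of_lt (by rw [hsq]; exact hc))).2
    exact ⟨0, Or.inl (by push_cast; linarith)⟩
  · exfalso
    have h5 := D.w_add (x ^ 2) (-D.a4) (pow_ne_zero 2 hx) (neg_ne_zero.mpr hA4)
      (by rwa [← sub_eq_add_neg])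
    rw [D.w_neg, hsq, ← sub_eq_add_neg, hc, min_self] at h5
    linarith
  · have : D.w (x ^ 2 - D.a4) = m :=
      (RVal.w_sub_eq_right hA4 (RVal.GT.of_lt (by rw [hsq]; exact hc))).2
    exact ⟨1, Or.inr (by push_cast; linarith)⟩

/-- The folding induction: `w x ((k+1) • P) ≡ ± (k+1) w x P` modulo `2 w a4`. -/
theorem fold (D : K2Datum K G) (p : ℕ) (hp : p.Prime) (hp2 : p ≠ 2) {P : G}
    (hpP : p • P = 0) (hP : P ∉ D.E0) :
    ∀ k : ℕ, k + 1 < p →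
      Comp.R (D.w D.a4) (D.w (D.x ((k + 1) • P))) (((k + 1 : ℕ) : ℝ) * D.w (D.x P)) := by
  have hint : ∀ n : ℕ, 0 < n → n < p → Inter D (n • P) := fun n h0 hn =>
    inter_nsmul D p hp hp2 hpP hP n (Nat.not_dvd_of_pos_of_lt h0 hn)
  intro k
  induction k using Nat.twoStepInduction with
  | zero =>
    intro _
    simp only [zero_add, one_nsmul, Nat.cast_one, one_mul]
    exact Comp.R.refl _ _
  | one =>
    intro h2
    have h1 := hint 1 one_pos (by omega)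
    have h2' := hint 2 (by omega) (by omega)
    rw [one_nsmul] at h1
    rw [two_nsmul] at h2'
    have := dbl D h1 h2'
    have e : (1 + 1) • P = P + P := by rw [one_add_one_eq_two, two_nsmul]
    rw [e]
    convert this using 1
    push_cast; ring
  | more j ih1 ih2 =>
    intro h3
    have i1 := hint (j + 1) (by omega) (by omega)
    have i2 := hint (j + 2) (by omega) (by omega)
    have i3 := hint (j + 3) (by omega) (by omega)
    have iP := hint 1 one_pos (by omega)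
    rw [one_nsmul] at iP
    have e3 : (j + 2) • P + P = (j + 3) • P := by
      rw [← succ_nsmul]
    have e1 : (j + 2) • P - P = (j + 1) • P := by
      rw [sub_eq_iff_eq_add, ← succ_nsmul]
    have key := pair D i2 iP (by rwa [e3]) (by rwa [e1])
    rw [e3, e1] at key
    have r2 := ih2 (by omega)
    have r1 := ih1 (by omega)
    have sh := r2.shift (D.w (D.x P))
    have c3 : ((j + 1 + 1 : ℕ) : ℝ) * D.w (D.x P) + D.w (D.x P)
        = ((j + 1 + 1 + 1 : ℕ) : ℝ) * D.w (D.x P) := by push_cast; ring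
    have c1 : ((j + 1 + 1 : ℕ) : ℝ) * D.w (D.x P) - D.w (D.x P)
        = ((j + 1 : ℕ) : ℝ) * D.w (D.x P) := by push_cast; ring
    rw [c3, c1] at sh
    have e3' : (j + 1 + 1 + 1) • P = (j + 3) • P := rfl
    have e2' : (j + 1 + 1) • P = (j + 2) • P := rfl
    rw [e2'] at r2 sh
    rw [e3']
    rcases key with ⟨k3, k1⟩ | ⟨k3, k1⟩ <;> rcases sh with ⟨s3, s1⟩ | ⟨s3, s1⟩
    · exact k3.trans s3
    · exact (k3.trans s3).trans ((r1.symm).trans (k1.trans s1))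
    · exact (k3.trans s1).trans ((r1.symm).trans (k1.trans s3))
    · exact k3.trans s1

end Fold

open Fold in
/-- A `p`-torsion point (`p` odd) outside `E₀` has `0 < w x < w a4` and
`p · w x ∈ 2 (w a4) ℤ`. -/
theorem exists_w_x_eq (D : K2Datum K G) (p : ℕ) (hp : p.Prime) (hp2 : p ≠ 2)
    {P : G} (hpP : p • P = 0) (hP : P ∉ D.E0) :
    D.x P ≠ 0 ∧ 0 < D.w (D.x P) ∧ D.w (D.x P) < D.w D.a4 ∧
      ∃ z : ℤ, (p : ℝ) * D.w (D.x P) = 2 * D.w D.a4 * z := by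
  have hp3 : 3 ≤ p := by
    have := hp.two_le
    omega
  obtain ⟨n, rfl⟩ : ∃ n, p = n + 3 := ⟨p - 3, by omega⟩
  have hmpos : 0 < D.w D.a4 := D.w_a4
  have hint : ∀ k : ℕ, 0 < k → k < n + 3 → Inter D (k • P) := fun k h0 hk =>
    inter_nsmul D (n + 3) hp hp2 hpP hP k (Nat.not_dvd_of_pos_of_lt h0 hk)
  have iP := hint 1 one_pos (by omega)
  rw [one_nsmul] at iP
  obtain ⟨-, hx, hpos, hlt⟩ := iP
  refine ⟨hx, hpos, hlt, ?_⟩
  have hfold := fold D (n + 3) hp hp2 hpP hP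
  -- `(p - 1) • P = -P`
  have hneg : (n + 1 + 1) • P = -P := by
    rw [eq_neg_iff_add_eq_zero, ← succ_nsmul]; exact hpP
  have h1 := hfold (n + 1) (by omega)
  rw [hneg, D.x_neg] at h1
  obtain ⟨z, h | h⟩ := h1
  · -- `(p - 2) θ ∈ 2 m ℤ`: impossible
    exfalso
    have h2 := hfold n (by omega)
    have i2 := hint (n + 1) (by omega) (by omega)
    obtain ⟨-, -, hpos2, hlt2⟩ := i2
    push_cast at h h2
    obtain ⟨z', h' | h'⟩ := h2
    · have e : D.w (D.x ((n + 1) • P)) = 2 * D.w D.a4 * ((z' - z : ℤ) : ℝ) := by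
        push_cast; linarith
      rw [e] at hpos2 hlt2
      have hz : (0 : ℝ) < ((z' - z : ℤ) : ℝ) := by
        by_contra hcon
        push Not at hcon
        nlinarith
      have hz0 : 0 < z' - z := by exact_mod_cast hz
      have hz1 : (1 : ℝ) ≤ ((z' - z : ℤ) : ℝ) := by
        exact_mod_cast (show 1 ≤ z' - z by omega)
      nlinarith
    · have e : D.w (D.x ((n + 1) • P)) = 2 * D.w D.a4 * ((z' + z : ℤ) : ℝ) := by
        push_cast; linarith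
      rw [e] at hpos2 hlt2
      have hz : (0 : ℝ) < ((z' + z : ℤ) : ℝ) := by
        by_contra hcon
        push Not at hcon
        nlinarith
      have hz0 : 0 < z' + z := by exact_mod_cast hz
      have hz1 : (1 : ℝ) ≤ ((z' + z : ℤ) : ℝ) := by
        exact_mod_cast (show 1 ≤ z' + z by omega)
      nlinarith
  · -- `p θ = 2 m z`
    refine ⟨z, ?_⟩
    push_cast at h ⊢
    linarith

end Fermat.Agent.S13.K2
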