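import Mathlib
import Fermat.Agent.S13_K2Defs
import Fermat.Agent.S13_K2Tors
import Fermat.Agent.S13_K2Red

set_option autoImplicit false

/-!
# S13, local analysis at `2`: no rational point of odd prime order `p ≥ 5`

For a `K2Datum` and a subgroup `H` of points whose coordinates are "rational" (integer
valuations, residue field `𝔽₂`), with `w a4` an integer not divisible by `p`: `H` has no point
of order `p ≥ 5`.
-/

namespace Fermat.Agent.S13.K2

open Fermat.Agent.S05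

variable {K : Type*} [Field K] {G : Type*} [AddCommGroup G]

namespace Rat

/-- Two distinct points of odd order `n` with unit `x`-coordinates cannot be congruent. -/
theorem not_cong (D : K2Datum K G) (n : ℕ) (hn : Odd n) {P Q : G} (hP : P ≠ 0) (hQ : Q ≠ 0)
    (hnP : n • P = 0) (hnQ : n • Q = 0) (hxP : D.x P ≠ 0) (hwP : D.w (D.x P) = 0)
    (hxQ : D.x Q ≠ 0) (hwQ : D.w (D.x Q) = 0)
    (hcx : D.GT 0 (D.x Q - D.x P)) (hcy : D.GT 0 (D.y Q - D.y P)) : Q = P := by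
  have h0 : 0 ≤ D.w (D.x P) := le_of_eq hwP.symm
  have hm : D.w (D.x P) < D.w D.a4 := by rw [hwP]; exact D.w_a4
  have hyge := Red.y_ge D hP h0 hm
  rw [hwP] at hyge
  have hxge : D.GE 0 (D.x P) := RVal.GE.of_le h0
  have he : D.GT (2 * D.w (D.x P)) (D.y Q * D.x P - D.y P * D.x Q) := by
    rw [hwP]
    have e : D.y Q * D.x P - D.y P * D.x Q =
        (D.y Q - D.y P) * D.x P - D.y P * (D.x Q - D.x P) := by ring
    rw [e]
    have h1 := hcy.mul_int hxge
    have h2 := RVal.GT.int_mul hyge hcx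
    simpa using h1.sub h2
  by_cases hxeq : D.x Q = D.x P
  · exact Red.eq_of_x_eq D hP hQ hxP h0 hm he hxeq
  exfalso
  have hs : D.GT 0 (D.x P + D.x Q) := by
    have e : D.x P + D.x Q = 2 * D.x P + (D.x Q - D.x P) := by ring
    rw [e]
    exact (D.two_gt.mul_int hxge).add hcx
  obtain ⟨hx', hw'⟩ := Red.w_x_sub D hP hQ hxP hxQ (by rw [hwQ, hwP]) h0 hm hs he hxeq
  have hd : D.x Q - D.x P ≠ 0 := sub_ne_zero.mpr hxeq
  have hpos := hcx.lt hd
  have hS0 : Q - P ≠ 0 := D.sub_ne_zero_of_x_ne hxeq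
  have hnS : n • (Q - P) = 0 := by rw [nsmul_sub, hnQ, hnP, sub_zero]
  have := w_x_nonneg_of_torsion D n hn hS0 hnS hx'
  rw [hw', hwP] at this
  linarith

/-- The core of (R2), with the two facts about `E₀` as hypotheses. -/
theorem eq_zero_of_rational_torsion_aux (D : K2Datum K G) (p : ℕ) (hp : p.Prime) (hp5 : 5 ≤ p)
    (hE0 : ∀ P Q : G, P ∈ D.E0 → Q ∈ D.E0 → P + Q ∈ D.E0)
    (hlev : ∀ P : G, p • P = 0 → P ∉ D.E0 →
      D.x P ≠ 0 ∧ 0 < D.w (D.x P) ∧ D.w (D.x P) < D.w D.a4 ∧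
        ∃ z : ℤ, (p : ℝ) * D.w (D.x P) = 2 * D.w D.a4 * z)
    (rat : K → Prop)
    (hrat_val : ∀ z : K, rat z → z ≠ 0 → ∃ k : ℤ, D.w z = k)
    (hrat_res : ∀ z : K, rat z → D.GE 0 z → D.GT 0 z ∨ D.GT 0 (z - 1))
    (hm : ∃ k : ℤ, D.w D.a4 = k ∧ ¬ (p : ℤ) ∣ k)
    (H : AddSubgroup G) (hHx : ∀ P ∈ H, P ≠ 0 → rat (D.x P))
    (hHy : ∀ P ∈ H, P ≠ 0 → rat (D.y P))
    {P : G} (hPH : P ∈ H) (hpP : p • P = 0) : P = 0 := by
  by_contra hP0
  have hodd : Odd p := hp.odd_of_ne_two (by omega)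
  have hpZ : Prime (p : ℤ) := Nat.prime_iff_prime_int.mp hp
  -- Step A: `P ∈ E₀`
  have hPE0 : P ∈ D.E0 := by
    by_contra hnot
    obtain ⟨hx, hpos, hlt, z, hz⟩ := hlev P hpP hnot
    obtain ⟨k, hk, hpk⟩ := hm
    obtain ⟨k1, hk1⟩ := hrat_val _ (hHx P hPH hP0) hx
    rw [hk1, hk] at hz
    rw [hk1] at hpos
    rw [hk1, hk] at hlt
    have hzZ : (p : ℤ) * k1 = 2 * k * z := by exact_mod_cast hz
    have hdvd : (p : ℤ) ∣ 2 * k * z := ⟨k1, hzZ.symm⟩
    have hp2 : ¬ (p : ℤ) ∣ 2 := by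
      intro h
      have := Int.le_of_dvd (by norm_num) h
      have : (p : ℤ) ≥ 5 := by exact_mod_cast hp5
      omega
    have hdz : (p : ℤ) ∣ z := by
      rcases hpZ.dvd_or_dvd hdvd with h | h
      · rcases hpZ.dvd_or_dvd h with h' | h'
        · exact absurd h' hp2
        · exact absurd h' hpk
      · exact h
    obtain ⟨z', rfl⟩ := hdz
    have hp0 : (p : ℤ) ≠ 0 := by exact_mod_cast hp.ne_zero
    have hk1' : k1 = 2 * k * z' := by
      apply mul_left_cancel₀ hp0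
      rw [hzZ]; ring
    have hk1pos : 0 < k1 := by exact_mod_cast hpos
    have hk1lt : k1 < k := by exact_mod_cast hlt
    have hkpos : 0 < k := by omega
    rw [hk1'] at hk1pos hk1lt
    have hz'pos : 0 < z' := by
      by_contra hcon
      push Not at hcon
      nlinarith
    nlinarith
  -- multiples of `P` in `E₀ ∩ H`
  have key : ∀ R : G, R ∈ H → R ∈ D.E0 → R ≠ 0 → p • R = 0 →
      D.x R ≠ 0 ∧ D.w (D.x R) = 0 ∧ D.GT 0 (D.x R - 1) ∧
        (D.GT 0 (D.y R) ∨ D.GT 0 (D.y R - 1)) := by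
    intro R hRH hRE hR0 hpR
    obtain ⟨hx, hle⟩ := hRE.resolve_left hR0
    have hge := w_x_nonneg_of_torsion D p hodd hR0 hpR hx
    have hw0 : D.w (D.x R) = 0 := le_antisymm hle hge
    refine ⟨hx, hw0, ?_, ?_⟩
    · rcases hrat_res _ (hHx R hRH hR0) (RVal.GE.of_le hge) with h | h
      · have := h.lt hx
        rw [hw0] at this
        exact absurd this (lt_irrefl _)
      · exact h
    · have hyge := Red.y_ge D hR0 hge (by rw [hw0]; exact D.w_a4)
      rw [hw0] at hyge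
      exact hrat_res _ (hHy R hRH hR0) hyge
  have h2E : P + P ∈ D.E0 := hE0 P P hPE0 hPE0
  have h3E : P + P + P ∈ D.E0 := hE0 _ P h2E hPE0
  have h2H : P + P ∈ H := H.add_mem hPH hPH
  have h3H : P + P + P ∈ H := H.add_mem h2H hPH
  have h2p : p • (P + P) = 0 := by rw [nsmul_add, hpP, add_zero]
  have h3p : p • (P + P + P) = 0 := by rw [nsmul_add, h2p, hpP, add_zero]
  have h20 : P + P ≠ 0 := fun h => hP0 (Red.eq_zero_of_odd_nsmul hodd h hpP)
  have h30 : P + P + P ≠ 0 := by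
    intro h
    -- `3 • P = 0` and `p • P = 0` with `p ≥ 5` prime
    have h3 : 3 • P = 0 := by rw [← h]; abel
    have hcop : Nat.Coprime p 3 := by
      rw [Nat.coprime_primes hp Nat.prime_three]; omega
    have hord := addOrderOf_dvd_of_nsmul_eq_zero hpP
    have hord3 := addOrderOf_dvd_of_nsmul_eq_zero h3
    have h1 : addOrderOf P ∣ 1 := by
      have := Nat.dvd_gcd hord hord3
      rwa [hcop.gcd_eq_one] at this
    exact hP0 (AddMonoid.addOrderOf_eq_one_iff.mp (Nat.dvd_one.mp h1))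
  obtain ⟨hx1, hw1, hc1, hy1⟩ := key P hPH hPE0 hP0 hpP
  obtain ⟨hx2, hw2, hc2, hy2⟩ := key (P + P) h2H h2E h20 h2p
  obtain ⟨hx3, hw3, hc3, hy3⟩ := key (P + P + P) h3H h3E h30 h3p
  -- congruence of `x`-coordinates
  have cx : ∀ {R S : G}, D.GT 0 (D.x R - 1) → D.GT 0 (D.x S - 1) → D.GT 0 (D.x S - D.x R) := by
    intro R S hR hS
    have e : D.x S - D.x R = (D.x S - 1) - (D.x R - 1) := by ring
    rw [e]; exact hS.sub hR
  have cy0 : ∀ {R S : G}, D.GT 0 (D.y R) → D.GT 0 (D.y S) → D.GT 0 (D.y S - D.y R) :=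
    fun hR hS => hS.sub hR
  have cy1 : ∀ {R S : G}, D.GT 0 (D.y R - 1) → D.GT 0 (D.y S - 1) →
      D.GT 0 (D.y S - D.y R) := by
    intro R S hR hS
    have e : D.y S - D.y R = (D.y S - 1) - (D.y R - 1) := by ring
    rw [e]; exact hS.sub hR
  -- the three points are pairwise distinct
  have d12 : P + P ≠ P := fun h => hP0 (by simpa using h)
  have d13 : P + P + P ≠ P := fun h => h20 (by
    have : P + P + P = P + P + P - P + P := by abel
    have h' : P + P + P - P = 0 := by rw [h, sub_self]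
    have : P + P = P + P + P - P := by abel
    rw [this, h'])
  have d23 : P + P + P ≠ P + P := fun h => hP0 (by simpa using h)
  -- pigeonhole
  rcases hy1 with a1 | a1 <;> rcases hy2 with a2 | a2 <;> rcases hy3 with a3 | a3
  · exact d12 (not_cong D p hodd hP0 h20 hpP h2p hx1 hw1 hx2 hw2 (cx hc1 hc2) (cy0 a1 a2))
  · exact d12 (not_cong D p hodd hP0 h20 hpP h2p hx1 hw1 hx2 hw2 (cx hc1 hc2) (cy0 a1 a2))
  · exact d13 (not_cong D p hodd hP0 h30 hpP h3p hx1 hw1 hx3 hw3 (cx hc1 hc3) (cy0 a1 a3))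
  · exact d23 (not_cong D p hodd h20 h30 h2p h3p hx2 hw2 hx3 hw3 (cx hc2 hc3) (cy1 a2 a3))
  · exact d23 (not_cong D p hodd h20 h30 h2p h3p hx2 hw2 hx3 hw3 (cx hc2 hc3) (cy0 a2 a3))
  · exact d13 (not_cong D p hodd hP0 h30 hpP h3p hx1 hw1 hx3 hw3 (cx hc1 hc3) (cy1 a1 a3))
  · exact d12 (not_cong D p hodd hP0 h20 hpP h2p hx1 hw1 hx2 hw2 (cx hc1 hc2) (cy1 a1 a2))
  · exact d12 (not_cong D p hodd hP0 h20 hpP h2p hx1 hw1 hx2 hw2 (cx hc1 hc2) (cy1 a1 a2))

end Rat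

end Fermat.Agent.S13.K2
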