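import Mathlib
import Fermat.Agent.S05_Datum
import Fermat.Agent.S13_Global
import Fermat.Agent.S13_K2Defs
import Fermat.Agent.S13_K2Tors
import Fermat.Agent.S13_K2Red
import Fermat.Agent.S13_K2Rat

set_option autoImplicit false
set_option linter.unusedSectionVars false

/-!
# S13, local analysis at `2`: the concrete datum of the Frey curve

The abstract `K2Datum` / `I2Datum` of `S13_K2Defs` for a Weierstrass curve
`y² + x y = x³ + a₂ x² + a₄ x` in its own affine coordinates, and the specialisation to the Frey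
curve over a field with a `2`-adic valuation.  Consequences for a Galois number field `L`:
inertia at `2` acts unipotently on the `p`-torsion, and there is no `ℚ`-rational point of
order `p`.
-/

open WeierstrassCurve WeierstrassCurve.Affine WeierstrassCurve.Affine.Point

namespace Fermat.Agent.S13.K2.Frey

open Fermat.Agent.S05

section General

variable {K : Type*} [Field K] [DecidableEq K] (W : Affine K)

/-- The `x`-coordinate (junk value `0` at the point at infinity). -/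
def px : W.Point → K
  | .zero => 0
  | .some x _ _ => x

/-- The `y`-coordinate (junk value `0` at the point at infinity). -/
def py : W.Point → K
  | .zero => 0
  | .some _ y _ => y

@[simp] theorem px_some {x y : K} (h : W.Nonsingular x y) : px W (Point.some x y h) = x := rfl

@[simp] theorem py_some {x y : K} (h : W.Nonsingular x y) : py W (Point.some x y h) = y := rfl

@[simp] theorem px_zero : px W (0 : W.Point) = 0 := rfl

@[simp] theorem py_zero : py W (0 : W.Point) = 0 := rfl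

variable {W}

theorem eqn_point (h1 : W.a₁ = 1) (h3 : W.a₃ = 0) (h6 : W.a₆ = 0) (P : W.Point) (hP : P ≠ 0) :
    py W P ^ 2 + px W P * py W P = px W P ^ 3 + W.a₂ * px W P ^ 2 + W.a₄ * px W P := by
  cases P with
  | zero => exact absurd rfl hP
  | some x y h =>
    have he := h.1
    rw [equation_iff, h1, h3, h6] at he
    simp only [px_some, py_some]
    linear_combination he

theorem px_neg (P : W.Point) : px W (-P) = px W P := by
  cases P with
  | zero => rfl
  | some x y h => rfl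

theorem py_neg (h1 : W.a₁ = 1) (h3 : W.a₃ = 0) (P : W.Point) (hP : P ≠ 0) :
    py W (-P) = -py W P - px W P := by
  cases P with
  | zero => exact absurd rfl hP
  | some x y h =>
    rw [neg_some, py_some, py_some, px_some, negY, h1, h3]
    ring

theorem pinj (P Q : W.Point) (hP : P ≠ 0) (hQ : Q ≠ 0)
    (hx : px W P = px W Q) (hy : py W P = py W Q) : P = Q := by
  cases P with
  | zero => exact absurd rfl hP
  | some x₁ y₁ h₁ =>
    cases Q with
    | zero => exact absurd rfl hQ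
    | some x₂ y₂ h₂ =>
      simp only [px_some, py_some] at hx hy
      subst hx
      subst hy
      rfl

theorem px_add (h1 : W.a₁ = 1) (P Q : W.Point) (hP : P ≠ 0) (hQ : Q ≠ 0)
    (hx : px W P ≠ px W Q) :
    px W (P + Q) = ((py W P - py W Q) / (px W P - px W Q)) ^ 2
      + (py W P - py W Q) / (px W P - px W Q) - W.a₂ - px W P - px W Q := by
  cases P with
  | zero => exact absurd rfl hP
  | some x₁ y₁ h₁ =>
    cases Q with
    | zero => exact absurd rfl hQ
    | some x₂ y₂ h₂ =>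
      have hx' : x₁ ≠ x₂ := by
        rintro rfl
        exact hx rfl
      rw [add_of_X_ne hx', px_some, px_some, px_some, py_some, py_some, slope_of_X_ne hx',
        addX, h1]
      ring

theorem px_dbl (h1 : W.a₁ = 1) (h3 : W.a₃ = 0) (h6 : W.a₆ = 0) (P : W.Point) (hP : P ≠ 0)
    (hd : 2 * py W P + px W P ≠ 0) :
    px W (P + P) = (px W P ^ 2 - W.a₄) ^ 2 / (2 * py W P + px W P) ^ 2 := by
  cases P with
  | zero => exact absurd rfl hP
  | some x y h =>
    simp only [px_some, py_some] at hd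
    have hy : y ≠ W.negY x y := by
      intro hy
      apply hd
      rw [negY, h1, h3] at hy
      linear_combination hy
    have hyy : y - W.negY x y = 2 * y + x := by
      rw [negY, h1, h3]; ring
    rw [add_self_of_Y_ne hy, px_some, px_some, py_some, slope_of_Y_ne rfl hy, addX, h1, hyy]
    have heq := h.1
    rw [equation_iff, h1, h3, h6] at heq
    rw [eq_div_iff (pow_ne_zero 2 hd)]
    field_simp
    linear_combination (-8 * x - 4 * W.a₂ - 1) * heq

theorem pdbl_zero (h1 : W.a₁ = 1) (h3 : W.a₃ = 0) (P : W.Point) (hP : P ≠ 0)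
    (hd : 2 * py W P + px W P = 0) : P + P = 0 := by
  cases P with
  | zero => exact absurd rfl hP
  | some x y h =>
    simp only [px_some, py_some] at hd
    apply add_self_of_Y_eq
    rw [negY, h1, h3]
    linear_combination hd

/-- The abstract datum attached to a curve `y² + x y = x³ + a₂ x² + a₄ x` and a valuation
with `w 2 > 0`, `a₂` integral, `w a₄ > 0`. -/
noncomputable def k2Datum (h1 : W.a₁ = 1) (h3 : W.a₃ = 0) (h6 : W.a₆ = 0) (v : RVal K)
    (h2ne : (2 : K) ≠ 0) (hw2 : 0 < v.w 2) (ha2 : v.GE 0 W.a₂) (ha4 : W.a₄ ≠ 0)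
    (hwa4 : 0 < v.w W.a₄) : K2Datum K W.Point where
  toRVal := v
  two_ne := h2ne
  w_two := hw2
  a2 := W.a₂
  a4 := W.a₄
  a2_int := ha2
  a4_ne := ha4
  w_a4 := hwa4
  x := px W
  y := py W
  eqn := eqn_point h1 h3 h6
  x_neg := px_neg
  y_neg := py_neg h1 h3
  inj := pinj
  x_add := px_add h1
  x_dbl := px_dbl h1 h3 h6
  dbl_zero := pdbl_zero h1 h3

end General

section Galois

variable {F K : Type*} [Field F] [Field K] [DecidableEq K] [Algebra F K] (W : WeierstrassCurve F)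

theorem px_smul (σ : K ≃ₐ[F] K) (P : (W⁄K).Point) :
    px (W⁄K) (σ • P) = σ (px (W⁄K) P) := by
  cases P with
  | zero => exact (map_zero σ).symm
  | some x y h =>
    obtain ⟨h', he⟩ := Datum.smul_some' W σ h
    rw [he, px_some, px_some]

theorem py_smul (σ : K ≃ₐ[F] K) (P : (W⁄K).Point) :
    py (W⁄K) (σ • P) = σ (py (W⁄K) P) := by
  cases P with
  | zero => exact (map_zero σ).symm
  | some x y h =>
    obtain ⟨h', he⟩ := Datum.smul_some' W σ h
    rw [he, py_some, py_some]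

/-- The abstract datum with automorphism. -/
noncomputable def i2Datum (h1 : (W⁄K).a₁ = 1) (h3 : (W⁄K).a₃ = 0) (h6 : (W⁄K).a₆ = 0)
    (v : RVal K) (h2ne : (2 : K) ≠ 0) (hw2 : 0 < v.w 2) (ha2 : v.GE 0 (W⁄K).a₂)
    (ha4 : (W⁄K).a₄ ≠ 0) (hwa4 : 0 < v.w (W⁄K).a₄) (σ : K ≃ₐ[F] K)
    (hwσ : ∀ x : K, x ≠ 0 → v.w (σ x) = v.w x)
    (hcong : ∀ x : K, x ≠ 0 → 0 ≤ v.w x → σ x = x ∨ 0 < v.w (σ x - x)) :
    I2Datum K (W⁄K).Point where
  toK2Datum := k2Datum h1 h3 h6 v h2ne hw2 ha2 ha4 hwa4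
  σ := (σ : K →+* K)
  φ := DistribSMul.toAddMonoidHom (W⁄K).Point σ
  w_σ := hwσ
  σ_cong := hcong
  x_φ := fun P _ => px_smul W σ P
  y_φ := fun P _ => py_smul W σ P
  φ_ne := fun P hP h => hP ((Datum.smul_eq_zero_iff' W σ P).mp h)

end Galois

section Arith

/-- `4 ∣ b^p - 1 - a^p` for a Frey package. -/
theorem four_dvd (P : FreyPackage) : (4 : ℤ) ∣ P.b ^ P.p - 1 - P.a ^ P.p := by
  obtain ⟨c, hc⟩ : (2 : ℤ) ∣ P.b := (ZMod.intCast_zmod_eq_zero_iff_dvd P.b 2).1 P.hb2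
  obtain ⟨k, hk⟩ := P.hp_odd
  have h1 : (P.a : ZMod 4) ^ P.p = 3 := by
    have h9 : (3 : ZMod 4) ^ 2 = 1 := by decide
    rw [P.ha4, hk, pow_succ, pow_mul, h9, one_pow, one_mul]
  have h2 : (P.b : ZMod 4) ^ P.p = 0 := by
    have h4 : (2 : ZMod 4) ^ 2 = 0 := by decide
    have hp : P.p = 2 + (P.p - 2) := by have := P.hp5; omega
    rw [hc]
    push_cast
    rw [mul_pow, hp, pow_add, h4, zero_mul, zero_mul]
  have h := (ZMod.intCast_zmod_eq_zero_iff_dvd (P.b ^ P.p - 1 - P.a ^ P.p) 4).1 (by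
    push_cast
    rw [h1, h2]
    decide)
  exact_mod_cast h

/-- `a` is odd for a Frey package. -/
theorem a_odd (P : FreyPackage) : ¬ (2 : ℤ) ∣ P.a := by
  have h : (4 : ℤ) ∣ P.a - 3 := by
    have h := (ZMod.intCast_zmod_eq_zero_iff_dvd (P.a - 3) 4).1 (by
      push_cast
      rw [P.ha4]
      decide)
    exact_mod_cast h
  obtain ⟨c, hc⟩ := h
  rintro ⟨d, hd⟩
  omega

/-- `b` is even for a Frey package. -/
theorem b_even (P : FreyPackage) : (2 : ℤ) ∣ P.b :=
  (ZMod.intCast_zmod_eq_zero_iff_dvd P.b 2).1 P.hb2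

end Arith

section Two

variable {K : Type*} [Field K]

/-- A valuation normalised at `2`: `w 2 = 1` and odd integers are units. -/
structure Is2adic (v : RVal K) : Prop where
  w_two : v.w (2 : K) = 1
  w_odd : ∀ n : ℤ, ¬ (2 : ℤ) ∣ n → v.w (n : K) = 0

variable [CharZero K] {v : RVal K}

/-- The valuation of a nonzero integer is a natural number, positive for even integers. -/
theorem Is2adic.w_intCast (h : Is2adic v) (n : ℤ) (hn : n ≠ 0) :
    ∃ t : ℕ, v.w (n : K) = t ∧ ((2 : ℤ) ∣ n → 1 ≤ t) := by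
  have hfin : FiniteMultiplicity (2 : ℤ) n := Int.finiteMultiplicity_iff.2 ⟨by decide, hn⟩
  obtain ⟨c, hc, hnd⟩ := hfin.exists_eq_pow_mul_and_not_dvd
  set t := multiplicity (2 : ℤ) n with ht
  have hc0 : c ≠ 0 := by
    rintro rfl
    exact hnd (dvd_zero _)
  have hcK : (c : K) ≠ 0 := Int.cast_ne_zero.mpr hc0
  have h2K : (2 : K) ≠ 0 := two_ne_zero
  refine ⟨t, ?_, ?_⟩
  · have e : (n : K) = (2 : K) ^ t * (c : K) := by
      rw [hc]; push_cast; ring
    rw [e, v.w_mul _ _ (pow_ne_zero t h2K) hcK, v.w_pow h2K, h.w_two, h.w_odd c hnd]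
    ring
  · intro h2
    by_contra hlt
    have ht0 : t = 0 := by omega
    rw [ht0, pow_zero, one_mul] at hc
    rw [hc] at h2
    exact hnd h2

theorem Is2adic.w_two_pos (h : Is2adic v) : 0 < v.w (2 : K) := by rw [h.w_two]; exact one_pos

end Two

section Frey

variable (P : FreyPackage) {K : Type*} [Field K] [DecidableEq K] [Algebra ℚ K] [CharZero K]

theorem frey_a₁ : (P.freyCurve⁄K).a₁ = 1 := by
  simp [WeierstrassCurve.baseChange, FreyPackage.freyCurve]

theorem frey_a₃ : (P.freyCurve⁄K).a₃ = 0 := by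
  simp [WeierstrassCurve.baseChange, FreyPackage.freyCurve]

theorem frey_a₆ : (P.freyCurve⁄K).a₆ = 0 := by
  simp [WeierstrassCurve.baseChange, FreyPackage.freyCurve]

theorem frey_a₂ : (P.freyCurve⁄K).a₂ = ((P.b : K) ^ P.p - 1 - (P.a : K) ^ P.p) / 4 := by
  simp [WeierstrassCurve.baseChange, FreyPackage.freyCurve]

theorem frey_a₄ : (P.freyCurve⁄K).a₄ = -((P.a : K) ^ P.p) * (P.b : K) ^ P.p / 16 := by
  simp [WeierstrassCurve.baseChange, FreyPackage.freyCurve]

variable {v : RVal K}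

theorem frey_a₂_ge : v.GE 0 (P.freyCurve⁄K).a₂ := by
  obtain ⟨A2, hA2⟩ := four_dvd P
  have h4 : (4 : K) ≠ 0 := by norm_num
  have e : (P.freyCurve⁄K).a₂ = (A2 : K) := by
    rw [frey_a₂, div_eq_iff h4]
    have := congrArg (Int.cast : ℤ → K) hA2
    push_cast at this
    linear_combination this
  rw [e]
  exact RVal.GE.intCast A2

theorem frey_a₄_ne : (P.freyCurve⁄K).a₄ ≠ 0 := by
  rw [frey_a₄]
  have ha : (P.a : K) ≠ 0 := Int.cast_ne_zero.mpr P.ha0
  have hb : (P.b : K) ≠ 0 := Int.cast_ne_zero.mpr P.hb0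
  have h16 : (16 : K) ≠ 0 := by norm_num
  exact div_ne_zero (mul_ne_zero (neg_ne_zero.mpr (pow_ne_zero _ ha)) (pow_ne_zero _ hb)) h16

/-- `w a₄ = p t - 4` with `t = w b ≥ 1`. -/
theorem frey_w_a₄ (h : Is2adic v) :
    ∃ t : ℕ, 1 ≤ t ∧ v.w (P.freyCurve⁄K).a₄ = (P.p : ℝ) * t - 4 := by
  obtain ⟨t, ht, ht1⟩ := h.w_intCast P.b P.hb0
  refine ⟨t, ht1 (b_even P), ?_⟩
  have ha : (P.a : K) ≠ 0 := Int.cast_ne_zero.mpr P.ha0
  have hb : (P.b : K) ≠ 0 := Int.cast_ne_zero.mpr P.hb0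
  have h2K : (2 : K) ≠ 0 := two_ne_zero
  have h16 : (16 : K) = 2 ^ 4 := by norm_num
  have hwa : v.w (P.a : K) = 0 := h.w_odd P.a (a_odd P)
  rw [frey_a₄, h16, v.w_div (mul_ne_zero (neg_ne_zero.mpr (pow_ne_zero _ ha)) (pow_ne_zero _ hb))
    (pow_ne_zero 4 h2K), v.w_mul _ _ (neg_ne_zero.mpr (pow_ne_zero _ ha)) (pow_ne_zero _ hb),
    v.w_neg, v.w_pow ha, v.w_pow hb, v.w_pow h2K, hwa, ht, h.w_two]
  push_cast
  ring

theorem frey_w_a₄_pos (h : Is2adic v) : 0 < v.w (P.freyCurve⁄K).a₄ := by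
  obtain ⟨t, ht1, ht⟩ := frey_w_a₄ P h
  rw [ht]
  have hp : (5 : ℝ) ≤ P.p := by exact_mod_cast P.hp5
  have ht' : (1 : ℝ) ≤ t := by exact_mod_cast ht1
  nlinarith

/-- The `2`-adic datum of the Frey curve. -/
noncomputable def freyK2Datum (v : RVal K) (h : Is2adic v) : K2Datum K (P.freyCurve⁄K).Point :=
  k2Datum (frey_a₁ P) (frey_a₃ P) (frey_a₆ P) v two_ne_zero h.w_two_pos (frey_a₂_ge P)
    (frey_a₄_ne P) (frey_w_a₄_pos P h)

/-- The `2`-adic datum of the Frey curve with an inertia-like automorphism. -/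
noncomputable def freyI2Datum (v : RVal K) (h : Is2adic v) (σ : K ≃ₐ[ℚ] K)
    (hwσ : ∀ x : K, x ≠ 0 → v.w (σ x) = v.w x)
    (hcong : ∀ x : K, x ≠ 0 → 0 ≤ v.w x → σ x = x ∨ 0 < v.w (σ x - x)) :
    I2Datum K (P.freyCurve⁄K).Point :=
  i2Datum P.freyCurve (frey_a₁ P) (frey_a₃ P) (frey_a₆ P) v two_ne_zero h.w_two_pos
    (frey_a₂_ge P) (frey_a₄_ne P) (frey_w_a₄_pos P h) σ hwσ hcong

end Frey

section NumberField

variable {L : Type*} [Field L] [NumberField L] [DecidableEq L]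

/-- The valuation attached to a valuation subring over `2`, normalised at `2`. -/
theorem exists_is2adic (A : ValuationSubring L) (hA : A.LiesOverPrime 2) :
    ∃ v : RVal L, Is2adic v ∧
      (∀ σ ∈ A.inertiaSubgroupIn ℚ, ∀ x : L, x ≠ 0 → v.w (σ x) = v.w x) ∧
      (∀ σ ∈ A.inertiaSubgroupIn ℚ, ∀ x : L, x ≠ 0 → 0 ≤ v.w x →
        σ x = x ∨ 0 < v.w (σ x - x)) := by
  obtain ⟨v, -, -, -, hodd, -, hw2, hσw, hσc⟩ :=
    Fermat.Agent.S13.exists_rval_of_isAlgebraic A 2 Nat.prime_two hA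
  refine ⟨v, ⟨?_, ?_⟩, hσw, hσc⟩
  · have : ((2 : ℕ) : L) = 2 := by norm_num
    rw [← this]; exact hw2
  · intro n hn
    exact hodd n (by simpa using hn)

/-- (L2) Inertia at `2` acts unipotently on the `p`-torsion of the Frey curve. -/
theorem frey_unipotent_two (P : FreyPackage) (A : ValuationSubring L) (hA : A.LiesOverPrime 2)
    (σ : L ≃ₐ[ℚ] L) (hσ : σ ∈ A.inertiaSubgroupIn ℚ) (Q : (P.freyCurve⁄L).Point)
    (hQ : P.p • Q = 0) : σ • (σ • Q - Q) = σ • Q - Q := by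
  obtain ⟨v, hv, hσw, hσc⟩ := exists_is2adic A hA
  exact (freyI2Datum P v hv σ (hσw σ hσ) (hσc σ hσ)).φ_sub_fixed P.p P.hp_odd Q hQ

/-- rational numbers have integer valuation -/
theorem Is2adic.w_ratCast {v : RVal L} (h : Is2adic v) (r : ℚ) (hr : r ≠ 0) :
    ∃ k : ℤ, v.w (r : L) = k := by
  have hn : r.num ≠ 0 := Rat.num_ne_zero.mpr hr
  have hd : (r.den : ℤ) ≠ 0 := by exact_mod_cast r.den_ne_zero
  obtain ⟨t1, ht1, -⟩ := h.w_intCast (K := L) r.num hn
  obtain ⟨t2, ht2, -⟩ := h.w_intCast (K := L) (r.den : ℤ) hd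
  refine ⟨(t1 : ℤ) - t2, ?_⟩
  have e : (r : L) = (r.num : L) / ((r.den : ℤ) : L) := by
    rw [Rat.cast_def]; push_cast; rfl
  rw [e, v.w_div (Int.cast_ne_zero.mpr hn) (Int.cast_ne_zero.mpr hd), ht1, ht2]
  push_cast
  ring

/-- the residue field of `ℚ` at `2` is `𝔽₂` -/
theorem Is2adic.ratCast_res {v : RVal L} (h : Is2adic v) (r : ℚ) (hge : v.GE 0 (r : L)) :
    v.GT 0 (r : L) ∨ v.GT 0 ((r : L) - 1) := by
  rcases eq_or_ne r 0 with rfl | hr
  · left; simp [RVal.GT.zero]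
  have hn : r.num ≠ 0 := Rat.num_ne_zero.mpr hr
  have hd : (r.den : ℤ) ≠ 0 := by exact_mod_cast r.den_ne_zero
  have hnL : (r.num : L) ≠ 0 := Int.cast_ne_zero.mpr hn
  have hdL : ((r.den : ℤ) : L) ≠ 0 := Int.cast_ne_zero.mpr hd
  obtain ⟨t1, ht1, h1⟩ := h.w_intCast (K := L) r.num hn
  obtain ⟨t2, ht2, h2⟩ := h.w_intCast (K := L) (r.den : ℤ) hd
  have e : (r : L) = (r.num : L) / ((r.den : ℤ) : L) := by
    rw [Rat.cast_def]; push_cast; rfl
  have hrL : (r : L) ≠ 0 := Rat.cast_ne_zero.mpr hr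
  have hw : v.w (r : L) = (t1 : ℝ) - t2 := by
    rw [e, v.w_div hnL hdL, ht1, ht2]
  have hge' := hge.le hrL
  rw [hw] at hge'
  have hcop := r.reduced
  -- the denominator is odd
  have hdodd : ¬ (2 : ℤ) ∣ (r.den : ℤ) := by
    intro hdv
    have hnodd : ¬ (2 : ℤ) ∣ r.num := by
      intro hnv
      have a1 : 2 ∣ r.num.natAbs := by
        have := Int.natAbs_dvd_natAbs.mpr hnv
        simpa using this
      have a2 : 2 ∣ r.den := by exact_mod_cast hdv
      have := Nat.dvd_gcd a1 a2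
      rw [hcop.gcd_eq_one] at this
      omega
    have z1 : v.w (r.num : L) = 0 := h.w_odd _ hnodd
    have z2 := h2 hdv
    rw [z1] at ht1
    have z2' : (1 : ℝ) ≤ t2 := by exact_mod_cast z2
    have : (t1 : ℝ) = 0 := ht1.symm
    linarith
  have hwd : v.w ((r.den : ℤ) : L) = 0 := h.w_odd _ hdodd
  by_cases hnv : (2 : ℤ) ∣ r.num
  · left
    refine RVal.GT.of_lt ?_
    have z1 := h1 hnv
    have z1' : (1 : ℝ) ≤ t1 := by exact_mod_cast z1
    rw [hw]
    rw [hwd] at ht2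
    have : (t2 : ℝ) = 0 := ht2.symm
    linarith
  · right
    have e2 : (r : L) - 1 = ((r.num - (r.den : ℤ) : ℤ) : L) / ((r.den : ℤ) : L) := by
      rw [e]; push_cast; field_simp
    rcases eq_or_ne (r.num - (r.den : ℤ)) 0 with h0 | h0
    · rw [e2, h0]; simp [RVal.GT.zero]
    · have hev : (2 : ℤ) ∣ r.num - (r.den : ℤ) := by omega
      obtain ⟨t3, ht3, h3⟩ := h.w_intCast (K := L) (r.num - (r.den : ℤ)) h0
      have z3 := h3 hev
      have z3' : (1 : ℝ) ≤ t3 := by exact_mod_cast z3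
      refine RVal.GT.of_lt ?_
      rw [e2, v.w_div (Int.cast_ne_zero.mpr h0) hdL, ht3, hwd]
      linarith

/-- The core of (R2) for the Frey curve, with the two facts about `E₀` as hypotheses. -/
theorem frey_no_rational_torsion_aux [IsGalois ℚ L] (P : FreyPackage)
    (hE0 : ∀ D : K2Datum L (P.freyCurve⁄L).Point, ∀ R S, R ∈ D.E0 → S ∈ D.E0 → R + S ∈ D.E0)
    (hlev : ∀ D : K2Datum L (P.freyCurve⁄L).Point, ∀ R, P.p • R = 0 → R ∉ D.E0 →
      D.x R ≠ 0 ∧ 0 < D.w (D.x R) ∧ D.w (D.x R) < D.w D.a4 ∧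
        ∃ z : ℤ, (P.p : ℝ) * D.w (D.x R) = 2 * D.w D.a4 * z)
    (Q : (P.freyCurve⁄L).Point) (hQ : P.p • Q = 0) (hfix : ∀ σ : L ≃ₐ[ℚ] L, σ • Q = Q) :
    Q = 0 := by
  obtain ⟨A, hA⟩ := Global.exists_valuationSubring_liesOver (L := L) Nat.prime_two
  obtain ⟨v, hv, -, -⟩ := exists_is2adic A hA
  let H : AddSubgroup (P.freyCurve⁄L).Point :=
    { carrier := {R | ∀ σ : L ≃ₐ[ℚ] L, σ • R = R}
      add_mem' := fun {a b} ha hb σ =>
        (smul_add σ a b).trans (congrArg₂ (· + ·) (ha σ) (hb σ))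
      zero_mem' := fun σ => smul_zero (A := (P.freyCurve⁄L).Point) σ
      neg_mem' := fun {a} ha σ => (smul_neg σ a).trans (congrArg Neg.neg (ha σ)) }
  have hrange : ∀ z : L, (∀ σ : L ≃ₐ[ℚ] L, σ z = z) → z ∈ Set.range (algebraMap ℚ L) := by
    intro z hz
    have := (IsGalois.mem_bot_iff_fixed (F := ℚ) (E := L) z).mpr hz
    exact IntermediateField.mem_bot.mp this
  refine Rat.eq_zero_of_rational_torsion_aux (freyK2Datum P v hv) P.p P.pp P.hp5
    (hE0 _) (hlev _) (fun z => z ∈ Set.range (algebraMap ℚ L)) ?_ ?_ ?_ H ?_ ?_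
    (show Q ∈ H from hfix) hQ
  · rintro z ⟨r, rfl⟩ hz
    have hr : r ≠ 0 := by
      rintro rfl
      exact hz (map_zero _)
    obtain ⟨k, hk⟩ := hv.w_ratCast r hr
    exact ⟨k, by rw [eq_ratCast]; exact hk⟩
  · rintro z ⟨r, rfl⟩ hz
    rw [eq_ratCast] at hz ⊢
    exact hv.ratCast_res r hz
  · obtain ⟨t, ht1, ht⟩ := frey_w_a₄ P (K := L) hv
    refine ⟨(P.p : ℤ) * t - 4, ?_, ?_⟩
    · show v.w (P.freyCurve⁄L).a₄ = _
      rw [ht]; push_cast; ring
    · intro hdv
      have h4 : (P.p : ℤ) ∣ 4 := by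
        have h1 : (P.p : ℤ) ∣ (P.p : ℤ) * t := dvd_mul_right _ _
        have := dvd_sub h1 hdv
        simpa using this
      have := Int.le_of_dvd (by norm_num) h4
      have hp5 : (5 : ℤ) ≤ P.p := by exact_mod_cast P.hp5
      omega
  · intro R hR _
    apply hrange
    intro σ
    show σ (px _ R) = px _ R
    rw [← px_smul, hR σ]
  · intro R hR _
    apply hrange
    intro σ
    show σ (py _ R) = py _ R
    rw [← py_smul, hR σ]

/-- (L2), in the form used by the endgame: over every valuation subring over `2`, inertia acts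
unipotently on the `p`-torsion module. -/
theorem frey_unipotent_two_torsion (P : FreyPackage) (A : ValuationSubring L)
    (hA : A.LiesOverPrime 2) (σ : L ≃ₐ[ℚ] L) (hσ : σ ∈ A.inertiaSubgroupIn ℚ)
    (x : Submodule.torsionBy ℤ (P.freyCurve⁄L).Point P.p) :
    σ • (σ • x - x) = σ • x - x := by
  apply Subtype.ext
  have hx := x.2
  rw [Submodule.mem_torsionBy_iff, natCast_zsmul] at hx
  exact frey_unipotent_two P A hA σ hσ x.1 hx

/-- (L2): existence form. -/
theorem exists_unipotent_two (P : FreyPackage) :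
    ∃ A : ValuationSubring L, A.LiesOverPrime 2 ∧ ∀ σ ∈ A.inertiaSubgroupIn ℚ,
      ∀ x : Submodule.torsionBy ℤ (P.freyCurve⁄L).Point P.p, σ • (σ • x - x) = σ • x - x := by
  obtain ⟨A, hA⟩ := Global.exists_valuationSubring_liesOver (L := L) Nat.prime_two
  exact ⟨A, hA, fun σ hσ x => frey_unipotent_two_torsion P A hA σ hσ x⟩

end NumberField

end Fermat.Agent.S13.K2.Frey
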