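import Mathlib
import Fermat.Agent.S13_K2E0
import Fermat.Agent.S13_K2Comp
import Fermat.Agent.S13_K2Frey

set_option autoImplicit false

/-!
# S13, local analysis at `2`: the two results for the Frey curve

Over a Galois number field `L`:
* `exists_unipotent_two` (in `S13_K2Frey`): inertia at `2` acts unipotently on the `p`-torsion;
* `frey_no_rational_torsion`: the Frey curve has no nonzero `p`-torsion point fixed by
  `Gal(L/ℚ)`.
-/

open WeierstrassCurve WeierstrassCurve.Affine WeierstrassCurve.Affine.Point

namespace Fermat.Agent.S13.K2.Frey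

variable {L : Type*} [Field L] [NumberField L] [DecidableEq L] [IsGalois ℚ L]

/-- (R2), point form: a point of order dividing `p` of the Frey curve over `L` fixed by
`Gal(L/ℚ)` is zero. -/
theorem frey_no_rational_torsion_point (P : FreyPackage) (Q : (P.freyCurve⁄L).Point)
    (hQ : P.p • Q = 0) (hfix : ∀ σ : L ≃ₐ[ℚ] L, σ • Q = Q) : Q = 0 :=
  frey_no_rational_torsion_aux P (fun D _ _ hR hS => add_mem_E0 D hR hS)
    (fun D _ hR hnot => exists_w_x_eq D P.p P.pp (by have := P.hp5; omega) hR hnot) Q hQ hfix

/-- (R2), in the form used by the endgame: no nonzero element of the `p`-torsion module of the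
Frey curve over `L` is fixed by `Gal(L/ℚ)`. -/
theorem frey_no_rational_torsion (P : FreyPackage)
    (x : Submodule.torsionBy ℤ (P.freyCurve⁄L).Point P.p)
    (hfix : ∀ σ : L ≃ₐ[ℚ] L, σ • x = x) : x = 0 := by
  apply Subtype.ext
  have hx := x.2
  rw [Submodule.mem_torsionBy_iff, natCast_zsmul] at hx
  exact frey_no_rational_torsion_point P x.1 hx (fun σ => congrArg Subtype.val (hfix σ))

end Fermat.Agent.S13.K2.Frey
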