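import Mathlib
import Fermat.Prelude.Def_FLTPrelim_CofixedLine
import Fermat.Agent.S13_Global

/-!
# S13: the finite-level endgame

Linear algebra of a unipotent automorphism preserving a line in a plane over `𝔽_p`, and the
global argument: a Galois-stable line in the `p`-torsion (of cardinality `p²`) over a Galois
number field is cofixed, given the local information at all primes and the absence of a rational
point of order `p`.
-/

set_option autoImplicit false
set_option linter.unusedSectionVars false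

open WeierstrassCurve WeierstrassCurve.Affine WeierstrassCurve.Affine.Point

namespace Fermat.Agent.S13.Endgame

section linalg

variable {p : ℕ} [Fact p.Prime] {V : Type*} [AddCommGroup V] [Module (ZMod p) V]

/-- A proper nonzero submodule of a module of cardinality `p²` has cardinality `p`. -/
theorem card_line (hV : Nat.card V = p ^ 2) (N : Submodule (ZMod p) V) (hN0 : N ≠ ⊥)
    (hN1 : N ≠ ⊤) : Nat.card N = p := by
  have hp : p.Prime := Fact.out
  have hfin : Finite V := Nat.finite_of_card_ne_zero (by rw [hV]; exact pow_ne_zero _ hp.ne_zero)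
  have hdvd : Nat.card N ∣ p ^ 2 := by
    rw [← hV]
    exact AddSubgroup.card_addSubgroup_dvd_card N.toAddSubgroup
  obtain ⟨k, hk, hkeq⟩ := (Nat.dvd_prime_pow hp).1 hdvd
  interval_cases k
  · exfalso
    apply hN0
    rw [pow_zero] at hkeq
    have : Subsingleton N := (Nat.card_eq_one_iff_unique.mp hkeq).1
    rw [eq_bot_iff]
    intro x hx
    have h0 : (⟨x, hx⟩ : N) = 0 := Subsingleton.elim _ _
    exact congrArg Subtype.val h0
  · simpa using hkeq
  · exfalso
    apply hN1
    have hcard : Nat.card N.toAddSubgroup = Nat.card V := by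
      rw [← hV] at hkeq; exact hkeq
    have htop := AddSubgroup.eq_top_of_card_eq N.toAddSubgroup hcard
    rw [eq_top_iff]
    intro x _
    have : x ∈ N.toAddSubgroup := by rw [htop]; exact AddSubgroup.mem_top x
    exact this

/-- In a line, every element is a multiple of any nonzero element. -/
theorem exists_smul_of_card_eq {N : Submodule (ZMod p) V} (hN : Nat.card N = p) {x : V}
    (hx : x ∈ N) (hx0 : x ≠ 0) {y : V} (hy : y ∈ N) : ∃ c : ZMod p, y = c • x := by
  have hp : p.Prime := Fact.out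
  have hfinN : Finite N := Nat.finite_of_card_ne_zero (by rw [hN]; exact hp.ne_zero)
  let f : ZMod p → N := fun c => ⟨c • x, N.smul_mem c hx⟩
  have hinj : Function.Injective f := by
    intro c d hcd
    have h1 : c • x = d • x := congrArg Subtype.val hcd
    have h2 : (c - d) • x = 0 := by rw [sub_smul, h1, sub_self]
    rcases smul_eq_zero.1 h2 with h | h
    · exact sub_eq_zero.1 h
    · exact absurd h hx0
  have hbij : Function.Bijective f := by
    rw [Nat.bijective_iff_injective_and_card]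
    exact ⟨hinj, by rw [Nat.card_zmod, hN]⟩
  obtain ⟨c, hc⟩ := hbij.2 ⟨y, hy⟩
  exact ⟨c, (congrArg Subtype.val hc).symm⟩

/-- A plane is spanned by a line and any vector outside it. -/
theorem exists_smul_add_of_card_eq (hV : Nat.card V = p ^ 2) {N : Submodule (ZMod p) V}
    (hN : Nat.card N = p) {x : V} (hx : x ∉ N) (y : V) :
    ∃ (c : ZMod p) (n : V), n ∈ N ∧ y = c • x + n := by
  have hp : p.Prime := Fact.out
  have hfin : Finite V := Nat.finite_of_card_ne_zero (by rw [hV]; exact pow_ne_zero _ hp.ne_zero)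
  let f : ZMod p × N → V := fun cn => cn.1 • x + (cn.2 : V)
  have hinj : Function.Injective f := by
    rintro ⟨c, n⟩ ⟨d, m⟩ hcd
    have h1 : c • x + (n : V) = d • x + (m : V) := hcd
    have h2 : (c - d) • x = (m : V) - (n : V) := by
      rw [sub_smul, sub_eq_sub_iff_add_eq_add, h1, add_comm]
    have hcd' : c = d := by
      by_contra hne
      have hne' : c - d ≠ 0 := sub_ne_zero.2 hne
      apply hx
      have h3 : x = (c - d)⁻¹ • ((m : V) - (n : V)) := by
        rw [← h2, smul_smul, inv_mul_cancel₀ hne', one_smul]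
      rw [h3]
      exact N.smul_mem _ (N.sub_mem m.2 n.2)
    subst hcd'
    have h4 : (n : V) = (m : V) := by simpa using h1
    rw [Prod.mk.injEq]
    exact ⟨rfl, Subtype.ext h4⟩
  have hbij : Function.Bijective f := by
    rw [Nat.bijective_iff_injective_and_card]
    refine ⟨hinj, ?_⟩
    rw [Nat.card_prod, Nat.card_zmod, hN, hV]
    ring
  obtain ⟨⟨c, n⟩, hcn⟩ := hbij.2 y
  exact ⟨c, n, n.2, hcn.symm⟩

/-- A unipotent additive endomorphism of a plane over `𝔽_p` preserving a line is trivial on the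
line and on the quotient. -/
theorem unipotent_line (hV : Nat.card V = p ^ 2) (N : Submodule (ZMod p) V) (hN0 : N ≠ ⊥)
    (hN1 : N ≠ ⊤) (T : V →+ V) (hTN : ∀ x ∈ N, T x ∈ N)
    (hT : ∀ x, T (T x - x) = T x - x) :
    (∀ x ∈ N, T x = x) ∧ (∀ x, T x - x ∈ N) := by
  have hN := card_line hV N hN0 hN1
  let U : V →+ V := T - AddMonoidHom.id V
  have hU : ∀ x, U x = T x - x := fun x => rfl
  have hUU : ∀ x, U (U x) = 0 := by
    intro x
    rw [hU (U x), hU x, hT, sub_self]
  have hUN : ∀ x ∈ N, U x ∈ N := fun x hx => by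
    rw [hU]; exact N.sub_mem (hTN x hx) hx
  have hUsmul : ∀ (c : ZMod p) (x : V), U (c • x) = c • U x := fun c x => ZMod.map_smul U c x
  -- `U` vanishes on `N`
  have hU0 : ∀ x ∈ N, U x = 0 := by
    intro x hx
    rcases eq_or_ne x 0 with rfl | hx0
    · exact map_zero U
    · obtain ⟨c, hc⟩ := exists_smul_of_card_eq hN hx hx0 (hUN x hx)
      have h1 : U (U x) = c • U x := by
        conv_lhs => rw [hc]
        exact hUsmul c x
      rw [hUU, hc, smul_smul] at h1
      rcases smul_eq_zero.1 h1.symm with h | h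
      · have hc0 : c = 0 := by
          rcases mul_eq_zero.1 h with h | h <;> exact h
        rw [hc, hc0, zero_smul]
      · exact absurd h hx0
  refine ⟨fun x hx => sub_eq_zero.1 ((hU x).symm.trans (hU0 x hx)), ?_⟩
  -- a vector outside `N`
  obtain ⟨x, hx⟩ : ∃ x : V, x ∉ N := by
    by_contra hall
    push Not at hall
    exact hN1 (eq_top_iff.2 fun x _ => hall x)
  obtain ⟨d, n, hn, hdn⟩ := exists_smul_add_of_card_eq hV hN hx (U x)
  have hd : d = 0 := by
    have h1 : U (U x) = d • U x + U n := by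
      conv_lhs => rw [hdn]
      rw [map_add, hUsmul]
    rw [hUU, hU0 n hn, add_zero, hdn, smul_add, smul_smul] at h1
    by_contra hd0
    apply hx
    have h2 : (d * d) • x = -(d • n) := by
      rw [eq_neg_iff_add_eq_zero]; exact h1.symm
    have hdd : d * d ≠ 0 := mul_ne_zero hd0 hd0
    have h3 : x = (d * d)⁻¹ • (-(d • n)) := by
      rw [← h2, smul_smul, inv_mul_cancel₀ hdd, one_smul]
    rw [h3]
    exact N.smul_mem _ (N.neg_mem (N.smul_mem _ hn))
  have hUx : U x ∈ N := by
    rw [hdn, hd, zero_smul, zero_add]; exact hn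
  intro y
  obtain ⟨c, m, hm, hcm⟩ := exists_smul_add_of_card_eq hV hN hx y
  rw [← hU, hcm, map_add, hUsmul, hU0 m hm, add_zero]
  exact N.smul_mem _ hUx

end linalg

section main

variable {L : Type*} [Field L] [NumberField L] [IsGalois ℚ L] [DecidableEq L]
  (E : WeierstrassCurve ℚ) (p : ℕ)

theorem t_one_smul (x : Submodule.torsionBy ℤ (E⁄L).Point p) : (1 : L ≃ₐ[ℚ] L) • x = x :=
  one_smul (L ≃ₐ[ℚ] L) x

theorem t_mul_smul (a b : L ≃ₐ[ℚ] L) (x : Submodule.torsionBy ℤ (E⁄L).Point p) :
    (a * b) • x = a • b • x := mul_smul a b x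

theorem t_smul_sub (a : L ≃ₐ[ℚ] L) (x y : Submodule.torsionBy ℤ (E⁄L).Point p) :
    a • (x - y) = a • x - a • y := smul_sub a x y

theorem t_inv_smul_smul (a : L ≃ₐ[ℚ] L) (x : Submodule.torsionBy ℤ (E⁄L).Point p) :
    a⁻¹ • a • x = x := inv_smul_smul a x

theorem t_smul_inv_smul (a : L ≃ₐ[ℚ] L) (x : Submodule.torsionBy ℤ (E⁄L).Point p) :
    a • a⁻¹ • x = x := smul_inv_smul a x

/-- The subgroup of the Galois group acting trivially on a submodule of the torsion. -/
def fixSub (N : Submodule (ZMod p) (Submodule.torsionBy ℤ (E⁄L).Point p)) :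
    Subgroup (L ≃ₐ[ℚ] L) where
  carrier := {σ | ∀ x ∈ N, σ • x = x}
  mul_mem' := by
    intro a b ha hb x hx
    rw [t_mul_smul, hb x hx, ha x hx]
  one_mem' := by
    intro x _
    exact t_one_smul E p x
  inv_mem' := by
    intro a ha x hx
    have h := t_inv_smul_smul E p a x
    rw [ha x hx] at h
    exact h

/-- The subgroup of the Galois group acting trivially modulo a stable submodule. -/
def cofixSub (N : Submodule (ZMod p) (Submodule.torsionBy ℤ (E⁄L).Point p))
    (hN : IsGaloisStable ℚ N) : Subgroup (L ≃ₐ[ℚ] L) where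
  carrier := {σ | ∀ x, σ • x - x ∈ N}
  mul_mem' := by
    intro a b ha hb x
    have h : (a * b) • x - x = a • (b • x - x) + (a • x - x) := by
      rw [t_mul_smul, t_smul_sub]; abel
    rw [h]
    exact N.add_mem (hN a _ (hb x)) (ha x)
  one_mem' := by
    intro x
    rw [t_one_smul, sub_self]
    exact N.zero_mem
  inv_mem' := by
    intro a ha x
    have h : a⁻¹ • x - x = -(a⁻¹ • (a • x - x)) := by
      rw [t_smul_sub, t_inv_smul_smul]; abel
    rw [h]
    exact N.neg_mem (hN _ _ (ha x))

theorem fixSub_normal (N : Submodule (ZMod p) (Submodule.torsionBy ℤ (E⁄L).Point p))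
    (hN : IsGaloisStable ℚ N) : (fixSub E p N).Normal := by
  refine ⟨fun σ hσ g x hx => ?_⟩
  have h1 : g⁻¹ • x ∈ N := hN _ x hx
  rw [t_mul_smul, t_mul_smul, hσ _ h1, t_smul_inv_smul]

theorem cofixSub_normal (N : Submodule (ZMod p) (Submodule.torsionBy ℤ (E⁄L).Point p))
    (hN : IsGaloisStable ℚ N) : (cofixSub E p N hN).Normal := by
  refine ⟨fun σ hσ g x => ?_⟩
  have h : (g * σ * g⁻¹) • x - x = g • (σ • (g⁻¹ • x) - g⁻¹ • x) := by
    rw [t_mul_smul, t_mul_smul, t_smul_sub, t_smul_inv_smul]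
  rw [h]
  exact hN g _ (hσ _)

variable [Fact p.Prime]

/-- **Finite-level endgame.**  Over a Galois number field `L` with `#E[p](L) = p²`: if the
representation is reducible, inertia at the primes `q ≠ 2, p` acts trivially, inertia at `2` acts
unipotently, at `p` inertia acts trivially either on the stable line or on the quotient, and there
is no Galois-fixed point of order `p`, then there is a Galois-stable cofixed line. -/
theorem hasCofixedLine
    (hcard : Nat.card (Submodule.torsionBy ℤ (E⁄L).Point p) = p ^ 2)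
    (hred : ¬ GaloisRepIsIrreducible (K := L) ℚ E p)
    (hLq : ∀ q : ℕ, q.Prime → q ≠ 2 → q ≠ p → ∃ A : ValuationSubring L, A.LiesOverPrime q ∧
      ∀ σ ∈ A.inertiaSubgroupIn ℚ, ∀ x : Submodule.torsionBy ℤ (E⁄L).Point p, σ • x = x)
    (hL2 : ∃ A : ValuationSubring L, A.LiesOverPrime 2 ∧
      ∀ σ ∈ A.inertiaSubgroupIn ℚ, ∀ x : Submodule.torsionBy ℤ (E⁄L).Point p,
        σ • (σ • x - x) = σ • x - x)
    (hLp : ∀ N : Submodule (ZMod p) (Submodule.torsionBy ℤ (E⁄L).Point p),
      IsGaloisStable ℚ N → N ≠ ⊥ → N ≠ ⊤ → ∃ A : ValuationSubring L, A.LiesOverPrime p ∧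
        ((∀ σ ∈ A.inertiaSubgroupIn ℚ, ∀ x ∈ N, σ • x = x) ∨
          (∀ σ ∈ A.inertiaSubgroupIn ℚ, ∀ x : Submodule.torsionBy ℤ (E⁄L).Point p,
            σ • x - x ∈ N)))
    (hR2 : ∀ x : Submodule.torsionBy ℤ (E⁄L).Point p, (∀ σ : L ≃ₐ[ℚ] L, σ • x = x) → x = 0) :
    HasGaloisStableCofixedLine (K := L) ℚ E p := by
  have hp : p.Prime := Fact.out
  have hfin : Finite (Submodule.torsionBy ℤ (E⁄L).Point p) :=
    Nat.finite_of_card_ne_zero (by rw [hcard]; exact pow_ne_zero _ hp.ne_zero)
  have hnt : Nontrivial (Submodule.torsionBy ℤ (E⁄L).Point p) := by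
    have h1 : 1 < Nat.card (Submodule.torsionBy ℤ (E⁄L).Point p) := by
      rw [hcard]; exact Nat.one_lt_pow (by norm_num) hp.one_lt
    exact Finite.one_lt_card_iff_nontrivial.1 h1
  have hex : ∃ N : Submodule (ZMod p) (Submodule.torsionBy ℤ (E⁄L).Point p),
      IsGaloisStable ℚ N ∧ N ≠ ⊥ ∧ N ≠ ⊤ := by
    by_contra hno
    apply hred
    refine ⟨hnt, fun N hN => ?_⟩
    by_contra h
    push Not at h
    exact hno ⟨N, hN, h.1, h.2⟩
  obtain ⟨N, hNst, hN0, hN1⟩ := hex
  obtain ⟨Ap, hAp, hcase⟩ := hLp N hNst hN0 hN1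
  obtain ⟨A2, hA2, hun⟩ := hL2
  have h2 : ∀ σ ∈ A2.inertiaSubgroupIn ℚ, (∀ x ∈ N, σ • x = x) ∧ (∀ x, σ • x - x ∈ N) := by
    intro σ hσ
    exact unipotent_line hcard N hN0 hN1
      (DistribSMul.toAddMonoidHom (Submodule.torsionBy ℤ (E⁄L).Point p) σ)
      (fun x hx => hNst σ x hx) (fun x => hun σ hσ x)
  rcases hcase with hI | hII
  · exfalso
    have htop : fixSub E p N = ⊤ := by
      have : (fixSub E p N).Normal := fixSub_normal E p N hNst
      apply Global.eq_top_of_inertia_le
      intro q hq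
      by_cases hqp : q = p
      · subst hqp
        exact ⟨Ap, hAp, fun σ hσ => hI σ hσ⟩
      by_cases hq2 : q = 2
      · subst hq2
        exact ⟨A2, hA2, fun σ hσ => (h2 σ hσ).1⟩
      · obtain ⟨A, hA, hfix⟩ := hLq q hq hq2 hqp
        exact ⟨A, hA, fun σ hσ x _ => hfix σ hσ x⟩
    apply hN0
    rw [eq_bot_iff]
    intro x hx
    have hx0 : x = 0 := hR2 x (fun σ => by
      have hσ : σ ∈ fixSub E p N := by rw [htop]; exact Subgroup.mem_top σ
      exact hσ x hx)
    rw [hx0]
    exact Submodule.zero_mem _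
  · have htop : cofixSub E p N hNst = ⊤ := by
      have : (cofixSub E p N hNst).Normal := cofixSub_normal E p N hNst
      apply Global.eq_top_of_inertia_le
      intro q hq
      by_cases hqp : q = p
      · subst hqp
        exact ⟨Ap, hAp, fun σ hσ => hII σ hσ⟩
      by_cases hq2 : q = 2
      · subst hq2
        exact ⟨A2, hA2, fun σ hσ => (h2 σ hσ).2⟩
      · obtain ⟨A, hA, hfix⟩ := hLq q hq hq2 hqp
        refine ⟨A, hA, fun σ hσ x => ?_⟩
        rw [hfix σ hσ x, sub_self]
        exact N.zero_mem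
    refine ⟨N, hNst, hN0, hN1, fun σ x => ?_⟩
    have hσ : σ ∈ cofixSub E p N hNst := by rw [htop]; exact Subgroup.mem_top σ
    exact hσ x

end main

end Fermat.Agent.S13.Endgame
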