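import Mathlib
import Fermat.Prelude.Def_FLTPrelim_CofixedLine
import Fermat.Agent.S13_Transfer
import Fermat.Agent.S13_Endgame

/-!
# S13: reduction of the statement to the torsion count and the local statements at a finite
Galois level
-/

set_option autoImplicit false

open WeierstrassCurve WeierstrassCurve.Affine WeierstrassCurve.Affine.Point

namespace Fermat.Agent.S13.Reduce

open Fermat.Agent.S13.Transfer

/-- The local package at a finite Galois level `L` (a Galois number field inside `ℚ̄`): inertia at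
the primes `q ≠ 2, p` acts trivially on the `p`-torsion, inertia at `2` acts unipotently, at `p`
inertia acts trivially on a given stable line or on its quotient, and there is no Galois-fixed
point of order `p`. -/
def LocalPackage (E : WeierstrassCurve ℚ) (p : ℕ)
    (L : IntermediateField ℚ (AlgebraicClosure ℚ)) [DecidableEq ↥L] : Prop :=
  (∀ q : ℕ, q.Prime → q ≠ 2 → q ≠ p → ∃ A : ValuationSubring ↥L, A.LiesOverPrime q ∧
    ∀ σ ∈ A.inertiaSubgroupIn ℚ, ∀ x : Submodule.torsionBy ℤ (E⁄↥L).Point p, σ • x = x) ∧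
  (∃ A : ValuationSubring ↥L, A.LiesOverPrime 2 ∧
    ∀ σ ∈ A.inertiaSubgroupIn ℚ, ∀ x : Submodule.torsionBy ℤ (E⁄↥L).Point p,
      σ • (σ • x - x) = σ • x - x) ∧
  (∀ N : Submodule (ZMod p) (Submodule.torsionBy ℤ (E⁄↥L).Point p),
    IsGaloisStable ℚ N → N ≠ ⊥ → N ≠ ⊤ → ∃ A : ValuationSubring ↥L, A.LiesOverPrime p ∧
      ((∀ σ ∈ A.inertiaSubgroupIn ℚ, ∀ x ∈ N, σ • x = x) ∨
        (∀ σ ∈ A.inertiaSubgroupIn ℚ,
          ∀ x : Submodule.torsionBy ℤ (E⁄↥L).Point p, σ • x - x ∈ N))) ∧
  (∀ x : Submodule.torsionBy ℤ (E⁄↥L).Point p, (∀ σ : ↥L ≃ₐ[ℚ] ↥L, σ • x = x) → x = 0)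

/-- **Reduction of S13**: the torsion count over `ℚ̄` and the local package at every finite
Galois level containing the coordinates of the `p`-torsion imply the statement. -/
theorem hasCofixedLine_of_local (E : WeierstrassCurve ℚ) (p : ℕ) (hp : p.Prime)
    (hred : ¬ GaloisRepIsIrreducible (K := AlgebraicClosure ℚ) ℚ E p)
    (hcardK : Nat.card (Submodule.torsionBy ℤ (E⁄(AlgebraicClosure ℚ)).Point p) = p ^ 2)
    (hloc : ∀ (L : IntermediateField ℚ (AlgebraicClosure ℚ)) [DecidableEq ↥L] [NumberField ↥L]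
      [IsGalois ℚ ↥L],
      (∀ Pt : (E⁄(AlgebraicClosure ℚ)).Point, (p : ℤ) • Pt = 0 →
        Pt ∈ Set.range (incl E L)) → LocalPackage E p L) :
    HasGaloisStableCofixedLine (K := AlgebraicClosure ℚ) ℚ E p := by
  have hpF : Fact p.Prime := ⟨hp⟩
  have hfin : Finite (Submodule.torsionBy ℤ (E⁄(AlgebraicClosure ℚ)).Point p) :=
    Nat.finite_of_card_ne_zero (by rw [hcardK]; exact pow_ne_zero _ hp.ne_zero)
  obtain ⟨L, hfd, hnorm, hcoord⟩ := exists_field E p
  classical
  have hL : ∀ Pt : (E⁄(AlgebraicClosure ℚ)).Point, (p : ℤ) • Pt = 0 →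
      Pt ∈ Set.range (incl E L) :=
    fun Pt h => mem_range_incl _ _ (hcoord Pt h).1 (hcoord Pt h).2
  have : NumberField ↥L := { to_charZero := inferInstance, to_finiteDimensional := hfd }
  have : IsGalois ℚ ↥L := { to_isSeparable := inferInstance, to_normal := hnorm }
  obtain ⟨hLq, hL2, hLp, hR2⟩ := hloc L hL
  refine hasCofixedLine_of_hasCofixedLine _ L _ hL ?_
  exact Endgame.hasCofixedLine E p
    ((card_torsion_eq E L p hL).trans hcardK)
    (not_irreducible_of_not_irreducible _ L _ hL hred) hLq hL2 hLp hR2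

end Fermat.Agent.S13.Reduce
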