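-- Statement S13 (row 12): if the mod-p representation of the Frey curve is reducible, it has a
-- Galois-stable cofixed line.
import Fermat.Statements.S13
import Fermat.Agent.S13_Reduce
import Fermat.Agent.S13_QLocal
import Fermat.Agent.S13_K2Final
import Fermat.Agent.S13_PFrey
import Fermat.Agent.S13_FreyW

set_option autoImplicit false
open WeierstrassCurve WeierstrassCurve.Affine WeierstrassCurve.Affine.Point
open CuspForm ModularFormClass UpperHalfPlane
open FreyPackage

namespace Fermat.Agent.S13

theorem result (P : FreyPackage) (hred : ¬ GaloisRepIsIrreducible (K := AlgebraicClosure ℚ) ℚ P.freyCurve P.p) : HasGaloisStableCofixedLine (K := AlgebraicClosure ℚ) ℚ P.freyCurve P.p := by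
  have hcardK := FreyW.card_torsion_frey P
  refine Reduce.hasCofixedLine_of_local P.freyCurve P.p P.pp hred hcardK ?_
  intro L _ _ _ hL
  refine ⟨?_, K2.Frey.exists_unipotent_two P, ?_, K2.Frey.frey_no_rational_torsion P⟩
  · intro q hq hq2 hqp
    obtain ⟨A, hA⟩ := Global.exists_valuationSubring_liesOver (L := ↥L) hq
    exact ⟨A, hA, QLocal.smul_torsion_eq_self P hq hq2 hqp A hA⟩
  · intro N hN hN0 hN1
    exact PFrey.frey_lp P (FreyW.newtonAt_frey P L hL)
      ((Transfer.card_torsion_eq P.freyCurve L P.p hL).trans hcardK) N hN hN0 hN1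

end Fermat.Agent.S13
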