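import Fermat.Agent.S05_Defs
import Fermat.Agent.S13_Defs

/-!
# S13 / WP-A (MX-3): the torsion count and the product identity

Given a `DivSeq` and its evaluation property `EvalSpec` (MX-1, MX-2), over an algebraically
closed field of characteristic zero: for an odd prime `p` there are exactly `p²` points killed
by `p`, `b p = p² ∏ (X - x)²` and `a p = X ∏ (X - A4 / x)²` (`x` running over the `ξ`-values of
the nonzero `p`-torsion points), and evaluating `a p (e) = e b p (e)` at a root `e` of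
`ξ² + A2 ξ + A4` gives `∏ ((e - A4 / x) / (e - x))² = p²`.
-/


set_option autoImplicit false
set_option linter.unusedSectionVars false

namespace Fermat.Agent.S13.MulCount

open Polynomial
open Fermat.Agent.S05

variable {K : Type*} [Field K] {G : Type*} [AddCommGroup G]

/-- The evaluation property of a `DivSeq` for a datum (statement MX-2). -/
def EvalSpec (D : KDatum K G) (S : DivSeq K D.A2 D.A4) : Prop :=
  ∀ n : ℕ, 1 ≤ n → ∀ Q : G, Q ≠ 0 →
    (n • Q ≠ 0 → (S.b n).eval (D.ξ Q) ≠ 0 ∧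
      (S.a n).eval (D.ξ Q) = D.ξ (n • Q) * (S.b n).eval (D.ξ Q)) ∧
    (n • Q = 0 → (S.b n).eval (D.ξ Q) = 0)

theorem eq_zero_of_two_of_odd {Q : G} {p : ℕ} (hp : Odd p) (h2 : 2 • Q = 0)
    (hpQ : p • Q = 0) : Q = 0 := by
  obtain ⟨k, rfl⟩ := hp
  have h : (2 * k + 1) • Q = k • (2 • Q) + Q := by
    rw [add_nsmul, one_nsmul, mul_nsmul]
  rw [h, h2, nsmul_zero, zero_add] at hpQ
  exact hpQ

theorem odd_nsmul_of_two {T : G} {p : ℕ} (hp : Odd p) (h2 : 2 • T = 0) : p • T = T := by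
  obtain ⟨k, rfl⟩ := hp
  rw [add_nsmul, one_nsmul, mul_nsmul, h2, nsmul_zero, zero_add]

/-- a point with `η = 0` is killed by `2` -/
theorem two_nsmul_eq_zero (D : KDatum K G) {P : G} (hP : P ≠ 0) (hη : D.η P = 0) :
    2 • P = 0 := by
  rw [two_nsmul]; exact D.dbl_zero P hP hη

theorem η_eq_zero_of_ξ_root (D : KDatum K G) {P : G} (hP : P ≠ 0)
    (h : D.ξ P * (D.ξ P ^ 2 + D.A2 * D.ξ P + D.A4) = 0) : D.η P = 0 := by
  have := D.eqn P hP
  rw [h] at this
  exact pow_eq_zero_iff (two_ne_zero) |>.mp this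

/-- translation by the point `T = (0, 0)` -/
theorem ξ_add_T (D : KDatum K G) {Q T : G} (hQ : Q ≠ 0) (hT : T ≠ 0) (hξT : D.ξ T = 0)
    (hξQ : D.ξ Q ≠ 0) : D.ξ (Q + T) = D.A4 / D.ξ Q := by
  have hηT : D.η T = 0 := η_eq_zero_of_ξ_root D hT (by rw [hξT]; ring)
  rw [D.ξ_add Q T hQ hT (by rw [hξT]; exact hξQ), hξT, hηT, sub_zero, sub_zero, sub_zero,
    div_pow, D.eqn Q hQ]
  field_simp
  ring

section Count

variable [IsAlgClosed K] [CharZero K] (D : KDatum K G) (S : DivSeq K D.A2 D.A4)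

/-- every abscissa is the `ξ` of a point -/
theorem exists_point
    (hsurj : ∀ x y : K, y ^ 2 = x * (x ^ 2 + D.A2 * x + D.A4) →
      ∃ Q : G, Q ≠ 0 ∧ D.ξ Q = x ∧ D.η Q = y) (x : K) : ∃ Q : G, Q ≠ 0 ∧ D.ξ Q = x := by
  obtain ⟨y, hy⟩ := IsAlgClosed.exists_pow_nat_eq (x * (x ^ 2 + D.A2 * x + D.A4))
    (n := 2) (by norm_num)
  obtain ⟨Q, hQ, hx, -⟩ := hsurj x y hy
  exact ⟨Q, hQ, hx⟩

include D in
theorem b_ne_zero {p : ℕ} (hp : p ≠ 0) : S.b p ≠ 0 := by
  intro h
  have h1 := S.leadingCoeff_b p (Nat.one_le_iff_ne_zero.mpr hp)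
  rw [h, leadingCoeff_zero] at h1
  exact pow_ne_zero 2 (Nat.cast_ne_zero.mpr hp) h1.symm

include D in
theorem a_ne_zero {p : ℕ} (hp : p ≠ 0) : S.a p ≠ 0 :=
  (S.monic p (Nat.one_le_iff_ne_zero.mpr hp)).ne_zero

include D in
/-- `a n` and `b n` have no common root -/
theorem not_both_zero {n : ℕ} (hn : 1 ≤ n) (z : K) (ha : (S.a n).eval z = 0)
    (hb : (S.b n).eval z = 0) : False := by
  obtain ⟨u, v, h⟩ := S.coprime n hn
  have := congrArg (eval z) h
  simp [ha, hb] at this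

variable {D S}

/-- nonzero `p`-torsion points (`p` odd) have `η ≠ 0` -/
theorem η_ne_zero_of_torsion {p : ℕ} (hp : Odd p) {Q : G} (hQ : Q ≠ 0) (hpQ : p • Q = 0) :
    D.η Q ≠ 0 := fun h =>
  hQ (eq_zero_of_two_of_odd hp (two_nsmul_eq_zero D hQ h) hpQ)

theorem ξ_ne_zero_of_torsion {p : ℕ} (hp : Odd p) {Q : G} (hQ : Q ≠ 0) (hpQ : p • Q = 0) :
    D.ξ Q ≠ 0 := fun h =>
  η_ne_zero_of_torsion hp hQ hpQ (η_eq_zero_of_ξ_root D hQ (by rw [h]; ring))

theorem sub_two_nsmul_ne_zero {p : ℕ} (hp : Odd p) (hp3 : 3 ≤ p) {Q : G} (hQ : Q ≠ 0)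
    (hpQ : p • Q = 0) : (p - 2) • Q ≠ 0 := by
  intro h
  have h2 : p • Q = (p - 2) • Q + 2 • Q := by
    rw [← add_nsmul]; congr 1; omega
  rw [hpQ, h, zero_add] at h2
  exact hQ (eq_zero_of_two_of_odd hp h2.symm hpQ)

/-- irreducible linear factor coprime to a polynomial not vanishing at its root -/
theorem isCoprime_X_sub_C_pow (z : K) (q : K[X]) (hq : q.eval z ≠ 0) (k : ℕ) :
    IsCoprime ((X - C z) ^ k) q := by
  apply IsCoprime.pow_left
  rw [(irreducible_X_sub_C z).coprime_iff_not_dvd, dvd_iff_isRoot]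
  exact hq

/-- key divisibility: if `f * g = c ^ 2`, `f z = 0`, `g z ≠ 0` then `(X - z)² ∣ f`. -/
theorem sq_dvd_of_mul_eq_sq {f g c : K[X]} (h : f * g = c ^ 2) {z : K} (hf : f.eval z = 0)
    (hg : g.eval z ≠ 0) : (X - C z) ^ 2 ∣ f := by
  have hc : c.eval z = 0 := by
    have := congrArg (eval z) h
    rw [eval_mul, hf, zero_mul, eval_pow] at this
    exact pow_eq_zero_iff (two_ne_zero) |>.mp this.symm
  have hdvd : (X - C z) ^ 2 ∣ f * g := by
    rw [h]; exact pow_dvd_pow_of_dvd (dvd_iff_isRoot.mpr hc) 2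
  exact (isCoprime_X_sub_C_pow z g hg 2).dvd_of_dvd_mul_right hdvd

variable (hev : EvalSpec D S)
include hev

/-- (i) the `ξ` of a nonzero `p`-torsion point is a double root of `b p`. -/
theorem sq_dvd_b {p : ℕ} (hp : Odd p) (hp3 : 3 ≤ p) {Q : G} (hQ : Q ≠ 0) (hpQ : p • Q = 0) :
    (X - C (D.ξ Q)) ^ 2 ∣ S.b p := by
  have hI2 := S.I2 (p - 1) (by omega)
  rw [show p - 1 + 1 = p by omega, show p - 1 - 1 = p - 2 by omega] at hI2
  exact sq_dvd_of_mul_eq_sq hI2 ((hev p (by omega) Q hQ).2 hpQ)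
    ((hev (p - 2) (by omega) Q hQ).1 (sub_two_nsmul_ne_zero hp hp3 hQ hpQ)).1

/-- the `ξ` of `Q + T` (`Q` nonzero `p`-torsion, `T = (0,0)`) is a double root of `a p`. -/
theorem sq_dvd_a (hA4 : D.A4 ≠ 0) {p : ℕ} (hp : Odd p) (hp3 : 3 ≤ p) {Q T : G} (hQ : Q ≠ 0)
    (hpQ : p • Q = 0) (hT : T ≠ 0) (hξT : D.ξ T = 0) :
    (X - C (D.A4 / D.ξ Q)) ^ 2 ∣ S.a p := by
  have hξQ : D.ξ Q ≠ 0 := ξ_ne_zero_of_torsion hp hQ hpQ
  have hηT : D.η T = 0 := η_eq_zero_of_ξ_root D hT (by rw [hξT]; ring)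
  have h2T : 2 • T = 0 := two_nsmul_eq_zero D hT hηT
  have hQT : Q + T ≠ 0 := D.add_ne_zero_of_ξ_ne (by rw [hξT]; exact hξQ)
  have hξQT := ξ_add_T D hQ hT hξT hξQ
  have hp2odd : Odd (p - 2) := by
    obtain ⟨k, rfl⟩ := hp
    exact ⟨k - 1, by omega⟩
  -- `p • (Q + T) = T`
  have h1 : p • (Q + T) = T := by rw [nsmul_add, hpQ, zero_add, odd_nsmul_of_two hp h2T]
  -- `(p - 2) • (Q + T) = (p - 2) • Q + T`
  have h2 : (p - 2) • (Q + T) = (p - 2) • Q + T := by
    rw [nsmul_add, odd_nsmul_of_two hp2odd h2T]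
  have hR : (p - 2) • Q ≠ 0 := sub_two_nsmul_ne_zero hp hp3 hQ hpQ
  have hpR : p • ((p - 2) • Q) = 0 := by rw [smul_comm, hpQ, smul_zero]
  have hξR : D.ξ ((p - 2) • Q) ≠ 0 := ξ_ne_zero_of_torsion hp hR hpR
  have h3 : (p - 2) • (Q + T) ≠ 0 := by
    rw [h2]; exact D.add_ne_zero_of_ξ_ne (by rw [hξT]; exact hξR)
  have h4 : D.ξ ((p - 2) • (Q + T)) ≠ 0 := by
    rw [h2, ξ_add_T D hR hT hξT hξR]
    exact div_ne_zero hA4 hξR
  have hI1 := S.I1 (p - 1) (by omega)
  rw [show p - 1 + 1 = p by omega, show p - 1 - 1 = p - 2 by omega] at hI1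
  rw [← hξQT]
  refine sq_dvd_of_mul_eq_sq hI1 ?_ ?_
  · have := ((hev p (by omega) (Q + T) hQT).1 (by rw [h1]; exact hT)).2
    rw [this, h1, hξT, zero_mul]
  · have := (hev (p - 2) (by omega) (Q + T) hQT).1 h3
    rw [this.2]
    exact mul_ne_zero h4 this.1

/-- `X ∣ a p` -/
theorem X_dvd_a {p : ℕ} (hp : Odd p) {T : G} (hT : T ≠ 0) (hξT : D.ξ T = 0) : X ∣ S.a p := by
  have hηT : D.η T = 0 := η_eq_zero_of_ξ_root D hT (by rw [hξT]; ring)
  have h2T : 2 • T = 0 := two_nsmul_eq_zero D hT hηT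
  have h1 : p • T = T := odd_nsmul_of_two hp h2T
  have hp1 : 1 ≤ p := by obtain ⟨k, rfl⟩ := hp; omega
  have := ((hev p hp1 T hT).1 (by rw [h1]; exact hT)).2
  rw [h1, hξT, zero_mul] at this
  rw [X_dvd_iff, coeff_zero_eq_eval_zero]
  exact this

omit hev in
/-- all points killed by `p` lie in a finite set of at most `2 |X| + 1` elements. -/
theorem exists_torsion_cover
    (hsurj : ∀ x y : K, y ^ 2 = x * (x ^ 2 + D.A2 * x + D.A4) →
      ∃ Q : G, Q ≠ 0 ∧ D.ξ Q = x ∧ D.η Q = y) (Xs : Finset K) (p : ℕ)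
    (hX1 : ∀ Q : G, Q ≠ 0 → p • Q = 0 → D.ξ Q ∈ Xs) :
    ∃ F : Finset G, F.card ≤ 2 * Xs.card + 1 ∧ ∀ Q : G, p • Q = 0 → Q ∈ F := by
  classical
  choose Qf hQf0 hQfξ using exists_point D hsurj
  refine ⟨insert 0 (Xs.image Qf ∪ Xs.image (fun x => -Qf x)), ?_, ?_⟩
  · calc (insert 0 (Xs.image Qf ∪ Xs.image (fun x => -Qf x))).card
        ≤ (Xs.image Qf ∪ Xs.image (fun x => -Qf x)).card + 1 := Finset.card_insert_le _ _
      _ ≤ (Xs.image Qf).card + (Xs.image (fun x => -Qf x)).card + 1 :=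
          Nat.add_le_add_right (Finset.card_union_le _ _) 1
      _ ≤ Xs.card + Xs.card + 1 :=
          Nat.add_le_add_right (Nat.add_le_add Finset.card_image_le Finset.card_image_le) 1
      _ = 2 * Xs.card + 1 := by ring
  · intro Q hQ
    by_cases h0 : Q = 0
    · simp [h0]
    · have hx := hX1 Q h0 hQ
      rw [Finset.mem_insert, Finset.mem_union]
      right
      rcases D.eq_or_eq_neg_of_ξ_eq h0 (hQf0 (D.ξ Q)) (hQfξ _).symm with h | h
      · left; exact Finset.mem_image.mpr ⟨_, hx, h.symm⟩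
      · right; exact Finset.mem_image.mpr ⟨_, hx, h.symm⟩

/-- the generic fibre of multiplication by `p` on the `ξ`-line has `p²` points: there are `p²`
distinct points killed by `p`. -/
theorem exists_fiber
    (hsurj : ∀ x y : K, y ^ 2 = x * (x ^ 2 + D.A2 * x + D.A4) →
      ∃ Q : G, Q ≠ 0 ∧ D.ξ Q = x ∧ D.η Q = y) {p : ℕ} (hp1 : 1 ≤ p) :
    ∃ (Z : Finset K) (R : K → G), Z.card = p ^ 2 ∧ (∀ z ∈ Z, p • R z = 0) ∧
      Set.InjOn R (Z : Set K) := by
  classical
  set a := S.a p with ha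
  set b := S.b p with hb
  have hmonic : a.Monic := S.monic p hp1
  have hdega : a.natDegree = p ^ 2 := S.natDegree_a p hp1
  have hdegb : b.natDegree = p ^ 2 - 1 := S.natDegree_b p hp1
  have hpp : 0 < p ^ 2 := by positivity
  -- the Wronskian is nonzero
  set W := derivative a * b - a * derivative b with hW
  have hW0 : W ≠ 0 := by
    intro h0
    have h1 : derivative a * b = a * derivative b := sub_eq_zero.mp h0
    have h2 : a ∣ derivative a :=
      (S.coprime p hp1).dvd_of_dvd_mul_right (h1 ▸ dvd_mul_right a _)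
    have h3 : derivative a = 0 :=
      eq_zero_of_dvd_of_natDegree_lt h2 (natDegree_derivative_lt (by rw [hdega]; exact hpp.ne'))
    have h4 := derivative_eq_zero.mp h3
    omega
  -- a good constant
  obtain ⟨c, hc⟩ := Infinite.exists_notMem_finset
    (W.roots.toFinset.image (fun z => a.eval z / b.eval z))
  set Gc := a - C c * b with hGc
  have hltn : (C c * b).natDegree < a.natDegree :=
    calc (C c * b).natDegree ≤ b.natDegree := natDegree_C_mul_le _ _
      _ < a.natDegree := by rw [hdega, hdegb]; omega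
  have hlt : (C c * b).degree < a.degree := degree_lt_degree hltn
  have hGmonic : Gc.Monic := hmonic.sub_of_left hlt
  have hGdeg : Gc.natDegree = p ^ 2 := by
    rw [hGc, natDegree_sub_eq_left_of_natDegree_lt hltn, hdega]
  have hG0 : Gc ≠ 0 := hGmonic.ne_zero
  have hnodup : Gc.roots.Nodup := by
    rw [Multiset.nodup_iff_count_le_one]
    intro z
    rw [count_roots]
    by_contra hcon
    push Not at hcon
    obtain ⟨hr, hr'⟩ := (one_lt_rootMultiplicity_iff_isRoot hG0).mp hcon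
    have e1 : a.eval z = c * b.eval z := by
      have := hr
      simp only [hGc, IsRoot.def, eval_sub, eval_mul, eval_C] at this
      linear_combination this
    have e2 : (derivative a).eval z = c * (derivative b).eval z := by
      have := hr'
      simp only [hGc, IsRoot.def, derivative_sub, derivative_mul, derivative_C, eval_sub,
        eval_mul, eval_C, zero_mul, zero_add] at this
      linear_combination this
    have hWz : W.eval z = 0 := by
      simp only [hW, eval_sub, eval_mul]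
      rw [e1, e2]; ring
    have hbz : b.eval z ≠ 0 := by
      intro hbz
      exact not_both_zero D S hp1 z (by rw [← ha, e1, hbz, mul_zero]) hbz
    apply hc
    rw [Finset.mem_image]
    refine ⟨z, ?_, ?_⟩
    · rw [Multiset.mem_toFinset, mem_roots hW0]; exact hWz
    · rw [e1]; field_simp
  set Z := Gc.roots.toFinset with hZdef
  have hZcard : Z.card = p ^ 2 := by
    rw [hZdef, Multiset.toFinset_card_of_nodup hnodup,
      ← (IsAlgClosed.splits Gc).natDegree_eq_card_roots, hGdeg]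
  -- points above the roots
  choose Qf hQf0 hQfξ using exists_point D hsurj
  have hZ : ∀ z ∈ Z, p • Qf z ≠ 0 ∧ D.ξ (p • Qf z) = c := by
    intro z hz
    have hroot : Gc.eval z = 0 := (mem_roots hG0).mp (Multiset.mem_toFinset.mp hz)
    have e1 : a.eval z = c * b.eval z := by
      simp only [hGc, eval_sub, eval_mul, eval_C] at hroot
      linear_combination hroot
    have hbz : b.eval z ≠ 0 := by
      intro hbz
      exact not_both_zero D S hp1 z (by rw [← ha, e1, hbz, mul_zero]) hbz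
    have hspec := hev p hp1 (Qf z) (hQf0 z)
    rw [hQfξ z] at hspec
    have hne : p • Qf z ≠ 0 := fun h => hbz (hspec.2 h)
    refine ⟨hne, ?_⟩
    have h1 := (hspec.1 hne).2
    have h2 : (D.ξ (p • Qf z) - c) * b.eval z = 0 := by
      rw [← ha, e1] at h1
      linear_combination -h1
    exact sub_eq_zero.mp ((mul_eq_zero.mp h2).resolve_right hbz)
  obtain ⟨z₀, hz₀⟩ : Z.Nonempty := Finset.card_pos.mp (by rw [hZcard]; exact hpp)
  set P₀ := p • Qf z₀ with hP₀
  have hsign : ∀ z ∈ Z, p • Qf z = P₀ ∨ p • Qf z = -P₀ := fun z hz =>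
    D.eq_or_eq_neg_of_ξ_eq (hZ z hz).1 (hZ z₀ hz₀).1 ((hZ z hz).2.trans (hZ z₀ hz₀).2.symm)
  let Q' : K → G := fun z => if p • Qf z = P₀ then Qf z else -Qf z
  have hQ'p : ∀ z ∈ Z, p • Q' z = P₀ := by
    intro z hz
    by_cases h : p • Qf z = P₀
    · show p • (if p • Qf z = P₀ then Qf z else -Qf z) = P₀
      rw [if_pos h, h]
    · have h' := (hsign z hz).resolve_left h
      show p • (if p • Qf z = P₀ then Qf z else -Qf z) = P₀
      rw [if_neg h, smul_neg, h', neg_neg]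
  have hQ'ξ : ∀ z, D.ξ (Q' z) = z := by
    intro z
    by_cases h : p • Qf z = P₀
    · simp only [Q', h, if_true, hQfξ]
    · simp only [Q', h, if_false, D.ξ_neg, hQfξ]
  refine ⟨Z, fun z => Q' z - Qf z₀, hZcard, ?_, ?_⟩
  · intro z hz
    rw [smul_sub, hQ'p z hz]
    exact sub_self _
  · intro z hz z' hz' h
    have h1 : Q' z = Q' z' := sub_left_injective h
    have h2 := congrArg D.ξ h1
    rwa [hQ'ξ, hQ'ξ] at h2

/-- (MX-3) the torsion count and the product identity, given the sequence and its evaluation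
property. -/
theorem main (hA4 : D.A4 ≠ 0)
    (hsurj : ∀ x y : K, y ^ 2 = x * (x ^ 2 + D.A2 * x + D.A4) →
      ∃ Q : G, Q ≠ 0 ∧ D.ξ Q = x ∧ D.η Q = y)
    (p : ℕ) (hp : p.Prime) (hp2 : p ≠ 2) :
    ∃ Xs : Finset K, (∀ Q : G, Q ≠ 0 → p • Q = 0 → D.ξ Q ∈ Xs) ∧
      (∀ x ∈ Xs, ∃ Q : G, Q ≠ 0 ∧ p • Q = 0 ∧ D.ξ Q = x) ∧
      Nat.card {Q : G // p • Q = 0} = p ^ 2 ∧
      ∀ e : K, e ^ 2 + D.A2 * e + D.A4 = 0 →
        ∏ x ∈ Xs, ((e - D.A4 / x) / (e - x)) ^ 2 = (p : K) ^ 2 := by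
  classical
  have hodd : Odd p := hp.odd_of_ne_two hp2
  have hp3 : 3 ≤ p := by have := hp.two_le; omega
  have hp1 : 1 ≤ p := by omega
  have hb0 : S.b p ≠ 0 := b_ne_zero D S (by omega)
  set Xs := (S.b p).roots.toFinset with hXs
  have hX1 : ∀ Q : G, Q ≠ 0 → p • Q = 0 → D.ξ Q ∈ Xs := by
    intro Q hQ hpQ
    rw [hXs, Multiset.mem_toFinset, mem_roots hb0]
    exact (hev p hp1 Q hQ).2 hpQ
  have hX2 : ∀ x ∈ Xs, ∃ Q : G, Q ≠ 0 ∧ p • Q = 0 ∧ D.ξ Q = x := by
    intro x hx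
    have hroot : (S.b p).eval x = 0 := (mem_roots hb0).mp (Multiset.mem_toFinset.mp hx)
    obtain ⟨Q, hQ, hξ⟩ := exists_point D hsurj x
    refine ⟨Q, hQ, ?_, hξ⟩
    by_contra hne
    exact ((hev p hp1 Q hQ).1 hne).1 (by rw [hξ]; exact hroot)
  have hb'monic : (∏ x ∈ Xs, (X - C x) ^ 2 : K[X]).Monic :=
    monic_prod_of_monic _ _ (fun x _ => (monic_X_sub_C x).pow 2)
  have hb'dvd : (∏ x ∈ Xs, (X - C x) ^ 2 : K[X]) ∣ S.b p := by
    apply Finset.prod_dvd_of_coprime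
    · intro x hx y hy hxy
      exact (isCoprime_X_sub_C_of_isUnit_sub (sub_ne_zero.mpr hxy).isUnit).pow
    · intro x hx
      obtain ⟨Q, hQ, hpQ, rfl⟩ := hX2 x hx
      exact sq_dvd_b hev hodd hp3 hQ hpQ
  have hdegb' : (∏ x ∈ Xs, (X - C x) ^ 2 : K[X]).natDegree = 2 * Xs.card := by
    rw [natDegree_prod_of_monic _ _ (fun x _ => (monic_X_sub_C x).pow 2)]
    simp [natDegree_pow, mul_comm]
  have h2X : 2 * Xs.card ≤ p ^ 2 - 1 := by
    rw [← hdegb', ← S.natDegree_b p hp1]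
    exact natDegree_le_of_dvd hb'dvd hb0
  obtain ⟨Z, R, hZcard, hZp, hZinj⟩ := exists_fiber hev hsurj hp1
  obtain ⟨F, hFcard, hF⟩ := exists_torsion_cover hsurj Xs p hX1
  have hle : p ^ 2 ≤ F.card := by
    rw [← hZcard]
    exact Finset.card_le_card_of_injOn R (fun z hz => hF _ (hZp z hz)) hZinj
  have hpp : 0 < p ^ 2 := by positivity
  have hcardX : 2 * Xs.card + 1 = p ^ 2 := by omega
  refine ⟨Xs, hX1, hX2, ?_, ?_⟩
  · have himg : Z.image R = F :=
      Finset.eq_of_subset_of_card_le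
        (fun Q hQ => by
          obtain ⟨z, hz, rfl⟩ := Finset.mem_image.mp hQ
          exact hF _ (hZp z hz))
        (by rw [Finset.card_image_of_injOn hZinj, hZcard]; omega)
    have hset : {Q : G | p • Q = 0} = (F : Set G) := by
      ext Q
      constructor
      · exact hF Q
      · intro hQ
        rw [← himg] at hQ
        obtain ⟨z, hz, rfl⟩ := Finset.mem_image.mp (Finset.mem_coe.mp hQ)
        exact hZp z hz
    have hFc : F.card = p ^ 2 := by omega
    change Nat.card ↥{Q : G | p • Q = 0} = p ^ 2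
    rw [hset, Nat.card_coe_set_eq, Set.ncard_coe_finset, hFc]
  · intro e he
    obtain ⟨T, hT, hξT, -⟩ := hsurj 0 0 (by ring)
    obtain ⟨Te, hTe, hξTe, hηTe⟩ := hsurj e 0 (by rw [he]; ring)
    -- `b p = p² ∏ (X - x)²`
    have hb_eq : S.b p = C ((p : K) ^ 2) * ∏ x ∈ Xs, (X - C x) ^ 2 := by
      have := eq_mul_leadingCoeff_of_monic_of_dvd_of_natDegree_le hb'monic hb'dvd
        (by rw [hdegb', S.natDegree_b p hp1]; omega)
      rw [S.leadingCoeff_b p hp1, mul_comm] at this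
      exact this
    -- `a p = X ∏ (X - A4 / x)²`
    have ha'monic : (∏ x ∈ Xs, (X - C (D.A4 / x)) ^ 2 : K[X]).Monic :=
      monic_prod_of_monic _ _ (fun x _ => (monic_X_sub_C _).pow 2)
    have ha_eq : S.a p = X * ∏ x ∈ Xs, (X - C (D.A4 / x)) ^ 2 := by
      have hdvd1 : (∏ x ∈ Xs, (X - C (D.A4 / x)) ^ 2 : K[X]) ∣ S.a p := by
        apply Finset.prod_dvd_of_coprime
        · intro x hx y hy hxy
          obtain ⟨Q, hQ, hpQ, rfl⟩ := hX2 x hx
          obtain ⟨Q', hQ', hpQ', rfl⟩ := hX2 y hy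
          have h1 : D.ξ Q ≠ 0 := ξ_ne_zero_of_torsion hodd hQ hpQ
          have h2 : D.ξ Q' ≠ 0 := ξ_ne_zero_of_torsion hodd hQ' hpQ'
          have hne : D.A4 / D.ξ Q - D.A4 / D.ξ Q' ≠ 0 := by
            rw [sub_ne_zero]
            intro h
            apply hxy
            have h3 : D.A4 * D.ξ Q' = D.A4 * D.ξ Q := by
              rw [div_eq_div_iff h1 h2] at h
              exact h
            exact (mul_left_cancel₀ hA4 h3).symm
          exact (isCoprime_X_sub_C_of_isUnit_sub hne.isUnit).pow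
        · intro x hx
          obtain ⟨Q, hQ, hpQ, rfl⟩ := hX2 x hx
          exact sq_dvd_a hev hA4 hodd hp3 hQ hpQ hT hξT
      have hcop : IsCoprime (X : K[X]) (∏ x ∈ Xs, (X - C (D.A4 / x)) ^ 2) := by
        apply IsCoprime.prod_right
        intro x hx
        obtain ⟨Q, hQ, hpQ, rfl⟩ := hX2 x hx
        have h1 : D.ξ Q ≠ 0 := ξ_ne_zero_of_torsion hodd hQ hpQ
        have h2 : IsCoprime (X - C (0 : K)) (X - C (D.A4 / D.ξ Q)) :=
          isCoprime_X_sub_C_of_isUnit_sub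
            (by rw [zero_sub]; exact (neg_ne_zero.mpr (div_ne_zero hA4 h1)).isUnit)
        rw [C_0, sub_zero] at h2
        exact h2.pow_right
      have hdvd : X * ∏ x ∈ Xs, (X - C (D.A4 / x)) ^ 2 ∣ S.a p :=
        hcop.mul_dvd (X_dvd_a hev hodd hT hξT) hdvd1
      have hmon : (X * ∏ x ∈ Xs, (X - C (D.A4 / x)) ^ 2 : K[X]).Monic := monic_X.mul ha'monic
      have hdeg : (X * ∏ x ∈ Xs, (X - C (D.A4 / x)) ^ 2 : K[X]).natDegree = 1 + 2 * Xs.card := by
        rw [monic_X.natDegree_mul ha'monic, natDegree_X,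
          natDegree_prod_of_monic _ _ (fun x _ => (monic_X_sub_C _).pow 2)]
        simp [natDegree_pow, mul_comm]
      exact eq_of_monic_of_dvd_of_natDegree_le hmon (S.monic p hp1) hdvd
        (by rw [hdeg, S.natDegree_a p hp1]; omega)
    -- evaluate at `e`
    have h2Te : 2 • Te = 0 := two_nsmul_eq_zero D hTe hηTe
    have hpTe : p • Te = Te := odd_nsmul_of_two hodd h2Te
    have hspec := (hev p hp1 Te hTe).1 (by rw [hpTe]; exact hTe)
    rw [hpTe, hξTe] at hspec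
    have he0 : e ≠ 0 := by
      rintro rfl
      apply hA4
      simpa using he
    obtain ⟨hbe, hae⟩ := hspec
    rw [hb_eq] at hbe hae
    rw [ha_eq] at hae
    simp only [eval_mul, eval_C, eval_prod, eval_pow, eval_sub, eval_X] at hbe hae
    have hprod_ne : ∏ x ∈ Xs, (e - x) ^ 2 ≠ 0 := right_ne_zero_of_mul hbe
    have key : ∏ x ∈ Xs, (e - D.A4 / x) ^ 2 = (p : K) ^ 2 * ∏ x ∈ Xs, (e - x) ^ 2 :=
      mul_left_cancel₀ he0 hae
    simp_rw [div_pow]
    rw [Finset.prod_div_distrib, key]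
    field_simp

end Count

end Fermat.Agent.S13.MulCount
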