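/-
S14 (ExtVanishingCts), shared definitions for PART A/B of the blueprint:
primes of a number field, additive valuations, divisors, norm of divisors, splitting,
S-units, "S kills the class group", Kummer pairs, p-th power residues.

Only definitions and the few lemmas needed to state them live here; the API is proved in
`S14_DivBasic` (absolute), `S14_DivGal` (relative / Galois) and `S14_ResChar`.
-/
import Mathlib

set_option autoImplicit false

namespace Fermat.Agent.S14x

open IsDedekindDomain NumberField

/-- The finite primes of a number field. -/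
abbrev Pl (F : Type*) [Field F] [NumberField F] : Type _ := HeightOneSpectrum (𝓞 F)

/-- Divisors of a number field: finitely supported integer combinations of primes. -/
abbrev Dv (F : Type*) [Field F] [NumberField F] : Type _ := Pl F →₀ ℤ

section absolute

variable {F : Type*} [Field F] [NumberField F]

/-- The additive valuation at `v`, with the junk value `ord v 0 = 0`. -/
noncomputable def ord (v : Pl F) (x : F) : ℤ := -WithZero.log (v.valuation F x)

/-- `vGe v n x` means `x = 0` or `ord v x ≥ n`, i.e. `x ∈ v ^ n` locally.  A congruence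
`x ≡ y mod v ^ n` is `vGe v n (x - y)`; `vGe v 0 x` says that `x` is `v`-integral. -/
def vGe (v : Pl F) (n : ℤ) (x : F) : Prop := v.valuation F x ≤ WithZero.exp (-n)

theorem ord_zero (v : Pl F) : ord v (0 : F) = 0 := by
  simp [ord]

theorem ord_support_finite (x : F) : {v : Pl F | ord v x ≠ 0}.Finite := by
  rcases eq_or_ne x 0 with rfl | hx
  · simp [ord_zero]
  · refine ((HeightOneSpectrum.Support.finite (𝓞 F) x).union
      (HeightOneSpectrum.Support.finite (𝓞 F) x⁻¹)).subset ?_
    intro v hv
    have hv' : ¬ WithZero.log (v.valuation F x) = 0 := by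
      intro h
      apply hv
      simp [ord, h]
    have h0 : v.valuation F x ≠ 0 := (Valuation.ne_zero_iff _).mpr hx
    have h1 : v.valuation F x ≠ 1 := by
      intro h1
      apply hv'
      rw [h1]
      simp
    rcases lt_or_gt_of_ne h1 with h | h
    · right
      show 1 < v.valuation F x⁻¹
      rw [map_inv₀]
      exact (one_lt_inv₀ (zero_lt_iff.mpr h0)).mpr h
    · exact Or.inl h

/-- The divisor of an element (`div 0 = 0`). -/
noncomputable def div (x : F) : Dv F :=
  Finsupp.ofSupportFinite (fun v => ord v x) (ord_support_finite x)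

@[simp] theorem divisor_apply (x : F) (v : Pl F) : div x v = ord v x := rfl

/-- The group of principal divisors. -/
noncomputable def principal (F : Type*) [Field F] [NumberField F] : AddSubgroup (Dv F) :=
  AddSubgroup.closure {D | ∃ x : F, x ≠ 0 ∧ div x = D}

/-- `S` kills the class group: every divisor is principal up to a divisor supported in `S`. -/
def Kills (S : Set (Pl F)) : Prop :=
  ∀ D : Dv F, ∃ x : F, x ≠ 0 ∧ ∀ v, v ∉ S → ord v x = D v

/-- The `S`-units (Mathlib's `Set.unit`). -/
noncomputable abbrev SU (S : Set (Pl F)) : Subgroup Fˣ := S.unit F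

/-- The units at `v`. -/
def vUnits (v : Pl F) : Subgroup Fˣ where
  carrier := {x | v.valuation F (x : F) = 1}
  one_mem' := by
    show v.valuation F ((1 : Fˣ) : F) = 1
    simp
  mul_mem' := by
    intro a b ha hb
    show v.valuation F ((a * b : Fˣ) : F) = 1
    have ha' : v.valuation F (a : F) = 1 := ha
    have hb' : v.valuation F (b : F) = 1 := hb
    simp [ha', hb']
  inv_mem' := by
    intro a ha
    show v.valuation F ((a⁻¹ : Fˣ) : F) = 1
    have ha' : v.valuation F (a : F) = 1 := ha
    simp [ha']

/-- `u` is a `p`-th power modulo `v`. -/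
def IsPthPowerMod (p : ℕ) (v : Pl F) (u : F) : Prop := ∃ y : F, vGe v 1 (u - y ^ p)

/-- A chosen character of the `v`-units onto `ℤ/p` whose kernel is the group of `p`-th power
residues (it exists when `F` contains the `p`-th roots of unity and `v ∤ p`, see
`S14_ResChar`; otherwise it is the trivial character). -/
noncomputable def resChar (p : ℕ) (v : Pl F) : ↥(vUnits v) →* Multiplicative (ZMod p) :=
  open Classical in
  if h : ∃ φ : ↥(vUnits v) →* Multiplicative (ZMod p), Function.Surjective φ ∧
      ∀ u, φ u = 1 ↔ IsPthPowerMod p v ((u : Fˣ) : F) then h.choose else 1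

/-- `resChar` extended by `1` outside the `v`-units (for statements about global units). -/
noncomputable def resCharU (p : ℕ) (v : Pl F) (x : Fˣ) : Multiplicative (ZMod p) :=
  open Classical in
  if h : x ∈ vUnits v then resChar p v ⟨x, h⟩ else 1

/-- The group of elements which are a `p`-th power times a principal unit of level `M` at `v`:
`x ∈ localPow p v M ↔ x = y ^ p * (1 + t)` with `t ∈ v ^ max M 1`. -/
def localPow (p : ℕ) (v : Pl F) (M : ℕ) : Subgroup Fˣ where
  carrier := {x | ∃ y : Fˣ, v.valuation F ((x : F) / (y : F) ^ p - 1) < 1 ∧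
    vGe v M ((x : F) / (y : F) ^ p - 1)}
  one_mem' := ⟨1, by simp, by simp [vGe]⟩
  mul_mem' := by
    rintro a b ⟨y, hs1, hs⟩ ⟨z, ht1, ht⟩
    refine ⟨y * z, ?_⟩
    have e : ((a * b : Fˣ) : F) / ((y * z : Fˣ) : F) ^ p - 1 =
        ((a : F) / (y : F) ^ p - 1) * ((b : F) / (z : F) ^ p - 1) +
          ((a : F) / (y : F) ^ p - 1) + ((b : F) / (z : F) ^ p - 1) := by
      push_cast
      field_simp
      ring
    rw [e]
    set s := (a : F) / (y : F) ^ p - 1
    set t := (b : F) / (z : F) ^ p - 1
    unfold vGe at hs ht ⊢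
    have hst1 : v.valuation F (s * t) < 1 := by
      rw [map_mul]
      calc v.valuation F s * v.valuation F t ≤ v.valuation F s * 1 := mul_le_mul' le_rfl ht1.le
        _ = v.valuation F s := mul_one _
        _ < 1 := hs1
    have hst : v.valuation F (s * t) ≤ WithZero.exp (-(M : ℤ)) := by
      rw [map_mul]
      calc v.valuation F s * v.valuation F t ≤ v.valuation F s * 1 := mul_le_mul' le_rfl ht1.le
        _ = v.valuation F s := mul_one _
        _ ≤ _ := hs
    constructor
    · exact lt_of_le_of_lt (Valuation.map_add_le_max' _ _ _)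
        (max_lt (lt_of_le_of_lt (Valuation.map_add_le_max' _ _ _) (max_lt hst1 hs1)) ht1)
    · exact le_trans (Valuation.map_add_le_max' _ _ _)
        (max_le (le_trans (Valuation.map_add_le_max' _ _ _) (max_le hst hs)) ht)
  inv_mem' := by
    rintro a ⟨y, hs1, hs⟩
    refine ⟨y⁻¹, ?_⟩
    set s := (a : F) / (y : F) ^ p - 1 with hsdef
    have h1 : v.valuation F (1 + s) = 1 := by
      have := Valuation.map_add_eq_of_lt_left (v := v.valuation F) (x := (1 : F)) (y := s)
        (by simpa using hs1)
      simpa using this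
    have h1s : (1 : F) + s ≠ 0 := by
      intro h
      rw [h] at h1
      simp at h1
    have e : ((a⁻¹ : Fˣ) : F) / ((y⁻¹ : Fˣ) : F) ^ p - 1 = -s / (1 + s) := by
      have hs' : (1 : F) + s = (a : F) / (y : F) ^ p := by rw [hsdef]; ring
      have ha : (a : F) ≠ 0 := a.ne_zero
      have hy : (y : F) ≠ 0 := y.ne_zero
      rw [hs', hsdef]
      simp only [Units.val_inv_eq_inv_val, inv_pow]
      have hyp : (y : F) ^ p ≠ 0 := pow_ne_zero _ hy
      field_simp
      ring
    rw [e]
    unfold vGe at hs ⊢
    rw [map_div₀, h1, div_one, Valuation.map_neg]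
    exact ⟨hs1, hs⟩

end absolute

section relative

variable (F : Type*) [Field F] [NumberField F] {F' : Type*} [Field F'] [NumberField F']
  [Algebra F F']

/-- The prime of `F` below a prime of `F'`. -/
noncomputable def below (w : Pl F') : Pl F := w.under (𝓞 F)

/-- Ramification index of `w` over `F`. -/
noncomputable def eOf (w : Pl F') : ℕ :=
  Ideal.ramificationIdx' (below F w).asIdeal w.asIdeal

/-- Residue degree of `w` over `F`. -/
noncomputable def fOf (w : Pl F') : ℕ := w.asIdeal.inertiaDeg (𝓞 F)

/-- The norm of divisors: `N [w] = f(w) [w ∩ F]`. -/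
noncomputable def normDiv : Dv F' →+ Dv F :=
  Finsupp.liftAddHom (fun w : Pl F' =>
    (Finsupp.singleAddHom (below F w)).comp (AddMonoidHom.mulLeft (fOf F w : ℤ)))

/-- The conorm (pull-back) of divisors: `j [v] = ∑_{w | v} e(w) [w]`, as a function on primes:
the coefficient of `w` in `j D` is `e(w) * D (w ∩ F)`. -/
noncomputable def conormCoeff (D : Dv F) (w : Pl F') : ℤ := eOf F w * D (below F w)

/-- The Galois action on primes: `gsmul σ w = σ(w)`. -/
noncomputable def gsmul (σ : F' ≃ₐ[F] F') (w : Pl F') : Pl F' where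
  asIdeal := w.asIdeal.comap ((galRestrict (𝓞 F) F F' (𝓞 F') σ⁻¹ : 𝓞 F' ≃ₐ[𝓞 F] 𝓞 F') :
    𝓞 F' →+* 𝓞 F')
  isPrime := Ideal.comap_isPrime _ _
  ne_bot := by
    intro h
    apply w.ne_bot
    have hsurj : Function.Surjective ((galRestrict (𝓞 F) F F' (𝓞 F') σ⁻¹ : 𝓞 F' ≃ₐ[𝓞 F] 𝓞 F') :
        𝓞 F' →+* 𝓞 F') := (galRestrict (𝓞 F) F F' (𝓞 F') σ⁻¹).surjective
    rw [← Ideal.map_comap_of_surjective _ hsurj w.asIdeal, h, Ideal.map_bot]

variable (F')

/-- `v` splits completely in `F'`. -/
def IsSplit (v : Pl F) : Prop := ∀ w : Pl F', below F w = v → eOf F w = 1 ∧ fOf F w = 1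

/-- `v` is unramified in `F'`. -/
def IsUnramAt (v : Pl F) : Prop := ∀ w : Pl F', below F w = v → eOf F w = 1

/-- `F'/F` is unramified at all finite primes. -/
def Unramified : Prop := ∀ w : Pl F', eOf F w = 1

/-- The primes of `F'` above a set of primes of `F`. -/
def above (S : Set (Pl F)) : Set (Pl F') := {w | below F w ∈ S}

/-- A Kummer pair: `F` contains the `p`-th roots of unity (`p` an odd prime) and `F'/F` is
Galois of degree `p`. -/
structure KummerPair (p : ℕ) : Prop where
  prime : p.Prime
  odd : p ≠ 2
  zeta : ∃ ζ : F, IsPrimitiveRoot ζ p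
  galois : IsGalois F F'
  degree : Module.finrank F F' = p

end relative

end Fermat.Agent.S14x
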