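/-
S14: API for the absolute definitions of `S14_Div` (valuations, divisors, approximation,
class group killed by a finite set).
-/
import Fermat.Agent.S14_Div

set_option autoImplicit false

namespace Fermat.Agent.S14x

open IsDedekindDomain NumberField
open scoped nonZeroDivisors

variable {F : Type*} [Field F] [NumberField F]

/-! ### `ord` -/

theorem valuation_eq_exp_neg_ord (v : Pl F) {x : F} (hx : x ≠ 0) :
    v.valuation F x = WithZero.exp (-ord v x) := by
  have h0 : v.valuation F x ≠ 0 := (Valuation.ne_zero_iff _).mpr hx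
  simp [ord, WithZero.exp_log h0]

theorem ord_one (v : Pl F) : ord v (1 : F) = 0 := by
  simp [ord]

theorem ord_mul (v : Pl F) {x y : F} (hx : x ≠ 0) (hy : y ≠ 0) :
    ord v (x * y) = ord v x + ord v y := by
  have h0 : v.valuation F x ≠ 0 := (Valuation.ne_zero_iff _).mpr hx
  have h1 : v.valuation F y ≠ 0 := (Valuation.ne_zero_iff _).mpr hy
  simp only [ord, map_mul, WithZero.log_mul h0 h1]
  ring

theorem ord_inv (v : Pl F) (x : F) : ord v x⁻¹ = -ord v x := by
  simp [ord, map_inv₀, WithZero.log_inv]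

theorem ord_div (v : Pl F) {x y : F} (hx : x ≠ 0) (hy : y ≠ 0) :
    ord v (x / y) = ord v x - ord v y := by
  rw [div_eq_mul_inv, ord_mul v hx (inv_ne_zero hy), ord_inv]
  ring

theorem ord_pow (v : Pl F) (x : F) (n : ℕ) : ord v (x ^ n) = n * ord v x := by
  simp [ord, map_pow, WithZero.log_pow]

theorem ord_zpow (v : Pl F) (x : F) (n : ℤ) : ord v (x ^ n) = n * ord v x := by
  cases n with
  | ofNat k => simpa using ord_pow v x k
  | negSucc k =>
    rw [zpow_negSucc, ord_inv, ord_pow]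
    push_cast
    rw [Int.negSucc_eq]
    ring

theorem ord_neg (v : Pl F) (x : F) : ord v (-x) = ord v x := by
  simp [ord, Valuation.map_neg]

/-! ### `vGe` -/

theorem vGe_iff {v : Pl F} {n : ℤ} {x : F} : vGe v n x ↔ x = 0 ∨ n ≤ ord v x := by
  unfold vGe
  rcases eq_or_ne x 0 with rfl | hx
  · simp
  · rw [valuation_eq_exp_neg_ord v hx, WithZero.exp_le_exp]
    simp [hx]

theorem vGe_zero (v : Pl F) (n : ℤ) : vGe v n (0 : F) := by
  simp [vGe]

theorem vGe.mono {v : Pl F} {m n : ℤ} {x : F} (h : vGe v m x) (hnm : n ≤ m) : vGe v n x := by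
  unfold vGe at h ⊢
  exact h.trans (WithZero.exp_le_exp.mpr (by omega))

theorem vGe.add {v : Pl F} {n : ℤ} {x y : F} (hx : vGe v n x) (hy : vGe v n y) :
    vGe v n (x + y) := by
  unfold vGe at hx hy ⊢
  exact (Valuation.map_add_le_max' _ _ _).trans (max_le hx hy)

theorem vGe.neg {v : Pl F} {n : ℤ} {x : F} (hx : vGe v n x) : vGe v n (-x) := by
  unfold vGe at hx ⊢
  rwa [Valuation.map_neg]

theorem vGe.sub {v : Pl F} {n : ℤ} {x y : F} (hx : vGe v n x) (hy : vGe v n y) :
    vGe v n (x - y) := by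
  rw [sub_eq_add_neg]
  exact hx.add hy.neg

theorem vGe.mul {v : Pl F} {m n : ℤ} {x y : F} (hx : vGe v m x) (hy : vGe v n y) :
    vGe v (m + n) (x * y) := by
  unfold vGe at hx hy ⊢
  rw [map_mul, neg_add, WithZero.exp_add]
  exact mul_le_mul' hx hy

theorem vGe.pow {v : Pl F} {m : ℤ} {x : F} (hx : vGe v m x) (k : ℕ) :
    vGe v (k * m) (x ^ k) := by
  induction k with
  | zero => simp [vGe]
  | succ k ih =>
    rw [pow_succ]
    have := ih.mul hx
    convert this using 1
    push_cast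
    ring

theorem vGe_one_iff_valuation_lt_one {v : Pl F} {x : F} :
    vGe v 1 x ↔ v.valuation F x < 1 := by
  rcases eq_or_ne x 0 with rfl | hx
  · simp [vGe]
  · unfold vGe
    rw [valuation_eq_exp_neg_ord v hx, WithZero.exp_le_exp, ← WithZero.exp_zero,
      WithZero.exp_lt_exp]
    omega

theorem vGe_zero_iff_valuation_le_one {v : Pl F} {x : F} :
    vGe v 0 x ↔ v.valuation F x ≤ 1 := by
  simp [vGe]

/-- the ultrametric equality -/
theorem ord_add_of_lt (v : Pl F) {x y : F} (hx : x ≠ 0) (hy : vGe v (ord v x + 1) y) :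
    ord v (x + y) = ord v x := by
  have hlt : v.valuation F y < v.valuation F x := by
    unfold vGe at hy
    rw [valuation_eq_exp_neg_ord v hx]
    exact lt_of_le_of_lt hy (WithZero.exp_lt_exp.mpr (by omega))
  have := Valuation.map_add_eq_of_lt_left (v := v.valuation F) hlt
  simp [ord, this]

theorem ord_add_ge (v : Pl F) {x y : F} (hxy : x + y ≠ 0) :
    min (ord v x) (ord v y) ≤ ord v (x + y) := by
  rcases eq_or_ne x 0 with rfl | hx
  · simp [ord_zero]
  rcases eq_or_ne y 0 with rfl | hy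
  · simp [ord_zero]
  have h : v.valuation F (x + y) ≤ max (v.valuation F x) (v.valuation F y) :=
    Valuation.map_add (v.valuation F) x y
  rw [valuation_eq_exp_neg_ord v hx, valuation_eq_exp_neg_ord v hy,
    valuation_eq_exp_neg_ord v hxy] at h
  rcases le_max_iff.mp h with h | h
  · have := WithZero.exp_le_exp.mp h
    exact (min_le_left _ _).trans (by omega)
  · have := WithZero.exp_le_exp.mp h
    exact (min_le_right _ _).trans (by omega)

/-! ### integrality -/

theorem vGe_of_isIntegral (v : Pl F) {x : F} (hx : IsIntegral ℤ x) : vGe v 0 x := by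
  rw [vGe_zero_iff_valuation_le_one]
  have : x = algebraMap (𝓞 F) F ⟨x, hx⟩ := rfl
  rw [this]
  exact v.valuation_le_one _

theorem isIntegral_of_forall_vGe {x : F} (h : ∀ v : Pl F, vGe v 0 x) : IsIntegral ℤ x := by
  have h' : ∀ v : Pl F, v.valuation F x ≤ 1 := fun v => vGe_zero_iff_valuation_le_one.mp (h v)
  obtain ⟨y, hy⟩ := HeightOneSpectrum.mem_integers_of_valuation_le_one F x h'
  rw [← hy]
  exact y.2

theorem mem_asIdeal_pow_iff (v : Pl F) (x : 𝓞 F) (n : ℕ) :
    x ∈ v.asIdeal ^ n ↔ vGe v n (x : F) := by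
  unfold vGe
  rw [← v.intValuation_le_pow_iff_mem, ← HeightOneSpectrum.valuation_of_algebraMap (K := F)]

theorem mem_asIdeal_iff (v : Pl F) (x : 𝓞 F) : x ∈ v.asIdeal ↔ vGe v 1 (x : F) := by
  have := mem_asIdeal_pow_iff v x 1
  simpa using this

theorem ord_nonneg_of_isIntegral (v : Pl F) {x : F} (hx : IsIntegral ℤ x) : 0 ≤ ord v x := by
  rcases vGe_iff.mp (vGe_of_isIntegral v hx) with rfl | h
  · simp [ord_zero]
  · exact h

/-! ### approximation -/

theorem exists_uniformizer (v : Pl F) : ∃ π : 𝓞 F, ord v (π : F) = 1 := by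
  obtain ⟨π, hπ⟩ := v.intValuation_exists_uniformizer
  refine ⟨π, ?_⟩
  have h : v.valuation F (π : F) = WithZero.exp (-(1 : ℤ)) := by
    rw [← hπ]
    exact HeightOneSpectrum.valuation_of_algebraMap v π
  simp [ord, h]

/-- a `v`-integral element is congruent to an algebraic integer modulo any power of `v` -/
theorem exists_integer_approx (v : Pl F) {x : F} (hx : vGe v 0 x) (n : ℕ) :
    ∃ a : 𝓞 F, vGe v n (x - (a : F)) := by
  have hx' : v.valuation F x ≤ 1 := vGe_zero_iff_valuation_le_one.mp hx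
  obtain ⟨a, ha⟩ := HeightOneSpectrum.exists_valuation_sub_lt_of_integer v hx'
    (Units.mk0 (WithZero.exp (-(n : ℤ))) WithZero.exp_ne_zero)
  refine ⟨a, ?_⟩
  unfold vGe
  rw [Valuation.map_sub_swap]
  exact ha.le

/-- Chinese remainder theorem -/
theorem exists_crt' (T : Finset (Pl F)) (a : Pl F → 𝓞 F) (n : Pl F → ℕ) :
    ∃ x : 𝓞 F, ∀ v ∈ T, vGe v (n v) ((x : F) - (a v : F)) := by
  obtain ⟨y, hy⟩ := IsDedekindDomain.exists_forall_sub_mem_ideal (s := T)
    (fun v : Pl F => v.asIdeal) n (fun v _ => v.prime)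
    (fun v _ w _ hvw h => hvw (HeightOneSpectrum.ext h)) (fun v => a v)
  refine ⟨y, fun v hv => ?_⟩
  have := (mem_asIdeal_pow_iff v (y - a v) (n v)).mp (hy v hv)
  simpa using this

theorem exists_crt (T : Finset (Pl F)) (a : Pl F → 𝓞 F) (n : ℕ) :
    ∃ x : 𝓞 F, ∀ v ∈ T, vGe v n ((x : F) - (a v : F)) :=
  exists_crt' T a (fun _ => n)

theorem exists_integer_ord_eq (T : Finset (Pl F)) (m : Pl F → ℕ) :
    ∃ y : 𝓞 F, y ≠ 0 ∧ ∀ v ∈ T, ord v (y : F) = m v := by
  classical
  rcases T.eq_empty_or_nonempty with rfl | hT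
  · exact ⟨1, one_ne_zero, by simp⟩
  choose π hπ using fun v : Pl F => exists_uniformizer v
  obtain ⟨y, hy⟩ := exists_crt' T (fun v => π v ^ m v) (fun v => m v + 1)
  have hπ0 : ∀ v, (π v : F) ≠ 0 := by
    intro v h
    have := hπ v
    rw [h, ord_zero] at this
    exact zero_ne_one this
  have key : ∀ v ∈ T, ord v (y : F) = m v := by
    intro v hv
    have h1 := hy v hv
    have e : (y : F) = ((π v ^ m v : 𝓞 F) : F) + ((y : F) - ((π v ^ m v : 𝓞 F) : F)) := by ring
    have hpow : ord v ((π v ^ m v : 𝓞 F) : F) = m v := by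
      push_cast
      rw [ord_pow, hπ v, mul_one]
    rw [e, ord_add_of_lt v (by push_cast; exact pow_ne_zero _ (hπ0 v))]
    · exact hpow
    · rw [hpow]
      exact_mod_cast h1
  refine ⟨y, ?_, key⟩
  rintro rfl
  obtain ⟨v, hv⟩ := hT
  have h1 := hy v hv
  have hpow : ord v ((π v ^ m v : 𝓞 F) : F) = m v := by
    push_cast
    rw [ord_pow, hπ v, mul_one]
  have h2 : vGe v (m v + 1) ((π v ^ m v : 𝓞 F) : F) := by
    have := h1.neg
    simpa using this
  rcases vGe_iff.mp h2 with h | h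
  · exact pow_ne_zero _ (hπ0 v) (by exact_mod_cast h)
  · rw [hpow] at h
    omega

/-- there is `x ≠ 0` with prescribed valuations on a finite set of primes -/
theorem exists_ord_eq (T : Finset (Pl F)) (n : Pl F → ℤ) :
    ∃ x : F, x ≠ 0 ∧ ∀ v ∈ T, ord v x = n v := by
  obtain ⟨y, hy0, hy⟩ := exists_integer_ord_eq T (fun v => (n v).toNat)
  obtain ⟨z, hz0, hz⟩ := exists_integer_ord_eq T (fun v => (-n v).toNat)
  have hy0' : (y : F) ≠ 0 := by exact_mod_cast hy0
  have hz0' : (z : F) ≠ 0 := by exact_mod_cast hz0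
  refine ⟨(y : F) / (z : F), div_ne_zero hy0' hz0', fun v hv => ?_⟩
  rw [ord_div v hy0' hz0', hy v hv, hz v hv]
  omega

/-! ### divisors -/

theorem divisor_zero : div (0 : F) = 0 := by
  ext v
  simp [ord_zero]

theorem divisor_one : div (1 : F) = 0 := by
  ext v
  simp [ord_one]

theorem divisor_mul {x y : F} (hx : x ≠ 0) (hy : y ≠ 0) : div (x * y) = div x + div y := by
  ext v
  simp [ord_mul v hx hy]

theorem divisor_inv (x : F) : div x⁻¹ = -div x := by
  ext v
  simp [ord_inv]

theorem divisor_pow (x : F) (n : ℕ) : div (x ^ n) = n • div x := by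
  ext v
  simp [ord_pow]

theorem mem_principal_iff {D : Dv F} : D ∈ principal F ↔ ∃ x : F, x ≠ 0 ∧ div x = D := by
  constructor
  · intro h
    unfold principal at h
    induction h using AddSubgroup.closure_induction with
    | mem D hD => exact hD
    | zero => exact ⟨1, one_ne_zero, divisor_one⟩
    | add D E _ _ hD hE =>
      obtain ⟨x, hx, rfl⟩ := hD
      obtain ⟨y, hy, rfl⟩ := hE
      exact ⟨x * y, mul_ne_zero hx hy, divisor_mul hx hy⟩
    | neg D _ hD =>
      obtain ⟨x, hx, rfl⟩ := hD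
      exact ⟨x⁻¹, inv_ne_zero hx, divisor_inv x⟩
  · intro h
    exact AddSubgroup.subset_closure h

theorem divisor_mem_principal {x : F} (hx : x ≠ 0) : div x ∈ principal F :=
  mem_principal_iff.mpr ⟨x, hx, rfl⟩

theorem divisor_eq_zero_iff {x : F} (hx : x ≠ 0) :
    div x = 0 ↔ IsIntegral ℤ x ∧ IsIntegral ℤ x⁻¹ := by
  constructor
  · intro h
    have h0 : ∀ v : Pl F, ord v x = 0 := fun v => by
      have := DFunLike.congr_fun h v
      simpa using this
    refine ⟨isIntegral_of_forall_vGe fun v => vGe_iff.mpr (Or.inr (h0 v).ge),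
      isIntegral_of_forall_vGe fun v => vGe_iff.mpr (Or.inr ?_)⟩
    rw [ord_inv, h0 v]
    simp
  · rintro ⟨h1, h2⟩
    ext v
    have a := ord_nonneg_of_isIntegral v h1
    have b := ord_nonneg_of_isIntegral v h2
    rw [ord_inv] at b
    simp only [divisor_apply, Finsupp.coe_zero, Pi.zero_apply]
    omega

/-! ### units -/

theorem ord_eq_zero_iff_valuation_eq_one (v : Pl F) {x : F} (hx : x ≠ 0) :
    ord v x = 0 ↔ v.valuation F x = 1 := by
  rw [valuation_eq_exp_neg_ord v hx, WithZero.exp_eq_one]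
  omega

theorem mem_SU_iff {S : Set (Pl F)} {x : Fˣ} : x ∈ SU S ↔ ∀ v, v ∉ S → ord v (x : F) = 0 := by
  constructor
  · intro h v hv
    rw [ord_eq_zero_iff_valuation_eq_one v x.ne_zero]
    exact h v hv
  · intro h v hv
    rw [← ord_eq_zero_iff_valuation_eq_one v x.ne_zero]
    exact h v hv

theorem mem_vUnits_iff {v : Pl F} {x : Fˣ} : x ∈ vUnits v ↔ ord v (x : F) = 0 := by
  rw [ord_eq_zero_iff_valuation_eq_one v x.ne_zero]
  rfl

theorem SU_le_vUnits {S : Set (Pl F)} {v : Pl F} (hv : v ∉ S) : SU S ≤ vUnits v := by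
  intro x hx
  rw [mem_vUnits_iff]
  exact mem_SU_iff.mp hx v hv

/-- only finitely many primes contain a given nonzero element -/
theorem finite_setOf_vGe_one {x : F} (hx : x ≠ 0) : {v : Pl F | vGe v 1 x}.Finite := by
  refine (ord_support_finite x).subset ?_
  intro v hv
  rcases vGe_iff.mp hv with h | h
  · exact absurd h hx
  · show ord v x ≠ 0
    omega

/-! ### the class group is killed by a finite set of primes -/

theorem ord_eq_of_vGe_of_not_vGe (v : Pl F) {x : F} (hx : x ≠ 0) {k : ℤ} (h1 : vGe v k x)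
    (h2 : ¬ vGe v (k + 1) x) : ord v x = k := by
  rw [vGe_iff] at h1 h2
  push Not at h2
  rcases h1 with h1 | h1
  · exact absurd h1 hx
  · have := h2.2
    omega

theorem ord_eq_of_span_le (v : Pl F) {x : 𝓞 F} (hx : x ≠ 0) {J : Ideal (𝓞 F)}
    (hJ : J = Ideal.span {x}) (k : ℕ) (h1 : J ≤ v.asIdeal ^ k) (h2 : ¬ J ≤ v.asIdeal ^ (k + 1)) :
    ord v (x : F) = k := by
  have hx' : (x : F) ≠ 0 := by exact_mod_cast hx
  refine ord_eq_of_vGe_of_not_vGe v hx' ?_ ?_
  · have : x ∈ v.asIdeal ^ k := h1 (hJ ▸ Ideal.mem_span_singleton_self x)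
    exact (mem_asIdeal_pow_iff v x k).mp this
  · intro h
    apply h2
    have h' : vGe v ((k + 1 : ℕ) : ℤ) (x : F) := by exact_mod_cast h
    have : x ∈ v.asIdeal ^ (k + 1) := (mem_asIdeal_pow_iff v x (k + 1)).mpr h'
    rw [hJ]
    exact (Ideal.span_singleton_le_iff_mem _).mpr this

theorem eq_of_asIdeal_le {v w : Pl F} (h : v.asIdeal ≤ w.asIdeal) : v = w := by
  have hv : v.asIdeal.IsMaximal := v.isMaximal
  exact HeightOneSpectrum.ext (hv.eq_of_le w.isPrime.ne_top h)

/-- some positive multiple of every prime is principal -/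
theorem exists_nsmul_single_principal (v : Pl F) :
    ∃ h : ℕ, 0 < h ∧ ∃ x : F, x ≠ 0 ∧ div x = Finsupp.single v (h : ℤ) := by
  classical
  have hv0 : v.asIdeal ∈ (Ideal (𝓞 F))⁰ := mem_nonZeroDivisors_of_ne_zero v.ne_bot
  set h := Fintype.card (ClassGroup (𝓞 F)) with hh
  have hpos : 0 < h := Fintype.card_pos
  have h1 : ClassGroup.mk0 (⟨v.asIdeal, hv0⟩ ^ h : (Ideal (𝓞 F))⁰) = 1 := by
    rw [map_pow, hh, pow_card_eq_one]
  have hpow0 : v.asIdeal ^ h ∈ (Ideal (𝓞 F))⁰ := pow_mem hv0 h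
  have h2 : (v.asIdeal ^ h).IsPrincipal := by
    rw [← ClassGroup.mk0_eq_one_iff hpow0]
    convert h1 using 2
    exact Subtype.ext (by simp)
  obtain ⟨x, hx⟩ := h2.principal
  have hx' : v.asIdeal ^ h = Ideal.span {x} := hx
  have hx0 : x ≠ 0 := by
    rintro rfl
    have : v.asIdeal ^ h = ⊥ := by simpa using hx'
    exact pow_ne_zero h v.ne_bot this
  refine ⟨h, hpos, (x : F), by exact_mod_cast hx0, ?_⟩
  ext w
  rw [divisor_apply]
  by_cases hw : w = v
  · subst hw
    rw [Finsupp.single_eq_same]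
    refine ord_eq_of_span_le w hx0 hx' h le_rfl ?_
    exact not_le_of_gt (Ideal.pow_succ_lt_pow w.ne_bot h)
  · rw [Finsupp.single_eq_of_ne (by exact hw)]
    have := ord_eq_of_span_le w hx0 hx' 0 (by simp) ?_
    · simpa using this
    · intro hle
      rw [zero_add, pow_one] at hle
      have : v.asIdeal ≤ w.asIdeal := w.isPrime.le_of_pow_le hle
      exact hw (eq_of_asIdeal_le this).symm

theorem Kills.mono {S T : Set (Pl F)} (hS : Kills S) (h : S ⊆ T) : Kills T := by
  intro D
  obtain ⟨x, hx, hxD⟩ := hS D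
  exact ⟨x, hx, fun v hv => hxD v (fun hvS => hv (h hvS))⟩

theorem exists_finset_kills (S0 : Finset (Pl F)) :
    ∃ S : Finset (Pl F), S0 ⊆ S ∧ Kills (S : Set (Pl F)) := by
  classical
  choose I hI using fun c : ClassGroup (𝓞 F) => ClassGroup.mk0_surjective (R := 𝓞 F) c
  have hfin : (⋃ c : ClassGroup (𝓞 F), {w : Pl F | w.asIdeal ∣ (I c : Ideal (𝓞 F))}).Finite := by
    refine Set.finite_iUnion fun c => Ideal.finite_factors ?_
    exact nonZeroDivisors.coe_ne_zero (I c)
  refine ⟨S0 ∪ hfin.toFinset, Finset.subset_union_left, ?_⟩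
  set S : Finset (Pl F) := S0 ∪ hfin.toFinset with hS
  have hmemS : ∀ (c : ClassGroup (𝓞 F)) (w : Pl F), (I c : Ideal (𝓞 F)) ≤ w.asIdeal → w ∈ S := by
    intro c w hle
    rw [hS, Finset.mem_union]
    right
    rw [Set.Finite.mem_toFinset, Set.mem_iUnion]
    exact ⟨c, Ideal.dvd_iff_le.mpr hle⟩
  -- the property for a single prime
  have single : ∀ v : Pl F, ∃ x : F, x ≠ 0 ∧ ∀ w : Pl F, w ∉ (S : Set (Pl F)) →
      ord w x = (Finsupp.single v (1 : ℤ)) w := by
    intro v
    by_cases hvS : v ∈ S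
    · refine ⟨1, one_ne_zero, fun w hw => ?_⟩
      have hwv : w ≠ v := by
        rintro rfl
        exact hw hvS
      rw [ord_one, Finsupp.single_eq_of_ne (by exact hwv)]
    · have hv0 : v.asIdeal ∈ (Ideal (𝓞 F))⁰ := mem_nonZeroDivisors_of_ne_zero v.ne_bot
      set c : ClassGroup (𝓞 F) := (ClassGroup.mk0 ⟨v.asIdeal, hv0⟩)⁻¹ with hc
      have hJ0 : v.asIdeal * (I c : Ideal (𝓞 F)) ∈ (Ideal (𝓞 F))⁰ := mul_mem hv0 (I c).2
      have h1 : ClassGroup.mk0 (⟨v.asIdeal, hv0⟩ * I c) = 1 := by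
        rw [map_mul, hI c, hc, mul_inv_cancel]
      have h2 : (v.asIdeal * (I c : Ideal (𝓞 F))).IsPrincipal := by
        rw [← ClassGroup.mk0_eq_one_iff hJ0]
        convert h1 using 2
        exact Subtype.ext (by simp)
      obtain ⟨x, hx⟩ := h2.principal
      have hx' : v.asIdeal * (I c : Ideal (𝓞 F)) = Ideal.span {x} := hx
      have hx0 : x ≠ 0 := by
        rintro rfl
        have : v.asIdeal * (I c : Ideal (𝓞 F)) = ⊥ := by simpa using hx'
        rcases mul_eq_zero.mp this with h | h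
        · exact v.ne_bot h
        · exact nonZeroDivisors.coe_ne_zero (I c) h
      refine ⟨(x : F), by exact_mod_cast hx0, fun w hw => ?_⟩
      by_cases hwv : w = v
      · subst hwv
        rw [Finsupp.single_eq_same]
        have := ord_eq_of_span_le w hx0 hx' 1 (by rw [pow_one]; exact Ideal.mul_le_left) ?_
        · simpa using this
        · intro hle
          have hdvd : w.asIdeal ^ 2 ∣ w.asIdeal * (I c : Ideal (𝓞 F)) := Ideal.dvd_iff_le.mpr hle
          rw [pow_two] at hdvd
          have hdvd' : w.asIdeal ∣ (I c : Ideal (𝓞 F)) :=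
            (mul_dvd_mul_iff_left w.ne_bot).mp hdvd
          exact hw (hmemS c w (Ideal.dvd_iff_le.mp hdvd'))
      · rw [Finsupp.single_eq_of_ne (by exact hwv)]
        have := ord_eq_of_span_le w hx0 hx' 0 (by simp) ?_
        · simpa using this
        · intro hle
          rw [zero_add, pow_one] at hle
          rcases (w.isPrime.mul_le).mp hle with h | h
          · exact hwv (eq_of_asIdeal_le h).symm
          · exact hw (hmemS c w h)
  intro D
  induction D using Finsupp.induction with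
  | zero => exact ⟨1, one_ne_zero, fun w _ => by simp [ord_one]⟩
  | single_add v n D _ _ ih =>
    obtain ⟨x, hx0, hx⟩ := ih
    obtain ⟨y, hy0, hy⟩ := single v
    refine ⟨y ^ n * x, mul_ne_zero (zpow_ne_zero _ hy0) hx0, fun w hw => ?_⟩
    rw [ord_mul w (zpow_ne_zero _ hy0) hx0, ord_zpow, hx w hw, hy w hw, Finsupp.add_apply]
    by_cases hwv : w = v
    · subst hwv
      simp
    · simp [Finsupp.single_eq_of_ne (by exact hwv : w ≠ v)]

end Fermat.Agent.S14x
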