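import Mathlib

/-!
# S14 moonshot, leaf (A1): a Herbrand-type index bound (pure algebra)

`Fermat.Agent.S14x.S14_herbrand` is the interface statement `S14_herbrand_statement`
of the S14 blueprint.  Auxiliary lemmas live in `Fermat.Agent.S14x.Herbrand`:

* `Herbrand.index_range_nsmul_eq`: for a finitely generated abelian group `A` and `n ≠ 0`,
  `[A : nA] = n ^ rank A * #A[n]`;
* `Herbrand.finite_ker_nsmul`: `A[n]` is finite;
* `Herbrand.poly_identity`: `(X - 1)^(p-1) = 1 + X + ... + X^(p-1) + p * h` in `ℤ[X]`;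
* `Herbrand.core`: the index bound for an endomorphism `d` with `d^(p-1) A ⊆ pA ⊆ dA`.
-/

set_option autoImplicit false

open Module Polynomial

namespace Fermat.Agent.S14x.Herbrand

/-- multiplication-by-`n` on a f.g. abelian group: finite kernel. -/
theorem finite_ker_nsmul (A : Type*) [AddCommGroup A] [Module.Finite ℤ A] (n : ℕ) (hn : n ≠ 0) :
    Finite (nsmulAddMonoidHom (α := A) n).ker := by
  have : Finite (Submodule.torsion ℤ A) :=
    Module.finite_of_fg_torsion _ Submodule.torsion_isTorsion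
  refine Finite.of_injective
    (fun x : (nsmulAddMonoidHom (α := A) n).ker => (⟨x.1, ?_⟩ : Submodule.torsion ℤ A)) ?_
  · rw [Submodule.mem_torsion_iff]
    have hx : n • x.1 = 0 := x.2
    exact ⟨⟨(n : ℤ), by simpa using hn⟩, by simpa using hx⟩
  · intro x y h
    exact Subtype.ext (congrArg (fun t : Submodule.torsion ℤ A => (t : A)) h)

/-- Herbrand quotient of multiplication by `n` on a f.g. abelian group. -/
theorem index_range_nsmul_eq (A : Type*) [AddCommGroup A] [Module.Finite ℤ A] (n : ℕ)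
    (hn : n ≠ 0) :
    (nsmulAddMonoidHom (α := A) n).range.index =
      n ^ finrank ℤ A * Nat.card (nsmulAddMonoidHom (α := A) n).ker := by
  classical
  set T : Submodule ℤ A := Submodule.torsion ℤ A with hT
  have : Finite T := Module.finite_of_fg_torsion _ Submodule.torsion_isTorsion
  set T' : AddSubgroup A := T.toAddSubgroup with hT'
  set f : A →+ A := nsmulAddMonoidHom (α := A) n with hf
  set fΛ : (A ⧸ T) →+ (A ⧸ T) := nsmulAddMonoidHom (α := A ⧸ T) n with hfΛ
  have h1 : fΛ.range.index = n ^ finrank ℤ A := by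
    rw [hfΛ, AddSubgroup.index_range_nsmul]
    congr 1
    have h := Submodule.finrank_quotient_add_finrank T
    have h0 : finrank ℤ T = 0 := finrank_eq_zero_iff_isTorsion.mpr Submodule.torsion_isTorsion
    omega
  have h3 : AddSubgroup.comap (T.mkQ : A →ₗ[ℤ] A ⧸ T).toAddMonoidHom fΛ.range = f.range ⊔ T' := by
    ext x
    simp only [AddSubgroup.mem_comap, AddMonoidHom.mem_range, LinearMap.toAddMonoidHom_coe,
      Submodule.mkQ_apply, AddSubgroup.mem_sup]
    constructor
    · rintro ⟨y, hy⟩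
      obtain ⟨a, rfl⟩ := Submodule.Quotient.mk_surjective T y
      refine ⟨n • a, ⟨a, rfl⟩, x - n • a, ?_, by abel⟩
      have : Submodule.Quotient.mk (p := T) (n • a) = Submodule.Quotient.mk x := by
        rw [← hy]; simp [hfΛ]
      have h2 := (Submodule.Quotient.eq T).mp this
      have : x - n • a = -(n • a - x) := by abel
      rw [this]
      exact T.neg_mem h2
    · rintro ⟨y, ⟨a, rfl⟩, z, hz, rfl⟩
      refine ⟨Submodule.Quotient.mk a, ?_⟩
      have hz' : Submodule.Quotient.mk (p := T) z = 0 := (Submodule.Quotient.mk_eq_zero T).mpr hz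
      simp [hfΛ, hf, hz']
  have h4 : (f.range ⊔ T').index = n ^ finrank ℤ A := by
    rw [← h3, AddSubgroup.index_comap_of_surjective _ (Submodule.mkQ_surjective T), h1]
  -- the torsion part
  set fT : T' →+ T' := nsmulAddMonoidHom (α := T') n with hfT
  have : Finite T' := ‹Finite T›
  have h5 : f.range.relIndex T' = fT.range.index := by
    rw [AddSubgroup.relIndex]
    congr 1
    ext x
    simp only [AddSubgroup.mem_addSubgroupOf, AddMonoidHom.mem_range]
    constructor
    · rintro ⟨a, ha⟩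
      have haT : a ∈ T' := by
        have hx : (x : A) ∈ T := x.2
        rw [hT, Submodule.mem_torsion_iff] at hx
        obtain ⟨c, hc⟩ := hx
        change a ∈ Submodule.torsion ℤ A
        rw [Submodule.mem_torsion_iff]
        refine ⟨c * ⟨(n : ℤ), by simpa using hn⟩, ?_⟩
        have : (c * ⟨(n : ℤ), by simpa using hn⟩ : nonZeroDivisors ℤ) • a = c • (n • a) := by
          rw [mul_smul]; congr 1
          change ((n : ℤ)) • a = n • a
          simp
        rw [this]
        have ha' : n • a = (x : A) := ha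
        rw [ha']; exact hc
      exact ⟨⟨a, haT⟩, Subtype.ext ha⟩
    · rintro ⟨a, rfl⟩
      exact ⟨(a : A), rfl⟩
  have h6 : fT.range.index = Nat.card fT.ker := by
    have e1 := AddSubgroup.card_mul_index fT.range
    have e2 := AddSubgroup.card_mul_index fT.ker
    rw [AddSubgroup.index_ker] at e2
    have hpos : 0 < Nat.card fT.range := Nat.card_pos
    have : Nat.card fT.range * fT.range.index = Nat.card fT.range * Nat.card fT.ker := by
      rw [e1, mul_comm, e2]
    exact Nat.eq_of_mul_eq_mul_left hpos this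
  have h7 : Nat.card fT.ker = Nat.card f.ker := by
    have hle : f.ker ≤ T' := by
      intro x hx
      change x ∈ Submodule.torsion ℤ A
      rw [Submodule.mem_torsion_iff]
      have hx' : n • x = 0 := hx
      exact ⟨⟨(n : ℤ), by simpa using hn⟩, by simpa using hx'⟩
    have : fT.ker = f.ker.addSubgroupOf T' := by
      ext x
      simp only [AddMonoidHom.mem_ker, AddSubgroup.mem_addSubgroupOf]
      constructor
      · intro h
        have := congrArg (fun t : T' => (t : A)) h
        simpa [hfT, hf] using this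
      · intro h
        apply Subtype.ext
        simpa [hfT, hf] using h
    rw [this]
    exact Nat.card_congr (AddSubgroup.addSubgroupOfEquivOfLe hle).toEquiv
  have h8 : f.range.relIndex (f.range ⊔ T') = f.range.relIndex T' :=
    AddSubgroup.relIndex_sup_left T' f.range
  rw [← AddSubgroup.relIndex_mul_index (le_sup_left : f.range ≤ f.range ⊔ T'), h8, h5, h6, h7, h4,
    mul_comm]


theorem poly_identity (p : ℕ) [Fact p.Prime] :
    ∃ h : ℤ[X], (X - 1 : ℤ[X]) ^ (p - 1) = (∑ i ∈ Finset.range p, (X : ℤ[X]) ^ i) + C (p : ℤ) * h := by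
  have hp : p.Prime := Fact.out
  set q : ℤ[X] := (X - 1 : ℤ[X]) ^ (p - 1) - ∑ i ∈ Finset.range p, (X : ℤ[X]) ^ i with hq
  have hmap : q.map (Int.castRingHom (ZMod p)) = 0 := by
    have h1 : (X - 1 : (ZMod p)[X]) * q.map (Int.castRingHom (ZMod p)) = 0 := by
      rw [hq]
      simp only [Polynomial.map_sub, Polynomial.map_pow, Polynomial.map_X, Polynomial.map_one,
        Polynomial.map_sum]
      rw [mul_sub, mul_geom_sum, ← pow_succ', Nat.sub_add_cancel hp.one_le, sub_pow_char]
      simp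
    rcases mul_eq_zero.mp h1 with h | h
    · exfalso
      exact (Polynomial.X_sub_C_ne_zero (1 : ZMod p)) (by simpa using h)
    · exact h
  have hdvd : C (p : ℤ) ∣ q := by
    rw [Polynomial.C_dvd_iff_dvd_coeff]
    intro i
    have := congrArg (fun r => r.coeff i) hmap
    simp only [Polynomial.coeff_map, Polynomial.coeff_zero, eq_intCast] at this
    exact (ZMod.intCast_zmod_eq_zero_iff_dvd _ p).mp this
  obtain ⟨h, hh⟩ := hdvd
  exact ⟨h, by rw [← hh, hq]; ring⟩


theorem index_range_pow_dvd {A : Type*} [AddCommGroup A] (d : Module.End ℤ A) (k : ℕ) :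
    (LinearMap.range (d ^ k)).toAddSubgroup.index ∣ (LinearMap.range d).toAddSubgroup.index ^ k := by
  induction k with
  | zero =>
    have : (LinearMap.range (d ^ 0)).toAddSubgroup = ⊤ := by
      ext x; simp
    rw [this]; simp
  | succ k ih =>
    have hmap : (LinearMap.range (d ^ (k + 1))).toAddSubgroup =
        AddSubgroup.map (d ^ k).toAddMonoidHom (LinearMap.range d).toAddSubgroup := by
      ext x
      simp only [Submodule.mem_toAddSubgroup, LinearMap.mem_range, AddSubgroup.mem_map,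
        LinearMap.toAddMonoidHom_coe]
      constructor
      · rintro ⟨y, rfl⟩
        exact ⟨d y, ⟨y, rfl⟩, by rw [pow_succ]; rfl⟩
      · rintro ⟨z, ⟨y, rfl⟩, rfl⟩
        exact ⟨y, by rw [pow_succ]; rfl⟩
    have hrange : (d ^ k).toAddMonoidHom.range = (LinearMap.range (d ^ k)).toAddSubgroup := by
      ext x; simp
    rw [hmap, AddSubgroup.index_map, hrange, pow_succ, mul_comm]
    exact mul_dvd_mul ih (AddSubgroup.index_dvd_of_le le_sup_left)

theorem core (p : ℕ) [Fact p.Prime] (A : Type*) [AddCommGroup A] [Module.Finite ℤ A]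
    (d : Module.End ℤ A)
    (h1 : ∀ x, ∃ y, (d ^ (p - 1)) x = p • y)
    (h2 : ∀ x, ∃ y, p • x = d y)
    (u : A) (hu : u ≠ 0) (hpu : p • u = 0)
    (b : ℕ) (hr : (p - 1) * b ≤ finrank ℤ A)
    (hfin : (LinearMap.range d).toAddSubgroup.index ≠ 0) :
    p ^ (b + 1) ≤ (LinearMap.range d).toAddSubgroup.index := by
  have hp : p.Prime := Fact.out
  set I := (LinearMap.range d).toAddSubgroup.index with hI
  -- (b)
  have hb1 : (nsmulAddMonoidHom (α := A) p).range.index ∣ I ^ (p - 1) := by
    refine dvd_trans (AddSubgroup.index_dvd_of_le ?_) (index_range_pow_dvd d (p - 1))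
    intro x hx
    obtain ⟨y, rfl⟩ := hx
    obtain ⟨z, hz⟩ := h1 y
    exact ⟨z, by simpa using hz.symm⟩
  -- (c)
  have hc1 : p ∣ Nat.card (nsmulAddMonoidHom (α := A) p).ker := by
    have := finite_ker_nsmul A p hp.ne_zero
    have hmem : u ∈ (nsmulAddMonoidHom (α := A) p).ker := by
      simpa [AddMonoidHom.mem_ker] using hpu
    have hord : addOrderOf (⟨u, hmem⟩ : (nsmulAddMonoidHom (α := A) p).ker) = p := by
      apply addOrderOf_eq_prime
      · apply Subtype.ext; simpa using hpu
      · intro h; exact hu (congrArg Subtype.val h)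
    have := addOrderOf_dvd_natCard (⟨u, hmem⟩ : (nsmulAddMonoidHom (α := A) p).ker)
    rwa [hord] at this
  have hc2 : p ^ (finrank ℤ A + 1) ∣ I ^ (p - 1) := by
    refine dvd_trans ?_ hb1
    rw [index_range_nsmul_eq A p hp.ne_zero, pow_succ]
    exact mul_dvd_mul_left _ hc1
  -- (d)
  have hd1 : ∃ e, I = p ^ e := by
    have : (LinearMap.range d).toAddSubgroup.FiniteIndex := ⟨hfin⟩
    have : Finite (A ⧸ (LinearMap.range d).toAddSubgroup) :=
      AddSubgroup.finite_quotient_of_finiteIndex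
    have hPG : IsPGroup p (Multiplicative (A ⧸ (LinearMap.range d).toAddSubgroup)) := by
      intro g
      refine ⟨1, ?_⟩
      obtain ⟨a, ha⟩ := QuotientAddGroup.mk_surjective (Multiplicative.toAdd g)
      obtain ⟨y, hy⟩ := h2 a
      have : p • (Multiplicative.toAdd g) = 0 := by
        rw [← ha, ← QuotientAddGroup.mk_nsmul, QuotientAddGroup.eq_zero_iff, hy]
        exact ⟨y, rfl⟩
      rw [pow_one]
      exact congrArg Multiplicative.ofAdd this
    obtain ⟨e, he⟩ := (IsPGroup.iff_card).mp hPG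
    refine ⟨e, ?_⟩
    rw [hI, AddSubgroup.index_eq_card, ← he]
    exact (Nat.card_congr Multiplicative.toAdd).symm
  obtain ⟨e, he⟩ := hd1
  rw [he]
  rw [he, ← pow_mul] at hc2
  have hle := (Nat.pow_dvd_pow_iff_le_right hp.one_lt).mp hc2
  apply Nat.pow_le_pow_right hp.pos
  by_contra hcon
  have h3 : e ≤ b := by omega
  have h4 : e * (p - 1) ≤ (p - 1) * b := by
    rw [mul_comm]; exact Nat.mul_le_mul_left _ h3
  omega

end Fermat.Agent.S14x.Herbrand

namespace Fermat.Agent.S14x
open Herbrand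

theorem S14_herbrand (p : ℕ) [Fact p.Prime] (M : Type*) [AddCommGroup M] [Module.Finite ℤ M]
    (σ : M ≃+ M) (hσ : ∀ m, (⇑σ)^[p] m = m)
    (hH : ∀ m, (∑ i ∈ Finset.range p, (⇑σ)^[i] m) = 0 → ∃ u, σ u - u = m)
    (z : M) (hz : z ≠ 0) (hσz : σ z = z) (hpz : p • z = 0)
    (Fx : AddSubgroup M) (hFx : ∀ m, m ∈ Fx ↔ σ m = m)
    (a b : ℕ) (ha : Nat.card (Fx ⧸ (nsmulAddMonoidHom p : Fx →+ Fx).range) ≤ p ^ (a + 1))
    (hb : Module.finrank ℤ Fx + (p - 1) * b ≤ Module.finrank ℤ M)
    (X : Type*) [AddCommGroup X] [Finite X] (φ : Fx →+ X)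
    (hφ : ∀ (m : M) (h : (∑ i ∈ Finset.range p, (⇑σ)^[i] m) ∈ Fx), φ ⟨_, h⟩ = 0) :
    Nat.card φ.range * p ^ (b + 1) ≤ p ^ (a + 1) := by
  classical
  have hp : p.Prime := Fact.out
  -- linear versions
  set σ' : Module.End ℤ M := σ.toAddMonoidHom.toIntLinearMap with hσ'
  have hσ'app : ∀ (i : ℕ) (m : M), (σ' ^ i) m = (⇑σ)^[i] m := fun i m => by
    rw [Module.End.pow_apply]; rfl
  set Nn : Module.End ℤ M := ∑ i ∈ Finset.range p, σ' ^ i with hNn
  have hNapp : ∀ m, Nn m = ∑ i ∈ Finset.range p, (⇑σ)^[i] m := fun m => by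
    rw [hNn, LinearMap.sum_apply]; exact Finset.sum_congr rfl (fun i _ => hσ'app i m)
  set δ : Module.End ℤ M := σ' - 1 with hδ
  have hδapp : ∀ m, δ m = σ m - m := fun m => rfl
  have hσp : σ' ^ p = 1 := LinearMap.ext (fun m => by rw [hσ'app]; exact hσ m)
  have hδN : δ * Nn = 0 := by rw [hδ, hNn, mul_geom_sum, hσp, sub_self]
  have hNδ : Nn * δ = 0 := by rw [hδ, hNn, geom_sum_mul, hσp, sub_self]
  have hNmem : ∀ m, Nn m ∈ Fx := fun m => by
    rw [hFx]
    have := congrArg (fun g : Module.End ℤ M => g m) hδN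
    simp only [Module.End.mul_apply, LinearMap.zero_apply] at this
    rw [hδapp] at this
    exact sub_eq_zero.mp this
  have hNFx : ∀ m ∈ Fx, Nn m = p • m := fun m hm => by
    rw [hNapp]
    have hfix : ∀ i : ℕ, (⇑σ)^[i] m = m := fun i =>
      Function.iterate_fixed ((hFx m).mp hm) i
    simp [hfix]
  have hNδapp : ∀ m, Nn (δ m) = 0 := fun m => by
    have := congrArg (fun g : Module.End ℤ M => g m) hNδ
    simpa using this
  -- polynomial identities
  have hpoly : ∀ m, ∃ y, (δ ^ (p - 1)) m = Nn m + p • y := by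
    obtain ⟨h, hh⟩ := poly_identity p
    intro m
    refine ⟨(Polynomial.aeval σ' h) m, ?_⟩
    have := congrArg (fun q => (Polynomial.aeval σ' q) m) hh
    simpa [hδ, hNn] using this
  have hpoly2 : ∀ m, ∃ w, p • m = Nn m + δ w := by
    have hW : (Nn : Module.End ℤ M) - (p : Module.End ℤ M) =
        δ * ∑ i ∈ Finset.range p, ∑ j ∈ Finset.range i, σ' ^ j := by
      rw [Finset.mul_sum, hNn]
      simp_rw [hδ, mul_geom_sum]
      rw [Finset.sum_sub_distrib]
      simp
    intro m
    refine ⟨-(∑ i ∈ Finset.range p, ∑ j ∈ Finset.range i, σ' ^ j : Module.End ℤ M) m, ?_⟩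
    have := congrArg (fun g : Module.End ℤ M => g m) hW
    simp only [LinearMap.sub_apply, Module.End.mul_apply] at this
    rw [map_neg, ← this]
    simp
  -- the quotient `A = M / Fx`
  set Fx' : Submodule ℤ M := AddSubgroup.toIntSubmodule Fx with hFx'
  have hmemFx' : ∀ m, m ∈ Fx' ↔ m ∈ Fx := fun m => Iff.rfl
  have hδFx : Fx' ≤ Fx'.comap δ := by
    intro m hm
    rw [Submodule.mem_comap, hδapp, (hFx m).mp hm, sub_self]
    exact Fx'.zero_mem
  set dbar : Module.End ℤ (M ⧸ Fx') := Fx'.mapQ Fx' δ hδFx with hdbar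
  have hdbar_pow : ∀ (k : ℕ) (m : M), (dbar ^ k) (Submodule.Quotient.mk m) =
      Submodule.Quotient.mk ((δ ^ k) m) := by
    intro k m
    rw [hdbar, ← Submodule.mapQ_pow Fx' hδFx k]
    rfl
  have hmk0 : ∀ m, m ∈ Fx → (Submodule.Quotient.mk m : M ⧸ Fx') = 0 := fun m hm =>
    (Submodule.Quotient.mk_eq_zero Fx').mpr hm
  -- hypotheses of `core`
  have h1 : ∀ x : M ⧸ Fx', ∃ y, (dbar ^ (p - 1)) x = p • y := by
    intro x
    obtain ⟨m, rfl⟩ := Submodule.Quotient.mk_surjective Fx' x
    obtain ⟨y, hy⟩ := hpoly m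
    refine ⟨Submodule.Quotient.mk y, ?_⟩
    rw [hdbar_pow, hy, Submodule.Quotient.mk_add, hmk0 _ (hNmem m), zero_add]
    rfl
  have h2 : ∀ x : M ⧸ Fx', ∃ y, p • x = dbar y := by
    intro x
    obtain ⟨m, rfl⟩ := Submodule.Quotient.mk_surjective Fx' x
    obtain ⟨w, hw⟩ := hpoly2 m
    refine ⟨Submodule.Quotient.mk w, ?_⟩
    have : (Submodule.Quotient.mk (p • m) : M ⧸ Fx') = Submodule.Quotient.mk (Nn m + δ w) := by
      rw [hw]
    rw [Submodule.Quotient.mk_add, hmk0 _ (hNmem m), zero_add] at this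
    exact this
  have hzFx : z ∈ Fx := (hFx z).mpr hσz
  obtain ⟨u, hu⟩ := hH z (by rw [← hNapp, hNFx z hzFx, hpz])
  have hu0 : (Submodule.Quotient.mk u : M ⧸ Fx') ≠ 0 := by
    intro h
    have : u ∈ Fx := (Submodule.Quotient.mk_eq_zero Fx').mp h
    rw [hFx] at this
    rw [this, sub_self] at hu
    exact hz hu.symm
  have hpu : p • (Submodule.Quotient.mk u : M ⧸ Fx') = 0 := by
    have : p • u ∈ Fx := by
      rw [hFx, map_nsmul]
      have : σ u = u + z := by rw [← hu]; abel
      rw [this, nsmul_add, hpz, add_zero]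
    exact hmk0 _ this
  have hr : (p - 1) * b ≤ finrank ℤ (M ⧸ Fx') := by
    have h := Submodule.finrank_quotient_add_finrank Fx'
    have h' : finrank ℤ Fx' = finrank ℤ Fx := rfl
    omega
  -- index chain in `M`
  set PM : AddSubgroup M := AddSubgroup.map (nsmulAddMonoidHom (α := M) p) Fx with hPM
  set NM : AddSubgroup M := AddSubgroup.map Nn.toAddMonoidHom ⊤ with hNM
  have hPN : PM ≤ NM := by
    rintro x ⟨f, hf, rfl⟩
    exact ⟨f, trivial, by simpa using hNFx f hf⟩
  have hNF : NM ≤ Fx := by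
    rintro x ⟨m, -, rfl⟩
    exact hNmem m
  have e1 : PM.relIndex NM * NM.relIndex Fx = PM.relIndex Fx :=
    AddSubgroup.relIndex_mul_relIndex PM NM Fx hPN hNF
  have e0 : PM.relIndex Fx = Nat.card (Fx ⧸ (nsmulAddMonoidHom p : Fx →+ Fx).range) := by
    rw [AddSubgroup.relIndex, hPM, AddSubgroup.addSubgroupOf_map_nsmulAddMonoidHom_eq_range,
      AddSubgroup.index_eq_card]
  have e0' : PM.relIndex Fx ≠ 0 := by
    rw [AddSubgroup.relIndex, hPM, AddSubgroup.addSubgroupOf_map_nsmulAddMonoidHom_eq_range]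
    have : Module.Finite ℤ Fx := (inferInstance : Module.Finite ℤ Fx')
    have : AddGroup.FG Fx := Module.Finite.iff_addGroup_fg.mp inferInstance
    exact (AddSubgroup.finiteIndex_range_nsmulAddMonoidHom_of_fg Fx hp.ne_zero).index_ne_zero
  have e2 : Nat.card φ.range ∣ NM.relIndex Fx := by
    rw [← AddSubgroup.index_ker, AddSubgroup.relIndex]
    apply AddSubgroup.index_dvd_of_le
    intro x hx
    rw [AddSubgroup.mem_addSubgroupOf] at hx
    obtain ⟨m, -, hm⟩ := hx
    have hm' : Nn m = (x : M) := hm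
    have hx' : (∑ i ∈ Finset.range p, (⇑σ)^[i] m) ∈ Fx := by
      rw [← hNapp]; exact hNmem m
    have : x = ⟨_, hx'⟩ := Subtype.ext (hm'.symm.trans (hNapp m))
    rw [AddMonoidHom.mem_ker, this]
    exact hφ m hx'
  have e3 : PM.relIndex NM = (AddSubgroup.comap Nn.toAddMonoidHom PM).index := by
    rw [hNM, ← AddSubgroup.relIndex_comap, AddSubgroup.relIndex_top_right]
  have e4 : AddSubgroup.comap Nn.toAddMonoidHom PM =
      AddSubgroup.comap (Fx'.mkQ).toAddMonoidHom (LinearMap.range dbar).toAddSubgroup := by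
    ext m
    simp only [AddSubgroup.mem_comap, LinearMap.toAddMonoidHom_coe, Submodule.mkQ_apply,
      Submodule.mem_toAddSubgroup, LinearMap.mem_range]
    constructor
    · rintro ⟨f, hf, hfm⟩
      have hfm' : p • f = Nn m := hfm
      have h0 : (∑ i ∈ Finset.range p, (⇑σ)^[i] (m - f)) = 0 := by
        rw [← hNapp, map_sub, hNFx f hf, hfm', sub_self]
      obtain ⟨w, hw⟩ := hH _ h0
      refine ⟨Submodule.Quotient.mk w, ?_⟩
      have hδw : δ w = m - f := hw
      rw [hdbar, Submodule.mapQ_apply, Submodule.Quotient.eq, hδw]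
      have : m - f - m = -f := by abel
      rw [this]
      exact Fx'.neg_mem hf
    · rintro ⟨y, hy⟩
      obtain ⟨w, rfl⟩ := Submodule.Quotient.mk_surjective Fx' y
      rw [hdbar, Submodule.mapQ_apply, Submodule.Quotient.eq] at hy
      refine ⟨-(δ w - m), Fx.neg_mem hy, ?_⟩
      change p • (-(δ w - m)) = Nn m
      rw [← hNFx _ (Fx.neg_mem hy), map_neg, map_sub, hNδapp, zero_sub, neg_neg]
  have e5 : (AddSubgroup.comap (Fx'.mkQ).toAddMonoidHom (LinearMap.range dbar).toAddSubgroup).index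
      = (LinearMap.range dbar).toAddSubgroup.index :=
    AddSubgroup.index_comap_of_surjective _ (Submodule.mkQ_surjective Fx')
  have e6 : PM.relIndex NM = (LinearMap.range dbar).toAddSubgroup.index := by
    rw [e3, e4, e5]
  have hfin : (LinearMap.range dbar).toAddSubgroup.index ≠ 0 := by
    rw [← e6]
    intro h
    rw [h, zero_mul] at e1
    exact e0' e1.symm
  have hcore := core p (M ⧸ Fx') dbar h1 h2 _ hu0 hpu b hr hfin
  have hNMpos : 0 < NM.relIndex Fx := by
    rcases Nat.eq_zero_or_pos (NM.relIndex Fx) with h | h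
    · rw [h, mul_zero] at e1
      exact absurd e1.symm e0'
    · exact h
  calc Nat.card φ.range * p ^ (b + 1)
      ≤ NM.relIndex Fx * PM.relIndex NM :=
        Nat.mul_le_mul (Nat.le_of_dvd hNMpos e2) (e6 ▸ hcore)
    _ = PM.relIndex Fx := by rw [mul_comm, e1]
    _ ≤ p ^ (a + 1) := by rw [e0]; exact ha

end Fermat.Agent.S14x
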