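/-
S14 moonshot, leaf (A2): the `S`-unit theorem in the shapes of finding #49.

* `A2_finite`  : the group of `S`-units is a finitely generated abelian group;
* `A2_finrank` : its rank is `#S + rank of the unit group`;
* `A2_card`    : if `F` contains a primitive `p`-th root of unity, `[E : E^p] = p ^ (#S + r + 1)`.

Proof: the valuation vector `ordS : E → ℤ^S` has kernel the unit group (Dirichlet) and its image
contains `H • ℤ^S` (finiteness of the class group); the index formula is
`Herbrand.index_range_nsmul_eq`.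
-/
import Mathlib
import Fermat.Agent.S14_Div
import Fermat.Agent.S14_DivBasic
import Fermat.Agent.S14_Herbrand

set_option autoImplicit false

namespace Fermat.Agent.S14x.SUnit

open IsDedekindDomain NumberField Module

variable {F : Type*} [Field F] [NumberField F]

/-- the valuation vector of an `S`-unit -/
noncomputable def ordS (S : Finset (Pl F)) : Additive ↥(SU (S : Set (Pl F))) →ₗ[ℤ] (S → ℤ) :=
  AddMonoidHom.toIntLinearMap
    { toFun := fun x v => ord v.1 (((Additive.toMul x : ↥(SU (S : Set (Pl F)))) : Fˣ) : F)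
      map_zero' := by
        funext v
        simp [ord_one]
      map_add' := by
        intro x y
        funext v
        simp only [toMul_add, Subgroup.coe_mul, Units.val_mul, Pi.add_apply]
        exact ord_mul v.1 (Units.ne_zero _) (Units.ne_zero _) }

theorem ordS_apply (S : Finset (Pl F)) (x : Additive ↥(SU (S : Set (Pl F)))) (v : S) :
    ordS S x v = ord v.1 (((Additive.toMul x : ↥(SU (S : Set (Pl F)))) : Fˣ) : F) := rfl

/-- the inclusion of the units into the `S`-units -/
noncomputable def unitsToSU (S : Finset (Pl F)) : (𝓞 F)ˣ →* ↥(SU (S : Set (Pl F))) where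
  toFun u := ⟨Units.map (algebraMap (𝓞 F) F : 𝓞 F →* F) u, by
    rw [mem_SU_iff]
    intro v _
    have h : div ((Units.map (algebraMap (𝓞 F) F : 𝓞 F →* F) u : Fˣ) : F) = 0 := by
      rw [divisor_eq_zero_iff (Units.ne_zero _)]
      refine ⟨?_, ?_⟩
      · exact RingOfIntegers.isIntegral_coe (u : 𝓞 F)
      · have : ((Units.map (algebraMap (𝓞 F) F : 𝓞 F →* F) u : Fˣ) : F)⁻¹ =
            ((u⁻¹ : (𝓞 F)ˣ) : 𝓞 F) := by
          rw [← Units.val_inv_eq_inv_val, ← map_inv]
          rfl
        rw [this]
        exact RingOfIntegers.isIntegral_coe _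
    have := DFunLike.congr_fun h v
    simpa using this⟩
  map_one' := by
    apply Subtype.ext
    simp
  map_mul' := by
    intro a b
    apply Subtype.ext
    simp

theorem unitsToSU_injective (S : Finset (Pl F)) : Function.Injective (unitsToSU S) := by
  intro a b h
  have h1 := congrArg (fun x : ↥(SU (S : Set (Pl F))) => ((x : Fˣ) : F)) h
  apply Units.ext
  exact RingOfIntegers.coe_injective h1

theorem ordS_unitsToSU (S : Finset (Pl F)) (u : (𝓞 F)ˣ) (v : Pl F) :
    ord v (((unitsToSU S u : ↥(SU (S : Set (Pl F)))) : Fˣ) : F) = 0 := by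
  have h : div (((unitsToSU S u : ↥(SU (S : Set (Pl F)))) : Fˣ) : F) = 0 := by
    rw [divisor_eq_zero_iff (Units.ne_zero _)]
    refine ⟨RingOfIntegers.isIntegral_coe (u : 𝓞 F), ?_⟩
    have : ((((unitsToSU S u : ↥(SU (S : Set (Pl F)))) : Fˣ) : F))⁻¹ =
        ((u⁻¹ : (𝓞 F)ˣ) : 𝓞 F) := by
      rw [← Units.val_inv_eq_inv_val, ← Subgroup.coe_inv, ← map_inv]
      rfl
    rw [this]
    exact RingOfIntegers.isIntegral_coe _
  have := DFunLike.congr_fun h v
  simpa using this

/-- kernel of `ordS` = image of the units -/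
theorem ker_ordS (S : Finset (Pl F)) :
    LinearMap.ker (ordS S) =
      LinearMap.range (MonoidHom.toAdditive (unitsToSU S)).toIntLinearMap := by
  ext x
  simp only [LinearMap.mem_ker, LinearMap.mem_range]
  constructor
  · intro hx
    have hall : ∀ v : Pl F,
        ord v (((Additive.toMul x : ↥(SU (S : Set (Pl F)))) : Fˣ) : F) = 0 := by
      intro v
      by_cases hv : v ∈ S
      · have := congrFun hx ⟨v, hv⟩
        simpa [ordS_apply] using this
      · exact mem_SU_iff.mp (Additive.toMul x).2 v (by simpa using hv)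
    have hdiv : div (((Additive.toMul x : ↥(SU (S : Set (Pl F)))) : Fˣ) : F) = 0 := by
      ext v
      simp [hall v]
    obtain ⟨h1, h2⟩ := (divisor_eq_zero_iff (Units.ne_zero _)).mp hdiv
    have hab : (⟨_, h1⟩ : 𝓞 F) * ⟨_, h2⟩ = 1 := by
      apply RingOfIntegers.coe_injective
      change (((Additive.toMul x : ↥(SU (S : Set (Pl F)))) : Fˣ) : F) *
        ((((Additive.toMul x : ↥(SU (S : Set (Pl F)))) : Fˣ) : F))⁻¹ = 1
      exact mul_inv_cancel₀ (Units.ne_zero _)
    refine ⟨Additive.ofMul (⟨⟨_, h1⟩, ⟨_, h2⟩, hab, (mul_comm _ _).trans hab⟩ : (𝓞 F)ˣ), ?_⟩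
    apply Additive.toMul.injective
    apply Subtype.ext
    apply Units.ext
    rfl
  · rintro ⟨u, rfl⟩
    funext v
    exact ordS_unitsToSU S (Additive.toMul u) v.1

/-- a uniform positive multiple of every prime of `S` is principal -/
theorem exists_uniform_single (S : Finset (Pl F)) :
    ∃ H : ℕ, 0 < H ∧ ∀ v ∈ S, ∃ y : F, y ≠ 0 ∧ div y = Finsupp.single v (H : ℤ) := by
  classical
  choose h hpos x hx0 hx using fun v : Pl F => exists_nsmul_single_principal v
  refine ⟨∏ v ∈ S, h v, Finset.prod_pos fun v _ => hpos v, ?_⟩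
  intro v hv
  refine ⟨x v ^ ((∏ w ∈ S, h w) / h v), pow_ne_zero _ (hx0 v), ?_⟩
  rw [divisor_pow, hx v, Finsupp.smul_single]
  congr 1
  rw [nsmul_eq_mul]
  have hdvd : h v ∣ ∏ w ∈ S, h w := Finset.dvd_prod_of_mem h hv
  exact_mod_cast Nat.div_mul_cancel hdvd

theorem exists_smul_mem_range_ordS (S : Finset (Pl F)) :
    ∃ H : ℕ, 0 < H ∧ ∀ c : S → ℤ, (H : ℤ) • c ∈ LinearMap.range (ordS S) := by
  classical
  obtain ⟨H, hH, hy⟩ := exists_uniform_single S
  refine ⟨H, hH, ?_⟩
  choose y hy0 hydiv using fun v : S => hy v.1 v.2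
  have hord : ∀ (v : S) (w : Pl F), ord w (y v) = if w = v.1 then (H : ℤ) else 0 := by
    intro v w
    have := DFunLike.congr_fun (hydiv v) w
    rw [divisor_apply] at this
    rw [this, Finsupp.single_apply]
    by_cases hwv : w = v.1
    · simp [hwv]
    · have : ¬ (v.1 = w) := fun h => hwv h.symm
      simp [hwv, this]
  have hmem : ∀ v : S, Units.mk0 (y v) (hy0 v) ∈ SU (S : Set (Pl F)) := by
    intro v
    rw [mem_SU_iff]
    intro w hw
    rw [Units.val_mk0, hord v w, if_neg]
    rintro rfl
    exact hw v.2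
  intro c
  refine ⟨∑ v : S, c v • Additive.ofMul (⟨Units.mk0 (y v) (hy0 v), hmem v⟩ :
    ↥(SU (S : Set (Pl F)))), ?_⟩
  rw [map_sum]
  funext w
  rw [Finset.sum_apply, Finset.sum_eq_single w]
  · rw [map_zsmul, Pi.smul_apply, ordS_apply]
    simp only [toMul_ofMul, Units.val_mk0, Pi.smul_apply, smul_eq_mul]
    rw [hord w w.1, if_pos rfl, mul_comm]
  · intro v _ hvw
    rw [map_zsmul, Pi.smul_apply, ordS_apply]
    simp only [toMul_ofMul, Units.val_mk0, smul_eq_mul]
    rw [hord v w.1, if_neg, mul_zero]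
    intro h
    exact hvw (Subtype.ext h.symm)
  · intro h
    exact absurd (Finset.mem_univ w) h

theorem finrank_range_ordS (S : Finset (Pl F)) :
    finrank ℤ (LinearMap.range (ordS S)) = S.card := by
  classical
  have hpi : finrank ℤ (S → ℤ) = S.card := by
    rw [Module.finrank_pi, Fintype.card_coe]
  apply le_antisymm
  · rw [← hpi]
    exact (LinearMap.range (ordS S)).finrank_le
  · obtain ⟨H, hH, hc⟩ := exists_smul_mem_range_ordS S
    set g : (S → ℤ) →ₗ[ℤ] (S → ℤ) := (H : ℤ) • LinearMap.id with hg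
    have hginj : Function.Injective g := by
      intro a b hab
      have hab' : (H : ℤ) • a = (H : ℤ) • b := hab
      funext w
      have := congrFun hab' w
      simp only [Pi.smul_apply, smul_eq_mul] at this
      exact mul_left_cancel₀ (by exact_mod_cast hH.ne') this
    have hle : LinearMap.range g ≤ LinearMap.range (ordS S) := by
      rintro _ ⟨c, rfl⟩
      exact hc c
    rw [← hpi, ← LinearMap.finrank_range_of_inj hginj]
    exact Submodule.finrank_mono hle

end Fermat.Agent.S14x.SUnit

namespace Fermat.Agent.S14x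

open IsDedekindDomain NumberField Module SUnit

variable {F : Type*} [Field F] [NumberField F]

theorem A2_finite (S : Finset (Pl F)) : Module.Finite ℤ (Additive ↥(SU (S : Set (Pl F)))) := by
  rw [Module.finite_def]
  refine Submodule.fg_of_fg_map_of_fg_inf_ker (ordS S) ?_ ?_
  · exact IsNoetherian.noetherian _
  · rw [inf_of_le_right le_top, ker_ordS, LinearMap.range_eq_map]
    exact (Module.Finite.fg_top).map _

theorem A2_finrank (S : Finset (Pl F)) :
    Module.finrank ℤ (Additive ↥(SU (S : Set (Pl F)))) = S.card + NumberField.Units.rank F := by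
  have := A2_finite S
  have h := (LinearMap.ker (ordS S)).finrank_quotient_add_finrank
  have h1 : finrank ℤ (Additive ↥(SU (S : Set (Pl F))) ⧸ LinearMap.ker (ordS S)) = S.card := by
    rw [(ordS S).quotKerEquivRange.finrank_eq, finrank_range_ordS]
  have h2 : finrank ℤ (LinearMap.ker (ordS S)) = NumberField.Units.rank F := by
    rw [ker_ordS, LinearMap.finrank_range_of_inj, NumberField.Units.finrank_eq]
    intro a b hab
    exact Additive.toMul.injective (unitsToSU_injective S (congrArg Additive.toMul hab))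
  rw [h1, h2] at h
  exact h.symm

theorem A2_card {p : ℕ} (hp : p.Prime) (hζ : ∃ ζ : F, IsPrimitiveRoot ζ p) (S : Finset (Pl F)) :
    Nat.card (↥(SU (S : Set (Pl F))) ⧸ (powMonoidHom p : ↥(SU (S : Set (Pl F))) →* _).range) =
      p ^ (S.card + NumberField.Units.rank F + 1) := by
  classical
  have := A2_finite S
  have : NeZero p := ⟨hp.ne_zero⟩
  have e1 : Nat.card (↥(SU (S : Set (Pl F))) ⧸
      (powMonoidHom p : ↥(SU (S : Set (Pl F))) →* _).range) =
      (nsmulAddMonoidHom (α := Additive ↥(SU (S : Set (Pl F)))) p).range.index := by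
    rw [← Subgroup.index_eq_card, ← Subgroup.index_toAddSubgroup]
    congr 1
  have e2 : Nat.card (nsmulAddMonoidHom (α := Additive ↥(SU (S : Set (Pl F)))) p).ker = p := by
    obtain ⟨ζ, hζ⟩ := hζ
    refine Eq.trans ?_ hζ.card_rootsOfUnity
    have hmemSU : ∀ ξ : Fˣ, ξ ^ p = 1 → ξ ∈ SU (S : Set (Pl F)) := by
      intro ξ hξ
      rw [mem_SU_iff]
      intro v _
      have h1 : ord v (((ξ ^ p : Fˣ)) : F) = 0 := by rw [hξ]; simpa using ord_one v
      rw [Units.val_pow_eq_pow_val, ord_pow] at h1
      rcases mul_eq_zero.mp h1 with h | h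
      · exact absurd (by exact_mod_cast h) hp.ne_zero
      · exact h
    refine Nat.card_congr
      { toFun := fun a => ⟨((Additive.toMul a.1 : ↥(SU (S : Set (Pl F)))) : Fˣ), ?_⟩
        invFun := fun ξ => ⟨Additive.ofMul ⟨ξ.1, hmemSU ξ.1 ((mem_rootsOfUnity _ _).mp ξ.2)⟩, ?_⟩
        left_inv := fun a => rfl
        right_inv := fun ξ => rfl }
    · rw [mem_rootsOfUnity]
      have h := a.2
      rw [AddMonoidHom.mem_ker, nsmulAddMonoidHom_apply] at h
      have h' : (Additive.toMul a.1) ^ p = 1 := by
        have := congrArg Additive.toMul h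
        rwa [toMul_nsmul, toMul_zero] at this
      have h'' := congrArg (fun t : ↥(SU (S : Set (Pl F))) => (t : Fˣ)) h'
      simp only [Subgroup.coe_pow, Subgroup.coe_one] at h''
      exact h''
    · rw [AddMonoidHom.mem_ker, nsmulAddMonoidHom_apply]
      apply Additive.toMul.injective
      apply Subtype.ext
      have := (mem_rootsOfUnity _ _).mp ξ.2
      rw [toMul_nsmul, toMul_zero, toMul_ofMul, Subgroup.coe_pow, Subgroup.coe_one]
      exact this
  rw [e1, Herbrand.index_range_nsmul_eq _ p hp.ne_zero, e2, A2_finrank, pow_succ]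

end Fermat.Agent.S14x
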