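/-
S14: API for the relative definitions of `S14_Div`: primes above, ramification and residue
degrees, norm of divisors, the Galois action on primes, splitting in Kummer pairs.
-/
import Fermat.Agent.S14_DivBasic

set_option autoImplicit false

namespace Fermat.Agent.S14x

open IsDedekindDomain NumberField

section relative

variable (F : Type*) [Field F] [NumberField F] {F' : Type*} [Field F'] [NumberField F']
  [Algebra F F']

theorem below_asIdeal (w : Pl F') :
    (below F w).asIdeal = w.asIdeal.comap (algebraMap (𝓞 F) (𝓞 F')) := rfl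

theorem liesOver_below (w : Pl F') : w.asIdeal.LiesOver (below F w).asIdeal := ⟨rfl⟩

theorem eOf_pos (w : Pl F') : 0 < eOf F w := by
  have := liesOver_below F w
  exact Nat.pos_of_ne_zero
    (Ideal.IsDedekindDomain.ramificationIdx'_ne_zero_of_liesOver w.asIdeal (below F w).ne_bot)

theorem fOf_pos (w : Pl F') : 0 < fOf F w := by
  have := w.isPrime
  exact Ideal.inertiaDeg_pos w.asIdeal (𝓞 F)

/-- compatibility of valuations -/
theorem ord_algebraMap (w : Pl F') (x : F) :
    ord w (algebraMap F F' x) = eOf F w * ord (below F w) x := by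
  have := liesOver_below F w
  unfold ord eOf
  rw [← HeightOneSpectrum.valuation_liesOver F' (below F w) w x, WithZero.log_pow]
  simp

theorem vGe_algebraMap (w : Pl F') {n : ℤ} {x : F} (h : vGe (below F w) n x) :
    vGe w (eOf F w * n) (algebraMap F F' x) := by
  rw [vGe_iff] at h ⊢
  rcases h with rfl | h
  · left
    simp
  · right
    rw [ord_algebraMap]
    exact mul_le_mul_of_nonneg_left h (by positivity)

/-- for `n ≥ 1`... the converse direction in the form needed for congruences -/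
theorem vGe_one_of_algebraMap (w : Pl F') {x : F} (hx : vGe (below F w) 0 x)
    (h : vGe w 1 (algebraMap F F' x)) : vGe (below F w) 1 x := by
  rw [vGe_iff] at h hx ⊢
  rcases hx with rfl | hx
  · left; rfl
  · rcases h with h | h
    · left
      exact (map_eq_zero_iff _ (algebraMap F F').injective).mp h
    · right
      rw [ord_algebraMap] at h
      by_contra hcon
      have h0 : ord (below F w) x = 0 := by omega
      rw [h0, mul_zero] at h
      omega

theorem exists_above (v : Pl F) : ∃ w : Pl F', below F w = v := by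
  have := v.isMaximal
  obtain ⟨P, hPm, hP⟩ := Ideal.exists_maximal_ideal_liesOver_of_isIntegral (S := 𝓞 F') v.asIdeal
  have hP0 : P ≠ ⊥ := by
    intro h
    apply v.ne_bot
    rw [hP.over, h]
    exact Ideal.under_bot (𝓞 F) (𝓞 F')
  refine ⟨⟨P, hPm.isPrime, hP0⟩, ?_⟩
  apply HeightOneSpectrum.ext
  exact hP.over.symm

theorem finite_above (v : Pl F) : {w : Pl F' | below F w = v}.Finite := by
  have := v.isMaximal
  have hfin : (Ideal.primesOver v.asIdeal (𝓞 F')).Finite := Set.toFinite _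
  refine Set.Finite.of_finite_image (hfin.subset ?_) (f := HeightOneSpectrum.asIdeal) ?_
  · rintro _ ⟨w, hw, rfl⟩
    have hw' : below F w = v := hw
    exact ⟨w.isPrime, ⟨by rw [← hw']; rfl⟩⟩
  · intro w _ w' _ h
    exact HeightOneSpectrum.ext h

theorem mem_finite_above_toFinset {v : Pl F} {w : Pl F'} :
    w ∈ (finite_above F (F' := F') v).toFinset ↔ below F w = v := by
  simp

theorem finite_above_finset (S : Finset (Pl F)) : (above F F' (S : Set (Pl F))).Finite := by
  refine (Set.Finite.biUnion S.finite_toSet (fun v _ => finite_above F (F' := F') v)).subset ?_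
  intro w hw
  simp only [Set.mem_iUnion]
  exact ⟨below F w, hw, rfl⟩

theorem normDiv_single (w : Pl F') (n : ℤ) :
    normDiv F (Finsupp.single w n) = Finsupp.single (below F w) (fOf F w * n) := by
  simp [normDiv]

theorem normDiv_apply (D : Dv F') (v : Pl F) :
    normDiv F D v = ∑ w ∈ (finite_above F (F' := F') v).toFinset, (fOf F w : ℤ) * D w := by
  classical
  induction D using Finsupp.induction_linear with
  | zero => simp
  | add D₁ D₂ h₁ h₂ =>
    rw [map_add, Finsupp.add_apply, h₁, h₂, ← Finset.sum_add_distrib]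
    apply Finset.sum_congr rfl
    intro w _
    rw [Finsupp.add_apply, mul_add]
  | single w n =>
    rw [normDiv_single, Finsupp.single_apply]
    by_cases hw : below F w = v
    · rw [if_pos hw, Finset.sum_eq_single w]
      · simp
      · intro w' _ hw'
        rw [Finsupp.single_apply, if_neg (Ne.symm hw'), mul_zero]
      · intro h
        exact absurd ((mem_finite_above_toFinset F).mpr hw) h
    · rw [if_neg hw]
      symm
      apply Finset.sum_eq_zero
      intro w' hw'
      have hw'' : below F w' = v := (mem_finite_above_toFinset F).mp hw'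
      rw [Finsupp.single_apply, if_neg, mul_zero]
      rintro rfl
      exact hw hw''

theorem fOf_eq_finrank (w : Pl F') :
    haveI := liesOver_below F w
    haveI := (below F w).isMaximal
    haveI := w.isMaximal
    fOf F w = Module.finrank (𝓞 F ⧸ (below F w).asIdeal) (𝓞 F' ⧸ w.asIdeal) := by
  have := liesOver_below F w
  have := (below F w).isMaximal
  have := w.isMaximal
  exact Ideal.inertiaDeg_eq_of_isMaximal (below F w).asIdeal w.asIdeal

/-- if the residue degree is one, the residue fields agree -/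
theorem exists_approx_of_fOf_eq_one (w : Pl F') (hf : fOf F w = 1) {z : F'} (hz : vGe w 0 z) :
    ∃ a : 𝓞 F, vGe w 1 (z - algebraMap F F' (a : F)) := by
  have := liesOver_below F w
  have := (below F w).isMaximal
  have := w.isMaximal
  obtain ⟨b, hb⟩ := exists_integer_approx w hz 1
  have hfin : Module.finrank (𝓞 F ⧸ (below F w).asIdeal) (𝓞 F' ⧸ w.asIdeal) = 1 := by
    rw [← fOf_eq_finrank, hf]
  let _ : Field (𝓞 F ⧸ (below F w).asIdeal) := Ideal.Quotient.field _
  let _ : Field (𝓞 F' ⧸ w.asIdeal) := Ideal.Quotient.field _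
  have h1 : (1 : 𝓞 F' ⧸ w.asIdeal) ≠ 0 := one_ne_zero
  obtain ⟨c, hc⟩ := (finrank_eq_one_iff_of_nonzero' (1 : 𝓞 F' ⧸ w.asIdeal) h1).mp hfin
    (Ideal.Quotient.mk w.asIdeal b)
  obtain ⟨a, rfl⟩ := Ideal.Quotient.mk_surjective c
  refine ⟨a, ?_⟩
  have hmem : b - algebraMap (𝓞 F) (𝓞 F') a ∈ w.asIdeal := by
    rw [← Ideal.Quotient.eq, ← hc, Algebra.smul_def, mul_one]
    rfl
  have h2 : vGe w 1 (((b - algebraMap (𝓞 F) (𝓞 F') a : 𝓞 F') : F')) :=
    (mem_asIdeal_iff w _).mp hmem
  have h3 : z - algebraMap F F' (a : F) =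
      (z - (b : F')) + ((b - algebraMap (𝓞 F) (𝓞 F') a : 𝓞 F') : F') := by
    push_cast
    show z - algebraMap F F' (a : F) = z - (b : F') + ((b : F') - algebraMap F F' (a : F))
    ring
  rw [h3]
  exact vGe.add (by exact_mod_cast hb) h2

/-! ### the Galois action -/

theorem mem_gsmul_iff (σ : F' ≃ₐ[F] F') (w : Pl F') (x : 𝓞 F') :
    x ∈ (gsmul F σ w).asIdeal ↔ galRestrict (𝓞 F) F F' (𝓞 F') σ⁻¹ x ∈ w.asIdeal := Iff.rfl

theorem coe_galRestrict (σ : F' ≃ₐ[F] F') (x : 𝓞 F') :
    ((galRestrict (𝓞 F) F F' (𝓞 F') σ x : 𝓞 F') : F') = σ (x : F') :=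
  algebraMap_galRestrict_apply (𝓞 F) σ x

theorem galRestrict_inv_apply (σ : F' ≃ₐ[F] F') (x : 𝓞 F') :
    galRestrict (𝓞 F) F F' (𝓞 F') σ⁻¹ (galRestrict (𝓞 F) F F' (𝓞 F') σ x) = x := by
  apply RingOfIntegers.ext
  rw [coe_galRestrict, coe_galRestrict]
  exact σ.symm_apply_apply _

theorem galRestrict_apply_inv (σ : F' ≃ₐ[F] F') (x : 𝓞 F') :
    galRestrict (𝓞 F) F F' (𝓞 F') σ (galRestrict (𝓞 F) F F' (𝓞 F') σ⁻¹ x) = x := by
  apply RingOfIntegers.ext
  rw [coe_galRestrict, coe_galRestrict]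
  exact σ.apply_symm_apply _

theorem mem_gsmul_pow_iff (σ : F' ≃ₐ[F] F') (w : Pl F') (x : 𝓞 F') (n : ℕ) :
    galRestrict (𝓞 F) F F' (𝓞 F') σ x ∈ (gsmul F σ w).asIdeal ^ n ↔ x ∈ w.asIdeal ^ n := by
  have hmap : (gsmul F σ w).asIdeal =
      w.asIdeal.map ((galRestrict (𝓞 F) F F' (𝓞 F') σ : 𝓞 F' ≃ₐ[𝓞 F] 𝓞 F') : 𝓞 F' →+* 𝓞 F') := by
    ext y
    rw [mem_gsmul_iff]
    constructor
    · intro hy
      have := Ideal.mem_map_of_mem
        ((galRestrict (𝓞 F) F F' (𝓞 F') σ : 𝓞 F' ≃ₐ[𝓞 F] 𝓞 F') : 𝓞 F' →+* 𝓞 F') hy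
      have e : ((galRestrict (𝓞 F) F F' (𝓞 F') σ : 𝓞 F' ≃ₐ[𝓞 F] 𝓞 F') : 𝓞 F' →+* 𝓞 F')
          (galRestrict (𝓞 F) F F' (𝓞 F') σ⁻¹ y) = y := galRestrict_apply_inv F σ y
      rwa [e] at this
    · intro hy
      have hsurj : Function.Surjective
          ((galRestrict (𝓞 F) F F' (𝓞 F') σ : 𝓞 F' ≃ₐ[𝓞 F] 𝓞 F') : 𝓞 F' →+* 𝓞 F') :=
        (galRestrict (𝓞 F) F F' (𝓞 F') σ).surjective
      obtain ⟨t, ht, rfl⟩ := (Ideal.mem_map_iff_of_surjective _ hsurj).mp hy
      have e : galRestrict (𝓞 F) F F' (𝓞 F') σ⁻¹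
          (((galRestrict (𝓞 F) F F' (𝓞 F') σ : 𝓞 F' ≃ₐ[𝓞 F] 𝓞 F') : 𝓞 F' →+* 𝓞 F') t) = t :=
        galRestrict_inv_apply F σ t
      rwa [e]
  rw [hmap, ← Ideal.map_pow]
  have hsurj : Function.Surjective
      ((galRestrict (𝓞 F) F F' (𝓞 F') σ : 𝓞 F' ≃ₐ[𝓞 F] 𝓞 F') : 𝓞 F' →+* 𝓞 F') :=
    (galRestrict (𝓞 F) F F' (𝓞 F') σ).surjective
  constructor
  · intro h
    obtain ⟨t, ht, hte⟩ := (Ideal.mem_map_iff_of_surjective _ hsurj).mp h
    have : t = x := (galRestrict (𝓞 F) F F' (𝓞 F') σ).injective hte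
    rwa [← this]
  · intro h
    exact Ideal.mem_map_of_mem _ h

theorem vGe_gsmul_integer (σ : F' ≃ₐ[F] F') (w : Pl F') (n : ℕ) (x : 𝓞 F') :
    vGe (gsmul F σ w) n (σ (x : F')) ↔ vGe w n (x : F') := by
  rw [← coe_galRestrict, ← mem_asIdeal_pow_iff, ← mem_asIdeal_pow_iff, mem_gsmul_pow_iff]

theorem ord_gsmul_integer (σ : F' ≃ₐ[F] F') (w : Pl F') (x : 𝓞 F') :
    ord (gsmul F σ w) (σ (x : F')) = ord w (x : F') := by
  rcases eq_or_ne (x : F') 0 with h | h
  · rw [h, map_zero, ord_zero, ord_zero]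
  · have hσ : σ (x : F') ≠ 0 := by simpa using h
    have hnn : 0 ≤ ord w (x : F') := ord_nonneg_of_isIntegral w x.2
    obtain ⟨k, hk⟩ := Int.eq_ofNat_of_zero_le hnn
    rw [hk]
    refine ord_eq_of_vGe_of_not_vGe _ hσ ?_ ?_
    · rw [vGe_gsmul_integer, vGe_iff]
      right
      omega
    · have : ((k : ℤ) + 1) = ((k + 1 : ℕ) : ℤ) := by push_cast; ring
      rw [this, vGe_gsmul_integer, vGe_iff]
      push Not
      refine ⟨h, ?_⟩
      push_cast
      omega

theorem ord_gsmul (σ : F' ≃ₐ[F] F') (w : Pl F') (x : F') :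
    ord (gsmul F σ w) (σ x) = ord w x := by
  obtain ⟨a, b, hb, rfl⟩ := IsFractionRing.div_surjective (A := 𝓞 F') x
  have hb0 : (algebraMap (𝓞 F') F' b) ≠ 0 := by
    have := nonZeroDivisors.ne_zero hb
    simpa using this
  rcases eq_or_ne (algebraMap (𝓞 F') F' a) 0 with ha | ha
  · rw [ha, zero_div, map_zero, ord_zero, ord_zero]
  · rw [map_div₀, ord_div _ (by simpa using ha) (by simpa using hb0), ord_div _ ha hb0]
    have h1 := ord_gsmul_integer F σ w a
    have h2 := ord_gsmul_integer F σ w b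
    rw [show (algebraMap (𝓞 F') F' a) = (a : F') from rfl,
      show (algebraMap (𝓞 F') F' b) = (b : F') from rfl, h1, h2]

theorem vGe_gsmul (σ : F' ≃ₐ[F] F') (w : Pl F') (n : ℤ) (x : F') :
    vGe (gsmul F σ w) n (σ x) ↔ vGe w n x := by
  rw [vGe_iff, vGe_iff, ord_gsmul]
  simp

theorem gsmul_one (w : Pl F') : gsmul F (1 : F' ≃ₐ[F] F') w = w := by
  apply HeightOneSpectrum.ext
  ext x
  rw [mem_gsmul_iff, inv_one, map_one]
  rfl

theorem gsmul_mul (σ τ : F' ≃ₐ[F] F') (w : Pl F') :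
    gsmul F (σ * τ) w = gsmul F σ (gsmul F τ w) := by
  apply HeightOneSpectrum.ext
  ext x
  rw [mem_gsmul_iff, mem_gsmul_iff, mem_gsmul_iff, mul_inv_rev, map_mul]
  rfl

theorem below_gsmul (σ : F' ≃ₐ[F] F') (w : Pl F') : below F (gsmul F σ w) = below F w := by
  apply HeightOneSpectrum.ext
  ext x
  show algebraMap (𝓞 F) (𝓞 F') x ∈ (gsmul F σ w).asIdeal ↔ algebraMap (𝓞 F) (𝓞 F') x ∈ w.asIdeal
  rw [mem_gsmul_iff, AlgEquiv.commutes]

theorem eOf_gsmul (σ : F' ≃ₐ[F] F') (w : Pl F') : eOf F (gsmul F σ w) = eOf F w := by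
  unfold eOf
  rw [below_gsmul]
  exact Ideal.ramificationIdx'_comap_eq (below F w).asIdeal
    (galRestrict (𝓞 F) F F' (𝓞 F') σ⁻¹) w.asIdeal

theorem fOf_gsmul (σ : F' ≃ₐ[F] F') (w : Pl F') : fOf F (gsmul F σ w) = fOf F w := by
  have h1 := liesOver_below F w
  have h2 := liesOver_below F (gsmul F σ w)
  have := (below F w).isMaximal
  have := (below F (gsmul F σ w)).isMaximal
  have := w.isMaximal
  have := (gsmul F σ w).isMaximal
  unfold fOf
  rw [← Ideal.inertiaDeg'_eq_inertiaDeg (below F w).asIdeal w.asIdeal,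
    ← Ideal.inertiaDeg'_eq_inertiaDeg (below F (gsmul F σ w)).asIdeal (gsmul F σ w).asIdeal,
    below_gsmul]
  exact Ideal.inertiaDeg'_comap_eq (below F w).asIdeal
    (galRestrict (𝓞 F) F F' (𝓞 F') σ⁻¹) w.asIdeal


/-- a finite set of primes killing the class groups of both `F` and `F'` -/
theorem exists_finset_kills_both (F' : Type*) [Field F'] [NumberField F'] [Algebra F F']
    (S0 : Finset (Pl F)) :
    ∃ S : Finset (Pl F), S0 ⊆ S ∧ Kills (S : Set (Pl F)) ∧
      Kills (above F F' (S : Set (Pl F))) := by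
  classical
  obtain ⟨S1, hS01, hS1⟩ := exists_finset_kills (F := F) S0
  obtain ⟨S2, -, hS2⟩ := exists_finset_kills (F := F') ∅
  refine ⟨S1 ∪ S2.image (below F), hS01.trans Finset.subset_union_left, ?_, ?_⟩
  · refine hS1.mono ?_
    intro v hv
    simp only [Finset.coe_union, Set.mem_union]
    exact Or.inl hv
  · refine hS2.mono ?_
    intro w hw
    show below F w ∈ ((S1 ∪ S2.image (below F) : Finset (Pl F)) : Set (Pl F))
    simp only [Finset.coe_union, Set.mem_union, Finset.coe_image]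
    exact Or.inr ⟨w, hw, rfl⟩

variable [IsGalois F F']

/-- the Galois group is transitive on the primes above a given prime -/
theorem exists_gsmul_eq {w w' : Pl F'} (h : below F w = below F w') :
    ∃ σ : F' ≃ₐ[F] F', gsmul F σ w = w' := by
  have h1 : w.asIdeal ∈ Ideal.primesOver (below F w).asIdeal (𝓞 F') :=
    ⟨w.isPrime, liesOver_below F w⟩
  have h2 : w'.asIdeal ∈ Ideal.primesOver (below F w).asIdeal (𝓞 F') :=
    ⟨w'.isPrime, by rw [h]; exact liesOver_below F w'⟩
  obtain ⟨σ, hσ⟩ := Ideal.exists_comap_galRestrict_eq (𝓞 F) F F' (𝓞 F') h1 h2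
  refine ⟨σ⁻¹, ?_⟩
  apply HeightOneSpectrum.ext
  rw [← hσ]
  show w.asIdeal.comap _ = _
  rw [inv_inv]
  rfl

theorem eOf_eq_of_below_eq {w w' : Pl F'} (h : below F w = below F w') : eOf F w = eOf F w' := by
  obtain ⟨σ, rfl⟩ := exists_gsmul_eq F h
  rw [eOf_gsmul]

theorem fOf_eq_of_below_eq {w w' : Pl F'} (h : below F w = below F w') : fOf F w = fOf F w' := by
  obtain ⟨σ, rfl⟩ := exists_gsmul_eq F h
  rw [fOf_gsmul]

omit [IsGalois F F'] in
theorem image_asIdeal_above (v : Pl F) :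
    HeightOneSpectrum.asIdeal '' {w : Pl F' | below F w = v} =
      Ideal.primesOver v.asIdeal (𝓞 F') := by
  ext P
  constructor
  · rintro ⟨w, hw, rfl⟩
    have hw' : below F w = v := hw
    exact ⟨w.isPrime, by rw [← hw']; exact liesOver_below F w⟩
  · rintro ⟨hP, hPv⟩
    have hP0 : P ≠ ⊥ := by
      intro h
      apply v.ne_bot
      rw [hPv.over, h]
      exact Ideal.under_bot (𝓞 F) (𝓞 F')
    refine ⟨⟨P, hP, hP0⟩, ?_, rfl⟩
    apply HeightOneSpectrum.ext
    exact hPv.over.symm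

/-- `e f g = n` -/
theorem ncard_above_mul (w : Pl F') :
    {w' : Pl F' | below F w' = below F w}.ncard * (eOf F w * fOf F w) = Module.finrank F F' := by
  have hv : (below F w).asIdeal.IsPrime := (below F w).isPrime
  have hl := liesOver_below F w
  have hw : w.asIdeal.IsPrime := w.isPrime
  have key := Ideal.ncard_primesOver_mul_ramificationIdxIn_mul_inertiaDegIn (below F w).asIdeal
    (𝓞 F') (F' ≃ₐ[F] F')
  rw [IsGalois.card_aut_eq_finrank,
    Ideal.ramificationIdxIn_eq_ramificationIdx (below F w).asIdeal w.asIdeal (F' ≃ₐ[F] F'),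
    Ideal.inertiaDegIn_eq_inertiaDeg (below F w).asIdeal w.asIdeal (F' ≃ₐ[F] F'),
    ← Ideal.ramificationIdx'_eq_ramificationIdx (below F w).asIdeal w.asIdeal (below F w).ne_bot,
    ← image_asIdeal_above F (below F w),
    Set.ncard_image_of_injective _ (fun a b h => HeightOneSpectrum.ext h)] at key
  exact key

open scoped Classical in
theorem card_fiber_eq (w w' : Pl F') (h : below F w' = below F w) :
    (Finset.univ.filter (fun σ : F' ≃ₐ[F] F' => gsmul F σ w = w')).card =
      (Finset.univ.filter (fun σ : F' ≃ₐ[F] F' => gsmul F σ w = w)).card := by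
  obtain ⟨σ₀, hσ₀⟩ := exists_gsmul_eq F h.symm
  refine Finset.card_nbij' (fun σ => σ₀⁻¹ * σ) (fun σ => σ₀ * σ) ?_ ?_ ?_ ?_
  · intro σ hσ
    simp only [Finset.coe_filter, Finset.mem_univ, true_and, Set.mem_ofPred_eq] at hσ ⊢
    rw [gsmul_mul, hσ, ← hσ₀, ← gsmul_mul, inv_mul_cancel, gsmul_one]
  · intro σ hσ
    simp only [Finset.coe_filter, Finset.mem_univ, true_and, Set.mem_ofPred_eq] at hσ ⊢
    rw [gsmul_mul, hσ, hσ₀]
  · intro σ _
    simp
  · intro σ _
    simp

omit [IsGalois F F'] in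
open scoped Classical in
theorem card_fiber_inv_eq (w w' : Pl F') :
    (Finset.univ.filter (fun σ : F' ≃ₐ[F] F' => gsmul F σ⁻¹ w = w')).card =
      (Finset.univ.filter (fun σ : F' ≃ₐ[F] F' => gsmul F σ w = w')).card := by
  refine Finset.card_nbij' (fun σ => σ⁻¹) (fun σ => σ⁻¹) ?_ ?_ ?_ ?_
  · intro σ hσ
    simpa using hσ
  · intro σ hσ
    simpa using hσ
  · intro σ _
    simp
  · intro σ _
    simp

open scoped Classical in
theorem card_stabilizer_finset (w : Pl F') :
    (Finset.univ.filter (fun σ : F' ≃ₐ[F] F' => gsmul F σ w = w)).card = eOf F w * fOf F w := by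
  classical
  have h1 : (Finset.univ : Finset (F' ≃ₐ[F] F')).card =
      ∑ w' ∈ (finite_above F (F' := F') (below F w)).toFinset,
        (Finset.univ.filter (fun σ : F' ≃ₐ[F] F' => gsmul F σ w = w')).card :=
    Finset.card_eq_sum_card_fiberwise (fun σ _ =>
      Finset.mem_coe.mpr ((mem_finite_above_toFinset F).mpr (below_gsmul F σ w)))
  have h2 : ∑ w' ∈ (finite_above F (F' := F') (below F w)).toFinset,
        (Finset.univ.filter (fun σ : F' ≃ₐ[F] F' => gsmul F σ w = w')).card =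
      ∑ _w' ∈ (finite_above F (F' := F') (below F w)).toFinset,
        (Finset.univ.filter (fun σ : F' ≃ₐ[F] F' => gsmul F σ w = w)).card :=
    Finset.sum_congr rfl (fun w' hw' =>
      card_fiber_eq F w w' ((mem_finite_above_toFinset F).mp hw'))
  rw [h2, Finset.sum_const, smul_eq_mul, Finset.card_univ, ← Nat.card_eq_fintype_card,
    IsGalois.card_aut_eq_finrank, ← ncard_above_mul F w,
    ← Set.ncard_eq_toFinset_card _ (finite_above F (F' := F') (below F w))] at h1
  have hpos : 0 < {w' : Pl F' | below F w' = below F w}.ncard := by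
    rw [Set.ncard_pos (finite_above F (F' := F') (below F w))]
    exact ⟨w, rfl⟩
  exact (Nat.eq_of_mul_eq_mul_left hpos h1).symm

theorem card_stabilizer (w : Pl F') :
    Nat.card {σ : F' ≃ₐ[F] F' // gsmul F σ w = w} = eOf F w * fOf F w := by
  classical
  rw [Nat.card_eq_fintype_card, Fintype.card_subtype]
  exact card_stabilizer_finset F w

theorem ord_prod {ι : Type*} (v : Pl F) (s : Finset ι) (g : ι → F) (hg : ∀ i ∈ s, g i ≠ 0) :
    ord v (∏ i ∈ s, g i) = ∑ i ∈ s, ord v (g i) := by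
  classical
  induction s using Finset.induction_on with
  | empty => simp [ord_one]
  | insert a s ha ih =>
    rw [Finset.prod_insert ha, Finset.sum_insert ha,
      ord_mul v (hg a (Finset.mem_insert_self a s))
        (Finset.prod_ne_zero_iff.mpr (fun i hi => hg i (Finset.mem_insert_of_mem hi))),
      ih (fun i hi => hg i (Finset.mem_insert_of_mem hi))]

/-- the valuation of a norm -/
theorem ord_norm (v : Pl F) {z : F'} (hz : z ≠ 0) :
    ord v (Algebra.norm F z) =
      ∑ w ∈ (finite_above F (F' := F') v).toFinset, (fOf F w : ℤ) * ord w z := by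
  classical
  obtain ⟨w₀, hw₀⟩ := exists_above F (F' := F') v
  have h1 : ord w₀ (algebraMap F F' (Algebra.norm F z)) = eOf F w₀ * ord v (Algebra.norm F z) := by
    rw [ord_algebraMap, hw₀]
  have h2 : ord w₀ (algebraMap F F' (Algebra.norm F z)) =
      ∑ σ : F' ≃ₐ[F] F', ord (gsmul F σ⁻¹ w₀) z := by
    rw [Algebra.norm_eq_prod_automorphisms, ord_prod F' w₀ _ _ (fun σ _ => by simpa using hz)]
    apply Finset.sum_congr rfl
    intro σ _
    have := ord_gsmul F σ⁻¹ w₀ (σ z)
    rw [← this]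
    congr 1
    exact σ.symm_apply_apply z
  have h3 : ∑ σ : F' ≃ₐ[F] F', ord (gsmul F σ⁻¹ w₀) z =
      ∑ w ∈ (finite_above F (F' := F') v).toFinset,
        ∑ σ ∈ Finset.univ.filter (fun σ : F' ≃ₐ[F] F' => gsmul F σ⁻¹ w₀ = w),
          ord (gsmul F σ⁻¹ w₀) z :=
    (Finset.sum_fiberwise_of_maps_to (fun σ _ => by
      rw [mem_finite_above_toFinset, below_gsmul, hw₀]) _).symm
  have h4 : ∀ w ∈ (finite_above F (F' := F') v).toFinset,
      ∑ σ ∈ Finset.univ.filter (fun σ : F' ≃ₐ[F] F' => gsmul F σ⁻¹ w₀ = w),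
          ord (gsmul F σ⁻¹ w₀) z = (eOf F w₀ : ℤ) * ((fOf F w : ℤ) * ord w z) := by
    intro w hw
    have hw' : below F w = v := (mem_finite_above_toFinset F).mp hw
    have hsum : ∑ σ ∈ Finset.univ.filter (fun σ : F' ≃ₐ[F] F' => gsmul F σ⁻¹ w₀ = w),
          ord (gsmul F σ⁻¹ w₀) z =
        ∑ _σ ∈ Finset.univ.filter (fun σ : F' ≃ₐ[F] F' => gsmul F σ⁻¹ w₀ = w), ord w z :=
      Finset.sum_congr rfl (fun σ hσ => by
        rw [(Finset.mem_filter.mp hσ).2])
    rw [hsum, Finset.sum_const, card_fiber_inv_eq, card_fiber_eq F w₀ w (by rw [hw', hw₀]),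
      card_stabilizer_finset, fOf_eq_of_below_eq F (w := w) (w' := w₀) (by rw [hw', hw₀])]
    simp only [nsmul_eq_mul, Nat.cast_mul]
    ring
  rw [h2, h3, Finset.sum_congr rfl h4, ← Finset.mul_sum] at h1
  have he : (eOf F w₀ : ℤ) ≠ 0 := by
    have := eOf_pos F w₀
    positivity
  exact (mul_left_cancel₀ he h1).symm

theorem divisor_norm {z : F'} (hz : z ≠ 0) : div (Algebra.norm F z) = normDiv F (div z) := by
  ext v
  rw [divisor_apply, ord_norm F v hz, normDiv_apply]
  rfl

/-- a Galois-invariant divisor supported on unramified primes is a conorm -/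
theorem exists_conorm_of_invariant (D : Dv F')
    (hinv : ∀ (σ : F' ≃ₐ[F] F') (w : Pl F'), D (gsmul F σ w) = D w)
    (_hunr : ∀ w : Pl F', D w ≠ 0 → eOf F w = 1) :
    ∃ D0 : Dv F, ∀ w : Pl F', D w = D0 (below F w) := by
  classical
  have hch : ∀ v : Pl F, ∃ w : Pl F', below F w = v := fun v => exists_above F v
  choose c hc using hch
  have hD : ∀ w : Pl F', D w = D (c (below F w)) := by
    intro w
    obtain ⟨σ, hσ⟩ := exists_gsmul_eq F (w := c (below F w)) (w' := w) (hc _)
    calc D w = D (gsmul F σ (c (below F w))) := by rw [hσ]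
      _ = D (c (below F w)) := hinv _ _
  refine ⟨Finsupp.onFinset (D.support.image (below F)) (fun v => D (c v)) ?_, ?_⟩
  · intro v hv
    rw [Finset.mem_image]
    exact ⟨c v, Finsupp.mem_support_iff.mpr hv, hc v⟩
  · intro w
    rw [Finsupp.onFinset_apply]
    exact hD w

end relative

/-! ### Kummer pairs -/

section kummer

variable {F : Type*} [Field F] [NumberField F] {F' : Type*} [Field F'] [NumberField F']
  [Algebra F F'] {p : ℕ}

theorem KummerPair.card_gal (hK : KummerPair F F' p) : Nat.card (F' ≃ₐ[F] F') = p := by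
  have := hK.galois
  rw [IsGalois.card_aut_eq_finrank, hK.degree]

theorem KummerPair.generator_of_ne_one (hK : KummerPair F F' p) {σ : F' ≃ₐ[F] F'} (hσ : σ ≠ 1) :
    ∀ τ : F' ≃ₐ[F] F', τ ∈ Subgroup.zpowers σ := by
  have : Fact p.Prime := ⟨hK.prime⟩
  intro τ
  exact mem_zpowers_of_prime_card hK.card_gal hσ

theorem KummerPair.exists_generator (hK : KummerPair F F' p) :
    ∃ σ : F' ≃ₐ[F] F', σ ≠ 1 ∧ ∀ τ : F' ≃ₐ[F] F', τ ∈ Subgroup.zpowers σ := by
  have hcard := hK.card_gal
  have hfin : Finite (F' ≃ₐ[F] F') := Nat.finite_of_card_ne_zero (by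
    rw [hcard]
    exact hK.prime.ne_zero)
  have : Nontrivial (F' ≃ₐ[F] F') := by
    rw [← Finite.one_lt_card_iff_nontrivial, hcard]
    exact hK.prime.one_lt
  obtain ⟨σ, hσ⟩ := exists_ne (1 : F' ≃ₐ[F] F')
  exact ⟨σ, hσ, hK.generator_of_ne_one hσ⟩

/-- `(e, f) ∈ {(1,1), (p,1), (1,p)}` -/
theorem KummerPair.e_f_cases (hK : KummerPair F F' p) (w : Pl F') :
    (eOf F w = 1 ∧ fOf F w = 1) ∨ (eOf F w = p ∧ fOf F w = 1) ∨ (eOf F w = 1 ∧ fOf F w = p) := by
  have := hK.galois
  have hp := hK.prime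
  have key := ncard_above_mul F w
  rw [hK.degree] at key
  have hdvd : eOf F w * fOf F w ∣ p := Dvd.intro_left _ key
  rcases (Nat.dvd_prime hp).mp hdvd with h | h
  · left
    exact ⟨Nat.eq_one_of_mul_eq_one_right h, Nat.eq_one_of_mul_eq_one_left h⟩
  · have he : eOf F w ∣ p := Dvd.intro _ h
    rcases (Nat.dvd_prime hp).mp he with he | he
    · right
      right
      refine ⟨he, ?_⟩
      rw [he, one_mul] at h
      exact h
    · right
      left
      refine ⟨he, ?_⟩
      rw [he] at h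
      exact Nat.eq_of_mul_eq_mul_left hp.pos (by rw [h, mul_one])

/-- split primes have exactly `p` primes above them, permuted simply transitively -/
theorem KummerPair.ncard_above_of_isSplit (hK : KummerPair F F' p) {v : Pl F}
    (hv : IsSplit F F' v) : {w : Pl F' | below F w = v}.ncard = p := by
  have := hK.galois
  obtain ⟨w, hw⟩ := exists_above F (F' := F') v
  have key := ncard_above_mul F w
  rw [hK.degree, (hv w hw).1, (hv w hw).2, hw] at key
  simpa using key

theorem KummerPair.gsmul_ne_of_isSplit (hK : KummerPair F F' p) {v : Pl F}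
    (hv : IsSplit F F' v) {w : Pl F'} (hw : below F w = v) {σ : F' ≃ₐ[F] F'} (hσ : σ ≠ 1) :
    gsmul F σ w ≠ w := by
  have := hK.galois
  intro h
  have hcard := card_stabilizer F w
  rw [(hv w hw).1, (hv w hw).2, mul_one] at hcard
  have hsub : Subsingleton {σ : F' ≃ₐ[F] F' // gsmul F σ w = w} :=
    (Nat.card_eq_one_iff_unique.mp hcard).1
  have := hsub.elim ⟨σ, h⟩ ⟨1, gsmul_one F w⟩
  exact hσ (congrArg Subtype.val this)

/-- nonsplit primes have exactly one prime above them, fixed by the Galois group -/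
theorem KummerPair.unique_above_of_not_isSplit (hK : KummerPair F F' p) {v : Pl F}
    (hv : ¬ IsSplit F F' v) {w w' : Pl F'} (hw : below F w = v) (hw' : below F w' = v) :
    w = w' := by
  have := hK.galois
  have hp := hK.prime
  unfold IsSplit at hv
  push Not at hv
  obtain ⟨w₀, hw₀, hef⟩ := hv
  have hef' : eOf F w₀ * fOf F w₀ = p := by
    rcases hK.e_f_cases w₀ with h | h | h
    · exact absurd h.2 (hef h.1)
    · rw [h.1, h.2, mul_one]
    · rw [h.1, h.2, one_mul]
  have key := ncard_above_mul F w₀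
  rw [hK.degree, hef', hw₀] at key
  have h1 : {w : Pl F' | below F w = v}.ncard = 1 :=
    Nat.eq_of_mul_eq_mul_right hp.pos (by rw [key, one_mul])
  obtain ⟨a, ha⟩ := Set.ncard_eq_one.mp h1
  have h2 : w ∈ ({a} : Set (Pl F')) := by
    rw [← ha]
    exact hw
  have h3 : w' ∈ ({a} : Set (Pl F')) := by
    rw [← ha]
    exact hw'
  rw [Set.mem_singleton_iff] at h2 h3
  rw [h2, h3]

theorem KummerPair.gsmul_eq_of_not_isSplit (hK : KummerPair F F' p) {v : Pl F}
    (hv : ¬ IsSplit F F' v) {w : Pl F'} (hw : below F w = v) (σ : F' ≃ₐ[F] F') :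
    gsmul F σ w = w :=
  hK.unique_above_of_not_isSplit hv (by rw [below_gsmul, hw]) hw

/-- a prime with a prime above it fixed by a nontrivial automorphism is not split -/
theorem KummerPair.not_isSplit_of_gsmul_eq (hK : KummerPair F F' p) {w : Pl F'}
    {σ : F' ≃ₐ[F] F'} (hσ : σ ≠ 1) (h : gsmul F σ w = w) : ¬ IsSplit F F' (below F w) :=
  fun hs => hK.gsmul_ne_of_isSplit hs rfl hσ h

/-- Kummer generator -/
theorem KummerPair.exists_kummer (hK : KummerPair F F' p) :
    ∃ (a : F) (θ : F'), a ≠ 0 ∧ θ ^ p = algebraMap F F' a ∧ (∀ y : F, y ^ p ≠ a) ∧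
      ∀ (σ : F' ≃ₐ[F] F'), ∃ ζ : F, ζ ^ p = 1 ∧ σ θ = algebraMap F F' ζ * θ ∧ (σ ≠ 1 → ζ ≠ 1) := by
  have := hK.galois
  have hp := hK.prime
  have : Fact p.Prime := ⟨hp⟩
  have : IsCyclic (F' ≃ₐ[F] F') := isCyclic_of_prime_card hK.card_gal
  obtain ⟨ζ, hζ⟩ := hK.zeta
  have hprim : (primitiveRoots (Module.finrank F F') F).Nonempty := by
    rw [hK.degree]
    exact ⟨ζ, (mem_primitiveRoots hp.pos).mpr hζ⟩
  obtain ⟨θ, ⟨a, ha⟩, htop⟩ := exists_root_adjoin_eq_top_of_isCyclic F F' hprim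
  rw [hK.degree] at ha
  have hadj : Algebra.adjoin F {θ} = ⊤ := by
    have h1 := IntermediateField.adjoin_simple_toSubalgebra_of_isAlgebraic
      (Algebra.IsAlgebraic.isAlgebraic (R := F) θ)
    rw [htop] at h1
    rw [← h1]
    rfl
  have hθF : ∀ y : F, algebraMap F F' y ≠ θ := by
    intro y hy
    have h1 : IntermediateField.adjoin F {θ} = ⊥ := by
      rw [IntermediateField.adjoin_simple_eq_bot_iff, ← hy]
      exact IntermediateField.algebraMap_mem ⊥ y
    rw [htop] at h1
    have h2 : Module.finrank F F' = 1 :=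
      IntermediateField.bot_eq_top_iff_finrank_eq_one.mp h1.symm
    rw [hK.degree] at h2
    exact hp.one_lt.ne' h2
  have hθ0 : θ ≠ 0 := fun h => hθF 0 (by rw [h, map_zero])
  have ha0 : a ≠ 0 := by
    rintro rfl
    rw [map_zero] at ha
    exact hθ0 ((pow_eq_zero_iff hp.ne_zero).mp ha.symm)
  have hroots : ∀ x : F', x ^ p = 1 → ∃ ξ : F, ξ ^ p = 1 ∧ algebraMap F F' ξ = x := by
    intro x hx
    have hζ' : IsPrimitiveRoot (algebraMap F F' ζ) p :=
      hζ.map_of_injective (algebraMap F F').injective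
    have : NeZero p := ⟨hp.ne_zero⟩
    obtain ⟨i, -, hi⟩ := hζ'.eq_pow_of_pow_eq_one hx
    refine ⟨ζ ^ i, ?_, ?_⟩
    · rw [← pow_mul, mul_comm, pow_mul, hζ.pow_eq_one, one_pow]
    · rw [map_pow, hi]
  refine ⟨a, θ, ha0, ha.symm, ?_, ?_⟩
  · intro y hy
    have hy0 : y ≠ 0 := by
      rintro rfl
      rw [zero_pow hp.ne_zero] at hy
      exact ha0 hy.symm
    have hy0' : algebraMap F F' y ≠ 0 := by simpa using hy0
    obtain ⟨ξ, -, hξ⟩ := hroots (θ / algebraMap F F' y) (by
      rw [div_pow, ← ha, ← hy, map_pow, div_self (pow_ne_zero _ hy0')])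
    apply hθF (ξ * y)
    rw [map_mul, hξ, div_mul_cancel₀ _ hy0']
  · intro σ
    obtain ⟨ξ, hξ1, hξ⟩ := hroots (σ θ / θ) (by
      rw [div_pow, ← map_pow, ← ha, AlgEquiv.commutes, div_self]
      rw [ha]
      exact pow_ne_zero _ hθ0)
    refine ⟨ξ, hξ1, ?_, ?_⟩
    · rw [hξ, div_mul_cancel₀ _ hθ0]
    · intro hσ hξ'
      apply hσ
      have hσθ : σ θ = θ := by
        rw [← div_mul_cancel₀ (σ θ) hθ0, ← hξ, hξ', map_one, one_mul]
      have h2 : (σ : F' →ₐ[F] F') = ((1 : F' ≃ₐ[F] F') : F' →ₐ[F] F') := by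
        apply AlgHom.ext_of_adjoin_eq_top hadj
        intro x hx
        rw [Set.mem_singleton_iff] at hx
        subst hx
        exact hσθ
      ext x
      exact congrArg (fun f : F' →ₐ[F] F' => f x) h2

/-- `F` is totally complex -/
theorem KummerPair.nrRealPlaces_eq_zero (hK : KummerPair F F' p) :
    NumberField.InfinitePlace.nrRealPlaces F = 0 := by
  obtain ⟨ζ, hζ⟩ := hK.zeta
  have hp := hK.prime
  have h2 : 2 < p := lt_of_le_of_ne hp.two_le (Ne.symm hK.odd)
  exact NumberField.InfinitePlace.IsPrimitiveRoot.nrRealPlaces_eq_zero_of_two_lt h2 hζ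

theorem KummerPair.nrComplexPlaces (hK : KummerPair F F' p) :
    NumberField.InfinitePlace.nrComplexPlaces F' = p * NumberField.InfinitePlace.nrComplexPlaces F := by
  obtain ⟨ζ, hζ⟩ := hK.zeta
  have hp := hK.prime
  have h2 : 2 < p := lt_of_le_of_ne hp.two_le (Ne.symm hK.odd)
  have hF : NumberField.InfinitePlace.nrRealPlaces F = 0 := hK.nrRealPlaces_eq_zero
  have hF' : NumberField.InfinitePlace.nrRealPlaces F' = 0 :=
    NumberField.InfinitePlace.IsPrimitiveRoot.nrRealPlaces_eq_zero_of_two_lt h2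
      (hζ.map_of_injective (algebraMap F F').injective)
  have e1 := NumberField.InfinitePlace.card_add_two_mul_card_eq_rank F
  have e2 := NumberField.InfinitePlace.card_add_two_mul_card_eq_rank F'
  have e3 : Module.finrank ℚ F * Module.finrank F F' = Module.finrank ℚ F' :=
    Module.finrank_mul_finrank ℚ F F'
  rw [hK.degree] at e3
  rw [hF, zero_add] at e1
  rw [hF', zero_add] at e2
  have e4 : 2 * NumberField.InfinitePlace.nrComplexPlaces F' =
      2 * (p * NumberField.InfinitePlace.nrComplexPlaces F) := by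
    rw [e2, ← e3, ← e1]
    ring
  exact Nat.eq_of_mul_eq_mul_left (by norm_num) e4

end kummer

end Fermat.Agent.S14x
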