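/-
S14, Part A, pieces of (A3) (Theorem H):

* `A3_rank`: the rank bookkeeping for the `S`-units of a Kummer pair;
* `A3_fixed`: the Galois-fixed `S'`-units of `F'` are the `S`-units of `F`.
-/
import Fermat.Agent.S14_DivGal

set_option autoImplicit false

namespace Fermat.Agent.S14x

open IsDedekindDomain NumberField

section

variable {F : Type*} [Field F] [NumberField F] {F' : Type*} [Field F'] [NumberField F']
  [Algebra F F'] {p : ℕ}

/-- `rank + 1` of the unit group of a totally complex field is the number of complex places -/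
theorem A3_rank_add_one (hK : KummerPair F F' p) :
    NumberField.Units.rank F + 1 = NumberField.InfinitePlace.nrComplexPlaces F := by
  have h1 := NumberField.InfinitePlace.card_eq_nrRealPlaces_add_nrComplexPlaces (K := F)
  rw [hK.nrRealPlaces_eq_zero, zero_add] at h1
  have h2 : 0 < Fintype.card (InfinitePlace F) := Fintype.card_pos
  unfold NumberField.Units.rank
  omega

/-- `rank + 1` of the unit group of the top field of a Kummer pair -/
theorem A3_rank_add_one' (hK : KummerPair F F' p) :
    NumberField.Units.rank F' + 1 = p * (NumberField.Units.rank F + 1) := by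
  obtain ⟨ζ, hζ⟩ := hK.zeta
  have hp := hK.prime
  have h2 : 2 < p := lt_of_le_of_ne hp.two_le (Ne.symm hK.odd)
  have hF' : NumberField.InfinitePlace.nrRealPlaces F' = 0 :=
    NumberField.InfinitePlace.IsPrimitiveRoot.nrRealPlaces_eq_zero_of_two_lt h2
      (hζ.map_of_injective (algebraMap F F').injective)
  have h1 := NumberField.InfinitePlace.card_eq_nrRealPlaces_add_nrComplexPlaces (K := F')
  rw [hF', zero_add] at h1
  have h3 : 0 < Fintype.card (InfinitePlace F') := Fintype.card_pos
  rw [A3_rank_add_one hK, ← hK.nrComplexPlaces]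
  unfold NumberField.Units.rank
  omega

/-- the number of primes above a finite set of primes in a Kummer pair -/
theorem A3_card_above (hK : KummerPair F F' p) (S : Finset (Pl F)) :
    ∃ S' : Finset (Pl F'), (S' : Set (Pl F')) = above F F' (S : Set (Pl F)) ∧
      S'.card = S.card + (p - 1) * {v : Pl F | v ∈ S ∧ IsSplit F F' v}.ncard := by
  classical
  have hp := hK.prime
  refine ⟨S.biUnion fun v => (finite_above F (F' := F') v).toFinset, ?_, ?_⟩
  · ext w
    simp only [Finset.coe_biUnion, Finset.mem_coe, Set.Finite.coe_toFinset, Set.mem_iUnion,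
      Set.mem_ofPred_eq, exists_prop, above]
    constructor
    · rintro ⟨v, hv, hw⟩
      rw [hw]
      exact hv
    · intro h
      exact ⟨_, h, rfl⟩
  · rw [Finset.card_biUnion]
    · have hset : {v : Pl F | v ∈ S ∧ IsSplit F F' v} = ↑(S.filter fun v => IsSplit F F' v) := by
        ext v
        simp
      rw [hset, Set.ncard_coe_finset, Finset.card_eq_sum_ones S, Finset.card_filter,
        Finset.mul_sum, ← Finset.sum_add_distrib]
      refine Finset.sum_congr rfl fun v _ => ?_
      rw [← Set.ncard_eq_toFinset_card _ (finite_above F (F' := F') v)]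
      by_cases hv : IsSplit F F' v
      · rw [hK.ncard_above_of_isSplit hv, if_pos hv]
        have := hp.one_lt
        omega
      · rw [if_neg hv, mul_zero, add_zero]
        obtain ⟨w, hw⟩ := exists_above F (F' := F') v
        rw [Set.ncard_eq_one]
        refine ⟨w, ?_⟩
        ext w'
        simp only [Set.mem_ofPred_eq, Set.mem_singleton_iff]
        constructor
        · intro hw'
          exact hK.unique_above_of_not_isSplit hv hw' hw
        · rintro rfl
          exact hw
    · intro v _ v' _ hvv'
      rw [Function.onFun, Finset.disjoint_left]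
      intro w hw hw'
      rw [Set.Finite.mem_toFinset, Set.mem_ofPred_eq] at hw hw'
      exact hvv' (hw.symm.trans hw')

/-- **(A3-rank)**: the rank bookkeeping. -/
theorem A3_rank (hK : KummerPair F F' p) (S : Finset (Pl F)) :
    ∃ S' : Finset (Pl F'), (S' : Set (Pl F')) = above F F' (S : Set (Pl F)) ∧
      S'.card + NumberField.Units.rank F' =
        S.card + NumberField.Units.rank F +
          (p - 1) * ({v : Pl F | v ∈ S ∧ IsSplit F F' v}.ncard + NumberField.Units.rank F + 1) := by
  obtain ⟨S', hS', hcard⟩ := A3_card_above hK S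
  refine ⟨S', hS', ?_⟩
  have h1 := A3_rank_add_one' hK
  have hp := hK.prime.one_lt
  obtain ⟨q, rfl⟩ : ∃ q, p = q + 1 := ⟨p - 1, by omega⟩
  rw [hcard]
  simp only [Nat.add_sub_cancel] at *
  set s := {v : Pl F | v ∈ S ∧ IsSplit F F' v}.ncard
  set r := NumberField.Units.rank F
  set r' := NumberField.Units.rank F'
  have h2 : r' = (q + 1) * (r + 1) - 1 := by omega
  have h3 : (q + 1) * (r + 1) = q * r + q + r + 1 := by ring
  have h4 : q * (s + r + 1) = q * s + q * r + q := by ring
  omega

/-- **(A3-fix)**: the Galois-fixed `S'`-units of `F'` are the `S`-units of `F`. -/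
theorem A3_fixed [IsGalois F F'] (S : Set (Pl F)) (x : F'ˣ) :
    (x ∈ SU (above F F' S) ∧ ∀ σ : F' ≃ₐ[F] F', σ (x : F') = x) ↔
      ∃ y : Fˣ, y ∈ SU S ∧ Units.map (algebraMap F F' : F →* F') y = x := by
  constructor
  · rintro ⟨hx, hfix⟩
    have hmem : (x : F') ∈ (⊥ : IntermediateField F F') := by
      rw [← IsGalois.fixedField_top (F := F) (E := F')]
      rw [IntermediateField.mem_fixedField_iff]
      intro σ _
      exact hfix σ
    rw [IntermediateField.mem_bot] at hmem
    obtain ⟨y, hy⟩ := hmem
    have hy0 : y ≠ 0 := by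
      rintro rfl
      rw [map_zero] at hy
      exact x.ne_zero hy.symm
    refine ⟨Units.mk0 y hy0, ?_, ?_⟩
    · rw [mem_SU_iff]
      intro v hv
      obtain ⟨w, hw⟩ := exists_above F (F' := F') v
      have h1 := mem_SU_iff.mp hx w (by
        show ¬ below F w ∈ S
        rw [hw]
        exact hv)
      rw [← hy, ord_algebraMap, hw] at h1
      have he := eOf_pos F w
      rcases mul_eq_zero.mp h1 with h | h
      · omega
      · exact h
    · ext
      simp [hy]
  · rintro ⟨y, hy, rfl⟩
    refine ⟨?_, ?_⟩
    · rw [mem_SU_iff]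
      intro w hw
      have h1 := mem_SU_iff.mp hy (below F w) hw
      show ord w (algebraMap F F' (y : F)) = 0
      rw [ord_algebraMap, h1, mul_zero]
    · intro σ
      show σ (algebraMap F F' (y : F)) = algebraMap F F' (y : F)
      exact σ.commutes _

end

end Fermat.Agent.S14x
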