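/-
S14, PART A, a piece of Theorem H (A3): the "Hilbert 90 for `S`-units" step, i.e. the vanishing
of `H^{-1}` of the group of `S'`-units of `F'` (`S'` = primes above `S`), when `S` contains the
ramified primes and kills the class group of `F`.
-/
import Fermat.Agent.S14_DivGal

set_option autoImplicit false

namespace Fermat.Agent.S14x

open IsDedekindDomain NumberField

namespace A3H90

/-- **Hilbert 90** for a cyclic group of automorphisms, elementary form (any universe): if the
"norm" `∏_{i<n} σ^i z` is `1` then `z = σ y / y`. -/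
theorem hilbert90_cyclic {K L : Type*} [Field K] [Field L] [Algebra K L] (σ : L ≃ₐ[K] L) (n : ℕ)
    (hn : 0 < n) (hσn : σ ^ n = 1) (hinj : ∀ i < n, ∀ j < n, σ ^ i = σ ^ j → i = j) (z : L)
    (hz : ∏ i ∈ Finset.range n, (σ ^ i) z = 1) : ∃ y : L, y ≠ 0 ∧ σ y = z * y := by
  classical
  -- partial products
  let P : ℕ → L := fun k => ∏ i ∈ Finset.range k, (σ ^ i) z
  have hP0 : P 0 = 1 := by simp [P]
  have hPn : P n = 1 := hz
  have hPs : ∀ k, z * σ (P k) = P (k + 1) := by
    intro k
    show z * σ (∏ i ∈ Finset.range k, (σ ^ i) z) = ∏ i ∈ Finset.range (k + 1), (σ ^ i) z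
    rw [Finset.prod_range_succ', map_prod, mul_comm]
    congr 1
    · apply Finset.prod_congr rfl
      intro i _
      rw [pow_succ']
      rfl
  have hz0 : z ≠ 0 := by
    intro h
    have : P n = 0 := by
      show ∏ i ∈ Finset.range n, (σ ^ i) z = 0
      rw [h]
      apply Finset.prod_eq_zero (Finset.mem_range.mpr hn)
      simp
    rw [hPn] at this
    exact one_ne_zero this
  -- the resolvent
  have hex : ∃ c : L, ∑ k ∈ Finset.range n, P k * (σ ^ k) c ≠ 0 := by
    by_contra hcon
    push Not at hcon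
    have hli : LinearIndependent L (fun k : Fin n => (((σ ^ (k : ℕ) : L ≃ₐ[K] L) : L →* L) : L → L)) := by
      refine (linearIndependent_monoidHom L L).comp
        (fun k : Fin n => ((σ ^ (k : ℕ) : L ≃ₐ[K] L) : L →* L)) ?_
      intro i j hij
      apply Fin.ext
      apply hinj i i.2 j j.2
      ext x
      exact congrArg (fun f : L →* L => f x) hij
    have hsum : ∑ k : Fin n, P k • (((σ ^ (k : ℕ) : L ≃ₐ[K] L) : L →* L) : L → L) = 0 := by
      funext c
      simp only [Finset.sum_apply, Pi.smul_apply, smul_eq_mul, Pi.zero_apply]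
      show ∑ k : Fin n, P k * (σ ^ (k : ℕ)) c = 0
      rw [Fin.sum_univ_eq_sum_range (fun k => P k * (σ ^ k) c) n]
      exact hcon c
    have h0 := Fintype.linearIndependent_iff.mp hli (fun k => P k) hsum ⟨0, hn⟩
    rw [hP0] at h0
    exact one_ne_zero h0
  obtain ⟨c, hc⟩ := hex
  set b := ∑ k ∈ Finset.range n, P k * (σ ^ k) c with hb
  have hzb : z * σ b = b := by
    have h1 : z * σ b = ∑ k ∈ Finset.range n, P (k + 1) * (σ ^ (k + 1)) c := by
      rw [hb, map_sum, Finset.mul_sum]
      apply Finset.sum_congr rfl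
      intro k _
      rw [map_mul, ← mul_assoc, hPs k, pow_succ']
      rfl
    have h2 : ∑ k ∈ Finset.range (n + 1), P k * (σ ^ k) c =
        ∑ k ∈ Finset.range n, P (k + 1) * (σ ^ (k + 1)) c + P 0 * (σ ^ 0) c :=
      Finset.sum_range_succ' _ n
    have h3 : ∑ k ∈ Finset.range (n + 1), P k * (σ ^ k) c = b + P n * (σ ^ n) c :=
      Finset.sum_range_succ _ n
    rw [hP0, pow_zero] at h2
    rw [hPn, hσn] at h3
    rw [h1]
    have h4 : ∑ k ∈ Finset.range n, P (k + 1) * (σ ^ (k + 1)) c + 1 * (1 : L ≃ₐ[K] L) c =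
        b + 1 * (1 : L ≃ₐ[K] L) c := by rw [← h2, h3]
    exact add_right_cancel h4
  refine ⟨b⁻¹, inv_ne_zero hc, ?_⟩
  have hσb : σ b = b / z := by
    rw [eq_div_iff hz0, mul_comm]
    exact hzb
  rw [map_inv₀, hσb, inv_div]
  rw [div_eq_mul_inv]

end A3H90

universe u

variable {F : Type u} [Field F] [NumberField F] {F' : Type u} [Field F'] [NumberField F']
  [Algebra F F'] {p : ℕ}

namespace A3H90

theorem pow_card (hK : KummerPair F F' p) (σ : F' ≃ₐ[F] F') : σ ^ p = 1 := by
  have hcard := hK.card_gal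
  have hfin : Finite (F' ≃ₐ[F] F') := Nat.finite_of_card_ne_zero (by
    rw [hcard]
    exact hK.prime.ne_zero)
  rw [← hcard]
  exact pow_card_eq_one'

theorem pow_inj (hK : KummerPair F F' p) {σ : F' ≃ₐ[F] F'} (hσ : σ ≠ 1) :
    ∀ i < p, ∀ j < p, σ ^ i = σ ^ j → i = j := by
  have : Fact p.Prime := ⟨hK.prime⟩
  have ho : orderOf σ = p := orderOf_eq_prime (pow_card hK σ) hσ
  intro i hi j hj h
  exact pow_injOn_Iio_orderOf (by rw [ho]; exact hi) (by rw [ho]; exact hj) h

theorem prod_pow_eq_norm (hK : KummerPair F F' p) {σ : F' ≃ₐ[F] F'} (hσ : σ ≠ 1) (z : F') :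
    ∏ i ∈ Finset.range p, (σ ^ i) z = algebraMap F F' (Algebra.norm F z) := by
  classical
  have := hK.galois
  rw [Algebra.norm_eq_prod_automorphisms]
  have hinj := pow_inj hK hσ
  have himg : (Finset.range p).image (fun i => σ ^ i) = Finset.univ := by
    apply Finset.eq_univ_of_card
    rw [Finset.card_image_of_injOn, Finset.card_range, ← Nat.card_eq_fintype_card, hK.card_gal]
    intro i hi j hj h
    exact hinj i (Finset.mem_range.mp hi) j (Finset.mem_range.mp hj) h
  rw [← himg, Finset.prod_image]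
  intro i hi j hj h
  exact hinj i (Finset.mem_range.mp hi) j (Finset.mem_range.mp hj) h

/-- If `σ y = z * y` with `z` an `S'`-unit and `σ` a generator, then `ord w y` is constant on
the fibres of `below` outside `S`. -/
theorem ord_const_on_fibres (hK : KummerPair F F' p) (S : Set (Pl F))
    (σ : F' ≃ₐ[F] F') (hσ : σ ≠ 1) (z : F'ˣ) (hz : z ∈ SU (above F F' S))
    (y : F') (hy : y ≠ 0) (hσy : σ y = z * y) (w w' : Pl F') (hww' : below F w = below F w')
    (hw : below F w ∉ S) : ord w y = ord w' y := by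
  have := hK.galois
  -- the subgroup of automorphisms preserving `ord · y` outside `S'`
  let H : Subgroup (F' ≃ₐ[F] F') :=
    { carrier := {τ | ∀ w : Pl F', below F w ∉ S → ord (gsmul F τ w) y = ord w y}
      one_mem' := by
        intro w _
        rw [gsmul_one]
      mul_mem' := by
        intro τ₁ τ₂ h₁ h₂ w hw
        rw [gsmul_mul, h₁ (gsmul F τ₂ w) (by rw [below_gsmul]; exact hw), h₂ w hw]
      inv_mem' := by
        intro τ h w hw
        have h1 := h (gsmul F τ⁻¹ w) (by rw [below_gsmul]; exact hw)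
        rw [← gsmul_mul, mul_inv_cancel, gsmul_one] at h1
        exact h1.symm }
  have hσH : σ⁻¹ ∈ H := by
    intro w hw
    have h1 : ord (gsmul F σ⁻¹ w) (σ⁻¹ (σ y)) = ord w (σ y) := ord_gsmul F σ⁻¹ w (σ y)
    have h2 : σ⁻¹ (σ y) = y := σ.symm_apply_apply y
    rw [h2, hσy, ord_mul w z.ne_zero hy] at h1
    have h3 : ord w (z : F') = 0 := mem_SU_iff.mp hz w hw
    rw [h3, zero_add] at h1
    exact h1
  have hσH' : σ ∈ H := by
    have := H.inv_mem hσH
    rwa [inv_inv] at this
  have hall : ∀ τ : F' ≃ₐ[F] F', τ ∈ H := by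
    intro τ
    have h1 : τ ∈ Subgroup.zpowers σ := hK.generator_of_ne_one hσ τ
    exact (Subgroup.zpowers_le.mpr hσH') h1
  obtain ⟨τ, hτ⟩ := exists_gsmul_eq F hww'
  rw [← hτ]
  exact (hall τ w hw).symm

/-- From a solution `y` of `σ y = z * y` in `F'` to a solution which is an `S'`-unit. -/
theorem exists_unit_of_exists (hK : KummerPair F F' p) (S : Finset (Pl F))
    (hram : ∀ w : Pl F', below F w ∉ S → eOf F w = 1) (hkill : Kills (S : Set (Pl F)))
    (σ : F' ≃ₐ[F] F') (hσ : σ ≠ 1) (z : F'ˣ) (hz : z ∈ SU (above F F' (S : Set (Pl F))))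
    (y : F') (hy : y ≠ 0) (hσy : σ y = z * y) :
    ∃ u : F'ˣ, u ∈ SU (above F F' (S : Set (Pl F))) ∧ σ (u : F') = z * u := by
  classical
  have := hK.galois
  have hconst := ord_const_on_fibres hK (S : Set (Pl F)) σ hσ z hz y hy hσy
  -- descend the divisor of `y` outside `S'`
  have hch : ∀ v : Pl F, ∃ w : Pl F', below F w = v := fun v => exists_above F v
  choose c hc using hch
  let D0 : Dv F := Finsupp.onFinset ((div y).support.image (below F))
    (fun v => if v ∈ (S : Set (Pl F)) then 0 else ord (c v) y) (by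
      intro v hv
      have hvS : v ∉ (S : Set (Pl F)) := by
        intro h
        exact hv (if_pos h)
      rw [if_neg hvS] at hv
      rw [Finset.mem_image]
      exact ⟨c v, Finsupp.mem_support_iff.mpr hv, hc v⟩)
  have hD0 : ∀ w : Pl F', below F w ∉ (S : Set (Pl F)) → ord w y = D0 (below F w) := by
    intro w hw
    show ord w y = if below F w ∈ (S : Set (Pl F)) then 0 else ord (c (below F w)) y
    rw [if_neg hw]
    exact hconst w (c (below F w)) (hc _).symm hw
  obtain ⟨x, hx0, hx⟩ := hkill D0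
  have hx0' : algebraMap F F' x ≠ 0 := by simpa using hx0
  have hu0 : y / algebraMap F F' x ≠ 0 := div_ne_zero hy hx0'
  refine ⟨Units.mk0 _ hu0, ?_, ?_⟩
  · rw [mem_SU_iff]
    intro w hw
    have hw' : below F w ∉ (S : Set (Pl F)) := hw
    show ord w (y / algebraMap F F' x) = 0
    rw [ord_div w hy hx0', ord_algebraMap, hram w (by simpa using hw'), hx _ hw', hD0 w hw']
    simp
  · show σ (y / algebraMap F F' x) = z * (y / algebraMap F F' x)
    rw [map_div₀, AlgEquiv.commutes, hσy, mul_div_assoc]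

end A3H90

/-- **(A3-H90)**: the vanishing of `H^{-1}` of the `S'`-units: an `S'`-unit of norm one is
`σ u / u` for an `S'`-unit `u`. -/
theorem A3_hilbert90 (hK : KummerPair F F' p) (S : Finset (Pl F))
    (hram : ∀ w : Pl F', below F w ∉ S → eOf F w = 1) (hkill : Kills (S : Set (Pl F)))
    (σ : F' ≃ₐ[F] F') (hσ : σ ≠ 1) (z : F'ˣ) (hz : z ∈ SU (above F F' (S : Set (Pl F))))
    (hN : Algebra.norm F (z : F') = 1) :
    ∃ u : F'ˣ, u ∈ SU (above F F' (S : Set (Pl F))) ∧ σ (u : F') = z * u := by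
  have hprod : ∏ i ∈ Finset.range p, (σ ^ i) (z : F') = 1 := by
    rw [A3H90.prod_pow_eq_norm hK hσ, hN, map_one]
  obtain ⟨y, hy, hσy⟩ := A3H90.hilbert90_cyclic σ p hK.prime.pos (A3H90.pow_card hK σ)
    (A3H90.pow_inj hK hσ) (z : F') hprod
  exact A3H90.exists_unit_of_exists hK S hram hkill σ hσ z hz y hy hσy

end Fermat.Agent.S14x
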