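/-
S14, PART A: preliminaries for Theorem H (A3) on top of `S14_DivGal`: an elementary Hilbert 90
for cyclic extensions (any universe), descent of fibrewise constant valuations, counting of the
primes above a finite set in a Kummer pair, unit ranks, norms as products over the powers of a
generator, and a few bridges to Mathlib's ramification API.
-/
import Fermat.Agent.S14_DivGal

set_option autoImplicit false
set_option linter.style.haveILetI false

namespace Fermat.Agent.S14x.A3

open IsDedekindDomain NumberField IntermediateField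

/-- Hilbert 90 for a cyclic extension, in elementary form (any universe). -/
theorem hilbert90 {K L : Type*} [Field K] [Field L] [Algebra K L] (σ : L ≃ₐ[K] L) (n : ℕ)
    (hn : 0 < n) (hσn : σ ^ n = 1) (hinj : ∀ i < n, ∀ j < n, σ ^ i = σ ^ j → i = j)
    (z : L) (hz : ∏ i ∈ Finset.range n, (σ ^ i) z = 1) : ∃ b : L, b ≠ 0 ∧ z * σ b = b := by
  classical
  set a : ℕ → L := fun i => ∏ j ∈ Finset.range i, (σ ^ j) z with ha
  have ha0 : a 0 = 1 := by simp [ha]
  have han : a n = 1 := hz
  have hstep : ∀ i, z * σ (a i) = a (i + 1) := by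
    intro i
    simp only [ha]
    rw [map_prod, Finset.prod_range_succ', pow_zero, AlgEquiv.one_apply, mul_comm]
    congr 1
    refine Finset.prod_congr rfl (fun j _ => ?_)
    rw [pow_succ', AlgEquiv.mul_apply]
  have key : ∀ c : L, z * σ (∑ i ∈ Finset.range n, a i * (σ ^ i) c) =
      ∑ i ∈ Finset.range n, a i * (σ ^ i) c := by
    intro c
    rw [map_sum, Finset.mul_sum]
    have hterm : ∀ i ∈ Finset.range n, z * σ (a i * (σ ^ i) c) =
        a (i + 1) * (σ ^ (i + 1)) c := by
      intro i _
      rw [map_mul, ← mul_assoc, hstep, pow_succ', AlgEquiv.mul_apply]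
    rw [Finset.sum_congr rfl hterm]
    have h1 := Finset.sum_range_succ' (fun i => a i * (σ ^ i) c) n
    have h2 := Finset.sum_range_succ (fun i => a i * (σ ^ i) c) n
    rw [h2] at h1
    have e1 : a n * (σ ^ n) c = c := by rw [han, hσn]; simp
    have e2 : a 0 * (σ ^ 0) c = c := by rw [ha0]; simp
    rw [e1, e2] at h1
    exact (add_right_cancel h1).symm
  by_contra hcon
  push Not at hcon
  have hzero : ∀ c : L, ∑ i ∈ Finset.range n, a i * (σ ^ i) c = 0 := by
    intro c
    by_contra h
    exact hcon _ h (key c)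
  have hli := linearIndependent_monoidHom L L
  let v : Fin n → (L →* L) := fun i => ((σ ^ (i : ℕ) : L ≃ₐ[K] L) : L →* L)
  have hv : Function.Injective v := by
    intro i j hij
    apply Fin.ext
    apply hinj i i.2 j j.2
    ext x
    exact congrArg (fun f : L →* L => f x) hij
  have hli' := hli.comp v hv
  rw [Fintype.linearIndependent_iff] at hli'
  have := hli' (fun i => a i) (by
    funext c
    simp only [Function.comp_apply, Finset.sum_apply, Pi.smul_apply, smul_eq_mul, Pi.zero_apply]
    have := hzero c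
    rw [← Fin.sum_univ_eq_sum_range (fun i => a i * (σ ^ i) c) n] at this
    exact this) ⟨0, hn⟩
  rw [show a ((⟨0, hn⟩ : Fin n) : ℕ) = 1 from ha0] at this
  exact one_ne_zero this


section relative

variable (F : Type*) [Field F] [NumberField F] {F' : Type*} [Field F'] [NumberField F']
  [Algebra F F']

theorem below_eq_iff (w : Pl F') (v : Pl F) :
    below F w = v ↔ w.asIdeal.comap (algebraMap (𝓞 F) (𝓞 F')) = v.asIdeal := by
  rw [← below_asIdeal]
  exact HeightOneSpectrum.ext_iff

theorem eOf_eq (w : Pl F') : eOf F w = w.asIdeal.ramificationIdx (𝓞 F) := by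
  haveI := liesOver_below F w
  exact Ideal.ramificationIdx'_eq_ramificationIdx (below F w).asIdeal w.asIdeal (below F w).ne_bot

theorem valuation_algebraMap (w : Pl F') (x : F) :
    w.valuation F' (algebraMap F F' x) = (below F w).valuation F x ^ eOf F w := by
  haveI := liesOver_below F w
  exact (HeightOneSpectrum.valuation_liesOver F' (below F w) w x).symm

theorem gsmul_inv_gsmul (σ : F' ≃ₐ[F] F') (w : Pl F') : gsmul F σ⁻¹ (gsmul F σ w) = w := by
  rw [← gsmul_mul, inv_mul_cancel, gsmul_one]

theorem gsmul_gsmul_inv (σ : F' ≃ₐ[F] F') (w : Pl F') : gsmul F σ (gsmul F σ⁻¹ w) = w := by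
  rw [← gsmul_mul, mul_inv_cancel, gsmul_one]

theorem ord_apply (σ : F' ≃ₐ[F] F') (w : Pl F') (x : F') :
    ord w (σ x) = ord (gsmul F σ⁻¹ w) x := by
  rw [← ord_gsmul F σ (gsmul F σ⁻¹ w) x, gsmul_gsmul_inv]

/-- a function on the primes above the complement of `S` which is constant on fibres and has
finite support descends -/
theorem exists_descent (S : Set (Pl F)) (y : F')
    (h : ∀ w w' : Pl F', below F w = below F w' → below F w ∉ S → ord w y = ord w' y) :
    ∃ D0 : Dv F, ∀ w : Pl F', below F w ∉ S → ord w y = D0 (below F w) := by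
  classical
  choose wOf hwOf using fun v : Pl F => exists_above F (F' := F') v
  have hfin : {v : Pl F | (if v ∈ S then (0 : ℤ) else ord (wOf v) y) ≠ 0}.Finite := by
    refine ((ord_support_finite y).image (below F)).subset ?_
    intro v hv
    have hv' : (if v ∈ S then (0 : ℤ) else ord (wOf v) y) ≠ 0 := hv
    by_cases hvS : v ∈ S
    · simp [hvS] at hv'
    · rw [if_neg hvS] at hv'
      exact ⟨wOf v, hv', hwOf v⟩
  refine ⟨Finsupp.ofSupportFinite _ hfin, fun w hw => ?_⟩
  show ord w y = if below F w ∈ S then (0 : ℤ) else ord (wOf (below F w)) y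
  rw [if_neg hw]
  exact h w (wOf (below F w)) (hwOf _).symm hw

end relative

section kummer

variable {F : Type*} [Field F] [NumberField F] {F' : Type*} [Field F'] [NumberField F']
  [Algebra F F'] {p : ℕ}

theorem ncard_mul (hK : KummerPair F F' p) (w : Pl F') :
    {w' : Pl F' | below F w' = below F w}.ncard * (eOf F w * fOf F w) = p := by
  haveI := hK.galois
  rw [ncard_above_mul, hK.degree]

theorem isSplit_iff_of_below (hK : KummerPair F F' p) {v : Pl F} {w : Pl F'}
    (hw : below F w = v) : IsSplit F F' v ↔ eOf F w = 1 ∧ fOf F w = 1 := by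
  constructor
  · intro h
    exact h w hw
  · intro h w' hw'
    haveI := hK.galois
    rw [← eOf_eq_of_below_eq F (hw.trans hw'.symm), ← fOf_eq_of_below_eq F (hw.trans hw'.symm)]
    exact h

/-- nonsplit primes have exactly one prime above them -/
theorem ncard_above_of_not_isSplit (hK : KummerPair F F' p) {v : Pl F}
    (hv : ¬ IsSplit F F' v) : {w : Pl F' | below F w = v}.ncard = 1 := by
  obtain ⟨w, rfl⟩ := exists_above F (F' := F') v
  have h := (ncard_mul hK) w
  have hef : eOf F w * fOf F w = p := by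
    rcases hK.e_f_cases w with h1 | h1 | h1
    · exact absurd (((isSplit_iff_of_below hK) rfl).mpr h1) hv
    · rw [h1.1, h1.2, mul_one]
    · rw [h1.1, h1.2, one_mul]
  rw [hef] at h
  exact Nat.eq_of_mul_eq_mul_right hK.prime.pos (by rw [h, one_mul])

theorem isSplit_iff (hK : KummerPair F F' p) (v : Pl F) :
    IsSplit F F' v ↔ ∃ w1 w2 : Pl F', w1 ≠ w2 ∧ below F w1 = v ∧ below F w2 = v := by
  constructor
  · intro h
    have hc := hK.ncard_above_of_isSplit h
    have h2 : 1 < {w : Pl F' | below F w = v}.ncard := by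
      rw [hc]
      exact hK.prime.one_lt
    rw [Set.one_lt_ncard_iff (finite_above F v)] at h2
    obtain ⟨a, b, ha, hb, hab⟩ := h2
    exact ⟨a, b, hab, ha, hb⟩
  · rintro ⟨w1, w2, hne, h1, h2⟩
    by_contra hns
    exact hne (hK.unique_above_of_not_isSplit hns h1 h2)

/-- the primes above a finite set: `p` above each split prime, one above each nonsplit prime -/
theorem card_above (hK : KummerPair F F' p) (S : Finset (Pl F)) :
    (finite_above_finset F (F' := F') S).toFinset.card =
      p * {v : Pl F | v ∈ S ∧ IsSplit F F' v}.ncard +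
        {v : Pl F | v ∈ S ∧ ¬ IsSplit F F' v}.ncard := by
  classical
  have h1 : (finite_above_finset F (F' := F') S).toFinset =
      S.biUnion (fun v => (finite_above F (F' := F') v).toFinset) := by
    ext w
    simp [above]
  rw [h1, Finset.card_biUnion]
  · have h2 : ∀ v ∈ S, ((finite_above F (F' := F') v).toFinset).card =
        if IsSplit F F' v then p else 1 := by
      intro v _
      rw [← Set.ncard_eq_toFinset_card _ (finite_above F v)]
      split_ifs with hv
      · exact hK.ncard_above_of_isSplit hv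
      · exact (ncard_above_of_not_isSplit hK) hv
    rw [Finset.sum_congr rfl h2, Finset.sum_ite]
    have e1 : {v : Pl F | v ∈ S ∧ IsSplit F F' v} = ↑(S.filter (fun v => IsSplit F F' v)) := by
      ext v; simp
    have e2 : {v : Pl F | v ∈ S ∧ ¬ IsSplit F F' v} =
        ↑(S.filter (fun v => ¬ IsSplit F F' v)) := by
      ext v; simp
    rw [e1, e2, Set.ncard_coe_finset, Set.ncard_coe_finset]
    simp [mul_comm]
  · intro v _ v' _ hvv'
    rw [Function.onFun, Finset.disjoint_left]
    intro w hw hw'
    simp only [Set.Finite.mem_toFinset, Set.mem_ofPred_eq] at hw hw'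
    exact hvv' (hw.symm.trans hw')

theorem card_eq (_hK : KummerPair F F' p) (S : Finset (Pl F)) :
    S.card = {v : Pl F | v ∈ S ∧ IsSplit F F' v}.ncard +
        {v : Pl F | v ∈ S ∧ ¬ IsSplit F F' v}.ncard := by
  classical
  have e1 : {v : Pl F | v ∈ S ∧ IsSplit F F' v} = ↑(S.filter (fun v => IsSplit F F' v)) := by
    ext v; simp
  have e2 : {v : Pl F | v ∈ S ∧ ¬ IsSplit F F' v} =
      ↑(S.filter (fun v => ¬ IsSplit F F' v)) := by
    ext v; simp
  rw [e1, e2, Set.ncard_coe_finset, Set.ncard_coe_finset]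
  exact (Finset.card_filter_add_card_filter_not _).symm

omit [NumberField F] in
theorem nrRealPlaces_eq_zero' (hK : KummerPair F F' p) :
    NumberField.InfinitePlace.nrRealPlaces F' = 0 := by
  obtain ⟨ζ, hζ⟩ := hK.zeta
  have hp2 : 2 < p := lt_of_le_of_ne hK.prime.two_le (Ne.symm hK.odd)
  exact NumberField.InfinitePlace.IsPrimitiveRoot.nrRealPlaces_eq_zero_of_two_lt hp2
    (hζ.map_of_injective (algebraMap F F').injective)

theorem finrank_eq (hK : KummerPair F F' p) :
    Module.finrank ℚ F = 2 * (NumberField.Units.rank F + 1) := by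
  have h1 := NumberField.InfinitePlace.card_add_two_mul_card_eq_rank F
  have h2 := NumberField.InfinitePlace.card_eq_nrRealPlaces_add_nrComplexPlaces F
  rw [hK.nrRealPlaces_eq_zero] at h1 h2
  have h3 : 0 < Fintype.card (InfinitePlace F) := Fintype.card_pos
  unfold NumberField.Units.rank
  omega

theorem finrank_eq' (hK : KummerPair F F' p) :
    Module.finrank ℚ F' = 2 * (NumberField.Units.rank F' + 1) := by
  have h1 := NumberField.InfinitePlace.card_add_two_mul_card_eq_rank F'
  have h2 := NumberField.InfinitePlace.card_eq_nrRealPlaces_add_nrComplexPlaces F'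
  rw [(nrRealPlaces_eq_zero' hK)] at h1 h2
  have h3 : 0 < Fintype.card (InfinitePlace F') := Fintype.card_pos
  unfold NumberField.Units.rank
  omega

/-- unit ranks: `r(F') + 1 = p (r(F) + 1)` -/
theorem rank_succ (hK : KummerPair F F' p) :
    NumberField.Units.rank F' + 1 = p * (NumberField.Units.rank F + 1) := by
  have h1 := (finrank_eq hK)
  have h2 := (finrank_eq' hK)
  have h3 : Module.finrank ℚ F' = Module.finrank ℚ F * Module.finrank F F' :=
    (Module.finrank_mul_finrank ℚ F F').symm
  rw [hK.degree, h1, h2] at h3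
  have : 2 * (NumberField.Units.rank F' + 1) = 2 * (p * (NumberField.Units.rank F + 1)) := by
    rw [h3]; ring
  omega

theorem pow_eq_one (hK : KummerPair F F' p) (σ : F' ≃ₐ[F] F') : σ ^ p = 1 := by
  have := pow_card_eq_one' (G := F' ≃ₐ[F] F') (x := σ)
  rwa [hK.card_gal] at this

theorem orderOf_eq (hK : KummerPair F F' p) {σ : F' ≃ₐ[F] F'} (hσ : σ ≠ 1) :
    orderOf σ = p := by
  haveI : Fact p.Prime := ⟨hK.prime⟩
  exact orderOf_eq_prime ((pow_eq_one hK) σ) hσ

theorem pow_injective (hK : KummerPair F F' p) {σ : F' ≃ₐ[F] F'} (hσ : σ ≠ 1) :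
    ∀ i < p, ∀ j < p, σ ^ i = σ ^ j → i = j := by
  intro i hi j hj hij
  have := pow_injOn_Iio_orderOf (x := σ)
  rw [(orderOf_eq hK) hσ] at this
  exact this hi hj hij

theorem exists_pow_eq (hK : KummerPair F F' p) {σ : F' ≃ₐ[F] F'} (hσ : σ ≠ 1)
    (τ : F' ≃ₐ[F] F') : ∃ i < p, σ ^ i = τ := by
  classical
  haveI : Finite (F' ≃ₐ[F] F') := Nat.finite_of_card_ne_zero (hK.card_gal ▸ hK.prime.ne_zero)
  have h := hK.generator_of_ne_one hσ τ
  rw [mem_zpowers_iff_mem_range_orderOf, (orderOf_eq hK) hσ] at h
  obtain ⟨i, hi, hiτ⟩ := Finset.mem_image.mp h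
  exact ⟨i, Finset.mem_range.mp hi, hiτ⟩

/-- the norm is the product over the powers of a generator -/
theorem prod_pow_eq_norm (hK : KummerPair F F' p) {σ : F' ≃ₐ[F] F'} (hσ : σ ≠ 1)
    (z : F') : ∏ i ∈ Finset.range p, (σ ^ i) z = algebraMap F F' (Algebra.norm F z) := by
  haveI := hK.galois
  rw [Algebra.norm_eq_prod_automorphisms]
  refine Finset.prod_bij (fun i _ => σ ^ i) (fun _ _ => Finset.mem_univ _) ?_ ?_ (fun _ _ => rfl)
  · intro i hi j hj hij
    exact (pow_injective hK) hσ i (Finset.mem_range.mp hi) j (Finset.mem_range.mp hj) hij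
  · intro τ _
    obtain ⟨i, hi, hiτ⟩ := (exists_pow_eq hK) hσ τ
    exact ⟨i, Finset.mem_range.mpr hi, hiτ⟩

theorem single_mem_range_normDiv_of_isSplit {v : Pl F} (hv : IsSplit F F' v) :
    Finsupp.single v (1 : ℤ) ∈ (normDiv F (F' := F')).range := by
  obtain ⟨w, hw⟩ := exists_above F (F' := F') v
  refine ⟨Finsupp.single w 1, ?_⟩
  rw [normDiv_single, hw, (hv w hw).2]
  simp

theorem single_mem_range_normDiv (hK : KummerPair F F' p) (hunr : Unramified F F')
    (v : Pl F) : Finsupp.single v (p : ℤ) ∈ (normDiv F (F' := F')).range := by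
  obtain ⟨w, hw⟩ := exists_above F (F' := F') v
  rcases hK.e_f_cases w with h | h | h
  · refine ⟨Finsupp.single w p, ?_⟩
    rw [normDiv_single, hw, h.2]
    simp
  · exfalso
    have := hunr w
    rw [h.1] at this
    exact hK.prime.one_lt.ne' this
  · refine ⟨Finsupp.single w 1, ?_⟩
    rw [normDiv_single, hw, h.2]
    simp

end kummer

end Fermat.Agent.S14x.A3
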