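/-
S14, PART A, leaves (A6) "first inequality" and (A7) "the key contradiction (F+)".

Both are deduced from Theorem H (A3), taken here as the hypothesis `TheoremH`, and (for A7) from
the tame symbols (A5), taken as a hypothesis as well.  Everything else is the divisor API of
`S14_DivBasic` / `S14_DivGal`.
-/
import Fermat.Agent.S14_DivBasic
import Fermat.Agent.S14_DivGal

set_option autoImplicit false

namespace Fermat.Agent.S14x.A67

open IsDedekindDomain NumberField

universe u

/-! ### pure algebra -/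

/-- an enumeration of a finite set -/
theorem exists_enum {α : Type*} (s : Set α) (hs : s.Finite) :
    ∃ e : Fin s.ncard → α, Function.Injective e ∧ ∀ a, a ∈ s ↔ ∃ i, e i = a := by
  have : Finite ↥s := hs.to_subtype
  have hc : Nat.card ↥s = s.ncard := Nat.card_coe_set_eq s
  let e0 : ↥s ≃ Fin s.ncard := Finite.equivFinOfCardEq hc
  refine ⟨fun i => (e0.symm i : α), ?_, ?_⟩
  · intro i j hij
    exact e0.symm.injective (Subtype.ext hij)
  · intro a
    constructor
    · intro ha
      exact ⟨e0 ⟨a, ha⟩, by simp⟩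
    · rintro ⟨i, rfl⟩
      exact (e0.symm i).2

/-- A subgroup of `(ℤ/p)^n` of index at least `p` is killed by a nonzero functional. -/
theorem exists_functional {G : Type*} [CommGroup G] (p : ℕ) [Fact p.Prime] (n : ℕ)
    (Φ : G →* Multiplicative (Fin n → ZMod p)) (H : Subgroup G)
    (hcard : Nat.card (H.map Φ) * p ≤ p ^ n) :
    ∃ f : (Fin n → ZMod p) →ₗ[ZMod p] ZMod p, f ≠ 0 ∧
      ∀ u ∈ H, f (Multiplicative.toAdd (Φ u)) = 0 := by
  have hp : p.Prime := Fact.out
  let W : Submodule (ZMod p) (Fin n → ZMod p) :=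
    { carrier := {t | ∃ u ∈ H, Multiplicative.toAdd (Φ u) = t}
      add_mem' := by
        rintro a b ⟨u, hu, rfl⟩ ⟨u', hu', rfl⟩
        exact ⟨u * u', H.mul_mem hu hu', by simp⟩
      zero_mem' := ⟨1, H.one_mem, by simp⟩
      smul_mem' := by
        rintro c a ⟨u, hu, rfl⟩
        refine ⟨u ^ c.val, H.pow_mem hu _, ?_⟩
        rw [map_pow, toAdd_pow]
        rw [← Nat.cast_smul_eq_nsmul (ZMod p), ZMod.natCast_zmod_val] }
  have hW : W ≠ ⊤ := by
    intro hW
    have htop : H.map Φ = ⊤ := by
      rw [eq_top_iff]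
      intro x _
      have hx : Multiplicative.toAdd x ∈ W := by rw [hW]; trivial
      obtain ⟨u, hu, hux⟩ := hx
      exact ⟨u, hu, by simpa using congrArg Multiplicative.ofAdd hux⟩
    rw [htop] at hcard
    have h1 : Nat.card (⊤ : Subgroup (Multiplicative (Fin n → ZMod p))) = p ^ n := by
      rw [Subgroup.card_top, Nat.card_eq_fintype_card]
      simp [ZMod.card]
    rw [h1] at hcard
    have h2 : 0 < p ^ n := pow_pos hp.pos n
    have h3 : p ^ n * 2 ≤ p ^ n * p := Nat.mul_le_mul_left _ hp.two_le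
    omega
  obtain ⟨f, hf, hWf⟩ := Submodule.exists_le_ker_of_lt_top W (lt_top_iff_ne_top.mpr hW)
  refine ⟨f, hf, fun u hu => ?_⟩
  have : Multiplicative.toAdd (Φ u) ∈ W := ⟨u, hu, rfl⟩
  exact LinearMap.mem_ker.mp (hWf this)

/-! ### extending a character from `S`-supported divisors -/

section ext

variable {F : Type u} [Field F] [NumberField F]

/-- If `S` kills the class group and `g` kills the divisors of `S`-units, then `g` restricted to
`S`-supported divisors extends to a character of all divisors which kills principal divisors. -/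
theorem exists_extension {A : Type*} [AddCommGroup A] (S : Set (Pl F)) (hS : Kills S)
    (g : Dv F →+ A)
    (hg : ∀ u : F, u ≠ 0 → (∀ v, v ∉ S → ord v u = 0) → g (div u) = 0) :
    ∃ χ : Dv F →+ A, (∀ D : Dv F, (∀ v, v ∉ S → D v = 0) → χ D = g D) ∧
      ∀ x : F, x ≠ 0 → χ (div x) = 0 := by
  choose b hb0 hb using hS
  have key : ∀ (D : Dv F) (x : F), x ≠ 0 → (∀ v, v ∉ S → ord v x = D v) →
      g (D - div (b D)) = g (D - div x) := by
    intro D x hx0 hx
    have h1 : (D - div x) - (D - div (b D)) = div (b D * x⁻¹) := by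
      rw [divisor_mul (hb0 D) (inv_ne_zero hx0), divisor_inv]
      abel
    have h2 : g (div (b D * x⁻¹)) = 0 := by
      apply hg _ (mul_ne_zero (hb0 D) (inv_ne_zero hx0))
      intro v hv
      rw [ord_mul v (hb0 D) (inv_ne_zero hx0), ord_inv, hb D v hv, hx v hv]
      ring
    have h3 : g (D - div x) - g (D - div (b D)) = 0 := by
      rw [← map_sub, h1, h2]
    exact (sub_eq_zero.mp h3).symm
  refine ⟨AddMonoidHom.mk' (fun D => g (D - div (b D))) ?_, ?_, ?_⟩
  · intro D₁ D₂
    show g (D₁ + D₂ - div (b (D₁ + D₂))) = g (D₁ - div (b D₁)) + g (D₂ - div (b D₂))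
    rw [key (D₁ + D₂) (b D₁ * b D₂) (mul_ne_zero (hb0 _) (hb0 _)) ?_]
    · rw [divisor_mul (hb0 _) (hb0 _), ← map_add]
      congr 1
      abel
    · intro v hv
      rw [ord_mul v (hb0 _) (hb0 _), hb D₁ v hv, hb D₂ v hv]
      rfl
  · intro D hD
    show g (D - div (b D)) = g D
    rw [key D 1 one_ne_zero ?_, divisor_one, sub_zero]
    intro v hv
    rw [ord_one, hD v hv]
  · intro x hx
    show g (div x - div (b (div x))) = 0
    rw [key (div x) x hx (fun v _ => rfl), sub_self, map_zero]

end ext

/-! ### the relative situation -/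

section rel

variable {F : Type u} [Field F] [NumberField F] {F' : Type u} [Field F'] [NumberField F']
  [Algebra F F'] {p : ℕ}

/-- The conclusion of Theorem H (A3) for the finite set `S`. -/
def TheoremH (p : ℕ) (F F' : Type u) [Field F] [NumberField F] [Field F'] [NumberField F']
    [Algebra F F'] (S : Finset (Pl F)) : Prop :=
  ∀ (X : Type) [CommGroup X] [Finite X] (φ : ↥(SU (S : Set (Pl F))) →* X),
    (∀ (z : F'ˣ), z ∈ SU (above F F' (S : Set (Pl F))) →
       ∀ h : Units.map (Algebra.norm F : F' →* F) z ∈ SU (S : Set (Pl F)), φ ⟨_, h⟩ = 1) →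
    Nat.card φ.range * p ≤ p ^ {v : Pl F | v ∈ S ∧ ¬ IsSplit F F' v}.ncard

/-- the valuation character `u ↦ ord v u mod p` -/
noncomputable def ordChar (p : ℕ) (v : Pl F) : Fˣ →* Multiplicative (ZMod p) where
  toFun u := Multiplicative.ofAdd ((ord v (u : F) : ℤ) : ZMod p)
  map_one' := by simp [ord_one]
  map_mul' a b := by
    rw [Units.val_mul, ord_mul v a.ne_zero b.ne_zero, Int.cast_add, ofAdd_add]

theorem ordChar_apply (p : ℕ) (v : Pl F) (u : Fˣ) :
    ordChar p v u = Multiplicative.ofAdd ((ord v (u : F) : ℤ) : ZMod p) := rfl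

/-- at a nonsplit unramified prime of a Kummer pair, all residue degrees are `p` -/
theorem fOf_eq_of_not_isSplit (hK : KummerPair F F' p) {v : Pl F} (hns : ¬ IsSplit F F' v)
    (hunr : IsUnramAt F F' v) (w : Pl F') (hw : below F w = v) : fOf F w = p := by
  have hp : p.Prime := hK.prime
  have h1 : ¬ (eOf F w = 1 ∧ fOf F w = 1) := by
    intro h
    apply hns
    intro w' hw'
    have : w' = w := hK.unique_above_of_not_isSplit hns hw' hw
    rw [this]
    exact h
  have he : eOf F w = 1 := hunr w hw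
  rcases hK.e_f_cases w with h | h | h
  · exact absurd h h1
  · have := hp.one_lt
    omega
  · exact h.2

/-- norms of divisors are divisible by `p` at nonsplit unramified primes -/
theorem dvd_normDiv_apply (hK : KummerPair F F' p) {v : Pl F} (hns : ¬ IsSplit F F' v)
    (hunr : IsUnramAt F F' v) (D' : Dv F') : (p : ℤ) ∣ normDiv F D' v := by
  rw [normDiv_apply]
  apply Finset.dvd_sum
  intro w hw
  have hw' : below F w = v := by simpa using hw
  rw [fOf_eq_of_not_isSplit hK hns hunr w hw']
  exact dvd_mul_right _ _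

/-- the norm of a divisor supported above `S` is supported in `S` -/
theorem normDiv_apply_eq_zero (S : Set (Pl F)) (D' : Dv F')
    (hD' : ∀ w : Pl F', w ∉ above F F' S → D' w = 0) (v : Pl F) (hv : v ∉ S) :
    normDiv F D' v = 0 := by
  rw [normDiv_apply]
  apply Finset.sum_eq_zero
  intro w hw
  have hw' : below F w = v := by simpa using hw
  rw [hD' w (by show below F w ∉ S; rw [hw']; exact hv), mul_zero]

/-- **(A6), the first inequality**, from Theorem H. -/
theorem A6_of (hK : KummerPair F F' p) (hunr : Unramified F F')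
    (hH : ∀ S : Finset (Pl F), Kills (S : Set (Pl F)) → TheoremH p F F' S) :
    ∃ χ : Dv F →+ ZMod p, χ ≠ 0 ∧ (∀ x : F, x ≠ 0 → χ (div x) = 0) ∧
      ∀ D' : Dv F', χ (normDiv F D') = 0 := by
  classical
  have hp : p.Prime := hK.prime
  have : Fact p.Prime := ⟨hp⟩
  have : IsGalois F F' := hK.galois
  -- the set `S`
  obtain ⟨S1, -, hS1⟩ := exists_finset_kills (F := F) ∅
  obtain ⟨S2, -, hS2⟩ := exists_finset_kills (F := F') ∅
  let S : Finset (Pl F) := S1 ∪ S2.image (below F)
  have hS : Kills (S : Set (Pl F)) := hS1.mono (by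
    intro v hv
    simp only [S, Finset.coe_union, Set.mem_union]
    exact Or.inl hv)
  have hS' : Kills (above F F' (S : Set (Pl F))) := hS2.mono (by
    intro w hw
    show below F w ∈ (S : Set (Pl F))
    simp only [S, Finset.coe_union, Set.mem_union, Finset.coe_image]
    exact Or.inr ⟨w, hw, rfl⟩)
  -- enumeration of the nonsplit primes in `S`
  have hfin : {v : Pl F | v ∈ S ∧ ¬ IsSplit F F' v}.Finite :=
    S.finite_toSet.subset (fun v hv => hv.1)
  have henum := exists_enum _ hfin
  set n := {v : Pl F | v ∈ S ∧ ¬ IsSplit F F' v}.ncard with hn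
  obtain ⟨e, he_inj, he⟩ := henum
  have heS : ∀ i, e i ∈ S := fun i => ((he (e i)).mpr ⟨i, rfl⟩).1
  have hens : ∀ i, ¬ IsSplit F F' (e i) := fun i => ((he (e i)).mpr ⟨i, rfl⟩).2
  have heu : ∀ i, IsUnramAt F F' (e i) := fun i w _ => hunr w
  -- the valuation map on divisors
  let valD : Dv F →+ (Fin n → ZMod p) :=
    { toFun := fun D i => ((D (e i) : ℤ) : ZMod p)
      map_zero' := by
        funext i
        simp
      map_add' := by
        intro D₁ D₂
        funext i
        simp }
  have hvalD : ∀ D i, valD D i = ((D (e i) : ℤ) : ZMod p) := fun _ _ => rfl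
  -- the valuation map on units
  let Φ : Fˣ →* Multiplicative (Fin n → ZMod p) :=
    { toFun := fun u => Multiplicative.ofAdd (valD (div (u : F)))
      map_one' := by
        simp [divisor_one]
      map_mul' := by
        intro a b
        rw [Units.val_mul, divisor_mul a.ne_zero b.ne_zero, map_add, ofAdd_add] }
  have hΦ : ∀ u : Fˣ, Multiplicative.toAdd (Φ u) = valD (div (u : F)) := fun _ => rfl
  -- norms are killed
  have hvalN : ∀ D' : Dv F', valD (normDiv F D') = 0 := by
    intro D'
    funext i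
    rw [hvalD]
    exact (ZMod.intCast_zmod_eq_zero_iff_dvd _ _).mpr
      (dvd_normDiv_apply hK (hens i) (heu i) D')
  have hΦN : ∀ z : F'ˣ, Φ (Units.map (Algebra.norm F : F' →* F) z) = 1 := by
    intro z
    show Multiplicative.ofAdd (valD (div ((Units.map (Algebra.norm F : F' →* F) z : Fˣ) : F))) = 1
    rw [Units.coe_map]
    show Multiplicative.ofAdd (valD (div (Algebra.norm F (z : F')))) = 1
    rw [divisor_norm F z.ne_zero, hvalN]
    rfl
  -- Theorem H
  have hcard := hH S hS (Multiplicative (Fin n → ZMod p))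
    (Φ.comp (SU (S : Set (Pl F))).subtype) (fun z _ _ => hΦN z)
  have hrange : (Φ.comp (SU (S : Set (Pl F))).subtype).range = (SU (S : Set (Pl F))).map Φ := by
    rw [MonoidHom.range_comp, Subgroup.range_subtype]
  rw [hrange] at hcard
  obtain ⟨f, hf0, hf⟩ := exists_functional p n Φ (SU (S : Set (Pl F))) hcard
  -- the character
  let g : Dv F →+ ZMod p := f.toAddMonoidHom.comp valD
  have hg : ∀ D, g D = f (valD D) := fun _ => rfl
  obtain ⟨χ, hχ1, hχ2⟩ := exists_extension (S : Set (Pl F)) hS g (by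
    intro u hu0 hu
    have hmem : Units.mk0 u hu0 ∈ SU (S : Set (Pl F)) := mem_SU_iff.mpr hu
    have := hf _ hmem
    rw [hΦ] at this
    exact this)
  refine ⟨χ, ?_, hχ2, ?_⟩
  · -- `χ ≠ 0`
    have hft : ∃ t, f t ≠ 0 := by
      by_contra hcon
      apply hf0
      ext t
      simp only [not_exists, not_not] at hcon
      simp [hcon]
    obtain ⟨t, ht⟩ := hft
    let D : Dv F := ∑ i, Finsupp.single (e i) (((t i).val : ℕ) : ℤ)
    have hDv : ∀ v, D v = ∑ i, if e i = v then (((t i).val : ℕ) : ℤ) else 0 := by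
      intro v
      simp only [D, Finsupp.coe_finsetSum, Finset.sum_apply, Finsupp.single_apply]
    have hDsupp : ∀ v, v ∉ (S : Set (Pl F)) → D v = 0 := by
      intro v hv
      rw [hDv]
      apply Finset.sum_eq_zero
      intro i _
      rw [if_neg]
      rintro rfl
      exact hv (heS i)
    have hDval : valD D = t := by
      funext j
      rw [hvalD, hDv]
      rw [Finset.sum_eq_single j]
      · simp
      · intro i _ hij
        rw [if_neg]
        intro h
        exact hij (he_inj h)
      · intro h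
        exact absurd (Finset.mem_univ j) h
    intro hχ0
    apply ht
    rw [← hDval, ← hg, ← hχ1 D hDsupp, hχ0]
    rfl
  · -- norms
    intro D'
    obtain ⟨z, hz0, hz⟩ := hS' D'
    have hsplit : D' = div z + (D' - div z) := by abel
    have hE : ∀ w : Pl F', w ∉ above F F' (S : Set (Pl F)) → (D' - div z) w = 0 := by
      intro w hw
      simp [hz w hw]
    rw [hsplit, map_add, map_add, ← divisor_norm F hz0,
      hχ2 _ ((Algebra.norm_ne_zero_iff).mpr hz0), zero_add,
      hχ1 _ (normDiv_apply_eq_zero (S : Set (Pl F)) _ hE), hg, hvalN, map_zero]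

/-- **(A7), the key contradiction (F+)**, from Theorem H and the tame symbols (A5). -/
theorem A7_of (hK : KummerPair F F' p) (S T : Finset (Pl F)) (hST : Disjoint S T)
    (hkill : Kills (S : Set (Pl F))) (hsplit : ∀ v ∈ S, IsSplit F F' v)
    (honto : ∀ c : Pl F → Multiplicative (ZMod p),
      ∃ u : Fˣ, u ∈ SU (S : Set (Pl F)) ∧ ∀ v ∈ T, resCharU p v u = c v)
    (hH : ∀ ST : Finset (Pl F), (∀ v, v ∈ ST ↔ v ∈ S ∨ v ∈ T) → TheoremH p F F' ST)
    (htame : ∀ v ∈ T, ¬ IsUnramAt F F' v → ∃ s : Fˣ →* Multiplicative (ZMod p),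
      (∀ z : F'ˣ, s (Units.map (Algebra.norm F : F' →* F) z) = 1) ∧
      ∃ k : ℕ, ¬ p ∣ k ∧ ∀ u : Fˣ, u ∈ vUnits v → s u = (resCharU p v u) ^ k) : False := by
  classical
  have hp : p.Prime := hK.prime
  have : Fact p.Prime := ⟨hp⟩
  have : IsGalois F F' := hK.galois
  let ST : Finset (Pl F) := S ∪ T
  have hST_mem : ∀ v, v ∈ ST ↔ v ∈ S ∨ v ∈ T := fun v => Finset.mem_union
  have hHST := hH ST hST_mem
  have hfin : {v : Pl F | v ∈ ST ∧ ¬ IsSplit F F' v}.Finite :=
    ST.finite_toSet.subset (fun v hv => hv.1)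
  have henum := exists_enum _ hfin
  set n := {v : Pl F | v ∈ ST ∧ ¬ IsSplit F F' v}.ncard with hn
  obtain ⟨e, he_inj, he⟩ := henum
  have hens : ∀ i, ¬ IsSplit F F' (e i) := fun i => ((he (e i)).mpr ⟨i, rfl⟩).2
  have heT : ∀ i, e i ∈ T := by
    intro i
    rcases (hST_mem _).mp ((he (e i)).mpr ⟨i, rfl⟩).1 with h | h
    · exact absurd (hsplit _ h) (hens i)
    · exact h
  have heS : ∀ i, e i ∉ (S : Set (Pl F)) := fun i h => Finset.disjoint_left.mp hST h (heT i)
  -- the symbols
  have hsym : ∀ i, ∃ s : Fˣ →* Multiplicative (ZMod p),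
      (∀ z : F'ˣ, s (Units.map (Algebra.norm F : F' →* F) z) = 1) ∧
      ((IsUnramAt F F' (e i) ∧ s = ordChar p (e i)) ∨
       (¬ IsUnramAt F F' (e i) ∧ ∃ k : ℕ, ¬ p ∣ k ∧
          ∀ u : Fˣ, u ∈ vUnits (e i) → s u = (resCharU p (e i) u) ^ k)) := by
    intro i
    by_cases hu : IsUnramAt F F' (e i)
    · refine ⟨ordChar p (e i), ?_, Or.inl ⟨hu, rfl⟩⟩
      intro z
      rw [ordChar_apply, Units.coe_map]
      show Multiplicative.ofAdd ((ord (e i) (Algebra.norm F (z : F')) : ℤ) : ZMod p) = 1
      have h1 : ord (e i) (Algebra.norm F (z : F')) = normDiv F (div (z : F')) (e i) := by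
        rw [← divisor_norm F z.ne_zero]
        rfl
      rw [h1, (ZMod.intCast_zmod_eq_zero_iff_dvd _ _).mpr (dvd_normDiv_apply hK (hens i) hu _)]
      rfl
    · obtain ⟨s, hs1, hs2⟩ := htame (e i) (heT i) hu
      exact ⟨s, hs1, Or.inr ⟨hu, hs2⟩⟩
  choose s hsN hs using hsym
  let Φ : Fˣ →* (Fin n → Multiplicative (ZMod p)) := MonoidHom.pi s
  have hcard := hHST (Fin n → Multiplicative (ZMod p)) (Φ.comp (SU (ST : Set (Pl F))).subtype)
    (fun z _ _ => by funext i; exact hsN i z)
  -- surjectivity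
  have hsurj : Function.Surjective (Φ.comp (SU (ST : Set (Pl F))).subtype) := by
    intro t
    -- uniformizers
    have hπ : ∀ i, ∃ π : F, π ≠ 0 ∧ ∀ v, v ∉ (S : Set (Pl F)) →
        ord v π = (Finsupp.single (e i) (1 : ℤ) : Dv F) v := fun i => hkill _
    choose π hπ0 hπord using hπ
    let πu : Fin n → Fˣ := fun i => Units.mk0 (π i) (hπ0 i)
    have hπST : ∀ i, πu i ∈ SU (ST : Set (Pl F)) := by
      intro i
      rw [mem_SU_iff]
      intro v hv
      have hvS : v ∉ (S : Set (Pl F)) := fun h => hv ((hST_mem v).mpr (Or.inl h))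
      have hvT : v ∉ T := fun h => hv ((hST_mem v).mpr (Or.inr h))
      show ord v (π i) = 0
      rw [hπord i v hvS, Finsupp.single_apply, if_neg]
      rintro rfl
      exact hvT (heT i)
    have hπord' : ∀ i j, ord (e j) (π i) = if i = j then 1 else 0 := by
      intro i j
      rw [hπord i (e j) (heS j), Finsupp.single_apply]
      by_cases hij : i = j
      · subst hij
        simp
      · rw [if_neg hij, if_neg (fun h => hij (he_inj h))]
    let k : Fin n → ℕ := fun i =>
      if IsUnramAt F F' (e i) then (Multiplicative.toAdd (t i)).val else 0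
    let y : Fˣ := ∏ i, πu i ^ k i
    have hyST : y ∈ SU (ST : Set (Pl F)) :=
      Subgroup.prod_mem _ (fun i _ => Subgroup.pow_mem _ (hπST i) _)
    have hy_inert : ∀ j, IsUnramAt F F' (e j) → s j y = t j := by
      intro j hj
      rcases hs j with ⟨_, hsj⟩ | ⟨h, _⟩
      · rw [hsj]
        show ordChar p (e j) (∏ i, πu i ^ k i) = t j
        rw [map_prod, Finset.prod_eq_single j]
        · rw [map_pow, ordChar_apply]
          show Multiplicative.ofAdd ((ord (e j) (π j) : ℤ) : ZMod p) ^ k j = t j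
          rw [hπord' j j, if_pos rfl, ← ofAdd_nsmul]
          have hk : k j = (Multiplicative.toAdd (t j)).val := if_pos hj
          rw [hk]
          simp
        · intro i _ hij
          rw [map_pow, ordChar_apply]
          show Multiplicative.ofAdd ((ord (e j) (π i) : ℤ) : ZMod p) ^ k i = 1
          rw [hπord' i j, if_neg hij]
          simp
        · intro h
          exact absurd (Finset.mem_univ j) h
      · exact absurd hj h
    -- targets for the ramified coordinates
    have hρ : ∀ j, ∃ ρ : Multiplicative (ZMod p), ¬ IsUnramAt F F' (e j) →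
        ∀ u : Fˣ, u ∈ vUnits (e j) → resCharU p (e j) u = ρ → s j u = t j / s j y := by
      intro j
      rcases hs j with ⟨h, _⟩ | ⟨h, kk, hkk, hskk⟩
      · exact ⟨1, fun h' => absurd h h'⟩
      · have hunit : (kk : ZMod p) ≠ 0 := by
          rw [Ne, ZMod.natCast_eq_zero_iff]
          exact hkk
        refine ⟨Multiplicative.ofAdd ((kk : ZMod p)⁻¹ * Multiplicative.toAdd (t j / s j y)),
          fun _ u hu hres => ?_⟩
        rw [hskk u hu, hres, ← ofAdd_nsmul, nsmul_eq_mul, ← mul_assoc, mul_inv_cancel₀ hunit,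
          one_mul]
        rfl
    choose ρ hρ' using hρ
    let c : Pl F → Multiplicative (ZMod p) := fun v => if h : ∃ j, e j = v then ρ h.choose else 1
    have hc : ∀ j, c (e j) = ρ j := by
      intro j
      have h : ∃ j', e j' = e j := ⟨j, rfl⟩
      simp only [c, dif_pos h]
      rw [he_inj h.choose_spec]
    obtain ⟨u, huS, hures⟩ := honto c
    have huST : u ∈ SU (ST : Set (Pl F)) := by
      rw [mem_SU_iff] at huS ⊢
      intro v hv
      exact huS v (fun h => hv ((hST_mem v).mpr (Or.inl h)))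
    have huv : ∀ j, u ∈ vUnits (e j) := fun j => SU_le_vUnits (heS j) huS
    refine ⟨⟨y * u, Subgroup.mul_mem _ hyST huST⟩, ?_⟩
    funext j
    show s j (y * u) = t j
    rw [map_mul]
    by_cases hj : IsUnramAt F F' (e j)
    · rw [hy_inert j hj]
      rcases hs j with ⟨_, hsj⟩ | ⟨h, _⟩
      · rw [hsj, ordChar_apply, mem_vUnits_iff.mp (huv j)]
        simp
      · exact absurd hj h
    · rw [hρ' j hj u (huv j) (by rw [hures _ (heT j), hc])]
      simp
  have hrange : (Φ.comp (SU (ST : Set (Pl F))).subtype).range = ⊤ :=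
    MonoidHom.range_eq_top.mpr hsurj
  rw [hrange, Subgroup.card_top] at hcard
  have hX : Nat.card (Fin n → Multiplicative (ZMod p)) = p ^ n := by
    rw [Nat.card_eq_fintype_card]
    simp [ZMod.card]
  rw [hX] at hcard
  have hcard' : p ^ n * p ≤ p ^ n := hcard
  have h2 : 0 < p ^ n := pow_pos hp.pos n
  have h3 : p ^ n * 2 ≤ p ^ n * p := Nat.mul_le_mul_left _ hp.two_le
  omega

end rel

end Fermat.Agent.S14x.A67
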