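/-
S14, PART A, leaf (A3): Theorem H.

`(F, F')` a Kummer pair, `S` a finite set of primes of `F` containing the primes ramified in
`F'` and killing the class group of `F`.  Then every character of the `S`-units of `F` which
kills the norms of the `S'`-units of `F'` has an image of order at most `p ^ (ns - 1)`, where
`ns` is the number of primes of `S` which do not split in `F'`.

The proof applies the Herbrand-type index bound `S14_herbrand` to the module of `S'`-units of
`F'` with the action of a generator of the Galois group; the input is the `S`-unit theorem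
(`S14_A2`), the rank bookkeeping and the fixed points (`S14_A3Fix`) and Hilbert 90.
-/
import Fermat.Agent.S14_A2
import Fermat.Agent.S14_A3Fix
import Fermat.Agent.S14_A3Pre
import Fermat.Agent.S14_A3H90
import Fermat.Agent.S14_A67

set_option autoImplicit false
set_option linter.style.haveILetI false

namespace Fermat.Agent.S14x.A3

open IsDedekindDomain NumberField

/-! ### transport lemmas -/

theorem index_range_nsmul_congr {A B : Type*} [AddCommGroup A] [AddCommGroup B] (e : A ≃+ B)
    (p : ℕ) :
    (nsmulAddMonoidHom (α := B) p).range.index = (nsmulAddMonoidHom (α := A) p).range.index := by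
  rw [← AddSubgroup.index_map_equiv (nsmulAddMonoidHom (α := A) p).range e]
  congr 1
  ext b
  constructor
  · rintro ⟨b', rfl⟩
    refine ⟨p • e.symm b', ⟨e.symm b', rfl⟩, ?_⟩
    simp
  · rintro ⟨a, ⟨a', rfl⟩, rfl⟩
    refine ⟨e a', ?_⟩
    simp

theorem card_quot_pow_eq {G : Type*} [CommGroup G] (p : ℕ) :
    Nat.card (G ⧸ (powMonoidHom p : G →* G).range) =
      (nsmulAddMonoidHom (α := Additive G) p).range.index := by
  rw [← Subgroup.index_eq_card, ← Subgroup.index_toAddSubgroup]
  congr 1

theorem card_range_toAdditive {G X : Type*} [CommGroup G] [CommGroup X] {B : Type*}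
    [AddCommGroup B] (e : Additive G ≃+ B) (φ : G →* X) :
    Nat.card ((MonoidHom.toAdditive φ).comp (e.symm : B →+ Additive G)).range =
      Nat.card φ.range := by
  refine Nat.card_congr (Equiv.subtypeEquiv Additive.toMul ?_)
  intro a
  constructor
  · rintro ⟨b, rfl⟩
    exact ⟨Additive.toMul (e.symm b), rfl⟩
  · rintro ⟨g, hg⟩
    refine ⟨e (Additive.ofMul g), ?_⟩
    apply Additive.toMul.injective
    rw [← hg]
    simp

/-! ### the Galois action on the `S'`-units -/

section action

variable {F : Type*} [Field F] [NumberField F] {F' : Type*} [Field F'] [NumberField F']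
  [Algebra F F']

theorem SU_above_stable (S : Set (Pl F)) (τ : F' ≃ₐ[F] F') {u : F'ˣ}
    (hu : u ∈ SU (above F F' S)) :
    Units.map ((τ : F' ≃* F') : F' →* F') u ∈ SU (above F F' S) := by
  rw [mem_SU_iff] at hu ⊢
  intro w hw
  show ord w (τ (u : F')) = 0
  rw [ord_apply F τ w]
  apply hu
  show ¬ below F (gsmul F τ⁻¹ w) ∈ S
  rw [below_gsmul]
  exact hw

/-- the action of `τ` on the `S'`-units -/
noncomputable def actEquiv (S : Set (Pl F)) (τ : F' ≃ₐ[F] F') :
    ↥(SU (above F F' S)) ≃* ↥(SU (above F F' S)) where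
  toFun u := ⟨Units.map ((τ : F' ≃* F') : F' →* F') u, SU_above_stable S τ u.2⟩
  invFun u := ⟨Units.map (((τ⁻¹ : F' ≃ₐ[F] F') : F' ≃* F') : F' →* F') u,
    SU_above_stable S τ⁻¹ u.2⟩
  left_inv u := by
    apply Subtype.ext
    apply Units.ext
    show τ⁻¹ (τ ((u : F'ˣ) : F')) = ((u : F'ˣ) : F')
    rw [← AlgEquiv.mul_apply, inv_mul_cancel, AlgEquiv.one_apply]
  right_inv u := by
    apply Subtype.ext
    apply Units.ext
    show τ (τ⁻¹ ((u : F'ˣ) : F')) = ((u : F'ˣ) : F')
    rw [← AlgEquiv.mul_apply, mul_inv_cancel, AlgEquiv.one_apply]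
  map_mul' a b := by
    apply Subtype.ext
    apply Units.ext
    show τ (((a : F'ˣ) : F') * ((b : F'ˣ) : F')) = τ ((a : F'ˣ) : F') * τ ((b : F'ˣ) : F')
    rw [map_mul]

theorem coe_actEquiv (S : Set (Pl F)) (τ : F' ≃ₐ[F] F') (u : ↥(SU (above F F' S))) :
    (((actEquiv S τ u : ↥(SU (above F F' S))) : F'ˣ) : F') = τ ((u : F'ˣ) : F') := rfl

/-- the element of `F'` underlying an element of the additive group of `S'`-units -/
noncomputable def val (S : Set (Pl F)) (m : Additive ↥(SU (above F F' S))) : F' :=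
  (((Additive.toMul m : ↥(SU (above F F' S))) : F'ˣ) : F')

theorem val_injective (S : Set (Pl F)) : Function.Injective (val (F' := F') S) := by
  intro a b h
  apply Additive.toMul.injective
  apply Subtype.ext
  apply Units.ext
  exact h

theorem val_ne_zero (S : Set (Pl F)) (m : Additive ↥(SU (above F F' S))) : val S m ≠ 0 :=
  Units.ne_zero _

theorem val_zero (S : Set (Pl F)) : val (F' := F') S 0 = 1 := rfl

theorem val_add (S : Set (Pl F)) (a b : Additive ↥(SU (above F F' S))) :
    val S (a + b) = val S a * val S b := rfl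

theorem val_sum (S : Set (Pl F)) {ι : Type*} (s : Finset ι)
    (f : ι → Additive ↥(SU (above F F' S))) :
    val S (∑ i ∈ s, f i) = ∏ i ∈ s, val S (f i) := by
  classical
  induction s using Finset.induction_on with
  | empty => simp [val_zero]
  | insert a s ha ih => rw [Finset.sum_insert ha, Finset.prod_insert ha, val_add, ih]

theorem val_nsmul (S : Set (Pl F)) (n : ℕ) (a : Additive ↥(SU (above F F' S))) :
    val S (n • a) = val S a ^ n := by
  induction n with
  | zero => simp [val_zero]
  | succ k ih => rw [succ_nsmul, val_add, ih, pow_succ]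

theorem val_toAdditive_actEquiv (S : Set (Pl F)) (τ : F' ≃ₐ[F] F')
    (m : Additive ↥(SU (above F F' S))) :
    val S (MulEquiv.toAdditive (actEquiv S τ) m) = τ (val S m) := rfl

theorem val_iterate (S : Set (Pl F)) (τ : F' ≃ₐ[F] F') (i : ℕ)
    (m : Additive ↥(SU (above F F' S))) :
    val S ((⇑(MulEquiv.toAdditive (actEquiv S τ)))^[i] m) = (τ ^ i) (val S m) := by
  induction i with
  | zero => simp
  | succ k ih =>
    rw [Function.iterate_succ_apply', val_toAdditive_actEquiv, ih, pow_succ', AlgEquiv.mul_apply]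

end action

/-! ### Theorem H -/

section main

universe u

variable {F : Type u} [Field F] [NumberField F] {F' : Type u} [Field F'] [NumberField F']
  [Algebra F F'] {p : ℕ}

theorem incl_mem (S : Set (Pl F)) {x : Fˣ} (hx : x ∈ SU S) :
    Units.map (algebraMap F F' : F →* F') x ∈ SU (above F F' S) := by
  rw [mem_SU_iff] at hx ⊢
  intro w hw
  show ord w (algebraMap F F' (x : F)) = 0
  rw [ord_algebraMap, hx (below F w) hw, mul_zero]

/-- the inclusion of the `S`-units of `F` into the `S'`-units of `F'` -/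
noncomputable def inclHom (S : Set (Pl F)) : ↥(SU S) →* ↥(SU (above F F' S)) where
  toFun x := ⟨Units.map (algebraMap F F' : F →* F') x, incl_mem S x.2⟩
  map_one' := by
    apply Subtype.ext
    simp
  map_mul' a b := by
    apply Subtype.ext
    simp

theorem val_inclHom (S : Set (Pl F)) (x : Additive ↥(SU S)) :
    val S (MonoidHom.toAdditive (inclHom (F' := F') S) x) =
      algebraMap F F' (((Additive.toMul x : ↥(SU S)) : Fˣ) : F) := rfl

theorem A3_core (hK : KummerPair F F' p) (S : Finset (Pl F)) (T : Set (Pl F))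
    (hT : T = (S : Set (Pl F))) (σ : F' ≃ₐ[F] F') (hσ : σ ≠ 1)
    (hH90 : ∀ z : F'ˣ, z ∈ SU (above F F' T) → Algebra.norm F (z : F') = 1 →
      ∃ u : F'ˣ, u ∈ SU (above F F' T) ∧ σ (u : F') = z * u)
    (X : Type) [CommGroup X] [Finite X] (φ : ↥(SU T) →* X)
    (hφ : ∀ (z : F'ˣ), z ∈ SU (above F F' T) →
       ∀ h : Units.map (Algebra.norm F : F' →* F) z ∈ SU T, φ ⟨_, h⟩ = 1) :
    Nat.card φ.range * p ≤ p ^ {v : Pl F | v ∈ S ∧ ¬ IsSplit F F' v}.ncard := by
  classical
  haveI : Fact p.Prime := ⟨hK.prime⟩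
  haveI := hK.galois
  have hp := hK.prime
  have hA2card : Nat.card (↥(SU T) ⧸ (powMonoidHom p : ↥(SU T) →* _).range) =
      p ^ (S.card + NumberField.Units.rank F + 1) := by
    subst hT
    exact A2_card hp hK.zeta S
  have hA2rk : Module.finrank ℤ (Additive ↥(SU T)) = S.card + NumberField.Units.rank F := by
    subst hT
    exact A2_finrank S
  obtain ⟨S', hS', hrank⟩ : ∃ S' : Finset (Pl F'), (S' : Set (Pl F')) = above F F' T ∧
      S'.card + NumberField.Units.rank F' =
        S.card + NumberField.Units.rank F +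
          (p - 1) * ({v : Pl F | v ∈ S ∧ IsSplit F F' v}.ncard + NumberField.Units.rank F + 1) := by
    subst hT
    exact A3_rank hK S
  haveI hfinM : Module.Finite ℤ (Additive ↥(SU (above F F' T))) := hS' ▸ A2_finite S'
  have hrkM : Module.finrank ℤ (Additive ↥(SU (above F F' T))) =
      S'.card + NumberField.Units.rank F' := hS' ▸ A2_finrank S'
  set σM : Additive ↥(SU (above F F' T)) ≃+ Additive ↥(SU (above F F' T)) :=
    MulEquiv.toAdditive (actEquiv T σ) with hσM
  -- `σ ^ p = 1`
  have h1 : ∀ m, (⇑σM)^[p] m = m := by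
    intro m
    apply val_injective T
    rw [val_iterate, pow_eq_one hK σ, AlgEquiv.one_apply]
  -- the norm
  have hnorm : ∀ m, val T (∑ i ∈ Finset.range p, (⇑σM)^[i] m) =
      algebraMap F F' (Algebra.norm F (val T m)) := by
    intro m
    rw [val_sum, ← prod_pow_eq_norm hK hσ]
    exact Finset.prod_congr rfl (fun i _ => val_iterate T σ i m)
  -- Hilbert 90
  have h2 : ∀ m, (∑ i ∈ Finset.range p, (⇑σM)^[i] m) = 0 → ∃ u, σM u - u = m := by
    intro m hm
    have hN : Algebra.norm F (val T m) = 1 := by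
      have h := hnorm m
      rw [hm, val_zero] at h
      exact (algebraMap F F').injective (by rw [← h, map_one])
    obtain ⟨u, hu, hσu⟩ := hH90 (Additive.toMul m : ↥(SU (above F F' T))) (Additive.toMul m).2 hN
    refine ⟨Additive.ofMul ⟨u, hu⟩, ?_⟩
    rw [sub_eq_iff_eq_add]
    apply val_injective T
    rw [val_add]
    exact hσu
  -- the root of unity
  obtain ⟨ζ, hζ⟩ := hK.zeta
  have hζ0 : ζ ≠ 0 := hζ.ne_zero hp.ne_zero
  have hζS : Units.mk0 ζ hζ0 ∈ SU T := by
    rw [mem_SU_iff]
    intro v _
    have h : ord v (ζ ^ p) = 0 := by rw [hζ.pow_eq_one, ord_one]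
    rw [ord_pow] at h
    rcases mul_eq_zero.mp h with h | h
    · exact absurd (by exact_mod_cast h) hp.ne_zero
    · exact h
  set z : Additive ↥(SU (above F F' T)) :=
    MonoidHom.toAdditive (inclHom (F' := F') T) (Additive.ofMul ⟨Units.mk0 ζ hζ0, hζS⟩) with hz_def
  have hzval : val T z = algebraMap F F' ζ := rfl
  have hz : z ≠ 0 := by
    intro h
    have h' := congrArg (val T) h
    rw [hzval, val_zero] at h'
    have : ζ = 1 := (algebraMap F F').injective (by rw [h', map_one])
    exact hζ.ne_one hp.one_lt this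
  have hσz : σM z = z := by
    apply val_injective T
    rw [hσM, val_toAdditive_actEquiv, hzval]
    exact AlgEquiv.commutes σ ζ
  have hpz : p • z = 0 := by
    apply val_injective T
    rw [val_nsmul, hzval, val_zero, ← map_pow, hζ.pow_eq_one, map_one]
  -- the fixed points
  set ιA : Additive ↥(SU T) →+ Additive ↥(SU (above F F' T)) :=
    MonoidHom.toAdditive (inclHom (F' := F') T) with hιA
  have hιinj : Function.Injective ιA := by
    intro a b hab
    have h := congrArg (val T) hab
    rw [hιA, val_inclHom, val_inclHom] at h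
    apply Additive.toMul.injective
    apply Subtype.ext
    apply Units.ext
    exact (algebraMap F F').injective h
  set Fx : AddSubgroup (Additive ↥(SU (above F F' T))) := ιA.range with hFx_def
  have hFx : ∀ m, m ∈ Fx ↔ σM m = m := by
    intro m
    constructor
    · rintro ⟨x, rfl⟩
      apply val_injective T
      rw [hσM, val_toAdditive_actEquiv, hιA, val_inclHom]
      exact AlgEquiv.commutes σ _
    · intro hm
      have hfix : σ (val T m) = val T m := congrArg (val T) hm
      have hpow : ∀ k : ℕ, (σ ^ k) (val T m) = val T m := by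
        intro k
        induction k with
        | zero => simp
        | succ k ih => rw [pow_succ, AlgEquiv.mul_apply, hfix, ih]
      have hall : ∀ τ : F' ≃ₐ[F] F', τ (val T m) = val T m := by
        intro τ
        obtain ⟨i, _, rfl⟩ := exists_pow_eq hK hσ τ
        exact hpow i
      obtain ⟨y, hy, hyx⟩ := (A3_fixed T ((Additive.toMul m : ↥(SU (above F F' T))) : F'ˣ)).mp
        ⟨(Additive.toMul m).2, hall⟩
      refine ⟨Additive.ofMul ⟨y, hy⟩, ?_⟩
      apply val_injective T
      rw [hιA, val_inclHom]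
      exact congrArg (fun u : F'ˣ => (u : F')) hyx
  set e : Additive ↥(SU T) ≃+ Fx := AddMonoidHom.ofInjective hιinj with he
  have h5 : Nat.card (Fx ⧸ (nsmulAddMonoidHom p : Fx →+ Fx).range) ≤
      p ^ ((S.card + NumberField.Units.rank F) + 1) := by
    rw [← AddSubgroup.index_eq_card, index_range_nsmul_congr e p, ← card_quot_pow_eq, hA2card]
  have h6 : Module.finrank ℤ Fx + (p - 1) *
      ({v : Pl F | v ∈ S ∧ IsSplit F F' v}.ncard + NumberField.Units.rank F + 1) ≤
      Module.finrank ℤ (Additive ↥(SU (above F F' T))) := by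
    rw [hrkM, hrank, ← e.toIntLinearEquiv.finrank_eq, hA2rk]
  -- the character
  set φ' : Fx →+ Additive X :=
    (MonoidHom.toAdditive φ).comp (e.symm : Fx →+ Additive ↥(SU T)) with hφ'
  have h7 : ∀ (m : Additive ↥(SU (above F F' T)))
      (h : (∑ i ∈ Finset.range p, (⇑σM)^[i] m) ∈ Fx), φ' ⟨_, h⟩ = 0 := by
    intro m h
    have hh := h
    obtain ⟨x, hx⟩ := hh
    have hxval : algebraMap F F' (((Additive.toMul x : ↥(SU T)) : Fˣ) : F) =
        algebraMap F F' (Algebra.norm F (val T m)) := by
      rw [← hnorm m, ← hx, hιA, val_inclHom]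
    have hxeq : (((Additive.toMul x : ↥(SU T)) : Fˣ) : F) = Algebra.norm F (val T m) :=
      (algebraMap F F').injective hxval
    have hunit : Units.map (Algebra.norm F : F' →* F)
        ((Additive.toMul m : ↥(SU (above F F' T))) : F'ˣ) = ((Additive.toMul x : ↥(SU T)) : Fˣ) := by
      apply Units.ext
      exact hxeq.symm
    have hmem : Units.map (Algebra.norm F : F' →* F)
        ((Additive.toMul m : ↥(SU (above F F' T))) : F'ˣ) ∈ SU T := by
      rw [hunit]
      exact (Additive.toMul x).2
    have h1' := hφ _ (Additive.toMul m).2 hmem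
    have hex : e.symm ⟨_, h⟩ = x := by
      apply e.injective
      rw [AddEquiv.apply_symm_apply]
      apply Subtype.ext
      exact hx.symm
    show (MonoidHom.toAdditive φ) (e.symm ⟨_, h⟩) = 0
    rw [hex]
    show Additive.ofMul (φ (Additive.toMul x)) = 0
    have hx' : (Additive.toMul x : ↥(SU T)) = ⟨_, hmem⟩ := Subtype.ext hunit.symm
    rw [hx', h1']
    rfl
  have key := S14_herbrand p (Additive ↥(SU (above F F' T))) σM h1 h2 z hz hσz hpz Fx hFx
    (S.card + NumberField.Units.rank F)
    ({v : Pl F | v ∈ S ∧ IsSplit F F' v}.ncard + NumberField.Units.rank F + 1) h5 h6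
    (Additive X) φ' h7
  rw [hφ', card_range_toAdditive e φ] at key
  have hcard := card_eq hK S
  rw [hcard] at key
  set s := {v : Pl F | v ∈ S ∧ IsSplit F F' v}.ncard
  set n := {v : Pl F | v ∈ S ∧ ¬ IsSplit F F' v}.ncard
  set r := NumberField.Units.rank F
  have hpos : 0 < p ^ (s + r + 1) := pow_pos hp.pos _
  have e1 : p ^ (s + r + 1 + 1) = p * p ^ (s + r + 1) := by ring
  have e2 : p ^ (s + n + r + 1) = p ^ n * p ^ (s + r + 1) := by ring
  rw [e1, e2, ← mul_assoc] at key
  exact Nat.le_of_mul_le_mul_right key hpos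

/-- **Theorem H**, with Hilbert 90 for the `S'`-units as a hypothesis. -/
theorem A3_of (hK : KummerPair F F' p) (S : Finset (Pl F)) (σ : F' ≃ₐ[F] F') (hσ : σ ≠ 1)
    (hH90 : ∀ z : F'ˣ, z ∈ SU (above F F' (S : Set (Pl F))) → Algebra.norm F (z : F') = 1 →
      ∃ u : F'ˣ, u ∈ SU (above F F' (S : Set (Pl F))) ∧ σ (u : F') = z * u) :
    A67.TheoremH p F F' S :=
  fun X _ _ φ hφ => A3_core hK S _ rfl σ hσ hH90 X φ hφ

end main

end Fermat.Agent.S14x.A3

namespace Fermat.Agent.S14x

open IsDedekindDomain NumberField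

universe u

variable {F : Type u} [Field F] [NumberField F] {F' : Type u} [Field F'] [NumberField F']
  [Algebra F F'] {p : ℕ}

/-- **(A3) Theorem H**, in the form consumed by `S14_A67`. -/
theorem A3_theoremH' (hK : KummerPair F F' p) (S : Finset (Pl F))
    (hram : ∀ w : Pl F', below F w ∉ S → eOf F w = 1)
    (hkill : Kills (S : Set (Pl F))) : A67.TheoremH p F F' S := by
  obtain ⟨σ, hσ, -⟩ := hK.exists_generator
  exact A3.A3_of hK S σ hσ (fun z hz hN => A3_hilbert90 hK S hram hkill σ hσ z hz hN)

/-- **(A3) Theorem H**. -/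
theorem A3_theoremH (hK : KummerPair F F' p) (S : Finset (Pl F))
    (hram : ∀ w : Pl F', below F w ∉ S → eOf F w = 1)
    (hkill : Kills (S : Set (Pl F)))
    (X : Type) [CommGroup X] [Finite X] (φ : ↥(SU (S : Set (Pl F))) →* X)
    (hφ : ∀ (z : F'ˣ), z ∈ SU (above F F' (S : Set (Pl F))) →
       ∀ h : Units.map (Algebra.norm F : F' →* F) z ∈ SU (S : Set (Pl F)), φ ⟨_, h⟩ = 1) :
    Nat.card φ.range * p ≤ p ^ {v : Pl F | v ∈ S ∧ ¬ IsSplit F F' v}.ncard :=
  A3_theoremH' hK S hram hkill X φ hφ

end Fermat.Agent.S14x
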