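/-
S14 shared leaf (lead): existence of the `p`-th power residue character at a prime `v ∤ p`
(`exists_resChar`), so that `resChar p v` of `S14_Div` is a surjection of the `v`-units onto
`ℤ/p` whose kernel is the group of `p`-th power residues.
-/
import Fermat.Agent.S14_DivBasic

set_option autoImplicit false
set_option linter.style.haveILetI false

namespace Fermat.Agent.S14x

open IsDedekindDomain NumberField

variable {F : Type*} [Field F] [NumberField F] {p : ℕ}

/-- valuation `1` of an integer not in `v` -/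
theorem valuation_eq_one_of_notMem (v : Pl F) {a : 𝓞 F} (ha : a ∉ v.asIdeal) :
    v.valuation F (a : F) = 1 := by
  have h1 : v.valuation F (a : F) ≤ 1 :=
    vGe_zero_iff_valuation_le_one.mp (vGe_of_isIntegral v a.2)
  have h2 : ¬ v.valuation F (a : F) < 1 := fun h =>
    ha ((mem_asIdeal_iff v a).mpr (vGe_one_iff_valuation_lt_one.mpr h))
  exact le_antisymm h1 (not_lt.mp h2)

/-- the subgroup of `p`-th power residues among the `v`-units -/
def pthPowRes (p : ℕ) (v : Pl F) : Subgroup ↥(vUnits v) where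
  carrier := {u | IsPthPowerMod p v ((u : Fˣ) : F)}
  one_mem' := ⟨1, by simp [vGe]⟩
  mul_mem' := by
    rintro a b ⟨y, hy⟩ ⟨z, hz⟩
    refine ⟨y * z, ?_⟩
    have ha1 : v.valuation F ((a : Fˣ) : F) = 1 := a.2
    have hb1 : v.valuation F ((b : Fˣ) : F) = 1 := b.2
    have hy' := vGe_one_iff_valuation_lt_one.mp hy
    have hz' := vGe_one_iff_valuation_lt_one.mp hz
    -- v(z^p) = 1
    have hzp : v.valuation F (z ^ p) = 1 := by
      have : v.valuation F (((b : Fˣ) : F) - (((b : Fˣ) : F) - z ^ p)) = 1 := by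
        rw [Valuation.map_sub_eq_of_lt_left]
        · exact hb1
        · rw [hb1]; exact hz'
      simpa using this
    rw [vGe_one_iff_valuation_lt_one]
    have e : (((a * b : ↥(vUnits v)) : Fˣ) : F) - (y * z) ^ p =
        (((a : Fˣ) : F) - y ^ p) * z ^ p + ((a : Fˣ) : F) * (((b : Fˣ) : F) - z ^ p) := by
      push_cast; ring
    rw [e]
    have h1 : v.valuation F ((((a : Fˣ) : F) - y ^ p) * z ^ p) < 1 := by
      rw [map_mul, hzp, mul_one]; exact hy'
    have h2 : v.valuation F (((a : Fˣ) : F) * (((b : Fˣ) : F) - z ^ p)) < 1 := by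
      rw [map_mul, ha1, one_mul]; exact hz'
    exact lt_of_le_of_lt (Valuation.map_add_le_max' _ _ _) (max_lt h1 h2)
  inv_mem' := by
    rintro a ⟨y, hy⟩
    have ha1 : v.valuation F ((a : Fˣ) : F) = 1 := a.2
    have hy' := vGe_one_iff_valuation_lt_one.mp hy
    have hyp : v.valuation F (y ^ p) = 1 := by
      have : v.valuation F (((a : Fˣ) : F) - (((a : Fˣ) : F) - y ^ p)) = 1 := by
        rw [Valuation.map_sub_eq_of_lt_left]
        · exact ha1
        · rw [ha1]; exact hy'
      simpa using this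
    have hyp0 : y ^ p ≠ 0 := by
      intro h; rw [h] at hyp; simp at hyp
    have ha0 : ((a : Fˣ) : F) ≠ 0 := (a : Fˣ).ne_zero
    refine ⟨y⁻¹, ?_⟩
    rw [vGe_one_iff_valuation_lt_one]
    have e : (((a⁻¹ : ↥(vUnits v)) : Fˣ) : F) - y⁻¹ ^ p =
        (y ^ p - ((a : Fˣ) : F)) / (((a : Fˣ) : F) * y ^ p) := by
      push_cast
      rw [inv_pow]
      field_simp
    rw [e, map_div₀, map_mul, ha1, hyp, mul_one, div_one, Valuation.map_sub_swap]
    exact hy'

theorem mem_pthPowRes (v : Pl F) (u : ↥(vUnits v)) :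
    u ∈ pthPowRes p v ↔ IsPthPowerMod p v ((u : Fˣ) : F) := Iff.rfl

/-- the index of the `p`-th power residues is `p` -/
theorem card_quotient_pthPowRes (hp : p.Prime) (hζ : ∃ ζ : F, IsPrimitiveRoot ζ p) (v : Pl F)
    (hv : ord v (p : F) = 0) : Nat.card (↥(vUnits v) ⧸ pthPowRes p v) = p := by
  classical
  have hp0 : 0 < p := hp.pos
  haveI : NeZero p := ⟨hp0.ne'⟩
  haveI : Fact p.Prime := ⟨hp⟩
  haveI hmax : v.asIdeal.IsMaximal := v.isMaximal
  letI : Field (𝓞 F ⧸ v.asIdeal) := Ideal.Quotient.field v.asIdeal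
  haveI : Finite (𝓞 F ⧸ v.asIdeal) := Ideal.finiteQuotientOfFreeOfNeBot v.asIdeal v.ne_bot
  letI : Fintype (𝓞 F ⧸ v.asIdeal) := Fintype.ofFinite _
  let π : 𝓞 F →+* (𝓞 F ⧸ v.asIdeal) := Ideal.Quotient.mk v.asIdeal
  -- p is a unit mod v
  have hpv : (p : 𝓞 F) ∉ v.asIdeal := by
    intro h
    have h1 := (mem_asIdeal_iff v (p : 𝓞 F)).mp h
    rcases vGe_iff.mp h1 with h0 | h0
    · have : (p : F) = 0 := by exact_mod_cast h0
      exact hp0.ne' (by exact_mod_cast this)
    · have : ord v (p : F) = ord v (((p : 𝓞 F) : 𝓞 F) : F) := by simp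
      rw [← this, hv] at h0
      omega
  have hπp : π (p : 𝓞 F) ≠ 0 := fun h => hpv (Ideal.Quotient.eq_zero_iff_mem.mp h)
  -- p ∣ |k| - 1
  obtain ⟨ζ, hζ'⟩ := hζ
  have hcop : (Ideal.absNorm v.asIdeal).Coprime p := by
    rw [Nat.coprime_comm, Nat.Prime.coprime_iff_not_dvd hp]
    intro hdvd
    apply hπp
    have hcard : (Nat.card (𝓞 F ⧸ v.asIdeal) : 𝓞 F ⧸ v.asIdeal) = 0 := by
      rw [Nat.card_eq_fintype_card]; exact Nat.cast_card_eq_zero _
    have hN : Ideal.absNorm v.asIdeal = Nat.card (𝓞 F ⧸ v.asIdeal) := by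
      rw [Ideal.absNorm_apply]; rfl
    -- char k = ℓ, |k| = ℓ^f, p ∣ ℓ^f → p = ℓ
    obtain ⟨ℓ, hℓ⟩ := CharP.exists (𝓞 F ⧸ v.asIdeal)
    haveI := hℓ
    obtain ⟨⟨n, hn0⟩, hℓp, hcardk⟩ := FiniteField.card (𝓞 F ⧸ v.asIdeal) ℓ
    rw [hN, Nat.card_eq_fintype_card, hcardk] at hdvd
    have hpl : p = ℓ := (Nat.prime_dvd_prime_iff_eq hp hℓp).mp (hp.dvd_of_dvd_pow hdvd)
    rw [map_natCast, hpl]
    exact CharP.cast_eq_zero _ ℓ
  have hN1 : Ideal.absNorm v.asIdeal ≠ 1 := by
    intro h
    rw [Ideal.absNorm_eq_one_iff] at h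
    exact hmax.ne_top h
  have hζO : IsPrimitiveRoot hζ'.toInteger p := hζ'.toInteger_isPrimitiveRoot
  have hπζ : IsPrimitiveRoot (π hζ'.toInteger) p := hζO.idealQuotient_mk hN1 hcop
  have hdvd : p ∣ Fintype.card (𝓞 F ⧸ v.asIdeal) - 1 := by
    apply hπζ.dvd_of_pow_eq_one
    exact FiniteField.pow_card_sub_one_eq_one _ (hπζ.ne_zero hp0.ne')
  obtain ⟨m, hm⟩ := hdvd
  have hcard2 : 2 ≤ Fintype.card (𝓞 F ⧸ v.asIdeal) := Fintype.one_lt_card
  have hm0 : 0 < m := by
    rcases Nat.eq_zero_or_pos m with h | h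
    · subst h; omega
    · exact h
  -- generator of k^× and a lift
  obtain ⟨γ, hγ⟩ := IsCyclic.exists_generator (α := (𝓞 F ⧸ v.asIdeal)ˣ)
  have hγord : orderOf γ = Fintype.card (𝓞 F ⧸ v.asIdeal) - 1 := by
    rw [orderOf_eq_card_of_forall_mem_zpowers hγ, Nat.card_eq_fintype_card, Fintype.card_units]
  obtain ⟨g0, hg0⟩ := Ideal.Quotient.mk_surjective (I := v.asIdeal) (γ : 𝓞 F ⧸ v.asIdeal)
  have hg0v : g0 ∉ v.asIdeal := by
    intro h
    have : (γ : 𝓞 F ⧸ v.asIdeal) = 0 := by rw [← hg0]; exact Ideal.Quotient.eq_zero_iff_mem.mpr h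
    exact γ.ne_zero this
  have hg0val : v.valuation F (g0 : F) = 1 := valuation_eq_one_of_notMem v hg0v
  have hg0ne : (g0 : F) ≠ 0 := by
    intro h; rw [h] at hg0val; simp at hg0val
  let g : ↥(vUnits v) := ⟨Units.mk0 (g0 : F) hg0ne, hg0val⟩
  let gq : ↥(vUnits v) ⧸ pthPowRes p v := QuotientGroup.mk g
  -- (F2) every class is a power of g
  have hgen : ∀ x : ↥(vUnits v) ⧸ pthPowRes p v, x ∈ Subgroup.zpowers gq := by
    intro x
    induction x using QuotientGroup.induction_on with
    | H u =>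
      have hu1 : v.valuation F ((u : Fˣ) : F) = 1 := u.2
      obtain ⟨a, ha⟩ := exists_integer_approx v
        (vGe_zero_iff_valuation_le_one.mpr hu1.le : vGe v 0 ((u : Fˣ) : F)) 1
      have ha' := vGe_one_iff_valuation_lt_one.mp (by simpa using ha)
      have hav : a ∉ v.asIdeal := by
        intro h
        have h2 := vGe_one_iff_valuation_lt_one.mp ((mem_asIdeal_iff v a).mp h)
        have : v.valuation F (((u : Fˣ) : F) - (((u : Fˣ) : F) - (a : F))) = 1 := by
          rw [Valuation.map_sub_eq_of_lt_left]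
          · exact hu1
          · rw [hu1]; exact ha'
        rw [sub_sub_cancel] at this
        rw [this] at h2
        exact lt_irrefl _ h2
      have hπa : π a ≠ 0 := fun h => hav (Ideal.Quotient.eq_zero_iff_mem.mp h)
      obtain ⟨n, hn⟩ : ∃ n : ℕ, γ ^ n = Units.mk0 (π a) hπa := by
        have := hγ (Units.mk0 (π a) hπa)
        rw [Subgroup.mem_zpowers_iff] at this
        obtain ⟨z, hz⟩ := this
        refine ⟨(z % (orderOf γ : ℤ)).toNat, ?_⟩
        have hpos : (0 : ℤ) < orderOf γ := by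
          have := orderOf_pos γ; exact_mod_cast this
        rw [← zpow_natCast, Int.toNat_of_nonneg (Int.emod_nonneg _ hpos.ne'), zpow_mod_orderOf, hz]
      have hn' : π (g0 ^ n) = π a := by
        have := congrArg (Units.val) hn
        rw [Units.val_pow_eq_pow_val, Units.val_mk0, ← hg0] at this
        rw [map_pow]; exact this
      have hmem : a - g0 ^ n ∈ v.asIdeal := by
        rw [← Ideal.Quotient.eq_zero_iff_mem, map_sub]
        exact sub_eq_zero.mpr hn'.symm
      have h3 := vGe_one_iff_valuation_lt_one.mp ((mem_asIdeal_iff v _).mp hmem)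
      -- v(u - g^n) < 1
      have h4 : v.valuation F (((u : Fˣ) : F) - (g0 : F) ^ n) < 1 := by
        have e : ((u : Fˣ) : F) - (g0 : F) ^ n =
            (((u : Fˣ) : F) - (a : F)) + (((a - g0 ^ n : 𝓞 F) : 𝓞 F) : F) := by
          push_cast; ring
        rw [e]
        exact lt_of_le_of_lt (Valuation.map_add_le_max' _ _ _) (max_lt ha' h3)
      refine Subgroup.mem_zpowers_iff.mpr ⟨(n : ℤ), ?_⟩
      rw [zpow_natCast]
      show (QuotientGroup.mk g : ↥(vUnits v) ⧸ pthPowRes p v) ^ n = QuotientGroup.mk u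
      rw [← QuotientGroup.mk_pow, QuotientGroup.eq]
      show (g ^ n)⁻¹ * u ∈ pthPowRes p v
      refine ⟨1, ?_⟩
      rw [vGe_one_iff_valuation_lt_one, one_pow]
      have e : ((((g ^ n)⁻¹ * u : ↥(vUnits v)) : Fˣ) : F) - 1 =
          (((u : Fˣ) : F) - (g0 : F) ^ n) / (g0 : F) ^ n := by
        have hgn : (g0 : F) ^ n ≠ 0 := pow_ne_zero _ hg0ne
        push_cast
        simp only [g, Units.val_mk0]
        field_simp
      rw [e, map_div₀, map_pow, hg0val, one_pow, div_one]
      exact h4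
  -- (F4) g^p = 1 in the quotient
  have hgp : gq ^ p = 1 := by
    show (QuotientGroup.mk g : ↥(vUnits v) ⧸ pthPowRes p v) ^ p = 1
    rw [← QuotientGroup.mk_pow, QuotientGroup.eq_one_iff]
    refine ⟨(g0 : F), ?_⟩
    have : ((((g ^ p : ↥(vUnits v)) : Fˣ) : F)) - (g0 : F) ^ p = 0 := by
      push_cast; simp [g]
    rw [this]; exact vGe_zero v 1
  -- (F3) g is not a p-th power residue
  have hg1 : gq ≠ 1 := by
    intro h
    have h' : g ∈ pthPowRes p v := (QuotientGroup.eq_one_iff g).mp h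
    obtain ⟨y, hy⟩ := h'
    have hy' := vGe_one_iff_valuation_lt_one.mp hy
    have hgval : v.valuation F ((g : Fˣ) : F) = 1 := g.2
    have hyp : v.valuation F (y ^ p) = 1 := by
      have : v.valuation F (((g : Fˣ) : F) - (((g : Fˣ) : F) - y ^ p)) = 1 := by
        rw [Valuation.map_sub_eq_of_lt_left]
        · exact hgval
        · rw [hgval]; exact hy'
      simpa using this
    have hyp0 : y ^ p ≠ 0 := by
      intro h0; rw [h0] at hyp; simp at hyp
    have hy0 : y ≠ 0 := fun h0 => hyp0 (by rw [h0, zero_pow hp0.ne'])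
    have hy1 : v.valuation F y = 1 := by
      rw [← ord_eq_zero_iff_valuation_eq_one v hy0]
      have h1 := (ord_eq_zero_iff_valuation_eq_one v hyp0).mpr hyp
      rw [ord_pow] at h1
      rcases mul_eq_zero.mp h1 with h2 | h2
      · exact absurd (by exact_mod_cast h2 : p = 0) hp0.ne'
      · exact h2
    obtain ⟨b, hb⟩ := exists_integer_approx v
      (vGe_zero_iff_valuation_le_one.mpr hy1.le : vGe v 0 y) 1
    have hb' : v.valuation F (y - (b : F)) < 1 :=
      vGe_one_iff_valuation_lt_one.mp (by simpa using hb)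
    have hb1 : v.valuation F (b : F) ≤ 1 :=
      vGe_zero_iff_valuation_le_one.mp (vGe_of_isIntegral v b.2)
    have hpow : ∀ n : ℕ, v.valuation F (y ^ n - (b : F) ^ n) < 1 := by
      intro n
      induction n with
      | zero => simp
      | succ n ih =>
        have e : y ^ (n + 1) - (b : F) ^ (n + 1) =
            y * (y ^ n - (b : F) ^ n) + (b : F) ^ n * (y - (b : F)) := by ring
        rw [e]
        have h1 : v.valuation F (y * (y ^ n - (b : F) ^ n)) < 1 := by
          rw [map_mul, hy1, one_mul]; exact ih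
        have h2 : v.valuation F ((b : F) ^ n * (y - (b : F))) < 1 := by
          rw [map_mul, map_pow]
          calc v.valuation F (b : F) ^ n * v.valuation F (y - (b : F))
              ≤ 1 * v.valuation F (y - (b : F)) :=
                mul_le_mul' (pow_le_one' hb1 n) le_rfl
            _ = v.valuation F (y - (b : F)) := one_mul _
            _ < 1 := hb'
        exact lt_of_le_of_lt (Valuation.map_add_le_max' _ _ _) (max_lt h1 h2)
    have h5 : v.valuation F (((g0 - b ^ p : 𝓞 F) : 𝓞 F) : F) < 1 := by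
      have e : (((g0 - b ^ p : 𝓞 F) : 𝓞 F) : F) =
          (((g : Fˣ) : F) - y ^ p) + (y ^ p - (b : F) ^ p) := by
        push_cast; simp [g]
      rw [e]
      exact lt_of_le_of_lt (Valuation.map_add_le_max' _ _ _) (max_lt hy' (hpow p))
    have hmem : g0 - b ^ p ∈ v.asIdeal :=
      (mem_asIdeal_iff v _).mpr (vGe_one_iff_valuation_lt_one.mpr h5)
    have hπ : π g0 = π b ^ p := by
      have := Ideal.Quotient.eq_zero_iff_mem.mpr hmem
      rw [map_sub, map_pow] at this
      exact sub_eq_zero.mp this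
    have hβ0 : π b ≠ 0 := by
      intro h0
      have : (γ : 𝓞 F ⧸ v.asIdeal) = 0 := by
        rw [← hg0]
        show π g0 = 0
        rw [hπ, h0, zero_pow hp0.ne']
      exact γ.ne_zero this
    have hγm : γ ^ m = 1 := by
      apply Units.ext
      rw [Units.val_pow_eq_pow_val, Units.val_one, ← hg0]
      show π g0 ^ m = 1
      rw [hπ, ← pow_mul, ← hm]
      exact FiniteField.pow_card_sub_one_eq_one _ hβ0
    have h6 := orderOf_dvd_of_pow_eq_one hγm
    rw [hγord, hm] at h6
    have h7 := Nat.le_of_dvd hm0 h6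
    have hp2 := hp.two_le
    nlinarith
  have hord : orderOf gq = p := orderOf_eq_prime hgp hg1
  rw [← orderOf_eq_card_of_forall_mem_zpowers hgen, hord]

/-- (L3) the `p`-th power residue character exists. -/
theorem exists_resChar (hp : p.Prime) (hζ : ∃ ζ : F, IsPrimitiveRoot ζ p) (v : Pl F)
    (hv : ord v (p : F) = 0) :
    ∃ φ : ↥(vUnits v) →* Multiplicative (ZMod p), Function.Surjective φ ∧
      ∀ u, φ u = 1 ↔ IsPthPowerMod p v ((u : Fˣ) : F) := by
  haveI : Fact p.Prime := ⟨hp⟩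
  haveI : NeZero p := ⟨hp.ne_zero⟩
  have hcard := card_quotient_pthPowRes hp hζ v hv
  have hcard' : Nat.card (Multiplicative (ZMod p)) = p := by
    rw [Nat.card_eq_fintype_card, Fintype.card_multiplicative, ZMod.card]
  haveI : (pthPowRes p v).Normal := inferInstance
  let e : (↥(vUnits v) ⧸ pthPowRes p v) ≃* Multiplicative (ZMod p) :=
    mulEquivOfPrimeCardEq hcard hcard'
  refine ⟨e.toMonoidHom.comp (QuotientGroup.mk' (pthPowRes p v)), ?_, ?_⟩
  · exact e.surjective.comp (QuotientGroup.mk'_surjective _)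
  · intro u
    rw [MonoidHom.comp_apply, MulEquiv.coe_toMonoidHom, MulEquiv.map_eq_one_iff,
      QuotientGroup.mk'_apply, QuotientGroup.eq_one_iff]
    exact Iff.rfl

theorem resChar_surjective (hp : p.Prime) (hζ : ∃ ζ : F, IsPrimitiveRoot ζ p) (v : Pl F)
    (hv : ord v (p : F) = 0) : Function.Surjective (resChar p v) := by
  have h := exists_resChar hp hζ v hv
  unfold resChar
  rw [dif_pos h]
  exact h.choose_spec.1

theorem resChar_eq_one_iff (hp : p.Prime) (hζ : ∃ ζ : F, IsPrimitiveRoot ζ p) (v : Pl F)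
    (hv : ord v (p : F) = 0) (u : ↥(vUnits v)) :
    resChar p v u = 1 ↔ IsPthPowerMod p v ((u : Fˣ) : F) := by
  have h := exists_resChar hp hζ v hv
  unfold resChar
  rw [dif_pos h]
  exact h.choose_spec.2 u

end Fermat.Agent.S14x
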