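/-
S14 (ExtVanishingCts), Part A, leaf A4: local Kummer criteria, in pure Mathlib terms.

Toolkit for a Galois extension `F'/F` of number fields: primes above a prime, the Galois
action on primes and valuations, `g * (e * f) = [F' : F]`, residue fields when `f = 1`;
then the splitting / ramification criteria for `F' ∋ θ`, `θ ^ p = x ∈ F`.
The statements in the shapes of `S14_Div` are in `S14_A4`.
-/
import Mathlib

set_option autoImplicit false

open NumberField IsDedekindDomain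

namespace Fermat.Agent.S14x.Kummer

variable {F F' : Type*} [Field F] [Field F'] [NumberField F] [NumberField F'] [Algebra F F']

/-- `w` lies above `v`. -/
def Above (v : HeightOneSpectrum (𝓞 F)) (w : HeightOneSpectrum (𝓞 F')) : Prop :=
  w.asIdeal.comap (algebraMap (𝓞 F) (𝓞 F')) = v.asIdeal

omit [NumberField F] [NumberField F'] in
theorem Above.liesOver {v : HeightOneSpectrum (𝓞 F)} {w : HeightOneSpectrum (𝓞 F')}
    (h : Above v w) : w.asIdeal.LiesOver v.asIdeal := ⟨h.symm⟩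

theorem val_algebraMap {v : HeightOneSpectrum (𝓞 F)} {w : HeightOneSpectrum (𝓞 F')}
    (h : Above v w) (a : F) :
    w.valuation F' (algebraMap F F' a) =
      v.valuation F a ^ (w.asIdeal.ramificationIdx (𝓞 F)) := by
  have := h.liesOver
  rw [← HeightOneSpectrum.valuation_liesOver F' v w a,
    Ideal.ramificationIdx'_eq_ramificationIdx v.asIdeal w.asIdeal v.ne_bot]

theorem ramificationIdx_pos (w : HeightOneSpectrum (𝓞 F')) :
    0 < w.asIdeal.ramificationIdx (𝓞 F) :=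
  Ideal.ramificationIdx_pos _ _

/-- the ring automorphism of `𝓞 F'` induced by `σ`. -/
noncomputable def galO (σ : F' ≃ₐ[F] F') : 𝓞 F' ≃+* 𝓞 F' :=
  MulSemiringAction.toRingEquiv (F' ≃ₐ[F] F') (𝓞 F') σ

theorem galO_coe (σ : F' ≃ₐ[F] F') (a : 𝓞 F') : ((galO σ a : 𝓞 F') : F') = σ (a : F') := rfl

/-- the translate `σ⁻¹ w = {a | σ a ∈ w}`. -/
noncomputable def gal (σ : F' ≃ₐ[F] F') (w : HeightOneSpectrum (𝓞 F')) :
    HeightOneSpectrum (𝓞 F') :=
  HeightOneSpectrum.comap (galO σ : 𝓞 F' →+* 𝓞 F') (galO σ).surjective w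

theorem mem_gal (σ : F' ≃ₐ[F] F') (w : HeightOneSpectrum (𝓞 F')) (a : 𝓞 F') :
    a ∈ (gal σ w).asIdeal ↔ galO σ a ∈ w.asIdeal := Iff.rfl

theorem gal_above {v : HeightOneSpectrum (𝓞 F)} {w : HeightOneSpectrum (𝓞 F')}
    (h : Above v w) (σ : F' ≃ₐ[F] F') : Above v (gal σ w) := by
  unfold Above at h ⊢
  rw [← h]
  ext a
  simp only [Ideal.mem_comap, mem_gal]
  have : galO σ (algebraMap (𝓞 F) (𝓞 F') a) = algebraMap (𝓞 F) (𝓞 F') a := by
    apply RingOfIntegers.ext
    rw [galO_coe]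
    show σ (algebraMap F F' (a : F)) = algebraMap F F' (a : F)
    exact σ.commutes _
  rw [this]

theorem mem_gal_pow (σ : F' ≃ₐ[F] F') (w : HeightOneSpectrum (𝓞 F')) (a : 𝓞 F') (n : ℕ) :
    a ∈ (gal σ w).asIdeal ^ n ↔ galO σ a ∈ w.asIdeal ^ n := by
  have h1 : (gal σ w).asIdeal = w.asIdeal.map ((galO σ).symm : 𝓞 F' →+* 𝓞 F') := by
    ext b
    rw [mem_gal]
    constructor
    · intro hb
      have := Ideal.mem_map_of_mem ((galO σ).symm : 𝓞 F' →+* 𝓞 F') hb
      simpa using this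
    · intro hb
      have := Ideal.mem_map_of_mem ((galO σ) : 𝓞 F' →+* 𝓞 F') hb
      rw [Ideal.map_map] at this
      simpa using this
  rw [h1, ← Ideal.map_pow]
  constructor
  · intro hb
    have := Ideal.mem_map_of_mem ((galO σ) : 𝓞 F' →+* 𝓞 F') hb
    rw [Ideal.map_map] at this
    simpa using this
  · intro hb
    have := Ideal.mem_map_of_mem ((galO σ).symm : 𝓞 F' →+* 𝓞 F') hb
    simpa using this

theorem gal_intValuation_le (σ : F' ≃ₐ[F] F') (w : HeightOneSpectrum (𝓞 F')) (a : 𝓞 F') :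
    w.intValuation (galO σ a) ≤ (gal σ w).intValuation a := by
  by_cases ha : a = 0
  · subst ha; simp
  rw [(gal σ w).intValuation_eq_exp_neg_multiplicity ha]
  rw [HeightOneSpectrum.intValuation_le_pow_iff_mem, ← mem_gal_pow,
    ← HeightOneSpectrum.intValuation_le_pow_iff_mem,
    (gal σ w).intValuation_eq_exp_neg_multiplicity ha]


theorem gal_intValuation (σ : F' ≃ₐ[F] F') (w : HeightOneSpectrum (𝓞 F')) (a : 𝓞 F') :
    (gal σ w).intValuation a = w.intValuation (galO σ a) := by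
  refine le_antisymm ?_ (gal_intValuation_le σ w a)
  by_cases ha : galO σ a = 0
  · have : a = 0 := by simpa using ha
    subst this; simp
  rw [w.intValuation_eq_exp_neg_multiplicity ha]
  rw [HeightOneSpectrum.intValuation_le_pow_iff_mem, mem_gal_pow,
    ← HeightOneSpectrum.intValuation_le_pow_iff_mem,
    w.intValuation_eq_exp_neg_multiplicity ha]

theorem gal_valuation (σ : F' ≃ₐ[F] F') (w : HeightOneSpectrum (𝓞 F')) (a : F') :
    (gal σ w).valuation F' a = w.valuation F' (σ a) := by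
  obtain ⟨b, c, hc, rfl⟩ := IsFractionRing.div_surjective (A := 𝓞 F') a
  have h1 : ∀ b : 𝓞 F', σ (algebraMap (𝓞 F') F' b) = algebraMap (𝓞 F') F' (galO σ b) :=
    fun b => rfl
  rw [map_div₀, map_div₀, map_div₀, h1, h1]
  simp only [HeightOneSpectrum.valuation_of_algebraMap, gal_intValuation]

theorem exists_above [IsGalois F F'] (v : HeightOneSpectrum (𝓞 F)) :
    ∃ w : HeightOneSpectrum (𝓞 F'), Above v w := by
  have := v.isPrime
  obtain ⟨⟨P, hP1, hP2⟩⟩ := (inferInstance : Nonempty (Ideal.primesOver v.asIdeal (𝓞 F')))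
  exact ⟨⟨P, hP1, Ideal.ne_bot_of_liesOver_of_ne_bot v.ne_bot P⟩, hP2.over.symm⟩

/-- the Galois group is transitive on the primes above `v`. -/
theorem exists_gal_eq [IsGalois F F'] {v : HeightOneSpectrum (𝓞 F)}
    {w1 w2 : HeightOneSpectrum (𝓞 F')} (h1 : Above v w1) (h2 : Above v w2) :
    ∃ σ : F' ≃ₐ[F] F', gal σ w1 = w2 := by
  have := h1.liesOver
  have := h2.liesOver
  obtain ⟨σ, hσ⟩ := Ideal.exists_smul_eq_of_isGaloisGroup v.asIdeal w2.asIdeal w1.asIdeal
    (F' ≃ₐ[F] F')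
  refine ⟨σ, ?_⟩
  ext a
  rw [mem_gal, ← hσ]
  exact Ideal.smul_mem_pointwise_smul_iff (a := σ) (S := w2.asIdeal) (x := a)


/-- the fundamental identity `g * (e * f) = [F' : F]`. -/
theorem ncard_mul_e_f [IsGalois F F'] {v : HeightOneSpectrum (𝓞 F)}
    {w : HeightOneSpectrum (𝓞 F')} (h : Above v w) :
    (Ideal.primesOver v.asIdeal (𝓞 F')).ncard *
      (w.asIdeal.ramificationIdx (𝓞 F) * w.asIdeal.inertiaDeg (𝓞 F)) = Module.finrank F F' := by
  have := h.liesOver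
  have := v.isPrime
  rw [← Ideal.ramificationIdxIn_eq_ramificationIdx v.asIdeal w.asIdeal (F' ≃ₐ[F] F'),
    ← Ideal.inertiaDegIn_eq_inertiaDeg v.asIdeal w.asIdeal (F' ≃ₐ[F] F'),
    Ideal.ncard_primesOver_mul_ramificationIdxIn_mul_inertiaDegIn v.asIdeal (𝓞 F')
      (F' ≃ₐ[F] F'), IsGalois.card_aut_eq_finrank]

theorem ncard_eq_one_of_unique {v : HeightOneSpectrum (𝓞 F)}
    {w : HeightOneSpectrum (𝓞 F')} (h : Above v w) (huniq : ∀ w', Above v w' → w' = w) :
    (Ideal.primesOver v.asIdeal (𝓞 F')).ncard = 1 := by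
  rw [Set.ncard_eq_one]
  refine ⟨w.asIdeal, ?_⟩
  ext P
  constructor
  · rintro ⟨hP1, hP2⟩
    have := huniq ⟨P, hP1, Ideal.ne_bot_of_liesOver_of_ne_bot v.ne_bot P⟩ hP2.over.symm
    simp [← this]
  · intro hP
    rw [Set.mem_singleton_iff] at hP
    subst hP
    exact ⟨w.isPrime, h.liesOver⟩

theorem ncard_ne_one_of_ne {v : HeightOneSpectrum (𝓞 F)}
    {w1 w2 : HeightOneSpectrum (𝓞 F')} (h1 : Above v w1) (h2 : Above v w2) (hne : w1 ≠ w2) :
    (Ideal.primesOver v.asIdeal (𝓞 F')).ncard ≠ 1 := by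
  intro h
  rw [Set.ncard_eq_one] at h
  obtain ⟨P, hP⟩ := h
  have e1 : w1.asIdeal ∈ Ideal.primesOver v.asIdeal (𝓞 F') := ⟨w1.isPrime, h1.liesOver⟩
  have e2 : w2.asIdeal ∈ Ideal.primesOver v.asIdeal (𝓞 F') := ⟨w2.isPrime, h2.liesOver⟩
  rw [hP, Set.mem_singleton_iff] at e1 e2
  exact hne (HeightOneSpectrum.ext (e1.trans e2.symm))

/-- split primes in a Galois extension of prime degree: `e = f = 1`. -/
theorem e_f_of_split [IsGalois F F'] {p : ℕ} [Fact p.Prime] (hdeg : Module.finrank F F' = p)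
    {v : HeightOneSpectrum (𝓞 F)} {w1 w2 : HeightOneSpectrum (𝓞 F')} (h1 : Above v w1)
    (h2 : Above v w2) (hne : w1 ≠ w2) {w : HeightOneSpectrum (𝓞 F')} (h : Above v w) :
    w.asIdeal.ramificationIdx (𝓞 F) = 1 ∧ w.asIdeal.inertiaDeg (𝓞 F) = 1 := by
  have hp : p.Prime := Fact.out
  have key := ncard_mul_e_f h
  rw [hdeg] at key
  have h3 := ncard_ne_one_of_ne h1 h2 hne
  have h4 : (Ideal.primesOver v.asIdeal (𝓞 F')).ncard ∣ p := Dvd.intro _ key
  have h5 : (Ideal.primesOver v.asIdeal (𝓞 F')).ncard = p :=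
    ((Nat.dvd_prime hp).mp h4).resolve_left h3
  rw [h5] at key
  have h6 : w.asIdeal.ramificationIdx (𝓞 F) * w.asIdeal.inertiaDeg (𝓞 F) = 1 := by
    have := Nat.eq_of_mul_eq_mul_left hp.pos (key.trans (mul_one p).symm)
    exact this
  exact ⟨Nat.eq_one_of_mul_eq_one_right h6, Nat.eq_one_of_mul_eq_one_left h6⟩

/-- nonsplit primes in a Galois extension of prime degree: `e * f = p`. -/
theorem e_mul_f_of_unique [IsGalois F F'] {v : HeightOneSpectrum (𝓞 F)}
    {w : HeightOneSpectrum (𝓞 F')} (h : Above v w) (huniq : ∀ w', Above v w' → w' = w) :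
    w.asIdeal.ramificationIdx (𝓞 F) * w.asIdeal.inertiaDeg (𝓞 F) = Module.finrank F F' := by
  have key := ncard_mul_e_f h
  rwa [ncard_eq_one_of_unique h huniq, one_mul] at key

/-- if `f(w|v) = 1`, every `w`-integral element is congruent mod `w` to an integer of `F`. -/
theorem exists_sub_lt_of_inertiaDeg_eq_one {v : HeightOneSpectrum (𝓞 F)}
    {w : HeightOneSpectrum (𝓞 F')} (h : Above v w) (hf : w.asIdeal.inertiaDeg (𝓞 F) = 1)
    (a : F') (ha : w.valuation F' a ≤ 1) :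
    ∃ c : 𝓞 F, w.valuation F' (a - algebraMap F F' (c : F)) < 1 := by
  have := h.liesOver
  have hvm : v.asIdeal.IsMaximal := v.isMaximal
  have hwm : w.asIdeal.IsMaximal := w.isMaximal
  obtain ⟨b, hb⟩ := w.exists_valuation_sub_lt_of_integer ha 1
  let _ : Field (𝓞 F ⧸ v.asIdeal) := Ideal.Quotient.field _
  have h1 : Module.finrank (𝓞 F ⧸ v.asIdeal) (𝓞 F' ⧸ w.asIdeal) = 1 := by
    rw [← Ideal.inertiaDeg_eq_of_isMaximal v.asIdeal w.asIdeal]; exact hf
  have h2 : Function.Surjective (algebraMap (𝓞 F ⧸ v.asIdeal) (𝓞 F' ⧸ w.asIdeal)) := by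
    rw [Algebra.surjective_algebraMap_iff]
    exact (Subalgebra.bot_eq_top_of_finrank_eq_one h1).symm
  obtain ⟨c', hc'⟩ := h2 (Ideal.Quotient.mk _ b)
  obtain ⟨c, rfl⟩ := Ideal.Quotient.mk_surjective c'
  refine ⟨c, ?_⟩
  have h3 : algebraMap (𝓞 F) (𝓞 F') c - b ∈ w.asIdeal := by
    rw [← Ideal.Quotient.eq]
    rw [← hc']
    rfl
  have h4 : w.valuation F' (algebraMap (𝓞 F') F' (algebraMap (𝓞 F) (𝓞 F') c - b)) < 1 :=
    (w.valuation_lt_one_iff_mem _).mpr h3
  have h5 : a - algebraMap F F' (c : F) =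
      -((algebraMap (𝓞 F') F' b - a) +
        algebraMap (𝓞 F') F' (algebraMap (𝓞 F) (𝓞 F') c - b)) := by
    rw [map_sub]
    have : algebraMap (𝓞 F') F' (algebraMap (𝓞 F) (𝓞 F') c) = algebraMap F F' (c : F) := rfl
    rw [this]; ring
  rw [h5, Valuation.map_neg]
  exact Valuation.map_add_lt _ (by simpa using hb) h4


theorem val_root_of_unity (w : HeightOneSpectrum (𝓞 F')) {μ : F'} {n : ℕ} (hn : n ≠ 0)
    (h : μ ^ n = 1) : w.valuation F' μ = 1 := by
  have h1 : w.valuation F' μ ^ n = 1 := by rw [← map_pow, h, map_one]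
  exact (pow_eq_one_iff_of_nonneg zero_le' hn).mp h1

theorem val_p_le (w : HeightOneSpectrum (𝓞 F')) {p : ℕ} (hp : p.Prime) {η : F'}
    (hη : IsPrimitiveRoot η p) :
    w.valuation F' (p : F') ≤ w.valuation F' (1 - η) ^ (p - 1) := by
  obtain ⟨q, rfl⟩ : ∃ q, p = q + 1 := ⟨p - 1, (Nat.succ_pred_eq_of_pos hp.pos).symm⟩
  have h1 := hη.prod_one_sub_pow_eq_order
  have h2 : ((q + 1 : ℕ) : F') = ∏ k ∈ Finset.range q, (1 - η ^ (k + 1)) := by
    rw [h1]; push_cast; ring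
  rw [h2, map_prod, Nat.add_sub_cancel]
  have hη1 : w.valuation F' η = 1 := val_root_of_unity w (Nat.succ_ne_zero q) hη.pow_eq_one
  calc ∏ k ∈ Finset.range q, w.valuation F' (1 - η ^ (k + 1))
      ≤ ∏ _k ∈ Finset.range q, w.valuation F' (1 - η) := by
        refine Finset.prod_le_prod' fun k _ => ?_
        rw [← mul_neg_geom_sum, map_mul]
        have : w.valuation F' (∑ i ∈ Finset.range (k + 1), η ^ i) ≤ 1 := by
          refine Valuation.map_sum_le _ fun i _ => ?_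
          rw [map_pow, hη1, one_pow]
        calc w.valuation F' (1 - η) * w.valuation F' (∑ i ∈ Finset.range (k + 1), η ^ i)
            ≤ w.valuation F' (1 - η) * 1 := mul_le_mul_right this _
          _ = _ := mul_one _
    _ = w.valuation F' (1 - η) ^ q := by rw [Finset.prod_const, Finset.card_range]


/-- if `w` is the unique prime above `v`, its valuation is Galois invariant. -/
theorem val_gal_of_unique {v : HeightOneSpectrum (𝓞 F)}
    {w : HeightOneSpectrum (𝓞 F')} (h : Above v w) (huniq : ∀ w', Above v w' → w' = w)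
    (σ : F' ≃ₐ[F] F') (a : F') : w.valuation F' (σ a) = w.valuation F' a := by
  rw [← gal_valuation, huniq _ (gal_above h σ)]

/-- core of (A4a)/(A4c). -/
theorem not_unique_of_pow_residue [IsGalois F F'] {p : ℕ} [Fact p.Prime]
    {ζ : F} (hζ : IsPrimitiveRoot ζ p) {x : F} {θ : F'} (hθ : θ ^ p = algebraMap F F' x)
    (hθF : θ ∉ (algebraMap F F').range) (v : HeightOneSpectrum (𝓞 F)) {e M : ℕ}
    (he : WithZero.exp (-(e : ℤ)) ≤ v.valuation F (p : F)) (hM : p * e < (p - 1) * M)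
    (hx : v.valuation F x = 1) {y : F}
    (hxy : v.valuation F (x - y ^ p) ≤ WithZero.exp (-(M : ℤ)))
    {w : HeightOneSpectrum (𝓞 F')} (hw : Above v w) (huniq : ∀ w', Above v w' → w' = w) :
    False := by
  classical
  have hp : p.Prime := Fact.out
  have : NeZero p := ⟨hp.ne_zero⟩
  -- an automorphism moving `θ`
  obtain ⟨σ, hσ⟩ : ∃ σ : F' ≃ₐ[F] F', σ θ ≠ θ := by
    by_contra h
    push Not at h
    exact hθF ((IsGalois.mem_range_algebraMap_iff_fixed θ).mpr h)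
  have hx0 : x ≠ 0 := by
    rintro rfl
    simp at hx
  have hθ0 : θ ≠ 0 := by
    rintro rfl
    rw [zero_pow hp.ne_zero] at hθ
    exact hx0 ((algebraMap F F').injective (by rw [← hθ, map_zero]))
  set ζ' := algebraMap F F' ζ with hζ'
  have hζ'p : IsPrimitiveRoot ζ' p := hζ.map_of_injective (algebraMap F F').injective
  have h1 : (σ θ / θ) ^ p = 1 := by
    rw [div_pow, ← map_pow, hθ, σ.commutes, div_self]
    rw [← hθ]; exact pow_ne_zero _ hθ0
  obtain ⟨j, hj, hjeq⟩ := hζ'p.eq_pow_of_pow_eq_one h1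
  have hσθ : σ θ = ζ' ^ j * θ := by
    rw [hjeq]; field_simp
  have hj1 : ζ' ^ j ≠ 1 := by
    intro h; apply hσ; rw [hσθ, h, one_mul]
  have hj0 : j ≠ 0 := by
    rintro rfl; exact hj1 (pow_zero _)
  have hη : IsPrimitiveRoot (ζ' ^ j) p :=
    hζ'p.pow_of_coprime j (Nat.coprime_of_lt_prime hj0 hj hp).symm
  have hwσ : ∀ a, w.valuation F' (σ a) = w.valuation F' a := val_gal_of_unique hw huniq σ
  set y' := algebraMap F F' y with hy'
  have hwζ : ∀ i : ℕ, w.valuation F' (ζ' ^ i) = 1 := fun i =>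
    val_root_of_unity w hp.ne_zero (by rw [← pow_mul, mul_comm, pow_mul, hζ'p.pow_eq_one, one_pow])
  have hM0 : 0 < M := by
    rcases Nat.eq_zero_or_pos M with h | h
    · subst h; simp at hM
    · exact h
  have hxy1 : v.valuation F (x - y ^ p) < 1 := by
    refine lt_of_le_of_lt hxy ?_
    rw [← WithZero.exp_zero, WithZero.exp_lt_exp]
    omega
  have hy : v.valuation F y = 1 := by
    have h2 : v.valuation F (y ^ p) = 1 := by
      have h3 : y ^ p = x - (x - y ^ p) := by ring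
      rw [h3, Valuation.map_sub_eq_of_lt_left _ (by rw [hx]; exact hxy1), hx]
    rw [map_pow] at h2
    exact (pow_eq_one_iff_of_nonneg zero_le' hp.ne_zero).mp h2
  have hwy : w.valuation F' y' = 1 := by
    rw [hy', val_algebraMap hw, hy, one_pow]
  -- each factor is at least `w (1 - ζ' ^ j)`
  have hfac : ∀ μ ∈ Polynomial.nthRootsFinset p (1 : F'),
      w.valuation F' (1 - ζ' ^ j) ≤ w.valuation F' (θ - μ * y') := by
    intro μ hμ
    have hμ1 : μ ^ p = 1 := (Polynomial.mem_nthRootsFinset hp.pos 1).mp hμ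
    obtain ⟨i, -, rfl⟩ := hζ'p.eq_pow_of_pow_eq_one hμ1
    have e1 : σ (θ - ζ' ^ i * y') = ζ' ^ j * θ - ζ' ^ i * y' := by
      rw [map_sub, map_mul, map_pow, hσθ, hζ', hy', σ.commutes, σ.commutes]
    have e2 : w.valuation F' (ζ' ^ j * θ - ζ' ^ i * y') = w.valuation F' (θ - ζ' ^ i * y') := by
      rw [← e1, hwσ]
    have e3 : (1 - ζ' ^ j) * (ζ' ^ i * y') =
        ζ' ^ j * (θ - ζ' ^ i * y') - (ζ' ^ j * θ - ζ' ^ i * y') := by ring
    calc w.valuation F' (1 - ζ' ^ j)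
        = w.valuation F' ((1 - ζ' ^ j) * (ζ' ^ i * y')) := by
          rw [map_mul, map_mul, hwζ, hwy, mul_one, mul_one]
      _ ≤ max (w.valuation F' (ζ' ^ j * (θ - ζ' ^ i * y')))
            (w.valuation F' (ζ' ^ j * θ - ζ' ^ i * y')) := by
          rw [e3]; exact Valuation.map_sub _ _ _
      _ = w.valuation F' (θ - ζ' ^ i * y') := by
          rw [e2, map_mul, hwζ, one_mul, max_self]
  have hprod : w.valuation F' (θ ^ p - y' ^ p) =
      ∏ μ ∈ Polynomial.nthRootsFinset p (1 : F'), w.valuation F' (θ - μ * y') := by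
    rw [hζ'p.pow_sub_pow_eq_prod_sub_mul θ y' hp.pos, map_prod]
  have h2 : w.valuation F' (1 - ζ' ^ j) ^ p ≤ w.valuation F' (θ ^ p - y' ^ p) := by
    rw [hprod]
    calc w.valuation F' (1 - ζ' ^ j) ^ p
        = ∏ _μ ∈ Polynomial.nthRootsFinset p (1 : F'), w.valuation F' (1 - ζ' ^ j) := by
          rw [Finset.prod_const, hζ'p.card_nthRootsFinset]
      _ ≤ _ := Finset.prod_le_prod' hfac
  set E := w.asIdeal.ramificationIdx (𝓞 F) with hE
  have hEpos : 0 < E := ramificationIdx_pos w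
  have h3 : w.valuation F' (θ ^ p - y' ^ p) = v.valuation F (x - y ^ p) ^ E := by
    rw [hθ, hy', ← map_pow, ← map_sub, val_algebraMap hw]
  have h4 : w.valuation F' (p : F') ≤ w.valuation F' (1 - ζ' ^ j) ^ (p - 1) := val_p_le w hp hη
  have h5 : w.valuation F' (p : F') = v.valuation F (p : F) ^ E := by
    have h : (p : F') = algebraMap F F' (p : F) := (map_natCast _ _).symm
    rw [h, val_algebraMap hw]
  have h6 : WithZero.exp (-(e : ℤ)) ^ (E * p) ≤ WithZero.exp (-(M : ℤ)) ^ (E * (p - 1)) := by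
    calc WithZero.exp (-(e : ℤ)) ^ (E * p) = (WithZero.exp (-(e : ℤ)) ^ E) ^ p := pow_mul _ _ _
      _ ≤ (v.valuation F (p : F) ^ E) ^ p := pow_le_pow_left' (pow_le_pow_left' he _) _
      _ = (w.valuation F' (p : F')) ^ p := by rw [h5]
      _ ≤ (w.valuation F' (1 - ζ' ^ j) ^ (p - 1)) ^ p := pow_le_pow_left' h4 _
      _ = (w.valuation F' (1 - ζ' ^ j) ^ p) ^ (p - 1) := by
          rw [← pow_mul, ← pow_mul, mul_comm]
      _ ≤ (w.valuation F' (θ ^ p - y' ^ p)) ^ (p - 1) := pow_le_pow_left' h2 _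
      _ = (v.valuation F (x - y ^ p) ^ E) ^ (p - 1) := by rw [h3]
      _ ≤ (WithZero.exp (-(M : ℤ)) ^ E) ^ (p - 1) := pow_le_pow_left' (pow_le_pow_left' hxy _) _
      _ = _ := (pow_mul _ _ _).symm
  rw [← WithZero.exp_nsmul, ← WithZero.exp_nsmul, WithZero.exp_le_exp] at h6
  simp only [nsmul_eq_mul] at h6
  have h7 : E * (p * e) < E * ((p - 1) * M) := Nat.mul_lt_mul_of_pos_left hM hEpos
  have h8 : ((E * (p * e) : ℕ) : ℤ) < ((E * ((p - 1) * M) : ℕ) : ℤ) := by exact_mod_cast h7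
  push_cast at h6 h8
  nlinarith


theorem lt_one_of_algebraMap_lt_one {v : HeightOneSpectrum (𝓞 F)}
    {w : HeightOneSpectrum (𝓞 F')} (hw : Above v w) {a : F}
    (h : w.valuation F' (algebraMap F F' a) < 1) : v.valuation F a < 1 := by
  rw [val_algebraMap hw] at h
  exact (pow_lt_one_iff_of_nonneg zero_le' (ramificationIdx_pos w).ne').mp h

theorem le_exp_neg_one_of_lt_one {a : WithZero (Multiplicative ℤ)} (h : a < 1) :
    a ≤ WithZero.exp (-((1 : ℕ) : ℤ)) := by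
  rcases eq_or_ne a 0 with rfl | ha
  · exact zero_le'
  · rw [← WithZero.exp_log ha, ← WithZero.exp_zero, WithZero.exp_lt_exp] at h
    rw [← WithZero.exp_log ha, WithZero.exp_le_exp]
    push_cast
    omega

/-- (A4a)+(A4c): `x ≡ y ^ p` to high enough order at `v` implies that `v` is not
nonsplit in `F' = F(θ)`, `θ ^ p = x`.  `e` bounds the `v`-order of `p` (`e = 0` if `v ∤ p`). -/
theorem exists_ne_above_of_pow_residue [IsGalois F F'] {p : ℕ} [Fact p.Prime]
    {ζ : F} (hζ : IsPrimitiveRoot ζ p) {x : F} {θ : F'} (hθ : θ ^ p = algebraMap F F' x)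
    (hθF : θ ∉ (algebraMap F F').range) (v : HeightOneSpectrum (𝓞 F)) {e M : ℕ}
    (he : WithZero.exp (-(e : ℤ)) ≤ v.valuation F (p : F)) (hM : p * e < (p - 1) * M)
    (hx : v.valuation F x = 1) {y : F}
    (hxy : v.valuation F (x - y ^ p) ≤ WithZero.exp (-(M : ℤ))) :
    ∃ w1 w2 : HeightOneSpectrum (𝓞 F'), w1 ≠ w2 ∧
      w1.asIdeal.comap (algebraMap (𝓞 F) (𝓞 F')) = v.asIdeal ∧
      w2.asIdeal.comap (algebraMap (𝓞 F) (𝓞 F')) = v.asIdeal := by
  by_contra hcon
  obtain ⟨w, hw⟩ := exists_above (F' := F') v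
  refine not_unique_of_pow_residue hζ hθ hθF v he hM hx hxy hw fun w' hw' => ?_
  by_contra hne
  exact hcon ⟨w', w, hne, hw', hw⟩

/-- (A4a), the case `v ∤ p`. -/
theorem exists_ne_above_of_pow_residue' [IsGalois F F'] {p : ℕ} [Fact p.Prime]
    {ζ : F} (hζ : IsPrimitiveRoot ζ p) {x : F} {θ : F'} (hθ : θ ^ p = algebraMap F F' x)
    (hθF : θ ∉ (algebraMap F F').range) (v : HeightOneSpectrum (𝓞 F))
    (hvp : v.valuation F (p : F) = 1)
    (hx : v.valuation F x = 1) {y : F} (hxy : v.valuation F (x - y ^ p) < 1) :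
    ∃ w1 w2 : HeightOneSpectrum (𝓞 F'), w1 ≠ w2 ∧
      w1.asIdeal.comap (algebraMap (𝓞 F) (𝓞 F')) = v.asIdeal ∧
      w2.asIdeal.comap (algebraMap (𝓞 F) (𝓞 F')) = v.asIdeal := by
  have hp : p.Prime := Fact.out
  refine exists_ne_above_of_pow_residue (e := 0) (M := 1) hζ hθ hθF v ?_ ?_ hx
    (le_exp_neg_one_of_lt_one hxy)
  · rw [hvp]; simp
  · have := hp.two_le
    omega

/-- if `f(w|v) = 1`, a `v`-unit `x = θ ^ p` is a `p`-th power residue mod `v`. -/
theorem exists_pow_residue_of_inertiaDeg_eq_one {p : ℕ} (hp0 : p ≠ 0)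
    {x : F} {θ : F'} (hθ : θ ^ p = algebraMap F F' x)
    {v : HeightOneSpectrum (𝓞 F)} (hx : v.valuation F x = 1)
    {w : HeightOneSpectrum (𝓞 F')} (hw : Above v w) (hf : w.asIdeal.inertiaDeg (𝓞 F) = 1) :
    ∃ y : 𝓞 F, v.valuation F (x - (y : F) ^ p) < 1 := by
  have hwθ : w.valuation F' θ = 1 := by
    have h1 : w.valuation F' θ ^ p = 1 := by
      rw [← map_pow, hθ, val_algebraMap hw, hx, one_pow]
    exact (pow_eq_one_iff_of_nonneg zero_le' hp0).mp h1
  obtain ⟨c, hc⟩ := exists_sub_lt_of_inertiaDeg_eq_one hw hf θ hwθ.le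
  refine ⟨c, lt_one_of_algebraMap_lt_one hw ?_⟩
  set c' := algebraMap F F' (c : F) with hc'
  have hwc : w.valuation F' c' ≤ 1 := by
    have : c' = algebraMap (𝓞 F') F' (algebraMap (𝓞 F) (𝓞 F') c) := rfl
    rw [this]; exact w.valuation_le_one _
  rw [map_sub, map_pow, ← hθ, ← hc', ← geom_sum₂_mul, map_mul]
  have h2 : w.valuation F' (∑ i ∈ Finset.range p, θ ^ i * c' ^ (p - 1 - i)) ≤ 1 := by
    refine Valuation.map_sum_le _ fun i _ => ?_
    rw [map_mul, map_pow, map_pow, hwθ, one_pow, one_mul]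
    exact pow_le_one' hwc _
  calc w.valuation F' (∑ i ∈ Finset.range p, θ ^ i * c' ^ (p - 1 - i)) * w.valuation F' (θ - c')
      ≤ 1 * w.valuation F' (θ - c') := mul_le_mul_left h2 _
    _ = w.valuation F' (θ - c') := one_mul _
    _ < 1 := hc

/-- (A4a'): at a split prime, a `v`-unit `x = θ ^ p` is a `p`-th power residue. -/
theorem exists_pow_residue_of_split [IsGalois F F'] {p : ℕ} [Fact p.Prime]
    (hdeg : Module.finrank F F' = p) {x : F} {θ : F'} (hθ : θ ^ p = algebraMap F F' x)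
    (v : HeightOneSpectrum (𝓞 F)) (hx : v.valuation F x = 1)
    {w1 w2 : HeightOneSpectrum (𝓞 F')} (hne : w1 ≠ w2)
    (h1 : w1.asIdeal.comap (algebraMap (𝓞 F) (𝓞 F')) = v.asIdeal)
    (h2 : w2.asIdeal.comap (algebraMap (𝓞 F) (𝓞 F')) = v.asIdeal) :
    ∃ y : 𝓞 F, v.valuation F (x - (y : F) ^ p) < 1 :=
  exists_pow_residue_of_inertiaDeg_eq_one (Fact.out : p.Prime).ne_zero hθ hx h1
    (e_f_of_split hdeg h1 h2 hne h1).2

theorem unique_of_ncard_eq_one {v : HeightOneSpectrum (𝓞 F)}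
    (h : (Ideal.primesOver v.asIdeal (𝓞 F')).ncard = 1) (w1 w2 : HeightOneSpectrum (𝓞 F'))
    (h1 : Above v w1) (h2 : Above v w2) : w1 = w2 := by
  by_contra hne
  exact ncard_ne_one_of_ne h1 h2 hne h

/-- (A4b): if `p ∤ ord_v x` then `v` is totally ramified in `F' ∋ θ`, `θ ^ p = x`. -/
theorem totally_ramified_of_not_dvd [IsGalois F F'] {p : ℕ} [Fact p.Prime]
    (hdeg : Module.finrank F F' = p) {x : F} {θ : F'} (hθ : θ ^ p = algebraMap F F' x)
    (v : HeightOneSpectrum (𝓞 F)) {n : ℤ} (hx : v.valuation F x = WithZero.exp n)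
    (hn : ¬ (p : ℤ) ∣ n) :
    (∀ w1 w2 : HeightOneSpectrum (𝓞 F'),
      w1.asIdeal.comap (algebraMap (𝓞 F) (𝓞 F')) = v.asIdeal →
      w2.asIdeal.comap (algebraMap (𝓞 F) (𝓞 F')) = v.asIdeal → w1 = w2) ∧
    ∀ w : HeightOneSpectrum (𝓞 F'), w.asIdeal.comap (algebraMap (𝓞 F) (𝓞 F')) = v.asIdeal →
      w.asIdeal.ramificationIdx (𝓞 F) = p ∧ w.asIdeal.inertiaDeg (𝓞 F) = 1 := by
  have hp : p.Prime := Fact.out
  have key : ∀ w : HeightOneSpectrum (𝓞 F'), Above v w →
      (Ideal.primesOver v.asIdeal (𝓞 F')).ncard = 1 ∧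
      w.asIdeal.ramificationIdx (𝓞 F) = p ∧ w.asIdeal.inertiaDeg (𝓞 F) = 1 := by
    intro w hw
    set E := w.asIdeal.ramificationIdx (𝓞 F) with hE
    have hθ0 : w.valuation F' θ ≠ 0 := by
      intro h0
      have h1 : w.valuation F' (algebraMap F F' x) = 0 := by
        rw [← hθ, map_pow, h0, zero_pow hp.ne_zero]
      rw [val_algebraMap hw, hx] at h1
      exact pow_ne_zero _ WithZero.exp_ne_zero h1
    have h1 : WithZero.exp (WithZero.log (w.valuation F' θ)) ^ p = WithZero.exp n ^ E := by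
      rw [WithZero.exp_log hθ0, ← map_pow, hθ, val_algebraMap hw, hx]
    rw [← WithZero.exp_nsmul, ← WithZero.exp_nsmul, WithZero.exp_inj] at h1
    simp only [nsmul_eq_mul] at h1
    have h2 : (p : ℤ) ∣ (E : ℤ) * n := ⟨_, h1.symm⟩
    have h3 : (p : ℤ) ∣ (E : ℤ) :=
      ((Nat.prime_iff_prime_int.mp hp).dvd_or_dvd h2).resolve_right hn
    have h4 : p ∣ E := Int.natCast_dvd_natCast.mp h3
    have h5 := ncard_mul_e_f hw
    rw [hdeg, ← hE] at h5
    have h6 : E ∣ p := ⟨(Ideal.primesOver v.asIdeal (𝓞 F')).ncard * w.asIdeal.inertiaDeg (𝓞 F),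
      by rw [← h5]; ring⟩
    have h7 : E = p := Nat.dvd_antisymm h6 h4
    rw [h7] at h5
    have h8 : (Ideal.primesOver v.asIdeal (𝓞 F')).ncard * w.asIdeal.inertiaDeg (𝓞 F) = 1 := by
      have h9 : p * ((Ideal.primesOver v.asIdeal (𝓞 F')).ncard * w.asIdeal.inertiaDeg (𝓞 F))
          = p * 1 := by
        rw [mul_one]
        calc p * ((Ideal.primesOver v.asIdeal (𝓞 F')).ncard * w.asIdeal.inertiaDeg (𝓞 F))
            = (Ideal.primesOver v.asIdeal (𝓞 F')).ncard * (p * w.asIdeal.inertiaDeg (𝓞 F)) := by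
              ring
          _ = p := h5
      exact Nat.eq_of_mul_eq_mul_left hp.pos h9
    exact ⟨Nat.eq_one_of_mul_eq_one_right h8, h7, Nat.eq_one_of_mul_eq_one_left h8⟩
  refine ⟨fun w1 w2 h1 h2 => unique_of_ncard_eq_one (key w1 h1).1 w1 w2 h1 h2,
    fun w hw => (key w hw).2⟩

end Fermat.Agent.S14x.Kummer
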