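/-
S14 (ExtVanishingCts), Part A, leaves A4 (local Kummer criteria) and A5 (inert case), in the
shapes fixed in `S14_Div` (finding "S14-A-leaves").  The pure Mathlib cores are in `S14_Kummer`.
-/
import Fermat.Agent.S14_Div
import Fermat.Agent.S14_DivBasic
import Fermat.Agent.S14_Kummer

set_option autoImplicit false

open NumberField IsDedekindDomain

namespace Fermat.Agent.S14x.Kummer

variable {F F' : Type*} [Field F] [Field F'] [NumberField F] [NumberField F'] [Algebra F F']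

/-- (A4u), core: if `v ∤ p` and `p ∣ ord_v x` then `F(θ)/F`, `θ ^ p = x`, is unramified
at `v`. -/
theorem unramified_of_dvd [IsGalois F F'] {p : ℕ} [Fact p.Prime]
    (hdeg : Module.finrank F F' = p) {ζ : F} (hζ : IsPrimitiveRoot ζ p)
    {x : F} {θ : F'} (hθ : θ ^ p = algebraMap F F' x) (hθF : θ ∉ (algebraMap F F').range)
    (v : HeightOneSpectrum (𝓞 F)) (hvp : v.valuation F (p : F) = 1)
    {n : ℤ} (hx : v.valuation F x = WithZero.exp ((p : ℤ) * n)) :
    ∀ w : HeightOneSpectrum (𝓞 F'), w.asIdeal.comap (algebraMap (𝓞 F) (𝓞 F')) = v.asIdeal →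
      w.asIdeal.ramificationIdx (𝓞 F) = 1 := by
  intro w hw
  have hp : p.Prime := Fact.out
  by_contra hne
  have huniq : ∀ w', Above v w' → w' = w := by
    intro w' hw'
    by_contra h
    exact hne (e_f_of_split hdeg hw' hw h hw).1
  have hef := e_mul_f_of_unique hw huniq
  rw [hdeg] at hef
  have he : w.asIdeal.ramificationIdx (𝓞 F) = p :=
    ((Nat.dvd_prime hp).mp ⟨_, hef.symm⟩).resolve_left hne
  have hf : w.asIdeal.inertiaDeg (𝓞 F) = 1 := by
    rw [he] at hef
    exact Nat.eq_of_mul_eq_mul_left hp.pos (hef.trans (mul_one p).symm)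
  obtain ⟨π, hπ⟩ := v.valuation_exists_uniformizer F
  have hπ0 : π ≠ 0 := by
    rintro rfl
    rw [map_zero] at hπ
    exact WithZero.exp_ne_zero hπ.symm
  have hπ0' : algebraMap F F' π ≠ 0 := by
    simpa using hπ0
  set x₁ := x * π ^ ((p : ℤ) * n) with hx₁
  set θ₁ := θ * (algebraMap F F' π) ^ n with hθ₁
  have h1 : θ₁ ^ p = algebraMap F F' x₁ := by
    rw [hθ₁, mul_pow, hθ, hx₁, map_mul, map_zpow₀, ← zpow_natCast, ← zpow_mul, mul_comm n]
  have h2 : θ₁ ∉ (algebraMap F F').range := by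
    rintro ⟨a, ha⟩
    apply hθF
    refine ⟨a * π ^ (-n), ?_⟩
    rw [map_mul, ha, hθ₁, map_zpow₀, mul_assoc, ← zpow_add₀ hπ0', add_neg_cancel, zpow_zero,
      mul_one]
  have h3 : v.valuation F x₁ = 1 := by
    rw [hx₁, map_mul, hx, map_zpow₀, hπ, ← WithZero.exp_zsmul, ← WithZero.exp_add]
    simp
  obtain ⟨y, hy⟩ := exists_pow_residue_of_inertiaDeg_eq_one hp.ne_zero h1 h3 hw hf
  refine not_unique_of_pow_residue (e := 0) (M := 1) hζ h1 h2 v ?_ ?_ h3
    (le_exp_neg_one_of_lt_one hy) hw huniq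
  · rw [hvp]; simp
  · have := hp.two_le
    omega

/-- (A5), all nonsplit primes: `v(N z) ^ e = w(z) ^ [F' : F]`. -/
theorem valuation_norm_of_unique [IsGalois F F'] {v : HeightOneSpectrum (𝓞 F)}
    {w : HeightOneSpectrum (𝓞 F')} (hw : Above v w) (huniq : ∀ w', Above v w' → w' = w)
    (z : F') :
    v.valuation F (Algebra.norm F z) ^ (w.asIdeal.ramificationIdx (𝓞 F)) =
      w.valuation F' z ^ Module.finrank F F' := by
  classical
  rw [← val_algebraMap hw, Algebra.norm_eq_prod_automorphisms, map_prod]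
  rw [Finset.prod_congr rfl fun σ _ => val_gal_of_unique hw huniq σ z, Finset.prod_const,
    Finset.card_univ, ← Nat.card_eq_fintype_card, IsGalois.card_aut_eq_finrank]

end Fermat.Agent.S14x.Kummer

namespace Fermat.Agent.S14x.Kummer

universe u

variable {F : Type u} [Field F] [NumberField F] {F' : Type u} [Field F'] [NumberField F']
  [Algebra F F'] {p : ℕ}

theorem above_of_below {v : Pl F} {w : Pl F'} (h : below F w = v) : Above v w := by
  subst h; rfl

theorem below_of_above {v : Pl F} {w : Pl F'} (h : Above v w) : below F w = v :=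
  HeightOneSpectrum.ext h

theorem eOf_eq_ramificationIdx (w : Pl F') : eOf F w = w.asIdeal.ramificationIdx (𝓞 F) := by
  have : w.asIdeal.LiesOver (below F w).asIdeal := (above_of_below rfl).liesOver
  exact Ideal.ramificationIdx'_eq_ramificationIdx (below F w).asIdeal w.asIdeal (below F w).ne_bot

theorem valuation_eq_one_of_ord_eq_zero (v : Pl F) {x : F} (hx : x ≠ 0) (h : ord v x = 0) :
    v.valuation F x = 1 := by
  rw [valuation_eq_exp_neg_ord v hx, h]; simp

/-- two distinct primes above `v` in a Kummer pair: `v` is split. -/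
theorem isSplit_of_exists_ne (hK : KummerPair F F' p) {v : Pl F}
    (h : ∃ w1 w2 : Pl F', w1 ≠ w2 ∧
      w1.asIdeal.comap (algebraMap (𝓞 F) (𝓞 F')) = v.asIdeal ∧
      w2.asIdeal.comap (algebraMap (𝓞 F) (𝓞 F')) = v.asIdeal) : IsSplit F F' v := by
  have := hK.galois
  have : Fact p.Prime := ⟨hK.prime⟩
  obtain ⟨w1, w2, hne, h1, h2⟩ := h
  intro w hw
  have := e_f_of_split hK.degree h1 h2 hne (above_of_below hw)
  exact ⟨by rw [eOf_eq_ramificationIdx]; exact this.1, this.2⟩

theorem not_mem_range_of_not_pow {x : F} {θ : F'} (hθ : θ ^ p = algebraMap F F' x)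
    (hx : ∀ y : F, y ^ p ≠ x) : θ ∉ (algebraMap F F').range := by
  rintro ⟨a, rfl⟩
  apply hx a
  apply (algebraMap F F').injective
  rw [map_pow, hθ]

/-- a nonsplit prime of a Kummer pair has exactly one prime above it. -/
theorem unique_above_of_not_isSplit' (hK : KummerPair F F' p) {v : Pl F}
    (hns : ¬ IsSplit F F' v) {w : Pl F'} (hw : Above v w) :
    ∀ w' : Pl F', Above v w' → w' = w := by
  have := hK.galois
  have : Fact p.Prime := ⟨hK.prime⟩
  intro w' hw'
  by_contra hne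
  exact hns (isSplit_of_exists_ne hK ⟨w', w, hne, hw', hw⟩)

end Fermat.Agent.S14x.Kummer

namespace Fermat.Agent.S14x

universe u

variable {F : Type u} [Field F] [NumberField F] {F' : Type u} [Field F'] [NumberField F']
  [Algebra F F'] {p : ℕ}

/-- (A4c) -/
theorem A4c_split (hK : KummerPair F F' p) {x : F} {θ : F'} (hθ : θ ^ p = algebraMap F F' x)
    (hx : ∀ y : F, y ^ p ≠ x) (v : Pl F) (hvx : ord v x = 0) (y : F) (M : ℕ)
    (hM : (p : ℤ) * ord v (p : F) < (p - 1) * M) (hxy : vGe v M (x - y ^ p)) :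
    IsSplit F F' v := by
  have := hK.galois
  have : Fact p.Prime := ⟨hK.prime⟩
  have hp := hK.prime
  obtain ⟨ζ, hζ⟩ := hK.zeta
  have hx0 : x ≠ 0 := by
    intro h
    exact hx 0 (by rw [zero_pow hp.ne_zero, h])
  have hp0 : (p : F) ≠ 0 := Nat.cast_ne_zero.mpr hp.ne_zero
  have hordp : 0 ≤ ord v (p : F) := ord_nonneg_of_isIntegral v (isIntegral_natCast p)
  apply Kummer.isSplit_of_exists_ne hK
  refine Kummer.exists_ne_above_of_pow_residue (e := (ord v (p : F)).toNat) (M := M) hζ hθ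
    (Kummer.not_mem_range_of_not_pow hθ hx) v ?_ ?_ (Kummer.valuation_eq_one_of_ord_eq_zero v hx0 hvx) hxy
  · rw [valuation_eq_exp_neg_ord v hp0, Int.toNat_of_nonneg hordp]
  · have h1 : ((ord v (p : F)).toNat : ℤ) = ord v (p : F) := Int.toNat_of_nonneg hordp
    have h2 : ((p - 1 : ℕ) : ℤ) = (p : ℤ) - 1 := by
      have := hp.pos
      omega
    have h3 : ((p * (ord v (p : F)).toNat : ℕ) : ℤ) < (((p - 1) * M : ℕ) : ℤ) := by
      push_cast
      rw [h1, h2]
      exact hM
    exact_mod_cast h3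

/-- (A4a) -/
theorem A4a_split (hK : KummerPair F F' p) {x : F} {θ : F'} (hθ : θ ^ p = algebraMap F F' x)
    (hx : ∀ y : F, y ^ p ≠ x) (v : Pl F) (hvp : ord v (p : F) = 0) (hvx : ord v x = 0)
    (hpow : IsPthPowerMod p v x) : IsSplit F F' v := by
  obtain ⟨y, hy⟩ := hpow
  refine A4c_split hK hθ hx v hvx y 1 ?_ hy
  rw [hvp]
  have := hK.prime.two_le
  have h2 : (2 : ℤ) ≤ (p : ℤ) := by exact_mod_cast this
  simp only [mul_zero, Nat.cast_one, mul_one]
  omega

/-- (A4a') -/
theorem A4a'_pthPower (hK : KummerPair F F' p) {x : F} {θ : F'}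
    (hθ : θ ^ p = algebraMap F F' x) (hx0 : x ≠ 0) (v : Pl F) (hvx : ord v x = 0)
    (hsplit : IsSplit F F' v) : IsPthPowerMod p v x := by
  have := hK.galois
  obtain ⟨w, hw⟩ := Kummer.exists_above (F' := F') v
  obtain ⟨y, hy⟩ := Kummer.exists_pow_residue_of_inertiaDeg_eq_one hK.prime.ne_zero hθ
    (Kummer.valuation_eq_one_of_ord_eq_zero v hx0 hvx) hw (hsplit w (Kummer.below_of_above hw)).2
  exact ⟨(y : F), vGe_one_iff_valuation_lt_one.mpr hy⟩

/-- (A4b) -/
theorem A4b_ramified (hK : KummerPair F F' p) {x : F} {θ : F'}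
    (hθ : θ ^ p = algebraMap F F' x) (hx0 : x ≠ 0) (v : Pl F) (hvx : ¬ (p : ℤ) ∣ ord v x) :
    ∀ w : Pl F', below F w = v → eOf F w = p := by
  have := hK.galois
  have : Fact p.Prime := ⟨hK.prime⟩
  intro w hw
  rw [Kummer.eOf_eq_ramificationIdx]
  exact ((Kummer.totally_ramified_of_not_dvd hK.degree hθ v (valuation_eq_exp_neg_ord v hx0)
    (by rwa [dvd_neg])).2 w (Kummer.above_of_below hw)).1

/-- (A4u) -/
theorem A4u_unram (hK : KummerPair F F' p) {x : F} {θ : F'} (hθ : θ ^ p = algebraMap F F' x)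
    (hx : ∀ y : F, y ^ p ≠ x) (v : Pl F) (hvp : ord v (p : F) = 0) (hvx : (p : ℤ) ∣ ord v x) :
    IsUnramAt F F' v := by
  have := hK.galois
  have : Fact p.Prime := ⟨hK.prime⟩
  have hp := hK.prime
  obtain ⟨ζ, hζ⟩ := hK.zeta
  have hx0 : x ≠ 0 := by
    intro h
    exact hx 0 (by rw [zero_pow hp.ne_zero, h])
  have hp0 : (p : F) ≠ 0 := Nat.cast_ne_zero.mpr hp.ne_zero
  obtain ⟨n, hn⟩ := hvx
  intro w hw
  rw [Kummer.eOf_eq_ramificationIdx]
  refine Kummer.unramified_of_dvd (n := -n) hK.degree hζ hθ (Kummer.not_mem_range_of_not_pow hθ hx) v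
    (Kummer.valuation_eq_one_of_ord_eq_zero v hp0 hvp) ?_ w (Kummer.above_of_below hw)
  rw [valuation_eq_exp_neg_ord v hx0, hn, mul_neg]

/-- (A5), inert primes -/
theorem A5_inert (hK : KummerPair F F' p) {v : Pl F} (hns : ¬ IsSplit F F' v)
    (hunr : IsUnramAt F F' v) {z : F'} (hz : z ≠ 0) : (p : ℤ) ∣ ord v (Algebra.norm F z) := by
  have := hK.galois
  have : Fact p.Prime := ⟨hK.prime⟩
  obtain ⟨w, hw⟩ := Kummer.exists_above (F' := F') v
  have huniq := Kummer.unique_above_of_not_isSplit' hK hns hw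
  have he : w.asIdeal.ramificationIdx (𝓞 F) = 1 := by
    rw [← Kummer.eOf_eq_ramificationIdx]; exact hunr w (Kummer.below_of_above hw)
  have h1 := Kummer.valuation_norm_of_unique hw huniq z
  rw [he, pow_one, hK.degree] at h1
  have hN : Algebra.norm F z ≠ 0 := Algebra.norm_ne_zero_iff.mpr hz
  rw [valuation_eq_exp_neg_ord v hN, valuation_eq_exp_neg_ord w hz, ← WithZero.exp_nsmul,
    WithZero.exp_inj] at h1
  refine ⟨ord w z, ?_⟩
  simp only [nsmul_eq_mul] at h1
  linarith

end Fermat.Agent.S14x
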