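/-
S14 (ExtVanishingCts), Part A, leaf A5 (ramified case): the tame symbol kills norms.
Pure Mathlib core; the statement in the shape of `S14_Div` is in `S14_A5`.
-/
import Fermat.Agent.S14_A4

set_option autoImplicit false

open NumberField IsDedekindDomain

namespace Fermat.Agent.S14x.Kummer

/-- the exponent bookkeeping of the tame symbol, in a commutative group. -/
theorem tame_identity_group {G : Type*} [CommGroup G] (X P U ε : G) (n k r s : ℤ) (p : ℕ)
    (hb : r * n + s * p = 1) (hεp : (ε ^ (n * k)) ^ p = ε ^ (n * k)) :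
    ε ^ (n * k) * (U * (X ^ (-r) * (P ^ p) ^ s) ^ (-k)) ^ n / X ^ k =
      (ε ^ (n * k) * (X * P ^ n) ^ (-(k * s))) ^ p * U ^ n := by
  have e1 : (U * (X ^ (-r) * (P ^ p) ^ s) ^ (-k)) ^ n =
      U ^ n * (X ^ (r * k * n) * P ^ (-(p : ℤ) * s * k * n)) := by
    rw [mul_zpow, mul_zpow, mul_zpow, ← zpow_natCast P p, ← zpow_mul, ← zpow_mul, ← zpow_mul,
      ← zpow_mul, ← zpow_mul]
    congr 3 <;> ring
  have e2 : (ε ^ (n * k) * (X * P ^ n) ^ (-(k * s))) ^ p =
      ε ^ (n * k) * (X ^ (-(k * s) * p) * P ^ (-(p : ℤ) * s * k * n)) := by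
    rw [mul_pow, hεp, ← zpow_natCast ((X * P ^ n) ^ (-(k * s))) p, mul_zpow, mul_zpow,
      ← zpow_mul, ← zpow_mul, ← zpow_mul]
    congr 3
    ring
  have e3 : X ^ (r * k * n) * (X ^ k)⁻¹ = X ^ (-(k * s) * p) := by
    rw [← zpow_neg, ← zpow_add]
    congr 1
    linear_combination k * hb
  rw [e1, e2, div_eq_mul_inv, ← e3]
  simp only [mul_assoc, mul_comm, mul_left_comm]


theorem tame_identity {K : Type*} [Field K] {X P U : K} (hX : X ≠ 0) (hP : P ≠ 0) (hU : U ≠ 0)
    (n k r s : ℤ) (p : ℕ) (hb : r * n + s * p = 1) (hp : Odd p) :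
    (-1 : K) ^ (n * k) * (U * (X ^ (-r) * (P ^ p) ^ s) ^ (-k)) ^ n / X ^ k =
      ((-1 : K) ^ (n * k) * (X * P ^ n) ^ (-(k * s))) ^ p * U ^ n := by
  have hε : ((-1 : Kˣ) ^ (n * k)) ^ p = (-1 : Kˣ) ^ (n * k) := by
    rw [← zpow_natCast, ← zpow_mul, mul_comm, zpow_mul, zpow_natCast, hp.neg_one_pow]
  have h := tame_identity_group (Units.mk0 X hX) (Units.mk0 P hP) (Units.mk0 U hU) (-1 : Kˣ)
    n k r s p hb hε
  have h2 := congrArg Units.val h
  simpa using h2

variable {F : Type*} [Field F] [NumberField F]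

/-- congruent units have congruent natural powers. -/
theorem val_pow_sub_pow_lt_one (v : HeightOneSpectrum (𝓞 F)) {a b : F}
    (ha : v.valuation F a ≤ 1) (hb : v.valuation F b ≤ 1) (hab : v.valuation F (a - b) < 1)
    (n : ℕ) : v.valuation F (a ^ n - b ^ n) < 1 := by
  rw [← geom_sum₂_mul, map_mul]
  have h2 : v.valuation F (∑ i ∈ Finset.range n, a ^ i * b ^ (n - 1 - i)) ≤ 1 := by
    refine Valuation.map_sum_le _ fun i _ => ?_
    rw [map_mul, map_pow, map_pow]
    exact mul_le_one' (pow_le_one' ha _) (pow_le_one' hb _)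
  calc v.valuation F (∑ i ∈ Finset.range n, a ^ i * b ^ (n - 1 - i)) * v.valuation F (a - b)
      ≤ 1 * v.valuation F (a - b) := mul_le_mul_left h2 _
    _ = v.valuation F (a - b) := one_mul _
    _ < 1 := hab

/-- congruent units have congruent integer powers. -/
theorem val_zpow_sub_zpow_lt_one (v : HeightOneSpectrum (𝓞 F)) {a b : F}
    (ha : v.valuation F a = 1) (hb : v.valuation F b = 1) (hab : v.valuation F (a - b) < 1)
    (n : ℤ) : v.valuation F (a ^ n - b ^ n) < 1 := by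
  have ha0 : a ≠ 0 := by
    rintro rfl
    simp at ha
  have hb0 : b ≠ 0 := by
    rintro rfl
    simp at hb
  cases n with
  | ofNat n =>
    simpa using val_pow_sub_pow_lt_one v ha.le hb.le hab n
  | negSucc n =>
    rw [zpow_negSucc, zpow_negSucc, inv_sub_inv (pow_ne_zero _ ha0) (pow_ne_zero _ hb0),
      map_div₀, map_mul, map_pow, map_pow, ha, hb, one_pow, mul_one, div_one,
      Valuation.map_sub_swap]
    exact val_pow_sub_pow_lt_one v ha.le hb.le hab (n + 1)

/-- congruent integral families have congruent products. -/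
theorem val_prod_sub_prod_lt_one {ι : Type*} (v : HeightOneSpectrum (𝓞 F)) (s : Finset ι)
    (a b : ι → F) (ha : ∀ i ∈ s, v.valuation F (a i) ≤ 1) (hb : ∀ i ∈ s, v.valuation F (b i) ≤ 1)
    (hab : ∀ i ∈ s, v.valuation F (a i - b i) < 1) :
    v.valuation F (∏ i ∈ s, a i - ∏ i ∈ s, b i) < 1 := by
  classical
  induction s using Finset.induction_on with
  | empty => simp
  | insert j s hj ih =>
    rw [Finset.prod_insert hj, Finset.prod_insert hj]
    have e : a j * ∏ i ∈ s, a i - b j * ∏ i ∈ s, b i =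
        a j * (∏ i ∈ s, a i - ∏ i ∈ s, b i) + (a j - b j) * ∏ i ∈ s, b i := by ring
    rw [e]
    have h1 : v.valuation F (a j * (∏ i ∈ s, a i - ∏ i ∈ s, b i)) < 1 := by
      rw [map_mul]
      calc v.valuation F (a j) * v.valuation F (∏ i ∈ s, a i - ∏ i ∈ s, b i)
          ≤ 1 * v.valuation F (∏ i ∈ s, a i - ∏ i ∈ s, b i) :=
            mul_le_mul_left (ha j (Finset.mem_insert_self j s)) _
        _ = _ := one_mul _
        _ < 1 := ih (fun i hi => ha i (Finset.mem_insert_of_mem hi))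
            (fun i hi => hb i (Finset.mem_insert_of_mem hi))
            (fun i hi => hab i (Finset.mem_insert_of_mem hi))
    have h2 : v.valuation F ((a j - b j) * ∏ i ∈ s, b i) < 1 := by
      rw [map_mul, map_prod]
      have h3 : ∏ i ∈ s, v.valuation F (b i) ≤ 1 :=
        Finset.prod_le_one' fun i hi => hb i (Finset.mem_insert_of_mem hi)
      calc v.valuation F (a j - b j) * ∏ i ∈ s, v.valuation F (b i)
          ≤ v.valuation F (a j - b j) * 1 := mul_le_mul_right h3 _
        _ = _ := mul_one _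
        _ < 1 := hab j (Finset.mem_insert_self j s)
    exact Valuation.map_add_lt _ h1 h2


variable {F' : Type*} [Field F'] [NumberField F'] [Algebra F F']

/-- the norm of a Kummer generator, for odd `p`. -/
theorem norm_root_eq [IsGalois F F'] {p : ℕ} (hp : p.Prime) (hp2 : p ≠ 2)
    (hdeg : Module.finrank F F' = p) {ζ : F} (hζ : IsPrimitiveRoot ζ p) {x : F} {θ : F'}
    (hθ : θ ^ p = algebraMap F F' x) (hθ0 : θ ≠ 0) : Algebra.norm F θ = x := by
  classical
  have : NeZero p := ⟨hp.ne_zero⟩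
  have hζ' : IsPrimitiveRoot (algebraMap F F' ζ) p :=
    hζ.map_of_injective (algebraMap F F').injective
  let c : (F' ≃ₐ[F] F') → F' := fun σ => σ θ / θ
  have hc : ∀ σ, σ θ = c σ * θ := fun σ => by
    simp only [c]; field_simp
  have hcp : ∀ σ, c σ ^ p = 1 := fun σ => by
    simp only [c]
    rw [div_pow, ← map_pow, hθ, σ.commutes, div_self]
    rw [← hθ]; exact pow_ne_zero _ hθ0
  have hcfix : ∀ σ τ : F' ≃ₐ[F] F', τ (c σ) = c σ := by
    intro σ τ
    obtain ⟨i, -, hi⟩ := hζ'.eq_pow_of_pow_eq_one (hcp σ)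
    rw [← hi, map_pow, τ.commutes]
  have hcinv : ∀ σ : F' ≃ₐ[F] F', c σ * c σ⁻¹ = 1 := by
    intro σ
    have h1 : σ (σ⁻¹ θ) = θ := by
      show (σ * σ⁻¹) θ = θ
      rw [mul_inv_cancel]; rfl
    rw [hc σ⁻¹, map_mul, hcfix, hc σ] at h1
    have h2 : (c σ * c σ⁻¹) * θ = 1 * θ := by
      rw [one_mul]
      calc (c σ * c σ⁻¹) * θ = c σ⁻¹ * (c σ * θ) := by ring
        _ = θ := h1
    exact mul_right_cancel₀ hθ0 h2
  set C := ∏ σ : F' ≃ₐ[F] F', c σ with hC
  have hCC : C * C = 1 := by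
    have h1 : ∏ σ : F' ≃ₐ[F] F', c σ⁻¹ = C := Equiv.prod_comp (Equiv.inv (F' ≃ₐ[F] F')) c
    calc C * C = C * ∏ σ : F' ≃ₐ[F] F', c σ⁻¹ := by rw [h1]
      _ = ∏ σ : F' ≃ₐ[F] F', c σ * c σ⁻¹ := by rw [hC, Finset.prod_mul_distrib]
      _ = 1 := Finset.prod_eq_one fun σ _ => hcinv σ
  have hCp : C ^ p = 1 := by
    rw [hC, ← Finset.prod_pow]
    exact Finset.prod_eq_one fun σ _ => hcp σ
  have hC1 : C = 1 := by
    obtain ⟨t, ht⟩ := hp.odd_of_ne_two hp2
    have : C ^ p = C := by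
      rw [ht, pow_succ, pow_mul, pow_two, hCC, one_pow, one_mul]
    rw [← this, hCp]
  have hcard : Fintype.card (F' ≃ₐ[F] F') = p := by
    rw [← Nat.card_eq_fintype_card, IsGalois.card_aut_eq_finrank, hdeg]
  apply (algebraMap F F').injective
  rw [Algebra.norm_eq_prod_automorphisms, ← hθ]
  calc ∏ σ : F' ≃ₐ[F] F', σ θ = ∏ σ : F' ≃ₐ[F] F', c σ * θ := Finset.prod_congr rfl fun σ _ => hc σ
    _ = C * θ ^ p := by
        rw [Finset.prod_mul_distrib, Finset.prod_const, Finset.card_univ, hcard]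
    _ = θ ^ p := by rw [hC1, one_mul]


omit [NumberField F] [NumberField F'] in
theorem norm_zpow [FiniteDimensional F F'] (a : F') (n : ℤ) :
    Algebra.norm F (a ^ n) = Algebra.norm F a ^ n := by
  let f : F' →*₀ F :=
    { toFun := Algebra.norm F
      map_zero' := Algebra.norm_zero
      map_one' := map_one _
      map_mul' := map_mul _ }
  exact map_zpow₀ f a n

/-- (A5), ramified case, core: the tame symbol of a norm with `x` is a `p`-th power residue.
If `v(x) = exp n`, `p ∤ n`, `θ ^ p = x` and `v(N z) = exp m`, then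
`(-1)^(n m) (N z)^n / x^m` is congruent to a `p`-th power modulo `v`. -/
theorem tame_symbol_norm [IsGalois F F'] {p : ℕ} [Fact p.Prime] (hp2 : p ≠ 2)
    (hdeg : Module.finrank F F' = p) {ζ : F} (hζ : IsPrimitiveRoot ζ p) {x : F} {θ : F'}
    (hθ : θ ^ p = algebraMap F F' x) (v : HeightOneSpectrum (𝓞 F)) {n : ℤ}
    (hx : v.valuation F x = WithZero.exp n) (hn : ¬ (p : ℤ) ∣ n) (z : F') (hz : z ≠ 0) :
    ∃ m : ℤ, v.valuation F (Algebra.norm F z) = WithZero.exp m ∧
      ∃ c : 𝓞 F,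
        v.valuation F ((-1) ^ (n * m) * Algebra.norm F z ^ n / x ^ m - (c : F) ^ p) < 1 := by
  classical
  have hp : p.Prime := Fact.out
  obtain ⟨w, hw⟩ := exists_above (F' := F') v
  obtain ⟨huniq', hef⟩ := totally_ramified_of_not_dvd hdeg hθ v hx hn
  have huniq : ∀ w', Above v w' → w' = w := fun w' hw' => huniq' w' w hw' hw
  obtain ⟨hE, hf⟩ := hef w hw
  have hx0 : x ≠ 0 := by
    rintro rfl
    rw [map_zero] at hx
    exact WithZero.exp_ne_zero hx.symm
  have hθ0 : θ ≠ 0 := by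
    rintro rfl
    rw [zero_pow hp.ne_zero] at hθ
    exact hx0 ((algebraMap F F').injective (by rw [← hθ, map_zero]))
  have hwF : ∀ a : F, w.valuation F' (algebraMap F F' a) = v.valuation F a ^ p := fun a => by
    rw [val_algebraMap hw, hE]
  have hp' : (p : ℤ) ≠ 0 := by exact_mod_cast hp.ne_zero
  have hwθ : w.valuation F' θ = WithZero.exp n := by
    have h0 : w.valuation F' θ ≠ 0 := (Valuation.ne_zero_iff _).mpr hθ0
    have h1 : WithZero.exp (WithZero.log (w.valuation F' θ)) ^ p = WithZero.exp n ^ p := by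
      rw [WithZero.exp_log h0, ← map_pow, hθ, hwF, hx]
    rw [← WithZero.exp_nsmul, ← WithZero.exp_nsmul, WithZero.exp_inj] at h1
    simp only [nsmul_eq_mul] at h1
    rw [← WithZero.exp_log h0, mul_left_cancel₀ hp' h1]
  obtain ⟨π, hπ⟩ := v.valuation_exists_uniformizer F
  have hπ0 : π ≠ 0 := by
    rintro rfl
    rw [map_zero] at hπ
    exact WithZero.exp_ne_zero hπ.symm
  obtain ⟨r, s, hb⟩ : ∃ r s : ℤ, r * n + s * p = 1 := by
    obtain ⟨a, b, hab⟩ := (Nat.prime_iff_prime_int.mp hp).coprime_iff_not_dvd.mpr hn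
    exact ⟨b, a, by rw [← hab]; ring⟩
  set π' := algebraMap F F' π with hπ'
  set Q := θ ^ (-r) * π' ^ s with hQ
  have hwQ : w.valuation F' Q = WithZero.exp (-1) := by
    rw [hQ, map_mul, map_zpow₀, map_zpow₀, hwθ, hπ', hwF, hπ, ← WithZero.exp_nsmul,
      ← WithZero.exp_zsmul, ← WithZero.exp_zsmul, ← WithZero.exp_add]
    congr 1
    simp only [smul_eq_mul, nsmul_eq_mul]
    linear_combination (-1 : ℤ) * hb
  have hQ0 : Q ≠ 0 := by
    intro h
    rw [h, map_zero] at hwQ
    exact WithZero.exp_ne_zero hwQ.symm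
  have hz0 : w.valuation F' z ≠ 0 := (Valuation.ne_zero_iff _).mpr hz
  set k := WithZero.log (w.valuation F' z) with hk
  have hwz : w.valuation F' z = WithZero.exp k := (WithZero.exp_log hz0).symm
  set u := z * Q ^ k with hu
  have hwu : w.valuation F' u = 1 := by
    rw [hu, map_mul, map_zpow₀, hwz, hwQ, ← WithZero.exp_zsmul, ← WithZero.exp_add]
    simp
  have hzu : z = u * Q ^ (-k) := by
    rw [hu, mul_assoc, ← zpow_add₀ hQ0, add_neg_cancel, zpow_zero, mul_one]
  have hNθ : Algebra.norm F θ = x := norm_root_eq hp hp2 hdeg hζ hθ hθ0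
  have hNπ : Algebra.norm F π' = π ^ p := by rw [hπ', Algebra.norm_algebraMap, hdeg]
  have hNQ : Algebra.norm F Q = x ^ (-r) * (π ^ p) ^ s := by
    rw [hQ, map_mul, norm_zpow, norm_zpow, hNθ, hNπ]
  have hNz : Algebra.norm F z = Algebra.norm F u * (x ^ (-r) * (π ^ p) ^ s) ^ (-k) := by
    have := congrArg (Algebra.norm F) hzu
    rw [map_mul, norm_zpow, hNQ] at this
    exact this
  -- the residue of `u`
  obtain ⟨c0, hc0⟩ := exists_sub_lt_of_inertiaDeg_eq_one hw hf u hwu.le
  set c0' := algebraMap F F' (c0 : F) with hc0'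
  have hwc0 : w.valuation F' c0' ≤ 1 := by
    have : c0' = algebraMap (𝓞 F') F' (algebraMap (𝓞 F) (𝓞 F') c0) := rfl
    rw [this]; exact w.valuation_le_one _
  have hcard : Fintype.card (F' ≃ₐ[F] F') = p := by
    rw [← Nat.card_eq_fintype_card, IsGalois.card_aut_eq_finrank, hdeg]
  have h1 : w.valuation F' (algebraMap F F' (Algebra.norm F u) - c0' ^ p) < 1 := by
    rw [Algebra.norm_eq_prod_automorphisms]
    have : c0' ^ p = ∏ _σ : F' ≃ₐ[F] F', c0' := by
      rw [Finset.prod_const, Finset.card_univ, hcard]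
    rw [this]
    refine val_prod_sub_prod_lt_one w Finset.univ _ _ (fun σ _ => ?_) (fun σ _ => hwc0)
      (fun σ _ => ?_)
    · rw [val_gal_of_unique hw huniq, hwu]
    · have : σ u - c0' = σ (u - c0') := by rw [map_sub, hc0', σ.commutes]
      rw [this, val_gal_of_unique hw huniq]; exact hc0
  have hNu : v.valuation F (Algebra.norm F u - (c0 : F) ^ p) < 1 :=
    lt_one_of_algebraMap_lt_one hw (by rw [map_sub, map_pow]; exact h1)
  have hvNu : v.valuation F (Algebra.norm F u) = 1 := by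
    have h2 := valuation_norm_of_unique hw huniq u
    rw [hwu, one_pow] at h2
    exact (pow_eq_one_iff_of_nonneg zero_le' (ramificationIdx_pos w).ne').mp h2
  have hvc0 : v.valuation F (c0 : F) = 1 := by
    have h2 : v.valuation F ((c0 : F) ^ p) = 1 := by
      have h3 : (c0 : F) ^ p = Algebra.norm F u - (Algebra.norm F u - (c0 : F) ^ p) := by ring
      rw [h3, Valuation.map_sub_eq_of_lt_left _ (by rw [hvNu]; exact hNu), hvNu]
    rw [map_pow] at h2
    exact (pow_eq_one_iff_of_nonneg zero_le' hp.ne_zero).mp h2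
  have hvNQ : v.valuation F (x ^ (-r) * (π ^ p) ^ s) = WithZero.exp (-1) := by
    rw [map_mul, map_zpow₀, map_zpow₀, map_pow, hx, hπ, ← WithZero.exp_nsmul,
      ← WithZero.exp_zsmul, ← WithZero.exp_zsmul, ← WithZero.exp_add]
    congr 1
    simp only [smul_eq_mul, nsmul_eq_mul]
    linear_combination (-1 : ℤ) * hb
  have hvNz : v.valuation F (Algebra.norm F z) = WithZero.exp k := by
    rw [hNz, map_mul, map_zpow₀, hvNu, hvNQ, one_mul, ← WithZero.exp_zsmul]
    simp
  refine ⟨k, hvNz, ?_⟩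
  have hNu0 : Algebra.norm F u ≠ 0 := by
    intro h
    rw [h, map_zero] at hvNu
    exact zero_ne_one hvNu
  have hid := tame_identity hx0 hπ0 hNu0 n k r s p hb (hp.odd_of_ne_two hp2)
  rw [hNz, hid]
  set B := (-1 : F) ^ (n * k) * (x * π ^ n) ^ (-(k * s)) with hB
  have hvB : v.valuation F B = 1 := by
    rw [hB, map_mul, map_zpow₀, map_zpow₀, Valuation.map_neg, map_one, one_zpow, one_mul,
      map_mul, hx, map_zpow₀, hπ, ← WithZero.exp_zsmul, ← WithZero.exp_add, ← WithZero.exp_zsmul]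
    simp
  clear_value B
  set C0 := B * (c0 : F) ^ n with hC0
  have hvC0 : v.valuation F C0 = 1 := by
    rw [hC0, map_mul, hvB, map_zpow₀, hvc0, one_zpow, one_mul]
  have h2 : v.valuation F (B ^ p * Algebra.norm F u ^ n - C0 ^ p) < 1 := by
    have e : B ^ p * Algebra.norm F u ^ n - C0 ^ p =
        B ^ p * (Algebra.norm F u ^ n - ((c0 : F) ^ p) ^ n) := by
      have e0 : ((c0 : F) ^ n) ^ p = ((c0 : F) ^ p) ^ n := by
        rw [← zpow_natCast ((c0 : F) ^ n) p, ← zpow_mul, mul_comm n, zpow_mul, zpow_natCast]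
      rw [hC0, mul_pow, e0]
      ring
    rw [e, map_mul, map_pow, hvB, one_pow, one_mul]
    exact val_zpow_sub_zpow_lt_one v hvNu (by rw [map_pow, hvc0, one_pow]) hNu n
  obtain ⟨c, hc⟩ := v.exists_valuation_sub_lt_of_integer hvC0.le 1
  refine ⟨c, ?_⟩
  have hc' : v.valuation F (C0 - (c : F)) < 1 := by
    rw [Valuation.map_sub_swap]; simpa using hc
  have h3 : v.valuation F (C0 ^ p - (c : F) ^ p) < 1 :=
    val_pow_sub_pow_lt_one v hvC0.le (v.valuation_le_one c) hc' p
  have e2 : B ^ p * Algebra.norm F u ^ n - (c : F) ^ p =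
      (B ^ p * Algebra.norm F u ^ n - C0 ^ p) + (C0 ^ p - (c : F) ^ p) := by ring
  rw [e2]
  exact Valuation.map_add_lt _ h2 h3

end Fermat.Agent.S14x.Kummer
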