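/-
S14 (ExtVanishingCts), Part A, leaf A5 (ramified case) in the shape fixed in `S14_Div`
(finding "S14-A-leaves"): at a ramified prime `v ∤ p` of a Kummer pair there is a character
of `Fˣ` killing the norms and restricting to a nonzero power of the residue character on
the `v`-units.
-/
import Fermat.Agent.S14_Tame
import Fermat.Agent.S14_ResChar

set_option autoImplicit false

open NumberField IsDedekindDomain IntermediateField

namespace Fermat.Agent.S14x.Kummer

universe u

variable {F : Type u} [Field F] [NumberField F] {F' : Type u} [Field F'] [NumberField F']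
  [Algebra F F'] {p : ℕ}

/-- a Kummer generator of a Kummer pair. -/
theorem exists_kummer_gen (hK : KummerPair F F' p) :
    ∃ (x : F) (θ : F'), θ ^ p = algebraMap F F' x ∧ θ ∉ (algebraMap F F').range := by
  have := hK.galois
  have hp := hK.prime
  have : Fact p.Prime := ⟨hp⟩
  have hcard : Nat.card (F' ≃ₐ[F] F') = p := by
    rw [IsGalois.card_aut_eq_finrank, hK.degree]
  have : IsCyclic (F' ≃ₐ[F] F') := isCyclic_of_prime_card hcard
  obtain ⟨ζ, hζ⟩ := hK.zeta
  have hK' : (primitiveRoots (Module.finrank F F') F).Nonempty :=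
    ⟨ζ, by rw [hK.degree, mem_primitiveRoots hp.pos]; exact hζ⟩
  obtain ⟨α, ⟨x, hx⟩, hα⟩ := exists_root_adjoin_eq_top_of_isCyclic F F' hK'
  refine ⟨x, α, by rw [hx, hK.degree], ?_⟩
  rintro ⟨a, rfl⟩
  have h1 : F⟮algebraMap F F' a⟯ = ⊥ :=
    IntermediateField.adjoin_simple_eq_bot_iff.mpr (IntermediateField.algebraMap_mem ⊥ a)
  rw [h1] at hα
  have h2 := IntermediateField.bot_eq_top_iff_finrank_eq_one.mp hα
  rw [hK.degree] at h2
  exact hp.ne_one h2

theorem zmod_pow_eq_one (hp : p.Prime) (g : Multiplicative (ZMod p)) : g ^ p = 1 := by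
  have : NeZero p := ⟨hp.ne_zero⟩
  have h := pow_card_eq_one' (G := Multiplicative (ZMod p)) (x := g)
  rwa [Nat.card_eq_fintype_card, Fintype.card_multiplicative, ZMod.card] at h

end Fermat.Agent.S14x.Kummer

namespace Fermat.Agent.S14x

universe u

variable {F : Type u} [Field F] [NumberField F] {F' : Type u} [Field F'] [NumberField F']
  [Algebra F F'] {p : ℕ}

/-- (A5), ramified primes not above `p`: the tame symbol -/
theorem A5_tame (hK : KummerPair F F' p) {v : Pl F} (hvp : ord v (p : F) = 0)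
    (hram : ¬ IsUnramAt F F' v) :
    ∃ s : Fˣ →* Multiplicative (ZMod p),
      (∀ z : F'ˣ, s (Units.map (Algebra.norm F : F' →* F) z) = 1) ∧
      ∃ k : ℕ, ¬ p ∣ k ∧ ∀ u : Fˣ, u ∈ vUnits v → s u = (resCharU p v u) ^ k := by
  have := hK.galois
  have : Fact p.Prime := ⟨hK.prime⟩
  have hp := hK.prime
  have hp' : (p : ℤ) ≠ 0 := by exact_mod_cast hp.ne_zero
  obtain ⟨ζ, hζ⟩ := hK.zeta
  obtain ⟨x, θ, hθ, hθF⟩ := Kummer.exists_kummer_gen hK
  have hx0 : x ≠ 0 := by
    rintro rfl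
    apply hθF
    refine ⟨0, ?_⟩
    rw [map_zero] at hθ ⊢
    exact (pow_eq_zero_iff hp.ne_zero).mp hθ |>.symm
  have hp0 : (p : F) ≠ 0 := Nat.cast_ne_zero.mpr hp.ne_zero
  set a := ord v x with ha
  have hvx : v.valuation F x = WithZero.exp (-a) := valuation_eq_exp_neg_ord v hx0
  have hna : ¬ (p : ℤ) ∣ a := by
    intro hdvd
    apply hram
    obtain ⟨n, hn⟩ := hdvd
    intro w hw
    rw [Kummer.eOf_eq_ramificationIdx]
    exact Kummer.unramified_of_dvd (n := -n) hK.degree hζ hθ hθF v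
      (Kummer.valuation_eq_one_of_ord_eq_zero v hp0 hvp) (by rw [hvx, hn, mul_neg]) w
      (Kummer.above_of_below hw)
  have hna' : ¬ (p : ℤ) ∣ -a := by rwa [dvd_neg]
  -- the symbol `y ↦ ((-1)^a x)^(ord y) y^(-a)`
  let xu : Fˣ := Units.mk0 x hx0
  let A : Fˣ := (-1) ^ a * xu
  have hord_mul : ∀ y1 y2 : Fˣ,
      ord v ((y1 * y2 : Fˣ) : F) = ord v (y1 : F) + ord v (y2 : F) := fun y1 y2 => by
    rw [Units.val_mul]; exact ord_mul v y1.ne_zero y2.ne_zero
  let T0 : Fˣ →* Fˣ := MonoidHom.mk' (fun y => A ^ (ord v (y : F)) * y ^ (-a)) (by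
    intro y1 y2
    simp only [hord_mul, zpow_add, mul_zpow]
    exact mul_mul_mul_comm _ _ _ _)
  have hT0val : ∀ y : Fˣ, ((T0 y : Fˣ) : F) =
      ((-1) ^ a * x) ^ (ord v (y : F)) * (y : F) ^ (-a) := by
    intro y
    show ((A ^ (ord v (y : F)) * y ^ (-a) : Fˣ) : F) = _
    simp [A, xu]
  have hT0 : ∀ y, T0 y ∈ vUnits v := by
    intro y
    show v.valuation F ((T0 y : Fˣ) : F) = 1
    rw [hT0val, map_mul, map_zpow₀, map_zpow₀, map_mul, map_zpow₀, Valuation.map_neg, map_one,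
      one_zpow, one_mul, hvx, valuation_eq_exp_neg_ord v y.ne_zero, ← WithZero.exp_zsmul,
      ← WithZero.exp_zsmul, ← WithZero.exp_add]
    rw [← WithZero.exp_zero]
    congr 1
    simp only [smul_eq_mul]
    ring
  let T : Fˣ →* ↥(vUnits v) := T0.codRestrict (vUnits v) hT0
  refine ⟨(resChar p v).comp T, ?_, ?_⟩
  · intro z
    rw [MonoidHom.comp_apply, resChar_eq_one_iff hp hK.zeta v hvp]
    obtain ⟨m, hm, c, hc⟩ := Kummer.tame_symbol_norm hK.odd hK.degree hζ hθ v hvx hna'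
      (z : F') z.ne_zero
    refine ⟨(c : F), vGe_one_iff_valuation_lt_one.mpr ?_⟩
    have hN0 : Algebra.norm F (z : F') ≠ 0 := Algebra.norm_ne_zero_iff.mpr z.ne_zero
    have hm' : m = -ord v (Algebra.norm F (z : F')) := by
      rw [valuation_eq_exp_neg_ord v hN0, WithZero.exp_inj] at hm
      exact hm.symm
    have e : (((T (Units.map (Algebra.norm F : F' →* F) z) : ↥(vUnits v)) : Fˣ) : F) =
        (-1) ^ (-a * m) * Algebra.norm F (z : F') ^ (-a) / x ^ m := by
      show ((T0 (Units.map (Algebra.norm F : F' →* F) z) : Fˣ) : F) = _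
      rw [hT0val, hm']
      simp only [Units.coe_map]
      rw [mul_zpow, ← zpow_mul, neg_mul_neg, zpow_neg x, div_eq_mul_inv, inv_inv]
      ring
    rw [e]
    exact hc
  · refine ⟨((-a) % (p : ℤ)).toNat, ?_, ?_⟩
    · intro hdvd
      have h1 : (((-a) % (p : ℤ)).toNat : ℤ) = (-a) % (p : ℤ) :=
        Int.toNat_of_nonneg (Int.emod_nonneg _ hp')
      have h2 : (p : ℤ) ∣ (-a) % (p : ℤ) := by
        rw [← h1]; exact Int.natCast_dvd_natCast.mpr hdvd
      obtain ⟨c, hc⟩ := h2
      exact hna' ⟨(-a) / (p : ℤ) + c, by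
        have := Int.emod_add_mul_ediv (-a) (p : ℤ)
        linarith⟩
    · intro u hu
      have hTu : T u = ⟨u, hu⟩ ^ (-a) := by
        apply Subtype.ext
        show T0 u = ((⟨u, hu⟩ : ↥(vUnits v)) ^ (-a) : ↥(vUnits v))
        have h0 : ord v (u : F) = 0 := mem_vUnits_iff.mp hu
        show A ^ (ord v (u : F)) * u ^ (-a) = _
        rw [h0, zpow_zero, one_mul]
        simp
      have hU : resCharU p v u = resChar p v ⟨u, hu⟩ := by
        unfold resCharU
        rw [dif_pos hu]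
      rw [MonoidHom.comp_apply, hTu, map_zpow, hU]
      set g := resChar p v ⟨u, hu⟩ with hg
      have h1 : (((-a) % (p : ℤ)).toNat : ℤ) = (-a) % (p : ℤ) :=
        Int.toNat_of_nonneg (Int.emod_nonneg _ hp')
      have h2 : g ^ (-a) = g ^ ((-a) % (p : ℤ)) := by
        conv_lhs => rw [← Int.emod_add_mul_ediv (-a) (p : ℤ)]
        rw [zpow_add, zpow_mul, zpow_natCast, Kummer.zmod_pow_eq_one hp, one_zpow, mul_one]
      calc g ^ (-a) = g ^ ((-a) % (p : ℤ)) := h2
        _ = g ^ ((((-a) % (p : ℤ)).toNat : ℕ) : ℤ) := by rw [h1]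
        _ = g ^ ((-a) % (p : ℤ)).toNat := zpow_natCast _ _

end Fermat.Agent.S14x
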