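/-
S14, PART A: the leaves (A6) "first inequality" and (A7) "(F+)" in their interface forms
(finding #49), by plugging Theorem H (`S14_A3`) and the tame symbols (`S14_A5`) into
`S14_A67`.
-/
import Fermat.Agent.S14_A3
import Fermat.Agent.S14_A5
import Fermat.Agent.S14_A67

set_option autoImplicit false

namespace Fermat.Agent.S14x

open IsDedekindDomain NumberField

universe u

variable {F : Type u} [Field F] [NumberField F] {F' : Type u} [Field F'] [NumberField F']
  [Algebra F F'] {p : ℕ}

/-- **(A6) the first inequality**: for an unramified Kummer pair there is a nonzero character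
of the divisor group killing the principal divisors and the norms. -/
theorem A6_first (hK : KummerPair F F' p) (hunr : Unramified F F') :
    ∃ χ : Dv F →+ ZMod p, χ ≠ 0 ∧ (∀ x : F, x ≠ 0 → χ (div x) = 0) ∧
      ∀ D' : Dv F', χ (normDiv F D') = 0 :=
  A67.A6_of hK hunr (fun S hkill => A3_theoremH' hK S (fun w _ => hunr w) hkill)

/-- **(A7) the key contradiction (F+)**. -/
theorem A7_false (hK : KummerPair F F' p) (S T : Finset (Pl F)) (hST : Disjoint S T)
    (hkill : Kills (S : Set (Pl F))) (hsplit : ∀ v ∈ S, IsSplit F F' v)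
    (hTp : ∀ v ∈ T, ord v (p : F) = 0) (hunr : ∀ v : Pl F, v ∉ T → IsUnramAt F F' v)
    (honto : ∀ c : Pl F → Multiplicative (ZMod p),
      ∃ u : Fˣ, u ∈ SU (S : Set (Pl F)) ∧ ∀ v ∈ T, resCharU p v u = c v) : False := by
  refine A67.A7_of hK S T hST hkill hsplit honto ?_
    (fun v hv hram => A5_tame hK (hTp v hv) hram)
  intro ST hmem
  refine A3_theoremH' hK ST ?_ ?_
  · intro w hw
    have hwT : below F w ∉ T := fun h => hw ((hmem _).mpr (Or.inr h))
    exact hunr _ hwT w rfl
  · refine hkill.mono ?_
    intro v hv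
    exact (hmem v).mpr (Or.inl hv)

end Fermat.Agent.S14x
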