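/-
S14 (ExtVanishingCts), Part B2 of the blueprint: cyclotomic reciprocity, arithmetic form.

* `normChar m : Dv F →+ Additive (ZMod m)ˣ` is the norm character `[v] ↦ N(v) mod m`.
* `normChar_normDiv`: it is compatible with the norm of divisors.
* `normChar_div_eq_zero`: in a totally complex field it kills `div b` for every integer
  `b ≡ 1 mod m`.
-/
import Mathlib
import Fermat.Agent.S14_Div

set_option autoImplicit false

open NumberField IsDedekindDomain

namespace Fermat.Agent.S14B2

open Fermat.Agent.S14x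

/-! ### Norms of elements congruent to `1` -/

/-- If `β ≡ 1 mod m` in a free `ℤ`-algebra of finite rank then `N(β) ≡ 1 mod m`. -/
theorem norm_sub_one_dvd {S : Type*} [CommRing S] [Module.Free ℤ S] [Module.Finite ℤ S]
    (m : ℕ) (β : S) (hβ : (m : S) ∣ β - 1) : (m : ℤ) ∣ Algebra.norm ℤ β - 1 := by
  classical
  obtain ⟨γ, hγ⟩ := hβ
  let b := Module.Free.chooseBasis ℤ S
  have h1 : β = 1 + (algebraMap ℤ S (m : ℤ)) * γ := by
    have : (algebraMap ℤ S (m : ℤ)) = (m : S) := by simp
    rw [this, ← hγ]; ring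
  rw [Algebra.norm_eq_matrix_det b, h1, map_add, map_one, map_mul, AlgHom.commutes]
  rw [← (ZMod.intCast_zmod_eq_zero_iff_dvd _ m), Int.cast_sub, Int.cast_one, sub_eq_zero]
  have key := RingHom.map_det (Int.castRingHom (ZMod m))
    (1 + (algebraMap ℤ (Matrix _ _ ℤ)) (m : ℤ) * (Algebra.leftMulMatrix b) γ)
  have : (Int.castRingHom (ZMod m)).mapMatrix
      (1 + (algebraMap ℤ (Matrix _ _ ℤ)) (m : ℤ) * (Algebra.leftMulMatrix b) γ) = 1 := by
    rw [map_add, map_one, map_mul]
    have h0 : (Int.castRingHom (ZMod m)).mapMatrix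
        ((algebraMap ℤ (Matrix (Module.Free.ChooseBasisIndex ℤ S)
          (Module.Free.ChooseBasisIndex ℤ S) ℤ)) (m : ℤ)) = 0 := by
      have hm0 : ((m : ℕ) : Matrix (Module.Free.ChooseBasisIndex ℤ S)
          (Module.Free.ChooseBasisIndex ℤ S) (ZMod m)) = 0 := by
        rw [← nsmul_one, ← Nat.cast_smul_eq_nsmul (ZMod m), ZMod.natCast_self, zero_smul]
      rw [← hm0]
      simp
    rw [h0, zero_mul, add_zero]
  rw [this, Matrix.det_one] at key
  exact key

open NumberField.InfinitePlace in
/-- In a totally complex number field every nonzero element has positive norm. -/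
theorem norm_pos_of_isTotallyComplex (F : Type*) [Field F] [NumberField F] [IsTotallyComplex F]
    (x : F) (hx : x ≠ 0) : 0 < Algebra.norm ℚ x := by
  classical
  have h1 := Algebra.norm_eq_prod_embeddings ℚ ℂ x
  rw [← Fintype.prod_equiv (RingHom.equivRatAlgHom F ℂ) (fun f => f x)
      (fun φ => φ x) fun _ => by simp [RingHom.equivRatAlgHom_apply]] at h1
  rw [← Finset.prod_fiberwise Finset.univ InfinitePlace.mk (fun φ => φ x)] at h1
  have h2 : ∀ w : InfinitePlace F,
      ∏ φ ∈ ({φ | InfinitePlace.mk φ = w} : Finset (F →+* ℂ)), φ x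
        = ((Complex.normSq (w.embedding x) : ℝ) : ℂ) := by
    intro w
    have hne : ComplexEmbedding.conjugate w.embedding ≠ w.embedding := by
      intro h
      exact IsTotallyComplex.complexEmbedding_not_isReal w.embedding
        (ComplexEmbedding.isReal_iff.mpr h)
    have hset : ({φ | InfinitePlace.mk φ = w} : Finset (F →+* ℂ))
        = {w.embedding, ComplexEmbedding.conjugate w.embedding} := by
      ext φ
      simp only [Finset.mem_filter, Finset.mem_univ, true_and, Finset.mem_insert,
        Finset.mem_singleton]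
      constructor
      · intro h
        have h' : InfinitePlace.mk φ = InfinitePlace.mk w.embedding := by
          rw [h, mk_embedding]
        rcases mk_eq_iff.mp h' with h'' | h''
        · left; exact h''
        · right; rw [← h'']; simp
      · rintro (h | h)
        · rw [h, mk_embedding]
        · rw [h, mk_conjugate_eq, mk_embedding]
    rw [hset, Finset.prod_pair hne.symm, ComplexEmbedding.conjugate_coe_eq,
      Complex.mul_conj]
  rw [Finset.prod_congr rfl (fun w _ => h2 w)] at h1
  have h3 : (algebraMap ℚ ℂ) (Algebra.norm ℚ x)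
      = ((∏ w : InfinitePlace F, Complex.normSq (w.embedding x) : ℝ) : ℂ) := by
    rw [h1]; push_cast; rfl
  have h4 : ((Algebra.norm ℚ x : ℚ) : ℝ) = ∏ w : InfinitePlace F, Complex.normSq (w.embedding x) := by
    have : (algebraMap ℚ ℂ) (Algebra.norm ℚ x) = (((Algebra.norm ℚ x : ℚ) : ℝ) : ℂ) := by
      simp
    rw [this] at h3
    exact_mod_cast h3
  have h5 : (0 : ℝ) < ((Algebra.norm ℚ x : ℚ) : ℝ) := by
    rw [h4]
    refine Finset.prod_pos fun w _ => ?_
    exact Complex.normSq_pos.mpr ((map_ne_zero _).mpr hx)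
  exact_mod_cast h5

theorem finprod_absNorm_pow_multiplicity (F : Type*) [Field F] [NumberField F] (β : 𝓞 F)
    (hβ : β ≠ 0) :
    ∏ᶠ v : HeightOneSpectrum (𝓞 F),
        Ideal.absNorm v.asIdeal ^ multiplicity v.asIdeal (Ideal.span {β})
      = (Algebra.norm ℤ β).natAbs := by
  have hI : Ideal.span {β} ≠ (⊥ : Ideal (𝓞 F)) := by
    rwa [Ne, Ideal.span_singleton_eq_bot]
  have h1 := Ideal.finprod_heightOneSpectrum_pow_multiplicity hI
  have hfin : (Function.mulSupport fun v : HeightOneSpectrum (𝓞 F) =>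
      v.asIdeal ^ multiplicity v.asIdeal (Ideal.span {β})).Finite := by
    have := Ideal.hasFiniteMulSupport (R := 𝓞 F) hI
    simp only [HeightOneSpectrum.maxPowDividing_eq_pow_multiplicity hI] at this
    exact this
  have h2 := MonoidHom.map_finprod (Ideal.absNorm (S := 𝓞 F)).toMonoidHom hfin
  rw [h1] at h2
  have h3 : (Ideal.absNorm (S := 𝓞 F)).toMonoidHom (Ideal.span {β}) = (Algebra.norm ℤ β).natAbs :=
    Ideal.absNorm_span_singleton β
  rw [← h3, h2]
  refine finprod_congr fun v => ?_
  exact (map_pow _ _ _).symm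

/-- In a totally complex number field the norm of a nonzero integer is a positive integer. -/
theorem norm_int_pos (F : Type*) [Field F] [NumberField F] [IsTotallyComplex F]
    (β : 𝓞 F) (hβ : β ≠ 0) : 0 < Algebra.norm ℤ β := by
  have h := norm_pos_of_isTotallyComplex F (β : F) (by exact_mod_cast hβ)
  rw [← Algebra.coe_norm_int] at h
  exact_mod_cast h

/-- **Cyclotomic reciprocity, arithmetic core.** If `β ≡ 1 mod m` in the ring of integers of a
totally complex number field, then `∏_v N(v)^{v(β)} ≡ 1 mod m`. -/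
theorem finprod_absNorm_modEq_one (F : Type*) [Field F] [NumberField F] [IsTotallyComplex F]
    (m : ℕ) (β : 𝓞 F) (hβ0 : β ≠ 0) (hβ : (m : 𝓞 F) ∣ β - 1) :
    (∏ᶠ v : HeightOneSpectrum (𝓞 F),
        Ideal.absNorm v.asIdeal ^ multiplicity v.asIdeal (Ideal.span {β})) ≡ 1 [MOD m] := by
  rw [finprod_absNorm_pow_multiplicity F β hβ0]
  have hpos := norm_int_pos F β hβ0
  have hdvd := norm_sub_one_dvd m β hβ
  rw [← Int.natCast_modEq_iff, Int.natCast_natAbs, abs_of_pos hpos, Nat.cast_one]
  exact Int.modEq_iff_dvd.mpr (by rw [← neg_sub]; exact (dvd_neg.mpr hdvd))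

/-! ### The norm character on divisors -/

section absolute

variable {F : Type*} [Field F] [NumberField F]

/-- Bridge to `S14x.ord`: on nonzero integers `ord v` is the multiplicity of `v` in `(b)`. -/
theorem ord_coe_eq_multiplicity (v : Pl F) (b : 𝓞 F) (hb : b ≠ 0) :
    ord v (b : F) = (multiplicity v.asIdeal (Ideal.span {b}) : ℤ) := by
  unfold ord
  rw [HeightOneSpectrum.valuation_of_algebraMap,
    HeightOneSpectrum.intValuation_eq_exp_neg_multiplicity v hb]
  simp

/-- If `m ∣ b - 1` and `v ∣ b` then `m ∉ v`. -/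
theorem natCast_notMem_of_dvd_sub_one (v : Pl F) (m : ℕ) (b : 𝓞 F) (hb : (m : 𝓞 F) ∣ b - 1)
    (hv : b ∈ v.asIdeal) : (m : 𝓞 F) ∉ v.asIdeal := by
  intro hm
  have h1 : b - 1 ∈ v.asIdeal := v.asIdeal.mem_of_dvd hb hm
  have h2 : (1 : 𝓞 F) ∈ v.asIdeal := by
    have := v.asIdeal.sub_mem hv h1
    simpa using this
  exact v.isPrime.ne_top ((Ideal.eq_top_iff_one _).mpr h2)

/-- The absolute norm of a prime not containing `m` is prime to `m`. -/
theorem coprime_absNorm_of_notMem (v : Pl F) (m : ℕ) (hm : (m : 𝓞 F) ∉ v.asIdeal) :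
    Nat.Coprime (Ideal.absNorm v.asIdeal) m := by
  haveI : v.asIdeal.IsMaximal := v.isMaximal
  letI : Field (𝓞 F ⧸ v.asIdeal) := Ideal.Quotient.field _
  haveI : Finite (𝓞 F ⧸ v.asIdeal) := Ideal.finiteQuotientOfFreeOfNeBot _ v.ne_bot
  obtain ⟨q, hq⟩ := CharP.exists (𝓞 F ⧸ v.asIdeal)
  haveI := hq
  letI := Fintype.ofFinite (𝓞 F ⧸ v.asIdeal)
  obtain ⟨n, hqp, hn⟩ := FiniteField.card (𝓞 F ⧸ v.asIdeal) q
  have habs : Ideal.absNorm v.asIdeal = q ^ (n : ℕ) := by
    rw [Ideal.absNorm_apply, Submodule.cardQuot_apply, Nat.card_eq_fintype_card, hn]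
  rw [habs]
  refine Nat.Coprime.pow_left _ ?_
  rw [Nat.Prime.coprime_iff_not_dvd hqp]
  intro hdvd
  apply hm
  rw [← Ideal.Quotient.eq_zero_iff_mem, map_natCast]
  exact (CharP.cast_eq_zero_iff _ q m).mpr hdvd

/-- The class of `N(v)` in `(ℤ/m)ˣ` (`1` if `N(v)` is not prime to `m`). -/
noncomputable def nrmUnit (m : ℕ) (v : Pl F) : (ZMod m)ˣ :=
  if h : Nat.Coprime (Ideal.absNorm v.asIdeal) m then ZMod.unitOfCoprime _ h else 1

theorem coe_nrmUnit (m : ℕ) (v : Pl F) (h : Nat.Coprime (Ideal.absNorm v.asIdeal) m) :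
    ((nrmUnit m v : (ZMod m)ˣ) : ZMod m) = (Ideal.absNorm v.asIdeal : ZMod m) := by
  rw [nrmUnit, dif_pos h, ZMod.coe_unitOfCoprime]

/-- The norm character modulo `m` on divisors: `[v] ↦ N(v) mod m`. -/
noncomputable def normChar (m : ℕ) : Dv F →+ Additive (ZMod m)ˣ :=
  Finsupp.liftAddHom (fun v : Pl F => zmultiplesHom _ (Additive.ofMul (nrmUnit m v)))

theorem normChar_single (m : ℕ) (v : Pl F) (n : ℤ) :
    normChar m (Finsupp.single v n) = n • Additive.ofMul (nrmUnit m v) := by
  simp [normChar]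

theorem normChar_apply (m : ℕ) (D : Dv F) :
    normChar m D = D.sum fun v n => n • Additive.ofMul (nrmUnit m v) := by
  rw [normChar, Finsupp.liftAddHom_apply]
  rfl

theorem mem_asIdeal_of_ord_ne_zero (v : Pl F) (b : 𝓞 F) (hb : b ≠ 0) (h : ord v (b : F) ≠ 0) :
    b ∈ v.asIdeal := by
  rw [ord_coe_eq_multiplicity v b hb] at h
  have h' : multiplicity v.asIdeal (Ideal.span {b}) ≠ 0 := by
    intro h0; apply h; rw [h0]; rfl
  have hdvd : v.asIdeal ∣ Ideal.span {b} := by
    by_contra hnd
    exact h' (multiplicity_eq_zero.mpr hnd)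
  exact (Ideal.dvd_span_singleton).mp hdvd

/-- **Cyclotomic reciprocity, arithmetic form.**  In a totally complex number field, the norm
character modulo `m` kills the divisor of any integer `b ≡ 1 mod m`. -/
theorem normChar_div_eq_zero [IsTotallyComplex F] (m : ℕ) (b : 𝓞 F) (hb0 : b ≠ 0)
    (hb : (m : 𝓞 F) ∣ b - 1) : normChar m (div (b : F)) = 0 := by
  classical
  rw [normChar_apply, Finsupp.sum]
  apply Additive.toMul.injective
  rw [toMul_sum, toMul_zero]
  apply Units.ext
  rw [Units.val_one, Units.coe_prod]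
  have hterm : ∀ v ∈ (div (b : F)).support,
      (((Additive.toMul ((div (b : F)) v • Additive.ofMul (nrmUnit m v)) : (ZMod m)ˣ)) : ZMod m)
        = ((Ideal.absNorm v.asIdeal ^ multiplicity v.asIdeal (Ideal.span {b}) : ℕ) : ZMod m) := by
    intro v hv
    have hv' : ord v (b : F) ≠ 0 := by
      simpa using Finsupp.mem_support_iff.mp hv
    have hmem := mem_asIdeal_of_ord_ne_zero v b hb0 hv'
    have hcop := coprime_absNorm_of_notMem v m (natCast_notMem_of_dvd_sub_one v m b hb hmem)
    rw [divisor_apply, ord_coe_eq_multiplicity v b hb0, toMul_zsmul, toMul_ofMul, zpow_natCast,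
      Units.val_pow_eq_pow_val, coe_nrmUnit m v hcop, Nat.cast_pow]
  rw [Finset.prod_congr rfl hterm, ← Nat.cast_prod]
  have hfin : (∏ v ∈ (div (b : F)).support,
      Ideal.absNorm v.asIdeal ^ multiplicity v.asIdeal (Ideal.span {b}))
      = ∏ᶠ v : HeightOneSpectrum (𝓞 F),
        Ideal.absNorm v.asIdeal ^ multiplicity v.asIdeal (Ideal.span {b}) := by
    symm
    apply finprod_eq_prod_of_mulSupport_subset
    intro v hv
    rw [Function.mem_mulSupport] at hv
    rw [Finset.mem_coe, Finsupp.mem_support_iff, divisor_apply, ord_coe_eq_multiplicity v b hb0]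
    intro h0
    apply hv
    have : multiplicity v.asIdeal (Ideal.span {b}) = 0 := by exact_mod_cast h0
    rw [this, pow_zero]
  rw [hfin]
  have := finprod_absNorm_modEq_one F m b hb0 hb
  have h2 := (ZMod.natCast_eq_natCast_iff _ _ m).mpr this
  rw [h2, Nat.cast_one]

end absolute

section relative

variable (F : Type*) [Field F] [NumberField F] {F' : Type*} [Field F'] [NumberField F']
  [Algebra F F']

theorem absNorm_eq_pow_fOf (w : Pl F') :
    Ideal.absNorm w.asIdeal = Ideal.absNorm (below F w).asIdeal ^ fOf F w := by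
  have hlo : w.asIdeal.LiesOver (below F w).asIdeal := ⟨rfl⟩
  haveI : (below F w).asIdeal.IsMaximal := (below F w).isMaximal
  haveI : w.asIdeal.IsMaximal := w.isMaximal
  rw [fOf, ← Ideal.inertiaDeg'_eq_inertiaDeg (below F w).asIdeal w.asIdeal]
  exact Ideal.absNorm_eq_pow_inertiaDeg'_of_liesOver w.asIdeal (below F w).asIdeal
    (below F w).isPrime (below F w).ne_bot

theorem fOf_pos' (w : Pl F') : 0 < fOf F w := by
  haveI : w.asIdeal.IsPrime := w.isPrime
  exact Ideal.inertiaDeg_pos w.asIdeal (𝓞 F)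

theorem nrmUnit_eq_pow (m : ℕ) (w : Pl F') :
    nrmUnit m w = nrmUnit m (below F w) ^ fOf F w := by
  have habs := absNorm_eq_pow_fOf F w
  have hf := fOf_pos' F w
  by_cases h : Nat.Coprime (Ideal.absNorm (below F w).asIdeal) m
  · have h' : Nat.Coprime (Ideal.absNorm w.asIdeal) m := by
      rw [habs]; exact Nat.Coprime.pow_left _ h
    apply Units.ext
    rw [Units.val_pow_eq_pow_val]
    rw [nrmUnit, dif_pos h', nrmUnit, dif_pos h, ZMod.coe_unitOfCoprime, ZMod.coe_unitOfCoprime,
      habs, Nat.cast_pow]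
  · have h' : ¬ Nat.Coprime (Ideal.absNorm w.asIdeal) m := by
      rw [habs]
      intro hc
      exact h ((Nat.coprime_pow_left_iff hf _ _).mp hc)
    rw [nrmUnit, dif_neg h', nrmUnit, dif_neg h, one_pow]

/-- The norm character is compatible with the norm of divisors. -/
theorem normChar_normDiv (m : ℕ) (D : Dv F') : normChar m (normDiv F D) = normChar m D := by
  induction D using Finsupp.induction_linear with
  | zero => simp
  | add D₁ D₂ h₁ h₂ => rw [map_add, map_add, map_add, h₁, h₂]
  | single w n =>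
    have h1 : normDiv F (Finsupp.single w n) = Finsupp.single (below F w) ((fOf F w : ℤ) * n) := by
      simp [normDiv]
    rw [h1, normChar_single, normChar_single, nrmUnit_eq_pow F m w, ofMul_pow, mul_comm, mul_smul,
      natCast_zsmul]

end relative

end Fermat.Agent.S14B2
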