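/-
S14 (ExtVanishingCts), Part B, leaf file 1: Frobenius elements.

`IsFrobPow F σ w n` says that `σ ∈ Gal(F'/F)` induces `x ↦ x ^ n` on the residue field of the
prime `w` of `F'`.  We prove existence (`n = N(w ∩ F)`), the action on roots of unity, powers,
conjugation, uniqueness under trivial inertia, the `f = 1` criterion, and the behaviour in
towers (restriction to a normal subextension, restriction of scalars), together with the
transitivity of `below`, `fOf`, `eOf` and `normDiv`.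
-/
import Fermat.Agent.S14_Div
import Fermat.Agent.S14_DivBasic
import Fermat.Agent.S14_CycRec

set_option autoImplicit false

namespace Fermat.Agent.S14x

open IsDedekindDomain NumberField

section frob

variable (F : Type) [Field F] [NumberField F] {F' : Type} [Field F'] [NumberField F']
  [Algebra F F']

/-- `σ` induces `x ↦ x ^ n` on the residue field of `w` (a "Frobenius power" at `w`). -/
def IsFrobPow (σ : F' ≃ₐ[F] F') (w : Pl F') (n : ℕ) : Prop :=
  ∀ x : 𝓞 F', vGe w 1 (σ (x : F') - (x : F') ^ n)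

/-- the (NF)-shape of "trivial inertia at `w`". -/
def InertiaTrivialAt (w : Pl F') : Prop :=
  ∀ t : F' ≃ₐ[F] F', (∀ x : 𝓞 F', ∃ y ∈ w.asIdeal, t (x : F') - (x : F') = (y : F')) → t = 1

variable {F}

/-! ### bridges to the ring of integers -/

theorem frob_coe_galRestrict (σ : F' ≃ₐ[F] F') (x : 𝓞 F') :
    ((galRestrict (𝓞 F) F F' (𝓞 F') σ x : 𝓞 F') : F') = σ (x : F') :=
  algebraMap_galRestrict_apply (𝓞 F) σ x

theorem frob_galRestrict_eq_smul (σ : F' ≃ₐ[F] F') (x : 𝓞 F') :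
    galRestrict (𝓞 F) F F' (𝓞 F') σ x = σ • x := by
  apply RingOfIntegers.ext
  rw [frob_coe_galRestrict]
  rfl

theorem frob_coe_sub_pow (σ : F' ≃ₐ[F] F') (x : 𝓞 F') (n : ℕ) :
    ((galRestrict (𝓞 F) F F' (𝓞 F') σ x - x ^ n : 𝓞 F') : F') = σ (x : F') - (x : F') ^ n := by
  rw [← frob_coe_galRestrict σ x]
  show (algebraMap (𝓞 F') F') _ = (algebraMap (𝓞 F') F') _ - (algebraMap (𝓞 F') F') x ^ n
  rw [map_sub, map_pow]

/-- `IsFrobPow` in terms of the prime ideal `w` of the ring of integers. -/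
theorem isFrobPow_iff_mem (σ : F' ≃ₐ[F] F') (w : Pl F') (n : ℕ) :
    IsFrobPow F σ w n ↔
      ∀ x : 𝓞 F', galRestrict (𝓞 F) F F' (𝓞 F') σ x - x ^ n ∈ w.asIdeal := by
  refine forall_congr' fun x => ?_
  rw [mem_asIdeal_iff, frob_coe_sub_pow]

theorem frob_card_quot_below (w : Pl F') :
    Nat.card (𝓞 F ⧸ w.asIdeal.under (𝓞 F)) = Ideal.absNorm (below F w).asIdeal := by
  rw [Ideal.absNorm_apply, Submodule.cardQuot_apply]
  rfl

/-- (L1) existence of a Frobenius element. -/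
theorem exists_isFrobPow [IsGalois F F'] (w : Pl F') :
    ∃ σ : F' ≃ₐ[F] F', IsFrobPow F σ w (Ideal.absNorm (below F w).asIdeal) := by
  haveI : SMulCommClass (F' ≃ₐ[F] F') (𝓞 F) (𝓞 F') :=
    (inferInstance : IsGaloisGroup (F' ≃ₐ[F] F') (𝓞 F) (𝓞 F')).commutes
  haveI : Finite (𝓞 F' ⧸ w.asIdeal) := Ideal.finiteQuotientOfFreeOfNeBot _ w.ne_bot
  obtain ⟨σ, hσ⟩ := IsArithFrobAt.exists_of_isInvariant (𝓞 F) (F' ≃ₐ[F] F') w.asIdeal
  refine ⟨σ, (isFrobPow_iff_mem σ w _).mpr fun x => ?_⟩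
  have := hσ x
  rw [frob_card_quot_below] at this
  rw [frob_galRestrict_eq_smul]
  exact this

/-- A ring endomorphism which is `x ↦ x ^ q` modulo `Q` raises the roots of unity of order
prime to `Q` to the power `q` (Mathlib's `AlgHom.IsArithFrobAt.apply_of_pow_eq_one` with an
arbitrary exponent). -/
theorem frob_apply_of_pow_eq_one {S : Type*} [CommRing S] [IsDomain S] (φ : S →+* S)
    (Q : Ideal S) (q : ℕ) (H : ∀ x, φ x - x ^ q ∈ Q) {ζ : S} {m : ℕ} (hζ : ζ ^ m = 1)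
    (hk' : (m : S) ∉ Q) : φ ζ = ζ ^ q := by
  have hm : m ≠ 0 := by rintro rfl; exact hk' (by simp)
  obtain ⟨k, hk, hζ⟩ := IsPrimitiveRoot.exists_pos hζ hm
  have hk' : (k : S) ∉ Q := fun h ↦ hk' (Q.mem_of_dvd (Nat.cast_dvd_cast (hζ.2 m ‹_›)) h)
  have : NeZero k := ⟨hk.ne'⟩
  obtain ⟨i, hi, e⟩ := hζ.eq_pow_of_pow_eq_one (ξ := φ ζ) (by rw [← map_pow, hζ.1, map_one])
  have (j : _) : 1 - ζ ^ ((q + k - i) * j) ∈ Q := by
    rw [← Ideal.mul_unit_mem_iff_mem _ ((hζ.isUnit NeZero.out).pow (i * j)),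
      sub_mul, one_mul, ← pow_add, ← add_mul, tsub_add_cancel_of_le (by linarith), add_mul,
        pow_add, pow_mul _ k, hζ.1, one_pow, mul_one, pow_mul, e, ← map_pow, mul_comm, pow_mul]
    exact H _
  have h₁ := sum_mem (t := Finset.range k) fun j _ ↦ this j
  have h₂ := geom_sum_mul (ζ ^ (q + k - i)) k
  rw [pow_right_comm, hζ.1, one_pow, sub_self, mul_eq_zero, sub_eq_zero] at h₂
  rcases h₂ with h₂ | h₂
  · simp [h₂, pow_mul, hk'] at h₁
  replace h₂ := congr($h₂ * ζ ^ i)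
  rw [one_mul, ← pow_add, tsub_add_cancel_of_le (by linarith), pow_add, hζ.1, mul_one] at h₂
  rw [h₂, e]

/-- (L2) action on roots of unity of order prime to `w`. -/
theorem IsFrobPow.apply_root {σ : F' ≃ₐ[F] F'} {w : Pl F'} {n : ℕ} (h : IsFrobPow F σ w n)
    {μ : F'} {m : ℕ} (hμ : μ ^ m = 1) (hm : ord w (m : F') = 0) (hm0 : m ≠ 0) :
    σ μ = μ ^ n := by
  have hint : IsIntegral ℤ μ := by
    refine ⟨Polynomial.X ^ m - 1, Polynomial.monic_X_pow_sub_C 1 hm0, ?_⟩
    simp [hμ]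
  obtain ⟨z, hzμ⟩ : ∃ z : 𝓞 F', (z : F') = μ := ⟨⟨μ, hint⟩, rfl⟩
  have hz : z ^ m = 1 := by
    apply RingOfIntegers.ext
    show (algebraMap (𝓞 F') F') (z ^ m) = algebraMap (𝓞 F') F' 1
    rw [map_pow, map_one]
    show (z : F') ^ m = 1
    rw [hzμ, hμ]
  have hmw : (m : 𝓞 F') ∉ w.asIdeal := by
    rw [mem_asIdeal_iff, vGe_iff]
    have hcoe : (((m : 𝓞 F') : 𝓞 F') : F') = (m : F') := map_natCast (algebraMap (𝓞 F') F') m
    rw [hcoe, hm]
    rintro (h0 | h1)
    · exact hm0 (by exact_mod_cast h0)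
    · omega
  have key := frob_apply_of_pow_eq_one
    ((galRestrict (𝓞 F) F F' (𝓞 F') σ : 𝓞 F' ≃ₐ[𝓞 F] 𝓞 F') : 𝓞 F' →+* 𝓞 F') w.asIdeal n
    ((isFrobPow_iff_mem σ w n).mp h) hz hmw
  have key2 := congrArg (fun y : 𝓞 F' => (y : F')) key
  have key3 : σ (z : F') = (z : F') ^ n := by
    rw [← frob_coe_galRestrict (F := F)]
    show _ = (algebraMap (𝓞 F') F' z) ^ _
    rw [← map_pow]
    exact key2
  rw [hzμ] at key3
  exact key3

theorem frob_mem_gsmul_iff (τ : F' ≃ₐ[F] F') (w : Pl F') (x : 𝓞 F') :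
    x ∈ (gsmul F τ w).asIdeal ↔ galRestrict (𝓞 F) F F' (𝓞 F') τ⁻¹ x ∈ w.asIdeal := Iff.rfl

/-- (L3) a Frobenius power (with `n ≠ 0`) fixes `w`. -/
theorem IsFrobPow.gsmul_eq {σ : F' ≃ₐ[F] F'} {w : Pl F'} {n : ℕ} (h : IsFrobPow F σ w n)
    (hn : n ≠ 0) : gsmul F σ w = w := by
  have h' := (isFrobPow_iff_mem σ w n).mp h
  apply HeightOneSpectrum.ext
  ext x
  rw [frob_mem_gsmul_iff]
  set y := galRestrict (𝓞 F) F F' (𝓞 F') σ⁻¹ x with hy
  have hxy : galRestrict (𝓞 F) F F' (𝓞 F') σ y = x := by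
    rw [hy, ← AlgEquiv.mul_apply, ← map_mul, mul_inv_cancel, map_one, AlgEquiv.one_apply]
  have hyw := h' y
  rw [hxy] at hyw
  constructor
  · intro hmem
    have : y ^ n ∈ w.asIdeal := Ideal.pow_mem_of_mem _ hmem n (Nat.pos_of_ne_zero hn)
    have := w.asIdeal.add_mem hyw this
    rwa [sub_add_cancel] at this
  · intro hmem
    have : y ^ n ∈ w.asIdeal := by
      have := w.asIdeal.sub_mem hmem hyw
      rwa [sub_sub_cancel] at this
    exact w.isPrime.mem_of_pow_mem n this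

/-- (L4) powers. -/
theorem IsFrobPow.pow {σ : F' ≃ₐ[F] F'} {w : Pl F'} {n : ℕ} (h : IsFrobPow F σ w n)
    (hn : n ≠ 0) (k : ℕ) : IsFrobPow F (σ ^ k) w (n ^ k) := by
  have h' := (isFrobPow_iff_mem σ w n).mp h
  rw [isFrobPow_iff_mem]
  induction k with
  | zero => intro x; simp
  | succ k ih =>
    intro x
    set y := galRestrict (𝓞 F) F F' (𝓞 F') σ x with hy
    have h1 := ih y
    have h2 : y ^ (n ^ k) - (x ^ n) ^ (n ^ k) ∈ w.asIdeal :=
      w.asIdeal.mem_of_dvd (sub_dvd_pow_sub_pow y (x ^ n) (n ^ k)) (h' x)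
    have h3 := w.asIdeal.add_mem h1 h2
    rw [sub_add_sub_cancel, ← pow_mul, ← pow_succ'] at h3
    have h4 : galRestrict (𝓞 F) F F' (𝓞 F') (σ ^ (k + 1)) x
        = galRestrict (𝓞 F) F F' (𝓞 F') (σ ^ k) y := by
      rw [pow_succ, map_mul, AlgEquiv.mul_apply]
    rw [h4]
    exact h3

/-- (L5) conjugation. -/
theorem IsFrobPow.conj {σ : F' ≃ₐ[F] F'} {w : Pl F'} {n : ℕ} (h : IsFrobPow F σ w n)
    (τ : F' ≃ₐ[F] F') : IsFrobPow F (τ * σ * τ⁻¹) (gsmul F τ w) n := by
  have h' := (isFrobPow_iff_mem σ w n).mp h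
  rw [isFrobPow_iff_mem]
  intro x
  rw [frob_mem_gsmul_iff, map_sub, map_pow]
  have := h' (galRestrict (𝓞 F) F F' (𝓞 F') τ⁻¹ x)
  convert this using 2
  rw [← AlgEquiv.mul_apply, ← AlgEquiv.mul_apply, ← map_mul, ← map_mul]
  congr 2
  group

/-- (L6) uniqueness when the inertia at `w` is trivial. -/
theorem IsFrobPow.unique {σ τ : F' ≃ₐ[F] F'} {w : Pl F'} {n : ℕ} (hσ : IsFrobPow F σ w n)
    (hτ : IsFrobPow F τ w n) (hn : n ≠ 0) (hw : InertiaTrivialAt F w) : σ = τ := by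
  have hσ' := (isFrobPow_iff_mem σ w n).mp hσ
  have hτ' := (isFrobPow_iff_mem τ w n).mp hτ
  have key : σ * τ⁻¹ = 1 := by
    apply hw
    intro x
    have e1 := hσ' (galRestrict (𝓞 F) F F' (𝓞 F') τ⁻¹ x)
    have e2 := hτ' (galRestrict (𝓞 F) F F' (𝓞 F') τ⁻¹ x)
    have e3 := w.asIdeal.sub_mem e1 e2
    rw [sub_sub_sub_cancel_right, ← AlgEquiv.mul_apply, ← AlgEquiv.mul_apply, ← map_mul,
      ← map_mul, mul_inv_cancel, map_one, AlgEquiv.one_apply] at e3
    refine ⟨_, e3, ?_⟩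
    show _ = (algebraMap (𝓞 F') F') _
    rw [map_sub]
    show _ = ((galRestrict (𝓞 F) F F' (𝓞 F') (σ * τ⁻¹) x : 𝓞 F') : F') - (x : F')
    rw [frob_coe_galRestrict]
  exact mul_inv_eq_one.mp key

/-- (L9) norms of primes in an extension. -/
theorem absNorm_eq_pow_fOf (w : Pl F') :
    Ideal.absNorm w.asIdeal = Ideal.absNorm (below F w).asIdeal ^ fOf F w :=
  Fermat.Agent.S14B2.absNorm_eq_pow_fOf F w

/-- (L10) if the identity is a Frobenius power with exponent `N(v)`, the residue degree is one. -/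
theorem fOf_eq_one_of_isFrobPow_one {w : Pl F'}
    (h : IsFrobPow F (1 : F' ≃ₐ[F] F') w (Ideal.absNorm (below F w).asIdeal)) : fOf F w = 1 := by
  classical
  have h' := (isFrobPow_iff_mem _ w _).mp h
  haveI : w.asIdeal.IsMaximal := w.isMaximal
  letI : Field (𝓞 F' ⧸ w.asIdeal) := Ideal.Quotient.field _
  haveI : Finite (𝓞 F' ⧸ w.asIdeal) := Ideal.finiteQuotientOfFreeOfNeBot _ w.ne_bot
  letI := Fintype.ofFinite (𝓞 F' ⧸ w.asIdeal)
  set N := Ideal.absNorm (below F w).asIdeal with hN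
  have hcard : Ideal.absNorm w.asIdeal = Fintype.card (𝓞 F' ⧸ w.asIdeal) := by
    rw [Ideal.absNorm_apply, Submodule.cardQuot_apply, Nat.card_eq_fintype_card]
  have hN2 : 2 ≤ N := by
    have h1 : N ≠ 1 := by
      intro h1
      exact (below F w).isPrime.ne_top (Ideal.absNorm_eq_one_iff.mp h1)
    have h0 : N ≠ 0 := by
      intro h0
      exact (below F w).ne_bot (Ideal.absNorm_eq_zero_iff.mp h0)
    omega
  have hroot : ∀ a : 𝓞 F' ⧸ w.asIdeal, a ^ N = a := by
    intro a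
    obtain ⟨x, rfl⟩ := Ideal.Quotient.mk_surjective a
    have := h' x
    rw [map_one, AlgEquiv.one_apply] at this
    rw [← map_pow]
    exact (Ideal.Quotient.eq.mpr this).symm
  have hdeg : (Polynomial.X ^ N - Polynomial.X : Polynomial (𝓞 F' ⧸ w.asIdeal)).natDegree = N :=
    FiniteField.X_pow_card_sub_X_natDegree_eq _ (by omega)
  have hne : (Polynomial.X ^ N - Polynomial.X : Polynomial (𝓞 F' ⧸ w.asIdeal)) ≠ 0 :=
    FiniteField.X_pow_card_sub_X_ne_zero _ (by omega)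
  have hle : Fintype.card (𝓞 F' ⧸ w.asIdeal) ≤ N := by
    rw [← hdeg, ← Finset.card_univ]
    apply Polynomial.card_le_degree_of_subset_roots
    intro a _
    rw [Polynomial.mem_roots hne]
    simp [hroot a]
  rw [← hcard, Fermat.Agent.S14B2.absNorm_eq_pow_fOf F w] at hle
  have hf := Fermat.Agent.S14B2.fOf_pos' F w
  by_contra hne1
  have h2 : 2 ≤ fOf F w := by omega
  have h3 : N ^ 2 ≤ N ^ fOf F w := Nat.pow_le_pow_right (by omega) h2
  nlinarith

/-! ### inertia -/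

theorem frob_card_inertia_eq_eOf [IsGalois F F'] (w : Pl F') :
    Nat.card (w.asIdeal.inertia (F' ≃ₐ[F] F')) = eOf F w := by
  have hlo : w.asIdeal.LiesOver (below F w).asIdeal := ⟨rfl⟩
  have h1 := Ideal.card_inertia_eq_ramificationIdxIn (G := F' ≃ₐ[F] F') (below F w).asIdeal
    w.asIdeal
  have h2 := Ideal.ramificationIdxIn_eq_ramificationIdx (below F w).asIdeal w.asIdeal
    (F' ≃ₐ[F] F')
  have h3 := Ideal.ramificationIdx'_eq_ramificationIdx (below F w).asIdeal w.asIdeal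
    (below F w).ne_bot
  rw [h1, h2, ← h3]
  rfl

theorem frob_mem_inertia_iff (w : Pl F') (t : F' ≃ₐ[F] F') :
    t ∈ w.asIdeal.inertia (F' ≃ₐ[F] F') ↔
      ∀ x : 𝓞 F', ∃ y ∈ w.asIdeal, t (x : F') - (x : F') = (y : F') := by
  constructor
  · intro ht x
    exact ⟨t • x - x, ht x, rfl⟩
  · intro ht x
    obtain ⟨y, hy, hxy⟩ := ht x
    have : t • x - x = y := by
      apply RingOfIntegers.ext
      rw [← hxy]
      rfl
    rw [this]
    exact hy

theorem inertiaTrivialAt_iff_eOf_eq_one [IsGalois F F'] (w : Pl F') :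
    InertiaTrivialAt F w ↔ eOf F w = 1 := by
  rw [← frob_card_inertia_eq_eOf (F := F) w]
  constructor
  · intro h
    rw [Nat.card_eq_one_iff_unique]
    refine ⟨⟨fun a b => ?_⟩, ⟨1⟩⟩
    have ha := h a.1 ((frob_mem_inertia_iff w a.1).mp a.2)
    have hb := h b.1 ((frob_mem_inertia_iff w b.1).mp b.2)
    exact Subtype.ext (ha.trans hb.symm)
  · intro h t ht
    have hsub : Subsingleton (w.asIdeal.inertia (F' ≃ₐ[F] F')) :=
      (Nat.card_eq_one_iff_unique.mp h).1
    have h1 : (⟨t, (frob_mem_inertia_iff w t).mpr ht⟩ : w.asIdeal.inertia (F' ≃ₐ[F] F')) = 1 :=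
      Subsingleton.elim _ _
    exact congrArg Subtype.val h1

/-- trivial inertia (NF-form) everywhere implies `Unramified` (card of inertia = e). -/
theorem unramified_of_inertiaTrivial [IsGalois F F'] (h : ∀ w : Pl F', InertiaTrivialAt F w) :
    Unramified F F' :=
  fun w => (inertiaTrivialAt_iff_eOf_eq_one w).mp (h w)

/-- and conversely. -/
theorem inertiaTrivialAt_of_eOf_eq_one [IsGalois F F'] (w : Pl F') (h : eOf F w = 1) :
    InertiaTrivialAt F w :=
  (inertiaTrivialAt_iff_eOf_eq_one w).mpr h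

end frob

section tower

variable {K : Type} [Field K] [NumberField K] {L : Type} [Field L] [NumberField L]
  [Algebra K L] {Ω : Type} [Field Ω] [NumberField Ω] [Algebra K Ω] [Algebra L Ω]
  [IsScalarTower K L Ω]

/-- transitivity of `below`. -/
theorem below_below (w : Pl Ω) : below K (below L w) = below K w := by
  apply HeightOneSpectrum.ext
  exact Ideal.under_under (A := 𝓞 K) (B := 𝓞 L) w.asIdeal

/-- multiplicativity of the residue degree. -/
theorem fOf_tower (w : Pl Ω) : fOf K w = fOf K (below L w) * fOf L w := by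
  have hlo : w.asIdeal.LiesOver (below L w).asIdeal := ⟨rfl⟩
  exact Ideal.inertiaDeg_tower (R := 𝓞 K) (below L w).asIdeal w.asIdeal

/-- multiplicativity of the ramification index. -/
theorem eOf_tower (w : Pl Ω) : eOf K w = eOf K (below L w) * eOf L w := by
  have hlo : w.asIdeal.LiesOver (below L w).asIdeal := ⟨rfl⟩
  have hlo2 : w.asIdeal.LiesOver (below K w).asIdeal := ⟨rfl⟩
  have hlo3 : (below L w).asIdeal.LiesOver (below K (below L w)).asIdeal := ⟨rfl⟩
  have h1 : eOf K w = w.asIdeal.ramificationIdx (𝓞 K) :=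
    Ideal.ramificationIdx'_eq_ramificationIdx (below K w).asIdeal w.asIdeal (below K w).ne_bot
  have h2 : eOf L w = w.asIdeal.ramificationIdx (𝓞 L) :=
    Ideal.ramificationIdx'_eq_ramificationIdx (below L w).asIdeal w.asIdeal (below L w).ne_bot
  have h3 : eOf K (below L w) = (below L w).asIdeal.ramificationIdx (𝓞 K) :=
    Ideal.ramificationIdx'_eq_ramificationIdx (below K (below L w)).asIdeal (below L w).asIdeal
      (below K (below L w)).ne_bot
  rw [h1, h2, h3]
  exact Ideal.ramificationIdx_tower (below L w).asIdeal w.asIdeal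

theorem frob_normDiv_single (F : Type) [Field F] [NumberField F] {F' : Type} [Field F']
    [NumberField F'] [Algebra F F'] (w : Pl F') (n : ℤ) :
    normDiv F (Finsupp.single w n) = Finsupp.single (below F w) ((fOf F w : ℤ) * n) := by
  unfold normDiv
  rw [Finsupp.liftAddHom_apply_single]
  rfl

/-- transitivity of the norm of divisors. -/
theorem normDiv_normDiv (D : Dv Ω) : normDiv K (normDiv L D) = normDiv K D := by
  induction D using Finsupp.induction_linear with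
  | zero => simp
  | add D₁ D₂ h₁ h₂ => rw [map_add, map_add, map_add, h₁, h₂]
  | single w n =>
    rw [frob_normDiv_single L w n, frob_normDiv_single K (below L w), frob_normDiv_single K w n,
      below_below, fOf_tower (K := K) (L := L) w, Nat.cast_mul, mul_assoc]

/-- (L7) restriction of a Frobenius power to a normal subextension. -/
theorem IsFrobPow.restrictNormal [Normal K L] {σ : Ω ≃ₐ[K] Ω} {w : Pl Ω} {n : ℕ}
    (h : IsFrobPow K σ w n) : IsFrobPow K (σ.restrictNormal L) (below L w) n := by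
  rw [isFrobPow_iff_mem]
  intro x
  show algebraMap (𝓞 L) (𝓞 Ω) _ ∈ w.asIdeal
  have h' := (isFrobPow_iff_mem σ w n).mp h (algebraMap (𝓞 L) (𝓞 Ω) x)
  convert h' using 1
  apply RingOfIntegers.ext
  rw [frob_coe_sub_pow]
  show algebraMap L Ω ((galRestrict (𝓞 K) K L (𝓞 L) (σ.restrictNormal L) x - x ^ n : 𝓞 L) : L) = _
  rw [frob_coe_sub_pow, map_sub, map_pow, AlgEquiv.restrictNormal_commutes]
  rfl

/-- (L8) a Frobenius power over `L` is one over `K`. -/
theorem IsFrobPow.restrictScalars {σ : Ω ≃ₐ[L] Ω} {w : Pl Ω} {n : ℕ}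
    (h : IsFrobPow L σ w n) : IsFrobPow K (σ.restrictScalars K) w n :=
  fun x => h x

end tower

end Fermat.Agent.S14x
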