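/-
S14 (ExtVanishingCts), Part B, Frobenius elements II (complements to `S14_Frob`):
order of the Frobenius, primes above a given prime and transitivity, a common Frobenius for
all primes above `v` in an abelian extension, invariance of the norm under automorphisms, and
the semilinear conjugation `Frob(s w) = s Frob(w) s⁻¹` for `s ∈ Gal(L/k)`, `k ⊆ K ⊆ L`.
-/
import Fermat.Agent.S14_Div
import Fermat.Agent.S14_DivBasic
import Fermat.Agent.S14_Frob

set_option autoImplicit false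

namespace Fermat.Agent.S14x

open IsDedekindDomain NumberField

section more

variable {F : Type} [Field F] [NumberField F] {F' : Type} [Field F'] [NumberField F']
  [Algebra F F']

theorem frob_absNorm_ne_zero (v : Pl F) : Ideal.absNorm v.asIdeal ≠ 0 := fun h0 =>
  v.ne_bot (Ideal.absNorm_eq_zero_iff.mp h0)

theorem frob_pow_absNorm_sub_mem (w : Pl F') (x : 𝓞 F') :
    x ^ Ideal.absNorm w.asIdeal - x ∈ w.asIdeal := by
  haveI : w.asIdeal.IsMaximal := w.isMaximal
  letI : Field (𝓞 F' ⧸ w.asIdeal) := Ideal.Quotient.field _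
  haveI : Finite (𝓞 F' ⧸ w.asIdeal) := Ideal.finiteQuotientOfFreeOfNeBot _ w.ne_bot
  letI := Fintype.ofFinite (𝓞 F' ⧸ w.asIdeal)
  have hcard : Ideal.absNorm w.asIdeal = Fintype.card (𝓞 F' ⧸ w.asIdeal) := by
    rw [Ideal.absNorm_apply, Submodule.cardQuot_apply, Nat.card_eq_fintype_card]
  rw [← Ideal.Quotient.eq, map_pow, hcard]
  exact FiniteField.pow_card _

/-- The identity induces `x ↦ x ^ N(w)` on the residue field of `w`. -/
theorem isFrobPow_one_absNorm (w : Pl F') :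
    IsFrobPow F (1 : F' ≃ₐ[F] F') w (Ideal.absNorm w.asIdeal) := by
  rw [isFrobPow_iff_mem]
  intro x
  rw [map_one, AlgEquiv.one_apply, ← neg_sub]
  exact w.asIdeal.neg_mem (frob_pow_absNorm_sub_mem w x)

/-- At a prime with trivial inertia, the order of the Frobenius divides the residue degree. -/
theorem IsFrobPow.pow_fOf_eq_one {σ : F' ≃ₐ[F] F'} {w : Pl F'}
    (h : IsFrobPow F σ w (Ideal.absNorm (below F w).asIdeal)) (hw : InertiaTrivialAt F w) :
    σ ^ fOf F w = 1 := by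
  have h1 := h.pow (frob_absNorm_ne_zero _) (fOf F w)
  rw [← absNorm_eq_pow_fOf] at h1
  exact h1.unique (isFrobPow_one_absNorm w) (frob_absNorm_ne_zero _) hw

/-- At a prime of residue degree one with trivial inertia, the Frobenius is trivial. -/
theorem IsFrobPow.eq_one_of_fOf_eq_one {σ : F' ≃ₐ[F] F'} {w : Pl F'}
    (h : IsFrobPow F σ w (Ideal.absNorm (below F w).asIdeal)) (hw : InertiaTrivialAt F w)
    (hf : fOf F w = 1) : σ = 1 := by
  have := h.pow_fOf_eq_one hw
  rwa [hf, pow_one] at this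

/-- The Frobenius is trivial iff the residue degree is one (trivial inertia). -/
theorem IsFrobPow.eq_one_iff {σ : F' ≃ₐ[F] F'} {w : Pl F'}
    (h : IsFrobPow F σ w (Ideal.absNorm (below F w).asIdeal)) (hw : InertiaTrivialAt F w) :
    σ = 1 ↔ fOf F w = 1 :=
  ⟨fun h1 => fOf_eq_one_of_isFrobPow_one (h1 ▸ h), h.eq_one_of_fOf_eq_one hw⟩

/-! ### primes above, transitivity -/

open scoped Pointwise in
/-- `gsmul` is Mathlib's pointwise action on ideals. -/
theorem frob_gsmul_asIdeal_eq_smul (σ : F' ≃ₐ[F] F') (w : Pl F') :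
    (gsmul F σ w).asIdeal = σ • w.asIdeal := by
  ext x
  rw [frob_mem_gsmul_iff, frob_galRestrict_eq_smul, Ideal.mem_pointwise_smul_iff_inv_smul_mem]

/-- Every prime of `F` has a prime of `F'` above it. -/
theorem frob_exists_above (v : Pl F) : ∃ w : Pl F', below F w = v := by
  haveI : v.asIdeal.IsMaximal := v.isMaximal
  obtain ⟨Q, hQmax, hQover⟩ :=
    Ideal.exists_maximal_ideal_liesOver_of_isIntegral (S := 𝓞 F') v.asIdeal
  have hQne : Q ≠ ⊥ := by
    rintro rfl
    apply v.ne_bot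
    rw [hQover.over]
    exact Ideal.under_bot (𝓞 F) (𝓞 F')
  refine ⟨⟨Q, hQmax.isPrime, hQne⟩, ?_⟩
  apply HeightOneSpectrum.ext
  exact hQover.over.symm

open scoped Pointwise in
/-- The Galois group is transitive on the primes above a given prime. -/
theorem frob_exists_gsmul_eq [IsGalois F F'] {w w' : Pl F'} (h : below F w = below F w') :
    ∃ σ : F' ≃ₐ[F] F', gsmul F σ w = w' := by
  have hlo : w.asIdeal.LiesOver (below F w).asIdeal := ⟨rfl⟩
  have hlo' : w'.asIdeal.LiesOver (below F w).asIdeal := ⟨by rw [h]; rfl⟩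
  obtain ⟨σ, hσ⟩ := Ideal.exists_smul_eq_of_isGaloisGroup (below F w).asIdeal w.asIdeal
    w'.asIdeal (F' ≃ₐ[F] F')
  refine ⟨σ, ?_⟩
  apply HeightOneSpectrum.ext
  rw [frob_gsmul_asIdeal_eq_smul, hσ]

theorem frob_below_gsmul (τ : F' ≃ₐ[F] F') (w : Pl F') : below F (gsmul F τ w) = below F w := by
  apply HeightOneSpectrum.ext
  ext x
  show algebraMap (𝓞 F) (𝓞 F') x ∈ (gsmul F τ w).asIdeal ↔ algebraMap (𝓞 F) (𝓞 F') x ∈ w.asIdeal
  rw [frob_mem_gsmul_iff, AlgEquiv.commutes]

/-- In an abelian extension there is a Frobenius element valid at all primes above `v`. -/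
theorem exists_isFrobPow_forall [IsGalois F F']
    (hab : ∀ σ τ : F' ≃ₐ[F] F', σ * τ = τ * σ) (v : Pl F) :
    ∃ σ : F' ≃ₐ[F] F', ∀ w : Pl F', below F w = v →
      IsFrobPow F σ w (Ideal.absNorm v.asIdeal) := by
  obtain ⟨w0, hw0⟩ := frob_exists_above (F' := F') v
  obtain ⟨σ, hσ⟩ := exists_isFrobPow (F := F) w0
  refine ⟨σ, fun w hw => ?_⟩
  obtain ⟨τ, rfl⟩ := frob_exists_gsmul_eq (F := F) (w := w0) (w' := w) (by rw [hw0, hw])
  have := hσ.conj τ
  rw [hab τ σ, mul_inv_cancel_right, hw0] at this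
  exact this

end more

section semilinear

variable {k : Type} [Field k] [NumberField k] {K : Type} [Field K] [NumberField K]
  [Algebra k K] {L : Type} [Field L] [NumberField L] [Algebra k L] [Algebra K L]
  [IsScalarTower k K L]

/-- Automorphisms preserve the absolute norm of a prime. -/
theorem frob_absNorm_gsmul (δ : K ≃ₐ[k] K) (v : Pl K) :
    Ideal.absNorm (gsmul k δ v).asIdeal = Ideal.absNorm v.asIdeal := by
  let f : 𝓞 K ≃+* 𝓞 K := (galRestrict (𝓞 k) k K (𝓞 K) δ⁻¹ : 𝓞 K ≃ₐ[𝓞 k] 𝓞 K).toRingEquiv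
  have hmap : v.asIdeal = (gsmul k δ v).asIdeal.map (f : 𝓞 K →+* 𝓞 K) := by
    exact (Ideal.map_comap_of_surjective (f : 𝓞 K →+* 𝓞 K) f.surjective v.asIdeal).symm
  have e := Ideal.quotientEquiv (gsmul k δ v).asIdeal v.asIdeal f hmap
  rw [Ideal.absNorm_apply, Submodule.cardQuot_apply, Ideal.absNorm_apply,
    Submodule.cardQuot_apply]
  exact Nat.card_congr e.toEquiv

omit [Algebra k K] [IsScalarTower k K L] in
/-- Semilinear conjugation: if `τ = s σ s⁻¹` with `s ∈ Gal(L/k)` and `σ, τ ∈ Gal(L/K)`, and `σ`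
is a Frobenius power at `w`, then `τ` is one at `s w`. -/
theorem IsFrobPow.conj_semilinear (s : L ≃ₐ[k] L) {σ τ : L ≃ₐ[K] L}
    (hτ : ∀ x : L, τ x = s (σ (s.symm x))) {w : Pl L} {n : ℕ} (h : IsFrobPow K σ w n) :
    IsFrobPow K τ (gsmul k s w) n := by
  have h' := (isFrobPow_iff_mem σ w n).mp h
  rw [isFrobPow_iff_mem]
  intro x
  rw [frob_mem_gsmul_iff, map_sub, map_pow]
  have := h' (galRestrict (𝓞 k) k L (𝓞 L) s⁻¹ x)
  convert this using 2
  apply RingOfIntegers.ext
  rw [frob_coe_galRestrict, frob_coe_galRestrict, frob_coe_galRestrict, frob_coe_galRestrict, hτ]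
  show s.symm (s (σ (s.symm (x : L)))) = σ (s.symm (x : L))
  rw [AlgEquiv.symm_apply_apply]

/-- `below` commutes with the action of `Gal(L/k)` (through its restriction to `K`). -/
theorem below_gsmul_restrictNormal [Normal k K] (s : L ≃ₐ[k] L) (w : Pl L) :
    below K (gsmul k s w) = gsmul k (s.restrictNormal K) (below K w) := by
  apply HeightOneSpectrum.ext
  ext x
  show algebraMap (𝓞 K) (𝓞 L) x ∈ (gsmul k s w).asIdeal ↔
    algebraMap (𝓞 K) (𝓞 L) (galRestrict (𝓞 k) k K (𝓞 K) (s.restrictNormal K)⁻¹ x) ∈ w.asIdeal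
  rw [frob_mem_gsmul_iff]
  have e : galRestrict (𝓞 k) k L (𝓞 L) s⁻¹ (algebraMap (𝓞 K) (𝓞 L) x)
      = algebraMap (𝓞 K) (𝓞 L) (galRestrict (𝓞 k) k K (𝓞 K) (s.restrictNormal K)⁻¹ x) := by
    apply RingOfIntegers.ext
    rw [frob_coe_galRestrict]
    show s⁻¹ (algebraMap K L (x : K))
      = algebraMap K L ((galRestrict (𝓞 k) k K (𝓞 K) (s.restrictNormal K)⁻¹ x : 𝓞 K) : K)
    rw [frob_coe_galRestrict]
    have h1 : (s.restrictNormal K)⁻¹ = (s⁻¹).restrictNormal K :=
      (map_inv (AlgEquiv.restrictNormalHom (F := k) (K₁ := L) K) s).symm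
    rw [h1, AlgEquiv.restrictNormal_commutes]
  rw [e]

end semilinear

end Fermat.Agent.S14x
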