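/-
S14 (ExtVanishingCts), Part B1: the Artin map of an abelian extension `L/K` of number fields
with trivial inertia, composed with a homomorphism `e : Gal(L/K) →* Multiplicative A` into a
commutative group:

* `Art.frobOf K L v`: the Frobenius element at `v` (valid at all primes above `v`);
* `Art.artinOf K L e : Dv K →+ A`, `[v] ↦ e (Frob_v)`;
* it kills norms of divisors of `L`; `[v] ↦ 0` iff `v` splits (for injective `e`);
* semilinear conjugation `Frob_{δ v} = s Frob_v s⁻¹`.
-/
import Fermat.Agent.S14_Div
import Fermat.Agent.S14_DivBasic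
import Fermat.Agent.S14_Frob
import Fermat.Agent.S14_FrobConj

set_option autoImplicit false

namespace Fermat.Agent.S14x.Art

open IsDedekindDomain NumberField

section defs

variable (K : Type) [Field K] [NumberField K] (L : Type) [Field L] [NumberField L] [Algebra K L]

/-- A Frobenius element valid at all primes of `L` above `v` (`1` if there is none). -/
noncomputable def frobOf (v : Pl K) : L ≃ₐ[K] L :=
  open Classical in
  if h : ∃ σ : L ≃ₐ[K] L, ∀ w : Pl L, below K w = v →
      IsFrobPow K σ w (Ideal.absNorm v.asIdeal) then h.choose else 1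

/-- The Artin map `[v] ↦ e (Frob_v)`, for a homomorphism `e` into a commutative group. -/
noncomputable def artinOf {A : Type*} [AddCommGroup A] (e : (L ≃ₐ[K] L) →* Multiplicative A) :
    Dv K →+ A :=
  Finsupp.liftAddHom (fun v : Pl K => zmultiplesHom A (Multiplicative.toAdd (e (frobOf K L v))))

theorem artinOf_single {A : Type*} [AddCommGroup A] (e : (L ≃ₐ[K] L) →* Multiplicative A)
    (v : Pl K) (n : ℤ) :
    artinOf K L e (Finsupp.single v n) = n • Multiplicative.toAdd (e (frobOf K L v)) := by
  unfold artinOf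
  rw [Finsupp.liftAddHom_apply_single]
  rfl

variable {K L}

/-- The defining property of `frobOf` in an abelian extension. -/
theorem isFrobPow_frobOf [IsGalois K L] (hab : ∀ σ τ : L ≃ₐ[K] L, σ * τ = τ * σ) (w : Pl L) :
    IsFrobPow K (frobOf K L (below K w)) w (Ideal.absNorm (below K w).asIdeal) := by
  have h := exists_isFrobPow_forall hab (below K w)
  unfold frobOf
  rw [dif_pos h]
  exact h.choose_spec w rfl

/-- Uniqueness: any Frobenius element at a prime with trivial inertia is `frobOf`. -/
theorem frobOf_eq [IsGalois K L] (hab : ∀ σ τ : L ≃ₐ[K] L, σ * τ = τ * σ) {σ : L ≃ₐ[K] L}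
    {w : Pl L} (h : IsFrobPow K σ w (Ideal.absNorm (below K w).asIdeal))
    (hw : InertiaTrivialAt K w) : frobOf K L (below K w) = σ :=
  (isFrobPow_frobOf hab w).unique h (frob_absNorm_ne_zero _) hw

/-- The Frobenius at `v` has order dividing the residue degree of any prime above `v`. -/
theorem frobOf_pow_fOf [IsGalois K L] (hab : ∀ σ τ : L ≃ₐ[K] L, σ * τ = τ * σ) (w : Pl L)
    (hw : InertiaTrivialAt K w) : frobOf K L (below K w) ^ fOf K w = 1 :=
  (isFrobPow_frobOf hab w).pow_fOf_eq_one hw

/-- The Artin map kills norms. -/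
theorem artinOf_normDiv [IsGalois K L] (hab : ∀ σ τ : L ≃ₐ[K] L, σ * τ = τ * σ)
    (hin : ∀ w : Pl L, InertiaTrivialAt K w) {A : Type*} [AddCommGroup A]
    (e : (L ≃ₐ[K] L) →* Multiplicative A) (D' : Dv L) :
    artinOf K L e (normDiv K D') = 0 := by
  induction D' using Finsupp.induction_linear with
  | zero => simp
  | add D₁ D₂ h₁ h₂ => rw [map_add, map_add, h₁, h₂, add_zero]
  | single w n =>
    rw [frob_normDiv_single, artinOf_single, mul_comm, mul_smul, natCast_zsmul, ← toAdd_pow,
      ← map_pow, frobOf_pow_fOf hab w (hin w), map_one, toAdd_one, smul_zero]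

/-- `[v] ↦ 0` iff the Frobenius at `v` is trivial. -/
theorem artinOf_single_one_eq_zero_iff {A : Type*} [AddCommGroup A]
    (e : (L ≃ₐ[K] L) →* Multiplicative A) (he : Function.Injective e) (v : Pl K) :
    artinOf K L e (Finsupp.single v 1) = 0 ↔ frobOf K L v = 1 := by
  rw [artinOf_single, one_smul]
  constructor
  · intro h
    apply he
    rw [map_one]
    exact Multiplicative.toAdd.injective h
  · intro h
    rw [h, map_one]
    rfl

/-- The Frobenius at `v` is trivial iff `v` splits completely. -/
theorem frobOf_eq_one_iff [IsGalois K L] (hab : ∀ σ τ : L ≃ₐ[K] L, σ * τ = τ * σ)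
    (hin : ∀ w : Pl L, InertiaTrivialAt K w) (v : Pl K) :
    frobOf K L v = 1 ↔ IsSplit K L v := by
  constructor
  · rintro h w rfl
    refine ⟨(inertiaTrivialAt_iff_eOf_eq_one w).mp (hin w), ?_⟩
    exact ((isFrobPow_frobOf hab w).eq_one_iff (hin w)).mp h
  · intro h
    obtain ⟨w, rfl⟩ := frob_exists_above (F' := L) v
    exact ((isFrobPow_frobOf hab w).eq_one_iff (hin w)).mpr (h w rfl).2

/-- `[v] ↦ 0` iff `v` splits completely (for an injective `e`). -/
theorem artinOf_single_eq_zero_iff [IsGalois K L] (hab : ∀ σ τ : L ≃ₐ[K] L, σ * τ = τ * σ)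
    (hin : ∀ w : Pl L, InertiaTrivialAt K w) {A : Type*} [AddCommGroup A]
    (e : (L ≃ₐ[K] L) →* Multiplicative A) (he : Function.Injective e) (v : Pl K) :
    artinOf K L e (Finsupp.single v 1) = 0 ↔ IsSplit K L v :=
  (artinOf_single_one_eq_zero_iff e he v).trans (frobOf_eq_one_iff hab hin v)

end defs

section semilinear

variable {k : Type} [Field k] [NumberField k] {K : Type} [Field K] [NumberField K]
  [Algebra k K] {L : Type} [Field L] [NumberField L] [Algebra k L] [Algebra K L]
  [IsScalarTower k K L]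

/-- Semilinear conjugation of the Frobenius: if `τ = s Frob_v s⁻¹` for `s ∈ Gal(L/k)`, then
`τ` is the Frobenius at `s v`. -/
theorem frobOf_gsmul [Normal k K] [IsGalois K L] (hab : ∀ σ τ : L ≃ₐ[K] L, σ * τ = τ * σ)
    (hin : ∀ w : Pl L, InertiaTrivialAt K w) (s : L ≃ₐ[k] L) (v : Pl K) (τ : L ≃ₐ[K] L)
    (hτ : ∀ x : L, τ x = s (frobOf K L v (s.symm x))) :
    frobOf K L (gsmul k (s.restrictNormal K) v) = τ := by
  obtain ⟨w, rfl⟩ := frob_exists_above (F' := L) v
  have h1 := (isFrobPow_frobOf hab w).conj_semilinear s hτ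
  rw [← below_gsmul_restrictNormal]
  apply frobOf_eq hab _ (hin _)
  rw [below_gsmul_restrictNormal, frob_absNorm_gsmul]
  exact h1

end semilinear

end Fermat.Agent.S14x.Art
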