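/-
S14 (ExtVanishingCts), Part B1 of the blueprint: the Frobenius element and the Artin map of an
unramified cyclic extension `L/K` of odd prime degree `p` (the (NF) setting).
-/
import Fermat.Agent.S14_Frob
import Fermat.Agent.S14_DivGal
import Fermat.Agent.S14_CycRec

set_option autoImplicit false

namespace Fermat.Agent.S14x

open IsDedekindDomain NumberField

/-- The (NF) data for a pair `K ⊂ L`: cyclic of odd prime degree `p`, trivial inertia at every
finite prime, and `ζ_p ∈ K`. -/
structure NFData (p : ℕ) (K L : Type) [Field K] [Field L] [NumberField K] [NumberField L]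
    [Algebra K L] : Prop where
  prime : p.Prime
  odd : p ≠ 2
  degree : Module.finrank K L = p
  inertia : ∀ w : Pl L, InertiaTrivialAt K w
  zeta : ∃ ζ : K, IsPrimitiveRoot ζ p

theorem absNorm_ne_zero (F : Type) [Field F] [NumberField F] (v : Pl F) :
    Ideal.absNorm v.asIdeal ≠ 0 := by
  rw [Ne, Ideal.absNorm_eq_zero_iff]
  exact v.ne_bot

/-- Fermat's little theorem in the residue field. -/
theorem pow_absNorm_sub_mem {F : Type} [Field F] [NumberField F] (w : Pl F) (x : 𝓞 F) :
    x ^ Ideal.absNorm w.asIdeal - x ∈ w.asIdeal := by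
  haveI := w.isMaximal
  letI := Ideal.Quotient.field w.asIdeal
  haveI : Finite (𝓞 F ⧸ w.asIdeal) := Ideal.finiteQuotientOfFreeOfNeBot _ w.ne_bot
  letI := Fintype.ofFinite (𝓞 F ⧸ w.asIdeal)
  rw [← Ideal.Quotient.eq_zero_iff_mem, map_sub, map_pow, Ideal.absNorm_apply,
    Submodule.cardQuot_apply, Nat.card_eq_fintype_card, FiniteField.pow_card, sub_self]

section NF

variable {p : ℕ} {K L : Type} [Field K] [Field L] [NumberField K] [NumberField L] [Algebra K L]

theorem isFrobPow_one (w : Pl L) : IsFrobPow K (1 : L ≃ₐ[K] L) w (Ideal.absNorm w.asIdeal) := by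
  intro x
  have h := pow_absNorm_sub_mem w x
  rw [mem_asIdeal_iff] at h
  have h2 : ((1 : L ≃ₐ[K] L) (x : L) - (x : L) ^ Ideal.absNorm w.asIdeal) =
      -(((x ^ Ideal.absNorm w.asIdeal - x : 𝓞 L) : 𝓞 L) : L) := by
    simp
  rw [h2]
  exact h.neg

variable [IsGalois K L]

theorem NFData.kummerPair (h : NFData p K L) : KummerPair K L p :=
  ⟨h.prime, h.odd, h.zeta, inferInstance, h.degree⟩

theorem NFData.unramified (h : NFData p K L) : Unramified K L :=
  unramified_of_inertiaTrivial h.inertia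

theorem NFData.card_gal (h : NFData p K L) : Nat.card (L ≃ₐ[K] L) = p := by
  rw [IsGalois.card_aut_eq_finrank, h.degree]

theorem NFData.isCyclic (h : NFData p K L) : IsCyclic (L ≃ₐ[K] L) := by
  haveI : Fact p.Prime := ⟨h.prime⟩
  exact isCyclic_of_prime_card h.card_gal

theorem NFData.comm (h : NFData p K L) (σ τ : L ≃ₐ[K] L) : σ * τ = τ * σ := by
  haveI := h.isCyclic
  exact (IsCyclic.isMulCommutative (α := L ≃ₐ[K] L)).is_comm.comm σ τ

theorem NFData.exists_frob (h : NFData p K L) (v : Pl K) :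
    ∃ σ : L ≃ₐ[K] L, ∀ w : Pl L, below K w = v → IsFrobPow K σ w (Ideal.absNorm v.asIdeal) := by
  obtain ⟨w₀, hw₀⟩ := exists_above K (F' := L) v
  obtain ⟨σ, hσ⟩ := exists_isFrobPow (F := K) w₀
  rw [hw₀] at hσ
  refine ⟨σ, fun w hw => ?_⟩
  obtain ⟨τ, hτ⟩ := exists_gsmul_eq K (w := w₀) (w' := w) (by rw [hw₀, hw])
  have h1 := hσ.conj τ
  rw [hτ] at h1
  have hc : τ * σ * τ⁻¹ = σ := by rw [h.comm τ σ, mul_assoc, mul_inv_cancel, mul_one]
  rwa [hc] at h1

/-- The Frobenius element of `v` in `Gal(L/K)`. -/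
noncomputable def NFData.frob (h : NFData p K L) (v : Pl K) : L ≃ₐ[K] L :=
  (h.exists_frob v).choose

theorem NFData.frob_spec (h : NFData p K L) {v : Pl K} {w : Pl L} (hw : below K w = v) :
    IsFrobPow K (h.frob v) w (Ideal.absNorm v.asIdeal) :=
  (h.exists_frob v).choose_spec w hw

theorem NFData.frob_pow_unique (h : NFData p K L) {v : Pl K} {w : Pl L} (hw : below K w = v)
    {σ : L ≃ₐ[K] L} {k : ℕ} (hσ : IsFrobPow K σ w (Ideal.absNorm v.asIdeal ^ k)) :
    σ = h.frob v ^ k :=
  hσ.unique ((h.frob_spec hw).pow (absNorm_ne_zero K v) k)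
    (pow_ne_zero _ (absNorm_ne_zero K v)) (h.inertia w)

theorem NFData.frob_pow_fOf (h : NFData p K L) (w : Pl L) :
    h.frob (below K w) ^ fOf K w = 1 := by
  have h1 : IsFrobPow K (1 : L ≃ₐ[K] L) w (Ideal.absNorm (below K w).asIdeal ^ fOf K w) := by
    rw [← Fermat.Agent.S14B2.absNorm_eq_pow_fOf K w]
    exact isFrobPow_one w
  exact (h.frob_pow_unique rfl h1).symm

theorem NFData.frob_eq_one_iff (h : NFData p K L) (v : Pl K) :
    h.frob v = 1 ↔ IsSplit K L v := by
  constructor
  · intro h1 w hw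
    refine ⟨h.unramified w, ?_⟩
    apply fOf_eq_one_of_isFrobPow_one
    have := h.frob_spec hw
    rwa [h1, ← hw] at this
  · intro hs
    obtain ⟨w, hw⟩ := exists_above K (F' := L) v
    have := h.frob_pow_fOf w
    rwa [hw, (hs w hw).2, pow_one] at this

theorem NFData.exists_inj_hom (h : NFData p K L) :
    ∃ e : (L ≃ₐ[K] L) →* Multiplicative (ZMod p), Function.Injective e := by
  haveI := h.isCyclic
  let e1 : (L ≃ₐ[K] L) ≃* Multiplicative (ZMod (Nat.card (L ≃ₐ[K] L))) :=
    (zmodCyclicMulEquiv (G := L ≃ₐ[K] L) inferInstance).symm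
  let e2 : Multiplicative (ZMod (Nat.card (L ≃ₐ[K] L))) ≃* Multiplicative (ZMod p) :=
    AddEquiv.toMultiplicative (ZMod.ringEquivCongr h.card_gal).toAddEquiv
  exact ⟨(e1.trans e2).toMonoidHom, (e1.trans e2).injective⟩

/-- The Artin map of `L/K` composed with `e`, as a homomorphism on divisors. -/
noncomputable def NFData.artin (h : NFData p K L)
    (e : (L ≃ₐ[K] L) →* Multiplicative (ZMod p)) : Dv K →+ ZMod p :=
  Finsupp.liftAddHom (fun v : Pl K =>
    zmultiplesHom (ZMod p) (Multiplicative.toAdd (e (h.frob v))))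

theorem NFData.artin_single (h : NFData p K L) (e : (L ≃ₐ[K] L) →* Multiplicative (ZMod p))
    (v : Pl K) (n : ℤ) :
    h.artin e (Finsupp.single v n) = n • Multiplicative.toAdd (e (h.frob v)) := by
  simp [NFData.artin]

theorem NFData.artin_normDiv (h : NFData p K L) (e : (L ≃ₐ[K] L) →* Multiplicative (ZMod p))
    (D' : Dv L) : h.artin e (normDiv K D') = 0 := by
  induction D' using Finsupp.induction_linear with
  | zero => simp
  | add D₁ D₂ h₁ h₂ => rw [map_add, map_add, h₁, h₂, add_zero]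
  | single w n =>
    have h1 : normDiv K (Finsupp.single w n) = Finsupp.single (below K w) ((fOf K w : ℤ) * n) := by
      simp [normDiv]
    rw [h1, h.artin_single, mul_comm, mul_smul, natCast_zsmul, ← toAdd_pow, ← map_pow,
      h.frob_pow_fOf, map_one, toAdd_one, smul_zero]

theorem NFData.artin_single_eq_zero_iff (h : NFData p K L)
    {e : (L ≃ₐ[K] L) →* Multiplicative (ZMod p)} (he : Function.Injective e) (v : Pl K) :
    h.artin e (Finsupp.single v 1) = 0 ↔ IsSplit K L v := by
  rw [h.artin_single, one_smul, ← h.frob_eq_one_iff]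
  constructor
  · intro h0
    apply he
    rw [map_one]
    exact Multiplicative.toAdd.injective h0
  · intro h1
    rw [h1, map_one]
    rfl

end NF

end Fermat.Agent.S14x
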