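/-
S14 (ExtVanishingCts), Part B1: the conjugation rule for the Artin map in the (NF) setting.
If `Gal(K/ℚ)` acts on `Gal(L/K)` through the inverse cyclotomic character (the (NF)
hypothesis), then `Frob(δ v) = Frob(v) ^ k` whenever `δ ζ ^ k = ζ`.
-/
import Fermat.Agent.S14_Div
import Fermat.Agent.S14_DivBasic
import Fermat.Agent.S14_Frob
import Fermat.Agent.S14_FrobConj
import Fermat.Agent.S14_ArtGen
import Fermat.Agent.S14_Artin

set_option autoImplicit false

namespace Fermat.Agent.S14x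

open IsDedekindDomain NumberField

/-- Core of the conjugation rule: in the (NF) situation, if `φ` is a Frobenius at all primes
above `v`, then `φ ^ k` is a Frobenius at some prime above `δ v` when `δ ζ ^ k = ζ`. -/
theorem frob_conj_core {K L : Type} [Field K] [NumberField K] [Field L] [NumberField L]
    [Algebra K L] [Normal ℚ K] [Normal ℚ L] (ζ : K)
    (hconj : ∀ (s : L ≃ₐ[ℚ] L) (t : L ≃ₐ[K] L) (k : ℕ),
        s (algebraMap K L ζ) ^ k = algebraMap K L ζ →
        ∀ x : L, s (t (s.symm x)) = (t ^ k) x)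
    (δ : K ≃ₐ[ℚ] K) (k : ℕ) (hk : δ ζ ^ k = ζ) (v : Pl K) (φ : L ≃ₐ[K] L)
    (hφ : ∀ w : Pl L, below K w = v → IsFrobPow K φ w (Ideal.absNorm v.asIdeal)) :
    ∃ w' : Pl L, below K w' = gsmul ℚ δ v ∧
      IsFrobPow K (φ ^ k) w' (Ideal.absNorm (gsmul ℚ δ v).asIdeal) := by
  obtain ⟨s, hs⟩ := AlgEquiv.restrictNormalHom_surjective (F := ℚ) (K₁ := K) L δ
  have hs' : s.restrictNormal K = δ := hs
  obtain ⟨w, hw⟩ := frob_exists_above (F' := L) v
  have h1 : s (algebraMap K L ζ) ^ k = algebraMap K L ζ := by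
    rw [← AlgEquiv.restrictNormal_commutes, hs', ← map_pow, hk]
  have hτ : ∀ x : L, (φ ^ k) x = s (φ (s.symm x)) := fun x => (hconj s φ k h1 x).symm
  refine ⟨gsmul ℚ s w, ?_, ?_⟩
  · rw [below_gsmul_restrictNormal, hs', hw]
  · rw [frob_absNorm_gsmul]
    exact (hφ w hw).conj_semilinear s hτ

section NF

variable {p : ℕ} {K L : Type} [Field K] [Field L] [NumberField K] [NumberField L] [Algebra K L]
  [IsGalois K L]

/-- The conjugation rule for the Frobenius elements of `S14_Artin`. -/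
theorem NFData.frob_conj (h : NFData p K L) [Normal ℚ K] [Normal ℚ L] (ζ : K)
    (hconj : ∀ (s : L ≃ₐ[ℚ] L) (t : L ≃ₐ[K] L) (k : ℕ),
        s (algebraMap K L ζ) ^ k = algebraMap K L ζ →
        ∀ x : L, s (t (s.symm x)) = (t ^ k) x)
    (δ : K ≃ₐ[ℚ] K) (k : ℕ) (v : Pl K) (hk : δ ζ ^ k = ζ) :
    h.frob (gsmul ℚ δ v) = h.frob v ^ k := by
  obtain ⟨w', hw', hF⟩ := frob_conj_core ζ hconj δ k hk v (h.frob v)
    (fun w hw => h.frob_spec hw)
  have := h.frob_pow_unique hw' (k := 1) (by rwa [pow_one])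
  rw [pow_one] at this
  exact this.symm

/-- The conjugation rule for the Artin map, in the shape of the `B5 → B7` interface. -/
theorem NFData.artin_conj (h : NFData p K L) (e : (L ≃ₐ[K] L) →* Multiplicative (ZMod p))
    [IsCyclotomicExtension {p} ℚ K] [IsGalois ℚ L] (ζ : K) (hζ : IsPrimitiveRoot ζ p)
    (hconj : ∀ (s : L ≃ₐ[ℚ] L) (t : L ≃ₐ[K] L) (k : ℕ),
        s (algebraMap K L ζ) ^ k = algebraMap K L ζ →
        ∀ x : L, s (t (s.symm x)) = (t ^ k) x)
    (δ : K ≃ₐ[ℚ] K) (k : ℕ) (v : Pl K) (hk : δ ζ ^ k = ζ) :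
    h.artin e (Finsupp.single (gsmul ℚ δ v) 1) = k • h.artin e (Finsupp.single v 1) := by
  have _ := hζ
  haveI : IsGalois ℚ K := IsCyclotomicExtension.isGalois {p} ℚ K
  rw [h.artin_single, h.artin_single, one_smul, one_smul, h.frob_conj ζ hconj δ k v hk,
    map_pow, toAdd_pow]

end NF

namespace Art

/-- The conjugation rule for `Art.frobOf` under the (NF) conjugation hypothesis. -/
theorem frobOf_conj_NF {K L : Type} [Field K] [NumberField K] [Field L] [NumberField L]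
    [Algebra K L] [IsGalois K L] [Normal ℚ K] [Normal ℚ L]
    (hab : ∀ σ τ : L ≃ₐ[K] L, σ * τ = τ * σ) (hin : ∀ w : Pl L, InertiaTrivialAt K w) (ζ : K)
    (hconj : ∀ (s : L ≃ₐ[ℚ] L) (t : L ≃ₐ[K] L) (k : ℕ),
        s (algebraMap K L ζ) ^ k = algebraMap K L ζ →
        ∀ x : L, s (t (s.symm x)) = (t ^ k) x)
    (δ : K ≃ₐ[ℚ] K) (k : ℕ) (v : Pl K) (hk : δ ζ ^ k = ζ) :
    frobOf K L (gsmul ℚ δ v) = frobOf K L v ^ k := by
  obtain ⟨w', hw', hF⟩ := frob_conj_core ζ hconj δ k hk v (frobOf K L v)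
    (fun w hw => by have := isFrobPow_frobOf hab w; rwa [hw] at this)
  rw [← hw'] at hF ⊢
  exact frobOf_eq hab hF (hin w')

/-- The conjugation rule for `Art.artinOf`, in the shape of the `B5 → B7` interface. -/
theorem artinOf_conj_NF {K L : Type} [Field K] [NumberField K] [Field L] [NumberField L]
    [Algebra K L] [IsGalois K L] [Normal ℚ K] [Normal ℚ L]
    (hab : ∀ σ τ : L ≃ₐ[K] L, σ * τ = τ * σ) (hin : ∀ w : Pl L, InertiaTrivialAt K w) (ζ : K)
    (hconj : ∀ (s : L ≃ₐ[ℚ] L) (t : L ≃ₐ[K] L) (k : ℕ),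
        s (algebraMap K L ζ) ^ k = algebraMap K L ζ →
        ∀ x : L, s (t (s.symm x)) = (t ^ k) x)
    {A : Type*} [AddCommGroup A] (e : (L ≃ₐ[K] L) →* Multiplicative A)
    (δ : K ≃ₐ[ℚ] K) (k : ℕ) (v : Pl K) (hk : δ ζ ^ k = ζ) :
    artinOf K L e (Finsupp.single (gsmul ℚ δ v) 1) = k • artinOf K L e (Finsupp.single v 1) := by
  rw [artinOf_single, artinOf_single, one_smul, one_smul,
    frobOf_conj_NF hab hin ζ hconj δ k v hk, map_pow, toAdd_pow]

end Art

end Fermat.Agent.S14x
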