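/-
S14 shared leaves (lead): existence of Kummer extensions as number fields, and Kummer descent.
-/
import Fermat.Agent.S14_Div

set_option autoImplicit false
set_option linter.style.haveILetI false

namespace Fermat.Agent.S14x

open Polynomial IsDedekindDomain NumberField

universe u

/-- (L1) For `x ∈ F` not a `p`-th power there is a Kummer pair `(F, F(x^{1/p}))`. -/
theorem exists_kummerPair {F : Type u} [Field F] [NumberField F] {p : ℕ} (hp : p.Prime)
    (hp2 : p ≠ 2) (hζ : ∃ ζ : F, IsPrimitiveRoot ζ p) (x : F) (hx : ∀ y : F, y ^ p ≠ x) :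
    ∃ (F'' : Type u) (_ : Field F'') (_ : NumberField F'') (_ : Algebra F F''),
      KummerPair F F'' p ∧ ∃ θ : F'', θ ^ p = algebraMap F F'' x := by
  have H : Irreducible (X ^ p - C x) := X_pow_sub_C_irreducible_of_prime hp hx
  haveI := Fact.mk H
  have hprim : (primitiveRoots p F).Nonempty := by
    obtain ⟨ζ, hζ'⟩ := hζ
    exact ⟨ζ, (mem_primitiveRoots hp.pos).mpr hζ'⟩
  haveI hsplit : IsSplittingField F (AdjoinRoot (X ^ p - C x)) (X ^ p - C x) :=
    isSplittingField_AdjoinRoot_X_pow_sub_C hprim H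
  haveI : FiniteDimensional F (AdjoinRoot (X ^ p - C x)) :=
    Polynomial.IsSplittingField.finiteDimensional (AdjoinRoot (X ^ p - C x)) (X ^ p - C x)
  haveI : NumberField (AdjoinRoot (X ^ p - C x)) :=
    NumberField.of_module_finite F (AdjoinRoot (X ^ p - C x))
  refine ⟨AdjoinRoot (X ^ p - C x), inferInstance, inferInstance, inferInstance,
    ⟨hp, hp2, hζ, isGalois_of_isSplittingField_X_pow_sub_C hprim H _,
      finrank_of_isSplittingField_X_pow_sub_C hprim H _⟩, AdjoinRoot.root _, ?_⟩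
  have h := AdjoinRoot.eval₂_root (X ^ p - C x)
  simp only [eval₂_sub, eval₂_pow, eval₂_X, eval₂_C] at h
  rw [AdjoinRoot.algebraMap_eq]
  exact sub_eq_zero.mp h

variable {F : Type*} [Field F] [NumberField F] {F' : Type*} [Field F'] [NumberField F']
  [Algebra F F'] {p : ℕ}

/-- In a Kummer pair, an element fixed by one nontrivial automorphism lies in the base field. -/
theorem KummerPair.mem_range_of_fixed (hK : KummerPair F F' p) {σ : F' ≃ₐ[F] F'} (hσ : σ ≠ 1)
    {z : F'} (hz : σ z = z) : ∃ y : F, algebraMap F F' y = z := by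
  haveI := hK.galois
  haveI : FiniteDimensional F F' := Module.finite_of_finrank_pos (by rw [hK.degree]; exact hK.prime.pos)
  haveI : Fact p.Prime := ⟨hK.prime⟩
  have hcard : Nat.card (F' ≃ₐ[F] F') = p := by
    rw [IsGalois.card_aut_eq_finrank, hK.degree]
  have htop : Subgroup.zpowers σ = ⊤ := zpowers_eq_top_of_prime_card hcard hσ
  have hall : ∀ τ : F' ≃ₐ[F] F', τ z = z := by
    intro τ
    have hτ : τ ∈ Subgroup.zpowers σ := htop ▸ Subgroup.mem_top τ
    obtain ⟨n, rfl⟩ := Subgroup.mem_zpowers_iff.mp hτ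
    have hfix : σ ∈ MulAction.stabilizer (F' ≃ₐ[F] F') z := hz
    exact (Subgroup.zpow_mem _ hfix n : σ ^ n ∈ MulAction.stabilizer (F' ≃ₐ[F] F') z)
  have hbot : z ∈ (⊥ : IntermediateField F F') := (IsGalois.mem_bot_iff_fixed z).mpr hall
  exact IntermediateField.mem_bot.mp hbot

/-- (L2) Kummer descent: if `b ∈ F` is a `p`-th power in `F' = F(a^{1/p})` then
`b = a ^ i * y ^ p` with `y ∈ F`. -/
theorem KummerPair.exists_eq_pow_mul_pow (hK : KummerPair F F' p) {a : F} {θ : F'}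
    (hθ : θ ^ p = algebraMap F F' a) (ha : ∀ y : F, y ^ p ≠ a) {b : F} {β : F'}
    (hβ : β ^ p = algebraMap F F' b) : ∃ (i : ℕ) (y : F), b = a ^ i * y ^ p := by
  have hp0 : 0 < p := hK.prime.pos
  haveI : NeZero p := ⟨hp0.ne'⟩
  haveI := hK.galois
  haveI : FiniteDimensional F F' := Module.finite_of_finrank_pos (by rw [hK.degree]; exact hp0)
  have hinj : Function.Injective (algebraMap F F') := (algebraMap F F').injective
  rcases eq_or_ne b 0 with rfl | hb0
  · exact ⟨0, 0, by simp [hp0.ne']⟩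
  have hβ0 : β ≠ 0 := by
    rintro rfl
    rw [zero_pow hp0.ne'] at hβ
    exact hb0 (hinj (by rw [map_zero]; exact hβ.symm))
  have ha0 : a ≠ 0 := by
    rintro rfl
    exact ha 0 (zero_pow hp0.ne')
  have hθ0 : θ ≠ 0 := by
    rintro rfl
    rw [zero_pow hp0.ne'] at hθ
    exact ha0 (hinj (by rw [map_zero]; exact hθ.symm))
  -- a nontrivial automorphism
  have hcard : Nat.card (F' ≃ₐ[F] F') = p := by
    rw [IsGalois.card_aut_eq_finrank, hK.degree]
  obtain ⟨σ, hσ⟩ : ∃ σ : F' ≃ₐ[F] F', σ ≠ 1 := by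
    by_contra hne
    push Not at hne
    have : Nat.card (F' ≃ₐ[F] F') = 1 := by
      haveI : Subsingleton (F' ≃ₐ[F] F') := ⟨fun x y => (hne x).trans (hne y).symm⟩
      exact Nat.card_unique
    rw [hcard] at this
    exact hK.prime.one_lt.ne' this
  obtain ⟨ζ, hζ⟩ := hK.zeta
  have hζ' : IsPrimitiveRoot (algebraMap F F' ζ) p := hζ.map_of_injective hinj
  -- σ θ = ζ^k θ, σ β = ζ^j β
  have hroot : ∀ γ : F', γ ≠ 0 → (∃ c : F, γ ^ p = algebraMap F F' c) →
      ∃ k : ℕ, σ γ = algebraMap F F' ζ ^ k * γ := by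
    rintro γ hγ ⟨c, hc⟩
    have h1 : (σ γ / γ) ^ p = 1 := by
      rw [div_pow, ← map_pow, hc, AlgEquiv.commutes, div_self]
      rw [← hc]; exact pow_ne_zero _ hγ
    obtain ⟨k, -, hk⟩ := hζ'.eq_pow_of_pow_eq_one h1
    exact ⟨k, by rw [hk, div_mul_cancel₀ _ hγ]⟩
  obtain ⟨k, hk⟩ := hroot θ hθ0 ⟨a, hθ⟩
  obtain ⟨j, hj⟩ := hroot β hβ0 ⟨b, hβ⟩
  -- ζ^k ≠ 1
  have hk1 : algebraMap F F' ζ ^ k ≠ 1 := by
    intro h1
    rw [h1, one_mul] at hk
    obtain ⟨y, hy⟩ := hK.mem_range_of_fixed hσ hk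
    apply ha y
    apply hinj
    rw [map_pow, hy, hθ]
  have hpk : ¬ p ∣ k := fun hdvd => hk1 ((hζ'.pow_eq_one_iff_dvd k).mpr hdvd)
  -- choose i with k * i ≡ j mod p
  have hcop : Nat.Coprime k p := (Nat.Coprime.symm ((Nat.Prime.coprime_iff_not_dvd hK.prime).mpr hpk))
  obtain ⟨i, hi⟩ : ∃ i : ℕ, k * i ≡ j [MOD p] := by
    obtain ⟨m, -, hm⟩ := Nat.exists_mul_mod_eq_one_of_coprime hcop hK.prime.one_lt
    refine ⟨m * j, ?_⟩
    have h1 : k * m ≡ 1 [MOD p] := by
      rw [Nat.ModEq, hm, Nat.mod_eq_of_lt hK.prime.one_lt]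
    calc k * (m * j) = (k * m) * j := by ring
      _ ≡ 1 * j [MOD p] := h1.mul_right j
      _ = j := one_mul j
  have hpow : algebraMap F F' ζ ^ (k * i) = algebraMap F F' ζ ^ j := by
    rw [pow_eq_pow_mod (k * i) hζ'.pow_eq_one, pow_eq_pow_mod j hζ'.pow_eq_one]
    exact congrArg _ hi
  -- γ = β / θ^i is fixed by σ
  have hγ : σ (β / θ ^ i) = β / θ ^ i := by
    rw [map_div₀, map_pow, hj, hk, mul_pow, ← pow_mul, hpow]
    have hz : algebraMap F F' ζ ^ j ≠ 0 := pow_ne_zero _ (hζ'.ne_zero hp0.ne')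
    have hθi : θ ^ i ≠ 0 := pow_ne_zero _ hθ0
    field_simp
  obtain ⟨y, hy⟩ := hK.mem_range_of_fixed hσ hγ
  refine ⟨i, y, ?_⟩
  apply hinj
  have hβeq : β = algebraMap F F' y * θ ^ i := by
    rw [hy, div_mul_cancel₀ _ (pow_ne_zero _ hθ0)]
  rw [← hβ, hβeq, mul_pow, ← pow_mul, mul_comm i p, pow_mul, hθ, map_mul, map_pow, map_pow]
  ring

end Fermat.Agent.S14x
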