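import Fermat.Agent.S14_ZAn
import Fermat.Agent.S14_A4
import Fermat.Agent.S14_KummerExt
import Fermat.Agent.S14_ResChar
import Fermat.Agent.S14_DivGal
import Fermat.Agent.S14_FrobConj

/-!
# S14 moonshot, leaf (B3): choice of the auxiliary modulus `m = l₁ l₂`

`exists_modulus`: in the (NF) setting, for two primes `v₁, v₂` of `K` over distinct rational
primes there is a modulus `m` (prime to any given integer) such that
* `N(v₁)^a N(v₂)^b ≡ 1 mod m` forces `p ∣ a` and `p ∣ b`;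
* every prime of `K` dividing `m` splits completely in `L`;
* there is a normal idempotent `ε ∈ 𝓞 L` modulo `m`.
-/

set_option autoImplicit false

open IsDedekindDomain NumberField

namespace Fermat.Agent.S14x.B3

section absolute

variable {K : Type*} [Field K] [NumberField K]

theorem natCast_ne_zero' {n : ℕ} (hn : n ≠ 0) : ((n : ℕ) : K) ≠ 0 := by
  exact_mod_cast hn

theorem absNorm_ne_zero (v : Pl K) : Ideal.absNorm v.asIdeal ≠ 0 := by
  rw [Ne, Ideal.absNorm_eq_zero_iff]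
  exact v.ne_bot

theorem absNorm_ne_one (v : Pl K) : Ideal.absNorm v.asIdeal ≠ 1 := by
  rw [Ne, Ideal.absNorm_eq_one_iff]
  exact v.isPrime.ne_top

theorem two_le_absNorm (v : Pl K) : 2 ≤ Ideal.absNorm v.asIdeal := by
  have h0 := absNorm_ne_zero v
  have h1 := absNorm_ne_one v
  omega

/-- `1 ≤ ord_v (N v)` -/
theorem one_le_ord_absNorm (v : Pl K) : 1 ≤ ord v ((Ideal.absNorm v.asIdeal : ℕ) : K) := by
  have h1 : ((Ideal.absNorm v.asIdeal : ℕ) : 𝓞 K) ∈ v.asIdeal := Ideal.absNorm_mem v.asIdeal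
  rw [mem_asIdeal_iff, vGe_iff] at h1
  rcases h1 with h1 | h1
  · exfalso
    have : ((Ideal.absNorm v.asIdeal : ℕ) : K) ≠ 0 := natCast_ne_zero' (absNorm_ne_zero v)
    apply this
    simpa using h1
  · simpa using h1

/-- `ord_v (N v) ≤ [K : ℚ]` -/
theorem ord_absNorm_le (v : Pl K) :
    ord v ((Ideal.absNorm v.asIdeal : ℕ) : K) ≤ Module.finrank ℚ K := by
  set n := Ideal.absNorm v.asIdeal with hn
  have h1 := one_le_ord_absNorm v
  rw [← hn] at h1
  obtain ⟨d, hd⟩ : ∃ d : ℕ, ord v ((n : ℕ) : K) = d :=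
    ⟨(ord v ((n : ℕ) : K)).toNat, (Int.toNat_of_nonneg (by omega)).symm⟩
  rw [hd]
  have h2 : ((n : ℕ) : 𝓞 K) ∈ v.asIdeal ^ d := by
    rw [mem_asIdeal_pow_iff, vGe_iff]
    right
    have : (((n : ℕ) : 𝓞 K) : K) = ((n : ℕ) : K) := by simp
    rw [this, hd]
  have h3 : Ideal.span {((n : ℕ) : 𝓞 K)} ≤ v.asIdeal ^ d :=
    (Ideal.span_singleton_le_iff_mem _).mpr h2
  have h4 := Ideal.absNorm_dvd_absNorm_of_le h3
  rw [Ideal.absNorm_span_natCast, map_pow, ← hn, RingOfIntegers.rank] at h4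
  have h5 : d ≤ Module.finrank ℚ K :=
    (Nat.pow_dvd_pow_iff_le_right (two_le_absNorm v)).mp h4
  exact_mod_cast h5

/-- coprime integers are not both in a prime -/
theorem ord_natCast_eq_zero_of_coprime (v : Pl K) {a b : ℕ} (hab : Nat.Coprime a b)
    (ha : 1 ≤ ord v ((a : ℕ) : K)) (hb0 : b ≠ 0) : ord v ((b : ℕ) : K) = 0 := by
  have hbK : ((b : ℕ) : K) ≠ 0 := natCast_ne_zero' hb0
  have ha0 : a ≠ 0 := by
    rintro rfl
    simp [ord_zero] at ha
  have haK : ((a : ℕ) : K) ≠ 0 := natCast_ne_zero' ha0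
  have h0 : 0 ≤ ord v ((b : ℕ) : K) :=
    ord_nonneg_of_isIntegral v (by exact_mod_cast isIntegral_algebraMap (R := ℤ) (x := (b : ℤ)))
  by_contra hne
  have hb : 1 ≤ ord v ((b : ℕ) : K) := by omega
  have hamem : ((a : ℕ) : 𝓞 K) ∈ v.asIdeal := by
    rw [mem_asIdeal_iff, vGe_iff]
    right
    simpa using ha
  have hbmem : ((b : ℕ) : 𝓞 K) ∈ v.asIdeal := by
    rw [mem_asIdeal_iff, vGe_iff]
    right
    simpa using hb
  have hco : IsCoprime (a : ℤ) (b : ℤ) := Nat.isCoprime_iff_coprime.mpr hab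
  obtain ⟨x, y, hxy⟩ := hco
  have h1 : (1 : 𝓞 K) ∈ v.asIdeal := by
    have : (1 : 𝓞 K) = (x : 𝓞 K) * ((a : ℕ) : 𝓞 K) + (y : 𝓞 K) * ((b : ℕ) : 𝓞 K) := by
      have := congrArg (fun z : ℤ => (z : 𝓞 K)) hxy
      simp only [Int.cast_add, Int.cast_mul, Int.cast_natCast, Int.cast_one] at this
      exact this.symm
    rw [this]
    exact v.asIdeal.add_mem (v.asIdeal.mul_mem_left _ hamem) (v.asIdeal.mul_mem_left _ hbmem)
  exact v.isPrime.ne_top ((Ideal.eq_top_iff_one _).mpr h1)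

end absolute

section relative

variable {K L : Type*} [Field K] [NumberField K] [Field L] [NumberField L] [Algebra K L]

/-- `ord` at `w` of a natural number -/
theorem ord_natCast_above (w : Pl L) (n : ℕ) :
    ord w ((n : ℕ) : L) = eOf K w * ord (below K w) ((n : ℕ) : K) := by
  have := ord_algebraMap K w ((n : ℕ) : K)
  simpa using this

theorem dvd_of_pow_eq {p : ℕ} (hp : p.Prime) (hKp : Module.finrank ℚ K < p)
    (hunr : Unramified K L) (v1 v2 : Pl K)
    (h12 : Nat.Coprime (Ideal.absNorm v1.asIdeal) (Ideal.absNorm v2.asIdeal))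
    (c d : ℕ) (y : L)
    (hy : y ^ p = ((Ideal.absNorm v1.asIdeal ^ c * Ideal.absNorm v2.asIdeal ^ d : ℕ) : L)) :
    p ∣ c := by
  obtain ⟨w, hw⟩ := exists_above K (F' := L) v1
  have hn1 : ((Ideal.absNorm v1.asIdeal : ℕ) : L) ≠ 0 := natCast_ne_zero' (absNorm_ne_zero v1)
  have hn2 : ((Ideal.absNorm v2.asIdeal : ℕ) : L) ≠ 0 := natCast_ne_zero' (absNorm_ne_zero v2)
  have h1 : ord w ((Ideal.absNorm v1.asIdeal : ℕ) : L) =
      ord v1 ((Ideal.absNorm v1.asIdeal : ℕ) : K) := by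
    rw [ord_natCast_above (K := K), hunr w, hw]
    simp
  have h2 : ord w ((Ideal.absNorm v2.asIdeal : ℕ) : L) = 0 := by
    rw [ord_natCast_above (K := K), hunr w, hw,
      ord_natCast_eq_zero_of_coprime v1 h12 (one_le_ord_absNorm v1) (absNorm_ne_zero v2)]
    simp
  have h3 := congrArg (ord w) hy
  rw [ord_pow] at h3
  push_cast at h3
  rw [ord_mul w (pow_ne_zero _ hn1) (pow_ne_zero _ hn2), ord_pow, ord_pow, h1, h2, mul_zero,
    add_zero] at h3
  have h4 := one_le_ord_absNorm v1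
  have h5 := ord_absNorm_le v1
  have h6 : (p : ℤ) ∣ (c : ℤ) * ord v1 ((Ideal.absNorm v1.asIdeal : ℕ) : K) := ⟨ord w y, h3.symm⟩
  have hpz : Prime (p : ℤ) := Nat.prime_iff_prime_int.mp hp
  rcases hpz.dvd_or_dvd h6 with h7 | h7
  · exact_mod_cast h7
  · exfalso
    have := Int.le_of_dvd (by omega) h7
    omega

/-- `N(v₁)^c N(v₂)^d` is a `p`-th power in `L` only if `p ∣ c` and `p ∣ d`. -/
theorem dvd_and_dvd_of_pow_eq {p : ℕ} (hp : p.Prime) (hKp : Module.finrank ℚ K < p)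
    (hunr : Unramified K L) (v1 v2 : Pl K)
    (h12 : Nat.Coprime (Ideal.absNorm v1.asIdeal) (Ideal.absNorm v2.asIdeal))
    (c d : ℕ) (y : L)
    (hy : y ^ p = ((Ideal.absNorm v1.asIdeal ^ c * Ideal.absNorm v2.asIdeal ^ d : ℕ) : L)) :
    p ∣ c ∧ p ∣ d := by
  refine ⟨dvd_of_pow_eq hp hKp hunr v1 v2 h12 c d y hy,
    dvd_of_pow_eq hp hKp hunr v2 v1 h12.symm d c y ?_⟩
  rw [hy, mul_comm]

end relative

section choice

universe u

variable {L : Type u} [Field L] [NumberField L]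

/-- (Z) + (A4a): if `x` is not a `p`-th power in `L ∋ ζ_p`, then outside any finite set there is
a prime `u` of `L` of prime norm, prime to `p` and `x`, modulo which `x` is not a `p`-th power. -/
theorem exists_nonresidue {p : ℕ} (hp : p.Prime) (hp2 : p ≠ 2)
    (hζ : ∃ ζ : L, IsPrimitiveRoot ζ p) (x : L) (hx : ∀ y : L, y ^ p ≠ x) (T : Finset (Pl L)) :
    ∃ u : Pl L, u ∉ T ∧ (Ideal.absNorm u.asIdeal).Prime ∧ ord u (p : L) = 0 ∧ ord u x = 0 ∧
      ¬ IsPthPowerMod p u x := by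
  classical
  obtain ⟨L'', _, _, _, hK, θ, hθ⟩ := exists_kummerPair hp hp2 hζ x hx
  have : Fact p.Prime := ⟨hp⟩
  have := hK.galois
  let T' : Finset (Pl L) :=
    T ∪ (ord_support_finite (p : L)).toFinset ∪ (ord_support_finite x).toFinset
  obtain ⟨u, huT, hprime, huniq⟩ := ZAn.S14_Z p L L'' hK.degree T'
  have hu1 : u ∉ T := fun h => huT (by simp [T', h])
  have hu2 : ord u (p : L) = 0 := by
    by_contra h
    exact huT (by simp [T', h])
  have hu3 : ord u x = 0 := by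
    by_contra h
    exact huT (by simp [T', h])
  refine ⟨u, hu1, hprime, hu2, hu3, fun hpow => ?_⟩
  have hsplit : IsSplit L L'' u := A4a_split hK hθ hx u hu2 hu3 hpow
  obtain ⟨σ, hσ, -⟩ := hK.exists_generator
  obtain ⟨w, hw⟩ := exists_above L (F' := L'') u
  have hne := hK.gsmul_ne_of_isSplit hsplit hw hσ
  apply hne
  apply huniq
  · rw [← below_asIdeal, below_gsmul, hw]
  · rw [← below_asIdeal, hw]

end choice

section galQ

variable {L : Type} [Field L] [NumberField L]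

theorem exists_intCast_eq (x : 𝓞 ℚ) : ∃ n : ℤ, (n : 𝓞 ℚ) = x := by
  refine ⟨Rat.ringOfIntegersEquiv x, ?_⟩
  have h := map_intCast Rat.ringOfIntegersEquiv.symm (Rat.ringOfIntegersEquiv x)
  rw [Int.cast_id] at h
  rw [← h, RingEquiv.symm_apply_apply]

/-- the prime of `ℚ` below a prime of `L` containing the rational prime `l` -/
theorem below_rat_asIdeal (w : Pl L) {l : ℕ} (hl : l.Prime) (hw : ((l : ℕ) : 𝓞 L) ∈ w.asIdeal) :
    (below ℚ w).asIdeal = Ideal.span {((l : ℕ) : 𝓞 ℚ)} := by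
  rw [below_asIdeal]
  apply le_antisymm
  · intro x hx
    obtain ⟨n, rfl⟩ := exists_intCast_eq x
    rw [Ideal.mem_comap, map_intCast] at hx
    rw [Ideal.mem_span_singleton]
    by_cases hln : (l : ℤ) ∣ n
    · obtain ⟨k, rfl⟩ := hln
      exact ⟨(k : 𝓞 ℚ), by push_cast; ring⟩
    · exfalso
      have hco : IsCoprime (l : ℤ) n :=
        (Nat.prime_iff_prime_int.mp hl).irreducible.coprime_iff_not_dvd.mpr hln
      obtain ⟨a, b, hab⟩ := hco
      have h1 : (1 : 𝓞 L) ∈ w.asIdeal := by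
        have : (1 : 𝓞 L) = (a : 𝓞 L) * ((l : ℕ) : 𝓞 L) + (b : 𝓞 L) * (n : 𝓞 L) := by
          have := congrArg (fun z : ℤ => (z : 𝓞 L)) hab
          simp only [Int.cast_add, Int.cast_mul, Int.cast_natCast, Int.cast_one] at this
          exact this.symm
        rw [this]
        exact w.asIdeal.add_mem (w.asIdeal.mul_mem_left _ hw) (w.asIdeal.mul_mem_left _ hx)
      exact w.isPrime.ne_top ((Ideal.eq_top_iff_one _).mpr h1)
  · rw [Ideal.span_singleton_le_iff_mem, Ideal.mem_comap, map_natCast]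
    exact hw

/-- in a Galois extension of `ℚ`, all primes containing the rational prime `N(u)` have the same
norm as `u`. -/
theorem absNorm_eq_of_natCast_mem [IsGalois ℚ L] (u w : Pl L)
    (hu : (Ideal.absNorm u.asIdeal).Prime)
    (hw : ((Ideal.absNorm u.asIdeal : ℕ) : 𝓞 L) ∈ w.asIdeal) :
    Ideal.absNorm w.asIdeal = Ideal.absNorm u.asIdeal := by
  have h : below ℚ u = below ℚ w := by
    apply HeightOneSpectrum.ext
    rw [below_rat_asIdeal u hu (Ideal.absNorm_mem _), below_rat_asIdeal w hu hw]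
  obtain ⟨σ, hσ⟩ := exists_gsmul_eq ℚ h
  rw [← hσ, frob_absNorm_gsmul]

end galQ

section idem

variable {K L : Type*} [Field K] [NumberField K] [Field L] [NumberField L] [Algebra K L]
  [IsGalois K L]

theorem gsmul_ne_of_ef_one {w : Pl L} (he : eOf K w = 1) (hf : fOf K w = 1) {g : L ≃ₐ[K] L}
    (hg : g ≠ 1) : gsmul K g w ≠ w := by
  intro h
  have hc := card_stabilizer K w
  rw [he, hf, mul_one, Nat.card_eq_one_iff_unique] at hc
  obtain ⟨hsub, -⟩ := hc
  have := hsub.elim ⟨g, h⟩ ⟨1, gsmul_one K w⟩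
  exact hg (congrArg Subtype.val this)

theorem vGe_apply_of_gsmul_inv (g : L ≃ₐ[K] L) (w : Pl L) (n : ℤ) (x : L)
    (h : vGe (gsmul K g⁻¹ w) n x) : vGe w n (g x) := by
  have h1 := (vGe_gsmul K g (gsmul K g⁻¹ w) n x).mpr h
  rwa [← gsmul_mul, mul_inv_cancel, gsmul_one] at h1

theorem ord_gsmul_natCast (g : L ≃ₐ[K] L) (w : Pl L) (m : ℕ) :
    ord (gsmul K g w) ((m : ℕ) : L) = ord w ((m : ℕ) : L) := by
  have h := ord_gsmul K g w ((m : ℕ) : L)
  rwa [map_natCast] at h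

omit [IsGalois K L] [Field K] [NumberField K] [Algebra K L] in
theorem vGe_sum {ι : Type*} (w : Pl L) (n : ℤ) (s : Finset ι) (f : ι → L)
    (h : ∀ i ∈ s, vGe w n (f i)) : vGe w n (∑ i ∈ s, f i) := by
  classical
  induction s using Finset.induction_on with
  | empty => simpa using vGe_zero w n
  | insert a s ha ih =>
    rw [Finset.sum_insert ha]
    exact (h a (Finset.mem_insert_self a s)).add
      (ih fun i hi => h i (Finset.mem_insert_of_mem hi))

omit [IsGalois K L] [Field K] [NumberField K] [Algebra K L] in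
/-- from local divisibility to global divisibility by `m` -/
theorem natCast_dvd_of_forall_vGe (m : ℕ) (hm : m ≠ 0) (x : 𝓞 L)
    (h : ∀ w : Pl L, vGe w (ord w ((m : ℕ) : L)) (x : L)) : (m : 𝓞 L) ∣ x := by
  have hmL : ((m : ℕ) : L) ≠ 0 := natCast_ne_zero' hm
  have hint : IsIntegral ℤ ((x : L) / ((m : ℕ) : L)) := by
    apply isIntegral_of_forall_vGe
    intro w
    rw [vGe_iff]
    by_cases hx : (x : L) = 0
    · left
      rw [hx, zero_div]
    · right
      rw [ord_div w hx hmL]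
      have := (vGe_iff.mp (h w)).resolve_left hx
      omega
  obtain ⟨y, hy⟩ : ∃ y : 𝓞 L, (y : L) = (x : L) / ((m : ℕ) : L) := ⟨⟨_, hint⟩, rfl⟩
  refine ⟨y, ?_⟩
  apply RingOfIntegers.ext
  show algebraMap (𝓞 L) L x = algebraMap (𝓞 L) L ((m : 𝓞 L) * y)
  rw [map_mul, map_natCast]
  show (x : L) = ((m : ℕ) : L) * (y : L)
  rw [hy]
  field_simp

theorem exists_idem (m : ℕ) (hm : m ≠ 0)
    (hsplit : ∀ w : Pl L, ord w ((m : ℕ) : L) ≠ 0 → eOf K w = 1 ∧ fOf K w = 1) :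
    ∃ ε : 𝓞 L,
      (∀ g : L ≃ₐ[K] L, g ≠ 1 → (m : 𝓞 L) ∣ ε * galRestrict (𝓞 K) K L (𝓞 L) g ε) ∧
      (m : 𝓞 L) ∣ (∑ g : L ≃ₐ[K] L, galRestrict (𝓞 K) K L (𝓞 L) g ε) - 1 := by
  classical
  have hmint : IsIntegral ℤ ((m : ℕ) : L) := by
    exact_mod_cast isIntegral_algebraMap (R := ℤ) (x := (m : ℤ))
  have hord0 : ∀ w : Pl L, 0 ≤ ord w ((m : ℕ) : L) := fun w => ord_nonneg_of_isIntegral w hmint
  choose rep hrep using fun v : Pl K => exists_above K (F' := L) v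
  let W : Finset (Pl L) := (ord_support_finite ((m : ℕ) : L)).toFinset
  have hW : ∀ w, w ∈ W ↔ ord w ((m : ℕ) : L) ≠ 0 := fun w => by simp [W]
  let n : Pl L → ℕ := fun w => (ord w ((m : ℕ) : L)).toNat
  have hn : ∀ w, (n w : ℤ) = ord w ((m : ℕ) : L) := fun w => Int.toNat_of_nonneg (hord0 w)
  let a : Pl L → 𝓞 L := fun w => if rep (below K w) = w then 1 else 0
  obtain ⟨ε, hε⟩ := exists_crt' W a n
  have hK1 : ∀ w, ord w ((m : ℕ) : L) ≠ 0 → rep (below K w) = w →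
      vGe w (ord w ((m : ℕ) : L)) ((ε : L) - 1) := by
    intro w hw hr
    have := hε w ((hW w).mpr hw)
    simp only [a, if_pos hr] at this
    rw [hn] at this
    simpa using this
  have hK2 : ∀ w, ord w ((m : ℕ) : L) ≠ 0 → rep (below K w) ≠ w →
      vGe w (ord w ((m : ℕ) : L)) (ε : L) := by
    intro w hw hr
    have := hε w ((hW w).mpr hw)
    simp only [a, if_neg hr] at this
    rw [hn] at this
    simpa using this
  have hεint : ∀ w : Pl L, vGe w 0 (ε : L) := fun w => vGe_of_isIntegral w ε.2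
  have hgint : ∀ (g : L ≃ₐ[K] L) (w : Pl L), vGe w 0 (g (ε : L)) := by
    intro g w
    rw [← coe_galRestrict]
    exact vGe_of_isIntegral w (galRestrict (𝓞 K) K L (𝓞 L) g ε).2
  have hkey : ∀ (g : L ≃ₐ[K] L) (w : Pl L), ord w ((m : ℕ) : L) ≠ 0 →
      rep (below K w) ≠ gsmul K g⁻¹ w → vGe w (ord w ((m : ℕ) : L)) (g (ε : L)) := by
    intro g w hw hr
    apply vGe_apply_of_gsmul_inv
    have h1 : ord (gsmul K g⁻¹ w) ((m : ℕ) : L) = ord w ((m : ℕ) : L) :=
      ord_gsmul_natCast g⁻¹ w m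
    rw [← h1]
    apply hK2
    · rw [h1]
      exact hw
    · rw [below_gsmul]
      exact hr
  refine ⟨ε, fun g hg => ?_, ?_⟩
  · apply natCast_dvd_of_forall_vGe m hm
    intro w
    have hcoe : ((ε * galRestrict (𝓞 K) K L (𝓞 L) g ε : 𝓞 L) : L) = (ε : L) * g (ε : L) := by
      rw [← coe_galRestrict]
      exact map_mul (algebraMap (𝓞 L) L) _ _
    rw [hcoe]
    by_cases hw : ord w ((m : ℕ) : L) = 0
    · rw [hw]
      simpa using (hεint w).mul (hgint g w)
    · by_cases hr : rep (below K w) = w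
      · have h2 : rep (below K w) ≠ gsmul K g⁻¹ w := by
          rw [hr]
          intro h3
          obtain ⟨he, hf⟩ := hsplit w hw
          exact gsmul_ne_of_ef_one he hf (inv_ne_one.mpr hg) h3.symm
        have := (hεint w).mul (hkey g w hw h2)
        simpa using this
      · have := (hK2 w hw hr).mul (hgint g w)
        simpa using this
  · apply natCast_dvd_of_forall_vGe m hm
    intro w
    have hcoe : (((∑ g : L ≃ₐ[K] L, galRestrict (𝓞 K) K L (𝓞 L) g ε) - 1 : 𝓞 L) : L) =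
        ∑ g : L ≃ₐ[K] L, g (ε : L) - 1 := by
      show algebraMap (𝓞 L) L _ = _
      rw [map_sub, map_sum, map_one]
      exact congrArg (· - 1) (Finset.sum_congr rfl fun g _ => coe_galRestrict K g ε)
    rw [hcoe]
    by_cases hw : ord w ((m : ℕ) : L) = 0
    · rw [hw]
      exact (vGe_sum w 0 _ _ fun g _ => hgint g w).sub
        (vGe_of_isIntegral w isIntegral_one)
    · have hb : below K (rep (below K w)) = below K w := hrep _
      obtain ⟨h, hh⟩ := exists_gsmul_eq K hb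
      have hw0m : ord (rep (below K w)) ((m : ℕ) : L) = ord w ((m : ℕ) : L) := by
        have h7 := ord_gsmul_natCast h (rep (below K w)) m
        rw [hh] at h7
        exact h7.symm
      have hr0 : rep (below K (rep (below K w))) = rep (below K w) := by rw [hb]
      have h1 : vGe w (ord w ((m : ℕ) : L)) (h (ε : L) - 1) := by
        have h5 := hK1 (rep (below K w)) (by rw [hw0m]; exact hw) hr0
        rw [hw0m] at h5
        have h6 := (vGe_gsmul K h (rep (below K w)) _ _).mpr h5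
        rw [hh, map_sub, map_one] at h6
        exact h6
      have h2 : ∀ g ∈ (Finset.univ.erase h : Finset (L ≃ₐ[K] L)),
          vGe w (ord w ((m : ℕ) : L)) (g (ε : L)) := by
        intro g hg
        have hgh : g ≠ h := Finset.ne_of_mem_erase hg
        apply hkey g w hw
        intro h3
        have h3' : gsmul K (g⁻¹ * h) (rep (below K w)) = rep (below K w) := by
          rw [gsmul_mul, hh]
          exact h3.symm
        obtain ⟨he, hf⟩ := hsplit (rep (below K w)) (by rw [hw0m]; exact hw)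
        exact gsmul_ne_of_ef_one he hf (g := g⁻¹ * h)
          (fun h4 => hgh (inv_mul_eq_one.mp h4)) h3'
      have h3 : ∑ g : L ≃ₐ[K] L, g (ε : L) - 1 =
          (h (ε : L) - 1) + ∑ g ∈ Finset.univ.erase h, g (ε : L) := by
        rw [← Finset.add_sum_erase Finset.univ _ (Finset.mem_univ h)]
        ring
      rw [h3]
      exact h1.add (vGe_sum w _ _ _ h2)

end idem

section indep

variable {L : Type*} [Field L] [NumberField L]

theorem ord_natCast_nonneg (u : Pl L) (n : ℕ) : 0 ≤ ord u ((n : ℕ) : L) :=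
  ord_nonneg_of_isIntegral u (by exact_mod_cast isIntegral_algebraMap (R := ℤ) (x := (n : ℤ)))

theorem ord_natCast_mul (u : Pl L) {a b : ℕ} (ha : a ≠ 0) (hb : b ≠ 0) :
    ord u ((a * b : ℕ) : L) = ord u ((a : ℕ) : L) + ord u ((b : ℕ) : L) := by
  push_cast
  exact ord_mul u (natCast_ne_zero' ha) (natCast_ne_zero' hb)

theorem ord_natCast_eq_zero_of_dvd (u : Pl L) {a M : ℕ} (h : a ∣ M) (hM0 : M ≠ 0)
    (hM : ord u ((M : ℕ) : L) = 0) : ord u ((a : ℕ) : L) = 0 := by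
  obtain ⟨k, rfl⟩ := h
  have ha : a ≠ 0 := fun h => hM0 (by simp [h])
  have hk : k ≠ 0 := fun h => hM0 (by simp [h])
  rw [ord_natCast_mul u ha hk] at hM
  have h1 := ord_natCast_nonneg u a
  have h2 := ord_natCast_nonneg u k
  omega

theorem coprime_absNorm_of_ord_eq_zero (u : Pl L) (hu : (Ideal.absNorm u.asIdeal).Prime) {M : ℕ}
    (hM0 : M ≠ 0) (hM : ord u ((M : ℕ) : L) = 0) : Nat.Coprime (Ideal.absNorm u.asIdeal) M := by
  rw [Nat.Prime.coprime_iff_not_dvd hu]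
  intro h
  have h1 := ord_natCast_eq_zero_of_dvd u h hM0 hM
  have h2 := one_le_ord_absNorm u
  omega

/-- a natural number prime to `u`, as a `u`-unit -/
noncomputable def natU (u : Pl L) (n : ℕ) (h : ord u ((n : ℕ) : L) = 0) (h0 : n ≠ 0) :
    ↥(vUnits u) :=
  ⟨Units.mk0 ((n : ℕ) : L) (natCast_ne_zero' h0), mem_vUnits_iff.mpr h⟩

theorem isPthPowerMod_of_modEq (u : Pl L) {l : ℕ} (hl : ((l : ℕ) : 𝓞 L) ∈ u.asIdeal) {N : ℕ}
    (h : N ≡ 1 [MOD l]) (p : ℕ) : IsPthPowerMod p u ((N : ℕ) : L) := by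
  refine ⟨1, ?_⟩
  rw [one_pow]
  obtain ⟨k, hk⟩ := Nat.modEq_iff_dvd.mp h
  have h2 : ((N : ℕ) : 𝓞 L) - 1 ∈ u.asIdeal := by
    have h3 : ((N : ℕ) : 𝓞 L) - 1 = -(((l : ℕ) : 𝓞 L) * (k : 𝓞 L)) := by
      have h4 := congrArg (fun z : ℤ => (z : 𝓞 L)) hk
      simp only [Int.cast_sub, Int.cast_natCast, Int.cast_mul, Nat.cast_one] at h4
      rw [← h4]
      ring
    rw [h3]
    exact u.asIdeal.neg_mem (u.asIdeal.mul_mem_right _ hl)
  have h3 := (mem_asIdeal_iff u _).mp h2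
  simpa using h3

/-- the residue indices of `n₁^a n₂^b` -/
theorem idx_eq_zero_iff {p : ℕ} (hp : p.Prime) (hζ : ∃ ζ : L, IsPrimitiveRoot ζ p) (u : Pl L)
    (hv : ord u ((p : ℕ) : L) = 0) (n1 n2 : ℕ) (h1 : ord u ((n1 : ℕ) : L) = 0) (h1' : n1 ≠ 0)
    (h2 : ord u ((n2 : ℕ) : L) = 0) (h2' : n2 ≠ 0) (a b : ℕ) :
    (a : ZMod p) * Multiplicative.toAdd (resChar p u (natU u n1 h1 h1')) +
      (b : ZMod p) * Multiplicative.toAdd (resChar p u (natU u n2 h2 h2')) = 0 ↔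
    IsPthPowerMod p u ((n1 ^ a * n2 ^ b : ℕ) : L) := by
  have hcoe : (((natU u n1 h1 h1' ^ a * natU u n2 h2 h2' ^ b : ↥(vUnits u)) : Lˣ) : L) =
      ((n1 ^ a * n2 ^ b : ℕ) : L) := by
    simp [natU]
  rw [← hcoe, ← resChar_eq_one_iff hp hζ u hv, map_mul, map_pow, map_pow, ← toAdd_eq_zero,
    toAdd_mul, toAdd_pow, toAdd_pow, nsmul_eq_mul, nsmul_eq_mul]

end indep

section main

/-- **(B3)**, core form (no degree hypothesis): choice of the auxiliary modulus `m = l₁ l₂`. -/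
theorem exists_modulus_aux (p : ℕ) [Fact p.Prime] (h3 : 3 ≤ p) (K L : Type) [Field K]
    [NumberField K] [Field L] [NumberField L] [Algebra K L] [IsCyclotomicExtension {p} ℚ K]
    [IsGalois ℚ L] [IsGalois K L] (hunr : Unramified K L)
    (v1 v2 : Pl K) (h12 : Nat.Coprime (Ideal.absNorm v1.asIdeal) (Ideal.absNorm v2.asIdeal))
    (N : ℕ) (hN : N ≠ 0) :
    ∃ m : ℕ, 0 < m ∧ Nat.Coprime m N ∧ Nat.Coprime m p ∧
      Nat.Coprime m (Ideal.absNorm v1.asIdeal) ∧ Nat.Coprime m (Ideal.absNorm v2.asIdeal) ∧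
      (∀ a b : ℕ, Ideal.absNorm v1.asIdeal ^ a * Ideal.absNorm v2.asIdeal ^ b ≡ 1 [MOD m] →
        p ∣ a ∧ p ∣ b) ∧
      (∀ v : Pl K, ord v ((m : ℕ) : K) ≠ 0 → IsSplit K L v) ∧
      ∃ ε : 𝓞 L,
        (∀ g : L ≃ₐ[K] L, g ≠ 1 → (m : 𝓞 L) ∣ ε * galRestrict (𝓞 K) K L (𝓞 L) g ε) ∧
        (m : 𝓞 L) ∣ (∑ g : L ≃ₐ[K] L, galRestrict (𝓞 K) K L (𝓞 L) g ε) - 1 := by
  classical
  have hp : p.Prime := Fact.out
  have hp2 : p ≠ 2 := by omega
  have hp0 : p ≠ 0 := hp.ne_zero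
  have hn1' : Ideal.absNorm v1.asIdeal ≠ 0 := absNorm_ne_zero v1
  have hn2' : Ideal.absNorm v2.asIdeal ≠ 0 := absNorm_ne_zero v2
  have hζL : ∃ ζ : L, IsPrimitiveRoot ζ p := by
    have hz := IsCyclotomicExtension.zeta_spec p ℚ K
    exact ⟨algebraMap K L _, hz.map_of_injective (algebraMap K L).injective⟩
  have hKp : Module.finrank ℚ K < p := by
    have : NeZero p := ⟨hp0⟩
    rw [IsCyclotomicExtension.Rat.finrank p K, Nat.totient_prime hp]
    omega
  -- a good prime for the exponents `(c, d)`, prime to `M`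
  have key : ∀ (M c d : ℕ), M ≠ 0 → ¬ (p ∣ c ∧ p ∣ d) → ∃ u : Pl L,
      (Ideal.absNorm u.asIdeal).Prime ∧ ord u ((M : ℕ) : L) = 0 ∧ ord u ((p : ℕ) : L) = 0 ∧
      ¬ IsPthPowerMod p u ((Ideal.absNorm v1.asIdeal ^ c * Ideal.absNorm v2.asIdeal ^ d : ℕ) : L) := by
    intro M c d hM hcd
    have hx : ∀ y : L, y ^ p ≠
        ((Ideal.absNorm v1.asIdeal ^ c * Ideal.absNorm v2.asIdeal ^ d : ℕ) : L) :=
      fun y hy => hcd (dvd_and_dvd_of_pow_eq hp hKp hunr v1 v2 h12 c d y hy)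
    obtain ⟨u, huT, hprime, hup, -, hnon⟩ := exists_nonresidue hp hp2 hζL _ hx
      (ord_support_finite ((M : ℕ) : L)).toFinset
    refine ⟨u, hprime, ?_, hup, hnon⟩
    by_contra h
    exact huT (by simpa using h)
  -- first prime
  set M1 : ℕ := N * p * Ideal.absNorm v1.asIdeal * Ideal.absNorm v2.asIdeal with hM1
  have hM1' : M1 ≠ 0 := by
    rw [hM1]
    exact mul_ne_zero (mul_ne_zero (mul_ne_zero hN hp0) hn1') hn2'
  obtain ⟨u1, hu1p, hu1M, hu1pp, hu1non⟩ := key M1 1 0 hM1' (fun h => hp.one_lt.ne'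
    (Nat.dvd_one.mp h.1))
  have hu1n1 : ord u1 ((Ideal.absNorm v1.asIdeal : ℕ) : L) = 0 :=
    ord_natCast_eq_zero_of_dvd u1 (Dvd.intro_left _ rfl |>.mul_right _) hM1' hu1M
  have hu1n2 : ord u1 ((Ideal.absNorm v2.asIdeal : ℕ) : L) = 0 :=
    ord_natCast_eq_zero_of_dvd u1 (Dvd.intro_left _ rfl) hM1' hu1M
  set s1 : ZMod p := Multiplicative.toAdd (resChar p u1 (natU u1 _ hu1n1 hn1')) with hs1
  set t1 : ZMod p := Multiplicative.toAdd (resChar p u1 (natU u1 _ hu1n2 hn2')) with ht1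
  have hs1ne : s1 ≠ 0 := by
    intro h
    apply hu1non
    rw [← idx_eq_zero_iff hp hζL u1 hu1pp _ _ hu1n1 hn1' hu1n2 hn2' 1 0, ← hs1, h]
    simp
  -- second prime
  set l1 := Ideal.absNorm u1.asIdeal with hl1
  have hl1' : l1 ≠ 0 := hu1p.ne_zero
  obtain ⟨u2, hu2p, hu2M, hu2pp, hu2non⟩ := key (M1 * l1) t1.val (-s1).val
    (mul_ne_zero hM1' hl1') (by
      rintro ⟨-, h⟩
      have h' := (ZMod.natCast_eq_zero_iff _ _).mpr h
      rw [ZMod.natCast_zmod_val, neg_eq_zero] at h'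
      exact hs1ne h')
  have hu2M1 : ord u2 ((M1 : ℕ) : L) = 0 :=
    ord_natCast_eq_zero_of_dvd u2 (Dvd.intro _ rfl) (mul_ne_zero hM1' hl1') hu2M
  have hu2n1 : ord u2 ((Ideal.absNorm v1.asIdeal : ℕ) : L) = 0 :=
    ord_natCast_eq_zero_of_dvd u2 (Dvd.intro_left _ rfl |>.mul_right _) hM1' hu2M1
  have hu2n2 : ord u2 ((Ideal.absNorm v2.asIdeal : ℕ) : L) = 0 :=
    ord_natCast_eq_zero_of_dvd u2 (Dvd.intro_left _ rfl) hM1' hu2M1
  set s2 : ZMod p := Multiplicative.toAdd (resChar p u2 (natU u2 _ hu2n1 hn1')) with hs2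
  set t2 : ZMod p := Multiplicative.toAdd (resChar p u2 (natU u2 _ hu2n2 hn2')) with ht2
  have hdet : t1 * s2 + (-s1) * t2 ≠ 0 := by
    intro h
    apply hu2non
    rw [← idx_eq_zero_iff hp hζL u2 hu2pp _ _ hu2n1 hn1' hu2n2 hn2' t1.val (-s1).val, ← hs2, ← ht2,
      ZMod.natCast_zmod_val, ZMod.natCast_zmod_val]
    exact h
  set l2 := Ideal.absNorm u2.asIdeal with hl2
  have hl2' : l2 ≠ 0 := hu2p.ne_zero
  -- coprimality
  have hc1 : Nat.Coprime l1 M1 := coprime_absNorm_of_ord_eq_zero u1 hu1p hM1' hu1M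
  have hc2 : Nat.Coprime l2 M1 := coprime_absNorm_of_ord_eq_zero u2 hu2p hM1' hu2M1
  have hcm : Nat.Coprime (l1 * l2) M1 := Nat.Coprime.mul_left hc1 hc2
  have hl1mem : ((l1 : ℕ) : 𝓞 L) ∈ u1.asIdeal := Ideal.absNorm_mem _
  have hl2mem : ((l2 : ℕ) : 𝓞 L) ∈ u2.asIdeal := Ideal.absNorm_mem _
  have hm0 : l1 * l2 ≠ 0 := mul_ne_zero hl1' hl2'
  -- splitting of the primes above `m`
  have hsplit : ∀ w : Pl L, ord w ((l1 * l2 : ℕ) : L) ≠ 0 → eOf K w = 1 ∧ fOf K w = 1 := by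
    intro w hw
    refine ⟨hunr w, ?_⟩
    rw [ord_natCast_mul w hl1' hl2'] at hw
    have hprime : (Ideal.absNorm w.asIdeal).Prime := by
      by_cases h1 : ord w ((l1 : ℕ) : L) = 0
      · have h2 : 1 ≤ ord w ((l2 : ℕ) : L) := by
          have := ord_natCast_nonneg w l2
          omega
        have hmem : ((l2 : ℕ) : 𝓞 L) ∈ w.asIdeal := by
          rw [mem_asIdeal_iff, vGe_iff]
          right
          simpa using h2
        rw [absNorm_eq_of_natCast_mem u2 w hu2p hmem]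
        exact hu2p
      · have h2 : 1 ≤ ord w ((l1 : ℕ) : L) := by
          have := ord_natCast_nonneg w l1
          omega
        have hmem : ((l1 : ℕ) : 𝓞 L) ∈ w.asIdeal := by
          rw [mem_asIdeal_iff, vGe_iff]
          right
          simpa using h2
        rw [absNorm_eq_of_natCast_mem u1 w hu1p hmem]
        exact hu1p
    have h4 := absNorm_eq_pow_fOf (F := K) w
    exact ((Nat.Prime.pow_eq_iff hprime).mp h4.symm).2
  refine ⟨l1 * l2, Nat.pos_of_ne_zero hm0, ?_, ?_, ?_, ?_, ?_, ?_, exists_idem (l1 * l2) hm0 hsplit⟩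
  · exact Nat.Coprime.coprime_dvd_right
      (Dvd.intro _ rfl |>.mul_right _ |>.mul_right _) hcm
  · exact Nat.Coprime.coprime_dvd_right
      (Dvd.intro_left _ rfl |>.mul_right _ |>.mul_right _) hcm
  · exact Nat.Coprime.coprime_dvd_right (Dvd.intro_left _ rfl |>.mul_right _) hcm
  · exact Nat.Coprime.coprime_dvd_right (Dvd.intro_left _ rfl) hcm
  · intro a b hab
    have e1 := (idx_eq_zero_iff hp hζL u1 hu1pp _ _ hu1n1 hn1' hu1n2 hn2' a b).mpr
      (isPthPowerMod_of_modEq u1 hl1mem (Nat.ModEq.of_mul_right _ hab) p)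
    have e2 := (idx_eq_zero_iff hp hζL u2 hu2pp _ _ hu2n1 hn1' hu2n2 hn2' a b).mpr
      (isPthPowerMod_of_modEq u2 hl2mem (Nat.ModEq.of_mul_left _ hab) p)
    rw [← hs1, ← ht1] at e1
    rw [← hs2, ← ht2] at e2
    have ha : (a : ZMod p) * (t1 * s2 + (-s1) * t2) = 0 := by
      linear_combination t1 * e2 - t2 * e1
    have hb : (b : ZMod p) * (t1 * s2 + (-s1) * t2) = 0 := by
      linear_combination s2 * e1 - s1 * e2
    constructor
    · exact (ZMod.natCast_eq_zero_iff _ _).mp ((mul_eq_zero.mp ha).resolve_right hdet)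
    · exact (ZMod.natCast_eq_zero_iff _ _).mp ((mul_eq_zero.mp hb).resolve_right hdet)
  · intro v hv w hw
    apply hsplit
    rw [ord_natCast_above (K := K), hw]
    exact mul_ne_zero (by exact_mod_cast (eOf_pos K w).ne') hv

/-- **(B3)**: choice of the auxiliary modulus `m = l₁ l₂`. -/
theorem exists_modulus (p : ℕ) [Fact p.Prime] (h3 : 3 ≤ p) (K L : Type) [Field K] [NumberField K]
    [Field L] [NumberField L] [Algebra K L] [IsCyclotomicExtension {p} ℚ K] [IsGalois ℚ L]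
    [IsGalois K L] (_hdeg : Module.finrank K L = p) (hunr : Unramified K L)
    (v1 v2 : Pl K) (h12 : Nat.Coprime (Ideal.absNorm v1.asIdeal) (Ideal.absNorm v2.asIdeal))
    (N : ℕ) (hN : N ≠ 0) :
    ∃ m : ℕ, 0 < m ∧ Nat.Coprime m N ∧ Nat.Coprime m p ∧
      Nat.Coprime m (Ideal.absNorm v1.asIdeal) ∧ Nat.Coprime m (Ideal.absNorm v2.asIdeal) ∧
      (∀ a b : ℕ, Ideal.absNorm v1.asIdeal ^ a * Ideal.absNorm v2.asIdeal ^ b ≡ 1 [MOD m] →
        p ∣ a ∧ p ∣ b) ∧
      (∀ v : Pl K, ord v ((m : ℕ) : K) ≠ 0 → IsSplit K L v) ∧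
      ∃ ε : 𝓞 L,
        (∀ g : L ≃ₐ[K] L, g ≠ 1 → (m : 𝓞 L) ∣ ε * galRestrict (𝓞 K) K L (𝓞 L) g ε) ∧
        (m : 𝓞 L) ∣ (∑ g : L ≃ₐ[K] L, galRestrict (𝓞 K) K L (𝓞 L) g ε) - 1 :=
  exists_modulus_aux p h3 K L hunr v1 v2 h12 N hN

/-- integer exponents in a finite group can be replaced by natural ones, keeping divisibility
by `p` -/
theorem exists_nat_zpow_eq {G : Type*} [Group G] [Finite G] (p : ℕ) (hp : p ≠ 0) (y : ℤ) :
    ∃ a : ℕ, (∀ x : G, x ^ a = x ^ y) ∧ (p ∣ a ↔ (p : ℤ) ∣ y) := by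
  have hc : Nat.card G ≠ 0 := Nat.card_pos.ne'
  have hc0 : ((p * Nat.card G : ℕ) : ℤ) ≠ 0 := by exact_mod_cast mul_ne_zero hp hc
  have h1 : ((y % ((p * Nat.card G : ℕ) : ℤ)).toNat : ℤ) = y % ((p * Nat.card G : ℕ) : ℤ) :=
    Int.toNat_of_nonneg (Int.emod_nonneg y hc0)
  have h2 : y = ((y % ((p * Nat.card G : ℕ) : ℤ)).toNat : ℤ) +
      ((p * Nat.card G : ℕ) : ℤ) * (y / ((p * Nat.card G : ℕ) : ℤ)) := by
    rw [h1]
    exact (Int.emod_add_mul_ediv y _).symm
  refine ⟨(y % ((p * Nat.card G : ℕ) : ℤ)).toNat, fun x => ?_, ?_⟩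
  · conv_rhs => rw [h2]
    rw [zpow_add, zpow_natCast, zpow_mul, zpow_natCast, pow_mul', pow_card_eq_one', one_pow,
      one_zpow, mul_one]
  · have hpc : (p : ℤ) ∣ ((p * Nat.card G : ℕ) : ℤ) * (y / ((p * Nat.card G : ℕ) : ℤ)) := by
      rw [Nat.cast_mul, mul_assoc]
      exact dvd_mul_right _ _
    rw [← Int.natCast_dvd_natCast]
    conv_rhs => rw [h2]
    exact (dvd_add_left hpc).symm

end main

end Fermat.Agent.S14x.B3
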