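import Fermat.Agent.S14_Comp

set_option autoImplicit false

namespace Fermat.Agent.S14x

open IsDedekindDomain NumberField

/-- A number field containing a primitive `p`-th root of unity, `p` an odd prime, is totally
complex. -/
theorem isTotallyComplex_of_primitiveRoot {F : Type} [Field F] [NumberField F] {p : ℕ}
    (hp : p.Prime) (hp2 : p ≠ 2) {ζ : F} (hζ : IsPrimitiveRoot ζ p) : IsTotallyComplex F := by
  refine ⟨fun v => ?_⟩
  by_contra hv
  rw [InfinitePlace.not_isComplex_iff_isReal, InfinitePlace.isReal_iff] at hv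
  have hodd : Odd p := hp.odd_of_ne_two hp2
  have h1 : (v.embedding ζ) ^ p = 1 := by rw [← map_pow, hζ.pow_eq_one, map_one]
  have h2 : (starRingEnd ℂ) (v.embedding ζ) = v.embedding ζ := by
    rw [← NumberField.ComplexEmbedding.conjugate_coe_eq,
      NumberField.ComplexEmbedding.isReal_iff.mp hv]
  obtain ⟨r, hr⟩ : ∃ r : ℝ, (r : ℂ) = v.embedding ζ := ⟨_, (Complex.conj_eq_iff_real.mp h2).choose_spec.symm⟩
  rw [← hr] at h1
  have h3 : r ^ p = 1 := by exact_mod_cast h1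
  have h4 : r = 1 := hodd.strictMono_pow.injective (by simpa using h3)
  rw [h4] at hr
  have h5 : ζ = 1 := v.embedding.injective (by rw [← hr, map_one]; simp)
  exact hp.one_lt.ne' (hζ.unique (h5 ▸ IsPrimitiveRoot.one))

section cross

variable {p : ℕ} {K L Ω : Type} [Field K] [Field L] [Field Ω] [NumberField K] [NumberField L]
  [NumberField Ω] [Algebra K L] [Algebra K Ω] [Algebra L Ω] [IsScalarTower K L Ω]
  [IsGalois K L] [IsGalois K Ω]

variable {m : ℕ} [NeZero m] {μ : Ω} (hμ : IsPrimitiveRoot μ m)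

theorem ord_natCast_eq_zero_of_notMem {F : Type} [Field F] [NumberField F] (P : Pl F) (m : ℕ)
    (hm : (m : 𝓞 F) ∉ P.asIdeal) : ord P (m : F) = 0 := by
  have hmi : IsIntegral ℤ ((m : ℕ) : F) := by
    simpa using (isIntegral_algebraMap (R := ℤ) (A := F) (x := (m : ℤ)))
  have h0 : 0 ≤ ord P (m : F) := ord_nonneg_of_isIntegral P hmi
  by_contra hne
  apply hm
  rw [mem_asIdeal_iff, vGe_iff]
  right
  have : ((m : 𝓞 F) : F) = (m : F) := by simp
  rw [this]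
  omega

theorem notMem_of_ord_natCast_eq_zero {F : Type} [Field F] [NumberField F] (P : Pl F) (m : ℕ)
    [NeZero m] (hm : ord P (m : F) = 0) : (m : 𝓞 F) ∉ P.asIdeal := by
  rw [mem_asIdeal_iff, vGe_iff]
  have : ((m : 𝓞 F) : F) = (m : F) := by simp
  rw [this, hm]
  have hm0 : (m : F) ≠ 0 := Nat.cast_ne_zero.mpr (NeZero.ne m)
  simp [hm0]

include hμ in
theorem exists_frob_fixF (h : NFData p K L) (H : Subgroup (Ω ≃ₐ[K] Ω)) (P : Pl ↥(fixF H))
    (hP : ord P (m : ↥(fixF H)) = 0) :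
    ∃ ψ ∈ H, ψ.restrictNormal L = h.frob (below K P) ^ fOf K P ∧
      hμ.autToPow K ψ = Fermat.Agent.S14B2.nrmUnit m P := by
  obtain ⟨𝔓, h𝔓⟩ := exists_above ↥(fixF H) (F' := Ω) P
  obtain ⟨ψ₀, hψ₀⟩ := exists_isFrobPow (F := ↥(fixF H)) 𝔓
  rw [h𝔓] at hψ₀
  have hψ : IsFrobPow K (ψ₀.restrictScalars K) 𝔓 (Ideal.absNorm P.asIdeal) := hψ₀.restrictScalars
  refine ⟨ψ₀.restrictScalars K, ?_, ?_, ?_⟩
  · have hmem : ψ₀.restrictScalars K ∈ (fixF H).fixingSubgroup := by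
      rw [IntermediateField.mem_fixingSubgroup_iff]
      intro x hx
      exact ψ₀.commutes ⟨x, hx⟩
    exact (IntermediateField.fixingSubgroup_fixedField H).le hmem
  · have hb : below K (below L 𝔓) = below K P := by
      rw [below_below, ← h𝔓, below_below]
    apply h.frob_pow_unique hb
    rw [← Fermat.Agent.S14B2.absNorm_eq_pow_fOf K P]
    exact hψ.restrictNormal
  · have hm0 : ord 𝔓 ((m : ℕ) : Ω) = 0 := by
      have := ord_algebraMap ↥(fixF H) 𝔓 ((m : ℕ) : ↥(fixF H))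
      rw [h𝔓, hP, mul_zero] at this
      rwa [map_natCast] at this
    have h1 : (ψ₀.restrictScalars K) μ = μ ^ Ideal.absNorm P.asIdeal :=
      hψ.apply_root hμ.pow_eq_one hm0 (NeZero.ne m)
    have h2 := hμ.autToPow_spec K (ψ₀.restrictScalars K)
    rw [h1] at h2
    have hcop := Fermat.Agent.S14B2.coprime_absNorm_of_notMem P m
      (notMem_of_ord_natCast_eq_zero P m hP)
    apply Units.ext
    rw [Fermat.Agent.S14B2.coe_nrmUnit m P hcop]
    rw [pow_eq_pow_mod (Ideal.absNorm P.asIdeal) hμ.pow_eq_one] at h2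
    have h3 := hμ.pow_inj (ZMod.val_lt _) (Nat.mod_lt _ (Nat.pos_of_ne_zero (NeZero.ne m))) h2
    rw [← ZMod.natCast_zmod_val ((hμ.autToPow K (ψ₀.restrictScalars K) : (ZMod m)ˣ) : ZMod m),
      h3, ZMod.natCast_mod]

include hμ in
theorem exists_frob_prod (h : NFData p K L) (e : (L ≃ₐ[K] L) →* Multiplicative (ZMod p))
    (H : Subgroup (Ω ≃ₐ[K] Ω)) (D : Dv ↥(fixF H))
    (hDm : ∀ P, D P ≠ 0 → ord P (m : ↥(fixF H)) = 0) :
    ∃ Ψ ∈ H, Multiplicative.toAdd (e (AlgEquiv.restrictNormalHom L Ψ)) =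
        h.artin e (normDiv K D) ∧
      Additive.ofMul (hμ.autToPow K Ψ) = Fermat.Agent.S14B2.normChar m D := by
  induction D using Finsupp.induction with
  | zero => exact ⟨1, H.one_mem, by simp, by simp⟩
  | single_add P n D hP hn ih =>
    have hPD : D P = 0 := Finsupp.notMem_support_iff.mp hP
    obtain ⟨Ψ', hΨ'H, hΨ'1, hΨ'2⟩ := ih (by
      intro Q hQ
      apply hDm Q
      rw [Finsupp.add_apply]
      by_cases hQP : Q = P
      · exact absurd (hQP ▸ hPD) hQ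
      · rwa [Finsupp.single_eq_of_ne hQP, zero_add])
    have hPm : ord P (m : ↥(fixF H)) = 0 := by
      apply hDm P
      rw [Finsupp.add_apply, Finsupp.single_eq_same, hPD, add_zero]
      exact hn
    obtain ⟨ψ, hψH, hψ1, hψ2⟩ := exists_frob_fixF hμ h H P hPm
    refine ⟨ψ ^ n * Ψ', H.mul_mem (H.zpow_mem hψH n) hΨ'H, ?_, ?_⟩
    · have hψ1' : AlgEquiv.restrictNormalHom L ψ = h.frob (below K P) ^ fOf K P := hψ1
      have h1 : normDiv K (Finsupp.single P n) =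
          Finsupp.single (below K P) ((fOf K P : ℤ) * n) := by
        simp [normDiv]
      rw [map_mul, map_zpow, map_mul, map_zpow, toAdd_mul, toAdd_zpow, hΨ'1, hψ1', map_add, h1,
        map_add, h.artin_single, map_pow, toAdd_pow, mul_comm, mul_smul, natCast_zsmul]
    · rw [map_mul, map_zpow, ofMul_mul, ofMul_zpow, hΨ'2, hψ2, map_add,
        Fermat.Agent.S14B2.normChar_single]

theorem zsmul_zmod_eq_zero_of_dvd {p : ℕ} (a : ZMod p) {y : ℤ} (hy : (p : ℤ) ∣ y) : y • a = 0 := by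
  obtain ⟨k, rfl⟩ := hy
  rw [mul_comm, mul_smul, natCast_zsmul, ← Nat.cast_smul_eq_nsmul (ZMod p), ZMod.natCast_self,
    zero_smul, smul_zero]

include hμ in
/-- `χ_F = artin ∘ N_{F/K}` kills `div b` for `b ≡ 1 mod m`, when the elements of `H` with trivial
cyclotomic character restrict trivially to `L`. -/
theorem artin_normDiv_div_eq_zero (h : NFData p K L)
    (e : (L ≃ₐ[K] L) →* Multiplicative (ZMod p)) (H : Subgroup (Ω ≃ₐ[K] Ω))
    (hH : ∀ Ψ ∈ H, hμ.autToPow K Ψ = 1 → e (AlgEquiv.restrictNormalHom L Ψ) = 1)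
    (b : 𝓞 ↥(fixF H)) (hb0 : b ≠ 0) (hbm : (m : 𝓞 ↥(fixF H)) ∣ b - 1) :
    h.artin e (normDiv K (div (b : ↥(fixF H)))) = 0 := by
  haveI : IsTotallyComplex ↥(fixF H) := by
    obtain ⟨ζ, hζ⟩ := h.zeta
    exact isTotallyComplex_of_primitiveRoot h.prime h.odd
      (hζ.map_of_injective (algebraMap K ↥(fixF H)).injective)
  have hDm : ∀ P, div (b : ↥(fixF H)) P ≠ 0 → ord P (m : ↥(fixF H)) = 0 := by
    intro P hP
    rw [divisor_apply] at hP
    exact ord_natCast_eq_zero_of_notMem P m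
      (Fermat.Agent.S14B2.natCast_notMem_of_dvd_sub_one P m b hbm
        (Fermat.Agent.S14B2.mem_asIdeal_of_ord_ne_zero P b hb0 hP))
  obtain ⟨Ψ, hΨH, hΨ1, hΨ2⟩ := exists_frob_prod hμ h e H _ hDm
  rw [Fermat.Agent.S14B2.normChar_div_eq_zero m b hb0 hbm] at hΨ2
  have hΨ2' : hμ.autToPow K Ψ = 1 := Additive.ofMul.injective hΨ2
  rw [← hΨ1, hH Ψ hΨH hΨ2', toAdd_one]

/-- the homomorphism `Gal(Ω/K) → ZMod p × (ZMod m)ˣ` (restriction to `L`, cyclotomic character). -/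
noncomputable def crossι (e : (L ≃ₐ[K] L) →* Multiplicative (ZMod p)) (hμ : IsPrimitiveRoot μ m) :
    (Ω ≃ₐ[K] Ω) →* Multiplicative (ZMod p) × (ZMod m)ˣ :=
  (e.comp (AlgEquiv.restrictNormalHom L)).prod (hμ.autToPow K)

/-- the (normal) subgroup of `Gal(Ω/K)` of elements whose image under `crossι` lies in the subgroup
generated by the images of `φ₁`, `φ₂`. -/
noncomputable def crossH (e : (L ≃ₐ[K] L) →* Multiplicative (ZMod p)) (hμ : IsPrimitiveRoot μ m)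
    (φ₁ φ₂ : Ω ≃ₐ[K] Ω) : Subgroup (Ω ≃ₐ[K] Ω) :=
  (Subgroup.closure {crossι e hμ φ₁, crossι e hμ φ₂}).comap (crossι e hμ)

instance crossH.normal (e : (L ≃ₐ[K] L) →* Multiplicative (ZMod p)) (hμ : IsPrimitiveRoot μ m)
    (φ₁ φ₂ : Ω ≃ₐ[K] Ω) : (crossH e hμ φ₁ φ₂).Normal :=
  Subgroup.Normal.comap (Subgroup.normal_of_comm _) _

theorem crossH.left_mem (e : (L ≃ₐ[K] L) →* Multiplicative (ZMod p)) (hμ : IsPrimitiveRoot μ m)
    (φ₁ φ₂ : Ω ≃ₐ[K] Ω) : φ₁ ∈ crossH e hμ φ₁ φ₂ :=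
  Subgroup.mem_comap.mpr (Subgroup.subset_closure (Set.mem_insert _ _))

theorem crossH.right_mem (e : (L ≃ₐ[K] L) →* Multiplicative (ZMod p)) (hμ : IsPrimitiveRoot μ m)
    (φ₁ φ₂ : Ω ≃ₐ[K] Ω) : φ₂ ∈ crossH e hμ φ₁ φ₂ :=
  Subgroup.mem_comap.mpr (Subgroup.subset_closure (Set.mem_insert_of_mem _ rfl))

theorem crossH.spec (e : (L ≃ₐ[K] L) →* Multiplicative (ZMod p)) (hμ : IsPrimitiveRoot μ m)
    {φ₁ φ₂ : Ω ≃ₐ[K] Ω}
    (hind : ∀ y₁ y₂ : ℤ, hμ.autToPow K φ₁ ^ y₁ * hμ.autToPow K φ₂ ^ y₂ = 1 →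
      (p : ℤ) ∣ y₁ ∧ (p : ℤ) ∣ y₂)
    (Ψ : Ω ≃ₐ[K] Ω) (hΨ : Ψ ∈ crossH e hμ φ₁ φ₂) (hΨ1 : hμ.autToPow K Ψ = 1) :
    e (AlgEquiv.restrictNormalHom L Ψ) = 1 := by
  have hι : crossι e hμ Ψ ∈ Subgroup.closure {crossι e hμ φ₁, crossι e hμ φ₂} := hΨ
  rw [Subgroup.mem_closure_pair] at hι
  obtain ⟨y₁, y₂, hy⟩ := hι
  have hy1 : e (AlgEquiv.restrictNormalHom L φ₁) ^ y₁ * e (AlgEquiv.restrictNormalHom L φ₂) ^ y₂ =
      e (AlgEquiv.restrictNormalHom L Ψ) := by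
    have := congrArg Prod.fst hy
    simpa [crossι] using this
  have hy2 : hμ.autToPow K φ₁ ^ y₁ * hμ.autToPow K φ₂ ^ y₂ = hμ.autToPow K Ψ := by
    have := congrArg Prod.snd hy
    simpa [crossι] using this
  obtain ⟨hk₁, hk₂⟩ := hind y₁ y₂ (hy2.trans hΨ1)
  apply Multiplicative.toAdd.injective
  rw [← hy1, toAdd_mul, toAdd_zpow, toAdd_zpow, zsmul_zmod_eq_zero_of_dvd _ hk₁,
    zsmul_zmod_eq_zero_of_dvd _ hk₂, add_zero, toAdd_one]

end cross

end Fermat.Agent.S14x
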