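/-
S14 (ExtVanishingCts), Part B3, bridge: the auxiliary modulus of `B3.exists_modulus` in the shape
consumed by `B4core` / `B5_exists` (`ord v (m) = 0`, `fOf K w = 1` above `m`, independence of the
norm units `nrmUnit m v₁`, `nrmUnit m v₂` modulo `p`-th powers with integer exponents).
-/
import Fermat.Agent.S14_B3
import Fermat.Agent.S14_CrossFrob

set_option autoImplicit false

namespace Fermat.Agent.S14x

open IsDedekindDomain NumberField

/-- if `m` is coprime to the absolute norm of `v` then `v ∤ m`. -/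
theorem ord_natCast_eq_zero_of_coprime_absNorm {F : Type} [Field F] [NumberField F] (v : Pl F)
    (m : ℕ) (h : Nat.Coprime m (Ideal.absNorm v.asIdeal)) : ord v (m : F) = 0 := by
  apply ord_natCast_eq_zero_of_notMem
  intro hm
  have h1 : ((Ideal.absNorm v.asIdeal : ℕ) : 𝓞 F) ∈ v.asIdeal := Ideal.absNorm_mem v.asIdeal
  obtain ⟨a, b, hab⟩ := (Nat.isCoprime_iff_coprime.mpr h)
  have h2 : (1 : 𝓞 F) ∈ v.asIdeal := by
    have h3 : ((a * (m : ℤ) + b * (Ideal.absNorm v.asIdeal : ℤ) : ℤ) : 𝓞 F) = 1 := by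
      rw [hab, Int.cast_one]
    rw [← h3]
    push_cast
    exact Ideal.add_mem _ (Ideal.mul_mem_left _ _ hm) (Ideal.mul_mem_left _ _ h1)
  exact v.isPrime.ne_top ((Ideal.eq_top_iff_one _).mpr h2)

/-- independence with integer exponents in `(ZMod m)ˣ` from independence with natural exponents
modulo `m`. -/
theorem nrmUnit_indep_of_modEq {F : Type} [Field F] [NumberField F] (p m : ℕ) (hm : 0 < m)
    (hp : 0 < p) (v₁ v₂ : Pl F)
    (h₁ : Nat.Coprime (Ideal.absNorm v₁.asIdeal) m) (h₂ : Nat.Coprime (Ideal.absNorm v₂.asIdeal) m)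
    (hind : ∀ a b : ℕ, Ideal.absNorm v₁.asIdeal ^ a * Ideal.absNorm v₂.asIdeal ^ b ≡ 1 [MOD m] →
      p ∣ a ∧ p ∣ b)
    (y₁ y₂ : ℤ)
    (hy : Fermat.Agent.S14B2.nrmUnit m v₁ ^ y₁ * Fermat.Agent.S14B2.nrmUnit m v₂ ^ y₂ = 1) :
    (p : ℤ) ∣ y₁ ∧ (p : ℤ) ∣ y₂ := by
  haveI : NeZero m := ⟨hm.ne'⟩
  have hc : 0 < Nat.card (ZMod m)ˣ := Nat.card_pos
  obtain ⟨M, hMdef⟩ : ∃ M : ℤ, M = ((p * Nat.card (ZMod m)ˣ : ℕ) : ℤ) := ⟨_, rfl⟩
  have hM : 0 < M := by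
    rw [hMdef]
    exact_mod_cast Nat.mul_pos hp hc
  have hpM : (p : ℤ) ∣ M := ⟨(Nat.card (ZMod m)ˣ : ℤ), by rw [hMdef]; push_cast; ring⟩
  have hu : ∀ (u : (ZMod m)ˣ) (y : ℤ), u ^ y = u ^ (y % M).toNat := by
    intro u y
    rw [← zpow_natCast, Int.toNat_of_nonneg (Int.emod_nonneg _ hM.ne')]
    conv_lhs => rw [← Int.emod_add_mul_ediv y M]
    have h1 : u ^ M = 1 := by
      rw [hMdef, zpow_natCast, mul_comm, pow_mul, pow_card_eq_one', one_pow]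
    rw [zpow_add, zpow_mul, h1, one_zpow, mul_one]
  have hdvd : ∀ y : ℤ, p ∣ (y % M).toNat → (p : ℤ) ∣ y := by
    intro y hpy
    have h1 : (p : ℤ) ∣ y % M := by
      rw [← Int.toNat_of_nonneg (Int.emod_nonneg y hM.ne')]
      exact Int.natCast_dvd_natCast.mpr hpy
    rw [← Int.emod_add_mul_ediv y M]
    exact dvd_add h1 (Dvd.dvd.mul_right hpM _)
  rw [hu _ y₁, hu _ y₂] at hy
  have h3 : ((Ideal.absNorm v₁.asIdeal ^ (y₁ % M).toNat *
      Ideal.absNorm v₂.asIdeal ^ (y₂ % M).toNat : ℕ) : ZMod m) = ((1 : ℕ) : ZMod m) := by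
    have := congrArg Units.val hy
    rw [Units.val_mul, Units.val_pow_eq_pow_val, Units.val_pow_eq_pow_val,
      Fermat.Agent.S14B2.coe_nrmUnit m v₁ h₁, Fermat.Agent.S14B2.coe_nrmUnit m v₂ h₂,
      Units.val_one] at this
    push_cast
    exact this
  have h4 := (ZMod.natCast_eq_natCast_iff _ _ _).mp h3
  obtain ⟨hpa, hpb⟩ := hind _ _ h4
  exact ⟨hdvd y₁ hpa, hdvd y₂ hpb⟩

/-- **(B3)** choice of the auxiliary modulus, in the shape consumed by `B4core`. -/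
theorem exists_modulus (p : ℕ) [Fact p.Prime] (h3 : 3 ≤ p) (K L : Type) [Field K] [NumberField K]
    [Field L] [NumberField L] [Algebra K L] [IsCyclotomicExtension {p} ℚ K] [IsGalois K L]
    [IsGalois ℚ L] (hdeg : Module.finrank K L = p) (hunr : Unramified K L)
    (v₁ v₂ : Pl K)
    (hcop : Nat.Coprime (Ideal.absNorm v₁.asIdeal) (Ideal.absNorm v₂.asIdeal)) :
    ∃ m : ℕ, m ≠ 0 ∧ ord v₁ (m : K) = 0 ∧ ord v₂ (m : K) = 0 ∧
      (∀ w : Pl L, ord w (m : L) ≠ 0 → fOf K w = 1) ∧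
      (∀ y₁ y₂ : ℤ,
        Fermat.Agent.S14B2.nrmUnit m v₁ ^ y₁ * Fermat.Agent.S14B2.nrmUnit m v₂ ^ y₂ = 1 →
        (p : ℤ) ∣ y₁ ∧ (p : ℤ) ∣ y₂) := by
  obtain ⟨m, hm, -, -, hc1, hc2, hind, hspl, -⟩ :=
    B3.exists_modulus p h3 K L hdeg hunr v₁ v₂ hcop 1 one_ne_zero
  refine ⟨m, hm.ne', ord_natCast_eq_zero_of_coprime_absNorm v₁ m hc1,
    ord_natCast_eq_zero_of_coprime_absNorm v₂ m hc2, ?_, ?_⟩
  · intro w hw
    have h1 := ord_algebraMap K w ((m : ℕ) : K)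
    rw [map_natCast] at h1
    have h2 : ord (below K w) ((m : ℕ) : K) ≠ 0 := by
      intro h0
      rw [h0, mul_zero] at h1
      exact hw h1
    exact (hspl _ h2 w rfl).2
  · exact fun y₁ y₂ hy => nrmUnit_indep_of_modEq p m hm (Fact.out : p.Prime).pos v₁ v₂
      hc1.symm hc2.symm hind y₁ y₂ hy

end Fermat.Agent.S14x
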