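/-
S14 (ExtVanishingCts), Part B: the second inequality (A10_second) at `Type`, packaged as a
hypothesis `A10Hyp p` consumed by B4core / B5.
-/
import Fermat.Agent.S14_Div

set_option autoImplicit false

namespace Fermat.Agent.S14x

open IsDedekindDomain NumberField

/-- the second inequality (A10_second) at `Type`, as a hypothesis. -/
def A10Hyp (p : ℕ) : Prop :=
  ∀ (F F' : Type) [Field F] [NumberField F] [Field F'] [NumberField F'] [Algebra F F'],
    KummerPair F F' p → Unramified F F' → ∀ χ : Dv F →+ ZMod p, χ ≠ 0 →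
    (∀ x : F, x ≠ 0 → χ (div x) = 0) → (∀ D' : Dv F', χ (normDiv F D') = 0) →
    ∀ D : Dv F, χ D = 0 → ∃ x : F, x ≠ 0 ∧ ∃ D' : Dv F', D = div x + normDiv F D'

end Fermat.Agent.S14x
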