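/-
S14, Part B, leaf (R1): a Frobenius element of `Ω/K` at `𝔓` which fixes an intermediate field
`F` pointwise forces the residue degree of `𝔓 ∩ F` over `K` to be one.
-/
import Fermat.Agent.S14_Frob

set_option autoImplicit false

namespace Fermat.Agent.S14x

open IsDedekindDomain NumberField

/-- (R1) a Frobenius fixing `F` pointwise forces residue degree one. -/
theorem fOf_eq_one_of_isFrobPow_fix {K F Ω : Type} [Field K] [NumberField K] [Field F]
    [NumberField F] [Field Ω] [NumberField Ω] [Algebra K F] [Algebra F Ω] [Algebra K Ω]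
    [IsScalarTower K F Ω] {φ : Ω ≃ₐ[K] Ω} {𝔓 : Pl Ω}
    (hφ : IsFrobPow K φ 𝔓 (Ideal.absNorm (below K 𝔓).asIdeal))
    (hfix : ∀ x : F, φ (algebraMap F Ω x) = algebraMap F Ω x) : fOf K (below F 𝔓) = 1 := by
  apply fOf_eq_one_of_isFrobPow_one
  rw [below_below, isFrobPow_iff_mem]
  intro x
  show algebraMap (𝓞 F) (𝓞 Ω) _ ∈ 𝔓.asIdeal
  have h' := (isFrobPow_iff_mem φ 𝔓 _).mp hφ (algebraMap (𝓞 F) (𝓞 Ω) x)
  convert h' using 1
  apply RingOfIntegers.ext
  rw [frob_coe_sub_pow]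
  show algebraMap F Ω ((galRestrict (𝓞 K) K F (𝓞 F) (1 : F ≃ₐ[K] F) x -
    x ^ Ideal.absNorm (below K 𝔓).asIdeal : 𝓞 F) : F) = _
  rw [frob_coe_sub_pow, map_sub, map_pow, AlgEquiv.one_apply]
  show _ = φ (algebraMap F Ω (x : F)) - (algebraMap F Ω (x : F)) ^ _
  rw [hfix]

end Fermat.Agent.S14x
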