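/-
S14 leaf B-CRT (helper4's finding #54): a character of `Dv F` killing norms from `F'` and the
ray `b ≡ 1 mod m` kills all principal divisors, provided norms are surjective modulo `m` and
the primes dividing `m` split in `F'`.
-/
import Fermat.Agent.S14_DivGal

set_option autoImplicit false

namespace Fermat.Agent.S14x.RayCRT

open IsDedekindDomain NumberField

section absolute

variable {F : Type*} [Field F] [NumberField F]

/-- integrality of `z / m` from local conditions -/
theorem isIntegral_div_of_vGe {m z : F} (hm : m ≠ 0) (h : ∀ v : Pl F, vGe v (ord v m) z) :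
    IsIntegral ℤ (z / m) := by
  refine isIntegral_of_forall_vGe fun v => ?_
  rcases eq_or_ne z 0 with rfl | hz
  · rw [zero_div]; exact vGe_zero v 0
  · rw [vGe_iff]; right
    rw [ord_div v hz hm]
    rcases vGe_iff.mp (h v) with h0 | h0
    · exact absurd h0 hz
    · omega

theorem vGe_of_isIntegral_div {m z : F} (hm : m ≠ 0) (h : IsIntegral ℤ (z / m)) (v : Pl F) :
    vGe v (ord v m) z := by
  rcases eq_or_ne z 0 with rfl | hz
  · exact vGe_zero v _
  · rw [vGe_iff]; right
    have := ord_nonneg_of_isIntegral v h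
    rw [ord_div v hz hm] at this
    omega

end absolute

section relative

variable {F : Type*} [Field F] [NumberField F] {F' : Type*} [Field F'] [NumberField F']
  [Algebra F F']

theorem below_asIdeal' (w : Pl F') :
    (below F w).asIdeal = w.asIdeal.comap (algebraMap (𝓞 F) (𝓞 F')) := rfl

/-- only finitely many primes above a given prime -/
theorem finite_above' (P : Pl F) : {w : Pl F' | below F w = P}.Finite := by
  obtain ⟨π, hπ⟩ := exists_uniformizer P
  have hπ0 : (π : F) ≠ 0 := by
    intro h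
    rw [h, ord_zero] at hπ
    exact zero_ne_one hπ
  have hπP : π ∈ P.asIdeal := by
    rw [mem_asIdeal_iff, vGe_iff]
    right; omega
  have hne : algebraMap F F' (π : F) ≠ 0 := by
    rwa [Ne, map_eq_zero]
  refine (finite_setOf_vGe_one hne).subset ?_
  intro w hw
  have hw' : below F w = P := hw
  have h1 : algebraMap (𝓞 F) (𝓞 F') π ∈ w.asIdeal := by
    have : π ∈ (below F w).asIdeal := by rw [hw']; exact hπP
    rw [below_asIdeal'] at this
    exact this
  exact (mem_asIdeal_iff w _).mp h1

open Classical in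
theorem normDiv_apply' (D : Dv F') (P : Pl F) :
    normDiv F D P = ∑ w ∈ D.support, if below F w = P then (fOf F w : ℤ) * D w else 0 := by
  unfold normDiv
  rw [Finsupp.liftAddHom_apply, Finsupp.sum, Finsupp.finsetSum_apply]
  refine Finset.sum_congr rfl fun w _ => ?_
  show (Finsupp.single (below F w) ((fOf F w : ℤ) * D w)) P = _
  rw [Finsupp.single_apply]

end relative

section main

variable {p : ℕ} {F : Type*} [Field F] [NumberField F] {F' : Type*} [Field F'] [NumberField F']
  [Algebra F F']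

/-- step (A): an integral `b` invertible modulo `m` -/
theorem step_A (m : ℕ) (χ : Dv F →+ ZMod p)
    (hdn : ∀ z : F', z ≠ 0 → div (Algebra.norm F z) = normDiv F (div z))
    (hχN : ∀ D' : Dv F', χ (normDiv F D') = 0)
    (hχ1 : ∀ b : F, IsIntegral ℤ b → b ≠ 0 → IsIntegral ℤ ((b - 1) / (m : F)) → χ (div b) = 0)
    (hnorm : ∀ b : F, IsIntegral ℤ b →
      ∃ γ : F', IsIntegral ℤ γ ∧ IsIntegral ℤ ((Algebra.norm F γ - b) / (m : F)))
    {b b' : F} (hb : IsIntegral ℤ b) (hb' : IsIntegral ℤ b')
    (hbb' : IsIntegral ℤ ((b * b' - 1) / (m : F))) : χ (div b) = 0 := by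
  rcases eq_or_ne b 0 with rfl | hb0
  · simp [divisor_zero]
  have hall : IsIntegral ℤ ((1 : F) / m) → χ (div b) = 0 := fun h1 =>
    hχ1 b hb hb0 (by
      have e : (b - 1) / (m : F) = (b - 1) * (1 / (m : F)) := by ring
      rw [e]
      exact (hb.sub isIntegral_one).mul h1)
  rcases eq_or_ne b' 0 with rfl | hb'0
  · apply hall
    have e : (1 : F) / m = -((b * 0 - 1) / (m : F)) := by ring
    rw [e]
    exact hbb'.neg
  obtain ⟨γ, hγ, hγb⟩ := hnorm b hb
  have hNγ : IsIntegral ℤ (Algebra.norm F γ) := Algebra.isIntegral_norm F hγ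
  have h2 : IsIntegral ℤ ((Algebra.norm F γ * b' - 1) / (m : F)) := by
    have e : (Algebra.norm F γ * b' - 1) / (m : F) =
        (Algebra.norm F γ - b) / (m : F) * b' + (b * b' - 1) / (m : F) := by ring
    rw [e]
    exact (hγb.mul hb').add hbb'
  rcases eq_or_ne γ 0 with rfl | hγ0
  · apply hall
    rw [Algebra.norm_zero] at h2
    have e : (1 : F) / m = -((0 * b' - 1) / (m : F)) := by ring
    rw [e]
    exact h2.neg
  have hN0 : Algebra.norm F γ ≠ 0 := Algebra.norm_ne_zero_iff.mpr hγ0
  have e1 := hχ1 _ (hNγ.mul hb') (mul_ne_zero hN0 hb'0) h2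
  rw [divisor_mul hN0 hb'0, map_add, hdn γ hγ0, hχN, zero_add] at e1
  have e2 := hχ1 _ (hb.mul hb') (mul_ne_zero hb0 hb'0) hbb'
  rw [divisor_mul hb0 hb'0, map_add, e1, add_zero] at e2
  exact e2

/-- step (0): if `1 / m` is integral, the ray condition is empty -/
theorem step_zero (m : ℕ) (χ : Dv F →+ ZMod p)
    (hχ1 : ∀ b : F, IsIntegral ℤ b → b ≠ 0 → IsIntegral ℤ ((b - 1) / (m : F)) → χ (div b) = 0)
    (h1 : IsIntegral ℤ ((1 : F) / m)) {x : F} (hx : x ≠ 0) : χ (div x) = 0 := by
  have hall : ∀ b : F, IsIntegral ℤ b → b ≠ 0 → χ (div b) = 0 := fun b hb hb0 =>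
    hχ1 b hb hb0 (by
      have e : (b - 1) / (m : F) = (b - 1) * (1 / (m : F)) := by ring
      rw [e]
      exact (hb.sub isIntegral_one).mul h1)
  obtain ⟨a, b, hb0, rfl⟩ := IsFractionRing.div_surjective (A := 𝓞 F) x
  have hb0' : (algebraMap (𝓞 F) F b) ≠ 0 := by
    intro h
    rw [h, div_zero] at hx
    exact hx rfl
  have ha0' : (algebraMap (𝓞 F) F a) ≠ 0 := by
    intro h
    rw [h, zero_div] at hx
    exact hx rfl
  have e1 := hall _ a.2 ha0'
  have e2 := hall _ b.2 hb0'
  rw [div_eq_mul_inv, divisor_mul ha0' (inv_ne_zero hb0'), divisor_inv, map_add, map_neg]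
  show χ (div (algebraMap (𝓞 F) F a)) + -χ (div (algebraMap (𝓞 F) F b)) = 0
  have e1' : χ (div (algebraMap (𝓞 F) F a)) = 0 := e1
  have e2' : χ (div (algebraMap (𝓞 F) F b)) = 0 := e2
  rw [e1', e2', neg_zero, add_zero]

/-- step (B): `x` a unit at all primes dividing `m` -/
theorem step_B (m : ℕ) (hm : m ≠ 0) (χ : Dv F →+ ZMod p)
    (hdn : ∀ z : F', z ≠ 0 → div (Algebra.norm F z) = normDiv F (div z))
    (hχN : ∀ D' : Dv F', χ (normDiv F D') = 0)
    (hχ1 : ∀ b : F, IsIntegral ℤ b → b ≠ 0 → IsIntegral ℤ ((b - 1) / (m : F)) → χ (div b) = 0)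
    (hnorm : ∀ b : F, IsIntegral ℤ b →
      ∃ γ : F', IsIntegral ℤ γ ∧ IsIntegral ℤ ((Algebra.norm F γ - b) / (m : F)))
    (hinv : ¬ IsIntegral ℤ ((1 : F) / m))
    {x : F} (hx : x ≠ 0) (hxS : ∀ P : Pl F, ord P (m : F) ≠ 0 → ord P x = 0) :
    χ (div x) = 0 := by
  classical
  have hmF : (m : F) ≠ 0 := Nat.cast_ne_zero.mpr hm
  have hmint : IsIntegral ℤ (m : F) := isIntegral_natCast m
  set Sm : Finset (Pl F) := (ord_support_finite (m : F)).toFinset with hSmdef
  have hSm : ∀ P, P ∈ Sm ↔ ord P (m : F) ≠ 0 := by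
    intro P
    rw [hSmdef, Set.Finite.mem_toFinset]
    rfl
  set Tx : Finset (Pl F) := (ord_support_finite x).toFinset with hTxdef
  have hTx : ∀ P, P ∈ Tx ↔ ord P x ≠ 0 := by
    intro P
    rw [hTxdef, Set.Finite.mem_toFinset]
    rfl
  let n : Pl F → ℕ := fun v => (ord v (m : F)).toNat + (-ord v x).toNat
  have hn1 : ∀ v, ord v (m : F) ≤ (n v : ℤ) := by
    intro v
    simp only [n]
    push_cast
    omega
  have hn2 : ∀ v, -ord v x ≤ (n v : ℤ) := by
    intro v
    simp only [n]
    push_cast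
    omega
  let a : Pl F → 𝓞 F := fun v => if v ∈ Sm then 1 else 0
  obtain ⟨d, hd⟩ := exists_crt' (Sm ∪ Tx) a n
  have hdint : IsIntegral ℤ (d : F) := d.2
  have hdS : ∀ v ∈ Sm, vGe v (n v) ((d : F) - 1) := by
    intro v hv
    have := hd v (Finset.mem_union_left _ hv)
    simp only [a, if_pos hv] at this
    simpa using this
  have hd1 : IsIntegral ℤ (((d : F) - 1) / (m : F)) := by
    refine isIntegral_div_of_vGe hmF fun v => ?_
    by_cases hv : v ∈ Sm
    · exact (hdS v hv).mono (hn1 v)
    · have h0 : ord v (m : F) = 0 := by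
        by_contra h
        exact hv ((hSm v).mpr h)
      rw [h0]
      exact vGe_of_isIntegral v (hdint.sub isIntegral_one)
  have hd0 : (d : F) ≠ 0 := by
    intro h
    apply hinv
    rw [h] at hd1
    have e : (1 : F) / m = -((0 - 1) / (m : F)) := by ring
    rw [e]
    exact hd1.neg
  have hχd : χ (div (d : F)) = 0 := hχ1 _ hdint hd0 hd1
  have hord_d : ∀ P ∈ Sm, ord P (d : F) = 0 := by
    intro P hP
    have hpos : 1 ≤ ord P (m : F) := by
      have h1 := ord_nonneg_of_isIntegral P hmint
      have h2 := (hSm P).mp hP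
      omega
    have h3 : vGe P (ord P (1 : F) + 1) ((d : F) - 1) := by
      rw [ord_one]
      exact (hdS P hP).mono (by have := hn1 P; omega)
    have h4 := ord_add_of_lt P one_ne_zero h3
    rw [ord_one] at h4
    have e : (1 : F) + ((d : F) - 1) = (d : F) := by ring
    rwa [e] at h4
  set A : F := (d : F) * x with hA
  have hA0 : A ≠ 0 := mul_ne_zero hd0 hx
  have hAint : IsIntegral ℤ A := by
    refine isIntegral_of_forall_vGe fun v => ?_
    rw [vGe_iff]
    right
    rw [hA, ord_mul v hd0 hx]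
    by_cases hv : ord v x < 0
    · have hvT : v ∈ Sm ∪ Tx := Finset.mem_union_right _ ((hTx v).mpr (by omega))
      have hvS : v ∉ Sm := fun h => by
        have := hxS v ((hSm v).mp h)
        omega
      have h1 := hd v hvT
      simp only [a, if_neg hvS] at h1
      have h2 : vGe v (n v) (d : F) := by simpa using h1
      rcases vGe_iff.mp h2 with h3 | h3
      · exact absurd h3 hd0
      · have := hn2 v
        omega
    · have := ord_nonneg_of_isIntegral v hdint
      omega
  have hord_A : ∀ P ∈ Sm, ord P A = 0 := by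
    intro P hP
    rw [hA, ord_mul P hd0 hx, hord_d P hP, hxS P ((hSm P).mp hP)]
    rfl
  have hc : ∀ P : Pl F, ∃ c : 𝓞 F, P ∈ Sm → vGe P (n P) (A⁻¹ - (c : F)) := by
    intro P
    by_cases hP : P ∈ Sm
    · have h0 : vGe P 0 A⁻¹ := by
        rw [vGe_iff]
        right
        rw [ord_inv, hord_A P hP]
        simp
      obtain ⟨c, hc⟩ := exists_integer_approx P h0 (n P)
      exact ⟨c, fun _ => hc⟩
    · exact ⟨0, fun h => absurd h hP⟩
  choose c hc using hc
  obtain ⟨a', ha'⟩ := exists_crt' Sm c n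
  have hAA' : IsIntegral ℤ ((A * (a' : F) - 1) / (m : F)) := by
    refine isIntegral_div_of_vGe hmF fun v => ?_
    by_cases hv : v ∈ Sm
    · have h1 := ha' v hv
      have h2 := hc v hv
      have h3 : vGe v (n v) ((a' : F) - A⁻¹) := by
        have e : (a' : F) - A⁻¹ = ((a' : F) - (c v : F)) - (A⁻¹ - (c v : F)) := by ring
        rw [e]
        exact h1.sub h2
      have h4 : vGe v (0 + n v) (A * ((a' : F) - A⁻¹)) := (vGe_of_isIntegral v hAint).mul h3
      have h5 : A * ((a' : F) - A⁻¹) = A * (a' : F) - 1 := by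
        field_simp
      rw [h5, zero_add] at h4
      exact h4.mono (hn1 v)
    · have h0 : ord v (m : F) = 0 := by
        by_contra h
        exact hv ((hSm v).mpr h)
      rw [h0]
      exact vGe_of_isIntegral v ((hAint.mul a'.2).sub isIntegral_one)
  have hχA : χ (div A) = 0 := step_A m χ hdn hχN hχ1 hnorm hAint a'.2 hAA'
  rw [hA, divisor_mul hd0 hx, map_add, hχd, zero_add] at hχA
  exact hχA

/-- the CRT step, with the norm formula for divisors as a hypothesis -/
theorem kills_principal_of_congr_of [IsGalois F F'] (m : ℕ) (hm : m ≠ 0)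
    (χ : Dv F →+ ZMod p)
    (hdn : ∀ z : F', z ≠ 0 → div (Algebra.norm F z) = normDiv F (div z))
    (hχN : ∀ D' : Dv F', χ (normDiv F D') = 0)
    (hχ1 : ∀ b : F, IsIntegral ℤ b → b ≠ 0 → IsIntegral ℤ ((b - 1) / (m : F)) → χ (div b) = 0)
    (hnorm : ∀ b : F, IsIntegral ℤ b →
      ∃ γ : F', IsIntegral ℤ γ ∧ IsIntegral ℤ ((Algebra.norm F γ - b) / (m : F)))
    (hsplit : ∀ P : Pl F, ord P (m : F) ≠ 0 → IsSplit F F' P) :
    ∀ x : F, x ≠ 0 → χ (div x) = 0 := by
  classical
  intro x hx
  by_cases hinv : IsIntegral ℤ ((1 : F) / m)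
  · exact step_zero m χ hχ1 hinv hx
  set Sm : Finset (Pl F) := (ord_support_finite (m : F)).toFinset with hSmdef
  have hSm : ∀ P, P ∈ Sm ↔ ord P (m : F) ≠ 0 := by
    intro P
    rw [hSmdef, Set.Finite.mem_toFinset]
    rfl
  have hw : ∀ P : Pl F, ∃ w : Pl F', below F w = P := fun P => exists_above F (F' := F') P
  choose wOf hwOf using hw
  set T' : Finset (Pl F') := Sm.biUnion (fun P => (finite_above' (F' := F') P).toFinset)
    with hT'def
  have hT' : ∀ w : Pl F', w ∈ T' ↔ below F w ∈ Sm := by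
    intro w
    rw [hT'def, Finset.mem_biUnion]
    constructor
    · rintro ⟨P, hP, hwP⟩
      rw [Set.Finite.mem_toFinset] at hwP
      have : below F w = P := hwP
      rw [this]
      exact hP
    · intro h
      exact ⟨below F w, h, by rw [Set.Finite.mem_toFinset]; rfl⟩
  obtain ⟨y, hy0, hy⟩ := exists_ord_eq T'
    (fun w => if w = wOf (below F w) then ord (below F w) x else 0)
  have hNy0 : Algebra.norm F y ≠ 0 := Algebra.norm_ne_zero_iff.mpr hy0
  have key : ∀ P ∈ Sm, ord P (Algebra.norm F y) = ord P x := by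
    intro P hP
    have h1 : ord P (Algebra.norm F y) = normDiv F (div y) P := by
      rw [← hdn y hy0]
      rfl
    have hf : fOf F (wOf P) = 1 := (hsplit P ((hSm P).mp hP) (wOf P) (hwOf P)).2
    have hwT : wOf P ∈ T' := by
      rw [hT', hwOf P]
      exact hP
    have hyw : ord (wOf P) y = ord P x := by
      rw [hy _ hwT, hwOf P, if_pos rfl]
    rw [h1, normDiv_apply']
    have h2 : ∀ w ∈ (div y).support,
        (if below F w = P then (fOf F w : ℤ) * (div y) w else 0) =
          if w = wOf P then ord P x else 0 := by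
      intro w _
      by_cases hwP : below F w = P
      · rw [if_pos hwP]
        have hwT' : w ∈ T' := by
          rw [hT', hwP]
          exact hP
        rw [divisor_apply, hy w hwT', hwP]
        by_cases hww : w = wOf P
        · rw [if_pos hww, hww, hf]
          simp
        · rw [if_neg hww, mul_zero]
      · rw [if_neg hwP, if_neg]
        intro hww
        exact hwP (hww ▸ hwOf P)
    rw [Finset.sum_congr rfl h2, Finset.sum_ite_eq']
    split_ifs with hmem
    · rfl
    · rw [Finsupp.mem_support_iff, divisor_apply, hyw] at hmem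
      push Not at hmem
      exact hmem.symm
  set z : F := x / Algebra.norm F y with hz
  have hz0 : z ≠ 0 := div_ne_zero hx hNy0
  have hzS : ∀ P : Pl F, ord P (m : F) ≠ 0 → ord P z = 0 := by
    intro P hP
    rw [hz, ord_div P hx hNy0, key P ((hSm P).mpr hP)]
    ring
  have hχz := step_B m hm χ hdn hχN hχ1 hnorm hinv hz0 hzS
  have hx' : x = z * Algebra.norm F y := by
    rw [hz]
    field_simp
  rw [hx', divisor_mul hz0 hNy0, map_add, hχz, hdn y hy0, hχN, add_zero]

end main

end Fermat.Agent.S14x.RayCRT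

namespace Fermat.Agent.S14x

open IsDedekindDomain NumberField

/-- a character of `Dv F` killing norms from `F'` and the ray `b ≡ 1 mod m` kills ALL principal
divisors, provided norms are surjective modulo `m` and the primes dividing `m` split in `F'`. -/
theorem kills_principal_of_congr {p : ℕ} {F F' : Type} [Field F] [NumberField F] [Field F']
    [NumberField F'] [Algebra F F'] [IsGalois F F'] (m : ℕ) (hm : m ≠ 0)
    (χ : Dv F →+ ZMod p)
    (hχN : ∀ D' : Dv F', χ (normDiv F D') = 0)
    (hχ1 : ∀ b : F, IsIntegral ℤ b → b ≠ 0 → IsIntegral ℤ ((b - 1) / (m : F)) → χ (div b) = 0)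
    (hnorm : ∀ b : F, IsIntegral ℤ b →
      ∃ γ : F', IsIntegral ℤ γ ∧ IsIntegral ℤ ((Algebra.norm F γ - b) / (m : F)))
    (hsplit : ∀ P : Pl F, ord P (m : F) ≠ 0 → IsSplit F F' P) :
    ∀ x : F, x ≠ 0 → χ (div x) = 0 :=
  RayCRT.kills_principal_of_congr_of m hm χ (fun _ hz => divisor_norm F hz) hχN hχ1 hnorm hsplit

end Fermat.Agent.S14x
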