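/-
S14: norms from a Galois extension `F'/F` are surjective modulo `m` when the primes dividing
`m` split completely in `F'`; the ray-class CRT step without the norm hypothesis.
-/
import Fermat.Agent.S14_RayCRT

set_option autoImplicit false

namespace Fermat.Agent.S14x.NormSurj

open IsDedekindDomain NumberField

section absolute

variable {F : Type*} [Field F] [NumberField F]

/-- congruence of products -/
theorem vGe_prod_sub_prod {ι : Type*} (w : Pl F) (n : ℤ) (s : Finset ι) (x c : ι → F)
    (hx : ∀ i ∈ s, IsIntegral ℤ (x i)) (hc : ∀ i ∈ s, IsIntegral ℤ (c i))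
    (h : ∀ i ∈ s, vGe w n (x i - c i)) : vGe w n (∏ i ∈ s, x i - ∏ i ∈ s, c i) := by
  classical
  induction s using Finset.induction_on with
  | empty => simp [vGe_zero]
  | insert a s ha ih =>
    rw [Finset.prod_insert ha, Finset.prod_insert ha]
    have hX : IsIntegral ℤ (∏ i ∈ s, x i) :=
      IsIntegral.prod x (fun i hi => hx i (Finset.mem_insert_of_mem hi))
    have e : x a * ∏ i ∈ s, x i - c a * ∏ i ∈ s, c i =
        (x a - c a) * ∏ i ∈ s, x i + c a * (∏ i ∈ s, x i - ∏ i ∈ s, c i) := by ring
    rw [e]
    have h1 : vGe w (n + 0) ((x a - c a) * ∏ i ∈ s, x i) :=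
      (h a (Finset.mem_insert_self a s)).mul (vGe_of_isIntegral w hX)
    have h2 : vGe w (0 + n) (c a * (∏ i ∈ s, x i - ∏ i ∈ s, c i)) :=
      (vGe_of_isIntegral w (hc a (Finset.mem_insert_self a s))).mul
        (ih (fun i hi => hx i (Finset.mem_insert_of_mem hi))
          (fun i hi => hc i (Finset.mem_insert_of_mem hi))
          (fun i hi => h i (Finset.mem_insert_of_mem hi)))
    rw [add_zero] at h1
    rw [zero_add] at h2
    exact h1.add h2

end absolute

section relative

variable {F : Type*} [Field F] [NumberField F] {F' : Type*} [Field F'] [NumberField F']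
  [Algebra F F'] [IsGalois F F']

/-- a prime with `e = f = 1` has trivial stabilizer -/
theorem eq_one_of_gsmul_eq {w : Pl F'} (he : eOf F w = 1) (hf : fOf F w = 1)
    {σ : F' ≃ₐ[F] F'} (hσ : gsmul F σ w = w) : σ = 1 := by
  have hcard := card_stabilizer F w
  rw [he, hf, mul_one] at hcard
  have hsub : Subsingleton {σ : F' ≃ₐ[F] F' // gsmul F σ w = w} :=
    (Nat.card_eq_one_iff_unique.mp hcard).1
  have := hsub.elim ⟨σ, hσ⟩ ⟨1, gsmul_one F w⟩
  exact congrArg Subtype.val this

/-- norms are surjective modulo `m` if the primes dividing `m` split completely -/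
theorem norm_surjective_mod (m : ℕ) (hm : m ≠ 0)
    (hsplit : ∀ P : Pl F, ord P (m : F) ≠ 0 → IsSplit F F' P) :
    ∀ b : F, IsIntegral ℤ b →
      ∃ γ : F', IsIntegral ℤ γ ∧ IsIntegral ℤ ((Algebra.norm F γ - b) / (m : F)) := by
  classical
  intro b hb
  have hmF : (m : F) ≠ 0 := Nat.cast_ne_zero.mpr hm
  set Sm : Finset (Pl F) := (ord_support_finite (m : F)).toFinset with hSmdef
  have hSm : ∀ P, P ∈ Sm ↔ ord P (m : F) ≠ 0 := by
    intro P
    rw [hSmdef, Set.Finite.mem_toFinset]
    rfl
  have hw : ∀ P : Pl F, ∃ w : Pl F', below F w = P := fun P => exists_above F (F' := F') P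
  choose wOf hwOf using hw
  set T' : Finset (Pl F') := Sm.biUnion (fun P => (finite_above F (F' := F') P).toFinset)
    with hT'def
  have hT' : ∀ w : Pl F', w ∈ T' ↔ below F w ∈ Sm := by
    intro w
    rw [hT'def, Finset.mem_biUnion]
    constructor
    · rintro ⟨P, hP, hwP⟩
      rw [mem_finite_above_toFinset] at hwP
      rw [hwP]
      exact hP
    · intro h
      exact ⟨below F w, h, (mem_finite_above_toFinset F).mpr rfl⟩
  let n : Pl F' → ℕ := fun w => (ord (below F w) (m : F)).toNat
  let bO : 𝓞 F := ⟨b, hb⟩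
  let a : Pl F' → 𝓞 F' := fun w =>
    if w = wOf (below F w) then algebraMap (𝓞 F) (𝓞 F') bO else 1
  obtain ⟨γ, hγ⟩ := exists_crt' T' a n
  refine ⟨(γ : F'), γ.2, ?_⟩
  have hNint : IsIntegral ℤ (Algebra.norm F (γ : F')) := Algebra.isIntegral_norm F γ.2
  have hdiff : IsIntegral ℤ (Algebra.norm F (γ : F') - b) := hNint.sub hb
  refine RayCRT.isIntegral_div_of_vGe hmF fun P => ?_
  by_cases hP : P ∈ Sm
  swap
  · have h0 : ord P (m : F) = 0 := by
      by_contra h
      exact hP ((hSm P).mpr h)
    rw [h0]
    exact vGe_of_isIntegral P hdiff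
  -- the main case
  set w := wOf P with hwdef
  have hwP : below F w = P := hwOf P
  have hspl := hsplit P ((hSm P).mp hP) w hwP
  have hwT : w ∈ T' := by
    rw [hT', hwP]
    exact hP
  -- congruence upstairs
  have hup : vGe w (n w) (algebraMap F F' (Algebra.norm F (γ : F')) - algebraMap F F' b) := by
    rw [Algebra.norm_eq_prod_automorphisms]
    have hb' : algebraMap F F' b =
        ∏ σ : F' ≃ₐ[F] F', (if σ = 1 then algebraMap F F' b else 1) := by
      rw [Finset.prod_ite_eq' Finset.univ (1 : F' ≃ₐ[F] F') (fun _ => algebraMap F F' b)]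
      simp
    rw [hb']
    refine vGe_prod_sub_prod w (n w) Finset.univ _ _ ?_ ?_ ?_
    · intro σ _
      exact γ.2.map σ
    · intro σ _
      split_ifs
      · exact hb.map (IsScalarTower.toAlgHom ℤ F F')
      · exact isIntegral_one
    · intro σ _
      by_cases hσ : σ = 1
      · rw [if_pos hσ, hσ]
        have h1 := hγ w hwT
        simp only [a] at h1
        rw [if_pos (by rw [hwP])] at h1
        exact h1
      · rw [if_neg hσ]
        set w' := gsmul F σ⁻¹ w with hw'def
        have hw'P : below F w' = P := by rw [hw'def, below_gsmul, hwP]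
        have hw'T : w' ∈ T' := by
          rw [hT', hw'P]
          exact hP
        have hne : w' ≠ w := by
          intro h
          have := eq_one_of_gsmul_eq hspl.1 hspl.2 h
          exact hσ (inv_eq_one.mp this)
        have h1 := hγ w' hw'T
        simp only [a] at h1
        rw [if_neg (by rw [hw'P]; exact hne)] at h1
        have h2 : vGe w' (n w') ((γ : F') - 1) := by simpa using h1
        have h3 := (vGe_gsmul F σ w' (n w') ((γ : F') - 1)).mpr h2
        have h4 : gsmul F σ w' = w := by
          rw [hw'def, ← gsmul_mul, mul_inv_cancel, gsmul_one]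
        have h5 : n w' = n w := by
          simp only [n]
          rw [hw'P, hwP]
        rw [h4, h5, map_sub, map_one] at h3
        exact h3
  -- descend
  rw [← map_sub] at hup
  rcases eq_or_ne (Algebra.norm F (γ : F') - b) 0 with h0 | h0
  · rw [h0]
    exact vGe_zero P _
  · rw [vGe_iff]
    right
    rcases vGe_iff.mp hup with h1 | h1
    · exact absurd ((map_eq_zero_iff _ (algebraMap F F').injective).mp h1) h0
    · rw [ord_algebraMap, hspl.1, hwP] at h1
      have h2 : ord P (m : F) ≤ (n w : ℤ) := by
        simp only [n]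
        rw [hwP]
        exact Int.self_le_toNat _
      simp only [n] at h1 h2
      rw [hwP] at h1 h2
      push_cast at h1
      omega

end relative

end Fermat.Agent.S14x.NormSurj

namespace Fermat.Agent.S14x

/-- norms are surjective modulo `m` if the primes dividing `m` split completely -/
theorem norm_surjective_mod {F F' : Type*} [Field F] [NumberField F] [Field F']
    [NumberField F'] [Algebra F F'] [IsGalois F F'] (m : ℕ) (hm : m ≠ 0)
    (hsplit : ∀ P : Pl F, ord P (m : F) ≠ 0 → IsSplit F F' P) :
    ∀ b : F, IsIntegral ℤ b →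
      ∃ γ : F', IsIntegral ℤ γ ∧ IsIntegral ℤ ((Algebra.norm F γ - b) / (m : F)) :=
  NormSurj.norm_surjective_mod m hm hsplit

/-- the CRT step without the norm hypothesis -/
theorem kills_principal_of_congr' {p : ℕ} {F F' : Type} [Field F] [NumberField F] [Field F']
    [NumberField F'] [Algebra F F'] [IsGalois F F'] (m : ℕ) (hm : m ≠ 0)
    (χ : Dv F →+ ZMod p)
    (hχN : ∀ D' : Dv F', χ (normDiv F D') = 0)
    (hχ1 : ∀ b : F, IsIntegral ℤ b → b ≠ 0 → IsIntegral ℤ ((b - 1) / (m : F)) → χ (div b) = 0)
    (hsplit : ∀ P : Pl F, ord P (m : F) ≠ 0 → IsSplit F F' P) :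
    ∀ x : F, x ≠ 0 → χ (div x) = 0 :=
  kills_principal_of_congr m hm χ hχN hχ1 (norm_surjective_mod m hm hsplit) hsplit

end Fermat.Agent.S14x
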