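import Mathlib

namespace Fermat.Agent.S14x

theorem exists_Omega (K L : Type) [Field K] [Field L] [NumberField K] [NumberField L] [Algebra K L]
    [IsGalois K L] (m : ℕ) [NeZero m] :
    ∃ (Ω : Type) (_ : Field Ω) (_ : NumberField Ω) (_ : Algebra K Ω) (_ : Algebra L Ω)
      (_ : IsScalarTower K L Ω) (_ : IsGalois K Ω), ∃ μ : Ω, IsPrimitiveRoot μ m := by
  let Ω := CyclotomicField m L
  have hμ : IsPrimitiveRoot (IsCyclotomicExtension.zeta m L Ω) m :=
    IsCyclotomicExtension.zeta_spec m L Ω
  set μ := IsCyclotomicExtension.zeta m L Ω with hμdef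
  have : FiniteDimensional K L := inferInstance
  have : FiniteDimensional L Ω := inferInstance
  have : FiniteDimensional K Ω := FiniteDimensional.trans K L Ω
  refine ⟨Ω, inferInstance, inferInstance, inferInstance, inferInstance, inferInstance, ?_, μ, hμ⟩
  -- normality
  let E1 : IntermediateField K Ω := (IsScalarTower.toAlgHom K L Ω).fieldRange
  let E2 : IntermediateField K Ω := IntermediateField.adjoin K {μ}
  have : Normal K E1 := by
    have e : L ≃ₐ[K] E1 := AlgEquiv.ofInjectiveField (IsScalarTower.toAlgHom K L Ω)
    exact Normal.of_algEquiv e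
  have : Normal K E2 := by
    have : IsCyclotomicExtension {m} K E2 :=
      hμ.intermediateField_adjoin_isCyclotomicExtension K
    have : IsGalois K E2 := IsCyclotomicExtension.isGalois {m} K E2
    infer_instance
  have htop : E1 ⊔ E2 = ⊤ := by
    rw [eq_top_iff]
    intro x _
    have hx : x ∈ Algebra.adjoin L ({μ} : Set Ω) := by
      rw [IsCyclotomicExtension.adjoin_primitive_root_eq_top hμ]; trivial
    induction hx using Algebra.adjoin_induction with
    | mem y hy =>
      rw [Set.mem_singleton_iff] at hy
      subst hy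
      exact (le_sup_right : E2 ≤ E1 ⊔ E2) (IntermediateField.mem_adjoin_simple_self K _)
    | algebraMap r =>
      exact (le_sup_left : E1 ≤ E1 ⊔ E2) ⟨r, rfl⟩
    | add x y _ _ hx hy => exact add_mem (hx trivial) (hy trivial)
    | mul x y _ _ hx hy => exact mul_mem (hx trivial) (hy trivial)
  have : Normal K (E1 ⊔ E2 : IntermediateField K Ω) := IntermediateField.normal_sup K Ω E1 E2
  have : Normal K (⊤ : IntermediateField K Ω) := htop ▸ this
  have : Normal K Ω := Normal.of_algEquiv (IntermediateField.topEquiv (F := K) (E := Ω))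
  exact ⟨⟩

end Fermat.Agent.S14x
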