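/-
S14 (ExtVanishingCts), Part B4: the cross relation `χ₀[v₁] ω[v₂] = χ₀[v₂] ω[v₁]` between the Artin
character `ω` of `L/K` and any character `χ₀` killing principal divisors and norms, for two primes
`v₁` (nonsplit), `v₂` admitting an auxiliary modulus `m`.
-/
import Fermat.Agent.S14_CrossFrob
import Fermat.Agent.S14_A10Hyp
import Fermat.Agent.S14_Omega
import Fermat.Agent.S14_NormSurj
import Fermat.Agent.S14_FrobFix
import Fermat.Agent.S14_CompSplit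

set_option autoImplicit false

namespace Fermat.Agent.S14x

open IsDedekindDomain NumberField

/-- evaluating a character on the norm of a prime of residue degree one. -/
theorem hom_normDiv_single {F F' : Type} [Field F] [NumberField F] [Field F'] [NumberField F']
    [Algebra F F'] {p : ℕ} (χ : Dv F →+ ZMod p) (P : Pl F') (v : Pl F) (hb : below F P = v)
    (hf : fOf F P = 1) (a : ℤ) :
    χ (normDiv F (Finsupp.single P a)) = (a : ZMod p) * χ (Finsupp.single v 1) := by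
  have h1 : normDiv F (Finsupp.single P a) = a • Finsupp.single v (1 : ℤ) := by
    simp [normDiv, hf, hb]
  rw [h1, map_zsmul, zsmul_eq_mul]

section cross

variable {p : ℕ} {K L Ω : Type} [Field K] [Field L] [Field Ω] [NumberField K] [NumberField L]
  [NumberField Ω] [Algebra K L] [Algebra K Ω] [Algebra L Ω] [IsScalarTower K L Ω]
  [IsGalois K L] [IsGalois K Ω]

variable {m : ℕ} [NeZero m] {μ : Ω} (hμ : IsPrimitiveRoot μ m)

include hμ in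
/-- a Frobenius element in `Gal(Ω/K)` at a prime above `v ∤ m`. -/
theorem exists_frob_Omega (h : NFData p K L) (v : Pl K) (hv : ord v (m : K) = 0) :
    ∃ (𝔓 : Pl Ω) (φ : Ω ≃ₐ[K] Ω), below K 𝔓 = v ∧
      IsFrobPow K φ 𝔓 (Ideal.absNorm (below K 𝔓).asIdeal) ∧
      φ.restrictNormal L = h.frob v ∧ hμ.autToPow K φ = Fermat.Agent.S14B2.nrmUnit m v := by
  obtain ⟨𝔓, h𝔓⟩ := exists_above K (F' := Ω) v
  obtain ⟨φ, hφ⟩ := exists_isFrobPow (F := K) 𝔓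
  refine ⟨𝔓, φ, h𝔓, hφ, ?_, ?_⟩
  · have hb : below K (below L 𝔓) = v := by rw [below_below, h𝔓]
    have h1 : IsFrobPow K (φ.restrictNormal L) (below L 𝔓) (Ideal.absNorm v.asIdeal ^ 1) := by
      rw [pow_one, ← h𝔓]
      exact hφ.restrictNormal
    have := h.frob_pow_unique hb h1
    rwa [pow_one] at this
  · have hm0 : ord 𝔓 ((m : ℕ) : Ω) = 0 := by
      have := ord_algebraMap K 𝔓 ((m : ℕ) : K)
      rw [h𝔓, hv, mul_zero] at this
      rwa [map_natCast] at this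
    have h1 : φ μ = μ ^ Ideal.absNorm v.asIdeal := by
      rw [h𝔓] at hφ
      exact hφ.apply_root hμ.pow_eq_one hm0 (NeZero.ne m)
    have h2 := hμ.autToPow_spec K φ
    rw [h1] at h2
    have hcop := Fermat.Agent.S14B2.coprime_absNorm_of_notMem v m
      (notMem_of_ord_natCast_eq_zero v m hv)
    apply Units.ext
    rw [Fermat.Agent.S14B2.coe_nrmUnit m v hcop]
    rw [pow_eq_pow_mod (Ideal.absNorm v.asIdeal) hμ.pow_eq_one] at h2
    have h3 := hμ.pow_inj (ZMod.val_lt _) (Nat.mod_lt _ (Nat.pos_of_ne_zero (NeZero.ne m))) h2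
    rw [← ZMod.natCast_zmod_val ((hμ.autToPow K φ : (ZMod m)ˣ) : ZMod m), h3, ZMod.natCast_mod]

end cross

/-- **(B4core)** the cross relation. -/
theorem B4core {p : ℕ} {K L : Type} [Field K] [Field L] [NumberField K] [NumberField L]
    [Algebra K L] [IsGalois K L] (hA10 : A10Hyp p) (h : NFData p K L)
    (e : (L ≃ₐ[K] L) →* Multiplicative (ZMod p)) (he : Function.Injective e)
    (m : ℕ) (hm : m ≠ 0) (v₁ v₂ : Pl K) (hm₁ : ord v₁ (m : K) = 0) (hm₂ : ord v₂ (m : K) = 0)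
    (hns : ¬ IsSplit K L v₁)
    (hind : ∀ y₁ y₂ : ℤ,
      Fermat.Agent.S14B2.nrmUnit m v₁ ^ y₁ * Fermat.Agent.S14B2.nrmUnit m v₂ ^ y₂ = 1 →
        (p : ℤ) ∣ y₁ ∧ (p : ℤ) ∣ y₂)
    (hmsplit : ∀ w : Pl L, ord w (m : L) ≠ 0 → fOf K w = 1)
    (χ₀ : Dv K →+ ZMod p) (hχP : ∀ x : K, x ≠ 0 → χ₀ (div x) = 0)
    (hχN : ∀ D' : Dv L, χ₀ (normDiv K D') = 0) :
    χ₀ (Finsupp.single v₁ 1) * h.artin e (Finsupp.single v₂ 1) =
      χ₀ (Finsupp.single v₂ 1) * h.artin e (Finsupp.single v₁ 1) := by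
  haveI : NeZero m := ⟨hm⟩
  haveI : Fact p.Prime := ⟨h.prime⟩
  obtain ⟨Ω, iF, iNF, iA1, iA2, iST, iG, μ, hμ⟩ := exists_Omega K L m
  obtain ⟨𝔓₁, φ₁, h𝔓₁, hφ₁, hφ₁L, hφ₁μ⟩ := exists_frob_Omega hμ h v₁ hm₁
  obtain ⟨𝔓₂, φ₂, h𝔓₂, hφ₂, hφ₂L, hφ₂μ⟩ := exists_frob_Omega hμ h v₂ hm₂
  -- the normal subgroup `H`
  obtain ⟨H, hHdef⟩ : ∃ H : Subgroup (Ω ≃ₐ[K] Ω), H = crossH e hμ φ₁ φ₂ := ⟨_, rfl⟩
  haveI hHn : H.Normal := hHdef ▸ crossH.normal e hμ φ₁ φ₂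
  have hφ₁H : φ₁ ∈ H := hHdef ▸ crossH.left_mem e hμ φ₁ φ₂
  have hφ₂H : φ₂ ∈ H := hHdef ▸ crossH.right_mem e hμ φ₁ φ₂
  have hHspec : ∀ Ψ ∈ H, hμ.autToPow K Ψ = 1 → e (AlgEquiv.restrictNormalHom L Ψ) = 1 := by
    intro Ψ hΨ hΨ1
    rw [hHdef] at hΨ
    exact crossH.spec e hμ (by rw [hφ₁μ, hφ₂μ]; exact hind) Ψ hΨ hΨ1
  have hφ₁ne : φ₁.restrictNormal L ≠ 1 := by
    rw [hφ₁L]
    intro h1
    exact hns ((h.frob_eq_one_iff v₁).mp h1)
  have hKP : KummerPair ↥(fixF H) ↥(compF L H) p := compF.kummerPair h H hφ₁H hφ₁ne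
  have hunr : Unramified ↥(fixF H) ↥(compF L H) := compF.unramified h H
  -- the character `χ_F`
  obtain ⟨χF, hχFdef⟩ : ∃ χF : Dv ↥(fixF H) →+ ZMod p,
      ∀ D, χF D = h.artin e (normDiv K D) := ⟨(h.artin e).comp (normDiv K), fun _ => rfl⟩
  have hχFN : ∀ D' : Dv ↥(compF L H), χF (normDiv ↥(fixF H) D') = 0 := by
    intro D'
    rw [hχFdef, normDiv_normDiv, ← normDiv_normDiv (L := L), h.artin_normDiv]
  have hχF1 : ∀ b : ↥(fixF H), IsIntegral ℤ b → b ≠ 0 →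
      IsIntegral ℤ ((b - 1) / (m : ↥(fixF H))) → χF (div b) = 0 := by
    intro b hb hb0 hbm
    rw [hχFdef]
    have hm0 : (m : ↥(fixF H)) ≠ 0 := Nat.cast_ne_zero.mpr hm
    refine artin_normDiv_div_eq_zero hμ h e H hHspec ⟨b, hb⟩ ?_ ?_
    · intro h0
      exact hb0 (congrArg Subtype.val h0)
    · refine ⟨⟨_, hbm⟩, ?_⟩
      apply Subtype.ext
      show b - 1 = (m : ↥(fixF H)) * ((b - 1) / (m : ↥(fixF H)))
      field_simp
  have hsplit : ∀ P : Pl ↥(fixF H), ord P (m : ↥(fixF H)) ≠ 0 →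
      IsSplit ↥(fixF H) ↥(compF L H) P :=
    fun P hP => compF.isSplit_of_fOf h H m hmsplit P hP
  have hχFP : ∀ x : ↥(fixF H), x ≠ 0 → χF (div x) = 0 :=
    kills_principal_of_congr' m hm χF hχFN hχF1 hsplit
  -- the primes of `F` below `𝔓ᵢ`
  have hfix : ∀ φ ∈ H, ∀ x : ↥(fixF H), φ (algebraMap ↥(fixF H) Ω x) = algebraMap ↥(fixF H) Ω x := by
    intro φ hφ x
    exact x.2 ⟨φ, hφ⟩
  have hf₁ : fOf K (below ↥(fixF H) 𝔓₁) = 1 := fOf_eq_one_of_isFrobPow_fix hφ₁ (hfix φ₁ hφ₁H)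
  have hf₂ : fOf K (below ↥(fixF H) 𝔓₂) = 1 := fOf_eq_one_of_isFrobPow_fix hφ₂ (hfix φ₂ hφ₂H)
  have hb₁ : below K (below ↥(fixF H) 𝔓₁) = v₁ := by rw [below_below, h𝔓₁]
  have hb₂ : below K (below ↥(fixF H) 𝔓₂) = v₂ := by rw [below_below, h𝔓₂]
  have hω₁ : h.artin e (Finsupp.single v₁ 1) ≠ 0 := fun h0 =>
    hns ((h.artin_single_eq_zero_iff he v₁).mp h0)
  -- `χ_F ≠ 0`
  have hχF0 : χF ≠ 0 := by
    intro h0
    have h1 : χF (Finsupp.single (below ↥(fixF H) 𝔓₁) 1) = 0 := by rw [h0]; rfl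
    rw [hχFdef, hom_normDiv_single _ _ v₁ hb₁ hf₁, Int.cast_one, one_mul] at h1
    exact hω₁ h1
  -- the divisor `D`
  obtain ⟨ω₁, hω₁def⟩ : ∃ ω₁ : ZMod p, ω₁ = h.artin e (Finsupp.single v₁ 1) := ⟨_, rfl⟩
  obtain ⟨ω₂, hω₂def⟩ : ∃ ω₂ : ZMod p, ω₂ = h.artin e (Finsupp.single v₂ 1) := ⟨_, rfl⟩
  have hcast : ∀ a : ZMod p, (((a.val : ℕ) : ℤ) : ZMod p) = a := by
    intro a
    rw [Int.cast_natCast, ZMod.natCast_zmod_val]
  have hD : χF (Finsupp.single (below ↥(fixF H) 𝔓₁) ((ω₂.val : ℕ) : ℤ) -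
      Finsupp.single (below ↥(fixF H) 𝔓₂) ((ω₁.val : ℕ) : ℤ)) = 0 := by
    rw [map_sub, hχFdef, hχFdef, hom_normDiv_single _ _ v₁ hb₁ hf₁,
      hom_normDiv_single _ _ v₂ hb₂ hf₂, hcast, hcast, ← hω₁def, ← hω₂def]
    ring
  obtain ⟨x, hx, D', hDD'⟩ := hA10 ↥(fixF H) ↥(compF L H) hKP hunr χF hχF0 hχFP hχFN _ hD
  have hnx : Algebra.norm K x ≠ 0 := by
    rw [Ne, Algebra.norm_eq_zero_iff]
    exact hx
  have h1 := congrArg (fun D => χ₀ (normDiv K D)) hDD'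
  simp only [map_add, map_sub] at h1
  rw [hom_normDiv_single _ _ v₁ hb₁ hf₁, hom_normDiv_single _ _ v₂ hb₂ hf₂, hcast, hcast,
    ← divisor_norm K hx, hχP _ hnx, normDiv_normDiv, ← normDiv_normDiv (L := L), hχN,
    add_zero] at h1
  rw [← hω₁def, ← hω₂def]
  linear_combination h1

end Fermat.Agent.S14x
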