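import Mathlib

/-!
# S14, leaf (Z): a Galois extension of prime degree has non-split primes of absolute degree one

`S14_Z_of` derives the statement from the two analytic bounds (Z-low) for the base field and
(Z-up) for the top field, which are taken as hypotheses here.
-/

set_option autoImplicit false

open NumberField IsDedekindDomain

namespace Fermat.Agent.S14x.Z

/-- In a Galois extension of prime degree, if a prime `v` has two distinct primes above it, then
every prime above `v` has the same absolute norm as `v`. -/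
theorem absNorm_eq_of_two (p : ℕ) [Fact p.Prime] (F1 N1 : Type*) [Field F1] [Field N1]
    [NumberField F1] [NumberField N1] [Algebra F1 N1] [IsGalois F1 N1]
    (h : Module.finrank F1 N1 = p)
    (v : HeightOneSpectrum (𝓞 F1)) (w1 w2 w : HeightOneSpectrum (𝓞 N1))
    (h1 : w1.asIdeal.comap (algebraMap (𝓞 F1) (𝓞 N1)) = v.asIdeal)
    (h2 : w2.asIdeal.comap (algebraMap (𝓞 F1) (𝓞 N1)) = v.asIdeal)
    (hne : w1 ≠ w2)
    (hw : w.asIdeal.comap (algebraMap (𝓞 F1) (𝓞 N1)) = v.asIdeal) :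
    Ideal.absNorm w.asIdeal = Ideal.absNorm v.asIdeal := by
  classical
  have hv : v.asIdeal.IsPrime := v.isPrime
  have hvm : v.asIdeal.IsMaximal := v.isMaximal
  have hwm : w.asIdeal.IsMaximal := w.isMaximal
  have hl1 : w1.asIdeal.LiesOver v.asIdeal := ⟨h1.symm⟩
  have hl2 : w2.asIdeal.LiesOver v.asIdeal := ⟨h2.symm⟩
  have hl : w.asIdeal.LiesOver v.asIdeal := ⟨hw.symm⟩
  have key := Ideal.ncard_primesOver_mul_ramificationIdxIn_mul_inertiaDegIn v.asIdeal (𝓞 N1)
    (N1 ≃ₐ[F1] N1)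
  rw [IsGalois.card_aut_eq_finrank, h] at key
  have hmem1 : w1.asIdeal ∈ v.asIdeal.primesOver (𝓞 N1) := ⟨w1.isPrime, hl1⟩
  have hmem2 : w2.asIdeal ∈ v.asIdeal.primesOver (𝓞 N1) := ⟨w2.isPrime, hl2⟩
  have hne' : w1.asIdeal ≠ w2.asIdeal := fun h => hne (HeightOneSpectrum.ext h)
  have hfin : (v.asIdeal.primesOver (𝓞 N1)).Finite := Set.toFinite _
  have h2le : 1 < (v.asIdeal.primesOver (𝓞 N1)).ncard :=
    (Set.one_lt_ncard_iff hfin).mpr ⟨_, _, hmem1, hmem2, hne'⟩
  have hdvd : (v.asIdeal.primesOver (𝓞 N1)).ncard ∣ p := Dvd.intro _ key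
  have hcard : (v.asIdeal.primesOver (𝓞 N1)).ncard = p := by
    rcases (Nat.dvd_prime (Fact.out : p.Prime)).mp hdvd with h' | h'
    · omega
    · exact h'
  rw [hcard] at key
  have hp0 : 0 < p := (Fact.out : p.Prime).pos
  have hef : v.asIdeal.ramificationIdxIn (𝓞 N1) * v.asIdeal.inertiaDegIn (𝓞 N1) = 1 :=
    Nat.eq_of_mul_eq_mul_left hp0 (by rw [key, mul_one])
  have hf : v.asIdeal.inertiaDegIn (𝓞 N1) = 1 := Nat.eq_one_of_mul_eq_one_left hef
  have hfw : w.asIdeal.inertiaDeg (𝓞 F1) = 1 := by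
    rw [← Ideal.inertiaDegIn_eq_inertiaDeg v.asIdeal w.asIdeal (N1 ≃ₐ[F1] N1)]
    exact hf
  rw [Ideal.absNorm_eq_pow_inertiaDeg'_of_liesOver w.asIdeal v.asIdeal hv v.ne_bot,
    Ideal.inertiaDeg'_eq_inertiaDeg, hfw, pow_one]

/-- Abstract comparison: two injective, jointly injective families of indices. -/
theorem two_mul_tsum_le {α β : Type*} (f : β → ℝ) (hf : Summable f) (hf0 : ∀ b, 0 ≤ f b)
    (g : α → ℝ) (W1 W2 : α → β) (h1 : ∀ a, f (W1 a) = g a) (h2 : ∀ a, f (W2 a) = g a)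
    (hinj : Function.Injective (Sum.elim W1 W2)) : 2 * ∑' a, g a ≤ ∑' b, f b := by
  have hle := tsum_comp_le_tsum_of_inj hf hf0 hinj
  have hs : Summable (f ∘ Sum.elim W1 W2) := hf.comp_injective hinj
  have hs1 : Summable g := by
    have := hs.comp_injective (Sum.inl_injective (α := α) (β := α))
    refine this.congr fun a => ?_
    simp [h1]
  have hsum : ∑' x : α ⊕ α, (f ∘ Sum.elim W1 W2) x = ∑' a, g a + ∑' a, g a := by
    rw [Summable.tsum_sum (f := f ∘ Sum.elim W1 W2)]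
    · congr 1
      · exact tsum_congr fun a => by simp [h1]
      · exact tsum_congr fun a => by simp [h2]
    · exact hs1.congr fun a => by simp [h1]
    · exact hs1.congr fun a => by simp [h2]
  rw [hsum] at hle
  linarith

/-- Abstract comparison: removing a finite set changes a sum of terms `≤ 1` by at most its size. -/
theorem tsum_subtype_le_add_card {X : Type*} (g : X → ℝ) (hg : Summable g) (hg0 : ∀ x, 0 ≤ g x)
    (hg1 : ∀ x, g x ≤ 1) (S1 : Set X) (T : Finset X) :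
    ∑' x : S1, g x ≤ ∑' x : {x : X // x ∉ T ∧ x ∈ S1}, g x + T.card := by
  classical
  let A : Set X := {x | x ∉ T ∧ x ∈ S1}
  have e1 : ∑' x : S1, g x = ∑' x, S1.indicator g x := tsum_subtype S1 g
  have e2 : ∑' x : {x : X // x ∉ T ∧ x ∈ S1}, g x = ∑' x, A.indicator g x := tsum_subtype A g
  have e3 : ∑' x, (↑T : Set X).indicator g x = ∑ x ∈ T, g x := by
    rw [← tsum_subtype (↑T : Set X) g]
    exact Finset.tsum_subtype T g
  have hle : ∀ x, S1.indicator g x ≤ A.indicator g x + (↑T : Set X).indicator g x := by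
    intro x
    by_cases hx : x ∈ S1
    · by_cases hT : x ∈ T
      · have hA : x ∉ A := fun h => h.1 hT
        simp [Set.indicator_of_mem hx, Set.indicator_of_notMem hA, hT]
      · have hA : x ∈ A := ⟨hT, hx⟩
        simp [Set.indicator_of_mem hx, Set.indicator_of_mem hA, hT]
    · rw [Set.indicator_of_notMem hx]
      exact add_nonneg (Set.indicator_nonneg (fun x _ => hg0 x) x)
        (Set.indicator_nonneg (fun x _ => hg0 x) x)
  have hsA : Summable (A.indicator g) := hg.indicator A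
  have hsT : Summable ((↑T : Set X).indicator g) := hg.indicator _
  have hsS : Summable (S1.indicator g) := hg.indicator S1
  calc ∑' x : S1, g x = ∑' x, S1.indicator g x := e1
    _ ≤ ∑' x, (A.indicator g x + (↑T : Set X).indicator g x) :=
        hsS.tsum_le_tsum hle (hsA.add hsT)
    _ = ∑' x, A.indicator g x + ∑' x, (↑T : Set X).indicator g x := hsA.tsum_add hsT
    _ = ∑' x : {x : X // x ∉ T ∧ x ∈ S1}, g x + ∑ x ∈ T, g x := by rw [e2, e3]
    _ ≤ ∑' x : {x : X // x ∉ T ∧ x ∈ S1}, g x + T.card := by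
        have : ∑ x ∈ T, g x ≤ ∑ _x ∈ T, (1 : ℝ) := Finset.sum_le_sum fun x _ => hg1 x
        simp only [Finset.sum_const, nsmul_eq_mul, mul_one] at this
        linarith

/-- **(Z)** from (Z-low) for the base field and (Z-up) for the top field: in a Galois extension
`N1 / F1` of prime degree, outside any finite set `T` there is a prime of `F1` of absolute degree
one with at most one prime of `N1` above it. -/
theorem S14_Z_of (p : ℕ) [Fact p.Prime] (F1 N1 : Type*) [Field F1] [Field N1]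
    [NumberField F1] [NumberField N1] [Algebra F1 N1] [IsGalois F1 N1]
    (h : Module.finrank F1 N1 = p)
    (hlow : ∃ C : ℝ, ∀ s : ℝ, 1 < s → s < 2 →
      Summable (fun v : HeightOneSpectrum (𝓞 F1) => (Ideal.absNorm v.asIdeal : ℝ) ^ (-s)) ∧
      Real.log (1 / (s - 1)) - C ≤
        ∑' v : {v : HeightOneSpectrum (𝓞 F1) // (Ideal.absNorm v.asIdeal).Prime},
          (Ideal.absNorm v.1.asIdeal : ℝ) ^ (-s))
    (hup : ∃ C : ℝ, ∀ s : ℝ, 1 < s → s < 2 →
      Summable (fun v : HeightOneSpectrum (𝓞 N1) => (Ideal.absNorm v.asIdeal : ℝ) ^ (-s)) ∧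
      ∑' v : HeightOneSpectrum (𝓞 N1), (Ideal.absNorm v.asIdeal : ℝ) ^ (-s) ≤
        Real.log (1 / (s - 1)) + C)
    (T : Finset (HeightOneSpectrum (𝓞 F1))) :
    ∃ v : HeightOneSpectrum (𝓞 F1), v ∉ T ∧ (Ideal.absNorm v.asIdeal).Prime ∧
      ∀ w1 w2 : HeightOneSpectrum (𝓞 N1),
        w1.asIdeal.comap (algebraMap (𝓞 F1) (𝓞 N1)) = v.asIdeal →
        w2.asIdeal.comap (algebraMap (𝓞 F1) (𝓞 N1)) = v.asIdeal → w1 = w2 := by
  classical
  by_contra hcon
  push Not at hcon
  obtain ⟨C1, hC1⟩ := hlow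
  obtain ⟨C2, hC2⟩ := hup
  have hA : ∀ a : {v : HeightOneSpectrum (𝓞 F1) //
      v ∉ T ∧ v ∈ {v : HeightOneSpectrum (𝓞 F1) | (Ideal.absNorm v.asIdeal).Prime}},
      ∃ w1 w2 : HeightOneSpectrum (𝓞 N1),
        w1.asIdeal.comap (algebraMap (𝓞 F1) (𝓞 N1)) = a.1.asIdeal ∧
        w2.asIdeal.comap (algebraMap (𝓞 F1) (𝓞 N1)) = a.1.asIdeal ∧ w1 ≠ w2 :=
    fun a => hcon a.1 a.2.1 a.2.2
  choose W1 W2 hW1 hW2 hW12 using hA
  have hinj : Function.Injective (Sum.elim W1 W2) := by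
    have key : ∀ a b : {v : HeightOneSpectrum (𝓞 F1) //
        v ∉ T ∧ v ∈ {v : HeightOneSpectrum (𝓞 F1) | (Ideal.absNorm v.asIdeal).Prime}},
        ∀ w : HeightOneSpectrum (𝓞 N1),
        w.asIdeal.comap (algebraMap (𝓞 F1) (𝓞 N1)) = a.1.asIdeal →
        w.asIdeal.comap (algebraMap (𝓞 F1) (𝓞 N1)) = b.1.asIdeal → a = b := by
      intro a b w ha hb
      exact Subtype.ext (HeightOneSpectrum.ext (ha.symm.trans hb))
    rintro (a | a) (b | b) hab
    · simp only [Sum.elim_inl] at hab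
      rw [key a b (W1 a) (hW1 a) (hab ▸ hW1 b)]
    · simp only [Sum.elim_inl, Sum.elim_inr] at hab
      have hab' := key a b (W1 a) (hW1 a) (hab ▸ hW2 b)
      subst hab'
      exact absurd hab (hW12 a)
    · simp only [Sum.elim_inl, Sum.elim_inr] at hab
      have hab' := key a b (W2 a) (hW2 a) (hab ▸ hW1 b)
      subst hab'
      exact absurd hab.symm (hW12 a)
    · simp only [Sum.elim_inr] at hab
      rw [key a b (W2 a) (hW2 a) (hab ▸ hW2 b)]
  -- the bound for every `s`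
  have hbound : ∀ s : ℝ, 1 < s → s < 2 →
      Real.log (1 / (s - 1)) ≤ 2 * C1 + C2 + 2 * T.card := by
    intro s hs1 hs2
    obtain ⟨hsumF, hlowF⟩ := hC1 s hs1 hs2
    obtain ⟨hsumN, hupN⟩ := hC2 s hs1 hs2
    have hg0 : ∀ v : HeightOneSpectrum (𝓞 F1), 0 ≤ (Ideal.absNorm v.asIdeal : ℝ) ^ (-s) :=
      fun v => Real.rpow_nonneg (Nat.cast_nonneg _) _
    have hf0 : ∀ w : HeightOneSpectrum (𝓞 N1), 0 ≤ (Ideal.absNorm w.asIdeal : ℝ) ^ (-s) :=
      fun w => Real.rpow_nonneg (Nat.cast_nonneg _) _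
    have hg1 : ∀ v : HeightOneSpectrum (𝓞 F1), (Ideal.absNorm v.asIdeal : ℝ) ^ (-s) ≤ 1 := by
      intro v
      have h1 : (1 : ℝ) ≤ (Ideal.absNorm v.asIdeal : ℝ) := by
        have : Ideal.absNorm v.asIdeal ≠ 0 := by
          rw [Ne, Ideal.absNorm_eq_zero_iff]
          exact v.ne_bot
        exact_mod_cast Nat.one_le_iff_ne_zero.mpr this
      exact Real.rpow_le_one_of_one_le_of_nonpos h1 (by linarith)
    have step1 := tsum_subtype_le_add_card
      (fun v : HeightOneSpectrum (𝓞 F1) => (Ideal.absNorm v.asIdeal : ℝ) ^ (-s)) hsumF hg0 hg1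
      {v : HeightOneSpectrum (𝓞 F1) | (Ideal.absNorm v.asIdeal).Prime} T
    have step2 := two_mul_tsum_le
      (fun w : HeightOneSpectrum (𝓞 N1) => (Ideal.absNorm w.asIdeal : ℝ) ^ (-s)) hsumN hf0
      (fun a : {v : HeightOneSpectrum (𝓞 F1) //
        v ∉ T ∧ v ∈ {v : HeightOneSpectrum (𝓞 F1) | (Ideal.absNorm v.asIdeal).Prime}} =>
        (Ideal.absNorm a.1.asIdeal : ℝ) ^ (-s)) W1 W2
      (fun a => by
        show (Ideal.absNorm (W1 a).asIdeal : ℝ) ^ (-s) = _
        rw [absNorm_eq_of_two p F1 N1 h a.1 (W1 a) (W2 a) (W1 a) (hW1 a) (hW2 a) (hW12 a)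
          (hW1 a)])
      (fun a => by
        show (Ideal.absNorm (W2 a).asIdeal : ℝ) ^ (-s) = _
        rw [absNorm_eq_of_two p F1 N1 h a.1 (W1 a) (W2 a) (W2 a) (hW1 a) (hW2 a) (hW12 a)
          (hW2 a)])
      hinj
    have hlowF' : Real.log (1 / (s - 1)) - C1 ≤
        ∑' x : ({v : HeightOneSpectrum (𝓞 F1) | (Ideal.absNorm v.asIdeal).Prime} :
          Set (HeightOneSpectrum (𝓞 F1))), (Ideal.absNorm x.1.asIdeal : ℝ) ^ (-s) := hlowF
    linarith
  -- choose `s` close to `1`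
  set M : ℝ := max 1 (2 * C1 + C2 + 2 * T.card + 1) with hM
  have hM1 : 1 ≤ M := le_max_left _ _
  have hM2 : 2 * C1 + C2 + 2 * T.card + 1 ≤ M := le_max_right _ _
  have hexp_pos : 0 < Real.exp (-M) := Real.exp_pos _
  have hexp_lt : Real.exp (-M) < 1 := by
    have := Real.exp_lt_exp.mpr (show -M < 0 by linarith)
    rwa [Real.exp_zero] at this
  have hb := hbound (1 + Real.exp (-M)) (by linarith) (by linarith)
  have hlog : Real.log (1 / (1 + Real.exp (-M) - 1)) = M := by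
    rw [add_sub_cancel_left, one_div, Real.log_inv, Real.log_exp, neg_neg]
  rw [hlog] at hb
  linarith

end Fermat.Agent.S14x.Z
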