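import Fermat.Agent.S14_Euler
import Fermat.Agent.S14_Z

/-!
# S14 moonshot, analytic leaves (Z-low), (Z-up) and the resulting lemma (Z)

For a number field `F` and real `1 < s < 2`:

* `S14_Zup`:  `∑_v N(v)^(-s) ≤ log (1 / (s - 1)) + C`;
* `S14_Zlow`: `log (1 / (s - 1)) - C ≤ ∑_{v, N(v) prime} N(v)^(-s)`;
* `S14_Z`: in a Galois extension of prime degree, outside any finite set there is a prime of
  absolute degree one with at most one prime above it.
-/

set_option autoImplicit false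

open scoped NumberField nonZeroDivisors
open IsDedekindDomain Filter Topology NumberField

namespace Fermat.Agent.S14x.ZAn

open Fermat.Agent.S14x.Euler

variable {F : Type*} [Field F] [NumberField F]

theorem pr_injective : Function.Injective (pr : HeightOneSpectrum (𝓞 F) → IdM F) := by
  intro v w h
  exact HeightOneSpectrum.ext (congrArg Subtype.val h)

theorem wt_pr (s : ℝ) (v : HeightOneSpectrum (𝓞 F)) :
    wt s (pr v) = (Ideal.absNorm v.asIdeal : ℝ) ^ (-s) := rfl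

theorem summable_wt_pr {s : ℝ} (hs : 1 < s) :
    Summable (fun v : HeightOneSpectrum (𝓞 F) => wt s (pr v)) :=
  (summable_wt (F := F) hs).comp_injective pr_injective

theorem summable_primes {s : ℝ} (hs : 1 < s) :
    Summable (fun v : HeightOneSpectrum (𝓞 F) => (Ideal.absNorm v.asIdeal : ℝ) ^ (-s)) :=
  summable_wt_pr hs

theorem one_le_zetaR {s : ℝ} (hs : 1 < s) : 1 ≤ zetaR F s := by
  have h := (summable_wt (F := F) hs).le_tsum (1 : IdM F) (fun j _ => (wt_pos s j).le)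
  simpa [zetaR] using h

theorem zetaR_pos {s : ℝ} (hs : 1 < s) : 0 < zetaR F s :=
  lt_of_lt_of_le one_pos (one_le_zetaR hs)

theorem zetaR_anti {s t : ℝ} (hs : 1 < s) (hst : s ≤ t) : zetaR F t ≤ zetaR F s :=
  (summable_wt (F := F) (lt_of_lt_of_le hs hst)).tsum_le_tsum
    (fun I => Real.rpow_le_rpow_of_exponent_le (one_le_nrm I) (by linarith)) (summable_wt hs)

theorem euler_zetaR {s : ℝ} (hs : 1 < s) :
    Tendsto (fun S : Finset (HeightOneSpectrum (𝓞 F)) => ∏ v ∈ S, (1 - wt s (pr v))⁻¹) atTop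
      (𝓝 (zetaR F s)) := by
  refine tendsto_euler (wt s) ?_ ?_
  · exact (summable_wt hs).congr fun I => by rw [Real.norm_eq_abs, abs_of_pos (wt_pos s I)]
  · intro v
    rw [Real.norm_eq_abs, abs_of_pos (wt_pos s _)]
    linarith [wt_pr_le_half hs.le v]

theorem hasSum_log {s : ℝ} (hs : 1 < s) :
    HasSum (fun v : HeightOneSpectrum (𝓞 F) => -Real.log (1 - wt s (pr v)))
      (Real.log (zetaR F s)) := by
  have h := euler_zetaR (F := F) hs
  have h2 := (Real.continuousAt_log (zetaR_pos (F := F) hs).ne').tendsto.comp h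
  refine Tendsto.congr (fun S => ?_) h2
  simp only [Function.comp_apply]
  rw [Real.log_prod]
  · refine Finset.sum_congr rfl fun v _ => ?_
    rw [Real.log_inv]
  · intro v _
    have := wt_pr_le_half hs.le v
    exact inv_ne_zero (by linarith)

theorem le_neg_log {a : ℝ} (ha : a ≤ 1 / 2) : a ≤ -Real.log (1 - a) := by
  have := Real.log_le_sub_one_of_pos (show 0 < 1 - a by linarith)
  linarith

theorem neg_log_le {a : ℝ} (ha : a ≤ 1 / 2) :
    -Real.log (1 - a) ≤ a + 2 * a ^ 2 := by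
  have h1 : 0 < 1 - a := by linarith
  have h2 := Real.log_le_sub_one_of_pos (inv_pos.mpr h1)
  rw [Real.log_inv] at h2
  have h3 : (1 - a)⁻¹ ≤ 1 + a + 2 * a ^ 2 := by
    rw [inv_le_iff_one_le_mul₀ h1]
    nlinarith [mul_nonneg (sq_nonneg a) (show (0 : ℝ) ≤ 1 - 2 * a by linarith)]
  linarith

/-- upper core: `∑_v N(v)^(-s) ≤ log ζ_F(s)` -/
theorem tsum_le_log {s : ℝ} (hs : 1 < s) :
    ∑' v : HeightOneSpectrum (𝓞 F), wt s (pr v) ≤ Real.log (zetaR F s) :=
  hasSum_le (fun v => le_neg_log (wt_pr_le_half hs.le v)) (summable_wt_pr hs).hasSum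
    (hasSum_log hs)

theorem wt_two (I : IdM F) : wt 2 I = wt 1 I * wt 1 I := by
  rw [wt_apply, wt_apply, ← Real.rpow_add (nrm_pos I)]
  norm_num

theorem wt_sq_le {s : ℝ} (hs : 1 ≤ s) (I : IdM F) : wt s I ^ 2 ≤ wt 2 I := by
  have h1 : wt s I ≤ wt 1 I :=
    Real.rpow_le_rpow_of_exponent_le (one_le_nrm I) (by linarith)
  rw [wt_two, sq]
  exact mul_le_mul h1 h1 (wt_pos s I).le (wt_pos 1 I).le

theorem summable_wt_sq {s : ℝ} (hs : 1 < s) :
    Summable (fun v : HeightOneSpectrum (𝓞 F) => wt s (pr v) ^ 2) :=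
  Summable.of_nonneg_of_le (fun v => sq_nonneg _) (fun v => wt_sq_le hs.le _)
    (summable_wt_pr (by norm_num))

/-- lower core: `log ζ_F(s) ≤ ∑_v N(v)^(-s) + 2 ∑_v N(v)^(-2)` -/
theorem log_le_tsum {s : ℝ} (hs : 1 < s) :
    Real.log (zetaR F s) ≤ ∑' v : HeightOneSpectrum (𝓞 F), wt s (pr v) +
      2 * ∑' v : HeightOneSpectrum (𝓞 F), wt 2 (pr v) := by
  have h1 : Summable (fun v : HeightOneSpectrum (𝓞 F) => wt s (pr v) + 2 * wt s (pr v) ^ 2) :=
    (summable_wt_pr hs).add ((summable_wt_sq hs).mul_left 2)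
  have h2 := hasSum_le (fun v => neg_log_le (wt_pr_le_half hs.le v))
    (hasSum_log hs) h1.hasSum
  rw [(summable_wt_pr hs).tsum_add ((summable_wt_sq hs).mul_left 2), tsum_mul_left] at h2
  have h3 : ∑' v : HeightOneSpectrum (𝓞 F), wt s (pr v) ^ 2 ≤
      ∑' v : HeightOneSpectrum (𝓞 F), wt 2 (pr v) :=
    (summable_wt_sq hs).tsum_le_tsum (fun v => wt_sq_le hs.le _) (summable_wt_pr (by norm_num))
  linarith

variable (F) in
theorem exists_zetaR_bounds : ∃ m M : ℝ, 0 < m ∧ ∀ s : ℝ, 1 < s → s < 2 →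
    m ≤ (s - 1) * zetaR F s ∧ (s - 1) * zetaR F s ≤ M := by
  have hr := dedekindZeta_residue_pos F
  have h := tendsto_zetaR F
  have h1 : ∀ᶠ s in 𝓝[>] (1 : ℝ), dedekindZeta_residue F / 2 < (s - 1) * zetaR F s :=
    h.eventually (lt_mem_nhds (by linarith))
  have h2 : ∀ᶠ s in 𝓝[>] (1 : ℝ), (s - 1) * zetaR F s < dedekindZeta_residue F + 1 :=
    h.eventually (gt_mem_nhds (by linarith))
  obtain ⟨δ, hδ, hδ'⟩ : ∃ δ > 0, ∀ s : ℝ, 1 < s → s < 1 + δ →
      dedekindZeta_residue F / 2 < (s - 1) * zetaR F s ∧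
        (s - 1) * zetaR F s < dedekindZeta_residue F + 1 := by
    have h3 := h1.and h2
    rw [eventually_nhdsWithin_iff, Metric.eventually_nhds_iff] at h3
    obtain ⟨ε, hε, h4⟩ := h3
    refine ⟨ε, hε, fun s hs1 hs2 => h4 ?_ hs1⟩
    rw [Real.dist_eq, abs_lt]
    constructor <;> linarith
  refine ⟨min (dedekindZeta_residue F / 2) δ, max (dedekindZeta_residue F + 1) (zetaR F (1 + δ)),
    lt_min (by linarith) hδ, fun s hs1 hs2 => ?_⟩
  rcases lt_or_ge s (1 + δ) with h5 | h5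
  · obtain ⟨h6, h7⟩ := hδ' s hs1 h5
    exact ⟨(min_le_left _ _).trans h6.le, h7.le.trans (le_max_left _ _)⟩
  · have h6 := one_le_zetaR (F := F) hs1
    have h7 := zetaR_anti (F := F) (s := 1 + δ) (t := s) (by linarith) h5
    have h8 : 0 ≤ s - 1 := by linarith
    constructor
    · calc min (dedekindZeta_residue F / 2) δ ≤ δ := min_le_right _ _
        _ ≤ (s - 1) * 1 := by linarith
        _ ≤ (s - 1) * zetaR F s := mul_le_mul_of_nonneg_left h6 h8
    · calc (s - 1) * zetaR F s ≤ 1 * zetaR F (1 + δ) :=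
            mul_le_mul (by linarith) h7 (by linarith) zero_le_one
        _ ≤ _ := by rw [one_mul]; exact le_max_right _ _

/-- **(Z-up)** -/
theorem S14_Zup (F : Type*) [Field F] [NumberField F] :
    ∃ C : ℝ, ∀ s : ℝ, 1 < s → s < 2 →
      Summable (fun v : HeightOneSpectrum (𝓞 F) => (Ideal.absNorm v.asIdeal : ℝ) ^ (-s)) ∧
      ∑' v : HeightOneSpectrum (𝓞 F), (Ideal.absNorm v.asIdeal : ℝ) ^ (-s) ≤
        Real.log (1 / (s - 1)) + C := by
  obtain ⟨m, M, hm, hmM⟩ := exists_zetaR_bounds F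
  refine ⟨Real.log M, fun s hs1 hs2 => ⟨summable_primes hs1, ?_⟩⟩
  obtain ⟨h1, h2⟩ := hmM s hs1 hs2
  have hz := zetaR_pos (F := F) hs1
  have hs0 : 0 < s - 1 := by linarith
  have hM : 0 < M := lt_of_lt_of_le (mul_pos hs0 hz) h2
  have h3 : zetaR F s ≤ (1 / (s - 1)) * M := by
    rw [one_div, inv_mul_eq_div, le_div_iff₀ hs0]
    linarith
  calc ∑' v : HeightOneSpectrum (𝓞 F), (Ideal.absNorm v.asIdeal : ℝ) ^ (-s)
      ≤ Real.log (zetaR F s) := tsum_le_log hs1
    _ ≤ Real.log ((1 / (s - 1)) * M) := Real.log_le_log hz h3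
    _ = _ := Real.log_mul (by positivity) hM.ne'

/-- the rational prime below a prime of `F` -/
noncomputable def ratPrime (v : HeightOneSpectrum (𝓞 F)) : ℕ :=
  Ideal.absNorm (Ideal.under ℤ v.asIdeal)

theorem ratPrime_prime (v : HeightOneSpectrum (𝓞 F)) : (ratPrime v).Prime := by
  have : NeZero v.asIdeal := ⟨v.ne_bot⟩
  have := v.isPrime
  exact Nat.absNorm_under_prime v.asIdeal

theorem absNorm_eq_ratPrime_pow (v : HeightOneSpectrum (𝓞 F)) :
    ∃ f : ℕ, Ideal.absNorm v.asIdeal = ratPrime v ^ f := by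
  have : v.asIdeal.LiesOver (Ideal.span {((ratPrime v : ℕ) : ℤ)}) :=
    Int.liesOver_span_absNorm v.asIdeal
  exact ⟨_, Ideal.absNorm_eq_pow_inertiaDeg' v.asIdeal (ratPrime_prime v)⟩

theorem ratPrime_sq_le (v : HeightOneSpectrum (𝓞 F)) (hv : ¬ (Ideal.absNorm v.asIdeal).Prime) :
    ratPrime v ^ 2 ≤ Ideal.absNorm v.asIdeal := by
  obtain ⟨f, hf⟩ := absNorm_eq_ratPrime_pow v
  have hq := ratPrime_prime v
  have h1 : f ≠ 0 := by
    rintro rfl
    rw [pow_zero, Ideal.absNorm_eq_one_iff] at hf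
    exact v.isPrime.ne_top hf
  have h2 : f ≠ 1 := by
    rintro rfl
    rw [pow_one] at hf
    exact hv (hf ▸ hq)
  rw [hf]
  exact Nat.pow_le_pow_right hq.pos (by omega)

theorem card_ratPrime_fiber_le (S : Finset (HeightOneSpectrum (𝓞 F))) (k : ℕ) :
    (S.filter fun v => ratPrime v = k).card ≤ Module.finrank ℚ F := by
  classical
  by_cases hk : k.Prime
  · have : Fact k.Prime := ⟨hk⟩
    have hk0 : (Ideal.span {(k : ℤ)}) ≠ ⊥ := by
      simp [hk.ne_zero]
    have h1 := Ideal.card_primesOverFinset_le_finrank (R := ℤ) (S := 𝓞 F) (K := ℚ) (L := F) hk0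
    refine le_trans (Finset.card_le_card_of_injOn (fun v => v.asIdeal) ?_ ?_) h1
    · intro v hv
      rw [Finset.mem_coe, Finset.mem_filter] at hv
      rw [Finset.mem_coe, IsDedekindDomain.mem_primesOverFinset_iff hk0]
      refine ⟨v.isPrime, ?_⟩
      rw [← hv.2]
      exact Int.liesOver_span_absNorm v.asIdeal
    · intro v _ w _ h
      exact HeightOneSpectrum.ext h
  · have : S.filter (fun v => ratPrime v = k) = ∅ := by
      rw [Finset.filter_eq_empty_iff]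
      intro v _ h
      exact hk (h ▸ ratPrime_prime v)
    rw [this]
    simp

theorem sum_nonprime_le (S : Finset (HeightOneSpectrum (𝓞 F)))
    (hS : ∀ v ∈ S, ¬ (Ideal.absNorm v.asIdeal).Prime) :
    ∑ v ∈ S, (Ideal.absNorm v.asIdeal : ℝ)⁻¹ ≤
      Module.finrank ℚ F * ∑' k : ℕ, ((k : ℝ) ^ 2)⁻¹ := by
  classical
  have hsum : Summable (fun k : ℕ => ((k : ℝ) ^ 2)⁻¹) :=
    Real.summable_nat_pow_inv.mpr (by norm_num)
  calc ∑ v ∈ S, (Ideal.absNorm v.asIdeal : ℝ)⁻¹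
      ≤ ∑ v ∈ S, ((ratPrime v : ℝ) ^ 2)⁻¹ := by
        refine Finset.sum_le_sum fun v hv => ?_
        have h1 := ratPrime_sq_le v (hS v hv)
        have h2 : (ratPrime v : ℝ) ^ 2 ≤ (Ideal.absNorm v.asIdeal : ℝ) := by exact_mod_cast h1
        have h3 : (0 : ℝ) < (ratPrime v : ℝ) ^ 2 := by
          have : (0 : ℝ) < (ratPrime v : ℝ) := by exact_mod_cast (ratPrime_prime v).pos
          positivity
        exact inv_anti₀ h3 h2
    _ = ∑ k ∈ S.image ratPrime, ∑ v ∈ S with ratPrime v = k, ((ratPrime v : ℝ) ^ 2)⁻¹ :=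
        (Finset.sum_fiberwise_of_maps_to (fun v hv => Finset.mem_image_of_mem _ hv) _).symm
    _ = ∑ k ∈ S.image ratPrime,
          ((S.filter fun v => ratPrime v = k).card : ℝ) * ((k : ℝ) ^ 2)⁻¹ := by
        refine Finset.sum_congr rfl fun k _ => ?_
        rw [Finset.sum_congr rfl (fun v hv => by rw [(Finset.mem_filter.mp hv).2]),
          Finset.sum_const, nsmul_eq_mul]
    _ ≤ ∑ k ∈ S.image ratPrime, (Module.finrank ℚ F : ℝ) * ((k : ℝ) ^ 2)⁻¹ := by
        refine Finset.sum_le_sum fun k _ => ?_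
        exact mul_le_mul_of_nonneg_right (by exact_mod_cast card_ratPrime_fiber_le S k)
          (by positivity)
    _ = (Module.finrank ℚ F : ℝ) * ∑ k ∈ S.image ratPrime, ((k : ℝ) ^ 2)⁻¹ := by
        rw [Finset.mul_sum]
    _ ≤ _ := by
        refine mul_le_mul_of_nonneg_left ?_ (Nat.cast_nonneg _)
        exact hsum.sum_le_tsum _ (fun k _ => by positivity)

theorem tsum_nonprime_le {s : ℝ} (hs : 1 ≤ s) :
    ∑' v : ↥({v : HeightOneSpectrum (𝓞 F) | (Ideal.absNorm v.asIdeal).Prime}ᶜ), wt s (pr v.1) ≤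
      Module.finrank ℚ F * ∑' k : ℕ, ((k : ℝ) ^ 2)⁻¹ := by
  classical
  refine Real.tsum_le_of_sum_le (fun v => (wt_pos s _).le) fun u => ?_
  have h1 : ∑ x ∈ u, wt s (pr x.1) ≤ ∑ x ∈ u, (Ideal.absNorm x.1.asIdeal : ℝ)⁻¹ := by
    refine Finset.sum_le_sum fun x _ => ?_
    rw [wt_apply, ← Real.rpow_neg_one]
    exact Real.rpow_le_rpow_of_exponent_le (one_le_nrm _) (by linarith)
  have h2 : ∑ x ∈ u, (Ideal.absNorm x.1.asIdeal : ℝ)⁻¹ =
      ∑ v ∈ u.map (Function.Embedding.subtype _), (Ideal.absNorm v.asIdeal : ℝ)⁻¹ := by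
    rw [Finset.sum_map]
    rfl
  rw [h2] at h1
  refine h1.trans (sum_nonprime_le _ fun v hv => ?_)
  obtain ⟨x, _, rfl⟩ := Finset.mem_map.mp hv
  exact x.2

/-- **(Z-low)** -/
theorem S14_Zlow (F : Type*) [Field F] [NumberField F] :
    ∃ C : ℝ, ∀ s : ℝ, 1 < s → s < 2 →
      Summable (fun v : HeightOneSpectrum (𝓞 F) => (Ideal.absNorm v.asIdeal : ℝ) ^ (-s)) ∧
      Real.log (1 / (s - 1)) - C ≤
        ∑' v : {v : HeightOneSpectrum (𝓞 F) // (Ideal.absNorm v.asIdeal).Prime},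
          (Ideal.absNorm v.1.asIdeal : ℝ) ^ (-s) := by
  obtain ⟨m, M, hm, hmM⟩ := exists_zetaR_bounds F
  refine ⟨2 * (∑' v : HeightOneSpectrum (𝓞 F), wt 2 (pr v)) +
    (Module.finrank ℚ F * ∑' k : ℕ, ((k : ℝ) ^ 2)⁻¹) - Real.log m,
    fun s hs1 hs2 => ⟨summable_primes hs1, ?_⟩⟩
  obtain ⟨h1, h2⟩ := hmM s hs1 hs2
  have hz := zetaR_pos (F := F) hs1
  have hs0 : 0 < s - 1 := by linarith
  have h3 : (1 / (s - 1)) * m ≤ zetaR F s := by
    rw [one_div, inv_mul_le_iff₀ hs0]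
    exact h1
  have h4 : Real.log (1 / (s - 1)) + Real.log m ≤ Real.log (zetaR F s) := by
    rw [← Real.log_mul (by positivity) hm.ne']
    exact Real.log_le_log (by positivity) h3
  have h5 := log_le_tsum (F := F) hs1
  have h6 := (summable_wt_pr (F := F) hs1).tsum_subtype_add_tsum_subtype_compl
    {v : HeightOneSpectrum (𝓞 F) | (Ideal.absNorm v.asIdeal).Prime}
  have h7 := tsum_nonprime_le (F := F) hs1.le
  have h8 : ∑' v : {v : HeightOneSpectrum (𝓞 F) // (Ideal.absNorm v.asIdeal).Prime},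
      (Ideal.absNorm v.1.asIdeal : ℝ) ^ (-s) =
      ∑' v : ↥{v : HeightOneSpectrum (𝓞 F) | (Ideal.absNorm v.asIdeal).Prime},
        wt s (pr v.1) := rfl
  rw [h8]
  linarith

/-- **(Z)**: in a Galois extension `N1 / F1` of number fields of prime degree, outside any finite
set `T` there is a prime of `F1` of absolute degree one with at most one prime of `N1` above. -/
theorem S14_Z (p : ℕ) [Fact p.Prime] (F1 N1 : Type*) [Field F1] [Field N1]
    [NumberField F1] [NumberField N1] [Algebra F1 N1] [IsGalois F1 N1]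
    (h : Module.finrank F1 N1 = p) (T : Finset (HeightOneSpectrum (𝓞 F1))) :
    ∃ v : HeightOneSpectrum (𝓞 F1), v ∉ T ∧ (Ideal.absNorm v.asIdeal).Prime ∧
      ∀ w1 w2 : HeightOneSpectrum (𝓞 N1),
        w1.asIdeal.comap (algebraMap (𝓞 F1) (𝓞 N1)) = v.asIdeal →
        w2.asIdeal.comap (algebraMap (𝓞 F1) (𝓞 N1)) = v.asIdeal → w1 = w2 :=
  Fermat.Agent.S14x.Z.S14_Z_of p F1 N1 h (S14_Zlow F1) (S14_Zup N1) T

end Fermat.Agent.S14x.ZAn
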