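import Fermat.Agent.S14_DivGal
import Fermat.Agent.S14_ZAn

/-!
# S14, Part B, leaf (B5-Z): nonsplit primes of prime norm away from a given integer

`exists_nonsplit_prime`: a Galois extension `L / K` of number fields of prime degree `p` has a
prime `v` of `K` of prime absolute norm, prime to a given `n ≠ 0`, that does not split
completely in `L`.  (Analytic input: `ZAn.S14_Z`.)
-/

set_option autoImplicit false

namespace Fermat.Agent.S14x

open IsDedekindDomain NumberField

/-- (B5-Z) nonsplit primes of prime norm away from `n`. -/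
theorem exists_nonsplit_prime (p : ℕ) [Fact p.Prime] (K L : Type) [Field K] [NumberField K]
    [Field L] [NumberField L] [Algebra K L] [IsGalois K L] (hdeg : Module.finrank K L = p)
    (n : ℕ) (hn : n ≠ 0) :
    ∃ v : Pl K, (Ideal.absNorm v.asIdeal).Prime ∧ Nat.Coprime n (Ideal.absNorm v.asIdeal) ∧
      ¬ IsSplit K L v := by
  classical
  have hp : p.Prime := Fact.out
  obtain ⟨v, hvT, hprime, huniq⟩ :=
    ZAn.S14_Z p K L hdeg (ord_support_finite ((n : ℕ) : K)).toFinset
  have hv0 : ord v ((n : ℕ) : K) = 0 := by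
    by_contra h
    exact hvT ((Set.Finite.mem_toFinset _).mpr h)
  refine ⟨v, hprime, ?_, ?_⟩
  · -- coprimality: otherwise `n ∈ v`
    rw [Nat.coprime_comm, Nat.Prime.coprime_iff_not_dvd hprime]
    rintro ⟨c, hc⟩
    have hmem : ((Ideal.absNorm v.asIdeal : ℕ) : 𝓞 K) ∈ v.asIdeal := Ideal.absNorm_mem v.asIdeal
    have hn_mem : ((n : ℕ) : 𝓞 K) ∈ v.asIdeal := by
      rw [hc, Nat.cast_mul]
      exact Ideal.mul_mem_right _ _ hmem
    have hge := (mem_asIdeal_iff v _).mp hn_mem
    rw [vGe_iff] at hge
    have hnK : (((n : ℕ) : 𝓞 K) : K) = ((n : ℕ) : K) := by simp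
    rw [hnK] at hge
    rcases hge with h0 | h1
    · exact hn (by exact_mod_cast h0)
    · omega
  · -- not split: a split prime has `p ≥ 2` primes above it
    intro hsplit
    obtain ⟨w, hw⟩ := exists_above K (F' := L) v
    have hef := hsplit w hw
    have hcard := ncard_above_mul K w
    rw [hef.1, hef.2, hdeg, mul_one, mul_one, hw] at hcard
    have hle : {w' : Pl L | below K w' = v}.ncard ≤ 1 := by
      rw [Set.ncard_le_one (finite_above K v)]
      intro w1 h1 w2 h2
      exact huniq w1 w2 (congrArg HeightOneSpectrum.asIdeal h1)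
        (congrArg HeightOneSpectrum.asIdeal h2)
    have := hp.two_le
    omega

end Fermat.Agent.S14x
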