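/-
S14, Part B, abstract step of (B5): two characters of a free abelian group that satisfy the
"cross relations" on sufficiently many pairs of generators are proportional.
-/
import Mathlib

set_option autoImplicit false

namespace Fermat.Agent.S14x.B5

/-- a character of a free abelian group is determined by its values on the generators -/
theorem apply_eq_sum_single {ι : Type*} {A : Type*} [AddCommGroup A] (χ : (ι →₀ ℤ) →+ A) (D : ι →₀ ℤ) :
    χ D = D.sum fun v n => n • χ (Finsupp.single v 1) := by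
  induction D using Finsupp.induction_linear with
  | zero => simp
  | add D1 D2 h1 h2 =>
    rw [map_add, h1, h2, Finsupp.sum_add_index']
    · intro v
      simp
    · intro v n1 n2
      rw [add_smul]
  | single v n =>
    rw [Finsupp.sum_single_index (by simp)]
    rw [← map_zsmul, Finsupp.smul_single, smul_eq_mul, mul_one]

/-- **(B5, abstract)**: if `χ` vanishes on the generators killed by `ω`, the cross relation
`χ[v1] ω[v2] = χ[v2] ω[v1]` holds for all `R`-related pairs of generators not killed by `ω`, and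
any two generators are `R`-related to a common third one not killed by `ω`, then `χ = c • ω`. -/
theorem eq_smul_of_cross_rel {ι : Type*} {p : ℕ} [Fact p.Prime] (R : ι → ι → Prop)
    (ω χ : (ι →₀ ℤ) →+ ZMod p)
    (h0 : ∀ v, ω (Finsupp.single v 1) = 0 → χ (Finsupp.single v 1) = 0)
    (hcross : ∀ v1 v2, R v1 v2 → ω (Finsupp.single v1 1) ≠ 0 → ω (Finsupp.single v2 1) ≠ 0 →
      χ (Finsupp.single v1 1) * ω (Finsupp.single v2 1) =
        χ (Finsupp.single v2 1) * ω (Finsupp.single v1 1))
    (hthird : ∀ v1 v2, ∃ v3, R v1 v3 ∧ R v2 v3 ∧ ω (Finsupp.single v3 1) ≠ 0) :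
    ∃ c : ZMod p, ∀ D, χ D = c * ω D := by
  classical
  -- it is enough to find `c` on the generators
  have key : ∀ c : ZMod p, (∀ v, χ (Finsupp.single v 1) = c * ω (Finsupp.single v 1)) →
      ∀ D, χ D = c * ω D := by
    intro c hc D
    rw [apply_eq_sum_single χ D, apply_eq_sum_single ω D, Finsupp.sum, Finsupp.sum, Finset.mul_sum]
    refine Finset.sum_congr rfl fun v _ => ?_
    rw [hc v, zsmul_eq_mul, zsmul_eq_mul]
    ring
  by_cases hne : ∃ v0, ω (Finsupp.single v0 1) ≠ 0
  · obtain ⟨v0, hv0⟩ := hne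
    refine ⟨χ (Finsupp.single v0 1) * (ω (Finsupp.single v0 1))⁻¹, key _ ?_⟩
    intro v
    by_cases hv : ω (Finsupp.single v 1) = 0
    · rw [h0 v hv, hv, mul_zero]
    · obtain ⟨v3, h03, hv3, h3⟩ := hthird v0 v
      have e1 := hcross v0 v3 h03 hv0 h3
      have e2 := hcross v v3 hv3 hv h3
      -- χ[v] ω[v3] = χ[v3] ω[v],  χ[v0] ω[v3] = χ[v3] ω[v0]
      have e3 : χ (Finsupp.single v 1) * ω (Finsupp.single v3 1) =
          χ (Finsupp.single v0 1) * (ω (Finsupp.single v0 1))⁻¹ * ω (Finsupp.single v 1) *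
            ω (Finsupp.single v3 1) := by
        rw [e2]
        have : χ (Finsupp.single v3 1) =
            χ (Finsupp.single v0 1) * (ω (Finsupp.single v0 1))⁻¹ * ω (Finsupp.single v3 1) := by
          field_simp
          rw [e1]
        rw [this]
        ring
      exact mul_right_cancel₀ h3 e3
  · push Not at hne
    refine ⟨0, key 0 ?_⟩
    intro v
    rw [h0 v (hne v), zero_mul]

/-- corollary: if moreover `χ ≠ 0`, then `ω` vanishes wherever `χ` does. -/
theorem eq_zero_of_cross_rel {ι : Type*} {p : ℕ} [Fact p.Prime] (R : ι → ι → Prop)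
    (ω χ : (ι →₀ ℤ) →+ ZMod p)
    (h0 : ∀ v, ω (Finsupp.single v 1) = 0 → χ (Finsupp.single v 1) = 0)
    (hcross : ∀ v1 v2, R v1 v2 → ω (Finsupp.single v1 1) ≠ 0 → ω (Finsupp.single v2 1) ≠ 0 →
      χ (Finsupp.single v1 1) * ω (Finsupp.single v2 1) =
        χ (Finsupp.single v2 1) * ω (Finsupp.single v1 1))
    (hthird : ∀ v1 v2, ∃ v3, R v1 v3 ∧ R v2 v3 ∧ ω (Finsupp.single v3 1) ≠ 0)
    (hχ : χ ≠ 0) (D : ι →₀ ℤ) (hD : χ D = 0) : ω D = 0 := by
  obtain ⟨c, hc⟩ := eq_smul_of_cross_rel R ω χ h0 hcross hthird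
  have hc0 : c ≠ 0 := by
    rintro rfl
    apply hχ
    refine DFunLike.ext _ _ fun D' => ?_
    rw [hc D', zero_mul]
    rfl
  have := hc D
  rw [hD] at this
  rcases mul_eq_zero.mp this.symm with h | h
  · exact absurd h hc0
  · exact h

end Fermat.Agent.S14x.B5
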