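/-
S14 Part B, step (B5): in the (NF) setting the Artin character `ω` of `L/K` kills the
principal divisors, detects splitting, and is equivariant for the cyclotomic character.
Inputs from Part A (as hypotheses): the first inequality (A6) for `(K, L)` and the second
inequality `A10Hyp p`.
-/
import Fermat.Agent.S14_B3w
import Fermat.Agent.S14_B4
import Fermat.Agent.S14_B5Z
import Fermat.Agent.S14_ArtinConj
import Fermat.Agent.S14_B5rel
import Fermat.Agent.S14_A3Pre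

set_option autoImplicit false

namespace Fermat.Agent.S14x

open IsDedekindDomain NumberField

/-- (B5), hypothesis form on Part A: the Artin character kills principal divisors; the input of
(B7). -/
theorem B5_exists_of (p : ℕ) [Fact p.Prime] (h3 : 3 ≤ p) (K L : Type) [Field K] [NumberField K]
    [Field L] [NumberField L] [Algebra K L] [IsCyclotomicExtension {p} ℚ K] [IsGalois ℚ L]
    [IsGalois K L] (hdeg : Module.finrank K L = p)
    (hin : ∀ (w : HeightOneSpectrum (𝓞 L)) (t : L ≃ₐ[K] L),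
        (∀ x : 𝓞 L, ∃ y ∈ w.asIdeal, t (x : L) - (x : L) = (y : L)) → t = 1)
    (ζ : K) (hζ : IsPrimitiveRoot ζ p)
    (hconj : ∀ (s : L ≃ₐ[ℚ] L) (t : L ≃ₐ[K] L) (k : ℕ),
        s (algebraMap K L ζ) ^ k = algebraMap K L ζ → ∀ x : L, s (t (s.symm x)) = (t ^ k) x)
    (hA6 : ∃ χ : Dv K →+ ZMod p, χ ≠ 0 ∧ (∀ x : K, x ≠ 0 → χ (div x) = 0) ∧
      ∀ D' : Dv L, χ (normDiv K D') = 0)
    (hA10 : A10Hyp p) :
    ∃ ω : Dv K →+ ZMod p, (∀ x : K, x ≠ 0 → ω (div x) = 0) ∧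
      (∀ v : Pl K, ω (Finsupp.single v 1) = 0 → IsSplit K L v) ∧
      (∀ (σ : K ≃ₐ[ℚ] K) (k : ℕ) (v : Pl K), σ ζ ^ k = ζ →
        ω (Finsupp.single (gsmul ℚ σ v) 1) = k • ω (Finsupp.single v 1)) := by
  have hp : p.Prime := Fact.out
  have h : NFData p K L := ⟨hp, by omega, hdeg, hin, ⟨ζ, hζ⟩⟩
  obtain ⟨e, he⟩ := h.exists_inj_hom
  refine ⟨h.artin e, ?_, fun v hv => (h.artin_single_eq_zero_iff he v).mp hv, ?_⟩
  · -- `ω` kills principal divisors
    obtain ⟨χ0, hχ0, hχP, hχN⟩ := hA6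
    intro x hx
    refine B5.eq_zero_of_cross_rel
      (fun v1 v2 : Pl K => (Ideal.absNorm v2.asIdeal).Prime ∧
        Nat.Coprime (Ideal.absNorm v2.asIdeal) (Ideal.absNorm v1.asIdeal))
      (h.artin e) χ0 ?_ ?_ ?_ hχ0 (div x) (hχP x hx)
    · -- split primes are norms
      intro v hv
      have hs : IsSplit K L v := (h.artin_single_eq_zero_iff he v).mp hv
      obtain ⟨D', hD'⟩ := A3.single_mem_range_normDiv_of_isSplit (F := K) (F' := L) hs
      rw [← hD']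
      exact hχN D'
    · -- the cross relation
      rintro v1 v2 ⟨-, hcop⟩ - hω2
      obtain ⟨m, hm, hm2, hm1, hmsplit, hind⟩ :=
        exists_modulus p h3 K L hdeg h.unramified v2 v1 hcop
      have hns : ¬ IsSplit K L v2 := fun hs =>
        hω2 ((h.artin_single_eq_zero_iff he v2).mpr hs)
      exact (B4core hA10 h e he m hm v2 v1 hm2 hm1 hns hind hmsplit χ0 hχP hχN).symm
    · -- a third prime
      intro v1 v2
      have hn : Ideal.absNorm v1.asIdeal * Ideal.absNorm v2.asIdeal ≠ 0 :=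
        mul_ne_zero (absNorm_ne_zero K v1) (absNorm_ne_zero K v2)
      obtain ⟨v3, hpr, hcop, hns⟩ := exists_nonsplit_prime p K L hdeg _ hn
      refine ⟨v3, ⟨hpr, (Nat.Coprime.coprime_mul_right hcop).symm⟩,
        ⟨hpr, (Nat.Coprime.coprime_mul_left hcop).symm⟩,
        fun h0 => hns ((h.artin_single_eq_zero_iff he v3).mp h0)⟩
  · -- equivariance
    intro σ k v hk
    exact h.artin_conj e ζ hζ hconj σ k v hk

/-- the same statement under the name used in finding #64 -/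
theorem B5_exists (p : ℕ) [Fact p.Prime] (h3 : 3 ≤ p) (K L : Type) [Field K] [NumberField K]
    [Field L] [NumberField L] [Algebra K L] [IsCyclotomicExtension {p} ℚ K] [IsGalois ℚ L]
    [IsGalois K L] (hdeg : Module.finrank K L = p)
    (hin : ∀ (w : HeightOneSpectrum (𝓞 L)) (t : L ≃ₐ[K] L),
        (∀ x : 𝓞 L, ∃ y ∈ w.asIdeal, t (x : L) - (x : L) = (y : L)) → t = 1)
    (ζ : K) (hζ : IsPrimitiveRoot ζ p)
    (hconj : ∀ (s : L ≃ₐ[ℚ] L) (t : L ≃ₐ[K] L) (k : ℕ),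
        s (algebraMap K L ζ) ^ k = algebraMap K L ζ → ∀ x : L, s (t (s.symm x)) = (t ^ k) x)
    (hA6 : ∃ χ : Dv K →+ ZMod p, χ ≠ 0 ∧ (∀ x : K, x ≠ 0 → χ (div x) = 0) ∧
      ∀ D' : Dv L, χ (normDiv K D') = 0)
    (hA10 : A10Hyp p) :
    ∃ ω : Dv K →+ ZMod p, (∀ x : K, x ≠ 0 → ω (div x) = 0) ∧
      (∀ v : Pl K, ω (Finsupp.single v 1) = 0 → IsSplit K L v) ∧
      (∀ (σ : K ≃ₐ[ℚ] K) (k : ℕ) (v : Pl K), σ ζ ^ k = ζ →
        ω (Finsupp.single (gsmul ℚ σ v) 1) = k • ω (Finsupp.single v 1)) :=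
  B5_exists_of p h3 K L hdeg hin ζ hζ hconj hA6 hA10

end Fermat.Agent.S14x
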