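import Mathlib
import Fermat.Prelude.Def_FLTPrelim_Ramification
import Fermat.Agent.Lib_Frobenius

/-!
# S14, Part C2: inertia lifting

`L0/ℚ` a finite Galois extension inside `ℚ̄`, `w` a finite prime of `L0` and `t ∈ Gal(L0/ℚ)` in the
ideal-theoretic inertia group of `w` (`t x - x ∈ w` for all integers `x`).  Then `t` is the
restriction of an element of the prelude's inertia group `A.inertiaSubgroupIn ℚ` of a valuation
subring `A` of `ℚ̄` lying over a rational prime (`exists_inertia_lift`).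

Proof: Mathlib's profinite invariant theory (transitivity on primes and surjectivity of the
stabilizer onto the residue automorphisms) for `Gal(ℚ̄/L0)` acting on the algebraic integers,
and `Lib_Frobenius.locValuationSubring`.
-/

set_option autoImplicit false

open NumberField

namespace Fermat.Agent.S14x.CLift

open Fermat.Agent.LibFrobenius
open scoped Pointwise

noncomputable section

variable (L0 : IntermediateField ℚ (AlgebraicClosure ℚ))

theorem coe_smul_rel (g : AlgebraicClosure ℚ ≃ₐ[L0] AlgebraicClosure ℚ)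
    (b : 𝓞 (AlgebraicClosure ℚ)) :
    ((g • b : 𝓞 (AlgebraicClosure ℚ)) : AlgebraicClosure ℚ) = g (b : AlgebraicClosure ℚ) := rfl

theorem coe_smul_abs (g : AlgebraicClosure ℚ ≃ₐ[ℚ] AlgebraicClosure ℚ)
    (b : 𝓞 (AlgebraicClosure ℚ)) :
    ((g • b : 𝓞 (AlgebraicClosure ℚ)) : AlgebraicClosure ℚ) = g (b : AlgebraicClosure ℚ) := rfl

theorem coe_algebraMap_rel (a : 𝓞 L0) :
    ((algebraMap (𝓞 L0) (𝓞 (AlgebraicClosure ℚ)) a : 𝓞 (AlgebraicClosure ℚ)) :
      AlgebraicClosure ℚ) = ((a : L0) : AlgebraicClosure ℚ) := rfl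

instance smulCommClass_rel :
    SMulCommClass (AlgebraicClosure ℚ ≃ₐ[L0] AlgebraicClosure ℚ) (𝓞 L0)
      (𝓞 (AlgebraicClosure ℚ)) where
  smul_comm g a b := by
    apply RingOfIntegers.ext
    rw [Algebra.smul_def, Algebra.smul_def, coe_smul_rel]
    simp only [map_mul, coe_algebraMap_rel, coe_smul_rel]
    congr 1
    exact g.commutes (a : L0)

instance isInvariant_rel :
    Algebra.IsInvariant (𝓞 L0) (𝓞 (AlgebraicClosure ℚ))
      (AlgebraicClosure ℚ ≃ₐ[L0] AlgebraicClosure ℚ) where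
  isInvariant b hb := by
    have hfix : ∀ g : AlgebraicClosure ℚ ≃ₐ[L0] AlgebraicClosure ℚ,
        g (b : AlgebraicClosure ℚ) = b := fun g => congrArg RingOfIntegers.val (hb g)
    obtain ⟨r, hr⟩ := (InfiniteGalois.mem_range_algebraMap_iff_fixed
      (k := L0) (K := AlgebraicClosure ℚ) (b : AlgebraicClosure ℚ)).mpr hfix
    have hint : IsIntegral ℤ (algebraMap L0 (AlgebraicClosure ℚ) r) := by
      rw [hr]; exact RingOfIntegers.isIntegral_coe b
    have hintr : IsIntegral ℤ r :=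
      (isIntegral_algebraMap_iff (algebraMap L0 (AlgebraicClosure ℚ)).injective).mp hint
    exact ⟨⟨r, hintr⟩, RingOfIntegers.ext hr⟩

theorem stabilizer_rel_isOpen (b : 𝓞 (AlgebraicClosure ℚ)) :
    IsOpen (MulAction.stabilizer (AlgebraicClosure ℚ ≃ₐ[L0] AlgebraicClosure ℚ) b :
      Set (AlgebraicClosure ℚ ≃ₐ[L0] AlgebraicClosure ℚ)) := by
  have h := stabilizer_isOpen_of_isIntegral (K := L0) (L := AlgebraicClosure ℚ)
    (b : AlgebraicClosure ℚ)
  have heq : (MulAction.stabilizer (AlgebraicClosure ℚ ≃ₐ[L0] AlgebraicClosure ℚ) b :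
      Set (AlgebraicClosure ℚ ≃ₐ[L0] AlgebraicClosure ℚ)) =
      (MulAction.stabilizer (AlgebraicClosure ℚ ≃ₐ[L0] AlgebraicClosure ℚ)
        (b : AlgebraicClosure ℚ) : Set (AlgebraicClosure ℚ ≃ₐ[L0] AlgebraicClosure ℚ)) := by
    ext g
    simp only [SetLike.mem_coe, MulAction.mem_stabilizer_iff]
    constructor
    · intro h; exact congrArg RingOfIntegers.val h
    · intro h; exact RingOfIntegers.ext h
  rw [heq]; exact h


/-- **Inertia lifting, ideal form.**  `L0/ℚ` Galois inside `ℚ̄`, `𝔓` a prime of the algebraic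
integers, `w` the prime of `𝓞 L0` below it, `t ∈ Gal(L0/ℚ)` in the inertia group of `w`.
Then `t` lifts to an element of the absolute Galois group acting trivially modulo `𝔓`. -/
theorem exists_lift_inertia_ideal [Normal ℚ L0]
    (w : Ideal (𝓞 L0)) (𝔓 : Ideal (𝓞 (AlgebraicClosure ℚ))) [𝔓.IsPrime] [𝔓.LiesOver w]
    (t : L0 ≃ₐ[ℚ] L0)
    (ht : ∀ x : 𝓞 L0, ∃ y ∈ w, t (x : L0) - (x : L0) = (y : L0)) :
    ∃ s : AlgebraicClosure ℚ ≃ₐ[ℚ] AlgebraicClosure ℚ,
      (∀ x : L0, s (x : AlgebraicClosure ℚ) = ((t x : L0) : AlgebraicClosure ℚ)) ∧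
      ∀ b : 𝓞 (AlgebraicClosure ℚ), s • b - b ∈ 𝔓 := by
  classical
  letI : TopologicalSpace (𝓞 (AlgebraicClosure ℚ)) := ⊥
  haveI : DiscreteTopology (𝓞 (AlgebraicClosure ℚ)) := ⟨rfl⟩
  haveI : ContinuousSMul (AlgebraicClosure ℚ ≃ₐ[L0] AlgebraicClosure ℚ)
      (𝓞 (AlgebraicClosure ℚ)) :=
    continuousSMul_iff_stabilizer_isOpen.mpr (stabilizer_rel_isOpen L0)
  have hw : ∀ x : 𝓞 L0, x ∈ w ↔ algebraMap (𝓞 L0) (𝓞 (AlgebraicClosure ℚ)) x ∈ 𝔓 := by
    intro x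
    have h := (Ideal.LiesOver.over (P := 𝔓) (p := w))
    rw [h, Ideal.under, Ideal.mem_comap]
  -- lift `t` to the absolute Galois group
  obtain ⟨s₀, hs₀⟩ := AlgEquiv.restrictNormalHom_surjective (F := ℚ) (K₁ := L0)
    (AlgebraicClosure ℚ) t
  have hs₀' : ∀ x : L0, s₀ (x : AlgebraicClosure ℚ) = ((t x : L0) : AlgebraicClosure ℚ) := by
    intro x
    rw [← hs₀]
    exact (AlgEquiv.restrictNormal_commutes s₀ L0 x).symm
  -- `t` stabilises `w`
  have htw : ∀ x : 𝓞 L0, x ∈ w → t • x ∈ w := by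
    intro x hx
    obtain ⟨y, hy, hxy⟩ := ht x
    have : t • x = y + x := by
      apply RingOfIntegers.ext
      show t (x : L0) = (y : L0) + (x : L0)
      rw [← hxy]; ring
    rw [this]
    exact w.add_mem hy hx
  have htw' : ∀ x : 𝓞 L0, t • x ∈ w → x ∈ w := by
    intro x hx
    obtain ⟨y, hy, hxy⟩ := ht x
    have : x = t • x - y := by
      apply RingOfIntegers.ext
      show (x : L0) = t (x : L0) - (y : L0)
      rw [← hxy]
      ring
    rw [this]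
    exact w.sub_mem hx hy
  -- the conjugate prime
  let 𝔓' : Ideal (𝓞 (AlgebraicClosure ℚ)) :=
    𝔓.comap (MulSemiringAction.toRingHom (AlgebraicClosure ℚ ≃ₐ[ℚ] AlgebraicClosure ℚ)
      (𝓞 (AlgebraicClosure ℚ)) s₀⁻¹)
  have hmem' : ∀ b : 𝓞 (AlgebraicClosure ℚ), b ∈ 𝔓' ↔ s₀⁻¹ • b ∈ 𝔓 := fun b => Iff.rfl
  haveI : 𝔓'.IsPrime := Ideal.comap_isPrime _ _
  have hunder : 𝔓.under (𝓞 L0) = 𝔓'.under (𝓞 L0) := by
    ext x
    rw [Ideal.under, Ideal.under, Ideal.mem_comap, Ideal.mem_comap, hmem', ← hw]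
    have hkey : s₀⁻¹ • algebraMap (𝓞 L0) (𝓞 (AlgebraicClosure ℚ)) x =
        algebraMap (𝓞 L0) (𝓞 (AlgebraicClosure ℚ)) (t⁻¹ • x) := by
      apply RingOfIntegers.ext
      rw [coe_smul_abs, coe_algebraMap_rel, coe_algebraMap_rel]
      have h1 : s₀ (((t⁻¹ • x : 𝓞 L0) : L0) : AlgebraicClosure ℚ) =
          ((x : L0) : AlgebraicClosure ℚ) := by
        rw [hs₀']
        show ((t (t⁻¹ (x : L0)) : L0) : AlgebraicClosure ℚ) = _
        rw [← AlgEquiv.mul_apply, mul_inv_cancel, AlgEquiv.one_apply]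
      rw [← h1, ← AlgEquiv.mul_apply, inv_mul_cancel, AlgEquiv.one_apply]
    rw [hkey, ← hw]
    constructor
    · intro hx
      apply htw'
      rw [smul_inv_smul]
      exact hx
    · intro hx
      have := htw _ hx
      rwa [smul_inv_smul] at this
  obtain ⟨g, hg⟩ := Algebra.IsInvariant.exists_smul_of_under_eq_of_profinite
    (A := 𝓞 L0) (G := AlgebraicClosure ℚ ≃ₐ[L0] AlgebraicClosure ℚ) 𝔓 𝔓' hunder
  -- hg : 𝔓' = g • 𝔓
  have hgres : ∀ b : 𝓞 (AlgebraicClosure ℚ), (g.restrictScalars ℚ) • b = g • b :=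
    fun b => RingOfIntegers.ext rfl
  set s₁ : AlgebraicClosure ℚ ≃ₐ[ℚ] AlgebraicClosure ℚ := (g.restrictScalars ℚ)⁻¹ * s₀ with hs₁
  have hs₁inv : ∀ b : 𝓞 (AlgebraicClosure ℚ), s₁⁻¹ • b ∈ 𝔓 ↔ b ∈ 𝔓 := by
    intro b
    have h1 : s₁⁻¹ • b = s₀⁻¹ • (g • b) := by
      rw [hs₁, mul_inv_rev, inv_inv, mul_smul, hgres]
    rw [h1, ← hmem', hg, Ideal.smul_mem_pointwise_smul_iff]
  have hs₁mem : ∀ b : 𝓞 (AlgebraicClosure ℚ), s₁ • b ∈ 𝔓 ↔ b ∈ 𝔓 := by
    intro b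
    have := hs₁inv (s₁ • b)
    rw [inv_smul_smul] at this
    exact this.symm
  have hs₁L : ∀ x : L0, s₁ (x : AlgebraicClosure ℚ) = ((t x : L0) : AlgebraicClosure ℚ) := by
    intro x
    rw [hs₁, AlgEquiv.mul_apply, hs₀']
    have h1 : (g.restrictScalars ℚ) (((t x : L0)) : AlgebraicClosure ℚ) =
        ((t x : L0) : AlgebraicClosure ℚ) := g.commutes (t x)
    have h2 : (g.restrictScalars ℚ)⁻¹ ((g.restrictScalars ℚ) (((t x : L0)) : AlgebraicClosure ℚ)) =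
        ((t x : L0) : AlgebraicClosure ℚ) := by
      rw [← AlgEquiv.mul_apply, inv_mul_cancel, AlgEquiv.one_apply]
    rw [h1] at h2
    exact h2
  -- the automorphism of the residue field induced by `s₁`
  let φ₁ : 𝓞 (AlgebraicClosure ℚ) ≃+* 𝓞 (AlgebraicClosure ℚ) :=
    MulSemiringAction.toRingEquiv (AlgebraicClosure ℚ ≃ₐ[ℚ] AlgebraicClosure ℚ)
      (𝓞 (AlgebraicClosure ℚ)) s₁
  have hφ₁ : ∀ b, φ₁ b = s₁ • b := fun b => rfl
  have hmap : 𝔓 = 𝔓.map (φ₁ : 𝓞 (AlgebraicClosure ℚ) →+* 𝓞 (AlgebraicClosure ℚ)) := by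
    rw [Ideal.map_comap_of_equiv]
    ext b
    rw [Ideal.mem_comap]
    have h1 : φ₁.symm b = s₁⁻¹ • b := rfl
    rw [h1, hs₁inv]
  let e : (𝓞 (AlgebraicClosure ℚ) ⧸ 𝔓) ≃+* (𝓞 (AlgebraicClosure ℚ) ⧸ 𝔓) :=
    Ideal.quotientEquiv 𝔓 𝔓 φ₁ hmap
  have he : ∀ b, e (Ideal.Quotient.mk 𝔓 b) = Ideal.Quotient.mk 𝔓 (s₁ • b) := fun b => rfl
  let σ : (𝓞 (AlgebraicClosure ℚ) ⧸ 𝔓) ≃ₐ[𝓞 L0 ⧸ w] (𝓞 (AlgebraicClosure ℚ) ⧸ 𝔓) :=
    AlgEquiv.ofRingEquiv (f := e) (by
      intro r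
      obtain ⟨x, rfl⟩ := Ideal.Quotient.mk_surjective r
      rw [Ideal.Quotient.algebraMap_mk_of_liesOver, he]
      refine Ideal.Quotient.eq.mpr ?_
      obtain ⟨y, hy, hxy⟩ := ht x
      have : s₁ • algebraMap (𝓞 L0) (𝓞 (AlgebraicClosure ℚ)) x -
          algebraMap (𝓞 L0) (𝓞 (AlgebraicClosure ℚ)) x =
          algebraMap (𝓞 L0) (𝓞 (AlgebraicClosure ℚ)) y := by
        apply RingOfIntegers.ext
        show s₁ (((x : L0)) : AlgebraicClosure ℚ) - ((x : L0) : AlgebraicClosure ℚ) =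
          ((y : L0) : AlgebraicClosure ℚ)
        rw [hs₁L, ← hxy]
        rfl
      rw [this, ← hw]
      exact hy)
  have hσ : ∀ b, σ (Ideal.Quotient.mk 𝔓 b) = Ideal.Quotient.mk 𝔓 (s₁ • b) := fun b => rfl
  obtain ⟨d, hd⟩ := Ideal.Quotient.stabilizerHom_surjective_of_profinite
    (G := AlgebraicClosure ℚ ≃ₐ[L0] AlgebraicClosure ℚ) w 𝔓 σ
  have hdstab : (d : AlgebraicClosure ℚ ≃ₐ[L0] AlgebraicClosure ℚ) • 𝔓 = 𝔓 := d.2
  have hdmem : ∀ b : 𝓞 (AlgebraicClosure ℚ),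
      (d : AlgebraicClosure ℚ ≃ₐ[L0] AlgebraicClosure ℚ)⁻¹ • b ∈ 𝔓 ↔ b ∈ 𝔓 := by
    intro b
    have h := Ideal.smul_mem_pointwise_smul_iff
      (a := (d : AlgebraicClosure ℚ ≃ₐ[L0] AlgebraicClosure ℚ)) (S := 𝔓)
      (x := (d : AlgebraicClosure ℚ ≃ₐ[L0] AlgebraicClosure ℚ)⁻¹ • b)
    rw [hdstab, smul_inv_smul] at h
    exact h.symm
  have hdiff : ∀ b : 𝓞 (AlgebraicClosure ℚ),
      s₁ • b - (d : AlgebraicClosure ℚ ≃ₐ[L0] AlgebraicClosure ℚ) • b ∈ 𝔓 := by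
    intro b
    have h := congrArg (fun f => f (Ideal.Quotient.mk 𝔓 b)) hd
    simp only [Ideal.Quotient.stabilizerHom_apply] at h
    rw [hσ] at h
    exact Ideal.Quotient.eq.mp h.symm
  let d' : AlgebraicClosure ℚ ≃ₐ[ℚ] AlgebraicClosure ℚ :=
    (d : AlgebraicClosure ℚ ≃ₐ[L0] AlgebraicClosure ℚ).restrictScalars ℚ
  refine ⟨d'⁻¹ * s₁, ?_, ?_⟩
  · intro x
    rw [AlgEquiv.mul_apply, hs₁L]
    have h1 : d' (((t x : L0)) : AlgebraicClosure ℚ) = ((t x : L0) : AlgebraicClosure ℚ) :=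
      (d : AlgebraicClosure ℚ ≃ₐ[L0] AlgebraicClosure ℚ).commutes (t x)
    have h2 : d'⁻¹ (d' (((t x : L0)) : AlgebraicClosure ℚ)) =
        ((t x : L0) : AlgebraicClosure ℚ) := by
      rw [← AlgEquiv.mul_apply, inv_mul_cancel, AlgEquiv.one_apply]
    rw [h1] at h2
    exact h2
  · intro b
    have h1 : (d'⁻¹ * s₁) • b - b =
        (d : AlgebraicClosure ℚ ≃ₐ[L0] AlgebraicClosure ℚ)⁻¹ •
          (s₁ • b - (d : AlgebraicClosure ℚ ≃ₐ[L0] AlgebraicClosure ℚ) • b) := by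
      apply RingOfIntegers.ext
      show d'⁻¹ (s₁ (b : AlgebraicClosure ℚ)) - (b : AlgebraicClosure ℚ) =
        (d : AlgebraicClosure ℚ ≃ₐ[L0] AlgebraicClosure ℚ)⁻¹
          (s₁ (b : AlgebraicClosure ℚ) -
            (d : AlgebraicClosure ℚ ≃ₐ[L0] AlgebraicClosure ℚ) (b : AlgebraicClosure ℚ))
      rw [map_sub]
      have h3 : (d : AlgebraicClosure ℚ ≃ₐ[L0] AlgebraicClosure ℚ)⁻¹
          ((d : AlgebraicClosure ℚ ≃ₐ[L0] AlgebraicClosure ℚ) (b : AlgebraicClosure ℚ)) =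
          (b : AlgebraicClosure ℚ) := by
        rw [← AlgEquiv.mul_apply, inv_mul_cancel, AlgEquiv.one_apply]
      rw [h3]
      rfl
    rw [h1, hdmem]
    exact hdiff b

/-- The valuation subring of `ℚ̄` attached to a prime of the algebraic integers containing `ℓ`;
every automorphism acting trivially modulo the prime lies in its inertia group. -/
theorem exists_valuationSubring_inertia (ℓ : ℕ) (hℓ : ℓ.Prime)
    (𝔓 : Ideal (𝓞 (AlgebraicClosure ℚ))) [h𝔓 : 𝔓.IsPrime]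
    (hℓ𝔓 : ((ℓ : ℕ) : 𝓞 (AlgebraicClosure ℚ)) ∈ 𝔓) :
    ∃ A : ValuationSubring (AlgebraicClosure ℚ), A.LiesOverPrime ℓ ∧
      ∀ s : AlgebraicClosure ℚ ≃ₐ[ℚ] AlgebraicClosure ℚ,
        (∀ b : 𝓞 (AlgebraicClosure ℚ), s • b - b ∈ 𝔓) → s ∈ A.inertiaSubgroupIn ℚ := by
  let Q : Ideal (integralClosure ℤ (AlgebraicClosure ℚ)) := 𝔓
  have hQp : Q.IsPrime := h𝔓
  have hQ : Q.comap (algebraMap ℤ (integralClosure ℤ (AlgebraicClosure ℚ))) =
      Ideal.span {(ℓ : ℤ)} := by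
    haveI := span_prime_isMaximal ℓ hℓ
    symm
    refine Ideal.IsMaximal.eq_of_le inferInstance (Ideal.comap_ne_top _ hQp.ne_top) ?_
    rw [Ideal.span_singleton_le_iff_mem, Ideal.mem_comap]
    have : (algebraMap ℤ (integralClosure ℤ (AlgebraicClosure ℚ))) (ℓ : ℤ) =
        ((ℓ : ℕ) : 𝓞 (AlgebraicClosure ℚ)) := by
      simp
      rfl
    rw [this]
    exact hℓ𝔓
  refine ⟨locValuationSubring ℓ hℓ Q hQp hQ, ?_, ?_⟩
  · show (ℓ : AlgebraicClosure ℚ) ∈ (locValuationSubring ℓ hℓ Q hQp hQ).nonunits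
    rw [ValuationSubring.mem_nonunits_iff_or]
    right
    have h1 : ((ℓ : ℕ) : AlgebraicClosure ℚ) * ((1 : integralClosure ℤ (AlgebraicClosure ℚ)) :
        AlgebraicClosure ℚ) = ((ℓ : integralClosure ℤ (AlgebraicClosure ℚ)) :
          AlgebraicClosure ℚ) := by
      push_cast; ring
    have h1' : (1 : integralClosure ℤ (AlgebraicClosure ℚ)) ∉ Q :=
      fun h => hQp.ne_top ((Ideal.eq_top_iff_one Q).mpr h)
    have hl0 : ((ℓ : ℕ) : AlgebraicClosure ℚ) ≠ 0 := by exact_mod_cast hℓ.ne_zero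
    exact (locSet_nonunit Q hQp _ _ 1 hℓ𝔓 h1' h1).resolve_left hl0
  · intro s hs
    have hsub : ∀ b : integralClosure ℤ (AlgebraicClosure ℚ),
        (⟨s (b : AlgebraicClosure ℚ), map_isIntegral_int s b.2⟩ :
          integralClosure ℤ (AlgebraicClosure ℚ)) - b ∈ Q := fun b => hs b
    have hsmem : ∀ b : integralClosure ℤ (AlgebraicClosure ℚ),
        (⟨s (b : AlgebraicClosure ℚ), map_isIntegral_int s b.2⟩ :
          integralClosure ℤ (AlgebraicClosure ℚ)) ∈ Q ↔ b ∈ Q := by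
      intro b
      constructor
      · intro h
        have := Q.sub_mem h (hsub b)
        simpa using this
      · intro h
        have := Q.add_mem (hsub b) h
        simpa using this
    have hsub' : ∀ b : integralClosure ℤ (AlgebraicClosure ℚ),
        (⟨s⁻¹ (b : AlgebraicClosure ℚ), map_isIntegral_int s⁻¹ b.2⟩ :
          integralClosure ℤ (AlgebraicClosure ℚ)) - b ∈ Q := by
      intro b
      have h := hsub ⟨s⁻¹ (b : AlgebraicClosure ℚ), map_isIntegral_int s⁻¹ b.2⟩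
      have h2 : s (s⁻¹ (b : AlgebraicClosure ℚ)) = b := by
        rw [← AlgEquiv.mul_apply, mul_inv_cancel, AlgEquiv.one_apply]
      have h3 : (⟨s⁻¹ (b : AlgebraicClosure ℚ), map_isIntegral_int s⁻¹ b.2⟩ :
          integralClosure ℤ (AlgebraicClosure ℚ)) - b =
          -((⟨s ((⟨s⁻¹ (b : AlgebraicClosure ℚ), map_isIntegral_int s⁻¹ b.2⟩ :
            integralClosure ℤ (AlgebraicClosure ℚ)) : AlgebraicClosure ℚ),
              map_isIntegral_int s (map_isIntegral_int s⁻¹ b.2)⟩ :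
            integralClosure ℤ (AlgebraicClosure ℚ)) -
            ⟨s⁻¹ (b : AlgebraicClosure ℚ), map_isIntegral_int s⁻¹ b.2⟩) := by
        apply Subtype.ext
        push_cast
        rw [h2]
        ring
      rw [h3]
      exact Q.neg_mem h
    have hsmem' : ∀ b : integralClosure ℤ (AlgebraicClosure ℚ),
        (⟨s⁻¹ (b : AlgebraicClosure ℚ), map_isIntegral_int s⁻¹ b.2⟩ :
          integralClosure ℤ (AlgebraicClosure ℚ)) ∈ Q ↔ b ∈ Q := by
      intro b
      constructor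
      · intro h
        have := Q.sub_mem h (hsub' b)
        simpa using this
      · intro h
        have := Q.add_mem (hsub' b) h
        simpa using this
    have hdec : s ∈ (locValuationSubring ℓ hℓ Q hQp hQ).decompositionSubgroup ℚ := by
      rw [MulAction.mem_stabilizer_iff]
      ext x
      rw [ValuationSubring.mem_pointwise_smul_iff_inv_smul_mem]
      constructor
      · intro hx
        have := locSet_map_mem Q s hsmem _ hx
        rw [AlgEquiv.smul_def] at this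
        have h2 : s (s⁻¹ x) = x := by
          rw [← AlgEquiv.mul_apply, mul_inv_cancel, AlgEquiv.one_apply]
        rwa [h2] at this
      · intro hx
        exact locSet_map_mem Q s⁻¹ hsmem' x hx
    refine Subgroup.mem_map.2 ⟨⟨s, hdec⟩, ?_, rfl⟩
    show MulSemiringAction.toRingAut ((locValuationSubring ℓ hℓ Q hQp hQ).decompositionSubgroup ℚ)
      (IsLocalRing.ResidueField (locValuationSubring ℓ hℓ Q hQp hQ)) ⟨s, hdec⟩ = 1
    ext r
    obtain ⟨y, rfl⟩ := IsLocalRing.residue_surjective r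
    show (⟨s, hdec⟩ : (locValuationSubring ℓ hℓ Q hQp hQ).decompositionSubgroup ℚ) •
      IsLocalRing.residue (locValuationSubring ℓ hℓ Q hQp hQ) y =
      IsLocalRing.residue (locValuationSubring ℓ hℓ Q hQp hQ) y
    rw [← IsLocalRing.ResidueField.residue_smul, ← sub_eq_zero, ← map_sub,
      IsLocalRing.residue_eq_zero_iff, ← ValuationSubring.coe_mem_nonunits_iff,
      ValuationSubring.mem_nonunits_iff_or]
    obtain ⟨a, b, hb, hab⟩ := y.2
    have hcoe : (((⟨s, hdec⟩ : (locValuationSubring ℓ hℓ Q hQp hQ).decompositionSubgroup ℚ) • y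
        - y : (locValuationSubring ℓ hℓ Q hQp hQ)) : AlgebraicClosure ℚ) =
        s (y : AlgebraicClosure ℚ) - (y : AlgebraicClosure ℚ) := rfl
    rw [hcoe]
    let sa : integralClosure ℤ (AlgebraicClosure ℚ) :=
      ⟨s (a : AlgebraicClosure ℚ), map_isIntegral_int s a.2⟩
    let sb : integralClosure ℤ (AlgebraicClosure ℚ) :=
      ⟨s (b : AlgebraicClosure ℚ), map_isIntegral_int s b.2⟩
    refine locSet_nonunit Q hQp _ ((sa - a) * b - a * (sb - b)) (sb * b) ?_ ?_ ?_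
    · exact Q.sub_mem (Q.mul_mem_right _ (hsub a)) (Q.mul_mem_left _ (hsub b))
    · intro h
      rcases hQp.mem_or_mem h with h | h
      · exact hb ((hsmem b).mp h)
      · exact hb h
    · push_cast
      show (s (y : AlgebraicClosure ℚ) - (y : AlgebraicClosure ℚ)) *
        (s (b : AlgebraicClosure ℚ) * (b : AlgebraicClosure ℚ)) =
        (s (a : AlgebraicClosure ℚ) - (a : AlgebraicClosure ℚ)) * (b : AlgebraicClosure ℚ) -
          (a : AlgebraicClosure ℚ) * (s (b : AlgebraicClosure ℚ) - (b : AlgebraicClosure ℚ))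
      rw [← hab, map_mul]
      ring

/-- **Inertia lifting (C2).**  `L0/ℚ` finite Galois inside `ℚ̄`, `w` a finite prime of `L0`,
`t ∈ Gal(L0/ℚ)` in the (ideal-theoretic) inertia group of `w`.  Then there are a rational prime
`ℓ`, a valuation subring `A` of `ℚ̄` over `ℓ` and `s` in the inertia group of `A` (in the prelude's
sense) restricting to `t` on `L0`. -/
theorem exists_inertia_lift [FiniteDimensional ℚ L0] [Normal ℚ L0]
    (w : IsDedekindDomain.HeightOneSpectrum (𝓞 L0)) (t : L0 ≃ₐ[ℚ] L0)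
    (ht : ∀ x : 𝓞 L0, ∃ y ∈ w.asIdeal, t (x : L0) - (x : L0) = (y : L0)) :
    ∃ (ℓ : ℕ) (_ : ℓ.Prime) (A : ValuationSubring (AlgebraicClosure ℚ))
      (s : AlgebraicClosure ℚ ≃ₐ[ℚ] AlgebraicClosure ℚ),
      A.LiesOverPrime ℓ ∧ s ∈ A.inertiaSubgroupIn ℚ ∧
        ∀ x : L0, s (x : AlgebraicClosure ℚ) = ((t x : L0) : AlgebraicClosure ℚ) := by
  haveI : NumberField L0 := ⟨⟩
  haveI hwmax : w.asIdeal.IsMaximal := w.isMaximal
  -- the rational prime below `w`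
  obtain ⟨J, hJ⟩ : ∃ J : Ideal ℤ, J = w.asIdeal.comap (algebraMap ℤ (𝓞 L0)) := ⟨_, rfl⟩
  have hJmem : ∀ n : ℤ, n ∈ J ↔ ((n : ℤ) : 𝓞 L0) ∈ w.asIdeal := by
    intro n
    rw [hJ, Ideal.mem_comap]
    simp
  haveI hJprime : J.IsPrime := by rw [hJ]; exact Ideal.comap_isPrime _ _
  have hn0 : Ideal.absNorm w.asIdeal ≠ 0 := by
    rw [Ne, Ideal.absNorm_eq_zero_iff]
    exact w.ne_bot
  have hnJ : ((Ideal.absNorm w.asIdeal : ℕ) : ℤ) ∈ J := by
    rw [hJmem]
    have := Ideal.absNorm_mem w.asIdeal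
    simpa using this
  have hJ0 : J ≠ ⊥ := by
    intro h
    rw [h, Ideal.mem_bot] at hnJ
    exact hn0 (by exact_mod_cast hnJ)
  have hspan : Ideal.span {((Ideal.absNorm J : ℕ) : ℤ)} = J := Int.ideal_span_absNorm_eq_self J
  have hℓ0 : ((Ideal.absNorm J : ℕ) : ℤ) ≠ 0 := by
    intro h
    rw [h] at hspan
    apply hJ0
    rw [← hspan]
    simp
  have hℓprime : (Ideal.absNorm J).Prime := by
    rw [Nat.prime_iff_prime_int]
    rw [← Ideal.span_singleton_prime hℓ0, hspan]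
    exact hJprime
  have hℓw : ((Ideal.absNorm J : ℕ) : 𝓞 L0) ∈ w.asIdeal := by
    have h1 : ((Ideal.absNorm J : ℕ) : ℤ) ∈ Ideal.span {((Ideal.absNorm J : ℕ) : ℤ)} :=
      Ideal.mem_span_singleton_self _
    rw [hspan, hJmem] at h1
    simpa using h1
  -- a prime of the algebraic integers above `w`
  have hker : RingHom.ker (algebraMap (𝓞 L0) (𝓞 (AlgebraicClosure ℚ))) ≤ w.asIdeal := by
    intro x hx
    rw [RingHom.mem_ker] at hx
    have h2 : ((x : L0) : AlgebraicClosure ℚ) = 0 := by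
      have := congrArg RingOfIntegers.val hx
      simpa using this
    have h3 : (x : L0) = 0 := by exact_mod_cast h2
    have h4 : x = 0 := RingOfIntegers.ext (by simpa using h3)
    rw [h4]; exact Ideal.zero_mem _
  obtain ⟨𝔓, h𝔓max, h𝔓w⟩ := Ideal.exists_ideal_over_maximal_of_isIntegral
    (S := 𝓞 (AlgebraicClosure ℚ)) w.asIdeal hker
  haveI : 𝔓.IsPrime := h𝔓max.isPrime
  haveI : 𝔓.LiesOver w.asIdeal := ⟨h𝔓w.symm⟩
  have hℓ𝔓 : ((Ideal.absNorm J : ℕ) : 𝓞 (AlgebraicClosure ℚ)) ∈ 𝔓 := by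
    have h1 : ((Ideal.absNorm J : ℕ) : 𝓞 L0) ∈ 𝔓.comap
        (algebraMap (𝓞 L0) (𝓞 (AlgebraicClosure ℚ))) := by rw [h𝔓w]; exact hℓw
    rw [Ideal.mem_comap] at h1
    simpa using h1
  obtain ⟨s, hsL, hs𝔓⟩ := exists_lift_inertia_ideal L0 w.asIdeal 𝔓 t ht
  obtain ⟨A, hA, hAin⟩ := exists_valuationSubring_inertia (Ideal.absNorm J) hℓprime 𝔓 hℓ𝔓
  exact ⟨Ideal.absNorm J, hℓprime, A, s, hA, hAin s hs𝔓, hsL⟩

end

end Fermat.Agent.S14x.CLift
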