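import Mathlib
import Fermat.Prelude.Def_ExtCitation_AdmissibleExtension_v2
import Fermat.Prelude.Def_ExtCitation_KummerBridge
import Fermat.Agent.S14_CLift

/-!
# S14, Part C: reduction of `ExtVanishingCts p` to the number-field statement (NF)

`extVanishingCts_of_NF`: if the configuration (NF) is impossible (a cyclic unramified degree `p`
extension `L` of `K = ℚ(ζ_p)`, Galois over `ℚ`, on which `Gal(K/ℚ)` acts through the inverse of the
cyclotomic character), then every admissible extension `0 → ℤ/p → V → μ_p → 0` splits globally.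

* trivial case (`splits_of_trivial`): every `σ` with `χ(σ) = 1` acts trivially; then the image
  of Galois is abelian and an eigenspace of one `σ₀` with `χ(σ₀) ≠ 1` is a stable complement;
* nontrivial case (`false_of_nontrivial`): `L0` := the field cut out by `V` (finite Galois over
  `ℚ` because the kernel is open), `K := ℚ(ζ) ⊆ L0`; `[L0 : K] = p` via the injective
  homomorphism `Gal(L0/K) → C`, the conjugation rule by a direct computation on `V`, and
  unramifiedness by inertia lifting (`S14_CLift`) + `unramified_outside` / `locally_split`.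
-/

set_option autoImplicit false
set_option linter.unusedSectionVars false

open NumberField

namespace Fermat.Agent.S14x.C

open ExtCitation

noncomputable section

variable {p : ℕ} [Fact p.Prime]

/-- The mod `p` cyclotomic character with values in `ZMod p`. -/
def chi (σ : AlgebraicClosure ℚ ≃ₐ[ℚ] AlgebraicClosure ℚ) : ZMod p := (cycloExp p σ : ZMod p)

theorem chi_eq_coe (σ : AlgebraicClosure ℚ ≃ₐ[ℚ] AlgebraicClosure ℚ) :
    (chi σ : ZMod p) = ((cycloChar p σ : (ZMod p)ˣ) : ZMod p) := (coe_cycloChar p σ).symm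

theorem chi_mul (σ τ : AlgebraicClosure ℚ ≃ₐ[ℚ] AlgebraicClosure ℚ) :
    (chi (σ * τ) : ZMod p) = chi σ * chi τ := by
  rw [chi_eq_coe, chi_eq_coe, chi_eq_coe, map_mul, Units.val_mul]

theorem chi_one : (chi (1 : AlgebraicClosure ℚ ≃ₐ[ℚ] AlgebraicClosure ℚ) : ZMod p) = 1 := by
  rw [chi_eq_coe, map_one, Units.val_one]

theorem chi_inv (σ : AlgebraicClosure ℚ ≃ₐ[ℚ] AlgebraicClosure ℚ) :
    (chi σ⁻¹ : ZMod p) = (chi σ)⁻¹ := by
  rw [chi_eq_coe, chi_eq_coe, map_inv, Units.val_inv_eq_inv_val]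

theorem chi_ne_zero (σ : AlgebraicClosure ℚ ≃ₐ[ℚ] AlgebraicClosure ℚ) :
    (chi σ : ZMod p) ≠ 0 := by
  rw [chi_eq_coe]
  exact Units.ne_zero _

/-- The defining property of the cyclotomic exponent. -/
theorem apply_root (σ : AlgebraicClosure ℚ ≃ₐ[ℚ] AlgebraicClosure ℚ) {ζ : AlgebraicClosure ℚ}
    (hζ : ζ ^ p = 1) : σ ζ = ζ ^ (cycloExp p σ) := by
  haveI : NeZero p := ⟨(Fact.out : p.Prime).ne_zero⟩
  have hζ0 : ζ ≠ 0 := by
    intro h
    rw [h, zero_pow (Fact.out : p.Prime).ne_zero] at hζ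
    exact zero_ne_one hζ
  let u : (AlgebraicClosure ℚ)ˣ := Units.mk0 ζ hζ0
  have hu : u ∈ rootsOfUnity p (AlgebraicClosure ℚ) := by
    rw [mem_rootsOfUnity]
    ext
    simpa [u] using hζ
  have h := modularCyclotomicCharacter.spec (L := AlgebraicClosure ℚ)
    (card_rootsOfUnity_eq_self p) (σ : AlgebraicClosure ℚ ≃+* AlgebraicClosure ℚ) hu
  exact h

/-- For a primitive `p`-th root of unity, `ζ ^ a = ζ ^ b` iff `a = b` in `ZMod p`. -/
theorem pow_eq_pow_iff {ζ : AlgebraicClosure ℚ} (hζ : IsPrimitiveRoot ζ p) (a b : ℕ) :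
    ζ ^ a = ζ ^ b ↔ (a : ZMod p) = (b : ZMod p) := by
  have hfin : IsOfFinOrder ζ :=
    isOfFinOrder_iff_pow_eq_one.mpr ⟨p, (Fact.out : p.Prime).pos, hζ.pow_eq_one⟩
  rw [hfin.pow_eq_pow_iff_modEq, ← hζ.eq_orderOf, ZMod.natCast_eq_natCast_iff]

section Module

variable {V : Type} [AddCommGroup V] [Module (ZMod p) V]
  [DistribMulAction (AlgebraicClosure ℚ ≃ₐ[ℚ] AlgebraicClosure ℚ) V]
  [SMulCommClass (AlgebraicClosure ℚ ≃ₐ[ℚ] AlgebraicClosure ℚ) (ZMod p) V]
  {C : Submodule (ZMod p) V}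

theorem quot_mem (hadm : IsAdmissibleExtension p V C)
    (σ : AlgebraicClosure ℚ ≃ₐ[ℚ] AlgebraicClosure ℚ) (x : V) :
    σ • x - (chi σ : ZMod p) • x ∈ C := hadm.cyclo_quot σ x

theorem sub_mem_of_chi_one (hadm : IsAdmissibleExtension p V C)
    {σ : AlgebraicClosure ℚ ≃ₐ[ℚ] AlgebraicClosure ℚ} (hσ : (chi σ : ZMod p) = 1) (x : V) :
    σ • x - x ∈ C := by
  have h := quot_mem hadm σ x
  rwa [hσ, one_smul] at h

theorem exists_notMem (hadm : IsAdmissibleExtension p V C) : ∃ x₀ : V, x₀ ∉ C := by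
  by_contra h
  push Not at h
  have hp : p.Prime := Fact.out
  have hcard : Nat.card C = Nat.card V :=
    Nat.card_congr ⟨fun c => c.1, fun v => ⟨v, h v⟩, fun _ => rfl, fun _ => rfl⟩
  rw [hadm.card_sub, hadm.card_total] at hcard
  have h2 : p ^ 1 = p ^ 2 := by rw [pow_one]; exact hcard
  have := Nat.pow_right_injective hp.two_le h2
  omega

theorem decomp (hadm : IsAdmissibleExtension p V C) {x₀ : V} (hx₀ : x₀ ∉ C) (v : V) :
    ∃ a : ZMod p, v - a • x₀ ∈ C := by
  have hp : p.Prime := Fact.out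
  haveI : Finite V := Nat.finite_of_card_ne_zero (by
    rw [hadm.card_total]; exact pow_ne_zero 2 hp.ne_zero)
  let f : ZMod p × C → V := fun ac => ac.1 • x₀ + (ac.2 : V)
  have hinj : Function.Injective f := by
    rintro ⟨a, c⟩ ⟨a', c'⟩ h
    simp only [f] at h
    have h1 : (a - a') • x₀ = (c' : V) - (c : V) := by
      rw [sub_smul]
      have h2 : a • x₀ = a' • x₀ + (c' : V) - (c : V) := by rw [← h]; abel
      rw [h2]; abel
    have ha : a - a' = 0 := by
      by_contra hne
      apply hx₀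
      have h3 : x₀ = (a - a')⁻¹ • ((a - a') • x₀) := by
        rw [smul_smul, inv_mul_cancel₀ hne, one_smul]
      rw [h3, h1]
      exact C.smul_mem _ (C.sub_mem c'.2 c.2)
    have ha' : a = a' := sub_eq_zero.mp ha
    subst ha'
    have hc : (c : V) = (c' : V) := by
      have := h
      exact add_left_cancel this
    rw [Subtype.ext hc]
  have hcard : Nat.card V ≤ Nat.card (ZMod p × C) := by
    rw [Nat.card_prod, Nat.card_zmod, hadm.card_sub, hadm.card_total, pow_two]
  obtain ⟨⟨a, c⟩, hac⟩ := (hinj.bijective_of_nat_card_le hcard).2 v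
  refine ⟨a, ?_⟩
  simp only [f] at hac
  rw [← hac]
  simp

theorem chi_one_of_trivial (hadm : IsAdmissibleExtension p V C)
    {σ : AlgebraicClosure ℚ ≃ₐ[ℚ] AlgebraicClosure ℚ} (hσ : ∀ v : V, σ • v = v) :
    (chi σ : ZMod p) = 1 := by
  obtain ⟨x₀, hx₀⟩ := exists_notMem hadm
  have h := quot_mem hadm σ x₀
  rw [hσ x₀] at h
  by_contra hne
  have hne' : (1 - chi σ : ZMod p) ≠ 0 := sub_ne_zero.mpr (Ne.symm hne)
  apply hx₀
  have h1 : x₀ - (chi σ : ZMod p) • x₀ = (1 - chi σ : ZMod p) • x₀ := by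
    rw [sub_smul, one_smul]
  rw [h1] at h
  have h3 : x₀ = (1 - chi σ : ZMod p)⁻¹ • ((1 - chi σ : ZMod p) • x₀) := by
    rw [smul_smul, inv_mul_cancel₀ hne', one_smul]
  rw [h3]
  exact C.smul_mem _ h

theorem trivial_of_fix (hadm : IsAdmissibleExtension p V C) {x₀ : V} (hx₀ : x₀ ∉ C)
    {σ : AlgebraicClosure ℚ ≃ₐ[ℚ] AlgebraicClosure ℚ} (h : σ • x₀ = x₀) (v : V) :
    σ • v = v := by
  obtain ⟨a, ha⟩ := decomp hadm hx₀ v
  have hv : v = a • x₀ + (v - a • x₀) := by abel
  have h1 : σ • (v - a • x₀) = v - a • x₀ := hadm.fixed_sub σ _ ha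
  calc σ • v = σ • (a • x₀ + (v - a • x₀)) := by rw [← hv]
    _ = a • (σ • x₀) + σ • (v - a • x₀) := by rw [smul_add, smul_comm]
    _ = a • x₀ + (v - a • x₀) := by rw [h, h1]
    _ = v := hv.symm

/-- **Trivial case**: if every element with trivial cyclotomic character acts trivially, the
extension splits globally (the image of Galois is abelian of order prime to `p`). -/
theorem splits_of_trivial (hadm : IsAdmissibleExtension p V C)
    (htriv : ∀ σ : AlgebraicClosure ℚ ≃ₐ[ℚ] AlgebraicClosure ℚ,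
      (chi σ : ZMod p) = 1 → ∀ v : V, σ • v = v) : SplitsGlobally C := by
  by_cases h : ∃ σ₀ : AlgebraicClosure ℚ ≃ₐ[ℚ] AlgebraicClosure ℚ, (chi σ₀ : ZMod p) ≠ 1
  · obtain ⟨σ₀, hσ₀⟩ := h
    have hne : (1 - chi σ₀ : ZMod p) ≠ 0 := sub_ne_zero.mpr (Ne.symm hσ₀)
    -- the eigenspace of `σ₀` for the eigenvalue `chi σ₀`
    let C' : Submodule (ZMod p) V :=
      { carrier := {x | σ₀ • x = (chi σ₀ : ZMod p) • x}
        add_mem' := by
          intro x y hx hy
          simp only [Set.mem_setOf_eq] at hx hy ⊢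
          rw [smul_add, hx, hy, smul_add]
        zero_mem' := by
          simp only [Set.mem_setOf_eq]
          rw [smul_zero, smul_zero]
        smul_mem' := by
          intro a x hx
          simp only [Set.mem_setOf_eq] at hx ⊢
          rw [smul_comm, hx, smul_comm] }
    have hC' : ∀ x : V, x ∈ C' ↔ σ₀ • x = (chi σ₀ : ZMod p) • x := fun x => Iff.rfl
    refine ⟨C', ?_, ?_⟩
    · intro τ x hx
      rw [hC'] at hx ⊢
      -- `σ₀` and `τ` commute on `V`
      have hcomm : (σ₀ * τ) • x = (τ * σ₀) • x := by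
        have hc : (chi ((τ * σ₀)⁻¹ * (σ₀ * τ)) : ZMod p) = 1 := by
          rw [chi_mul, chi_inv, chi_mul, chi_mul, mul_comm (chi σ₀ : ZMod p) (chi τ)]
          exact inv_mul_cancel₀ (mul_ne_zero (chi_ne_zero τ) (chi_ne_zero σ₀))
        have h1 := htriv _ hc x
        have h2 : (τ * σ₀) • (((τ * σ₀)⁻¹ * (σ₀ * τ)) • x) = (σ₀ * τ) • x := by
          rw [← mul_smul, mul_inv_cancel_left]
        rw [← h2, h1]
      rw [← mul_smul, hcomm, mul_smul, hx, smul_comm]
    · constructor
      · rw [Submodule.disjoint_def]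
        intro x hxC hxC'
        rw [hC'] at hxC'
        rw [hadm.fixed_sub σ₀ x hxC] at hxC'
        have h1 : (1 - chi σ₀ : ZMod p) • x = 0 := by
          rw [sub_smul, one_smul, ← hxC', sub_self]
        rcases smul_eq_zero.mp h1 with h2 | h2
        · exact absurd h2 hne
        · exact h2
      · rw [codisjoint_iff, eq_top_iff]
        intro x _
        -- `x = y + c'` with `c' = (1 - chi)⁻¹ • (σ₀ x - chi x) ∈ C`
        have hc1 : σ₀ • x - (chi σ₀ : ZMod p) • x ∈ C := quot_mem hadm σ₀ x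
        set c₁ := σ₀ • x - (chi σ₀ : ZMod p) • x with hc₁
        set c' := (1 - chi σ₀ : ZMod p)⁻¹ • c₁ with hc'
        have hc'C : c' ∈ C := C.smul_mem _ hc1
        have hy : x - c' ∈ C' := by
          rw [hC', smul_sub, smul_sub, hadm.fixed_sub σ₀ c' hc'C]
          have h1 : σ₀ • x = (chi σ₀ : ZMod p) • x + c₁ := by rw [hc₁]; abel
          have h2 : c₁ = (1 - chi σ₀ : ZMod p) • c' := by
            rw [hc', smul_smul, mul_inv_cancel₀ hne, one_smul]
          rw [h1, h2, sub_smul, one_smul]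
          abel
        have : x = c' + (x - c') := by abel
        rw [this]
        exact Submodule.add_mem_sup hc'C hy
  · push Not at h
    obtain ⟨C', hC'⟩ := Submodule.exists_isCompl C
    refine ⟨C', ?_, hC'⟩
    intro σ x hx
    rw [htriv σ (h σ) x]
    exact hx

end Module

section Field

variable (L0 : IntermediateField ℚ (AlgebraicClosure ℚ))

/-- Every automorphism of a normal subextension lifts to the absolute Galois group. -/
theorem exists_lift [Normal ℚ L0] (u : L0 ≃ₐ[ℚ] L0) :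
    ∃ s : AlgebraicClosure ℚ ≃ₐ[ℚ] AlgebraicClosure ℚ,
      ∀ x : L0, s (x : AlgebraicClosure ℚ) = ((u x : L0) : AlgebraicClosure ℚ) := by
  obtain ⟨s₀, hs₀⟩ := AlgEquiv.restrictNormalHom_surjective (F := ℚ) (K₁ := L0)
    (AlgebraicClosure ℚ) u
  refine ⟨s₀, fun x => ?_⟩
  rw [← hs₀]
  exact (AlgEquiv.restrictNormal_commutes s₀ L0 x).symm

theorem chi_mul_eq_one_of_pow {ζ : AlgebraicClosure ℚ} (hζ : IsPrimitiveRoot ζ p)
    {s : AlgebraicClosure ℚ ≃ₐ[ℚ] AlgebraicClosure ℚ} {k : ℕ} (hs : s ζ ^ k = ζ) :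
    (chi s : ZMod p) * (k : ZMod p) = 1 := by
  rw [apply_root s hζ.pow_eq_one, ← pow_mul] at hs
  have h1 : ζ ^ (cycloExp p s * k) = ζ ^ 1 := by rw [hs, pow_one]
  rw [pow_eq_pow_iff hζ] at h1
  rw [chi]
  push_cast at h1
  exact h1

theorem chi_eq_one_of_fix {ζ : AlgebraicClosure ℚ} (hζ : IsPrimitiveRoot ζ p)
    {s : AlgebraicClosure ℚ ≃ₐ[ℚ] AlgebraicClosure ℚ} (hs : s ζ = ζ) :
    (chi s : ZMod p) = 1 := by
  have h := chi_mul_eq_one_of_pow (k := 1) hζ (by rw [pow_one]; exact hs)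
  simpa using h

theorem apply_root_of_chi_one {ζ : AlgebraicClosure ℚ} (hζ : ζ ^ p = 1)
    {s : AlgebraicClosure ℚ ≃ₐ[ℚ] AlgebraicClosure ℚ} (hs : (chi s : ZMod p) = 1) :
    s ζ = ζ := by
  rw [apply_root s hζ]
  have hp : p.Prime := Fact.out
  rw [chi] at hs
  have h1 : ((cycloExp p s : ℕ) : ZMod p) = ((1 : ℕ) : ZMod p) := by rw [hs]; simp
  rw [ZMod.natCast_eq_natCast_iff] at h1
  have h2 : cycloExp p s % p = 1 % p := h1
  rw [← Nat.div_add_mod (cycloExp p s) p, h2, Nat.mod_eq_of_lt hp.one_lt, pow_add, pow_mul, hζ,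
    one_pow, one_mul, pow_one]

end Field

section Main

variable {V : Type} [AddCommGroup V] [Module (ZMod p) V]
  [DistribMulAction (AlgebraicClosure ℚ ≃ₐ[ℚ] AlgebraicClosure ℚ) V]
  [SMulCommClass (AlgebraicClosure ℚ ≃ₐ[ℚ] AlgebraicClosure ℚ) (ZMod p) V]
  {C : Submodule (ZMod p) V}

/-- The kernel of the Galois action on `V`. -/
def kerAction (V : Type) [AddCommGroup V]
    [DistribMulAction (AlgebraicClosure ℚ ≃ₐ[ℚ] AlgebraicClosure ℚ) V] :
    Subgroup (AlgebraicClosure ℚ ≃ₐ[ℚ] AlgebraicClosure ℚ) where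
  carrier := {σ | ∀ v : V, σ • v = v}
  mul_mem' := by
    intro a b ha hb v
    rw [mul_smul, hb v, ha v]
  one_mem' := fun v => one_smul _ v
  inv_mem' := by
    intro a ha v
    have h := ha v
    calc a⁻¹ • v = a⁻¹ • (a • v) := by rw [h]
      _ = v := inv_smul_smul a v

theorem mem_kerAction (σ : AlgebraicClosure ℚ ≃ₐ[ℚ] AlgebraicClosure ℚ) :
    σ ∈ kerAction V ↔ ∀ v : V, σ • v = v := Iff.rfl

theorem kerAction_normal : (kerAction V).Normal := by
  refine ⟨fun σ hσ τ v => ?_⟩
  rw [mul_smul, mul_smul, hσ (τ⁻¹ • v), smul_inv_smul]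

/-- The field cut out by `V`. -/
def cutField (V : Type) [AddCommGroup V]
    [DistribMulAction (AlgebraicClosure ℚ ≃ₐ[ℚ] AlgebraicClosure ℚ) V] :
    IntermediateField ℚ (AlgebraicClosure ℚ) :=
  IntermediateField.fixedField (kerAction V)

theorem fixingSubgroup_cutField
    (hopen : IsOpen {σ : AlgebraicClosure ℚ ≃ₐ[ℚ] AlgebraicClosure ℚ | ∀ v : V, σ • v = v}) :
    (cutField V).fixingSubgroup = kerAction V := by
  have hHopen : IsOpen ((kerAction V : Subgroup _) :
      Set (AlgebraicClosure ℚ ≃ₐ[ℚ] AlgebraicClosure ℚ)) := hopen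
  have hHclosed : IsClosed ((kerAction V : Subgroup _) :
      Set (AlgebraicClosure ℚ ≃ₐ[ℚ] AlgebraicClosure ℚ)) :=
    Subgroup.isClosed_of_isOpen _ hHopen
  exact InfiniteGalois.fixingSubgroup_fixedField ⟨kerAction V, hHclosed⟩

theorem finiteDimensional_cutField
    (hopen : IsOpen {σ : AlgebraicClosure ℚ ≃ₐ[ℚ] AlgebraicClosure ℚ | ∀ v : V, σ • v = v}) :
    FiniteDimensional ℚ (cutField V) := by
  rw [← InfiniteGalois.isOpen_iff_finite, fixingSubgroup_cutField hopen]
  exact hopen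

theorem isGalois_cutField
    (hopen : IsOpen {σ : AlgebraicClosure ℚ ≃ₐ[ℚ] AlgebraicClosure ℚ | ∀ v : V, σ • v = v}) :
    IsGalois ℚ (cutField V) := by
  exact (InfiniteGalois.normal_iff_isGalois (cutField V)).mp
    (by rw [fixingSubgroup_cutField hopen]; exact kerAction_normal)

/-- (T2) Two automorphisms that agree on the cut-out field act identically on `V`. -/
theorem smul_eq_of_agree
    (hopen : IsOpen {σ : AlgebraicClosure ℚ ≃ₐ[ℚ] AlgebraicClosure ℚ | ∀ v : V, σ • v = v})
    {s s' : AlgebraicClosure ℚ ≃ₐ[ℚ] AlgebraicClosure ℚ}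
    (h : ∀ x : cutField V, s (x : AlgebraicClosure ℚ) = s' (x : AlgebraicClosure ℚ)) (v : V) :
    s • v = s' • v := by
  have hmem : s'⁻¹ * s ∈ (cutField V).fixingSubgroup := by
    rw [IntermediateField.mem_fixingSubgroup_iff]
    intro x hx
    rw [AlgEquiv.mul_apply, h ⟨x, hx⟩]
    show s'⁻¹ (s' x) = x
    rw [← AlgEquiv.mul_apply, inv_mul_cancel, AlgEquiv.one_apply]
  rw [fixingSubgroup_cutField hopen] at hmem
  have := hmem v
  rw [mul_smul] at this
  calc s • v = s' • (s'⁻¹ • (s • v)) := (smul_inv_smul s' _).symm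
    _ = s' • v := by rw [this]

/-- (T3) An automorphism acting trivially on `V` fixes the cut-out field. -/
theorem apply_eq_of_trivial {s : AlgebraicClosure ℚ ≃ₐ[ℚ] AlgebraicClosure ℚ}
    (h : ∀ v : V, s • v = v) (x : cutField V) :
    s (x : AlgebraicClosure ℚ) = x := by
  have hx : (x : AlgebraicClosure ℚ) ∈ IntermediateField.fixedField (kerAction V) := x.2
  rw [IntermediateField.mem_fixedField_iff] at hx
  exact hx s h

theorem pow_smul_eq (hadm : IsAdmissibleExtension p V C)
    {t' : AlgebraicClosure ℚ ≃ₐ[ℚ] AlgebraicClosure ℚ} (ht' : (chi t' : ZMod p) = 1)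
    (k : ℕ) (v : V) : (t' ^ k) • v = v + (k : ZMod p) • (t' • v - v) := by
  induction k with
  | zero => simp
  | succ k ih =>
    have hβ : t' • v - v ∈ C := sub_mem_of_chi_one hadm ht' v
    have hfix : (t' ^ k) • (t' • v - v) = t' • v - v := hadm.fixed_sub _ _ hβ
    have h1 : t' • v = v + (t' • v - v) := by abel
    rw [pow_succ, mul_smul]
    nth_rewrite 1 [h1]
    rw [smul_add, ih, hfix]
    push_cast
    rw [add_smul, one_smul]
    abel

theorem conj_smul_eq (hadm : IsAdmissibleExtension p V C)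
    {s' t' : AlgebraicClosure ℚ ≃ₐ[ℚ] AlgebraicClosure ℚ} (ht' : (chi t' : ZMod p) = 1)
    {k : ℕ} (hk : (chi s' : ZMod p) * (k : ZMod p) = 1) (v : V) :
    (s' * t' * s'⁻¹) • v = (t' ^ k) • v := by
  rw [pow_smul_eq hadm ht' k v]
  have hke : (k : ZMod p) = chi s'⁻¹ := by
    rw [chi_inv]
    exact eq_inv_of_mul_eq_one_right hk
  set v' := s'⁻¹ • v with hv'
  have hc3 : v' - (chi s'⁻¹ : ZMod p) • v ∈ C := quot_mem hadm s'⁻¹ v
  set c₃ := v' - (chi s'⁻¹ : ZMod p) • v with hc₃
  have hv'eq : v' = (chi s'⁻¹ : ZMod p) • v + c₃ := by rw [hc₃]; abel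
  have hβ' : t' • v' - v' ∈ C := sub_mem_of_chi_one hadm ht' v'
  have hsv' : s' • v' = v := by rw [hv', smul_inv_smul]
  have h1 : (s' * t' * s'⁻¹) • v = v + (t' • v' - v') := by
    rw [mul_smul, mul_smul, ← hv']
    have h2 : t' • v' = v' + (t' • v' - v') := by abel
    rw [h2, smul_add, hsv', hadm.fixed_sub s' _ hβ']
    congr 1
    abel
  have h3 : t' • v' - v' = (chi s'⁻¹ : ZMod p) • (t' • v - v) := by
    have h4 : t' • c₃ = c₃ := hadm.fixed_sub t' _ hc3
    rw [hv'eq, smul_add, h4, smul_comm, smul_sub]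
    abel
  rw [h1, h3, hke]

/-- **Nontrivial case**: an admissible extension on which some element with trivial cyclotomic
character acts nontrivially produces the number-field configuration (NF). -/
theorem false_of_nontrivial
    (hNF : ∀ (K L : Type) [Field K] [Field L] [NumberField K] [NumberField L] [Algebra K L]
      [IsCyclotomicExtension {p} ℚ K] [IsGalois ℚ L] [IsGalois K L],
      Module.finrank K L = p →
      (∀ (w : IsDedekindDomain.HeightOneSpectrum (𝓞 L)) (t : L ≃ₐ[K] L),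
        (∀ x : 𝓞 L, ∃ y ∈ w.asIdeal, t (x : L) - (x : L) = (y : L)) → t = 1) →
      ∀ (ζ : K), IsPrimitiveRoot ζ p →
      (∀ (s : L ≃ₐ[ℚ] L) (t : L ≃ₐ[K] L) (k : ℕ),
        s (algebraMap K L ζ) ^ k = algebraMap K L ζ →
        ∀ x : L, s (t (s.symm x)) = (t ^ k) x) →
      False)
    (hadm : IsAdmissibleExtensionCts p V C)
    (σ₀ : AlgebraicClosure ℚ ≃ₐ[ℚ] AlgebraicClosure ℚ) (hσ₀ : (chi σ₀ : ZMod p) = 1)
    (v₀ : V) (hv₀ : σ₀ • v₀ ≠ v₀) : False := by
  classical
  have hp : p.Prime := Fact.out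
  haveI : NeZero p := ⟨hp.ne_zero⟩
  have hadm' : IsAdmissibleExtension p V C := hadm.toIsAdmissibleExtension
  have hopen := hadm.open_kernel
  obtain ⟨x₀, hx₀⟩ := exists_notMem hadm'
  haveI hfin : FiniteDimensional ℚ (cutField V) := finiteDimensional_cutField hopen
  haveI hgal : IsGalois ℚ (cutField V) := isGalois_cutField hopen
  haveI hnf : NumberField (cutField V) := ⟨⟩
  -- a primitive `p`-th root of unity, inside the cut-out field
  haveI : NeZero ((p : ℕ) : AlgebraicClosure ℚ) := ⟨Nat.cast_ne_zero.mpr hp.ne_zero⟩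
  obtain ⟨ζ', hζ'⟩ := HasEnoughRootsOfUnity.exists_primitiveRoot (AlgebraicClosure ℚ) p
  have hζ'L : ζ' ∈ cutField V := by
    show ζ' ∈ IntermediateField.fixedField (kerAction V)
    rw [IntermediateField.mem_fixedField_iff]
    intro σ hσ
    exact apply_root_of_chi_one hζ'.pow_eq_one (chi_one_of_trivial hadm' hσ)
  let ζ₀ : cutField V := ⟨ζ', hζ'L⟩
  have hζ₀ : IsPrimitiveRoot ζ₀ p :=
    IsPrimitiveRoot.of_map_of_injective (f := algebraMap (cutField V) (AlgebraicClosure ℚ))
      hζ' (algebraMap (cutField V) (AlgebraicClosure ℚ)).injective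
  let K : IntermediateField ℚ (cutField V) := IntermediateField.adjoin ℚ {ζ₀}
  have hζ₀K : ζ₀ ∈ K := IntermediateField.mem_adjoin_simple_self ℚ ζ₀
  let ζK : K := ⟨ζ₀, hζ₀K⟩
  have hζK : IsPrimitiveRoot ζK p :=
    IsPrimitiveRoot.of_map_of_injective (f := algebraMap K (cutField V))
      hζ₀ (algebraMap K (cutField V)).injective
  haveI hcyc : IsCyclotomicExtension {p} ℚ K :=
    IsPrimitiveRoot.intermediateField_adjoin_isCyclotomicExtension ℚ hζ₀
  haveI hnfK : NumberField K := ⟨⟩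
  -- every `K`-automorphism lifts to an element with trivial cyclotomic character
  have hliftK : ∀ t : cutField V ≃ₐ[K] cutField V,
      ∃ s : AlgebraicClosure ℚ ≃ₐ[ℚ] AlgebraicClosure ℚ,
        (∀ x : cutField V, s (x : AlgebraicClosure ℚ) =
          ((t x : cutField V) : AlgebraicClosure ℚ)) ∧ (chi s : ZMod p) = 1 := by
    intro t
    obtain ⟨s, hs⟩ := exists_lift (cutField V) (t.restrictScalars ℚ)
    refine ⟨s, hs, chi_eq_one_of_fix hζ' ?_⟩
    have h1 : s ζ' = (((t.restrictScalars ℚ) ζ₀ : cutField V) : AlgebraicClosure ℚ) := hs ζ₀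
    have h2 : t ζ₀ = ζ₀ := t.commutes ζK
    rw [h1]
    show ((t ζ₀ : cutField V) : AlgebraicClosure ℚ) = ζ'
    rw [h2]
  refine hNF K (cutField V) ?finrank ?unram ζK hζK ?conj
  case finrank =>
    rw [← IsGalois.card_aut_eq_finrank K (cutField V)]
    choose lift hlift hliftchi using hliftK
    have hβmem : ∀ t, lift t • x₀ - x₀ ∈ C := fun t => sub_mem_of_chi_one hadm' (hliftchi t) x₀
    let Φ : (cutField V ≃ₐ[K] cutField V) →* Multiplicative C :=
      MonoidHom.mk' (fun t => Multiplicative.ofAdd (⟨lift t • x₀ - x₀, hβmem t⟩ : C)) (by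
        intro t u
        have hagree : ∀ x : cutField V, lift (t * u) (x : AlgebraicClosure ℚ) =
            (lift t * lift u) (x : AlgebraicClosure ℚ) := by
          intro x
          rw [hlift (t * u) x, AlgEquiv.mul_apply (lift t) (lift u), hlift u x, hlift t (u x)]
          rfl
        have h1 := smul_eq_of_agree hopen hagree x₀
        have h2 : lift t • (lift u • x₀ - x₀) = lift u • x₀ - x₀ :=
          hadm'.fixed_sub _ _ (hβmem u)
        rw [← ofAdd_add]
        congr 1
        apply Subtype.ext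
        show lift (t * u) • x₀ - x₀ = (lift t • x₀ - x₀) + (lift u • x₀ - x₀)
        rw [h1, mul_smul]
        rw [smul_sub] at h2
        have h3 : lift t • lift u • x₀ = lift u • x₀ - x₀ + lift t • x₀ := by
          rw [← h2]; abel
        rw [h3]
        abel)
    have hΦ : ∀ t, Φ t = Multiplicative.ofAdd (⟨lift t • x₀ - x₀, hβmem t⟩ : C) := fun t => rfl
    have hΦinj : Function.Injective Φ := by
      rw [injective_iff_map_eq_one]
      intro t ht
      have h0 : lift t • x₀ = x₀ := by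
        rw [hΦ] at ht
        have h1 : (⟨lift t • x₀ - x₀, hβmem t⟩ : C) = 0 := ht
        have h2 := congrArg (fun c : C => (c : V)) h1
        exact sub_eq_zero.mp h2
      have htriv := trivial_of_fix hadm' hx₀ h0
      ext x
      have h1 := apply_eq_of_trivial htriv x
      rw [hlift] at h1
      exact h1
    have hdvd := Subgroup.card_dvd_of_injective Φ hΦinj
    have hcardC : Nat.card (Multiplicative C) = p := hadm'.card_sub
    rw [hcardC] at hdvd
    rcases (Nat.dvd_prime hp).mp hdvd with h1 | h1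
    · exfalso
      -- the restriction of `σ₀` is a nontrivial element
      let u₀ : cutField V ≃ₐ[ℚ] cutField V := AlgEquiv.restrictNormal σ₀ (cutField V)
      have hu₀ : ∀ x : cutField V, ((u₀ x : cutField V) : AlgebraicClosure ℚ) =
          σ₀ (x : AlgebraicClosure ℚ) := fun x => AlgEquiv.restrictNormal_commutes σ₀ (cutField V) x
      have hu₀ζ : u₀ ζ₀ = ζ₀ := by
        apply Subtype.ext
        rw [hu₀]
        exact apply_root_of_chi_one hζ'.pow_eq_one hσ₀
      have hu₀K : ∀ y ∈ K, u₀ y = y := by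
        have h := (IntermediateField.forall_mem_adjoin_smul_eq_self_iff ℚ (S := {ζ₀}) u₀).mpr
          (by
            intro y hy
            rw [Set.mem_singleton_iff] at hy
            rw [hy]
            exact hu₀ζ)
        exact h
      let t₀ : cutField V ≃ₐ[K] cutField V :=
        { u₀.toRingEquiv with commutes' := fun k => hu₀K k.1 k.2 }
      have ht₀ : ∀ x, t₀ x = u₀ x := fun x => rfl
      obtain ⟨hsub, _⟩ := Nat.card_eq_one_iff_unique.mp h1
      have h2 : t₀ = 1 := Subsingleton.elim _ _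
      apply hv₀
      have hagree : ∀ x : cutField V, σ₀ (x : AlgebraicClosure ℚ) =
          (1 : AlgebraicClosure ℚ ≃ₐ[ℚ] AlgebraicClosure ℚ) (x : AlgebraicClosure ℚ) := by
        intro x
        rw [← hu₀, ← ht₀, h2]
        rfl
      have h3 := smul_eq_of_agree hopen hagree v₀
      rw [one_smul] at h3
      exact h3
    · exact h1
  case unram =>
    intro w t ht
    obtain ⟨ℓ, hℓ, A, s, hA, hsA, hsL⟩ :=
      CLift.exists_inertia_lift (cutField V) w (t.restrictScalars ℚ) ht
    have hschi : (chi s : ZMod p) = 1 := by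
      refine chi_eq_one_of_fix hζ' ?_
      have h1 : s ζ' = (((t.restrictScalars ℚ) ζ₀ : cutField V) : AlgebraicClosure ℚ) := hsL ζ₀
      have h2 : t ζ₀ = ζ₀ := t.commutes ζK
      rw [h1]
      show ((t ζ₀ : cutField V) : AlgebraicClosure ℚ) = ζ'
      rw [h2]
    have hstriv : ∀ v : V, s • v = v := by
      by_cases hℓp : ℓ = p
      · rw [hℓp] at hA
        obtain ⟨C', hC'stab, hC'compl⟩ := hadm'.locally_split A hA
        have hsD : s ∈ A.decompositionSubgroup ℚ := by
          obtain ⟨d, _, hd⟩ := Subgroup.mem_map.1 hsA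
          rw [← hd]
          exact d.2
        intro v
        have hv : v ∈ C ⊔ C' := by rw [hC'compl.sup_eq_top]; trivial
        obtain ⟨c, hc, c', hc', rfl⟩ := Submodule.mem_sup.1 hv
        rw [smul_add, hadm'.fixed_sub s c hc]
        congr 1
        have h1 : s • c' - c' ∈ C := sub_mem_of_chi_one hadm' hschi c'
        have h2 : s • c' - c' ∈ C' := C'.sub_mem (hC'stab s hsD c' hc') hc'
        have h3 : s • c' - c' ∈ C ⊓ C' := ⟨h1, h2⟩
        rw [hC'compl.inf_eq_bot, Submodule.mem_bot] at h3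
        exact sub_eq_zero.mp h3
      · exact hadm'.unramified_outside ℓ hℓ hℓp A hA s hsA
    ext x
    have h1 := apply_eq_of_trivial hstriv x
    rw [hsL] at h1
    exact h1
  case conj =>
    intro s t k hk x
    obtain ⟨s', hs'⟩ := exists_lift (cutField V) s
    obtain ⟨t', ht', ht'chi⟩ := hliftK t
    have hchik : (chi s' : ZMod p) * (k : ZMod p) = 1 := by
      apply chi_mul_eq_one_of_pow hζ'
      have h1 : s' ζ' = ((s ζ₀ : cutField V) : AlgebraicClosure ℚ) := hs' ζ₀
      have h2 : (s ζ₀) ^ k = ζ₀ := hk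
      rw [h1]
      have h3 := congrArg (fun z : cutField V => (z : AlgebraicClosure ℚ)) h2
      simpa using h3
    have hact : ∀ v : V, (s' * t' * s'⁻¹) • v = (t' ^ k) • v :=
      fun v => conj_smul_eq hadm' ht'chi hchik v
    have hagree : ∀ y : cutField V, (s' * t' * s'⁻¹) (y : AlgebraicClosure ℚ) =
        (t' ^ k) (y : AlgebraicClosure ℚ) := by
      intro y
      have htriv : ∀ v : V, ((t' ^ k)⁻¹ * (s' * t' * s'⁻¹)) • v = v := by
        intro v
        rw [mul_smul, hact, inv_smul_smul]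
      have h1 := apply_eq_of_trivial htriv y
      rw [AlgEquiv.mul_apply] at h1
      have h2 := congrArg (t' ^ k) h1
      rw [← AlgEquiv.mul_apply (t' ^ k) ((t' ^ k)⁻¹), mul_inv_cancel, AlgEquiv.one_apply] at h2
      exact h2
    have hL : ((s (t (s.symm x)) : cutField V) : AlgebraicClosure ℚ) =
        (s' * t' * s'⁻¹) (x : AlgebraicClosure ℚ) := by
      rw [AlgEquiv.mul_apply, AlgEquiv.mul_apply]
      have h1 : s'⁻¹ (x : AlgebraicClosure ℚ) = ((s.symm x : cutField V) : AlgebraicClosure ℚ) := by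
        have h2 := hs' (s.symm x)
        rw [AlgEquiv.apply_symm_apply] at h2
        rw [← h2, ← AlgEquiv.mul_apply, inv_mul_cancel, AlgEquiv.one_apply]
      rw [h1, ht', hs']
    have hR : ∀ (k : ℕ) (x : cutField V), (((t ^ k) x : cutField V) : AlgebraicClosure ℚ) =
        (t' ^ k) (x : AlgebraicClosure ℚ) := by
      intro k
      induction k with
      | zero => intro x; simp
      | succ k ih =>
        intro x
        rw [pow_succ, pow_succ, AlgEquiv.mul_apply, AlgEquiv.mul_apply, ih, ht']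
    apply Subtype.ext
    rw [hL, hR, hagree]

end Main

/-- **Part C**: the number-field statement (NF) implies `ExtVanishingCts p`. -/
theorem extVanishingCts_of_NF
    (hNF : ∀ (K L : Type) [Field K] [Field L] [NumberField K] [NumberField L] [Algebra K L]
      [IsCyclotomicExtension {p} ℚ K] [IsGalois ℚ L] [IsGalois K L],
      Module.finrank K L = p →
      (∀ (w : IsDedekindDomain.HeightOneSpectrum (𝓞 L)) (t : L ≃ₐ[K] L),
        (∀ x : 𝓞 L, ∃ y ∈ w.asIdeal, t (x : L) - (x : L) = (y : L)) → t = 1) →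
      ∀ (ζ : K), IsPrimitiveRoot ζ p →
      (∀ (s : L ≃ₐ[ℚ] L) (t : L ≃ₐ[K] L) (k : ℕ),
        s (algebraMap K L ζ) ^ k = algebraMap K L ζ →
        ∀ x : L, s (t (s.symm x)) = (t ^ k) x) →
      False) :
    ExtCitation.ExtVanishingCts p := by
  intro V _ _ _ _ C hadm
  by_cases h : ∀ σ : AlgebraicClosure ℚ ≃ₐ[ℚ] AlgebraicClosure ℚ,
      (chi σ : ZMod p) = 1 → ∀ v : V, σ • v = v
  · exact splits_of_trivial hadm.toIsAdmissibleExtension h
  · exfalso
    push Not at h
    obtain ⟨σ₀, hσ₀, v₀, hv₀⟩ := h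
    exact false_of_nontrivial hNF hadm σ₀ hσ₀ v₀ hv₀

end

end Fermat.Agent.S14x.C
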