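import Mathlib

set_option autoImplicit false
set_option linter.style.haveILetI false

open NumberField IsDedekindDomain

namespace Fermat.Agent.S14x.Jacobi

open scoped Pointwise

section finiteField

variable {k : Type*} [Field k] [Fintype k]

/-- `∑_{x ∈ k} x^a (1-x)^a = 0` when `2a < |k| - 1`. -/
theorem sum_pow_mul_one_sub_pow (a : ℕ) (h : 2 * a < Fintype.card k - 1) :
    ∑ x : k, x ^ a * (1 - x) ^ a = 0 := by
  have key : ∀ x : k, x ^ a * (1 - x) ^ a =
      ∑ j ∈ Finset.range (a + 1), ((-1 : k) ^ j * (a.choose j : k)) * x ^ (a + j) := by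
    intro x
    have h1 : (1 - x) ^ a = ∑ j ∈ Finset.range (a + 1), (-x) ^ j * 1 ^ (a - j) * (a.choose j : k) := by
      rw [← add_pow]; ring
    rw [h1, Finset.mul_sum]
    refine Finset.sum_congr rfl fun j _ => ?_
    rw [neg_pow x j]; ring
  simp_rw [key]
  rw [Finset.sum_comm]
  refine Finset.sum_eq_zero fun j hj => ?_
  rw [← Finset.mul_sum, FiniteField.sum_pow_lt_card_sub_one, mul_zero]
  have := Finset.mem_range.mp hj
  omega

end finiteField

section character

variable {R : Type*} [CommRing R] {k : Type*} [Field k] [Fintype k] [DecidableEq k]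

/-- A multiplicative character `χ : k → R` of order `p` lifting `x ↦ x^m`, `m = (|k|-1)/p`. -/
theorem exists_mulChar_lift (π : R →+* k) (p : ℕ) [hp : Fact p.Prime] (ζ : R) (hζp : ζ ^ p = 1)
    (hζ : IsPrimitiveRoot (π ζ) p) :
    ∃ (m : ℕ) (χ : MulChar k R), 0 < m ∧ p * m = Fintype.card k - 1 ∧
      (∀ x : k, π (χ x) = x ^ m) ∧ (∀ x : k, x ≠ 0 → ∃ j : ℕ, χ x = ζ ^ j) ∧ orderOf χ = p := by
  have hp0 : 0 < p := hp.out.pos
  have hp2 : 2 ≤ p := hp.out.two_le
  -- p ∣ |k| - 1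
  have hdvd : p ∣ Fintype.card k - 1 := by
    apply hζ.dvd_of_pow_eq_one
    have hne : π ζ ≠ 0 := hζ.ne_zero hp0.ne'
    exact FiniteField.pow_card_sub_one_eq_one _ hne
  obtain ⟨m, hm⟩ := hdvd
  have hcard2 : 2 ≤ Fintype.card k := Fintype.one_lt_card
  have hm0 : 0 < m := by
    rcases Nat.eq_zero_or_pos m with h | h
    · subst h
      have hk1 : Fintype.card k = 1 := by omega
      omega
    · exact h
  -- generator
  obtain ⟨g, hg⟩ := IsCyclic.exists_generator (α := kˣ)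
  have hgord : orderOf g = Fintype.card k - 1 := by
    rw [orderOf_eq_card_of_forall_mem_zpowers hg, Nat.card_eq_fintype_card, Fintype.card_units]
  have hgm : ((g : k) ^ m) ^ p = 1 := by
    rw [← pow_mul, mul_comm, ← hm]
    exact FiniteField.pow_card_sub_one_eq_one _ g.ne_zero
  obtain ⟨i, -, hi⟩ := hζ.eq_pow_of_pow_eq_one hgm
  -- the unit ξ = ζ^i
  have hζu : IsUnit ζ := IsUnit.of_pow_eq_one hζp hp0.ne'
  let ξ : Rˣ := hζu.unit ^ i
  have hξval : (ξ : R) = ζ ^ i := by simp [ξ]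
  have hξ : ξ ∈ rootsOfUnity (Fintype.card kˣ) R := by
    rw [mem_rootsOfUnity, Fintype.card_units, hm, Units.ext_iff]
    push_cast
    rw [hξval, ← pow_mul, mul_comm, mul_assoc, pow_mul, hζp, one_pow]
  let χ : MulChar k R := MulChar.ofRootOfUnity hξ hg
  have hχg : χ g = ξ := MulChar.ofRootOfUnity_spec hξ hg
  -- values on units
  have hunit : ∀ u : kˣ, ∃ n : ℕ, χ u = ζ ^ (i * n) ∧ (u : k) = (g : k) ^ n := by
    intro u
    obtain ⟨n, hn⟩ : ∃ n : ℕ, g ^ n = u := by
      have := hg u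
      rw [Subgroup.mem_zpowers_iff] at this
      obtain ⟨z, hz⟩ := this
      refine ⟨(z % (orderOf g : ℤ)).toNat, ?_⟩
      have hpos : (0 : ℤ) < orderOf g := by
        have := orderOf_pos g; exact_mod_cast this
      rw [← zpow_natCast, Int.toNat_of_nonneg (Int.emod_nonneg _ hpos.ne'), zpow_mod_orderOf, hz]
    refine ⟨n, ?_, ?_⟩
    · rw [← hn]
      push_cast
      rw [map_pow, hχg, hξval, pow_mul]
    · rw [← hn]; simp
  refine ⟨m, χ, hm0, hm.symm, ?_, ?_, ?_⟩
  · intro x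
    by_cases hx : x = 0
    · subst hx
      rw [MulChar.map_zero, map_zero, zero_pow hm0.ne']
    · obtain ⟨n, hn1, hn2⟩ := hunit (Units.mk0 x hx)
      simp only [Units.val_mk0] at hn1 hn2
      rw [hn1, map_pow, pow_mul, hi, hn2, ← pow_mul, ← pow_mul, mul_comm]
  · intro x hx
    obtain ⟨n, hn1, -⟩ := hunit (Units.mk0 x hx)
    exact ⟨i * n, by simpa using hn1⟩
  · apply orderOf_eq_prime
    · ext u
      obtain ⟨n, hn1, -⟩ := hunit u
      rw [MulChar.pow_apply_coe, hn1, MulChar.one_apply_coe, ← pow_mul, mul_comm, pow_mul, hζp, one_pow]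
    · intro h1
      have h2 : χ g = 1 := by rw [h1, MulChar.one_apply_coe]
      have h3 : π (χ g) = 1 := by rw [h2, map_one]
      rw [hχg, hξval, map_pow, hi] at h3
      have h4 : g ^ m = 1 := by
        apply Units.ext; simpa using h3
      have h5 := orderOf_dvd_of_pow_eq_one h4
      rw [hgord, hm] at h5
      have h6 := Nat.le_of_dvd hm0 h5
      nlinarith

end character

section main

variable (p : ℕ) [hp : Fact p.Prime] (K : Type) [Field K] [NumberField K]
  [hK : IsCyclotomicExtension {p} ℚ K]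

include hK in
/-- A rational prime `q ≠ p` is unramified in the `p`-th cyclotomic field. -/
theorem natCast_not_mem_sq (q : ℕ) (hq : q.Prime) (hqp : q ≠ p)
    (w : HeightOneSpectrum (𝓞 K)) (hw : (q : 𝓞 K) ∈ w.asIdeal) :
    (q : 𝓞 K) ∉ w.asIdeal ^ 2 := by
  haveI : Fact q.Prime := ⟨hq⟩
  haveI : NeZero p := ⟨hp.out.ne_zero⟩
  haveI hprime : w.asIdeal.IsPrime := w.isPrime
  have hqZ : (Ideal.span {(q : ℤ)}).IsMaximal :=
    Ideal.IsPrime.isMaximal ((Ideal.span_singleton_prime (by exact_mod_cast hq.ne_zero)).mpr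
      (Nat.prime_iff_prime_int.mp hq)) (by simpa using hq.ne_zero)
  have hle : Ideal.span {(q : ℤ)} ≤ w.asIdeal.under ℤ := by
    rw [Ideal.span_singleton_le_iff_mem, Ideal.under_def, Ideal.mem_comap]
    simpa using hw
  have hne : w.asIdeal.under ℤ ≠ ⊤ := by
    intro h
    have : (1 : ℤ) ∈ w.asIdeal.under ℤ := h ▸ Submodule.mem_top
    rw [Ideal.under_def, Ideal.mem_comap, map_one] at this
    exact hprime.ne_top ((Ideal.eq_top_iff_one _).mpr this)
  haveI hlies : w.asIdeal.LiesOver (Ideal.span {(q : ℤ)}) :=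
    ⟨(hqZ.eq_of_le hne hle)⟩
  have he := IsCyclotomicExtension.Rat.ramificationIdx_eq_of_not_dvd (m := p) q K w.asIdeal
    (fun h => hqp ((Nat.prime_dvd_prime_iff_eq hq hp.out).mp h))
  have hq0 : (Ideal.span {(q : ℤ)}) ≠ ⊥ := by
    simpa using hq.ne_zero
  rw [← Ideal.ramificationIdx'_eq_ramificationIdx (Ideal.span {(q : ℤ)}) w.asIdeal hq0] at he
  have hmap : Ideal.map (algebraMap ℤ (𝓞 K)) (Ideal.span {(q : ℤ)}) = Ideal.span {(q : 𝓞 K)} := by
    rw [Ideal.map_span, Set.image_singleton]; simp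
  have hmle : Ideal.map (algebraMap ℤ (𝓞 K)) (Ideal.span {(q : ℤ)}) ≤ w.asIdeal := by
    rw [hmap, Ideal.span_singleton_le_iff_mem]; exact hw
  intro h2
  have := (Ideal.ramificationIdx'_ne_one_iff hmle).mpr (by
    rw [hmap, Ideal.span_singleton_le_iff_mem]; exact h2)
  exact this he

include hK in
/-- **Jacobi sum** (B6).  For a prime `v` of `ℚ(ζ_p)` of prime absolute norm `q ≠ p` there is
`J ∈ 𝓞 K` whose prime factorisation is `∏_{t < p/2} σ_t⁻¹ v`. -/
theorem exists_jacobi (h3 : 3 ≤ p) (ζ : K) (hζ : IsPrimitiveRoot ζ p)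
    (v : HeightOneSpectrum (𝓞 K)) (hq : (Ideal.absNorm v.asIdeal).Prime)
    (hqp : Ideal.absNorm v.asIdeal ≠ p) :
    ∃ J : 𝓞 K, J ≠ 0 ∧
      (∀ w : HeightOneSpectrum (𝓞 K), J ∉ w.asIdeal ^ 2) ∧
      (∀ (δ : K ≃ₐ[ℚ] K) (t : ℕ), 0 < t → t < p → δ ζ = ζ ^ t →
        (δ • J ∈ v.asIdeal ↔ 2 * t < p)) ∧
      (∀ w : HeightOneSpectrum (𝓞 K), J ∈ w.asIdeal →
        ∃ δ : K ≃ₐ[ℚ] K, w.asIdeal = δ • v.asIdeal) ∧
      (∀ δ : K ≃ₐ[ℚ] K, δ • v.asIdeal = v.asIdeal → δ = 1) := by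
  classical
  set q := Ideal.absNorm v.asIdeal with hqdef
  have hp0 : 0 < p := hp.out.pos
  haveI : NeZero p := ⟨hp0.ne'⟩
  haveI hmax : v.asIdeal.IsMaximal := v.isMaximal
  letI : Field (𝓞 K ⧸ v.asIdeal) := Ideal.Quotient.field v.asIdeal
  haveI : Finite (𝓞 K ⧸ v.asIdeal) := Ideal.finiteQuotientOfFreeOfNeBot v.asIdeal v.ne_bot
  letI : Fintype (𝓞 K ⧸ v.asIdeal) := Fintype.ofFinite _
  have hcard : Fintype.card (𝓞 K ⧸ v.asIdeal) = q := by
    rw [← Nat.card_eq_fintype_card, hqdef, Ideal.absNorm_apply]; rfl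
  let π : 𝓞 K →+* (𝓞 K ⧸ v.asIdeal) := Ideal.Quotient.mk v.asIdeal
  let ζO : 𝓞 K := hζ.toInteger
  have hζO : IsPrimitiveRoot ζO p := hζ.toInteger_isPrimitiveRoot
  have hζOp : ζO ^ p = 1 := hζO.pow_eq_one
  have hcop : q.Coprime p := (Nat.coprime_primes hq hp.out).mpr hqp
  have hπζ : IsPrimitiveRoot (π ζO) p := hζO.idealQuotient_mk hq.one_lt.ne' hcop
  obtain ⟨m, χ, hm0, hpm, hχπ, hχval, hχord⟩ := exists_mulChar_lift π p ζO hζOp hπζ
  rw [hcard] at hpm
  have hq2 : 2 ≤ q := hq.two_le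
  -- the natural number q lies in v
  have hqv : (q : 𝓞 K) ∈ v.asIdeal := by
    rw [← Ideal.Quotient.eq_zero_iff_mem, map_natCast, ← hcard]
    exact Nat.cast_card_eq_zero _
  have hunr := natCast_not_mem_sq p K q hq hqp
  have hpodd : ¬ 2 ∣ p := by
    intro h2
    have := (Nat.prime_dvd_prime_iff_eq Nat.prime_two hp.out).mp h2
    omega
  -- (a) vanishing mod v
  have hJmem : ∀ s : ℕ, 0 < s → 2 * s < p → jacobiSum (χ ^ s) (χ ^ s) ∈ v.asIdeal := by
    intro s hs0 hs
    rw [← Ideal.Quotient.eq_zero_iff_mem]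
    show π (jacobiSum (χ ^ s) (χ ^ s)) = 0
    rw [jacobiSum, map_sum]
    have key : ∀ x : 𝓞 K ⧸ v.asIdeal,
        π ((χ ^ s) x * (χ ^ s) (1 - x)) = x ^ (m * s) * (1 - x) ^ (m * s) := by
      intro x
      rw [map_mul, MulChar.pow_apply' χ hs0.ne', MulChar.pow_apply' χ hs0.ne', map_pow, map_pow,
        hχπ, hχπ, ← pow_mul, ← pow_mul]
    simp_rw [key]
    apply sum_pow_mul_one_sub_pow
    rw [hcard, ← hpm]
    nlinarith
  -- (b) J_s * J_{p-s} = q
  have hJmul : ∀ s : ℕ, 0 < s → s < p →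
      jacobiSum (χ ^ s) (χ ^ s) * jacobiSum (χ ^ (p - s)) (χ ^ (p - s)) = (q : 𝓞 K) := by
    intro s hs0 hsp
    let f : 𝓞 K →+* K := algebraMap (𝓞 K) K
    have hf : Function.Injective f := RingOfIntegers.coe_injective
    apply hf
    have h1 : (χ ^ s).ringHomComp f ≠ 1 := by
      intro h
      rw [MulChar.ringHomComp_eq_one_iff hf] at h
      have h' := orderOf_dvd_of_pow_eq_one h
      rw [hχord] at h'
      exact absurd (Nat.le_of_dvd hs0 h') (not_le.mpr hsp)
    have h2 : (χ ^ s).ringHomComp f * (χ ^ s).ringHomComp f ≠ 1 := by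
      intro h
      rw [← MulChar.ringHomComp_mul, MulChar.ringHomComp_eq_one_iff hf, ← pow_add] at h
      have h' := orderOf_dvd_of_pow_eq_one h
      rw [hχord, ← two_mul] at h'
      have hps : p ∣ s :=
        (Nat.Coprime.dvd_of_dvd_mul_left ((Nat.Prime.coprime_iff_not_dvd hp.out).mpr (by
          intro h2
          have := (Nat.prime_dvd_prime_iff_eq hp.out Nat.prime_two).mp h2
          omega)) h')
      exact absurd (Nat.le_of_dvd hs0 hps) (not_le.mpr hsp)
    have hinv : ((χ ^ s).ringHomComp f)⁻¹ = (χ ^ (p - s)).ringHomComp f := by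
      rw [MulChar.ringHomComp_inv]
      congr 1
      apply inv_eq_of_mul_eq_one_right
      rw [← pow_add, Nat.add_sub_cancel' hsp.le, ← hχord, pow_orderOf_eq_one]
    have hchar : ringChar K ≠ ringChar (𝓞 K ⧸ v.asIdeal) := by
      rw [ringChar.eq_zero]
      exact (CharP.ringChar_ne_zero_of_finite _).symm
    have key := jacobiSum_mul_jacobiSum_inv hchar h1 h1 h2
    rw [hinv, jacobiSum_ringHomComp, jacobiSum_ringHomComp, hcard] at key
    rw [map_mul, map_natCast]
    exact key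
  -- (c) Galois action
  have hgal : ∀ (δ : K ≃ₐ[ℚ] K) (t : ℕ), δ ζ = ζ ^ t →
      δ • jacobiSum χ χ = jacobiSum (χ ^ t) (χ ^ t) := by
    intro δ t hδ
    let f : 𝓞 K →+* 𝓞 K := MulSemiringAction.toRingHom (K ≃ₐ[ℚ] K) (𝓞 K) δ
    have hfζ : f ζO = ζO ^ t := by
      apply RingOfIntegers.coe_injective
      show δ (ζO : K) = ((ζO ^ t : 𝓞 K) : K)
      push_cast
      rw [show ((ζO : 𝓞 K) : K) = ζ from hζ.coe_toInteger]
      exact hδ
    have hcomp : χ.ringHomComp f = χ ^ t := by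
      ext u
      rw [MulChar.ringHomComp_apply, MulChar.pow_apply_coe]
      obtain ⟨j, hj⟩ := hχval u u.ne_zero
      rw [hj, map_pow, hfζ, ← pow_mul, ← pow_mul, mul_comm]
    have h := jacobiSum_ringHomComp χ χ f
    rw [hcomp] at h
    exact h.symm
  have hJ1 : jacobiSum χ χ = jacobiSum (χ ^ 1) (χ ^ 1) := by rw [pow_one]
  have hp1 : 1 < p := hp.out.one_lt
  have hmulq := hJmul 1 one_pos hp1
  rw [← hJ1] at hmulq
  have hq0 : (q : 𝓞 K) ≠ 0 := by exact_mod_cast hq.ne_zero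
  refine ⟨jacobiSum χ χ, ?_, ?_, ?_, ?_, ?_⟩
  · intro h0
    rw [h0, zero_mul] at hmulq
    exact hq0 hmulq.symm
  · intro w hw
    have hqw2 : (q : 𝓞 K) ∈ w.asIdeal ^ 2 := by
      rw [← hmulq]
      exact Ideal.mul_mem_right _ _ hw
    have hqw : (q : 𝓞 K) ∈ w.asIdeal := Ideal.pow_le_self two_ne_zero hqw2
    exact hunr w hqw hqw2
  · intro δ t ht0 htp hδ
    rw [hgal δ t hδ]
    constructor
    · intro hmem
      by_contra hlt
      have hne : 2 * t ≠ p := fun h => hpodd ⟨t, h.symm⟩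
      have h1 : 2 * (p - t) < p := by omega
      have h2 := hJmem (p - t) (by omega) h1
      have h3 := hJmul t ht0 htp
      have hqv2 : (q : 𝓞 K) ∈ v.asIdeal ^ 2 := by
        rw [← h3, pow_two]
        exact Ideal.mul_mem_mul hmem h2
      exact hunr v hqv hqv2
    · intro hlt
      exact hJmem t ht0 hlt
  · intro w hw
    have hqw : (q : 𝓞 K) ∈ w.asIdeal := by
      rw [← hmulq]
      exact Ideal.mul_mem_right _ _ hw
    haveI : IsGalois ℚ K := IsCyclotomicExtension.isGalois {p} ℚ K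
    haveI := w.isPrime
    haveI := v.isPrime
    have hunder : ∀ u : HeightOneSpectrum (𝓞 K), (q : 𝓞 K) ∈ u.asIdeal →
        u.asIdeal.under ℤ = Ideal.span {(q : ℤ)} := by
      intro u hu
      have hqZ : (Ideal.span {(q : ℤ)}).IsMaximal :=
        Ideal.IsPrime.isMaximal ((Ideal.span_singleton_prime (by exact_mod_cast hq.ne_zero)).mpr
          (Nat.prime_iff_prime_int.mp hq)) (by simpa using hq.ne_zero)
      have hle : Ideal.span {(q : ℤ)} ≤ u.asIdeal.under ℤ := by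
        rw [Ideal.span_singleton_le_iff_mem, Ideal.under_def, Ideal.mem_comap]
        simpa using hu
      have hne : u.asIdeal.under ℤ ≠ ⊤ := by
        intro h
        have : (1 : ℤ) ∈ u.asIdeal.under ℤ := h ▸ Submodule.mem_top
        rw [Ideal.under_def, Ideal.mem_comap, map_one] at this
        exact u.isPrime.ne_top ((Ideal.eq_top_iff_one _).mpr this)
      exact (hqZ.eq_of_le hne hle).symm
    exact Algebra.IsInvariant.exists_smul_of_under_eq ℤ (𝓞 K) (K ≃ₐ[ℚ] K) v.asIdeal w.asIdeal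
      ((hunder v hqv).trans (hunder w hqw).symm)
  · intro δ hδ
    haveI : Fact q.Prime := ⟨hq⟩
    have hqZ : (Ideal.span {(q : ℤ)}).IsMaximal :=
      Ideal.IsPrime.isMaximal ((Ideal.span_singleton_prime (by exact_mod_cast hq.ne_zero)).mpr
        (Nat.prime_iff_prime_int.mp hq)) (by simpa using hq.ne_zero)
    have hle : Ideal.span {(q : ℤ)} ≤ v.asIdeal.under ℤ := by
      rw [Ideal.span_singleton_le_iff_mem, Ideal.under_def, Ideal.mem_comap]
      simpa using hqv
    have hne : v.asIdeal.under ℤ ≠ ⊤ := by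
      intro h
      have : (1 : ℤ) ∈ v.asIdeal.under ℤ := h ▸ Submodule.mem_top
      rw [Ideal.under_def, Ideal.mem_comap, map_one] at this
      exact v.isPrime.ne_top ((Ideal.eq_top_iff_one _).mpr this)
    haveI hlies : v.asIdeal.LiesOver (Ideal.span {(q : ℤ)}) := ⟨(hqZ.eq_of_le hne hle)⟩
    have hstab := IsCyclotomicExtension.Rat.galEquivZMod_stabilizer p K q v.asIdeal hcop
    have hmem : δ ∈ MulAction.stabilizer (K ≃ₐ[ℚ] K) v.asIdeal := hδ
    have h1 : IsCyclotomicExtension.Rat.galEquivZMod p K δ ∈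
        (IsCyclotomicExtension.Rat.galEquivZMod p K).mapSubgroup
          (MulAction.stabilizer (K ≃ₐ[ℚ] K) v.asIdeal) := ⟨δ, hmem, rfl⟩
    rw [hstab] at h1
    have hone : ZMod.unitOfCoprime q hcop = 1 := by
      apply Units.ext
      rw [ZMod.coe_unitOfCoprime, Units.val_one]
      have : (q : ZMod p) = ((q - 1 : ℕ) : ZMod p) + 1 := by
        rw [Nat.cast_sub hq.one_lt.le]; ring
      rw [this, ← hpm]; simp
    rw [hone, Subgroup.zpowers_one_eq_bot, Subgroup.mem_bot] at h1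
    exact (MulEquiv.map_eq_one_iff _).mp h1

end main

end Fermat.Agent.S14x.Jacobi
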