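/-
S14 leaf B7 (lead): the final contradiction.  Given the reciprocity character `ω` of `L/K`
(interface of helper4's B5), the Jacobi sum (B6) and the analytic lemma (Z) for `L/K`,
derive `False`.
-/
import Fermat.Agent.S14_Jacobi
import Fermat.Agent.S14_A4

set_option autoImplicit false
set_option linter.style.haveILetI false

namespace Fermat.Agent.S14x.B7

open IsDedekindDomain NumberField
open scoped Pointwise

section

variable (p : ℕ) [hp : Fact p.Prime] (K : Type) [Field K] [NumberField K]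
  [hK : IsCyclotomicExtension {p} ℚ K]

/-- `gsmul` is the pointwise action on ideals. -/
theorem gsmul_asIdeal (σ : K ≃ₐ[ℚ] K) (v : Pl K) :
    (gsmul ℚ σ v).asIdeal = σ • v.asIdeal := by
  ext x
  rw [Ideal.mem_pointwise_smul_iff_inv_smul_mem]
  show galRestrict (𝓞 ℚ) ℚ K (𝓞 K) σ⁻¹ x ∈ v.asIdeal ↔ _
  have : galRestrict (𝓞 ℚ) ℚ K (𝓞 K) σ⁻¹ x = σ⁻¹ • x := by
    apply RingOfIntegers.coe_injective
    exact algebraMap_galRestrict_apply (𝓞 ℚ) σ⁻¹ x
  rw [this]

include hK in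
/-- a `ℚ`-automorphism of the cyclotomic field is determined by its value at `ζ` -/
theorem aut_ext (ζ : K) (hζ : IsPrimitiveRoot ζ p) {σ τ : K ≃ₐ[ℚ] K} (h : σ ζ = τ ζ) :
    σ = τ := by
  haveI : NeZero p := ⟨hp.out.ne_zero⟩
  apply (IsCyclotomicExtension.Rat.galEquivZMod p K).injective
  have h1 := IsCyclotomicExtension.Rat.galEquivZMod_apply_of_pow_eq p K σ hζ.pow_eq_one
  have h2 := IsCyclotomicExtension.Rat.galEquivZMod_apply_of_pow_eq p K τ hζ.pow_eq_one
  rw [h1, h2] at h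
  have h3 := hζ.pow_inj (ZMod.val_lt _) (ZMod.val_lt _) h
  exact Units.ext (ZMod.val_injective p h3)

include hK in
theorem exists_aut (ζ : K) (hζ : IsPrimitiveRoot ζ p) (t : ℕ) (ht0 : 0 < t) (htp : t < p) :
    ∃ σ : K ≃ₐ[ℚ] K, σ ζ = ζ ^ t := by
  haveI : NeZero p := ⟨hp.out.ne_zero⟩
  have hcop : Nat.Coprime t p :=
    ((Nat.Prime.coprime_iff_not_dvd hp.out).mpr (Nat.not_dvd_of_pos_of_lt ht0 htp)).symm
  refine ⟨(IsCyclotomicExtension.Rat.galEquivZMod p K).symm (ZMod.unitOfCoprime t hcop), ?_⟩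
  rw [IsCyclotomicExtension.Rat.galEquivZMod_apply_of_pow_eq p K _ hζ.pow_eq_one,
    MulEquiv.apply_symm_apply, ZMod.coe_unitOfCoprime, ZMod.val_natCast, Nat.mod_eq_of_lt htp]

include hK in
/-- the only prime of norm `p` is `(ζ - 1)` -/
theorem asIdeal_eq_of_absNorm_eq (ζ : K) (hζ : IsPrimitiveRoot ζ p) (v : Pl K)
    (h : Ideal.absNorm v.asIdeal = p) : v.asIdeal = Ideal.span {hζ.toInteger - 1} := by
  haveI := v.isPrime
  have hmem : (p : 𝓞 K) ∈ v.asIdeal := by
    have := Ideal.absNorm_mem v.asIdeal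
    rwa [h] at this
  have hqZ : (Ideal.span {(p : ℤ)}).IsMaximal :=
    Ideal.IsPrime.isMaximal ((Ideal.span_singleton_prime (by exact_mod_cast hp.out.ne_zero)).mpr
      (Nat.prime_iff_prime_int.mp hp.out)) (by simpa using hp.out.ne_zero)
  have hle : Ideal.span {(p : ℤ)} ≤ v.asIdeal.under ℤ := by
    rw [Ideal.span_singleton_le_iff_mem, Ideal.under_def, Ideal.mem_comap]
    simpa using hmem
  have hne : v.asIdeal.under ℤ ≠ ⊤ := by
    intro h
    have : (1 : ℤ) ∈ v.asIdeal.under ℤ := h ▸ Submodule.mem_top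
    rw [Ideal.under_def, Ideal.mem_comap, map_one] at this
    exact v.isPrime.ne_top ((Ideal.eq_top_iff_one _).mpr this)
  haveI hlies : v.asIdeal.LiesOver (Ideal.span {(p : ℤ)}) := ⟨(hqZ.eq_of_le hne hle)⟩
  exact IsCyclotomicExtension.Rat.eq_span_zeta_sub_one_of_liesOver' p K hζ v.asIdeal

theorem sum_Icc_id_mul_two (m : ℕ) : (∑ t ∈ Finset.Icc 1 m, t) * 2 = m * (m + 1) := by
  induction m with
  | zero => simp
  | succ n ih =>
    rw [Finset.sum_Icc_succ_top (by omega), add_mul, ih]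
    ring

variable (L : Type) [Field L] [NumberField L] [Algebra K L] [IsGalois K L]

include hK in
/-- **B7**: the final contradiction. -/
theorem B7_false (h3 : 3 ≤ p) (hdeg : Module.finrank K L = p) (ζ : K)
    (hζ : IsPrimitiveRoot ζ p) (ω : Dv K →+ ZMod p)
    (hprin : ∀ x : K, x ≠ 0 → ω (div x) = 0)
    (hsplit : ∀ v : Pl K, ω (Finsupp.single v 1) = 0 → IsSplit K L v)
    (hequiv : ∀ (σ : K ≃ₐ[ℚ] K) (k : ℕ) (v : Pl K), σ ζ ^ k = ζ →
      ω (Finsupp.single (gsmul ℚ σ v) 1) = k • ω (Finsupp.single v 1))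
    (hZ : ∀ T : Finset (Pl K), ∃ v : Pl K, v ∉ T ∧ (Ideal.absNorm v.asIdeal).Prime ∧
      ∀ w1 w2 : Pl L, w1.asIdeal.comap (algebraMap (𝓞 K) (𝓞 L)) = v.asIdeal →
        w2.asIdeal.comap (algebraMap (𝓞 K) (𝓞 L)) = v.asIdeal → w1 = w2) : False := by
  classical
  have hp0 := hp.out.pos
  haveI : NeZero p := ⟨hp0.ne'⟩
  -- Step 1: a nonsplit prime of prime norm `q ≠ p`
  obtain ⟨v, hvq, hvp, hvuniq⟩ : ∃ v : Pl K, (Ideal.absNorm v.asIdeal).Prime ∧
      Ideal.absNorm v.asIdeal ≠ p ∧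
      (∀ w1 w2 : Pl L, w1.asIdeal.comap (algebraMap (𝓞 K) (𝓞 L)) = v.asIdeal →
        w2.asIdeal.comap (algebraMap (𝓞 K) (𝓞 L)) = v.asIdeal → w1 = w2) := by
    obtain ⟨v1, -, hq1, hu1⟩ := hZ ∅
    by_cases h1 : Ideal.absNorm v1.asIdeal = p
    · obtain ⟨v2, hv2, hq2, hu2⟩ := hZ {v1}
      refine ⟨v2, hq2, ?_, hu2⟩
      intro h2
      apply hv2
      rw [Finset.mem_singleton]
      exact HeightOneSpectrum.ext ((asIdeal_eq_of_absNorm_eq p K ζ hζ v2 h2).trans
        (asIdeal_eq_of_absNorm_eq p K ζ hζ v1 h1).symm)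
    · exact ⟨v1, hq1, h1, hu1⟩
  -- Step 2: the Jacobi sum
  obtain ⟨J, hJ0, hJsq, hJmem, hJconj, hstab⟩ := Jacobi.exists_jacobi p K h3 ζ hζ v hvq hvp
  -- Step 3: automorphisms `τ t : ζ ↦ ζ ^ t`
  have hex : ∀ t : ℕ, ∃ σ : K ≃ₐ[ℚ] K, 0 < t → t < p → σ ζ = ζ ^ t := by
    intro t
    by_cases h : 0 < t ∧ t < p
    · obtain ⟨σ, hσ⟩ := exists_aut p K ζ hζ t h.1 h.2
      exact ⟨σ, fun _ _ => hσ⟩
    · exact ⟨1, fun h1 h2 => absurd ⟨h1, h2⟩ h⟩
  choose τ hτ using hex
  let W : ℕ → Pl K := fun t => gsmul ℚ (τ t)⁻¹ v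
  have hW_mem : ∀ t, 0 < t → t < p → (J ∈ (W t).asIdeal ↔ 2 * t < p) := by
    intro t h0 h1
    show J ∈ (gsmul ℚ (τ t)⁻¹ v).asIdeal ↔ _
    rw [gsmul_asIdeal, Ideal.mem_inv_pointwise_smul_iff]
    exact hJmem (τ t) t h0 h1 (hτ t h0 h1)
  have hW_inj : ∀ s t, 0 < s → s < p → 0 < t → t < p → W s = W t → s = t := by
    intro s t hs0 hsp ht0 htp hst
    have h1 : (τ s)⁻¹ • v.asIdeal = (τ t)⁻¹ • v.asIdeal := by
      rw [← gsmul_asIdeal, ← gsmul_asIdeal]
      exact congrArg HeightOneSpectrum.asIdeal hst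
    have h2 : (τ t * (τ s)⁻¹) • v.asIdeal = v.asIdeal := by
      rw [mul_smul, h1, smul_inv_smul]
    have h3 := hstab _ h2
    have h4 : τ t = τ s := by
      rw [mul_inv_eq_one] at h3; exact h3
    have h5 : ζ ^ t = ζ ^ s := by rw [← hτ t ht0 htp, ← hτ s hs0 hsp, h4]
    exact (hζ.pow_inj htp hsp h5).symm
  have hW_surj : ∀ w : Pl K, J ∈ w.asIdeal → ∃ t, 0 < t ∧ t < p ∧ W t = w := by
    intro w hw
    obtain ⟨δ, hδ⟩ := hJconj w hw
    have hpow : (δ⁻¹ ζ) ^ p = 1 := by rw [← map_pow, hζ.pow_eq_one, map_one]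
    obtain ⟨t, htp, ht⟩ := hζ.eq_pow_of_pow_eq_one hpow
    have ht0 : 0 < t := by
      rcases Nat.eq_zero_or_pos t with h | h
      · subst h
        rw [pow_zero] at ht
        have h1 : δ⁻¹ ζ = δ⁻¹ 1 := by rw [map_one]; exact ht.symm
        exact absurd (δ⁻¹.injective h1) (hζ.ne_one hp.out.one_lt)
      · exact h
    refine ⟨t, ht0, htp, ?_⟩
    have hτeq : τ t = δ⁻¹ := aut_ext p K ζ hζ (by rw [hτ t ht0 htp, ht])
    apply HeightOneSpectrum.ext
    show (gsmul ℚ (τ t)⁻¹ v).asIdeal = _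
    rw [gsmul_asIdeal, hτeq, inv_inv, hδ]
  have hW_omega : ∀ t, 0 < t → t < p →
      ω (Finsupp.single (W t) 1) = t • ω (Finsupp.single v 1) := by
    intro t h0 h1
    apply hequiv
    have : (τ t)⁻¹ (τ t ζ) = ζ := by
      show (τ t).symm (τ t ζ) = ζ
      exact (τ t).symm_apply_apply ζ
    rw [← map_pow, ← hτ t h0 h1]
    exact this
  -- the order of `J`
  have hJK : (J : K) ≠ 0 := by
    intro h
    exact hJ0 (RingOfIntegers.coe_injective (by simpa using h))
  have hord : ∀ w : Pl K, ord w (J : K) = if J ∈ w.asIdeal then 1 else 0 := by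
    intro w
    have hnn : 0 ≤ ord w (J : K) := ord_nonneg_of_isIntegral w (RingOfIntegers.isIntegral_coe J)
    have h1 : J ∈ w.asIdeal ↔ 1 ≤ ord w (J : K) := by
      rw [mem_asIdeal_iff, vGe_iff]
      exact ⟨fun h => h.resolve_left hJK, Or.inr⟩
    have h2 : ¬ (2 ≤ ord w (J : K)) := by
      intro h
      apply hJsq w
      rw [mem_asIdeal_pow_iff, vGe_iff]
      exact Or.inr (by exact_mod_cast h)
    by_cases hw : J ∈ w.asIdeal
    · rw [if_pos hw]
      have := h1.mp hw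
      omega
    · rw [if_neg hw]
      have : ¬ (1 ≤ ord w (J : K)) := fun h => hw (h1.mpr h)
      omega
  have hm : (p - 1) / 2 < p := by omega
  have hdiv : div (J : K) = ∑ t ∈ Finset.Icc 1 ((p - 1) / 2), Finsupp.single (W t) (1 : ℤ) := by
    ext w
    rw [divisor_apply, hord, Finsupp.finsetSum_apply]
    simp only [Finsupp.single_apply]
    by_cases hw : J ∈ w.asIdeal
    · obtain ⟨t, ht0, htp, rfl⟩ := hW_surj w hw
      have h2t := (hW_mem t ht0 htp).mp hw
      rw [if_pos hw, Finset.sum_eq_single t]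
      · simp
      · intro s hs hne
        rw [Finset.mem_Icc] at hs
        rw [if_neg]
        intro h
        exact hne (hW_inj s t (by omega) (by omega) ht0 htp h)
      · intro hnot
        exfalso
        apply hnot
        rw [Finset.mem_Icc]
        omega
    · rw [if_neg hw]
      symm
      apply Finset.sum_eq_zero
      intro s hs
      rw [Finset.mem_Icc] at hs
      rw [if_neg]
      intro h
      apply hw
      rw [← h]
      exact (hW_mem s (by omega) (by omega)).mpr (by omega)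
  have h0 := hprin (J : K) hJK
  rw [hdiv, map_sum] at h0
  have h1 : ∑ t ∈ Finset.Icc 1 ((p - 1) / 2), ω (Finsupp.single (W t) 1) =
      (∑ t ∈ Finset.Icc 1 ((p - 1) / 2), t) • ω (Finsupp.single v 1) := by
    rw [Finset.sum_smul]
    apply Finset.sum_congr rfl
    intro t ht
    rw [Finset.mem_Icc] at ht
    exact hW_omega t (by omega) (by omega)
  rw [h1] at h0
  have hsum : ¬ p ∣ ∑ t ∈ Finset.Icc 1 ((p - 1) / 2), t := by
    intro hdvd
    have h2 : p ∣ (p - 1) / 2 * ((p - 1) / 2 + 1) := by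
      rw [← sum_Icc_id_mul_two]
      exact Dvd.dvd.mul_right hdvd 2
    rcases (Nat.Prime.dvd_mul hp.out).mp h2 with h | h
    · have := Nat.le_of_dvd (by omega) h
      omega
    · have := Nat.le_of_dvd (by omega) h
      omega
  have hω : ω (Finsupp.single v 1) = 0 := by
    rw [nsmul_eq_mul] at h0
    rcases mul_eq_zero.mp h0 with h | h
    · exact absurd ((ZMod.natCast_eq_zero_iff _ _).mp h) hsum
    · exact h
  -- Step 5: `v` is split and nonsplit
  have hs := hsplit v hω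
  obtain ⟨w, hw⟩ := Kummer.exists_above (F' := L) v
  have hef := Kummer.e_mul_f_of_unique hw (fun w' hw' => hvuniq w' w hw' hw)
  obtain ⟨he, hf⟩ := hs w (Kummer.below_of_above hw)
  rw [← Kummer.eOf_eq_ramificationIdx, he, hdeg] at hef
  have hf' : w.asIdeal.inertiaDeg (𝓞 K) = 1 := hf
  rw [hf'] at hef
  omega

end

end Fermat.Agent.S14x.B7
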