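/-
S14, final wiring of the number-field statement (NF), part 1: the reciprocity character of
(B5) together with the Jacobi sum argument (B7) and the analytic lemma (Z) gives `False`.
-/
import Fermat.Agent.S14_B7
import Fermat.Agent.S14_ZAn

set_option autoImplicit false

namespace Fermat.Agent.S14x

open IsDedekindDomain NumberField

/-- (B5) ⇒ (NF): a reciprocity character `ω` of `L/K` as produced by (B5) is contradictory. -/
theorem NF_false_of_B5 {p : ℕ} [Fact p.Prime] (h3 : 3 ≤ p) (K L : Type) [Field K] [Field L]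
    [NumberField K] [NumberField L] [Algebra K L] [IsCyclotomicExtension {p} ℚ K] [IsGalois K L]
    (hdeg : Module.finrank K L = p) (ζ : K) (hζ : IsPrimitiveRoot ζ p)
    (hB5 : ∃ ω : Dv K →+ ZMod p, (∀ x : K, x ≠ 0 → ω (div x) = 0) ∧
      (∀ v : Pl K, ω (Finsupp.single v 1) = 0 → IsSplit K L v) ∧
      (∀ (σ : K ≃ₐ[ℚ] K) (k : ℕ) (v : Pl K), σ ζ ^ k = ζ →
        ω (Finsupp.single (gsmul ℚ σ v) 1) = k • ω (Finsupp.single v 1))) : False := by
  obtain ⟨ω, hprin, hsplit, hequiv⟩ := hB5
  exact B7.B7_false (p := p) (K := K) (L := L) h3 hdeg ζ hζ ω hprin hsplit hequiv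
    (fun T => Fermat.Agent.S14x.ZAn.S14_Z p K L hdeg T)

end Fermat.Agent.S14x
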