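-- Statement S14 (row 13): the Ext-vanishing property `ExtVanishingCts p` for every prime `p ≥ 3`.
-- Proof: reduction to a number-field statement (Part C, `S14_C`), which is refuted by a
-- self-contained piece of class field theory for one unramified cyclic extension of degree `p`
-- of `ℚ(ζ_p)` (first and second inequality via Herbrand quotients and Kummer theory, Artin's
-- cyclotomic crossing, Jacobi sums); see the `S14_*` modules.
import Fermat.Statements.S14
import Fermat.Agent.S14_C
import Fermat.Agent.S14_NFw
import Fermat.Agent.S14_A67w
import Fermat.Agent.S14_A10Asm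
import Fermat.Agent.S14_B5of

set_option autoImplicit false
open ExtCitation

namespace Fermat.Agent.S14

open Fermat.Agent.S14x in
theorem result {p : ℕ} [Fact p.Prime] (h3 : 3 ≤ p) :
    ExtCitation.ExtVanishingCts p :=
  C.extVanishingCts_of_NF
    (fun K L _ _ _ _ _ _ _ _ hdeg hinert ζ hζ hconj =>
      NF_false_of_B5 h3 K L hdeg ζ hζ
        (B5_exists_of p h3 K L hdeg hinert ζ hζ hconj
          (A6_first (F := K) (F' := L) (p := p)
            ⟨Fact.out, by omega, ⟨ζ, hζ⟩, inferInstance, hdeg⟩
            (unramified_of_inertiaTrivial hinert))
          (fun F F' _ _ _ _ _ hK hunr χ hχ hχP hχN D hD =>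
            A10_second hK hunr χ hχ hχP hχN D hD)))

end Fermat.Agent.S14
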