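import Fermat.Agent.S14_A89
import Fermat.Agent.S14_ZAn

set_option autoImplicit false

/-!
# S14 / (A10): the second inequality

For an unramified Kummer pair `(F, F')` the group of principal divisors plus norms of divisors
has index at most `p` in the group of divisors of `F`.  The `S`-unit count (A2) and the key
contradiction (A7) are taken as hypotheses (`A2Statement`, `A7Statement`).
-/

namespace Fermat.Agent.S14x

open IsDedekindDomain NumberField

universe u

/-- The statement of the `S`-unit count (A2). -/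
def A2Statement (p : ℕ) (F : Type u) [Field F] [NumberField F] : Prop :=
  ∀ S : Finset (Pl F),
    Nat.card (↥(SU (S : Set (Pl F))) ⧸ (powMonoidHom p : ↥(SU (S : Set (Pl F))) →* _).range)
      = p ^ (S.card + NumberField.Units.rank F + 1)

/-- The statement of the key contradiction (A7). -/
def A7Statement (p : ℕ) (F : Type u) [Field F] [NumberField F] : Prop :=
  ∀ (F'' : Type u) [Field F''] [NumberField F''] [Algebra F F''], KummerPair F F'' p →
    ∀ (S T : Finset (Pl F)), Disjoint S T → Kills (S : Set (Pl F)) →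
      (∀ v ∈ S, IsSplit F F'' v) → (∀ v ∈ T, ord v (p : F) = 0) →
      (∀ v : Pl F, v ∉ T → IsUnramAt F F'' v) →
      (∀ c : Pl F → Multiplicative (ZMod p),
        ∃ u : Fˣ, u ∈ SU (S : Set (Pl F)) ∧ ∀ v ∈ T, resCharU p v u = c v) → False

namespace A10

variable {F : Type u} [Field F] [NumberField F] {F' : Type u} [Field F'] [NumberField F']
  [Algebra F F'] {p : ℕ}

/-- A Kummer generator of a Kummer pair. -/
theorem exists_kummer_gen (hK : KummerPair F F' p) :
    ∃ (a : F) (θ : F'), θ ^ p = algebraMap F F' a ∧ ∀ y : F, y ^ p ≠ a := by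
  have hp := hK.prime
  have := hK.galois
  have : FiniteDimensional F F' :=
    Module.finite_of_finrank_pos (by rw [hK.degree]; exact hp.pos)
  have : Fact p.Prime := ⟨hp⟩
  have : NeZero p := ⟨hp.ne_zero⟩
  have hcard : Nat.card (F' ≃ₐ[F] F') = p := by
    rw [IsGalois.card_aut_eq_finrank, hK.degree]
  have : IsCyclic (F' ≃ₐ[F] F') := isCyclic_of_prime_card hcard
  obtain ⟨ζ, hζ⟩ := hK.zeta
  have hprim : (primitiveRoots (Module.finrank F F') F).Nonempty := by
    rw [hK.degree]
    exact ⟨ζ, (mem_primitiveRoots hp.pos).mpr hζ⟩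
  obtain ⟨α, ⟨a, ha⟩, hα⟩ := exists_root_adjoin_eq_top_of_isCyclic F F' hprim
  rw [hK.degree] at ha
  refine ⟨a, α, ha.symm, ?_⟩
  intro y hy
  have hαF : α ∈ (⊥ : IntermediateField F F') := by
    rw [IntermediateField.mem_bot]
    have h1 : α ^ p = (algebraMap F F' y) ^ p := by rw [← map_pow, hy, ha]
    rcases eq_or_ne y 0 with rfl | hy0
    · rw [map_zero, zero_pow hp.ne_zero] at h1
      exact ⟨0, by rw [map_zero, pow_eq_zero_iff hp.ne_zero |>.mp h1]⟩
    · have hy0' : algebraMap F F' y ≠ 0 := (map_ne_zero _).mpr hy0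
      have h2 : (α / algebraMap F F' y) ^ p = 1 := by
        rw [div_pow, h1, div_self (pow_ne_zero _ hy0')]
      have hζ' := hζ.map_of_injective (algebraMap F F').injective
      obtain ⟨i, -, hi⟩ := hζ'.eq_pow_of_pow_eq_one h2
      refine ⟨ζ ^ i * y, ?_⟩
      rw [map_mul, map_pow, hi, div_mul_cancel₀ _ hy0']
  rw [← IntermediateField.adjoin_simple_eq_bot_iff, hα] at hαF
  have h1 : Module.finrank F F' = 1 := IntermediateField.bot_eq_top_iff_finrank_eq_one.mp hαF.symm
  rw [hK.degree] at h1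
  exact hp.one_lt.ne' h1

theorem normDiv_single' (w : Pl F') (n : ℤ) :
    normDiv F (Finsupp.single w n) = Finsupp.single (below F w) ((fOf F w : ℤ) * n) := by
  unfold normDiv
  rw [Finsupp.liftAddHom_apply_single]
  rfl

/-- `p [v]` is a norm. -/
theorem single_prime_mem_range (hK : KummerPair F F' p) (v : Pl F) :
    Finsupp.single v (p : ℤ) ∈ (normDiv F (F' := F')).range := by
  have := hK.galois
  obtain ⟨w, hw⟩ := Kummer.exists_above (F' := F') v
  have key := Kummer.ncard_mul_e_f hw
  rw [hK.degree] at key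
  have hdvd : fOf F w ∣ p :=
    ⟨(Ideal.primesOver v.asIdeal (𝓞 F')).ncard * w.asIdeal.ramificationIdx (𝓞 F), by
      rw [← key]; unfold fOf; ring⟩
  obtain ⟨m, hm⟩ := hdvd
  refine ⟨Finsupp.single w (m : ℤ), ?_⟩
  rw [normDiv_single', Kummer.below_of_above hw, ← Nat.cast_mul, ← hm]

/-- `n [v]` is a norm if `v` splits. -/
theorem single_mem_range_of_isSplit (hK : KummerPair F F' p) {v : Pl F}
    (hv : IsSplit F F' v) (n : ℤ) :
    Finsupp.single v n ∈ (normDiv F (F' := F')).range := by
  have := hK.galois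
  obtain ⟨w, hw⟩ := Kummer.exists_above (F' := F') v
  have hb := Kummer.below_of_above hw
  refine ⟨Finsupp.single w n, ?_⟩
  rw [normDiv_single', hb, (hv w hb).2, Nat.cast_one, one_mul]

theorem finrank_le_two_mul (F : Type u) [Field F] [NumberField F] :
    Module.finrank ℚ F ≤ 2 * (NumberField.Units.rank F + 1) := by
  have h1 := NumberField.InfinitePlace.card_add_two_mul_card_eq_rank F
  have h2 := NumberField.InfinitePlace.card_eq_nrRealPlaces_add_nrComplexPlaces F
  have h3 : NumberField.Units.rank F = Fintype.card (InfinitePlace F) - 1 := rfl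
  have h4 : 0 < Fintype.card (InfinitePlace F) := Fintype.card_pos
  omega

/-- An `S ∪ T`-unit which lies in all the local groups `G v`, `v ∈ S`, is a `p`-th power. -/
theorem exists_pow_eq (hA7 : A7Statement p F) (hp : p.Prime) (hp2 : p ≠ 2)
    (hζ : ∃ ζ : F, IsPrimitiveRoot ζ p)
    (S T : Finset (Pl F)) (hST : Disjoint S T) (hkill : Kills (S : Set (Pl F)))
    (hSp : ∀ v : Pl F, ord v (p : F) ≠ 0 → v ∈ S)
    (honto : ∀ c : Pl F → Multiplicative (ZMod p),
      ∃ u : Fˣ, u ∈ SU (S : Set (Pl F)) ∧ ∀ v ∈ T, resCharU p v u = c v)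
    (G : Pl F → Subgroup Fˣ)
    (hG : ∀ v ∈ S, ∀ x ∈ G v, ∀ (F'' : Type u) [Field F''] [NumberField F''] [Algebra F F''],
        KummerPair F F'' p → ∀ θ : F'', θ ^ p = algebraMap F F'' (x : F) →
          (∀ y : F, y ^ p ≠ (x : F)) → IsSplit F F'' v)
    (x : Fˣ) (hxS : ∀ v, v ∉ S → v ∉ T → ord v (x : F) = 0) (hxG : ∀ v ∈ S, x ∈ G v) :
    ∃ y : F, y ^ p = (x : F) := by
  by_contra hcon
  push Not at hcon
  obtain ⟨F'', _, _, _, hK'', θ, hθ⟩ := exists_kummerPair hp hp2 hζ (x : F) hcon
  refine hA7 F'' hK'' S T hST hkill (fun v hv => hG v hv x (hxG v hv) F'' hK'' θ hθ hcon)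
    (fun v hv => ?_) (fun v hv => ?_) honto
  · by_contra h
    exact Finset.disjoint_left.mp hST (hSp v h) hv
  · by_cases hvS : v ∈ S
    · intro w hw
      exact ((hG v hvS x (hxG v hvS) F'' hK'' θ hθ hcon) w hw).1
    · refine A4u_unram hK'' hθ hcon v ?_ ?_
      · by_contra h
        exact hvS (hSp v h)
      · rw [hxS v hvS hv]
        exact dvd_zero _

/-- Abstract counting: if `Ψ : E → Y` has kernel inside a subgroup `P` with
`|Y| ≤ p · [E : P]`, and `lam : Y → Q` is onto and kills the image of `Ψ`, then `|Q| ≤ p`. -/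
theorem card_le_of_maps {E Y Q : Type*} [Group E] [Group Y] [Finite Y] [Group Q]
    (Ψ : E →* Y) (lam : Y →* Q) (P : Subgroup E) {p : ℕ}
    (hker : ∀ x, Ψ x = 1 → x ∈ P) (hcard : Nat.card Y ≤ p * P.index)
    (hsurj : Function.Surjective lam) (hcomp : ∀ x, lam (Ψ x) = 1) :
    Nat.card Q ≠ 0 ∧ Nat.card Q ≤ p := by
  have h1 := Subgroup.card_mul_index Ψ.range
  have h2 := Subgroup.index_ker Ψ
  have hkerle : Ψ.ker ≤ P := fun x hx => hker x (MonoidHom.mem_ker.mp hx)
  have h3 := Subgroup.index_dvd_of_le hkerle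
  have hrpos : 0 < Nat.card Ψ.range := Nat.card_pos
  have hPle : P.index ≤ Nat.card Ψ.range := by
    rw [h2] at h3
    exact Nat.le_of_dvd hrpos h3
  have hile : Ψ.range.index ≤ p := by
    have h4 : Nat.card Ψ.range * Ψ.range.index ≤ Nat.card Ψ.range * p := by
      rw [h1, mul_comm]
      exact le_trans hcard (Nat.mul_le_mul_left _ hPle)
    exact Nat.le_of_mul_le_mul_left h4 hrpos
  have hrange : Ψ.range ≤ lam.ker := by
    rintro _ ⟨x, rfl⟩
    exact MonoidHom.mem_ker.mpr (hcomp x)
  have h5 := Subgroup.index_ker lam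
  rw [MonoidHom.range_eq_top.mpr hsurj, Subgroup.card_top] at h5
  have hQ : Nat.card Q ∣ Ψ.range.index := h5 ▸ Subgroup.index_dvd_of_le hrange
  have hipos : Ψ.range.index ≠ 0 := Subgroup.index_ne_zero_of_finite
  exact ⟨fun h0 => hipos (zero_dvd_iff.mp (h0 ▸ hQ)),
    le_trans (Nat.le_of_dvd (Nat.pos_of_ne_zero hipos) hQ) hile⟩

/-- **(A10)**, index form, from (A2) and (A7). -/
theorem index_le (hA2 : A2Statement p F) (hA7 : A7Statement p F) (hK : KummerPair F F' p)
    (hunr : Unramified F F') :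
    (principal F ⊔ (normDiv F (F' := F')).range).index ≠ 0 ∧
      (principal F ⊔ (normDiv F (F' := F')).range).index ≤ p := by
  classical
  have hp := hK.prime
  have : Fact p.Prime := ⟨hp⟩
  obtain ⟨a, θ, hθ, ha⟩ := exists_kummer_gen hK
  -- the set `S`
  obtain ⟨S, hS0, hkill⟩ := exists_finset_kills
    ((ord_support_finite (p : F)).toFinset ∪ (ord_support_finite a).toFinset)
  have hSp : ∀ v : Pl F, ord v (p : F) ≠ 0 → v ∈ S := fun v hv =>
    hS0 (Finset.mem_union_left _ ((Set.Finite.mem_toFinset _).mpr hv))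
  have hSa : ∀ v : Pl F, ord v a ≠ 0 → v ∈ S := fun v hv =>
    hS0 (Finset.mem_union_right _ ((Set.Finite.mem_toFinset _).mpr hv))
  -- the set `T`
  obtain ⟨T, hST, hTsplit, hTcard, honto⟩ := A9_choice_of_Z_A2
    (fun N1 _ _ _ _ h T => ZAn.S14_Z p F' N1 h T) hK hunr hθ ha S hSp hSa (hA2 S)
  -- the local groups
  obtain ⟨G, hGpow, hGord, hGidx, hGprod, hGsplit⟩ := A8_local hp hK.odd hK.zeta S hSp
  have hfin : ∀ v : ↥S, Finite (Fˣ ⧸ G v.1) := fun v =>
    Nat.finite_of_card_ne_zero (by rw [← Subgroup.index_eq_card]; exact hGidx v.1 v.2)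
  -- the map `Ψ`
  let Ψ : ↥(SU ((S ∪ T : Finset (Pl F)) : Set (Pl F))) →* ((v : ↥S) → Fˣ ⧸ G v.1) :=
    MonoidHom.pi (fun v => (QuotientGroup.mk' (G v.1)).comp (Subgroup.subtype _))
  have hΨ : ∀ x, Ψ x = fun v => QuotientGroup.mk (x : Fˣ) := fun x => rfl
  -- the target
  set B : AddSubgroup (Dv F) := principal F ⊔ (normDiv F (F' := F')).range with hB
  have hBG : ∀ v : ↥S, ∀ x ∈ G v.1, (Finsupp.single v.1 (ord v.1 ((x : Fˣ) : F)) : Dv F) ∈ B := by
    intro v x hx
    obtain ⟨k, hk⟩ := hGord v.1 x hx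
    rw [hk]
    have h := AddSubgroup.zsmul_mem _ (single_prime_mem_range (F' := F') hK v.1) k
    rw [Finsupp.smul_single, smul_eq_mul, mul_comm] at h
    exact AddSubgroup.mem_sup_right h
  let lam0 : (v : ↥S) → Fˣ →* Multiplicative (Dv F ⧸ B) := fun v =>
    { toFun := fun x => Multiplicative.ofAdd
        (QuotientAddGroup.mk (Finsupp.single v.1 (ord v.1 (x : F))))
      map_one' := by
        rw [Units.val_one, ord_one, Finsupp.single_zero, QuotientAddGroup.mk_zero, ofAdd_zero]
      map_mul' := fun x y => by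
        rw [Units.val_mul, ord_mul v.1 x.ne_zero y.ne_zero, Finsupp.single_add,
          QuotientAddGroup.mk_add, ofAdd_add] }
  have hlam0 : ∀ v : ↥S, G v.1 ≤ (lam0 v).ker := fun v x hx => by
    rw [MonoidHom.mem_ker]
    show Multiplicative.ofAdd (QuotientAddGroup.mk _) = 1
    rw [(QuotientAddGroup.eq_zero_iff _).mpr (hBG v x hx), ofAdd_zero]
  let lam : ((v : ↥S) → Fˣ ⧸ G v.1) →* Multiplicative (Dv F ⧸ B) :=
    ∏ v : ↥S, (QuotientGroup.lift (G v.1) (lam0 v) (hlam0 v)).comp
      (Pi.evalMonoidHom (fun v : ↥S => Fˣ ⧸ G v.1) v)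
  have hlam : ∀ xs : (v : ↥S) → Fˣ, lam (fun v => QuotientGroup.mk (xs v))
      = Multiplicative.ofAdd (QuotientAddGroup.mk
          (∑ v : ↥S, Finsupp.single v.1 (ord v.1 ((xs v : Fˣ) : F)))) := by
    intro xs
    rw [MonoidHom.finsetProd_apply, ← QuotientAddGroup.mk'_apply, map_sum, ofAdd_sum]
    rfl
  have hYcard : Nat.card ((v : ↥S) → Fˣ ⧸ G v.1) = ∏ v ∈ S, (G v).index := by
    rw [Nat.card_pi, ← Finset.prod_coe_sort S (fun v => (G v).index)]
    exact Finset.prod_congr rfl fun v _ => (Subgroup.index_eq_card _).symm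
  have hPidx : (powMonoidHom p :
      ↥(SU ((S ∪ T : Finset (Pl F)) : Set (Pl F))) →* _).range.index
        = p ^ ((S ∪ T).card + NumberField.Units.rank F + 1) := by
    rw [Subgroup.index_eq_card]
    exact hA2 (S ∪ T)
  have hcardU : (S ∪ T).card = S.card + T.card := Finset.card_union_of_disjoint hST
  have key : Nat.card (Multiplicative (Dv F ⧸ B)) ≠ 0 ∧
      Nat.card (Multiplicative (Dv F ⧸ B)) ≤ p := by
    refine card_le_of_maps (Y := (v : ↥S) → Fˣ ⧸ G v.1) Ψ lam
      (powMonoidHom p : ↥(SU ((S ∪ T : Finset (Pl F)) : Set (Pl F))) →* _).range ?_ ?_ ?_ ?_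
    · -- the kernel of `Ψ` consists of `p`-th powers
      intro x hx
      have hxG : ∀ v ∈ S, (x : Fˣ) ∈ G v := fun v hv => by
        have h := congrFun hx ⟨v, hv⟩
        exact (QuotientGroup.eq_one_iff _).mp h
      have hxS : ∀ v, v ∉ S → v ∉ T → ord v ((x : Fˣ) : F) = 0 := fun v h1 h2 =>
        mem_SU_iff.mp x.2 v (by simp [h1, h2])
      obtain ⟨y, hy⟩ := exists_pow_eq hA7 hp hK.odd hK.zeta S T hST hkill hSp honto G hGsplit
        (x : Fˣ) hxS hxG
      have hy0 : y ≠ 0 := by
        rintro rfl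
        rw [zero_pow hp.ne_zero] at hy
        exact (x : Fˣ).ne_zero hy.symm
      have hyE : Units.mk0 y hy0 ∈ SU ((S ∪ T : Finset (Pl F)) : Set (Pl F)) :=
        mem_SU_iff.mpr fun v hv => by
          have h1 : ord v ((x : Fˣ) : F) = 0 := mem_SU_iff.mp x.2 v hv
          rw [← hy, ord_pow] at h1
          exact (mul_eq_zero.mp h1).resolve_left (Int.natCast_ne_zero.mpr hp.ne_zero)
      exact ⟨⟨Units.mk0 y hy0, hyE⟩, Subtype.ext (Units.ext (by simpa using hy))⟩
    · -- the count
      have hfr := finrank_le_two_mul F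
      rw [hPidx, hYcard]
      calc ∏ v ∈ S, (G v).index ≤ p ^ (2 * S.card + Module.finrank ℚ F) := hGprod
        _ ≤ p ^ ((S ∪ T).card + NumberField.Units.rank F + 1 + 1) :=
            Nat.pow_le_pow_right hp.pos (by rw [hcardU, hTcard]; omega)
        _ = p * p ^ ((S ∪ T).card + NumberField.Units.rank F + 1) := by
            rw [pow_succ, mul_comm]
    · -- `lam` is onto
      intro q
      obtain ⟨D, hD⟩ := QuotientAddGroup.mk_surjective (Multiplicative.toAdd q)
      obtain ⟨y, hy0, hy⟩ := hkill D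
      choose π hπ using fun v : ↥S => exists_uniformizer v.1
      have hπ0 : ∀ v : ↥S, ((π v : 𝓞 F) : F) ≠ 0 := fun v h => by
        have h1 := hπ v
        rw [h, ord_zero] at h1
        exact zero_ne_one h1
      refine ⟨fun v => QuotientGroup.mk ((Units.mk0 _ (hπ0 v)) ^ (D v.1 - ord v.1 y)), ?_⟩
      rw [hlam]
      have hsum : (∑ v : ↥S, Finsupp.single v.1
          (ord v.1 (((Units.mk0 _ (hπ0 v)) ^ (D v.1 - ord v.1 y) : Fˣ) : F))) = D - div y := by
        ext u
        rw [Finsupp.finsetSum_apply, Finsupp.sub_apply, divisor_apply]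
        by_cases hu : u ∈ S
        · rw [Finset.sum_eq_single ⟨u, hu⟩]
          · rw [Finsupp.single_eq_same, Units.val_zpow_eq_zpow_val, Units.val_mk0, ord_zpow,
              hπ ⟨u, hu⟩, mul_one]
          · intro v _ hv
            rw [Finsupp.single_eq_of_ne]
            intro h
            exact hv (Subtype.ext h.symm)
          · intro h
            exact absurd (Finset.mem_univ _) h
        · rw [hy u hu, sub_self]
          apply Finset.sum_eq_zero
          intro v _
          rw [Finsupp.single_eq_of_ne]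
          rintro rfl
          exact hu v.2
      rw [hsum, QuotientAddGroup.mk_sub, hD,
        (QuotientAddGroup.eq_zero_iff _).mpr (AddSubgroup.mem_sup_left (divisor_mem_principal hy0)),
        sub_zero]
      rfl
    · -- `lam` kills the image of `Ψ`
      intro x
      rw [hΨ, hlam (fun _ => (x : Fˣ))]
      have hsum : (∑ v : ↥S, Finsupp.single v.1 (ord v.1 ((x : Fˣ) : F)))
          = div ((x : Fˣ) : F) - ∑ w ∈ T, Finsupp.single w (ord w ((x : Fˣ) : F)) := by
        ext u
        rw [Finsupp.finsetSum_apply, Finsupp.sub_apply, Finsupp.finsetSum_apply, divisor_apply]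
        by_cases hu : u ∈ S
        · have huT : u ∉ T := Finset.disjoint_left.mp hST hu
          rw [Finset.sum_eq_single ⟨u, hu⟩, Finsupp.single_eq_same, Finset.sum_eq_zero, sub_zero]
          · intro w hw
            rw [Finsupp.single_eq_of_ne]
            rintro rfl
            exact huT hw
          · intro v _ hv
            rw [Finsupp.single_eq_of_ne]
            intro h
            exact hv (Subtype.ext h.symm)
          · intro h
            exact absurd (Finset.mem_univ _) h
        · have h0 : ∑ v : ↥S, (Finsupp.single v.1 (ord v.1 ((x : Fˣ) : F)) : Dv F) u = 0 := by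
            apply Finset.sum_eq_zero
            intro v _
            rw [Finsupp.single_eq_of_ne]
            rintro rfl
            exact hu v.2
          rw [h0]
          by_cases huT : u ∈ T
          · rw [Finset.sum_eq_single u, Finsupp.single_eq_same, sub_self]
            · intro w _ hw
              rw [Finsupp.single_eq_of_ne]
              exact fun h => hw h.symm
            · intro h
              exact absurd huT h
          · rw [Finset.sum_eq_zero, sub_zero]
            · exact (mem_SU_iff.mp x.2 u (by simp [hu, huT])).symm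
            · intro w hw
              rw [Finsupp.single_eq_of_ne]
              rintro rfl
              exact huT hw
      have hmem : (∑ v : ↥S, Finsupp.single v.1 (ord v.1 ((x : Fˣ) : F)) : Dv F) ∈ B := by
        rw [hsum]
        exact B.sub_mem (AddSubgroup.mem_sup_left (divisor_mem_principal (x : Fˣ).ne_zero))
          (AddSubgroup.sum_mem _ fun w hw =>
            AddSubgroup.mem_sup_right (single_mem_range_of_isSplit hK (hTsplit w hw) _))
      rw [(QuotientAddGroup.eq_zero_iff _).mpr hmem, ofAdd_zero]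
  rw [AddSubgroup.index_eq_card]
  have h6 : Nat.card (Multiplicative (Dv F ⧸ B)) = Nat.card (Dv F ⧸ B) :=
    Nat.card_congr Multiplicative.toAdd
  rwa [h6] at key

/-- **(A10)**, character form, from (A2) and (A7). -/
theorem second (hA2 : A2Statement p F) (hA7 : A7Statement p F) (hK : KummerPair F F' p)
    (hunr : Unramified F F')
    (χ : Dv F →+ ZMod p) (hχ : χ ≠ 0) (hχP : ∀ x : F, x ≠ 0 → χ (div x) = 0)
    (hχN : ∀ D' : Dv F', χ (normDiv F D') = 0) (D : Dv F) (hD : χ D = 0) :
    ∃ x : F, x ≠ 0 ∧ ∃ D' : Dv F', D = div x + normDiv F D' := by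
  have hp := hK.prime
  have : Fact p.Prime := ⟨hp⟩
  obtain ⟨hne, hle⟩ := index_le hA2 hA7 hK hunr
  have hBle : principal F ⊔ (normDiv F (F' := F')).range ≤ χ.ker := by
    refine sup_le ?_ ?_
    · unfold principal
      rw [AddSubgroup.closure_le]
      rintro _ ⟨x, hx0, rfl⟩
      exact AddMonoidHom.mem_ker.mpr (hχP x hx0)
    · rintro _ ⟨D', rfl⟩
      exact AddMonoidHom.mem_ker.mpr (hχN D')
  have hrange : χ.range = ⊤ := by
    have : Fact (Nat.card (ZMod p)).Prime := ⟨by rw [Nat.card_zmod]; exact hp⟩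
    rcases AddSubgroup.eq_bot_or_eq_top_of_prime_card χ.range with h | h
    · exfalso
      apply hχ
      refine AddMonoidHom.ext fun d => ?_
      have hd : χ d ∈ χ.range := ⟨d, rfl⟩
      rw [h, AddSubgroup.mem_bot] at hd
      rw [hd]
      rfl
    · exact h
  have hkidx : χ.ker.index = p := by
    rw [AddSubgroup.index_ker, hrange, AddSubgroup.card_top, Nat.card_zmod]
  have hdvd := AddSubgroup.index_dvd_of_le hBle
  rw [hkidx] at hdvd
  have hBidx : (principal F ⊔ (normDiv F (F' := F')).range).index = p :=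
    le_antisymm hle (Nat.le_of_dvd (Nat.pos_of_ne_zero hne) hdvd)
  have hrel := AddSubgroup.relIndex_mul_index hBle
  rw [hkidx, hBidx] at hrel
  have hrel1 : (principal F ⊔ (normDiv F (F' := F')).range).relIndex χ.ker = 1 :=
    Nat.eq_of_mul_eq_mul_right hp.pos (by rw [hrel, one_mul])
  have hkle : χ.ker ≤ principal F ⊔ (normDiv F (F' := F')).range :=
    AddSubgroup.relIndex_eq_one.mp hrel1
  obtain ⟨d, hd, n, hn, hdn⟩ := AddSubgroup.mem_sup.mp (hkle (AddMonoidHom.mem_ker.mpr hD))
  obtain ⟨x, hx0, rfl⟩ := mem_principal_iff.mp hd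
  obtain ⟨D', rfl⟩ := hn
  exact ⟨x, hx0, D', hdn.symm⟩

end A10

end Fermat.Agent.S14x
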