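/-
S14 (ExtVanishingCts), Part A10, the valuation step: for subgroups `G v ≤ Fˣ` on which
`p ∣ ord v`, the valuations induce a surjective homomorphism
`∏_{v ∈ S} Fˣ ⧸ G v → (S → ℤ/p)`, and a subgroup `E ≤ Fˣ` whose image in `∏ Fˣ ⧸ G v` has
index at most `p` has valuation vectors of index at most `p` in `(S → ℤ/p)`.
-/
import Fermat.Agent.S14_Div
import Fermat.Agent.S14_DivBasic

set_option autoImplicit false

namespace Fermat.Agent.S14x.A10V

open IsDedekindDomain NumberField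

universe u

variable {F : Type u} [Field F] [NumberField F]

/-- `ord v` as a homomorphism on units. -/
noncomputable def ordHom (v : Pl F) : Fˣ →* Multiplicative ℤ where
  toFun x := Multiplicative.ofAdd (ord v (x : F))
  map_one' := by
    show Multiplicative.ofAdd (ord v ((1 : Fˣ) : F)) = 1
    rw [Units.val_one, ord_one]
    rfl
  map_mul' x y := by
    show Multiplicative.ofAdd (ord v ((x * y : Fˣ) : F)) = _
    rw [Units.val_mul, ord_mul v x.ne_zero y.ne_zero]
    rfl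

/-- `ord v mod p` as a homomorphism on units. -/
noncomputable def ordModHom (p : ℕ) (v : Pl F) : Fˣ →* Multiplicative (ZMod p) :=
  (AddMonoidHom.toMultiplicative (Int.castAddHom (ZMod p))).comp (ordHom v)

theorem ordModHom_apply (p : ℕ) (v : Pl F) (x : Fˣ) :
    ordModHom p v x = Multiplicative.ofAdd ((ord v (x : F) : ℤ) : ZMod p) := rfl

theorem ordModHom_surjective (p : ℕ) (v : Pl F) : Function.Surjective (ordModHom p v) := by
  intro c
  obtain ⟨π, hπ⟩ := exists_uniformizer v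
  have hπ0 : (π : F) ≠ 0 := by
    intro h0
    rw [h0, ord_zero] at hπ
    exact zero_ne_one hπ
  obtain ⟨k, hk⟩ := ZMod.intCast_surjective (Multiplicative.toAdd c)
  refine ⟨(Units.mk0 (π : F) hπ0) ^ k, ?_⟩
  rw [ordModHom_apply, Units.val_zpow_eq_zpow_val, Units.val_mk0, ord_zpow, hπ, mul_one, hk]
  rfl

/-- The valuation induces a surjection `Fˣ ⧸ G → ℤ/p` when `p ∣ ord v` on `G`. -/
theorem exists_val_hom (p : ℕ) (v : Pl F) (G : Subgroup Fˣ)
    (hG : ∀ x ∈ G, (p : ℤ) ∣ ord v (x : F)) :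
    ∃ φ : Fˣ ⧸ G →* Multiplicative (ZMod p), Function.Surjective φ ∧
      ∀ x : Fˣ, φ (QuotientGroup.mk x) = Multiplicative.ofAdd ((ord v (x : F) : ℤ) : ZMod p) := by
  have hker : G ≤ (ordModHom p v).ker := by
    intro x hx
    rw [MonoidHom.mem_ker, ordModHom_apply, (ZMod.intCast_zmod_eq_zero_iff_dvd _ p).mpr (hG x hx)]
    rfl
  refine ⟨QuotientGroup.lift G (ordModHom p v) hker, ?_, fun x => rfl⟩
  intro c
  obtain ⟨x, hx⟩ := ordModHom_surjective p v c
  exact ⟨QuotientGroup.mk x, hx⟩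

/-- The joint valuation map `∏_{v ∈ S} Fˣ ⧸ G v → (S → ℤ/p)`. -/
theorem exists_val_pi (p : ℕ) (S : Finset (Pl F)) (G : Pl F → Subgroup Fˣ)
    (hG : ∀ v, ∀ x ∈ G v, (p : ℤ) ∣ ord v (x : F)) :
    ∃ val : ((v : ↥S) → Fˣ ⧸ G v.1) →* Multiplicative (↥S → ZMod p), Function.Surjective val ∧
      ∀ x : Fˣ, val (fun v => (QuotientGroup.mk x : Fˣ ⧸ G v.1)) =
        Multiplicative.ofAdd (fun v : ↥S => ((ord v.1 (x : F) : ℤ) : ZMod p)) := by
  choose φ hφs hφ using fun v : ↥S => exists_val_hom p v.1 (G v.1) (hG v.1)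
  let val : ((v : ↥S) → Fˣ ⧸ G v.1) →* Multiplicative (↥S → ZMod p) :=
    { toFun := fun y => Multiplicative.ofAdd (fun v : ↥S => Multiplicative.toAdd (φ v (y v)))
      map_one' := by
        apply Multiplicative.toAdd.injective
        funext v
        show Multiplicative.toAdd (φ v 1) = 0
        rw [map_one]
        rfl
      map_mul' := by
        intro y z
        apply Multiplicative.toAdd.injective
        funext v
        show Multiplicative.toAdd (φ v (y v * z v)) = _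
        rw [map_mul]
        rfl }
  refine ⟨val, ?_, ?_⟩
  · intro c
    choose y hy using fun v : ↥S => hφs v (Multiplicative.ofAdd (Multiplicative.toAdd c v))
    refine ⟨y, ?_⟩
    apply Multiplicative.toAdd.injective
    funext v
    show Multiplicative.toAdd (φ v (y v)) = _
    rw [hy v]
    rfl
  · intro x
    apply Multiplicative.toAdd.injective
    funext v
    show Multiplicative.toAdd (φ v (QuotientGroup.mk x)) = _
    rw [hφ v x]
    rfl

/-- The diagonal map `Fˣ → ∏_{v ∈ S} Fˣ ⧸ G v`. -/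
noncomputable def diag (S : Finset (Pl F)) (G : Pl F → Subgroup Fˣ) :
    Fˣ →* ((v : ↥S) → Fˣ ⧸ G v.1) :=
  MonoidHom.pi fun v : ↥S => QuotientGroup.mk' (G v.1)

theorem diag_apply (S : Finset (Pl F)) (G : Pl F → Subgroup Fˣ) (x : Fˣ) (v : ↥S) :
    diag S G x v = (QuotientGroup.mk x : Fˣ ⧸ G v.1) := rfl

theorem mem_ker_diag (S : Finset (Pl F)) (G : Pl F → Subgroup Fˣ) (x : Fˣ) :
    x ∈ (diag S G).ker ↔ ∀ v ∈ S, x ∈ G v := by
  rw [MonoidHom.mem_ker]
  constructor
  · intro h v hv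
    have := congrFun h ⟨v, hv⟩
    rw [diag_apply] at this
    exact (QuotientGroup.eq_one_iff x).mp this
  · intro h
    funext v
    rw [diag_apply]
    exact (QuotientGroup.eq_one_iff x).mpr (h v.1 v.2)

/-- the cardinality of `∏_{v ∈ S} Fˣ ⧸ G v` -/
theorem card_pi_quotient (S : Finset (Pl F)) (G : Pl F → Subgroup Fˣ) :
    Nat.card ((v : ↥S) → Fˣ ⧸ G v.1) = ∏ v ∈ S, (G v).index := by
  rw [Nat.card_pi, ← Finset.prod_coe_sort S (fun v => (G v).index)]
  rfl

/-- **(A10-val)**: if the image of `E` in `Y = ∏_{v ∈ S} Fˣ ⧸ G v` has index at most `p`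
(as a count: `|Y| ≤ p * |image|`, `Y` finite), then the valuation vectors
`(ord v x mod p)_{v ∈ S}`, `x ∈ E`, form a subgroup of index at most `p` of `(S → ℤ/p)`. -/
theorem exists_W_of_count {p : ℕ} (S : Finset (Pl F)) (G : Pl F → Subgroup Fˣ)
    (hG : ∀ v, ∀ x ∈ G v, (p : ℤ) ∣ ord v (x : F)) (hfin : ∀ v ∈ S, (G v).index ≠ 0)
    (E : Subgroup Fˣ)
    (hcount : Nat.card ((v : ↥S) → Fˣ ⧸ G v.1) ≤
      p * Nat.card ↥(Subgroup.map (N := (v : ↥S) → Fˣ ⧸ G v.1) (diag S G) E)) :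
    ∃ W : AddSubgroup (↥S → ZMod p), (W.index ≠ 0 ∧ W.index ≤ p) ∧
      ∀ c : ↥S → ZMod p, c ∈ W →
        ∃ x : Fˣ, x ∈ E ∧ ∀ v : ↥S, ((ord v.1 (x : F) : ℤ) : ZMod p) = c v := by
  classical
  set ψ : Fˣ →* ((v : ↥S) → Fˣ ⧸ G v.1) := diag S G with hψ
  obtain ⟨val, hvals, hval⟩ := exists_val_pi p S G hG
  -- `Y` is finite
  have hYpos : Nat.card ((v : ↥S) → Fˣ ⧸ G v.1) ≠ 0 := by
    rw [card_pi_quotient]
    exact Finset.prod_ne_zero_iff.mpr hfin
  haveI : Finite ((v : ↥S) → Fˣ ⧸ G v.1) := Nat.finite_of_card_ne_zero hYpos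
  set H : Subgroup ((v : ↥S) → Fˣ ⧸ G v.1) :=
    Subgroup.map (N := (v : ↥S) → Fˣ ⧸ G v.1) ψ E with hH
  have hHidx0 : H.index ≠ 0 := Subgroup.index_ne_zero_of_finite
  have hHidx : H.index ≤ p := by
    have h1 : Nat.card H * H.index = Nat.card ((v : ↥S) → Fˣ ⧸ G v.1) := H.card_mul_index
    have hHpos : 0 < Nat.card H := Nat.card_pos
    have h2 : Nat.card H * H.index ≤ Nat.card H * p := by
      rw [h1, mul_comm]; exact hcount
    exact Nat.le_of_mul_le_mul_left h2 hHpos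
  have hdvd : (H.map val).index ∣ H.index := Subgroup.index_map_dvd H hvals
  have hW0 : (H.map val).index ≠ 0 := fun h0 => hHidx0 (Nat.eq_zero_of_zero_dvd (h0 ▸ hdvd))
  have hWle : (H.map val).index ≤ p :=
    le_trans (Nat.le_of_dvd (Nat.pos_of_ne_zero hHidx0) hdvd) hHidx
  refine ⟨AddSubgroup.toSubgroup.symm (H.map val), ⟨?_, ?_⟩, ?_⟩
  · rw [← AddSubgroup.index_toSubgroup, OrderIso.apply_symm_apply]; exact hW0
  · rw [← AddSubgroup.index_toSubgroup, OrderIso.apply_symm_apply]; exact hWle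
  · intro c hc
    have hc' : Multiplicative.ofAdd c ∈ H.map val := hc
    obtain ⟨y, hyH, hyc⟩ := Subgroup.mem_map.mp hc'
    obtain ⟨x, hxE, rfl⟩ := Subgroup.mem_map.mp hyH
    refine ⟨x, hxE, fun v => ?_⟩
    have h3 : val (ψ x) = Multiplicative.ofAdd (fun v : ↥S => ((ord v.1 (x : F) : ℤ) : ZMod p)) :=
      hval x
    rw [h3] at hyc
    exact congrFun (Multiplicative.ofAdd.injective hyc) v

end Fermat.Agent.S14x.A10V
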