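import Mathlib

set_option autoImplicit false

/-!
# S14 / (A8): local counts

For a Dedekind domain `R` with fraction field `K`, a height-one prime `v` and integers `p`, `M`,
`Gv v p M = K^{×p} · U_v^{(M+1)}` is the subgroup of elements of `Kˣ` which are a `p`-th power
times a `v`-unit congruent to `1` modulo `v^(M+1)`.  Its index is at most `p` times the number
of `p`-th roots of unity in `(R ⧸ v^(M+1))ˣ`.
-/

namespace Fermat.Agent.S14x.LocalCount

open IsDedekindDomain WithZero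

section general

variable {R : Type*} [CommRing R] [IsDedekindDomain R] {K : Type*} [Field K] [Algebra R K]
  [IsFractionRing R K] (v : HeightOneSpectrum R)

/-- Integral approximation of a `v`-integral element of `K`. -/
theorem exists_approx {x : K} (hx : v.valuation K x ≤ 1) (n : ℕ) :
    ∃ a : R, v.valuation K (algebraMap R K a - x) ≤ exp (-(n : ℤ)) := by
  obtain ⟨a, ha⟩ := v.exists_valuation_sub_lt_of_integer hx
    (Units.mk0 (exp (-(n : ℤ)) * exp (1 : ℤ)) (mul_ne_zero exp_ne_zero exp_ne_zero))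
  exact ⟨a, (lt_mul_exp_iff_le exp_ne_zero).mp ha⟩

/-- Two integral approximations of the same element agree modulo `v^n`. -/
theorem mk_eq_mk_of_approx {x : K} {a b : R} (n : ℕ)
    (ha : v.valuation K (algebraMap R K a - x) ≤ exp (-(n : ℤ)))
    (hb : v.valuation K (algebraMap R K b - x) ≤ exp (-(n : ℤ))) :
    Ideal.Quotient.mk (v.asIdeal ^ n) a = Ideal.Quotient.mk (v.asIdeal ^ n) b := by
  rw [Ideal.Quotient.eq, ← v.intValuation_le_pow_iff_mem, ← v.valuation_of_algebraMap (K := K)]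
  show v.valuation K (algebraMap R K (a - b)) ≤ _
  rw [map_sub]
  have h : algebraMap R K a - algebraMap R K b
      = (algebraMap R K a - x) - (algebraMap R K b - x) := by ring
  rw [h]
  exact le_trans (Valuation.map_sub _ _ _) (max_le ha hb)

/-- The subgroup `K^{×p} · U_v^{(M+1)}`. -/
def Gv (p M : ℕ) : Subgroup Kˣ where
  carrier := {x | ∃ z : Kˣ, v.valuation K ((x : K) * (z : K) ^ p - 1) ≤ exp (-((M : ℤ) + 1))}
  one_mem' := ⟨1, by simp⟩
  mul_mem' := by
    rintro x y ⟨z, hz⟩ ⟨t, ht⟩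
    refine ⟨z * t, ?_⟩
    have hlt : exp (-((M : ℤ) + 1)) < (1 : ℤᵐ⁰) := by
      rw [← exp_zero, exp_lt_exp]; omega
    have hb : v.valuation K ((y : K) * (t : K) ^ p) = 1 := by
      have h1 : (y : K) * (t : K) ^ p = ((y : K) * (t : K) ^ p - 1) + 1 := by ring
      rw [h1]
      have := Valuation.map_add_eq_of_lt_right (v.valuation K)
        (x := (y : K) * (t : K) ^ p - 1) (y := 1) (by rw [map_one]; exact lt_of_le_of_lt ht hlt)
      rw [this, map_one]
    have h2 : ((x * y : Kˣ) : K) * ((z * t : Kˣ) : K) ^ p - 1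
        = ((x : K) * (z : K) ^ p - 1) * ((y : K) * (t : K) ^ p) + ((y : K) * (t : K) ^ p - 1) := by
      push_cast; ring
    rw [h2]
    refine le_trans (Valuation.map_add _ _ _) (max_le ?_ ht)
    rw [map_mul, hb, mul_one]
    exact hz
  inv_mem' := by
    rintro x ⟨z, hz⟩
    refine ⟨z⁻¹, ?_⟩
    have hlt : exp (-((M : ℤ) + 1)) < (1 : ℤᵐ⁰) := by
      rw [← exp_zero, exp_lt_exp]; omega
    have ha : v.valuation K ((x : K) * (z : K) ^ p) = 1 := by
      have h1 : (x : K) * (z : K) ^ p = ((x : K) * (z : K) ^ p - 1) + 1 := by ring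
      rw [h1]
      have := Valuation.map_add_eq_of_lt_right (v.valuation K)
        (x := (x : K) * (z : K) ^ p - 1) (y := 1) (by rw [map_one]; exact lt_of_le_of_lt hz hlt)
      rw [this, map_one]
    have hne : (x : K) * (z : K) ^ p ≠ 0 := by
      intro h; rw [h, map_zero] at ha; exact zero_ne_one ha
    have e : ((x⁻¹ : Kˣ) : K) * ((z⁻¹ : Kˣ) : K) ^ p = ((x : K) * (z : K) ^ p)⁻¹ := by
      push_cast
      rw [mul_inv, inv_pow]
    have h2 : ((x⁻¹ : Kˣ) : K) * ((z⁻¹ : Kˣ) : K) ^ p - 1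
        = -(((x : K) * (z : K) ^ p - 1) * ((x : K) * (z : K) ^ p)⁻¹) := by
      rw [e]
      field_simp
      ring
    rw [h2, Valuation.map_neg, map_mul, map_inv₀, ha, inv_one, mul_one]
    exact hz

theorem mem_Gv_iff {p M : ℕ} {x : Kˣ} :
    x ∈ Gv v p M ↔ ∃ z : Kˣ, v.valuation K ((x : K) * (z : K) ^ p - 1) ≤ exp (-((M : ℤ) + 1)) :=
  Iff.rfl

/-- The subgroup of `v`-units. -/
def unitsAt : Subgroup Kˣ where
  carrier := {x | v.valuation K (x : K) = 1}
  one_mem' := by simp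
  mul_mem' := by
    intro x y hx hy
    show v.valuation K ((x * y : Kˣ) : K) = 1
    have hx' : v.valuation K (x : K) = 1 := hx
    have hy' : v.valuation K (y : K) = 1 := hy
    rw [Units.val_mul, map_mul, hx', hy', mul_one]
  inv_mem' := by
    intro x hx
    show v.valuation K ((x⁻¹ : Kˣ) : K) = 1
    have hx' : v.valuation K (x : K) = 1 := hx
    rw [Units.val_inv_eq_inv_val, map_inv₀, hx', inv_one]

theorem mem_unitsAt_iff {x : Kˣ} : x ∈ unitsAt v ↔ v.valuation K (x : K) = 1 := Iff.rfl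

/-- Reduction modulo `v^n` of `v`-units of `K`, as a monoid homomorphism into the quotient
ring. -/
noncomputable def redHom (n : ℕ) : unitsAt (K := K) v →* (R ⧸ v.asIdeal ^ n) where
  toFun x := Ideal.Quotient.mk (v.asIdeal ^ n)
    (Classical.choose (exists_approx v (le_of_eq x.2) n))
  map_one' := by
    have h := Classical.choose_spec
      (exists_approx v (le_of_eq (1 : unitsAt (K := K) v).2) n)
    have h1 : v.valuation K (algebraMap R K 1 - (((1 : unitsAt (K := K) v) : Kˣ) : K))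
        ≤ exp (-(n : ℤ)) := by simp
    rw [mk_eq_mk_of_approx v n h h1, map_one]
  map_mul' := by
    intro x y
    have hx := Classical.choose_spec (exists_approx v (le_of_eq x.2) n)
    have hy := Classical.choose_spec (exists_approx v (le_of_eq y.2) n)
    have hxy := Classical.choose_spec (exists_approx v (le_of_eq (x * y).2) n)
    set a := Classical.choose (exists_approx v (le_of_eq x.2) n)
    set b := Classical.choose (exists_approx v (le_of_eq y.2) n)
    rw [← map_mul]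
    refine mk_eq_mk_of_approx v n hxy ?_
    have hy1 : v.valuation K ((y : Kˣ) : K) = 1 := y.2
    have e : algebraMap R K (a * b) - (((x * y : unitsAt v) : Kˣ) : K)
        = algebraMap R K a * (algebraMap R K b - ((y : Kˣ) : K))
          + ((y : Kˣ) : K) * (algebraMap R K a - ((x : Kˣ) : K)) := by
      simp only [Subgroup.coe_mul, Units.val_mul, map_mul]
      ring
    rw [e]
    refine le_trans (Valuation.map_add _ _ _) (max_le ?_ ?_)
    · rw [map_mul]
      calc v.valuation K (algebraMap R K a) * v.valuation K (algebraMap R K b - ((y : Kˣ) : K))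
          ≤ 1 * exp (-(n : ℤ)) := mul_le_mul' (v.valuation_le_one a) hy
        _ = exp (-(n : ℤ)) := one_mul _
    · rw [map_mul, hy1, one_mul]
      exact hx

theorem redHom_eq_mk (n : ℕ) (x : unitsAt (K := K) v) (a : R)
    (ha : v.valuation K (algebraMap R K a - ((x : Kˣ) : K)) ≤ exp (-(n : ℤ))) :
    redHom v n x = Ideal.Quotient.mk (v.asIdeal ^ n) a :=
  mk_eq_mk_of_approx v n (Classical.choose_spec (exists_approx v (le_of_eq x.2) n)) ha

theorem redHom_spec (n : ℕ) (x : unitsAt (K := K) v) :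
    ∃ a : R, v.valuation K (algebraMap R K a - ((x : Kˣ) : K)) ≤ exp (-(n : ℤ)) ∧
      redHom v n x = Ideal.Quotient.mk (v.asIdeal ^ n) a :=
  ⟨_, Classical.choose_spec (exists_approx v (le_of_eq x.2) n), rfl⟩

/-- Reduction modulo `v^n` of `v`-units, into the unit group of the quotient. -/
noncomputable def redUnits (n : ℕ) : unitsAt (K := K) v →* (R ⧸ v.asIdeal ^ n)ˣ :=
  (redHom v n).toHomUnits

theorem coe_redUnits (n : ℕ) (x : unitsAt (K := K) v) :
    ((redUnits v n x : (R ⧸ v.asIdeal ^ n)ˣ) : R ⧸ v.asIdeal ^ n) = redHom v n x := rfl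

/-- The valuation of a unit, as an integer modulo `p`. -/
noncomputable def ordMod (p : ℕ) : Kˣ →* Multiplicative (ZMod p) where
  toFun x := Multiplicative.ofAdd ((log (v.valuation K (x : K)) : ℤ) : ZMod p)
  map_one' := by simp
  map_mul' := by
    intro x y
    have hx : v.valuation K (x : K) ≠ 0 := (Valuation.ne_zero_iff _).mpr x.ne_zero
    have hy : v.valuation K (y : K) ≠ 0 := (Valuation.ne_zero_iff _).mpr y.ne_zero
    rw [Units.val_mul, map_mul, log_mul hx hy, Int.cast_add, ofAdd_add]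

theorem ordMod_eq_one_iff (p : ℕ) (x : Kˣ) :
    ordMod v p x = 1 ↔ (p : ℤ) ∣ log (v.valuation K (x : K)) := by
  show Multiplicative.ofAdd ((log (v.valuation K (x : K)) : ℤ) : ZMod p) = 1 ↔ _
  rw [ofAdd_eq_one, ZMod.intCast_zmod_eq_zero_iff_dvd]

/-- The unit part `x ↦ x ϖ^(-ord x)` with respect to an element `ϖ` of valuation `exp 1`. -/
noncomputable def unitPart (ϖ : Kˣ) : Kˣ →* Kˣ where
  toFun x := x * ϖ ^ (-(log (v.valuation K (x : K))))
  map_one' := by simp
  map_mul' := by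
    intro x y
    have hx : v.valuation K (x : K) ≠ 0 := (Valuation.ne_zero_iff _).mpr x.ne_zero
    have hy : v.valuation K (y : K) ≠ 0 := (Valuation.ne_zero_iff _).mpr y.ne_zero
    rw [Units.val_mul, map_mul, log_mul hx hy, neg_add, zpow_add]
    exact mul_mul_mul_comm _ _ _ _

theorem unitPart_mem (ϖ : Kˣ) (hϖ : v.valuation K (ϖ : K) = exp (1 : ℤ)) (x : Kˣ) :
    unitPart v ϖ x ∈ unitsAt v := by
  have hx : v.valuation K (x : K) ≠ 0 := (Valuation.ne_zero_iff _).mpr x.ne_zero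
  show v.valuation K ((x * ϖ ^ (-(log (v.valuation K (x : K)))) : Kˣ) : K) = 1
  rw [Units.val_mul, Units.val_zpow_eq_zpow_val, map_mul, map_zpow₀, hϖ, ← exp_zsmul,
    smul_eq_mul, mul_one, exp_neg, exp_log hx, mul_inv_cancel₀ hx]

/-- The unit part, as a homomorphism into the group of `v`-units. -/
noncomputable def unitPartU (ϖ : Kˣ) (hϖ : v.valuation K (ϖ : K) = exp (1 : ℤ)) :
    Kˣ →* unitsAt (K := K) v :=
  (unitPart v ϖ).codRestrict (unitsAt v) (unitPart_mem v ϖ hϖ)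

theorem coe_unitPartU (ϖ : Kˣ) (hϖ : v.valuation K (ϖ : K) = exp (1 : ℤ)) (x : Kˣ) :
    ((unitPartU v ϖ hϖ x : unitsAt (K := K) v) : Kˣ)
      = x * ϖ ^ (-(log (v.valuation K (x : K)))) := rfl

/-- The local invariant map: valuation modulo `p` and unit part modulo `v^(M+1)` and
`p`-th powers. -/
noncomputable def Phi (p M : ℕ) (ϖ : Kˣ) (hϖ : v.valuation K (ϖ : K) = exp (1 : ℤ)) :
    Kˣ →* Multiplicative (ZMod p) ×
      ((R ⧸ v.asIdeal ^ (M + 1))ˣ ⧸ (powMonoidHom p : (R ⧸ v.asIdeal ^ (M + 1))ˣ →* _).range) :=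
  (ordMod v p).prod ((QuotientGroup.mk' _).comp ((redUnits v (M + 1)).comp (unitPartU v ϖ hϖ)))

/-- An element of `R` which is a unit modulo `v^(n+1)` has valuation `1`. -/
theorem valuation_eq_one_of_isUnit_mk {n : ℕ} {y : R}
    (hy : IsUnit (Ideal.Quotient.mk (v.asIdeal ^ (n + 1)) y)) :
    v.valuation K (algebraMap R K y) = 1 := by
  refine le_antisymm (v.valuation_le_one y) (not_lt.mp fun hlt => ?_)
  have hmem : y ∈ v.asIdeal := (v.valuation_lt_one_iff_mem (K := K) y).mp hlt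
  have hle : v.asIdeal ^ (n + 1) ≤ v.asIdeal := Ideal.pow_le_self (by omega)
  have h1 : IsUnit (Ideal.Quotient.factor hle (Ideal.Quotient.mk (v.asIdeal ^ (n + 1)) y)) :=
    hy.map _
  rw [Ideal.Quotient.factor_mk, Ideal.Quotient.eq_zero_iff_mem.mpr hmem] at h1
  have : Nontrivial (R ⧸ v.asIdeal) := Ideal.Quotient.nontrivial_iff.mpr v.isPrime.ne_top
  exact not_isUnit_zero h1

theorem ker_Phi_le (p M : ℕ) (ϖ : Kˣ) (hϖ : v.valuation K (ϖ : K) = exp (1 : ℤ)) :
    (Phi v p M ϖ hϖ).ker ≤ Gv v p M := by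
  intro x hx
  rw [MonoidHom.mem_ker] at hx
  have h1 : ordMod v p x = 1 := congrArg Prod.fst hx
  have h2 : (QuotientGroup.mk' _) (redUnits v (M + 1) (unitPartU v ϖ hϖ x)) = 1 :=
    congrArg Prod.snd hx
  rw [ordMod_eq_one_iff] at h1
  obtain ⟨k, hk⟩ := h1
  rw [QuotientGroup.mk'_apply, QuotientGroup.eq_one_iff] at h2
  obtain ⟨b, hb⟩ := h2
  obtain ⟨y, hy⟩ := Ideal.Quotient.mk_surjective (b : R ⧸ v.asIdeal ^ (M + 1))
  have hyu : v.valuation K (algebraMap R K y) = 1 :=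
    valuation_eq_one_of_isUnit_mk v (hy ▸ b.isUnit)
  have hy0 : algebraMap R K y ≠ 0 := by
    intro h; rw [h, map_zero] at hyu; exact zero_ne_one hyu
  obtain ⟨a, ha, hra⟩ := redHom_spec v (M + 1) (unitPartU v ϖ hϖ x)
  -- `a ≡ y ^ p` modulo `v^(M+1)`
  have hay : Ideal.Quotient.mk (v.asIdeal ^ (M + 1)) a
      = Ideal.Quotient.mk (v.asIdeal ^ (M + 1)) (y ^ p) := by
    rw [← hra, ← coe_redUnits, ← hb, map_pow, hy]
    rfl
  rw [Ideal.Quotient.eq, ← v.intValuation_le_pow_iff_mem, ← v.valuation_of_algebraMap (K := K)]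
    at hay
  have hu : v.valuation K
      ((((unitPartU v ϖ hϖ x : unitsAt (K := K) v) : Kˣ) : K) - algebraMap R K y ^ p)
      ≤ exp (-(((M + 1 : ℕ)) : ℤ)) := by
    have e : (((unitPartU v ϖ hϖ x : unitsAt (K := K) v) : Kˣ) : K) - algebraMap R K y ^ p
        = -(algebraMap R K a - (((unitPartU v ϖ hϖ x : unitsAt (K := K) v) : Kˣ) : K))
          + algebraMap R K (a - y ^ p) := by
      rw [map_sub, map_pow]; ring
    rw [e]
    refine le_trans (Valuation.map_add _ _ _) (max_le ?_ hay)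
    rw [Valuation.map_neg]
    exact ha
  refine ⟨ϖ ^ (-k) * (Units.mk0 _ hy0)⁻¹, ?_⟩
  have e2 : (x : K) * ((ϖ ^ (-k) * (Units.mk0 _ hy0)⁻¹ : Kˣ) : K) ^ p - 1
      = ((((unitPartU v ϖ hϖ x : unitsAt (K := K) v) : Kˣ) : K) - algebraMap R K y ^ p)
        * (algebraMap R K y ^ p)⁻¹ := by
    rw [coe_unitPartU, hk]
    have hp : (ϖ : Kˣ) ^ (-((p : ℤ) * k)) = (ϖ ^ (-k)) ^ p := by
      rw [← zpow_natCast, ← zpow_mul]; congr 1; ring
    rw [hp]
    push_cast
    rw [Units.val_mk0, mul_pow, inv_pow]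
    field_simp
  rw [e2, map_mul, map_inv₀, map_pow, hyu, one_pow, inv_one, mul_one]
  have hcast : (((M + 1 : ℕ)) : ℤ) = (M : ℤ) + 1 := by push_cast; ring
  rw [hcast] at hu
  exact hu

/-- For a finite commutative group, `|A / A^p| = |A[p]|`. -/
theorem card_quotient_pow_range {A : Type*} [CommGroup A] [Finite A] (p : ℕ) :
    Nat.card (A ⧸ (powMonoidHom p : A →* A).range) = Nat.card {u : A // u ^ p = 1} := by
  have h1 := Subgroup.card_mul_index (powMonoidHom p : A →* A).ker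
  rw [Subgroup.index_ker] at h1
  have h2 := Subgroup.card_mul_index (powMonoidHom p : A →* A).range
  have h3 : Nat.card (powMonoidHom p : A →* A).range ≠ 0 := Nat.card_pos.ne'
  have h4 : (powMonoidHom p : A →* A).range.index = Nat.card (powMonoidHom p : A →* A).ker := by
    apply Nat.eq_of_mul_eq_mul_left (Nat.pos_of_ne_zero h3)
    rw [h2, ← h1, mul_comm]
  rw [← Subgroup.index_eq_card, h4]
  exact Nat.card_congr (Equiv.subtypeEquivRight (fun u => by rw [MonoidHom.mem_ker]; rfl))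

/-- **(A8.1)** The index of `Gv v p M = K^{×p} · U_v^{(M+1)}` in `Kˣ` is at most `p` times the
number of `p`-th roots of unity of `(R ⧸ v^(M+1))ˣ`. -/
theorem card_quotient_Gv_le (p M : ℕ) [NeZero p] [Finite (R ⧸ v.asIdeal ^ (M + 1))] :
    Nat.card (Kˣ ⧸ Gv v p M)
      ≤ p * Nat.card {u : (R ⧸ v.asIdeal ^ (M + 1))ˣ // u ^ p = 1} := by
  obtain ⟨π, hπ⟩ := v.valuation_exists_uniformizer K
  have hπ0 : π ≠ 0 := by
    rintro rfl
    rw [map_zero] at hπ
    exact exp_ne_zero hπ.symm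
  have hϖ : v.valuation K (((Units.mk0 π hπ0)⁻¹ : Kˣ) : K) = exp (1 : ℤ) := by
    rw [Units.val_inv_eq_inv_val, Units.val_mk0, map_inv₀, hπ, ← exp_neg, neg_neg]
  have hle := ker_Phi_le v p M _ hϖ
  rw [← Subgroup.index_eq_card]
  have hker := Subgroup.index_ker (G' := Multiplicative (ZMod p) ×
      ((R ⧸ v.asIdeal ^ (M + 1))ˣ ⧸ (powMonoidHom p : (R ⧸ v.asIdeal ^ (M + 1))ˣ →* _).range))
    (Phi v p M _ hϖ)
  have hidx : (Phi v p M _ hϖ).ker.index
      ≤ p * Nat.card {u : (R ⧸ v.asIdeal ^ (M + 1))ˣ // u ^ p = 1} := by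
    rw [hker]
    refine le_trans (Nat.card_le_card_of_injective _ Subtype.val_injective) (le_of_eq ?_)
    rw [Nat.card_prod, card_quotient_pow_range]
    congr 1
    exact (Nat.card_congr Multiplicative.toAdd).trans (Nat.card_zmod p)
  have hne : (Phi v p M _ hϖ).ker.index ≠ 0 := by
    rw [hker]; exact Nat.card_pos.ne'
  exact le_trans (Nat.le_of_dvd (Nat.pos_of_ne_zero hne) (Subgroup.index_dvd_of_le hle)) hidx

end general

section roots

variable {R : Type*} [CommRing R] [IsDedekindDomain R] (v : HeightOneSpectrum R)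

theorem intValuation_eq_one_of_pow_eq_one {μ : R} {n : ℕ} (h : μ ^ n = 1) (hn : n ≠ 0) :
    v.intValuation μ = 1 := by
  refine le_antisymm (v.intValuation_le_one μ) (not_lt.mp fun hlt => ?_)
  have hmem : μ ∈ v.asIdeal := (v.intValuation_lt_one_iff_mem μ).mp hlt
  have h1 : (1 : R) ∈ v.asIdeal := h ▸ Ideal.pow_mem_of_mem _ hmem n (Nat.pos_of_ne_zero hn)
  exact v.isPrime.ne_top ((Ideal.eq_top_iff_one _).mpr h1)

theorem intValuation_le_of_dvd {a b : R} (h : a ∣ b) : v.intValuation b ≤ v.intValuation a := by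
  obtain ⟨c, rfl⟩ := h
  rw [map_mul]
  exact mul_le_of_le_one_right' (v.intValuation_le_one c)

variable {p : ℕ} [Fact p.Prime] {ζ : R} (hζ : IsPrimitiveRoot ζ p)

include hζ

theorem intValuation_one_sub_eq {η : R} (hη : η ^ p = 1) (hη1 : η ≠ 1) :
    v.intValuation (1 - η) = v.intValuation (1 - ζ) := by
  have hp : p.Prime := Fact.out
  have : NeZero p := ⟨hp.ne_zero⟩
  have hηp : IsPrimitiveRoot η p := by
    rw [IsPrimitiveRoot.iff_orderOf]
    exact orderOf_eq_prime hη hη1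
  obtain ⟨i, -, hi⟩ := hζ.eq_pow_of_pow_eq_one hη
  obtain ⟨j, -, hj⟩ := hηp.eq_pow_of_pow_eq_one hζ.pow_eq_one
  refine le_antisymm ?_ ?_
  · rw [← hi]; exact intValuation_le_of_dvd v (one_sub_dvd_one_sub_pow ζ i)
  · rw [← hj]; exact intValuation_le_of_dvd v (one_sub_dvd_one_sub_pow η j)

theorem intValuation_sub_eq {μ μ' : R} (hμ : μ ^ p = 1) (hμ' : μ' ^ p = 1) (hne : μ ≠ μ') :
    v.intValuation (μ - μ') = v.intValuation (1 - ζ) := by
  have hp : p.Prime := Fact.out
  have hmu : μ * μ ^ (p - 1) = 1 := by rw [← pow_succ', Nat.sub_add_cancel hp.one_le, hμ]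
  have e : μ - μ' = μ * (1 - μ' * μ ^ (p - 1)) := by
    linear_combination μ' * hmu
  rw [e, map_mul, intValuation_eq_one_of_pow_eq_one v hμ hp.ne_zero, one_mul]
  refine intValuation_one_sub_eq v hζ ?_ ?_
  · rw [mul_pow, hμ', one_mul, ← pow_mul, mul_comm, pow_mul, hμ, one_pow]
  · intro h
    apply hne
    calc μ = μ * (μ' * μ ^ (p - 1)) := by rw [h, mul_one]
      _ = μ' * (μ * μ ^ (p - 1)) := by ring
      _ = μ' := by rw [hmu, mul_one]

theorem intValuation_prime_eq :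
    v.intValuation (p : R) = v.intValuation (1 - ζ) ^ (p - 1) := by
  have hp : p.Prime := Fact.out
  obtain ⟨n, hn⟩ : ∃ n, p = n + 1 := ⟨p - 1, (Nat.sub_add_cancel hp.one_le).symm⟩
  have hζ' : IsPrimitiveRoot ζ (n + 1) := hn ▸ hζ
  have h := hζ'.prod_one_sub_pow_eq_order
  have h2 : (p : R) = ∏ k ∈ Finset.range n, (1 - ζ ^ (k + 1)) := by
    rw [h, hn]; push_cast; rfl
  rw [h2, map_prod, Finset.prod_eq_pow_card (b := v.intValuation (1 - ζ)), Finset.card_range, hn,
    Nat.add_sub_cancel]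
  intro k hk
  refine intValuation_one_sub_eq v hζ ?_ ?_
  · rw [← pow_mul, mul_comm, pow_mul, hζ.pow_eq_one, one_pow]
  · intro h1
    have hdvd := hζ'.dvd_of_pow_eq_one _ h1
    have hk' := Finset.mem_range.mp hk
    exact absurd (Nat.le_of_dvd (Nat.succ_pos k) hdvd) (by omega)

/-- If `u ^ p ≡ 1` modulo `v^(M+1)` with `M + 1 > p · ord_v(1 - ζ)`, then `u` is congruent to a
`p`-th root of unity modulo `v^(M+1-e)`, `e = ord_v(p)`. -/
theorem exists_root_sub_mem {M e : ℕ}
    (hM : exp (-((M : ℤ) + 1)) < v.intValuation (1 - ζ) ^ p)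
    (he : v.intValuation (p : R) = exp (-(e : ℤ)))
    {u : R} (hu : u ^ p - 1 ∈ v.asIdeal ^ (M + 1)) :
    ∃ μ ∈ Polynomial.nthRootsFinset p (1 : R), u - μ ∈ v.asIdeal ^ (M + 1 - e) := by
  classical
  have hp : p.Prime := Fact.out
  set γ := v.intValuation (1 - ζ) with hγ
  have hprod : u ^ p - 1 = ∏ μ ∈ Polynomial.nthRootsFinset p (1 : R), (u - μ) := by
    have := hζ.pow_sub_pow_eq_prod_sub_mul u 1 hp.pos
    simpa using this
  have hval : ∏ μ ∈ Polynomial.nthRootsFinset p (1 : R), v.intValuation (u - μ)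
      ≤ exp (-((M : ℤ) + 1)) := by
    rw [← map_prod, ← hprod]
    have := (v.intValuation_le_pow_iff_mem _ (M + 1)).mpr hu
    have hcast : (((M + 1 : ℕ)) : ℤ) = (M : ℤ) + 1 := by push_cast; ring
    rw [hcast] at this
    exact this
  have hcard : (Polynomial.nthRootsFinset p (1 : R)).card = p := hζ.card_nthRootsFinset
  obtain ⟨μ₀, hμ₀, hlt⟩ : ∃ μ₀ ∈ Polynomial.nthRootsFinset p (1 : R),
      v.intValuation (u - μ₀) < γ := by
    by_contra hcon
    push Not at hcon
    have : γ ^ p ≤ ∏ μ ∈ Polynomial.nthRootsFinset p (1 : R), v.intValuation (u - μ) := by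
      calc γ ^ p = γ ^ (Polynomial.nthRootsFinset p (1 : R)).card := by rw [hcard]
        _ = ∏ _μ ∈ Polynomial.nthRootsFinset p (1 : R), γ := (Finset.prod_const _).symm
        _ ≤ _ := Finset.prod_le_prod' hcon
    exact absurd (lt_of_le_of_lt (le_trans this hval) hM) (lt_irrefl _)
  refine ⟨μ₀, hμ₀, ?_⟩
  have hμ₀p : μ₀ ^ p = 1 := (Polynomial.mem_nthRootsFinset hp.pos 1).mp hμ₀
  have hothers : ∀ μ ∈ (Polynomial.nthRootsFinset p (1 : R)).erase μ₀,
      v.intValuation (u - μ) = γ := by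
    intro μ hμ
    obtain ⟨hne, hmem⟩ := Finset.mem_erase.mp hμ
    have hμp : μ ^ p = 1 := (Polynomial.mem_nthRootsFinset hp.pos 1).mp hmem
    have h1 : v.intValuation (μ₀ - μ) = γ := intValuation_sub_eq v hζ hμ₀p hμp (Ne.symm hne)
    have e1 : u - μ = (u - μ₀) + (μ₀ - μ) := by ring
    rw [e1, Valuation.map_add_eq_of_lt_right _ (by rw [h1]; exact hlt), h1]
  have hsplit : v.intValuation (u - μ₀) * γ ^ (p - 1) ≤ exp (-((M : ℤ) + 1)) := by
    rw [← Finset.mul_prod_erase _ _ hμ₀, Finset.prod_congr rfl hothers, Finset.prod_const,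
      Finset.card_erase_of_mem hμ₀, hcard] at hval
    exact hval
  rw [← intValuation_prime_eq v hζ, he] at hsplit
  have hlt_e : (e : ℤ) < M + 1 := by
    have h1 : γ ^ p ≤ γ ^ (p - 1) := by
      have : γ ^ p = γ ^ (p - 1) * γ := by rw [← pow_succ, Nat.sub_add_cancel hp.one_le]
      rw [this]; exact mul_le_of_le_one_right' (v.intValuation_le_one _)
    rw [← intValuation_prime_eq v hζ, he] at h1
    have := lt_of_lt_of_le hM h1
    rw [exp_lt_exp] at this
    omega
  rw [← v.intValuation_le_pow_iff_mem]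
  have hcast : ((M + 1 - e : ℕ) : ℤ) = (M : ℤ) + 1 - e := by omega
  rw [hcast]
  have h3 : v.intValuation (u - μ₀)
      = v.intValuation (u - μ₀) * exp (-(e : ℤ)) * exp (e : ℤ) := by
    rw [mul_assoc, ← exp_add, neg_add_cancel, exp_zero, mul_one]
  rw [h3]
  calc v.intValuation (u - μ₀) * exp (-(e : ℤ)) * exp (e : ℤ)
      ≤ exp (-((M : ℤ) + 1)) * exp (e : ℤ) := mul_le_mul' hsplit le_rfl
    _ = exp (-((M : ℤ) + 1 - e)) := by rw [← exp_add]; congr 1; ring

end roots

section count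

variable {R : Type*} [CommRing R] [IsDedekindDomain R] [Module.Free ℤ R] [Module.Finite ℤ R]
  (v : HeightOneSpectrum R)

omit [Module.Finite ℤ R] in
theorem card_quotient_pow (n : ℕ) :
    Nat.card (R ⧸ v.asIdeal ^ n) = Ideal.absNorm v.asIdeal ^ n := by
  rw [← map_pow, Ideal.absNorm_apply, Submodule.cardQuot_apply]

theorem absNorm_ne_zero : Ideal.absNorm v.asIdeal ≠ 0 := by
  rw [Ne, Ideal.absNorm_eq_zero_iff]
  exact v.ne_bot

/-- The kernel of `R ⧸ v^n → R ⧸ v^(n-e)` has `N(v)^e` elements (`e ≤ n`). -/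
theorem card_ker_factor {n e : ℕ} (he : e ≤ n) :
    Nat.card ((Ideal.Quotient.factor (Ideal.pow_le_pow_right (Nat.sub_le n e)) :
      R ⧸ v.asIdeal ^ n →+* R ⧸ v.asIdeal ^ (n - e)).toAddMonoidHom.ker)
      = Ideal.absNorm v.asIdeal ^ e := by
  set f : R ⧸ v.asIdeal ^ n →+* R ⧸ v.asIdeal ^ (n - e) :=
    Ideal.Quotient.factor (Ideal.pow_le_pow_right (Nat.sub_le n e)) with hf
  have hsurj : Function.Surjective f.toAddMonoidHom :=
    Ideal.Quotient.factor_surjective (Ideal.pow_le_pow_right (Nat.sub_le n e))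
  have h1 := AddSubgroup.card_mul_index f.toAddMonoidHom.ker
  rw [AddSubgroup.index_ker, AddMonoidHom.range_eq_top.mpr hsurj, AddSubgroup.card_top,
    card_quotient_pow, card_quotient_pow] at h1
  have h2 : Ideal.absNorm v.asIdeal ^ n
      = Ideal.absNorm v.asIdeal ^ e * Ideal.absNorm v.asIdeal ^ (n - e) := by
    rw [← pow_add, Nat.add_sub_cancel' he]
  rw [h2] at h1
  exact Nat.eq_of_mul_eq_mul_right (Nat.pos_of_ne_zero (pow_ne_zero _ (absNorm_ne_zero v))) h1

variable {p : ℕ} [Fact p.Prime] {ζ : R} (hζ : IsPrimitiveRoot ζ p)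

include hζ

/-- **(A8.3)** the number of `p`-th roots of unity modulo `v^(M+1)`. -/
theorem card_pow_eq_one_le {M e : ℕ}
    (hM : exp (-((M : ℤ) + 1)) < v.intValuation (1 - ζ) ^ p)
    (he : v.intValuation (p : R) = exp (-(e : ℤ))) :
    Nat.card {u : (R ⧸ v.asIdeal ^ (M + 1))ˣ // u ^ p = 1}
      ≤ p * Ideal.absNorm v.asIdeal ^ e := by
  classical
  have hp : p.Prime := Fact.out
  -- `e ≤ M + 1`
  have hlt_e : e ≤ M + 1 := by
    have h1 : v.intValuation (1 - ζ) ^ p ≤ v.intValuation (1 - ζ) ^ (p - 1) := by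
      have : v.intValuation (1 - ζ) ^ p
          = v.intValuation (1 - ζ) ^ (p - 1) * v.intValuation (1 - ζ) := by
        rw [← pow_succ, Nat.sub_add_cancel hp.one_le]
      rw [this]; exact mul_le_of_le_one_right' (v.intValuation_le_one _)
    rw [← intValuation_prime_eq v hζ, he] at h1
    have := lt_of_lt_of_le hM h1
    rw [exp_lt_exp] at this
    omega
  set f : R ⧸ v.asIdeal ^ (M + 1) →+* R ⧸ v.asIdeal ^ (M + 1 - e) :=
    Ideal.Quotient.factor (Ideal.pow_le_pow_right (Nat.sub_le (M + 1) e)) with hf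
  have key : ∀ u : {u : (R ⧸ v.asIdeal ^ (M + 1))ˣ // u ^ p = 1},
      ∃ μ : Polynomial.nthRootsFinset p (1 : R),
        ((u.1 : (R ⧸ v.asIdeal ^ (M + 1))ˣ) : R ⧸ v.asIdeal ^ (M + 1))
          - Ideal.Quotient.mk _ (μ : R) ∈ f.toAddMonoidHom.ker := by
    rintro ⟨u, hu⟩
    obtain ⟨y, hy⟩ := Ideal.Quotient.mk_surjective (u : R ⧸ v.asIdeal ^ (M + 1))
    have hy1 : y ^ p - 1 ∈ v.asIdeal ^ (M + 1) := by
      rw [← Ideal.Quotient.eq_zero_iff_mem, map_sub, map_pow, map_one, hy,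
        ← Units.val_pow_eq_pow_val, hu, Units.val_one, sub_self]
    obtain ⟨μ, hμ, hmem⟩ := exists_root_sub_mem v hζ hM he hy1
    refine ⟨⟨μ, hμ⟩, ?_⟩
    rw [AddMonoidHom.mem_ker]
    show f ((u : R ⧸ v.asIdeal ^ (M + 1)) - Ideal.Quotient.mk _ μ) = 0
    rw [← hy, ← map_sub, hf, Ideal.Quotient.factor_mk, Ideal.Quotient.eq_zero_iff_mem]
    exact hmem
  choose g hg using key
  have hinj : Function.Injective
      (fun u : {u : (R ⧸ v.asIdeal ^ (M + 1))ˣ // u ^ p = 1} =>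
        ((g u, ⟨_, hg u⟩) : Polynomial.nthRootsFinset p (1 : R) × f.toAddMonoidHom.ker)) := by
    intro u u' h
    simp only [Prod.mk.injEq, Subtype.mk.injEq] at h
    obtain ⟨h1, h2⟩ := h
    rw [h1] at h2
    exact Subtype.ext (Units.ext (sub_left_injective h2))
  have hfin : Finite (R ⧸ v.asIdeal ^ (M + 1)) :=
    Ideal.finiteQuotientOfFreeOfNeBot _ (pow_ne_zero _ v.ne_bot)
  refine le_trans (Nat.card_le_card_of_injective _ hinj) (le_of_eq ?_)
  rw [Nat.card_prod, card_ker_factor v hlt_e]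
  congr 1
  rw [Nat.card_eq_fintype_card, Fintype.card_coe]
  exact hζ.card_nthRootsFinset

end count

section combine

variable {R : Type*} [CommRing R] [IsDedekindDomain R] [Module.Free ℤ R] [Module.Finite ℤ R]
  {K : Type*} [Field K] [Algebra R K] [IsFractionRing R K] (v : HeightOneSpectrum R)

theorem index_Gv_ne_zero (p M : ℕ) [NeZero p] : (Gv (K := K) v p M).index ≠ 0 := by
  have hfin : Finite (R ⧸ v.asIdeal ^ (M + 1)) :=
    Ideal.finiteQuotientOfFreeOfNeBot _ (pow_ne_zero _ v.ne_bot)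
  obtain ⟨π, hπ⟩ := v.valuation_exists_uniformizer K
  have hπ0 : π ≠ 0 := by
    rintro rfl
    rw [map_zero] at hπ
    exact exp_ne_zero hπ.symm
  have hϖ : v.valuation K (((Units.mk0 π hπ0)⁻¹ : Kˣ) : K) = exp (1 : ℤ) := by
    rw [Units.val_inv_eq_inv_val, Units.val_mk0, map_inv₀, hπ, ← exp_neg, neg_neg]
  have hle := ker_Phi_le v p M _ hϖ
  have hker := Subgroup.index_ker (G' := Multiplicative (ZMod p) ×
      ((R ⧸ v.asIdeal ^ (M + 1))ˣ ⧸ (powMonoidHom p : (R ⧸ v.asIdeal ^ (M + 1))ˣ →* _).range))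
    (Phi v p M _ hϖ)
  have hne : (Phi v p M _ hϖ).ker.index ≠ 0 := by
    rw [hker]; exact Nat.card_pos.ne'
  exact ne_zero_of_dvd_ne_zero hne (Subgroup.index_dvd_of_le hle)

variable {p : ℕ} [Fact p.Prime] {ζ : R} (hζ : IsPrimitiveRoot ζ p)

include hζ

/-- **(A8.1)+(A8.3)** -/
theorem index_Gv_le {M e : ℕ}
    (hM : exp (-((M : ℤ) + 1)) < v.intValuation (1 - ζ) ^ p)
    (he : v.intValuation (p : R) = exp (-(e : ℤ))) :
    (Gv (K := K) v p M).index ≤ p ^ 2 * Ideal.absNorm v.asIdeal ^ e := by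
  have hp : p.Prime := Fact.out
  have : NeZero p := ⟨hp.ne_zero⟩
  have hfin : Finite (R ⧸ v.asIdeal ^ (M + 1)) :=
    Ideal.finiteQuotientOfFreeOfNeBot _ (pow_ne_zero _ v.ne_bot)
  rw [Subgroup.index_eq_card]
  refine le_trans (card_quotient_Gv_le (K := K) v p M) ?_
  rw [pow_two, mul_assoc]
  exact Nat.mul_le_mul_left _ (card_pow_eq_one_le v hζ hM he)

omit [Module.Free ℤ R] [Module.Finite ℤ R] in
/-- The threshold is satisfied for `M = 2 e`. -/
theorem threshold_two_mul {e : ℕ} (he : v.intValuation (p : R) = exp (-(e : ℤ))) :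
    exp (-(((2 * e : ℕ) : ℤ) + 1)) < v.intValuation (1 - ζ) ^ p := by
  have hp : p.Prime := Fact.out
  set γ := v.intValuation (1 - ζ) with hγ
  have h1 : γ ^ (p - 1) = exp (-(e : ℤ)) := by rw [← intValuation_prime_eq v hζ, he]
  have hγ1 : γ ≤ 1 := v.intValuation_le_one _
  have h2 : γ ^ (p - 1) ≤ γ := by
    obtain ⟨n, hn⟩ : ∃ n, p - 1 = n + 1 := ⟨p - 2, by have := hp.two_le; omega⟩
    rw [hn, pow_succ]
    exact mul_le_of_le_one_left' (pow_le_one' hγ1 n)
  have h3 : γ ^ p = γ ^ (p - 1) * γ := by rw [← pow_succ, Nat.sub_add_cancel hp.one_le]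
  rw [h3]
  calc exp (-(((2 * e : ℕ) : ℤ) + 1)) < exp (-(e : ℤ)) * exp (-(e : ℤ)) := by
        rw [← exp_add, exp_lt_exp]; push_cast; omega
    _ ≤ γ ^ (p - 1) * γ := by
        rw [h1]
        exact mul_le_mul' le_rfl (h1 ▸ h2)

end combine

section numberField

open NumberField

variable {F : Type*} [Field F] [NumberField F]

/-- The `v`-adic order of the natural number `p`. -/
noncomputable def eAt (v : HeightOneSpectrum (𝓞 F)) (p : ℕ) : ℕ :=
  (-(log (v.intValuation (p : 𝓞 F)))).toNat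

theorem eAt_eq_count (v : HeightOneSpectrum (𝓞 F)) {p : ℕ} (hp : p ≠ 0) :
    eAt v p = (Associates.mk v.asIdeal).count
      (Associates.mk (Ideal.span {(p : 𝓞 F)})).factors := by
  have hp0 : (p : 𝓞 F) ≠ 0 := Nat.cast_ne_zero.mpr hp
  unfold eAt
  rw [v.intValuation_def, if_neg hp0, log_exp, neg_neg, Int.toNat_natCast]

theorem intValuation_eq_exp_eAt (v : HeightOneSpectrum (𝓞 F)) {p : ℕ} (hp : p ≠ 0) :
    v.intValuation (p : 𝓞 F) = exp (-(eAt v p : ℤ)) := by
  have hp0 : (p : 𝓞 F) ≠ 0 := Nat.cast_ne_zero.mpr hp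
  rw [eAt_eq_count v hp, v.intValuation_def, if_neg hp0]

theorem eAt_eq_zero_of_notMem (v : HeightOneSpectrum (𝓞 F)) {p : ℕ} (hp : p ≠ 0)
    (h : (p : 𝓞 F) ∉ v.asIdeal) : eAt v p = 0 := by
  have h1 : v.intValuation (p : 𝓞 F) = 1 :=
    le_antisymm (v.intValuation_le_one _)
      (not_lt.mp fun hlt => h ((v.intValuation_lt_one_iff_mem _).mp hlt))
  rw [intValuation_eq_exp_eAt v hp, ← exp_zero, exp_inj] at h1
  omega

/-- **(A8.4)** `∏_{v | p} N(v)^{e_v} = p^[F:ℚ]`. -/
theorem prod_absNorm_pow_eAt {p : ℕ} (hp : p ≠ 0) (S : Finset (HeightOneSpectrum (𝓞 F)))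
    (hS : ∀ v : HeightOneSpectrum (𝓞 F), (p : 𝓞 F) ∈ v.asIdeal → v ∈ S) :
    ∏ v ∈ S, Ideal.absNorm v.asIdeal ^ eAt v p = p ^ Module.finrank ℚ F := by
  have hp0 : (p : 𝓞 F) ≠ 0 := Nat.cast_ne_zero.mpr hp
  have hI : Ideal.span {(p : 𝓞 F)} ≠ 0 := by
    rw [Ne, Ideal.zero_eq_bot, Ideal.span_singleton_eq_bot]; exact hp0
  have h1 := Ideal.finprod_heightOneSpectrum_factorization hI
  have h2 : ∏ᶠ v : HeightOneSpectrum (𝓞 F), v.maxPowDividing (Ideal.span {(p : 𝓞 F)})
      = ∏ v ∈ S, v.asIdeal ^ eAt v p := by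
    rw [finprod_eq_prod_of_mulSupport_subset (s := S)]
    · refine Finset.prod_congr rfl fun v _ => ?_
      rw [eAt_eq_count v hp]
      rfl
    · intro v hv
      rw [Function.mem_mulSupport] at hv
      refine hS v ?_
      by_contra hmem
      apply hv
      have h0 := eAt_eq_zero_of_notMem v hp hmem
      rw [eAt_eq_count v hp] at h0
      show v.asIdeal ^ _ = 1
      rw [h0, pow_zero]
  rw [h2] at h1
  have h3 := congrArg Ideal.absNorm h1
  rw [map_prod, Ideal.absNorm_span_singleton] at h3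
  have h4 : (p : 𝓞 F) = algebraMap ℤ (𝓞 F) (p : ℤ) := by simp
  rw [h4, Algebra.norm_algebraMap, RingOfIntegers.rank, Int.natAbs_pow, Int.natAbs_natCast] at h3
  rw [← h3]
  exact Finset.prod_congr rfl fun v _ => (map_pow _ _ _).symm

variable {p : ℕ} [Fact p.Prime]

/-- **(A8)** the product of the local indices. -/
theorem prod_index_Gv_le {ζ : 𝓞 F} (hζ : IsPrimitiveRoot ζ p)
    (S : Finset (HeightOneSpectrum (𝓞 F)))
    (hS : ∀ v : HeightOneSpectrum (𝓞 F), (p : 𝓞 F) ∈ v.asIdeal → v ∈ S) :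
    ∏ v ∈ S, (Gv (K := F) v p (2 * eAt v p)).index
      ≤ p ^ (2 * S.card + Module.finrank ℚ F) := by
  have hp : p.Prime := Fact.out
  calc ∏ v ∈ S, (Gv (K := F) v p (2 * eAt v p)).index
      ≤ ∏ v ∈ S, p ^ 2 * Ideal.absNorm v.asIdeal ^ eAt v p :=
        Finset.prod_le_prod' fun v _ =>
          index_Gv_le v hζ (threshold_two_mul v hζ (intValuation_eq_exp_eAt v hp.ne_zero))
            (intValuation_eq_exp_eAt v hp.ne_zero)
    _ = p ^ (2 * S.card + Module.finrank ℚ F) := by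
        rw [Finset.prod_mul_distrib, Finset.prod_const, prod_absNorm_pow_eAt hp.ne_zero S hS,
          ← pow_mul, ← pow_add]

end numberField

end Fermat.Agent.S14x.LocalCount
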