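import Fermat.Agent.S14_Div
import Fermat.Agent.S14_LocalCount

set_option autoImplicit false

/-!
# S14 / (A8): local counts, packaged form

`A8_local_of` is the packaged statement (A8) of the blueprint, with the local Kummer
criterion (A4c) as an explicit hypothesis `A4cStatement`.
-/

namespace Fermat.Agent.S14x

open IsDedekindDomain NumberField WithZero

universe u

/-- The statement of the local Kummer criterion (A4c), used as a hypothesis. -/
def A4cStatement (F : Type u) [Field F] [NumberField F] (p : ℕ) : Prop :=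
  ∀ (F' : Type u) [Field F'] [NumberField F'] [Algebra F F'], KummerPair F F' p →
    ∀ {x : F} {θ : F'}, θ ^ p = algebraMap F F' x → (∀ y : F, y ^ p ≠ x) →
      ∀ (v : Pl F), ord v x = 0 → ∀ (y : F) (M : ℕ),
        (p : ℤ) * ord v (p : F) < (p - 1) * M → vGe v M (x - y ^ p) → IsSplit F F' v

variable {F : Type u} [Field F] [NumberField F] {p : ℕ}

theorem A8_ord_natCast (v : Pl F) (hp : p ≠ 0) :
    ord v (p : F) = (LocalCount.eAt v p : ℤ) := by
  have h1 : v.valuation F (p : F) = v.intValuation (p : 𝓞 F) := by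
    rw [← v.valuation_of_algebraMap (K := F)]
    simp
  unfold ord
  rw [h1, LocalCount.intValuation_eq_exp_eAt v hp, log_exp, neg_neg]

theorem A8_pow_mem (v : Pl F) (M : ℕ) (y : Fˣ) : y ^ p ∈ LocalCount.Gv (K := F) v p M := by
  rw [LocalCount.mem_Gv_iff]
  refine ⟨y⁻¹, ?_⟩
  have : ((y ^ p : Fˣ) : F) * ((y⁻¹ : Fˣ) : F) ^ p - 1 = 0 := by
    rw [← Units.val_pow_eq_pow_val, ← Units.val_mul, ← mul_pow, mul_inv_cancel, one_pow,
      Units.val_one, sub_self]
  rw [this, map_zero]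
  exact zero_le

theorem A8_valuation_eq_one (v : Pl F) {M : ℕ} {x z : Fˣ}
    (hz : v.valuation F ((x : F) * (z : F) ^ p - 1) ≤ exp (-((M : ℤ) + 1))) :
    v.valuation F ((x : F) * (z : F) ^ p) = 1 := by
  have hlt : exp (-((M : ℤ) + 1)) < (1 : ℤᵐ⁰) := by
    rw [← exp_zero, exp_lt_exp]; omega
  have h1 : (x : F) * (z : F) ^ p = ((x : F) * (z : F) ^ p - 1) + 1 := by ring
  rw [h1]
  have := Valuation.map_add_eq_of_lt_right (v.valuation F)
    (x := (x : F) * (z : F) ^ p - 1) (y := 1) (by rw [map_one]; exact lt_of_le_of_lt hz hlt)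
  rw [this, map_one]

theorem A8_dvd_ord (v : Pl F) {M : ℕ} {x : Fˣ} (hx : x ∈ LocalCount.Gv (K := F) v p M) :
    (p : ℤ) ∣ ord v (x : F) := by
  obtain ⟨z, hz⟩ := (LocalCount.mem_Gv_iff v).mp hx
  have h1 := A8_valuation_eq_one v hz
  have hx0 : v.valuation F (x : F) ≠ 0 := (Valuation.ne_zero_iff _).mpr x.ne_zero
  have hz0 : v.valuation F ((z : F) ^ p) ≠ 0 :=
    (Valuation.ne_zero_iff _).mpr (pow_ne_zero _ z.ne_zero)
  have h2 := congrArg log h1
  rw [map_mul, log_mul hx0 hz0, map_pow, log_pow, log_one] at h2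
  refine ⟨log (v.valuation F (z : F)), ?_⟩
  unfold ord
  rw [nsmul_eq_mul] at h2
  linarith

/-- **(A8)**, packaged, with (A4c) as a hypothesis. -/
theorem A8_local_of (hA4c : A4cStatement F p) (hp : p.Prime) (hp2 : p ≠ 2)
    (hζ : ∃ ζ : F, IsPrimitiveRoot ζ p)
    (S : Finset (Pl F)) (hSp : ∀ v : Pl F, ord v (p : F) ≠ 0 → v ∈ S) :
    ∃ G : Pl F → Subgroup Fˣ,
      (∀ v, ∀ y : Fˣ, y ^ p ∈ G v) ∧ (∀ v, ∀ x ∈ G v, (p : ℤ) ∣ ord v (x : F)) ∧
      (∀ v ∈ S, (G v).index ≠ 0) ∧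
      (∏ v ∈ S, (G v).index) ≤ p ^ (2 * S.card + Module.finrank ℚ F) ∧
      ∀ v ∈ S, ∀ x ∈ G v, ∀ (F'' : Type u) [Field F''] [NumberField F''] [Algebra F F''],
        KummerPair F F'' p → ∀ θ : F'', θ ^ p = algebraMap F F'' (x : F) →
          (∀ y : F, y ^ p ≠ (x : F)) → IsSplit F F'' v := by
  have : Fact p.Prime := ⟨hp⟩
  have : NeZero p := ⟨hp.ne_zero⟩
  obtain ⟨ζ, hζ⟩ := hζ
  have hζ' : IsPrimitiveRoot hζ.toInteger p := hζ.toInteger_isPrimitiveRoot
  refine ⟨fun v => LocalCount.Gv (K := F) v p (2 * LocalCount.eAt v p),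
    fun v y => A8_pow_mem v _ y, fun v x hx => A8_dvd_ord v hx,
    fun v _ => LocalCount.index_Gv_ne_zero v p _, ?_, ?_⟩
  · refine LocalCount.prod_index_Gv_le hζ' S fun v hv => hSp v ?_
    rw [A8_ord_natCast v hp.ne_zero]
    intro h0
    have h0' : LocalCount.eAt v p = 0 := by exact_mod_cast h0
    have h1 := LocalCount.intValuation_eq_exp_eAt v hp.ne_zero
    rw [h0', Nat.cast_zero, neg_zero, exp_zero] at h1
    have h2 := (v.intValuation_lt_one_iff_mem _).mpr hv
    rw [h1] at h2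
    exact lt_irrefl _ h2
  · intro v _ x hx F'' _ _ _ hK θ hθ hxp
    obtain ⟨z, hz⟩ := (LocalCount.mem_Gv_iff v).mp hx
    have h1 := A8_valuation_eq_one v hz
    have hθ' : (θ * algebraMap F F'' (z : F)) ^ p
        = algebraMap F F'' ((x : F) * (z : F) ^ p) := by
      rw [mul_pow, hθ, map_mul, map_pow]
    have hxp' : ∀ y : F, y ^ p ≠ (x : F) * (z : F) ^ p := by
      intro y hy
      apply hxp (y * (z : F)⁻¹)
      rw [mul_pow, hy, inv_pow, mul_assoc, mul_inv_cancel₀ (pow_ne_zero _ z.ne_zero), mul_one]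
    have hord : ord v ((x : F) * (z : F) ^ p) = 0 := by
      unfold ord
      rw [h1, log_one, neg_zero]
    refine hA4c F'' hK hθ' hxp' v hord 1 (2 * LocalCount.eAt v p + 1) ?_ ?_
    · rw [A8_ord_natCast v hp.ne_zero]
      have hp2' : (2 : ℤ) ≤ p := by exact_mod_cast hp.two_le
      have he : (0 : ℤ) ≤ (LocalCount.eAt v p : ℤ) := Int.natCast_nonneg _
      push_cast
      nlinarith [mul_nonneg (sub_nonneg.mpr hp2') he]
    · unfold vGe
      rw [one_pow]
      have hcast : (((2 * LocalCount.eAt v p + 1 : ℕ)) : ℤ)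
          = ((2 * LocalCount.eAt v p : ℕ) : ℤ) + 1 := by push_cast; ring
      rw [hcast]
      exact hz

end Fermat.Agent.S14x
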