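import Fermat.Agent.S14_DivBasic
import Fermat.Agent.S14_Kummer

set_option autoImplicit false

/-!
# S14 / (A9): choice of the auxiliary primes

`A9_choice_of` is the statement (A9) of the blueprint, with the leaves it depends on
((Z), existence of Kummer extensions, Kummer descent, the `S`-unit count (A2), existence of the
residue characters) as explicit hypotheses.
-/

namespace Fermat.Agent.S14x

open IsDedekindDomain NumberField WithZero

universe u

/-- The statement of the analytic lemma (Z) for extensions of `F1` of degree `p`. -/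
def ZStatement (p : ℕ) (F1 : Type u) [Field F1] [NumberField F1] : Prop :=
  ∀ (N1 : Type u) [Field N1] [NumberField N1] [Algebra F1 N1] [IsGalois F1 N1],
    Module.finrank F1 N1 = p → ∀ T : Finset (Pl F1),
      ∃ v : Pl F1, v ∉ T ∧ (Ideal.absNorm v.asIdeal).Prime ∧
        ∀ w1 w2 : Pl N1, w1.asIdeal.comap (algebraMap (𝓞 F1) (𝓞 N1)) = v.asIdeal →
          w2.asIdeal.comap (algebraMap (𝓞 F1) (𝓞 N1)) = v.asIdeal → w1 = w2

/-- The statement "every non-`p`-th power of `F` has a Kummer extension". -/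
def KummerExtStatement (p : ℕ) (F : Type u) [Field F] [NumberField F] : Prop :=
  ∀ x : F, (∀ y : F, y ^ p ≠ x) →
    ∃ (F'' : Type u) (_ : Field F'') (_ : NumberField F'') (_ : Algebra F F''),
      KummerPair F F'' p ∧ ∃ θ : F'', θ ^ p = algebraMap F F'' x

/-- The statement "the residue characters exist". -/
def ResCharStatement (p : ℕ) (F : Type u) [Field F] [NumberField F] : Prop :=
  ∀ v : Pl F, ord v (p : F) = 0 →
    ∃ φ : ↥(vUnits v) →* Multiplicative (ZMod p), Function.Surjective φ ∧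
      ∀ u, φ u = 1 ↔ IsPthPowerMod p v ((u : Fˣ) : F)

section resChar

variable {F : Type u} [Field F] [NumberField F] {p : ℕ}

theorem A9_resChar_eq_one_iff (hres : ResCharStatement p F) {v : Pl F}
    (hv : ord v (p : F) = 0) (u : ↥(vUnits v)) :
    resChar p v u = 1 ↔ IsPthPowerMod p v ((u : Fˣ) : F) := by
  unfold resChar
  rw [dif_pos (hres v hv)]
  exact (hres v hv).choose_spec.2 u

theorem A9_resCharU_of_mem {v : Pl F} {x : Fˣ} (h : x ∈ vUnits v) :
    resCharU p v x = resChar p v ⟨x, h⟩ := by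
  unfold resCharU
  rw [dif_pos h]

theorem A9_resCharU_mul {v : Pl F} {x y : Fˣ} (hx : x ∈ vUnits v) (hy : y ∈ vUnits v) :
    resCharU p v (x * y) = resCharU p v x * resCharU p v y := by
  rw [A9_resCharU_of_mem hx, A9_resCharU_of_mem hy, A9_resCharU_of_mem (mul_mem hx hy),
    ← map_mul]
  rfl

theorem A9_resCharU_pow {v : Pl F} {x : Fˣ} (hx : x ∈ vUnits v) (n : ℕ) :
    resCharU p v (x ^ n) = resCharU p v x ^ n := by
  rw [A9_resCharU_of_mem hx, A9_resCharU_of_mem (pow_mem hx n), ← map_pow]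
  rfl

theorem A9_resCharU_eq_one_iff (hres : ResCharStatement p F) {v : Pl F}
    (hv : ord v (p : F) = 0) {x : Fˣ} (hx : x ∈ vUnits v) :
    resCharU p v x = 1 ↔ IsPthPowerMod p v (x : F) := by
  rw [A9_resCharU_of_mem hx, A9_resChar_eq_one_iff hres hv]

end resChar

section key

variable {F : Type u} [Field F] [NumberField F] {F' : Type u} [Field F'] [NumberField F']
  [Algebra F F'] {p : ℕ}

/-- The primes of `F'` above a finite set of primes of `F` form a finite set. -/
theorem A9_finite_above (U : Finset (Pl F)) : {P : Pl F' | below F P ∈ U}.Finite := by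
  have hinj : Function.Injective (fun P : Pl F' => P.asIdeal) :=
    fun P Q h => HeightOneSpectrum.ext h
  have hfin : (⋃ v ∈ U, Ideal.primesOver v.asIdeal (𝓞 F')).Finite :=
    Set.Finite.biUnion U.finite_toSet fun v _ => Set.toFinite _
  refine (hfin.preimage hinj.injOn).subset ?_
  intro P hP
  simp only [Set.mem_preimage, Set.mem_iUnion]
  exact ⟨below F P, hP, P.isPrime, ⟨rfl⟩⟩

/-- A prime of absolute degree one has relative residue degree one. -/
theorem A9_fOf_eq_one (P : Pl F') (hP : (Ideal.absNorm P.asIdeal).Prime) : fOf F P = 1 := by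
  have hl : P.asIdeal.LiesOver (below F P).asIdeal := ⟨rfl⟩
  have hvm : (below F P).asIdeal.IsMaximal := (below F P).isMaximal
  have hwm : P.asIdeal.IsMaximal := P.isMaximal
  have h1 : Ideal.absNorm P.asIdeal
      = Ideal.absNorm (below F P).asIdeal ^ (P.asIdeal.inertiaDeg (𝓞 F)) := by
    rw [Ideal.absNorm_eq_pow_inertiaDeg'_of_liesOver P.asIdeal (below F P).asIdeal
      (below F P).isPrime (below F P).ne_bot, Ideal.inertiaDeg'_eq_inertiaDeg]
  exact ((Nat.Prime.pow_eq_iff hP).mp h1.symm).2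

/-- In an unramified Galois extension, a prime below a prime of relative degree one splits. -/
theorem A9_isSplit_below [IsGalois F F'] (hunr : Unramified F F') (P : Pl F')
    (hP : fOf F P = 1) : IsSplit F F' (below F P) := by
  intro w' hw'
  refine ⟨hunr w', ?_⟩
  have hl : P.asIdeal.LiesOver (below F P).asIdeal := ⟨rfl⟩
  have hl' : w'.asIdeal.LiesOver (below F P).asIdeal := ⟨by rw [← hw']; rfl⟩
  have := (below F P).isPrime
  have h := Ideal.inertiaDeg_eq_of_isGaloisGroup (below F P).asIdeal w'.asIdeal P.asIdeal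
    (F' ≃ₐ[F] F')
  exact h.trans hP

/-- **Key step of (A9)**: if `b` is not of the form `a ^ i * y ^ p`, there is a prime `w` of `F`
outside any given finite set which splits in `F' = F(a^{1/p})` and modulo which `b` is not a
`p`-th power. -/
theorem A9_exists_split_nonresidue (hK : KummerPair F F' p) (hunr : Unramified F F')
    (hZ : ZStatement p F') (hL1 : KummerExtStatement p F') {a : F}
    (hL2 : ∀ (b : F) (β : F'), β ^ p = algebraMap F F' b → ∃ (i : ℕ) (y : F), b = a ^ i * y ^ p)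
    (S : Finset (Pl F)) (hSp : ∀ v : Pl F, ord v (p : F) ≠ 0 → v ∈ S)
    {b : F} (hb0 : b ≠ 0) (hbS : ∀ v, v ∉ S → ord v b = 0)
    (hb : ∀ (i : ℕ) (y : F), b ≠ a ^ i * y ^ p) (T₀ : Finset (Pl F)) :
    ∃ w : Pl F, w ∉ S ∧ w ∉ T₀ ∧ IsSplit F F' w ∧ ¬ IsPthPowerMod p w b := by
  classical
  have hp : p.Prime := hK.prime
  have : Fact p.Prime := ⟨hp⟩
  have := hK.galois
  have hb' : ∀ β : F', β ^ p ≠ algebraMap F F' b := fun β hβ => by
    obtain ⟨i, y, h⟩ := hL2 b β hβ
    exact hb i y h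
  obtain ⟨N1, _, _, _, hK1, θ1, hθ1⟩ := hL1 (algebraMap F F' b) hb'
  have := hK1.galois
  obtain ⟨P, hPT, hPprime, hPuniq⟩ :=
    hZ N1 hK1.degree (A9_finite_above (F' := F') (S ∪ T₀)).toFinset
  rw [Set.Finite.mem_toFinset, Set.mem_ofPred_eq, Finset.mem_union, not_or] at hPT
  refine ⟨below F P, hPT.1, hPT.2, A9_isSplit_below hunr P (A9_fOf_eq_one P hPprime), ?_⟩
  rintro ⟨y, hy⟩
  rw [vGe_one_iff_valuation_lt_one] at hy
  have habove : Kummer.Above (below F P) P := rfl
  have hp0 : (p : F) ≠ 0 := Nat.cast_ne_zero.mpr hp.ne_zero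
  have hvp : (below F P).valuation F (p : F) = 1 := by
    rw [← ord_eq_zero_iff_valuation_eq_one _ hp0]
    by_contra h
    exact hPT.1 (hSp _ h)
  have hvb : (below F P).valuation F b = 1 := by
    rw [← ord_eq_zero_iff_valuation_eq_one _ hb0]
    exact hbS _ hPT.1
  obtain ⟨ζ, hζ⟩ := hK1.zeta
  have hθF : θ1 ∉ (algebraMap F' N1).range := by
    rintro ⟨β, rfl⟩
    apply hb' β
    apply (algebraMap F' N1).injective
    rw [map_pow, hθ1]
  have h1 : P.valuation F' ((p : ℕ) : F') = 1 := by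
    have : ((p : ℕ) : F') = algebraMap F F' (p : F) := by simp
    rw [this, Kummer.val_algebraMap habove, hvp, one_pow]
  have h2 : P.valuation F' (algebraMap F F' b) = 1 := by
    rw [Kummer.val_algebraMap habove, hvb, one_pow]
  have h3 : P.valuation F' (algebraMap F F' b - algebraMap F F' y ^ p) < 1 := by
    rw [← map_pow, ← map_sub, Kummer.val_algebraMap habove]
    exact pow_lt_one' hy (Kummer.ramificationIdx_pos P).ne'
  obtain ⟨w1, w2, hne, hw1, hw2⟩ :=
    Kummer.exists_ne_above_of_pow_residue' hζ hθ1 hθF P h1 h2 h3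
  exact hne (hPuniq w1 w2 hw1 hw2)

end key

section choice

variable {F : Type u} [Field F] [NumberField F] {F' : Type u} [Field F'] [NumberField F']
  [Algebra F F'] {p : ℕ}

theorem A9_card_mult (p : ℕ) : Nat.card (Multiplicative (ZMod p)) = p :=
  (Nat.card_congr Multiplicative.toAdd).trans (Nat.card_zmod p)

/-- A non-trivial element of `Multiplicative (ZMod p)` generates it. -/
theorem A9_exists_pow_eq (hp : p.Prime) {g : Multiplicative (ZMod p)} (hg : g ≠ 1)
    (h : Multiplicative (ZMod p)) : ∃ j : ℕ, g ^ j = h := by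
  have : Fact p.Prime := ⟨hp⟩
  exact mem_powers_of_prime_card (A9_card_mult p) hg

/-- **One step of (A9)**: enlarge `T` by one split prime, keeping the joint residue map of the
`S`-units onto. -/
theorem A9_step (hK : KummerPair F F' p) (hunr : Unramified F F')
    (hZ : ZStatement p F') (hL1 : KummerExtStatement p F') (hres : ResCharStatement p F)
    {a : F} (ha0 : a ≠ 0)
    (hL2 : ∀ (b : F) (β : F'), β ^ p = algebraMap F F' b → ∃ (i : ℕ) (y : F), b = a ^ i * y ^ p)
    (S : Finset (Pl F)) (hSp : ∀ v : Pl F, ord v (p : F) ≠ 0 → v ∈ S)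
    (hSa : ∀ v : Pl F, ord v a ≠ 0 → v ∈ S) {n : ℕ}
    (hA2 : Nat.card (↥(SU (S : Set (Pl F))) ⧸
      (powMonoidHom p : ↥(SU (S : Set (Pl F))) →* _).range) = p ^ (n + 1))
    (T : Finset (Pl F)) (hST : Disjoint S T) (hTn : T.card < n)
    (honto : ∀ c : Pl F → Multiplicative (ZMod p),
      ∃ u : Fˣ, u ∈ SU (S : Set (Pl F)) ∧ ∀ v ∈ T, resCharU p v u = c v) :
    ∃ w : Pl F, w ∉ S ∧ w ∉ T ∧ IsSplit F F' w ∧
      ∀ c : Pl F → Multiplicative (ZMod p),
        ∃ u : Fˣ, u ∈ SU (S : Set (Pl F)) ∧ ∀ v, v = w ∨ v ∈ T → resCharU p v u = c v := by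
  classical
  have hp : p.Prime := hK.prime
  have hTS : ∀ v ∈ T, v ∉ S := fun v hv => Finset.disjoint_right.mp hST hv
  -- the joint residue character of the `S`-units at the primes of `T`
  let χ : (v : T) → ↥(SU (S : Set (Pl F))) →* Multiplicative (ZMod p) := fun v =>
    (resChar p v.1).comp (Subgroup.inclusion (SU_le_vUnits (hTS v.1 v.2)))
  let Θ : ↥(SU (S : Set (Pl F))) →* (T → Multiplicative (ZMod p)) := MonoidHom.pi χ
  have hΘ : ∀ (u : ↥(SU (S : Set (Pl F)))) (v : T), Θ u v = resCharU p v.1 (u : Fˣ) := by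
    intro u v
    rw [A9_resCharU_of_mem (SU_le_vUnits (hTS v.1 v.2) u.2)]
    rfl
  have hΘsurj : Function.Surjective Θ := by
    intro f
    obtain ⟨u, hu, huf⟩ := honto (fun v => if h : v ∈ T then f ⟨v, h⟩ else 1)
    refine ⟨⟨u, hu⟩, funext fun v => ?_⟩
    rw [hΘ, huf v.1 v.2, dif_pos v.2]
  -- the quotient by `p`-th powers
  have hPker : (powMonoidHom p : ↥(SU (S : Set (Pl F))) →* _).range ≤ Θ.ker := by
    rintro _ ⟨y, rfl⟩
    rw [MonoidHom.mem_ker, powMonoidHom_apply, map_pow]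
    funext v
    show (Θ y v) ^ p = 1
    have h := pow_card_eq_one' (G := Multiplicative (ZMod p)) (x := Θ y v)
    rwa [A9_card_mult] at h
  let Θq : (↥(SU (S : Set (Pl F))) ⧸ (powMonoidHom p : ↥(SU (S : Set (Pl F))) →* _).range)
      →* (T → Multiplicative (ZMod p)) := QuotientGroup.lift _ Θ hPker
  have hΘq : ∀ u : ↥(SU (S : Set (Pl F))), Θq (QuotientGroup.mk u) = Θ u := fun u => rfl
  have hΘqsurj : Function.Surjective Θq := fun f => by
    obtain ⟨u, hu⟩ := hΘsurj f
    exact ⟨QuotientGroup.mk u, hu⟩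
  have hfinQ : Finite (↥(SU (S : Set (Pl F))) ⧸
      (powMonoidHom p : ↥(SU (S : Set (Pl F))) →* _).range) :=
    Nat.finite_of_card_ne_zero (by rw [hA2]; exact pow_ne_zero _ hp.ne_zero)
  have hcardY : Nat.card (T → Multiplicative (ZMod p)) = p ^ T.card := by
    rw [Nat.card_fun, Nat.card_eq_fintype_card (α := T), Fintype.card_coe, A9_card_mult]
  have hker : Nat.card Θq.ker * p ^ T.card = p ^ (n + 1) := by
    have h1 := Subgroup.card_mul_index Θq.ker
    rw [Subgroup.index_ker, MonoidHom.range_eq_top.mpr hΘqsurj, Subgroup.card_top, hcardY,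
      hA2] at h1
    exact h1
  -- the class of `a`
  have haE : Units.mk0 a ha0 ∈ SU (S : Set (Pl F)) := mem_SU_iff.mpr fun v hv => by
    by_contra h
    exact hv (hSa v h)
  have habar_pow : (QuotientGroup.mk (⟨Units.mk0 a ha0, haE⟩ : ↥(SU (S : Set (Pl F)))) :
      ↥(SU (S : Set (Pl F))) ⧸ (powMonoidHom p : ↥(SU (S : Set (Pl F))) →* _).range) ^ p
        = 1 := by
    rw [← QuotientGroup.mk_pow, QuotientGroup.eq_one_iff]
    exact ⟨_, rfl⟩
  have hcardz : Nat.card (Subgroup.zpowers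
      (QuotientGroup.mk (⟨Units.mk0 a ha0, haE⟩ : ↥(SU (S : Set (Pl F)))) :
      ↥(SU (S : Set (Pl F))) ⧸ (powMonoidHom p : ↥(SU (S : Set (Pl F))) →* _).range)) ≤ p := by
    rw [Nat.card_zpowers]
    exact orderOf_le_of_pow_eq_one hp.pos habar_pow
  have hnle : ¬ Θq.ker ≤ Subgroup.zpowers
      (QuotientGroup.mk (⟨Units.mk0 a ha0, haE⟩ : ↥(SU (S : Set (Pl F)))) :
      ↥(SU (S : Set (Pl F))) ⧸ (powMonoidHom p : ↥(SU (S : Set (Pl F))) →* _).range) := by
    intro hle
    have h1 : Nat.card Θq.ker ≤ p := le_trans (Subgroup.card_le_of_le hle) hcardz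
    have h2 : p ^ (n + 1) ≤ p * p ^ T.card := hker ▸ Nat.mul_le_mul_right _ h1
    have h3 : p * p ^ T.card = p ^ (T.card + 1) := by rw [pow_succ, mul_comm]
    rw [h3] at h2
    have h4 := (Nat.pow_le_pow_iff_right hp.one_lt).mp h2
    omega
  obtain ⟨bbar, hbker, hbz⟩ := SetLike.not_le_iff_exists.mp hnle
  obtain ⟨b, rfl⟩ := QuotientGroup.mk_surjective bbar
  have hΘb : Θ b = 1 := by
    rw [← hΘq]
    exact hbker
  -- `b` is not of the form `a ^ i * y ^ p`
  have hb : ∀ (i : ℕ) (y : F), ((b : Fˣ) : F) ≠ a ^ i * y ^ p := by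
    intro i y hy
    apply hbz
    have hy0 : y ≠ 0 := by
      rintro rfl
      rw [zero_pow hp.ne_zero, mul_zero] at hy
      exact (b : Fˣ).ne_zero hy
    have hyE : Units.mk0 y hy0 ∈ SU (S : Set (Pl F)) := mem_SU_iff.mpr fun v hv => by
      have h1 : ord v ((b : Fˣ) : F) = 0 := mem_SU_iff.mp b.2 v hv
      have h2 : ord v a = 0 := by
        by_contra h
        exact hv (hSa v h)
      rw [hy, ord_mul v (pow_ne_zero _ ha0) (pow_ne_zero _ hy0), ord_pow, ord_pow, h2,
        mul_zero, zero_add] at h1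
      have hp0 : (p : ℤ) ≠ 0 := Int.natCast_ne_zero.mpr hp.ne_zero
      exact (mul_eq_zero.mp h1).resolve_left hp0
    have hbe : b = (⟨Units.mk0 a ha0, haE⟩ : ↥(SU (S : Set (Pl F)))) ^ i
        * (⟨Units.mk0 y hy0, hyE⟩ : ↥(SU (S : Set (Pl F)))) ^ p := by
      apply Subtype.ext
      apply Units.ext
      simp [hy]
    rw [hbe, QuotientGroup.mk_mul, QuotientGroup.mk_pow, QuotientGroup.mk_pow]
    have hyp : (QuotientGroup.mk (⟨Units.mk0 y hy0, hyE⟩ : ↥(SU (S : Set (Pl F)))) :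
        ↥(SU (S : Set (Pl F))) ⧸ (powMonoidHom p : ↥(SU (S : Set (Pl F))) →* _).range) ^ p
          = 1 := by
      rw [← QuotientGroup.mk_pow, QuotientGroup.eq_one_iff]
      exact ⟨_, rfl⟩
    refine Subgroup.mul_mem _ (Subgroup.pow_mem _ (Subgroup.mem_zpowers _) i) ?_
    rw [hyp]
    exact Subgroup.one_mem _
  obtain ⟨w, hwS, hwT, hwsplit, hwb⟩ := A9_exists_split_nonresidue hK hunr hZ hL1 hL2 S hSp
    (b : Fˣ).ne_zero (fun v hv => mem_SU_iff.mp b.2 v hv) hb T
  refine ⟨w, hwS, hwT, hwsplit, ?_⟩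
  have hwp : ord w (p : F) = 0 := by
    by_contra h
    exact hwS (hSp w h)
  have hbw : (b : Fˣ) ∈ vUnits w := SU_le_vUnits hwS b.2
  have hg : resCharU p w (b : Fˣ) ≠ 1 := by
    rw [Ne, A9_resCharU_eq_one_iff hres hwp hbw]
    exact hwb
  intro c
  obtain ⟨u₀, hu₀, hu₀c⟩ := honto c
  obtain ⟨j, hj⟩ := A9_exists_pow_eq hp hg (c w * (resCharU p w u₀)⁻¹)
  refine ⟨u₀ * (b : Fˣ) ^ j, mul_mem hu₀ (pow_mem b.2 j), ?_⟩
  intro v hv
  rcases hv with rfl | hvT
  · rw [A9_resCharU_mul (SU_le_vUnits hwS hu₀) (pow_mem hbw j), A9_resCharU_pow hbw, hj,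
      mul_comm (c v), mul_inv_cancel_left]
  · have hvS := hTS v hvT
    have hbv : (b : Fˣ) ∈ vUnits v := SU_le_vUnits hvS b.2
    have hbv1 : resCharU p v (b : Fˣ) = 1 := by
      have h := congrFun hΘb ⟨v, hvT⟩
      rw [hΘ] at h
      exact h
    rw [A9_resCharU_mul (SU_le_vUnits hvS hu₀) (pow_mem hbv j), A9_resCharU_pow hbv,
      hu₀c v hvT, hbv1, one_pow, mul_one]

theorem A9_aux (hK : KummerPair F F' p) (hunr : Unramified F F')
    (hZ : ZStatement p F') (hL1 : KummerExtStatement p F') (hres : ResCharStatement p F)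
    {a : F} (ha0 : a ≠ 0)
    (hL2 : ∀ (b : F) (β : F'), β ^ p = algebraMap F F' b → ∃ (i : ℕ) (y : F), b = a ^ i * y ^ p)
    (S : Finset (Pl F)) (hSp : ∀ v : Pl F, ord v (p : F) ≠ 0 → v ∈ S)
    (hSa : ∀ v : Pl F, ord v a ≠ 0 → v ∈ S) {n : ℕ}
    (hA2 : Nat.card (↥(SU (S : Set (Pl F))) ⧸
      (powMonoidHom p : ↥(SU (S : Set (Pl F))) →* _).range) = p ^ (n + 1))
    (k : ℕ) (hk : k ≤ n) :
    ∃ T : Finset (Pl F), Disjoint S T ∧ (∀ v ∈ T, IsSplit F F' v) ∧ T.card = k ∧
      ∀ c : Pl F → Multiplicative (ZMod p),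
        ∃ u : Fˣ, u ∈ SU (S : Set (Pl F)) ∧ ∀ v ∈ T, resCharU p v u = c v := by
  classical
  induction k with
  | zero =>
    exact ⟨∅, Finset.disjoint_empty_right _, fun v hv => absurd hv (Finset.notMem_empty v), rfl,
      fun c => ⟨1, one_mem _, fun v hv => absurd hv (Finset.notMem_empty v)⟩⟩
  | succ k ih =>
    obtain ⟨T, hST, hsplit, hcard, honto⟩ := ih (by omega)
    obtain ⟨w, hwS, hwT, hwsplit, honto'⟩ :=
      A9_step hK hunr hZ hL1 hres ha0 hL2 S hSp hSa hA2 T hST (by omega) honto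
    refine ⟨insert w T, Finset.disjoint_insert_right.mpr ⟨hwS, hST⟩, ?_, ?_, ?_⟩
    · intro v hv
      rcases Finset.mem_insert.mp hv with rfl | h
      · exact hwsplit
      · exact hsplit v h
    · rw [Finset.card_insert_of_notMem hwT, hcard]
    · intro c
      obtain ⟨u, hu, huc⟩ := honto' c
      exact ⟨u, hu, fun v hv => huc v (Finset.mem_insert.mp hv)⟩

/-- **(A9)** with its dependencies as hypotheses: (Z) for `F'`, existence of Kummer extensions
of `F'`, existence of the residue characters of `F`, Kummer descent for `(F, F', a)`, and the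
`S`-unit count (A2). -/
theorem A9_choice_of (hZ : ZStatement p F') (hL1 : KummerExtStatement p F')
    (hres : ResCharStatement p F) (hK : KummerPair F F' p) (hunr : Unramified F F') {a : F}
    (ha : ∀ y : F, y ^ p ≠ a)
    (hL2 : ∀ (b : F) (β : F'), β ^ p = algebraMap F F' b → ∃ (i : ℕ) (y : F), b = a ^ i * y ^ p)
    (S : Finset (Pl F)) (hSp : ∀ v : Pl F, ord v (p : F) ≠ 0 → v ∈ S)
    (hSa : ∀ v : Pl F, ord v a ≠ 0 → v ∈ S)
    (hA2 : Nat.card (↥(SU (S : Set (Pl F))) ⧸
      (powMonoidHom p : ↥(SU (S : Set (Pl F))) →* _).range)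
        = p ^ (S.card + NumberField.Units.rank F + 1)) :
    ∃ T : Finset (Pl F), Disjoint S T ∧ (∀ v ∈ T, IsSplit F F' v) ∧
      T.card = S.card + NumberField.Units.rank F ∧
      ∀ c : Pl F → Multiplicative (ZMod p),
        ∃ u : Fˣ, u ∈ SU (S : Set (Pl F)) ∧ ∀ v ∈ T, resCharU p v u = c v := by
  have ha0 : a ≠ 0 := by
    rintro rfl
    exact ha 0 (zero_pow hK.prime.ne_zero)
  exact A9_aux hK hunr hZ hL1 hres ha0 hL2 S hSp hSa hA2 _ le_rfl

end choice

end Fermat.Agent.S14x
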