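import Fermat.Agent.S14_A4
import Fermat.Agent.S14_A8
import Fermat.Agent.S14_A9
import Fermat.Agent.S14_KummerExt
import Fermat.Agent.S14_ResChar

set_option autoImplicit false

/-!
# S14 / (A8), (A9): the leaves in the shapes of the Part A interface

* `A8_local`: the packaged local counts, from `A8_local_of` and (A4c).
* `A9_choice_of_Z_A2`: the choice of the auxiliary primes, with only (Z) for `F'` and the
  `S`-unit count (A2) left as hypotheses.
-/

namespace Fermat.Agent.S14x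

open IsDedekindDomain NumberField

universe u

variable {F : Type u} [Field F] [NumberField F] {F' : Type u} [Field F'] [NumberField F']
  [Algebra F F'] {p : ℕ}

/-- **(A8)** local counts. -/
theorem A8_local (hp : p.Prime) (hp2 : p ≠ 2) (hζ : ∃ ζ : F, IsPrimitiveRoot ζ p)
    (S : Finset (Pl F)) (hSp : ∀ v : Pl F, ord v (p : F) ≠ 0 → v ∈ S) :
    ∃ G : Pl F → Subgroup Fˣ,
      (∀ v, ∀ y : Fˣ, y ^ p ∈ G v) ∧ (∀ v, ∀ x ∈ G v, (p : ℤ) ∣ ord v (x : F)) ∧
      (∀ v ∈ S, (G v).index ≠ 0) ∧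
      (∏ v ∈ S, (G v).index) ≤ p ^ (2 * S.card + Module.finrank ℚ F) ∧
      ∀ v ∈ S, ∀ x ∈ G v, ∀ (F'' : Type u) [Field F''] [NumberField F''] [Algebra F F''],
        KummerPair F F'' p → ∀ θ : F'', θ ^ p = algebraMap F F'' (x : F) →
          (∀ y : F, y ^ p ≠ (x : F)) → IsSplit F F'' v :=
  A8_local_of (fun _ _ _ _ hK _ _ hθ hx v hvx y M hM hxy => A4c_split hK hθ hx v hvx y M hM hxy)
    hp hp2 hζ S hSp

/-- **(A9)** choice of the auxiliary primes, with (Z) for `F'` and the `S`-unit count (A2) as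
hypotheses. -/
theorem A9_choice_of_Z_A2 (hZ : ZStatement p F') (hK : KummerPair F F' p)
    (hunr : Unramified F F') {a : F} {θ : F'}
    (hθ : θ ^ p = algebraMap F F' a) (ha : ∀ y : F, y ^ p ≠ a)
    (S : Finset (Pl F)) (hSp : ∀ v : Pl F, ord v (p : F) ≠ 0 → v ∈ S)
    (hSa : ∀ v : Pl F, ord v a ≠ 0 → v ∈ S)
    (hA2 : Nat.card (↥(SU (S : Set (Pl F))) ⧸
      (powMonoidHom p : ↥(SU (S : Set (Pl F))) →* _).range)
        = p ^ (S.card + NumberField.Units.rank F + 1)) :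
    ∃ T : Finset (Pl F), Disjoint S T ∧ (∀ v ∈ T, IsSplit F F' v) ∧
      T.card = S.card + NumberField.Units.rank F ∧
      ∀ c : Pl F → Multiplicative (ZMod p),
        ∃ u : Fˣ, u ∈ SU (S : Set (Pl F)) ∧ ∀ v ∈ T, resCharU p v u = c v := by
  have hζ' : ∃ ζ : F', IsPrimitiveRoot ζ p := by
    obtain ⟨ζ, hζ⟩ := hK.zeta
    exact ⟨algebraMap F F' ζ, hζ.map_of_injective (algebraMap F F').injective⟩
  exact A9_choice_of hZ (fun x hx => exists_kummerPair hK.prime hK.odd hζ' x hx)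
    (fun v hv => exists_resChar hK.prime hK.zeta v hv) hK hunr ha
    (fun _ _ hβ => hK.exists_eq_pow_mul_pow hθ ha hβ) S hSp hSa hA2

end Fermat.Agent.S14x
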