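/-
S14, PART A: the final wrappers, i.e. the leaves of the Part A interface in their exact shapes
which are not yet stated elsewhere:

* `A9_choice` (choice of the auxiliary primes), from `A9_choice_of_Z_A2`, the analytic lemma (Z)
  and the `S`-unit count (A2).

(`A3_theoremH` is in `S14_A3`, `A6_first` and `A7_false` are in `S14_A67w`, `A8_local` is in
`S14_A89`.)
-/
import Fermat.Agent.S14_A89
import Fermat.Agent.S14_A2
import Fermat.Agent.S14_ZAn

set_option autoImplicit false

namespace Fermat.Agent.S14x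

open IsDedekindDomain NumberField

universe u

variable {F : Type u} [Field F] [NumberField F] {F' : Type u} [Field F'] [NumberField F']
  [Algebra F F'] {p : ℕ}

/-- the analytic lemma (Z), in the packaged form used by (A9) -/
theorem zStatement (p : ℕ) [Fact p.Prime] (F1 : Type u) [Field F1] [NumberField F1] :
    ZStatement p F1 :=
  fun N1 _ _ _ _ h T => ZAn.S14_Z p F1 N1 h T

/-- **(A9)** choice of the auxiliary primes. -/
theorem A9_choice (hK : KummerPair F F' p) (hunr : Unramified F F') {a : F} {θ : F'}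
    (hθ : θ ^ p = algebraMap F F' a) (ha : ∀ y : F, y ^ p ≠ a)
    (S : Finset (Pl F)) (hSp : ∀ v : Pl F, ord v (p : F) ≠ 0 → v ∈ S)
    (hSa : ∀ v : Pl F, ord v a ≠ 0 → v ∈ S) (_hkill : Kills (S : Set (Pl F))) :
    ∃ T : Finset (Pl F), Disjoint S T ∧ (∀ v ∈ T, IsSplit F F' v) ∧
      T.card = S.card + NumberField.Units.rank F ∧
      ∀ c : Pl F → Multiplicative (ZMod p),
        ∃ u : Fˣ, u ∈ SU (S : Set (Pl F)) ∧ ∀ v ∈ T, resCharU p v u = c v := by
  have : Fact p.Prime := ⟨hK.prime⟩
  exact A9_choice_of_Z_A2 (zStatement p F') hK hunr hθ ha S hSp hSa (A2_card hK.prime hK.zeta S)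

end Fermat.Agent.S14x
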