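/-
S14, PART A, leaf (A10): the second inequality.

For an unramified Kummer pair `(F, F')` the group `principal + norms` has index at most `p` in
the divisor group of `F`; hence a nonzero character to `ℤ/p` killing principal divisors and
norms has exactly `principal + norms` as kernel.

Assembly of: (A8) local counts, (A9) choice of auxiliary primes, (A7) the key contradiction,
the `S`-unit theorem (A2), Kummer extensions, and the bookkeeping in `S14_A10Fin`,
`S14_A10Val`.
-/
import Fermat.Agent.S14_A10Fin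
import Fermat.Agent.S14_A10Val
import Fermat.Agent.S14_A67w
import Fermat.Agent.S14_PartA

set_option autoImplicit false
set_option linter.style.haveILetI false

namespace Fermat.Agent.S14x.A10F

open IsDedekindDomain NumberField

universe u

variable {F : Type u} [Field F] [NumberField F] {F' : Type u} [Field F'] [NumberField F']
  [Algebra F F'] {p : ℕ}

/-- **(A10-ker)**: an `S ∪ T`-unit which lies in all the local groups `G v`, `v ∈ S`, is a
`p`-th power. -/
theorem ker_step (hp : p.Prime) (hp2 : p ≠ 2) (hζ : ∃ ζ : F, IsPrimitiveRoot ζ p)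
    (S T : Finset (Pl F)) (hST : Disjoint S T) (hkill : Kills (S : Set (Pl F)))
    (hSp : ∀ v : Pl F, ord v (p : F) ≠ 0 → v ∈ S) (G : Pl F → Subgroup Fˣ)
    (hGsplit : ∀ v ∈ S, ∀ x ∈ G v, ∀ (F'' : Type u) [Field F''] [NumberField F'']
      [Algebra F F''], KummerPair F F'' p → ∀ θ : F'', θ ^ p = algebraMap F F'' (x : F) →
          (∀ y : F, y ^ p ≠ (x : F)) → IsSplit F F'' v)
    (honto : ∀ c : Pl F → Multiplicative (ZMod p),
        ∃ u : Fˣ, u ∈ SU (S : Set (Pl F)) ∧ ∀ v ∈ T, resCharU p v u = c v)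
    (ST : Finset (Pl F)) (hmem : ∀ v, v ∈ ST ↔ v ∈ S ∨ v ∈ T)
    (x : Fˣ) (hxE : x ∈ SU (ST : Set (Pl F))) (hxG : ∀ v ∈ S, x ∈ G v) :
    ∃ y : Fˣ, y ^ p = x := by
  by_contra hne
  push Not at hne
  have hx : ∀ y : F, y ^ p ≠ (x : F) := by
    intro y hy
    have hy0 : y ≠ 0 := by
      rintro rfl
      rw [zero_pow hp.ne_zero] at hy
      exact x.ne_zero hy.symm
    exact hne (Units.mk0 y hy0) (Units.ext hy)
  obtain ⟨F'', _, _, _, hK'', θ, hθ⟩ := exists_kummerPair hp hp2 hζ (x : F) hx
  have hsplit : ∀ v ∈ S, IsSplit F F'' v := fun v hv =>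
    hGsplit v hv x (hxG v hv) F'' hK'' θ hθ hx
  refine A7_false hK'' S T hST hkill hsplit ?_ ?_ honto
  · intro v hvT
    by_contra hvp
    exact Finset.disjoint_left.mp hST (hSp v hvp) hvT
  · intro v hvT
    by_cases hvS : v ∈ S
    · exact fun w hw => (hsplit v hvS w hw).1
    · have h0 : ord v (x : F) = 0 := mem_SU_iff.mp hxE v (by
        intro h
        rcases (hmem v).mp (by simpa using h) with h | h
        · exact hvS h
        · exact hvT h)
      have hvp : ord v (p : F) = 0 := by
        by_contra hvp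
        exact hvS (hSp v hvp)
      exact A4u_unram hK'' hθ hx v hvp (by rw [h0]; exact dvd_zero _)

/-- the count: the image of the `S ∪ T`-units in `∏_{v ∈ S} Fˣ ⧸ G v` has `|E / E ^ p|`
elements -/
theorem count_step (hp : p.Prime) (hζ : ∃ ζ : F, IsPrimitiveRoot ζ p) (S ST : Finset (Pl F))
    (G : Pl F → Subgroup Fˣ) (hGpow : ∀ v, ∀ y : Fˣ, y ^ p ∈ G v)
    (hker : ∀ x : Fˣ, x ∈ SU (ST : Set (Pl F)) → (∀ v ∈ S, x ∈ G v) → ∃ y : Fˣ, y ^ p = x) :
    Nat.card ↥(Subgroup.map (N := (v : ↥S) → Fˣ ⧸ G v.1) (A10V.diag S G)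
      (SU (ST : Set (Pl F)))) = p ^ (ST.card + NumberField.Units.rank F + 1) := by
  set E : Subgroup Fˣ := SU (ST : Set (Pl F)) with hE
  set f : ↥E →* ((v : ↥S) → Fˣ ⧸ G v.1) := (A10V.diag S G).comp E.subtype with hf
  have hrange : f.range = Subgroup.map (N := (v : ↥S) → Fˣ ⧸ G v.1) (A10V.diag S G) E := by
    rw [hf, MonoidHom.range_comp, Subgroup.range_subtype]
  have hkerf : f.ker = (powMonoidHom p : ↥E →* ↥E).range := by
    ext x
    rw [MonoidHom.mem_ker]
    constructor
    · intro hx
      have hx' : (x : Fˣ) ∈ (A10V.diag S G).ker := hx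
      rw [A10V.mem_ker_diag] at hx'
      obtain ⟨y, hy⟩ := hker x x.2 hx'
      have hyE : y ∈ E := by
        rw [hE, mem_SU_iff]
        intro v hv
        have h0 := mem_SU_iff.mp x.2 v hv
        rw [← hy, Units.val_pow_eq_pow_val, ord_pow] at h0
        rcases mul_eq_zero.mp h0 with h | h
        · exact absurd (by exact_mod_cast h) hp.ne_zero
        · exact h
      exact ⟨⟨y, hyE⟩, Subtype.ext hy⟩
    · rintro ⟨y, rfl⟩
      have hmemker : ((y : Fˣ) ^ p) ∈ (A10V.diag S G).ker := by
        rw [A10V.mem_ker_diag]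
        intro v _
        exact hGpow v y
      exact hmemker
  rw [← hrange, ← Subgroup.index_ker, hkerf, Subgroup.index_eq_card]
  exact A2_card hp hζ ST

/-- **(A10)**, the index form. -/
theorem A10_index_thm (hK : KummerPair F F' p) (hunr : Unramified F F') :
    (principal F ⊔ (normDiv F (F' := F')).range).index ≠ 0 ∧
      (principal F ⊔ (normDiv F (F' := F')).range).index ≤ p := by
  classical
  have hp := hK.prime
  obtain ⟨a, θ, ha0, hθ, ha, -⟩ := hK.exists_kummer
  set S0 : Finset (Pl F) :=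
    (ord_support_finite ((p : ℕ) : F)).toFinset ∪ (ord_support_finite a).toFinset with hS0def
  obtain ⟨S, hS0, hkill⟩ := exists_finset_kills S0
  have hSp : ∀ v : Pl F, ord v (p : F) ≠ 0 → v ∈ S := fun v hv =>
    hS0 (Finset.mem_union_left _ (by simpa using hv))
  have hSa : ∀ v : Pl F, ord v a ≠ 0 → v ∈ S := fun v hv =>
    hS0 (Finset.mem_union_right _ (by simpa using hv))
  obtain ⟨T, hST, hTsplit, hTcard, honto⟩ := A9_choice hK hunr hθ ha S hSp hSa hkill
  obtain ⟨G, hGpow, hGord, hGidx, hGprod, hGsplit⟩ := A8_local hp hK.odd hK.zeta S hSp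
  set ST : Finset (Pl F) := S ∪ T with hSTdef
  have hmem : ∀ v, v ∈ ST ↔ v ∈ S ∨ v ∈ T := fun v => Finset.mem_union
  have hcardST : ST.card = S.card + T.card := Finset.card_union_of_disjoint hST
  have hker : ∀ x : Fˣ, x ∈ SU (ST : Set (Pl F)) → (∀ v ∈ S, x ∈ G v) → ∃ y : Fˣ, y ^ p = x :=
    fun x hxE hxG =>
      ker_step hp hK.odd hK.zeta S T hST hkill hSp G hGsplit honto ST hmem x hxE hxG
  have hcount := count_step hp hK.zeta S ST G hGpow hker
  obtain ⟨W, ⟨hW0, hWp⟩, hWmem⟩ := A10V.exists_W_of_count (p := p) S G hGord hGidx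
    (SU (ST : Set (Pl F))) (by
      rw [hcount, A10V.card_pi_quotient]
      refine hGprod.trans ?_
      rw [A3.finrank_eq hK, hcardST, hTcard, ← pow_succ']
      apply Nat.pow_le_pow_right hp.pos
      omega)
  refine index_le_of_image hK hunr S T hkill hTsplit W hW0 hWp ?_
  intro c hc
  obtain ⟨x, hx, hxc⟩ := hWmem c hc
  refine ⟨x, ?_, hxc⟩
  rw [← Finset.coe_union]
  exact hx

end Fermat.Agent.S14x.A10F

namespace Fermat.Agent.S14x

open IsDedekindDomain NumberField

universe u

variable {F : Type u} [Field F] [NumberField F] {F' : Type u} [Field F'] [NumberField F']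
  [Algebra F F'] {p : ℕ}

/-- **(A10) the second inequality**, index form. -/
theorem A10_index (hK : KummerPair F F' p) (hunr : Unramified F F') :
    (principal F ⊔ (normDiv F (F' := F')).range).index ≠ 0 ∧
      (principal F ⊔ (normDiv F (F' := F')).range).index ≤ p :=
  A10F.A10_index_thm hK hunr

/-- **(A10) the second inequality**: a nonzero character killing principal divisors and norms
has kernel `principal + norms`. -/
theorem A10_second (hK : KummerPair F F' p) (hunr : Unramified F F')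
    (χ : Dv F →+ ZMod p) (hχ : χ ≠ 0) (hχP : ∀ x : F, x ≠ 0 → χ (div x) = 0)
    (hχN : ∀ D' : Dv F', χ (normDiv F D') = 0) (D : Dv F) (hD : χ D = 0) :
    ∃ x : F, x ≠ 0 ∧ ∃ D' : Dv F', D = div x + normDiv F D' :=
  A10F.second_of_index_le hK.prime (A10_index hK hunr) χ hχ hχP hχN D hD

end Fermat.Agent.S14x
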