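/-
S14 (A10), abstract counting step: if `ψ : E → Y` has image of index at most `p` in a finite
group `Y` (in the form `|Y| ≤ p · |im ψ|`) and `val : Y → Z` is onto, then `val (im ψ)` has index
at most `p` (and nonzero) in `Z`.
-/
import Mathlib

set_option autoImplicit false

namespace Fermat.Agent.S14x.A10Count

/-- the index of the image, multiplicative form -/
theorem index_range_le {E Y : Type*} [Group E] [Group Y] [Finite Y] (p : ℕ) (ψ : E →* Y)
    (hcard : Nat.card Y ≤ p * Nat.card ψ.range) : ψ.range.index ≠ 0 ∧ ψ.range.index ≤ p := by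
  have hne : ψ.range.index ≠ 0 := Subgroup.index_ne_zero_of_finite
  refine ⟨hne, ?_⟩
  have h1 : Nat.card ψ.range * ψ.range.index = Nat.card Y := Subgroup.card_mul_index _
  have hpos : 0 < Nat.card ψ.range := Nat.card_pos
  rw [← h1, mul_comm p] at hcard
  exact Nat.le_of_mul_le_mul_left hcard hpos

/-- (A10-count), multiplicative form -/
theorem index_map_range_le {E Y Z : Type*} [Group E] [Group Y] [Group Z] [Finite Y] (p : ℕ)
    (ψ : E →* Y) (val : Y →* Z) (hval : Function.Surjective val)
    (hcard : Nat.card Y ≤ p * Nat.card ψ.range) :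
    (ψ.range.map val).index ≠ 0 ∧ (ψ.range.map val).index ≤ p := by
  obtain ⟨h0, h1⟩ := index_range_le p ψ hcard
  have hdvd : (ψ.range.map val).index ∣ ψ.range.index := Subgroup.index_map_dvd _ hval
  refine ⟨fun h => h0 ?_, (Nat.le_of_dvd (Nat.pos_of_ne_zero h0) hdvd).trans h1⟩
  rw [h] at hdvd
  exact zero_dvd_iff.mp hdvd

/-- (A10-count), with an additive target: a subgroup `W` of index `≤ p` all of whose elements
are values `val (ψ x)`. -/
theorem exists_addSubgroup_index_le {E Y A : Type*} [Group E] [Group Y] [AddGroup A] [Finite Y]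
    (p : ℕ) (ψ : E →* Y) (val : Y →* Multiplicative A) (hval : Function.Surjective val)
    (hcard : Nat.card Y ≤ p * Nat.card ψ.range) :
    ∃ W : AddSubgroup A, (W.index ≠ 0 ∧ W.index ≤ p) ∧
      ∀ c : A, c ∈ W ↔ ∃ x : E, val (ψ x) = Multiplicative.ofAdd c := by
  refine ⟨Subgroup.toAddSubgroup' (ψ.range.map val), ?_, fun c => ?_⟩
  · have h := index_map_range_le p ψ val hval hcard
    have e : (Subgroup.toAddSubgroup' (ψ.range.map val)).index = (ψ.range.map val).index := by
      rw [← AddSubgroup.index_toSubgroup]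
      rfl
    rw [e]
    exact h
  · rw [Subgroup.mem_toAddSubgroup', Subgroup.mem_map]
    constructor
    · rintro ⟨y, ⟨x, rfl⟩, hy⟩
      exact ⟨x, hy⟩
    · rintro ⟨x, hx⟩
      exact ⟨ψ x, ⟨x, rfl⟩, hx⟩

end Fermat.Agent.S14x.A10Count
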