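/-
S14, PART A, the final bookkeeping of (A10) "second inequality":

* `A10F.second_of_index`: a nonzero character to `ℤ/p` killing a subgroup of index `≤ p` has
  this subgroup as its kernel;
* `A10F.index_le_of_image`: if the `S ∪ T`-units hit a subgroup `W` of index `≤ p` of
  `(ℤ/p)^S` under the valuations mod `p`, `S` kills the class group and the primes of `T` split,
  then `principal + norms` has index `≤ p` in the divisor group of an unramified Kummer pair.
-/
import Fermat.Agent.S14_A3Pre

set_option autoImplicit false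
set_option linter.style.haveILetI false

namespace Fermat.Agent.S14x.A10F

open IsDedekindDomain NumberField

/-- a nonzero character to `ℤ/p` which kills a subgroup of index `≤ p` has it as kernel -/
theorem second_of_index {G : Type*} [AddCommGroup G] {p : ℕ} (hp : p.Prime)
    (H : AddSubgroup G) (hidx0 : H.index ≠ 0) (hidx : H.index ≤ p) (χ : G →+ ZMod p)
    (hχ : χ ≠ 0) (hχH : ∀ D ∈ H, χ D = 0) (D : G) (hD : χ D = 0) : D ∈ H := by
  haveI : Fact p.Prime := ⟨hp⟩
  have hle : H ≤ χ.ker := fun D hD => (AddMonoidHom.mem_ker).mpr (hχH D hD)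
  -- the index of the kernel is `p`
  have hker : χ.ker.index = p := by
    rw [AddSubgroup.index_ker]
    have hdvd : Nat.card χ.range ∣ Nat.card (ZMod p) := AddSubgroup.card_addSubgroup_dvd_card _
    rw [Nat.card_zmod] at hdvd
    rcases (Nat.dvd_prime hp).mp hdvd with h1 | h1
    · exfalso
      apply hχ
      have hbot : χ.range = ⊥ := AddSubgroup.card_eq_one.mp h1
      ext x
      have hx : χ x ∈ χ.range := ⟨x, rfl⟩
      rw [hbot, AddSubgroup.mem_bot] at hx
      simpa using hx
    · exact h1
  have hdvd : χ.ker.index ∣ H.index := AddSubgroup.index_dvd_of_le hle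
  rw [hker] at hdvd
  have hHp : H.index = p := le_antisymm hidx (Nat.le_of_dvd (Nat.pos_of_ne_zero hidx0) hdvd)
  have hrel := AddSubgroup.relIndex_mul_index hle
  rw [hker, hHp] at hrel
  have hrel1 : H.relIndex χ.ker = 1 := by
    have hp0 : 0 < p := hp.pos
    exact Nat.eq_of_mul_eq_mul_right hp0 (by rw [hrel, one_mul])
  exact (AddSubgroup.relIndex_eq_one.mp hrel1) ((AddMonoidHom.mem_ker).mpr hD)

section

variable {F : Type*} [Field F] [NumberField F] {F' : Type*} [Field F'] [NumberField F']
  [Algebra F F'] {p : ℕ}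

/-- a divisor all of whose coordinates lie in a subgroup lies in the subgroup -/
theorem mem_of_forall_single (N : AddSubgroup (Dv F)) (E : Dv F)
    (h : ∀ v, Finsupp.single v (E v) ∈ N) : E ∈ N := by
  rw [← Finsupp.sum_single E]
  exact AddSubgroup.sum_mem N (fun v _ => h v)

/-- extension by zero of a function on `S` -/
noncomputable def extS (S : Finset (Pl F)) : (↥S → ℤ) →+ Dv F where
  toFun c := ∑ v : ↥S, Finsupp.single (v : Pl F) (c v)
  map_zero' := by simp
  map_add' a b := by simp [Finsupp.single_add, Finset.sum_add_distrib]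

theorem extS_apply_mem (S : Finset (Pl F)) (c : ↥S → ℤ) (v : Pl F) (hv : v ∈ S) :
    extS S c v = c ⟨v, hv⟩ := by
  classical
  show (∑ u : ↥S, Finsupp.single (u : Pl F) (c u)) v = c ⟨v, hv⟩
  rw [Finsupp.finsetSum_apply, Finset.sum_eq_single (⟨v, hv⟩ : ↥S)]
  · simp
  · intro u _ hu
    rw [Finsupp.single_apply, if_neg]
    intro h
    exact hu (Subtype.ext h)
  · intro h
    exact absurd (Finset.mem_univ _) h

theorem extS_apply_not_mem (S : Finset (Pl F)) (c : ↥S → ℤ) (v : Pl F) (hv : v ∉ S) :
    extS S c v = 0 := by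
  classical
  show (∑ u : ↥S, Finsupp.single (u : Pl F) (c u)) v = 0
  rw [Finsupp.finsetSum_apply]
  refine Finset.sum_eq_zero (fun u _ => ?_)
  rw [Finsupp.single_apply, if_neg]
  rintro rfl
  exact hv u.2

/-- the final bookkeeping of the second inequality -/
theorem index_le_of_image (hK : KummerPair F F' p) (hunr : Unramified F F')
    (S T : Finset (Pl F)) (hkill : Kills (S : Set (Pl F))) (hT : ∀ v ∈ T, IsSplit F F' v)
    (W : AddSubgroup (↥S → ZMod p)) (hW0 : W.index ≠ 0) (hWp : W.index ≤ p)
    (hWmem : ∀ c : ↥S → ZMod p, c ∈ W →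
      ∃ x : Fˣ, x ∈ SU ((S : Set (Pl F)) ∪ (T : Set (Pl F))) ∧
        ∀ v : ↥S, ((ord (v : Pl F) (x : F) : ℤ) : ZMod p) = c v) :
    (principal F ⊔ (normDiv F (F' := F')).range).index ≠ 0 ∧
      (principal F ⊔ (normDiv F (F' := F')).range).index ≤ p := by
  classical
  set H : AddSubgroup (Dv F) := principal F ⊔ (normDiv F (F' := F')).range with hH
  set red : (↥S → ℤ) →+ (↥S → ZMod p) := (Int.castAddHom (ZMod p)).compLeft ↥S with hred
  have hred_apply : ∀ (c : ↥S → ℤ) (v : ↥S), red c v = ((c v : ℤ) : ZMod p) := fun c v => rfl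
  have hred_surj : Function.Surjective red := by
    intro c
    refine ⟨fun v => (ZMod.intCast_surjective (c v)).choose, ?_⟩
    funext v
    exact (ZMod.intCast_surjective (c v)).choose_spec
  -- the preimage of `W` maps into `principal + norms`
  have h1 : W.comap red ≤ H.comap (extS S) := by
    intro c hc
    rw [AddSubgroup.mem_comap] at hc ⊢
    obtain ⟨x, hxSU, hx⟩ := hWmem _ hc
    have hx0 : (x : F) ≠ 0 := x.ne_zero
    have hE : extS S c - div (x : F) ∈ (normDiv F (F' := F')).range := by
      apply mem_of_forall_single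
      intro v
      by_cases hvS : v ∈ S
      · have hval : (extS S c - div (x : F)) v = c ⟨v, hvS⟩ - ord v (x : F) := by
          rw [Finsupp.sub_apply, extS_apply_mem S c v hvS, divisor_apply]
        have hdvd : (p : ℤ) ∣ c ⟨v, hvS⟩ - ord v (x : F) := by
          have h := hx ⟨v, hvS⟩
          rw [hred_apply] at h
          rw [← ZMod.intCast_zmod_eq_zero_iff_dvd]
          push_cast
          rw [h, sub_self]
        obtain ⟨k, hk⟩ := hdvd
        rw [hval, hk]
        have hsm : Finsupp.single v ((p : ℤ) * k) = k • Finsupp.single v (p : ℤ) := by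
          rw [Finsupp.smul_single, smul_eq_mul, mul_comm]
        rw [hsm]
        exact AddSubgroup.zsmul_mem _ (A3.single_mem_range_normDiv hK hunr v) k
      · by_cases hvT : v ∈ T
        · have hsm : Finsupp.single v ((extS S c - div (x : F)) v) =
              ((extS S c - div (x : F)) v) • Finsupp.single v (1 : ℤ) := by
            rw [Finsupp.smul_single, smul_eq_mul, mul_one]
          rw [hsm]
          exact AddSubgroup.zsmul_mem _ (A3.single_mem_range_normDiv_of_isSplit (hT v hvT)) _
        · have h0 : ord v (x : F) = 0 := mem_SU_iff.mp hxSU v (by simp [hvS, hvT])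
          have hval : (extS S c - div (x : F)) v = 0 := by
            rw [Finsupp.sub_apply, extS_apply_not_mem S c v hvS, divisor_apply, h0, sub_zero]
          rw [hval, Finsupp.single_zero]
          exact AddSubgroup.zero_mem _
    have hdec : extS S c = div (x : F) + (extS S c - div (x : F)) := by abel
    rw [hdec]
    exact AddSubgroup.add_mem _ (AddSubgroup.mem_sup_left (divisor_mem_principal hx0))
      (AddSubgroup.mem_sup_right hE)
  -- `principal` and the divisors supported in `S` generate everything
  have h2 : H ⊔ (extS S).range = ⊤ := by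
    rw [eq_top_iff]
    intro D _
    obtain ⟨y, hy0, hy⟩ := hkill D
    have hD : D = div y + extS S (fun v => (D - div y) (v : Pl F)) := by
      ext v
      rw [Finsupp.add_apply, divisor_apply]
      by_cases hvS : v ∈ S
      · rw [extS_apply_mem S _ v hvS, Finsupp.sub_apply, divisor_apply]
        ring
      · rw [extS_apply_not_mem S _ v hvS, hy v (by simpa using hvS)]
        ring
    rw [hD]
    exact AddSubgroup.add_mem _
      (AddSubgroup.mem_sup_left (AddSubgroup.mem_sup_left (divisor_mem_principal hy0)))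
      (AddSubgroup.mem_sup_right ⟨_, rfl⟩)
  have h3 : (H.comap (extS S)).index = H.index := by
    rw [AddSubgroup.index_comap, ← AddSubgroup.relIndex_sup_left (K := H) (H := (extS S).range),
      h2, AddSubgroup.relIndex_top_right]
  have h4 : (W.comap red).index = W.index := AddSubgroup.index_comap_of_surjective W hred_surj
  have hdvd : H.index ∣ W.index := by
    rw [← h3, ← h4]
    exact AddSubgroup.index_dvd_of_le h1
  refine ⟨fun h0 => hW0 ?_, (Nat.le_of_dvd (Nat.pos_of_ne_zero hW0) hdvd).trans hWp⟩
  rw [h0] at hdvd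
  exact zero_dvd_iff.mp hdvd

/-- the second inequality from the index bound -/
theorem second_of_index_le (hp : p.Prime)
    (hidx : (principal F ⊔ (normDiv F (F' := F')).range).index ≠ 0 ∧
      (principal F ⊔ (normDiv F (F' := F')).range).index ≤ p)
    (χ : Dv F →+ ZMod p) (hχ : χ ≠ 0) (hχP : ∀ x : F, x ≠ 0 → χ (div x) = 0)
    (hχN : ∀ D' : Dv F', χ (normDiv F D') = 0) (D : Dv F) (hD : χ D = 0) :
    ∃ x : F, x ≠ 0 ∧ ∃ D' : Dv F', D = div x + normDiv F D' := by
  have hmem := second_of_index hp _ hidx.1 hidx.2 χ hχ (by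
    intro E hE
    rw [AddSubgroup.mem_sup] at hE
    obtain ⟨P, hP, N, ⟨D', rfl⟩, rfl⟩ := hE
    obtain ⟨x, hx, rfl⟩ := mem_principal_iff.mp hP
    rw [map_add, hχP x hx, hχN D', add_zero]) D hD
  rw [AddSubgroup.mem_sup] at hmem
  obtain ⟨P, hP, N, ⟨D', rfl⟩, rfl⟩ := hmem
  obtain ⟨x, hx, rfl⟩ := mem_principal_iff.mp hP
  exact ⟨x, hx, D', rfl⟩

end

end Fermat.Agent.S14x.A10F
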