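/-
S14 (ExtVanishingCts), Part A10, the counting glue: if the elements of `E ≤ Fˣ` lying in all
`G v` (`v ∈ S`) are exactly the `p`-th powers of `E`, then the image of `E` in
`∏_{v ∈ S} Fˣ ⧸ G v` has the cardinality of `E ⧸ E ^ p`; combined with the bounds
`∏ (G v).index ≤ p ^ a` and `|E ⧸ E ^ p| = p ^ b`, `a ≤ b + 1`, the valuation vectors of `E`
have index at most `p` in `(S → ℤ/p)`.
-/
import Fermat.Agent.S14_Div
import Fermat.Agent.S14_DivBasic
import Fermat.Agent.S14_A10Val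

set_option autoImplicit false

namespace Fermat.Agent.S14x.A10V

open IsDedekindDomain NumberField

universe u

variable {F : Type u} [Field F] [NumberField F]

/-- First isomorphism theorem as a count: the image of `E` under `g` has the cardinality of
`E ⧸ N` when `N` is the kernel of `g` on `E`. -/
theorem card_map_eq_card_quotient {A Y : Type*} [Group A] [Group Y] (g : A →* Y)
    (E : Subgroup A) (N : Subgroup ↥E) [N.Normal] (hN : ∀ x : ↥E, g (x : A) = 1 ↔ x ∈ N) :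
    Nat.card ↥(E.map g) = Nat.card (↥E ⧸ N) := by
  have hrange : (g.comp E.subtype).range = E.map g := by
    ext y
    constructor
    · rintro ⟨x, rfl⟩
      exact ⟨x.1, x.2, rfl⟩
    · rintro ⟨x, hx, rfl⟩
      exact ⟨⟨x, hx⟩, rfl⟩
  have hker : (g.comp E.subtype).ker = N := by
    ext x
    rw [MonoidHom.mem_ker]
    exact hN x
  have e := QuotientGroup.quotientKerEquivRange (g.comp E.subtype)
  have h1 : Nat.card (↥E ⧸ (g.comp E.subtype).ker) = Nat.card ↥(g.comp E.subtype).range :=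
    Nat.card_congr e.toEquiv
  rw [← hrange, ← h1]
  subst hker
  rfl

/-- The image of `E` in `∏_{v ∈ S} Fˣ ⧸ G v` is `E ⧸ E ^ p` when the kernel is `E ^ p`. -/
theorem card_map_diag {p : ℕ} (S : Finset (Pl F)) (G : Pl F → Subgroup Fˣ) (E : Subgroup Fˣ)
    (hpow : ∀ v, ∀ y : Fˣ, y ^ p ∈ G v)
    (hker : ∀ x ∈ E, (∀ v ∈ S, x ∈ G v) → ∃ y ∈ E, y ^ p = x) :
    Nat.card ↥(Subgroup.map (N := (v : ↥S) → Fˣ ⧸ G v.1) (diag S G) E) =
      Nat.card (↥E ⧸ (powMonoidHom p : ↥E →* ↥E).range) := by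
  apply card_map_eq_card_quotient (Y := (v : ↥S) → Fˣ ⧸ G v.1) (diag S G) E
  intro x
  have hfx : (diag S G) (x : Fˣ) = 1 ↔ (x : Fˣ) ∈ (diag S G).ker := by
    rw [MonoidHom.mem_ker]
  rw [hfx, mem_ker_diag]
  constructor
  · intro h
    obtain ⟨y, hyE, hy⟩ := hker x.1 x.2 h
    exact ⟨⟨y, hyE⟩, Subtype.ext hy⟩
  · rintro ⟨y, rfl⟩ v _
    exact hpow v y.1

/-- **(A10-val + count)**: the valuation vectors of `E` form a subgroup of index at most `p`
of `(S → ℤ/p)`, given the local index bound, the count of `E ⧸ E ^ p` and the identification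
of the kernel. -/
theorem exists_W {p : ℕ} (hp : p.Prime) (S : Finset (Pl F)) (G : Pl F → Subgroup Fˣ)
    (hpow : ∀ v, ∀ y : Fˣ, y ^ p ∈ G v)
    (hG : ∀ v, ∀ x ∈ G v, (p : ℤ) ∣ ord v (x : F)) (hfin : ∀ v ∈ S, (G v).index ≠ 0)
    (E : Subgroup Fˣ)
    (hker : ∀ x ∈ E, (∀ v ∈ S, x ∈ G v) → ∃ y ∈ E, y ^ p = x)
    (a b : ℕ) (hprod : (∏ v ∈ S, (G v).index) ≤ p ^ a)
    (hE : Nat.card (↥E ⧸ (powMonoidHom p : ↥E →* ↥E).range) = p ^ b) (hab : a ≤ b + 1) :
    ∃ W : AddSubgroup (↥S → ZMod p), (W.index ≠ 0 ∧ W.index ≤ p) ∧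
      ∀ c : ↥S → ZMod p, c ∈ W →
        ∃ x : Fˣ, x ∈ E ∧ ∀ v : ↥S, ((ord v.1 (x : F) : ℤ) : ZMod p) = c v := by
  apply exists_W_of_count S G hG hfin E
  rw [card_map_diag S G E hpow hker, hE, card_pi_quotient, ← pow_succ']
  exact le_trans hprod (Nat.pow_le_pow_right hp.pos hab)

end Fermat.Agent.S14x.A10V
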