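/-
S14 Part A, sub-step (A10-ker) of the second inequality (helper9).

If `x` is an `S ∪ T`-unit lying in the local groups `G v` of (A8) for all `v ∈ S`, where `T` is
the auxiliary set of primes of (A9) (the residue characters at `T` are jointly onto on the
`S`-units), then `x` is a `p`-th power: otherwise `F(x^{1/p})/F` would be a Kummer extension in
which `S` splits and which is unramified outside `T`, contradicting (A7).
-/
import Fermat.Agent.S14_A67w
import Fermat.Agent.S14_KummerExt

set_option autoImplicit false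

namespace Fermat.Agent.S14x

open IsDedekindDomain NumberField

universe u

namespace A10K

/-- **(A10-ker)**, abstract form: hypotheses are the conclusions of `A8_local` (last clause)
and of `A9_choice` (ontoness). -/
theorem exists_pow_eq {F : Type u} [Field F] [NumberField F] {p : ℕ} (hp : p.Prime)
    (hp2 : p ≠ 2) (hζ : ∃ ζ : F, IsPrimitiveRoot ζ p) (S T : Finset (Pl F))
    (hST : Disjoint S T) (hSp : ∀ v : Pl F, ord v (p : F) ≠ 0 → v ∈ S)
    (hkill : Kills (S : Set (Pl F))) (G : Pl F → Subgroup Fˣ)
    (hG : ∀ v ∈ S, ∀ x ∈ G v, ∀ (F'' : Type u) [Field F''] [NumberField F''] [Algebra F F''],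
        KummerPair F F'' p → ∀ θ : F'', θ ^ p = algebraMap F F'' (x : F) →
          (∀ y : F, y ^ p ≠ (x : F)) → IsSplit F F'' v)
    (honto : ∀ c : Pl F → Multiplicative (ZMod p),
      ∃ u : Fˣ, u ∈ SU (S : Set (Pl F)) ∧ ∀ v ∈ T, resCharU p v u = c v)
    (x : Fˣ) (hx : x ∈ SU ((S : Set (Pl F)) ∪ (T : Set (Pl F))))
    (hxG : ∀ v ∈ S, x ∈ G v) : ∃ y : Fˣ, y ^ p = x := by
  by_contra hcon
  have hpow : ∀ y : F, y ^ p ≠ (x : F) := by
    intro y hy
    have hy0 : y ≠ 0 := by
      rintro rfl
      rw [zero_pow hp.ne_zero] at hy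
      exact x.ne_zero hy.symm
    exact hcon ⟨Units.mk0 y hy0, Units.ext (by simpa using hy)⟩
  obtain ⟨F'', _, _, _, hK, θ, hθ⟩ := exists_kummerPair hp hp2 hζ (x : F) hpow
  have hsplit : ∀ v ∈ S, IsSplit F F'' v := fun v hv =>
    hG v hv x (hxG v hv) F'' hK θ hθ hpow
  have hTp : ∀ v ∈ T, ord v (p : F) = 0 := by
    intro v hv
    by_contra h
    exact (Finset.disjoint_left.mp hST (hSp v h)) hv
  have hunr : ∀ v : Pl F, v ∉ T → IsUnramAt F F'' v := by
    intro v hvT
    by_cases hvS : v ∈ S
    · intro w hw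
      exact (hsplit v hvS w hw).1
    · have hvp : ord v (p : F) = 0 := by
        by_contra h
        exact hvS (hSp v h)
      have hvx : ord v (x : F) = 0 := by
        refine mem_SU_iff.mp hx v ?_
        rintro (h | h)
        · exact hvS (by simpa using h)
        · exact hvT (by simpa using h)
      exact A4u_unram hK hθ hpow v hvp (by rw [hvx]; exact dvd_zero _)
  exact A7_false hK S T hST hkill hsplit hTp hunr honto

end A10K

end Fermat.Agent.S14x
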