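/-
S14, Part B, helpers for (B3) (choice of the auxiliary modulus):

* `B3Z.not_pthPower_of_ord`: in an unramified extension an element of the base whose valuation at
  some prime is prime to `p` is not a `p`-th power upstairs;
* `B3Z.ord_absNorm_pos`, `B3Z.ord_absNorm_le`: `1 ≤ ord v (N v) ≤ [K : ℚ]`;
* `B3Z.ord_natCast_eq_zero_of_coprime`;
* `B3Z.exists_prime_nonresidue`: for a natural number `x` which is not a `p`-th power in `L ∋ ζ_p`
  there are primes `u` of `L` of prime norm `l`, off any finite set, such that `x` is not a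
  `p`-th power modulo `l`  (lemma (Z) for `L(x^{1/p})/L` and the Kummer criterion (A4a)).
-/
import Fermat.Agent.S14_KummerExt
import Fermat.Agent.S14_A4
import Fermat.Agent.S14_DivGal
import Fermat.Agent.S14_ZAn

set_option autoImplicit false

namespace Fermat.Agent.S14x.B3Z

open IsDedekindDomain NumberField

/-- (np1) -/
theorem not_pthPower_of_ord {K L : Type*} [Field K] [NumberField K] [Field L] [NumberField L]
    [Algebra K L] {p : ℕ} (hunr : Unramified K L) (v : Pl K) (x : K)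
    (hx : ¬ (p : ℤ) ∣ ord v x) : ∀ y : L, y ^ p ≠ algebraMap K L x := by
  intro y hy
  obtain ⟨w, hw⟩ := exists_above K (F' := L) v
  have h1 : ord w (algebraMap K L x) = ord v x := by
    rw [ord_algebraMap, hunr w, hw]
    simp
  apply hx
  rw [← h1, ← hy, ord_pow]
  exact dvd_mul_right _ _

theorem natCast_absNorm_mem {K : Type*} [Field K] [NumberField K] (v : Pl K) :
    ((Ideal.absNorm v.asIdeal : ℕ) : 𝓞 K) ∈ v.asIdeal :=
  Ideal.absNorm_mem v.asIdeal

theorem coe_natCast {K : Type*} [Field K] [NumberField K] (n : ℕ) :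
    (((n : ℕ) : 𝓞 K) : K) = (n : K) := by
  simp

theorem absNorm_two_le {K : Type*} [Field K] [NumberField K] (v : Pl K) :
    2 ≤ Ideal.absNorm v.asIdeal := by
  have h1 : Ideal.absNorm v.asIdeal ≠ 1 := fun h1 =>
    v.isPrime.ne_top (Ideal.absNorm_eq_one_iff.mp h1)
  have h0 : Ideal.absNorm v.asIdeal ≠ 0 := fun h0 =>
    v.ne_bot (Ideal.absNorm_eq_zero_iff.mp h0)
  omega

/-- (np2a) -/
theorem ord_absNorm_pos {K : Type*} [Field K] [NumberField K] (v : Pl K) :
    1 ≤ ord v ((Ideal.absNorm v.asIdeal : ℕ) : K) := by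
  have h := (mem_asIdeal_iff v _).mp (natCast_absNorm_mem v)
  rw [coe_natCast, vGe_iff] at h
  rcases h with h | h
  · exfalso
    have := absNorm_two_le v
    have h' : (Ideal.absNorm v.asIdeal : ℕ) = 0 := by exact_mod_cast h
    omega
  · exact h

/-- (np2b) -/
theorem ord_absNorm_le {K : Type*} [Field K] [NumberField K] (v : Pl K) :
    ord v ((Ideal.absNorm v.asIdeal : ℕ) : K) ≤ Module.finrank ℚ K := by
  set N := Ideal.absNorm v.asIdeal with hN
  have hN2 : 2 ≤ N := absNorm_two_le v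
  have hpos := ord_absNorm_pos v
  rw [← hN] at hpos
  obtain ⟨k, hk⟩ : ∃ k : ℕ, ord v ((N : ℕ) : K) = k := ⟨(ord v ((N : ℕ) : K)).toNat, by omega⟩
  rw [hk]
  have hmem : ((N : ℕ) : 𝓞 K) ∈ v.asIdeal ^ k := by
    rw [mem_asIdeal_pow_iff, coe_natCast, vGe_iff]
    right
    rw [hk]
  have hle : Ideal.span {((N : ℕ) : 𝓞 K)} ≤ v.asIdeal ^ k :=
    (Ideal.span_singleton_le_iff_mem _).mpr hmem
  have hdvd := Ideal.absNorm_dvd_absNorm_of_le hle
  rw [map_pow, ← hN, Ideal.absNorm_span_singleton] at hdvd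
  have hnorm : Algebra.norm ℤ ((N : ℕ) : 𝓞 K) = (N : ℤ) ^ Module.finrank ℚ K := by
    have h1 : ((N : ℕ) : 𝓞 K) = algebraMap ℤ (𝓞 K) (N : ℤ) := by simp
    rw [h1, Algebra.norm_algebraMap, RingOfIntegers.rank]
  rw [hnorm, Int.natAbs_pow, Int.natAbs_natCast] at hdvd
  have := (Nat.pow_dvd_pow_iff_le_right (by omega : 1 < N)).mp hdvd
  exact_mod_cast this

/-- (np3) -/
theorem ord_natCast_eq_zero_of_coprime {K : Type*} [Field K] [NumberField K] (v : Pl K) (n : ℕ)
    (h : Nat.Coprime n (Ideal.absNorm v.asIdeal)) : ord v (n : K) = 0 := by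
  have hn0 : n ≠ 0 := by
    rintro rfl
    rw [Nat.coprime_zero_left] at h
    have := absNorm_two_le v
    omega
  have hint : IsIntegral ℤ ((n : ℕ) : K) := by
    have : ((n : ℕ) : K) = algebraMap ℤ K (n : ℤ) := by simp
    rw [this]
    exact isIntegral_algebraMap
  have h0 := ord_nonneg_of_isIntegral v hint
  by_contra hne
  have h1 : 1 ≤ ord v (n : K) := by omega
  have hmem : ((n : ℕ) : 𝓞 K) ∈ v.asIdeal := by
    rw [mem_asIdeal_iff, coe_natCast, vGe_iff]
    exact Or.inr h1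
  have hmem2 := natCast_absNorm_mem v
  have hone : ((1 : ℕ) : 𝓞 K) ∈ v.asIdeal := by
    have hg := Nat.gcd_eq_gcd_ab n (Ideal.absNorm v.asIdeal)
    rw [Nat.Coprime.gcd_eq_one h] at hg
    have e : ((1 : ℕ) : 𝓞 K) = ((n : ℕ) : 𝓞 K) * ((Nat.gcdA n (Ideal.absNorm v.asIdeal) : ℤ) : 𝓞 K) +
        ((Ideal.absNorm v.asIdeal : ℕ) : 𝓞 K) *
          ((Nat.gcdB n (Ideal.absNorm v.asIdeal) : ℤ) : 𝓞 K) := by
      have := congrArg (Int.cast : ℤ → 𝓞 K) hg
      push_cast at this
      push_cast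
      exact this
    rw [e]
    exact v.asIdeal.add_mem (v.asIdeal.mul_mem_right _ hmem) (v.asIdeal.mul_mem_right _ hmem2)
  apply v.isPrime.ne_top
  rw [Ideal.eq_top_iff_one]
  simpa using hone

/-- **(B3-Z)**: primes of prime norm modulo which `x` is not a `p`-th power. -/
theorem exists_prime_nonresidue (p : ℕ) [Fact p.Prime] (hp2 : p ≠ 2) (L : Type) [Field L]
    [NumberField L] (hζ : ∃ ζ : L, IsPrimitiveRoot ζ p) (x : ℕ) (hx : ∀ y : L, y ^ p ≠ (x : L))
    (T : Finset (Pl L)) :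
    ∃ u : Pl L, u ∉ T ∧ (Ideal.absNorm u.asIdeal).Prime ∧ ord u (p : L) = 0 ∧ ord u (x : L) = 0 ∧
      ∀ y : ZMod (Ideal.absNorm u.asIdeal), y ^ p ≠ (x : ZMod (Ideal.absNorm u.asIdeal)) := by
  classical
  have hp : p.Prime := Fact.out
  obtain ⟨L1, _, _, _, hKP, θ, hθ⟩ := exists_kummerPair hp hp2 hζ (x : L) hx
  have : IsGalois L L1 := hKP.galois
  set T' : Finset (Pl L) := T ∪ (ord_support_finite (p : L)).toFinset ∪
    (ord_support_finite (x : L)).toFinset with hT'
  obtain ⟨u, huT, hprime, huniq⟩ := Fermat.Agent.S14x.ZAn.S14_Z p L L1 hKP.degree T'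
  have hu1 : u ∉ T := fun h => huT (by simp [hT', h])
  have hu2 : ord u (p : L) = 0 := by
    by_contra h
    exact huT (by simp [hT', h])
  have hu3 : ord u (x : L) = 0 := by
    by_contra h
    exact huT (by simp [hT', h])
  refine ⟨u, hu1, hprime, hu2, hu3, ?_⟩
  intro y hy
  -- `u` is not split in `L1`
  have hns : ¬ IsSplit L L1 u := by
    intro hs
    have hcard := hKP.ncard_above_of_isSplit hs
    have hsub : {w : Pl L1 | below L w = u}.Subsingleton := by
      intro w1 hw1 w2 hw2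
      have e1 : w1.asIdeal.comap (algebraMap (𝓞 L) (𝓞 L1)) = u.asIdeal := by
        rw [← below_asIdeal, hw1]
      have e2 : w2.asIdeal.comap (algebraMap (𝓞 L) (𝓞 L1)) = u.asIdeal := by
        rw [← below_asIdeal, hw2]
      exact huniq w1 w2 e1 e2
    have hfin := finite_above L (F' := L1) u
    have hle : {w : Pl L1 | below L w = u}.ncard ≤ 1 :=
      (Set.ncard_le_one hfin).mpr (fun a ha b hb => hsub ha hb)
    have := hp.two_le
    omega
  apply hns
  refine A4a_split hKP hθ hx u hu2 hu3 ?_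
  -- `x` is a `p`-th power modulo `u`
  have hne : NeZero (Ideal.absNorm u.asIdeal) := ⟨hprime.ne_zero⟩
  have hc : ((y.val : ℕ) : ZMod (Ideal.absNorm u.asIdeal)) = y := ZMod.natCast_zmod_val y
  have hdvd : ((Ideal.absNorm u.asIdeal : ℕ) : ℤ) ∣ (x : ℤ) - (y.val : ℤ) ^ p := by
    rw [← ZMod.intCast_zmod_eq_zero_iff_dvd]
    push_cast
    rw [hc, hy, sub_self]
  obtain ⟨t, ht⟩ := hdvd
  refine ⟨((y.val : ℕ) : L), ?_⟩
  have hmem : ((Ideal.absNorm u.asIdeal : ℕ) : 𝓞 L) * ((t : ℤ) : 𝓞 L) ∈ u.asIdeal :=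
    u.asIdeal.mul_mem_right _ (natCast_absNorm_mem u)
  rw [mem_asIdeal_iff] at hmem
  have e : ((((Ideal.absNorm u.asIdeal : ℕ) : 𝓞 L) * ((t : ℤ) : 𝓞 L) : 𝓞 L) : L) =
      (x : L) - ((y.val : ℕ) : L) ^ p := by
    have := congrArg (Int.cast : ℤ → L) ht
    push_cast at this
    push_cast
    exact this.symm
  rw [e] at hmem
  exact hmem

end Fermat.Agent.S14x.B3Z
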