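/-
S14 moonshot, abstract step of (B5) (pure algebra): two characters `ω, χ` of a free abelian
group `ι →₀ ℤ` with values in `ZMod p` such that `χ` vanishes on the generators killed by `ω`
and the "cross relation" holds for pairs of generators with distinct labels `r`, are
proportional, provided that `ω` is nonzero on generators of arbitrarily large label.
-/
import Mathlib

set_option autoImplicit false

namespace Fermat.Agent.S14x.B5

theorem eq_smul_of_cross {ι : Type*} {p : ℕ} [Fact p.Prime] (r : ι → ℕ)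
    (ω χ : (ι →₀ ℤ) →+ ZMod p)
    (h0 : ∀ v, ω (Finsupp.single v 1) = 0 → χ (Finsupp.single v 1) = 0)
    (hcross : ∀ v1 v2, r v1 ≠ r v2 → ω (Finsupp.single v1 1) ≠ 0 → ω (Finsupp.single v2 1) ≠ 0 →
      χ (Finsupp.single v1 1) * ω (Finsupp.single v2 1) =
        χ (Finsupp.single v2 1) * ω (Finsupp.single v1 1))
    (hinf : ∀ n : ℕ, ∃ v, n < r v ∧ ω (Finsupp.single v 1) ≠ 0) :
    ∃ c : ZMod p, ∀ D, χ D = c * ω D := by
  classical
  obtain ⟨v0, -, hv0⟩ := hinf 0
  set c : ZMod p := χ (Finsupp.single v0 1) / ω (Finsupp.single v0 1) with hc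
  have hc0 : χ (Finsupp.single v0 1) = c * ω (Finsupp.single v0 1) := by
    rw [hc, div_mul_cancel₀ _ hv0]
  -- generators with a label different from that of `v0`
  have key1 : ∀ v, r v ≠ r v0 → χ (Finsupp.single v 1) = c * ω (Finsupp.single v 1) := by
    intro v hr
    by_cases hv : ω (Finsupp.single v 1) = 0
    · rw [h0 v hv, hv, mul_zero]
    · have h := hcross v v0 hr hv hv0
      rw [hc, div_mul_eq_mul_div, eq_div_iff hv0]
      exact h
  -- all generators
  have key : ∀ v, χ (Finsupp.single v 1) = c * ω (Finsupp.single v 1) := by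
    intro v
    by_cases hr : r v = r v0
    · by_cases hv : ω (Finsupp.single v 1) = 0
      · rw [h0 v hv, hv, mul_zero]
      · obtain ⟨v3, hr3, hv3⟩ := hinf (r v)
        have h3 : χ (Finsupp.single v3 1) = c * ω (Finsupp.single v3 1) :=
          key1 v3 (by rw [← hr]; exact hr3.ne')
        have h := hcross v v3 hr3.ne hv hv3
        rw [h3] at h
        have h' : χ (Finsupp.single v 1) * ω (Finsupp.single v3 1) =
            (c * ω (Finsupp.single v 1)) * ω (Finsupp.single v3 1) := by
          rw [h]; ring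
        exact mul_right_cancel₀ hv3 h'
    · exact key1 v hr
  refine ⟨c, fun D => ?_⟩
  induction D using Finsupp.induction_linear with
  | zero => simp
  | add f g hf hg => rw [map_add, map_add, hf, hg, mul_add]
  | single v n =>
    have hs : (Finsupp.single v n : ι →₀ ℤ) = n • Finsupp.single v 1 := by
      rw [Finsupp.smul_single, smul_eq_mul, mul_one]
    rw [hs, map_zsmul, map_zsmul, key v, zsmul_eq_mul, zsmul_eq_mul]
    ring

/-- Corollary: if moreover `χ ≠ 0`, then `ω` vanishes wherever `χ` does. -/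
theorem eq_zero_of_cross {ι : Type*} {p : ℕ} [Fact p.Prime] (r : ι → ℕ)
    (ω χ : (ι →₀ ℤ) →+ ZMod p)
    (h0 : ∀ v, ω (Finsupp.single v 1) = 0 → χ (Finsupp.single v 1) = 0)
    (hcross : ∀ v1 v2, r v1 ≠ r v2 → ω (Finsupp.single v1 1) ≠ 0 → ω (Finsupp.single v2 1) ≠ 0 →
      χ (Finsupp.single v1 1) * ω (Finsupp.single v2 1) =
        χ (Finsupp.single v2 1) * ω (Finsupp.single v1 1))
    (hinf : ∀ n : ℕ, ∃ v, n < r v ∧ ω (Finsupp.single v 1) ≠ 0)
    (hχ : χ ≠ 0) (D : ι →₀ ℤ) (hD : χ D = 0) : ω D = 0 := by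
  obtain ⟨c, hc⟩ := eq_smul_of_cross r ω χ h0 hcross hinf
  have hc0 : c ≠ 0 := by
    rintro rfl
    apply hχ
    refine DFunLike.ext _ _ (fun D' => ?_)
    rw [hc D', zero_mul]
    rfl
  have := hc D
  rw [hD] at this
  rcases mul_eq_zero.mp this.symm with h | h
  · exact absurd h hc0
  · exact h

end Fermat.Agent.S14x.B5
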