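import Fermat.Agent.S14_Artin

set_option autoImplicit false

namespace Fermat.Agent.S14x

open IsDedekindDomain NumberField

section cross

variable {p : ℕ} {K L Ω : Type} [Field K] [Field L] [Field Ω] [NumberField K] [NumberField L]
  [NumberField Ω] [Algebra K L] [Algebra K Ω] [Algebra L Ω] [IsScalarTower K L Ω]
  [IsGalois K L] [IsGalois K Ω]

/-- the fixed field of `H`. -/
abbrev fixF (H : Subgroup (Ω ≃ₐ[K] Ω)) : IntermediateField K Ω := IntermediateField.fixedField H

variable (L) in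
/-- the compositum of the fixed field of `H` with `L`. -/
abbrev compF (H : Subgroup (Ω ≃ₐ[K] Ω)) : IntermediateField (fixF H) Ω :=
  IntermediateField.adjoin (fixF H) (Set.range (algebraMap L Ω))

noncomputable instance compF.algebraL (H : Subgroup (Ω ≃ₐ[K] Ω)) : Algebra L ↥(compF L H) :=
  RingHom.toAlgebra ((algebraMap L Ω).codRestrict (compF L H)
    (fun x => IntermediateField.subset_adjoin _ _ ⟨x, rfl⟩))

instance compF.tower1 (H : Subgroup (Ω ≃ₐ[K] Ω)) : IsScalarTower L ↥(compF L H) Ω :=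
  IsScalarTower.of_algebraMap_eq (fun _ => rfl)

instance compF.tower2 (H : Subgroup (Ω ≃ₐ[K] Ω)) : IsScalarTower K ↥(compF L H) Ω :=
  IsScalarTower.of_algebraMap_eq (fun _ => rfl)

instance compF.tower3 (H : Subgroup (Ω ≃ₐ[K] Ω)) : IsScalarTower K L ↥(compF L H) :=
  IsScalarTower.of_algebraMap_eq (fun x => Subtype.ext (IsScalarTower.algebraMap_apply K L Ω x))

theorem compF.coe_algebraMap (H : Subgroup (Ω ≃ₐ[K] Ω)) (x : L) :
    ((algebraMap L ↥(compF L H) x : ↥(compF L H)) : Ω) = algebraMap L Ω x := rfl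

instance compF.isGalois (H : Subgroup (Ω ≃ₐ[K] Ω)) : IsGalois ↥(fixF H) ↥(compF L H) := by
  have hn : Normal ↥(fixF H) ↥(compF L H) := by
    rw [IntermediateField.normal_iff_forall_map_le']
    intro σ
    rw [IntermediateField.adjoin_map]
    apply IntermediateField.adjoin.mono
    rintro _ ⟨_, ⟨x, rfl⟩, rfl⟩
    exact ⟨(σ.restrictScalars K).restrictNormal L x,
      AlgEquiv.restrictNormal_commutes (σ.restrictScalars K) L x⟩
  exact ⟨⟩

/-- restriction from `Gal(F'/F)` to `Gal(L/K)`. -/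
noncomputable def compF.res (H : Subgroup (Ω ≃ₐ[K] Ω)) :
    (↥(compF L H) ≃ₐ[↥(fixF H)] ↥(compF L H)) →* (L ≃ₐ[K] L) :=
  (AlgEquiv.restrictNormalHom L).comp
    { toFun := fun t => t.restrictScalars K
      map_one' := rfl
      map_mul' := fun _ _ => rfl }

theorem compF.res_spec (H : Subgroup (Ω ≃ₐ[K] Ω))
    (t : ↥(compF L H) ≃ₐ[↥(fixF H)] ↥(compF L H)) (x : L) :
    algebraMap L ↥(compF L H) (compF.res H t x) = t (algebraMap L ↥(compF L H) x) :=
  AlgEquiv.restrictNormal_commutes (t.restrictScalars K) L x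

theorem compF.res_injective (H : Subgroup (Ω ≃ₐ[K] Ω)) :
    Function.Injective (compF.res (L := L) H) := by
  rw [injective_iff_map_eq_one]
  intro t ht
  have h1 : (t : ↥(compF L H) →ₐ[↥(fixF H)] ↥(compF L H)) = AlgHom.id _ _ := by
    apply IntermediateField.adjoin_algHom_ext
    rintro _ ⟨y, rfl⟩
    have := compF.res_spec H t y
    rw [ht] at this
    exact this.symm
  ext x
  exact congrArg Subtype.val (DFunLike.congr_fun h1 x)

theorem compF.exists_res_eq (H : Subgroup (Ω ≃ₐ[K] Ω)) {φ : Ω ≃ₐ[K] Ω} (hφ : φ ∈ H) :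
    ∃ t : ↥(compF L H) ≃ₐ[↥(fixF H)] ↥(compF L H), compF.res H t = φ.restrictNormal L := by
  let φF : Ω ≃ₐ[↥(fixF H)] Ω := IntermediateField.subgroupEquivAlgEquiv H ⟨φ, hφ⟩
  have hφF : ∀ x : Ω, φF x = φ x := fun x => rfl
  refine ⟨φF.restrictNormal ↥(compF L H), ?_⟩
  ext y
  apply (algebraMap L Ω).injective
  rw [← compF.coe_algebraMap H, compF.res_spec, AlgEquiv.restrictNormal_commutes]
  have h1 : (algebraMap ↥(compF L H) Ω) ((φF.restrictNormal ↥(compF L H))
      (algebraMap L ↥(compF L H) y)) = φF (algebraMap ↥(compF L H) Ω (algebraMap L ↥(compF L H) y)) :=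
    AlgEquiv.restrictNormal_commutes φF ↥(compF L H) _
  exact h1.trans (hφF _)

theorem compF.finrank (h : NFData p K L) (H : Subgroup (Ω ≃ₐ[K] Ω)) {φ : Ω ≃ₐ[K] Ω}
    (hφ : φ ∈ H) (hφL : φ.restrictNormal L ≠ 1) :
    Module.finrank ↥(fixF H) ↥(compF L H) = p := by
  rw [← IsGalois.card_aut_eq_finrank]
  have hinj := compF.res_injective (L := L) H
  have h1 : Nat.card (↥(compF L H) ≃ₐ[↥(fixF H)] ↥(compF L H)) =
      Nat.card (compF.res (L := L) H).range :=
    Nat.card_congr (MonoidHom.ofInjective hinj).toEquiv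
  rw [h1]
  have h2 : Nat.card (compF.res (L := L) H).range ∣ p := by
    have := Subgroup.card_subgroup_dvd_card (compF.res (L := L) H).range
    rwa [h.card_gal] at this
  rcases (Nat.dvd_prime h.prime).mp h2 with h3 | h3
  · exfalso
    obtain ⟨t, ht⟩ := compF.exists_res_eq (L := L) H hφ
    have h4 : (compF.res (L := L) H).range = ⊥ := Subgroup.card_eq_one.mp h3
    have h5 : compF.res (L := L) H t ∈ (compF.res (L := L) H).range := ⟨t, rfl⟩
    rw [h4, Subgroup.mem_bot, ht] at h5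
    exact hφL h5
  · exact h3

theorem compF.unramified (h : NFData p K L) (H : Subgroup (Ω ≃ₐ[K] Ω)) :
    Unramified ↥(fixF H) ↥(compF L H) := by
  apply unramified_of_inertiaTrivial
  intro w t ht
  apply compF.res_injective (L := L) H
  rw [map_one]
  apply h.inertia (below L w)
  intro x
  obtain ⟨y, hy, hxy⟩ := ht (algebraMap (𝓞 L) (𝓞 ↥(compF L H)) x)
  have hint : IsIntegral ℤ ((compF.res (L := L) H t) (x : L) - (x : L)) :=
    (map_isIntegral_int (compF.res (L := L) H t).toAlgHom x.2).sub x.2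
  refine ⟨⟨_, hint⟩, ?_, rfl⟩
  rw [below_asIdeal L w, Ideal.mem_comap]
  have h2 : algebraMap (𝓞 L) (𝓞 ↥(compF L H))
      ⟨(compF.res (L := L) H t) (x : L) - (x : L), hint⟩ = y := by
    apply Subtype.ext
    calc ((algebraMap (𝓞 L) (𝓞 ↥(compF L H))
        ⟨(compF.res (L := L) H t) (x : L) - (x : L), hint⟩ : 𝓞 ↥(compF L H)) : ↥(compF L H))
        = algebraMap L ↥(compF L H) ((compF.res (L := L) H t) (x : L) - (x : L)) := rfl
      _ = t (algebraMap L ↥(compF L H) (x : L)) - algebraMap L ↥(compF L H) (x : L) := by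
        rw [map_sub, compF.res_spec]
      _ = (y : ↥(compF L H)) := hxy
  rw [h2]
  exact hy

theorem compF.kummerPair (h : NFData p K L) (H : Subgroup (Ω ≃ₐ[K] Ω)) {φ : Ω ≃ₐ[K] Ω}
    (hφ : φ ∈ H) (hφL : φ.restrictNormal L ≠ 1) :
    KummerPair ↥(fixF H) ↥(compF L H) p := by
  obtain ⟨ζ, hζ⟩ := h.zeta
  exact ⟨h.prime, h.odd, ⟨algebraMap K ↥(fixF H) ζ,
    hζ.map_of_injective (algebraMap K ↥(fixF H)).injective⟩, inferInstance,
    compF.finrank h H hφ hφL⟩

end cross

end Fermat.Agent.S14x
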