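/-
S14: transfer of complete splitting along a restriction of Galois groups.  If `F'/F` and `L/K`
are Galois, `j : L → F'` is an embedding such that every automorphism of `F'/F` restricts to an
automorphism of `L/K` and is determined by this restriction (e.g. `F' = F·L`), then a prime of
`F'` lying over a prime of `L` with `e = f = 1` over `K` has `e = f = 1` over `F`.
-/
import Fermat.Agent.S14_NormSurj

set_option autoImplicit false

namespace Fermat.Agent.S14x.SplitRes

open IsDedekindDomain NumberField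

variable {K L F F' : Type*} [Field K] [NumberField K] [Field L] [NumberField L] [Algebra K L]
  [IsGalois K L] [Field F] [NumberField F] [Field F'] [NumberField F'] [Algebra F F']
  [IsGalois F F']

/-- restriction of stabilizers: `e = f = 1` is inherited -/
theorem eOf_fOf_eq_one_of_restrict [Algebra L F']
    (hres : ∀ g : F' ≃ₐ[F] F', ∃ σ : L ≃ₐ[K] L, ∀ x : L,
      g (algebraMap L F' x) = algebraMap L F' (σ x))
    (hinj : ∀ g : F' ≃ₐ[F] F', (∀ x : L, g (algebraMap L F' x) = algebraMap L F' x) → g = 1)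
    (w' : Pl F') (he : eOf K (below L w') = 1) (hf : fOf K (below L w') = 1) :
    eOf F w' = 1 ∧ fOf F w' = 1 := by
  set w : Pl L := below L w' with hwdef
  have hstab : ∀ h : F' ≃ₐ[F] F', gsmul F h w' = w' → h = 1 := by
    intro h hh
    obtain ⟨σ, hσ⟩ := hres h
    have hh' : gsmul F h⁻¹ w' = w' := by
      conv_lhs => rw [← hh]
      rw [← gsmul_mul, inv_mul_cancel, gsmul_one]
    have hσw : gsmul K σ w = w := by
      refine (eq_of_asIdeal_le ?_).symm
      intro x hx
      rw [mem_asIdeal_iff] at hx ⊢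
      -- `x = σ y`
      set y : L := σ⁻¹ (x : L) with hy
      have hxy : (x : L) = σ y := by
        rw [hy]
        exact (AlgEquiv.apply_symm_apply σ (x : L)).symm
      rw [hxy, vGe_gsmul]
      -- transfer to `F'`
      have hyint : IsIntegral ℤ y := by
        rw [hy]
        exact x.2.map (σ⁻¹ : L ≃ₐ[K] L)
      refine vGe_one_of_algebraMap L w' (vGe_of_isIntegral _ hyint) ?_
      have h1 : vGe w' (eOf L w' * 1) (algebraMap L F' (x : L)) := vGe_algebraMap L w' hx
      have h2 : vGe w' 1 (algebraMap L F' (x : L)) :=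
        h1.mono (by have := eOf_pos L w'; omega)
      have h3 : algebraMap L F' y = h⁻¹ (algebraMap L F' (x : L)) := by
        rw [hxy, ← hσ y]
        exact (AlgEquiv.symm_apply_apply h _).symm
      rw [h3]
      have h4 := (vGe_gsmul F h⁻¹ w' 1 (algebraMap L F' (x : L))).mpr h2
      rwa [hh'] at h4
    have hσ1 : σ = 1 := NormSurj.eq_one_of_gsmul_eq he hf hσw
    apply hinj h
    intro x
    rw [hσ x, hσ1]
    rfl
  have hcard := card_stabilizer F w'
  have h1 : Nat.card {σ : F' ≃ₐ[F] F' // gsmul F σ w' = w'} = 1 := by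
    rw [Nat.card_eq_one_iff_unique]
    refine ⟨⟨fun a b => ?_⟩, ⟨⟨1, gsmul_one F w'⟩⟩⟩
    apply Subtype.ext
    rw [hstab a.1 a.2, hstab b.1 b.2]
  rw [h1] at hcard
  exact ⟨Nat.eq_one_of_mul_eq_one_right hcard.symm, Nat.eq_one_of_mul_eq_one_left hcard.symm⟩

/-- primes of `F` dividing `m` split completely in `F'` if the primes of `L` dividing `m` have
`e = f = 1` over `K` -/
theorem isSplit_of_restrict [Algebra L F']
    (hres : ∀ g : F' ≃ₐ[F] F', ∃ σ : L ≃ₐ[K] L, ∀ x : L,
      g (algebraMap L F' x) = algebraMap L F' (σ x))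
    (hinj : ∀ g : F' ≃ₐ[F] F', (∀ x : L, g (algebraMap L F' x) = algebraMap L F' x) → g = 1)
    (m : ℕ) (hL : ∀ w : Pl L, ord w (m : L) ≠ 0 → eOf K w = 1 ∧ fOf K w = 1) :
    ∀ P : Pl F, ord P (m : F) ≠ 0 → IsSplit F F' P := by
  intro P hP w' hw'
  have h1 : ord w' (m : F') ≠ 0 := by
    have h := ord_algebraMap F w' (m : F)
    rw [map_natCast] at h
    rw [h, hw']
    have hpos := eOf_pos F w'
    exact mul_ne_zero (by exact_mod_cast hpos.ne') hP
  have h2 : ord (below L w') (m : L) ≠ 0 := by
    intro h0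
    have h := ord_algebraMap L w' (m : L)
    rw [map_natCast, h0, mul_zero] at h
    exact h1 h
  obtain ⟨he, hf⟩ := hL _ h2
  exact eOf_fOf_eq_one_of_restrict hres hinj w' he hf

end Fermat.Agent.S14x.SplitRes

namespace Fermat.Agent.S14x

open IsDedekindDomain NumberField

/-- transfer of complete splitting along an injective restriction map `res` of Galois groups
(compatible with an embedding `j : L → F'`): primes of `F` dividing `m` split completely in `F'`
if the primes of `L` dividing `m` have `e = f = 1` over `K`. -/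
theorem isSplit_of_res {K L F F' : Type*} [Field K] [NumberField K] [Field L] [NumberField L]
    [Algebra K L] [IsGalois K L] [Field F] [NumberField F] [Field F'] [NumberField F']
    [Algebra F F'] [IsGalois F F']
    (j : L →+* F') (res : (F' ≃ₐ[F] F') → (L ≃ₐ[K] L))
    (hres : ∀ (g : F' ≃ₐ[F] F') (x : L), g (j x) = j (res g x))
    (hinj : Function.Injective res) (m : ℕ)
    (hL : ∀ w : Pl L, ord w (m : L) ≠ 0 → eOf K w = 1 ∧ fOf K w = 1) :
    ∀ P : Pl F, ord P (m : F) ≠ 0 → IsSplit F F' P := by
  let _ : Algebra L F' := j.toAlgebra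
  have hone : res 1 = 1 := by
    ext x
    apply j.injective
    rw [← hres 1 x]
    rfl
  refine SplitRes.isSplit_of_restrict (K := K) (L := L) (fun g => ⟨res g, fun x => hres g x⟩)
    (fun g hg => hinj ?_) m hL
  rw [hone]
  ext x
  apply j.injective
  rw [← hres g x]
  exact hg x

/-- the CRT step (B-CRT) with the splitting hypothesis transferred from `L/K`. -/
theorem kills_principal_of_congr_res {p : ℕ} {K L F F' : Type} [Field K] [NumberField K]
    [Field L] [NumberField L] [Algebra K L] [IsGalois K L] [Field F] [NumberField F] [Field F']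
    [NumberField F'] [Algebra F F'] [IsGalois F F']
    (j : L →+* F') (res : (F' ≃ₐ[F] F') → (L ≃ₐ[K] L))
    (hres : ∀ (g : F' ≃ₐ[F] F') (x : L), g (j x) = j (res g x))
    (hinj : Function.Injective res) (m : ℕ) (hm : m ≠ 0)
    (hL : ∀ w : Pl L, ord w (m : L) ≠ 0 → eOf K w = 1 ∧ fOf K w = 1)
    (χ : Dv F →+ ZMod p)
    (hχN : ∀ D' : Dv F', χ (normDiv F D') = 0)
    (hχ1 : ∀ b : F, IsIntegral ℤ b → b ≠ 0 → IsIntegral ℤ ((b - 1) / (m : F)) → χ (div b) = 0) :
    ∀ x : F, x ≠ 0 → χ (div x) = 0 :=
  kills_principal_of_congr' m hm χ hχN hχ1 (isSplit_of_res j res hres hinj m hL)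

end Fermat.Agent.S14x
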