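/-
S14: for helper4's compositum `compF L H = (fixF H)·L`: the primes of `fixF H` dividing `m`
split completely in `compF L H` when the primes of `L` dividing `m` have `e = f = 1` over `K`;
the CRT step (B-CRT) in this setting.
-/
import Fermat.Agent.S14_Comp
import Fermat.Agent.S14_SplitRes

set_option autoImplicit false

namespace Fermat.Agent.S14x

open IsDedekindDomain NumberField

section compsplit

variable {p : ℕ} {K L Ω : Type} [Field K] [Field L] [Field Ω] [NumberField K] [NumberField L]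
  [NumberField Ω] [Algebra K L] [Algebra K Ω] [Algebra L Ω] [IsScalarTower K L Ω]
  [IsGalois K L] [IsGalois K Ω]

/-- the primes of `fixF H` dividing `m` split completely in `compF L H`. -/
theorem compF.isSplit_of_modulus (H : Subgroup (Ω ≃ₐ[K] Ω)) (m : ℕ)
    (hL : ∀ w : Pl L, ord w (m : L) ≠ 0 → eOf K w = 1 ∧ fOf K w = 1) :
    ∀ P : Pl ↥(fixF H), ord P (m : ↥(fixF H)) ≠ 0 → IsSplit ↥(fixF H) ↥(compF L H) P :=
  isSplit_of_res (algebraMap L ↥(compF L H)) (compF.res (L := L) H)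
    (fun g x => (compF.res_spec H g x).symm) (compF.res_injective (L := L) H) m hL

/-- norms from `compF L H` to `fixF H` are surjective modulo `m`. -/
theorem compF.norm_surjective_mod (H : Subgroup (Ω ≃ₐ[K] Ω)) (m : ℕ) (hm : m ≠ 0)
    (hL : ∀ w : Pl L, ord w (m : L) ≠ 0 → eOf K w = 1 ∧ fOf K w = 1) :
    ∀ b : ↥(fixF H), IsIntegral ℤ b →
      ∃ γ : ↥(compF L H), IsIntegral ℤ γ ∧
        IsIntegral ℤ ((Algebra.norm ↥(fixF H) γ - b) / (m : ↥(fixF H))) :=
  Fermat.Agent.S14x.norm_surjective_mod m hm (compF.isSplit_of_modulus H m hL)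

/-- the CRT step for `compF L H / fixF H`: a character of `Dv (fixF H)` killing norms from
`compF L H` and the ray `b ≡ 1 mod m` kills all principal divisors. -/
theorem compF.kills_principal_of_congr (H : Subgroup (Ω ≃ₐ[K] Ω)) (m : ℕ) (hm : m ≠ 0)
    (hL : ∀ w : Pl L, ord w (m : L) ≠ 0 → eOf K w = 1 ∧ fOf K w = 1)
    (χ : Dv ↥(fixF H) →+ ZMod p)
    (hχN : ∀ D' : Dv ↥(compF L H), χ (normDiv ↥(fixF H) D') = 0)
    (hχ1 : ∀ b : ↥(fixF H), IsIntegral ℤ b → b ≠ 0 →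
      IsIntegral ℤ ((b - 1) / (m : ↥(fixF H))) → χ (div b) = 0) :
    ∀ x : ↥(fixF H), x ≠ 0 → χ (div x) = 0 :=
  kills_principal_of_congr' m hm χ hχN hχ1 (compF.isSplit_of_modulus H m hL)

/-- (P1 of helper4's finding #64) primes of `F = fixF H` over `m` split in `F·L`. -/
theorem compF.isSplit_of_fOf (h : NFData p K L) (H : Subgroup (Ω ≃ₐ[K] Ω)) (m : ℕ)
    (hmsplit : ∀ w : Pl L, ord w (m : L) ≠ 0 → fOf K w = 1)
    (P : Pl ↥(fixF H)) (hP : ord P (m : ↥(fixF H)) ≠ 0) :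
    IsSplit ↥(fixF H) ↥(compF L H) P :=
  compF.isSplit_of_modulus H m (fun w hw => ⟨h.unramified w, hmsplit w hw⟩) P hP

/-- the CRT step for `compF L H / fixF H` in the `NFData` setting. -/
theorem compF.kills_principal_of_fOf (h : NFData p K L) (H : Subgroup (Ω ≃ₐ[K] Ω)) (m : ℕ)
    (hm : m ≠ 0) (hmsplit : ∀ w : Pl L, ord w (m : L) ≠ 0 → fOf K w = 1)
    (χ : Dv ↥(fixF H) →+ ZMod p)
    (hχN : ∀ D' : Dv ↥(compF L H), χ (normDiv ↥(fixF H) D') = 0)
    (hχ1 : ∀ b : ↥(fixF H), IsIntegral ℤ b → b ≠ 0 →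
      IsIntegral ℤ ((b - 1) / (m : ↥(fixF H))) → χ (div b) = 0) :
    ∀ x : ↥(fixF H), x ≠ 0 → χ (div x) = 0 :=
  compF.kills_principal_of_congr H m hm (fun w hw => ⟨h.unramified w, hmsplit w hw⟩) χ hχN hχ1

end compsplit

end Fermat.Agent.S14x
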