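/-
S14 (ExtVanishingCts), Part B2 of the blueprint, in the divisor language of `S14_Div`:
for an integer `b ≠ 0` of a number field, `∏_v N(v)^{ord_v b} = |N_{F/ℚ} b|`, and this is
`≡ ±1 mod m` when `b ≡ 1 mod m`.
-/
import Fermat.Agent.S14_Div
import Fermat.Agent.S14_CycRec

set_option autoImplicit false

open NumberField IsDedekindDomain

namespace Fermat.Agent.S14B2

open Fermat.Agent.S14x

variable {F : Type*} [Field F] [NumberField F]

/-- `∏_v N(v)^{ord_v b} = |N(b)|` for a nonzero integer `b`. -/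
theorem prod_absNorm_div_eq (b : 𝓞 F) (hb0 : b ≠ 0) :
    ((div (b : F)).prod fun v n => Ideal.absNorm v.asIdeal ^ n.toNat)
      = (Algebra.norm ℤ b).natAbs := by
  classical
  rw [← finprod_absNorm_pow_multiplicity F b hb0, Finsupp.prod]
  have hterm : ∀ v ∈ (div (b : F)).support,
      Ideal.absNorm v.asIdeal ^ ((div (b : F)) v).toNat
        = Ideal.absNorm v.asIdeal ^ multiplicity v.asIdeal (Ideal.span {b}) := by
    intro v _
    rw [divisor_apply, ord_coe_eq_multiplicity v b hb0, Int.toNat_natCast]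
  rw [Finset.prod_congr rfl hterm]
  symm
  apply finprod_eq_prod_of_mulSupport_subset
  intro v hv
  rw [Function.mem_mulSupport] at hv
  rw [Finset.mem_coe, Finsupp.mem_support_iff, divisor_apply, ord_coe_eq_multiplicity v b hb0]
  intro h0
  apply hv
  have : multiplicity v.asIdeal (Ideal.span {b}) = 0 := by exact_mod_cast h0
  rw [this, pow_zero]

/-- the same for an element of `F` which is integral. -/
theorem prod_absNorm_div_eq' (b : F) (hb : IsIntegral ℤ b) (hb0 : b ≠ 0) :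
    (((div b).prod fun v n => Ideal.absNorm v.asIdeal ^ n.toNat : ℕ) : ℚ)
      = |Algebra.norm ℚ b| := by
  obtain ⟨b', rfl⟩ : ∃ b' : 𝓞 F, (b' : F) = b := ⟨⟨b, hb⟩, rfl⟩
  have hb0' : b' ≠ 0 := by
    rintro rfl
    exact hb0 (map_zero _)
  rw [prod_absNorm_div_eq b' hb0', ← Algebra.coe_norm_int, Nat.cast_natAbs, Int.cast_abs]

theorem dvd_sub_one_of_isIntegral_div (m : ℕ) (hm0 : m ≠ 0) (b : 𝓞 F)
    (hm : IsIntegral ℤ (((b : F) - 1) / (m : F))) : (m : 𝓞 F) ∣ b - 1 := by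
  refine ⟨⟨_, hm⟩, ?_⟩
  apply RingOfIntegers.ext
  show (algebraMap (𝓞 F) F) (b - 1) = (algebraMap (𝓞 F) F) ((m : 𝓞 F) * ⟨_, hm⟩)
  rw [map_sub, map_one, map_mul, map_natCast]
  show (b : F) - 1 = (m : F) * (((b : F) - 1) / (m : F))
  have : (m : F) ≠ 0 := by exact_mod_cast hm0
  field_simp

/-- **Cyclotomic reciprocity, arithmetic form, divisor language.**  If `b ≡ 1 mod m` is a
nonzero integer of `F` then `∏_v N(v)^{ord_v b} ≡ ±1 mod m`. -/
theorem prod_absNorm_div_modEq (m : ℕ) (hm0 : m ≠ 0) (b : F) (hb : IsIntegral ℤ b) (hb0 : b ≠ 0)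
    (hm : IsIntegral ℤ ((b - 1) / (m : F))) :
    (((div b).prod fun v n => Ideal.absNorm v.asIdeal ^ n.toNat : ℕ) : ℤ) ≡ 1 [ZMOD m] ∨
    (((div b).prod fun v n => Ideal.absNorm v.asIdeal ^ n.toNat : ℕ) : ℤ) ≡ -1 [ZMOD m] := by
  obtain ⟨b', rfl⟩ : ∃ b' : 𝓞 F, (b' : F) = b := ⟨⟨b, hb⟩, rfl⟩
  have hb0' : b' ≠ 0 := by
    rintro rfl
    exact hb0 (map_zero _)
  have hdvd := norm_sub_one_dvd m b' (dvd_sub_one_of_isIntegral_div m hm0 b' hm)
  have h1 : Algebra.norm ℤ b' ≡ 1 [ZMOD m] :=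
    (Int.modEq_iff_dvd.mpr hdvd).symm
  rw [prod_absNorm_div_eq b' hb0', Int.natCast_natAbs]
  rcases abs_choice (Algebra.norm ℤ b') with h | h
  · left; rw [h]; exact h1
  · right; rw [h]; exact h1.neg

/-- the form used in Part B: the square of the product is `≡ 1 mod m`. -/
theorem prod_absNorm_div_sq_modEq_one (m : ℕ) (hm0 : m ≠ 0) (b : F) (hb : IsIntegral ℤ b)
    (hb0 : b ≠ 0) (hm : IsIntegral ℤ ((b - 1) / (m : F))) :
    (((div b).prod fun v n => Ideal.absNorm v.asIdeal ^ n.toNat : ℕ) : ℤ) ^ 2 ≡ 1 [ZMOD m] := by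
  rcases prod_absNorm_div_modEq m hm0 b hb hb0 hm with h | h
  · simpa using h.pow 2
  · simpa using h.pow 2

/-- in a totally complex field the product itself is `≡ 1 mod m`. -/
theorem prod_absNorm_div_modEq_one [IsTotallyComplex F] (m : ℕ) (hm0 : m ≠ 0) (b : F)
    (hb : IsIntegral ℤ b) (hb0 : b ≠ 0) (hm : IsIntegral ℤ ((b - 1) / (m : F))) :
    ((div b).prod fun v n => Ideal.absNorm v.asIdeal ^ n.toNat) ≡ 1 [MOD m] := by
  obtain ⟨b', rfl⟩ : ∃ b' : 𝓞 F, (b' : F) = b := ⟨⟨b, hb⟩, rfl⟩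
  have hb0' : b' ≠ 0 := by
    rintro rfl
    exact hb0 (map_zero _)
  have h := finprod_absNorm_modEq_one F m b' hb0' (dvd_sub_one_of_isIntegral_div m hm0 b' hm)
  rw [finprod_absNorm_pow_multiplicity F b' hb0'] at h
  rw [prod_absNorm_div_eq b' hb0']
  exact h

end Fermat.Agent.S14B2
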