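/-
S14 (ExtVanishingCts), Part B2: the field-level form of `normChar_div_eq_zero`.
-/
import Fermat.Agent.S14_Div
import Fermat.Agent.S14_CycRec
import Fermat.Agent.S14_NormProd

set_option autoImplicit false

open NumberField IsDedekindDomain

namespace Fermat.Agent.S14B2

open Fermat.Agent.S14x

variable {F : Type*} [Field F] [NumberField F]

theorem nrmUnit_zero (v : Pl F) : nrmUnit 0 v = 1 := by
  have h : ¬ Nat.Coprime (Ideal.absNorm v.asIdeal) 0 := by
    rw [Nat.coprime_zero_right]
    intro h1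
    exact v.isPrime.ne_top (Ideal.absNorm_eq_one_iff.mp h1)
  rw [nrmUnit, dif_neg h]

theorem normChar_zero (D : Dv F) : normChar 0 D = 0 := by
  rw [normChar_apply]
  apply Finset.sum_eq_zero
  intro v _
  show D v • Additive.ofMul (nrmUnit 0 v) = 0
  rw [nrmUnit_zero, ofMul_one, smul_zero]

/-- **Cyclotomic reciprocity, arithmetic form**, for an integral element `b` of `F` with
`(b - 1) / m` integral. -/
theorem normChar_div_eq_zero' [IsTotallyComplex F] (m : ℕ) (b : F) (hb : IsIntegral ℤ b)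
    (hb0 : b ≠ 0) (hbm : IsIntegral ℤ ((b - 1) / (m : F))) : normChar m (div b) = 0 := by
  rcases eq_or_ne m 0 with rfl | hm0
  · exact normChar_zero _
  obtain ⟨b', rfl⟩ : ∃ b' : 𝓞 F, (b' : F) = b := ⟨⟨b, hb⟩, rfl⟩
  have hb0' : b' ≠ 0 := by
    rintro rfl
    exact hb0 (map_zero _)
  exact normChar_div_eq_zero m b' hb0' (dvd_sub_one_of_isIntegral_div m hm0 b' hbm)

end Fermat.Agent.S14B2
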