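import Mathlib

/-!
# S14 moonshot, analytic tool: Euler products over the prime ideals of a number field

* `tendsto_euler`: for a monoid homomorphism `h` on nonzero ideals with summable norm and
  `‖h 𝔭‖ < 1`, the finite Euler products `∏ v ∈ S, (1 - h 𝔭_v)⁻¹` converge to `∑' I, h I`.
* `summable_wt`: `∑_I N(I)^(-s)` converges for real `s > 1`.
* `tendsto_zetaR`: `(s - 1) * ∑_I N(I)^(-s) → residue` as `s → 1⁺`.
-/

set_option autoImplicit false

open scoped NumberField nonZeroDivisors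
open IsDedekindDomain Filter Topology NumberField

namespace Fermat.Agent.S14x.Euler

variable (F : Type*) [Field F] [NumberField F]

/-- The monoid of nonzero ideals of the ring of integers. -/
abbrev IdM := (Ideal (𝓞 F))⁰

variable {F}

/-- A prime ideal as a nonzero ideal. -/
noncomputable def pr (v : HeightOneSpectrum (𝓞 F)) : IdM F :=
  ⟨v.asIdeal, mem_nonZeroDivisors_of_ne_zero v.ne_bot⟩

@[simp] theorem coe_pr (v : HeightOneSpectrum (𝓞 F)) : ((pr v : IdM F) : Ideal (𝓞 F)) = v.asIdeal := rfl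

/-- The absolute norm of a nonzero ideal, as a real number. -/
noncomputable def nrm (I : IdM F) : ℝ := (Ideal.absNorm (I : Ideal (𝓞 F)) : ℝ)

theorem nrm_one : nrm (1 : IdM F) = 1 := by simp [nrm]

theorem nrm_mul (I J : IdM F) : nrm (I * J) = nrm I * nrm J := by simp [nrm]

theorem one_le_nrm (I : IdM F) : 1 ≤ nrm I := by
  have h : Ideal.absNorm (I : Ideal (𝓞 F)) ≠ 0 := by
    rw [Ne, Ideal.absNorm_eq_zero_iff]
    exact nonZeroDivisors.ne_zero I.2
  have : 1 ≤ Ideal.absNorm (I : Ideal (𝓞 F)) := Nat.one_le_iff_ne_zero.mpr h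
  simp only [nrm]
  exact_mod_cast this

theorem nrm_pos (I : IdM F) : 0 < nrm I := lt_of_lt_of_le one_pos (one_le_nrm I)

theorem two_le_nrm_pr (v : HeightOneSpectrum (𝓞 F)) : 2 ≤ nrm (pr v) := by
  have h0 : Ideal.absNorm v.asIdeal ≠ 0 := by
    rw [Ne, Ideal.absNorm_eq_zero_iff]; exact v.ne_bot
  have h1 : Ideal.absNorm v.asIdeal ≠ 1 := by
    rw [Ne, Ideal.absNorm_eq_one_iff]; exact v.isPrime.ne_top
  have : 2 ≤ Ideal.absNorm v.asIdeal := by omega
  simp only [nrm, coe_pr]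
  exact_mod_cast this

/-- The weight `N(I)^(-s)` as a monoid homomorphism. -/
noncomputable def wt (s : ℝ) : IdM F →* ℝ where
  toFun I := nrm I ^ (-s)
  map_one' := by simp [nrm_one]
  map_mul' I J := by rw [nrm_mul, Real.mul_rpow (nrm_pos I).le (nrm_pos J).le]

theorem wt_apply (s : ℝ) (I : IdM F) : wt s I = nrm I ^ (-s) := rfl

theorem wt_pos (s : ℝ) (I : IdM F) : 0 < wt s I := Real.rpow_pos_of_pos (nrm_pos I) _

theorem wt_le_one {s : ℝ} (hs : 0 ≤ s) (I : IdM F) : wt s I ≤ 1 :=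
  Real.rpow_le_one_of_one_le_of_nonpos (one_le_nrm I) (by linarith)

theorem wt_pr_le_half {s : ℝ} (hs : 1 ≤ s) (v : HeightOneSpectrum (𝓞 F)) : wt s (pr v) ≤ 1 / 2 := by
  have h2 := two_le_nrm_pr v
  have h1 : wt s (pr v) ≤ nrm (pr v) ^ (-(1:ℝ)) := by
    rw [wt_apply]
    exact Real.rpow_le_rpow_of_exponent_le (by linarith) (by linarith)
  refine h1.trans ?_
  rw [Real.rpow_neg_one, one_div]
  exact inv_anti₀ (by norm_num) h2

/-- The product of prime powers attached to an exponent vector on a finite set of primes. -/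
noncomputable def ppow (S : Finset (HeightOneSpectrum (𝓞 F)))
    (k : (v : HeightOneSpectrum (𝓞 F)) → v ∈ S → ℕ) : IdM F :=
  ∏ x ∈ S.attach, pr x.1 ^ k x.1 x.2

theorem count_ppow (S : Finset (HeightOneSpectrum (𝓞 F)))
    (k : (v : HeightOneSpectrum (𝓞 F)) → v ∈ S → ℕ) (v : HeightOneSpectrum (𝓞 F)) (hv : v ∈ S) :
    FractionalIdeal.count F v (((ppow S k : IdM F) : Ideal (𝓞 F)) : FractionalIdeal (𝓞 F)⁰ F)
      = k v hv := by
  classical
  have h1 : (((ppow S k : IdM F) : Ideal (𝓞 F)) : FractionalIdeal (𝓞 F)⁰ F) =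
      ∏ x ∈ S.attach, ((x.1.asIdeal : Ideal (𝓞 F)) : FractionalIdeal (𝓞 F)⁰ F) ^ k x.1 x.2 := by
    have h2 : ((ppow S k : IdM F) : Ideal (𝓞 F)) = ∏ x ∈ S.attach, x.1.asIdeal ^ k x.1 x.2 := by
      simp [ppow]
    rw [h2, ← FractionalIdeal.coeIdealHom_apply, map_prod]
    refine Finset.prod_congr rfl fun x _ => ?_
    rw [FractionalIdeal.coeIdealHom_apply, FractionalIdeal.coeIdeal_pow]
  rw [h1, FractionalIdeal.count_prod]
  · simp only [FractionalIdeal.count_pow, FractionalIdeal.count_maximal]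
    rw [Finset.sum_eq_single ⟨v, hv⟩]
    · simp
    · intro b _ hb
      have : b.1 ≠ v := fun h => hb (Subtype.ext h)
      simp [this]
    · intro h; exact absurd (Finset.mem_attach _ _) h
  · intro x _
    exact pow_ne_zero _ (FractionalIdeal.coeIdeal_ne_zero.mpr x.1.ne_bot)


theorem ppow_injective (S : Finset (HeightOneSpectrum (𝓞 F))) :
    Function.Injective (ppow (F := F) S) := by
  intro k k' h
  funext v hv
  have h1 := count_ppow S k v hv
  have h2 := count_ppow S k' v hv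
  rw [h] at h1
  exact_mod_cast h1.symm.trans h2

/-- multiplicity of a prime in a nonzero ideal -/
noncomputable def cnt (I : IdM F) (v : HeightOneSpectrum (𝓞 F)) : ℕ :=
  (Associates.mk v.asIdeal).count (Associates.mk (I : Ideal (𝓞 F))).factors

theorem exists_support (I : IdM F) : ∃ S₀ : Finset (HeightOneSpectrum (𝓞 F)),
    ∀ S : Finset (HeightOneSpectrum (𝓞 F)), S₀ ⊆ S →
      ppow S (fun v _ => cnt I v) = I := by
  classical
  have hI : (I : Ideal (𝓞 F)) ≠ 0 := nonZeroDivisors.ne_zero I.2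
  have hfin := Ideal.hasFiniteMulSupport hI
  refine ⟨hfin.toFinset, fun S hS => ?_⟩
  apply Subtype.ext
  have h1 := Ideal.finprod_heightOneSpectrum_factorization hI
  rw [finprod_eq_prod_of_mulSupport_subset (s := S)] at h1
  · rw [← h1]
    simp only [ppow, Submonoid.coe_finsetProd, SubmonoidClass.coe_pow, coe_pr]
    rw [Finset.prod_attach S (fun v => v.asIdeal ^ cnt I v)]
    rfl
  · intro v hv
    exact hS (hfin.mem_toFinset.mpr hv)


theorem nrm_ppow_ge (S : Finset (HeightOneSpectrum (𝓞 F)))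
    (k : (v : HeightOneSpectrum (𝓞 F)) → v ∈ S → ℕ) (v : HeightOneSpectrum (𝓞 F)) (hv : v ∈ S) :
    (2 : ℝ) ^ k v hv ≤ nrm (ppow S k) := by
  classical
  have hmap : nrm (ppow S k) = ∏ x ∈ S.attach, nrm (pr x.1) ^ k x.1 x.2 := by
    have := map_prod (wt (F := F) (-1)) (fun x : {x // x ∈ S} => pr x.1 ^ k x.1 x.2) S.attach
    simp only [wt, MonoidHom.coe_mk, OneHom.coe_mk, neg_neg, Real.rpow_one] at this
    rw [ppow, this]
    refine Finset.prod_congr rfl fun x _ => ?_
    have h2 := map_pow (wt (F := F) (-1)) (pr x.1) (k x.1 x.2)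
    simpa only [wt, MonoidHom.coe_mk, OneHom.coe_mk, neg_neg, Real.rpow_one] using h2
  rw [hmap, ← Finset.prod_erase_mul _ _ (Finset.mem_attach S ⟨v, hv⟩)]
  have h1 : (1 : ℝ) ≤ ∏ x ∈ S.attach.erase ⟨v, hv⟩, nrm (pr x.1) ^ k x.1 x.2 := by
    refine Finset.prod_induction _ (fun y : ℝ => 1 ≤ y) (fun a b ha hb => one_le_mul_of_one_le_of_one_le ha hb)
      le_rfl fun x _ => ?_
    exact one_le_pow₀ (one_le_nrm _)
  have h2 : (2 : ℝ) ^ k v hv ≤ nrm (pr v) ^ k v hv :=
    pow_le_pow_left₀ (by norm_num) (two_le_nrm_pr v) _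
  calc (2 : ℝ) ^ k v hv = 1 * 2 ^ k v hv := (one_mul _).symm
    _ ≤ _ := mul_le_mul h1 h2 (by positivity) (le_trans zero_le_one h1)

/-- the finite set of ideals supported on `S` with exponents `≤ K` -/
noncomputable def tset (S : Finset (HeightOneSpectrum (𝓞 F))) (K : ℕ) : Finset (IdM F) :=
  by classical exact (S.pi fun _ => Finset.range (K + 1)).image (ppow S)

theorem prod_sum_eq {𝕜 : Type*} [CommSemiring 𝕜] (h : IdM F →* 𝕜)
    (S : Finset (HeightOneSpectrum (𝓞 F))) (K : ℕ) :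
    ∏ v ∈ S, ∑ n ∈ Finset.range (K + 1), h (pr v) ^ n = ∑ I ∈ tset S K, h I := by
  classical
  rw [Finset.prod_sum, tset, Finset.sum_image]
  · refine Finset.sum_congr rfl fun k _ => ?_
    rw [ppow, map_prod]
    refine Finset.prod_congr rfl fun x _ => ?_
    rw [map_pow]
  · intro k _ k' _ hkk'
    exact ppow_injective S hkk'

theorem exists_mem_tset (I : IdM F) : ∃ S₀ : Finset (HeightOneSpectrum (𝓞 F)), ∃ K₀ : ℕ,
    ∀ S : Finset (HeightOneSpectrum (𝓞 F)), S₀ ⊆ S → ∀ K : ℕ, K₀ ≤ K → I ∈ tset S K := by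
  classical
  obtain ⟨S₀, hS₀⟩ := exists_support I
  refine ⟨S₀, Ideal.absNorm (I : Ideal (𝓞 F)), fun S hS K hK => ?_⟩
  rw [tset, Finset.mem_image]
  refine ⟨fun v _ => cnt I v, ?_, hS₀ S hS⟩
  rw [Finset.mem_pi]
  intro v hv
  rw [Finset.mem_range]
  have h1 := nrm_ppow_ge S (fun v _ => cnt I v) v hv
  rw [hS₀ S hS] at h1
  have h2 : (cnt I v : ℝ) < 2 ^ cnt I v := by exact_mod_cast Nat.lt_two_pow_self
  have h3 : (cnt I v : ℝ) < nrm I := lt_of_lt_of_le h2 h1
  have h4 : cnt I v < Ideal.absNorm (I : Ideal (𝓞 F)) := by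
    simp only [nrm] at h3; exact_mod_cast h3
  omega

theorem tendsto_tset : Tendsto (fun SK : Finset (HeightOneSpectrum (𝓞 F)) × ℕ => tset SK.1 SK.2)
    atTop atTop := by
  classical
  rw [Filter.tendsto_atTop_atTop]
  intro A
  induction A using Finset.induction_on with
  | empty => exact ⟨(∅, 0), fun _ _ => Finset.empty_subset _⟩
  | insert I A _ ih =>
    obtain ⟨⟨S₁, K₁⟩, h1⟩ := ih
    obtain ⟨S₀, K₀, h0⟩ := exists_mem_tset I
    refine ⟨(S₀ ∪ S₁, max K₀ K₁), fun SK hSK => ?_⟩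
    have hS : S₀ ∪ S₁ ⊆ SK.1 := hSK.1
    have hK : max K₀ K₁ ≤ SK.2 := hSK.2
    intro J hJ
    rcases Finset.mem_insert.mp hJ with rfl | hJ
    · exact h0 SK.1 (Finset.union_subset_left hS) SK.2 (le_trans (le_max_left _ _) hK)
    · exact h1 SK ⟨Finset.union_subset_right hS, le_trans (le_max_right _ _) hK⟩ hJ

/-- **Euler product**, abstract form: for a monoid homomorphism `h` on nonzero ideals with
summable norm and `‖h 𝔭‖ < 1`, the finite Euler products converge to `∑' I, h I`. -/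
theorem tendsto_euler {𝕜 : Type*} [NormedField 𝕜] [CompleteSpace 𝕜] (h : IdM F →* 𝕜)
    (hsum : Summable fun I => ‖h I‖) (hlt : ∀ v, ‖h (pr v)‖ < 1) :
    Tendsto (fun S : Finset (HeightOneSpectrum (𝓞 F)) => ∏ v ∈ S, (1 - h (pr v))⁻¹)
      atTop (𝓝 (∑' I, h I)) := by
  classical
  have hs : HasSum (fun I => h I) (∑' I, h I) := hsum.of_norm.hasSum
  have h1 : Tendsto (fun SK : Finset (HeightOneSpectrum (𝓞 F)) × ℕ => ∑ I ∈ tset SK.1 SK.2, h I)
      atTop (𝓝 (∑' I, h I)) := hs.comp tendsto_tset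
  rw [Metric.tendsto_atTop]
  intro ε hε
  rw [Metric.tendsto_atTop] at h1
  obtain ⟨⟨S₀, K₀⟩, h2⟩ := h1 (ε / 2) (by positivity)
  refine ⟨S₀, fun S hS => ?_⟩
  have h3 : Tendsto (fun K : ℕ => ∏ v ∈ S, ∑ n ∈ Finset.range (K + 1), h (pr v) ^ n) atTop
      (𝓝 (∏ v ∈ S, (1 - h (pr v))⁻¹)) := by
    refine tendsto_finsetProd _ fun v _ => ?_
    have := (hasSum_geometric_of_norm_lt_one (hlt v)).tendsto_sum_nat
    exact this.comp (tendsto_add_atTop_nat 1)
  have h4 : ∀ᶠ K in atTop, dist (∏ v ∈ S, ∑ n ∈ Finset.range (K + 1), h (pr v) ^ n) (∑' I, h I)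
      ≤ ε / 2 := by
    filter_upwards [eventually_ge_atTop K₀] with K hK
    rw [prod_sum_eq]
    exact (h2 (S, K) ⟨hS, hK⟩).le
  have h5 := le_of_tendsto (h3.dist tendsto_const_nhds) h4
  linarith

variable (F) in
/-- the number of integral ideals of norm `n` (Mathlib's Dedekind zeta coefficients) -/
noncomputable def idealCount (n : ℕ) : ℝ :=
  (Nat.card {I : Ideal (𝓞 F) // Ideal.absNorm I = n} : ℝ)

variable (F) in
theorem tendsto_sum_idealCount :
    Tendsto (fun n : ℕ => (∑ k ∈ Finset.Icc 1 n, idealCount F k) / (n : ℝ)) atTop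
      (𝓝 (dedekindZeta_residue F)) := by
  refine ((Ideal.tendsto_norm_le_div_atTop₀ F).comp tendsto_natCast_atTop_atTop).congr fun n ↦ ?_
  simp only [Function.comp_apply, Nat.cast_le, idealCount, ← Nat.cast_sum]
  congr 2
  have h0 : Nat.card {I : Ideal (𝓞 F) // Ideal.absNorm I = 0} = 1 := by
    simp [Ideal.absNorm_eq_zero_iff]
  have h1 := Ideal.card_norm_le_eq_card_norm_le_add_one (S := 𝓞 F) n
  have h2 : Nat.card {I : Ideal (𝓞 F) // Ideal.absNorm I ≤ n} =
      ∑ k ∈ Finset.Icc 0 n, Nat.card {I : Ideal (𝓞 F) // Ideal.absNorm I = k} := by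
    rw [← Finset.card_preimage_eq_sum_card_image_eq (fun k _ ↦ Ideal.finite_setOfPred_absNorm_eq k)]
    simp [Set.coe_eq_subtype]
  rw [h2, ← Finset.sum_Ioc_add_eq_sum_Icc (n.zero_le), h0,
    ← show Finset.Icc 1 n = Finset.Ioc 0 n from Finset.Icc_succ_left_eq_Ioc _ _] at h1
  omega

variable (F) in
theorem lseriesSummable_idealCount {s : ℝ} (hs : 1 < s) :
    LSeriesSummable (fun n => (idealCount F n : ℂ)) s := by
  refine LSeriesSummable_of_sum_norm_bigO_and_nonneg ?_ (fun n => Nat.cast_nonneg _) zero_le_one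
    (by simpa using hs)
  exact Asymptotics.isBigO_atTop_natCast_rpow_of_tendsto_div_rpow (a := dedekindZeta_residue F) (by simpa using tendsto_sum_idealCount F)

variable (F) in
/-- the real Dirichlet series coefficients `a(n) n^(-s)` -/
noncomputable def zterm (s : ℝ) (n : ℕ) : ℝ := idealCount F n * (n : ℝ) ^ (-s)

variable (F) in
theorem summable_zterm {s : ℝ} (hs : 1 < s) : Summable (zterm F s) := by
  have h := (lseriesSummable_idealCount F hs).norm
  refine h.of_nonneg_of_le (fun n => ?_) (fun n => ?_)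
  · exact mul_nonneg (Nat.cast_nonneg _) (Real.rpow_nonneg (Nat.cast_nonneg _) _)
  · rcases Nat.eq_zero_or_pos n with rfl | hn
    · simp [zterm, Real.zero_rpow (by linarith : -s ≠ 0)]
    · rw [LSeries.norm_term_eq, if_neg hn.ne']
      simp only [zterm, idealCount, Complex.norm_real, Real.norm_natCast, Complex.ofReal_re]
      rw [Real.rpow_neg (Nat.cast_nonneg _), div_eq_mul_inv]


theorem finite_fiber (n : ℕ) : Finite {I : IdM F // Ideal.absNorm (I : Ideal (𝓞 F)) = n} := by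
  have := (Ideal.finite_setOfPred_absNorm_eq (S := 𝓞 F) n).to_subtype
  exact Finite.of_injective
    (fun I : {I : IdM F // Ideal.absNorm (I : Ideal (𝓞 F)) = n} =>
      (⟨(I.1 : Ideal (𝓞 F)), I.2⟩ : {I : Ideal (𝓞 F) | Ideal.absNorm I = n}))
    (fun I J h => Subtype.ext (Subtype.ext (by simpa using congrArg Subtype.val h)))

theorem card_fiber {n : ℕ} (hn : n ≠ 0) :
    Nat.card {I : IdM F // Ideal.absNorm (I : Ideal (𝓞 F)) = n} =
      Nat.card {I : Ideal (𝓞 F) // Ideal.absNorm I = n} := by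
  refine Nat.card_congr
    { toFun := fun I => ⟨(I.1 : Ideal (𝓞 F)), I.2⟩
      invFun := fun I => ⟨⟨I.1, mem_nonZeroDivisors_of_ne_zero ?_⟩, I.2⟩
      left_inv := fun I => rfl
      right_inv := fun I => rfl }
  intro h0
  have := I.2
  rw [h0] at this
  simp at this
  exact hn this.symm

theorem hasSum_fiber (s : ℝ) (hs : s ≠ 0) (n : ℕ) :
    HasSum (fun I : {I : IdM F // Ideal.absNorm (I : Ideal (𝓞 F)) = n} => wt s I.1)
      (zterm F s n) := by
  have := finite_fiber (F := F) n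
  have := Fintype.ofFinite {I : IdM F // Ideal.absNorm (I : Ideal (𝓞 F)) = n}
  have h1 : ∀ I : {I : IdM F // Ideal.absNorm (I : Ideal (𝓞 F)) = n}, wt s I.1 = (n : ℝ) ^ (-s) := by
    intro I
    rw [wt_apply, nrm, I.2]
  have h2 := hasSum_fintype (fun I : {I : IdM F // Ideal.absNorm (I : Ideal (𝓞 F)) = n} => wt s I.1)
  convert h2 using 1
  rw [Finset.sum_congr rfl (fun I _ => h1 I), Finset.sum_const, Finset.card_univ, nsmul_eq_mul,
    zterm, idealCount]
  rcases Nat.eq_zero_or_pos n with rfl | hn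
  · simp [Real.zero_rpow (neg_ne_zero.mpr hs)]
  · rw [← card_fiber hn.ne', Nat.card_eq_fintype_card]

theorem summable_sigma_wt {s : ℝ} (hs : 1 < s) :
    Summable fun x : (Σ n : ℕ, {I : IdM F // Ideal.absNorm (I : Ideal (𝓞 F)) = n}) => wt s x.2.1 := by
  rw [summable_sigma_of_nonneg (fun x => (wt_pos s _).le)]
  refine ⟨fun n => (hasSum_fiber s (by linarith) n).summable, ?_⟩
  have h := summable_zterm F hs
  refine h.congr fun n => ?_
  exact (hasSum_fiber s (by linarith) n).tsum_eq.symm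

theorem summable_wt {s : ℝ} (hs : 1 < s) : Summable fun I : IdM F => wt s I := by
  have h := summable_sigma_wt (F := F) hs
  exact ((Equiv.sigmaFiberEquiv (fun I : IdM F => Ideal.absNorm (I : Ideal (𝓞 F)))).summable_iff
    (f := fun I : IdM F => wt s I)).mp h

theorem tsum_wt_eq {s : ℝ} (hs : 1 < s) : ∑' I : IdM F, wt s I = ∑' n, zterm F s n := by
  have h := summable_sigma_wt (F := F) hs
  have h1 : ∑' x : (Σ n : ℕ, {I : IdM F // Ideal.absNorm (I : Ideal (𝓞 F)) = n}), wt s x.2.1 =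
      ∑' I : IdM F, wt s I :=
    (Equiv.sigmaFiberEquiv (fun I : IdM F => Ideal.absNorm (I : Ideal (𝓞 F)))).tsum_eq
      (fun I : IdM F => wt s I)
  have h2 : ∑' x : (Σ n : ℕ, {I : IdM F // Ideal.absNorm (I : Ideal (𝓞 F)) = n}), wt s x.2.1 =
      ∑' n : ℕ, ∑' I : {I : IdM F // Ideal.absNorm (I : Ideal (𝓞 F)) = n}, wt s I.1 :=
    h.tsum_sigma' (fun n => (hasSum_fiber s (by linarith) n).summable)
  have h3 : ∑' n : ℕ, ∑' I : {I : IdM F // Ideal.absNorm (I : Ideal (𝓞 F)) = n}, wt s I.1 =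
      ∑' n, zterm F s n :=
    tsum_congr fun n => (hasSum_fiber s (by linarith) n).tsum_eq
  exact h1.symm.trans (h2.trans h3)

variable (F) in
/-- the Dedekind zeta function at real `s > 1` as a sum over nonzero ideals -/
noncomputable def zetaR (s : ℝ) : ℝ := ∑' I : IdM F, wt s I

theorem dedekindZeta_eq {s : ℝ} (hs : 1 < s) : dedekindZeta F (s : ℂ) = ((zetaR F s : ℝ) : ℂ) := by
  rw [zetaR, tsum_wt_eq hs, Complex.ofReal_tsum, dedekindZeta, LSeries]
  refine tsum_congr fun n => ?_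
  rcases Nat.eq_zero_or_pos n with rfl | hn
  · simp [zterm, Real.zero_rpow (by linarith : -s ≠ 0)]
  · rw [LSeries.term_of_ne_zero hn.ne']
    simp only [zterm, idealCount, Complex.ofReal_mul, Complex.ofReal_natCast]
    rw [Real.rpow_neg (Nat.cast_nonneg _), Complex.ofReal_inv,
      Complex.ofReal_cpow (Nat.cast_nonneg _), div_eq_mul_inv]
    simp

variable (F) in
theorem tendsto_zetaR :
    Tendsto (fun s : ℝ => (s - 1) * zetaR F s) (𝓝[>] 1) (𝓝 (dedekindZeta_residue F)) := by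
  have h := tendsto_sub_one_mul_dedekindZeta_nhdsGT F
  have h2 : Tendsto (fun s : ℝ => (((s - 1) * zetaR F s : ℝ) : ℂ)) (𝓝[>] 1)
      (𝓝 ((dedekindZeta_residue F : ℝ) : ℂ)) := by
    refine h.congr' ?_
    filter_upwards [self_mem_nhdsWithin] with s hs
    rw [dedekindZeta_eq hs]
    push_cast
    ring
  exact (Complex.continuous_re.tendsto _).comp h2

end Fermat.Agent.S14x.Euler
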