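/-
S14 (ExtVanishingCts), Part B, sub-leaf of B4: normal idempotents modulo `m`.
If the primes of `K` dividing `m` split in the Galois extension `L/K`, there is an integer
`ε` of `L` with `ε * g ε ≡ 0` (`g ≠ 1`) and `∑ g ε ≡ 1` modulo `m`; consequences: norms are
onto modulo `m`, and the primes dividing `m` split.
Congruences modulo `m` are written `IsIntegral ℤ ((x - y) / m)`.
-/
import Fermat.Agent.S14_DivGal

set_option autoImplicit false

open NumberField IsDedekindDomain

namespace Fermat.Agent.S14x.IdemK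

variable {K L : Type*} [Field K] [NumberField K] [Field L] [NumberField L] [Algebra K L]

/-- split primes have trivial stabilisers. -/
theorem eq_one_of_gsmul_eq [IsGalois K L] {w : Pl L} (he : eOf K w = 1) (hf : fOf K w = 1)
    {g : L ≃ₐ[K] L} (hg : gsmul K g w = w) : g = 1 := by
  have h := card_stabilizer K w
  rw [he, hf, mul_one] at h
  obtain ⟨hsub, -⟩ := Nat.card_eq_one_iff_unique.mp h
  have := hsub.elim (⟨g, hg⟩ : {σ : L ≃ₐ[K] L // gsmul K σ w = w}) ⟨1, gsmul_one K w⟩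
  exact congrArg Subtype.val this

omit [NumberField K] [Algebra K L] in
theorem vGe_sum {ι : Type*} (w : Pl L) (n : ℤ) (s : Finset ι) (f : ι → L)
    (h : ∀ i ∈ s, vGe w n (f i)) : vGe w n (∑ i ∈ s, f i) :=
  Finset.sum_induction f (vGe w n) (fun _ _ ha hb => ha.add hb) (vGe_zero w n) h

omit [NumberField K] [Algebra K L] in
/-- division by an element of small order. -/
theorem vGe_div {w : Pl L} {n : ℤ} {x c : L} (hx : vGe w n x) (hc0 : c ≠ 0)
    (hc : ord w c ≤ n) : vGe w 0 (x / c) := by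
  rw [vGe_iff] at hx ⊢
  rcases hx with rfl | hx
  · left; simp
  · by_cases hx0 : x = 0
    · left; simp [hx0]
    · right
      rw [ord_div w hx0 hc0]
      omega


/-- (I1) the normal idempotent modulo `m`. -/
theorem exists_normal_idempotent [IsGalois K L] (m : ℕ) (hm : m ≠ 0)
    (hsplit : ∀ v : Pl K, ord v (m : K) ≠ 0 → IsSplit K L v) :
    ∃ ε : L, IsIntegral ℤ ε ∧
      (∀ g : L ≃ₐ[K] L, g ≠ 1 → IsIntegral ℤ (ε * g ε / (m : L))) ∧
      IsIntegral ℤ ((∑ g : L ≃ₐ[K] L, g ε - 1) / (m : L)) := by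
  classical
  have hmL : (m : L) ≠ 0 := Nat.cast_ne_zero.mpr hm
  have hmint : IsIntegral ℤ (m : L) := isIntegral_natCast m
  have hfin : {w : Pl L | vGe w 1 (m : L)}.Finite := finite_setOf_vGe_one hmL
  set T : Finset (Pl L) := hfin.toFinset with hT
  have hmemT : ∀ w : Pl L, w ∈ T ↔ vGe w 1 (m : L) := fun w => by
    rw [hT, Set.Finite.mem_toFinset]; rfl
  choose sec hsec using fun v : Pl K => exists_above K (F' := L) v
  let a : Pl L → 𝓞 L := fun w => if w = sec (below K w) then 1 else 0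
  have ha01 : ∀ w : Pl L, ((a w : 𝓞 L) : L) = if w = sec (below K w) then 1 else 0 := by
    intro w
    simp only [a]
    split_ifs <;> simp
  obtain ⟨n, hn⟩ : ∃ n : ℕ, ∀ w ∈ T, ord w (m : L) ≤ n := by
    refine ⟨∑ w ∈ T, (ord w (m : L)).toNat, fun w hw => ?_⟩
    calc ord w (m : L) ≤ ((ord w (m : L)).toNat : ℤ) := Int.self_le_toNat _
      _ ≤ ((∑ w ∈ T, (ord w (m : L)).toNat : ℕ) : ℤ) := by
        exact_mod_cast Finset.single_le_sum (f := fun w => (ord w (m : L)).toNat)
          (fun _ _ => Nat.zero_le _) hw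
  obtain ⟨ε, hε⟩ := exists_crt T a n
  have hεint : IsIntegral ℤ (ε : L) := RingOfIntegers.isIntegral_coe ε
  have hgint : ∀ g : L ≃ₐ[K] L, IsIntegral ℤ (g (ε : L)) := fun g =>
    map_isIntegral_int g hεint
  -- outside `T` the order of `m` vanishes
  have hord0 : ∀ w : Pl L, w ∉ T → ord w (m : L) ≤ 0 := by
    intro w hw
    rw [hmemT, vGe_iff] at hw
    push Not at hw
    omega
  -- `T` is stable under the Galois group
  have hTg : ∀ (g : L ≃ₐ[K] L) (w : Pl L), w ∈ T → gsmul K g w ∈ T := by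
    intro g w hw
    rw [hmemT] at hw ⊢
    have h1 : g (m : L) = (m : L) := map_natCast g m
    rw [← h1, vGe_gsmul]
    exact hw
  -- primes in `T` lie above split primes
  have hTsplit : ∀ w : Pl L, w ∈ T → IsSplit K L (below K w) := by
    intro w hw
    apply hsplit
    intro h0
    rw [hmemT, vGe_iff] at hw
    have h1 : (m : L) = algebraMap K L (m : K) := (map_natCast _ m).symm
    rw [h1, ord_algebraMap, h0, mul_zero] at hw
    rcases hw with hw | hw
    · rw [← h1] at hw; exact hmL hw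
    · omega
  have hinv : ∀ (g : L ≃ₐ[K] L) (w : Pl L), gsmul K g (gsmul K g⁻¹ w) = w := fun g w => by
    rw [← gsmul_mul, mul_inv_cancel, gsmul_one]
  -- the conjugates of `ε` at the primes of `T`
  have hconj : ∀ (g : L ≃ₐ[K] L) (w : Pl L), w ∈ T →
      vGe w n (g (ε : L) - ((a (gsmul K g⁻¹ w) : 𝓞 L) : L)) := by
    intro g w hw
    have h1 := hε (gsmul K g⁻¹ w) (hTg g⁻¹ w hw)
    rw [← vGe_gsmul K g, hinv, map_sub] at h1
    have h2 : g ((a (gsmul K g⁻¹ w) : 𝓞 L) : L) = ((a (gsmul K g⁻¹ w) : 𝓞 L) : L) := by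
      rw [ha01]
      split_ifs <;> simp
    rwa [h2] at h1
  -- the value of `a` at the translates
  have haval : ∀ (g g0 : L ≃ₐ[K] L) (w : Pl L), w ∈ T →
      gsmul K g0 (sec (below K w)) = w →
      ((a (gsmul K g⁻¹ w) : 𝓞 L) : L) = if g = g0 then 1 else 0 := by
    intro g g0 w hw hg0
    rw [ha01, below_gsmul]
    have hs := hTsplit w hw (sec (below K w)) (hsec _)
    by_cases hgg : g = g0
    · rw [if_pos hgg, if_pos]
      have h3 : gsmul K g⁻¹ w = gsmul K g⁻¹ (gsmul K g0 (sec (below K w))) := by rw [hg0]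
      rw [h3, hgg, ← gsmul_mul, inv_mul_cancel, gsmul_one]
    · rw [if_neg hgg, if_neg]
      intro h
      apply hgg
      have h3 : gsmul K (g⁻¹ * g0) (sec (below K w)) = sec (below K w) := by
        rw [gsmul_mul, hg0]; exact h
      have h4 := eq_one_of_gsmul_eq hs.1 hs.2 h3
      have h5 : g * (g⁻¹ * g0) = g * 1 := by rw [h4]
      rw [mul_inv_cancel_left, mul_one] at h5
      exact h5.symm
  refine ⟨(ε : L), hεint, ?_, ?_⟩
  · intro g hg
    apply isIntegral_of_forall_vGe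
    intro w
    by_cases hw : w ∈ T
    · refine vGe_div (n := n) ?_ hmL (hn w hw)
      obtain ⟨g0, hg0⟩ := exists_gsmul_eq K (w := sec (below K w)) (w' := w) (hsec _)
      by_cases h1 : g0 = 1
      · -- `w` is the chosen prime: `g ε ≡ 0`
        have h2 := hconj g w hw
        rw [haval g g0 w hw hg0, if_neg (by rw [h1]; exact hg), sub_zero] at h2
        have := (vGe_of_isIntegral w hεint).mul h2
        simpa using this
      · -- `w` is not the chosen prime: `ε ≡ 0`
        have h2 := hconj 1 w hw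
        rw [haval 1 g0 w hw hg0, if_neg (Ne.symm h1), sub_zero] at h2
        have h3 : (1 : L ≃ₐ[K] L) (ε : L) = (ε : L) := rfl
        rw [h3] at h2
        have := h2.mul (vGe_of_isIntegral w (hgint g))
        simpa using this
    · exact vGe_div (vGe_of_isIntegral w (hεint.mul (hgint g))) hmL (hord0 w hw)
  · apply isIntegral_of_forall_vGe
    intro w
    by_cases hw : w ∈ T
    · refine vGe_div (n := n) ?_ hmL (hn w hw)
      obtain ⟨g0, hg0⟩ := exists_gsmul_eq K (w := sec (below K w)) (w' := w) (hsec _)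
      have h1 : ∑ g : L ≃ₐ[K] L, g (ε : L) - 1 =
          ∑ g : L ≃ₐ[K] L, (g (ε : L) - ((a (gsmul K g⁻¹ w) : 𝓞 L) : L)) := by
        rw [Finset.sum_sub_distrib]
        congr 1
        rw [Finset.sum_congr rfl fun g _ => haval g g0 w hw hg0]
        simp
      rw [h1]
      exact vGe_sum w n _ _ fun g _ => hconj g w hw
    · refine vGe_div (vGe_of_isIntegral w ?_) hmL (hord0 w hw)
      exact (IsIntegral.sum _ fun g _ => hgint g).sub isIntegral_one


omit [NumberField K] [Algebra K L] in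
/-- from integrality of a quotient to divisibility in the ring of integers. -/
theorem dvd_of_isIntegral_div {m : ℕ} (hm : m ≠ 0) {x : 𝓞 L}
    (h : IsIntegral ℤ ((x : L) / (m : L))) : (m : 𝓞 L) ∣ x := by
  have hmL : (m : L) ≠ 0 := Nat.cast_ne_zero.mpr hm
  refine ⟨⟨(x : L) / (m : L), h⟩, ?_⟩
  apply RingOfIntegers.ext
  show (x : L) = (m : L) * ((x : L) / (m : L))
  field_simp

/-- (I1) in the ring of integers: the normal idempotent modulo `m`. -/
theorem exists_idem_int [IsGalois K L] (m : ℕ) (hm : m ≠ 0)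
    (hsplit : ∀ v : Pl K, ord v (m : K) ≠ 0 → IsSplit K L v) :
    ∃ ε : 𝓞 L,
      (∀ g : L ≃ₐ[K] L, g ≠ 1 → (m : 𝓞 L) ∣ ε * galRestrict (𝓞 K) K L (𝓞 L) g ε) ∧
      (m : 𝓞 L) ∣ (∑ g : L ≃ₐ[K] L, galRestrict (𝓞 K) K L (𝓞 L) g ε) - 1 := by
  obtain ⟨ε, hε, h0, h1⟩ := exists_normal_idempotent (K := K) (L := L) m hm hsplit
  obtain ⟨ε', rfl⟩ : ∃ ε' : 𝓞 L, (ε' : L) = ε := ⟨⟨ε, hε⟩, rfl⟩
  refine ⟨ε', fun g hg => dvd_of_isIntegral_div hm ?_, dvd_of_isIntegral_div hm ?_⟩
  · have e : ((ε' * galRestrict (𝓞 K) K L (𝓞 L) g ε' : 𝓞 L) : L) = (ε' : L) * g (ε' : L) := by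
      rw [RingOfIntegers.coe_eq_algebraMap, map_mul, ← RingOfIntegers.coe_eq_algebraMap,
        ← RingOfIntegers.coe_eq_algebraMap, coe_galRestrict]
    rw [e]
    exact h0 g hg
  · have e : (((∑ g : L ≃ₐ[K] L, galRestrict (𝓞 K) K L (𝓞 L) g ε') - 1 : 𝓞 L) : L) =
        ∑ g : L ≃ₐ[K] L, g (ε' : L) - 1 := by
      rw [RingOfIntegers.coe_eq_algebraMap, map_sub, map_sum, map_one]
      congr 1
      refine Finset.sum_congr rfl fun g _ => ?_
      rw [← RingOfIntegers.coe_eq_algebraMap, coe_galRestrict]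
    rw [e]
    exact h1

end Fermat.Agent.S14x.IdemK
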