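/-
S14 (ExtVanishingCts), Part B, sub-leaf of B4: a normal idempotent modulo `m` of `L/K`,
transported to a Galois extension `F'/F` with `Gal(F'/F) ≃ Gal(L/K)` by restriction, forces
the primes of `F` dividing `m` to split in `F'`.
-/
import Fermat.Agent.S14_Idem

set_option autoImplicit false

open NumberField IsDedekindDomain

namespace Fermat.Agent.S14x.Idem

/-- (B-spl') primes dividing `m` split when there is a normal idempotent modulo `m`. -/
theorem isSplit_of_idem {K L F F' : Type*} [Field K] [NumberField K] [Field L] [NumberField L]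
    [Algebra K L] [IsGalois K L] [Field F] [NumberField F] [Field F'] [NumberField F']
    [Algebra F F'] [IsGalois F F']
    (j : L →+* F') (res : (F' ≃ₐ[F] F') → (L ≃ₐ[K] L))
    (hres : ∀ (g : F' ≃ₐ[F] F') (x : L), g (j x) = j (res g x)) (hbij : Function.Bijective res)
    (m : ℕ) (hm : m ≠ 0) (ε : 𝓞 L)
    (hε1 : ∀ g : L ≃ₐ[K] L, g ≠ 1 → (m : 𝓞 L) ∣ ε * galRestrict (𝓞 K) K L (𝓞 L) g ε)
    (hε2 : (m : 𝓞 L) ∣ (∑ g : L ≃ₐ[K] L, galRestrict (𝓞 K) K L (𝓞 L) g ε) - 1) :
    ∀ P : Pl F, ord P (m : F) ≠ 0 → IsSplit F F' P := by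
  classical
  intro P hP w hw
  set E : (L ≃ₐ[K] L) → F' := fun g => j (g (ε : L)) with hE
  have hcint : ∀ (g : L ≃ₐ[K] L) (c : 𝓞 L), IsIntegral ℤ (j (g (c : L))) := fun g c =>
    map_isIntegral_int j (map_isIntegral_int g (RingOfIntegers.isIntegral_coe c))
  have hEint : ∀ g, IsIntegral ℤ (E g) := fun g => hcint g ε
  have hmF' : vGe w 1 (m : F') := by
    have h1 : (m : F') = algebraMap F F' (m : F) := (map_natCast _ m).symm
    rw [h1, vGe_iff]
    right
    rw [ord_algebraMap, hw]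
    have h2 : 0 ≤ ord P (m : F) := ord_nonneg_of_isIntegral P (isIntegral_natCast m)
    have h3 : 0 < eOf F w := eOf_pos F w
    have h4 : 1 ≤ ord P (m : F) := by omega
    have h5 : (1 : ℤ) ≤ (eOf F w : ℤ) := by exact_mod_cast h3
    nlinarith
  have hmul : ∀ x : F', IsIntegral ℤ x → vGe w 1 ((m : F') * x) := fun x hx => by
    have := hmF'.mul (vGe_of_isIntegral w hx)
    simpa using this
  -- products of distinct conjugates vanish modulo `w`
  have hprod : ∀ g g' : L ≃ₐ[K] L, g ≠ g' → vGe w 1 (E g * E g') := by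
    intro g g' hne
    have hne' : g⁻¹ * g' ≠ 1 := by
      intro h
      apply hne
      have h2 : g * (g⁻¹ * g') = g * 1 := by rw [h]
      rwa [mul_inv_cancel_left, mul_one, eq_comm] at h2
    obtain ⟨c, hc⟩ := hε1 (g⁻¹ * g') hne'
    have h1 : (ε : L) * (g⁻¹ * g') (ε : L) = (m : L) * (c : L) := by
      have h2 : ((ε * galRestrict (𝓞 K) K L (𝓞 L) (g⁻¹ * g') ε : 𝓞 L) : L) =
          (((m : 𝓞 L) * c : 𝓞 L) : L) := congrArg _ hc
      have e1 : ((ε * galRestrict (𝓞 K) K L (𝓞 L) (g⁻¹ * g') ε : 𝓞 L) : L) =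
          (ε : L) * ((galRestrict (𝓞 K) K L (𝓞 L) (g⁻¹ * g') ε : 𝓞 L) : L) :=
        map_mul (algebraMap (𝓞 L) L) _ _
      have e2 : (((m : 𝓞 L) * c : 𝓞 L) : L) = (m : L) * (c : L) := by
        have e3 : (((m : 𝓞 L) * c : 𝓞 L) : L) = ((m : 𝓞 L) : L) * (c : L) :=
          map_mul (algebraMap (𝓞 L) L) _ _
        have e4 : ((m : 𝓞 L) : L) = (m : L) := map_natCast (algebraMap (𝓞 L) L) m
        rw [e3, e4]
      rw [e1, e2, coe_galRestrict] at h2
      exact h2
    have h2 : g (ε : L) * g' (ε : L) = (m : L) * g (c : L) := by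
      have h3 := congrArg g h1
      rw [map_mul, map_mul, map_natCast] at h3
      have h4 : g ((g⁻¹ * g') (ε : L)) = g' (ε : L) := by
        show (g * (g⁻¹ * g')) (ε : L) = _
        rw [mul_inv_cancel_left]
      rwa [h4] at h3
    have h3 : E g * E g' = (m : F') * j (g (c : L)) := by
      simp only [hE]
      rw [← map_mul, h2, map_mul, map_natCast]
    rw [h3]
    exact hmul _ (hcint g c)
  -- the sum of the conjugates is `1` modulo `w`
  have hsum : vGe w 1 (∑ g, E g - 1) := by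
    obtain ⟨c, hc⟩ := hε2
    have h1 : ∑ g : L ≃ₐ[K] L, g (ε : L) - 1 = (m : L) * (c : L) := by
      have h2 : (((∑ g : L ≃ₐ[K] L, galRestrict (𝓞 K) K L (𝓞 L) g ε) - 1 : 𝓞 L) : L) =
          (((m : 𝓞 L) * c : 𝓞 L) : L) := congrArg _ hc
      have e1 : (((∑ g : L ≃ₐ[K] L, galRestrict (𝓞 K) K L (𝓞 L) g ε) - 1 : 𝓞 L) : L) =
          ∑ g : L ≃ₐ[K] L, g (ε : L) - 1 := by
        rw [RingOfIntegers.coe_eq_algebraMap, map_sub, map_sum, map_one]
        congr 1
        refine Finset.sum_congr rfl fun g _ => ?_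
        rw [← RingOfIntegers.coe_eq_algebraMap, coe_galRestrict]
      have e2 : (((m : 𝓞 L) * c : 𝓞 L) : L) = (m : L) * (c : L) := by
        have e3 : (((m : 𝓞 L) * c : 𝓞 L) : L) = ((m : 𝓞 L) : L) * (c : L) :=
          map_mul (algebraMap (𝓞 L) L) _ _
        have e4 : ((m : 𝓞 L) : L) = (m : L) := map_natCast (algebraMap (𝓞 L) L) m
        rw [e3, e4]
      rw [e1, e2] at h2
      exact h2
    have h2 : ∑ g, E g - 1 = (m : F') * j ((1 : L ≃ₐ[K] L) (c : L)) := by
      simp only [hE]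
      rw [← map_sum, ← map_one j, ← map_sub, h1, map_mul, map_natCast]
      rfl
    rw [h2]
    exact hmul _ (hcint 1 c)
  -- the distinguished conjugate
  have hex : ∃ g0, ¬ vGe w 1 (E g0) := by
    by_contra hcon
    push Not at hcon
    have h1 : vGe w 1 (∑ g, E g) := IdemK.vGe_sum w 1 _ _ fun g _ => hcon g
    have h2 : vGe w 1 (1 : F') := by
      have := h1.sub hsum
      simpa using this
    rw [vGe_iff] at h2
    rcases h2 with h2 | h2
    · exact one_ne_zero h2
    · rw [ord_one] at h2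
      omega
  obtain ⟨g0, hg0⟩ := hex
  have hg0ne : E g0 ≠ 0 := by
    intro h
    apply hg0
    rw [h]
    exact vGe_zero w 1
  have hg0ord : ord w (E g0) = 0 := by
    have h1 := ord_nonneg_of_isIntegral w (hEint g0)
    rw [vGe_iff] at hg0
    push Not at hg0
    omega
  have huniq : ∀ g, ¬ vGe w 1 (E g) → g = g0 := by
    intro g hg
    by_contra hne
    have h1 := hprod g g0 hne
    rw [vGe_iff] at h1 hg
    push Not at hg
    rcases h1 with h1 | h1
    · rcases mul_eq_zero.mp h1 with h | h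
      · exact hg.1 h
      · exact hg0ne h
    · rw [ord_mul w hg.1 hg0ne, hg0ord] at h1
      omega
  have hres1 : res 1 = 1 := by
    ext x
    apply j.injective
    rw [← hres]
    rfl
  -- the stabiliser of `w` is trivial
  have hstab : ∀ h : F' ≃ₐ[F] F', gsmul F h w = w → h = 1 := by
    intro h hh
    have h1 : h (E g0) = E (res h * g0) := by
      simp only [hE]
      rw [hres]
      rfl
    have h2 : ¬ vGe w 1 (E (res h * g0)) := by
      rw [← h1]
      intro h3
      apply hg0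
      rw [← hh] at h3
      exact (vGe_gsmul F h w 1 (E g0)).mp h3
    have h3 := huniq _ h2
    have h4 : res h = 1 := mul_eq_right.mp h3
    exact hbij.1 (h4.trans hres1.symm)
  have hcard := card_stabilizer F w
  have h1 : Nat.card {σ : F' ≃ₐ[F] F' // gsmul F σ w = w} = 1 := by
    rw [Nat.card_eq_one_iff_unique]
    exact ⟨⟨fun a b => Subtype.ext ((hstab a a.2).trans (hstab b b.2).symm)⟩,
      ⟨⟨1, gsmul_one F w⟩⟩⟩
  rw [h1] at hcard
  exact ⟨Nat.eq_one_of_mul_eq_one_right hcard.symm, Nat.eq_one_of_mul_eq_one_left hcard.symm⟩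

end Fermat.Agent.S14x.Idem
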