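/-
S14 Part B leaves (I1), (I2) of helper4's finding #62: consequences of a "normal idempotent"
`ε` modulo `m` for a Galois extension `F'/F` of number fields:

* `isSplit_of_idempotent` (I2): every prime of `F` dividing `m` splits completely in `F'`;
* `exists_norm_congr_of_idempotent` (I1): norms are surjective modulo `m`.
-/
import Fermat.Agent.S14_DivGal
import Fermat.Agent.S14_NormSurj

set_option autoImplicit false

namespace Fermat.Agent.S14x.IdemUse

open IsDedekindDomain NumberField

variable {F : Type*} [Field F] [NumberField F] {F' : Type*} [Field F'] [NumberField F']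
  [Algebra F F']

/-- primality of `w` for integral elements, in terms of `vGe` -/
theorem vGe_one_of_mul {w : Pl F'} {x y : F'} (hx : IsIntegral ℤ x)
    (h : vGe w 1 (x * y)) (hx1 : ¬ vGe w 1 x) : vGe w 1 y := by
  rw [vGe_iff] at h hx1 ⊢
  push Not at hx1
  obtain ⟨hx0, hxlt⟩ := hx1
  rcases eq_or_ne y 0 with hy0 | hy0
  · exact Or.inl hy0
  · right
    rcases h with h | h
    · exact absurd h (mul_ne_zero hx0 hy0)
    · rw [ord_mul w hx0 hy0] at h
      have := ord_nonneg_of_isIntegral w hx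
      omega

/-- the stabilizer of a prime above a prime dividing `m` is trivial -/
theorem stabilizer_trivial (m : ℕ) (ε : F') (hε : IsIntegral ℤ ε)
    (hε1 : ∀ g : F' ≃ₐ[F] F', g ≠ 1 → IsIntegral ℤ (ε * g ε / (m : F')))
    (hε2 : IsIntegral ℤ ((∑ g : F' ≃ₐ[F] F', g ε - 1) / (m : F')))
    (w : Pl F') (hw : ord (below F w) (m : F) ≠ 0) (s : F' ≃ₐ[F] F')
    (hs : gsmul F s w = w) : s = 1 := by
  classical
  have hm0 : (m : F) ≠ 0 := by
    rintro h
    rw [h, ord_zero] at hw
    exact hw rfl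
  have hm0' : (m : F') ≠ 0 := by
    have : (m : F') = algebraMap F F' (m : F) := by simp
    rw [this]
    exact (map_ne_zero_iff _ (algebraMap F F').injective).mpr hm0
  -- `ord w m ≥ 1`
  have hordm : 1 ≤ ord w (m : F') := by
    have h1 : (m : F') = algebraMap F F' (m : F) := by simp
    rw [h1, ord_algebraMap]
    have h2 : 0 ≤ ord (below F w) (m : F) :=
      ord_nonneg_of_isIntegral _ (isIntegral_algebraMap (R := ℤ) (x := (m : ℤ)) |> fun h => by
        simpa using h)
    have h3 : 1 ≤ ord (below F w) (m : F) := by omega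
    have h4 : (1 : ℤ) ≤ eOf F w := by exact_mod_cast eOf_pos F w
    calc (1 : ℤ) = 1 * 1 := by ring
      _ ≤ (eOf F w : ℤ) * ord (below F w) (m : F) := mul_le_mul h4 h3 (by norm_num) (by omega)
  have hint : ∀ g : F' ≃ₐ[F] F', IsIntegral ℤ (g ε) := fun g => map_isIntegral_int g hε
  -- the sum is `≡ 1`
  have hsum : vGe w 1 (∑ g : F' ≃ₐ[F] F', g ε - 1) :=
    (RayCRT.vGe_of_isIntegral_div hm0' hε2 w).mono hordm
  -- some conjugate of `ε` is a unit at `w`
  have hex : ∃ g0 : F' ≃ₐ[F] F', ¬ vGe w 1 (g0 ε) := by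
    by_contra hcon
    push Not at hcon
    have hall : vGe w 1 (∑ g : F' ≃ₐ[F] F', g ε) := by
      have : ∀ t : Finset (F' ≃ₐ[F] F'), vGe w 1 (∑ g ∈ t, g ε) := by
        intro t
        induction t using Finset.induction_on with
        | empty => simpa using vGe_zero w 1
        | insert a t ha ih =>
          rw [Finset.sum_insert ha]
          exact (hcon a).add ih
      exact this _
    have h1 : vGe w 1 (1 : F') := by
      have := hall.sub hsum
      simpa using this
    rw [vGe_iff] at h1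
    rcases h1 with h1 | h1
    · exact one_ne_zero h1
    · rw [ord_one] at h1
      omega
  obtain ⟨g0, hg0⟩ := hex
  -- all other conjugates vanish at `w`
  have hother : ∀ g : F' ≃ₐ[F] F', g ≠ g0 → vGe w 1 (g ε) := by
    intro g hg
    have hne : g0⁻¹ * g ≠ 1 := by
      intro h
      apply hg
      have := congrArg (fun t => g0 * t) h
      simpa using this
    have h1 := hε1 (g0⁻¹ * g) hne
    have h2 : IsIntegral ℤ (g0 (ε * (g0⁻¹ * g) ε / (m : F'))) := map_isIntegral_int g0 h1
    have h3 : g0 (ε * (g0⁻¹ * g) ε / (m : F')) = g0 ε * g ε / (m : F') := by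
      rw [map_div₀, map_mul, map_natCast]
      congr 2
      change g0 (g0⁻¹ (g ε)) = g ε
      exact g0.apply_symm_apply _
    rw [h3] at h2
    have h4 : vGe w 1 (g0 ε * g ε) := (RayCRT.vGe_of_isIntegral_div hm0' h2 w).mono hordm
    exact vGe_one_of_mul (hint g0) h4 hg0
  -- conclusion
  by_contra hs1
  have hne : s * g0 ≠ g0 := by
    intro h
    apply hs1
    have := congrArg (fun t => t * g0⁻¹) h
    simpa using this
  have h1 : vGe w 1 ((s * g0) ε) := hother _ hne
  have h2 : vGe (gsmul F s w) 1 (s (g0 ε)) := by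
    rw [hs]
    exact h1
  rw [vGe_gsmul] at h2
  exact hg0 h2

end Fermat.Agent.S14x.IdemUse

namespace Fermat.Agent.S14x

open IsDedekindDomain NumberField

/-- (I2) primes dividing `m` split completely. -/
theorem isSplit_of_idempotent {F F' : Type} [Field F] [NumberField F] [Field F']
    [NumberField F'] [Algebra F F'] [IsGalois F F'] (m : ℕ) (ε : F') (hε : IsIntegral ℤ ε)
    (hε1 : ∀ g : F' ≃ₐ[F] F', g ≠ 1 → IsIntegral ℤ (ε * g ε / (m : F')))
    (hε2 : IsIntegral ℤ ((∑ g : F' ≃ₐ[F] F', g ε - 1) / (m : F')))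
    (P : Pl F) (hP : ord P (m : F) ≠ 0) : IsSplit F F' P := by
  intro w hw
  have hcard := card_stabilizer F w
  have hone : Nat.card {σ : F' ≃ₐ[F] F' // gsmul F σ w = w} = 1 := by
    rw [Nat.card_eq_one_iff_unique]
    refine ⟨⟨fun a b => Subtype.ext ?_⟩, ⟨⟨1, gsmul_one F w⟩⟩⟩
    rw [IdemUse.stabilizer_trivial m ε hε hε1 hε2 w (by rw [hw]; exact hP) a.1 a.2,
      IdemUse.stabilizer_trivial m ε hε hε1 hε2 w (by rw [hw]; exact hP) b.1 b.2]
  rw [hone] at hcard
  exact ⟨Nat.eq_one_of_mul_eq_one_right hcard.symm, Nat.eq_one_of_mul_eq_one_left hcard.symm⟩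

/-- (I1) norms are surjective modulo `m`. -/
theorem exists_norm_congr_of_idempotent {F F' : Type} [Field F] [NumberField F] [Field F']
    [NumberField F'] [Algebra F F'] [IsGalois F F'] (m : ℕ) (ε : F') (hε : IsIntegral ℤ ε)
    (hε1 : ∀ g : F' ≃ₐ[F] F', g ≠ 1 → IsIntegral ℤ (ε * g ε / (m : F')))
    (hε2 : IsIntegral ℤ ((∑ g : F' ≃ₐ[F] F', g ε - 1) / (m : F')))
    (b : F) (hb : IsIntegral ℤ b) :
    ∃ γ : F', IsIntegral ℤ γ ∧ IsIntegral ℤ ((Algebra.norm F γ - b) / (m : F)) := by
  rcases Nat.eq_zero_or_pos m with hm | hm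
  · refine ⟨1, isIntegral_one, ?_⟩
    rw [hm, Nat.cast_zero, div_zero]
    exact isIntegral_zero
  · exact norm_surjective_mod m hm.ne'
      (fun P hP => isSplit_of_idempotent m ε hε hε1 hε2 P hP) b hb

end Fermat.Agent.S14x
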