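import Mathlib

/-!
# S14, leaf (Z-up) and the shared real Dedekind zeta toolkit

* `zetaR K s` : the Dedekind zeta function of a number field as a real series (`1 < s`),
  `dedekindZeta_eq`, `tendsto_zetaR` (residue at `1⁺`), `exists_bounds`
  (`c ≤ (s - 1) ζ_K(s) ≤ M` on `(1, 2)`), `sum_le_zetaR` (finite sums over distinct ideals).
* `S14_Zup` : `∑_v N(v)^(-s) ≤ log (1/(s-1)) + C` for `1 < s < 2` (all finite primes `v`),
  from `∏_{v ∈ T} (1 + N(v)^(-s)) ≤ ζ_K(s)` and `x - x² ≤ log (1 + x)`.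
-/

set_option autoImplicit false

open NumberField Filter Topology IsDedekindDomain

namespace Fermat.Agent.S14x.Zeta

noncomputable section

variable (K : Type*) [Field K] [NumberField K]

/-- The number of integral ideals of norm `n`. -/
def idealCount (n : ℕ) : ℕ := Nat.card {I : Ideal (𝓞 K) // Ideal.absNorm I = n}

/-- The Dedekind zeta function as a real series. -/
def zetaR (s : ℝ) : ℝ := ∑' n : ℕ, (idealCount K n : ℝ) * (n : ℝ) ^ (-s)

theorem lseriesSummable {s : ℝ} (hs : 1 < s) :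
    LSeriesSummable (fun n => ((idealCount K n : ℝ) : ℂ)) (s : ℂ) := by
  have hf : Tendsto (fun n : ℕ => (∑ k ∈ Finset.Icc 1 n, (idealCount K k : ℝ)) / (n : ℝ)) atTop
      (𝓝 (dedekindZeta_residue K)) := by
    refine ((Ideal.tendsto_norm_le_div_atTop₀ K).comp tendsto_natCast_atTop_atTop).congr fun n ↦ ?_
    simp only [Function.comp_apply, Nat.cast_le, ← Nat.cast_sum, idealCount]
    congr
    rw [← add_left_inj 1, ← Ideal.card_norm_le_eq_card_norm_le_add_one,
      show Finset.Icc 1 n = Finset.Ioc 0 n from Finset.Icc_succ_left_eq_Ioc _ _,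
      show 1 = Nat.card {I : Ideal (𝓞 K) // Ideal.absNorm I = 0} by simp [Ideal.absNorm_eq_zero_iff],
      Finset.sum_Ioc_add_eq_sum_Icc (n.zero_le),
      ← Finset.card_preimage_eq_sum_card_image_eq
        (fun k _ ↦ Ideal.finite_setOfPred_absNorm_eq k)]
    simp [Set.coe_eq_subtype]
  refine LSeriesSummable_of_sum_norm_bigO_and_nonneg ?_ (fun _ => Nat.cast_nonneg _)
    zero_le_one (by simpa using hs)
  exact Asymptotics.isBigO_atTop_natCast_rpow_of_tendsto_div_rpow (by simpa using hf)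

theorem term_eq {s : ℝ} (hs : 1 < s) (n : ℕ) :
    LSeries.term (fun n => ((idealCount K n : ℝ) : ℂ)) (s : ℂ) n =
      (((idealCount K n : ℝ) * (n : ℝ) ^ (-s) : ℝ) : ℂ) := by
  rcases eq_or_ne n 0 with rfl | hn
  · have hs0 : -s ≠ 0 := by linarith
    simp [Real.zero_rpow hs0]
  · rw [LSeries.term_of_ne_zero hn, Real.rpow_neg (Nat.cast_nonneg n)]
    push_cast
    rw [Complex.ofReal_cpow (Nat.cast_nonneg n)]
    simp [div_eq_mul_inv]

theorem summable_zetaR {s : ℝ} (hs : 1 < s) :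
    Summable (fun n : ℕ => (idealCount K n : ℝ) * (n : ℝ) ^ (-s)) := by
  have h := lseriesSummable K hs
  rw [LSeriesSummable, funext (term_eq K hs)] at h
  exact Complex.summable_ofReal.mp h

theorem term_nonneg (s : ℝ) (n : ℕ) : 0 ≤ (idealCount K n : ℝ) * (n : ℝ) ^ (-s) :=
  mul_nonneg (Nat.cast_nonneg _) (Real.rpow_nonneg (Nat.cast_nonneg _) _)

theorem dedekindZeta_eq {s : ℝ} (hs : 1 < s) :
    dedekindZeta K (s : ℂ) = ((zetaR K s : ℝ) : ℂ) := by
  have h1 : dedekindZeta K (s : ℂ) =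
      ∑' n, LSeries.term (fun n => ((idealCount K n : ℝ) : ℂ)) (s : ℂ) n := by
    rw [dedekindZeta, LSeries]
    refine tsum_congr fun n => ?_
    refine LSeries.term_congr (fun {m} _ => ?_) _ n
    simp [idealCount]
  rw [h1, funext (term_eq K hs), zetaR, Complex.ofReal_tsum]

theorem tendsto_zetaR :
    Tendsto (fun s : ℝ => (s - 1) * zetaR K s) (𝓝[>] 1) (𝓝 (dedekindZeta_residue K)) := by
  have h := tendsto_sub_one_mul_dedekindZeta_nhdsGT K
  have h2 : Tendsto (fun s : ℝ => (((s - 1) * zetaR K s : ℝ) : ℂ)) (𝓝[>] 1)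
      (𝓝 ((dedekindZeta_residue K : ℝ) : ℂ)) := by
    refine h.congr' ?_
    filter_upwards [self_mem_nhdsWithin] with s hs
    rw [dedekindZeta_eq K hs]
    push_cast
    ring
  have h3 := (Complex.continuous_re.tendsto _).comp h2
  refine h3.congr fun s => ?_
  simp only [Function.comp_apply, Complex.ofReal_re]

theorem zetaR_anti {s s' : ℝ} (hs : 1 < s) (hss' : s ≤ s') : zetaR K s' ≤ zetaR K s := by
  refine (summable_zetaR K (lt_of_lt_of_le hs hss')).tsum_le_tsum (fun n => ?_) (summable_zetaR K hs)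
  rcases eq_or_ne n 0 with rfl | hn
  · have h1 : -s ≠ 0 := by linarith
    have h2 : -s' ≠ 0 := by linarith
    simp [Real.zero_rpow h1, Real.zero_rpow h2]
  · refine mul_le_mul_of_nonneg_left ?_ (Nat.cast_nonneg _)
    exact Real.rpow_le_rpow_of_exponent_le (by exact_mod_cast Nat.one_le_iff_ne_zero.mpr hn)
      (by linarith)

theorem one_le_zetaR {s : ℝ} (hs : 1 < s) : 1 ≤ zetaR K s := by
  have h1 : (idealCount K 1 : ℝ) * ((1 : ℕ) : ℝ) ^ (-s) ≤ zetaR K s :=
    (summable_zetaR K hs).le_tsum 1 (fun n _ => term_nonneg K s n)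
  have h2 : 1 ≤ idealCount K 1 := by
    rw [idealCount]
    have : Finite {I : Ideal (𝓞 K) // Ideal.absNorm I = 1} :=
      (Ideal.finite_setOfPred_absNorm_eq (S := 𝓞 K) 1).to_subtype
    exact Nat.card_pos_iff.mpr ⟨⟨⟨⊤, Ideal.absNorm_top⟩⟩, inferInstance⟩
  have h3 : (1 : ℝ) ≤ (idealCount K 1 : ℝ) := by exact_mod_cast h2
  simp only [Nat.cast_one, Real.one_rpow, mul_one] at h1
  linarith

theorem zetaR_pos {s : ℝ} (hs : 1 < s) : 0 < zetaR K s :=
  lt_of_lt_of_le zero_lt_one (one_le_zetaR K hs)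

/-- Two-sided bound for `(s - 1) ζ_K(s)` on `(1, 2)`. -/
theorem exists_bounds :
    ∃ c M : ℝ, 0 < c ∧ 0 < M ∧ ∀ s : ℝ, 1 < s → s < 2 →
      c ≤ (s - 1) * zetaR K s ∧ (s - 1) * zetaR K s ≤ M := by
  have hres : 0 < dedekindZeta_residue K := dedekindZeta_residue_pos K
  have h := tendsto_zetaR K
  rw [Metric.tendsto_nhdsWithin_nhds] at h
  obtain ⟨δ, hδ, hδ'⟩ := h (dedekindZeta_residue K / 2) (by positivity)
  set δ₁ := min δ 1 with hδ₁
  have hδ₁pos : 0 < δ₁ := lt_min hδ one_pos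
  have hδ₁le : δ₁ ≤ δ := min_le_left _ _
  have h1δ : 1 < 1 + δ₁ := by linarith
  refine ⟨min (dedekindZeta_residue K / 2) δ₁, max (3 * dedekindZeta_residue K / 2)
    (zetaR K (1 + δ₁)), lt_min (by positivity) hδ₁pos,
    lt_of_lt_of_le (by positivity) (le_max_left _ _), fun s hs1 hs2 => ?_⟩
  by_cases hsδ : s < 1 + δ₁
  · have hd : dist s 1 < δ := by
      rw [Real.dist_eq, abs_of_pos (by linarith)]
      linarith
    have h2 := hδ' hs1 hd
    rw [Real.dist_eq, abs_lt] at h2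
    constructor
    · exact le_trans (min_le_left _ _) (by linarith [h2.1])
    · exact le_trans (by linarith [h2.2]) (le_max_left _ _)
  · push Not at hsδ
    have hz1 : 1 ≤ zetaR K s := one_le_zetaR K hs1
    have hz2 : zetaR K s ≤ zetaR K (1 + δ₁) := zetaR_anti K h1δ hsδ
    constructor
    · refine le_trans (min_le_right _ _) ?_
      nlinarith
    · refine le_trans ?_ (le_max_right _ _)
      have hpos : 0 < zetaR K s := zetaR_pos K hs1
      nlinarith

theorem card_filter_le (𝒜 : Finset (Ideal (𝓞 K))) (n : ℕ) [DecidablePred fun I : Ideal (𝓞 K) =>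
    Ideal.absNorm I = n] :
    (𝒜.filter (fun I => Ideal.absNorm I = n)).card ≤ idealCount K n := by
  have hfin : {I : Ideal (𝓞 K) | Ideal.absNorm I = n}.Finite :=
    Ideal.finite_setOfPred_absNorm_eq (S := 𝓞 K) n
  have h1 : idealCount K n = {I : Ideal (𝓞 K) | Ideal.absNorm I = n}.ncard := by
    rw [idealCount, ← Nat.card_coe_set_eq]
    rfl
  rw [h1, ← Set.ncard_coe_finset]
  refine Set.ncard_le_ncard ?_ hfin
  intro I hI
  simp only [Finset.coe_filter, Set.mem_ofPred] at hI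
  exact hI.2

/-- A finite sum of `N(I)^(-s)` over distinct ideals is bounded by the zeta series. -/
theorem sum_le_zetaR (𝒜 : Finset (Ideal (𝓞 K))) {s : ℝ} (hs : 1 < s) :
    ∑ I ∈ 𝒜, (Ideal.absNorm I : ℝ) ^ (-s) ≤ zetaR K s := by
  classical
  have hsum := summable_zetaR K hs
  have h1 : ∑ I ∈ 𝒜, ((Ideal.absNorm I : ℕ) : ℝ) ^ (-s) =
      ∑ n ∈ 𝒜.image (fun I => Ideal.absNorm I),
        ((𝒜.filter (fun I => Ideal.absNorm I = n)).card : ℝ) * (n : ℝ) ^ (-s) := by
    rw [Finset.sum_comp (fun n : ℕ => (n : ℝ) ^ (-s)) (fun I : Ideal (𝓞 K) => Ideal.absNorm I)]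
    simp [nsmul_eq_mul]
  rw [h1]
  calc ∑ n ∈ 𝒜.image (fun I => Ideal.absNorm I),
        ((𝒜.filter (fun I => Ideal.absNorm I = n)).card : ℝ) * (n : ℝ) ^ (-s)
      ≤ ∑ n ∈ 𝒜.image (fun I => Ideal.absNorm I), (idealCount K n : ℝ) * (n : ℝ) ^ (-s) := by
        refine Finset.sum_le_sum fun n _ => ?_
        refine mul_le_mul_of_nonneg_right ?_ (Real.rpow_nonneg (Nat.cast_nonneg _) _)
        exact_mod_cast card_filter_le K 𝒜 n
    _ ≤ zetaR K s := hsum.sum_le_tsum _ (fun n _ => term_nonneg K s n)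

theorem prod_asIdeal_injective (t t' : Finset (HeightOneSpectrum (𝓞 K)))
    (h : ∏ v ∈ t, v.asIdeal = ∏ v ∈ t', v.asIdeal) : t = t' := by
  have key : ∀ (t : Finset (HeightOneSpectrum (𝓞 K))) (v : HeightOneSpectrum (𝓞 K)),
      v ∈ t ↔ v.asIdeal ∣ ∏ u ∈ t, u.asIdeal := by
    intro t v
    constructor
    · intro hv
      exact Finset.dvd_prod_of_mem _ hv
    · intro hv
      obtain ⟨u, hu, hvu⟩ := (Prime.dvd_finsetProd_iff v.prime _).mp hv
      have hle : u.asIdeal ≤ v.asIdeal := Ideal.dvd_iff_le.mp hvu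
      have heq : u.asIdeal = v.asIdeal := u.isMaximal.eq_of_le v.isPrime.ne_top hle
      have : u = v := HeightOneSpectrum.ext heq
      rwa [← this]
  ext v
  rw [key t v, key t' v, h]

/-- `∏_{v ∈ T} (1 + N(v)^(-s)) ≤ ζ_K(s)`: squarefree products of primes are distinct ideals. -/
theorem prod_one_add_le (T : Finset (HeightOneSpectrum (𝓞 K))) {s : ℝ} (hs : 1 < s) :
    ∏ v ∈ T, (1 + (Ideal.absNorm v.asIdeal : ℝ) ^ (-s)) ≤ zetaR K s := by
  classical
  rw [Finset.prod_one_add]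
  have h1 : ∀ t ∈ T.powerset, ∏ v ∈ t, (Ideal.absNorm v.asIdeal : ℝ) ^ (-s) =
      (Ideal.absNorm (∏ v ∈ t, v.asIdeal) : ℝ) ^ (-s) := by
    intro t _
    rw [map_prod, Nat.cast_prod, Real.finsetProd_rpow _ _ (fun v _ => Nat.cast_nonneg _)]
  rw [Finset.sum_congr rfl h1]
  have hinj : Set.InjOn (fun t : Finset (HeightOneSpectrum (𝓞 K)) => ∏ v ∈ t, v.asIdeal)
      (T.powerset : Set (Finset (HeightOneSpectrum (𝓞 K)))) :=
    fun t _ t' _ h => prod_asIdeal_injective K t t' h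
  rw [← Finset.sum_image (f := fun I : Ideal (𝓞 K) => (Ideal.absNorm I : ℝ) ^ (-s)) hinj]
  exact sum_le_zetaR K _ hs

theorem sum_primes_le (T : Finset (HeightOneSpectrum (𝓞 K))) {s : ℝ} (hs : 1 < s) :
    ∑ v ∈ T, (Ideal.absNorm v.asIdeal : ℝ) ^ (-s) ≤ zetaR K s := by
  classical
  have hinj : Set.InjOn (fun v : HeightOneSpectrum (𝓞 K) => v.asIdeal)
      (T : Set (HeightOneSpectrum (𝓞 K))) := fun v _ v' _ h => HeightOneSpectrum.ext h
  rw [← Finset.sum_image (f := fun I : Ideal (𝓞 K) => (Ideal.absNorm I : ℝ) ^ (-s)) hinj]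
  exact sum_le_zetaR K _ hs

theorem one_le_absNorm (v : HeightOneSpectrum (𝓞 K)) : (1 : ℝ) ≤ (Ideal.absNorm v.asIdeal : ℝ) := by
  have h : Ideal.absNorm v.asIdeal ≠ 0 := by
    rw [Ne, Ideal.absNorm_eq_zero_iff]
    exact v.ne_bot
  exact_mod_cast Nat.one_le_iff_ne_zero.mpr h

theorem sub_sq_le_log (x : ℝ) (hx : 0 ≤ x) : x - x ^ 2 ≤ Real.log (1 + x) := by
  have h1 : 1 - (1 + x)⁻¹ ≤ Real.log (1 + x) := Real.one_sub_inv_le_log_of_pos (by linarith)
  have h2 : x - x ^ 2 ≤ 1 - (1 + x)⁻¹ := by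
    have hpos : 0 < 1 + x := by linarith
    rw [show 1 - (1 + x)⁻¹ = x / (1 + x) by field_simp; ring, le_div_iff₀ hpos]
    nlinarith [mul_nonneg hx (mul_nonneg hx hx)]
  linarith

/-- **(Z-up)**: the sum of `N(v)^(-s)` over all primes is at most `log (1/(s-1)) + C`. -/
theorem S14_Zup (F : Type*) [Field F] [NumberField F] :
    ∃ C : ℝ, ∀ s : ℝ, 1 < s → s < 2 →
      Summable (fun v : HeightOneSpectrum (𝓞 F) => (Ideal.absNorm v.asIdeal : ℝ) ^ (-s)) ∧
      ∑' v : HeightOneSpectrum (𝓞 F), (Ideal.absNorm v.asIdeal : ℝ) ^ (-s) ≤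
        Real.log (1 / (s - 1)) + C := by
  classical
  obtain ⟨c, M, hc, hM, hb⟩ := exists_bounds F
  refine ⟨Real.log M + zetaR F 2, fun s hs1 hs2 => ?_⟩
  have hs0 : 0 < s - 1 := by linarith
  have hx0 : ∀ v : HeightOneSpectrum (𝓞 F), 0 ≤ (Ideal.absNorm v.asIdeal : ℝ) ^ (-s) :=
    fun v => Real.rpow_nonneg (Nat.cast_nonneg _) _
  have key : ∀ T : Finset (HeightOneSpectrum (𝓞 F)),
      ∑ v ∈ T, (Ideal.absNorm v.asIdeal : ℝ) ^ (-s) ≤
        Real.log (1 / (s - 1)) + (Real.log M + zetaR F 2) := by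
    intro T
    have hterm : ∀ v ∈ T, (Ideal.absNorm v.asIdeal : ℝ) ^ (-s) ≤
        Real.log (1 + (Ideal.absNorm v.asIdeal : ℝ) ^ (-s)) +
          (Ideal.absNorm v.asIdeal : ℝ) ^ (-(2 : ℝ)) := by
      intro v _
      have h1 := sub_sq_le_log _ (hx0 v)
      have h2 : ((Ideal.absNorm v.asIdeal : ℝ) ^ (-s)) ^ 2 ≤
          (Ideal.absNorm v.asIdeal : ℝ) ^ (-(2 : ℝ)) := by
        rw [← Real.rpow_natCast, ← Real.rpow_mul (Nat.cast_nonneg _)]
        refine Real.rpow_le_rpow_of_exponent_le (one_le_absNorm F v) ?_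
        push_cast
        linarith
      linarith
    have hprodpos : 0 < ∏ v ∈ T, (1 + (Ideal.absNorm v.asIdeal : ℝ) ^ (-s)) :=
      Finset.prod_pos fun v _ => by linarith [hx0 v]
    have hlogprod : ∑ v ∈ T, Real.log (1 + (Ideal.absNorm v.asIdeal : ℝ) ^ (-s)) =
        Real.log (∏ v ∈ T, (1 + (Ideal.absNorm v.asIdeal : ℝ) ^ (-s))) := by
      rw [Real.log_prod]
      intro v _
      have := hx0 v
      linarith
    have hz : zetaR F s ≤ M / (s - 1) := by
      rw [le_div_iff₀ hs0]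
      have := (hb s hs1 hs2).2
      linarith
    have hlogM : Real.log (M / (s - 1)) = Real.log (1 / (s - 1)) + Real.log M := by
      rw [show M / (s - 1) = (1 / (s - 1)) * M by ring, Real.log_mul (by positivity) hM.ne']
    calc ∑ v ∈ T, (Ideal.absNorm v.asIdeal : ℝ) ^ (-s)
        ≤ ∑ v ∈ T, (Real.log (1 + (Ideal.absNorm v.asIdeal : ℝ) ^ (-s)) +
            (Ideal.absNorm v.asIdeal : ℝ) ^ (-(2 : ℝ))) := Finset.sum_le_sum hterm
      _ = Real.log (∏ v ∈ T, (1 + (Ideal.absNorm v.asIdeal : ℝ) ^ (-s))) +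
            ∑ v ∈ T, (Ideal.absNorm v.asIdeal : ℝ) ^ (-(2 : ℝ)) := by
          rw [Finset.sum_add_distrib, hlogprod]
      _ ≤ Real.log (zetaR F s) + zetaR F 2 := by
          refine add_le_add ?_ (sum_primes_le F T (by norm_num))
          exact Real.log_le_log hprodpos (prod_one_add_le F T hs1)
      _ ≤ Real.log (M / (s - 1)) + zetaR F 2 := by
          refine add_le_add ?_ le_rfl
          exact Real.log_le_log (zetaR_pos F hs1) hz
      _ = Real.log (1 / (s - 1)) + (Real.log M + zetaR F 2) := by rw [hlogM]; ring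
  have hsummable : Summable (fun v : HeightOneSpectrum (𝓞 F) =>
      (Ideal.absNorm v.asIdeal : ℝ) ^ (-s)) := summable_of_sum_le hx0 key
  exact ⟨hsummable, hsummable.tsum_le_of_sum_le key⟩

end

end Fermat.Agent.S14x.Zeta
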