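import Mathlib
import Fermat.Statements.S16

/-!
# S16: shared definitions (interfaces between the work packages)
-/

set_option autoImplicit false

open scoped MatrixGroups ModularForm
open CongruenceSubgroup UpperHalfPlane ModularFormClass ModularCurve CuspForm

namespace Fermat.Agent.S16Lib

/-- the formal `U_p` operator on `q`-series: `a_n ↦ a_{np}` -/
noncomputable def Uop (p : ℕ) (F : PowerSeries ℂ) : PowerSeries ℂ :=
  PowerSeries.mk fun n => PowerSeries.coeff (n * p) F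

@[simp] theorem coeff_Uop (p n : ℕ) (F : PowerSeries ℂ) :
    PowerSeries.coeff n (Uop p F) = PowerSeries.coeff (n * p) F := by
  simp [Uop]

/-- `σ'(k)`: the sum of the divisors of `k` prime to `p` -/
def sigmaP (p k : ℕ) : ℕ := ∑ d ∈ k.divisors with ¬ p ∣ d, d

/-- `g ≡ 1 mod ℓ^r` in the `ℓ`-integral sense: constant term `1`, and with a common denominator
`s` prime to `ℓ` all higher coefficients are in `ℓ^r/s · ℤ`. -/
def CongOne (ℓ r : ℕ) (g : PowerSeries ℂ) : Prop :=
  PowerSeries.coeff 0 g = 1 ∧ ∃ s : ℕ, ¬ ℓ ∣ s ∧ ∀ k : ℕ, 1 ≤ k →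
    ∃ b : ℤ, (s : ℂ) * PowerSeries.coeff k g = (ℓ : ℂ) ^ r * (b : ℂ)

/-- the "five lemmas" all have this shape: no weight-2 form on `Γ₀(p)` is `≡ 1 mod ℓ^r` -/
def NoCongOne (p ℓ r : ℕ) : Prop :=
  ∀ G : ModularForm (Gamma0 p) 2, ¬ CongOne ℓ r (qExpansion 1 G)

end Fermat.Agent.S16Lib
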