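import Mathlib

set_option autoImplicit false

/-!
# S16: the ring of `ℓ`-integral algebraic numbers inside `ℂ`

`O ℓ = {x ∈ ℂ | ∃ s : ℕ, ℓ ∤ s ∧ s·x is an algebraic integer}` (a subring of `ℂ`), the additive
subgroup `I ℓ = ℓ·O ℓ`, and the key fact `(a : ℤ) ∈ ℓ·O ℓ ↔ ℓ ∣ a`.
-/

namespace Fermat.Agent.S16.IntRing

variable (ℓ : ℕ) [hℓ : Fact ℓ.Prime]

/-- The ring of `ℓ`-integral algebraic numbers in `ℂ`. -/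
def O : Subring ℂ where
  carrier := {x | ∃ s : ℕ, ¬ ℓ ∣ s ∧ IsIntegral ℤ ((s : ℂ) * x)}
  mul_mem' := by
    rintro x y ⟨s, hs, hx⟩ ⟨t, ht, hy⟩
    refine ⟨s * t, fun h => ?_, ?_⟩
    · rcases (Nat.Prime.dvd_mul hℓ.out).mp h with h | h
      · exact hs h
      · exact ht h
    · have e : ((s * t : ℕ) : ℂ) * (x * y) = ((s : ℂ) * x) * ((t : ℂ) * y) := by
        push_cast
        ring
      rw [e]
      exact hx.mul hy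
  one_mem' := ⟨1, fun h => hℓ.out.one_lt.ne' (Nat.dvd_one.mp h), by simpa using isIntegral_one⟩
  add_mem' := by
    rintro x y ⟨s, hs, hx⟩ ⟨t, ht, hy⟩
    refine ⟨s * t, fun h => ?_, ?_⟩
    · rcases (Nat.Prime.dvd_mul hℓ.out).mp h with h | h
      · exact hs h
      · exact ht h
    · have e : ((s * t : ℕ) : ℂ) * (x + y) =
          (algebraMap ℤ ℂ (t : ℤ)) * ((s : ℂ) * x) + (algebraMap ℤ ℂ (s : ℤ)) * ((t : ℂ) * y) := by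
        simp only [eq_intCast, Int.cast_natCast]
        push_cast
        ring
      rw [e]
      exact ((isIntegral_algebraMap (R := ℤ) (A := ℂ) (x := (t : ℤ))).mul hx).add
        ((isIntegral_algebraMap (R := ℤ) (A := ℂ) (x := (s : ℤ))).mul hy)
  zero_mem' := ⟨1, fun h => hℓ.out.one_lt.ne' (Nat.dvd_one.mp h), by simpa using isIntegral_zero⟩
  neg_mem' := by
    rintro x ⟨s, hs, hx⟩
    refine ⟨s, hs, ?_⟩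
    rw [mul_neg]
    exact hx.neg

variable {ℓ}

theorem mem_O_iff {x : ℂ} : x ∈ O ℓ ↔ ∃ s : ℕ, ¬ ℓ ∣ s ∧ IsIntegral ℤ ((s : ℂ) * x) := Iff.rfl

theorem isIntegral_mem_O {x : ℂ} (hx : IsIntegral ℤ x) : x ∈ O ℓ :=
  ⟨1, fun h => hℓ.out.one_lt.ne' (Nat.dvd_one.mp h), by simpa using hx⟩

theorem intCast_mem_O (a : ℤ) : (a : ℂ) ∈ O ℓ := intCast_mem _ a

theorem natCast_mem_O (a : ℕ) : (a : ℂ) ∈ O ℓ := natCast_mem _ a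

omit hℓ in
theorem ne_zero_of_not_dvd {s : ℕ} (hs : ¬ ℓ ∣ s) : (s : ℂ) ≠ 0 := by
  rintro h
  have : s = 0 := by exact_mod_cast h
  exact hs (this ▸ dvd_zero ℓ)

/-- `1/s ∈ O ℓ` for `ℓ ∤ s`. -/
theorem inv_natCast_mem_O {s : ℕ} (hs : ¬ ℓ ∣ s) : ((s : ℂ))⁻¹ ∈ O ℓ :=
  ⟨s, hs, by rw [mul_inv_cancel₀ (ne_zero_of_not_dvd hs)]; exact isIntegral_one⟩

/-- If `s·x ∈ O ℓ` with `ℓ ∤ s` then `x ∈ O ℓ`. -/
theorem mem_O_of_natCast_mul_mem {s : ℕ} (hs : ¬ ℓ ∣ s) {x : ℂ} (h : (s : ℂ) * x ∈ O ℓ) :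
    x ∈ O ℓ := by
  have h2 := (O ℓ).mul_mem (inv_natCast_mem_O hs) h
  rwa [inv_mul_cancel_left₀ (ne_zero_of_not_dvd hs)] at h2

variable (ℓ)

/-- The additive subgroup `ℓ·O ℓ` of `ℂ`. -/
def I : AddSubgroup ℂ where
  carrier := {x | ∃ y ∈ O ℓ, x = (ℓ : ℂ) * y}
  add_mem' := by
    rintro _ _ ⟨y, hy, rfl⟩ ⟨z, hz, rfl⟩
    exact ⟨y + z, (O ℓ).add_mem hy hz, by ring⟩
  zero_mem' := ⟨0, (O ℓ).zero_mem, by ring⟩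
  neg_mem' := by
    rintro _ ⟨y, hy, rfl⟩
    exact ⟨-y, (O ℓ).neg_mem hy, by ring⟩

variable {ℓ}

theorem mem_I_iff {x : ℂ} : x ∈ I ℓ ↔ ∃ y ∈ O ℓ, x = (ℓ : ℂ) * y := Iff.rfl

theorem mul_mem_I {x y : ℂ} (hx : x ∈ O ℓ) (hy : y ∈ I ℓ) : x * y ∈ I ℓ := by
  obtain ⟨z, hz, rfl⟩ := hy
  exact ⟨x * z, (O ℓ).mul_mem hx hz, by ring⟩

theorem mul_mem_I' {x y : ℂ} (hx : x ∈ I ℓ) (hy : y ∈ O ℓ) : x * y ∈ I ℓ := by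
  rw [mul_comm]
  exact mul_mem_I hy hx

theorem prime_mul_mem_I {y : ℂ} (hy : y ∈ O ℓ) : (ℓ : ℂ) * y ∈ I ℓ := ⟨y, hy, rfl⟩

theorem mem_O_of_mem_I {x : ℂ} (hx : x ∈ I ℓ) : x ∈ O ℓ := by
  obtain ⟨z, hz, rfl⟩ := hx
  exact (O ℓ).mul_mem (natCast_mem_O ℓ) hz

/-- If `s·x ∈ ℓ·O ℓ` with `ℓ ∤ s` then `x ∈ ℓ·O ℓ`. -/
theorem mem_I_of_natCast_mul_mem {s : ℕ} (hs : ¬ ℓ ∣ s) {x : ℂ} (h : (s : ℂ) * x ∈ I ℓ) :
    x ∈ I ℓ := by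
  have h2 := mul_mem_I (inv_natCast_mem_O hs) h
  rwa [inv_mul_cancel_left₀ (ne_zero_of_not_dvd hs)] at h2

/-- Division by a natural number prime to `ℓ` preserves `ℓ·O ℓ`. -/
theorem inv_natCast_mul_mem_I {s : ℕ} (hs : ¬ ℓ ∣ s) {x : ℂ} (h : x ∈ I ℓ) :
    ((s : ℂ))⁻¹ * x ∈ I ℓ :=
  mul_mem_I (inv_natCast_mem_O hs) h

/-- A rational number which is an algebraic integer is an integer. -/
theorem exists_int_of_isIntegral_ratCast {q : ℚ} (h : IsIntegral ℤ (q : ℂ)) :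
    ∃ m : ℤ, (m : ℚ) = q := by
  have h1 : IsIntegral ℤ q :=
    (isIntegral_algebraMap_iff (R := ℤ) (A := ℚ) (B := ℂ) (algebraMap ℚ ℂ).injective).mp
      (by simpa using h)
  obtain ⟨m, hm⟩ := IsIntegrallyClosed.isIntegral_iff.mp h1
  exact ⟨m, by simpa using hm⟩

/-- **Key fact**: an integer lies in `ℓ·O ℓ` iff it is divisible by `ℓ`. -/
theorem intCast_mem_I_iff (a : ℤ) : (a : ℂ) ∈ I ℓ ↔ (ℓ : ℤ) ∣ a := by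
  constructor
  · rintro ⟨y, ⟨s, hs, hy⟩, hay⟩
    have hℓ0 : (ℓ : ℂ) ≠ 0 := by exact_mod_cast hℓ.out.ne_zero
    have hq : ((s : ℂ) * y) = (((s * a : ℤ) / (ℓ : ℤ) : ℚ) : ℂ) := by
      push_cast
      rw [hay]
      field_simp
    rw [hq] at hy
    obtain ⟨m, hm⟩ := exists_int_of_isIntegral_ratCast hy
    have hℓq : ((ℓ : ℤ) : ℚ) ≠ 0 := by exact_mod_cast hℓ.out.ne_zero
    have h2 : (s : ℤ) * a = (ℓ : ℤ) * m := by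
      have h3 : ((s * a : ℤ) : ℚ) = ((ℓ : ℤ) : ℚ) * (m : ℚ) := by
        rw [hm]
        field_simp
      exact_mod_cast h3
    have h4 : (ℓ : ℤ) ∣ (s : ℤ) * a := ⟨m, h2⟩
    rcases (Int.prime_iff_natAbs_prime.mpr (by simpa using hℓ.out)).dvd_or_dvd h4 with h | h
    · exact absurd (Int.natCast_dvd_natCast.mp h) hs
    · exact h
  · rintro ⟨m, rfl⟩
    exact ⟨m, intCast_mem_O m, by push_cast; ring⟩

theorem natCast_mem_I_iff (a : ℕ) : (a : ℂ) ∈ I ℓ ↔ ℓ ∣ a := by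
  have h := intCast_mem_I_iff (ℓ := ℓ) (a : ℤ)
  rw [Int.natCast_dvd_natCast] at h
  simpa using h

theorem one_not_mem_I : (1 : ℂ) ∉ I ℓ := by
  intro h
  have h1 := (natCast_mem_I_iff (ℓ := ℓ) 1).mp (by simpa using h)
  exact hℓ.out.one_lt.ne' (Nat.dvd_one.mp h1)

/-- `1/ℓ ∉ O ℓ`. -/
theorem inv_prime_not_mem_O : ((ℓ : ℂ))⁻¹ ∉ O ℓ := by
  intro h
  have hℓ0 : (ℓ : ℂ) ≠ 0 := by exact_mod_cast hℓ.out.ne_zero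
  have h1 : (ℓ : ℂ) * ((ℓ : ℂ))⁻¹ ∈ I ℓ := prime_mul_mem_I h
  rw [mul_inv_cancel₀ hℓ0] at h1
  exact one_not_mem_I h1

/-- Bridge from "`s·x = ℓ^r·b` with `ℓ ∤ s`, `b ∈ ℤ`" to "`x ∈ ℓ^r·O ℓ`". -/
theorem exists_mem_O_of_mul_eq {s : ℕ} (hs : ¬ ℓ ∣ s) {x : ℂ} {r : ℕ} {b : ℤ}
    (h : (s : ℂ) * x = (ℓ : ℂ) ^ r * (b : ℂ)) : ∃ c ∈ O ℓ, x = (ℓ : ℂ) ^ r * c := by
  refine ⟨((s : ℂ))⁻¹ * (b : ℂ), (O ℓ).mul_mem (inv_natCast_mem_O hs) (intCast_mem_O b), ?_⟩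
  have hs0 := ne_zero_of_not_dvd hs
  field_simp
  linear_combination h

/-- Membership of `ℓ·O ℓ` for "`s·x = ℓ^r·b` with `ℓ ∤ s`, `b ∈ ℤ`, `r ≥ 1`". -/
theorem mem_I_of_mul_eq {s : ℕ} (hs : ¬ ℓ ∣ s) {x : ℂ} {r : ℕ} (hr : 1 ≤ r) {b : ℤ}
    (h : (s : ℂ) * x = (ℓ : ℂ) ^ r * (b : ℂ)) : x ∈ I ℓ := by
  obtain ⟨c, hc, rfl⟩ := exists_mem_O_of_mul_eq hs h
  obtain ⟨r', rfl⟩ : ∃ r', r = r' + 1 := ⟨r - 1, by omega⟩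
  refine ⟨(ℓ : ℂ) ^ r' * c, (O ℓ).mul_mem ((O ℓ).pow_mem (natCast_mem_O ℓ) r') hc, ?_⟩
  ring

end Fermat.Agent.S16.IntRing
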