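import Mathlib

/-!
# S16 (U7 + U8): the `U_p` operator on power series and the congruence lemmas `B₃`, `C₄`

Pure algebra of formal power series over a domain `R` of characteristic zero (in the
application `R = ℤ_(ℓ)`).

* `Uq p F = ∑ a_{np} qⁿ`, the `U_p` operator on `q`-expansions;
* `S3 R = ∑ σ₃(n) qⁿ`;
* `two_dvd_Uq_sq_sub`: `U(F²) ≡ (UF)²` mod `2` for odd `p`;
* `lemma_B3`: for `p ≡ 1` mod `3` the identity (W4) has no solution `G = 1 + 3H`, `UG = 1 + 3H₁`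
  unless `3` is a unit of `R`;
* `lemma_C4`: for `p ≡ 1` mod `4` the identity (W4) has no solution `G = 1 + 4H`, `UG = 1 + 4H₁`
  unless `2` is a unit of `R`.
-/

set_option autoImplicit false

open PowerSeries

noncomputable section

namespace Fermat.Agent.S16.QSeries

variable {R : Type*} [CommRing R]

/-- the `U_p` operator on power series: `∑ aₙ qⁿ ↦ ∑ a_{np} qⁿ`. -/
def Uq (p : ℕ) (F : R⟦X⟧) : R⟦X⟧ := PowerSeries.mk fun n => coeff (n * p) F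

@[simp]
theorem coeff_Uq (p : ℕ) (F : R⟦X⟧) (n : ℕ) : coeff n (Uq p F) = coeff (n * p) F := by
  rw [Uq, coeff_mk]

theorem Uq_add (p : ℕ) (F G : R⟦X⟧) : Uq p (F + G) = Uq p F + Uq p G := by
  ext n; simp

theorem Uq_sub (p : ℕ) (F G : R⟦X⟧) : Uq p (F - G) = Uq p F - Uq p G := by
  ext n; simp

theorem Uq_zero (p : ℕ) : Uq p (0 : R⟦X⟧) = 0 := by
  ext n; simp

theorem Uq_C_mul (p : ℕ) (a : R) (F : R⟦X⟧) : Uq p (C a * F) = C a * Uq p F := by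
  ext n; simp

theorem Uq_natCast_mul (p : ℕ) (a : ℕ) (F : R⟦X⟧) : Uq p ((a : R⟦X⟧) * F) = (a : R⟦X⟧) * Uq p F := by
  have h : (a : R⟦X⟧) = C (a : R) := by simp
  rw [h, Uq_C_mul]

theorem Uq_one {p : ℕ} (hp : p ≠ 0) : Uq p (1 : R⟦X⟧) = 1 := by
  ext n
  rw [coeff_Uq, coeff_one, coeff_one]
  have : n * p = 0 ↔ n = 0 := by
    constructor
    · intro h
      rcases Nat.mul_eq_zero.mp h with h | h
      · exact h
      · exact absurd h hp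
    · rintro rfl; simp
  simp only [this]

/-- `U` preserves divisibility by natural numbers. -/
theorem natCast_dvd_Uq (p : ℕ) (a : ℕ) {F : R⟦X⟧} (h : (a : R⟦X⟧) ∣ F) : (a : R⟦X⟧) ∣ Uq p F := by
  obtain ⟨K, rfl⟩ := h
  exact ⟨Uq p K, Uq_natCast_mul p a K⟩

/-- a coefficient of a multiple of `a` is a multiple of `a`. -/
theorem natCast_dvd_coeff (a : ℕ) {F : R⟦X⟧} (h : (a : R⟦X⟧) ∣ F) (n : ℕ) :
    (a : R) ∣ coeff n F := by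
  obtain ⟨K, rfl⟩ := h
  refine ⟨coeff n K, ?_⟩
  have h : (a : R⟦X⟧) = C (a : R) := by simp
  rw [h, coeff_C_mul]

/-- `∑ σ₃(n) qⁿ`. -/
def S3 (R : Type*) [CommRing R] : R⟦X⟧ :=
  PowerSeries.mk fun n => ((ArithmeticFunction.sigma 3 n : ℕ) : R)

theorem coeff_S3 (n : ℕ) : coeff n (S3 R) = ((ArithmeticFunction.sigma 3 n : ℕ) : R) := by
  rw [S3, coeff_mk]

theorem coeff_one_S3 : coeff 1 (S3 R) = 1 := by
  rw [coeff_S3]; simp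

theorem coeff_one_Uq_S3 {p : ℕ} (hp : p.Prime) : coeff 1 (Uq p (S3 R)) = 1 + (p : R) ^ 3 := by
  rw [coeff_Uq, one_mul, coeff_S3, ArithmeticFunction.sigma_apply, hp.sum_divisors]
  push_cast
  ring

/-! ### the Frobenius congruence -/

/-- `F² ≡ ∑ aᵢ² q^{2i}` mod `2`: the coefficient form. -/
theorem coeff_sq_eq (F : R⟦X⟧) (m : ℕ) :
    ∃ c : R, coeff m (F ^ 2) = (if 2 ∣ m then coeff (m / 2) F ^ 2 else 0) + 2 * c := by
  classical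
  rw [pow_two, coeff_mul]
  -- split the antidiagonal into i < j, i = j, i > j
  have hsplit : ∑ x ∈ Finset.HasAntidiagonal.antidiagonal m, coeff x.1 F * coeff x.2 F
      = ∑ x ∈ (Finset.HasAntidiagonal.antidiagonal m).filter (fun x => x.1 < x.2), coeff x.1 F * coeff x.2 F
        + (∑ x ∈ (Finset.HasAntidiagonal.antidiagonal m).filter (fun x => x.1 = x.2), coeff x.1 F * coeff x.2 F
          + ∑ x ∈ (Finset.HasAntidiagonal.antidiagonal m).filter (fun x => x.2 < x.1),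
              coeff x.1 F * coeff x.2 F) := by
    rw [← Finset.sum_filter_add_sum_filter_not (Finset.HasAntidiagonal.antidiagonal m) (fun x => x.1 < x.2)]
    congr 1
    rw [← Finset.sum_filter_add_sum_filter_not
      ((Finset.HasAntidiagonal.antidiagonal m).filter (fun x => ¬ x.1 < x.2)) (fun x => x.1 = x.2)]
    congr 1
    · refine Finset.sum_congr ?_ fun _ _ => rfl
      ext x
      simp only [Finset.mem_filter]
      constructor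
      · rintro ⟨⟨h1, _⟩, h3⟩
        exact ⟨h1, h3⟩
      · rintro ⟨h1, h3⟩
        exact ⟨⟨h1, by omega⟩, h3⟩
    · refine Finset.sum_congr ?_ fun _ _ => rfl
      ext x
      simp only [Finset.mem_filter]
      constructor
      · rintro ⟨⟨h1, h2⟩, h3⟩
        exact ⟨h1, by omega⟩
      · rintro ⟨h1, h3⟩
        exact ⟨⟨h1, by omega⟩, by omega⟩
  have hswap : ∑ x ∈ (Finset.HasAntidiagonal.antidiagonal m).filter (fun x => x.2 < x.1),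
      coeff x.1 F * coeff x.2 F
      = ∑ x ∈ (Finset.HasAntidiagonal.antidiagonal m).filter (fun x => x.1 < x.2),
          coeff x.1 F * coeff x.2 F := by
    refine Finset.sum_nbij' Prod.swap Prod.swap ?_ ?_ ?_ ?_ ?_
    · intro x hx
      rw [Finset.mem_filter, Finset.HasAntidiagonal.mem_antidiagonal] at hx ⊢
      exact ⟨by simp only [Prod.fst_swap, Prod.snd_swap]; omega, hx.2⟩
    · intro x hx
      rw [Finset.mem_filter, Finset.HasAntidiagonal.mem_antidiagonal] at hx ⊢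
      exact ⟨by simp only [Prod.fst_swap, Prod.snd_swap]; omega, hx.2⟩
    · intro x _; rfl
    · intro x _; rfl
    · intro x _
      simp only [Prod.fst_swap, Prod.snd_swap]
      ring
  have hdiag : ∑ x ∈ (Finset.HasAntidiagonal.antidiagonal m).filter (fun x => x.1 = x.2),
      coeff x.1 F * coeff x.2 F = if 2 ∣ m then coeff (m / 2) F ^ 2 else 0 := by
    split_ifs with h2
    · obtain ⟨t, rfl⟩ := h2
      have hset : (Finset.HasAntidiagonal.antidiagonal (2 * t)).filter (fun x => x.1 = x.2) = {(t, t)} := by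
        ext x
        simp only [Finset.mem_filter, Finset.HasAntidiagonal.mem_antidiagonal, Finset.mem_singleton]
        constructor
        · rintro ⟨h1, h3⟩
          ext <;> simp only <;> omega
        · rintro rfl
          exact ⟨by ring, rfl⟩
      rw [hset, Finset.sum_singleton, Nat.mul_div_cancel_left t (by norm_num : 0 < 2), pow_two]
    · apply Finset.sum_eq_zero
      intro x hx
      rw [Finset.mem_filter, Finset.HasAntidiagonal.mem_antidiagonal] at hx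
      exfalso
      exact h2 ⟨x.1, by omega⟩
  refine ⟨∑ x ∈ (Finset.HasAntidiagonal.antidiagonal m).filter (fun x => x.1 < x.2),
    coeff x.1 F * coeff x.2 F, ?_⟩
  rw [hsplit, hswap, hdiag]
  ring

/-- `U(F²) ≡ (UF)²` mod `2` for odd `p`. -/
theorem two_dvd_Uq_sq_sub {p : ℕ} (hp : Odd p) (F : R⟦X⟧) :
    (2 : R⟦X⟧) ∣ Uq p (F ^ 2) - (Uq p F) ^ 2 := by
  classical
  choose c hc using coeff_sq_eq F
  choose d hd using coeff_sq_eq (Uq p F)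
  refine ⟨PowerSeries.mk fun n => c (n * p) - d n, ?_⟩
  ext n
  have h2 : (2 : R⟦X⟧) = C (2 : R) := (map_ofNat (C (R := R)) 2).symm
  rw [map_sub, coeff_Uq, hc, hd, h2, coeff_C_mul, coeff_mk]
  have hiff : 2 ∣ n * p ↔ 2 ∣ n := by
    constructor
    · intro h
      rcases (Nat.Prime.dvd_mul Nat.prime_two).mp h with h | h
      · exact h
      · exact absurd (even_iff_two_dvd.mpr h) (Nat.not_even_iff_odd.mpr hp)
    · intro h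
      exact Dvd.dvd.mul_right h p
  by_cases hn : 2 ∣ n
  · rw [if_pos (hiff.mpr hn), if_pos hn, coeff_Uq]
    have : n * p / 2 = n / 2 * p := by
      obtain ⟨t, rfl⟩ := hn
      rw [mul_assoc, Nat.mul_div_cancel_left _ (by norm_num : 0 < 2),
        Nat.mul_div_cancel_left _ (by norm_num : 0 < 2)]
    rw [this]
    ring
  · rw [if_neg (fun h => hn (hiff.mp h)), if_neg hn]
    ring

/-! ### cancellation and bookkeeping -/

section Domain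

variable [IsDomain R] [CharZero R]

omit [IsDomain R] in
theorem natCast_ne_zero_ps {a : ℕ} (ha : a ≠ 0) : ((a : ℕ) : R⟦X⟧) ≠ 0 := by
  have h : ((a : ℕ) : R⟦X⟧) = C (a : R) := by simp
  rw [h, Ne, ← map_zero (C (R := R))]
  intro h0
  exact ha (by exact_mod_cast (PowerSeries.C_injective h0))

omit [IsDomain R] [CharZero R] in
/-- `U((1 + a H₁)²) = 1 + 2a·UH₁ + a²·U(H₁²)`. -/
theorem Uq_one_add_sq {p : ℕ} (hp : p ≠ 0) (a : ℕ) (H₁ : R⟦X⟧) :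
    Uq p ((1 + (a : R⟦X⟧) * H₁) ^ 2)
      = 1 + ((2 * a : ℕ) : R⟦X⟧) * Uq p H₁ + ((a * a : ℕ) : R⟦X⟧) * Uq p (H₁ ^ 2) := by
  have e : (1 + (a : R⟦X⟧) * H₁) ^ 2
      = 1 + ((2 * a : ℕ) : R⟦X⟧) * H₁ + ((a * a : ℕ) : R⟦X⟧) * H₁ ^ 2 := by
    push_cast; ring
  rw [e, Uq_add, Uq_add, Uq_one hp, Uq_natCast_mul, Uq_natCast_mul]

/-! ### Lemma `B₃` -/

/-- one half of Lemma `B₃`: (W4) for `G = 1 + 3H`, `UG = 1 + 3H₁` gives `H ≡ S₃` mod `3`. -/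
theorem three_dvd_sub_S3 {p m : ℕ} (hp0 : p ≠ 0) (hpm : p = 3 * m + 1) (H H₁ : R⟦X⟧)
    (hU₁ : Uq p H₁ = H)
    (hW : (p : R⟦X⟧) * (1 + ((3 : ℕ) : R⟦X⟧) * H) ^ 2 + Uq p ((1 + ((3 : ℕ) : R⟦X⟧) * H₁) ^ 2)
      = ((p : R⟦X⟧) + 1) * (1 + 240 * S3 R)) :
    ((3 : ℕ) : R⟦X⟧) ∣ H - S3 R := by
  rw [Uq_one_add_sq hp0, hU₁] at hW
  set V := Uq p (H₁ ^ 2) with hV
  have h3 : ((3 : ℕ) : R⟦X⟧) ≠ 0 := natCast_ne_zero_ps (by norm_num)
  have hpc : (p : R⟦X⟧) = 3 * (m : R⟦X⟧) + 1 := by rw [hpm]; push_cast; ring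
  refine ⟨-2 * (m : R⟦X⟧) * H - ((p : R⟦X⟧) * H ^ 2 + V) + 80 * (m : R⟦X⟧) * S3 R - H
    + 53 * S3 R, ?_⟩
  apply mul_left_cancel₀ h3
  push_cast at hW ⊢
  rw [hpc] at hW ⊢
  linear_combination hW

/-- **Lemma `B₃`.**  For a prime `p ≡ 1` mod `3`, the identities (W4) for `G = 1 + 3H` and
`UG = 1 + 3H₁` force `3` to be a unit of `R`. -/
theorem lemma_B3 {p : ℕ} (hp : p.Prime) (hp3 : p % 3 = 1) (H H₁ : R⟦X⟧)
    (hU : Uq p H = H₁) (hU₁ : Uq p H₁ = H)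
    (hW : (p : R⟦X⟧) * (1 + ((3 : ℕ) : R⟦X⟧) * H) ^ 2 + Uq p ((1 + ((3 : ℕ) : R⟦X⟧) * H₁) ^ 2)
      = ((p : R⟦X⟧) + 1) * (1 + 240 * S3 R))
    (hW₁ : (p : R⟦X⟧) * (1 + ((3 : ℕ) : R⟦X⟧) * H₁) ^ 2 + Uq p ((1 + ((3 : ℕ) : R⟦X⟧) * H) ^ 2)
      = ((p : R⟦X⟧) + 1) * (1 + 240 * S3 R)) :
    (3 : R) ∣ 1 := by
  obtain ⟨m, hm⟩ : ∃ m, p = 3 * m + 1 := ⟨p / 3, by omega⟩
  have d1 := three_dvd_sub_S3 hp.ne_zero hm H H₁ hU₁ hW
  have d2 := three_dvd_sub_S3 hp.ne_zero hm H₁ H hU hW₁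
  have d3 := natCast_dvd_Uq p 3 d1
  rw [Uq_sub, hU] at d3
  have d4 : ((3 : ℕ) : R⟦X⟧) ∣ Uq p (S3 R) - S3 R := by
    have := dvd_sub d2 d3
    have e : H₁ - S3 R - (H₁ - Uq p (S3 R)) = Uq p (S3 R) - S3 R := by ring
    rwa [e] at this
  have d5 := natCast_dvd_coeff 3 d4 1
  rw [map_sub, coeff_one_Uq_S3 hp, coeff_one_S3] at d5
  obtain ⟨c, hc⟩ := d5
  refine ⟨c - 9 * (m : R) ^ 3 - 9 * (m : R) ^ 2 - 3 * (m : R), ?_⟩
  have hpc : (p : R) = 3 * (m : R) + 1 := by rw [hm]; push_cast; ring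
  rw [hpc] at hc
  push_cast at hc
  linear_combination hc

/-! ### Lemma `C₄` -/

/-- first half-step of Lemma `C₄`: (W4) for `G = 1 + 4H`, `UG = 1 + 4H₁` gives `2 ∣ H`. -/
theorem two_dvd_of_W4 {p m : ℕ} (hpm : p = 4 * m + 1) (H H₁ : R⟦X⟧)
    (hU₁ : Uq p H₁ = H)
    (hW : (p : R⟦X⟧) * (1 + ((4 : ℕ) : R⟦X⟧) * H) ^ 2 + Uq p ((1 + ((4 : ℕ) : R⟦X⟧) * H₁) ^ 2)
      = ((p : R⟦X⟧) + 1) * (1 + 240 * S3 R)) :
    ((2 : ℕ) : R⟦X⟧) ∣ H := by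
  have hp0 : p ≠ 0 := by omega
  have hodd : Odd p := ⟨2 * m, by omega⟩
  rw [Uq_one_add_sq hp0, hU₁] at hW
  obtain ⟨K, hK⟩ := two_dvd_Uq_sq_sub hodd H₁
  rw [hU₁] at hK
  have hV : Uq p (H₁ ^ 2) = H ^ 2 + 2 * K := by rw [← hK]; ring
  rw [hV] at hW
  have h16 : ((16 : ℕ) : R⟦X⟧) ≠ 0 := natCast_ne_zero_ps (by norm_num)
  have hpc : (p : R⟦X⟧) = 4 * (m : R⟦X⟧) + 1 := by rw [hpm]; push_cast; ring
  refine ⟨-(m : R⟦X⟧) * H - (2 * (m : R⟦X⟧) + 1) * H ^ 2 - K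
    + 15 * (2 * (m : R⟦X⟧) + 1) * S3 R, ?_⟩
  apply mul_left_cancel₀ h16
  push_cast at hW ⊢
  rw [hpc] at hW
  linear_combination hW

/-- second half-step of Lemma `C₄`: (W4) for `G = 1 + 8H`, `UG = 1 + 8H₁` gives `H ≡ S₃`
mod `2`. -/
theorem two_dvd_sub_S3 {p m : ℕ} (hpm : p = 4 * m + 1) (H H₁ : R⟦X⟧)
    (hU₁ : Uq p H₁ = H)
    (hW : (p : R⟦X⟧) * (1 + ((8 : ℕ) : R⟦X⟧) * H) ^ 2 + Uq p ((1 + ((8 : ℕ) : R⟦X⟧) * H₁) ^ 2)
      = ((p : R⟦X⟧) + 1) * (1 + 240 * S3 R)) :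
    ((2 : ℕ) : R⟦X⟧) ∣ H - S3 R := by
  have hp0 : p ≠ 0 := by omega
  rw [Uq_one_add_sq hp0, hU₁] at hW
  set V := Uq p (H₁ ^ 2) with hV
  have h32 : ((32 : ℕ) : R⟦X⟧) ≠ 0 := natCast_ne_zero_ps (by norm_num)
  have hpc : (p : R⟦X⟧) = 4 * (m : R⟦X⟧) + 1 := by rw [hpm]; push_cast; ring
  refine ⟨-(m : R⟦X⟧) * H - ((p : R⟦X⟧) * H ^ 2 + V) + (15 * (m : R⟦X⟧) + 7) * S3 R, ?_⟩
  apply mul_left_cancel₀ h32
  push_cast at hW ⊢
  rw [hpc] at hW ⊢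
  linear_combination hW

/-- **Lemma `C₄`.**  For a prime `p ≡ 1` mod `4`, the identities (W4) for `G = 1 + 4H` and
`UG = 1 + 4H₁` force `2` to be a unit of `R`. -/
theorem lemma_C4 {p : ℕ} (hp : p.Prime) (hp4 : p % 4 = 1) (H H₁ : R⟦X⟧)
    (hU : Uq p H = H₁) (hU₁ : Uq p H₁ = H)
    (hW : (p : R⟦X⟧) * (1 + ((4 : ℕ) : R⟦X⟧) * H) ^ 2 + Uq p ((1 + ((4 : ℕ) : R⟦X⟧) * H₁) ^ 2)
      = ((p : R⟦X⟧) + 1) * (1 + 240 * S3 R))
    (hW₁ : (p : R⟦X⟧) * (1 + ((4 : ℕ) : R⟦X⟧) * H₁) ^ 2 + Uq p ((1 + ((4 : ℕ) : R⟦X⟧) * H) ^ 2)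
      = ((p : R⟦X⟧) + 1) * (1 + 240 * S3 R)) :
    (2 : R) ∣ 1 := by
  obtain ⟨m, hm⟩ : ∃ m, p = 4 * m + 1 := ⟨p / 4, by omega⟩
  have h2 : ((2 : ℕ) : R⟦X⟧) ≠ 0 := natCast_ne_zero_ps (by norm_num)
  obtain ⟨H', rfl⟩ := two_dvd_of_W4 hm H H₁ hU₁ hW
  obtain ⟨H₁', rfl⟩ := two_dvd_of_W4 hm H₁ (((2 : ℕ) : R⟦X⟧) * H') hU hW₁
  rw [Uq_natCast_mul] at hU hU₁
  have hU' : Uq p H' = H₁' := mul_left_cancel₀ h2 hU
  have hU₁' : Uq p H₁' = H' := mul_left_cancel₀ h2 hU₁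
  have e8 : ∀ Y : R⟦X⟧, ((4 : ℕ) : R⟦X⟧) * (((2 : ℕ) : R⟦X⟧) * Y) = ((8 : ℕ) : R⟦X⟧) * Y := by
    intro Y; push_cast; ring
  rw [e8, e8] at hW hW₁
  have d1 := two_dvd_sub_S3 hm H' H₁' hU₁' hW
  have d2 := two_dvd_sub_S3 hm H₁' H' hU' hW₁
  have d3 := natCast_dvd_Uq p 2 d1
  rw [Uq_sub, hU'] at d3
  have d4 : ((2 : ℕ) : R⟦X⟧) ∣ Uq p (S3 R) - S3 R := by
    have := dvd_sub d2 d3
    have e : H₁' - S3 R - (H₁' - Uq p (S3 R)) = Uq p (S3 R) - S3 R := by ring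
    rwa [e] at this
  have d5 := natCast_dvd_coeff 2 d4 1
  rw [map_sub, coeff_one_Uq_S3 hp, coeff_one_S3] at d5
  obtain ⟨c, hc⟩ := d5
  refine ⟨c - 32 * (m : R) ^ 3 - 24 * (m : R) ^ 2 - 6 * (m : R), ?_⟩
  have hpc : (p : R) = 4 * (m : R) + 1 := by rw [hm]; push_cast; ring
  rw [hpc] at hc
  push_cast at hc
  linear_combination hc

end Domain

/-! ### the versions over `ℂ` with coefficients in a subring -/

section Complex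

theorem Uq_map {S : Type*} [CommRing S] (f : R →+* S) (p : ℕ) (F : R⟦X⟧) :
    Uq p (PowerSeries.map f F) = PowerSeries.map f (Uq p F) := by
  ext n; simp

theorem map_S3 {S : Type*} [CommRing S] (f : R →+* S) :
    PowerSeries.map f (S3 R) = S3 S := by
  ext n
  rw [coeff_map, coeff_S3, coeff_S3, map_natCast]

/-- a series `G` with `G = 1` at `q⁰` and all higher coefficients in `a · O` is `1 + a · H`
with `H` over `O`. -/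
theorem exists_eq_one_add_mul (O : Subring ℂ) (a : ℕ) (G : ℂ⟦X⟧) (h0 : coeff 0 G = 1)
    (hint : ∀ n, 0 < n → ∃ c ∈ O, coeff n G = (a : ℂ) * c) :
    ∃ H : (O : Type)⟦X⟧, G = 1 + ((a : ℕ) : ℂ⟦X⟧) * PowerSeries.map O.subtype H := by
  classical
  choose c hc hcoe using hint
  refine ⟨PowerSeries.mk fun n => if h : 0 < n then ⟨c n h, hc n h⟩ else 0, ?_⟩
  ext n
  have ha : ((a : ℕ) : ℂ⟦X⟧) = C (a : ℂ) := by simp
  rw [map_add, ha, coeff_C_mul, coeff_map, coeff_mk, coeff_one]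
  rcases Nat.eq_zero_or_pos n with rfl | hn
  · simp [h0]
  · rw [dif_pos hn, if_neg (by omega), zero_add, hcoe n hn]
    rfl

private theorem map_injective_subtype (O : Subring ℂ) :
    Function.Injective (PowerSeries.map (O.subtype) : (O : Type)⟦X⟧ → ℂ⟦X⟧) := by
  intro F G h
  ext n
  have := congrArg (coeff n) h
  rw [coeff_map, coeff_map] at this
  exact this

/-- transport of the data of Lemmas `B₃`, `C₄` from `ℂ` to a subring. -/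
private theorem descend (O : Subring ℂ) {p : ℕ} (hp : p ≠ 0) {a : ℕ} (ha : a ≠ 0) (G G₁ : ℂ⟦X⟧)
    (hU : Uq p G = G₁) (hU₁ : Uq p G₁ = G)
    (hW : (p : ℂ⟦X⟧) * G ^ 2 + Uq p (G₁ ^ 2) = ((p : ℂ⟦X⟧) + 1) * (1 + 240 * S3 ℂ))
    (hW₁ : (p : ℂ⟦X⟧) * G₁ ^ 2 + Uq p (G ^ 2) = ((p : ℂ⟦X⟧) + 1) * (1 + 240 * S3 ℂ))
    (h0 : coeff 0 G = 1) (hint : ∀ n, 0 < n → ∃ c ∈ O, coeff n G = (a : ℂ) * c) :
    ∃ H H₁ : (O : Type)⟦X⟧, Uq p H = H₁ ∧ Uq p H₁ = H ∧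
      (p : (O : Type)⟦X⟧) * (1 + ((a : ℕ) : (O : Type)⟦X⟧) * H) ^ 2
          + Uq p ((1 + ((a : ℕ) : (O : Type)⟦X⟧) * H₁) ^ 2)
        = ((p : (O : Type)⟦X⟧) + 1) * (1 + 240 * S3 O) ∧
      (p : (O : Type)⟦X⟧) * (1 + ((a : ℕ) : (O : Type)⟦X⟧) * H₁) ^ 2
          + Uq p ((1 + ((a : ℕ) : (O : Type)⟦X⟧) * H) ^ 2)
        = ((p : (O : Type)⟦X⟧) + 1) * (1 + 240 * S3 O) := by
  obtain ⟨H, hH⟩ := exists_eq_one_add_mul O a G h0 hint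
  have hinj := map_injective_subtype O
  have hG : G = PowerSeries.map O.subtype (1 + ((a : ℕ) : (O : Type)⟦X⟧) * H) := by
    rw [hH, map_add, map_one, map_mul, map_natCast]
  have hG₁ : G₁ = PowerSeries.map O.subtype (1 + ((a : ℕ) : (O : Type)⟦X⟧) * Uq p H) := by
    rw [← hU, hG, Uq_map, Uq_add, Uq_one hp, Uq_natCast_mul]
  have hUU : Uq p (Uq p H) = H := by
    have h1 : PowerSeries.map O.subtype (1 + ((a : ℕ) : (O : Type)⟦X⟧) * Uq p (Uq p H))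
        = PowerSeries.map O.subtype (1 + ((a : ℕ) : (O : Type)⟦X⟧) * H) := by
      rw [← hG, ← hU₁, hG₁, Uq_map, Uq_add, Uq_one hp, Uq_natCast_mul]
    have h2 := hinj h1
    -- cancel `1 +` and the factor `a`
    have h3 : ((a : ℕ) : (O : Type)⟦X⟧) * Uq p (Uq p H) = ((a : ℕ) : (O : Type)⟦X⟧) * H :=
      add_left_cancel h2
    exact mul_left_cancel₀ (natCast_ne_zero_ps ha) h3
  refine ⟨H, Uq p H, rfl, hUU, hinj ?_, hinj ?_⟩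
  · rw [map_add, map_mul, map_mul, map_add, map_natCast, map_pow, ← hG, ← Uq_map, map_pow, ← hG₁,
      map_one, map_add, map_one, map_mul, map_S3, hW, map_ofNat]
  · rw [map_add, map_mul, map_mul, map_add, map_natCast, map_pow, ← hG₁, ← Uq_map, map_pow, ← hG,
      map_one, map_add, map_one, map_mul, map_S3, hW₁, map_ofNat]

/-- **Lemma `B₃` over `ℂ`.**  `G`, `G₁ = U_p G` are power series over `ℂ` with `U_p G₁ = G`,
satisfying the two trace identities `(W4)`, with `G ≡ 1 mod 3·O` for a subring `O ⊆ ℂ`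
(coefficientwise).  If `p ≡ 1 mod 3` then `3` is invertible in `O`. -/
theorem lemma_B3_complex (O : Subring ℂ) {p : ℕ} (hp : p.Prime) (hp3 : p % 3 = 1) (G G₁ : ℂ⟦X⟧)
    (hU : Uq p G = G₁) (hU₁ : Uq p G₁ = G)
    (hW : (p : ℂ⟦X⟧) * G ^ 2 + Uq p (G₁ ^ 2) = ((p : ℂ⟦X⟧) + 1) * (1 + 240 * S3 ℂ))
    (hW₁ : (p : ℂ⟦X⟧) * G₁ ^ 2 + Uq p (G ^ 2) = ((p : ℂ⟦X⟧) + 1) * (1 + 240 * S3 ℂ))
    (h0 : coeff 0 G = 1) (hint : ∀ n, 0 < n → ∃ c ∈ O, coeff n G = 3 * c) :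
    (3 : ℂ)⁻¹ ∈ O := by
  have hint' : ∀ n, 0 < n → ∃ c ∈ O, coeff n G = ((3 : ℕ) : ℂ) * c := by
    intro n hn
    obtain ⟨c, hc, h⟩ := hint n hn
    exact ⟨c, hc, by rw [h]; norm_num⟩
  obtain ⟨H, H₁, h1, h2, h3, h4⟩ :=
    descend O hp.ne_zero (by norm_num : (3 : ℕ) ≠ 0) G G₁ hU hU₁ hW hW₁ h0 hint'
  obtain ⟨c, hc⟩ := lemma_B3 hp hp3 H H₁ h1 h2 h3 h4
  have h5 : (3 : ℂ) * (c : ℂ) = 1 := by
    have := congrArg (O.subtype) hc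
    rw [map_mul, map_one, map_ofNat] at this
    exact this.symm
  have h6 : (3 : ℂ)⁻¹ = c := inv_eq_of_mul_eq_one_right h5
  rw [h6]; exact c.2

/-- **Lemma `C₄` over `ℂ`.**  As `lemma_B3_complex`, with `G ≡ 1 mod 4·O` and `p ≡ 1 mod 4`:
then `2` is invertible in `O`. -/
theorem lemma_C4_complex (O : Subring ℂ) {p : ℕ} (hp : p.Prime) (hp4 : p % 4 = 1) (G G₁ : ℂ⟦X⟧)
    (hU : Uq p G = G₁) (hU₁ : Uq p G₁ = G)
    (hW : (p : ℂ⟦X⟧) * G ^ 2 + Uq p (G₁ ^ 2) = ((p : ℂ⟦X⟧) + 1) * (1 + 240 * S3 ℂ))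
    (hW₁ : (p : ℂ⟦X⟧) * G₁ ^ 2 + Uq p (G ^ 2) = ((p : ℂ⟦X⟧) + 1) * (1 + 240 * S3 ℂ))
    (h0 : coeff 0 G = 1) (hint : ∀ n, 0 < n → ∃ c ∈ O, coeff n G = 4 * c) :
    (2 : ℂ)⁻¹ ∈ O := by
  have hint' : ∀ n, 0 < n → ∃ c ∈ O, coeff n G = ((4 : ℕ) : ℂ) * c := by
    intro n hn
    obtain ⟨c, hc, h⟩ := hint n hn
    exact ⟨c, hc, by rw [h]; norm_num⟩
  obtain ⟨H, H₁, h1, h2, h3, h4⟩ :=
    descend O hp.ne_zero (by norm_num : (4 : ℕ) ≠ 0) G G₁ hU hU₁ hW hW₁ h0 hint'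
  obtain ⟨c, hc⟩ := lemma_C4 hp hp4 H H₁ h1 h2 h3 h4
  have h5 : (2 : ℂ) * (c : ℂ) = 1 := by
    have := congrArg (O.subtype) hc
    rw [map_mul, map_one, map_ofNat] at this
    exact this.symm
  have h6 : (2 : ℂ)⁻¹ = c := inv_eq_of_mul_eq_one_right h5
  rw [h6]; exact c.2

/-- the `q`-expansion of `E₄`, as a power series identity. -/
theorem eq_one_add_S3 (E : ℂ⟦X⟧)
    (hE : ∀ n, coeff n E = if n = 0 then 1 else 240 * ((ArithmeticFunction.sigma 3 n : ℕ) : ℂ)) :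
    E = 1 + 240 * S3 ℂ := by
  ext n
  have h240 : (240 : ℂ⟦X⟧) = C (240 : ℂ) := (map_ofNat (C (R := ℂ)) 240).symm
  rw [hE, map_add, h240, coeff_C_mul, coeff_S3, coeff_one]
  split_ifs with h
  · subst h; simp
  · simp

/-- The hypotheses of Lemmas `B₃`/`C₄` in the shape produced by the trace identity `(W4)`:
from `U_p U_p G = G` and `(W4)` for `G` and for `U_p G` (with `E` the `q`-expansion of `E₄`). -/
private theorem hyps_of_W4 {p : ℕ} (G E : ℂ⟦X⟧)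
    (hE : ∀ n, coeff n E = if n = 0 then 1 else 240 * ((ArithmeticFunction.sigma 3 n : ℕ) : ℂ))
    (hUU : Uq p (Uq p G) = G)
    (hW : (p : ℂ) • G ^ 2 + Uq p ((Uq p G) ^ 2) = (((p : ℂ) + 1) * (coeff 0 G) ^ 2) • E)
    (hW₁ : (p : ℂ) • (Uq p G) ^ 2 + Uq p ((Uq p (Uq p G)) ^ 2)
        = (((p : ℂ) + 1) * (coeff 0 (Uq p G)) ^ 2) • E)
    (h0 : coeff 0 G = 1) :
    (p : ℂ⟦X⟧) * G ^ 2 + Uq p ((Uq p G) ^ 2) = ((p : ℂ⟦X⟧) + 1) * (1 + 240 * S3 ℂ) ∧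
    (p : ℂ⟦X⟧) * (Uq p G) ^ 2 + Uq p (G ^ 2) = ((p : ℂ⟦X⟧) + 1) * (1 + 240 * S3 ℂ) := by
  have hE' := eq_one_add_S3 E hE
  have h0' : coeff 0 (Uq p G) = 1 := by rw [coeff_Uq, zero_mul, h0]
  have hpC : ((p : ℕ) : ℂ⟦X⟧) = C (p : ℂ) := by simp
  have hp1 : ((p : ℂ⟦X⟧) + 1) = C ((p : ℂ) + 1) := by rw [map_add, map_one, hpC]
  rw [h0, one_pow, mul_one, PowerSeries.smul_eq_C_mul, PowerSeries.smul_eq_C_mul, hE'] at hW
  rw [h0', one_pow, mul_one, PowerSeries.smul_eq_C_mul, PowerSeries.smul_eq_C_mul, hE', hUU] at hW₁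
  rw [hp1, hpC]
  exact ⟨hW, hW₁⟩

/-- **Lemma `B₃`, in the shape of `(W4)`** (`E` = the `q`-expansion of `E₄`, `G` = the
`q`-expansion of a weight-2 form of level `Γ₀(p)` with `U_p² = 1`). -/
theorem lemma_B3_of_W4 (O : Subring ℂ) {p : ℕ} (hp : p.Prime) (hp3 : p % 3 = 1) (G E : ℂ⟦X⟧)
    (hE : ∀ n, coeff n E = if n = 0 then 1 else 240 * ((ArithmeticFunction.sigma 3 n : ℕ) : ℂ))
    (hUU : Uq p (Uq p G) = G)
    (hW : (p : ℂ) • G ^ 2 + Uq p ((Uq p G) ^ 2) = (((p : ℂ) + 1) * (coeff 0 G) ^ 2) • E)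
    (hW₁ : (p : ℂ) • (Uq p G) ^ 2 + Uq p ((Uq p (Uq p G)) ^ 2)
        = (((p : ℂ) + 1) * (coeff 0 (Uq p G)) ^ 2) • E)
    (h0 : coeff 0 G = 1) (hint : ∀ n, 0 < n → ∃ c ∈ O, coeff n G = 3 * c) :
    (3 : ℂ)⁻¹ ∈ O := by
  obtain ⟨h1, h2⟩ := hyps_of_W4 G E hE hUU hW hW₁ h0
  exact lemma_B3_complex O hp hp3 G (Uq p G) rfl hUU h1 h2 h0 hint

/-- **Lemma `C₄`, in the shape of `(W4)`.** -/
theorem lemma_C4_of_W4 (O : Subring ℂ) {p : ℕ} (hp : p.Prime) (hp4 : p % 4 = 1) (G E : ℂ⟦X⟧)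
    (hE : ∀ n, coeff n E = if n = 0 then 1 else 240 * ((ArithmeticFunction.sigma 3 n : ℕ) : ℂ))
    (hUU : Uq p (Uq p G) = G)
    (hW : (p : ℂ) • G ^ 2 + Uq p ((Uq p G) ^ 2) = (((p : ℂ) + 1) * (coeff 0 G) ^ 2) • E)
    (hW₁ : (p : ℂ) • (Uq p G) ^ 2 + Uq p ((Uq p (Uq p G)) ^ 2)
        = (((p : ℂ) + 1) * (coeff 0 (Uq p G)) ^ 2) • E)
    (h0 : coeff 0 G = 1) (hint : ∀ n, 0 < n → ∃ c ∈ O, coeff n G = 4 * c) :
    (2 : ℂ)⁻¹ ∈ O := by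
  obtain ⟨h1, h2⟩ := hyps_of_W4 G E hE hUU hW hW₁ h0
  exact lemma_C4_complex O hp hp4 G (Uq p G) rfl hUU h1 h2 h0 hint

end Complex

end Fermat.Agent.S16.QSeries
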