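import Fermat.Agent.S16_TraceFinal
import Fermat.Agent.S16_QSeries
import Fermat.Agent.S16_Defs
import Fermat.Agent.S16_IntRing

/-!
# S16: Lemmas `B₃` and `C₄` (final form)

* `noCongOne_three`: for a prime `p ≡ 1 mod 3` no form `G ∈ M₂(Γ₀(p))` is `≡ 1 mod 3`.
* `noCongOne_four`: for a prime `p ≡ 1 mod 4` no form `G ∈ M₂(Γ₀(p))` is `≡ 1 mod 4`.

Both follow from the trace identity `(W4)` (`Trace.W4`) and `U_p² = 1` by the power series
lemmas `QSeries.lemma_B3_of_W4`, `QSeries.lemma_C4_of_W4`, over the ring `IntRing.O ℓ` of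
`ℓ`-integral algebraic numbers.
-/

set_option autoImplicit false

open UpperHalfPlane CongruenceSubgroup ModularForm
open scoped MatrixGroups ModularForm Manifold

noncomputable section

namespace Fermat.Agent.S16.B3C4

open Fermat.Agent.S16Lib Fermat.Agent.S16.QSeries Fermat.Agent.S16.IntRing

/-- the `q`-expansion of `E₄`. -/
theorem E4_coeff (n : ℕ) :
    PowerSeries.coeff n (qExpansion 1 E₄) =
      if n = 0 then 1 else 240 * ((ArithmeticFunction.sigma 3 n : ℕ) : ℂ) := by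
  rw [EisensteinSeries.E_qExpansion_coeff (by norm_num : 3 ≤ 4) ⟨2, rfl⟩ n]
  rcases eq_or_ne n 0 with rfl | hn
  · simp
  · rw [if_neg hn, if_neg hn, show bernoulli 4 = -1 / 30 by decide +kernel]
    norm_num

variable (p : ℕ) [Fact p.Prime]

/-- `(W4)` for `U_p G`, on the `q`-expansion of `G`. -/
theorem W4_heckeU (G : ModularForm (Gamma0 p) 2) :
    (p : ℂ) • (Uq p (qExpansion 1 G)) ^ 2 + Uq p ((Uq p (Uq p (qExpansion 1 G))) ^ 2)
      = (((p : ℂ) + 1) * (PowerSeries.coeff 0 (Uq p (qExpansion 1 G))) ^ 2) •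
        qExpansion 1 E₄ := by
  have : NeZero p := ⟨(Fact.out : p.Prime).ne_zero⟩
  have h := Trace.W4 (heckeULin 2 (dvd_refl p) G)
  rwa [coe_heckeULin_apply, Trace.qExpansion_heckeU] at h

/-- **Lemma `B₃`**: for `p ≡ 1 mod 3` no `G ∈ M₂(Γ₀(p))` is `≡ 1 mod 3`. -/
theorem noCongOne_three (h3 : p % 3 = 1) : NoCongOne p 3 1 := by
  rintro G ⟨h0, s, hs, hk⟩
  have : Fact (Nat.Prime 3) := ⟨by norm_num⟩
  have hint : ∀ n, 0 < n → ∃ c ∈ O 3, PowerSeries.coeff n (qExpansion 1 G) = 3 * c := by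
    intro n hn
    obtain ⟨b, hb⟩ := hk n hn
    obtain ⟨c, hc, h⟩ := exists_mem_O_of_mul_eq (ℓ := 3) hs hb
    exact ⟨c, hc, by rw [h]; norm_num⟩
  have h := lemma_B3_of_W4 (O 3) (Fact.out : p.Prime) h3 (qExpansion 1 G) (qExpansion 1 E₄)
    E4_coeff (Trace.Uq_Uq_qExpansion G) (Trace.W4 G) (W4_heckeU p G) h0 hint
  exact inv_prime_not_mem_O (ℓ := 3) (by simpa using h)

/-- **Lemma `C₄`**: for `p ≡ 1 mod 4` no `G ∈ M₂(Γ₀(p))` is `≡ 1 mod 4`. -/
theorem noCongOne_four (h4 : p % 4 = 1) : NoCongOne p 2 2 := by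
  rintro G ⟨h0, s, hs, hk⟩
  have : Fact (Nat.Prime 2) := ⟨by norm_num⟩
  have hint : ∀ n, 0 < n → ∃ c ∈ O 2, PowerSeries.coeff n (qExpansion 1 G) = 4 * c := by
    intro n hn
    obtain ⟨b, hb⟩ := hk n hn
    obtain ⟨c, hc, h⟩ := exists_mem_O_of_mul_eq (ℓ := 2) hs hb
    exact ⟨c, hc, by rw [h]; norm_num⟩
  have h := lemma_C4_of_W4 (O 2) (Fact.out : p.Prime) h4 (qExpansion 1 G) (qExpansion 1 E₄)
    E4_coeff (Trace.Uq_Uq_qExpansion G) (Trace.W4 G) (W4_heckeU p G) h0 hint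
  exact inv_prime_not_mem_O (ℓ := 2) (by simpa using h)

end Fermat.Agent.S16.B3C4
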