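import Mathlib

/-!
# S16 (U9/U4): `q`-expansions of products, dilates and translates

`IsQ H`: the function `H : ℍ → ℂ` is 1-periodic, holomorphic and bounded at `i∞` (so it has a
`q`-expansion `qExpansion 1 H`).  The class is closed under `+`, `*`, `•`, finite products,
`z ↦ H(pz)` and `z ↦ H(z + r)`, and the `q`-expansions behave as expected.

Main result `qExpansion_expand_eq_prod`: if `Φ(pz) = ∏_j H_j(z)` then
`(qExpansion 1 Φ).expand p = ∏_j qExpansion 1 (H_j)`.
-/

set_option autoImplicit false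

open UpperHalfPlane Filter Function Complex
open scoped ModularForm MatrixGroups Manifold Topology Real

namespace Fermat.Agent.S16.Norm

local notation "𝕢" => Periodic.qParam

/-- "`H` is given by a `q`-series": 1-periodic, holomorphic, bounded at `i∞`. -/
structure IsQ (H : ℍ → ℂ) : Prop where
  periodic : Function.Periodic (H ∘ ofComplex) 1
  holo : MDiff H
  bdd : IsBoundedAtImInfty H

/-- 1-periodicity of `H ∘ ofComplex` in terms of points of `ℍ`. -/
theorem periodic_of_forall {H : ℍ → ℂ} (h : ∀ z w : ℍ, (w : ℂ) = z + 1 → H w = H z) :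
    Function.Periodic (H ∘ ofComplex) 1 := by
  intro x
  by_cases hx : 0 < x.im
  · have hx1 : 0 < (x + 1).im := by simpa using hx
    simp only [comp_apply, ofComplex_apply_of_im_pos hx1, ofComplex_apply_of_im_pos hx]
    exact h _ _ rfl
  · have hx' : x.im ≤ 0 := not_lt.mp hx
    have hx1 : (x + 1).im ≤ 0 := by simpa using hx'
    simp [ofComplex_apply_of_im_nonpos hx1, ofComplex_apply_of_im_nonpos hx']

namespace IsQ

variable {H H' : ℍ → ℂ}

theorem apply_add_nat (h : IsQ H) (n : ℕ) (z w : ℍ) (hw : (w : ℂ) = z + n) : H w = H z := by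
  have h1 := h.periodic.nat_mul n (z : ℂ)
  simp only [comp_apply, mul_one, ofComplex_apply] at h1
  rw [← hw, ofComplex_apply] at h1
  exact h1

theorem analyticAt (h : IsQ H) : AnalyticAt ℂ (cuspFunction 1 H) 0 :=
  UpperHalfPlane.analyticAt_cuspFunction_zero one_pos h.periodic h.holo h.bdd

theorem hasSum (h : IsQ H) (τ : ℍ) :
    HasSum (fun m : ℕ => (qExpansion 1 H).coeff m • 𝕢 1 τ ^ m) (H τ) :=
  UpperHalfPlane.hasSum_qExpansion one_pos h.periodic h.holo h.bdd τ

theorem add (h : IsQ H) (h' : IsQ H') : IsQ (H + H') :=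
  ⟨h.periodic.add h'.periodic, h.holo.add h'.holo, h.bdd.add h'.bdd⟩

theorem mul (h : IsQ H) (h' : IsQ H') : IsQ (H * H') :=
  ⟨h.periodic.mul h'.periodic, h.holo.mul h'.holo, h.bdd.mul h'.bdd⟩

theorem const_smul (h : IsQ H) (c : ℂ) : IsQ (c • H) :=
  ⟨h.periodic.smul c, h.holo.const_smul c, h.bdd.const_smul_left c⟩

theorem one : IsQ (1 : ℍ → ℂ) :=
  ⟨fun _ => rfl, mdifferentiable_const, Filter.const_boundedAtFilter _ _⟩

theorem prod {ι : Type*} (s : Finset ι) (G : ι → ℍ → ℂ) (hG : ∀ j ∈ s, IsQ (G j)) :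
    IsQ (∏ j ∈ s, G j) := by
  classical
  induction s using Finset.induction_on with
  | empty => simpa using one
  | insert a s ha ih =>
    rw [Finset.prod_insert ha]
    exact (hG a (Finset.mem_insert_self a s)).mul
      (ih fun j hj => hG j (Finset.mem_insert_of_mem hj))

end IsQ

/-- a modular form of a level with strict period `1` is given by a `q`-series. -/
theorem IsQ.of_modularForm {Γ : Subgroup (GL (Fin 2) ℝ)} {k : ℤ} (f : ModularForm Γ k)
    (hΓ : (1 : ℝ) ∈ Γ.strictPeriods) : IsQ f := by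
  have : Fact (IsCusp OnePoint.infty Γ) := ⟨Γ.isCusp_of_mem_strictPeriods one_pos hΓ⟩
  exact ⟨SlashInvariantFormClass.periodic_comp_ofComplex f hΓ, ModularFormClass.holo f,
    ModularFormClass.bdd_at_infty f⟩

/-- the dilation `z ↦ p z` of the upper half plane. -/
noncomputable def dil (p : ℕ) (hp : 0 < p) (z : ℍ) : ℍ :=
  ⟨(p : ℂ) * z, by
    have h1 : (0 : ℝ) < p := by exact_mod_cast hp
    simpa using mul_pos h1 z.im_pos⟩

@[simp] theorem coe_dil (p : ℕ) (hp : 0 < p) (z : ℍ) : ((dil p hp z : ℍ) : ℂ) = (p : ℂ) * z := rfl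

theorem im_dil (p : ℕ) (hp : 0 < p) (z : ℍ) : (dil p hp z).im = p * z.im := by
  show ((p : ℂ) * (z : ℂ)).im = _
  simp

theorem qParam_dil (p : ℕ) (hp : 0 < p) (z : ℍ) : 𝕢 1 (dil p hp z) = 𝕢 1 z ^ p := by
  simp only [Periodic.qParam, coe_dil, ← Complex.exp_nat_mul]
  congr 1
  push_cast
  ring

theorem qParam_vadd (r : ℝ) (z : ℍ) :
    𝕢 1 ((r +ᵥ z : ℍ) : ℂ) = cexp (2 * π * Complex.I * r) * 𝕢 1 z := by
  simp only [Periodic.qParam, coe_vadd, ← Complex.exp_add]
  congr 1
  push_cast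
  ring

theorem IsQ.comp_dil {H : ℍ → ℂ} (h : IsQ H) (p : ℕ) (hp : 0 < p) :
    IsQ (fun z => H (dil p hp z)) := by
  refine ⟨periodic_of_forall fun z w hw => ?_, ?_, ?_⟩
  · refine h.apply_add_nat p _ _ ?_
    rw [coe_dil, coe_dil, hw]
    ring
  · rw [UpperHalfPlane.mdifferentiable_iff]
    have h1 : DifferentiableOn ℂ (H ∘ ofComplex) {z | 0 < z.im} :=
      UpperHalfPlane.mdifferentiable_iff.mp h.holo
    have h2 : DifferentiableOn ℂ (fun x : ℂ => (H ∘ ofComplex) ((p : ℂ) * x)) {z | 0 < z.im} := by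
      refine h1.comp (differentiableOn_id.const_mul _) ?_
      intro x hx
      have h1 : (0 : ℝ) < p := by exact_mod_cast hp
      simpa using mul_pos h1 hx
    refine h2.congr ?_
    intro x hx
    have hx' : 0 < x.im := hx
    have h1 : (0 : ℝ) < p := by exact_mod_cast hp
    have hpx : 0 < ((p : ℂ) * x).im := by simpa using mul_pos h1 hx'
    simp only [comp_apply, ofComplex_apply_of_im_pos hx', ofComplex_apply_of_im_pos hpx]
    rfl
  · obtain ⟨M, A, hMA⟩ := isBoundedAtImInfty_iff.mp h.bdd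
    refine isBoundedAtImInfty_iff.mpr ⟨M, max A 0, fun z hz => hMA _ ?_⟩
    rw [im_dil]
    have h1 : (1 : ℝ) ≤ p := by exact_mod_cast hp
    have h2 : A ≤ z.im := le_trans (le_max_left _ _) hz
    have h3 : 0 < z.im := z.im_pos
    nlinarith

theorem IsQ.comp_vadd {H : ℍ → ℂ} (h : IsQ H) (r : ℝ) :
    IsQ (fun z => H (r +ᵥ z)) := by
  refine ⟨periodic_of_forall fun z w hw => ?_, ?_, ?_⟩
  · refine h.apply_add_nat 1 _ _ ?_
    rw [coe_vadd, coe_vadd, hw]
    push_cast
    ring
  · rw [UpperHalfPlane.mdifferentiable_iff]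
    have h1 : DifferentiableOn ℂ (H ∘ ofComplex) {z | 0 < z.im} :=
      UpperHalfPlane.mdifferentiable_iff.mp h.holo
    have h2 : DifferentiableOn ℂ (fun x : ℂ => (H ∘ ofComplex) ((r : ℂ) + x)) {z | 0 < z.im} := by
      refine h1.comp (differentiableOn_id.const_add _) ?_
      intro x hx
      have hx' : 0 < x.im := hx
      simpa using hx'
    refine h2.congr ?_
    intro x hx
    have hx' : 0 < x.im := hx
    have hpx : 0 < ((r : ℂ) + x).im := by simpa using hx'
    simp only [comp_apply, ofComplex_apply_of_im_pos hx', ofComplex_apply_of_im_pos hpx]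
    congr 1
  · obtain ⟨M, A, hMA⟩ := isBoundedAtImInfty_iff.mp h.bdd
    refine isBoundedAtImInfty_iff.mpr ⟨M, A, fun z hz => hMA _ ?_⟩
    rw [UpperHalfPlane.vadd_im]
    exact hz

section QExp

variable {H H' : ℍ → ℂ}

theorem qExpansion_add' (h : IsQ H) (h' : IsQ H') :
    qExpansion 1 (H + H') = qExpansion 1 H + qExpansion 1 H' :=
  UpperHalfPlane.qExpansion_add h.analyticAt h'.analyticAt

theorem qExpansion_mul' (h : IsQ H) (h' : IsQ H') :
    qExpansion 1 (H * H') = qExpansion 1 H * qExpansion 1 H' :=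
  UpperHalfPlane.qExpansion_mul h.analyticAt h'.analyticAt

theorem qExpansion_smul' (h : IsQ H) (c : ℂ) :
    qExpansion 1 (c • H) = c • qExpansion 1 H :=
  UpperHalfPlane.qExpansion_smul h.analyticAt c

theorem qExpansion_prod {ι : Type*} (s : Finset ι) (G : ι → ℍ → ℂ) (hG : ∀ j ∈ s, IsQ (G j)) :
    qExpansion 1 (∏ j ∈ s, G j) = ∏ j ∈ s, qExpansion 1 (G j) := by
  classical
  induction s using Finset.induction_on with
  | empty => simp [UpperHalfPlane.qExpansion_one]
  | insert a s ha ih =>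
    rw [Finset.prod_insert ha, Finset.prod_insert ha,
      qExpansion_mul' (hG a (Finset.mem_insert_self a s))
        (IsQ.prod s G fun j hj => hG j (Finset.mem_insert_of_mem hj)),
      ih fun j hj => hG j (Finset.mem_insert_of_mem hj)]

/-- uniqueness of `q`-expansions, for `IsQ` functions. -/
theorem coeff_eq_of_hasSum (h : IsQ H) (c : ℕ → ℂ)
    (hc : ∀ τ : ℍ, HasSum (fun m => c m • 𝕢 1 τ ^ m) (H τ)) (m : ℕ) :
    (qExpansion 1 H).coeff m = c m := by
  let _ : FunLike (ℍ → ℂ) ℍ ℂ := ⟨fun f => f, fun _ _ h => h⟩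
  exact (UpperHalfPlane.qExpansion_coeff_unique (F := ℍ → ℂ) H one_pos h.analyticAt hc m).symm

/-- the `q`-expansion of `z ↦ H(pz)`. -/
theorem qExpansion_comp_dil (h : IsQ H) (p : ℕ) (hp : 0 < p) :
    qExpansion 1 (fun z => H (dil p hp z)) = (qExpansion 1 H).expand p hp.ne' := by
  ext m
  refine coeff_eq_of_hasSum (h.comp_dil p hp)
    (fun m => ((qExpansion 1 H).expand p hp.ne').coeff m) (fun τ => ?_) m
  have h1 := h.hasSum (dil p hp τ)
  rw [qParam_dil] at h1
  have hinj : Function.Injective (fun n : ℕ => p * n) := mul_right_injective₀ hp.ne'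
  refine (hinj.hasSum_iff ?_).mp ?_
  · intro x hx
    have : ¬ p ∣ x := fun ⟨n, hn⟩ => hx ⟨n, hn.symm⟩
    simp [PowerSeries.coeff_expand_of_not_dvd p hp.ne' _ this]
  · convert h1 using 2 with n
    simp [PowerSeries.coeff_expand_mul, pow_mul]

/-- the `q`-expansion of `z ↦ H(z + r)`. -/
theorem qExpansion_comp_vadd (h : IsQ H) (r : ℝ) (m : ℕ) :
    (qExpansion 1 (fun z => H (r +ᵥ z))).coeff m
      = cexp (2 * π * Complex.I * r) ^ m * (qExpansion 1 H).coeff m := by
  refine coeff_eq_of_hasSum (h.comp_vadd r)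
    (fun m => cexp (2 * π * Complex.I * r) ^ m * (qExpansion 1 H).coeff m) (fun τ => ?_) m
  have h1 := h.hasSum (r +ᵥ τ)
  rw [qParam_vadd] at h1
  convert h1 using 2 with n
  simp only [smul_eq_mul, mul_pow]
  ring

/-- **`q`-expansion of a norm**: if `Φ(pz) = ∏_j H_j(z)` then the `q`-expansion of `Φ`, expanded
by `p`, is the product of the `q`-expansions of the `H_j`. -/
theorem qExpansion_expand_eq_prod {ι : Type*} (s : Finset ι) (p : ℕ) (hp : 0 < p) {Φ : ℍ → ℂ}
    (hΦ : IsQ Φ) (G : ι → ℍ → ℂ) (hG : ∀ j ∈ s, IsQ (G j))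
    (h : ∀ z : ℍ, Φ (dil p hp z) = ∏ j ∈ s, G j z) :
    (qExpansion 1 Φ).expand p hp.ne' = ∏ j ∈ s, qExpansion 1 (G j) := by
  rw [← qExpansion_comp_dil hΦ p hp, ← qExpansion_prod s G hG]
  congr 1
  funext z
  rw [h z, Finset.prod_apply]

end QExp

end Fermat.Agent.S16.Norm
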