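import Mathlib
import Fermat.Prelude.Def_ModularForm_HeckeOperator
import Fermat.Prelude.Thm_CongruenceSubgroup_one_mem_strictPeriods_Gamma0
import Fermat.Prelude.Thm_UpperHalfPlane_qCoeff_heckeU
import Fermat.Prelude.Thm_ModularForm_periodic_heckeU_comp_ofComplex
import Fermat.Prelude.Thm_ModularForm_mdifferentiable_heckeU
import Fermat.Prelude.Thm_ModularForm_isBoundedAtImInfty_heckeU
import Fermat.Agent.S16_QProd

/-!
# S16 (U9/U4): `q`-expansions of the conjugates `z ↦ (G|ST^i)(pz)` of a weight-2 form on `Γ₀(p)`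

From (K1) `(G ∣[2] S T^i)(z) = -p⁻¹ (U_p G)((z+i)/p)` (a hypothesis here; proved in
`S16_TraceMain`): `conjFun p hp G i = z ↦ (G ∣[2] S T^i)(pz)` is 1-periodic, holomorphic, bounded
at `i∞`, with `q`-expansion coefficients `-p⁻¹ ζ_p^{in} a_{np}(G)`.
-/

set_option autoImplicit false

open UpperHalfPlane Filter Function Complex CongruenceSubgroup
open scoped ModularForm MatrixGroups Manifold Topology Real

namespace Fermat.Agent.S16.Norm

/-- forms on `Γ₀(N)` are given by `q`-series. -/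
theorem isQ_Gamma0 {N : ℕ} {k : ℤ} (f : ModularForm (Gamma0 N) k) : IsQ f :=
  IsQ.of_modularForm f (CongruenceSubgroup.one_mem_strictPeriods_Gamma0 N)

theorem isQ_heckeU {H : ℍ → ℂ} (h : IsQ H) (k : ℤ) (p : ℕ) : IsQ (ModularForm.heckeU k p H) :=
  ⟨ModularForm.periodic_heckeU_comp_ofComplex h.periodic k p,
    ModularForm.mdifferentiable_heckeU h.holo k p,
    ModularForm.isBoundedAtImInfty_heckeU h.bdd k p⟩

theorem qExpansion_heckeU_coeff {H : ℍ → ℂ} (h : IsQ H) (k : ℤ) {p : ℕ} (hp : p ≠ 0) (n : ℕ) :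
    (qExpansion 1 (ModularForm.heckeU k p H)).coeff n = (qExpansion 1 H).coeff (n * p) :=
  UpperHalfPlane.qCoeff_heckeU h.periodic h.holo h.bdd k hp n

/-- the conjugate `z ↦ (G ∣[2] S T^i)(p z)`. -/
noncomputable def conjFun (p : ℕ) (hp : 0 < p) (G : ℍ → ℂ) (i : ℕ) : ℍ → ℂ :=
  fun z => (G ∣[(2 : ℤ)] (ModularGroup.S * ModularGroup.T ^ (i : ℤ))) (dil p hp z)

theorem heckeMatrix_smul_dil (p : ℕ) (hp : 0 < p) (i : ℕ) (z : ℍ) :
    ModularForm.heckeMatrix p i • dil p hp z = (((i : ℝ) / p : ℝ) +ᵥ z : ℍ) := by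
  apply UpperHalfPlane.ext
  rw [ModularForm.coe_heckeMatrix_smul hp.ne', coe_dil, coe_vadd]
  have hp' : (p : ℂ) ≠ 0 := by exact_mod_cast hp.ne'
  push_cast
  field_simp
  ring

section

variable {p : ℕ} (hp : 0 < p) (G : ℍ → ℂ)
  (hK1 : ∀ (i : ℕ) (z : ℍ), (G ∣[(2 : ℤ)] (ModularGroup.S * ModularGroup.T ^ (i : ℤ))) z
    = -(p : ℂ)⁻¹ * ModularForm.heckeU 2 p G (ModularForm.heckeMatrix p i • z))

include hK1

theorem conjFun_eq (i : ℕ) :
    conjFun p hp G i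
      = (-(p : ℂ)⁻¹) • (fun z : ℍ => ModularForm.heckeU 2 p G (((i : ℝ) / p : ℝ) +ᵥ z)) := by
  funext z
  show (G ∣[(2 : ℤ)] (ModularGroup.S * ModularGroup.T ^ (i : ℤ))) (dil p hp z) = _
  rw [hK1, heckeMatrix_smul_dil]
  rfl

theorem isQ_conj (hG : IsQ G) (i : ℕ) : IsQ (conjFun p hp G i) := by
  rw [conjFun_eq hp G hK1]
  exact ((isQ_heckeU hG 2 p).comp_vadd _).const_smul _

theorem qExpansion_conj_coeff (hG : IsQ G) (i n : ℕ) :
    (qExpansion 1 (conjFun p hp G i)).coeff n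
      = -(p : ℂ)⁻¹ * (cexp (2 * π * Complex.I * (((i : ℝ) / p : ℝ) : ℂ)) ^ n
          * (qExpansion 1 G).coeff (n * p)) := by
  rw [conjFun_eq hp G hK1, qExpansion_smul' ((isQ_heckeU hG 2 p).comp_vadd _)]
  rw [PowerSeries.coeff_smul, qExpansion_comp_vadd (isQ_heckeU hG 2 p),
    qExpansion_heckeU_coeff hG 2 hp.ne']
  rfl

end

end Fermat.Agent.S16.Norm
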