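import Mathlib
import Fermat.Prelude.Def_ModularForm_HeckeOperator
import Fermat.Prelude.Thm_CongruenceSubgroup_one_mem_strictPeriods_Gamma0

set_option autoImplicit false

open UpperHalfPlane CongruenceSubgroup ModularForm
open scoped MatrixGroups ModularForm Manifold

namespace Fermat.Agent.S23.DeltaN

local notation "Δ" => ModularForm.discriminant

theorem mapGL_val (γ : SL(2, ℤ)) :
    ((Matrix.SpecialLinearGroup.mapGL ℝ γ : GL (Fin 2) ℝ) : Matrix (Fin 2) (Fin 2) ℝ) =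
      (γ : Matrix (Fin 2) (Fin 2) ℤ).map (Int.cast : ℤ → ℝ) := by
  ext i j
  simp [Matrix.SpecialLinearGroup.mapGL_coe_matrix]

/-- For `γ ∈ Γ₀(N)` the matrix `diag(N,1) γ diag(N,1)⁻¹` is integral. -/
theorem exists_conj_diag {N : ℕ} [NeZero N] {γ : SL(2, ℤ)} (hγ : γ ∈ Gamma0 N) :
    ∃ γ' : SL(2, ℤ), heckeDiagMatrix N * Matrix.SpecialLinearGroup.mapGL ℝ γ =
      Matrix.SpecialLinearGroup.mapGL ℝ γ' * heckeDiagMatrix N := by
  have hN : N ≠ 0 := NeZero.ne N
  rw [Gamma0_mem] at hγ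
  obtain ⟨c', hc'⟩ : (N : ℤ) ∣ γ 1 0 := (ZMod.intCast_zmod_eq_zero_iff_dvd _ _).mp hγ
  have hdet : γ 0 0 * γ 1 1 - γ 0 1 * γ 1 0 = 1 := by
    have := γ.det_coe
    rwa [Matrix.det_fin_two] at this
  obtain ⟨γ', hγ'⟩ : ∃ γ' : SL(2, ℤ),
      (γ' : Matrix (Fin 2) (Fin 2) ℤ) = !![γ 0 0, N * γ 0 1; c', γ 1 1] := by
    refine ⟨⟨!![γ 0 0, N * γ 0 1; c', γ 1 1], ?_⟩, rfl⟩
    rw [Matrix.det_fin_two_of]
    rw [hc'] at hdet
    linarith
  refine ⟨γ', ?_⟩
  apply Units.ext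
  rw [Units.val_mul, Units.val_mul, val_heckeDiagMatrix hN, mapGL_val, mapGL_val, hγ']
  ext i j
  fin_cases i <;> fin_cases j <;>
    simp [Matrix.mul_apply, Fin.sum_univ_two, hc', mul_comm]

/-- Hermite normal form of `diag(N,1) γ` (integer matrices). -/
theorem exists_hermite_int {N : ℕ} [NeZero N] (γ : SL(2, ℤ)) :
    ∃ (δ : SL(2, ℤ)) (a b d : ℤ), 0 < a ∧ 0 < d ∧ a * d = N ∧ (d = 1 → (N : ℤ) ∣ γ 1 0) ∧
      (!![(N : ℤ), 0; 0, 1] * (γ : Matrix (Fin 2) (Fin 2) ℤ) =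
        (δ : Matrix (Fin 2) (Fin 2) ℤ) * !![a, b; 0, d]) := by
  have hN : (0 : ℤ) < N := by exact_mod_cast Nat.pos_of_ne_zero (NeZero.ne N)
  have hdet : γ 0 0 * γ 1 1 - γ 0 1 * γ 1 0 = 1 := by
    have := γ.det_coe
    rwa [Matrix.det_fin_two] at this
  set A : ℤ := N * γ 0 0 with hA
  set C : ℤ := γ 1 0 with hC
  set g0 : ℤ := (Int.gcd A C : ℤ) with hg0
  have hbez : g0 = A * Int.gcdA A C + C * Int.gcdB A C := Int.gcd_eq_gcd_ab A C
  obtain ⟨A', hA'⟩ : g0 ∣ A := Int.gcd_dvd_left A C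
  obtain ⟨C', hC'⟩ : g0 ∣ C := Int.gcd_dvd_right A C
  have hg0pos : 0 < g0 := by
    have h0 : Int.gcd A C ≠ 0 := by
      intro h
      rw [Int.gcd_eq_zero_iff] at h
      have h1 : γ 0 0 = 0 := by
        have := h.1
        rw [hA] at this
        rcases mul_eq_zero.mp this with h2 | h2
        · exact absurd h2 hN.ne'
        · exact h2
      have h2 : C = 0 := h.2
      rw [h1, h2] at hdet
      simp at hdet
    rw [hg0]
    exact_mod_cast Nat.pos_of_ne_zero h0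
  set x : ℤ := Int.gcdA A C with hx
  set y : ℤ := Int.gcdB A C with hy
  have hxy : A' * x + C' * y = 1 := by
    have h1 : g0 * (A' * x + C' * y) = g0 * 1 := by
      rw [mul_one]
      calc g0 * (A' * x + C' * y) = (g0 * A') * x + (g0 * C') * y := by ring
        _ = A * x + C * y := by rw [← hA', ← hC']
        _ = g0 := hbez.symm
    exact mul_left_cancel₀ hg0pos.ne' h1
  set d' : ℤ := A' * γ 1 1 - C' * (N * γ 0 1) with hd'
  have hgd : g0 * d' = N := by
    calc g0 * d' = (g0 * A') * γ 1 1 - (g0 * C') * (N * γ 0 1) := by rw [hd']; ring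
      _ = A * γ 1 1 - C * (N * γ 0 1) := by rw [← hA', ← hC']
      _ = N * (γ 0 0 * γ 1 1 - γ 0 1 * γ 1 0) := by rw [hA, hC]; ring
      _ = N := by rw [hdet, mul_one]
  have hd'pos : 0 < d' := by
    by_contra hneg
    have : g0 * d' ≤ 0 := mul_nonpos_of_nonneg_of_nonpos hg0pos.le (not_lt.mp hneg)
    linarith
  obtain ⟨δ, hδ⟩ : ∃ δ : SL(2, ℤ), (δ : Matrix (Fin 2) (Fin 2) ℤ) = !![A', -y; C', x] := by
    refine ⟨⟨!![A', -y; C', x], ?_⟩, rfl⟩
    rw [Matrix.det_fin_two_of]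
    linarith
  refine ⟨δ, g0, x * (N * γ 0 1) + y * γ 1 1, d', hg0pos, hd'pos, hgd, ?_, ?_⟩
  · intro h1
    rw [h1, mul_one] at hgd
    rw [← hgd]
    exact ⟨C', hC'⟩
  · rw [hδ]
    have e00 : (N : ℤ) * γ 0 0 = A' * g0 := by rw [← hA, hA', mul_comm]
    have e10 : γ 1 0 = C' * g0 := by rw [← hC, hC', mul_comm]
    have e01 : (N : ℤ) * γ 0 1 = A' * (x * (N * γ 0 1) + y * γ 1 1) + -y * d' := by
      rw [hd']
      linear_combination (-(N : ℤ) * γ 0 1) * hxy
    have e11 : γ 1 1 = C' * (x * (N * γ 0 1) + y * γ 1 1) + x * d' := by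
      rw [hd']
      linear_combination (-γ 1 1) * hxy
    ext i j
    fin_cases i <;> fin_cases j
    · simpa [Matrix.mul_apply, Fin.sum_univ_two] using e00
    · simpa [Matrix.mul_apply, Fin.sum_univ_two] using e01
    · simpa [Matrix.mul_apply, Fin.sum_univ_two] using e10
    · simpa [Matrix.mul_apply, Fin.sum_univ_two] using e11

/-- Hermite normal form of `diag(N,1) γ` in `GL(2, ℝ)`. -/
theorem exists_hermite {N : ℕ} [NeZero N] (γ : SL(2, ℤ)) :
    ∃ (δ : SL(2, ℤ)) (a b d : ℤ), 0 < a ∧ 0 < d ∧ a * d = N ∧ (d = 1 → (N : ℤ) ∣ γ 1 0) ∧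
      ∃ had : (a : ℝ) * (d : ℝ) ≠ 0,
        heckeDiagMatrix N * Matrix.SpecialLinearGroup.mapGL ℝ γ =
          Matrix.SpecialLinearGroup.mapGL ℝ δ * upperTriangularGL a b d had := by
  obtain ⟨δ, a, b, d, ha, hd, had, h1, hmat⟩ := exists_hermite_int (N := N) γ
  have ha' : (0 : ℝ) < a := by exact_mod_cast ha
  have hd' : (0 : ℝ) < d := by exact_mod_cast hd
  refine ⟨δ, a, b, d, ha, hd, had, h1, (mul_pos ha' hd').ne', ?_⟩
  apply Units.ext
  rw [Units.val_mul, Units.val_mul, val_heckeDiagMatrix (NeZero.ne N), mapGL_val, mapGL_val,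
    val_upperTriangularGL]
  have h2 := congrArg (Int.castRingHom ℝ).mapMatrix hmat
  rw [map_mul, map_mul] at h2
  have e1 : (Int.castRingHom ℝ).mapMatrix !![(N : ℤ), 0; 0, 1] = !![(N : ℝ), 0; 0, 1] := by
    ext i j
    fin_cases i <;> fin_cases j <;> simp
  have e2 : (Int.castRingHom ℝ).mapMatrix !![a, b; 0, d] = !![(a : ℝ), (b : ℝ); 0, (d : ℝ)] := by
    ext i j
    fin_cases i <;> fin_cases j <;> simp
  rw [e1, e2] at h2
  exact h2

theorem discriminant_slash_SL (γ : SL(2, ℤ)) : (Δ ∣[(12 : ℤ)] γ) = Δ :=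
  SlashInvariantForm.slash_action_generators_SL2Z discriminant_S_invariant
    discriminant_T_invariant γ

theorem discriminant_lower_bound :
    ∃ c A : ℝ, 0 < c ∧ ∀ w : ℍ, A ≤ w.im → Real.exp (-2 * Real.pi * w.im) ≤ c * ‖Δ w‖ := by
  obtain ⟨c, hc, h⟩ := exp_isBigO_discriminant.exists_pos
  rw [Asymptotics.isBigOWith_iff] at h
  obtain ⟨A, hA⟩ := (atImInfty_mem _).mp h
  refine ⟨c, A, hc, fun w hw => ?_⟩
  have := hA w hw
  simpa [Real.norm_of_nonneg (Real.exp_pos _).le] using this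

theorem discriminant_upper_bound :
    ∃ c A : ℝ, 0 < c ∧ ∀ w : ℍ, A ≤ w.im → ‖Δ w‖ ≤ c * Real.exp (-2 * Real.pi * w.im) := by
  have h0 := CuspFormClass.exp_decay_atImInfty (h := 1) CuspForm.discriminant one_pos
    one_mem_strictPeriods_SL
  obtain ⟨c, hc, h⟩ := h0.exists_pos
  rw [Asymptotics.isBigOWith_iff] at h
  obtain ⟨A, hA⟩ := (atImInfty_mem _).mp h
  refine ⟨c, A, hc, fun w hw => ?_⟩
  have := hA w hw
  simpa [Real.norm_of_nonneg (Real.exp_pos _).le] using this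

/-- the function `z ↦ Δ(N z)` -/
noncomputable def deltaNFun (N : ℕ) (z : ℍ) : ℂ := Δ (heckeDiagMatrix N • z)

theorem deltaNFun_eq_smul_slash (N : ℕ) [NeZero N] :
    deltaNFun N = ((N : ℂ) ^ ((12 : ℤ) - 1))⁻¹ • (Δ ∣[(12 : ℤ)] heckeDiagMatrix N) := by
  have hN : (N : ℂ) ≠ 0 := by exact_mod_cast NeZero.ne N
  funext z
  rw [Pi.smul_apply, slash_heckeDiagMatrix_apply 12 (NeZero.ne N), smul_eq_mul, ← mul_assoc,
    inv_mul_cancel₀ (zpow_ne_zero _ hN), one_mul]
  rfl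

theorem slash_upperTriangular_norm (k : ℤ) (a b d : ℝ) (ha : 0 < a) (hd : 0 < d) (f : ℍ → ℂ)
    (z : ℍ) :
    ‖(f ∣[k] upperTriangularGL a b d (mul_pos ha hd).ne') z‖ =
      ‖f (upperTriangularGL a b d (mul_pos ha hd).ne' • z)‖ * (a * d) ^ (k - 1) * d ^ (-k) := by
  have hdet : ((upperTriangularGL a b d (mul_pos ha hd).ne').det : ℝ) = a * d := by
    rw [Matrix.GeneralLinearGroup.val_det_apply, val_upperTriangularGL, Matrix.det_fin_two_of]
    ring
  have hden : denom (upperTriangularGL a b d (mul_pos ha hd).ne') z = d := by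
    simp [denom, val_upperTriangularGL]
  have hσ : UpperHalfPlane.σ (upperTriangularGL a b d (mul_pos ha hd).ne') = .refl ℝ ℂ := by
    rw [UpperHalfPlane.σ, if_pos (by rw [hdet]; exact mul_pos ha hd)]
  rw [ModularForm.slash_apply, hσ, hdet, hden]
  simp only [ContinuousAlgEquiv.refl_apply, norm_mul, norm_zpow, Complex.norm_real,
    Real.norm_eq_abs, abs_of_pos (mul_pos ha hd), abs_of_pos hd, abs_of_pos ha]

theorem im_upperTriangular_smul (a b d : ℝ) (ha : 0 < a) (hd : 0 < d) (z : ℍ) :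
    (upperTriangularGL a b d (mul_pos ha hd).ne' • z).im = a * z.im / d := by
  have hdet : 0 < ((upperTriangularGL a b d (mul_pos ha hd).ne').det : ℝ) := by
    rw [Matrix.GeneralLinearGroup.val_det_apply, val_upperTriangularGL, Matrix.det_fin_two_of]
    nlinarith
  have h1 : ((upperTriangularGL a b d (mul_pos ha hd).ne' • z : ℍ) : ℂ) =
      ((a : ℂ) * z + b) / d := by
    rw [UpperHalfPlane.coe_smul_of_det_pos hdet]
    simp [UpperHalfPlane.num, UpperHalfPlane.denom, val_upperTriangularGL]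
  have h2 : (upperTriangularGL a b d (mul_pos ha hd).ne' • z).im =
      (((a : ℂ) * z + b) / d).im := by rw [← h1]; rfl
  rw [h2]
  have h3 : ((a : ℂ) * z + b) / d = ((a * z.re + b) / d : ℝ) + ((a * z.im / d : ℝ) : ℂ) * Complex.I := by
    apply Complex.ext
    · simp [Complex.div_re, Complex.normSq]
    · simp [Complex.div_im, Complex.normSq]
      field_simp
  rw [h3]
  simp

theorem deltaNFun_slash (N : ℕ) [NeZero N] (γ δ : SL(2, ℤ)) (U : GL (Fin 2) ℝ)
    (h : heckeDiagMatrix N * Matrix.SpecialLinearGroup.mapGL ℝ γ =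
      Matrix.SpecialLinearGroup.mapGL ℝ δ * U) :
    deltaNFun N ∣[(12 : ℤ)] γ = ((N : ℂ) ^ ((12 : ℤ) - 1))⁻¹ • (Δ ∣[(12 : ℤ)] U) := by
  rw [deltaNFun_eq_smul_slash, ModularForm.SL_smul_slash]
  congr 1
  have h1 : (Δ ∣[(12 : ℤ)] heckeDiagMatrix N) ∣[(12 : ℤ)] γ =
      Δ ∣[(12 : ℤ)] (heckeDiagMatrix N * Matrix.SpecialLinearGroup.mapGL ℝ γ) := by
    rw [SlashAction.slash_mul]
    rfl
  have h2 : Δ ∣[(12 : ℤ)] (Matrix.SpecialLinearGroup.mapGL ℝ δ) = Δ := discriminant_slash_SL δ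
  rw [h1, h, SlashAction.slash_mul, h2]

/-- `Δ(N z)` as a modular form of weight 12 on `Γ₀(N)`. -/
noncomputable def deltaN (N : ℕ) [NeZero N] : ModularForm (Gamma0 N) 12 where
  toFun := deltaNFun N
  slash_action_eq' := by
    intro γ hγ
    obtain ⟨γ0, hγ0, rfl⟩ := Subgroup.mem_map.mp hγ
    obtain ⟨γ', h⟩ := exists_conj_diag hγ0
    have h1 := deltaNFun_slash N γ0 γ' _ h
    rw [← deltaNFun_eq_smul_slash] at h1
    exact h1
  holo' := by
    show MDiff (deltaNFun N)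
    rw [deltaNFun_eq_smul_slash]
    exact ((CuspFormClass.holo CuspForm.discriminant).slash 12 _).const_smul _
  bdd_at_cusps' := by
    intro c hc
    rw [OnePoint.isBoundedAt_iff_forall_SL2Z
      ((Subgroup.IsArithmetic.isCusp_iff_isCusp_SL2Z _).mp hc)]
    intro γ _
    obtain ⟨δ, a, b, d, ha, hd, had, -, had', h⟩ := exists_hermite (N := N) γ
    rw [deltaNFun_slash N γ δ _ h]
    have hb : IsBoundedAtImInfty (Δ ∣[(12 : ℤ)] upperTriangularGL a b d had') :=
      IsBoundedAtImInfty.slash 12 (by simp [val_upperTriangularGL])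
        discriminant_isZeroAtImInfty.isBoundedAtImInfty
    exact Filter.BoundedAtFilter.smul _ hb

theorem deltaN_coe (N : ℕ) [NeZero N] : ⇑(deltaN N) = deltaNFun N := rfl

theorem deltaN_apply (N : ℕ) [NeZero N] (z : ℍ) :
    deltaN N z = Δ (heckeDiagMatrix N • z) := rfl

theorem deltaN_ne_zero (N : ℕ) [NeZero N] (z : ℍ) : deltaN N z ≠ 0 :=
  discriminant_ne_zero _

theorem im_heckeDiagMatrix_smul {N : ℕ} (hN : N ≠ 0) (z : ℍ) :
    (heckeDiagMatrix N • z).im = N * z.im := by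
  have h1 := coe_heckeDiagMatrix_smul hN z
  have h2 : (heckeDiagMatrix N • z).im = ((N : ℂ) * (z : ℂ)).im := by rw [← h1]; rfl
  rw [h2]
  simp

/-- **Separability**: the stabiliser of `Δ(N z)` in `SL(2, ℤ)` is exactly `Γ₀(N)`. -/
theorem mem_Gamma0_of_deltaN_slash (N : ℕ) [NeZero N] (γ : SL(2, ℤ))
    (h : ⇑(deltaN N) ∣[(12 : ℤ)] γ = ⇑(deltaN N)) : γ ∈ Gamma0 N := by
  have hN0 : N ≠ 0 := NeZero.ne N
  have hNpos : (0 : ℝ) < N := by exact_mod_cast Nat.pos_of_ne_zero hN0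
  obtain ⟨δ, a, b, d, ha, hd, had, hd1, had', hmat⟩ := exists_hermite (N := N) γ
  rw [Gamma0_mem]
  by_contra hcon
  have hd_ne : d ≠ 1 := fun h1 => hcon ((ZMod.intCast_zmod_eq_zero_iff_dvd _ _).mpr (hd1 h1))
  have hd2 : 2 ≤ d := by omega
  have haR : (0 : ℝ) < a := by exact_mod_cast ha
  have hdR : (0 : ℝ) < d := by exact_mod_cast hd
  have hd2R : (2 : ℝ) ≤ d := by exact_mod_cast hd2
  have hadR : (a : ℝ) * d = N := by exact_mod_cast had
  have hc0 : ((N : ℂ) ^ ((12 : ℤ) - 1))⁻¹ ≠ 0 :=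
    inv_ne_zero (zpow_ne_zero _ (by exact_mod_cast hN0))
  have hEq : Δ ∣[(12 : ℤ)] upperTriangularGL a b d had' = Δ ∣[(12 : ℤ)] heckeDiagMatrix N := by
    have h1 := deltaNFun_slash N γ δ _ hmat
    rw [deltaN_coe] at h
    rw [h] at h1
    have h2 := deltaNFun_eq_smul_slash N
    rw [h1] at h2
    exact smul_right_injective _ hc0 h2
  have hnorm : ∀ z : ℍ, ‖Δ (upperTriangularGL a b d had' • z)‖ =
      (d : ℝ) ^ (12 : ℕ) * ‖Δ (heckeDiagMatrix N • z)‖ := by
    intro z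
    have h1 := slash_upperTriangular_norm 12 a b d haR hdR Δ z
    have h2 : ‖(Δ ∣[(12 : ℤ)] heckeDiagMatrix N) z‖ =
        (N : ℝ) ^ ((12 : ℤ) - 1) * ‖Δ (heckeDiagMatrix N • z)‖ := by
      rw [slash_heckeDiagMatrix_apply 12 hN0, norm_mul, norm_zpow, Complex.norm_natCast]
    have hadR' : ((a : ℝ) * d) ^ ((12 : ℤ) - 1) = (N : ℝ) ^ ((12 : ℤ) - 1) := by rw [hadR]
    rw [hEq, h2, hadR'] at h1
    have hNz : (N : ℝ) ^ ((12 : ℤ) - 1) ≠ 0 := zpow_ne_zero _ hNpos.ne'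
    have hdz : (d : ℝ) ^ (-(12 : ℤ)) = ((d : ℝ) ^ (12 : ℕ))⁻¹ := by
      rw [zpow_neg]
      norm_cast
    rw [hdz] at h1
    have hd12 : ((d : ℝ) ^ (12 : ℕ)) ≠ 0 := pow_ne_zero _ hdR.ne'
    field_simp at h1
    linarith
  obtain ⟨c1, A1, hc1, hlow⟩ := discriminant_lower_bound
  obtain ⟨c2, A2, hc2, hup⟩ := discriminant_upper_bound
  set K : ℝ := c1 * c2 * (d : ℝ) ^ (12 : ℕ) with hK
  have hKpos : 0 < K := by positivity
  set y : ℝ := max (max (A1 * d / a) (A2 / N)) K + 1 with hy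
  have hy1 : A1 * d / a ≤ y := by
    have := le_max_left (max (A1 * d / a) (A2 / N)) K
    have := le_max_left (A1 * d / a) (A2 / N)
    linarith
  have hy2 : A2 / N ≤ y := by
    have := le_max_left (max (A1 * d / a) (A2 / N)) K
    have := le_max_right (A1 * d / a) (A2 / N)
    linarith
  have hy3 : K + 1 ≤ y := by
    have := le_max_right (max (A1 * d / a) (A2 / N)) K
    linarith
  have hypos : 0 < y := by linarith
  set z : ℍ := ⟨⟨0, y⟩, hypos⟩ with hz
  have hzim : z.im = y := rfl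
  have him1 : (upperTriangularGL a b d had' • z).im = a * y / d := by
    rw [im_upperTriangular_smul a b d haR hdR z, hzim]
  have him2 : (heckeDiagMatrix N • z).im = N * y := by
    rw [im_heckeDiagMatrix_smul hN0, hzim]
  have hA1 : A1 ≤ (upperTriangularGL a b d had' • z).im := by
    rw [him1, le_div_iff₀ hdR]
    rw [div_le_iff₀ haR] at hy1
    linarith
  have hA2 : A2 ≤ (heckeDiagMatrix N • z).im := by
    rw [him2]
    rw [div_le_iff₀ hNpos] at hy2
    linarith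
  have hL := hlow _ hA1
  have hR := hup _ hA2
  rw [him1, hnorm z] at hL
  rw [him2] at hR
  have hchain : Real.exp (-2 * Real.pi * (a * y / d)) ≤ K * Real.exp (-2 * Real.pi * (N * y)) := by
    calc Real.exp (-2 * Real.pi * (a * y / d))
        ≤ c1 * ((d : ℝ) ^ (12 : ℕ) * ‖Δ (heckeDiagMatrix N • z)‖) := hL
      _ ≤ c1 * ((d : ℝ) ^ (12 : ℕ) * (c2 * Real.exp (-2 * Real.pi * (N * y)))) := by gcongr
      _ = K * Real.exp (-2 * Real.pi * (N * y)) := by rw [hK]; ring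
  have hexp : Real.exp (2 * Real.pi * (N * y) - 2 * Real.pi * (a * y / d)) ≤ K := by
    have h1 : Real.exp (2 * Real.pi * (N * y) - 2 * Real.pi * (a * y / d)) =
        Real.exp (-2 * Real.pi * (a * y / d)) * Real.exp (2 * Real.pi * (N * y)) := by
      rw [← Real.exp_add]
      congr 1
      ring
    rw [h1]
    have h2 : K = K * Real.exp (-2 * Real.pi * (N * y)) * Real.exp (2 * Real.pi * (N * y)) := by
      rw [mul_assoc, ← Real.exp_add]
      have : -2 * Real.pi * (N * y) + 2 * Real.pi * (N * y) = 0 := by ring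
      rw [this, Real.exp_zero, mul_one]
    rw [h2]
    exact mul_le_mul_of_nonneg_right hchain (Real.exp_pos _).le
  have hgap : y ≤ 2 * Real.pi * (N * y) - 2 * Real.pi * (a * y / d) := by
    have h1 : (a : ℝ) / d ≤ N / 4 := by
      rw [div_le_div_iff₀ hdR (by norm_num)]
      nlinarith
    have h2 : (a : ℝ) * y / d = (a / d) * y := by ring
    have h3 : (1 : ℝ) ≤ N := by exact_mod_cast Nat.one_le_iff_ne_zero.mpr hN0
    have hpi : (3 : ℝ) < Real.pi := Real.pi_gt_three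
    rw [h2]
    have h4 : (a : ℝ) / d * y ≤ N / 4 * y := mul_le_mul_of_nonneg_right h1 hypos.le
    nlinarith [mul_pos hNpos hypos, Real.pi_pos]
  have hfin : y < K := by
    calc y < y + 1 := by linarith
      _ ≤ Real.exp y := Real.add_one_le_exp y
      _ ≤ Real.exp (2 * Real.pi * (N * y) - 2 * Real.pi * (a * y / d)) := Real.exp_le_exp.mpr hgap
      _ ≤ K := hexp
  linarith

/-! ### Rationality of the `q`-expansion -/

/-- the `q`-expansion of `Δ(N z)` is that of `Δ` in the variable `q ^ N` -/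
theorem qExpansion_deltaN_coeff (N : ℕ) [NeZero N] (m : ℕ) :
    (qExpansion 1 (deltaN N)).coeff m =
      if N ∣ m then (qExpansion 1 Δ).coeff (m / N) else 0 := by
  have hN : N ≠ 0 := NeZero.ne N
  refine (ModularFormClass.qExpansion_coeff_unique (f := deltaN N) one_pos
    (one_mem_strictPeriods_Gamma0 N)
    (c := fun m => if N ∣ m then (qExpansion 1 Δ).coeff (m / N) else 0) ?_ m).symm
  intro τ
  have h1 := ModularForm.hasSum_qExpansion CuspForm.discriminant one_pos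
    one_mem_strictPeriods_SL (heckeDiagMatrix N • τ)
  have hq : Function.Periodic.qParam 1 ((heckeDiagMatrix N • τ : ℍ) : ℂ) =
      Function.Periodic.qParam 1 (τ : ℂ) ^ N := by
    rw [coe_heckeDiagMatrix_smul hN τ, Function.Periodic.qParam, Function.Periodic.qParam,
      ← Complex.exp_nat_mul]
    congr 1
    ring
  rw [hq] at h1
  have hinj : Function.Injective (fun m : ℕ => N * m) := fun a b h =>
    Nat.eq_of_mul_eq_mul_left (Nat.pos_of_ne_zero hN) h
  rw [← hinj.hasSum_iff]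
  · convert h1 using 2 with m
    · simp only [Function.comp_apply, dvd_mul_right, if_true, smul_eq_mul,
        Nat.mul_div_cancel_left _ (Nat.pos_of_ne_zero hN), pow_mul]
      rfl
    · rfl
  · intro x hx
    have : ¬ N ∣ x := fun ⟨y, hy⟩ => hx ⟨y, hy.symm⟩
    simp [this]

theorem qExpansion_E_rat {k : ℕ} (hk : 3 ≤ k) (hk2 : Even k) :
    ∃ r : PowerSeries ℚ, qExpansion 1 (E hk) = r.map (algebraMap ℚ ℂ) := by
  refine ⟨PowerSeries.mk fun m => if m = 0 then 1 else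
    -(2 * k / bernoulli k) * (ArithmeticFunction.sigma (k - 1) m : ℚ), ?_⟩
  ext m
  rw [EisensteinSeries.E_qExpansion_coeff hk hk2, PowerSeries.coeff_map, PowerSeries.coeff_mk]
  split_ifs <;> simp

/-- `E₄³ - E₆²` as a level one form of weight 12 -/
noncomputable def e4CubeSubE6Sq : ModularForm 𝒮ℒ 12 :=
  ModularForm.mcast (by decide) (E₄.pow 3) - ModularForm.mcast (by decide) (E₆.pow 2)

theorem e4CubeSubE6Sq_apply (z : ℍ) : e4CubeSubE6Sq z = E₄ z ^ 3 - E₆ z ^ 2 := by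
  simp only [e4CubeSubE6Sq, coe_mcast, coe_pow, sub_apply, Pi.pow_apply]

theorem qExpansion_e4CubeSubE6Sq :
    qExpansion 1 e4CubeSubE6Sq = qExpansion 1 E₄ ^ 3 - qExpansion 1 E₆ ^ 2 := by
  simp only [e4CubeSubE6Sq, FunLike.coe_sub, coe_mcast,
    ModularForm.qExpansion_sub one_pos one_mem_strictPeriods_SL,
    ModularForm.qExpansion_pow one_pos one_mem_strictPeriods_SL]

theorem qExpansion_discriminant_eq :
    qExpansion 1 Δ = (1 / 1728 : ℂ) • (qExpansion 1 E₄ ^ 3 - qExpansion 1 E₆ ^ 2) := by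
  have h : (Δ : ℍ → ℂ) = ⇑((1 / 1728 : ℂ) • e4CubeSubE6Sq) := by
    funext z
    rw [smul_apply, e4CubeSubE6Sq_apply, discriminant_eq_E₄_cube_sub_E₆_sq z,
      smul_eq_mul]
    ring
  rw [h, FunLike.coe_smul, ModularForm.qExpansion_smul one_pos one_mem_strictPeriods_SL,
    qExpansion_e4CubeSubE6Sq]

/-- the `q`-expansion of `Δ` has rational coefficients -/
theorem qExpansion_discriminant_rat :
    ∃ r : PowerSeries ℚ, qExpansion 1 Δ = r.map (algebraMap ℚ ℂ) := by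
  obtain ⟨r4, h4⟩ := qExpansion_E_rat (k := 4) (by norm_num) ⟨2, rfl⟩
  obtain ⟨r6, h6⟩ := qExpansion_E_rat (k := 6) (by norm_num) ⟨3, rfl⟩
  refine ⟨PowerSeries.C (1 / 1728 : ℚ) * (r4 ^ 3 - r6 ^ 2), ?_⟩
  rw [qExpansion_discriminant_eq, h4, h6, map_mul, map_sub, map_pow, map_pow,
    PowerSeries.map_C, ← PowerSeries.smul_eq_C_mul]
  congr 1
  simp

/-- **Rationality**: the `q`-expansion of `Δ(N z)` has rational coefficients. -/
theorem deltaN_qExpansion_rat (N : ℕ) [NeZero N] :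
    ∃ r : PowerSeries ℚ, qExpansion 1 (deltaN N) = r.map (algebraMap ℚ ℂ) := by
  obtain ⟨r, hr⟩ := qExpansion_discriminant_rat
  refine ⟨PowerSeries.mk fun m => if N ∣ m then r.coeff (m / N) else 0, ?_⟩
  ext m
  rw [qExpansion_deltaN_coeff, hr, PowerSeries.coeff_map, PowerSeries.coeff_map,
    PowerSeries.coeff_mk]
  split_ifs <;> simp

/-- coefficientwise form of `deltaN_qExpansion_rat` -/
theorem deltaN_qExpansion_coeff_rat (N : ℕ) [NeZero N] :
    ∀ n, ∃ r : ℚ, (qExpansion 1 (deltaN N)).coeff n = (r : ℂ) := by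
  obtain ⟨r, hr⟩ := deltaN_qExpansion_rat N
  intro n
  exact ⟨r.coeff n, by rw [hr, PowerSeries.coeff_map]; rfl⟩

/-- the `q`-expansion of `Δ(N z)` starts with `q ^ N` -/
theorem qExpansion_deltaN_coeff_self (N : ℕ) [NeZero N] :
    (qExpansion 1 (deltaN N)).coeff N = 1 := by
  rw [qExpansion_deltaN_coeff, if_pos dvd_rfl, Nat.div_self (Nat.pos_of_ne_zero (NeZero.ne N))]
  exact discriminant_qExpansion_coeff_one

theorem qExpansion_deltaN_coeff_of_lt (N : ℕ) [NeZero N] {m : ℕ} (hm : m < N) :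
    (qExpansion 1 (deltaN N)).coeff m = 0 := by
  rw [qExpansion_deltaN_coeff]
  split_ifs with h
  · have hm0 : m = 0 := Nat.eq_zero_of_dvd_of_lt h hm
    subst hm0
    rw [Nat.zero_div]
    exact CuspFormClass.qExpansion_coeff_zero CuspForm.discriminant one_pos
      one_mem_strictPeriods_SL
  · rfl

end Fermat.Agent.S23.DeltaN
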