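import Mathlib
import Fermat.Prelude.Def_ModularForm_HeckeOperator
import Fermat.Prelude.Def_ModularForm_HeckeOperatorForms
import Fermat.Prelude.Thm_CongruenceSubgroup_one_mem_strictPeriods_Gamma0
import Fermat.Agent.S23_DeltaN

set_option autoImplicit false

open UpperHalfPlane CongruenceSubgroup ModularForm
open scoped MatrixGroups ModularForm Manifold

noncomputable section

namespace Fermat.Agent.S16.Eis

open Fermat.Agent.S23.DeltaN

/-- `σ^{(N)}(n) = ∑_{d ∣ n, N ∤ d} d`. -/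
def sigmaP (N n : ℕ) : ℕ := ∑ d ∈ n.divisors with ¬ N ∣ d, d

/-- restriction of a level-one form to `Γ₀(N)` -/
def levelRestrict (N : ℕ) [NeZero N] {k : ℤ} (F : ModularForm 𝒮ℒ k) :
    ModularForm (Gamma0 N) k where
  toFun := F
  slash_action_eq' := by
    intro γ hγ
    obtain ⟨γ0, -, rfl⟩ := Subgroup.mem_map.mp hγ
    exact SlashInvariantFormClass.slash_action_eq F _ ⟨γ0, rfl⟩
  holo' := ModularFormClass.holo F
  bdd_at_cusps' := by
    intro c hc
    exact ModularFormClass.bdd_at_cusps F ((Subgroup.IsArithmetic.isCusp_iff_isCusp_SL2Z _).mp hc)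

theorem coe_levelRestrict (N : ℕ) [NeZero N] {k : ℤ} (F : ModularForm 𝒮ℒ k) :
    ⇑(levelRestrict N F) = ⇑F := rfl

theorem qExpansion_levelRestrict (N : ℕ) [NeZero N] {k : ℤ} (F : ModularForm 𝒮ℒ k) :
    qExpansion 1 (levelRestrict N F) = qExpansion 1 F := by rw [coe_levelRestrict]

/-- slash by an upper triangular matrix with positive diagonal, explicitly -/
theorem slash_upperTriangular_apply (k : ℤ) (a b d : ℝ) (ha : 0 < a) (hd : 0 < d)
    (had : a * d ≠ 0) (f : ℍ → ℂ) (z : ℍ) :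
    (f ∣[k] upperTriangularGL a b d had) z =
      f (upperTriangularGL a b d had • z) * ((a : ℂ) * d) ^ (k - 1) * (d : ℂ) ^ (-k) := by
  have hdet : ((upperTriangularGL a b d had).det : ℝ) = a * d := by
    rw [Matrix.GeneralLinearGroup.val_det_apply, val_upperTriangularGL, Matrix.det_fin_two_of]
    ring
  have hden : denom (upperTriangularGL a b d had) z = d := by
    simp [denom, val_upperTriangularGL]
  have hσ : UpperHalfPlane.σ (upperTriangularGL a b d had) = .refl ℝ ℂ := by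
    rw [UpperHalfPlane.σ, if_pos (by rw [hdet]; exact mul_pos ha hd)]
  rw [ModularForm.slash_apply, hσ, hdet, hden]
  simp only [ContinuousAlgEquiv.refl_apply, abs_of_pos (mul_pos ha hd)]
  push_cast
  rfl

theorem coe_upperTriangular_smul (a b d : ℝ) (ha : 0 < a) (hd : 0 < d)
    (had : a * d ≠ 0) (z : ℍ) :
    ((upperTriangularGL a b d had • z : ℍ) : ℂ) = ((a : ℂ) * z + b) / d := by
  have hdet : 0 < ((upperTriangularGL a b d had).det : ℝ) := by
    rw [Matrix.GeneralLinearGroup.val_det_apply, val_upperTriangularGL, Matrix.det_fin_two_of]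
    nlinarith
  rw [UpperHalfPlane.coe_smul_of_det_pos hdet]
  simp [UpperHalfPlane.num, UpperHalfPlane.denom, val_upperTriangularGL]

theorem D2_slash_upper {N : ℕ} [NeZero N] (γ δ : SL(2, ℤ)) (a b d : ℝ) (ha : 0 < a) (hd : 0 < d)
    (had : a * d ≠ 0)
    (h : heckeDiagMatrix N * Matrix.SpecialLinearGroup.mapGL ℝ γ =
      Matrix.SpecialLinearGroup.mapGL ℝ δ * upperTriangularGL a b d had) :
    (EisensteinSeries.D2 δ) ∣[(2 : ℤ)] upperTriangularGL a b d had = EisensteinSeries.D2 γ := by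
  have h10 : ((γ 1 0 : ℤ) : ℝ) = (δ 1 0 : ℤ) * a := by
    have := congrArg (fun M : GL (Fin 2) ℝ => (M : Matrix (Fin 2) (Fin 2) ℝ) 1 0) h
    simpa [Matrix.mul_apply, Fin.sum_univ_two, val_heckeDiagMatrix (NeZero.ne N),
      val_upperTriangularGL, mapGL_val] using this
  have h11 : ((γ 1 1 : ℤ) : ℝ) = (δ 1 0 : ℤ) * b + (δ 1 1 : ℤ) * d := by
    have := congrArg (fun M : GL (Fin 2) ℝ => (M : Matrix (Fin 2) (Fin 2) ℝ) 1 1) h
    simpa [Matrix.mul_apply, Fin.sum_univ_two, val_heckeDiagMatrix (NeZero.ne N),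
      val_upperTriangularGL, mapGL_val] using this
  have h10' : ((γ 1 0 : ℤ) : ℂ) = (δ 1 0 : ℤ) * (a : ℂ) := by exact_mod_cast h10
  have h11' : ((γ 1 1 : ℤ) : ℂ) = (δ 1 0 : ℤ) * (b : ℂ) + (δ 1 1 : ℤ) * (d : ℂ) := by
    exact_mod_cast h11
  funext z
  rw [slash_upperTriangular_apply 2 a b d ha hd had]
  have hdne : (d : ℂ) ≠ 0 := by exact_mod_cast hd.ne'
  have hden1 : denom δ ((upperTriangularGL a b d had • z : ℍ) : ℂ) ≠ 0 := denom_ne_zero _ _
  have hden2 : denom γ z ≠ 0 := denom_ne_zero _ _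
  simp only [EisensteinSeries.D2]
  rw [ModularGroup.denom_apply] at hden1 hden2 ⊢
  rw [ModularGroup.denom_apply]
  rw [coe_upperTriangular_smul a b d ha hd had] at hden1 ⊢
  rw [h10', h11'] at hden2 ⊢
  have hden3 : ((δ 1 0 : ℤ) : ℂ) * ((a : ℂ) * z + b) + (δ 1 1 : ℤ) * d ≠ 0 := by
    intro h0
    apply hden2
    linear_combination h0
  have e1 : ((δ 1 0 : ℤ) : ℂ) * (((a : ℂ) * z + b) / d) + (δ 1 1 : ℤ) =
      (((δ 1 0 : ℤ) : ℂ) * ((a : ℂ) * z + b) + (δ 1 1 : ℤ) * d) / d := by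
    field_simp
  have e2 : ((δ 1 0 : ℤ) : ℂ) * (a : ℂ) * z + ((δ 1 0 : ℤ) * (b : ℂ) + (δ 1 1 : ℤ) * (d : ℂ)) =
      ((δ 1 0 : ℤ) : ℂ) * ((a : ℂ) * z + b) + (δ 1 1 : ℤ) * d := by ring
  rw [e1, e2, show (2 : ℤ) - 1 = 1 by norm_num, zpow_one]
  field_simp

local notation "E2" => EisensteinSeries.E2

/-- `z ↦ N E₂(N z) − E₂(z)` -/
def eisFun (N : ℕ) : ℍ → ℂ := E2 ∣[(2 : ℤ)] heckeDiagMatrix N - E2

theorem eisFun_apply (N : ℕ) [NeZero N] (z : ℍ) :
    eisFun N z = (N : ℂ) * E2 (heckeDiagMatrix N • z) - E2 z := by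
  rw [eisFun, Pi.sub_apply, slash_heckeDiagMatrix_apply 2 (NeZero.ne N)]
  norm_num

theorem σ_upperTriangular (a b d : ℝ) (ha : 0 < a) (hd : 0 < d) (had : a * d ≠ 0) :
    UpperHalfPlane.σ (upperTriangularGL a b d had) = .refl ℝ ℂ := by
  have hdet : ((upperTriangularGL a b d had).det : ℝ) = a * d := by
    rw [Matrix.GeneralLinearGroup.val_det_apply, val_upperTriangularGL, Matrix.det_fin_two_of]
    ring
  rw [UpperHalfPlane.σ, if_pos (by rw [hdet]; exact mul_pos ha hd)]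

theorem eisFun_slash {N : ℕ} [NeZero N] (γ δ : SL(2, ℤ)) (a b d : ℝ) (ha : 0 < a) (hd : 0 < d)
    (had : a * d ≠ 0)
    (h : heckeDiagMatrix N * Matrix.SpecialLinearGroup.mapGL ℝ γ =
      Matrix.SpecialLinearGroup.mapGL ℝ δ * upperTriangularGL a b d had) :
    eisFun N ∣[(2 : ℤ)] γ = E2 ∣[(2 : ℤ)] upperTriangularGL a b d had - E2 := by
  have h1 : (E2 ∣[(2 : ℤ)] heckeDiagMatrix N) ∣[(2 : ℤ)] γ =
      E2 ∣[(2 : ℤ)] (heckeDiagMatrix N * Matrix.SpecialLinearGroup.mapGL ℝ γ) := by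
    rw [SlashAction.slash_mul]
    rfl
  have h2 : E2 ∣[(2 : ℤ)] (Matrix.SpecialLinearGroup.mapGL ℝ δ) =
      E2 - (1 / (2 * riemannZeta 2)) • EisensteinSeries.D2 δ := EisensteinSeries.E2_slash_action δ
  have h3 := D2_slash_upper γ δ a b d ha hd had h
  rw [eisFun, sub_eq_add_neg, SlashAction.add_slash, SlashAction.neg_slash, h1, h,
    SlashAction.slash_mul, h2, EisensteinSeries.E2_slash_action γ, sub_eq_add_neg,
    SlashAction.add_slash, SlashAction.neg_slash, ModularForm.smul_slash,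
    σ_upperTriangular a b d ha hd had, h3]
  simp only [ContinuousAlgEquiv.refl_apply]
  abel

theorem heckeDiagMatrix_eq_upperTriangular (N : ℕ) [NeZero N] (h : (N : ℝ) * 1 ≠ 0) :
    heckeDiagMatrix N = upperTriangularGL N 0 1 h := by
  rw [heckeDiagMatrix, dif_neg (NeZero.ne N)]

theorem eisFun_slash_Gamma0 {N : ℕ} [NeZero N] {γ : SL(2, ℤ)} (hγ : γ ∈ Gamma0 N) :
    eisFun N ∣[(2 : ℤ)] γ = eisFun N := by
  obtain ⟨γ', h⟩ := exists_conj_diag hγ
  have hN : (0 : ℝ) < N := by exact_mod_cast Nat.pos_of_ne_zero (NeZero.ne N)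
  have hN1 : (N : ℝ) * 1 ≠ 0 := by rw [mul_one]; exact hN.ne'
  rw [heckeDiagMatrix_eq_upperTriangular N hN1] at h
  rw [← heckeDiagMatrix_eq_upperTriangular N hN1] at h
  have h' : heckeDiagMatrix N * Matrix.SpecialLinearGroup.mapGL ℝ γ =
      Matrix.SpecialLinearGroup.mapGL ℝ γ' * upperTriangularGL N 0 1 hN1 := by
    rw [← heckeDiagMatrix_eq_upperTriangular N hN1]
    exact h
  rw [eisFun_slash γ γ' N 0 1 hN one_pos hN1 h', ← heckeDiagMatrix_eq_upperTriangular N hN1]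
  rfl

theorem mdifferentiable_eisFun (N : ℕ) : MDiff (eisFun N) :=
  (E2_mdifferentiable.slash 2 _).sub E2_mdifferentiable

theorem isBoundedAtImInfty_eisFun_slash (N : ℕ) [NeZero N] (γ : SL(2, ℤ)) :
    IsBoundedAtImInfty (eisFun N ∣[(2 : ℤ)] γ) := by
  obtain ⟨δ, a, b, d, ha, hd, -, -, had', h⟩ := exists_hermite (N := N) γ
  have ha' : (0 : ℝ) < a := by exact_mod_cast ha
  have hd' : (0 : ℝ) < d := by exact_mod_cast hd
  rw [eisFun_slash γ δ a b d ha' hd' had' h]
  have hb : IsBoundedAtImInfty (E2 ∣[(2 : ℤ)] upperTriangularGL a b d had') :=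
    IsBoundedAtImInfty.slash 2 (by simp [val_upperTriangularGL])
      EisensteinSeries.isBoundedAtImInfty_E2
  rw [sub_eq_add_neg]
  exact Filter.BoundedAtFilter.add hb (Filter.BoundedAtFilter.neg EisensteinSeries.isBoundedAtImInfty_E2)

/-- `N E₂(N z) − E₂(z)` as a modular form of weight 2 on `Γ₀(N)`. -/
def eisMF (N : ℕ) [NeZero N] : ModularForm (Gamma0 N) 2 where
  toFun := eisFun N
  slash_action_eq' := by
    intro γ hγ
    obtain ⟨γ0, hγ0, rfl⟩ := Subgroup.mem_map.mp hγ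
    exact eisFun_slash_Gamma0 hγ0
  holo' := mdifferentiable_eisFun N
  bdd_at_cusps' := by
    intro c hc
    rw [OnePoint.isBoundedAt_iff_forall_SL2Z
      ((Subgroup.IsArithmetic.isCusp_iff_isCusp_SL2Z _).mp hc)]
    intro γ _
    exact isBoundedAtImInfty_eisFun_slash N γ

theorem coe_eisMF (N : ℕ) [NeZero N] : ⇑(eisMF N) = eisFun N := rfl

/-- the weight-two Eisenstein series `(N E₂(N z) - E₂(z)) / 24` of level `Γ₀(N)`. -/
def eis (N : ℕ) [NeZero N] : ModularForm (Gamma0 N) 2 := (24 : ℂ)⁻¹ • eisMF N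

theorem eis_apply (N : ℕ) [NeZero N] (z : ℍ) :
    eis N z = ((N : ℂ) * E2 (heckeDiagMatrix N • z) - E2 z) / 24 := by
  show (24 : ℂ)⁻¹ • eisFun N z = _
  rw [eisFun_apply, smul_eq_mul]
  ring

/-! ### `q`-expansions -/

theorem sum_divisors_filter_dvd (N : ℕ) (hN : N ≠ 0) (m : ℕ) (hm : m ≠ 0) :
    ∑ d ∈ m.divisors with N ∣ d, d =
      if N ∣ m then N * ArithmeticFunction.sigma 1 (m / N) else 0 := by
  have hNpos : 0 < N := Nat.pos_of_ne_zero hN
  split_ifs with h
  · obtain ⟨m', rfl⟩ := h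
    have hm' : m' ≠ 0 := fun h0 => hm (by rw [h0, mul_zero])
    rw [Nat.mul_div_cancel_left m' hNpos, ArithmeticFunction.sigma_one_apply, Finset.mul_sum]
    have himg : (N * m').divisors.filter (fun d => N ∣ d) =
        (m'.divisors).image (fun d' => N * d') := by
      ext d
      simp only [Finset.mem_filter, Nat.mem_divisors, Finset.mem_image]
      constructor
      · rintro ⟨⟨hd, -⟩, ⟨d', rfl⟩⟩
        exact ⟨d', ⟨(Nat.mul_dvd_mul_iff_left hNpos).mp hd, hm'⟩, rfl⟩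
      · rintro ⟨d', ⟨hd', -⟩, rfl⟩
        exact ⟨⟨Nat.mul_dvd_mul_left N hd', hm⟩, dvd_mul_right N d'⟩
    rw [himg, Finset.sum_image (fun a _ b _ hab => Nat.eq_of_mul_eq_mul_left hNpos hab)]
  · apply Finset.sum_eq_zero
    intro d hd
    rw [Finset.mem_filter, Nat.mem_divisors] at hd
    exact absurd (hd.2.trans hd.1.1) h

/-- `σ₁(m) = σ^{(N)}(m) + N σ₁(m / N) [N ∣ m]` -/
theorem sigma_one_eq_sigmaP_add (N : ℕ) (hN : N ≠ 0) (m : ℕ) (hm : m ≠ 0) :
    ArithmeticFunction.sigma 1 m =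
      sigmaP N m + if N ∣ m then N * ArithmeticFunction.sigma 1 (m / N) else 0 := by
  rw [ArithmeticFunction.sigma_one_apply, sigmaP, ← sum_divisors_filter_dvd N hN m hm,
    add_comm, Finset.sum_filter_add_sum_filter_not]

/-- the `q`-expansion coefficients of `N E₂(N z) − E₂(z)` -/
def eisCoeff (N : ℕ) (n : ℕ) : ℂ := if n = 0 then (N : ℂ) - 1 else 24 * (sigmaP N n : ℂ)

theorem hasSum_eisFun (N : ℕ) [NeZero N] (τ : ℍ) :
    HasSum (fun m : ℕ => eisCoeff N m • Function.Periodic.qParam 1 (τ : ℂ) ^ m) (eisFun N τ) := by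
  have hN : N ≠ 0 := NeZero.ne N
  set q : ℂ := Function.Periodic.qParam 1 (τ : ℂ) with hq
  set e : ℕ → ℂ := fun m => if m = 0 then 1 else -24 * (ArithmeticFunction.sigma 1 m : ℂ) with he
  have hE : ∀ z : ℍ, HasSum (fun m : ℕ => e m • Function.Periodic.qParam 1 (z : ℂ) ^ m)
      (EisensteinSeries.E2 z) := by
    intro z
    have := EisensteinSeries.hasSum_qExpansion_E2 (z := z)
    simpa only [Function.Periodic.qParam, Complex.ofReal_one, div_one] using this
  have hqN : Function.Periodic.qParam 1 ((heckeDiagMatrix N • τ : ℍ) : ℂ) = q ^ N := by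
    rw [coe_heckeDiagMatrix_smul hN τ, hq, Function.Periodic.qParam, Function.Periodic.qParam,
      ← Complex.exp_nat_mul]
    congr 1
    ring
  have h1 := hE (heckeDiagMatrix N • τ)
  rw [hqN] at h1
  have hinj : Function.Injective (fun m : ℕ => N * m) := fun a b h =>
    Nat.eq_of_mul_eq_mul_left (Nat.pos_of_ne_zero hN) h
  have h2 : HasSum (fun n : ℕ => if N ∣ n then e (n / N) • q ^ n else 0)
      (EisensteinSeries.E2 (heckeDiagMatrix N • τ)) := by
    rw [← hinj.hasSum_iff]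
    · convert h1 using 2 with m
      simp only [Function.comp_apply, dvd_mul_right, if_true,
        Nat.mul_div_cancel_left _ (Nat.pos_of_ne_zero hN), pow_mul]
    · intro x hx
      have : ¬ N ∣ x := fun ⟨y, hy⟩ => hx ⟨y, hy.symm⟩
      simp [this]
  have h3 := (h2.mul_left (N : ℂ)).sub (hE τ)
  have hfun : (fun m : ℕ => eisCoeff N m • q ^ m) =
      fun b : ℕ => ((N : ℂ) * if N ∣ b then e (b / N) • q ^ b else 0) - e b • q ^ b := by
    funext n
    rcases eq_or_ne n 0 with rfl | hn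
    · simp [eisCoeff, he]
    · have hs := sigma_one_eq_sigmaP_add N hN n hn
      by_cases hd : N ∣ n
      · have hnN : n / N ≠ 0 := by
          obtain ⟨m', rfl⟩ := hd
          rw [Nat.mul_div_cancel_left _ (Nat.pos_of_ne_zero hN)]
          exact fun h0 => hn (by rw [h0, mul_zero])
        rw [if_pos hd] at hs
        have hs' : (ArithmeticFunction.sigma 1 n : ℂ) =
            (sigmaP N n : ℂ) + N * (ArithmeticFunction.sigma 1 (n / N) : ℂ) := by
          exact_mod_cast hs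
        simp only [eisCoeff, he, if_neg hn, if_pos hd, if_neg hnN, smul_eq_mul]
        rw [hs']
        ring
      · rw [if_neg hd, add_zero] at hs
        simp only [eisCoeff, he, if_neg hn, if_neg hd, smul_eq_mul, mul_zero, zero_sub]
        rw [hs]
        ring
  rw [eisFun_apply, hfun]
  exact h3

theorem qExpansion_eisMF_coeff (N : ℕ) [NeZero N] (n : ℕ) :
    (qExpansion 1 (eisMF N)).coeff n = eisCoeff N n :=
  (ModularFormClass.qExpansion_coeff_unique (f := eisMF N) one_pos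
    (one_mem_strictPeriods_Gamma0 N) (c := eisCoeff N) (hasSum_eisFun N) n).symm

theorem qExpansion_eis_coeff (N : ℕ) [NeZero N] (n : ℕ) :
    (qExpansion 1 (eis N)).coeff n = if n = 0 then ((N : ℂ) - 1) / 24 else (sigmaP N n : ℂ) := by
  refine (ModularFormClass.qExpansion_coeff_unique (f := eis N) one_pos
    (one_mem_strictPeriods_Gamma0 N)
    (c := fun n => if n = 0 then ((N : ℂ) - 1) / 24 else (sigmaP N n : ℂ)) ?_ n).symm
  intro τ
  have h := (hasSum_eisFun N τ).mul_left ((24 : ℂ)⁻¹)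
  have hval : eis N τ = (24 : ℂ)⁻¹ * eisFun N τ := rfl
  have hfun : (fun m : ℕ => (if m = 0 then ((N : ℂ) - 1) / 24 else (sigmaP N m : ℂ)) •
      Function.Periodic.qParam 1 (τ : ℂ) ^ m) =
      fun m : ℕ => (24 : ℂ)⁻¹ * (eisCoeff N m • Function.Periodic.qParam 1 (τ : ℂ) ^ m) := by
    funext m
    rcases eq_or_ne m 0 with rfl | hm
    · simp [eisCoeff]
      ring
    · simp only [eisCoeff, if_neg hm, smul_eq_mul]
      ring
  rw [hval, hfun]
  exact h

/-- `A = 1 + 12 ∑ σ^{(3)}(n) qⁿ ∈ M₂(Γ₀(3))`. -/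
def eisA : ModularForm (Gamma0 3) 2 := (2 : ℂ)⁻¹ • eisMF 3

theorem qExpansion_eisA_coeff (n : ℕ) :
    (qExpansion 1 eisA).coeff n = if n = 0 then 1 else 12 * (sigmaP 3 n : ℂ) := by
  refine (ModularFormClass.qExpansion_coeff_unique (f := eisA) one_pos
    (one_mem_strictPeriods_Gamma0 3)
    (c := fun n => if n = 0 then 1 else 12 * (sigmaP 3 n : ℂ)) ?_ n).symm
  intro τ
  have h := (hasSum_eisFun 3 τ).mul_left ((2 : ℂ)⁻¹)
  have hval : eisA τ = (2 : ℂ)⁻¹ * eisFun 3 τ := rfl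
  have hfun : (fun m : ℕ => (if m = 0 then 1 else 12 * (sigmaP 3 m : ℂ)) •
      Function.Periodic.qParam 1 (τ : ℂ) ^ m) =
      fun m : ℕ => (2 : ℂ)⁻¹ * (eisCoeff 3 m • Function.Periodic.qParam 1 (τ : ℂ) ^ m) := by
    funext m
    rcases eq_or_ne m 0 with rfl | hm
    · simp [eisCoeff]
      norm_num
    · simp only [eisCoeff, if_neg hm, smul_eq_mul]
      ring
  rw [hval, hfun]
  exact h

theorem eisA_eq : eisA = (12 : ℂ) • eis 3 := by
  ext z
  show (2 : ℂ)⁻¹ • eisFun 3 z = (12 : ℂ) • ((24 : ℂ)⁻¹ • eisFun 3 z)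
  simp only [smul_eq_mul]
  ring

theorem bernoulli_four_eq : bernoulli 4 = -1 / 30 := by
  rw [bernoulli_eq_bernoulli'_of_ne_one (by norm_num), bernoulli'_four]

theorem bernoulli'_five_eq : bernoulli' 5 = 0 :=
  bernoulli'_eq_zero_of_odd (by decide) (by norm_num)

theorem bernoulli_six_eq : bernoulli 6 = 1 / 42 := by
  rw [bernoulli_eq_bernoulli'_of_ne_one (by norm_num), bernoulli'_def]
  have h1 : Nat.choose 6 1 = 6 := by decide
  have h2 : Nat.choose 6 2 = 15 := by decide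
  have h3 : Nat.choose 6 3 = 20 := by decide
  have h4 : Nat.choose 6 4 = 15 := by decide
  have h5 : Nat.choose 6 5 = 6 := by decide
  simp only [Finset.sum_range_succ, Finset.sum_range_zero, bernoulli'_zero, bernoulli'_one,
    bernoulli'_two, bernoulli'_three, bernoulli'_four, bernoulli'_five_eq, h1, h2, h3, h4, h5,
    Nat.choose_zero_right]
  norm_num

theorem qExpansion_E4_coeff (n : ℕ) :
    (qExpansion 1 E₄).coeff n =
      if n = 0 then 1 else 240 * (ArithmeticFunction.sigma 3 n : ℂ) := by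
  rw [EisensteinSeries.E_qExpansion_coeff (by norm_num : 3 ≤ 4) ⟨2, rfl⟩ n]
  rcases eq_or_ne n 0 with rfl | hn
  · simp
  · rw [if_neg hn, if_neg hn, bernoulli_four_eq]
    norm_num

theorem qExpansion_E6_coeff (n : ℕ) :
    (qExpansion 1 E₆).coeff n =
      if n = 0 then 1 else -504 * (ArithmeticFunction.sigma 5 n : ℂ) := by
  rw [EisensteinSeries.E_qExpansion_coeff (by norm_num : 3 ≤ 6) ⟨3, rfl⟩ n]
  rcases eq_or_ne n 0 with rfl | hn
  · simp
  · rw [if_neg hn, if_neg hn, bernoulli_six_eq]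
    norm_num

end Fermat.Agent.S16.Eis
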