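import Mathlib

/-!
# S16 (U9/U4): coset representatives of `Γ₀(pN)` in `Γ₀(N)` for a prime `p ∤ N`

The left cosets `h Γ₀(pN)` (`h ∈ Γ₀(N)`) are classified by the class of the first column of `h`
in `P¹(𝔽_p)`; representatives are `1` and `(δ S T^i)⁻¹` (`i mod p`) for a fixed `δ ∈ Γ₀(p)` with
`δ S T^i ∈ Γ₀(N)`.
-/

set_option autoImplicit false
set_option linter.unusedSectionVars false

open CongruenceSubgroup Matrix MatrixGroups

namespace Fermat.Agent.S16.Norm

section Group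

variable (p : ℕ) [Fact p.Prime]

/-- the point `(a : c)` of `P¹(𝔽_p)`. -/
def cls (a c : ZMod p) : Option (ZMod p) := if c = 0 then none else some (a / c)

theorem cls_eq_iff (a c a' c' : ZMod p) (h : a = 0 → c ≠ 0) (h' : a' = 0 → c' ≠ 0) :
    cls p a c = cls p a' c' ↔ a * c' - c * a' = 0 := by
  unfold cls
  by_cases hc : c = 0
  · have ha : a ≠ 0 := fun ha => h ha hc
    by_cases hc' : c' = 0
    · simp [hc, hc']
    · rw [if_pos hc, if_neg hc']
      constructor
      · intro h; exact absurd h (by simp)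
      · intro h2
        exfalso
        apply hc'
        have : a * c' = 0 := by rw [hc] at h2; simpa using h2
        exact (mul_eq_zero.mp this).resolve_left ha
  · by_cases hc' : c' = 0
    · have ha' : a' ≠ 0 := fun ha => h' ha hc'
      rw [if_neg hc, if_pos hc']
      constructor
      · intro h; exact absurd h (by simp)
      · intro h2
        exfalso
        have : c * a' = 0 := by
          rw [hc'] at h2
          linear_combination -h2
        rcases mul_eq_zero.mp this with h1 | h1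
        · exact hc h1
        · exact ha' h1
    · rw [if_neg hc, if_neg hc', Option.some.injEq, div_eq_div_iff hc hc']
      constructor
      · intro h; linear_combination h
      · intro h; linear_combination h

/-- the class of the first column of `γ` in `P¹(𝔽_p)`. -/
def colClass (γ : SL(2, ℤ)) : Option (ZMod p) :=
  cls p ((γ 0 0 : ℤ) : ZMod p) ((γ 1 0 : ℤ) : ZMod p)

theorem det_cast (γ : SL(2, ℤ)) :
    ((γ 0 0 : ℤ) : ZMod p) * ((γ 1 1 : ℤ) : ZMod p)
      - ((γ 0 1 : ℤ) : ZMod p) * ((γ 1 0 : ℤ) : ZMod p) = 1 := by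
  have h := γ.det_coe
  rw [Matrix.det_fin_two] at h
  have h2 := congrArg (Int.cast : ℤ → ZMod p) h
  push_cast at h2
  exact h2

theorem inv_mul_apply_one_zero (γ γ' : SL(2, ℤ)) :
    (γ⁻¹ * γ') 1 0 = γ 0 0 * γ' 1 0 - γ 1 0 * γ' 0 0 := by
  rw [Matrix.SpecialLinearGroup.coe_mul, Matrix.SpecialLinearGroup.coe_inv,
    Matrix.adjugate_fin_two, Matrix.mul_apply, Fin.sum_univ_two]
  simp
  ring

theorem colClass_eq_iff (γ γ' : SL(2, ℤ)) :
    colClass p γ = colClass p γ' ↔ (((γ⁻¹ * γ') 1 0 : ℤ) : ZMod p) = 0 := by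
  rw [inv_mul_apply_one_zero]
  push_cast
  have hd := det_cast p γ
  have hd' := det_cast p γ'
  unfold colClass
  apply cls_eq_iff
  · intro ha hc
    rw [ha, hc] at hd
    simp at hd
  · intro ha hc
    rw [ha, hc] at hd'
    simp at hd'

variable (N : ℕ)

theorem Gamma0_mul_le : Gamma0 (p * N) ≤ Gamma0 N := by
  intro γ hγ
  rw [Gamma0_mem, ZMod.intCast_zmod_eq_zero_iff_dvd] at hγ ⊢
  exact dvd_trans (by push_cast; exact dvd_mul_left _ _) hγ

theorem Gamma0_mul_le' : Gamma0 (p * N) ≤ Gamma0 p := by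
  intro γ hγ
  rw [Gamma0_mem, ZMod.intCast_zmod_eq_zero_iff_dvd] at hγ ⊢
  exact dvd_trans (by push_cast; exact dvd_mul_right _ _) hγ

theorem mem_Gamma0_mul_iff (hp : ¬ p ∣ N) (γ : SL(2, ℤ)) (hγ : γ ∈ Gamma0 N) :
    γ ∈ Gamma0 (p * N) ↔ ((γ 1 0 : ℤ) : ZMod p) = 0 := by
  rw [Gamma0_mem, ZMod.intCast_zmod_eq_zero_iff_dvd, ZMod.intCast_zmod_eq_zero_iff_dvd] at *
  have hcop : IsCoprime (p : ℤ) (N : ℤ) := by
    rw [Int.isCoprime_iff_gcd_eq_one]
    have := (Nat.Prime.coprime_iff_not_dvd (Fact.out : p.Prime)).mpr hp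
    simpa [Int.gcd] using this
  constructor
  · intro h
    exact dvd_trans (by push_cast; exact dvd_mul_right _ _) h
  · intro h
    push_cast
    exact hcop.mul_dvd h hγ

/-- left cosets of `Γ₀(pN)` in `Γ₀(N)` are classified by `colClass`. -/
theorem inv_mul_mem_iff (hp : ¬ p ∣ N) (x y : SL(2, ℤ)) (hx : x ∈ Gamma0 N) (hy : y ∈ Gamma0 N) :
    x⁻¹ * y ∈ Gamma0 (p * N) ↔ colClass p x = colClass p y := by
  rw [colClass_eq_iff]
  exact mem_Gamma0_mul_iff p N hp _ (mul_mem (inv_mem hx) hy)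

/-- the fixed element `δ = [[v, u], [-p, N]]` of `Γ₀(p)` (`u p + v N = 1`). -/
theorem exists_delta (hp : ¬ p ∣ N) :
    ∃ δ : SL(2, ℤ), δ ∈ Gamma0 p ∧ ∀ i : ℤ,
      δ * ModularGroup.S * ModularGroup.T ^ i ∈ Gamma0 N ∧
      colClass p (δ * ModularGroup.S * ModularGroup.T ^ i)⁻¹ = some (-(i : ZMod p)) := by
  have hcop : IsCoprime (p : ℤ) (N : ℤ) := by
    rw [Int.isCoprime_iff_gcd_eq_one]
    have := (Nat.Prime.coprime_iff_not_dvd (Fact.out : p.Prime)).mpr hp
    simpa [Int.gcd] using this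
  obtain ⟨u, v, huv⟩ := hcop
  have hpN : ((N : ℤ) : ZMod p) ≠ 0 := by
    rw [Ne, ZMod.intCast_zmod_eq_zero_iff_dvd]
    exact fun h => hp (Int.natCast_dvd_natCast.mp h)
  have hdet : Matrix.det !![v, u; -(p : ℤ), (N : ℤ)] = 1 := by
    rw [Matrix.det_fin_two_of]; linarith
  let δ : SL(2, ℤ) := ⟨!![v, u; -(p : ℤ), (N : ℤ)], hdet⟩
  have hδ : δ.1 = !![v, u; -(p : ℤ), (N : ℤ)] := rfl
  refine ⟨δ, ?_, ?_⟩
  · rw [Gamma0_mem]
    show ((δ.1 1 0 : ℤ) : ZMod p) = 0
    rw [hδ]
    simp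
  · intro i
    have hmat : (δ * ModularGroup.S * ModularGroup.T ^ i : SL(2, ℤ)).1
        = !![u, u * i - v; (N : ℤ), N * i + p] := by
      rw [Matrix.SpecialLinearGroup.coe_mul, Matrix.SpecialLinearGroup.coe_mul,
        ModularGroup.coe_T_zpow, ModularGroup.coe_S, hδ]
      ext a b
      fin_cases a <;> fin_cases b <;> simp [Matrix.mul_apply, Fin.sum_univ_two]
      ring
    constructor
    · rw [Gamma0_mem]
      show (((δ * ModularGroup.S * ModularGroup.T ^ i : SL(2, ℤ)).1 1 0 : ℤ) : ZMod N) = 0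
      rw [hmat]
      simp
    · unfold colClass
      have h00 : ((δ * ModularGroup.S * ModularGroup.T ^ i)⁻¹ : SL(2, ℤ)).1 0 0
          = (N : ℤ) * i + p := by
        rw [Matrix.SpecialLinearGroup.coe_inv, Matrix.adjugate_fin_two, hmat]
        simp
      have h10 : ((δ * ModularGroup.S * ModularGroup.T ^ i)⁻¹ : SL(2, ℤ)).1 1 0
          = -(N : ℤ) := by
        rw [Matrix.SpecialLinearGroup.coe_inv, Matrix.adjugate_fin_two, hmat]
        simp
      show cls p ((((δ * ModularGroup.S * ModularGroup.T ^ i)⁻¹ : SL(2, ℤ)).1 0 0 : ℤ) : ZMod p)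
        ((((δ * ModularGroup.S * ModularGroup.T ^ i)⁻¹ : SL(2, ℤ)).1 1 0 : ℤ) : ZMod p) = _
      rw [h00, h10]
      unfold cls
      have hN2 : (N : ZMod p) ≠ 0 := by simpa using hpN
      have hN' : ((-(N : ℤ) : ℤ) : ZMod p) ≠ 0 := by
        push_cast
        rw [neg_ne_zero]
        exact hN2
      rw [if_neg hN']
      congr 1
      push_cast
      rw [ZMod.natCast_self, add_zero]
      field_simp

end Group

end Fermat.Agent.S16.Norm
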