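import Mathlib
import Fermat.Agent.S16_NormCosets

/-!
# S16 (U9/U4): the norm from level `pN` to level `N` (`p ∤ N` prime)

`exists_norm`: for `g ∈ M_k(Γ₀(p))`, `A ∈ M_k(Γ₀(N))` there is `Φ ∈ M_{k(p+1)}(Γ₀(N))` with
`Φ = (g + A) · ∏_{i < p} (g|ST^i + A)`.
-/

set_option autoImplicit false
set_option linter.unusedSectionVars false

open UpperHalfPlane Filter CongruenceSubgroup Matrix.SpecialLinearGroup
open scoped ModularForm MatrixGroups Manifold Topology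

namespace Fermat.Agent.S16.Norm

variable (p N : ℕ) [Fact p.Prime]

/-- the sum of a form of level `p` and a form of level `N`, as a form of level `pN`. -/
noncomputable def sumForm {k : ℤ} (g : ModularForm (Gamma0 p) k) (A : ModularForm (Gamma0 N) k) :
    ModularForm (Gamma0 (p * N)) k where
  toFun := ⇑g + ⇑A
  slash_action_eq' γ hγ := by
    have h1 : γ ∈ ((Gamma0 p : Subgroup SL(2, ℤ)) : Subgroup (GL (Fin 2) ℝ)) :=
      Subgroup.map_mono (Gamma0_mul_le' p N) hγ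
    have h2 : γ ∈ ((Gamma0 N : Subgroup SL(2, ℤ)) : Subgroup (GL (Fin 2) ℝ)) :=
      Subgroup.map_mono (Gamma0_mul_le p N) hγ
    rw [SlashAction.add_slash]
    congr 1
    · exact g.slash_action_eq' γ h1
    · exact A.slash_action_eq' γ h2
  holo' := g.holo'.add A.holo'
  bdd_at_cusps' {c} hc := by
    intro γ hγ
    have h1 := g.bdd_at_cusps' (hc.mono (Subgroup.map_mono (Gamma0_mul_le' p N))) γ hγ
    have h2 := A.bdd_at_cusps' (hc.mono (Subgroup.map_mono (Gamma0_mul_le p N))) γ hγ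
    rw [SlashAction.add_slash]
    exact h1.add h2

@[simp] theorem sumForm_apply {k : ℤ} (g : ModularForm (Gamma0 p) k)
    (A : ModularForm (Gamma0 N) k) (z : ℍ) : sumForm p N g A z = g z + A z := rfl

theorem coe_sumForm {k : ℤ} (g : ModularForm (Gamma0 p) k)
    (A : ModularForm (Gamma0 N) k) : (⇑(sumForm p N g A) : ℍ → ℂ) = ⇑g + ⇑A := rfl

/-- the class in the quotient of the image of an element of `Γ₀(N)`. -/
noncomputable def qmk (x : SL(2, ℤ)) (hx : x ∈ Gamma0 N) :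
    ((Gamma0 N : Subgroup SL(2, ℤ)) : Subgroup (GL (Fin 2) ℝ)) ⧸
      (((Gamma0 (p * N) : Subgroup SL(2, ℤ)) : Subgroup (GL (Fin 2) ℝ)).subgroupOf
        ((Gamma0 N : Subgroup SL(2, ℤ)) : Subgroup (GL (Fin 2) ℝ))) :=
  QuotientGroup.mk ⟨mapGL ℝ x, Subgroup.mem_map_of_mem _ hx⟩

theorem qmk_eq_iff (hpN : ¬ p ∣ N) (x y : SL(2, ℤ)) (hx : x ∈ Gamma0 N) (hy : y ∈ Gamma0 N) :
    qmk p N x hx = qmk p N y hy ↔ colClass p x = colClass p y := by
  unfold qmk
  rw [QuotientGroup.eq, Subgroup.mem_subgroupOf, ← inv_mul_mem_iff p N hpN x y hx hy]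
  have : (((⟨mapGL ℝ x, Subgroup.mem_map_of_mem _ hx⟩ :
      ((Gamma0 N : Subgroup SL(2, ℤ)) : Subgroup (GL (Fin 2) ℝ)))⁻¹ *
      ⟨mapGL ℝ y, Subgroup.mem_map_of_mem _ hy⟩ :
      ((Gamma0 N : Subgroup SL(2, ℤ)) : Subgroup (GL (Fin 2) ℝ))) : GL (Fin 2) ℝ)
      = mapGL ℝ (x⁻¹ * y) := by
    simp
  rw [this]
  exact Subgroup.mem_map_iff_mem mapGL_injective

theorem qmk_surjective (q : ((Gamma0 N : Subgroup SL(2, ℤ)) : Subgroup (GL (Fin 2) ℝ)) ⧸
      (((Gamma0 (p * N) : Subgroup SL(2, ℤ)) : Subgroup (GL (Fin 2) ℝ)).subgroupOf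
        ((Gamma0 N : Subgroup SL(2, ℤ)) : Subgroup (GL (Fin 2) ℝ)))) :
    ∃ (x : SL(2, ℤ)) (hx : x ∈ Gamma0 N), q = qmk p N x hx := by
  induction q using QuotientGroup.induction_on with
  | H h =>
    obtain ⟨h, x, hx, rfl⟩ := h
    exact ⟨x, hx, rfl⟩

/-- coset representatives: `1` and `(δ S T^a)⁻¹` (`a mod p`). -/
noncomputable def rep (δ : SL(2, ℤ))
    (hδ : ∀ i : ℤ, δ * ModularGroup.S * ModularGroup.T ^ i ∈ Gamma0 N) :
    Option (ZMod p) → ((Gamma0 N : Subgroup SL(2, ℤ)) : Subgroup (GL (Fin 2) ℝ)) ⧸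
      (((Gamma0 (p * N) : Subgroup SL(2, ℤ)) : Subgroup (GL (Fin 2) ℝ)).subgroupOf
        ((Gamma0 N : Subgroup SL(2, ℤ)) : Subgroup (GL (Fin 2) ℝ)))
  | none => qmk p N 1 (one_mem _)
  | some a => qmk p N (δ * ModularGroup.S * ModularGroup.T ^ (a.val : ℤ))⁻¹ (inv_mem (hδ _))

theorem rep_bijective (hpN : ¬ p ∣ N) (δ : SL(2, ℤ))
    (hδ : ∀ i : ℤ, δ * ModularGroup.S * ModularGroup.T ^ i ∈ Gamma0 N ∧
      colClass p (δ * ModularGroup.S * ModularGroup.T ^ i)⁻¹ = some (-(i : ZMod p))) :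
    Function.Bijective (rep p N δ (fun i => (hδ i).1)) := by
  have : NeZero p := ⟨(Fact.out : p.Prime).ne_zero⟩
  have key : ∀ x : Option (ZMod p), ∃ (y : SL(2, ℤ)) (hy : y ∈ Gamma0 N),
      rep p N δ (fun i => (hδ i).1) x = qmk p N y hy ∧ colClass p y = x.map Neg.neg := by
    intro x
    rcases x with _ | a
    · refine ⟨1, one_mem _, rfl, ?_⟩
      unfold colClass cls
      simp
    · refine ⟨_, inv_mem (hδ _).1, rfl, ?_⟩
      rw [(hδ _).2]
      simp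
  constructor
  · intro x x' h
    obtain ⟨y, hy, h1, h2⟩ := key x
    obtain ⟨y', hy', h1', h2'⟩ := key x'
    rw [h1, h1', qmk_eq_iff p N hpN, h2, h2'] at h
    exact Option.map_injective neg_injective h
  · intro q
    obtain ⟨x, hx, rfl⟩ := qmk_surjective p N q
    obtain ⟨y, hy, h1, h2⟩ := key ((colClass p x).map Neg.neg)
    refine ⟨(colClass p x).map Neg.neg, ?_⟩
    rw [h1, qmk_eq_iff p N hpN, h2]
    rcases colClass p x with _ | a <;> simp

/-- invariance of a form of level `Γ ≤ SL(2, ℤ)` under the slash action of `γ ∈ Γ`. -/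
theorem slash_SL_eq {Γ : Subgroup SL(2, ℤ)} {k : ℤ} (f : ModularForm Γ k) (γ : SL(2, ℤ))
    (hγ : γ ∈ Γ) : (⇑f) ∣[k] γ = ⇑f := by
  rw [ModularForm.SL_slash]
  exact SlashInvariantForm.slash_action_eqn f _ (Subgroup.mem_map_of_mem (mapGL ℝ) hγ)

theorem quotientFunc_qmk {k : ℤ} (F : ModularForm (Gamma0 (p * N)) k) (x : SL(2, ℤ))
    (hx : x ∈ Gamma0 N) :
    SlashInvariantForm.quotientFunc F (qmk p N x hx) = (⇑F) ∣[k] x⁻¹ := by
  unfold qmk
  rw [show (QuotientGroup.mk (⟨mapGL ℝ x, Subgroup.mem_map_of_mem _ hx⟩ :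
      ((Gamma0 N : Subgroup SL(2, ℤ)) : Subgroup (GL (Fin 2) ℝ))) :
      ((Gamma0 N : Subgroup SL(2, ℤ)) : Subgroup (GL (Fin 2) ℝ)) ⧸
      (((Gamma0 (p * N) : Subgroup SL(2, ℤ)) : Subgroup (GL (Fin 2) ℝ)).subgroupOf
        ((Gamma0 N : Subgroup SL(2, ℤ)) : Subgroup (GL (Fin 2) ℝ)))) = ⟦_⟧ from rfl,
    SlashInvariantForm.quotientFunc_mk, ModularForm.SL_slash]
  congr 1
  simp
  rfl

theorem val_finEquiv (n : ℕ) [NeZero n] (i : Fin n) : ((ZMod.finEquiv n) i).val = (i : ℕ) := by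
  cases n with
  | zero => exact (NeZero.ne 0 rfl).elim
  | succ n => rfl

/-- **The norm from level `pN` to level `N`** of `g + A` (`g` of level `p`, `A` of level `N`,
`p ∤ N`): a form of level `N` and weight `k(p+1)`; the `p` non-trivial conjugates are
`g|ST^i + A`. -/
theorem exists_norm [NeZero N] (hpN : ¬ p ∣ N) (k : ℤ)
    (g : ModularForm (Gamma0 p) k) (A : ModularForm (Gamma0 N) k) :
    ∃ Φ : ModularForm (Gamma0 N) (k * (p + 1)), ∀ z : ℍ,
      Φ z = (g z + A z) *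
        ∏ i ∈ Finset.range p,
          ((⇑g ∣[k] (ModularGroup.S * ModularGroup.T ^ (i : ℤ))) z + A z) := by
  classical
  have : NeZero p := ⟨(Fact.out : p.Prime).ne_zero⟩
  obtain ⟨δ, hδp, hδ⟩ := exists_delta p N hpN
  have hbij := rep_bijective p N hpN δ hδ
  have hcard : Nat.card (((Gamma0 N : Subgroup SL(2, ℤ)) : Subgroup (GL (Fin 2) ℝ)) ⧸
      (((Gamma0 (p * N) : Subgroup SL(2, ℤ)) : Subgroup (GL (Fin 2) ℝ)).subgroupOf
        ((Gamma0 N : Subgroup SL(2, ℤ)) : Subgroup (GL (Fin 2) ℝ)))) = p + 1 := by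
    rw [← Nat.card_eq_of_bijective _ hbij]
    simp [Nat.card_eq_fintype_card, ZMod.card]
  have : ((Gamma0 (p * N) : Subgroup SL(2, ℤ)) : Subgroup (GL (Fin 2) ℝ)).IsFiniteRelIndex
      ((Gamma0 N : Subgroup SL(2, ℤ)) : Subgroup (GL (Fin 2) ℝ)) :=
    ⟨by rw [Subgroup.relIndex, Subgroup.index_eq_card, hcard]; omega⟩
  have hw : k * (Nat.card (((Gamma0 N : Subgroup SL(2, ℤ)) : Subgroup (GL (Fin 2) ℝ)) ⧸
      (((Gamma0 (p * N) : Subgroup SL(2, ℤ)) : Subgroup (GL (Fin 2) ℝ)).subgroupOf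
        ((Gamma0 N : Subgroup SL(2, ℤ)) : Subgroup (GL (Fin 2) ℝ)))) : ℤ) = k * (p + 1) := by
    rw [hcard]; push_cast; ring
  refine ⟨ModularForm.mcast hw
    (ModularForm.norm ((Gamma0 N : Subgroup SL(2, ℤ)) : Subgroup (GL (Fin 2) ℝ))
      (sumForm p N g A)), fun z => ?_⟩
  rw [ModularForm.mcast_apply, ModularForm.coe_norm]
  let _ : Fintype (((Gamma0 N : Subgroup SL(2, ℤ)) : Subgroup (GL (Fin 2) ℝ)) ⧸
      (((Gamma0 (p * N) : Subgroup SL(2, ℤ)) : Subgroup (GL (Fin 2) ℝ)).subgroupOf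
        ((Gamma0 N : Subgroup SL(2, ℤ)) : Subgroup (GL (Fin 2) ℝ)))) := Fintype.ofFinite _
  rw [← hbij.prod_comp (fun q => SlashInvariantForm.quotientFunc (sumForm p N g A) q),
    Fintype.prod_option]
  have h0 : SlashInvariantForm.quotientFunc (sumForm p N g A)
      (rep p N δ (fun i => (hδ i).1) none) = ⇑g + ⇑A := by
    show SlashInvariantForm.quotientFunc (sumForm p N g A) (qmk p N 1 (one_mem _)) = _
    rw [quotientFunc_qmk, inv_one, SlashAction.slash_one]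
    rfl
  have h1 : ∀ a : ZMod p, SlashInvariantForm.quotientFunc (sumForm p N g A)
      (rep p N δ (fun i => (hδ i).1) (some a))
      = (⇑g ∣[k] (ModularGroup.S * ModularGroup.T ^ (a.val : ℤ))) + ⇑A := by
    intro a
    show SlashInvariantForm.quotientFunc (sumForm p N g A)
      (qmk p N (δ * ModularGroup.S * ModularGroup.T ^ (a.val : ℤ))⁻¹ (inv_mem (hδ _).1)) = _
    rw [quotientFunc_qmk, inv_inv, coe_sumForm, SlashAction.add_slash]
    congr 1
    · rw [mul_assoc, SlashAction.slash_mul, slash_SL_eq g δ hδp]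
    · exact slash_SL_eq A _ (hδ _).1
  rw [h0]
  simp only [h1]
  rw [Pi.mul_apply, Pi.add_apply, Finset.prod_apply]
  congr 1
  rw [← Fin.prod_univ_eq_prod_range (fun i => (⇑g ∣[k] (ModularGroup.S * ModularGroup.T ^ (i : ℤ))) z + A z) p]
  refine (Fintype.prod_equiv (ZMod.finEquiv p).toEquiv _ _ (fun i => ?_)).symm
  simp only [Pi.add_apply]
  have hv : (((ZMod.finEquiv p).toEquiv i).val : ℤ) = ((i : ℕ) : ℤ) := by
    have := val_finEquiv p i
    exact_mod_cast this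
  rw [hv]

end Fermat.Agent.S16.Norm
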