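import Mathlib

set_option autoImplicit false

/-!
# S23 (L3 helper file): level-one forms from functions, and analytic properties of conjugates
-/

open UpperHalfPlane Filter
open scoped ModularForm MatrixGroups Manifold Topology

namespace Fermat.Agent.S23.Conj

/-- A holomorphic function, bounded at `i∞`, invariant under the weight-`K` slash action of
`SL(2, ℤ)`, is a level-one modular form. -/
theorem exists_modularForm_levelOne (K : ℤ) (F : ℍ → ℂ) (hol : MDiff F)
    (bdd : IsBoundedAtImInfty F) (inv : ∀ γ ∈ 𝒮ℒ, F ∣[K] γ = F) :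
    ∃ G : ModularForm 𝒮ℒ K, (G : ℍ → ℂ) = F := by
  refine ⟨{ toFun := F
            slash_action_eq' := inv
            holo' := hol
            bdd_at_cusps' := ?_ }, rfl⟩
  intro c hc
  rw [OnePoint.isBoundedAt_iff_forall_SL2Z hc]
  intro δ _
  have h : F ∣[K] δ = F := inv _ ⟨δ, rfl⟩
  rw [h]
  exact bdd

/-- A holomorphic function, zero at `i∞`, invariant under the weight-`K` slash action of
`SL(2, ℤ)`, is a level-one cusp form. -/
theorem exists_cuspForm_levelOne (K : ℤ) (F : ℍ → ℂ) (hol : MDiff F)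
    (zero : IsZeroAtImInfty F) (inv : ∀ γ ∈ 𝒮ℒ, F ∣[K] γ = F) :
    ∃ G : CuspForm 𝒮ℒ K, (G : ℍ → ℂ) = F := by
  refine ⟨{ toFun := F
            slash_action_eq' := inv
            holo' := hol
            zero_at_cusps' := ?_ }, rfl⟩
  intro c hc
  rw [OnePoint.isZeroAt_iff_forall_SL2Z hc]
  intro δ _
  have h : F ∣[K] δ = F := inv _ ⟨δ, rfl⟩
  rw [h]
  exact zero

section

variable {𝒢 : Subgroup (GL (Fin 2) ℝ)} [𝒢.IsArithmetic] {k : ℤ} {F : Type*} [FunLike F ℍ ℂ]

/-- The conjugates `f ∣[k] h⁻¹` (`h ∈ 𝒮ℒ`) of a modular form of level `𝒢` are holomorphic. -/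
theorem mdifferentiable_quotientFunc [ModularFormClass F 𝒢 k] (f : F)
    (q : 𝒮ℒ ⧸ 𝒢.subgroupOf 𝒮ℒ) : MDiff (SlashInvariantForm.quotientFunc f q) := by
  induction q using Quotient.inductionOn with
  | h r => exact (ModularForm.translate f r.val⁻¹).holo'

/-- The conjugates of a modular form of level `𝒢` are bounded at `i∞`. -/
theorem isBoundedAtImInfty_quotientFunc [ModularFormClass F 𝒢 k] (f : F)
    (q : 𝒮ℒ ⧸ 𝒢.subgroupOf 𝒮ℒ) : IsBoundedAtImInfty (SlashInvariantForm.quotientFunc f q) := by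
  induction q using Quotient.inductionOn with
  | h r =>
    obtain ⟨r, ⟨δ, rfl⟩⟩ := r
    have hc : IsCusp ((Matrix.SpecialLinearGroup.mapGL ℝ δ)⁻¹ • (OnePoint.infty : OnePoint ℝ)) 𝒢 :=
      (Subgroup.IsArithmetic.isCusp_iff_isCusp_SL2Z _).mpr
        (isCusp_SL2Z_iff'.mpr ⟨δ⁻¹, by rw [map_inv]⟩)
    exact ModularFormClass.bdd_at_cusps f hc _ rfl

/-- The conjugates of a cusp form of level `𝒢` are zero at `i∞`. -/
theorem isZeroAtImInfty_quotientFunc [CuspFormClass F 𝒢 k] (f : F)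
    (q : 𝒮ℒ ⧸ 𝒢.subgroupOf 𝒮ℒ) : IsZeroAtImInfty (SlashInvariantForm.quotientFunc f q) := by
  induction q using Quotient.inductionOn with
  | h r =>
    obtain ⟨r, ⟨δ, rfl⟩⟩ := r
    have hc : IsCusp ((Matrix.SpecialLinearGroup.mapGL ℝ δ)⁻¹ • (OnePoint.infty : OnePoint ℝ)) 𝒢 :=
      (Subgroup.IsArithmetic.isCusp_iff_isCusp_SL2Z _).mpr
        (isCusp_SL2Z_iff'.mpr ⟨δ⁻¹, by rw [map_inv]⟩)
    exact CuspFormClass.zero_at_cusps f hc _ rfl

end

end Fermat.Agent.S23.Conj
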