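import Mathlib
import Fermat.Prelude.Thm_CongruenceSubgroup_one_mem_strictPeriods_Gamma0

/-!
# S23: the algebra of `q`-regular functions

Functions `ℍ → ℂ` that are holomorphic, `1`-periodic and bounded at `i∞` form a `ℂ`-subalgebra
of `ℍ → ℂ` on which the `q`-expansion is an *injective* algebra homomorphism to `ℂ⟦X⟧`.
Modular forms of any weight for `SL(2,ℤ)` and `Γ₀(N)` belong to it.  Identities between such
functions can therefore be checked on `q`-expansions, without any weight bookkeeping.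
-/

namespace Fermat.Agent.S23.QReg

open UpperHalfPlane Function CongruenceSubgroup
open scoped MatrixGroups ModularForm Manifold

/-- `q`-regular functions: `1`-periodic, holomorphic and bounded at `i∞`. -/
def IsQReg (f : ℍ → ℂ) : Prop :=
  Periodic (f ∘ ofComplex) 1 ∧ MDiff f ∧ IsBoundedAtImInfty f

theorem IsQReg.analyticAt {f : ℍ → ℂ} (hf : IsQReg f) : AnalyticAt ℂ (cuspFunction 1 f) 0 :=
  analyticAt_cuspFunction_zero one_pos hf.1 hf.2.1 hf.2.2

theorem IsQReg.mul {f g : ℍ → ℂ} (hf : IsQReg f) (hg : IsQReg g) : IsQReg (f * g) :=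
  ⟨fun w => by
    have h1 := hf.1 w
    have h2 := hg.1 w
    simp only [comp_apply, Pi.mul_apply] at h1 h2 ⊢
    rw [h1, h2], hf.2.1.mul hg.2.1, hf.2.2.mul hg.2.2⟩

theorem IsQReg.add {f g : ℍ → ℂ} (hf : IsQReg f) (hg : IsQReg g) : IsQReg (f + g) :=
  ⟨fun w => by
    have h1 := hf.1 w
    have h2 := hg.1 w
    simp only [comp_apply, Pi.add_apply] at h1 h2 ⊢
    rw [h1, h2], hf.2.1.add hg.2.1, hf.2.2.add hg.2.2⟩

theorem isQReg_const (c : ℂ) : IsQReg (fun _ : ℍ => c) :=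
  ⟨fun _ => rfl, mdifferentiable_const, Filter.const_boundedAtFilter _ c⟩

/-- The subalgebra of `q`-regular functions. -/
def qRegAlg : Subalgebra ℂ (ℍ → ℂ) where
  carrier := {f | IsQReg f}
  mul_mem' hf hg := hf.mul hg
  add_mem' hf hg := hf.add hg
  algebraMap_mem' c := isQReg_const c

theorem mem_qRegAlg {f : ℍ → ℂ} : f ∈ qRegAlg ↔ IsQReg f := Iff.rfl

/-- The `q`-expansion as an algebra homomorphism on `q`-regular functions. -/
noncomputable def qExpHom : qRegAlg →ₐ[ℂ] PowerSeries ℂ where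
  toFun f := qExpansion 1 (f : ℍ → ℂ)
  map_one' := qExpansion_one 1
  map_mul' f g := qExpansion_mul (IsQReg.analyticAt f.2) (IsQReg.analyticAt g.2)
  map_zero' := qExpansion_zero 1
  map_add' f g := qExpansion_add (IsQReg.analyticAt f.2) (IsQReg.analyticAt g.2)
  commutes' c := by
    have h1 : ((algebraMap ℂ qRegAlg c : qRegAlg) : ℍ → ℂ) = c • (1 : ℍ → ℂ) := by
      funext z
      simp [Algebra.algebraMap_eq_smul_one]
    change qExpansion 1 ((algebraMap ℂ qRegAlg c : qRegAlg) : ℍ → ℂ) = _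
    rw [h1, qExpansion_smul (IsQReg.analyticAt (f := 1) (isQReg_const 1)), qExpansion_one,
      PowerSeries.smul_eq_C_mul, mul_one]
    rfl

@[simp] theorem qExpHom_apply (f : qRegAlg) : qExpHom f = qExpansion 1 (f : ℍ → ℂ) := rfl

theorem qExpHom_injective : Function.Injective qExpHom := by
  rw [injective_iff_map_eq_zero]
  intro f hf
  apply Subtype.ext
  exact (qExpansion_eq_zero_iff one_pos f.2.1 f.2.2.1 f.2.2.2).mp hf

/-- Two `q`-regular functions with the same `q`-expansion are equal. -/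
theorem eq_of_qExpansion_eq {f g : ℍ → ℂ} (hf : IsQReg f) (hg : IsQReg g)
    (h : qExpansion 1 f = qExpansion 1 g) : f = g :=
  congrArg Subtype.val (qExpHom_injective (a₁ := ⟨f, hf⟩) (a₂ := ⟨g, hg⟩) h)

/-- Modular forms for a group having `1` as a strict period are `q`-regular. -/
theorem isQReg_of_modularFormClass {F : Type*} [FunLike F ℍ ℂ] {Γ : Subgroup (GL (Fin 2) ℝ)}
    {k : ℤ} [ModularFormClass F Γ k] (f : F) (hΓ : (1 : ℝ) ∈ Γ.strictPeriods) : IsQReg (f : ℍ → ℂ) :=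
  have : Fact (IsCusp OnePoint.infty Γ) := ⟨Γ.isCusp_of_mem_strictPeriods one_pos hΓ⟩
  ⟨SlashInvariantFormClass.periodic_comp_ofComplex f hΓ, ModularFormClass.holo f,
    ModularFormClass.bdd_at_infty f⟩

theorem isQReg_levelOne {F : Type*} [FunLike F ℍ ℂ] {k : ℤ} [ModularFormClass F 𝒮ℒ k] (f : F) :
    IsQReg (f : ℍ → ℂ) :=
  isQReg_of_modularFormClass f _root_.one_mem_strictPeriods_SL

theorem isQReg_Gamma0 {F : Type*} [FunLike F ℍ ℂ] (N : ℕ) {k : ℤ}
    [ModularFormClass F (Gamma0 N) k] (f : F) : IsQReg (f : ℍ → ℂ) :=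
  isQReg_of_modularFormClass f (CongruenceSubgroup.one_mem_strictPeriods_Gamma0 N)

theorem IsQReg.pow {f : ℍ → ℂ} (hf : IsQReg f) (n : ℕ) : IsQReg (f ^ n) :=
  qRegAlg.pow_mem hf n

theorem IsQReg.sum {ι : Type*} (s : Finset ι) {f : ι → ℍ → ℂ} (hf : ∀ i ∈ s, IsQReg (f i)) :
    IsQReg (∑ i ∈ s, f i) :=
  qRegAlg.sum_mem hf

theorem IsQReg.smul {f : ℍ → ℂ} (c : ℂ) (hf : IsQReg f) : IsQReg (c • f) :=
  qRegAlg.smul_mem hf c

theorem qExpansion_pow {f : ℍ → ℂ} (hf : IsQReg f) (n : ℕ) :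
    qExpansion 1 (f ^ n) = qExpansion 1 f ^ n :=
  map_pow qExpHom (⟨f, hf⟩ : qRegAlg) n

theorem qExpansion_mul {f g : ℍ → ℂ} (hf : IsQReg f) (hg : IsQReg g) :
    qExpansion 1 (f * g) = qExpansion 1 f * qExpansion 1 g :=
  map_mul qExpHom (⟨f, hf⟩ : qRegAlg) ⟨g, hg⟩

theorem qExpansion_add {f g : ℍ → ℂ} (hf : IsQReg f) (hg : IsQReg g) :
    qExpansion 1 (f + g) = qExpansion 1 f + qExpansion 1 g :=
  map_add qExpHom (⟨f, hf⟩ : qRegAlg) ⟨g, hg⟩

theorem qExpansion_sum {ι : Type*} (s : Finset ι) {f : ι → ℍ → ℂ} (hf : ∀ i ∈ s, IsQReg (f i)) :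
    qExpansion 1 (∑ i ∈ s, f i) = ∑ i ∈ s, qExpansion 1 (f i) := by
  classical
  induction s using Finset.induction_on with
  | empty => simpa using qExpansion_zero 1
  | insert a s ha ih =>
    rw [Finset.sum_insert ha, Finset.sum_insert ha,
      qExpansion_add (hf a (Finset.mem_insert_self a s))
        (IsQReg.sum s fun i hi => hf i (Finset.mem_insert_of_mem hi)),
      ih fun i hi => hf i (Finset.mem_insert_of_mem hi)]

end Fermat.Agent.S23.QReg
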