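import Mathlib
import Fermat.Prelude.Def_ModularForm_HeckeOperator

/-!
# S24: Laurent expansions at `i∞` of functions on the upper half plane (definitions)

* `qN N τ = exp (2πi τ / N)`, the local parameter at the cusp `∞` for period `N`.
* `HasLaurentExp N f s`: the function `f : ℍ → ℂ` is represented on all of `ℍ` by the Laurent
  series `s` in the variable `qN N`.
* `substSeries m c s`: the formal substitution `q ↦ c * q ^ m` in a Laurent series.
* `utGL a b d`: the upper triangular matrix `[[a, b], [0, d]]` (natural number entries) in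
  `GL (Fin 2) ℝ`, acting on `ℍ` by `τ ↦ (a τ + b) / d`.
-/

set_option autoImplicit false

noncomputable section

open UpperHalfPlane

namespace Fermat.Agent.S24

/-- The local parameter `exp (2πi τ / N)` at `i∞`. -/
def qN (N : ℕ) (τ : ℍ) : ℂ := Function.Periodic.qParam (N : ℝ) (τ : ℂ)

/-- `f` has the Laurent expansion `s` in the variable `qN N` (valid on all of `ℍ`). -/
def HasLaurentExp (N : ℕ) (f : ℍ → ℂ) (s : LaurentSeries ℂ) : Prop :=
  ∃ M : ℕ, (∀ n : ℤ, n < -(M : ℤ) → s.coeff n = 0) ∧
    ∀ τ : ℍ, HasSum (fun n : ℕ => s.coeff ((n : ℤ) - M) * qN N τ ^ n) (qN N τ ^ M * f τ)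

theorem substSeries_aux {R : Type*} [Field R] (m : ℕ) (c : R) (s : LaurentSeries R) :
    BddBelow (Function.support
      (fun k : ℤ => if (m : ℤ) ∣ k then s.coeff (k / m) * c ^ (k / m) else 0)) := by
  refine HahnSeries.forallLTEqZero_supp_BddBelow _ (min 0 ((m : ℤ) * s.order)) ?_
  intro k hk
  have hk0 : k < 0 := lt_of_lt_of_le hk (min_le_left _ _)
  have hk1 : k < (m : ℤ) * s.order := lt_of_lt_of_le hk (min_le_right _ _)
  split_ifs with hdvd
  · obtain ⟨t, rfl⟩ := hdvd
    rcases Nat.eq_zero_or_pos m with hm | hm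
    · subst hm; simp at hk0
    · have hm' : (0 : ℤ) < m := by exact_mod_cast hm
      have ht : t < s.order := lt_of_mul_lt_mul_left hk1 hm'.le
      rw [Int.mul_ediv_cancel_left _ hm'.ne', HahnSeries.coeff_eq_zero_of_lt_order ht, zero_mul]
  · rfl

/-- The formal substitution `q ↦ c * q ^ m` in a Laurent series: the coefficient of `q ^ (m t)`
is `c ^ t * s.coeff t`, all other coefficients vanish. -/
def substSeries {R : Type*} [Field R] (m : ℕ) (c : R) (s : LaurentSeries R) : LaurentSeries R :=
  HahnSeries.ofSuppBddBelow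
    (fun k : ℤ => if (m : ℤ) ∣ k then s.coeff (k / m) * c ^ (k / m) else 0)
    (substSeries_aux m c s)

theorem substSeries_coeff {R : Type*} [Field R] (m : ℕ) (c : R) (s : LaurentSeries R) (k : ℤ) :
    (substSeries m c s).coeff k = if (m : ℤ) ∣ k then s.coeff (k / m) * c ^ (k / m) else 0 :=
  rfl

/-- The upper triangular matrix `[[a, b], [0, d]]` with natural number entries, `a, d ≠ 0`, as
an element of `GL (Fin 2) ℝ`. -/
def utGL (a b d : ℕ) (ha : a ≠ 0) (hd : d ≠ 0) : GL (Fin 2) ℝ :=
  ModularForm.upperTriangularGL a b d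
    (mul_ne_zero (Nat.cast_ne_zero.mpr ha) (Nat.cast_ne_zero.mpr hd))

end Fermat.Agent.S24
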