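import Mathlib
import Fermat.Prelude.Def_ModularCurve_X0
import Fermat.Agent.S23_QReg
import Fermat.Agent.S24_LaurentDefs

/-!
# S24 (M4.1): the analytic `j`-function on the upper half plane

* `jA = E₄³ / Δ`, holomorphic (`mdifferentiable_jA`), `SL(2,ℤ)`-invariant (`jA_smul`),
  surjective (`jA_surjective`).
* `exists_D_jA`: `Δ · D j = c · E₄² E₆` with `c ≠ 0` (`dim M₁₄ = 1`).
* local orders: `analyticOrderAt_jA_sub` (order one away from `0, 1728`), `exists_fixed_S`
  (order two at `i`), `exists_fixed_ST` (order three at `ρ`).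
* `hasSum_jA`: the expansion `q · j = ∑ jNum_n qⁿ` with the coefficients of the formal `jNum`
  of the prelude (`taylor_eulerG`: the analytic Euler product has the Taylor coefficients of the
  formal one).
-/

set_option autoImplicit false

open UpperHalfPlane ModularForm EisensteinSeries Filter Topology
open scoped MatrixGroups Manifold

namespace Fermat.Agent.S24.JAnalytic

open Derivative in
/-- The analytic `j`-function `E₄³ / Δ`. -/
noncomputable def jA (z : ℍ) : ℂ := E₄ z ^ 3 / ModularForm.discriminant z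

theorem discr_mdiff : MDiff ModularForm.discriminant := CuspForm.discriminant.holo'

theorem jA_mdiff : MDiff jA := by
  have h4 : MDiff (⇑E₄) := E₄.holo'
  have hΔ := discr_mdiff
  rw [UpperHalfPlane.mdifferentiable_iff] at h4 hΔ ⊢
  have : DifferentiableOn ℂ
      (fun z => (⇑E₄ ∘ ofComplex) z ^ 3 / (ModularForm.discriminant ∘ ofComplex) z)
      {z | 0 < z.im} :=
    (h4.pow 3).div hΔ fun z _ => ModularForm.discriminant_ne_zero _
  exact this

theorem E4_smul (γ : SL(2, ℤ)) (z : ℍ) : E₄ (γ • z) = denom γ z ^ (4 : ℤ) * E₄ z := by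
  have h : ((⇑E₄) ∣[(4 : ℤ)] γ) z = E₄ z :=
    congrFun (SlashInvariantForm.slash_action_eqn E₄ _ ⟨γ, rfl⟩) z
  rw [ModularForm.SL_slash_apply] at h
  rw [← h, mul_comm, mul_assoc, ← zpow_add₀ (denom_ne_zero _ z)]
  simp

theorem E6_smul (γ : SL(2, ℤ)) (z : ℍ) : E₆ (γ • z) = denom γ z ^ (6 : ℤ) * E₆ z := by
  have h : ((⇑E₆) ∣[(6 : ℤ)] γ) z = E₆ z :=
    congrFun (SlashInvariantForm.slash_action_eqn E₆ _ ⟨γ, rfl⟩) z
  rw [ModularForm.SL_slash_apply] at h
  rw [← h, mul_comm, mul_assoc, ← zpow_add₀ (denom_ne_zero _ z)]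
  simp

theorem discr_smul (γ : SL(2, ℤ)) (z : ℍ) :
    ModularForm.discriminant (γ • z) = denom γ z ^ (12 : ℤ) * ModularForm.discriminant z := by
  have h : (ModularForm.discriminant ∣[(12 : ℤ)] γ) z = ModularForm.discriminant z :=
    congrFun (SlashInvariantForm.slash_action_eqn CuspForm.discriminant _ ⟨γ, rfl⟩) z
  rw [ModularForm.SL_slash_apply] at h
  have h' : ModularForm.discriminant (γ • z) * denom γ z ^ (-(12 : ℤ))
      = ModularForm.discriminant z := h
  rw [← h', mul_comm, mul_assoc, ← zpow_add₀ (denom_ne_zero _ z)]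
  simp

theorem mdifferentiable_jA : MDiff jA := jA_mdiff

theorem jA_smul (γ : SL(2, ℤ)) (z : ℍ) : jA (γ • z) = jA z := by
  unfold jA
  rw [E4_smul, discr_smul]
  have hd : denom γ z ≠ 0 := denom_ne_zero _ z
  have hΔ : ModularForm.discriminant z ≠ 0 := ModularForm.discriminant_ne_zero z
  have h12 : denom γ z ^ (12 : ℤ) ≠ 0 := zpow_ne_zero _ hd
  rw [div_eq_div_iff (mul_ne_zero h12 hΔ) hΔ]
  have : (denom γ z ^ (4 : ℤ)) ^ 3 = denom γ z ^ (12 : ℤ) := by
    rw [← zpow_natCast, ← zpow_mul]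
    norm_num
  rw [mul_pow, this]
  ring

theorem jA_sub (z : ℍ) : jA z - 1728 = E₆ z ^ 2 / ModularForm.discriminant z := by
  unfold jA
  have hΔ : ModularForm.discriminant z ≠ 0 := ModularForm.discriminant_ne_zero z
  have h := ModularForm.discriminant_eq_E₄_cube_sub_E₆_sq z
  field_simp
  rw [h]
  ring

/-! ### Behaviour at `i∞` -/

theorem tendsto_levelOne {k : ℤ} (f : ModularForm 𝒮ℒ k) :
    Tendsto (⇑f) atImInfty (𝓝 ((UpperHalfPlane.qExpansion 1 f).coeff 0)) := by
  have hanal := ModularFormClass.analyticAt_cuspFunction_zero f one_pos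
    one_mem_strictPeriods_SL
  have hper := SlashInvariantFormClass.periodic_comp_ofComplex f
    one_mem_strictPeriods_SL
  rw [UpperHalfPlane.qExpansion_coeff_zero one_pos hanal hper,
    ← UpperHalfPlane.cuspFunction_apply_zero one_pos hanal hper]
  exact (hanal.continuousAt.tendsto.comp (UpperHalfPlane.qParam_tendsto_atImInfty one_pos)).congr
    (fun τ ↦ SlashInvariantFormClass.eq_cuspFunction f τ
      one_mem_strictPeriods_SL one_ne_zero)

theorem tendsto_E4 : Tendsto (⇑E₄) atImInfty (𝓝 1) := by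
  have h := tendsto_levelOne E₄
  rwa [E_qExpansion_coeff_zero _ ⟨2, rfl⟩] at h

theorem tendsto_E6 : Tendsto (⇑E₆) atImInfty (𝓝 1) := by
  have h := tendsto_levelOne E₆
  rwa [E_qExpansion_coeff_zero _ ⟨3, rfl⟩] at h

theorem tendsto_discr : Tendsto ModularForm.discriminant atImInfty (𝓝 0) :=
  ModularForm.discriminant_isZeroAtImInfty

/-- level-one constructor (local copy) -/
theorem exists_levelOne (w : ℤ) (f : ℍ → ℂ) (hol : MDiff f)
    (hinv : ∀ δ : SL(2, ℤ), f ∣[w] δ = f) (hbdd : IsBoundedAtImInfty f) :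
    ∃ g : ModularForm 𝒮ℒ w, ⇑g = f := by
  refine ⟨{ toFun := f
            slash_action_eq' := ?_
            holo' := hol
            bdd_at_cusps' := ?_ }, rfl⟩
  · rintro _ ⟨γ, rfl⟩
    exact hinv γ
  · intro c hc
    rw [OnePoint.isBoundedAt_iff_forall_SL2Z hc]
    intro δ _
    rw [hinv δ]
    exact hbdd

/-- `j` is surjective: otherwise `1 / (E₄³ - c Δ)` would be a nonzero modular form of weight
`-12`. -/
theorem jA_surjective : Function.Surjective jA := by
  intro c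
  by_contra hc0
  have hc : ∀ z, jA z ≠ c := fun z hz => hc0 ⟨z, hz⟩
  set g : ℍ → ℂ := fun z => E₄ z ^ 3 - c * ModularForm.discriminant z with hg
  have hg0 : ∀ z, g z ≠ 0 := by
    intro z h0
    apply hc z
    unfold jA
    rw [div_eq_iff (ModularForm.discriminant_ne_zero z)]
    exact sub_eq_zero.mp h0
  have hgm : MDiff g := by
    have h4 : MDiff (⇑E₄) := E₄.holo'
    have hΔ := discr_mdiff
    rw [UpperHalfPlane.mdifferentiable_iff] at h4 hΔ ⊢
    exact (h4.pow 3).sub (hΔ.const_mul c)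
  have hgs : ∀ (γ : SL(2, ℤ)) (z : ℍ), g (γ • z) = denom γ z ^ (12 : ℤ) * g z := by
    intro γ z
    simp only [hg]
    rw [E4_smul, discr_smul]
    have : (denom γ z ^ (4 : ℤ)) ^ 3 = denom γ z ^ (12 : ℤ) := by
      rw [← zpow_natCast, ← zpow_mul]
      norm_num
    rw [mul_pow, this]
    ring
  have hgt : Tendsto g atImInfty (𝓝 1) := by
    have h1 := (tendsto_E4.pow 3).sub (tendsto_discr.const_mul c)
    simpa using h1
  set h : ℍ → ℂ := fun z => (g z)⁻¹ with hh
  have hhm : MDiff h := by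
    rw [UpperHalfPlane.mdifferentiable_iff] at hgm ⊢
    exact hgm.inv fun z _ => hg0 _
  have hhs : ∀ δ : SL(2, ℤ), h ∣[(-12 : ℤ)] δ = h := by
    intro δ
    funext z
    rw [ModularForm.SL_slash_apply]
    simp only [hh]
    rw [hgs δ z, mul_inv, mul_comm, ← mul_assoc, neg_neg, mul_inv_cancel₀
      (zpow_ne_zero _ (denom_ne_zero _ z)), one_mul]
  have hhb : IsBoundedAtImInfty h := by
    have : Tendsto h atImInfty (𝓝 (1 : ℂ)⁻¹) := hgt.inv₀ one_ne_zero
    exact this.isBigO_one ℝ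
  obtain ⟨G, hG⟩ := exists_levelOne (-12) h hhm hhs hhb
  have hG0 : (⇑G : ℍ → ℂ) = 0 := ModularFormClass.levelOne_neg_weight_eq_zero (by norm_num) G
  have := congrFun (hG.symm.trans hG0) UpperHalfPlane.I
  simp only [hh, Pi.zero_apply, inv_eq_zero] at this
  exact hg0 _ this

/-! ### The derivative of `j` -/

open Derivative

/-- The normalized derivative preserves boundedness at `i∞` (Cauchy estimate). -/
theorem isBounded_D {f : ℍ → ℂ} (hf : MDiff f) (hb : IsBoundedAtImInfty f) :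
    IsBoundedAtImInfty (D f) := by
  rw [UpperHalfPlane.isBoundedAtImInfty_iff] at hb ⊢
  obtain ⟨M, A, hM⟩ := hb
  refine ⟨(2 * Real.pi)⁻¹ * M, max A 0 + 2, fun z hz => ?_⟩
  have hdiff : DifferentiableOn ℂ (f ∘ ofComplex) {w | 0 < w.im} :=
    UpperHalfPlane.mdifferentiable_iff.mp hf
  have him : ∀ w ∈ Metric.closedBall (z : ℂ) 1, max A 0 + 1 ≤ w.im := by
    intro w hw
    have h1 : |(w - (z : ℂ)).im| ≤ ‖w - (z : ℂ)‖ := Complex.abs_im_le_norm _
    have h2 : ‖w - (z : ℂ)‖ ≤ 1 := by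
      rw [← dist_eq_norm]
      exact Metric.mem_closedBall.mp hw
    have h3 : (w - (z : ℂ)).im = w.im - z.im := by simp
    rw [h3] at h1
    have h4 := (abs_le.mp (h1.trans h2)).1
    have h5 : max A 0 + 2 ≤ (z : ℂ).im := hz
    have h6 : (z : ℂ).im = z.im := rfl
    linarith
  have hsub : Metric.closedBall (z : ℂ) 1 ⊆ {w : ℂ | 0 < w.im} := by
    intro w hw
    have := him w hw
    have h0 : (0 : ℝ) ≤ max A 0 := le_max_right _ _
    show 0 < w.im
    linarith
  have hcauchy : ‖deriv (f ∘ ofComplex) z‖ ≤ M / 1 := by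
    apply Complex.norm_deriv_le_of_forall_mem_sphere_norm_le one_pos
      (hdiff.diffContOnCl_ball hsub)
    intro w hw
    have hwc : w ∈ Metric.closedBall (z : ℂ) 1 := Metric.sphere_subset_closedBall hw
    have hwpos : 0 < w.im := hsub hwc
    have hA : A ≤ w.im := by
      have := him w hwc
      have h0 : A ≤ max A 0 := le_max_left _ _
      linarith
    have := hM ⟨w, hwpos⟩ hA
    simpa [Function.comp, ofComplex_apply_of_im_pos hwpos] using this
  simp only [normalizedDerivOfComplex]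
  rw [norm_mul]
  have hn : ‖(2 * (Real.pi : ℂ) * Complex.I)⁻¹‖ = (2 * Real.pi)⁻¹ := by
    rw [norm_inv, norm_mul, norm_mul, Complex.norm_I, mul_one]
    simp [abs_of_pos Real.pi_pos]
  rw [hn]
  rw [div_one] at hcauchy
  exact mul_le_mul_of_nonneg_left hcauchy (by positivity)

theorem jA_slash (γ : SL(2, ℤ)) : jA ∣[(0 : ℤ)] γ = jA := by
  funext z
  rw [ModularForm.SL_slash_apply, jA_smul]
  simp

theorem D_jA_slash (γ : SL(2, ℤ)) : (D jA) ∣[(2 : ℤ)] γ = D jA := by
  have h := normalizedDerivOfComplex_SL_slash (k := 0) jA_mdiff (γ := γ)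
  rw [jA_slash] at h
  funext z
  have hz := congrFun h z
  simp only [Pi.sub_apply, Int.cast_zero, zero_mul, sub_zero] at hz
  have h2 : ((D jA) ∣[(0 : ℤ) + 2] γ) z = D jA z := hz.symm
  simpa using h2

theorem discr_mul_jA : ModularForm.discriminant * jA = (⇑E₄) ^ 3 := by
  funext z
  simp only [Pi.mul_apply, Pi.pow_apply, jA]
  field_simp [ModularForm.discriminant_ne_zero z]

/-- `D Δ = E₂ Δ`. -/
theorem D_discr : D ModularForm.discriminant = EisensteinSeries.E2 * ModularForm.discriminant := by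
  funext z
  simp only [normalizedDerivOfComplex, Pi.mul_apply]
  have hz : (z : ℂ) ∈ upperHalfPlaneSet := z.im_pos
  have heq : (ModularForm.discriminant ∘ ofComplex) =ᶠ[𝓝 (z : ℂ)] fun w => ModularForm.eta w ^ 24 := by
    filter_upwards [isOpen_upperHalfPlaneSet.mem_nhds hz] with w hw
    simp [ModularForm.discriminant, ofComplex_apply_of_im_pos hw]
  rw [heq.deriv_eq]
  have hη := ModularForm.differentiableAt_eta_of_mem_upperHalfPlaneSet hz
  have hd : deriv (fun w => ModularForm.eta w ^ 24) (z : ℂ)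
      = 24 * ModularForm.eta z ^ 23 * deriv ModularForm.eta z := by
    have := (hη.hasDerivAt.pow 24).deriv
    rw [show (fun w => ModularForm.eta w ^ 24) = ModularForm.eta ^ 24 from rfl]
    simpa using this
  rw [hd]
  have hlog := ModularForm.logDeriv_eta_eq_E2 z
  rw [logDeriv_apply, div_eq_iff (ModularForm.eta_ne_zero hz)] at hlog
  rw [hlog]
  have hpi : (2 * (Real.pi : ℂ) * Complex.I) ≠ 0 := by
    simp [Real.pi_ne_zero]
  simp only [ModularForm.discriminant]
  field_simp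
  ring

theorem E4_mdiff : MDiff (⇑E₄) := E₄.holo'

theorem E6_mdiff : MDiff (⇑E₆) := E₆.holo'

theorem E4_bdd : IsBoundedAtImInfty (⇑E₄) := tendsto_E4.isBigO_one ℝ

theorem E6_bdd : IsBoundedAtImInfty (⇑E₆) := tendsto_E6.isBigO_one ℝ

theorem E4_cube_mdiff : MDiff ((⇑E₄) ^ 3) := by
  have h4 := E4_mdiff
  rw [UpperHalfPlane.mdifferentiable_iff] at h4 ⊢
  exact h4.pow 3

theorem E4_cube_bdd : IsBoundedAtImInfty ((⇑E₄) ^ 3) :=
  (tendsto_E4.pow 3).isBigO_one ℝ

/-- `Δ · D j = D(E₄³) - E₂ E₄³`. -/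
theorem discr_mul_D_jA :
    ModularForm.discriminant * D jA = D ((⇑E₄) ^ 3) - EisensteinSeries.E2 * (⇑E₄) ^ 3 := by
  have h := normalizedDerivOfComplex_mul ModularForm.discriminant jA discr_mdiff jA_mdiff
  rw [discr_mul_jA, D_discr] at h
  rw [h, mul_assoc, discr_mul_jA]
  ring

theorem discr_mul_D_jA_mdiff : MDiff (ModularForm.discriminant * D jA) := by
  have h1 := discr_mdiff
  have h2 := normalizedDerivOfComplex_mdifferentiable jA_mdiff
  rw [UpperHalfPlane.mdifferentiable_iff] at h1 h2 ⊢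
  exact h1.mul h2

theorem discr_mul_D_jA_bdd : IsBoundedAtImInfty (ModularForm.discriminant * D jA) := by
  rw [discr_mul_D_jA, sub_eq_add_neg]
  exact Filter.BoundedAtFilter.add (isBounded_D E4_cube_mdiff E4_cube_bdd)
    (Filter.BoundedAtFilter.neg
      (Filter.BoundedAtFilter.mul EisensteinSeries.isBoundedAtImInfty_E2 E4_cube_bdd))

theorem discr_mul_D_jA_slash (γ : SL(2, ℤ)) :
    (ModularForm.discriminant * D jA) ∣[(14 : ℤ)] γ = ModularForm.discriminant * D jA := by
  have h := ModularForm.mul_slash_SL2 12 2 γ ModularForm.discriminant (D jA)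
  have hΔ : ModularForm.discriminant ∣[(12 : ℤ)] γ = ModularForm.discriminant :=
    SlashInvariantForm.slash_action_eqn CuspForm.discriminant _ ⟨γ, rfl⟩
  rw [hΔ, D_jA_slash] at h
  exact h

/-- `E₄² E₆` as a level-one form of weight 14. -/
noncomputable def E14 : ModularForm 𝒮ℒ 14 :=
  ModularForm.mcast (by norm_num) ((E₄.mul E₄).mul E₆)

theorem E14_apply (z : ℍ) : E14 z = E₄ z ^ 2 * E₆ z := by
  show E₄ z * E₄ z * E₆ z = E₄ z ^ 2 * E₆ z
  ring

theorem tendsto_E14 : Tendsto (⇑E14) atImInfty (𝓝 1) := by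
  have h := (tendsto_E4.pow 2).mul tendsto_E6
  simp only [one_pow, mul_one] at h
  refine h.congr fun z => ?_
  rw [E14_apply]

theorem E14_ne_zero : E14 ≠ 0 := by
  intro h0
  have h1 : Tendsto (⇑E14) atImInfty (𝓝 0) := by
    rw [h0]
    exact tendsto_const_nhds
  exact one_ne_zero (tendsto_nhds_unique tendsto_E14 h1)

theorem rank_fourteen : Module.finrank ℂ (ModularForm 𝒮ℒ 14) = 1 := by
  have h := ModularForm.dimension_level_one 14 ⟨7, rfl⟩
  have h2 : (14 : ℕ) ≡ 2 [MOD 12] := by decide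
  rw [if_pos h2] at h
  have h3 : Module.rank ℂ (ModularForm 𝒮ℒ 14) = 1 := by
    simpa using h
  exact Module.rank_eq_one_iff_finrank_eq_one.mp h3

theorem jA_not_const : ∃ z₁ z₂ : ℍ, jA z₁ ≠ jA z₂ := by
  obtain ⟨z₁, h1⟩ := jA_surjective 0
  obtain ⟨z₂, h2⟩ := jA_surjective 1
  exact ⟨z₁, z₂, by rw [h1, h2]; exact zero_ne_one⟩

/-- (J3) `Δ · D j = c · E₄² E₆` with `c ≠ 0`. -/
theorem exists_D_jA :
    ∃ c : ℂ, c ≠ 0 ∧ ∀ z : ℍ, ModularForm.discriminant z * D jA z = c * (E₄ z ^ 2 * E₆ z) := by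
  obtain ⟨G, hG⟩ := exists_levelOne 14 _ discr_mul_D_jA_mdiff discr_mul_D_jA_slash
    discr_mul_D_jA_bdd
  obtain ⟨c, hc⟩ := (finrank_eq_one_iff_of_nonzero' E14 E14_ne_zero).mp rank_fourteen G
  have hval : ∀ z : ℍ, ModularForm.discriminant z * D jA z = c * (E₄ z ^ 2 * E₆ z) := by
    intro z
    have h1 := congrFun hG z
    rw [← hc] at h1
    simp only [FunLike.coe_smul, Pi.smul_apply, smul_eq_mul, E14_apply, Pi.mul_apply] at h1
    exact h1.symm
  refine ⟨c, ?_, hval⟩
  rintro rfl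
  obtain ⟨z₁, z₂, hne⟩ := jA_not_const
  apply hne
  have hD0 : ∀ z : ℍ, D jA z = 0 := by
    intro z
    have := hval z
    rw [zero_mul] at this
    exact (mul_eq_zero.mp this).resolve_left (ModularForm.discriminant_ne_zero z)
  have hdiff : DifferentiableOn ℂ (jA ∘ ofComplex) {w | 0 < w.im} :=
    UpperHalfPlane.mdifferentiable_iff.mp jA_mdiff
  have hderiv : Set.EqOn (deriv (jA ∘ ofComplex)) 0 {w : ℂ | 0 < w.im} := by
    intro w hw
    have := hD0 ⟨w, hw⟩
    simp only [normalizedDerivOfComplex] at this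
    have hpi : (2 * (Real.pi : ℂ) * Complex.I)⁻¹ ≠ 0 := by
      simp [Real.pi_ne_zero]
    exact (mul_eq_zero.mp this).resolve_left hpi
  have hconst := isOpen_upperHalfPlaneSet.is_const_of_deriv_eq_zero
    (convex_halfSpace_im_gt 0).isPreconnected hdiff hderiv z₁.im_pos z₂.im_pos
  simpa using hconst


/-! ### Local orders -/

theorem analyticAt_comp_ofComplex {f : ℍ → ℂ} (hf : MDiff f) (τ : ℍ) :
    AnalyticAt ℂ (fun z : ℂ => f (ofComplex z)) (τ : ℂ) := by
  have hd : DifferentiableOn ℂ (f ∘ ofComplex) {z | 0 < z.im} :=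
    UpperHalfPlane.mdifferentiable_iff.mp hf
  exact hd.analyticAt (isOpen_upperHalfPlaneSet.mem_nhds τ.im_pos)

/-- `j - c` does not vanish identically near any point. -/
theorem analyticOrderAt_jA_sub_ne_top (c : ℂ) (τ₀ : ℍ) :
    analyticOrderAt (fun z : ℂ => jA (ofComplex z) - c) (τ₀ : ℂ) ≠ ⊤ := by
  intro htop
  rw [analyticOrderAt_eq_top] at htop
  have han : AnalyticOnNhd ℂ (fun z : ℂ => jA (ofComplex z) - c) {z | 0 < z.im} := by
    intro z hz
    exact (analyticAt_comp_ofComplex jA_mdiff ⟨z, hz⟩).sub analyticAt_const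
  have hzero := han.eqOn_zero_of_preconnected_of_eventuallyEq_zero
    (convex_halfSpace_im_gt 0).isPreconnected τ₀.im_pos htop
  obtain ⟨z₁, z₂, hne⟩ := jA_not_const
  apply hne
  have h1 := hzero z₁.im_pos
  have h2 := hzero z₂.im_pos
  simp only [Pi.zero_apply, ofComplex_apply, sub_eq_zero] at h1 h2
  rw [h1, h2]

theorem deriv_jA (τ : ℍ) :
    deriv (fun z : ℂ => jA (ofComplex z)) (τ : ℂ)
      = 2 * Real.pi * Complex.I * D jA τ := by
  simp only [normalizedDerivOfComplex]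
  have hpi : (2 * (Real.pi : ℂ) * Complex.I) ≠ 0 := by
    simp [Real.pi_ne_zero]
  rw [← mul_assoc, mul_inv_cancel₀ hpi, one_mul]
  rfl

/-- `dj/dz = c E₄² E₆ / Δ` with `c ≠ 0`. -/
theorem exists_deriv_jA :
    ∃ c : ℂ, c ≠ 0 ∧ ∀ τ : ℍ, deriv (fun z : ℂ => jA (ofComplex z)) (τ : ℂ)
      = c * (E₄ τ ^ 2 * E₆ τ) * (ModularForm.discriminant τ)⁻¹ := by
  obtain ⟨c, hc, h⟩ := exists_D_jA
  have hpi : (2 * (Real.pi : ℂ) * Complex.I) ≠ 0 := by
    simp [Real.pi_ne_zero]
  refine ⟨2 * Real.pi * Complex.I * c, mul_ne_zero hpi hc, fun τ => ?_⟩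
  rw [deriv_jA]
  have hΔ : ModularForm.discriminant τ ≠ 0 := ModularForm.discriminant_ne_zero τ
  have h1 : D jA τ = c * (E₄ τ ^ 2 * E₆ τ) * (ModularForm.discriminant τ)⁻¹ := by
    rw [← h τ]
    field_simp
  rw [h1]
  ring

theorem analyticAt_E4 (τ : ℍ) : AnalyticAt ℂ (fun z : ℂ => E₄ (ofComplex z)) (τ : ℂ) :=
  analyticAt_comp_ofComplex E4_mdiff τ

theorem analyticAt_E6 (τ : ℍ) : AnalyticAt ℂ (fun z : ℂ => E₆ (ofComplex z)) (τ : ℂ) :=
  analyticAt_comp_ofComplex E6_mdiff τ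

theorem analyticAt_discr_inv (τ : ℍ) :
    AnalyticAt ℂ (fun z : ℂ => (ModularForm.discriminant (ofComplex z))⁻¹) (τ : ℂ) :=
  (analyticAt_comp_ofComplex discr_mdiff τ).inv (ModularForm.discriminant_ne_zero _)

theorem analyticOrderAt_discr_inv (τ : ℍ) :
    analyticOrderAt (fun z : ℂ => (ModularForm.discriminant (ofComplex z))⁻¹) (τ : ℂ) = 0 :=
  (analyticAt_discr_inv τ).analyticOrderAt_eq_zero.mpr
    (inv_ne_zero (ModularForm.discriminant_ne_zero _))

/-- order of `j` at `τ` is three times the order of `E₄`. -/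
theorem analyticOrderAt_jA (τ : ℍ) :
    analyticOrderAt (fun z : ℂ => jA (ofComplex z)) (τ : ℂ)
      = 3 • analyticOrderAt (fun z : ℂ => E₄ (ofComplex z)) (τ : ℂ) := by
  have h : (fun z : ℂ => jA (ofComplex z))
      = (fun z : ℂ => E₄ (ofComplex z)) ^ 3
        * (fun z : ℂ => (ModularForm.discriminant (ofComplex z))⁻¹) := by
    funext z
    simp only [jA, Pi.mul_apply, Pi.pow_apply, div_eq_mul_inv]
  rw [h, analyticOrderAt_mul ((analyticAt_E4 τ).pow 3) (analyticAt_discr_inv τ),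
    analyticOrderAt_pow (analyticAt_E4 τ), analyticOrderAt_discr_inv, add_zero]

/-- order of `j - 1728` at `τ` is twice the order of `E₆`. -/
theorem analyticOrderAt_jA_sub_1728 (τ : ℍ) :
    analyticOrderAt (fun z : ℂ => jA (ofComplex z) - 1728) (τ : ℂ)
      = 2 • analyticOrderAt (fun z : ℂ => E₆ (ofComplex z)) (τ : ℂ) := by
  have h : (fun z : ℂ => jA (ofComplex z) - 1728)
      = (fun z : ℂ => E₆ (ofComplex z)) ^ 2
        * (fun z : ℂ => (ModularForm.discriminant (ofComplex z))⁻¹) := by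
    funext z
    simp only [jA_sub, Pi.mul_apply, Pi.pow_apply, div_eq_mul_inv]
  rw [h, analyticOrderAt_mul ((analyticAt_E6 τ).pow 2) (analyticAt_discr_inv τ),
    analyticOrderAt_pow (analyticAt_E6 τ), analyticOrderAt_discr_inv, add_zero]

/-- order of `dj/dz` at `τ`. -/
theorem analyticOrderAt_deriv_jA (τ : ℍ) :
    analyticOrderAt (deriv (fun z : ℂ => jA (ofComplex z))) (τ : ℂ)
      = 2 • analyticOrderAt (fun z : ℂ => E₄ (ofComplex z)) (τ : ℂ)
        + analyticOrderAt (fun z : ℂ => E₆ (ofComplex z)) (τ : ℂ) := by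
  obtain ⟨c, hc, h⟩ := exists_deriv_jA
  have heq : deriv (fun z : ℂ => jA (ofComplex z)) =ᶠ[𝓝 (τ : ℂ)]
      ((fun _ : ℂ => c) * ((fun z : ℂ => E₄ (ofComplex z)) ^ 2
        * (fun z : ℂ => E₆ (ofComplex z))))
        * (fun z : ℂ => (ModularForm.discriminant (ofComplex z))⁻¹) := by
    filter_upwards [isOpen_upperHalfPlaneSet.mem_nhds τ.im_pos] with w hw
    have := h ⟨w, hw⟩
    simp only [Pi.mul_apply, Pi.pow_apply]
    rw [ofComplex_apply_of_im_pos hw]
    exact this
  have hcan : AnalyticAt ℂ (fun _ : ℂ => c) (τ : ℂ) := analyticAt_const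
  have hc0 : analyticOrderAt (fun _ : ℂ => c) (τ : ℂ) = 0 :=
    hcan.analyticOrderAt_eq_zero.mpr hc
  have h46 : AnalyticAt ℂ ((fun z : ℂ => E₄ (ofComplex z)) ^ 2
        * (fun z : ℂ => E₆ (ofComplex z))) (τ : ℂ) :=
    ((analyticAt_E4 τ).pow 2).mul (analyticAt_E6 τ)
  rw [analyticOrderAt_congr heq, analyticOrderAt_mul (hcan.mul h46) (analyticAt_discr_inv τ),
    analyticOrderAt_mul hcan h46, analyticOrderAt_mul ((analyticAt_E4 τ).pow 2) (analyticAt_E6 τ),
    analyticOrderAt_pow (analyticAt_E4 τ), analyticOrderAt_discr_inv, hc0, add_zero, zero_add]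

theorem E4_ne_zero_of_jA_ne_zero {τ : ℍ} (h : jA τ ≠ 0) : E₄ τ ≠ 0 := by
  intro h0
  apply h
  simp [jA, h0]

theorem E6_ne_zero_of_jA_ne {τ : ℍ} (h : jA τ ≠ 1728) : E₆ τ ≠ 0 := by
  intro h0
  apply h
  have := jA_sub τ
  rw [h0] at this
  simpa [sub_eq_zero] using this

/-- (J4) `j - j(τ₀)` vanishes to order exactly one away from the values `0, 1728`. -/
theorem analyticOrderAt_jA_sub (τ₀ : ℍ) (h0 : jA τ₀ ≠ 0) (h1 : jA τ₀ ≠ 1728) :
    analyticOrderAt (fun z : ℂ => jA (ofComplex z) - jA τ₀) (τ₀ : ℂ) = 1 := by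
  obtain ⟨c, hc, h⟩ := exists_deriv_jA
  have hd : deriv (fun z : ℂ => jA (ofComplex z)) (τ₀ : ℂ) ≠ 0 := by
    rw [h τ₀]
    exact mul_ne_zero (mul_ne_zero hc (mul_ne_zero (pow_ne_zero 2 (E4_ne_zero_of_jA_ne_zero h0))
      (E6_ne_zero_of_jA_ne h1))) (inv_ne_zero (ModularForm.discriminant_ne_zero _))
  have := (analyticAt_comp_ofComplex jA_mdiff τ₀).analyticOrderAt_sub_eq_one_of_deriv_ne_zero hd
  simpa only [ofComplex_apply] using this

theorem E6_I : E₆ UpperHalfPlane.I = 0 := by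
  have hS : ModularGroup.S • UpperHalfPlane.I = UpperHalfPlane.I :=
    ModularGroup.stabilizer_I.mpr (by simp)
  have h := E6_smul ModularGroup.S UpperHalfPlane.I
  rw [hS, ModularGroup.denom_S] at h
  have hI : ((UpperHalfPlane.I : ℍ) : ℂ) ^ (6 : ℤ) = -1 := by
    have : ((UpperHalfPlane.I : ℍ) : ℂ) = Complex.I := rfl
    rw [this]
    have h6 : (Complex.I) ^ (6 : ℤ) = (Complex.I ^ 2) ^ 3 := by
      rw [← pow_mul]; norm_cast
    rw [h6, Complex.I_sq]
    norm_num
  rw [hI] at h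
  have h2 : (2 : ℂ) * E₆ UpperHalfPlane.I = 0 := by linear_combination h
  simpa using h2

theorem ENat_eq_one_of_add_one_eq_two_smul {m : ℕ∞} (hm : m ≠ ⊤) (h : m + 1 = 2 • m) : m = 1 := by
  lift m to ℕ using hm
  have h' : m + 1 = 2 * m := by
    have : ((m + 1 : ℕ) : ℕ∞) = ((2 * m : ℕ) : ℕ∞) := by
      push_cast
      rw [h, two_nsmul, two_mul]
    exact_mod_cast this
  have : m = 1 := by omega
  rw [this]
  rfl

theorem exists_fixed_S :
    ∃ τ₀ : ℍ, ModularGroup.S • τ₀ = τ₀ ∧ jA τ₀ = 1728 ∧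
      analyticOrderAt (fun z : ℂ => jA (ofComplex z) - 1728) (τ₀ : ℂ) = 2 := by
  have hS : ModularGroup.S • UpperHalfPlane.I = UpperHalfPlane.I :=
    ModularGroup.stabilizer_I.mpr (by simp)
  have hj : jA UpperHalfPlane.I = 1728 := by
    have := jA_sub UpperHalfPlane.I
    rw [E6_I] at this
    simpa [sub_eq_zero] using this
  refine ⟨UpperHalfPlane.I, hS, hj, ?_⟩
  have h4 : E₄ UpperHalfPlane.I ≠ 0 := by
    apply E4_ne_zero_of_jA_ne_zero
    rw [hj]
    norm_num
  have he4 : analyticOrderAt (fun z : ℂ => E₄ (ofComplex z)) ((UpperHalfPlane.I : ℍ) : ℂ) = 0 := by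
    rw [(analyticAt_E4 _).analyticOrderAt_eq_zero, ofComplex_apply]
    exact h4
  have hd := analyticOrderAt_deriv_jA UpperHalfPlane.I
  rw [he4, smul_zero, zero_add] at hd
  have hadd := (analyticAt_comp_ofComplex jA_mdiff UpperHalfPlane.I).analyticOrderAt_deriv_add_one
  simp only [ofComplex_apply] at hadd
  rw [hj, hd, analyticOrderAt_jA_sub_1728] at hadd
  have hne : analyticOrderAt (fun z : ℂ => E₆ (ofComplex z)) ((UpperHalfPlane.I : ℍ) : ℂ) ≠ ⊤ := by
    intro htop
    apply analyticOrderAt_jA_sub_ne_top 1728 UpperHalfPlane.I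
    rw [analyticOrderAt_jA_sub_1728, htop]
    rfl
  rw [analyticOrderAt_jA_sub_1728, ENat_eq_one_of_add_one_eq_two_smul hne hadd]
  rfl


theorem denom_ST (z : ℍ) :
    denom ((ModularGroup.S * ModularGroup.T : SL(2, ℤ)) : GL (Fin 2) ℝ) z = (z : ℂ) + 1 := by
  rw [ModularGroup.denom_apply]
  simp [ModularGroup.S, ModularGroup.T]

theorem E4_rho : E₄ UpperHalfPlane.ρ = 0 := by
  have hST : (ModularGroup.S * ModularGroup.T) • UpperHalfPlane.ρ = UpperHalfPlane.ρ :=
    ModularGroup.stabilizer_ρ.mpr (by simp)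
  have h := E4_smul (ModularGroup.S * ModularGroup.T) UpperHalfPlane.ρ
  rw [hST, denom_ST] at h
  have hsq := UpperHalfPlane.ρ_sq
  have h4 : (((UpperHalfPlane.ρ : ℍ) : ℂ) + 1) ^ (4 : ℤ) = -(UpperHalfPlane.ρ : ℂ) - 1 := by
    have e : (((UpperHalfPlane.ρ : ℍ) : ℂ) + 1) ^ (4 : ℤ) = (((UpperHalfPlane.ρ : ℍ) : ℂ) + 1) ^ 4 := by
      norm_cast
    rw [e]
    linear_combination ((UpperHalfPlane.ρ : ℂ) ^ 2 + 3 * (UpperHalfPlane.ρ : ℂ) + 2) * hsq
  rw [h4] at h
  have hne : (2 : ℂ) + (UpperHalfPlane.ρ : ℂ) ≠ 0 := by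
    intro h0
    have him := congrArg Complex.im h0
    simp at him
    exact absurd him (ne_of_gt UpperHalfPlane.ρ.im_pos)
  have h2 : ((2 : ℂ) + (UpperHalfPlane.ρ : ℂ)) * E₄ UpperHalfPlane.ρ = 0 := by
    linear_combination h
  exact (mul_eq_zero.mp h2).resolve_left hne

theorem ENat_eq_one_of_add_one_eq_three_smul {m : ℕ∞} (hm : m ≠ ⊤) (h : 2 • m + 1 = 3 • m) :
    m = 1 := by
  lift m to ℕ using hm
  have h' : 2 * m + 1 = 3 * m := by
    have h2 : (2 : ℕ∞) * m + 1 = 3 * m := by simpa [nsmul_eq_mul] using h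
    exact_mod_cast h2
  have : m = 1 := by omega
  rw [this]
  rfl

theorem exists_fixed_ST :
    ∃ τ₀ : ℍ, (ModularGroup.S * ModularGroup.T) • τ₀ = τ₀ ∧ jA τ₀ = 0 ∧
      analyticOrderAt (fun z : ℂ => jA (ofComplex z)) (τ₀ : ℂ) = 3 := by
  have hST : (ModularGroup.S * ModularGroup.T) • UpperHalfPlane.ρ = UpperHalfPlane.ρ :=
    ModularGroup.stabilizer_ρ.mpr (by simp)
  have hj : jA UpperHalfPlane.ρ = 0 := by
    simp [jA, E4_rho]
  refine ⟨UpperHalfPlane.ρ, hST, hj, ?_⟩
  have h6 : E₆ UpperHalfPlane.ρ ≠ 0 := by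
    apply E6_ne_zero_of_jA_ne
    rw [hj]
    norm_num
  have he6 : analyticOrderAt (fun z : ℂ => E₆ (ofComplex z)) ((UpperHalfPlane.ρ : ℍ) : ℂ) = 0 := by
    rw [(analyticAt_E6 _).analyticOrderAt_eq_zero, ofComplex_apply]
    exact h6
  have hd := analyticOrderAt_deriv_jA UpperHalfPlane.ρ
  rw [he6, add_zero] at hd
  have hadd := (analyticAt_comp_ofComplex jA_mdiff UpperHalfPlane.ρ).analyticOrderAt_deriv_add_one
  simp only [ofComplex_apply] at hadd
  rw [hj, hd] at hadd
  simp only [sub_zero] at hadd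
  rw [analyticOrderAt_jA] at hadd
  have hne : analyticOrderAt (fun z : ℂ => E₄ (ofComplex z)) ((UpperHalfPlane.ρ : ℍ) : ℂ) ≠ ⊤ := by
    intro htop
    apply analyticOrderAt_jA_sub_ne_top 0 UpperHalfPlane.ρ
    simp only [sub_zero]
    rw [analyticOrderAt_jA, htop]
    rfl
  rw [analyticOrderAt_jA, ENat_eq_one_of_add_one_eq_three_smul hne hadd]
  rfl

/-! ### The Euler function: analytic versus formal -/

/-- the analytic Euler function on the unit disc -/
noncomputable def eulerG (q : ℂ) : ℂ := ∏' n : ℕ, (1 - q ^ (n + 1))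

/-- partial products, as integer polynomials -/
noncomputable def eulerPoly (N : ℕ) : Polynomial ℤ :=
  ∏ n ∈ Finset.range N, (1 - Polynomial.X ^ (n + 1))

theorem aeval_eulerPoly (N : ℕ) (q : ℂ) :
    Polynomial.aeval q (eulerPoly N) = ∏ n ∈ Finset.range N, (1 - q ^ (n + 1)) := by
  simp [eulerPoly, map_prod]

theorem tendsto_aeval_eulerPoly :
    TendstoLocallyUniformlyOn (fun (N : ℕ) (q : ℂ) => Polynomial.aeval q (eulerPoly N)) eulerG
      atTop (Metric.ball 0 1) := by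
  have h := ModularForm.multipliableLocallyUniformlyOn_one_sub_pow.hasProdLocallyUniformlyOn
    |>.tendstoLocallyUniformlyOn_finsetRange
  refine h.congr fun N q _ => ?_
  exact (aeval_eulerPoly N q).symm

theorem iteratedDeriv_aeval (p : Polynomial ℤ) (m : ℕ) :
    iteratedDeriv m (fun q : ℂ => Polynomial.aeval q p)
      = fun q : ℂ => Polynomial.aeval q (Polynomial.derivative^[m] p) := by
  induction m with
  | zero => simp
  | succ m ih =>
    rw [iteratedDeriv_succ, ih]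
    funext q
    rw [Polynomial.deriv_aeval, Function.iterate_succ_apply']

theorem iteratedDeriv_aeval_zero (p : Polynomial ℤ) (m : ℕ) :
    iteratedDeriv m (fun q : ℂ => Polynomial.aeval q p) 0 = (m.factorial : ℂ) * (p.coeff m : ℂ) := by
  rw [iteratedDeriv_aeval]
  simp only
  rw [← Polynomial.coeff_zero_eq_aeval_zero', Polynomial.coeff_iterate_derivative]
  simp [Nat.descFactorial_self]

theorem differentiableOn_eulerG : DifferentiableOn ℂ eulerG (Metric.ball 0 1) :=
  ModularForm.differentiableOn_tprod_one_sub_pow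

theorem tendsto_iteratedDeriv_eulerPoly (m : ℕ) :
    TendstoLocallyUniformlyOn
      (fun (N : ℕ) => iteratedDeriv m (fun q : ℂ => Polynomial.aeval q (eulerPoly N)))
      (iteratedDeriv m eulerG) atTop (Metric.ball 0 1) := by
  induction m with
  | zero =>
    simp only [iteratedDeriv_zero]
    exact tendsto_aeval_eulerPoly
  | succ m ih =>
    simp only [iteratedDeriv_succ]
    refine ih.deriv (Eventually.of_forall fun N => ?_) Metric.isOpen_ball
    rw [iteratedDeriv_aeval]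
    exact (Polynomial.differentiable_aeval _).differentiableOn

open scoped PowerSeries.WithPiTopology in
theorem tendsto_coeff_eulerPoly (m : ℕ) :
    Tendsto (fun N : ℕ => ((eulerPoly N).coeff m : ℂ)) atTop
      (𝓝 ((PowerSeries.coeff m ModularCurve.etaProd : ℤ) : ℂ)) := by
  have h1 := (PowerSeries.WithPiTopology.multipliable_one_sub_X_pow ℤ).hasProd.tendsto_prod_nat
  have h2 := ((PowerSeries.WithPiTopology.continuous_coeff ℤ m).tendsto _).comp h1
  have h3 : Continuous (fun k : ℤ => (k : ℂ)) := continuous_of_discreteTopology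
  have h4 := (h3.tendsto _).comp h2
  refine h4.congr fun N => ?_
  simp only [Function.comp]
  congr 1
  rw [← Polynomial.coeff_coe, eulerPoly]
  congr 1
  rw [← Polynomial.coeToPowerSeries.ringHom_apply, map_prod]
  simp

/-- Taylor coefficients of the analytic Euler function are the coefficients of the formal one. -/
theorem taylor_eulerG (m : ℕ) :
    (m.factorial : ℂ)⁻¹ * iteratedDeriv m eulerG 0
      = ((PowerSeries.coeff m ModularCurve.etaProd : ℤ) : ℂ) := by
  have h0 : (0 : ℂ) ∈ Metric.ball (0 : ℂ) 1 := Metric.mem_ball_self one_pos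
  have h1 := (tendsto_iteratedDeriv_eulerPoly m).tendsto_at h0
  have h2 : Tendsto (fun N : ℕ => (m.factorial : ℂ)⁻¹
      * iteratedDeriv m (fun q : ℂ => Polynomial.aeval q (eulerPoly N)) 0) atTop
      (𝓝 ((m.factorial : ℂ)⁻¹ * iteratedDeriv m eulerG 0)) := h1.const_mul _
  have h3 : ∀ N : ℕ, (m.factorial : ℂ)⁻¹
      * iteratedDeriv m (fun q : ℂ => Polynomial.aeval q (eulerPoly N)) 0
      = ((eulerPoly N).coeff m : ℂ) := by
    intro N
    rw [iteratedDeriv_aeval_zero, ← mul_assoc, inv_mul_cancel₀, one_mul]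
    exact_mod_cast Nat.factorial_ne_zero m
  simp only [h3] at h2
  exact tendsto_nhds_unique h2 (tendsto_coeff_eulerPoly m)

section QExp

open Fermat.Agent.S23.QReg

local notation "𝕢" => Function.Periodic.qParam


theorem qParam_mem_ball (τ : ℍ) : 𝕢 1 (τ : ℂ) ∈ Metric.ball (0 : ℂ) 1 := by
  rw [mem_ball_zero_iff]
  exact Function.Periodic.norm_qParam_lt_one one_pos τ.im_pos

theorem qParam_add_one (w : ℂ) : 𝕢 1 (w + 1) = 𝕢 1 w := by
  simp only [Function.Periodic.qParam]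
  rw [Complex.ofReal_one, div_one, div_one, mul_add, Complex.exp_add]
  simp

/-- a function of `q` holomorphic on the unit disc is `q`-regular. -/
theorem isQReg_comp_qParam {g : ℂ → ℂ} (hg : DifferentiableOn ℂ g (Metric.ball 0 1)) :
    IsQReg (fun τ : ℍ => g (𝕢 1 (τ : ℂ))) := by
  refine ⟨?_, ?_, ?_⟩
  · intro w
    by_cases hw : 0 < w.im
    · have hw' : 0 < (w + 1).im := by simpa using hw
      simp only [Function.comp_apply, ofComplex_apply_of_im_pos hw', ofComplex_apply_of_im_pos hw,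
        UpperHalfPlane.coe_mk]
      rw [qParam_add_one]
    · have hw0 : w.im ≤ 0 := not_lt.mp hw
      have hw' : (w + 1).im ≤ 0 := by simpa using hw0
      simp [ofComplex_apply_of_im_nonpos hw', ofComplex_apply_of_im_nonpos hw0]
  · rw [UpperHalfPlane.mdifferentiable_iff]
    have h1 : DifferentiableOn ℂ (fun z : ℂ => g (𝕢 1 z)) {z : ℂ | 0 < z.im} := by
      refine hg.comp (Function.Periodic.differentiable_qParam (h := 1)).differentiableOn ?_
      intro z hz
      rw [mem_ball_zero_iff]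
      exact Function.Periodic.norm_qParam_lt_one one_pos hz
    refine h1.congr fun z hz => ?_
    simp only [Function.comp_apply, ofComplex_apply_of_im_pos hz, UpperHalfPlane.coe_mk]
  · have hc : ContinuousAt g 0 :=
      (hg.differentiableAt (Metric.ball_mem_nhds 0 one_pos)).continuousAt
    have ht : Tendsto (fun τ : ℍ => g (𝕢 1 (τ : ℂ))) atImInfty (𝓝 (g 0)) :=
      hc.tendsto.comp (UpperHalfPlane.qParam_tendsto_atImInfty one_pos)
    exact ht.isBigO_one ℝ

theorem hasSum_comp_qParam {g : ℂ → ℂ} (hg : DifferentiableOn ℂ g (Metric.ball 0 1)) (τ : ℍ) :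
    HasSum (fun m : ℕ => ((m.factorial : ℂ)⁻¹ * iteratedDeriv m g 0) • 𝕢 1 (τ : ℂ) ^ m)
      (g (𝕢 1 (τ : ℂ))) := by
  have h := Complex.hasSum_taylorSeries_on_ball hg (qParam_mem_ball τ)
  have e : (fun m : ℕ => ((m.factorial : ℂ)⁻¹ * iteratedDeriv m g 0) • 𝕢 1 (τ : ℂ) ^ m)
      = fun n : ℕ => (n.factorial : ℂ)⁻¹ • (𝕢 1 (τ : ℂ) - 0) ^ n • iteratedDeriv n g 0 := by
    funext n
    simp only [sub_zero, smul_eq_mul]
    ring
  rw [e]
  exact h

/-- uniqueness of `q`-expansion coefficients for plain functions. -/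
theorem qExpansion_coeff_unique' {f : ℍ → ℂ} {c : ℕ → ℂ}
    (hfanalytic : AnalyticAt ℂ (UpperHalfPlane.cuspFunction 1 f) 0)
    (hf : ∀ τ : ℍ, HasSum (fun m ↦ c m • 𝕢 1 (τ : ℂ) ^ m) (f τ)) (m : ℕ) :
    c m = PowerSeries.coeff m (UpperHalfPlane.qExpansion 1 f) := by
  have h1 := (UpperHalfPlane.hasFPowerSeriesOnBall_cuspFunction one_pos hfanalytic
    hf).hasFPowerSeriesAt
  have h2 := hfanalytic.hasFPowerSeriesAt
  have h3 := congr_arg (FormalMultilinearSeries.coeff · m) (h1.eq_formalMultilinearSeries h2)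
  simp only [FormalMultilinearSeries.coeff_ofScalars] at h3
  rw [h3, UpperHalfPlane.qExpansion_coeff, div_eq_mul_inv, mul_comm]

/-- its `q`-expansion is the Taylor expansion at `0`. -/
theorem qExpansion_comp_qParam {g : ℂ → ℂ} (hg : DifferentiableOn ℂ g (Metric.ball 0 1)) (m : ℕ) :
    PowerSeries.coeff m (UpperHalfPlane.qExpansion 1 (fun τ : ℍ => g (𝕢 1 (τ : ℂ))))
      = (m.factorial : ℂ)⁻¹ * iteratedDeriv m g 0 :=
  (qExpansion_coeff_unique' (isQReg_comp_qParam hg).analyticAt (hasSum_comp_qParam hg) m).symm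

/-- the Euler function on `ℍ` -/
noncomputable def eulerH (τ : ℍ) : ℂ := eulerG (𝕢 1 (τ : ℂ))

theorem isQReg_eulerH : IsQReg eulerH := isQReg_comp_qParam differentiableOn_eulerG

theorem qExpansion_eulerH :
    UpperHalfPlane.qExpansion 1 eulerH
      = PowerSeries.map (Int.castRingHom ℂ) ModularCurve.etaProd := by
  ext m
  rw [PowerSeries.coeff_map]
  exact (qExpansion_comp_qParam differentiableOn_eulerG m).trans (taylor_eulerG m)

theorem discr_eq (τ : ℍ) : ModularForm.discriminant τ = 𝕢 1 (τ : ℂ) * eulerH τ ^ 24 := by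
  rw [ModularForm.discriminant_eq_q_prod]
  congr 1
  unfold eulerH eulerG
  rw [← (ModularForm.multipliable_one_sub_pow (qParam_mem_ball τ |> mem_ball_zero_iff.mp)).tprod_pow]

theorem eulerH_ne_zero (τ : ℍ) : eulerH τ ≠ 0 := by
  intro h0
  apply ModularForm.discriminant_ne_zero τ
  rw [discr_eq, h0]
  simp

theorem eulerG_zero : eulerG 0 = 1 := by
  simp [eulerG]

theorem eulerG_ne_zero {q : ℂ} (hq : q ∈ Metric.ball (0 : ℂ) 1) : eulerG q ≠ 0 := by
  rcases eq_or_ne q 0 with rfl | hq0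
  · rw [eulerG_zero]
    exact one_ne_zero
  · have him := Function.Periodic.im_invQParam_pos_of_norm_lt_one one_pos
      (mem_ball_zero_iff.mp hq) hq0
    have h := eulerH_ne_zero ⟨_, him⟩
    unfold eulerH at h
    rwa [UpperHalfPlane.coe_mk, Function.Periodic.qParam_right_inv one_ne_zero hq0] at h

/-- `(∏ (1 - qⁿ))⁻²⁴` on the unit disc -/
noncomputable def eulerInv (q : ℂ) : ℂ := (eulerG q ^ 24)⁻¹

theorem differentiableOn_eulerInv : DifferentiableOn ℂ eulerInv (Metric.ball 0 1) :=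
  (differentiableOn_eulerG.pow 24).inv fun _ hq => pow_ne_zero _ (eulerG_ne_zero hq)

theorem isQReg_eulerInv : IsQReg (fun τ : ℍ => eulerInv (𝕢 1 (τ : ℂ))) :=
  isQReg_comp_qParam differentiableOn_eulerInv

theorem qExpansion_eulerInv :
    UpperHalfPlane.qExpansion 1 (fun τ : ℍ => eulerInv (𝕢 1 (τ : ℂ)))
      = PowerSeries.map (Int.castRingHom ℂ) ModularCurve.dedekindEtaUnitInv := by
  have hfun : (fun τ : ℍ => eulerInv (𝕢 1 (τ : ℂ))) * eulerH ^ 24 = 1 := by
    funext τ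
    simp only [Pi.mul_apply, Pi.pow_apply, Pi.one_apply, eulerInv]
    exact inv_mul_cancel₀ (pow_ne_zero _ (eulerH_ne_zero τ))
  have h1 := Fermat.Agent.S23.QReg.qExpansion_mul isQReg_eulerInv (isQReg_eulerH.pow 24)
  rw [hfun, UpperHalfPlane.qExpansion_one, Fermat.Agent.S23.QReg.qExpansion_pow isQReg_eulerH,
    qExpansion_eulerH] at h1
  have h2 : PowerSeries.map (Int.castRingHom ℂ) ModularCurve.etaProd ^ 24
      * PowerSeries.map (Int.castRingHom ℂ) ModularCurve.dedekindEtaUnitInv = 1 := by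
    rw [← map_pow, ← map_mul]
    have := ModularCurve.dedekindEtaUnit_mul_inv
    unfold ModularCurve.dedekindEtaUnit at this
    rw [this, map_one]
  calc UpperHalfPlane.qExpansion 1 (fun τ : ℍ => eulerInv (𝕢 1 (τ : ℂ)))
      = UpperHalfPlane.qExpansion 1 (fun τ : ℍ => eulerInv (𝕢 1 (τ : ℂ)))
          * (PowerSeries.map (Int.castRingHom ℂ) ModularCurve.etaProd ^ 24
            * PowerSeries.map (Int.castRingHom ℂ) ModularCurve.dedekindEtaUnitInv) := by
        rw [h2, mul_one]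
    _ = PowerSeries.map (Int.castRingHom ℂ) ModularCurve.dedekindEtaUnitInv := by
        rw [← mul_assoc, ← h1, one_mul]

theorem qExpansion_E4 :
    UpperHalfPlane.qExpansion 1 (⇑E₄)
      = PowerSeries.map (Int.castRingHom ℂ) ModularCurve.eisenstein4 := by
  ext m
  rw [PowerSeries.coeff_map, E_qExpansion_coeff (by norm_num) ⟨2, rfl⟩ m]
  simp only [ModularCurve.eisenstein4, PowerSeries.coeff_mk]
  by_cases hm : m = 0
  · simp [hm]
  · rw [if_neg hm, if_neg hm]
    have hb : bernoulli 4 = -1 / 30 := by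
      rw [bernoulli_eq_bernoulli'_of_ne_one (by norm_num), bernoulli'_four]
    rw [hb]
    simp only [ArithmeticFunction.sigma_apply]
    push_cast
    norm_num

/-- `q · j` as a `q`-regular function. -/
theorem isQReg_qj : IsQReg ((⇑E₄) ^ 3 * fun τ : ℍ => eulerInv (𝕢 1 (τ : ℂ))) :=
  ((isQReg_levelOne E₄).pow 3).mul isQReg_eulerInv

theorem qj_apply (τ : ℍ) :
    ((⇑E₄) ^ 3 * fun τ : ℍ => eulerInv (𝕢 1 (τ : ℂ))) τ = 𝕢 1 (τ : ℂ) * jA τ := by
  simp only [Pi.mul_apply, Pi.pow_apply, eulerInv, jA]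
  rw [discr_eq]
  have h1 : 𝕢 1 (τ : ℂ) ≠ 0 := Function.Periodic.qParam_ne_zero _
  have h2 := eulerH_ne_zero τ
  unfold eulerH at h2 ⊢
  field_simp

theorem qExpansion_qj :
    UpperHalfPlane.qExpansion 1 ((⇑E₄) ^ 3 * fun τ : ℍ => eulerInv (𝕢 1 (τ : ℂ)))
      = PowerSeries.map (Int.castRingHom ℂ) ModularCurve.jNum := by
  rw [Fermat.Agent.S23.QReg.qExpansion_mul ((isQReg_levelOne E₄).pow 3) isQReg_eulerInv,
    Fermat.Agent.S23.QReg.qExpansion_pow (isQReg_levelOne E₄), qExpansion_E4, qExpansion_eulerInv,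
    ModularCurve.jNum, map_mul, map_pow]

/-- (J5) `q * j = ∑ jNum_n q^n` with the coefficients of the prelude's formal `jNum`. -/
theorem hasSum_jA (τ : ℍ) :
    HasSum (fun n : ℕ => ((PowerSeries.coeff n ModularCurve.jNum : ℤ) : ℂ) * qN 1 τ ^ n)
      (qN 1 τ * jA τ) := by
  have hF := isQReg_qj
  have h := UpperHalfPlane.hasSum_qExpansion one_pos hF.1 hF.2.1 hF.2.2 τ
  rw [qj_apply, qExpansion_qj] at h
  have hq : qN 1 τ = 𝕢 1 (τ : ℂ) := by
    simp [qN]
  rw [hq]
  have e : (fun n : ℕ => ((PowerSeries.coeff n ModularCurve.jNum : ℤ) : ℂ) * 𝕢 1 (τ : ℂ) ^ n)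
      = fun m : ℕ => (PowerSeries.coeff m (PowerSeries.map (Int.castRingHom ℂ) ModularCurve.jNum))
        • 𝕢 1 (τ : ℂ) ^ m := by
    funext n
    rw [PowerSeries.coeff_map, smul_eq_mul]
    rfl
  rw [e]
  exact h

end QExp

end Fermat.Agent.S24.JAnalytic
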