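import Mathlib
import Fermat.Prelude.Def_ModularCurve_X0
import Fermat.Agent.S23_QReg
import Fermat.Agent.S23_Conj
import Fermat.Agent.S24_JAnalytic

/-!
# S16, work package U4: Miller's lemma ("Sturm modulo an additive subgroup" in level one)

If `f` is a modular form of level one and weight `k` whose first `⌊k/12⌋ + 1` `q`-expansion
coefficients lie in an additive subgroup `I ⊆ ℂ`, then *all* its coefficients lie in `I`.
No integrality hypothesis on `f` is needed.
-/

namespace Fermat.Agent.S16.Miller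

open UpperHalfPlane CongruenceSubgroup ModularForm EisensteinSeries
open Fermat.Agent.S23.QReg Fermat.Agent.S24.JAnalytic
open scoped ModularForm MatrixGroups Manifold

noncomputable section

local notation "𝕢" => Function.Periodic.qParam

/-- The subring of power series over `ℂ` with integer coefficients. -/
def intSeries : Subring (PowerSeries ℂ) := (PowerSeries.map (Int.castRingHom ℂ)).range

theorem mem_intSeries_iff {P : PowerSeries ℂ} :
    P ∈ intSeries ↔ ∀ n, ∃ m : ℤ, P.coeff n = m := by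
  constructor
  · rintro ⟨Q, rfl⟩ n
    exact ⟨Q.coeff n, by simp⟩
  · intro h
    choose c hc using h
    exact ⟨PowerSeries.mk c, by ext n; simp [hc n]⟩

/-- Multiplying by an integral power series preserves "the first `N + 1` coefficients lie in
`I`". -/
theorem coeff_mul_mem (I : AddSubgroup ℂ) {Q R : PowerSeries ℂ} (hQ : Q ∈ intSeries) (N : ℕ)
    (hR : ∀ n ≤ N, R.coeff n ∈ I) : ∀ n ≤ N, (Q * R).coeff n ∈ I := by
  obtain ⟨Q', rfl⟩ := hQ
  intro n hn
  rw [PowerSeries.coeff_mul]
  refine I.sum_mem fun ij hij => ?_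
  have h2 : ij.2 ≤ N := by
    have := Finset.HasAntidiagonal.mem_antidiagonal.mp hij
    omega
  have := I.zsmul_mem (hR ij.2 h2) (Q'.coeff ij.1)
  simpa [zsmul_eq_mul] using this

theorem coeff_mul_mem' (I : AddSubgroup ℂ) {Q R : PowerSeries ℂ} (hQ : Q ∈ intSeries)
    (hR : ∀ n, R.coeff n ∈ I) : ∀ n, (Q * R).coeff n ∈ I :=
  fun n => coeff_mul_mem I hQ n (fun m _ => hR m) n le_rfl

/-- The `q`-expansion of `τ ↦ q(τ)` is `X`. -/
theorem isQReg_qParam : IsQReg (fun τ : ℍ => 𝕢 1 (τ : ℂ)) :=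
  isQReg_comp_qParam (g := fun q => q) differentiableOn_id

theorem qExpansion_qParam : qExpansion 1 (fun τ : ℍ => 𝕢 1 (τ : ℂ)) = PowerSeries.X := by
  ext m
  rw [PowerSeries.coeff_X]
  refine (qExpansion_coeff_unique' (c := fun m => if m = 1 then (1 : ℂ) else 0)
    isQReg_qParam.analyticAt (fun τ => ?_) m).symm
  have h := hasSum_single (f := fun m : ℕ => (if m = 1 then (1 : ℂ) else 0) • 𝕢 1 (τ : ℂ) ^ m) 1
    (fun b hb => by simp [hb])
  simpa using h

/-- The `q`-expansion of `Δ` is `X · ∏ (1 - Xⁿ)²⁴`. -/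
theorem qExpansion_discriminant :
    qExpansion 1 ModularForm.discriminant =
      PowerSeries.X * PowerSeries.map (Int.castRingHom ℂ) (ModularCurve.etaProd ^ 24) := by
  have h : (ModularForm.discriminant : ℍ → ℂ) = (fun τ : ℍ => 𝕢 1 (τ : ℂ)) * eulerH ^ 24 := by
    funext τ
    simpa using discr_eq τ
  rw [h, qExpansion_mul isQReg_qParam (isQReg_eulerH.pow 24), qExpansion_pow isQReg_eulerH,
    qExpansion_qParam, qExpansion_eulerH, map_pow]

theorem qExpansion_discriminant_mem : qExpansion 1 ModularForm.discriminant ∈ intSeries := by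
  rw [qExpansion_discriminant]
  exact intSeries.mul_mem ⟨PowerSeries.X, by simp⟩ ⟨_, rfl⟩

/-- An integral power series `E` with `E · qExp(Δ) = X`. -/
theorem exists_inv_discriminant :
    ∃ E ∈ intSeries, E * qExpansion 1 ModularForm.discriminant = PowerSeries.X := by
  have hu : IsUnit (ModularCurve.etaProd ^ 24 : PowerSeries ℤ) := by
    rw [PowerSeries.isUnit_iff_constantCoeff]
    simp [ModularCurve.constantCoeff_etaProd]
  obtain ⟨u, hu'⟩ := hu
  refine ⟨PowerSeries.map (Int.castRingHom ℂ) (↑u⁻¹ : PowerSeries ℤ), ⟨_, rfl⟩, ?_⟩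
  rw [qExpansion_discriminant, ← hu', mul_left_comm, ← map_mul]
  simp

/-- Weights carrying a level-one form with integral `q`-expansion and constant term `1`. -/
def HasIntForm (k : ℤ) : Prop :=
  ∃ g : ModularForm 𝒮ℒ k, qExpansion 1 g ∈ intSeries ∧ (qExpansion 1 g).coeff 0 = 1

theorem hasIntForm_zero : HasIntForm 0 :=
  ⟨1, by rw [ModularForm.qExpansion_one]; exact intSeries.one_mem,
    by rw [ModularForm.qExpansion_one]; simp⟩

theorem HasIntForm.add {k₁ k₂ : ℤ} (h₁ : HasIntForm k₁) (h₂ : HasIntForm k₂) :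
    HasIntForm (k₁ + k₂) := by
  obtain ⟨g₁, hg₁, hg₁'⟩ := h₁
  obtain ⟨g₂, hg₂, hg₂'⟩ := h₂
  refine ⟨g₁.mul g₂, ?_, ?_⟩
  · rw [ModularForm.qExpansion_mul one_pos one_mem_strictPeriods_SL]
    exact intSeries.mul_mem hg₁ hg₂
  · rw [ModularForm.qExpansion_mul one_pos one_mem_strictPeriods_SL]
    simp only [PowerSeries.coeff_zero_eq_constantCoeff, map_mul] at hg₁' hg₂' ⊢
    rw [hg₁', hg₂', mul_one]

theorem hasIntForm_four : HasIntForm 4 := by
  refine ⟨E₄, mem_intSeries_iff.mpr fun n => ?_, E_qExpansion_coeff_zero _ ⟨2, rfl⟩⟩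
  rw [E_qExpansion_coeff _ ⟨2, rfl⟩, show bernoulli 4 = -1 / 30 by decide +kernel]
  split_ifs
  · exact ⟨1, by simp⟩
  · exact ⟨240 * (ArithmeticFunction.sigma 3 n : ℤ), by push_cast; ring⟩

theorem hasIntForm_six : HasIntForm 6 := by
  refine ⟨E₆, mem_intSeries_iff.mpr fun n => ?_, E_qExpansion_coeff_zero _ ⟨3, rfl⟩⟩
  rw [E_qExpansion_coeff _ ⟨3, rfl⟩, show bernoulli 6 = 1 / 42 by decide +kernel]
  split_ifs
  · exact ⟨1, by simp⟩
  · exact ⟨-504 * (ArithmeticFunction.sigma 5 n : ℤ), by push_cast; ring⟩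

theorem hasIntForm_four_mul (a : ℕ) : HasIntForm (4 * a) := by
  induction a with
  | zero => simpa using hasIntForm_zero
  | succ a ih =>
    have := hasIntForm_four.add ih
    convert this using 1
    push_cast; ring

theorem hasIntForm_of_even {k : ℤ} (hk : 0 ≤ k) (he : Even k) (h2 : k ≠ 2) : HasIntForm k := by
  obtain ⟨m, rfl⟩ := he
  have hm : 0 ≤ m := by omega
  lift m to ℕ using hm
  rcases Nat.even_or_odd m with ⟨a, rfl⟩ | ⟨a, rfl⟩
  · convert hasIntForm_four_mul a using 1
    push_cast; ring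
  · have ha : 1 ≤ a := by
      rcases a with _ | a
      · simp at h2
      · omega
    obtain ⟨b, rfl⟩ : ∃ b, a = b + 1 := ⟨a - 1, by omega⟩
    convert (hasIntForm_four_mul b).add hasIntForm_six using 1
    push_cast; ring

/-- **Miller's lemma** (level one): if the `q`-expansion coefficients `aₙ` of a level-one modular
form of weight `k` lie in the additive subgroup `I` of `ℂ` for all `n ≤ k / 12`, then they all
do. -/
theorem miller (I : AddSubgroup ℂ) {k : ℤ} (f : ModularForm 𝒮ℒ k)
    (h : ∀ n ≤ k.toNat / 12, (qExpansion 1 f).coeff n ∈ I) :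
    ∀ n, (qExpansion 1 f).coeff n ∈ I := by
  induction hN : k.toNat using Nat.strong_induction_on generalizing k with
  | _ N ih =>
  have hzero : ∀ {k' : ℤ} (f : ModularForm 𝒮ℒ k'), f = 0 →
      ∀ n, (qExpansion 1 f).coeff n ∈ I := by
    rintro k' f rfl n
    rw [FunLike.coe_zero, qExpansion_zero]
    simp
  rcases lt_or_ge k 0 with hk | hk
  · exact hzero f (rank_zero_iff_forall_zero.mp (levelOne_neg_weight_rank_zero hk) f)
  rcases Int.even_or_odd k with he | ho
  swap
  · exact hzero f (ModularForm.levelOne_odd_weight_eq_zero ho f)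
  by_cases h2 : k = 2
  · subst h2
    exact hzero f (rank_zero_iff_forall_zero.mp levelOne_weight_two_rank_zero f)
  obtain ⟨g, hgint, hg0⟩ := hasIntForm_of_even hk he h2
  set a₀ : ℂ := (qExpansion 1 f).coeff 0 with ha₀
  have ha₀I : a₀ ∈ I := h 0 (Nat.zero_le _)
  -- coefficients of `a₀ • g`
  have hag : ∀ n, (a₀ • qExpansion 1 g).coeff n ∈ I := by
    intro n
    obtain ⟨m, hm⟩ := mem_intSeries_iff.mp hgint n
    have := I.zsmul_mem ha₀I m
    rw [PowerSeries.coeff_smul, hm, smul_eq_mul, mul_comm]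
    simpa [zsmul_eq_mul] using this
  set f₁ : ModularForm 𝒮ℒ k := f - a₀ • g with hf₁
  have hq₁ : qExpansion 1 f₁ = qExpansion 1 f - a₀ • qExpansion 1 g := by
    rw [hf₁, FunLike.coe_sub, ModularForm.qExpansion_sub one_pos one_mem_strictPeriods_SL,
      FunLike.coe_smul, ModularForm.qExpansion_smul one_pos one_mem_strictPeriods_SL]
  suffices hmain : ∀ n, (qExpansion 1 f₁).coeff n ∈ I by
    intro n
    have h1 := I.add_mem (hmain n) (hag n)
    rw [hq₁, map_sub, sub_add_cancel] at h1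
    exact h1
  have hcusp : (qExpansion 1 f₁).coeff 0 = 0 := by
    rw [hq₁, map_sub, PowerSeries.coeff_smul, hg0, smul_eq_mul, mul_one, sub_self]
  have hf₁I : ∀ n ≤ k.toNat / 12, (qExpansion 1 f₁).coeff n ∈ I := by
    intro n hn
    rw [hq₁, map_sub]
    exact I.sub_mem (h n hn) (hag n)
  have heq := ModularForm.qExpansion_eq_qExpansion_discriminant_mul f₁ hcusp
  set hh : ModularForm 𝒮ℒ (k - 12) := CuspForm.discriminantEquiv (toCuspForm f₁ hcusp) with hhh
  suffices hhI : ∀ n, (qExpansion 1 hh).coeff n ∈ I by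
    rw [heq]
    exact coeff_mul_mem' I qExpansion_discriminant_mem hhI
  rcases lt_or_ge k 12 with hk12 | hk12
  · exact hzero hh (rank_zero_iff_forall_zero.mp (levelOne_neg_weight_rank_zero (by omega)) hh)
  · obtain ⟨E, hE, hEΔ⟩ := exists_inv_discriminant
    refine ih (k - 12).toNat (by omega) hh (fun m hm => ?_) rfl
    have h3 : E * qExpansion 1 f₁ = PowerSeries.X * qExpansion 1 hh := by
      rw [heq, ← mul_assoc, hEΔ]
    have h4 := coeff_mul_mem I hE (k.toNat / 12) hf₁I (m + 1) (by omega)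
    rw [h3, PowerSeries.coeff_succ_X_mul] at h4
    exact h4

/-- A form on `Γ₀(1)` is a level-one form. -/
theorem exists_levelOne_of_Gamma0_one {k : ℤ} (f : ModularForm (Gamma0 1) k) :
    ∃ F : ModularForm 𝒮ℒ k, (F : ℍ → ℂ) = f := by
  refine Fermat.Agent.S23.Conj.exists_modularForm_levelOne k f (ModularFormClass.holo f)
    (isQReg_Gamma0 1 f).2.2 ?_
  rintro _ ⟨γ, rfl⟩
  refine SlashInvariantFormClass.slash_action_eq f _ (Subgroup.mem_map_of_mem _ ?_)
  rw [Gamma0_mem]
  exact Subsingleton.elim _ _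

/-- **Miller's lemma** for forms on `Γ₀(1)` (the shape produced by the norm construction). -/
theorem miller_Gamma0_one (I : AddSubgroup ℂ) {k : ℤ} (f : ModularForm (Gamma0 1) k)
    (h : ∀ n ≤ k.toNat / 12, (qExpansion 1 f).coeff n ∈ I) :
    ∀ n, (qExpansion 1 f).coeff n ∈ I := by
  obtain ⟨F, hF⟩ := exists_levelOne_of_Gamma0_one f
  rw [← hF] at h ⊢
  exact miller I F h

/-- **Miller's lemma**, in the variable `q^p`: if `P(q^p)` is the `q`-expansion of a form of
level one and weight `k` (e.g. a norm), it suffices to control the coefficients of `P(q^p)` up to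
`p · ⌊k/12⌋`. -/
theorem miller_expand (I : AddSubgroup ℂ) {k : ℤ} (f : ModularForm (Gamma0 1) k) (p : ℕ)
    (hp : p ≠ 0)
    (h : ∀ n ≤ p * (k.toNat / 12), ((qExpansion 1 f).expand p hp).coeff n ∈ I) :
    ∀ n, ((qExpansion 1 f).expand p hp).coeff n ∈ I := by
  have h1 := miller_Gamma0_one I f (fun n hn => by
    have := h (p * n) (Nat.mul_le_mul_left p hn)
    rwa [PowerSeries.coeff_expand_mul] at this)
  intro n
  rw [PowerSeries.coeff_expand]
  split_ifs
  · exact h1 _
  · exact I.zero_mem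

end

end Fermat.Agent.S16.Miller
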