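import Mathlib
import Fermat.Agent.S16_Miller

/-!
# S16: the abstract core of the "norm + Miller" contradictions (Lemmas A and B₉)

`O` is a subring of `ℂ` (the `ℓ`-integral algebraic numbers), `I ⊆ O` an additive subgroup stable
under multiplication by `O` with `I ∩ ℤ ⊆ ℓℤ` (for instance `I = ℓ·O`).  If the `q`-expansion of a
level-one form `Φ` of weight `K` with `⌊K/12⌋ < p` satisfies
`qExp(Φ)(q^p) = F₀ · ∏_{i<p} F_i` with `F₀ ≡ R₀(q^p)` and `F_i ≡ R₁(q^p)` modulo `I⟦q⟧`, where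
`R₀, R₁` are integral power series that are nonzero modulo `ℓ` and `R₁` has no constant term,
we get a contradiction with Miller's lemma.
-/

namespace Fermat.Agent.S16.NormCore

open UpperHalfPlane CongruenceSubgroup
open scoped ModularForm MatrixGroups

noncomputable section

/-- power series all of whose coefficients lie in the subring `O` -/
def OS (O : Subring ℂ) : Subring (PowerSeries ℂ) where
  carrier := {P | ∀ n, P.coeff n ∈ O}
  mul_mem' := by
    intro P Q hP hQ n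
    rw [PowerSeries.coeff_mul]
    exact O.sum_mem fun ij _ => O.mul_mem (hP _) (hQ _)
  one_mem' := by
    intro n
    rw [PowerSeries.coeff_one]
    split_ifs
    · exact O.one_mem
    · exact O.zero_mem
  add_mem' := by
    intro P Q hP hQ n
    rw [map_add]
    exact O.add_mem (hP n) (hQ n)
  zero_mem' := by
    intro n
    rw [map_zero]
    exact O.zero_mem
  neg_mem' := by
    intro P hP n
    rw [map_neg]
    exact O.neg_mem (hP n)

/-- power series all of whose coefficients lie in the additive subgroup `I` -/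
def IS (I : AddSubgroup ℂ) : AddSubgroup (PowerSeries ℂ) where
  carrier := {P | ∀ n, P.coeff n ∈ I}
  add_mem' := by
    intro P Q hP hQ n
    rw [map_add]
    exact I.add_mem (hP n) (hQ n)
  zero_mem' := by
    intro n
    rw [map_zero]
    exact I.zero_mem
  neg_mem' := by
    intro P hP n
    rw [map_neg]
    exact I.neg_mem (hP n)

theorem mem_OS {O : Subring ℂ} {P : PowerSeries ℂ} : P ∈ OS O ↔ ∀ n, P.coeff n ∈ O := Iff.rfl

theorem mem_IS {I : AddSubgroup ℂ} {P : PowerSeries ℂ} : P ∈ IS I ↔ ∀ n, P.coeff n ∈ I := Iff.rfl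

variable {O : Subring ℂ} {I : AddSubgroup ℂ}

theorem IS_le_OS (hIO : ∀ x ∈ I, x ∈ O) {P : PowerSeries ℂ} (hP : P ∈ IS I) : P ∈ OS O :=
  fun n => hIO _ (hP n)

theorem mul_mem_IS (hmul : ∀ x ∈ O, ∀ y ∈ I, x * y ∈ I) {P Q : PowerSeries ℂ}
    (hP : P ∈ OS O) (hQ : Q ∈ IS I) : P * Q ∈ IS I := by
  intro n
  rw [PowerSeries.coeff_mul]
  exact I.sum_mem fun ij _ => hmul _ (hP _) _ (hQ _)

theorem int_mem_OS (R : PowerSeries ℤ) : R.map (Int.castRingHom ℂ) ∈ OS O := by
  intro n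
  rw [PowerSeries.coeff_map]
  exact intCast_mem O _

theorem C_mem_OS {x : ℂ} (hx : x ∈ O) : PowerSeries.C x ∈ OS O := by
  intro n
  rw [PowerSeries.coeff_C]
  split_ifs
  · exact hx
  · exact O.zero_mem

theorem expand_mem_OS {P : PowerSeries ℂ} (hP : P ∈ OS O) (p : ℕ) (hp : p ≠ 0) :
    P.expand p hp ∈ OS O := by
  intro n
  rw [PowerSeries.coeff_expand]
  split_ifs
  · exact hP _
  · exact O.zero_mem

theorem expand_mem_IS {P : PowerSeries ℂ} (hP : P ∈ IS I) (p : ℕ) (hp : p ≠ 0) :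
    P.expand p hp ∈ IS I := by
  intro n
  rw [PowerSeries.coeff_expand]
  split_ifs
  · exact hP _
  · exact I.zero_mem

/-- `F ≡ F'` and `F' ∈ O⟦q⟧` imply `F ∈ O⟦q⟧`. -/
theorem mem_OS_of_sub_mem (hIO : ∀ x ∈ I, x ∈ O) {F F' : PowerSeries ℂ} (hF' : F' ∈ OS O)
    (h : F - F' ∈ IS I) : F ∈ OS O := by
  have := (OS O).add_mem (IS_le_OS hIO h) hF'
  simpa using this

/-- congruences modulo `I⟦q⟧` can be multiplied -/
theorem mul_sub_mul_mem (hIO : ∀ x ∈ I, x ∈ O) (hmul : ∀ x ∈ O, ∀ y ∈ I, x * y ∈ I)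
    {F F' G G' : PowerSeries ℂ} (hF' : F' ∈ OS O) (hG' : G' ∈ OS O)
    (hF : F - F' ∈ IS I) (hG : G - G' ∈ IS I) : F * G - F' * G' ∈ IS I := by
  have hFO : F ∈ OS O := mem_OS_of_sub_mem hIO hF' hF
  have e : F * G - F' * G' = F * (G - G') + G' * (F - F') := by ring
  rw [e]
  exact (IS I).add_mem (mul_mem_IS hmul hFO hG) (mul_mem_IS hmul hG' hF)

/-- congruences modulo `I⟦q⟧` can be multiplied (finite products) -/
theorem prod_sub_prod_mem (hIO : ∀ x ∈ I, x ∈ O) (hmul : ∀ x ∈ O, ∀ y ∈ I, x * y ∈ I)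
    {ι : Type*} (s : Finset ι) (F F' : ι → PowerSeries ℂ)
    (hF' : ∀ i ∈ s, F' i ∈ OS O) (h : ∀ i ∈ s, F i - F' i ∈ IS I) :
    ∏ i ∈ s, F i - ∏ i ∈ s, F' i ∈ IS I := by
  classical
  induction s using Finset.induction_on with
  | empty => simp
  | insert a s ha ih =>
    rw [Finset.prod_insert ha, Finset.prod_insert ha]
    exact mul_sub_mul_mem hIO hmul (hF' a (Finset.mem_insert_self _ _))
      ((OS O).prod_mem fun i hi => hF' i (Finset.mem_insert_of_mem hi))
      (h a (Finset.mem_insert_self _ _))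
      (ih (fun i hi => hF' i (Finset.mem_insert_of_mem hi))
        (fun i hi => h i (Finset.mem_insert_of_mem hi)))

/-- congruences modulo `I⟦q⟧` can be raised to powers -/
theorem pow_sub_pow_mem (hIO : ∀ x ∈ I, x ∈ O) (hmul : ∀ x ∈ O, ∀ y ∈ I, x * y ∈ I)
    {F F' : PowerSeries ℂ} (hF' : F' ∈ OS O) (h : F - F' ∈ IS I) (m : ℕ) :
    F ^ m - F' ^ m ∈ IS I := by
  have := prod_sub_prod_mem hIO hmul (Finset.range m) (fun _ => F) (fun _ => F')
    (fun _ _ => hF') (fun _ _ => h)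
  simpa using this

/-- **The norm + Miller contradiction.** -/
theorem core {ℓ : ℕ} [Fact ℓ.Prime] (O : Subring ℂ) (I : AddSubgroup ℂ)
    (hIO : ∀ x ∈ I, x ∈ O) (hmul : ∀ x ∈ O, ∀ y ∈ I, x * y ∈ I)
    (hint : ∀ a : ℤ, (a : ℂ) ∈ I → (ℓ : ℤ) ∣ a)
    (p : ℕ) (hp : p ≠ 0) {K : ℤ} (hK : K.toNat / 12 < p) (Φ : ModularForm (Gamma0 1) K)
    (F₀ : PowerSeries ℂ) (F : ℕ → PowerSeries ℂ) (R₀ R₁ : PowerSeries ℤ)
    (hprod : (qExpansion 1 Φ).expand p hp = F₀ * ∏ i ∈ Finset.range p, F i)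
    (h₀ : F₀ - (R₀.map (Int.castRingHom ℂ)).expand p hp ∈ IS I)
    (h₁ : ∀ i < p, F i - (R₁.map (Int.castRingHom ℂ)).expand p hp ∈ IS I)
    (hR₁0 : R₁.coeff 0 = 0) (hR₁ : ∃ n, ¬ (ℓ : ℤ) ∣ R₁.coeff n)
    (hR₀ : ∃ n, ¬ (ℓ : ℤ) ∣ R₀.coeff n) : False := by
  set c : PowerSeries ℤ →+* PowerSeries ℂ := PowerSeries.map (Int.castRingHom ℂ) with hc
  set R : PowerSeries ℤ := R₀ * R₁ ^ p with hR
  have hexp : (c R).expand p hp =
      (c R₀).expand p hp * ∏ _i ∈ Finset.range p, (c R₁).expand p hp := by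
    rw [Finset.prod_const, Finset.card_range, hR, map_mul, map_pow, map_mul, map_pow]
  -- the congruence `qExp(Φ)(q^p) ≡ R(q^p)`
  have hD : (qExpansion 1 Φ).expand p hp - (c R).expand p hp ∈ IS I := by
    rw [hprod, hexp]
    exact mul_sub_mul_mem hIO hmul (expand_mem_OS (int_mem_OS R₀) p hp)
      ((OS O).prod_mem fun i _ => expand_mem_OS (int_mem_OS R₁) p hp) h₀
      (prod_sub_prod_mem hIO hmul (Finset.range p) F (fun _ => (c R₁).expand p hp)
        (fun i _ => expand_mem_OS (int_mem_OS R₁) p hp)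
        (fun i hi => h₁ i (Finset.mem_range.mp hi)))
  -- `R` has order at least `p`
  have hRlow : ∀ m < p, R.coeff m = 0 := by
    obtain ⟨R₁', hR₁'⟩ : PowerSeries.X ∣ R₁ := PowerSeries.X_dvd_iff.mpr (by simpa using hR₁0)
    intro m hm
    rw [hR, hR₁', mul_pow, ← mul_assoc, mul_comm R₀, mul_assoc, PowerSeries.coeff_X_pow_mul',
      if_neg (by omega)]
  -- Miller's lemma
  have hM := Miller.miller_expand I Φ p hp (fun n hn => by
    have h1 := hD n
    have hz : ((c R).expand p hp).coeff n = 0 := by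
      rw [PowerSeries.coeff_expand]
      split_ifs with hdvd
      · have hlt : n / p < p := by
          have : n / p ≤ K.toNat / 12 := by
            calc n / p ≤ (p * (K.toNat / 12)) / p := Nat.div_le_div_right hn
              _ = K.toNat / 12 := Nat.mul_div_cancel_left _ (Nat.pos_of_ne_zero hp)
          omega
        rw [hc, PowerSeries.coeff_map, hRlow _ hlt]
        simp
      · rfl
    rw [map_sub, hz, sub_zero] at h1
    exact h1)
  -- all coefficients of `R` are divisible by `ℓ`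
  have hdiv : ∀ m, (ℓ : ℤ) ∣ R.coeff m := by
    intro m
    apply hint
    have h1 := hD (p * m)
    have h2 := hM (p * m)
    rw [map_sub] at h1
    have h3 := I.sub_mem h2 h1
    rw [sub_sub_cancel, PowerSeries.coeff_expand_mul, hc, PowerSeries.coeff_map] at h3
    simpa using h3
  -- contradiction in `𝔽_ℓ⟦q⟧`
  set r : PowerSeries ℤ →+* PowerSeries (ZMod ℓ) := PowerSeries.map (Int.castRingHom (ZMod ℓ))
    with hr
  have hne : ∀ P : PowerSeries ℤ, (∃ n, ¬ (ℓ : ℤ) ∣ P.coeff n) → r P ≠ 0 := by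
    rintro P ⟨n, hn⟩ h0
    apply hn
    have := congrArg (PowerSeries.coeff n) h0
    rw [hr, PowerSeries.coeff_map, map_zero] at this
    exact (ZMod.intCast_zmod_eq_zero_iff_dvd _ _).mp (by simpa using this)
  have hzero : r R = 0 := by
    ext m
    rw [hr, PowerSeries.coeff_map, map_zero]
    simpa using (ZMod.intCast_zmod_eq_zero_iff_dvd _ _).mpr (hdiv m)
  rw [hR, map_mul, map_pow] at hzero
  rcases mul_eq_zero.mp hzero with h | h
  · exact hne R₀ hR₀ h
  · exact hne R₁ hR₁ (pow_eq_zero_iff (Nat.pos_of_ne_zero hp).ne' |>.mp h)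

end

end Fermat.Agent.S16.NormCore
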