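import Mathlib
import Fermat.Agent.S16_NormCore
import Fermat.Agent.S16_IntRing

/-!
# S16: Lemmas A and B₉ at the level of `q`-series

Given the factorisation of `qExp(Norm)(q^p)` into the `q`-expansions of the `p + 1` conjugates,
the congruence hypotheses on `G` give a contradiction with Miller's lemma (`NormCore.core`).
-/

namespace Fermat.Agent.S16.NormSeries

open UpperHalfPlane CongruenceSubgroup
open Fermat.Agent.S16.NormCore Fermat.Agent.S16.IntRing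
open scoped ModularForm MatrixGroups

noncomputable section

theorem smul_mem_OS {O : Subring ℂ} {x : ℂ} (hx : x ∈ O) {P : PowerSeries ℂ} (hP : P ∈ OS O) :
    x • P ∈ OS O := by
  intro n
  rw [PowerSeries.coeff_smul]
  exact O.mul_mem hx (hP n)

theorem prime_smul_mem_IS {ℓ : ℕ} [Fact ℓ.Prime] {P : PowerSeries ℂ} (hP : P ∈ OS (O ℓ)) :
    (ℓ : ℂ) • P ∈ IS (I ℓ) := by
  intro n
  rw [PowerSeries.coeff_smul]
  exact prime_mul_mem_I (hP n)

/-- **Lemma A, series form.**  `Gq ≡ 1` and `Utw i ≡ 1` modulo `ℓ`, `E = 1 + c·q + …` an integral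
series with `ℓ ∤ c`; the norm of `cg·G^m + E` cannot be a level-one form of weight `K` with
`⌊K/12⌋ < p`. -/
theorem lemmaA_series {ℓ : ℕ} [Fact ℓ.Prime] (p : ℕ) (hp : p ≠ 0) {K : ℤ}
    (hK : K.toNat / 12 < p) (Φ : ModularForm (Gamma0 1) K) (m : ℕ) (cg : ℤ)
    (Eℤ : PowerSeries ℤ) (hE0 : Eℤ.coeff 0 = 1) (hE1 : ¬ (ℓ : ℤ) ∣ Eℤ.coeff 1)
    (Gq : PowerSeries ℂ) (Utw : ℕ → PowerSeries ℂ)
    (hG : Gq - 1 ∈ IS (I ℓ)) (hU : ∀ i < p, Utw i - 1 ∈ IS (I ℓ))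
    (F₀ : PowerSeries ℂ) (F : ℕ → PowerSeries ℂ)
    (hF₀ : F₀ = ((cg : ℂ) • Gq ^ m + Eℤ.map (Int.castRingHom ℂ)).expand p hp)
    (hF : ∀ i < p, F i = -(Utw i) ^ m + (Eℤ.map (Int.castRingHom ℂ)).expand p hp)
    (hprod : (qExpansion 1 Φ).expand p hp = F₀ * ∏ i ∈ Finset.range p, F i) : False := by
  have hIO : ∀ x ∈ I ℓ, x ∈ O ℓ := fun x hx => mem_O_of_mem_I hx
  have hmul : ∀ x ∈ O ℓ, ∀ y ∈ I ℓ, x * y ∈ I ℓ := fun x hx y hy => mul_mem_I hx hy
  have hint : ∀ a : ℤ, (a : ℂ) ∈ I ℓ → (ℓ : ℤ) ∣ a := fun a ha => (intCast_mem_I_iff a).mp ha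
  have hone : (1 : PowerSeries ℂ) ∈ OS (O ℓ) := (OS (O ℓ)).one_mem
  refine core (O ℓ) (I ℓ) hIO hmul hint p hp hK Φ F₀ F (PowerSeries.C cg + Eℤ) (Eℤ - 1) hprod
    ?_ ?_ ?_ ?_ ?_
  · have h1 : Gq ^ m - 1 ∈ IS (I ℓ) := by
      simpa using pow_sub_pow_mem hIO hmul hone hG m
    have h2 : (cg : ℂ) • (Gq ^ m - 1) ∈ IS (I ℓ) := by
      rw [PowerSeries.smul_eq_C_mul]
      exact mul_mem_IS hmul (C_mem_OS (intCast_mem_O cg)) h1
    have e : F₀ - ((PowerSeries.C cg + Eℤ).map (Int.castRingHom ℂ)).expand p hp =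
        ((cg : ℂ) • (Gq ^ m - 1)).expand p hp := by
      rw [hF₀, ← map_sub]
      congr 1
      rw [map_add, PowerSeries.map_C, PowerSeries.smul_eq_C_mul, PowerSeries.smul_eq_C_mul]
      simp only [eq_intCast]
      ring
    rw [e]
    exact expand_mem_IS h2 p hp
  · intro i hi
    have h1 : Utw i ^ m - 1 ∈ IS (I ℓ) := by
      simpa using pow_sub_pow_mem hIO hmul hone (hU i hi) m
    have e : F i - ((Eℤ - 1).map (Int.castRingHom ℂ)).expand p hp = -(Utw i ^ m - 1) := by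
      rw [hF i hi, map_sub, map_one, map_sub, map_one]
      ring
    rw [e]
    exact (IS (I ℓ)).neg_mem h1
  · rw [map_sub, hE0, PowerSeries.coeff_one]
    simp
  · refine ⟨1, ?_⟩
    rw [map_sub, PowerSeries.coeff_one, if_neg one_ne_zero, sub_zero]
    exact hE1
  · refine ⟨1, ?_⟩
    rw [map_add, PowerSeries.coeff_C, if_neg one_ne_zero, zero_add]
    exact hE1

/-- **Lemma B₉, series form.**  `p ≡ 2 mod 3`, `Gq ≡ 1` and `Utw i ≡ 1` modulo `9`; the norm of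
`(p·G·E₄ + E₆)/3` cannot be a level-one form of weight `K` with `⌊K/12⌋ < p`. -/
theorem lemmaB9_series (p : ℕ) (hp : p ≠ 0) (hp3 : p % 3 = 2) {K : ℤ} (hK : K.toNat / 12 < p)
    (Φ : ModularForm (Gamma0 1) K) (S3 S5 : PowerSeries ℤ)
    (hS30 : S3.coeff 0 = 0) (hS31 : S3.coeff 1 = 1) (hS50 : S5.coeff 0 = 0)
    (hS51 : S5.coeff 1 = 1) (E4c E6c : PowerSeries ℂ)
    (hE4 : E4c = 1 + (240 : ℂ) • S3.map (Int.castRingHom ℂ))
    (hE6 : E6c = 1 - (504 : ℂ) • S5.map (Int.castRingHom ℂ))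
    (Gq : PowerSeries ℂ) (Utw : ℕ → PowerSeries ℂ)
    (hG : ∃ H ∈ OS (O 3), Gq = 1 + (9 : ℂ) • H)
    (hU : ∀ i < p, ∃ H ∈ OS (O 3), Utw i = 1 + (9 : ℂ) • H)
    (F₀ : PowerSeries ℂ) (F : ℕ → PowerSeries ℂ)
    (hF₀ : F₀ = (((p : ℂ) / 3) • (Gq * E4c) + (1 / 3 : ℂ) • E6c).expand p hp)
    (hF : ∀ i < p, F i =
      -(1 / 3 : ℂ) • (Utw i * E4c.expand p hp) + (1 / 3 : ℂ) • E6c.expand p hp)
    (hprod : (qExpansion 1 Φ).expand p hp = F₀ * ∏ i ∈ Finset.range p, F i) : False := by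
  have hIO : ∀ x ∈ I 3, x ∈ O 3 := fun x hx => mem_O_of_mem_I hx
  have hmul : ∀ x ∈ O 3, ∀ y ∈ I 3, x * y ∈ I 3 := fun x hx y hy => mul_mem_I hx hy
  have hint : ∀ a : ℤ, (a : ℂ) ∈ I 3 → ((3 : ℕ) : ℤ) ∣ a := fun a ha =>
    (intCast_mem_I_iff a).mp ha
  obtain ⟨t, ht⟩ : ∃ t : ℤ, 3 * t = (p : ℤ) + 1 := ⟨((p : ℤ) + 1) / 3, by omega⟩
  have htc : (t : ℂ) = ((p : ℂ) + 1) / 3 := by
    have : (3 : ℂ) * (t : ℂ) = (p : ℂ) + 1 := by exact_mod_cast ht
    rw [← this]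
    ring
  have hS3O : S3.map (Int.castRingHom ℂ) ∈ OS (O 3) := int_mem_OS S3
  have hE4O : E4c ∈ OS (O 3) := by
    rw [hE4]
    exact (OS (O 3)).add_mem (OS (O 3)).one_mem
      (smul_mem_OS (by exact_mod_cast natCast_mem_O 240) hS3O)
  set R₀ : PowerSeries ℤ := PowerSeries.C t + PowerSeries.C (80 * (p : ℤ)) * S3 -
    PowerSeries.C 168 * S5 with hR₀
  set R₁ : PowerSeries ℤ := -(PowerSeries.C 168 * S5) - PowerSeries.C 80 * S3 with hR₁
  have hR₀c : R₀.map (Int.castRingHom ℂ) =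
      (((p : ℂ) + 1) / 3) • (1 : PowerSeries ℂ) +
        ((80 : ℂ) * p) • S3.map (Int.castRingHom ℂ) -
        (168 : ℂ) • S5.map (Int.castRingHom ℂ) := by
    simp only [hR₀, map_sub, map_add, map_mul, PowerSeries.map_C, PowerSeries.smul_eq_C_mul,
      mul_one, ← htc]
    simp
  have hR₁c : R₁.map (Int.castRingHom ℂ) =
      -((168 : ℂ) • S5.map (Int.castRingHom ℂ)) - (80 : ℂ) • S3.map (Int.castRingHom ℂ) := by
    simp only [hR₁, map_sub, map_neg, map_mul, PowerSeries.map_C, PowerSeries.smul_eq_C_mul]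
    simp
  have key0 : (1 / 3 : ℂ) • (((p : ℂ)) • E4c + E6c) = R₀.map (Int.castRingHom ℂ) := by
    rw [hR₀c, hE4, hE6]
    module
  have key1 : (1 / 3 : ℂ) • (E6c - E4c) = R₁.map (Int.castRingHom ℂ) := by
    rw [hR₁c, hE4, hE6]
    module
  refine core (O 3) (I 3) hIO hmul hint p hp hK Φ F₀ F R₀ R₁ hprod ?_ ?_ ?_ ?_ ?_
  · obtain ⟨H, hH, rfl⟩ := hG
    have e : F₀ - (R₀.map (Int.castRingHom ℂ)).expand p hp =
        (((3 : ℕ) : ℂ) • ((p : ℂ) • (H * E4c))).expand p hp := by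
      rw [hF₀, ← map_sub, ← key0]
      congr 1
      simp only [add_mul, one_mul, smul_mul_assoc, Nat.cast_ofNat]
      module
    rw [e]
    exact expand_mem_IS (prime_smul_mem_IS (smul_mem_OS (natCast_mem_O p)
      ((OS (O 3)).mul_mem hH hE4O))) p hp
  · intro i hi
    obtain ⟨H, hH, hHU⟩ := hU i hi
    have key1' : (1 / 3 : ℂ) • (E6c.expand p hp - E4c.expand p hp) =
        (R₁.map (Int.castRingHom ℂ)).expand p hp := by
      rw [← key1, map_smul, map_sub]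
    have e : F i - (R₁.map (Int.castRingHom ℂ)).expand p hp =
        ((3 : ℕ) : ℂ) • (-(H * E4c.expand p hp)) := by
      rw [hF i hi, ← key1', hHU]
      simp only [add_mul, one_mul, smul_mul_assoc, Nat.cast_ofNat]
      module
    rw [e]
    exact prime_smul_mem_IS ((OS (O 3)).neg_mem ((OS (O 3)).mul_mem hH (expand_mem_OS hE4O p hp)))
  · simp only [hR₁, map_sub, map_neg, PowerSeries.coeff_C_mul, hS30, hS50]
    simp
  · refine ⟨1, ?_⟩
    simp only [hR₁, map_sub, map_neg, PowerSeries.coeff_C_mul, hS31, hS51]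
    norm_num
  · refine ⟨1, ?_⟩
    simp only [hR₀, map_sub, map_add, PowerSeries.coeff_C_mul, hS31, hS51, PowerSeries.coeff_C]
    simp only [one_ne_zero, if_false, mul_one, zero_add, Nat.cast_ofNat]
    omega

end

end Fermat.Agent.S16.NormSeries
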