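import Mathlib
import Fermat.Prelude.Def_ModularForm_HeckeOperatorForms
import Fermat.Agent.S23_Conj

/-!
# S16 (U3): traces from level `Γ₀(p)` to level one

For a prime `p` the matrices `1, S T^a` (`a` mod `p`) represent `Γ₀(p) \ SL(2, ℤ)`.

* `invariant_of_ST`: a function of the shape `f₀ + ∑ a : ZMod p, g a` whose summands are
  permuted in the expected way by `S` and `T` is invariant under `SL(2, ℤ)`.
* `exists_levelOne_trace`: for `G ∈ M_k(Γ₀(p))` the trace `G + ∑ a, G ∣ S T^a` is a modular form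
  of level one.
-/

set_option autoImplicit false

open UpperHalfPlane CongruenceSubgroup ModularGroup
open scoped MatrixGroups ModularForm Manifold

noncomputable section

namespace Fermat.Agent.S16.Trace

/-- the matrix `S T^i = [[0, -1], [1, i]]`. -/
def β (i : ℤ) : SL(2, ℤ) := ⟨!![0, -1; 1, i], by simp [Matrix.det_fin_two_of]⟩

theorem β_eq (i : ℤ) : β i = S * T ^ i := by
  ext a b
  fin_cases a <;> fin_cases b <;>
    simp [β, S, ModularGroup.coe_T_zpow, Matrix.mul_apply, Fin.sum_univ_two]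

theorem β_zero : β 0 = S := by rw [β_eq, zpow_zero, mul_one]

theorem β_mul_T (i : ℤ) : β i * T = β (i + 1) := by
  rw [β_eq, β_eq, zpow_add_one, mul_assoc]

/-- the lower unipotent matrix `[[1, 0], [c, 1]]`. -/
def low (c : ℤ) : SL(2, ℤ) := ⟨!![1, 0; c, 1], by simp [Matrix.det_fin_two_of]⟩

theorem low_mem_Gamma0 {p : ℕ} {c : ℤ} (h : (p : ℤ) ∣ c) : low c ∈ Gamma0 p := by
  rw [Gamma0_mem]
  show (((!![1, 0; c, 1] : Matrix (Fin 2) (Fin 2) ℤ) 1 0 : ℤ) : ZMod p) = 0
  simp only [Matrix.of_apply, Matrix.cons_val', Matrix.cons_val_zero, Matrix.cons_val_one]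
  exact (ZMod.intCast_zmod_eq_zero_iff_dvd _ _).mpr h

theorem β_eq_low_mul (i j : ℤ) : β i = low (j - i) * β j := by
  ext a b
  fin_cases a <;> fin_cases b <;>
    simp [β, low, Matrix.mul_apply, Fin.sum_univ_two]

theorem neg_one_mem_Gamma0 (p : ℕ) : (-1 : SL(2, ℤ)) ∈ Gamma0 p := by
  rw [Gamma0_mem]
  simp

theorem S_mul_S : S * S = (-1 : SL(2, ℤ)) := by
  ext a b
  fin_cases a <;> fin_cases b <;> simp [S, Matrix.mul_apply, Fin.sum_univ_two]

/-- `S T^i S = γ · S T^j` with `γ ∈ Γ₀(p)` when `i j ≡ -1` mod `p`. -/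
def corr (i j m : ℤ) (h : i * j + 1 = m) : SL(2, ℤ) :=
  ⟨!![-j, -1; m, i], by rw [Matrix.det_fin_two_of, ← h]; ring⟩

theorem β_mul_S (i j m : ℤ) (h : i * j + 1 = m) : β i * S = corr i j m h * β j := by
  ext a b
  fin_cases a <;> fin_cases b <;>
    simp [β, corr, S, Matrix.mul_apply, Fin.sum_univ_two, ← h]

theorem corr_mem_Gamma0 {p : ℕ} (i j m : ℤ) (h : i * j + 1 = m) (hm : (p : ℤ) ∣ m) :
    corr i j m h ∈ Gamma0 p := by
  rw [Gamma0_mem]
  show (((!![-j, -1; m, i] : Matrix (Fin 2) (Fin 2) ℤ) 1 0 : ℤ) : ZMod p) = 0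
  simp only [Matrix.of_apply, Matrix.cons_val', Matrix.cons_val_zero, Matrix.cons_val_one]
  exact (ZMod.intCast_zmod_eq_zero_iff_dvd _ _).mpr hm

section Abstract

variable {p : ℕ} [Fact p.Prime] {k : ℤ}

/-- **Invariance from `S` and `T`.**  If `S` exchanges `f₀` and `g 0` and maps `g a` to
`g (-a⁻¹)` for `a ≠ 0`, and `T` fixes `f₀` and `∑ g`, then `f₀ + ∑ g` is invariant under
`SL(2, ℤ)`. -/
theorem invariant_of_ST (f₀ : ℍ → ℂ) (g : ZMod p → ℍ → ℂ)
    (hT0 : f₀ ∣[k] T = f₀) (hT : (∑ a, g a) ∣[k] T = ∑ a, g a)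
    (hS0 : f₀ ∣[k] S = g 0) (hS1 : g 0 ∣[k] S = f₀)
    (hS : ∀ a : ZMod p, a ≠ 0 → g a ∣[k] S = g (-a⁻¹)) (γ : SL(2, ℤ)) :
    (f₀ + ∑ a, g a) ∣[k] γ = f₀ + ∑ a, g a := by
  classical
  have hinvS : (f₀ + ∑ a, g a) ∣[k] S = f₀ + ∑ a, g a := by
    rw [SlashAction.add_slash, hS0, SlashAction.sum_slash]
    rw [← Finset.add_sum_erase Finset.univ (fun a => g a ∣[k] S) (Finset.mem_univ (0 : ZMod p)),
      ← Finset.add_sum_erase Finset.univ g (Finset.mem_univ (0 : ZMod p)), hS1]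
    have hbij : ∑ a ∈ Finset.univ.erase (0 : ZMod p), g a ∣[k] S
        = ∑ a ∈ Finset.univ.erase (0 : ZMod p), g a := by
      refine Finset.sum_nbij' (fun a => -a⁻¹) (fun a => -a⁻¹) ?_ ?_ ?_ ?_ ?_
      · intro a ha
        rw [Finset.mem_erase] at ha ⊢
        exact ⟨neg_ne_zero.mpr (inv_ne_zero ha.1), Finset.mem_univ _⟩
      · intro a ha
        rw [Finset.mem_erase] at ha ⊢
        exact ⟨neg_ne_zero.mpr (inv_ne_zero ha.1), Finset.mem_univ _⟩
      · intro a _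
        rw [inv_neg, neg_neg, inv_inv]
      · intro a _
        rw [inv_neg, neg_neg, inv_inv]
      · intro a ha
        exact hS a (Finset.mem_erase.mp ha).1
    rw [hbij]
    abel
  have hinvT : (f₀ + ∑ a, g a) ∣[k] T = f₀ + ∑ a, g a := by
    rw [SlashAction.add_slash, hT0, hT]
  have hmem : γ ∈ Subgroup.closure ({S, T} : Set SL(2, ℤ)) := by
    rw [SpecialLinearGroup.SL2Z_generators]
    exact Subgroup.mem_top γ
  induction hmem using Subgroup.closure_induction with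
  | mem x hx =>
    rcases hx with rfl | rfl
    · exact hinvS
    · exact hinvT
  | one => exact SlashAction.slash_one _ _
  | mul x y _ _ hx hy => rw [SlashAction.slash_mul, hx, hy]
  | inv x _ hx =>
    have h1 : ((f₀ + ∑ a, g a) ∣[k] x) ∣[k] x⁻¹ = f₀ + ∑ a, g a := by
      rw [← SlashAction.slash_mul, mul_inv_cancel, SlashAction.slash_one]
    rw [hx] at h1
    exact h1

end Abstract

end Fermat.Agent.S16.Trace
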