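import Mathlib
import Fermat.Prelude.Def_ModularForm_HeckeOperatorForms
import Fermat.Prelude.Thm_CongruenceSubgroup_one_mem_strictPeriods_Gamma0
import Fermat.Prelude.Thm_ModularFormClass_qCoeff_heckeU
import Fermat.Prelude.Thm_ModularForm_isBoundedAtImInfty_heckeU
import Fermat.Agent.S23_Conj
import Fermat.Agent.S23_DeltaN
import Fermat.Agent.S16_Trace
import Fermat.Agent.S16_QSeries

/-!
# S16 (U3): the conjugates of a weight-two form of level `Γ₀(p)` under `S T^i`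

For `G ∈ M₂(Γ₀(p))` the function `(G ∣ S) ∣ diag(p, 1) + U_p G` is invariant under `SL(2, ℤ)`,
hence zero (there are no level-one forms of weight two).  This gives **(K1)**:
`(G ∣ S T^i)(z) = - p⁻¹ (U_p G)((z + i) / p)`.
-/

set_option autoImplicit false

open UpperHalfPlane CongruenceSubgroup ModularForm ModularGroup
open scoped MatrixGroups ModularForm Manifold

noncomputable section

namespace Fermat.Agent.S16.Trace

open Fermat.Agent.S23.DeltaN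

variable {p : ℕ}

/-! ### Matrix identities in `GL(2, ℝ)` -/

theorem diag_mul_T (hp : p ≠ 0) :
    heckeDiagMatrix p * Matrix.SpecialLinearGroup.mapGL ℝ T =
      Matrix.SpecialLinearGroup.mapGL ℝ (T ^ (p : ℤ)) * heckeDiagMatrix p := by
  apply Units.ext
  rw [Units.val_mul, Units.val_mul, val_heckeDiagMatrix hp, mapGL_val, mapGL_val,
    ModularGroup.coe_T_zpow]
  ext i j
  fin_cases i <;> fin_cases j <;> simp [Matrix.mul_apply, Fin.sum_univ_two, ModularGroup.T]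

theorem S_mul_diag_mul_S (hp : p ≠ 0) :
    Matrix.SpecialLinearGroup.mapGL ℝ S * heckeDiagMatrix p * Matrix.SpecialLinearGroup.mapGL ℝ S =
      Matrix.SpecialLinearGroup.mapGL ℝ (-1 : SL(2, ℤ)) * heckeMatrix p 0 := by
  apply Units.ext
  rw [Units.val_mul, Units.val_mul, Units.val_mul, val_heckeDiagMatrix hp, val_heckeMatrix hp,
    mapGL_val, mapGL_val]
  ext i j
  fin_cases i <;> fin_cases j <;> simp [Matrix.mul_apply, Fin.sum_univ_two, ModularGroup.S]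

theorem heckeMatrix_zero_mul_S (hp : p ≠ 0) :
    heckeMatrix p 0 * Matrix.SpecialLinearGroup.mapGL ℝ S =
      Matrix.SpecialLinearGroup.mapGL ℝ S * heckeDiagMatrix p := by
  apply Units.ext
  rw [Units.val_mul, Units.val_mul, val_heckeDiagMatrix hp, val_heckeMatrix hp, mapGL_val]
  ext i j
  fin_cases i <;> fin_cases j <;> simp [Matrix.mul_apply, Fin.sum_univ_two, ModularGroup.S]

/-- the matrix `[[i, -e], [p, -j]]` of determinant `p e - i j = 1`. -/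
def corrU (p i j : ℕ) (e : ℤ) (h : (i : ℤ) * j + 1 = p * e) : SL(2, ℤ) :=
  ⟨!![(i : ℤ), -e; (p : ℤ), -(j : ℤ)], by rw [Matrix.det_fin_two_of]; linarith⟩

theorem corrU_mem_Gamma0 (p i j : ℕ) (e : ℤ) (h : (i : ℤ) * j + 1 = p * e) :
    corrU p i j e h ∈ Gamma0 p := by
  rw [Gamma0_mem]
  show (((!![(i : ℤ), -e; (p : ℤ), -(j : ℤ)] : Matrix (Fin 2) (Fin 2) ℤ) 1 0 : ℤ) : ZMod p) = 0
  simp

theorem heckeMatrix_mul_S (hp : p ≠ 0) (i j : ℕ) (e : ℤ) (h : (i : ℤ) * j + 1 = p * e) :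
    heckeMatrix p i * Matrix.SpecialLinearGroup.mapGL ℝ S =
      Matrix.SpecialLinearGroup.mapGL ℝ (corrU p i j e h) * heckeMatrix p j := by
  have h' : (i : ℝ) * j + 1 = p * e := by exact_mod_cast h
  apply Units.ext
  rw [Units.val_mul, Units.val_mul, val_heckeMatrix hp, val_heckeMatrix hp, mapGL_val, mapGL_val]
  ext a b
  fin_cases a <;> fin_cases b <;>
    simp [Matrix.mul_apply, Fin.sum_univ_two, ModularGroup.S, corrU]
  all_goals linarith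

/-! ### The conjugates -/

section Main

variable [Fact p.Prime]

omit [Fact p.Prime] in
theorem slash_of_mem {k : ℤ} (G : ModularForm (Gamma0 p) k) {δ : SL(2, ℤ)} (hδ : δ ∈ Gamma0 p) :
    (G : ℍ → ℂ) ∣[k] δ = G :=
  SlashInvariantFormClass.slash_action_eq G _ (Subgroup.mem_map_of_mem _ hδ)

omit [Fact p.Prime] in
theorem slash_β_congr {k : ℤ} (G : ModularForm (Gamma0 p) k) (i j : ℤ) (h : (p : ℤ) ∣ j - i) :
    (G : ℍ → ℂ) ∣[k] β i = (G : ℍ → ℂ) ∣[k] β j := by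
  rw [β_eq_low_mul i j, SlashAction.slash_mul, slash_of_mem G (low_mem_Gamma0 h)]

theorem heckeU_eq_sum_zmod' (k : ℤ) (f : ℍ → ℂ) :
    heckeU k p f = ∑ a : ZMod p, f ∣[k] heckeMatrix p a.val := by
  rw [heckeU_def]
  refine Finset.sum_nbij' (fun j : ℕ ↦ (j : ZMod p)) (fun x : ZMod p ↦ x.val)
    (fun _ _ ↦ Finset.mem_univ _) (fun x _ ↦ Finset.mem_range.mpr x.val_lt) (fun j hj ↦ ?_)
    (fun x _ ↦ ?_) (fun j hj ↦ ?_)
  · exact ZMod.val_cast_of_lt (Finset.mem_range.mp hj)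
  · exact ZMod.natCast_zmod_val x
  · rw [ZMod.val_cast_of_lt (Finset.mem_range.mp hj)]

/-- `(G ∣ S) ∣ diag(p, 1)`, i.e. `G ∣ W_p`. -/
def wFun (G : ModularForm (Gamma0 p) 2) : ℍ → ℂ :=
  ((G : ℍ → ℂ) ∣[(2 : ℤ)] S) ∣[(2 : ℤ)] heckeDiagMatrix p

theorem wFun_slash_T (G : ModularForm (Gamma0 p) 2) : wFun G ∣[(2 : ℤ)] T = wFun G := by
  have hp : p ≠ 0 := (Fact.out : p.Prime).ne_zero
  have h1 : wFun G ∣[(2 : ℤ)] T = ((G : ℍ → ℂ) ∣[(2 : ℤ)] S) ∣[(2 : ℤ)]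
      (heckeDiagMatrix p * Matrix.SpecialLinearGroup.mapGL ℝ T) := by
    rw [SlashAction.slash_mul]
    rfl
  have h2 : ((G : ℍ → ℂ) ∣[(2 : ℤ)] S) ∣[(2 : ℤ)]
      (Matrix.SpecialLinearGroup.mapGL ℝ (T ^ (p : ℤ))) = (G : ℍ → ℂ) ∣[(2 : ℤ)] S := by
    show ((G : ℍ → ℂ) ∣[(2 : ℤ)] S) ∣[(2 : ℤ)] (T ^ (p : ℤ)) = _
    rw [← SlashAction.slash_mul, ← β_eq, slash_β_congr G (p : ℤ) 0 (by simp), β_zero]
  rw [h1, diag_mul_T hp, SlashAction.slash_mul, h2]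
  rfl

theorem wFun_slash_S (G : ModularForm (Gamma0 p) 2) :
    wFun G ∣[(2 : ℤ)] S = (G : ℍ → ℂ) ∣[(2 : ℤ)] heckeMatrix p 0 := by
  have hp : p ≠ 0 := (Fact.out : p.Prime).ne_zero
  have h1 : wFun G ∣[(2 : ℤ)] S = (G : ℍ → ℂ) ∣[(2 : ℤ)]
      (Matrix.SpecialLinearGroup.mapGL ℝ S * heckeDiagMatrix p *
        Matrix.SpecialLinearGroup.mapGL ℝ S) := by
    rw [SlashAction.slash_mul, SlashAction.slash_mul]
    rfl
  have h2 : (G : ℍ → ℂ) ∣[(2 : ℤ)] (Matrix.SpecialLinearGroup.mapGL ℝ (-1 : SL(2, ℤ))) = G :=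
    slash_of_mem G (neg_one_mem_Gamma0 p)
  rw [h1, S_mul_diag_mul_S hp, SlashAction.slash_mul, h2]

theorem slash_heckeMatrix_zero_S (G : ModularForm (Gamma0 p) 2) :
    ((G : ℍ → ℂ) ∣[(2 : ℤ)] heckeMatrix p 0) ∣[(2 : ℤ)] S = wFun G := by
  have hp : p ≠ 0 := (Fact.out : p.Prime).ne_zero
  have h1 : ((G : ℍ → ℂ) ∣[(2 : ℤ)] heckeMatrix p 0) ∣[(2 : ℤ)] S = (G : ℍ → ℂ) ∣[(2 : ℤ)]
      (heckeMatrix p 0 * Matrix.SpecialLinearGroup.mapGL ℝ S) := by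
    rw [SlashAction.slash_mul]
    rfl
  rw [h1, heckeMatrix_zero_mul_S hp, SlashAction.slash_mul]
  rfl

theorem slash_heckeMatrix_S (G : ModularForm (Gamma0 p) 2) (a : ZMod p) (ha : a ≠ 0) :
    ((G : ℍ → ℂ) ∣[(2 : ℤ)] heckeMatrix p a.val) ∣[(2 : ℤ)] S =
      (G : ℍ → ℂ) ∣[(2 : ℤ)] heckeMatrix p (-a⁻¹).val := by
  have hp : p ≠ 0 := (Fact.out : p.Prime).ne_zero
  have hdvd : (p : ℤ) ∣ (a.val : ℤ) * ((-a⁻¹).val : ℤ) + 1 := by
    rw [← ZMod.intCast_zmod_eq_zero_iff_dvd]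
    push_cast
    rw [ZMod.natCast_zmod_val, ZMod.natCast_zmod_val, mul_neg, mul_inv_cancel₀ ha]
    ring
  obtain ⟨e, he⟩ := hdvd
  have h1 : ((G : ℍ → ℂ) ∣[(2 : ℤ)] heckeMatrix p a.val) ∣[(2 : ℤ)] S = (G : ℍ → ℂ) ∣[(2 : ℤ)]
      (heckeMatrix p a.val * Matrix.SpecialLinearGroup.mapGL ℝ S) := by
    rw [SlashAction.slash_mul]
    rfl
  have h2 : (G : ℍ → ℂ) ∣[(2 : ℤ)]
      (Matrix.SpecialLinearGroup.mapGL ℝ (corrU p a.val (-a⁻¹).val e he)) = G :=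
    slash_of_mem G (corrU_mem_Gamma0 p a.val (-a⁻¹).val e he)
  rw [h1, heckeMatrix_mul_S hp a.val (-a⁻¹).val e he, SlashAction.slash_mul, h2]

theorem heckeU_slash_T (G : ModularForm (Gamma0 p) 2) :
    heckeU 2 p (G : ℍ → ℂ) ∣[(2 : ℤ)] T = heckeU 2 p G := by
  have : NeZero p := ⟨(Fact.out : p.Prime).ne_zero⟩
  have hT : T ∈ Gamma0 p := by
    rw [Gamma0_mem]
    simp [ModularGroup.T]
  exact slash_of_mem (heckeULin 2 (dvd_refl p) G) hT

theorem wFun_add_heckeU_slash (G : ModularForm (Gamma0 p) 2) (γ : SL(2, ℤ)) :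
    (wFun G + heckeU 2 p G) ∣[(2 : ℤ)] γ = wFun G + heckeU 2 p G := by
  rw [heckeU_eq_sum_zmod']
  refine invariant_of_ST (wFun G) (fun a => (G : ℍ → ℂ) ∣[(2 : ℤ)] heckeMatrix p a.val)
    (wFun_slash_T G) ?_ ?_ ?_ ?_ γ
  · rw [← heckeU_eq_sum_zmod']
    exact heckeU_slash_T G
  · simp only [ZMod.val_zero]
    exact wFun_slash_S G
  · simp only [ZMod.val_zero]
    exact slash_heckeMatrix_zero_S G
  · intro a ha
    exact slash_heckeMatrix_S G a ha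

/-- **(K1′)** `G ∣ W_p = - U_p G` for `G ∈ M₂(Γ₀(p))`. -/
theorem wFun_add_heckeU_eq_zero (G : ModularForm (Gamma0 p) 2) :
    wFun G + heckeU 2 p G = 0 := by
  have hp : p ≠ 0 := (Fact.out : p.Prime).ne_zero
  have : NeZero p := ⟨hp⟩
  have hol : MDiff (wFun G + heckeU 2 p G) :=
    (((ModularFormClass.holo G).slash 2 _).slash 2 _).add
      (mdifferentiable_heckeU (ModularFormClass.holo G) 2 p)
  have bdd : IsBoundedAtImInfty (wFun G + heckeU 2 p G) := by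
    have h1 : IsBoundedAtImInfty (wFun G) :=
      IsBoundedAtImInfty.slash 2 (by simp [val_heckeDiagMatrix hp])
        (ModularFormClass.bdd_at_infty_slash G S)
    have h0 : IsBoundedAtImInfty (G : ℍ → ℂ) := by
      have := ModularFormClass.bdd_at_infty_slash G (1 : SL(2, ℤ))
      rwa [SlashAction.slash_one] at this
    have h2 : IsBoundedAtImInfty (heckeU 2 p (G : ℍ → ℂ)) := isBoundedAtImInfty_heckeU h0 2 p
    exact h1.add h2
  obtain ⟨F, hF⟩ := Fermat.Agent.S23.Conj.exists_modularForm_levelOne 2 _ hol bdd (by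
    rintro γ ⟨δ, rfl⟩
    exact wFun_add_heckeU_slash G δ)
  have hF0 : F = 0 := rank_zero_iff_forall_zero.mp ModularForm.levelOne_weight_two_rank_zero F
  rw [← hF, hF0]
  rfl

/-- **(K1)** the conjugates of `G ∈ M₂(Γ₀(p))` under `S T^i`:
`(G ∣ S T^i)(z) = - p⁻¹ (U_p G)((z + i) / p)`. -/
theorem slash_ST_apply (G : ModularForm (Gamma0 p) 2) (i : ℕ) (z : ℍ) :
    ((G : ℍ → ℂ) ∣[(2 : ℤ)] (ModularGroup.S * ModularGroup.T ^ (i : ℤ))) z
      = -(p : ℂ)⁻¹ * heckeU 2 p G (heckeMatrix p i • z) := by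
  have hp : p ≠ 0 := (Fact.out : p.Prime).ne_zero
  have hpC : (p : ℂ) ≠ 0 := by exact_mod_cast hp
  set w : ℍ := heckeMatrix p i • z with hw
  have h0 : wFun G w + heckeU 2 p G w = 0 := congrFun (wFun_add_heckeU_eq_zero G) w
  have h1 : wFun G w = (p : ℂ) * ((G : ℍ → ℂ) ∣[(2 : ℤ)] S) (heckeDiagMatrix p • w) := by
    rw [wFun, slash_heckeDiagMatrix_apply 2 hp]
    norm_num
  have h2 : heckeDiagMatrix p • w = (T ^ (i : ℤ)) • z := by
    apply UpperHalfPlane.ext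
    rw [coe_heckeDiagMatrix_smul hp, hw, coe_heckeMatrix_smul hp,
      ModularGroup.coe_T_zpow_smul_eq]
    field_simp
    push_cast
    ring
  have h3 : ((G : ℍ → ℂ) ∣[(2 : ℤ)] (S * T ^ (i : ℤ))) z =
      ((G : ℍ → ℂ) ∣[(2 : ℤ)] S) ((T ^ (i : ℤ)) • z) := by
    rw [SlashAction.slash_mul, ModularForm.SL_slash_apply, ModularGroup.denom_apply,
      ModularGroup.coe_T_zpow]
    simp
  have h4 : ((G : ℍ → ℂ) ∣[(2 : ℤ)] S) (heckeDiagMatrix p • w) = (p : ℂ)⁻¹ * wFun G w := by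
    rw [h1]
    field_simp
  rw [h3, ← h2, h4, eq_neg_of_add_eq_zero_left h0]
  ring

/-- `q`-expansion of `U_p G`: `a_n(U_p G) = a_{np}(G)`. -/
theorem qExpansion_heckeU {k : ℤ} (G : ModularForm (Gamma0 p) k) :
    qExpansion 1 (heckeU k p G) = QSeries.Uq p (qExpansion 1 G) := by
  have hp : p ≠ 0 := (Fact.out : p.Prime).ne_zero
  ext n
  rw [QSeries.coeff_Uq]
  exact ModularFormClass.qCoeff_heckeU G (one_mem_strictPeriods_Gamma0 p) hp n

end Main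

end Fermat.Agent.S16.Trace
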