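import Mathlib
import Fermat.Agent.S16_Defs
import Fermat.Agent.S16_Eis
import Fermat.Agent.S16_TraceMain
import Fermat.Agent.S16_Norm
import Fermat.Agent.S16_Conj
import Fermat.Agent.S16_NormSeries

/-!
# S16: Lemma `B₉` — for `p ≡ 2` mod `3` no `G ∈ M₂(Γ₀(p))` is `≡ 1` mod `9`

Glue between the analytic side (the norm of `(p G E₄ + E₆)/3` from level `p` to level one, the
`q`-expansions of its conjugates via (K1)) and the `q`-series statement
`NormSeries.lemmaB9_series`.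
-/

set_option autoImplicit false

open UpperHalfPlane CongruenceSubgroup ModularForm
open scoped MatrixGroups ModularForm Manifold

noncomputable section

namespace Fermat.Agent.S16.B9

open Fermat.Agent.S16 Fermat.Agent.S16.Norm Fermat.Agent.S16.NormCore Fermat.Agent.S16.IntRing

/-! ### Generalities -/

/-- the divisor-power-sum series `∑ σ_k(n) qⁿ` over `ℤ`. -/
def sigmaSeries (k : ℕ) : PowerSeries ℤ :=
  PowerSeries.mk fun n => ((ArithmeticFunction.sigma k n : ℕ) : ℤ)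

theorem sigmaSeries_coeff_zero (k : ℕ) : (sigmaSeries k).coeff 0 = 0 := by
  simp [sigmaSeries]

theorem sigmaSeries_coeff_one (k : ℕ) : (sigmaSeries k).coeff 1 = 1 := by
  simp [sigmaSeries]

theorem qExpansion_E4_eq :
    qExpansion 1 E₄ = 1 + (240 : ℂ) • (sigmaSeries 3).map (Int.castRingHom ℂ) := by
  ext n
  rw [Eis.qExpansion_E4_coeff]
  simp only [map_add, PowerSeries.coeff_one, PowerSeries.coeff_smul, PowerSeries.coeff_map,
    sigmaSeries, PowerSeries.coeff_mk]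
  split_ifs with h
  · subst h
    simp
  · simp

theorem qExpansion_E6_eq :
    qExpansion 1 E₆ = 1 - (504 : ℂ) • (sigmaSeries 5).map (Int.castRingHom ℂ) := by
  ext n
  rw [Eis.qExpansion_E6_coeff]
  simp only [map_sub, PowerSeries.coeff_one, PowerSeries.coeff_smul, PowerSeries.coeff_map,
    sigmaSeries, PowerSeries.coeff_mk]
  split_ifs with h
  · subst h
    simp
  · simp

/-- the `p`-th roots of unity are `ℓ`-integral. -/
theorem exp_mem_O (ℓ : ℕ) [Fact ℓ.Prime] (p i : ℕ) (hp : 0 < p) :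
    Complex.exp (2 * Real.pi * Complex.I * (((i : ℝ) / p : ℝ) : ℂ)) ∈ O ℓ := by
  apply isIntegral_mem_O
  refine IsIntegral.of_pow hp ?_
  have h1 : Complex.exp (2 * Real.pi * Complex.I * (((i : ℝ) / p : ℝ) : ℂ)) ^ p = 1 := by
    rw [← Complex.exp_nat_mul, Complex.exp_eq_one_iff]
    refine ⟨i, ?_⟩
    have hp' : (p : ℂ) ≠ 0 := by exact_mod_cast hp.ne'
    push_cast
    field_simp
  rw [h1]
  exact isIntegral_one

/-- `CongOne ℓ r g` gives `g = 1 + ℓ^r H` with `H` an `ℓ`-integral series. -/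
theorem exists_eq_one_add_smul {ℓ r : ℕ} [Fact ℓ.Prime] {g : PowerSeries ℂ}
    (h : S16Lib.CongOne ℓ r g) : ∃ H ∈ OS (O ℓ), g = 1 + ((ℓ : ℂ) ^ r) • H := by
  obtain ⟨h0, s, hs, hc⟩ := h
  have hℓ : ((ℓ : ℂ) ^ r) ≠ 0 :=
    pow_ne_zero _ (by exact_mod_cast (Fact.out : ℓ.Prime).ne_zero)
  refine ⟨PowerSeries.mk fun n => if n = 0 then 0 else g.coeff n / (ℓ : ℂ) ^ r, ?_, ?_⟩
  · intro n
    rw [PowerSeries.coeff_mk]
    split_ifs with hn
    · exact (O ℓ).zero_mem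
    · obtain ⟨b, hb⟩ := hc n (Nat.one_le_iff_ne_zero.mpr hn)
      obtain ⟨c, hcO, hceq⟩ := exists_mem_O_of_mul_eq hs hb
      rw [hceq, mul_div_cancel_left₀ _ hℓ]
      exact hcO
  · ext n
    simp only [map_add, PowerSeries.coeff_one, PowerSeries.coeff_smul, PowerSeries.coeff_mk]
    split_ifs with hn
    · subst hn
      simp [h0]
    · rw [smul_eq_mul, mul_div_cancel₀ _ hℓ, zero_add]

/-- the twist `∑ ζⁿ a_{np} qⁿ` of a power series. -/
def twist (ζ : ℂ) (p : ℕ) (g : PowerSeries ℂ) : PowerSeries ℂ :=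
  PowerSeries.mk fun n => ζ ^ n * g.coeff (n * p)

theorem coeff_twist (ζ : ℂ) (p : ℕ) (g : PowerSeries ℂ) (n : ℕ) :
    (twist ζ p g).coeff n = ζ ^ n * g.coeff (n * p) := by
  rw [twist, PowerSeries.coeff_mk]

theorem twist_mem_OS {O : Subring ℂ} {ζ : ℂ} (hζ : ζ ∈ O) (p : ℕ) {H : PowerSeries ℂ}
    (hH : H ∈ OS O) : twist ζ p H ∈ OS O := by
  intro n
  rw [coeff_twist]
  exact O.mul_mem (O.pow_mem hζ n) (hH _)

theorem twist_one_add_smul (ζ : ℂ) {p : ℕ} (hp : p ≠ 0) (c : ℂ) (H : PowerSeries ℂ) :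
    twist ζ p (1 + c • H) = 1 + c • twist ζ p H := by
  ext n
  simp only [coeff_twist, map_add, PowerSeries.coeff_one, PowerSeries.coeff_smul, smul_eq_mul]
  rcases eq_or_ne n 0 with rfl | hn
  · simp
  · rw [if_neg (Nat.mul_ne_zero hn hp), if_neg hn]
    ring

/-- `q`-expansion of `z ↦ Φ(p z)` when `Φ(p z)` is a product of `q`-series functions. -/
theorem expand_eq_mul_prod {p : ℕ} (hp : 0 < p) {Φ : ℍ → ℂ} (hΦ : IsQ Φ) (H₀ : ℍ → ℂ)
    (Hc : ℕ → ℍ → ℂ) (hH₀ : IsQ H₀) (hHc : ∀ i ∈ Finset.range p, IsQ (Hc i))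
    (h : ∀ z, Φ (dil p hp z) = H₀ z * ∏ i ∈ Finset.range p, Hc i z) :
    (qExpansion 1 Φ).expand p hp.ne' =
      qExpansion 1 H₀ * ∏ i ∈ Finset.range p, qExpansion 1 (Hc i) := by
  rw [← qExpansion_comp_dil hΦ p hp]
  have e : (fun z => Φ (dil p hp z)) = H₀ * ∏ i ∈ Finset.range p, Hc i := by
    funext z
    rw [h z, Pi.mul_apply, Finset.prod_apply]
  rw [e, qExpansion_mul' hH₀ (IsQ.prod _ _ hHc), qExpansion_prod _ _ hHc]

/-- a level-one form is invariant under `SL(2, ℤ)`. -/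
theorem slash_levelOne {k : ℤ} (E : ModularForm 𝒮ℒ k) (γ : SL(2, ℤ)) :
    (E : ℍ → ℂ) ∣[k] γ = E :=
  SlashInvariantFormClass.slash_action_eq E _ ⟨γ, rfl⟩

theorem isQ_levelOne {k : ℤ} (E : ModularForm 𝒮ℒ k) : IsQ (E : ℍ → ℂ) :=
  IsQ.of_modularForm E one_mem_strictPeriods_SL

/-! ### Lemma `B₉` -/

/-- **Lemma `B₉`.**  For a prime `p ≥ 5`, `p ≡ 2` mod `3`, no `G ∈ M₂(Γ₀(p))` has a
`q`-expansion `≡ 1` mod `9`. -/
theorem noCongOne (p : ℕ) [Fact p.Prime] (hp5 : 5 ≤ p) (h3 : p % 3 = 2) :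
    S16Lib.NoCongOne p 3 2 := by
  intro G hG
  have hp : p ≠ 0 := (Fact.out : p.Prime).ne_zero
  have hpos : 0 < p := Nat.pos_of_ne_zero hp
  have hpC : (p : ℂ) ≠ 0 := by exact_mod_cast hp
  have : NeZero p := ⟨hp⟩
  have : Fact (Nat.Prime 3) := ⟨Nat.prime_three⟩
  -- the forms
  set g : ModularForm (Gamma0 p) 6 := ((p : ℂ) / 3) •
    ModularForm.mcast (by norm_num : (2 : ℤ) + 4 = 6) (G.mul (Eis.levelRestrict p E₄)) with hg
  set A : ModularForm (Gamma0 1) 6 := (1 / 3 : ℂ) • Eis.levelRestrict 1 E₆ with hA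
  obtain ⟨Φ, hΦ⟩ := exists_norm p 1
    (fun h => (Fact.out : p.Prime).one_lt.ne' (Nat.dvd_one.mp h)) 6 g A
  have hgz : ∀ z, g z = (p : ℂ) / 3 * (G z * E₄ z) := fun z => rfl
  have hAz : ∀ z, A z = 1 / 3 * E₆ z := fun z => rfl
  have hK1 := Trace.slash_ST_apply G
  have hGQ : IsQ (G : ℍ → ℂ) := isQ_Gamma0 G
  have hE4Q : IsQ (E₄ : ℍ → ℂ) := isQ_levelOne E₄
  have hE6Q : IsQ (E₆ : ℍ → ℂ) := isQ_levelOne E₆
  -- the conjugates of `g`
  have hconj : ∀ (i : ℕ) (z : ℍ),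
      ((g : ℍ → ℂ) ∣[(6 : ℤ)] (ModularGroup.S * ModularGroup.T ^ (i : ℤ))) z
        = (p : ℂ) / 3 * (((G : ℍ → ℂ) ∣[(2 : ℤ)]
            (ModularGroup.S * ModularGroup.T ^ (i : ℤ))) z * E₄ z) := by
    intro i z
    have e1 : (g : ℍ → ℂ) = ((p : ℂ) / 3) • ((G : ℍ → ℂ) * (E₄ : ℍ → ℂ)) := rfl
    rw [e1, ModularForm.SL_smul_slash]
    show ((p : ℂ) / 3) • (((G : ℍ → ℂ) * (E₄ : ℍ → ℂ)) ∣[(2 : ℤ) + 4]
      (ModularGroup.S * ModularGroup.T ^ (i : ℤ))) z = _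
    rw [ModularForm.mul_slash_SL2, slash_levelOne]
    rfl
  -- the `q`-series functions
  set H₀ : ℍ → ℂ := fun z => g (dil p hpos z) + A (dil p hpos z) with hH₀
  set Hc : ℕ → ℍ → ℂ := fun i z =>
    ((g : ℍ → ℂ) ∣[(6 : ℤ)] (ModularGroup.S * ModularGroup.T ^ (i : ℤ))) (dil p hpos z)
      + A (dil p hpos z) with hHc
  have hH₀eq : H₀ = ((p : ℂ) / 3) • ((fun z => G (dil p hpos z)) *
      (fun z => E₄ (dil p hpos z))) + (1 / 3 : ℂ) • (fun z => E₆ (dil p hpos z)) := by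
    funext z
    simp only [hH₀, hgz, hAz, Pi.add_apply, Pi.smul_apply, Pi.mul_apply, smul_eq_mul]
  have hHceq : ∀ i, Hc i = ((p : ℂ) / 3) • (conjFun p hpos G i *
      (fun z => E₄ (dil p hpos z))) + (1 / 3 : ℂ) • (fun z => E₆ (dil p hpos z)) := by
    intro i
    funext z
    simp only [hHc, hconj, hAz, Pi.add_apply, Pi.smul_apply, Pi.mul_apply, smul_eq_mul]
    rfl
  have hQG' := hGQ.comp_dil p hpos
  have hQE4' := hE4Q.comp_dil p hpos
  have hQE6' := hE6Q.comp_dil p hpos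
  have hQconj : ∀ i, IsQ (conjFun p hpos G i) := fun i => isQ_conj hpos G hK1 hGQ i
  have hH₀Q : IsQ H₀ := by
    rw [hH₀eq]
    exact ((hQG'.mul hQE4').const_smul _).add (hQE6'.const_smul _)
  have hHcQ : ∀ i, IsQ (Hc i) := by
    intro i
    rw [hHceq]
    exact (((hQconj i).mul hQE4').const_smul _).add (hQE6'.const_smul _)
  -- the product formula
  have hprod := expand_eq_mul_prod hpos (isQ_Gamma0 Φ) H₀ Hc hH₀Q (fun i _ => hHcQ i)
    (fun z => hΦ (dil p hpos z))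
  -- the `q`-expansions of the factors
  have hF₀ : qExpansion 1 H₀ = (((p : ℂ) / 3) • (qExpansion 1 G * qExpansion 1 E₄)
      + (1 / 3 : ℂ) • qExpansion 1 E₆).expand p hp := by
    rw [hH₀eq, qExpansion_add' ((hQG'.mul hQE4').const_smul _) (hQE6'.const_smul _),
      qExpansion_smul' (hQG'.mul hQE4'), qExpansion_smul' hQE6', qExpansion_mul' hQG' hQE4',
      qExpansion_comp_dil hGQ, qExpansion_comp_dil hE4Q, qExpansion_comp_dil hE6Q]
    simp only [map_add, map_mul, map_smul]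
  set Utw : ℕ → PowerSeries ℂ := fun i =>
    twist (Complex.exp (2 * Real.pi * Complex.I * (((i : ℝ) / p : ℝ) : ℂ))) p (qExpansion 1 G)
    with hUtw
  have hconjq : ∀ i, qExpansion 1 (conjFun p hpos G i) = (-(p : ℂ)⁻¹) • Utw i := by
    intro i
    ext n
    rw [qExpansion_conj_coeff hpos G hK1 hGQ i n, PowerSeries.coeff_smul, coeff_twist]
    rfl
  have hF : ∀ i < p, qExpansion 1 (Hc i) =
      -(1 / 3 : ℂ) • (Utw i * (qExpansion 1 E₄).expand p hp)
        + (1 / 3 : ℂ) • (qExpansion 1 E₆).expand p hp := by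
    intro i _
    rw [hHceq, qExpansion_add' (((hQconj i).mul hQE4').const_smul _) (hQE6'.const_smul _),
      qExpansion_smul' ((hQconj i).mul hQE4'), qExpansion_smul' hQE6',
      qExpansion_mul' (hQconj i) hQE4', hconjq, qExpansion_comp_dil hE4Q,
      qExpansion_comp_dil hE6Q, smul_mul_assoc, smul_smul]
    congr 2
    field_simp
  -- integrality
  obtain ⟨H, hH, hGH⟩ := exists_eq_one_add_smul hG
  have h9 : (((3 : ℕ) : ℂ)) ^ 2 = 9 := by norm_num
  rw [h9] at hGH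
  have hUint : ∀ i < p, ∃ H' ∈ OS (O 3), Utw i = 1 + (9 : ℂ) • H' := by
    intro i _
    refine ⟨twist _ p H, twist_mem_OS (exp_mem_O 3 p i hpos) p hH, ?_⟩
    show twist _ p (qExpansion 1 G) = _
    rw [hGH, twist_one_add_smul _ hp]
  have hK : ((6 : ℤ) * ((p : ℤ) + 1)).toNat / 12 < p := by omega
  exact NormSeries.lemmaB9_series p hp h3 hK Φ (sigmaSeries 3) (sigmaSeries 5)
    (sigmaSeries_coeff_zero 3) (sigmaSeries_coeff_one 3) (sigmaSeries_coeff_zero 5)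
    (sigmaSeries_coeff_one 5) (qExpansion 1 E₄) (qExpansion 1 E₆) qExpansion_E4_eq
    qExpansion_E6_eq (qExpansion 1 G) Utw ⟨H, hH, hGH⟩ hUint (qExpansion 1 H₀)
    (fun i => qExpansion 1 (Hc i)) hF₀ hF hprod

end Fermat.Agent.S16.B9
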