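import Mathlib
import Fermat.Prelude.Def_ModularCurve_GenusNumerics

set_option autoImplicit false

/-!
# S24: the projective line over `ℤ/N` and the cosets of `Γ₀(N)`

The left cosets `g Γ₀(N)` of `SL(2, ℤ)` are classified by the first column of `g` modulo `N`, up to
units: `mk_eq_mk_iff`, `cross_eq_zero_iff`, `exists_col_eq`.
-/

open Matrix Matrix.SpecialLinearGroup CongruenceSubgroup
open scoped MatrixGroups

namespace Fermat.Agent.S24.CountModel

section Ring

variable {R : Type*} [CommRing R]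

/-- Primitive (unimodular) vectors of `R²`. -/
def IsPrim (v : R × R) : Prop := ∃ x y : R, x * v.1 + y * v.2 = 1

/-- The cross product of two vectors of `R²`. -/
def cross (v w : R × R) : R := v.1 * w.2 - v.2 * w.1

theorem cross_eq_zero_iff {v w : R × R} (hv : IsPrim v) (hw : IsPrim w) :
    cross v w = 0 ↔ ∃ u : Rˣ, w = ((u : R) * v.1, (u : R) * v.2) := by
  obtain ⟨x, y, hxy⟩ := hv
  obtain ⟨x', y', hxy'⟩ := hw
  constructor
  · intro h
    have h' : v.1 * w.2 = v.2 * w.1 := by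
      have := h; unfold cross at this; linear_combination this
    have h1 : (x * w.1 + y * w.2) * v.1 = w.1 := by linear_combination w.1 * hxy + y * h'
    have h2 : (x * w.1 + y * w.2) * v.2 = w.2 := by linear_combination w.2 * hxy - x * h'
    have h3 : (x' * v.1 + y' * v.2) * w.1 = v.1 := by linear_combination v.1 * hxy' - y' * h'
    have h4 : (x' * v.1 + y' * v.2) * w.2 = v.2 := by linear_combination v.2 * hxy' + x' * h'
    have hu : (x * w.1 + y * w.2) * (x' * v.1 + y' * v.2) = 1 := by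
      linear_combination hxy' + x' * h1 + y' * h2
    refine ⟨⟨x * w.1 + y * w.2, x' * v.1 + y' * v.2, hu, by rw [mul_comm]; exact hu⟩, ?_⟩
    exact Prod.ext h1.symm h2.symm
  · rintro ⟨u, rfl⟩
    simp only [cross]
    ring

end Ring

variable (N : ℕ)

/-- The first column of `g` modulo `N`. -/
def col (g : SL(2, ℤ)) : ZMod N × ZMod N := (((g 0 0 : ℤ) : ZMod N), ((g 1 0 : ℤ) : ZMod N))

@[simp] theorem col_fst (g : SL(2, ℤ)) : (col N g).1 = ((g 0 0 : ℤ) : ZMod N) := rfl

@[simp] theorem col_snd (g : SL(2, ℤ)) : (col N g).2 = ((g 1 0 : ℤ) : ZMod N) := rfl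

theorem isPrim_col (g : SL(2, ℤ)) : IsPrim (col N g) := by
  refine ⟨((g 1 1 : ℤ) : ZMod N), -((g 0 1 : ℤ) : ZMod N), ?_⟩
  have h := g.det_coe
  rw [Matrix.det_fin_two] at h
  have h' := congrArg (Int.cast : ℤ → ZMod N) h
  push_cast at h'
  simp only [col_fst, col_snd]
  linear_combination h'

/-- `col` of a product: the matrix acts on the column. -/
theorem col_mul (g h : SL(2, ℤ)) :
    col N (g * h) = (((g 0 0 : ℤ) : ZMod N) * (col N h).1 + ((g 0 1 : ℤ) : ZMod N) * (col N h).2,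
      ((g 1 0 : ℤ) : ZMod N) * (col N h).1 + ((g 1 1 : ℤ) : ZMod N) * (col N h).2) := by
  simp [col, Matrix.mul_apply, Fin.sum_univ_two]

/-- Two elements of `SL(2, ℤ)` define the same left coset of `Γ₀(N)` iff their first columns
modulo `N` are proportional. -/
theorem mk_eq_mk_iff (g h : SL(2, ℤ)) :
    (QuotientGroup.mk g : SL(2, ℤ) ⧸ Gamma0 N) = QuotientGroup.mk h ↔
      cross (col N g) (col N h) = 0 := by
  rw [QuotientGroup.eq, Gamma0_mem]
  have : ((g⁻¹ * h : SL(2, ℤ)) 1 0 : ℤ) = g 0 0 * h 1 0 - g 1 0 * h 0 0 := by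
    simp [Matrix.mul_apply, Fin.sum_univ_two, Matrix.adjugate_fin_two]
    ring
  rw [this]
  simp only [cross, col_fst, col_snd]
  push_cast
  rfl

/-- The lower unipotent matrix with first column `(1, t)`. -/
def lowerU (t : ℤ) : SL(2, ℤ) := ⟨!![1, 0; t, 1], by simp [Matrix.det_fin_two]⟩

theorem col_lowerU (t : ℤ) : col N (lowerU t) = (1, (t : ZMod N)) := by
  simp [col, lowerU]

/-- Scaling a primitive vector by a unit. -/
theorem IsPrim.smul {R : Type*} [CommRing R] {v : R × R} (hv : IsPrim v) (u : Rˣ) :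
    IsPrim ((u : R) * v.1, (u : R) * v.2) := by
  obtain ⟨x, y, hxy⟩ := hv
  refine ⟨x * ((u⁻¹ : Rˣ) : R), y * ((u⁻¹ : Rˣ) : R), ?_⟩
  have hu : ((u⁻¹ : Rˣ) : R) * (u : R) = 1 := Units.inv_mul u
  simp only
  linear_combination hxy + (x * v.1 + y * v.2) * hu

/-- Units act freely on primitive vectors. -/
theorem IsPrim.unit_eq {R : Type*} [CommRing R] {v : R × R} (hv : IsPrim v) {u u' : Rˣ}
    (h : ((u : R) * v.1, (u : R) * v.2) = ((u' : R) * v.1, (u' : R) * v.2)) : u = u' := by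
  obtain ⟨x, y, hxy⟩ := hv
  have h1 : (u : R) * v.1 = (u' : R) * v.1 := congrArg Prod.fst h
  have h2 : (u : R) * v.2 = (u' : R) * v.2 := congrArg Prod.snd h
  apply Units.ext
  linear_combination (-(u - u' : R)) * hxy + x * h1 + y * h2

theorem exists_coprime_add_mul (a n c : ℕ) (hc : c ≠ 0)
    (h : ∀ p : ℕ, p.Prime → p ∣ a → p ∣ n → p ∣ c → False) :
    ∃ k : ℕ, (a + k * n).Coprime c := by
  classical
  let ps : Finset ℕ := {p ∈ c.primeFactors | ¬ p ∣ a}
  refine ⟨ps.prod id, ?_⟩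
  apply Nat.coprime_of_dvd
  intro p pp hp hpc
  by_cases hpa : p ∣ a
  · have h1 : p ∣ ps.prod id * n := (Nat.dvd_add_right hpa).mp hp
    rcases pp.dvd_mul.mp h1 with h2 | h2
    · obtain ⟨q, hq, hq'⟩ := (pp.prime.dvd_finsetProd_iff id).mp h2
      rw [Finset.mem_filter, Nat.mem_primeFactors,
        ← (Nat.prime_dvd_prime_iff_eq pp hq.1.1).mp hq'] at hq
      exact hq.2 hpa
    · exact h p pp hpa h2 hpc
  · have pps : p ∈ ps := Finset.mem_filter.mpr ⟨Nat.mem_primeFactors.mpr ⟨pp, hpc, hc⟩, hpa⟩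
    have h1 : p ∣ ps.prod id * n := (Finset.dvd_prod_of_mem id pps).mul_right n
    exact hpa ((Nat.dvd_add_left h1).mp hp)

/-- Every primitive vector modulo `N` is the first column of an element of `SL(2, ℤ)`. -/
theorem exists_col_eq [NeZero N] (v : ZMod N × ZMod N) (hv : IsPrim v) :
    ∃ g : SL(2, ℤ), col N g = v := by
  obtain ⟨x, y, hxy⟩ := hv
  set a := v.1.val with ha
  set c := if v.2.val = 0 then N else v.2.val with hc
  have hc0 : c ≠ 0 := by
    rw [hc]; split_ifs with h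
    exacts [NeZero.ne N, h]
  have hcN : (c : ZMod N) = v.2 := by
    rw [hc]; split_ifs with h
    · rw [ZMod.natCast_self]; exact ((ZMod.val_eq_zero v.2).mp h).symm
    · exact ZMod.natCast_zmod_val v.2
  have haN : (a : ZMod N) = v.1 := ZMod.natCast_zmod_val v.1
  have hprime : ∀ p : ℕ, p.Prime → p ∣ a → p ∣ N → p ∣ c → False := by
    intro p pp hpa hpN hpc
    have : Fact p.Prime := ⟨pp⟩
    have h1 := congrArg (ZMod.castHom hpN (ZMod p)) hxy
    rw [map_add, map_mul, map_mul, map_one] at h1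
    have e1 : ZMod.castHom hpN (ZMod p) v.1 = 0 := by
      rw [← haN, map_natCast]; exact (ZMod.natCast_eq_zero_iff a p).mpr hpa
    have e2 : ZMod.castHom hpN (ZMod p) v.2 = 0 := by
      rw [← hcN, map_natCast]; exact (ZMod.natCast_eq_zero_iff c p).mpr hpc
    rw [e1, e2, mul_zero, mul_zero, add_zero] at h1
    exact zero_ne_one h1
  obtain ⟨k, hk⟩ := exists_coprime_add_mul a N c hc0 hprime
  have hcop : IsCoprime ((a + k * N : ℕ) : ℤ) (c : ℤ) := Nat.isCoprime_iff_coprime.mpr hk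
  obtain ⟨s, t, hst⟩ := hcop
  refine ⟨⟨!![((a + k * N : ℕ) : ℤ), -t; (c : ℤ), s], ?_⟩, ?_⟩
  · rw [Matrix.det_fin_two_of]; linear_combination hst
  · ext
    · simp [col, haN]
    · simp [col, hcN]

/-- Counting: cosets of `Γ₀(N)` times units of `ℤ/N` are the primitive vectors modulo `N`. -/
theorem card_quotient_mul_card_units [NeZero N] :
    Nat.card (SL(2, ℤ) ⧸ Gamma0 N) * Nat.card (ZMod N)ˣ
      = Nat.card {v : ZMod N × ZMod N // IsPrim v} := by
  rw [← Nat.card_prod]
  refine Nat.card_congr (Equiv.ofBijective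
    (fun qu : (SL(2, ℤ) ⧸ Gamma0 N) × (ZMod N)ˣ =>
      (⟨((qu.2 : ZMod N) * (col N qu.1.out).1, (qu.2 : ZMod N) * (col N qu.1.out).2),
        (isPrim_col N qu.1.out).smul qu.2⟩ : {v : ZMod N × ZMod N // IsPrim v})) ⟨?_, ?_⟩)
  · rintro ⟨q, u⟩ ⟨q', u'⟩ h
    have h' : ((u : ZMod N) * (col N q.out).1, (u : ZMod N) * (col N q.out).2)
        = ((u' : ZMod N) * (col N q'.out).1, (u' : ZMod N) * (col N q'.out).2) :=
      congrArg Subtype.val h
    have h1 : (col N q'.out) = (((u'⁻¹ * u : (ZMod N)ˣ) : ZMod N) * (col N q.out).1,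
        ((u'⁻¹ * u : (ZMod N)ˣ) : ZMod N) * (col N q.out).2) := by
      have e1 := congrArg Prod.fst h'
      have e2 := congrArg Prod.snd h'
      simp only at e1 e2
      have hu : ((u'⁻¹ : (ZMod N)ˣ) : ZMod N) * (u' : ZMod N) = 1 := Units.inv_mul u'
      ext
      · simp only [Units.val_mul]
        linear_combination (-(col N q'.out).1) * hu - ((u'⁻¹ : (ZMod N)ˣ) : ZMod N) * e1
      · simp only [Units.val_mul]
        linear_combination (-(col N q'.out).2) * hu - ((u'⁻¹ : (ZMod N)ˣ) : ZMod N) * e2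
    have hq : q = q' := by
      have := (mk_eq_mk_iff N q.out q'.out).mpr
        ((cross_eq_zero_iff (isPrim_col N _) (isPrim_col N _)).mpr ⟨_, h1⟩)
      rwa [QuotientGroup.out_eq', QuotientGroup.out_eq'] at this
    subst hq
    have hu : u = u' := (isPrim_col N q.out).unit_eq h'
    rw [hu]
  · rintro ⟨v, hv⟩
    obtain ⟨g, rfl⟩ := exists_col_eq N v hv
    have h0 : ((QuotientGroup.mk g : SL(2, ℤ) ⧸ Gamma0 N).out : SL(2, ℤ) ⧸ Gamma0 N)
        = QuotientGroup.mk g := QuotientGroup.out_eq' _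
    obtain ⟨u, hu⟩ := (cross_eq_zero_iff (isPrim_col N _) (isPrim_col N _)).mp
      ((mk_eq_mk_iff N _ g).mp h0)
    exact ⟨⟨QuotientGroup.mk g, u⟩, Subtype.ext hu.symm⟩

end Fermat.Agent.S24.CountModel
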