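import Mathlib
import Fermat.Prelude.Def_ModularCurve_GenusNumerics
import Fermat.Agent.S24_CountModel

set_option autoImplicit false

/-!
# S24: the index of `Γ₀(N)` in `SL(2, ℤ)` is the Dedekind psi function

Count of primitive vectors modulo `N` (Chinese remainder theorem + prime powers).
-/

open Matrix Matrix.SpecialLinearGroup CongruenceSubgroup ModularCurve
open scoped MatrixGroups

namespace Fermat.Agent.S24.CountIndex

open Fermat.Agent.S24.CountModel

/-- The number of primitive vectors of `R²`. -/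
noncomputable def primCount (R : Type*) [CommRing R] : ℕ := Nat.card {v : R × R // IsPrim v}

theorem primCount_congr {R S : Type*} [CommRing R] [CommRing S] (e : R ≃+* S) :
    primCount R = primCount S := by
  refine Nat.card_congr (Equiv.subtypeEquiv (e.toEquiv.prodCongr e.toEquiv) fun v => ?_)
  constructor
  · rintro ⟨x, y, h⟩
    exact ⟨e x, e y, by simpa using congrArg e h⟩
  · rintro ⟨x, y, h⟩
    refine ⟨e.symm x, e.symm y, e.injective ?_⟩
    simpa using h

theorem primCount_prod (R S : Type*) [CommRing R] [CommRing S] :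
    primCount (R × S) = primCount R * primCount S := by
  unfold primCount
  rw [← Nat.card_prod]
  refine Nat.card_congr (((Equiv.subtypeEquiv (Equiv.prodProdProdComm R S R S)
    (q := fun c : (R × R) × (S × S) => IsPrim c.1 ∧ IsPrim c.2) fun v => ?_)).trans
    (Equiv.subtypeProdEquivProd (p := fun c : R × R => IsPrim c) (q := fun c : S × S => IsPrim c)))
  constructor
  · rintro ⟨x, y, h⟩
    exact ⟨⟨x.1, y.1, congrArg Prod.fst h⟩, ⟨x.2, y.2, congrArg Prod.snd h⟩⟩
  · rintro ⟨⟨x1, y1, h1⟩, ⟨x2, y2, h2⟩⟩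
    exact ⟨(x1, x2), (y1, y2), Prod.ext h1 h2⟩

theorem primCount_of_subsingleton (R : Type*) [CommRing R] [Subsingleton R] : primCount R = 1 := by
  unfold primCount
  have : Unique {v : R × R // IsPrim v} :=
    { default := ⟨(0, 0), 0, 0, Subsingleton.elim _ _⟩
      uniq := fun a => Subtype.ext (Subsingleton.elim _ _) }
  exact Nat.card_unique

/-- In `ℤ/p^k`, a vector is primitive iff one of its coordinates is a unit. -/
theorem isPrim_iff_of_prime_pow (p k : ℕ) (hp : p.Prime) (hk : 0 < k)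
    (v : ZMod (p ^ k) × ZMod (p ^ k)) : IsPrim v ↔ IsUnit v.1 ∨ IsUnit v.2 := by
  have : Fact p.Prime := ⟨hp⟩
  have : NeZero (p ^ k) := ⟨pow_ne_zero k hp.ne_zero⟩
  have hunit : ∀ a : ZMod (p ^ k),
      ZMod.castHom (dvd_pow_self p hk.ne') (ZMod p) a ≠ 0 → IsUnit a := by
    intro a ha
    rw [ZMod.castHom_apply, ← ZMod.natCast_val, Ne, ZMod.natCast_eq_zero_iff] at ha
    have hcop : (a.val).Coprime (p ^ k) :=
      Nat.Coprime.pow_right k ((Nat.coprime_comm).mp ((Nat.Prime.coprime_iff_not_dvd hp).mpr ha))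
    have := (ZMod.isUnit_iff_coprime a.val (p ^ k)).mpr hcop
    rwa [ZMod.natCast_zmod_val] at this
  constructor
  · rintro ⟨x, y, h⟩
    by_contra hcon
    push Not at hcon
    have h1 : ZMod.castHom (dvd_pow_self p hk.ne') (ZMod p) v.1 = 0 := by
      by_contra h0; exact hcon.1 (hunit _ h0)
    have h2 : ZMod.castHom (dvd_pow_self p hk.ne') (ZMod p) v.2 = 0 := by
      by_contra h0; exact hcon.2 (hunit _ h0)
    have h3 := congrArg (ZMod.castHom (dvd_pow_self p hk.ne') (ZMod p)) h
    rw [map_add, map_mul, map_mul, h1, h2, mul_zero, mul_zero, add_zero, map_one] at h3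
    exact zero_ne_one h3
  · rintro (h | h)
    · obtain ⟨u, hu⟩ := h
      exact ⟨((u⁻¹ : (ZMod (p ^ k))ˣ) : ZMod (p ^ k)), 0, by rw [← hu]; simp⟩
    · obtain ⟨u, hu⟩ := h
      exact ⟨0, ((u⁻¹ : (ZMod (p ^ k))ˣ) : ZMod (p ^ k)), by rw [← hu]; simp⟩

theorem card_isUnit (n : ℕ) [NeZero n] :
    Nat.card {a : ZMod n // IsUnit a} = n.totient := by
  have : Nat.card {a : ZMod n // IsUnit a} = Nat.card (ZMod n)ˣ := by
    refine (Nat.card_congr (Equiv.ofBijective
      (fun u : (ZMod n)ˣ => (⟨(u : ZMod n), u.isUnit⟩ : {a : ZMod n // IsUnit a})) ⟨?_, ?_⟩)).symm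
    · intro u u' h
      exact Units.ext (congrArg Subtype.val h)
    · rintro ⟨a, u, rfl⟩
      exact ⟨u, rfl⟩
  rw [this, Nat.card_eq_fintype_card, ZMod.card_units_eq_totient]

theorem primCount_prime_pow (p k : ℕ) (hp : p.Prime) (hk : 0 < k) :
    primCount (ZMod (p ^ k)) = (p ^ k).totient * (p ^ k + p ^ (k - 1)) := by
  classical
  have : NeZero (p ^ k) := ⟨pow_ne_zero k hp.ne_zero⟩
  have hcard : Fintype.card (ZMod (p ^ k)) = p ^ k := ZMod.card _
  -- count the complement
  have h1 : primCount (ZMod (p ^ k))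
      = Fintype.card {v : ZMod (p ^ k) × ZMod (p ^ k) // IsUnit v.1 ∨ IsUnit v.2} := by
    unfold primCount
    rw [← Nat.card_eq_fintype_card]
    exact Nat.card_congr (Equiv.subtypeEquivRight (isPrim_iff_of_prime_pow p k hp hk))
  have h2 : Fintype.card {v : ZMod (p ^ k) × ZMod (p ^ k) // ¬ (IsUnit v.1 ∨ IsUnit v.2)}
      = Fintype.card {a : ZMod (p ^ k) // ¬ IsUnit a}
        * Fintype.card {a : ZMod (p ^ k) // ¬ IsUnit a} := by
    rw [← Fintype.card_prod]
    refine Fintype.card_congr ((Equiv.subtypeEquivRight fun v => ?_).trans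
      (Equiv.subtypeProdEquivProd (p := fun a : ZMod (p ^ k) => ¬ IsUnit a)
        (q := fun a : ZMod (p ^ k) => ¬ IsUnit a)))
    exact not_or
  have h3 : Fintype.card {a : ZMod (p ^ k) // IsUnit a} = (p ^ k).totient := by
    rw [← Nat.card_eq_fintype_card, card_isUnit]
  have h4 := Fintype.card_subtype_compl (fun a : ZMod (p ^ k) => IsUnit a)
  have h5 := Fintype.card_subtype_compl
    (fun v : ZMod (p ^ k) × ZMod (p ^ k) => IsUnit v.1 ∨ IsUnit v.2)
  rw [Fintype.card_prod, hcard] at h5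
  rw [hcard, h3] at h4
  rw [h2, h4] at h5
  rw [h1]
  -- arithmetic
  obtain ⟨j, rfl⟩ : ∃ j, k = j + 1 := ⟨k - 1, by omega⟩
  have htot : (p ^ (j + 1)).totient = p ^ j * (p - 1) := Nat.totient_prime_pow_succ hp j
  rw [htot] at h5 ⊢
  simp only [Nat.add_sub_cancel]
  obtain ⟨q, rfl⟩ : ∃ q, p = q + 1 := ⟨p - 1, by have := hp.pos; omega⟩
  simp only [Nat.add_sub_cancel] at h5 ⊢
  have hle : Fintype.card {v : ZMod ((q + 1) ^ (j + 1)) × ZMod ((q + 1) ^ (j + 1)) //
      IsUnit v.1 ∨ IsUnit v.2} ≤ (q + 1) ^ (j + 1) * (q + 1) ^ (j + 1) := by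
    have := Fintype.card_subtype_le
      (fun v : ZMod ((q + 1) ^ (j + 1)) × ZMod ((q + 1) ^ (j + 1)) => IsUnit v.1 ∨ IsUnit v.2)
    rwa [Fintype.card_prod, hcard] at this
  have hsub : (q + 1) ^ (j + 1) - (q + 1) ^ j * q = (q + 1) ^ j := by
    rw [pow_succ]
    have : (q + 1) ^ j * (q + 1) = (q + 1) ^ j * q + (q + 1) ^ j := by ring
    omega
  rw [hsub] at h5
  have h6 : Fintype.card {v : ZMod ((q + 1) ^ (j + 1)) × ZMod ((q + 1) ^ (j + 1)) //
      IsUnit v.1 ∨ IsUnit v.2} + (q + 1) ^ j * (q + 1) ^ j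
      = (q + 1) ^ (j + 1) * (q + 1) ^ (j + 1) := by omega
  have h7 : (q + 1) ^ j * q * ((q + 1) ^ (j + 1) + (q + 1) ^ j) + (q + 1) ^ j * (q + 1) ^ j
      = (q + 1) ^ (j + 1) * (q + 1) ^ (j + 1) := by ring
  omega

/-! ### The Dedekind psi function is multiplicative -/

/-- The indicator of squarefree numbers as an arithmetic function. -/
def sqf : ArithmeticFunction ℕ := ⟨fun n => if Squarefree n then 1 else 0, by simp⟩

theorem sqf_apply (n : ℕ) : sqf n = if Squarefree n then 1 else 0 := rfl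

theorem isMultiplicative_sqf : ArithmeticFunction.IsMultiplicative sqf := by
  refine ⟨by simp [sqf_apply], fun {m n} h => ?_⟩
  simp only [sqf_apply, Nat.squarefree_mul h]
  by_cases hm : Squarefree m <;> by_cases hn : Squarefree n <;> simp [hm, hn]

theorem dedekindPsi_eq (N : ℕ) : dedekindPsi N = (sqf * ArithmeticFunction.id) N := by
  rw [ArithmeticFunction.mul_apply, Nat.sum_divisorsAntidiagonal (fun d e => sqf d * ArithmeticFunction.id e),
    dedekindPsi, Finset.sum_filter]
  refine Finset.sum_congr rfl fun d _ => ?_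
  simp [sqf_apply]

theorem dedekindPsi_mul {a b : ℕ} (h : a.Coprime b) :
    dedekindPsi (a * b) = dedekindPsi a * dedekindPsi b := by
  rw [dedekindPsi_eq, dedekindPsi_eq, dedekindPsi_eq]
  exact (isMultiplicative_sqf.mul ArithmeticFunction.isMultiplicative_id).map_mul_of_coprime h

theorem dedekindPsi_prime_pow (p k : ℕ) (hp : p.Prime) (hk : 0 < k) :
    dedekindPsi (p ^ k) = p ^ k + p ^ (k - 1) := by
  obtain ⟨j, rfl⟩ : ∃ j, k = j + 1 := ⟨k - 1, by omega⟩
  rw [dedekindPsi, Finset.sum_filter, Nat.sum_divisors_prime_pow hp, Finset.sum_range_succ',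
    Finset.sum_range_succ']
  have hzero : ∀ i ∈ Finset.range j,
      (if Squarefree (p ^ (i + 1 + 1)) then p ^ (j + 1) / p ^ (i + 1 + 1) else 0) = 0 := by
    intro i _
    rw [if_neg]
    intro hsq
    have := hsq p ⟨p ^ i, by ring⟩
    exact hp.one_lt.ne' (Nat.isUnit_iff.mp this)
  rw [Finset.sum_eq_zero hzero]
  have h1 : Squarefree (p ^ (0 + 1)) := by simpa using hp.squarefree
  have h0 : Squarefree (p ^ 0) := by simp
  rw [if_pos h1, if_pos h0]
  simp only [zero_add, pow_one, pow_zero, Nat.div_one, Nat.add_sub_cancel]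
  rw [pow_succ, Nat.mul_div_cancel _ hp.pos]
  ring

/-- The number of primitive vectors modulo `N`. -/
theorem primCount_zmod (N : ℕ) : N ≠ 0 → primCount (ZMod N) = N.totient * dedekindPsi N := by
  induction N using Nat.recOnPosPrimePosCoprime with
  | prime_pow p n hp hn =>
    intro _
    rw [primCount_prime_pow p n hp hn, dedekindPsi_prime_pow p n hp hn]
  | zero => intro h; exact absurd rfl h
  | one =>
    intro _
    have : Subsingleton (ZMod 1) := by infer_instance
    rw [primCount_of_subsingleton]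
    simp
  | coprime a b ha hb hab iha ihb =>
    intro _
    rw [primCount_congr (ZMod.chineseRemainder hab), primCount_prod, iha (by omega),
      ihb (by omega), Nat.totient_mul hab, dedekindPsi_mul hab]
    ring

/-- The index of `Γ₀(N)` in `SL(2, ℤ)`. -/
theorem card_quotient_Gamma0 (N : ℕ) [NeZero N] :
    Nat.card (SL(2, ℤ) ⧸ Gamma0 N) = dedekindPsi N := by
  have h := card_quotient_mul_card_units N
  have hu : Nat.card (ZMod N)ˣ = N.totient := by
    rw [Nat.card_eq_fintype_card, ZMod.card_units_eq_totient]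
  have hp : Nat.card {v : ZMod N × ZMod N // IsPrim v} = N.totient * dedekindPsi N :=
    primCount_zmod N (NeZero.ne N)
  rw [hu, hp, mul_comm] at h
  exact Nat.eq_of_mul_eq_mul_left (Nat.totient_pos.mpr (Nat.pos_of_ne_zero (NeZero.ne N))) h

end Fermat.Agent.S24.CountIndex

namespace Fermat.Agent.S24.Count

open ModularCurve CongruenceSubgroup

theorem card_quotient (N : ℕ) [NeZero N] :
    Nat.card (SL(2, ℤ) ⧸ Gamma0 N) = dedekindPsi N :=
  Fermat.Agent.S24.CountIndex.card_quotient_Gamma0 N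

end Fermat.Agent.S24.Count
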