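import Mathlib
import Fermat.Prelude.Thm_ModularForm_sturm_bound_Gamma0
import Fermat.Prelude.Thm_CongruenceSubgroup_one_mem_strictPeriods_Gamma0
import Fermat.Agent.S24_CountIndex

set_option autoImplicit false

/-!
# S16 (U9): the Sturm bound at level 3 modulo an additive subgroup

A modular form of weight `2k` on `Γ₀(3)` all of whose first `⌊2k/3⌋ + 1` coefficients lie in an
additive subgroup `I ⊆ ℂ` stable under division by `3` has all its coefficients in `I`.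
The proof uses the triangular integral family `A^a B₈^b C₈^c`.
-/

open UpperHalfPlane CongruenceSubgroup
open scoped MatrixGroups

namespace Fermat.Agent.S16.Sturm3

theorem one_mem_periods :
    (1 : ℝ) ∈ (Subgroup.map (Matrix.SpecialLinearGroup.mapGL ℝ) (Gamma0 3)).strictPeriods :=
  CongruenceSubgroup.one_mem_strictPeriods_Gamma0 3

theorem index_Gamma0_three : (Gamma0 3).index = 4 := by
  have h := Fermat.Agent.S24.CountIndex.card_quotient_Gamma0 3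
  rw [Subgroup.index, h, ModularCurve.dedekindPsi, Nat.Prime.divisors Nat.prime_three,
    Finset.filter_true_of_mem, Finset.sum_pair (by norm_num)]
  intro x hx
  rcases Finset.mem_insert.mp hx with rfl | hx
  · exact squarefree_one
  · rw [Finset.mem_singleton.mp hx]
    exact Nat.prime_three.squarefree

/-- `Rep w s`: the integral power series `s` is the `q`-expansion of a modular form of
weight `w` on `Γ₀(3)`. -/
def Rep (w : ℤ) (s : PowerSeries ℤ) : Prop :=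
  ∃ F : ModularForm (Gamma0 3) w, qExpansion 1 F = s.map (Int.castRingHom ℂ)

theorem Rep.cast {w w' : ℤ} {s : PowerSeries ℤ} (h : Rep w s) (hw : w = w') : Rep w' s :=
  hw ▸ h

theorem Rep.one : Rep 0 1 :=
  ⟨1, by rw [ModularForm.qExpansion_one, map_one]⟩

theorem Rep.mul {w₁ w₂ : ℤ} {s₁ s₂ : PowerSeries ℤ} (h₁ : Rep w₁ s₁) (h₂ : Rep w₂ s₂) :
    Rep (w₁ + w₂) (s₁ * s₂) := by
  obtain ⟨F₁, hF₁⟩ := h₁
  obtain ⟨F₂, hF₂⟩ := h₂
  exact ⟨F₁.mul F₂, by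
    rw [ModularForm.qExpansion_mul one_pos one_mem_periods, hF₁, hF₂, map_mul]⟩

theorem Rep.add {w : ℤ} {s₁ s₂ : PowerSeries ℤ} (h₁ : Rep w s₁) (h₂ : Rep w s₂) :
    Rep w (s₁ + s₂) := by
  obtain ⟨F₁, hF₁⟩ := h₁
  obtain ⟨F₂, hF₂⟩ := h₂
  refine ⟨F₁ + F₂, ?_⟩
  rw [FunLike.coe_add, ModularForm.qExpansion_add one_pos one_mem_periods, hF₁, hF₂, map_add]

theorem Rep.sub {w : ℤ} {s₁ s₂ : PowerSeries ℤ} (h₁ : Rep w s₁) (h₂ : Rep w s₂) :
    Rep w (s₁ - s₂) := by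
  obtain ⟨F₁, hF₁⟩ := h₁
  obtain ⟨F₂, hF₂⟩ := h₂
  refine ⟨F₁ - F₂, ?_⟩
  rw [FunLike.coe_sub, ModularForm.qExpansion_sub one_pos one_mem_periods, hF₁, hF₂, map_sub]

theorem Rep.pow {w : ℤ} {s : PowerSeries ℤ} (h : Rep w s) (n : ℕ) : Rep (n * w) (s ^ n) := by
  induction n with
  | zero => simpa using Rep.one
  | succ n ih =>
    rw [pow_succ]
    exact (ih.mul h).cast (by push_cast; ring)

/-- Division of a representable series by a non-zero integer. -/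
theorem Rep.of_mul {w : ℤ} {s : PowerSeries ℤ} (n : ℤ) (hn : n ≠ 0)
    (h : Rep w (PowerSeries.C n * s)) : Rep w s := by
  obtain ⟨F, hF⟩ := h
  refine ⟨((n : ℂ)⁻¹) • F, ?_⟩
  rw [FunLike.coe_smul, ModularForm.qExpansion_smul one_pos one_mem_periods, hF]
  ext m
  have hn' : (n : ℂ) ≠ 0 := by exact_mod_cast hn
  rw [map_mul, PowerSeries.map_C, PowerSeries.coeff_smul, PowerSeries.coeff_C_mul,
    PowerSeries.coeff_map, smul_eq_mul, eq_intCast, eq_intCast, inv_mul_cancel_left₀ hn']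

/-- `Lead s t u`: the series `s` is `u q^t + O(q^{t+1})`. -/
def Lead (s : PowerSeries ℤ) (t : ℕ) (u : ℤ) : Prop :=
  ∃ s' : PowerSeries ℤ, s = PowerSeries.X ^ t * s' ∧ PowerSeries.constantCoeff s' = u

theorem Lead.mul {s₁ s₂ : PowerSeries ℤ} {t₁ t₂ : ℕ} {u₁ u₂ : ℤ} (h₁ : Lead s₁ t₁ u₁)
    (h₂ : Lead s₂ t₂ u₂) : Lead (s₁ * s₂) (t₁ + t₂) (u₁ * u₂) := by
  obtain ⟨r₁, rfl, rfl⟩ := h₁
  obtain ⟨r₂, rfl, rfl⟩ := h₂
  exact ⟨r₁ * r₂, by ring, map_mul _ _ _⟩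

theorem Lead.pow {s : PowerSeries ℤ} {t : ℕ} {u : ℤ} (h : Lead s t u) (n : ℕ) :
    Lead (s ^ n) (t * n) (u ^ n) := by
  obtain ⟨r, rfl, rfl⟩ := h
  exact ⟨r ^ n, by rw [mul_pow, pow_mul], map_pow _ _ _⟩

theorem Lead.coeff_lt {s : PowerSeries ℤ} {t : ℕ} {u : ℤ} (h : Lead s t u) {m : ℕ}
    (hm : m < t) : s.coeff m = 0 := by
  obtain ⟨r, rfl, rfl⟩ := h
  rw [PowerSeries.coeff_X_pow_mul', if_neg (by omega)]

theorem Lead.coeff_eq {s : PowerSeries ℤ} {t : ℕ} {u : ℤ} (h : Lead s t u) :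
    s.coeff t = u := by
  obtain ⟨r, rfl, rfl⟩ := h
  rw [PowerSeries.coeff_X_pow_mul', if_pos le_rfl, Nat.sub_self,
    PowerSeries.coeff_zero_eq_constantCoeff_apply]

theorem Lead.of_coeff_zero {s : PowerSeries ℤ} : Lead s 0 (s.coeff 0) :=
  ⟨s, by simp, (PowerSeries.coeff_zero_eq_constantCoeff_apply s).symm⟩

theorem Lead.of_coeff_one {s : PowerSeries ℤ} (h0 : s.coeff 0 = 0) : Lead s 1 (s.coeff 1) := by
  obtain ⟨r, rfl⟩ := PowerSeries.X_dvd_iff.mpr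
    ((PowerSeries.coeff_zero_eq_constantCoeff_apply s).symm.trans h0)
  refine ⟨r, by simp, ?_⟩
  rw [show (1 : ℕ) = 0 + 1 from rfl, PowerSeries.coeff_succ_X_mul,
    PowerSeries.coeff_zero_eq_constantCoeff_apply]

theorem Lead.of_coeff_two {s : PowerSeries ℤ} (h0 : s.coeff 0 = 0) (h1 : s.coeff 1 = 0) :
    Lead s 2 (s.coeff 2) := by
  obtain ⟨r, rfl⟩ := (PowerSeries.X_pow_dvd_iff (n := 2) (φ := s)).mpr (by
    intro m hm
    interval_cases m
    · exact h0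
    · exact h1)
  refine ⟨r, rfl, ?_⟩
  rw [PowerSeries.coeff_X_pow_mul', if_pos le_rfl, Nat.sub_self,
    PowerSeries.coeff_zero_eq_constantCoeff_apply]

/-- Integer multiples of representable series. -/
theorem Rep.zmul {w : ℤ} {s : PowerSeries ℤ} (n : ℤ) (h : Rep w s) :
    Rep w (PowerSeries.C n * s) := by
  obtain ⟨F, hF⟩ := h
  refine ⟨(n : ℂ) • F, ?_⟩
  rw [FunLike.coe_smul, ModularForm.qExpansion_smul one_pos one_mem_periods, hF]
  ext m
  rw [map_mul, PowerSeries.map_C, PowerSeries.coeff_smul, PowerSeries.coeff_C_mul,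
    PowerSeries.coeff_map, smul_eq_mul, eq_intCast, eq_intCast]

section basis

variable {τ s3 s5 : PowerSeries ℤ}

/-- `B₈ = (E₄ − A²)/8 = 27 q + …`. -/
noncomputable def B8 (τ s3 : PowerSeries ℤ) : PowerSeries ℤ :=
  PowerSeries.C 30 * s3 - PowerSeries.C 3 * τ - PowerSeries.C 18 * (τ * τ)

/-- `C₈ = (A³ − 20 A B₈ − E₆)/8 = 729 q² + …`. -/
noncomputable def C8 (τ s3 s5 : PowerSeries ℤ) : PowerSeries ℤ :=
  PowerSeries.C 12 * τ - PowerSeries.C 75 * s3 + PowerSeries.C 189 * (τ * τ) -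
    PowerSeries.C 900 * (τ * s3) + PowerSeries.C 756 * (τ * (τ * τ)) + PowerSeries.C 63 * s5

theorem rep_B8 (hA : Rep 2 (1 + 12 • τ)) (hE4 : Rep 4 (1 + 240 • s3)) : Rep 4 (B8 τ s3) := by
  refine Rep.of_mul 8 (by norm_num) ?_
  have h := hE4.sub ((hA.mul hA).cast (show (2 : ℤ) + 2 = 4 by norm_num))
  convert h using 1
  simp only [B8, map_ofNat, nsmul_eq_mul, Nat.cast_ofNat]
  ring

theorem rep_C8 (hA : Rep 2 (1 + 12 • τ)) (hE4 : Rep 4 (1 + 240 • s3))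
    (hE6 : Rep 6 (1 - 504 • s5)) : Rep 6 (C8 τ s3 s5) := by
  refine Rep.of_mul 8 (by norm_num) ?_
  have hB := rep_B8 hA hE4
  have h := (((hA.pow 3).cast (show ((3 : ℕ) : ℤ) * 2 = 6 by norm_num)).sub
    (((hA.mul hB).zmul 20).cast (show (2 : ℤ) + 4 = 6 by norm_num))).sub hE6
  convert h using 1
  simp only [B8, C8, map_ofNat, nsmul_eq_mul, Nat.cast_ofNat]
  ring

theorem lead_A (hτ0 : τ.coeff 0 = 0) : Lead (1 + 12 • τ) 0 1 := by
  have h := Lead.of_coeff_zero (s := 1 + 12 • τ)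
  have h1 : (1 + 12 • τ).coeff 0 = 1 := by
    rw [map_add, map_nsmul, hτ0, PowerSeries.coeff_zero_one, smul_zero, add_zero]
  rwa [h1] at h

theorem coeff_zero_mul' (f g : PowerSeries ℤ) :
    (f * g).coeff 0 = f.coeff 0 * g.coeff 0 := by
  simp [PowerSeries.coeff_mul]

theorem coeff_one_mul' (f g : PowerSeries ℤ) :
    (f * g).coeff 1 = f.coeff 0 * g.coeff 1 + f.coeff 1 * g.coeff 0 := by
  simp [PowerSeries.coeff_mul, Finset.Nat.antidiagonal_succ]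

theorem coeff_two_mul' (f g : PowerSeries ℤ) :
    (f * g).coeff 2 = f.coeff 0 * g.coeff 2 + f.coeff 1 * g.coeff 1 + f.coeff 2 * g.coeff 0 := by
  simp [PowerSeries.coeff_mul, Finset.Nat.antidiagonal_succ, add_assoc]

theorem lead_B8 (hτ0 : τ.coeff 0 = 0) (hτ1 : τ.coeff 1 = 1)
    (h30 : s3.coeff 0 = 0) (h31 : s3.coeff 1 = 1) : Lead (B8 τ s3) 1 27 := by
  have c0 : (B8 τ s3).coeff 0 = 0 := by
    simp only [B8, map_sub, PowerSeries.coeff_C_mul, coeff_zero_mul', hτ0, h30]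
    norm_num
  have c1 : (B8 τ s3).coeff 1 = 27 := by
    simp only [B8, map_sub, PowerSeries.coeff_C_mul, coeff_one_mul', hτ0, hτ1, h31]
    norm_num
  exact c1 ▸ Lead.of_coeff_one c0

theorem lead_C8 (hτ0 : τ.coeff 0 = 0) (hτ1 : τ.coeff 1 = 1) (hτ2 : τ.coeff 2 = 3)
    (h30 : s3.coeff 0 = 0) (h31 : s3.coeff 1 = 1) (h32 : s3.coeff 2 = 9)
    (h50 : s5.coeff 0 = 0) (h51 : s5.coeff 1 = 1) (h52 : s5.coeff 2 = 33) :
    Lead (C8 τ s3 s5) 2 729 := by
  have c0 : (C8 τ s3 s5).coeff 0 = 0 := by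
    simp only [C8, map_sub, map_add, PowerSeries.coeff_C_mul, coeff_zero_mul', hτ0, h30, h50]
    norm_num
  have c1 : (C8 τ s3 s5).coeff 1 = 0 := by
    simp only [C8, map_sub, map_add, PowerSeries.coeff_C_mul, coeff_zero_mul', coeff_one_mul',
      hτ0, hτ1, h30, h31, h51]
    norm_num
  have c2 : (C8 τ s3 s5).coeff 2 = 729 := by
    simp only [C8, map_sub, map_add, PowerSeries.coeff_C_mul, coeff_zero_mul', coeff_one_mul',
      coeff_two_mul', hτ0, hτ1, hτ2, h30, h31, h32, h52]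
    norm_num
  exact c2 ▸ Lead.of_coeff_two c0 c1

/-- The triangular family: for every `t ≤ 2k/3` a form of weight `2k` on `Γ₀(3)` with integral
`q`-expansion `3^e q^t + …`. -/
theorem exists_basis (hτ0 : τ.coeff 0 = 0) (hτ1 : τ.coeff 1 = 1) (hτ2 : τ.coeff 2 = 3)
    (h30 : s3.coeff 0 = 0) (h31 : s3.coeff 1 = 1) (h32 : s3.coeff 2 = 9)
    (h50 : s5.coeff 0 = 0) (h51 : s5.coeff 1 = 1) (h52 : s5.coeff 2 = 33)
    (hA : Rep 2 (1 + 12 • τ)) (hE4 : Rep 4 (1 + 240 • s3)) (hE6 : Rep 6 (1 - 504 • s5))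
    (k t : ℕ) (ht : 3 * t ≤ 2 * k) :
    ∃ (s : PowerSeries ℤ) (e : ℕ), Rep (2 * (k : ℤ)) s ∧ Lead s t (3 ^ e) := by
  obtain ⟨a, ha⟩ : ∃ a, a + 2 * (t % 2) + 3 * (t / 2) = k :=
    ⟨k - 2 * (t % 2) - 3 * (t / 2), by omega⟩
  refine ⟨(1 + 12 • τ) ^ a * B8 τ s3 ^ (t % 2) * C8 τ s3 s5 ^ (t / 2),
    3 * (t % 2) + 6 * (t / 2), ?_, ?_⟩
  · exact (((hA.pow a).mul ((rep_B8 hA hE4).pow (t % 2))).mul
      ((rep_C8 hA hE4 hE6).pow (t / 2))).cast (by rw [← ha]; push_cast; ring)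
  · have h := (((lead_A hτ0).pow a).mul ((lead_B8 hτ0 hτ1 h30 h31).pow (t % 2))).mul
      ((lead_C8 hτ0 hτ1 hτ2 h30 h31 h32 h50 h51 h52).pow (t / 2))
    convert h using 1
    · omega
    · rw [one_pow, one_mul, pow_add, pow_mul, pow_mul]
      norm_num

end basis

theorem inv_three_pow_mem {I : AddSubgroup ℂ} (h3 : ∀ x ∈ I, (3 : ℂ)⁻¹ * x ∈ I) (e : ℕ)
    {x : ℂ} (hx : x ∈ I) : ((3 : ℂ) ^ e)⁻¹ * x ∈ I := by
  induction e with
  | zero => simpa using hx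
  | succ e ih =>
    have h := h3 _ ih
    convert h using 1
    rw [pow_succ, mul_inv]
    ring

/-- **Sturm bound at level 3 modulo an additive subgroup closed under division by 3.** -/
theorem main (τ s3 s5 : PowerSeries ℤ)
    (hτ0 : τ.coeff 0 = 0) (hτ1 : τ.coeff 1 = 1) (hτ2 : τ.coeff 2 = 3)
    (h30 : s3.coeff 0 = 0) (h31 : s3.coeff 1 = 1) (h32 : s3.coeff 2 = 9)
    (h50 : s5.coeff 0 = 0) (h51 : s5.coeff 1 = 1) (h52 : s5.coeff 2 = 33)
    (hA : Rep 2 (1 + 12 • τ)) (hE4 : Rep 4 (1 + 240 • s3)) (hE6 : Rep 6 (1 - 504 • s5))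
    (k : ℕ) {w : ℤ} (hw : w = 2 * (k : ℤ)) (Ψ : ModularForm (Gamma0 3) w)
    (I : AddSubgroup ℂ) (h3 : ∀ x ∈ I, (3 : ℂ)⁻¹ * x ∈ I)
    (h : ∀ n : ℕ, n ≤ 2 * k / 3 → (qExpansion 1 Ψ).coeff n ∈ I) :
    ∀ n : ℕ, (qExpansion 1 Ψ).coeff n ∈ I := by
  subst hw
  obtain ⟨M, hM⟩ : ∃ M, M = 2 * k / 3 := ⟨_, rfl⟩
  rw [← hM] at h
  have key : ∀ d : ℕ, d ≤ M + 1 → ∀ Φ : ModularForm (Gamma0 3) (2 * (k : ℤ)),
      (∀ n : ℕ, n + d < M + 1 → (qExpansion 1 Φ).coeff n = 0) →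
      (∀ n : ℕ, n ≤ M → (qExpansion 1 Φ).coeff n ∈ I) →
      ∀ n : ℕ, (qExpansion 1 Φ).coeff n ∈ I := by
    intro d
    induction d with
    | zero =>
      intro _ Φ hΦ0 _ n
      have hΦ : Φ = 0 := by
        apply ModularForm.sturm_bound_Gamma0 3 Φ
        intro n hn
        apply hΦ0
        rw [index_Gamma0_three] at hn
        have h8 : (2 * (k : ℤ) * ((4 : ℕ) : ℤ)).toNat = 8 * k := by
          push_cast
          omega
        rw [h8] at hn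
        omega
      rw [hΦ]
      simp [qExpansion_zero]
    | succ d ih =>
      intro hd Φ hΦ0 hΦI n
      obtain ⟨s, e, ⟨F, hF⟩, hs⟩ := exists_basis hτ0 hτ1 hτ2 h30 h31 h32 h50 h51 h52 hA hE4 hE6
        k (M - d) (by omega)
      obtain ⟨x, hx⟩ : ∃ x, x = (qExpansion 1 Φ).coeff (M - d) := ⟨_, rfl⟩
      have hxI : x ∈ I := hx ▸ hΦI _ (Nat.sub_le _ _)
      obtain ⟨y, hy⟩ : ∃ y, y = ((3 : ℂ) ^ e)⁻¹ * x := ⟨_, rfl⟩
      have hyI : y ∈ I := hy ▸ inv_three_pow_mem h3 e hxI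
      obtain ⟨Φ', hΦ'⟩ : ∃ Φ' : ModularForm (Gamma0 3) (2 * (k : ℤ)), Φ' = Φ - y • F := ⟨_, rfl⟩
      have hcoeff : ∀ m : ℕ, (qExpansion 1 Φ').coeff m =
          (qExpansion 1 Φ).coeff m - y * (s.coeff m : ℂ) := by
        intro m
        rw [hΦ', FunLike.coe_sub, ModularForm.qExpansion_sub one_pos one_mem_periods,
          FunLike.coe_smul, ModularForm.qExpansion_smul one_pos one_mem_periods, hF]
        simp
      have hyint : ∀ z : ℤ, y * (z : ℂ) ∈ I := fun z => by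
        have hz := I.zsmul_mem hyI z
        rwa [zsmul_eq_mul, mul_comm] at hz
      have hfin := ih (by omega) Φ' ?_ ?_ n
      · rw [hcoeff] at hfin
        have h2 := I.add_mem hfin (hyint (s.coeff n))
        simpa using h2
      · intro m hm
        rw [hcoeff]
        rcases Nat.lt_or_ge m (M - d) with hlt | hge
        · rw [hΦ0 m (by omega), hs.coeff_lt hlt]
          simp
        · have hmd : m = M - d := by omega
          subst hmd
          rw [hs.coeff_eq, ← hx, hy]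
          push_cast
          have h3e : ((3 : ℂ) ^ e) ≠ 0 := pow_ne_zero _ (by norm_num)
          field_simp
          ring
      · intro m hm
        rw [hcoeff]
        exact I.sub_mem (hΦI m hm) (hyint _)
  exact key (M + 1) le_rfl Ψ (fun n hn => absurd hn (by omega)) h

end Fermat.Agent.S16.Sturm3
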