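import Mathlib
import Fermat.Agent.S16_Defs
import Fermat.Agent.S16_Norm
import Fermat.Agent.S16_Conj
import Fermat.Agent.S16_NormCore
import Fermat.Agent.S16_Sturm3
import Fermat.Agent.S16_IntRing
import Fermat.Agent.S16_Eis

/-!
# S16 (U9): Lemma C₈ — no weight-2 form on `Γ₀(p)`, `p ≡ 3 mod 4`, is `≡ 1 mod 8`

Norm from level `3p` to level `3` of `G/4 + (κ - 1/4) A` (`κ = (p+1)/4`, `A = 1 + 12 τ` the
Eisenstein series of level 3), compared with the Sturm bound at level 3 modulo `2`.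
-/

set_option autoImplicit false

open UpperHalfPlane Filter Function Complex CongruenceSubgroup
open scoped ModularForm MatrixGroups Manifold Topology Real

namespace Fermat.Agent.S16.C8

open Fermat.Agent.S16.Norm Fermat.Agent.S16.NormCore Fermat.Agent.S16.IntRing
open Fermat.Agent.S16

/-- `τ = ∑_{n ≥ 1} σ^{(3)}(n) qⁿ`. -/
noncomputable def tau3 : PowerSeries ℤ :=
  PowerSeries.mk fun n => if n = 0 then 0 else (Eis.sigmaP 3 n : ℤ)

/-- `∑_{n ≥ 1} σ_j(n) qⁿ`. -/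
noncomputable def sig (j : ℕ) : PowerSeries ℤ :=
  PowerSeries.mk fun n => if n = 0 then 0 else (ArithmeticFunction.sigma j n : ℤ)

theorem tau3_coeff (n : ℕ) : tau3.coeff n = if n = 0 then 0 else (Eis.sigmaP 3 n : ℤ) := by
  simp [tau3]

theorem tau3_coeff_zero : tau3.coeff 0 = 0 := by simp [tau3]

theorem sig_coeff (j n : ℕ) :
    (sig j).coeff n = if n = 0 then 0 else (ArithmeticFunction.sigma j n : ℤ) := by
  simp [sig]

theorem tau3_coeff_one : tau3.coeff 1 = 1 := by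
  rw [tau3_coeff]
  have : Eis.sigmaP 3 1 = 1 := by decide
  simp [this]

theorem tau3_coeff_two : tau3.coeff 2 = 3 := by
  rw [tau3_coeff]
  have : Eis.sigmaP 3 2 = 3 := by decide
  simp [this]

theorem rep_A : Sturm3.Rep 2 (1 + 12 • tau3) := by
  refine ⟨Eis.eisA, ?_⟩
  ext n
  rw [Eis.qExpansion_eisA_coeff, PowerSeries.coeff_map]
  rcases eq_or_ne n 0 with rfl | hn
  · simp [tau3]
  · rw [if_neg hn, map_add, PowerSeries.coeff_one, if_neg hn, zero_add, map_nsmul, tau3_coeff,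
      if_neg hn]
    simp

theorem rep_E4 : Sturm3.Rep 4 (1 + 240 • sig 3) := by
  refine ⟨Eis.levelRestrict 3 ModularForm.E₄, ?_⟩
  ext n
  rw [Eis.qExpansion_levelRestrict, Eis.qExpansion_E4_coeff, PowerSeries.coeff_map]
  rcases eq_or_ne n 0 with rfl | hn
  · simp [sig]
  · rw [if_neg hn, map_add, PowerSeries.coeff_one, if_neg hn, zero_add, map_nsmul, sig_coeff,
      if_neg hn]
    simp

theorem rep_E6 : Sturm3.Rep 6 (1 - 504 • sig 5) := by
  refine ⟨Eis.levelRestrict 3 ModularForm.E₆, ?_⟩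
  ext n
  rw [Eis.qExpansion_levelRestrict, Eis.qExpansion_E6_coeff, PowerSeries.coeff_map]
  rcases eq_or_ne n 0 with rfl | hn
  · simp [sig]
  · rw [if_neg hn, map_sub, PowerSeries.coeff_one, if_neg hn, zero_sub, map_nsmul, sig_coeff,
      if_neg hn]
    simp

/-- the Sturm bound at level 3 modulo an additive subgroup stable under division by 3. -/
theorem sturm3 (k : ℕ) {w : ℤ} (hw : w = 2 * (k : ℤ)) (Ψ : ModularForm (Gamma0 3) w)
    (I : AddSubgroup ℂ) (h3 : ∀ x ∈ I, (3 : ℂ)⁻¹ * x ∈ I)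
    (h : ∀ n : ℕ, n ≤ 2 * k / 3 → (qExpansion 1 Ψ).coeff n ∈ I) :
    ∀ n : ℕ, (qExpansion 1 Ψ).coeff n ∈ I := by
  refine Sturm3.main tau3 (sig 3) (sig 5) tau3_coeff_zero tau3_coeff_one tau3_coeff_two
    (by simp [sig]) (by simp [sig]) ?_ (by simp [sig]) (by simp [sig]) ?_
    rep_A rep_E4 rep_E6 k hw Ψ I h3 h
  · have : Nat.divisors 2 = {1, 2} := by decide
    simp [sig, ArithmeticFunction.sigma_apply, this]
  · have : Nat.divisors 2 = {1, 2} := by decide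
    simp [sig, ArithmeticFunction.sigma_apply, this]

/-- the abstract norm contradiction (as `NormCore.core`) with an arbitrary "Sturm bound"
`B < p` for the power series `Q`. -/
theorem core_of_bound {ℓ : ℕ} [Fact ℓ.Prime] (O : Subring ℂ) (I : AddSubgroup ℂ)
    (hIO : ∀ x ∈ I, x ∈ O) (hmul : ∀ x ∈ O, ∀ y ∈ I, x * y ∈ I)
    (hint : ∀ a : ℤ, (a : ℂ) ∈ I → (ℓ : ℤ) ∣ a)
    (p : ℕ) (hp : p ≠ 0) (Q : PowerSeries ℂ) (B : ℕ) (hB : B < p)
    (hSturm : (∀ n : ℕ, n ≤ B → Q.coeff n ∈ I) → ∀ n : ℕ, Q.coeff n ∈ I)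
    (F₀ : PowerSeries ℂ) (F : ℕ → PowerSeries ℂ) (R₀ R₁ : PowerSeries ℤ)
    (hprod : Q.expand p hp = F₀ * ∏ i ∈ Finset.range p, F i)
    (h₀ : F₀ - (R₀.map (Int.castRingHom ℂ)).expand p hp ∈ IS I)
    (h₁ : ∀ i < p, F i - (R₁.map (Int.castRingHom ℂ)).expand p hp ∈ IS I)
    (hR₁0 : R₁.coeff 0 = 0) (hR₁ : ∃ n, ¬ (ℓ : ℤ) ∣ R₁.coeff n)
    (hR₀ : ∃ n, ¬ (ℓ : ℤ) ∣ R₀.coeff n) : False := by
  set c : PowerSeries ℤ →+* PowerSeries ℂ := PowerSeries.map (Int.castRingHom ℂ) with hc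
  set R : PowerSeries ℤ := R₀ * R₁ ^ p with hR
  have hexp : (c R).expand p hp =
      (c R₀).expand p hp * ∏ _i ∈ Finset.range p, (c R₁).expand p hp := by
    rw [Finset.prod_const, Finset.card_range, hR, map_mul, map_pow, map_mul, map_pow]
  have hD : Q.expand p hp - (c R).expand p hp ∈ IS I := by
    rw [hprod, hexp]
    exact mul_sub_mul_mem hIO hmul (expand_mem_OS (int_mem_OS R₀) p hp)
      ((OS O).prod_mem fun i _ => expand_mem_OS (int_mem_OS R₁) p hp) h₀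
      (prod_sub_prod_mem hIO hmul (Finset.range p) F (fun _ => (c R₁).expand p hp)
        (fun i _ => expand_mem_OS (int_mem_OS R₁) p hp)
        (fun i hi => h₁ i (Finset.mem_range.mp hi)))
  have hRlow : ∀ m < p, R.coeff m = 0 := by
    obtain ⟨R₁', hR₁'⟩ : PowerSeries.X ∣ R₁ := PowerSeries.X_dvd_iff.mpr (by simpa using hR₁0)
    intro m hm
    rw [hR, hR₁', mul_pow, ← mul_assoc, mul_comm R₀, mul_assoc, PowerSeries.coeff_X_pow_mul',
      if_neg (by omega)]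
  have hcoef : ∀ m : ℕ, Q.coeff m - ((R.coeff m : ℤ) : ℂ) ∈ I := by
    intro m
    have h1 := hD (p * m)
    rw [map_sub, PowerSeries.coeff_expand_mul, PowerSeries.coeff_expand_mul, hc,
      PowerSeries.coeff_map] at h1
    simpa using h1
  have hM : ∀ n : ℕ, Q.coeff n ∈ I := hSturm (fun n hn => by
    have h1 := hcoef n
    rw [hRlow n (lt_of_le_of_lt hn hB)] at h1
    simpa using h1)
  have hdiv : ∀ m, (ℓ : ℤ) ∣ R.coeff m := by
    intro m
    apply hint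
    have h3 := I.sub_mem (hM m) (hcoef m)
    rwa [sub_sub_cancel] at h3
  set r : PowerSeries ℤ →+* PowerSeries (ZMod ℓ) := PowerSeries.map (Int.castRingHom (ZMod ℓ))
    with hr
  have hne : ∀ P : PowerSeries ℤ, (∃ n, ¬ (ℓ : ℤ) ∣ P.coeff n) → r P ≠ 0 := by
    rintro P ⟨n, hn⟩ h0
    apply hn
    have := congrArg (PowerSeries.coeff n) h0
    rw [hr, PowerSeries.coeff_map, map_zero] at this
    exact (ZMod.intCast_zmod_eq_zero_iff_dvd _ _).mp (by simpa using this)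
  have hzero : r R = 0 := by
    ext m
    rw [hr, PowerSeries.coeff_map, map_zero]
    simpa using (ZMod.intCast_zmod_eq_zero_iff_dvd _ _).mpr (hdiv m)
  rw [hR, map_mul, map_pow] at hzero
  rcases mul_eq_zero.mp hzero with h | h
  · exact hne R₀ hR₀ h
  · exact hne R₁ hR₁ (pow_eq_zero_iff (Nat.pos_of_ne_zero hp).ne' |>.mp h)

/-- roots of unity `exp(2πi·j/p)` are `ℓ`-integral. -/
theorem zeta_mem_O (ℓ : ℕ) [Fact ℓ.Prime] (p : ℕ) (hp : 0 < p) (j : ℕ) :
    cexp (2 * π * Complex.I * (((j : ℝ) / p : ℝ) : ℂ)) ∈ O ℓ := by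
  apply isIntegral_mem_O
  refine IsIntegral.of_pow hp ?_
  have hp' : (p : ℂ) ≠ 0 := by exact_mod_cast hp.ne'
  have : cexp (2 * π * Complex.I * (((j : ℝ) / p : ℝ) : ℂ)) ^ p = 1 := by
    rw [← Complex.exp_nat_mul]
    have h1 : (p : ℂ) * (2 * π * Complex.I * (((j : ℝ) / p : ℝ) : ℂ))
        = (j : ℂ) * (2 * π * Complex.I) := by
      push_cast
      field_simp
    rw [h1]
    exact Complex.exp_nat_mul_two_pi_mul_I j
  rw [this]
  exact isIntegral_one

/-- **Lemma C₈**, for one form `G`, with (K1) as a hypothesis. -/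
theorem not_congOne_of_K1 (p : ℕ) [Fact p.Prime] (hp5 : 5 ≤ p) (h4 : p % 4 = 3)
    (G : ModularForm (Gamma0 p) 2)
    (hK1 : ∀ (i : ℕ) (z : ℍ),
      ((G : ℍ → ℂ) ∣[(2 : ℤ)] (ModularGroup.S * ModularGroup.T ^ (i : ℤ))) z
        = -(p : ℂ)⁻¹ * ModularForm.heckeU 2 p G (ModularForm.heckeMatrix p i • z)) :
    ¬ S16Lib.CongOne 2 3 (qExpansion 1 G) := by
  rintro ⟨h0, s, hs, hcong⟩
  have hp0 : 0 < p := by omega
  have hpne : p ≠ 0 := hp0.ne'
  have hp3 : ¬ p ∣ 3 := fun h => by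
    have := Nat.le_of_dvd (by norm_num) h
    omega
  have hp2 : ¬ 2 ∣ p := by omega
  obtain ⟨κ, hκ⟩ : ∃ κ : ℕ, p + 1 = 4 * κ := ⟨(p + 1) / 4, by omega⟩
  obtain ⟨e, he⟩ : ∃ e : ℕ, p = 2 * e + 1 := ⟨p / 2, by omega⟩
  have hκ' : (p : ℂ) + 1 = 4 * κ := by exact_mod_cast hκ
  have he' : (p : ℂ) = 2 * e + 1 := by exact_mod_cast he
  have hpC : (p : ℂ) ≠ 0 := by exact_mod_cast hpne
  obtain ⟨c, hc⟩ : ∃ c : ℂ, c = (4 : ℂ)⁻¹ := ⟨_, rfl⟩
  obtain ⟨d, hd⟩ : ∃ d : ℂ, d = (κ : ℂ) - (4 : ℂ)⁻¹ := ⟨_, rfl⟩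
  obtain ⟨Φ, hΦ⟩ := exists_norm p 3 hp3 2 (c • G) (d • Eis.eisA)
  -- the factors, as functions
  have hGQ : IsQ G := isQ_Gamma0 G
  have hAQ : IsQ Eis.eisA := isQ_Gamma0 Eis.eisA
  have hgQ : IsQ (c • (G : ℍ → ℂ) + d • (Eis.eisA : ℍ → ℂ)) :=
    (hGQ.const_smul c).add (hAQ.const_smul d)
  have hH₀Q : IsQ (fun z => (c • (G : ℍ → ℂ) + d • (Eis.eisA : ℍ → ℂ)) (dil p hp0 z)) :=
    hgQ.comp_dil p hp0
  have hAdQ : IsQ (fun z => (d • (Eis.eisA : ℍ → ℂ)) (dil p hp0 z)) :=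
    (hAQ.const_smul d).comp_dil p hp0
  have hHQ : ∀ i : ℕ, IsQ (c • conjFun p hp0 G i
      + fun z => (d • (Eis.eisA : ℍ → ℂ)) (dil p hp0 z)) :=
    fun i => ((isQ_conj hp0 G hK1 hGQ i).const_smul c).add hAdQ
  have hfun : (fun z => Φ (dil p hp0 z))
      = (fun z => (c • (G : ℍ → ℂ) + d • (Eis.eisA : ℍ → ℂ)) (dil p hp0 z))
        * ∏ i ∈ Finset.range p, (c • conjFun p hp0 G i
          + fun z => (d • (Eis.eisA : ℍ → ℂ)) (dil p hp0 z)) := by
    funext z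
    rw [hΦ, Pi.mul_apply, Finset.prod_apply]
    congr 1
    refine Finset.prod_congr rfl fun i _ => ?_
    rw [FunLike.coe_smul, ModularForm.SL_smul_slash]
    rfl
  have hprod : (qExpansion 1 Φ).expand p hpne
      = qExpansion 1 (fun z => (c • (G : ℍ → ℂ) + d • (Eis.eisA : ℍ → ℂ)) (dil p hp0 z))
        * ∏ i ∈ Finset.range p, qExpansion 1 (c • conjFun p hp0 G i
          + fun z => (d • (Eis.eisA : ℍ → ℂ)) (dil p hp0 z)) := by
    rw [← qExpansion_comp_dil (isQ_Gamma0 Φ) p hp0, hfun,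
      qExpansion_mul' hH₀Q (IsQ.prod _ _ fun i _ => hHQ i), qExpansion_prod _ _ fun i _ => hHQ i]
  -- coefficients of `G/4`
  have hcG : ∀ k : ℕ, 1 ≤ k → c * (qExpansion 1 G).coeff k ∈ I 2 := by
    intro k hk
    obtain ⟨b, hb⟩ := hcong k hk
    refine mem_I_of_mul_eq (ℓ := 2) (s := s) hs (r := 1) le_rfl (b := b) ?_
    rw [hc]
    push_cast at hb ⊢
    linear_combination (4 : ℂ)⁻¹ * hb
  -- the series `d • A - τ`
  have hE0 : (d • qExpansion 1 Eis.eisA - tau3.map (Int.castRingHom ℂ)).coeff 0 = d := by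
    rw [map_sub, PowerSeries.coeff_smul, Eis.qExpansion_eisA_coeff, PowerSeries.coeff_map,
      tau3_coeff_zero]
    simp
  have hE : ∀ m : ℕ, 1 ≤ m →
      (d • qExpansion 1 Eis.eisA - tau3.map (Int.castRingHom ℂ)).coeff m ∈ I 2 := by
    intro m hm
    have hm0 : m ≠ 0 := by omega
    rw [map_sub, PowerSeries.coeff_smul, Eis.qExpansion_eisA_coeff, if_neg hm0,
      PowerSeries.coeff_map, tau3_coeff, if_neg hm0]
    have h1 : d • (12 * (Eis.sigmaP 3 m : ℂ)) - (Int.castRingHom ℂ) (Eis.sigmaP 3 m : ℤ)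
        = (((2 * ((6 * (κ : ℤ) - 2) * (Eis.sigmaP 3 m : ℤ)) : ℤ)) : ℂ) := by
      rw [hd]
      simp only [eq_intCast, smul_eq_mul]
      push_cast
      ring
    rw [h1]
    exact (intCast_mem_I_iff _).mpr (by push_cast; exact dvd_mul_right _ _)
  -- the congruence for the first factor
  have h₀ : qExpansion 1 (fun z => (c • (G : ℍ → ℂ) + d • (Eis.eisA : ℍ → ℂ)) (dil p hp0 z))
      - ((PowerSeries.C (κ : ℤ) + tau3).map (Int.castRingHom ℂ)).expand p hpne ∈ IS (I 2) := by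
    rw [qExpansion_comp_dil hgQ p hp0, ← map_sub]
    apply expand_mem_IS
    rw [qExpansion_add' (hGQ.const_smul c) (hAQ.const_smul d), qExpansion_smul' hGQ,
      qExpansion_smul' hAQ]
    have hsplit : c • qExpansion 1 G + d • qExpansion 1 Eis.eisA
          - (PowerSeries.C (κ : ℤ) + tau3).map (Int.castRingHom ℂ)
        = (c • qExpansion 1 G - PowerSeries.C (κ : ℂ))
          + (d • qExpansion 1 Eis.eisA - tau3.map (Int.castRingHom ℂ)) := by
      rw [map_add, PowerSeries.map_C]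
      simp only [eq_intCast, Int.cast_natCast]
      ring
    rw [hsplit]
    intro m
    rw [map_add]
    rcases Nat.eq_zero_or_pos m with rfl | hm
    · rw [hE0, map_sub, PowerSeries.coeff_smul, h0, PowerSeries.coeff_zero_C]
      have h1 : c • (1 : ℂ) - (κ : ℂ) + d = 0 := by
        rw [hc, hd, smul_eq_mul]
        ring
      rw [h1]
      exact (I 2).zero_mem
    · refine (I 2).add_mem ?_ (hE m hm)
      rw [map_sub, PowerSeries.coeff_smul, PowerSeries.coeff_C, if_neg (by omega), sub_zero]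
      exact hcG m hm
  -- the congruence for the conjugates
  have h₁ : ∀ i < p, qExpansion 1 (c • conjFun p hp0 G i
        + fun z => (d • (Eis.eisA : ℍ → ℂ)) (dil p hp0 z))
      - (tau3.map (Int.castRingHom ℂ)).expand p hpne ∈ IS (I 2) := by
    intro i _
    rw [qExpansion_add' ((isQ_conj hp0 G hK1 hGQ i).const_smul c) hAdQ,
      qExpansion_smul' (isQ_conj hp0 G hK1 hGQ i), qExpansion_comp_dil (hAQ.const_smul d) p hp0,
      qExpansion_smul' hAQ, add_sub_assoc, ← map_sub]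
    intro n
    rw [map_add, PowerSeries.coeff_smul, qExpansion_conj_coeff hp0 G hK1 hGQ]
    rcases Nat.eq_zero_or_pos n with rfl | hn
    · have h00 : ((PowerSeries.expand p hpne)
          (d • qExpansion 1 Eis.eisA - tau3.map (Int.castRingHom ℂ))).coeff 0 = d := by
        have := PowerSeries.coeff_expand_mul p hpne
          (d • qExpansion 1 Eis.eisA - tau3.map (Int.castRingHom ℂ)) 0
        rw [mul_zero] at this
        rw [this, hE0]
      rw [h00, zero_mul, h0, pow_zero]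
      have h1 : c • (-(p : ℂ)⁻¹ * (1 * 1)) + d = (2 : ℂ) * (((κ * e : ℕ) : ℂ) * (p : ℂ)⁻¹) := by
        rw [hc, hd, smul_eq_mul]
        push_cast
        field_simp
        linear_combination (4 * (κ : ℂ)) * he' - hκ'
      rw [h1]
      have h2 := prime_mul_mem_I (ℓ := 2)
        ((O 2).mul_mem (natCast_mem_O (κ * e)) (inv_natCast_mem_O hp2))
      simpa using h2
    · refine (I 2).add_mem ?_ ?_
      · have h1 : c • (-(p : ℂ)⁻¹ * (cexp (2 * π * Complex.I * (((i : ℝ) / p : ℝ) : ℂ)) ^ n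
              * (qExpansion 1 G).coeff (n * p)))
            = (-(p : ℂ)⁻¹ * cexp (2 * π * Complex.I * (((i : ℝ) / p : ℝ) : ℂ)) ^ n)
              * (c * (qExpansion 1 G).coeff (n * p)) := by
          rw [smul_eq_mul]
          ring
        rw [h1]
        exact mul_mem_I ((O 2).mul_mem ((O 2).neg_mem (inv_natCast_mem_O hp2))
          ((O 2).pow_mem (zeta_mem_O 2 p hp0 i) n)) (hcG _ (Nat.mul_pos hn hp0))
      · rw [PowerSeries.coeff_expand]
        split_ifs with hdvd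
        · exact hE _ (Nat.div_pos (Nat.le_of_dvd hn hdvd) hp0)
        · exact (I 2).zero_mem
  exact core_of_bound (ℓ := 2) (O 2) (I 2) (fun x hx => mem_O_of_mem_I hx)
    (fun x hx y hy => mul_mem_I hx hy) (fun a ha => (intCast_mem_I_iff a).mp ha) p hpne
    (qExpansion 1 Φ) (2 * (p + 1) / 3) (by omega)
    (sturm3 (p + 1) (by push_cast; ring) Φ (I 2)
      (fun x hx => by simpa using inv_natCast_mul_mem_I (ℓ := 2) (s := 3) (by decide) hx))
    (qExpansion 1 (fun z => (c • (G : ℍ → ℂ) + d • (Eis.eisA : ℍ → ℂ)) (dil p hp0 z)))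
    (fun i => qExpansion 1 (c • conjFun p hp0 G i
      + fun z => (d • (Eis.eisA : ℍ → ℂ)) (dil p hp0 z)))
    (PowerSeries.C (κ : ℤ) + tau3) tau3 hprod h₀ h₁ tau3_coeff_zero
    ⟨1, by rw [tau3_coeff_one]; decide⟩
    ⟨1, by rw [map_add, tau3_coeff_one, PowerSeries.coeff_C, if_neg one_ne_zero, zero_add]; decide⟩

/-- **Lemma C₈** (`p ≡ 3 mod 4`, `p ≥ 5`): no weight-2 form on `Γ₀(p)` is `≡ 1 mod 8`;
with (K1) `(G ∣[2] S T^i)(z) = -p⁻¹ (U_p G)((z+i)/p)` as a hypothesis. -/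
theorem noCongOne_of_K1 (p : ℕ) [Fact p.Prime] (hp5 : 5 ≤ p) (h4 : p % 4 = 3)
    (hK1 : ∀ (G : ModularForm (Gamma0 p) 2) (i : ℕ) (z : ℍ),
      ((G : ℍ → ℂ) ∣[(2 : ℤ)] (ModularGroup.S * ModularGroup.T ^ (i : ℤ))) z
        = -(p : ℂ)⁻¹ * ModularForm.heckeU 2 p G (ModularForm.heckeMatrix p i • z)) :
    S16Lib.NoCongOne p 2 3 :=
  fun G => not_congOne_of_K1 p hp5 h4 G (hK1 G)

end Fermat.Agent.S16.C8
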