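import Mathlib
import Fermat.Agent.S16_C8
import Fermat.Agent.S16_TraceMain

/-!
# S16 (U9): Lemma C₈, final form

For a prime `p ≥ 5`, `p ≡ 3 mod 4`: no weight-2 modular form on `Γ₀(p)` is `≡ 1 mod 8`
(2-integrally).
-/

set_option autoImplicit false

namespace Fermat.Agent.S16.C8

open Fermat.Agent.S16

/-- **Lemma C₈.** -/
theorem noCongOne (p : ℕ) [Fact p.Prime] (hp : 5 ≤ p) (h4 : p % 4 = 3) :
    S16Lib.NoCongOne p 2 3 :=
  noCongOne_of_K1 p hp h4 (fun G i z => Trace.slash_ST_apply G i z)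

end Fermat.Agent.S16.C8
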