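import Mathlib
import Fermat.Prelude.Def_CuspForm_IntegralStructure

/-!
# S23: adapter between the two formulations of the twist theorem

`twist` (power-series form, for all subalgebras containing a finite set) implies
`exists_twist` (one finitely generated subalgebra, coefficientwise form).
-/

namespace Fermat.Agent.S23

open UpperHalfPlane CongruenceSubgroup ModularFormClass
open scoped MatrixGroups ModularForm Manifold

theorem exists_twist_of_twist (N : ℕ) [NeZero N] (F : CuspForm (Gamma0 N) 2)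
    (h : ∃ S : Finset ℂ, ∀ A : Subalgebra ℚ ℂ, (↑S : Set ℂ) ⊆ A →
      ∃ t : PowerSeries A, qExpansion 1 F = t.map (algebraMap A ℂ) ∧
        ∀ φ : A →+* ℂ, ∃ G : CuspForm (Gamma0 N) 2, qExpansion 1 G = t.map φ) :
    ∃ A : Subalgebra ℚ ℂ, A.FG ∧ (∀ n, qCoeff F n ∈ A) ∧
      ∀ φ : A →+* ℂ, ∃ G : CuspForm (Gamma0 N) 2,
        ∀ n (h : qCoeff F n ∈ A), qCoeff G n = φ ⟨qCoeff F n, h⟩ := by
  obtain ⟨S, hS⟩ := h
  refine ⟨Algebra.adjoin ℚ (S : Set ℂ), Subalgebra.fg_adjoin_finset S, ?_⟩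
  obtain ⟨t, ht, htw⟩ := hS _ Algebra.subset_adjoin
  have hc : ∀ n, qCoeff F n = (t.coeff n : ℂ) := fun n => by
    rw [qCoeff, ht, PowerSeries.coeff_map]
    rfl
  refine ⟨fun n => by rw [hc n]; exact (t.coeff n).2, fun φ => ?_⟩
  obtain ⟨G, hG⟩ := htw φ
  refine ⟨G, fun n h => ?_⟩
  rw [qCoeff, hG, PowerSeries.coeff_map]
  congr 1
  exact Subtype.ext (hc n).symm

end Fermat.Agent.S23
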