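import Mathlib

set_option autoImplicit false

/-!
# S23 (L3 helper file): Vieta and Lagrange identities for finite families in a commutative ring
-/

open Finset

namespace Fermat.Agent.S23.Vieta

variable {ι : Type*} [Fintype ι] [DecidableEq ι] {R : Type*} [CommRing R]

omit [Fintype ι] [DecidableEq ι] in
open Polynomial in
/-- The degree of `∏ i ∈ s, (X + C (r i))` is at most `#s`. -/
theorem natDegree_prod_X_add_C_le (s : Finset ι) (r : ι → R) :
    (∏ i ∈ s, (X + C (r i))).natDegree ≤ #s := by
  refine (natDegree_prod_le s _).trans ?_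
  have h : ∀ i ∈ s, (X + C (r i) : R[X]).natDegree ≤ 1 := fun i _ => by
    rw [natDegree_add_C]
    exact natDegree_X_le
  calc ∑ i ∈ s, (X + C (r i) : R[X]).natDegree ≤ ∑ _i ∈ s, (1 : ℕ) := Finset.sum_le_sum h
    _ = #s := by simp

omit [Fintype ι] [DecidableEq ι] in
open Polynomial in
/-- Evaluation of `∏ i ∈ s, (X + C (r i))` through the subset-sum formula for its
coefficients. -/
theorem eval_prod_X_add_C (s : Finset ι) (r : ι → R) (x : R) :
    ∑ m ∈ range (#s + 1), (∑ t ∈ s.powersetCard (#s - m), ∏ i ∈ t, r i) * x ^ m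
      = ∏ i ∈ s, (x + r i) := by
  have h1 : (∏ i ∈ s, (X + C (r i))).eval x = ∏ i ∈ s, (x + r i) := by
    rw [eval_prod]
    simp
  rw [← h1, eval_eq_sum_range' (Nat.lt_succ_of_le (natDegree_prod_X_add_C_le s r)) x]
  refine Finset.sum_congr rfl fun m hm => ?_
  rw [Finset.prod_X_add_C_coeff s r (Nat.lt_succ_iff.mp (Finset.mem_range.mp hm))]

/-- Each `a i₀` is a root of `∏ i, (X - a i)`, written out with elementary symmetric sums of the
negated family as coefficients. -/
theorem vieta_root (a : ι → R) (i₀ : ι) :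
    a i₀ ^ Fintype.card ι +
      ∑ m ∈ range (Fintype.card ι),
        (∑ S ∈ powersetCard (Fintype.card ι - m) (univ : Finset ι), ∏ i ∈ S, -a i) * a i₀ ^ m
      = 0 := by
  have h := eval_prod_X_add_C (univ : Finset ι) (fun i => -a i) (a i₀)
  rw [Finset.card_univ, Finset.sum_range_succ] at h
  have h0 : ∏ i : ι, (a i₀ + -a i) = 0 :=
    Finset.prod_eq_zero (Finset.mem_univ i₀) (by ring)
  rw [h0] at h
  simp only [Nat.sub_self, Finset.powersetCard_zero, Finset.sum_singleton, Finset.prod_empty,
    one_mul] at h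
  rw [add_comm]
  exact h

/-- Lagrange interpolation numerator `∑ i, a i * ∏ j ≠ i, (X - b j)`, evaluated at `X = b i₀`,
with its coefficients written out as sums over subsets. -/
theorem lagrange_eval (a b : ι → R) (i₀ : ι) :
    ∑ m ∈ range (Fintype.card ι),
        (∑ i, a i * ∑ S ∈ powersetCard (Fintype.card ι - 1 - m) (univ.erase i), ∏ j ∈ S, -b j)
          * b i₀ ^ m
      = a i₀ * ∏ j ∈ univ.erase i₀, (b i₀ - b j) := by
  have hcard : ∀ i : ι, #((univ : Finset ι).erase i) = Fintype.card ι - 1 := fun i => by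
    rw [Finset.card_erase_of_mem (Finset.mem_univ i), Finset.card_univ]
  have hpos : 0 < Fintype.card ι := Fintype.card_pos_iff.mpr ⟨i₀⟩
  have hkey : ∀ i : ι,
      ∑ m ∈ range (Fintype.card ι),
        (∑ S ∈ powersetCard (Fintype.card ι - 1 - m) (univ.erase i), ∏ j ∈ S, -b j) * b i₀ ^ m
        = ∏ j ∈ univ.erase i, (b i₀ + -b j) := by
    intro i
    have h := eval_prod_X_add_C ((univ : Finset ι).erase i) (fun j => -b j) (b i₀)
    rw [hcard i, Nat.sub_add_cancel hpos] at h
    exact h
  calc ∑ m ∈ range (Fintype.card ι),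
        (∑ i, a i * ∑ S ∈ powersetCard (Fintype.card ι - 1 - m) (univ.erase i), ∏ j ∈ S, -b j)
          * b i₀ ^ m
      = ∑ i, a i * ∑ m ∈ range (Fintype.card ι),
          (∑ S ∈ powersetCard (Fintype.card ι - 1 - m) (univ.erase i), ∏ j ∈ S, -b j)
            * b i₀ ^ m := by
        simp only [Finset.sum_mul]
        rw [Finset.sum_comm]
        refine Finset.sum_congr rfl fun i _ => ?_
        rw [Finset.mul_sum]
        refine Finset.sum_congr rfl fun m _ => ?_
        rw [mul_assoc, Finset.sum_mul]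
    _ = ∑ i, a i * ∏ j ∈ univ.erase i, (b i₀ + -b j) := by
        refine Finset.sum_congr rfl fun i _ => ?_
        rw [hkey i]
    _ = a i₀ * ∏ j ∈ univ.erase i₀, (b i₀ - b j) := by
        rw [Finset.sum_eq_single i₀]
        · simp only [sub_eq_add_neg]
        · intro i _ hi
          have : ∏ j ∈ univ.erase i, (b i₀ + -b j) = 0 :=
            Finset.prod_eq_zero (Finset.mem_erase.mpr ⟨Ne.symm hi, Finset.mem_univ i₀⟩) (by ring)
          rw [this, mul_zero]
        · intro h
          exact absurd (Finset.mem_univ i₀) h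

end Fermat.Agent.S23.Vieta
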