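import Mathlib
import Fermat.Agent.S23_Conj
import Fermat.Agent.S23_Vieta

set_option autoImplicit false
set_option linter.unusedSectionVars false

/-!
# S23, step L3: characteristic polynomial and Lagrange interpolation over level one

For a finite-index subgroup `Γ` of `SL(2, ℤ)` and the finite coset space `𝒬`, the conjugates
`f_q` (`SlashInvariantForm.quotientFunc f q`) of a form `f` of level `Γ` are permuted by the slash
action of `SL(2, ℤ)`.  Hence symmetric expressions in the conjugates are level-one forms.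
-/

open UpperHalfPlane Finset Filter
open scoped ModularForm MatrixGroups Manifold Topology

namespace Fermat.Agent.S23.CharPoly

/-! ## Generic symmetric sums of a finite family of functions -/

section Generic

variable {ι : Type} [Fintype ι] [DecidableEq ι]

/-- Elementary symmetric sum of degree `j` of a family of functions. -/
noncomputable def esymmFun (a : ι → ℍ → ℂ) (j : ℕ) : ℍ → ℂ :=
  ∑ S ∈ powersetCard j (univ : Finset ι), ∏ i ∈ S, a i

/-- The "Lagrange" sums `∑ i, a i * e_j (b restricted to the complement of i)`. -/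
noncomputable def lagFun (a b : ι → ℍ → ℂ) (j : ℕ) : ℍ → ℂ :=
  ∑ i, a i * ∑ S ∈ powersetCard j (univ.erase i), ∏ i' ∈ S, b i'

theorem esymmFun_apply (a : ι → ℍ → ℂ) (j : ℕ) (z : ℍ) :
    esymmFun a j z = ∑ S ∈ powersetCard j (univ : Finset ι), ∏ i ∈ S, a i z := by
  simp [esymmFun, Finset.sum_apply, Finset.prod_apply]

theorem lagFun_apply (a b : ι → ℍ → ℂ) (j : ℕ) (z : ℍ) :
    lagFun a b j z = ∑ i, a i z * ∑ S ∈ powersetCard j (univ.erase i), ∏ i' ∈ S, b i' z := by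
  simp [lagFun, Finset.sum_apply, Finset.prod_apply]

theorem esymmFun_slash (a : ι → ℍ → ℂ) (k : ℤ) (j : ℕ) (h : GL (Fin 2) ℝ)
    (hdet : |h.det.val| = 1) (σ : Equiv.Perm ι) (hσ : ∀ i, a i ∣[k] h = a (σ i)) :
    esymmFun a j ∣[k * j] h = esymmFun a j := by
  unfold esymmFun
  rw [SlashAction.sum_slash]
  have key : ∀ S ∈ powersetCard j (univ : Finset ι),
      (∏ i ∈ S, a i) ∣[k * j] h = ∏ i ∈ S.map σ.toEmbedding, a i := by
    intro S hS
    have hc : #S = j := (mem_powersetCard.mp hS).2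
    rw [← hc, ModularForm.prod_slash, hdet, one_zpow, one_smul, Finset.prod_map]
    exact Finset.prod_congr rfl (fun i _ => hσ i)
  rw [Finset.sum_congr rfl key]
  have hmap : (powersetCard j (univ : Finset ι)).map (mapEmbedding σ.toEmbedding).toEmbedding
      = powersetCard j univ := by
    rw [← powersetCard_map, Finset.map_univ_equiv]
  conv_rhs => rw [← hmap]
  rw [Finset.sum_map]
  rfl

theorem lagFun_slash (a b : ι → ℍ → ℂ) (k w : ℤ) (j : ℕ) (h : GL (Fin 2) ℝ)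
    (hdet : |h.det.val| = 1) (σ : Equiv.Perm ι) (hσa : ∀ i, a i ∣[k] h = a (σ i))
    (hσb : ∀ i, b i ∣[w] h = b (σ i)) :
    lagFun a b j ∣[k + w * j] h = lagFun a b j := by
  unfold lagFun
  rw [SlashAction.sum_slash]
  have key : ∀ i, (a i * ∑ S ∈ powersetCard j (univ.erase i), ∏ i' ∈ S, b i') ∣[k + w * j] h
      = a (σ i) * ∑ S ∈ powersetCard j (univ.erase (σ i)), ∏ i' ∈ S, b i' := by
    intro i
    rw [ModularForm.mul_slash, hdet, one_smul, hσa, SlashAction.sum_slash]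
    congr 1
    have hmap : powersetCard j (univ.erase (σ i))
        = (powersetCard j (univ.erase i)).map (mapEmbedding σ.toEmbedding).toEmbedding := by
      rw [← powersetCard_map]
      congr 1
      ext x
      simp
    rw [hmap, Finset.sum_map]
    refine Finset.sum_congr rfl (fun S hS => ?_)
    have hc : #S = j := (mem_powersetCard.mp hS).2
    rw [← hc, ModularForm.prod_slash, hdet, one_zpow, one_smul]
    simp only [RelEmbedding.coe_toEmbedding, mapEmbedding_apply, Finset.prod_map,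
      Equiv.coe_toEmbedding]
    exact Finset.prod_congr rfl (fun i _ => hσb i)
  rw [Finset.sum_congr rfl (fun i _ => key i)]
  exact Equiv.sum_comp σ (fun i => a i * ∑ S ∈ powersetCard j (univ.erase i), ∏ i' ∈ S, b i')

theorem esymmFun_mdiff (a : ι → ℍ → ℂ) (ha : ∀ i, MDiff (a i)) (j : ℕ) : MDiff (esymmFun a j) :=
  MDifferentiable.sum fun _ _ => MDifferentiable.prod fun i _ => ha i

theorem lagFun_mdiff (a b : ι → ℍ → ℂ) (ha : ∀ i, MDiff (a i)) (hb : ∀ i, MDiff (b i)) (j : ℕ) :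
    MDiff (lagFun a b j) :=
  MDifferentiable.sum fun i _ => (ha i).mul
    (MDifferentiable.sum fun _ _ => MDifferentiable.prod fun i' _ => hb i')

theorem isBoundedAtImInfty_sum {κ : Type*} (s : Finset κ) (f : κ → ℍ → ℂ)
    (h : ∀ i ∈ s, IsBoundedAtImInfty (f i)) : IsBoundedAtImInfty (∑ i ∈ s, f i) :=
  (boundedAtImInftySubalgebra ℂ).sum_mem h

theorem isBoundedAtImInfty_prod {κ : Type*} (s : Finset κ) (f : κ → ℍ → ℂ)
    (h : ∀ i ∈ s, IsBoundedAtImInfty (f i)) : IsBoundedAtImInfty (∏ i ∈ s, f i) :=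
  (boundedAtImInftySubalgebra ℂ).prod_mem h

theorem isZeroAtImInfty_sum {κ : Type*} (s : Finset κ) (f : κ → ℍ → ℂ)
    (h : ∀ i ∈ s, IsZeroAtImInfty (f i)) : IsZeroAtImInfty (∑ i ∈ s, f i) :=
  (zeroAtImInftySubmodule ℂ).sum_mem h

theorem esymmFun_bdd (a : ι → ℍ → ℂ) (ha : ∀ i, IsBoundedAtImInfty (a i)) (j : ℕ) :
    IsBoundedAtImInfty (esymmFun a j) :=
  isBoundedAtImInfty_sum _ _ fun _ _ => isBoundedAtImInfty_prod _ _ fun i _ => ha i

theorem lagFun_bdd (a b : ι → ℍ → ℂ) (ha : ∀ i, IsBoundedAtImInfty (a i))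
    (hb : ∀ i, IsBoundedAtImInfty (b i)) (j : ℕ) : IsBoundedAtImInfty (lagFun a b j) :=
  isBoundedAtImInfty_sum _ _ fun i _ => BoundedAtFilter.mul (ha i)
    (isBoundedAtImInfty_sum _ _ fun _ _ => isBoundedAtImInfty_prod _ _ fun i' _ => hb i')

theorem lagFun_zero (a b : ι → ℍ → ℂ) (ha : ∀ i, IsZeroAtImInfty (a i))
    (hb : ∀ i, IsBoundedAtImInfty (b i)) (j : ℕ) : IsZeroAtImInfty (lagFun a b j) :=
  isZeroAtImInfty_sum _ _ fun i _ => ZeroAtFilter.mul_boundedAtFilter (ha i)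
    (isBoundedAtImInfty_sum _ _ fun _ _ => isBoundedAtImInfty_prod _ _ fun i' _ => hb i')

theorem esymmFun_zero (a : ι → ℍ → ℂ) (ha : ∀ i, IsZeroAtImInfty (a i)) (j : ℕ) (hj : 0 < j) :
    IsZeroAtImInfty (esymmFun a j) := by
  refine isZeroAtImInfty_sum _ _ fun S hS => ?_
  have hc : #S = j := (mem_powersetCard.mp hS).2
  obtain ⟨i₀, hi₀⟩ : S.Nonempty := Finset.card_pos.mp (hc ▸ hj)
  rw [← Finset.mul_prod_erase S a hi₀]
  exact ZeroAtFilter.mul_boundedAtFilter (ha i₀)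
    (isBoundedAtImInfty_prod _ _ fun i _ => (ha i).isBoundedAtImInfty)

end Generic

/-! ## Conjugates of a form of level `𝒢` -/

section Main

variable {𝒢 : Subgroup (GL (Fin 2) ℝ)} [𝒢.IsArithmetic]

local notation "𝒬" => 𝒮ℒ ⧸ (𝒢.subgroupOf 𝒮ℒ)

/-- The permutation of the cosets induced by (the inverse of) an element of `𝒮ℒ`. -/
noncomputable def cosetPerm (h : GL (Fin 2) ℝ) (hh : h ∈ 𝒮ℒ) : Equiv.Perm 𝒬 :=
  MulAction.toPerm ((⟨h, hh⟩ : 𝒮ℒ)⁻¹)

theorem quotientFunc_slash {k : ℤ} {F : Type*} [FunLike F ℍ ℂ] [SlashInvariantFormClass F 𝒢 k]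
    (f : F) (h : GL (Fin 2) ℝ) (hh : h ∈ 𝒮ℒ) (q : 𝒬) :
    SlashInvariantForm.quotientFunc f q ∣[k] h
      = SlashInvariantForm.quotientFunc f (cosetPerm (𝒢 := 𝒢) h hh q) :=
  SlashInvariantForm.quotientFunc_smul f hh q

theorem neg_quotientFunc_slash {k : ℤ} {F : Type*} [FunLike F ℍ ℂ]
    [SlashInvariantFormClass F 𝒢 k] (f : F) (h : GL (Fin 2) ℝ) (hh : h ∈ 𝒮ℒ) (q : 𝒬) :
    (-SlashInvariantForm.quotientFunc f q) ∣[k] h
      = -SlashInvariantForm.quotientFunc f (cosetPerm (𝒢 := 𝒢) h hh q) := by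
  rw [SlashAction.neg_slash, quotientFunc_slash]

theorem quotientFunc_one {k : ℤ} {F : Type*} [FunLike F ℍ ℂ] [SlashInvariantFormClass F 𝒢 k]
    (f : F) : SlashInvariantForm.quotientFunc f ((1 : 𝒮ℒ) : 𝒬) = (f : ℍ → ℂ) := by
  have : SlashInvariantForm.quotientFunc f ((1 : 𝒮ℒ) : 𝒬) = (f : ℍ → ℂ) ∣[k] ((1 : 𝒮ℒ).val)⁻¹ :=
    SlashInvariantForm.quotientFunc_mk f 1
  rw [this]
  simp

theorem abs_det_of_mem_SL {h : GL (Fin 2) ℝ} (hh : h ∈ 𝒮ℒ) : |h.det.val| = 1 :=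
  Subgroup.HasDetPlusMinusOne.abs_det hh

theorem one_slash_of_mem_SL {h : GL (Fin 2) ℝ} (hh : h ∈ 𝒮ℒ) : (1 : ℍ → ℂ) ∣[(0 : ℤ)] h = 1 := by
  obtain ⟨γ, rfl⟩ := hh
  exact ModularForm.is_invariant_one' γ

/-- A (noncomputable) `Fintype` structure on the finite coset space. -/
@[reducible] noncomputable def fintypeQ : Fintype 𝒬 := Fintype.ofFinite _

attribute [local instance] fintypeQ Classical.propDecidable

section Forms

variable {k w : ℤ} {F Θ : Type*} [FunLike F ℍ ℂ] [FunLike Θ ℍ ℂ]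

/-- The coefficients of the characteristic polynomial of a cusp form are level-one cusp forms. -/
theorem exists_cuspForm_charCoeff [CuspFormClass F 𝒢 k] (f : F) (j : ℕ) (hj : 0 < j) :
    ∃ g : CuspForm 𝒮ℒ (k * j),
      (g : ℍ → ℂ) = esymmFun (fun q : 𝒬 => -SlashInvariantForm.quotientFunc f q) j := by
  refine Conj.exists_cuspForm_levelOne _ _
    (esymmFun_mdiff _ (fun q => (Conj.mdifferentiable_quotientFunc f q).neg) j)
    (esymmFun_zero _ (fun q => ?_) j hj)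
    (fun γ hγ => esymmFun_slash _ k j γ (abs_det_of_mem_SL hγ) (cosetPerm γ hγ)
      (fun q => neg_quotientFunc_slash f γ hγ q))
  exact (Conj.isZeroAtImInfty_quotientFunc f q).neg

/-- The coefficients of the Lagrange numerator of a cusp form are level-one cusp forms. -/
theorem exists_cuspForm_lagNum [CuspFormClass F 𝒢 k] [ModularFormClass Θ 𝒢 w] (f : F) (θ : Θ)
    (j : ℕ) :
    ∃ g : CuspForm 𝒮ℒ (k + w * j),
      (g : ℍ → ℂ) = lagFun (fun q : 𝒬 => SlashInvariantForm.quotientFunc f q)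
        (fun q : 𝒬 => -SlashInvariantForm.quotientFunc θ q) j := by
  refine Conj.exists_cuspForm_levelOne _ _
    (lagFun_mdiff _ _ (fun q => Conj.mdifferentiable_quotientFunc f q)
      (fun q => (Conj.mdifferentiable_quotientFunc θ q).neg) j)
    (lagFun_zero _ _ (fun q => Conj.isZeroAtImInfty_quotientFunc f q) (fun q => ?_) j)
    (fun γ hγ => lagFun_slash _ _ k w j γ (abs_det_of_mem_SL hγ) (cosetPerm γ hγ)
      (fun q => quotientFunc_slash f γ hγ q) (fun q => neg_quotientFunc_slash θ γ hγ q))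
  exact (Conj.isBoundedAtImInfty_quotientFunc θ q).neg

/-- The coefficients of the Lagrange denominator are level-one modular forms. -/
theorem exists_modularForm_lagDen [ModularFormClass Θ 𝒢 w] (θ : Θ) (j : ℕ) :
    ∃ g : ModularForm 𝒮ℒ (w * j),
      (g : ℍ → ℂ) = lagFun (fun _ : 𝒬 => (1 : ℍ → ℂ))
        (fun q : 𝒬 => -SlashInvariantForm.quotientFunc θ q) j := by
  refine Conj.exists_modularForm_levelOne _ _
    (lagFun_mdiff _ _ (fun _ => mdifferentiable_const)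
      (fun q => (Conj.mdifferentiable_quotientFunc θ q).neg) j)
    (lagFun_bdd _ _ (fun _ => const_boundedAtFilter _ (1 : ℂ)) (fun q => ?_) j)
    (fun γ hγ => ?_)
  · exact (Conj.isBoundedAtImInfty_quotientFunc θ q).neg
  · have := lagFun_slash (fun _ : 𝒬 => (1 : ℍ → ℂ))
      (fun q : 𝒬 => -SlashInvariantForm.quotientFunc θ q) 0 w j γ (abs_det_of_mem_SL hγ)
      (cosetPerm γ hγ) (fun _ => one_slash_of_mem_SL hγ)
      (fun q => neg_quotientFunc_slash θ γ hγ q)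
    rwa [zero_add] at this

end Forms

section Identities

variable {k w : ℤ} {F Θ : Type*} [FunLike F ℍ ℂ] [FunLike Θ ℍ ℂ]

/-- Pointwise monic relation satisfied by `f`. -/
theorem charPoly_relation [SlashInvariantFormClass F 𝒢 k] (f : F) (z : ℍ) :
    f z ^ Fintype.card 𝒬 + ∑ m ∈ range (Fintype.card 𝒬),
      esymmFun (fun q : 𝒬 => -SlashInvariantForm.quotientFunc f q) (Fintype.card 𝒬 - m) z
        * f z ^ m = 0 := by
  have h := Vieta.vieta_root (fun q : 𝒬 => SlashInvariantForm.quotientFunc f q z)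
    (((1 : 𝒮ℒ) : 𝒬))
  simp only [congrFun (quotientFunc_one (𝒢 := 𝒢) f) z] at h
  simpa only [esymmFun_apply, Pi.neg_apply] using h

/-- Pointwise Lagrange identity. -/
theorem lagrange_relation [SlashInvariantFormClass F 𝒢 k] [SlashInvariantFormClass Θ 𝒢 w]
    (f : F) (θ : Θ) (z : ℍ) :
    ∑ m ∈ range (Fintype.card 𝒬),
      lagFun (fun q : 𝒬 => SlashInvariantForm.quotientFunc f q)
        (fun q : 𝒬 => -SlashInvariantForm.quotientFunc θ q) (Fintype.card 𝒬 - 1 - m) z * θ z ^ m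
      = f z * ∏ q ∈ (univ : Finset 𝒬).erase ((1 : 𝒮ℒ) : 𝒬),
          (θ z - SlashInvariantForm.quotientFunc θ q z) := by
  have h := Vieta.lagrange_eval (fun q : 𝒬 => SlashInvariantForm.quotientFunc f q z)
    (fun q : 𝒬 => SlashInvariantForm.quotientFunc θ q z) (((1 : 𝒮ℒ) : 𝒬))
  simp only [congrFun (quotientFunc_one (𝒢 := 𝒢) f) z,
    congrFun (quotientFunc_one (𝒢 := 𝒢) θ) z] at h
  simpa only [lagFun_apply, Pi.neg_apply] using h

/-- Pointwise Lagrange identity for the denominator. -/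
theorem lagrange_relation_one [SlashInvariantFormClass Θ 𝒢 w] (θ : Θ) (z : ℍ) :
    ∑ m ∈ range (Fintype.card 𝒬),
      lagFun (fun _ : 𝒬 => (1 : ℍ → ℂ))
        (fun q : 𝒬 => -SlashInvariantForm.quotientFunc θ q) (Fintype.card 𝒬 - 1 - m) z * θ z ^ m
      = ∏ q ∈ (univ : Finset 𝒬).erase ((1 : 𝒮ℒ) : 𝒬),
          (θ z - SlashInvariantForm.quotientFunc θ q z) := by
  have h := Vieta.lagrange_eval (fun _ : 𝒬 => (1 : ℂ))
    (fun q : 𝒬 => SlashInvariantForm.quotientFunc θ q z) (((1 : 𝒮ℒ) : 𝒬))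
  simp only [congrFun (quotientFunc_one (𝒢 := 𝒢) θ) z, one_mul] at h
  simpa only [lagFun_apply, Pi.neg_apply, Pi.one_apply, one_mul] using h

/-- The Lagrange denominator `∏_{q ≠ 1} (θ - θ_q)` is not identically zero when no element of
`𝒮ℒ \ 𝒢` fixes `θ`. -/
theorem exists_prod_ne_zero [ModularFormClass Θ 𝒢 w] (θ : Θ)
    (hsep : ∀ γ ∈ 𝒮ℒ, (θ : ℍ → ℂ) ∣[w] γ = θ → γ ∈ 𝒢) :
    ∃ z : ℍ, ∏ q ∈ (univ : Finset 𝒬).erase ((1 : 𝒮ℒ) : 𝒬),
      (θ z - SlashInvariantForm.quotientFunc θ q z) ≠ 0 := by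
  by_contra hcon
  push Not at hcon
  have hzero : ∏ q ∈ (univ : Finset 𝒬).erase ((1 : 𝒮ℒ) : 𝒬),
      ((θ : ℍ → ℂ) - SlashInvariantForm.quotientFunc θ q) = 0 := by
    funext z
    simpa [Finset.prod_apply] using hcon z
  have hmd : ∀ q ∈ (univ : Finset 𝒬).erase ((1 : 𝒮ℒ) : 𝒬),
      MDiff ((θ : ℍ → ℂ) - SlashInvariantForm.quotientFunc θ q) := fun q _ =>
    (ModularFormClass.holo θ).sub (Conj.mdifferentiable_quotientFunc θ q)
  obtain ⟨q, hq, hq0⟩ := (UpperHalfPlane.prod_eq_zero_iff hmd).mp hzero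
  have hq1 : q ≠ ((1 : 𝒮ℒ) : 𝒬) := (Finset.mem_erase.mp hq).1
  induction q using Quotient.inductionOn with
  | h r =>
    apply hq1
    have heq : (θ : ℍ → ℂ) ∣[w] r.val⁻¹ = θ := (sub_eq_zero.mp hq0).symm
    have hmem : r.val⁻¹ ∈ 𝒢 := hsep _ (inv_mem r.2) heq
    refine QuotientGroup.eq.mpr ?_
    simp only [mul_one]
    show (r⁻¹ : 𝒮ℒ).val ∈ 𝒢
    simpa using hmem

end Identities

/-- The coefficients of the Lagrange numerator are level-one modular forms. -/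
theorem exists_modularForm_lagNum {k w : ℤ} {F Θ : Type*} [FunLike F ℍ ℂ] [FunLike Θ ℍ ℂ]
    [ModularFormClass F 𝒢 k] [ModularFormClass Θ 𝒢 w] (f : F) (θ : Θ) (j : ℕ) :
    ∃ g : ModularForm 𝒮ℒ (k + w * j),
      (g : ℍ → ℂ) = lagFun (fun q : 𝒬 => SlashInvariantForm.quotientFunc f q)
        (fun q : 𝒬 => -SlashInvariantForm.quotientFunc θ q) j := by
  refine Conj.exists_modularForm_levelOne _ _
    (lagFun_mdiff _ _ (fun q => Conj.mdifferentiable_quotientFunc f q)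
      (fun q => (Conj.mdifferentiable_quotientFunc θ q).neg) j)
    (lagFun_bdd _ _ (fun q => Conj.isBoundedAtImInfty_quotientFunc f q) (fun q => ?_) j)
    (fun γ hγ => lagFun_slash _ _ k w j γ (abs_det_of_mem_SL hγ) (cosetPerm γ hγ)
      (fun q => quotientFunc_slash f γ hγ q) (fun q => neg_quotientFunc_slash θ γ hγ q))
  exact (Conj.isBoundedAtImInfty_quotientFunc θ q).neg

/-- **Certificate, general form.** For a cusp form `f` (weight `k`) and a modular form `θ`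
(weight `w`) of level `𝒢` such that no element of `𝒮ℒ \ 𝒢` fixes `θ`: level-one coefficient
functions `C`, `D`, `c` with `f * ∑ D_l θ^l = ∑ C_l θ^l`, `∑ D_l θ^l ≢ 0` and
`f^μ + ∑ c_i f^i = 0`. -/
theorem exists_certificate_general {k w : ℤ} {F Θ : Type*} [FunLike F ℍ ℂ] [FunLike Θ ℍ ℂ]
    [CuspFormClass F 𝒢 k] [ModularFormClass Θ 𝒢 w] (f : F) (θ : Θ)
    (hsep : ∀ γ ∈ 𝒮ℒ, (θ : ℍ → ℂ) ∣[w] γ = θ → γ ∈ 𝒢) :
    ∃ (μ : ℕ) (C D c : Fin μ → ℍ → ℂ),
      (∀ l : Fin μ, ∃ g : ModularForm 𝒮ℒ (k + w * ((μ : ℤ) - 1 - (l : ℕ))), ⇑g = C l) ∧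
      (∀ l : Fin μ, ∃ g : ModularForm 𝒮ℒ (w * ((μ : ℤ) - 1 - (l : ℕ))), ⇑g = D l) ∧
      (∀ i : Fin μ, ∃ g : CuspForm 𝒮ℒ (k * ((μ : ℤ) - (i : ℕ))), ⇑g = c i) ∧
      (∀ z : ℍ, f z * ∑ l : Fin μ, D l z * θ z ^ (l : ℕ) = ∑ l : Fin μ, C l z * θ z ^ (l : ℕ)) ∧
      (∃ z : ℍ, ∑ l : Fin μ, D l z * θ z ^ (l : ℕ) ≠ 0) ∧
      (∀ z : ℍ, f z ^ μ + ∑ i : Fin μ, c i z * f z ^ (i : ℕ) = 0) := by
  have hC : ∀ z : ℍ, ∑ l : Fin (Fintype.card 𝒬),
      lagFun (fun q : 𝒬 => SlashInvariantForm.quotientFunc f q)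
        (fun q : 𝒬 => -SlashInvariantForm.quotientFunc θ q) (Fintype.card 𝒬 - 1 - (l : ℕ)) z
          * θ z ^ (l : ℕ)
      = f z * ∏ q ∈ (univ : Finset 𝒬).erase ((1 : 𝒮ℒ) : 𝒬),
          (θ z - SlashInvariantForm.quotientFunc θ q z) := fun z =>
    (Fin.sum_univ_eq_sum_range (fun m => lagFun (fun q : 𝒬 => SlashInvariantForm.quotientFunc f q)
        (fun q : 𝒬 => -SlashInvariantForm.quotientFunc θ q) (Fintype.card 𝒬 - 1 - m) z
          * θ z ^ m) _).trans (lagrange_relation f θ z)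
  have hD : ∀ z : ℍ, ∑ l : Fin (Fintype.card 𝒬),
      lagFun (fun _ : 𝒬 => (1 : ℍ → ℂ))
        (fun q : 𝒬 => -SlashInvariantForm.quotientFunc θ q) (Fintype.card 𝒬 - 1 - (l : ℕ)) z
          * θ z ^ (l : ℕ)
      = ∏ q ∈ (univ : Finset 𝒬).erase ((1 : 𝒮ℒ) : 𝒬),
          (θ z - SlashInvariantForm.quotientFunc θ q z) := fun z =>
    (Fin.sum_univ_eq_sum_range (fun m => lagFun (fun _ : 𝒬 => (1 : ℍ → ℂ))
        (fun q : 𝒬 => -SlashInvariantForm.quotientFunc θ q) (Fintype.card 𝒬 - 1 - m) z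
          * θ z ^ m) _).trans (lagrange_relation_one θ z)
  have hc : ∀ z : ℍ, f z ^ Fintype.card 𝒬 + ∑ i : Fin (Fintype.card 𝒬),
      esymmFun (fun q : 𝒬 => -SlashInvariantForm.quotientFunc f q) (Fintype.card 𝒬 - (i : ℕ)) z
        * f z ^ (i : ℕ) = 0 := fun z => by
    rw [Fin.sum_univ_eq_sum_range (fun m => esymmFun
      (fun q : 𝒬 => -SlashInvariantForm.quotientFunc f q) (Fintype.card 𝒬 - m) z * f z ^ m) _]
    exact charPoly_relation f z
  refine ⟨Fintype.card 𝒬,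
    fun l => lagFun (fun q : 𝒬 => SlashInvariantForm.quotientFunc f q)
      (fun q : 𝒬 => -SlashInvariantForm.quotientFunc θ q) (Fintype.card 𝒬 - 1 - (l : ℕ)),
    fun l => lagFun (fun _ : 𝒬 => (1 : ℍ → ℂ))
      (fun q : 𝒬 => -SlashInvariantForm.quotientFunc θ q) (Fintype.card 𝒬 - 1 - (l : ℕ)),
    fun i => esymmFun (fun q : 𝒬 => -SlashInvariantForm.quotientFunc f q)
      (Fintype.card 𝒬 - (i : ℕ)), ?_, ?_, ?_, ?_, ?_, hc⟩
  · intro l
    have hw : ((Fintype.card 𝒬 - 1 - (l : ℕ) : ℕ) : ℤ)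
        = (Fintype.card 𝒬 : ℤ) - 1 - ((l : ℕ) : ℤ) := by
      have := l.isLt
      omega
    rw [← hw]
    exact exists_modularForm_lagNum f θ _
  · intro l
    have hw : ((Fintype.card 𝒬 - 1 - (l : ℕ) : ℕ) : ℤ)
        = (Fintype.card 𝒬 : ℤ) - 1 - ((l : ℕ) : ℤ) := by
      have := l.isLt
      omega
    rw [← hw]
    exact exists_modularForm_lagDen θ _
  · intro i
    have hw : ((Fintype.card 𝒬 - (i : ℕ) : ℕ) : ℤ)
        = (Fintype.card 𝒬 : ℤ) - ((i : ℕ) : ℤ) := by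
      have := i.isLt
      omega
    rw [← hw]
    exact exists_cuspForm_charCoeff f _ (Nat.sub_pos_of_lt i.isLt)
  · intro z
    rw [hD z, hC z]
  · obtain ⟨z, hz⟩ := exists_prod_ne_zero θ hsep
    exact ⟨z, by rw [hD z]; exact hz⟩

end Main

/-! ## Specialisation to subgroups of `SL(2, ℤ)` and to `Gamma0 N` -/

section SL2Z

open Matrix.SpecialLinearGroup

/-- The certificate for a finite-index subgroup `Γ` of `SL(2, ℤ)`, with the separation hypothesis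
stated for `γ : SL(2, ℤ)`. -/
theorem exists_certificate_of_finiteIndex (Γ : Subgroup SL(2, ℤ)) [Γ.FiniteIndex] {k w : ℤ}
    (F : CuspForm (Γ : Subgroup (GL (Fin 2) ℝ)) k) (Θ : ModularForm (Γ : Subgroup (GL (Fin 2) ℝ)) w)
    (hsep : ∀ γ : SL(2, ℤ), (Θ : ℍ → ℂ) ∣[w] γ = Θ → γ ∈ Γ) :
    ∃ (μ : ℕ) (C D c : Fin μ → ℍ → ℂ),
      (∀ l : Fin μ, ∃ g : ModularForm 𝒮ℒ (k + w * ((μ : ℤ) - 1 - (l : ℕ))), ⇑g = C l) ∧
      (∀ l : Fin μ, ∃ g : ModularForm 𝒮ℒ (w * ((μ : ℤ) - 1 - (l : ℕ))), ⇑g = D l) ∧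
      (∀ i : Fin μ, ∃ g : CuspForm 𝒮ℒ (k * ((μ : ℤ) - (i : ℕ))), ⇑g = c i) ∧
      (∀ z : ℍ, F z * ∑ l : Fin μ, D l z * Θ z ^ (l : ℕ) = ∑ l : Fin μ, C l z * Θ z ^ (l : ℕ)) ∧
      (∃ z : ℍ, ∑ l : Fin μ, D l z * Θ z ^ (l : ℕ) ≠ 0) ∧
      (∀ z : ℍ, F z ^ μ + ∑ i : Fin μ, c i z * F z ^ (i : ℕ) = 0) := by
  refine exists_certificate_general F Θ ?_
  rintro _ ⟨γ, rfl⟩ hγ
  exact Subgroup.mem_map_of_mem _ (hsep γ hγ)

end SL2Z

end Fermat.Agent.S23.CharPoly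

namespace Fermat.Agent.S23.CharPoly

open CongruenceSubgroup

/-- **[L3] certificate** (interface consumed by `S23_Twist`). -/
theorem exists_certificate (N : ℕ) [NeZero N] (F : CuspForm (Gamma0 N) 2)
    (Θ : ModularForm (Gamma0 N) 12)
    (hsep : ∀ γ : SL(2, ℤ), ⇑Θ ∣[(12 : ℤ)] γ = ⇑Θ → γ ∈ Gamma0 N) :
    ∃ (μ : ℕ) (C D c : Fin μ → ℍ → ℂ),
      (∀ l : Fin μ, ∃ g : ModularForm 𝒮ℒ (2 + 12 * ((μ : ℤ) - 1 - (l : ℕ))), ⇑g = C l) ∧
      (∀ l : Fin μ, ∃ g : ModularForm 𝒮ℒ (12 * ((μ : ℤ) - 1 - (l : ℕ))), ⇑g = D l) ∧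
      (∀ i : Fin μ, ∃ g : CuspForm 𝒮ℒ (2 * ((μ : ℤ) - (i : ℕ))), ⇑g = c i) ∧
      (∀ z : ℍ, F z * ∑ l : Fin μ, D l z * Θ z ^ (l : ℕ) = ∑ l : Fin μ, C l z * Θ z ^ (l : ℕ)) ∧
      (∃ z : ℍ, ∑ l : Fin μ, D l z * Θ z ^ (l : ℕ) ≠ 0) ∧
      (∀ z : ℍ, F z ^ μ + ∑ i : Fin μ, c i z * F z ^ (i : ℕ) = 0) :=
  exists_certificate_of_finiteIndex (Gamma0 N) F Θ hsep

end Fermat.Agent.S23.CharPoly
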