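import Mathlib
import Fermat.Prelude.Def_CuspForm_HeckeAlgebra
import Fermat.Prelude.Thm_ModularForm_heckeT_slash_eq_self_of_mem_Gamma0

set_option autoImplicit false

open UpperHalfPlane CongruenceSubgroup
open scoped MatrixGroups ModularForm Manifold

namespace Fermat.Agent.S22.Cosets

open P2MW.S_ModularForm_heckeT_slash_eq_self_of_mem_Gamma0.ModularForm.HeckeSlashInvariance in
theorem heckeT_cosets {N p : ℕ} [NeZero N] (hp : p.Prime) (hpN : ¬ p ∣ N) :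
    ∃ (ι : Type) (_ : Fintype ι) (A : ι → GL (Fin 2) ℝ) (a : ι → Matrix (Fin 2) (Fin 2) ℤ),
      (∀ i, ((A i : GL (Fin 2) ℝ) : Matrix (Fin 2) (Fin 2) ℝ) = (a i).map (Int.cast : ℤ → ℝ)) ∧
      (∀ i, 0 < (a i).det) ∧
      (∀ (k : ℤ) (f : ℍ → ℂ), ModularForm.heckeT k p f = ∑ i, f ∣[k] A i) ∧
      (∀ γ ∈ Gamma0 N, ∃ π : Equiv.Perm ι, ∀ i, ∃ κ ∈ Gamma0 N,
        A i * Matrix.SpecialLinearGroup.mapGL ℝ γ = Matrix.SpecialLinearGroup.mapGL ℝ κ * A (π i)) := by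
  have : Fact p.Prime := ⟨hp⟩
  have : NeZero p := ⟨hp.ne_zero⟩
  have hp0 : p ≠ 0 := hp.ne_zero
  refine ⟨OnePoint (ZMod p), inferInstance, heckeRep p,
    fun x => x.elim !![(p : ℤ), 0; 0, 1] (fun j => !![1, (j.val : ℤ); 0, (p : ℤ)]), ?_, ?_, ?_, ?_⟩
  · intro x
    induction x using OnePoint.rec with
    | infty =>
      show ((ModularForm.heckeDiagMatrix p : GL (Fin 2) ℝ) : Matrix (Fin 2) (Fin 2) ℝ) = _
      rw [ModularForm.val_heckeDiagMatrix hp0]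
      ext i j
      fin_cases i <;> fin_cases j <;> simp [OnePoint.elim_infty]
    | coe j =>
      show ((ModularForm.heckeMatrix p j.val : GL (Fin 2) ℝ) : Matrix (Fin 2) (Fin 2) ℝ) = _
      rw [ModularForm.val_heckeMatrix hp0]
      ext i j'
      fin_cases i <;> fin_cases j' <;> simp [OnePoint.elim_some]
  · intro x
    induction x using OnePoint.rec with
    | infty =>
      simp only [OnePoint.elim_infty, Matrix.det_fin_two_of]
      have : (0 : ℤ) < p := by exact_mod_cast hp.pos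
      simpa using this
    | coe j =>
      simp only [OnePoint.elim_some, Matrix.det_fin_two_of]
      have : (0 : ℤ) < p := by exact_mod_cast hp.pos
      simpa using this
  · intro k f
    exact heckeT_eq_sum_onePoint k f
  · intro γ hγ
    have hcN : (N : ℤ) ∣ γ 1 0 :=
      (ZMod.intCast_zmod_eq_zero_iff_dvd _ _).mp (CongruenceSubgroup.Gamma0_mem.mp hγ)
    refine ⟨MulAction.toPerm (redMatrix p γ), fun x => ?_⟩
    obtain ⟨g', hg', hmul⟩ := heckeRep_mul hpN γ hcN x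
    exact ⟨g', CongruenceSubgroup.Gamma0_mem.mpr ((ZMod.intCast_zmod_eq_zero_iff_dvd _ _).mpr hg'),
      hmul⟩

open P2MW.S_ModularForm_heckeT_slash_eq_self_of_mem_Gamma0.ModularForm.HeckeSlashInvariance in
theorem heckeU_cosets {N p : ℕ} [NeZero N] (hp : p.Prime) (hpN : p ∣ N) :
    ∃ (ι : Type) (_ : Fintype ι) (A : ι → GL (Fin 2) ℝ) (a : ι → Matrix (Fin 2) (Fin 2) ℤ),
      (∀ i, ((A i : GL (Fin 2) ℝ) : Matrix (Fin 2) (Fin 2) ℝ) = (a i).map (Int.cast : ℤ → ℝ)) ∧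
      (∀ i, 0 < (a i).det) ∧
      (∀ (k : ℤ) (f : ℍ → ℂ), ModularForm.heckeU k p f = ∑ i, f ∣[k] A i) ∧
      (∀ γ ∈ Gamma0 N, ∃ π : Equiv.Perm ι, ∀ i, ∃ κ ∈ Gamma0 N,
        A i * Matrix.SpecialLinearGroup.mapGL ℝ γ = Matrix.SpecialLinearGroup.mapGL ℝ κ * A (π i)) := by
  have : NeZero p := ⟨hp.ne_zero⟩
  have hp0 : p ≠ 0 := hp.ne_zero
  refine ⟨ZMod p, inferInstance, fun j => ModularForm.heckeMatrix p j.val,
    fun j => !![1, (j.val : ℤ); 0, (p : ℤ)], ?_, ?_, ?_, ?_⟩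
  · intro j
    rw [ModularForm.val_heckeMatrix hp0]
    ext i j'
    fin_cases i <;> fin_cases j' <;> simp
  · intro j
    simp only [Matrix.det_fin_two_of]
    have : (0 : ℤ) < p := by exact_mod_cast hp.pos
    simpa using this
  · intro k f
    exact heckeU_eq_sum_zmod k f
  · intro γ hγ
    have hcN : (N : ℤ) ∣ γ 1 0 :=
      (ZMod.intCast_zmod_eq_zero_iff_dvd _ _).mp (CongruenceSubgroup.Gamma0_mem.mp hγ)
    have hc : (p : ℤ) ∣ γ 1 0 := (Int.natCast_dvd_natCast.mpr hpN).trans hcN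
    refine ⟨affinePerm γ ((ZMod.intCast_zmod_eq_zero_iff_dvd _ _).mpr hc), fun x => ?_⟩
    obtain ⟨g', hg', hmul⟩ := heckeMatrix_mul_of_dvd γ hc x
    refine ⟨g', ?_, hmul⟩
    rw [CongruenceSubgroup.Gamma0_mem, hg']
    push_cast
    rw [CongruenceSubgroup.Gamma0_mem.mp hγ, mul_zero]

end Fermat.Agent.S22.Cosets
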