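import Mathlib

set_option autoImplicit false

open Polynomial

namespace Fermat.Agent.S22.Bol

/-- The polynomial `derivative^[m] (X^(n-j))`. -/
noncomputable def P (n j m : ℕ) : ℂ[X] := derivative^[m] (X ^ (n - j) : ℂ[X])

theorem P_succ (n j m : ℕ) : derivative (P n j m) = P n j (m + 1) := by
  simp only [P, Function.iterate_succ_apply']

theorem P_zero (n j : ℕ) : P n j 0 = X ^ (n - j) := rfl

theorem P_eq_zero (n j m : ℕ) (h : n < m) : P n j m = 0 := by
  apply iterate_derivative_eq_zero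
  rw [natDegree_X_pow]
  omega

theorem sum_choose_eval (n m : ℕ) (z : ℂ) :
    ∑ j : Fin (n + 1), ((n.choose j : ℂ) * z ^ (j : ℕ)) * (P n j m).eval (-z) =
      (n.descFactorial m : ℂ) * (0 : ℂ) ^ (n - m) := by
  have h1 : (X + C z : ℂ[X]) ^ n =
      ∑ j ∈ Finset.range (n + 1), C ((n.choose j : ℂ) * z ^ j) * X ^ (n - j) := by
    rw [add_comm, add_pow]
    refine Finset.sum_congr rfl (fun j _ => ?_)
    rw [C_mul, C_pow, map_natCast]
    ring
  have h2 := congrArg (fun p : ℂ[X] => (derivative^[m] p).eval (-z)) h1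
  simp only [iterate_derivative_X_add_pow, iterate_derivative_sum, iterate_derivative_C_mul,
    eval_finsetSum, eval_mul, eval_C, eval_pow, eval_add, eval_X, neg_add_cancel,
    nsmul_eq_mul, eval_natCast] at h2
  rw [Fin.sum_univ_eq_sum_range (fun j => ((n.choose j : ℂ) * z ^ j) * (P n j m).eval (-z)) (n + 1)]
  simp only [P]
  exact h2.symm

theorem bol (n : ℕ) (f : ℂ → ℂ) (U : ℂ → Fin (n + 1) → ℂ) (S : Set ℂ) (hS : IsOpen S)
    (hU : ∀ z ∈ S, HasDerivAt U (f z • (fun j : Fin (n + 1) => (n.choose j : ℂ) * z ^ (j : ℕ))) z)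
    (c : ℂ) (hc : n = 0 ∨ c = 0)
    (hG : ∀ z ∈ S, ∑ j : Fin (n + 1), U z j * (-z) ^ (n - (j : ℕ)) = c) :
    ∀ z ∈ S, f z = 0 := by
  -- the auxiliary functions
  set Gm : ℕ → ℂ → ℂ := fun m z => ∑ j : Fin (n + 1), U z j * (P n j m).eval (-z) with hGm
  have hderiv : ∀ m : ℕ, ∀ z ∈ S, HasDerivAt (Gm m)
      (f z * ((n.descFactorial m : ℂ) * (0 : ℂ) ^ (n - m)) - Gm (m + 1) z) z := by
    intro m z hz
    have hUj : ∀ j : Fin (n + 1),
        HasDerivAt (fun w => U w j) (f z * ((n.choose j : ℂ) * z ^ (j : ℕ))) z := by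
      intro j
      have := (hasDerivAt_pi.mp (hU z hz)) j
      simpa using this
    have hPj : ∀ j : Fin (n + 1),
        HasDerivAt (fun w : ℂ => (P n j m).eval (-w)) (-(P n j (m + 1)).eval (-z)) z := by
      intro j
      have h1 := (P n j m).hasDerivAt (-z)
      have h2 : HasDerivAt (fun w : ℂ => -w) (-1) z := (hasDerivAt_id z).neg
      have h3 : HasDerivAt (fun w : ℂ => (P n j m).eval (-w))
          ((derivative (P n j m)).eval (-z) * (-1)) z := HasDerivAt.comp z h1 h2
      rw [P_succ, mul_neg_one] at h3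
      exact h3
    have hsum : HasDerivAt (Gm m)
        (∑ j : Fin (n + 1), (f z * ((n.choose j : ℂ) * z ^ (j : ℕ)) * (P n j m).eval (-z) +
          U z j * (-(P n j (m + 1)).eval (-z)))) z := by
      have := HasDerivAt.fun_sum (u := Finset.univ) (fun j _ => (hUj j).mul (hPj j))
      exact this
    convert hsum using 1
    rw [Finset.sum_add_distrib, ← sum_choose_eval n m z, Finset.mul_sum, hGm]
    simp only [mul_neg, Finset.sum_neg_distrib, mul_assoc]
    ring
  -- constant on an open set implies derivative zero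
  have hconst : ∀ m : ℕ, ∀ a : ℂ, (∀ z ∈ S, Gm m z = a) → ∀ z ∈ S,
      f z * ((n.descFactorial m : ℂ) * (0 : ℂ) ^ (n - m)) - Gm (m + 1) z = 0 := by
    intro m a ha z hz
    have h1 : HasDerivAt (Gm m) 0 z := by
      have : Gm m =ᶠ[nhds z] fun _ => a := by
        filter_upwards [hS.mem_nhds hz] with w hw
        exact ha w hw
      exact (hasDerivAt_const z a).congr_of_eventuallyEq this
    exact (hderiv m z hz).unique h1
  have hG0 : ∀ z ∈ S, Gm 0 z = c := by
    intro z hz
    rw [← hG z hz]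
    simp only [hGm, P_zero, eval_pow, eval_X]
  -- by induction all Gm m (m ≤ n) are constant on S
  have hall : ∀ m : ℕ, m ≤ n → ∃ a : ℂ, ∀ z ∈ S, Gm m z = a := by
    intro m
    induction m with
    | zero => exact fun _ => ⟨c, hG0⟩
    | succ m ih =>
      intro hm
      obtain ⟨a, ha⟩ := ih (by omega)
      refine ⟨0, fun z hz => ?_⟩
      have := hconst m a ha z hz
      have h0 : (0 : ℂ) ^ (n - m) = 0 := zero_pow (by omega)
      rw [h0, mul_zero, mul_zero, zero_sub, neg_eq_zero] at this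
      exact this
  obtain ⟨a, ha⟩ := hall n le_rfl
  intro z hz
  have := hconst n a ha z hz
  have h1 : Gm (n + 1) z = 0 := by
    simp only [hGm]
    refine Finset.sum_eq_zero (fun j _ => ?_)
    rw [P_eq_zero n j (n + 1) (by omega), eval_zero, mul_zero]
  rw [h1, sub_zero, Nat.sub_self, pow_zero, mul_one, Nat.descFactorial_self] at this
  have hn : ((n.factorial : ℕ) : ℂ) ≠ 0 := by exact_mod_cast n.factorial_ne_zero
  exact (mul_eq_zero.mp this).resolve_right hn

end Fermat.Agent.S22.Bol
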