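import Mathlib

set_option autoImplicit false

namespace Fermat.Agent.S22

open Polynomial

/-- coefficient vectors of binary forms of degree `n` -/
abbrev E (n : ℕ) : Type := Fin (n + 1) → ℂ

/-- evaluation of the binary form with coefficient vector `c` at `v` -/
noncomputable def ev (n : ℕ) : E n →ₗ[ℂ] ((Fin 2 → ℂ) → ℂ) where
  toFun c v := ∑ j : Fin (n + 1), c j * v 0 ^ (j : ℕ) * v 1 ^ (n - (j : ℕ))
  map_add' c d := by
    funext v
    simp only [Pi.add_apply, add_mul, Finset.sum_add_distrib]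
  map_smul' a c := by
    funext v
    simp only [Pi.smul_apply, smul_eq_mul, RingHom.id_apply, Finset.mul_sum, mul_assoc]

theorem ev_apply (n : ℕ) (c : E n) (v : Fin 2 → ℂ) :
    ev n c v = ∑ j : Fin (n + 1), c j * v 0 ^ (j : ℕ) * v 1 ^ (n - (j : ℕ)) := rfl

/-- cast of an integer vector -/
def icast (w : Fin 2 → ℤ) : Fin 2 → ℂ := fun i => (w i : ℂ)

theorem ev_eq_zero_of_int (n : ℕ) (c : E n)
    (h : ∀ w : Fin 2 → ℤ, ev n c (icast w) = 0) : c = 0 := by
  classical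
  set p : ℂ[X] := ∑ j : Fin (n + 1), C (c j) * X ^ (j : ℕ) with hp
  have hroot : ∀ t : ℤ, p.IsRoot (t : ℂ) := by
    intro t
    have := h ![t, 1]
    rw [ev_apply] at this
    rw [Polynomial.IsRoot, hp, Polynomial.eval_finsetSum]
    simp only [Polynomial.eval_mul, Polynomial.eval_C, Polynomial.eval_pow, Polynomial.eval_X]
    simpa [icast] using this
  have hp0 : p = 0 := by
    apply Polynomial.eq_zero_of_infinite_isRoot
    apply Set.Infinite.mono (s := Set.range (fun t : ℤ => (t : ℂ)))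
    · rintro _ ⟨t, rfl⟩
      exact hroot t
    · exact Set.infinite_range_of_injective Int.cast_injective
  funext i
  have hc : p.coeff (i : ℕ) = c i := by
    rw [hp, Polynomial.finsetSum_coeff]
    simp only [Polynomial.coeff_C_mul_X_pow]
    rw [Finset.sum_eq_single i]
    · simp
    · intro j _ hj
      rw [if_neg]
      intro hij
      exact hj (Fin.ext hij.symm)
    · simp
  rw [← hc, hp0]
  simp

theorem ev_injective (n : ℕ) : Function.Injective (ev n) := by
  rw [← LinearMap.ker_eq_bot, LinearMap.ker_eq_bot']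
  intro c hc
  apply ev_eq_zero_of_int
  intro w
  rw [hc]
  rfl

theorem ev_cons (n : ℕ) (c : E n) (v : Fin 2 → ℂ) :
    ev (n + 1) (Fin.cons 0 c : Fin (n + 2) → ℂ) v = v 0 * ev n c v := by
  rw [ev_apply, ev_apply, Fin.sum_univ_succ, Finset.mul_sum]
  simp only [Fin.cons_zero, zero_mul, zero_add, Fin.cons_succ, Fin.val_succ]
  refine Finset.sum_congr rfl fun j _ => ?_
  rw [Nat.succ_sub_succ, pow_succ]
  ring

theorem ev_snoc (n : ℕ) (c : E n) (v : Fin 2 → ℂ) :
    ev (n + 1) (Fin.snoc c 0 : Fin (n + 2) → ℂ) v = v 1 * ev n c v := by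
  rw [ev_apply, ev_apply, Fin.sum_univ_castSucc, Finset.mul_sum]
  simp only [Fin.snoc_castSucc, Fin.snoc_last, zero_mul, add_zero, Fin.val_castSucc]
  refine Finset.sum_congr rfl fun j _ => ?_
  have hj : (j : ℕ) ≤ n := Nat.lt_succ_iff.mp j.2
  rw [show n + 1 - (j : ℕ) = (n - (j : ℕ)) + 1 by omega, pow_succ]
  ring

theorem exists_linear_mul (n : ℕ) (a b : ℂ) (c : E n) :
    ∃ c' : E (n + 1), ∀ v, ev (n + 1) c' v = (a * v 0 + b * v 1) * ev n c v := by
  refine ⟨a • (Fin.cons 0 c : Fin (n + 2) → ℂ) + b • (Fin.snoc c 0 : Fin (n + 2) → ℂ), fun v => ?_⟩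
  rw [map_add, map_smul, map_smul]
  simp only [Pi.add_apply, Pi.smul_apply, smul_eq_mul, ev_cons, ev_snoc]
  ring

theorem exists_pow (a b : ℂ) (m : ℕ) :
    ∃ c : E m, ∀ v, ev m c v = (a * v 0 + b * v 1) ^ m := by
  induction m with
  | zero =>
    refine ⟨fun _ => 1, fun v => ?_⟩
    simp [ev_apply]
  | succ m ih =>
    obtain ⟨c, hc⟩ := ih
    obtain ⟨c', hc'⟩ := exists_linear_mul m a b c
    exact ⟨c', fun v => by rw [hc', hc, pow_succ]; ring⟩

theorem exists_pow_mul_pow (a b a' b' : ℂ) (i j : ℕ) :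
    ∃ c : E (i + j), ∀ v, ev (i + j) c v = (a * v 0 + b * v 1) ^ j * (a' * v 0 + b' * v 1) ^ i := by
  induction j with
  | zero =>
    obtain ⟨c, hc⟩ := exists_pow a' b' i
    exact ⟨c, fun v => (hc v).trans (by simp)⟩
  | succ j ih =>
    obtain ⟨c, hc⟩ := ih
    obtain ⟨c', hc'⟩ := exists_linear_mul (i + j) a b c
    exact ⟨c', fun v => (hc' v).trans (by rw [hc, pow_succ]; ring)⟩

theorem exists_cast {m n : ℕ} (h : m = n) (c : E m) : ∃ c' : E n, ∀ v, ev n c' v = ev m c v := by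
  subst h
  exact ⟨c, fun _ => rfl⟩

theorem exists_mono_subst (n : ℕ) (M : Matrix (Fin 2) (Fin 2) ℂ) (j : Fin (n + 1)) :
    ∃ d : E n, ∀ v : Fin 2 → ℂ, ev n d v =
      (Matrix.vecMul v M 0) ^ (j : ℕ) * (Matrix.vecMul v M 1) ^ (n - (j : ℕ)) := by
  have hj : (j : ℕ) ≤ n := Nat.lt_succ_iff.mp j.2
  obtain ⟨c, hc⟩ := exists_pow_mul_pow (M 0 0) (M 1 0) (M 0 1) (M 1 1) (n - (j : ℕ)) (j : ℕ)
  obtain ⟨c', hc'⟩ := exists_cast (Nat.sub_add_cancel hj) c
  refine ⟨c', fun v => ?_⟩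
  rw [hc', hc]
  simp only [Matrix.vecMul, dotProduct, Fin.sum_univ_two]
  ring

/-- the chosen coefficient vector of the substituted monomial -/
noncomputable def monoSubst (n : ℕ) (M : Matrix (Fin 2) (Fin 2) ℂ) (j : Fin (n + 1)) : E n :=
  Classical.choose (exists_mono_subst n M j)

theorem ev_monoSubst (n : ℕ) (M : Matrix (Fin 2) (Fin 2) ℂ) (j : Fin (n + 1)) (v : Fin 2 → ℂ) :
    ev n (monoSubst n M j) v =
      (Matrix.vecMul v M 0) ^ (j : ℕ) * (Matrix.vecMul v M 1) ^ (n - (j : ℕ)) :=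
  Classical.choose_spec (exists_mono_subst n M j) v

/-- the action of a matrix on coefficient vectors by linear substitution -/
noncomputable def rho (n : ℕ) (M : Matrix (Fin 2) (Fin 2) ℂ) : E n →ₗ[ℂ] E n :=
  ∑ j : Fin (n + 1), (LinearMap.proj j : E n →ₗ[ℂ] ℂ).smulRight (monoSubst n M j)

theorem ev_rho (n : ℕ) (M : Matrix (Fin 2) (Fin 2) ℂ) (c : E n) (v : Fin 2 → ℂ) :
    ev n (rho n M c) v = ev n c (Matrix.vecMul v M) := by
  rw [rho, LinearMap.sum_apply, map_sum, Finset.sum_apply, ev_apply]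
  refine Finset.sum_congr rfl fun j _ => ?_
  rw [LinearMap.smulRight_apply, map_smul, Pi.smul_apply, ev_monoSubst]
  simp [mul_assoc]

theorem rho_mul (n : ℕ) (M M' : Matrix (Fin 2) (Fin 2) ℂ) (c : E n) :
    rho n M (rho n M' c) = rho n (M * M') c := by
  apply ev_injective
  funext v
  rw [ev_rho, ev_rho, ev_rho, Matrix.vecMul_vecMul]

theorem rho_one (n : ℕ) (c : E n) : rho n 1 c = c := by
  apply ev_injective
  funext v
  rw [ev_rho, Matrix.vecMul_one]

/-- coefficient vector of the form `(x z + y)^n` -/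
noncomputable def beta (n : ℕ) (z : ℂ) : E n := fun j => (n.choose (j : ℕ) : ℂ) * z ^ (j : ℕ)

theorem ev_beta (n : ℕ) (z : ℂ) (v : Fin 2 → ℂ) : ev n (beta n z) v = (v 0 * z + v 1) ^ n := by
  rw [ev_apply, add_pow, Finset.sum_range]
  refine Finset.sum_congr rfl fun j _ => ?_
  rw [beta, mul_pow]
  ring

theorem ev_smul_vec (n : ℕ) (c : E n) (a : ℂ) (v : Fin 2 → ℂ) :
    ev n c (a • v) = a ^ n * ev n c v := by
  rw [ev_apply, ev_apply, Finset.mul_sum]
  refine Finset.sum_congr rfl fun j _ => ?_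
  have hj : (j : ℕ) ≤ n := Nat.lt_succ_iff.mp j.2
  simp only [Pi.smul_apply, smul_eq_mul, mul_pow]
  have : a ^ n = a ^ (j : ℕ) * a ^ (n - (j : ℕ)) := by
    rw [← pow_add, Nat.add_sub_cancel' hj]
  rw [this]
  ring

end Fermat.Agent.S22
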