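import Mathlib
import Fermat.Agent.S22_Forms

set_option autoImplicit false

open UpperHalfPlane
open scoped MatrixGroups ModularForm Manifold

namespace Fermat.Agent.S22

/-- complexified adjugate of a real matrix -/
noncomputable def adjC (g : GL (Fin 2) ℝ) : Matrix (Fin 2) (Fin 2) ℂ :=
  Complex.ofRealHom.mapMatrix ((g : Matrix (Fin 2) (Fin 2) ℝ).adjugate)

theorem adjC_mul (g h : GL (Fin 2) ℝ) : adjC (g * h) = adjC h * adjC g := by
  rw [adjC, adjC, adjC, Units.val_mul, Matrix.adjugate_mul_distrib, map_mul]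

theorem adjC_one : adjC 1 = 1 := by
  simp [adjC]

theorem adjC_apply (g : GL (Fin 2) ℝ) :
    adjC g = !![((g 1 1 : ℝ) : ℂ), -((g 0 1 : ℝ) : ℂ); -((g 1 0 : ℝ) : ℂ), ((g 0 0 : ℝ) : ℂ)] := by
  rw [adjC, Matrix.adjugate_fin_two]
  ext i j
  fin_cases i <;> fin_cases j <;> simp

/-- the action of `GL₂(ℝ)` on families of forms -/
noncomputable def act (n : ℕ) (g : GL (Fin 2) ℝ) (U : ℍ → E n) : ℍ → E n :=
  fun z => rho n (adjC g) (U (g • z))

theorem act_apply (n : ℕ) (g : GL (Fin 2) ℝ) (U : ℍ → E n) (z : ℍ) :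
    act n g U z = rho n (adjC g) (U (g • z)) := rfl

theorem act_mul (n : ℕ) (g h : GL (Fin 2) ℝ) (U : ℍ → E n) :
    act n (g * h) U = act n h (act n g U) := by
  funext z
  rw [act_apply, act_apply, act_apply, rho_mul, adjC_mul, mul_smul]

theorem act_one (n : ℕ) (U : ℍ → E n) : act n 1 U = U := by
  funext z
  rw [act_apply, adjC_one, one_smul]
  exact rho_one n _

theorem act_add (n : ℕ) (g : GL (Fin 2) ℝ) (U V : ℍ → E n) :
    act n g (U + V) = act n g U + act n g V := by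
  funext z
  simp [act_apply]

theorem act_smul (n : ℕ) (g : GL (Fin 2) ℝ) (a : ℂ) (U : ℍ → E n) :
    act n g (a • U) = a • act n g U := by
  funext z
  simp [act_apply]

theorem act_sub (n : ℕ) (g : GL (Fin 2) ℝ) (U V : ℍ → E n) :
    act n g (U - V) = act n g U - act n g V := by
  funext z
  simp [act_apply]

theorem act_const (n : ℕ) (g : GL (Fin 2) ℝ) (c : E n) :
    act n g (fun _ => c) = fun _ => rho n (adjC g) c := rfl

/-- `U` is a primitive of `f` (with values in forms of degree `n`) -/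
def IsPrim (n : ℕ) (f : ℍ → ℂ) (U : ℍ → E n) : Prop :=
  ∀ z : ℍ, HasDerivAt (U ∘ ofComplex) (f z • beta n (z : ℂ)) (z : ℂ)

theorem IsPrim.add {n : ℕ} {f g : ℍ → ℂ} {U V : ℍ → E n} (hU : IsPrim n f U) (hV : IsPrim n g V) :
    IsPrim n (f + g) (U + V) := by
  intro z
  have := (hU z).add (hV z)
  rw [Pi.add_apply, add_smul]
  exact this

theorem IsPrim.zero (n : ℕ) : IsPrim n 0 (0 : ℍ → E n) := by
  intro z
  rw [Pi.zero_apply, zero_smul]
  exact hasDerivAt_const _ _

theorem IsPrim.neg {n : ℕ} {f : ℍ → ℂ} {U : ℍ → E n} (hU : IsPrim n f U) :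
    IsPrim n (-f) (-U) := by
  intro z
  have h := (hU z).neg
  have e : (-f) z • beta n (z : ℂ) = -(f z • beta n (z : ℂ)) := neg_smul (f z) (beta n (z : ℂ))
  rw [e]
  exact h

theorem IsPrim.sub {n : ℕ} {f g : ℍ → ℂ} {U V : ℍ → E n} (hU : IsPrim n f U) (hV : IsPrim n g V) :
    IsPrim n (f - g) (U - V) := by
  rw [sub_eq_add_neg, sub_eq_add_neg]
  exact hU.add hV.neg

theorem IsPrim.smul {n : ℕ} {f : ℍ → ℂ} {U : ℍ → E n} (a : ℂ) (hU : IsPrim n f U) :
    IsPrim n (a • f) (a • U) := by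
  intro z
  have := (hU z).const_smul a
  rw [Pi.smul_apply, smul_eq_mul, mul_smul]
  exact this

theorem IsPrim.sum {n : ℕ} {ι : Type*} (s : Finset ι) {f : ι → ℍ → ℂ} {U : ι → ℍ → E n}
    (h : ∀ i ∈ s, IsPrim n (f i) (U i)) : IsPrim n (∑ i ∈ s, f i) (∑ i ∈ s, U i) := by
  classical
  induction s using Finset.induction_on with
  | empty => simpa using IsPrim.zero n
  | insert i s hi ih =>
    rw [Finset.sum_insert hi, Finset.sum_insert hi]
    exact (h i (Finset.mem_insert_self i s)).add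
      (ih fun j hj => h j (Finset.mem_insert_of_mem hj))

theorem rho_adjC_beta (n : ℕ) (g : GL (Fin 2) ℝ) (hg : 0 < g.det.val) (z : ℍ) :
    rho n (adjC g) (beta n ((g • z : ℍ) : ℂ)) =
      (((g.det.val : ℝ) : ℂ) * (denom g z)⁻¹) ^ n • beta n (z : ℂ) := by
  apply ev_injective
  funext v
  rw [ev_rho, ev_beta, map_smul, Pi.smul_apply, ev_beta, coe_smul_of_det_pos hg, smul_eq_mul,
    ← mul_pow]
  congr 1
  have hd : denom g z ≠ 0 := denom_ne_zero g z
  rw [adjC_apply]
  simp only [Matrix.vecMul, dotProduct, Fin.sum_univ_two, Matrix.of_apply, Matrix.cons_val',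
    Matrix.cons_val_zero, Matrix.cons_val_one, Matrix.cons_val_fin_one]
  rw [Matrix.GeneralLinearGroup.val_det_apply, Matrix.det_fin_two]
  field_simp
  simp only [num, denom]
  push_cast
  ring

theorem isPrim_act {n : ℕ} {f : ℍ → ℂ} {U : ℍ → E n} (hU : IsPrim n f U)
    (g : GL (Fin 2) ℝ) (hg : 0 < g.det.val) :
    IsPrim n (f ∣[(n : ℤ) + 2] g) (act n g U) := by
  intro z
  have hg' : 0 < (g : Matrix (Fin 2) (Fin 2) ℝ).det := by
    rwa [Matrix.GeneralLinearGroup.val_det_apply] at hg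
  have h1 := (hasStrictDerivAt_smul hg' z).hasDerivAt
  have h2 : HasDerivAt (U ∘ ofComplex) (f (g • z) • beta n ((g • z : ℍ) : ℂ))
      (((g • ofComplex (z : ℂ) : ℍ)) : ℂ) := by
    rw [ofComplex_apply]
    exact hU (g • z)
  have h3 := HasDerivAt.scomp (z : ℂ) h2 h1
  have h4 := ((rho n (adjC g)).toContinuousLinearMap).hasFDerivAt.comp_hasDerivAt (z : ℂ) h3
  have heq : (act n g U) ∘ ofComplex =
      (rho n (adjC g)).toContinuousLinearMap ∘ ((U ∘ ofComplex) ∘ fun w : ℂ => ((g • ofComplex w : ℍ) : ℂ)) := by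
    funext w
    simp only [Function.comp_apply, act_apply, ofComplex_apply, LinearMap.coe_toContinuousLinearMap']
  have h5 : HasDerivAt ((act n g U) ∘ ofComplex)
      (rho n (adjC g) ((((g : Matrix (Fin 2) (Fin 2) ℝ).det : ℂ) / denom g z ^ 2) •
        f (g • z) • beta n ((g • z : ℍ) : ℂ))) (z : ℂ) := by
    rw [heq]
    exact h4
  refine h5.congr_deriv ?_
  rw [map_smul, map_smul, rho_adjC_beta n g hg z, ModularForm.slash_apply, UpperHalfPlane.σ, if_pos hg]
  have hd : denom g z ≠ 0 := denom_ne_zero g z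
  rw [smul_smul, smul_smul]
  congr 1
  rw [ContinuousAlgEquiv.refl_apply, abs_of_pos hg, Matrix.GeneralLinearGroup.val_det_apply]
  have hdet : ((g : Matrix (Fin 2) (Fin 2) ℝ).det : ℂ) ≠ 0 := by
    exact_mod_cast hg'.ne'
  rw [show (n : ℤ) + 2 - 1 = (n : ℤ) + 1 by ring, zpow_add₀ hdet, zpow_natCast, zpow_one,
    zpow_neg, zpow_add₀ hd, zpow_natCast, mul_pow, inv_pow]
  field_simp

theorem IsPrim.exists_const {n : ℕ} {U : ℍ → E n} (hU : IsPrim n 0 U) : ∃ c : E n, ∀ z, U z = c := by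
  have hopen : IsOpen {z : ℂ | 0 < z.im} := isOpen_upperHalfPlaneSet
  have hconn : IsPreconnected {z : ℂ | 0 < z.im} := (convex_halfSpace_im_gt 0).isPreconnected
  have hd : ∀ z : ℂ, 0 < z.im → HasDerivAt (U ∘ ofComplex) 0 z := by
    intro z hz
    have := hU ⟨z, hz⟩
    simpa using this
  obtain ⟨a, ha⟩ := hopen.exists_is_const_of_fderiv_eq_zero (𝕜 := ℂ) (f := U ∘ ofComplex) hconn
    (fun z hz => (hd z hz).differentiableAt.differentiableWithinAt)
    (fun z hz => by
      have := (hd z hz).hasFDerivAt.fderiv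
      rw [this]
      ext
      simp)
  refine ⟨a, fun z => ?_⟩
  have := ha (z : ℂ) z.im_pos
  simpa using this

end Fermat.Agent.S22
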