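import Mathlib
import Fermat.Agent.S22_Families

set_option autoImplicit false

open UpperHalfPlane CongruenceSubgroup
open scoped MatrixGroups ModularForm Manifold

namespace Fermat.Agent.S22

/-- an element of `SL(2, ℤ)` as an element of `GL(2, ℝ)` -/
noncomputable abbrev glOf (γ : SL(2, ℤ)) : GL (Fin 2) ℝ := Matrix.SpecialLinearGroup.mapGL ℝ γ

theorem glOf_mul (γ δ : SL(2, ℤ)) : glOf (γ * δ) = glOf γ * glOf δ := map_mul _ _ _

theorem glOf_one : glOf 1 = 1 := map_one _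

theorem glOf_val (γ : SL(2, ℤ)) :
    ((glOf γ : GL (Fin 2) ℝ) : Matrix (Fin 2) (Fin 2) ℝ) =
      (γ : Matrix (Fin 2) (Fin 2) ℤ).map (Int.cast : ℤ → ℝ) := by
  ext i j
  simp [glOf, Matrix.SpecialLinearGroup.mapGL_coe_matrix]

/-- the action as a linear map -/
noncomputable def actL (n : ℕ) (g : GL (Fin 2) ℝ) : (ℍ → E n) →ₗ[ℂ] (ℍ → E n) where
  toFun := act n g
  map_add' := act_add n g
  map_smul' := act_smul n g

theorem actL_apply (n : ℕ) (g : GL (Fin 2) ℝ) (U : ℍ → E n) : actL n g U = act n g U := rfl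

/-- the submodule of families that are equivariant up to constants -/
def Wsub (n N : ℕ) : Submodule ℂ (ℍ → E n) where
  carrier := {U | ∀ γ ∈ Gamma0 N, ∃ c : E n, ∀ z, act n (glOf γ) U z - U z = c}
  add_mem' := by
    intro U V hU hV γ hγ
    obtain ⟨c, hc⟩ := hU γ hγ
    obtain ⟨d, hd⟩ := hV γ hγ
    refine ⟨c + d, fun z => ?_⟩
    rw [act_add, Pi.add_apply, Pi.add_apply, ← hc z, ← hd z]
    abel
  zero_mem' := by
    intro γ _
    refine ⟨0, fun z => ?_⟩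
    simp [act_apply]
  smul_mem' := by
    intro a U hU γ hγ
    obtain ⟨c, hc⟩ := hU γ hγ
    refine ⟨a • c, fun z => ?_⟩
    rw [act_smul, Pi.smul_apply, Pi.smul_apply, ← hc z, smul_sub]

theorem mem_Wsub {n N : ℕ} {U : ℍ → E n} :
    U ∈ Wsub n N ↔ ∀ γ ∈ Gamma0 N, ∃ c : E n, ∀ z, act n (glOf γ) U z - U z = c := Iff.rfl

/-- the cocycle of a family -/
noncomputable def cocyc (n : ℕ) (γ : SL(2, ℤ)) : (ℍ → E n) →ₗ[ℂ] E n where
  toFun U := act n (glOf γ) U I - U I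
  map_add' U V := by
    rw [act_add, Pi.add_apply, Pi.add_apply]
    abel
  map_smul' a U := by
    rw [act_smul, Pi.smul_apply, Pi.smul_apply, RingHom.id_apply, smul_sub]

theorem cocyc_apply (n : ℕ) (γ : SL(2, ℤ)) (U : ℍ → E n) :
    cocyc n γ U = act n (glOf γ) U I - U I := rfl

theorem act_eq_add_cocyc {n N : ℕ} {U : ℍ → E n} (hU : U ∈ Wsub n N) {γ : SL(2, ℤ)}
    (hγ : γ ∈ Gamma0 N) : act n (glOf γ) U = U + fun _ => cocyc n γ U := by
  obtain ⟨c, hc⟩ := hU γ hγ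
  funext z
  rw [Pi.add_apply, cocyc_apply, hc I, ← hc z]
  abel

theorem cocyc_one (n : ℕ) (U : ℍ → E n) : cocyc n 1 U = 0 := by
  rw [cocyc_apply, glOf_one, act_one, sub_self]

theorem cocyc_mul {n N : ℕ} {U : ℍ → E n} (hU : U ∈ Wsub n N) {γ δ : SL(2, ℤ)}
    (hγ : γ ∈ Gamma0 N) (hδ : δ ∈ Gamma0 N) :
    cocyc n (γ * δ) U = rho n (adjC (glOf δ)) (cocyc n γ U) + cocyc n δ U := by
  rw [cocyc_apply (γ := γ * δ), glOf_mul, act_mul, act_eq_add_cocyc hU hγ, act_add, act_const,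
    act_eq_add_cocyc hU hδ]
  simp only [Pi.add_apply]
  abel

theorem icast_vecMul_adj (w : Fin 2 → ℤ) (a : Matrix (Fin 2) (Fin 2) ℤ) (A : GL (Fin 2) ℝ)
    (hA : (A : Matrix (Fin 2) (Fin 2) ℝ) = a.map (Int.cast : ℤ → ℝ)) :
    Matrix.vecMul (icast w) (adjC A) = icast (Matrix.vecMul w a.adjugate) := by
  have h : ∀ i j, (A i j : ℝ) = (a i j : ℝ) := fun i j => by
    have := congrFun (congrFun hA i) j
    simpa using this
  rw [adjC_apply, Matrix.adjugate_fin_two]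
  funext i
  fin_cases i <;>
    simp [Matrix.vecMul, dotProduct, Fin.sum_univ_two, icast, h]

/-- the integral evaluation functionals -/
noncomputable def eps (n N : ℕ) (γ : SL(2, ℤ)) (w : Fin 2 → ℤ) : Wsub n N →ₗ[ℂ] ℂ :=
  (LinearMap.proj (icast w) : ((Fin 2 → ℂ) → ℂ) →ₗ[ℂ] ℂ) ∘ₗ ev n ∘ₗ cocyc n γ ∘ₗ (Wsub n N).subtype

theorem eps_apply (n N : ℕ) (γ : SL(2, ℤ)) (w : Fin 2 → ℤ) (U : Wsub n N) :
    eps n N γ w U = ev n (cocyc n γ (U : ℍ → E n)) (icast w) := rfl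

theorem eps_one (n N : ℕ) (w : Fin 2 → ℤ) : eps n N 1 w = 0 := by
  ext U
  rw [eps_apply, cocyc_one]
  simp

theorem eps_mul (n N : ℕ) {γ δ : SL(2, ℤ)} (hγ : γ ∈ Gamma0 N) (hδ : δ ∈ Gamma0 N)
    (w : Fin 2 → ℤ) :
    eps n N (γ * δ) w =
      eps n N γ (Matrix.vecMul w (δ : Matrix (Fin 2) (Fin 2) ℤ).adjugate) + eps n N δ w := by
  ext U
  rw [LinearMap.add_apply, eps_apply, eps_apply, eps_apply, cocyc_mul U.2 hγ hδ, map_add,
    Pi.add_apply, ev_rho, icast_vecMul_adj w _ (glOf δ) (glOf_val δ)]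

/-- the `ℤ`-module spanned by the evaluation functionals -/
noncomputable def Mfun (n N : ℕ) : Submodule ℤ (Wsub n N →ₗ[ℂ] ℂ) :=
  Submodule.span ℤ {ε | ∃ γ ∈ Gamma0 N, ∃ w : Fin 2 → ℤ, ε = eps n N γ w}

theorem eps_mem_Mfun (n N : ℕ) {γ : SL(2, ℤ)} (hγ : γ ∈ Gamma0 N) (w : Fin 2 → ℤ) :
    eps n N γ w ∈ Mfun n N :=
  Submodule.subset_span ⟨γ, hγ, w, rfl⟩

/-- coefficient functionals of the cocycle -/
noncomputable def coefF (n N : ℕ) (γ : SL(2, ℤ)) (j : Fin (n + 1)) : Wsub n N →ₗ[ℂ] ℂ :=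
  (LinearMap.proj j : E n →ₗ[ℂ] ℂ) ∘ₗ cocyc n γ ∘ₗ (Wsub n N).subtype

theorem eps_eq_sum_coefF (n N : ℕ) (γ : SL(2, ℤ)) (w : Fin 2 → ℤ) :
    eps n N γ w = ∑ j : Fin (n + 1), (w 0 ^ (j : ℕ) * w 1 ^ (n - (j : ℕ))) • coefF n N γ j := by
  ext U
  rw [eps_apply, ev_apply, LinearMap.sum_apply]
  refine Finset.sum_congr rfl fun j _ => ?_
  rw [LinearMap.smul_apply, zsmul_eq_mul]
  simp only [coefF, icast, LinearMap.coe_comp, Function.comp_apply, LinearMap.proj_apply,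
    Submodule.subtype_apply]
  push_cast
  ring

theorem Mfun_fg (n N : ℕ) (hfg : Group.FG (Gamma0 N)) : (Mfun n N).FG := by
  classical
  obtain ⟨S, hS, hSfin⟩ := Group.fg_iff.mp hfg
  set F : Submodule ℤ (Wsub n N →ₗ[ℂ] ℂ) :=
    Submodule.span ℤ ((fun p : Gamma0 N × Fin (n + 1) => coefF n N (p.1 : SL(2, ℤ)) p.2) ''
      (S ×ˢ (Set.univ : Set (Fin (n + 1))))) with hF
  have hFfg : F.FG := Submodule.fg_span ((hSfin.prod Set.finite_univ).image _)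
  have key : ∀ γ : Gamma0 N, ∀ w : Fin 2 → ℤ, eps n N (γ : SL(2, ℤ)) w ∈ F := by
    intro γ
    have hγ : γ ∈ Subgroup.closure S := by rw [hS]; trivial
    induction hγ using Subgroup.closure_induction with
    | mem x hx =>
      intro w
      rw [eps_eq_sum_coefF]
      refine Submodule.sum_mem _ fun j _ => Submodule.smul_mem _ _ (Submodule.subset_span ?_)
      exact ⟨(x, j), ⟨hx, Set.mem_univ _⟩, rfl⟩
    | one =>
      intro w
      rw [OneMemClass.coe_one, eps_one]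
      exact Submodule.zero_mem _
    | mul x y _ _ ihx ihy =>
      intro w
      rw [Subgroup.coe_mul, eps_mul n N x.2 y.2]
      exact Submodule.add_mem _ (ihx _) (ihy _)
    | inv x _ ihx =>
      intro w
      have h := eps_mul n N x.2 (x⁻¹).2 w
      rw [← Subgroup.coe_mul, mul_inv_cancel, OneMemClass.coe_one, eps_one] at h
      have h2 : eps n N ((x⁻¹ : Gamma0 N) : SL(2, ℤ)) w =
          -eps n N (x : SL(2, ℤ))
            (Matrix.vecMul w (((x⁻¹ : Gamma0 N) : SL(2, ℤ)) : Matrix (Fin 2) (Fin 2) ℤ).adjugate) := by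
        exact eq_neg_of_add_eq_zero_right h.symm
      rw [h2]
      exact Submodule.neg_mem _ (ihx _)
  refine Submodule.FG.of_le hFfg ?_
  rw [Mfun, Submodule.span_le]
  rintro _ ⟨γ, hγ, w, rfl⟩
  exact key ⟨γ, hγ⟩ w

theorem act_sum (n : ℕ) (g : GL (Fin 2) ℝ) {ι : Type} (s : Finset ι) (V : ι → ℍ → E n) :
    act n g (∑ i ∈ s, V i) = ∑ i ∈ s, act n g (V i) := by
  have := map_sum (actL n g) V s
  simpa only [actL_apply] using this

theorem act_sum_act (n N : ℕ) {ι : Type} [Fintype ι] (A : ι → GL (Fin 2) ℝ) {γ : SL(2, ℤ)}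
    (π : Equiv.Perm ι) (κ : ι → SL(2, ℤ)) (hκ : ∀ i, κ i ∈ Gamma0 N)
    (h : ∀ i, A i * glOf γ = glOf (κ i) * A (π i)) {U : ℍ → E n} (hU : U ∈ Wsub n N) :
    act n (glOf γ) (∑ i, act n (A i) U) =
      (∑ i, act n (A i) U) + fun _ => ∑ i, rho n (adjC (A (π i))) (cocyc n (κ i) U) := by
  rw [act_sum]
  have h1 : ∀ i, act n (glOf γ) (act n (A i) U) =
      act n (A (π i)) U + fun _ => rho n (adjC (A (π i))) (cocyc n (κ i) U) := by
    intro i
    rw [← act_mul, h i, act_mul, act_eq_add_cocyc hU (hκ i), act_add, act_const]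
  simp only [h1]
  rw [Finset.sum_add_distrib, Equiv.sum_comp π (fun i => act n (A i) U)]
  congr 1
  funext z
  simp [Finset.sum_apply]

theorem sum_act_mem_Wsub (n N : ℕ) {ι : Type} [Fintype ι] (A : ι → GL (Fin 2) ℝ)
    (hcos : ∀ γ ∈ Gamma0 N, ∃ π : Equiv.Perm ι, ∀ i, ∃ κ ∈ Gamma0 N,
      A i * glOf γ = glOf κ * A (π i))
    {U : ℍ → E n} (hU : U ∈ Wsub n N) : ∑ i, act n (A i) U ∈ Wsub n N := by
  intro γ hγ
  obtain ⟨π, hπ⟩ := hcos γ hγ
  choose κ hκ hκ' using hπ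
  refine ⟨∑ i, rho n (adjC (A (π i))) (cocyc n (κ i) U), fun z => ?_⟩
  rw [act_sum_act n N A π κ hκ hκ' hU]
  simp

/-- the lift of a Hecke operator to equivariant families -/
noncomputable def heckeLift (n N : ℕ) {ι : Type} [Fintype ι] (A : ι → GL (Fin 2) ℝ)
    (hcos : ∀ γ ∈ Gamma0 N, ∃ π : Equiv.Perm ι, ∀ i, ∃ κ ∈ Gamma0 N,
      A i * glOf γ = glOf κ * A (π i)) : Wsub n N →ₗ[ℂ] Wsub n N :=
  LinearMap.codRestrict (Wsub n N) ((∑ i, actL n (A i)) ∘ₗ (Wsub n N).subtype) (fun U => by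
    have := sum_act_mem_Wsub n N A hcos U.2
    simpa [LinearMap.sum_apply, actL_apply] using this)

theorem heckeLift_coe (n N : ℕ) {ι : Type} [Fintype ι] (A : ι → GL (Fin 2) ℝ)
    (hcos : ∀ γ ∈ Gamma0 N, ∃ π : Equiv.Perm ι, ∀ i, ∃ κ ∈ Gamma0 N,
      A i * glOf γ = glOf κ * A (π i)) (U : Wsub n N) :
    (heckeLift n N A hcos U : ℍ → E n) = ∑ i, act n (A i) (U : ℍ → E n) := by
  simp [heckeLift, LinearMap.sum_apply, actL_apply]

theorem eps_comp_heckeLift (n N : ℕ) {ι : Type} [Fintype ι] (A : ι → GL (Fin 2) ℝ)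
    (a : ι → Matrix (Fin 2) (Fin 2) ℤ)
    (hA : ∀ i, ((A i : GL (Fin 2) ℝ) : Matrix (Fin 2) (Fin 2) ℝ) = (a i).map (Int.cast : ℤ → ℝ))
    (hcos : ∀ γ ∈ Gamma0 N, ∃ π : Equiv.Perm ι, ∀ i, ∃ κ ∈ Gamma0 N,
      A i * glOf γ = glOf κ * A (π i))
    {γ : SL(2, ℤ)} (hγ : γ ∈ Gamma0 N) (w : Fin 2 → ℤ) :
    eps n N γ w ∘ₗ heckeLift n N A hcos ∈ Mfun n N := by
  obtain ⟨π, hπ⟩ := hcos γ hγ
  choose κ hκ hκ' using hπ
  have key : eps n N γ w ∘ₗ heckeLift n N A hcos =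
      ∑ i, eps n N (κ i) (Matrix.vecMul w (a (π i)).adjugate) := by
    ext U
    rw [LinearMap.comp_apply, eps_apply, LinearMap.sum_apply, cocyc_apply, heckeLift_coe,
      act_sum_act n N A π κ hκ hκ' U.2]
    simp only [Pi.add_apply, add_sub_cancel_left, map_sum, Finset.sum_apply, eps_apply, ev_rho]
    refine Finset.sum_congr rfl fun i _ => ?_
    rw [icast_vecMul_adj w (a (π i)) (A (π i)) (hA (π i))]
  rw [key]
  exact Submodule.sum_mem _ fun i _ => eps_mem_Mfun n N (hκ i) _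

theorem comp_heckeLift_mem_Mfun (n N : ℕ) {ι : Type} [Fintype ι] (A : ι → GL (Fin 2) ℝ)
    (a : ι → Matrix (Fin 2) (Fin 2) ℤ)
    (hA : ∀ i, ((A i : GL (Fin 2) ℝ) : Matrix (Fin 2) (Fin 2) ℝ) = (a i).map (Int.cast : ℤ → ℝ))
    (hcos : ∀ γ ∈ Gamma0 N, ∃ π : Equiv.Perm ι, ∀ i, ∃ κ ∈ Gamma0 N,
      A i * glOf γ = glOf κ * A (π i))
    {ε : Wsub n N →ₗ[ℂ] ℂ} (hε : ε ∈ Mfun n N) :
    ε ∘ₗ heckeLift n N A hcos ∈ Mfun n N := by
  induction hε using Submodule.span_induction with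
  | mem x hx =>
    obtain ⟨γ, hγ, w, rfl⟩ := hx
    exact eps_comp_heckeLift n N A a hA hcos hγ w
  | zero =>
    rw [LinearMap.zero_comp]
    exact Submodule.zero_mem _
  | add x y _ _ hx hy =>
    rw [LinearMap.add_comp]
    exact Submodule.add_mem _ hx hy
  | smul m x _ hx =>
    have : (m • x) ∘ₗ heckeLift n N A hcos = m • (x ∘ₗ heckeLift n N A hcos) := by
      ext U
      simp
    rw [this]
    exact Submodule.smul_mem _ _ hx

end Fermat.Agent.S22
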