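import Mathlib

set_option autoImplicit false

open UpperHalfPlane Complex Filter Topology Function
open scoped MatrixGroups ModularForm Manifold

namespace Fermat.Agent.S22.Growth

theorem norm_invQParam_le {h : ℝ} (hh : 0 < h) (q : ℂ) :
    ‖Periodic.invQParam h q‖ ≤ h / 2 + |(Periodic.invQParam h q).im| := by
  have hre : (Periodic.invQParam h q).re = h / (2 * Real.pi) * Complex.arg q := by
    simp only [Periodic.invQParam, ← div_div, div_I, neg_mul, neg_re, mul_re, mul_im, div_ofReal_re,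
      div_ofNat_re, ofReal_re, Complex.I_re, mul_zero, div_ofReal_im, div_ofNat_im, ofReal_im,
      zero_div, Complex.I_im, mul_one, sub_self, zero_mul, add_zero, log_re, log_im, zero_add,
      sub_zero, neg_zero, zero_sub, neg_neg]
  have h1 : |(Periodic.invQParam h q).re| ≤ h / 2 := by
    rw [hre, abs_mul, abs_of_pos (by positivity : 0 < h / (2 * Real.pi))]
    calc h / (2 * Real.pi) * |Complex.arg q| ≤ h / (2 * Real.pi) * Real.pi :=
          mul_le_mul_of_nonneg_left (Complex.abs_arg_le_pi q) (by positivity)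
      _ = h / 2 := by field_simp
  calc ‖Periodic.invQParam h q‖ ≤ |(Periodic.invQParam h q).re| + |(Periodic.invQParam h q).im| :=
        Complex.norm_le_abs_re_add_abs_im _
    _ ≤ h / 2 + |(Periodic.invQParam h q).im| := by linarith

theorem tendsto_poly_mul_exp (C a b : ℝ) (hb : 0 < b) (m : ℕ) :
    Tendsto (fun y : ℝ => C * (a + y) ^ m * Real.exp (-(b * y))) atTop (𝓝 0) := by
  have h1 : Tendsto (fun y : ℝ => b * (a + y)) atTop atTop :=
    Tendsto.const_mul_atTop hb (tendsto_atTop_add_const_left _ a tendsto_id)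
  have h2 := (Real.tendsto_pow_mul_exp_neg_atTop_nhds_zero m).comp h1
  have h3 := h2.const_mul (C * (b ^ m)⁻¹ * Real.exp (b * a))
  rw [mul_zero] at h3
  refine h3.congr (fun y => ?_)
  simp only [Function.comp_apply]
  have : Real.exp (-(b * y)) = Real.exp (b * a) * Real.exp (-(b * (a + y))) := by
    rw [← Real.exp_add]; congr 1; ring
  rw [this, mul_pow]
  have hb' : b ≠ 0 := hb.ne'
  field_simp

theorem isBoundedAtImInfty_of_periodic_of_polyGrowth (G : ℍ → ℂ) (hG : MDiff G)
    (h : ℝ) (hh : 0 < h) (hper : ∀ z : ℍ, G (h +ᵥ z) = G z)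
    (C : ℝ) (m : ℕ) (A : ℝ) (hgrowth : ∀ z : ℍ, A ≤ z.im → ‖G z‖ ≤ C * (1 + ‖(z : ℂ)‖) ^ m) :
    IsBoundedAtImInfty G := by
  set g : ℂ → ℂ := G ∘ ofComplex with hg
  have hgper : Function.Periodic g h := by
    intro w
    by_cases hw : 0 < w.im
    · have hw' : 0 < (w + h).im := by simpa using hw
      simp only [hg, Function.comp_apply, ofComplex_apply_of_im_pos hw',
        ofComplex_apply_of_im_pos hw]
      rw [← hper ⟨w, hw⟩]
      congr 1
      ext
      simp [add_comm]
    · have hw0 : w.im ≤ 0 := not_lt.mp hw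
      have hw' : (w + h).im ≤ 0 := by simpa using hw0
      simp [hg, ofComplex_apply_of_im_nonpos hw', ofComplex_apply_of_im_nonpos hw0]
  have hgdiff : ∀ z : ℂ, 0 < z.im → DifferentiableAt ℂ g z := fun z hz =>
    UpperHalfPlane.mdifferentiableAt_iff.mp (hG ⟨z, hz⟩)
  have hgrow : ∀ w : ℂ, 0 < w.im → A ≤ w.im → ‖g w‖ ≤ |C| * (1 + ‖w‖) ^ m := by
    intro w hw hA
    have := hgrowth ⟨w, hw⟩ hA
    simp only [hg, Function.comp_apply, ofComplex_apply_of_im_pos hw]
    refine this.trans ?_
    exact mul_le_mul_of_nonneg_right (le_abs_self C) (by positivity)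
  set c := Periodic.cuspFunction h g with hc
  -- differentiable on the punctured disc
  have hcdiff : DifferentiableOn ℂ c (Metric.ball 0 1 \ {0}) := by
    intro q hq
    have hq1 : ‖q‖ < 1 := by simpa using hq.1
    have hq0 : q ≠ 0 := by simpa using hq.2
    have := Periodic.differentiableAt_cuspFunction hh.ne' hgper
      (hgdiff _ (Periodic.im_invQParam_pos_of_norm_lt_one hh hq1 hq0))
    rw [Periodic.qParam_right_inv hh.ne' hq0] at this
    exact this.differentiableWithinAt
  -- the key estimate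
  have hy : Tendsto (fun q => (Periodic.invQParam h q).im) (𝓝[≠] 0) atTop :=
    tendsto_comap_iff.mp (Periodic.invQParam_tendsto hh)
  have hbound : ∀ᶠ q in 𝓝[≠] (0 : ℂ), ‖c q * q‖ ≤
      |C| * ((1 + h / 2) + (Periodic.invQParam h q).im) ^ m *
        Real.exp (-((2 * Real.pi / h) * (Periodic.invQParam h q).im)) := by
    filter_upwards [hy.eventually (eventually_ge_atTop (max A 1)), self_mem_nhdsWithin] with q hq hq0
    have hq0' : q ≠ 0 := hq0
    have hyA : A ≤ (Periodic.invQParam h q).im := (le_max_left _ _).trans hq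
    have hypos : 0 < (Periodic.invQParam h q).im := lt_of_lt_of_le one_pos ((le_max_right _ _).trans hq)
    rw [hc, Periodic.cuspFunction_eq_of_nonzero _ _ hq0', norm_mul]
    have hqn : ‖q‖ = Real.exp (-((2 * Real.pi / h) * (Periodic.invQParam h q).im)) := by
      conv_lhs => rw [← Periodic.qParam_right_inv hh.ne' hq0']
      rw [Periodic.norm_qParam]
      congr 1
      field_simp
    rw [← hqn]
    refine mul_le_mul_of_nonneg_right ?_ (norm_nonneg q)
    refine (hgrow _ hypos hyA).trans ?_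
    refine mul_le_mul_of_nonneg_left ?_ (abs_nonneg C)
    refine pow_le_pow_left₀ (by positivity) ?_ m
    have := norm_invQParam_le hh q
    rw [abs_of_pos hypos] at this
    linarith
  have hlim : Tendsto (fun q => c q * q) (𝓝[≠] (0 : ℂ)) (𝓝 0) := by
    have hb : 0 < 2 * Real.pi / h := by positivity
    have := (tendsto_poly_mul_exp |C| (1 + h / 2) (2 * Real.pi / h) hb m).comp hy
    exact squeeze_zero_norm' hbound this
  have hlim2 : Tendsto (fun q => (c q - c 0) * q) (𝓝[≠] (0 : ℂ)) (𝓝 0) := by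
    have h1 : Tendsto (fun q : ℂ => c 0 * q) (𝓝[≠] (0 : ℂ)) (𝓝 0) := by
      have : Tendsto (fun q : ℂ => c 0 * q) (𝓝 (0 : ℂ)) (𝓝 (c 0 * 0)) :=
        (continuous_const.mul continuous_id).tendsto 0
      rw [mul_zero] at this
      exact this.mono_left nhdsWithin_le_nhds
    have := hlim.sub h1
    rw [sub_zero] at this
    refine this.congr (fun q => ?_)
    ring
  have ho : (fun q => c q - c 0) =o[𝓝[≠] (0 : ℂ)] fun q => (q - 0)⁻¹ := by
    rw [Asymptotics.isLittleO_iff_tendsto']
    · refine hlim2.congr (fun q => ?_)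
      rw [sub_zero, div_inv_eq_mul]
    · filter_upwards [self_mem_nhdsWithin] with q hq hq'
      have hq0 : q ≠ 0 := hq
      rw [sub_zero] at hq'
      exact absurd (inv_eq_zero.mp hq') hq0
  have hdiff := differentiableOn_update_limUnder_of_isLittleO
    (Metric.ball_mem_nhds (0 : ℂ) one_pos) hcdiff ho
  have hcont : ContinuousAt (Function.update c 0 (limUnder (𝓝[≠] (0 : ℂ)) c)) 0 :=
    (hdiff.differentiableAt (Metric.ball_mem_nhds (0 : ℂ) one_pos)).continuousAt
  have hev : ∀ᶠ q in 𝓝 (0 : ℂ), ‖Function.update c 0 (limUnder (𝓝[≠] (0 : ℂ)) c) q‖ <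
      ‖Function.update c 0 (limUnder (𝓝[≠] (0 : ℂ)) c) 0‖ + 1 :=
    hcont.norm.eventually_lt_const (lt_add_one _)
  set M := ‖Function.update c 0 (limUnder (𝓝[≠] (0 : ℂ)) c) 0‖ + 1 with hM
  have hev2 : ∀ᶠ q in 𝓝[≠] (0 : ℂ), ‖c q‖ ≤ M := by
    filter_upwards [nhdsWithin_le_nhds hev, self_mem_nhdsWithin] with q hq hq0
    have hq0' : q ≠ 0 := hq0
    rw [Function.update_of_ne hq0'] at hq
    exact hq.le
  have hev3 : ∀ᶠ z in comap Complex.im atTop, ‖g z‖ ≤ M := by
    have := (Periodic.qParam_tendsto hh).eventually hev2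
    filter_upwards [this] with z hz
    rwa [hc, Periodic.eq_cuspFunction hh.ne' hgper] at hz
  rw [isBoundedAtImInfty_iff]
  obtain ⟨s, hs, hsub⟩ := Filter.eventually_comap.mp hev3 |>.exists_mem
  obtain ⟨A', hA'⟩ := Filter.mem_atTop_sets.mp hs
  refine ⟨M, A', fun z hz => ?_⟩
  have := hsub (z : ℂ).im (hA' _ hz) (z : ℂ) rfl
  simpa [hg, ofComplex_apply] using this

end Fermat.Agent.S22.Growth
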