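import Mathlib
import Fermat.Agent.S22_Cocycle
import Fermat.Agent.S22_Growth
import Fermat.Agent.S22_Bol

set_option autoImplicit false

open UpperHalfPlane CongruenceSubgroup
open scoped MatrixGroups ModularForm Manifold

namespace Fermat.Agent.S22

theorem glOf_det_pos (γ : SL(2, ℤ)) : 0 < (glOf γ).det.val := by
  have : (glOf γ).det.val = 1 := by
    rw [Matrix.GeneralLinearGroup.val_det_apply, glOf_val]
    have h := γ.det_coe
    have h2 := congrArg (Int.cast : ℤ → ℝ) h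
    rw [Int.cast_det] at h2
    simpa using h2
  rw [this]
  exact one_pos

/-- the scalar function attached to a family of forms -/
noncomputable def Gfun (n : ℕ) (U : ℍ → E n) : ℍ → ℂ := fun z => ev n (U z) ![1, -(z : ℂ)]

theorem Gfun_apply (n : ℕ) (U : ℍ → E n) (z : ℍ) : Gfun n U z = ev n (U z) ![1, -(z : ℂ)] := rfl

theorem vecMul_adjC_special (g : GL (Fin 2) ℝ) (hg : 0 < g.det.val) (z : ℍ) :
    Matrix.vecMul ![1, -(z : ℂ)] (adjC g) = denom g z • ![1, -((g • z : ℍ) : ℂ)] := by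
  have hd : denom g z ≠ 0 := denom_ne_zero g z
  rw [adjC_apply, coe_smul_of_det_pos hg]
  funext i
  fin_cases i
  · simp [Matrix.vecMul, dotProduct, Fin.sum_univ_two, denom]
    ring
  · simp [Matrix.vecMul, dotProduct, Fin.sum_univ_two, num]
    field_simp
    ring

theorem Gfun_slash (n : ℕ) (U : ℍ → E n) (γ : SL(2, ℤ)) :
    (Gfun n U) ∣[-(n : ℤ)] γ = Gfun n (act n (glOf γ) U) := by
  funext z
  rw [ModularForm.SL_slash_apply, Gfun_apply, Gfun_apply, act_apply, ev_rho,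
    vecMul_adjC_special (glOf γ) (glOf_det_pos γ) z, ev_smul_vec, neg_neg, zpow_natCast, mul_comm]
  rfl

theorem Gfun_mdiff {n : ℕ} {f : ℍ → ℂ} {U : ℍ → E n} (hU : IsPrim n f U) : MDiff (Gfun n U) := by
  rw [mdifferentiable_iff]
  intro z hz
  apply DifferentiableAt.differentiableWithinAt
  have hd : DifferentiableAt ℂ (U ∘ ofComplex) z := (hU ⟨z, hz⟩).differentiableAt
  have h1 : DifferentiableAt ℂ
      (fun w : ℂ => ∑ j : Fin (n + 1), (U ∘ ofComplex) w j * (-w) ^ (n - (j : ℕ))) z := by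
    apply DifferentiableAt.fun_sum
    intro j _
    exact (differentiableAt_pi.mp hd j).mul ((differentiableAt_id.neg).pow _)
  refine h1.congr_of_eventuallyEq ?_
  filter_upwards [isOpen_upperHalfPlaneSet.mem_nhds hz] with w hw
  simp [Gfun, ev_apply, ofComplex_apply_of_im_pos hw]

theorem norm_beta_le (n : ℕ) (w : ℂ) (R : ℝ) (hw : ‖w‖ ≤ R) :
    ‖beta n w‖ ≤ 2 ^ n * (1 + R) ^ n := by
  have hR : 0 ≤ R := (norm_nonneg w).trans hw
  rw [pi_norm_le_iff_of_nonneg (by positivity)]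
  intro j
  have hj : (j : ℕ) ≤ n := Nat.lt_succ_iff.mp j.2
  rw [beta, norm_mul, norm_pow, Complex.norm_natCast]
  have h1 : ((n.choose (j : ℕ) : ℕ) : ℝ) ≤ 2 ^ n := by
    exact_mod_cast Nat.choose_le_two_pow n j
  have h2 : ‖w‖ ^ (j : ℕ) ≤ (1 + R) ^ n := by
    calc ‖w‖ ^ (j : ℕ) ≤ (1 + R) ^ (j : ℕ) := by
          apply pow_le_pow_left₀ (norm_nonneg w)
          linarith
      _ ≤ (1 + R) ^ n := pow_le_pow_right₀ (by linarith) hj
  exact mul_le_mul h1 h2 (by positivity) (by positivity)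

theorem Gfun_growth {n : ℕ} {g : ℍ → ℂ} {U : ℍ → E n} (hU : IsPrim n g U)
    (hg : IsBoundedAtImInfty g) :
    ∃ (C : ℝ) (m : ℕ) (A : ℝ), ∀ z : ℍ, A ≤ z.im → ‖Gfun n U z‖ ≤ C * (1 + ‖(z : ℂ)‖) ^ m := by
  obtain ⟨B, A, hB⟩ := isBoundedAtImInfty_iff.mp hg
  set B' : ℝ := max B 0 with hB'
  set A' : ℝ := max A 1 with hA'
  have hA'1 : 1 ≤ A' := le_max_right _ _
  have hA'A : A ≤ A' := le_max_left _ _
  set z1 : ℂ := A' * Complex.I with hz1
  have hz1im : z1.im = A' := by simp [hz1]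
  have hz1norm : ‖z1‖ = A' := by
    rw [hz1, norm_mul, Complex.norm_I, mul_one, Complex.norm_real, Real.norm_of_nonneg (by linarith)]
  set K : ℝ := ‖(U ∘ ofComplex) z1‖ with hK
  set D : ℝ := B' * 2 ^ n * (1 + A') ^ (n + 1) with hD
  have hDnn : 0 ≤ D := by positivity
  refine ⟨(n + 1) * (K + D), 2 * n + 1, A', fun z hz => ?_⟩
  set x : ℝ := 1 + ‖(z : ℂ)‖ with hx
  have hx1 : 1 ≤ x := by simp [hx]
  set R : ℝ := A' + ‖(z : ℂ)‖ with hR
  have hRnn : 0 ≤ R := by positivity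
  -- the convex set
  set s : Set ℂ := {w : ℂ | A' ≤ w.im} ∩ Metric.closedBall 0 R with hs
  have hsconv : Convex ℝ s := (convex_halfSpace_im_ge A').inter (convex_closedBall 0 R)
  have hz1s : z1 ∈ s := by
    refine ⟨by simp [hz1im], ?_⟩
    rw [Metric.mem_closedBall, dist_zero_right, hz1norm]
    simp [hR]
  have hzs : (z : ℂ) ∈ s := by
    refine ⟨hz, ?_⟩
    rw [Metric.mem_closedBall, dist_zero_right]
    simp [hR]
    linarith
  have hderiv : ∀ w ∈ s, HasDerivWithinAt (U ∘ ofComplex) (g (ofComplex w) • beta n w) s w := by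
    intro w hw
    have hwpos : 0 < w.im := by
      have : A' ≤ w.im := hw.1
      linarith
    have := hU ⟨w, hwpos⟩
    rw [ofComplex_apply_of_im_pos hwpos]
    exact this.hasDerivWithinAt
  have hbound : ∀ w ∈ s, ‖g (ofComplex w) • beta n w‖ ≤ B' * (2 ^ n * (1 + R) ^ n) := by
    intro w hw
    have hwpos : 0 < w.im := by
      have : A' ≤ w.im := hw.1
      linarith
    have hwR : ‖w‖ ≤ R := by
      have := hw.2
      rwa [Metric.mem_closedBall, dist_zero_right] at this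
    rw [norm_smul]
    have h1 : ‖g (ofComplex w)‖ ≤ B' := by
      refine (hB _ ?_).trans (le_max_left _ _)
      rw [ofComplex_apply_of_im_pos hwpos]
      have : A' ≤ w.im := hw.1
      exact hA'A.trans this
    exact mul_le_mul h1 (norm_beta_le n w R hwR) (norm_nonneg _) (le_max_right _ _)
  have hmv := hsconv.norm_image_sub_le_of_norm_hasDerivWithin_le hderiv hbound hz1s hzs
  have hzz1 : ‖(z : ℂ) - z1‖ ≤ R := by
    calc ‖(z : ℂ) - z1‖ ≤ ‖(z : ℂ)‖ + ‖z1‖ := norm_sub_le _ _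
      _ = R := by rw [hz1norm, hR]; ring
  have h1R : 1 + R ≤ (1 + A') * x := by
    rw [hR, hx]
    nlinarith [norm_nonneg (z : ℂ)]
  have hUz : ‖U z‖ ≤ K + D * x ^ (n + 1) := by
    have e : (U ∘ ofComplex) (z : ℂ) = U z := by simp
    have h2 : ‖U z - (U ∘ ofComplex) z1‖ ≤ D * x ^ (n + 1) := by
      rw [← e]
      refine hmv.trans ?_
      calc B' * (2 ^ n * (1 + R) ^ n) * ‖(z : ℂ) - z1‖
          ≤ B' * (2 ^ n * (1 + R) ^ n) * (1 + R) := by
            apply mul_le_mul_of_nonneg_left (hzz1.trans (by linarith))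
            have : 0 ≤ B' := le_max_right _ _
            positivity
        _ = B' * 2 ^ n * (1 + R) ^ (n + 1) := by ring
        _ ≤ B' * 2 ^ n * ((1 + A') * x) ^ (n + 1) := by
            have : 0 ≤ B' := le_max_right _ _
            gcongr
        _ = D * x ^ (n + 1) := by rw [hD, mul_pow]; ring
    calc ‖U z‖ = ‖(U z - (U ∘ ofComplex) z1) + (U ∘ ofComplex) z1‖ := by rw [sub_add_cancel]
      _ ≤ ‖U z - (U ∘ ofComplex) z1‖ + ‖(U ∘ ofComplex) z1‖ := norm_add_le _ _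
      _ ≤ D * x ^ (n + 1) + K := by linarith
      _ = K + D * x ^ (n + 1) := by ring
  have hG : ‖Gfun n U z‖ ≤ (n + 1) * (‖U z‖ * x ^ n) := by
    rw [Gfun_apply, ev_apply]
    refine (norm_sum_le _ _).trans ?_
    have hterm : ∀ j : Fin (n + 1), ‖U z j * (![1, -(z : ℂ)] 0) ^ (j : ℕ) *
        (![1, -(z : ℂ)] 1) ^ (n - (j : ℕ))‖ ≤ ‖U z‖ * x ^ n := by
      intro j
      simp only [Matrix.cons_val_zero, Matrix.cons_val_one, Matrix.cons_val_fin_one, one_pow, mul_one,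
        norm_mul, norm_pow, norm_neg]
      have h1 : ‖U z j‖ ≤ ‖U z‖ := norm_le_pi_norm (U z) j
      have h2 : ‖(z : ℂ)‖ ^ (n - (j : ℕ)) ≤ x ^ n := by
        calc ‖(z : ℂ)‖ ^ (n - (j : ℕ)) ≤ x ^ (n - (j : ℕ)) := by
              apply pow_le_pow_left₀ (norm_nonneg _)
              simp [hx]
          _ ≤ x ^ n := pow_le_pow_right₀ hx1 (Nat.sub_le _ _)
      exact mul_le_mul h1 h2 (by positivity) (norm_nonneg _)
    calc ∑ j : Fin (n + 1), ‖U z j * (![1, -(z : ℂ)] 0) ^ (j : ℕ) *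
        (![1, -(z : ℂ)] 1) ^ (n - (j : ℕ))‖ ≤ ∑ _j : Fin (n + 1), ‖U z‖ * x ^ n :=
          Finset.sum_le_sum fun j _ => hterm j
      _ = (n + 1) * (‖U z‖ * x ^ n) := by
          rw [Finset.sum_const, Finset.card_univ, Fintype.card_fin, nsmul_eq_mul]
          push_cast
          ring
  have hKnn : 0 ≤ K := norm_nonneg _
  have hxn : (1 : ℝ) ≤ x ^ (n + 1) := one_le_pow₀ hx1
  calc ‖Gfun n U z‖ ≤ (n + 1) * (‖U z‖ * x ^ n) := hG
    _ ≤ (n + 1) * ((K + D * x ^ (n + 1)) * x ^ n) := by gcongr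
    _ ≤ (n + 1) * ((K * x ^ (n + 1) + D * x ^ (n + 1)) * x ^ n) := by
        have : K ≤ K * x ^ (n + 1) := le_mul_of_one_le_right hKnn hxn
        gcongr
    _ = (n + 1) * (K + D) * x ^ (2 * n + 1) := by ring

theorem conj_T_pow_mem_Gamma0 (N : ℕ) (δ : SL(2, ℤ)) :
    δ * ModularGroup.T ^ (N : ℤ) * δ⁻¹ ∈ Gamma0 N := by
  have hT : ModularGroup.T ^ (N : ℤ) ∈ Gamma N := by
    rw [Gamma_mem]
    have h := ModularGroup.coe_T_zpow (N : ℤ)
    have h00 : (ModularGroup.T ^ (N : ℤ)) 0 0 = 1 := by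
      have := congrFun (congrFun h 0) 0
      simpa using this
    have h01 : (ModularGroup.T ^ (N : ℤ)) 0 1 = (N : ℤ) := by
      have := congrFun (congrFun h 0) 1
      simpa using this
    have h10 : (ModularGroup.T ^ (N : ℤ)) 1 0 = 0 := by
      have := congrFun (congrFun h 1) 0
      simpa using this
    have h11 : (ModularGroup.T ^ (N : ℤ)) 1 1 = 1 := by
      have := congrFun (congrFun h 1) 1
      simpa using this
    rw [h00, h01, h10, h11]
    simp
  have hc : δ * ModularGroup.T ^ (N : ℤ) * δ⁻¹ ∈ Gamma N := (Gamma_normal N).conj_mem _ hT δ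
  rw [Gamma_mem] at hc
  rw [Gamma0_mem]
  exact hc.2.2.1

theorem T_pow_entries (N : ℕ) :
    (ModularGroup.T ^ (N : ℤ)) 1 0 = 0 ∧ (ModularGroup.T ^ (N : ℤ)) 1 1 = 1 := by
  have h := ModularGroup.coe_T_zpow (N : ℤ)
  constructor
  · have := congrFun (congrFun h 1) 0
    simpa using this
  · have := congrFun (congrFun h 1) 1
    simpa using this

theorem Gfun_periodic (n N : ℕ) {U : ℍ → E n}
    (hinv : ∀ γ ∈ Gamma0 N, act n (glOf γ) U = U) (δ : SL(2, ℤ)) (z : ℍ) :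
    Gfun n (act n (glOf δ) U) ((N : ℝ) +ᵥ z) = Gfun n (act n (glOf δ) U) z := by
  set V := act n (glOf δ) U with hV
  set τ : SL(2, ℤ) := ModularGroup.T ^ (N : ℤ) with hτ
  have h1 : act n (glOf τ) V = V := by
    rw [hV, ← act_mul, ← glOf_mul,
      show δ * τ = (δ * τ * δ⁻¹) * δ by group, glOf_mul, act_mul,
      hinv _ (conj_T_pow_mem_Gamma0 N δ)]
  have h2 := congrFun (Gfun_slash n V τ) z
  rw [h1, ModularForm.SL_slash_apply] at h2
  have hden : denom (τ : GL (Fin 2) ℝ) z = 1 := by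
    have h10 : τ 1 0 = 0 := (T_pow_entries N).1
    have h11 : τ 1 1 = 1 := (T_pow_entries N).2
    simp [denom, h10, h11]
  rw [hden, one_zpow, mul_one, hτ, modular_T_zpow_smul] at h2
  simpa using h2

theorem cuspForm_slash_bounded (N : ℕ) [NeZero N] (k : ℤ) (f : CuspForm (Gamma0 N) k)
    (δ : SL(2, ℤ)) : IsBoundedAtImInfty ((f : ℍ → ℂ) ∣[k] glOf δ) := by
  have hc : IsCusp (glOf δ • (OnePoint.infty : OnePoint ℝ)) (Gamma0 N : Subgroup (GL (Fin 2) ℝ)) :=
    (Subgroup.IsArithmetic.isCusp_iff_isCusp_SL2Z _).mpr (isCusp_SL2Z_iff'.mpr ⟨δ, rfl⟩)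
  exact ((f.zero_at_cusps' hc) (glOf δ) rfl).isBoundedAtImInfty

theorem exists_modularForm (n N : ℕ) [NeZero N] (f : CuspForm (Gamma0 N) ((n : ℤ) + 2))
    (U : ℍ → E n) (hU : IsPrim n f U) (hinv : ∀ γ ∈ Gamma0 N, act n (glOf γ) U = U)
    (k' : ℤ) (hk' : k' = -(n : ℤ)) :
    ∃ G : ModularForm (Gamma0 N) k', (G : ℍ → ℂ) = Gfun n U := by
  subst hk'
  refine ⟨{ toFun := Gfun n U
            slash_action_eq' := ?_
            holo' := Gfun_mdiff hU
            bdd_at_cusps' := ?_ }, rfl⟩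
  · rintro _ ⟨γ, hγ, rfl⟩
    have := Gfun_slash n U γ
    rw [hinv γ hγ] at this
    exact this
  · intro c hc
    have hc' : IsCusp c 𝒮ℒ := (Subgroup.IsArithmetic.isCusp_iff_isCusp_SL2Z _).mp hc
    rw [OnePoint.isBoundedAt_iff_forall_SL2Z hc']
    intro δ _
    have hslash : (Gfun n U) ∣[-(n : ℤ)] δ = Gfun n (act n (glOf δ) U) := Gfun_slash n U δ
    rw [hslash]
    have hV : IsPrim n ((f : ℍ → ℂ) ∣[(n : ℤ) + 2] glOf δ) (act n (glOf δ) U) :=
      isPrim_act hU (glOf δ) (glOf_det_pos δ)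
    obtain ⟨C, m, A, hgr⟩ := Gfun_growth hV (cuspForm_slash_bounded N _ f δ)
    have hN : (0 : ℝ) < (N : ℝ) := by
      exact_mod_cast Nat.pos_of_ne_zero (NeZero.ne N)
    exact Growth.isBoundedAtImInfty_of_periodic_of_polyGrowth _ (Gfun_mdiff hV) (N : ℝ) hN
      (Gfun_periodic n N hinv δ) C m A hgr

theorem prim_invariant_eq_zero (n N : ℕ) [NeZero N] (f : CuspForm (Gamma0 N) ((n : ℤ) + 2))
    (U : ℍ → E n) (hU : IsPrim n f U) (hinv : ∀ γ ∈ Gamma0 N, act n (glOf γ) U = U) : f = 0 := by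
  have hconst : ∃ c : ℂ, (n = 0 ∨ c = 0) ∧ ∀ z : ℍ, Gfun n U z = c := by
    rcases Nat.eq_zero_or_pos n with h0 | hpos
    · obtain ⟨G, hG⟩ := exists_modularForm n N f U hU hinv 0 (by simp [h0])
      obtain ⟨c, hc⟩ := ModularForm.eq_const_of_weight_zero G
      refine ⟨c, Or.inl h0, fun z => ?_⟩
      rw [← hG, hc]
      rfl
    · obtain ⟨G, hG⟩ := exists_modularForm n N f U hU hinv (-(n : ℤ)) rfl
      have hG0 : G = 0 := ModularForm.isZero_of_neg_weight (by
        have : (0 : ℤ) < (n : ℤ) := by exact_mod_cast hpos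
        linarith) G
      refine ⟨0, Or.inr rfl, fun z => ?_⟩
      rw [← hG, hG0]
      rfl
  obtain ⟨c, hc, hGc⟩ := hconst
  have hbol := Bol.bol n ((f : ℍ → ℂ) ∘ ofComplex) (U ∘ ofComplex) {z : ℂ | 0 < z.im}
    isOpen_upperHalfPlaneSet
    (fun z hz => by
      have := hU ⟨z, hz⟩
      simp only [Function.comp_apply, ofComplex_apply_of_im_pos hz]
      exact this)
    c hc
    (fun z hz => by
      have := hGc ⟨z, hz⟩
      rw [Gfun_apply, ev_apply] at this
      simp only [Function.comp_apply, ofComplex_apply_of_im_pos hz]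
      rw [← this]
      refine Finset.sum_congr rfl fun j _ => ?_
      simp)
  ext z
  have := hbol (z : ℂ) z.im_pos
  simpa using this

end Fermat.Agent.S22
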