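import Mathlib

set_option autoImplicit false

open Complex Filter Topology

namespace Fermat.Agent.S22.Primitive

theorem ball_subset_upper (R : ℕ) :
    Metric.ball ((R : ℂ) * I) (R : ℝ) ⊆ {z : ℂ | 0 < z.im} := by
  intro z hz
  rw [Metric.mem_ball, dist_eq_norm] at hz
  have h1 : |(z - (R : ℂ) * I).im| ≤ ‖z - (R : ℂ) * I‖ := Complex.abs_im_le_norm _
  have h2 : (z - (R : ℂ) * I).im = z.im - R := by simp
  rw [h2] at h1
  have h3 := (abs_lt.mp (lt_of_le_of_lt h1 hz)).1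
  show 0 < z.im
  linarith

theorem ball_mono {R R' : ℕ} (h : R ≤ R') :
    Metric.ball ((R : ℂ) * I) (R : ℝ) ⊆ Metric.ball ((R' : ℂ) * I) (R' : ℝ) := by
  apply Metric.ball_subset_ball'
  rw [dist_eq_norm]
  have : (R : ℂ) * I - (R' : ℂ) * I = (((R : ℝ) - (R' : ℝ) : ℝ) : ℂ) * I := by push_cast; ring
  rw [this, norm_mul, Complex.norm_I, mul_one, Complex.norm_real, Real.norm_eq_abs]
  have hRR : (R : ℝ) ≤ R' := by exact_mod_cast h
  rw [abs_of_nonpos (by linarith)]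
  linarith

theorem I_mem_ball {R : ℕ} (h : 1 ≤ R) : I ∈ Metric.ball ((R : ℂ) * I) (R : ℝ) := by
  rw [Metric.mem_ball, dist_eq_norm]
  have : I - (R : ℂ) * I = (((1 : ℝ) - (R : ℝ) : ℝ) : ℂ) * I := by push_cast; ring
  rw [this, norm_mul, Complex.norm_I, mul_one, Complex.norm_real, Real.norm_eq_abs]
  have hR : (1 : ℝ) ≤ R := by exact_mod_cast h
  rw [abs_of_nonpos (by linarith)]
  linarith

theorem exists_ball_mem (z : ℂ) (hz : 0 < z.im) :
    ∃ R : ℕ, 1 ≤ R ∧ z ∈ Metric.ball ((R : ℂ) * I) (R : ℝ) := by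
  obtain ⟨R, hR⟩ := exists_nat_gt (max 1 (Complex.normSq z / (2 * z.im)))
  have hR1 : (1 : ℝ) < R := lt_of_le_of_lt (le_max_left _ _) hR
  have hR2 : Complex.normSq z / (2 * z.im) < R := lt_of_le_of_lt (le_max_right _ _) hR
  refine ⟨R, by exact_mod_cast hR1.le, ?_⟩
  rw [Metric.mem_ball, dist_eq_norm]
  have hRpos : (0 : ℝ) < R := by linarith
  rw [← abs_of_pos hRpos, ← Real.sqrt_sq_eq_abs, Complex.norm_def]
  apply Real.sqrt_lt_sqrt (Complex.normSq_nonneg _)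
  rw [div_lt_iff₀ (by positivity)] at hR2
  have : Complex.normSq (z - (R : ℂ) * I) = Complex.normSq z - 2 * R * z.im + (R : ℝ) ^ 2 := by
    simp [Complex.normSq_apply]
    ring
  rw [this]
  nlinarith

theorem exists_primitive_upperHalfPlane {E : Type*} [NormedAddCommGroup E] [NormedSpace ℂ E]
    [CompleteSpace E]
    (φ : ℂ → E) (hφ : DifferentiableOn ℂ φ {z : ℂ | 0 < z.im}) :
    ∃ Φ : ℂ → E, ∀ z : ℂ, 0 < z.im → HasDerivAt Φ (φ z) z := by
  have hex : ∀ R : ℕ, ∃ Φ : ℂ → E, Φ I = 0 ∧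
      ∀ x ∈ Metric.ball ((R : ℂ) * I) (R : ℝ), HasDerivAt Φ (φ x) x :=
    fun R => ((hφ.mono (ball_subset_upper R)).isExactOn_ball).with_val_at I 0
  choose Ψ hΨI hΨ using hex
  have hagree : ∀ R R' : ℕ, 1 ≤ R → R ≤ R' →
      Set.EqOn (Ψ R) (Ψ R') (Metric.ball ((R : ℂ) * I) (R : ℝ)) := by
    intro R R' h1 hRR'
    refine IsOpen.eqOn_of_deriv_eq Metric.isOpen_ball
      (convex_ball _ _).isPreconnected ?_ ?_ ?_ (I_mem_ball h1) ?_
    · exact fun x hx => (hΨ R x hx).differentiableAt.differentiableWithinAt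
    · exact fun x hx => (hΨ R' x (ball_mono hRR' hx)).differentiableAt.differentiableWithinAt
    · intro x hx
      rw [(hΨ R x hx).deriv, (hΨ R' x (ball_mono hRR' hx)).deriv]
    · rw [hΨI, hΨI]
  classical
  let Rof : ℂ → ℕ := fun z => if h : 0 < z.im then Classical.choose (exists_ball_mem z h) else 1
  have hRof : ∀ z : ℂ, 0 < z.im → 1 ≤ Rof z ∧ z ∈ Metric.ball ((Rof z : ℂ) * I) (Rof z : ℝ) := by
    intro z hz
    have := Classical.choose_spec (exists_ball_mem z hz)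
    simp only [Rof, dif_pos hz]
    exact this
  refine ⟨fun z => Ψ (Rof z) z, fun z hz => ?_⟩
  have hR := hRof z hz
  have heq : (fun w => Ψ (Rof w) w) =ᶠ[𝓝 z] Ψ (Rof z) := by
    filter_upwards [Metric.isOpen_ball.mem_nhds hR.2] with w hw
    have hw0 : 0 < w.im := ball_subset_upper _ hw
    have hRw := hRof w hw0
    rcases le_total (Rof w) (Rof z) with h | h
    · exact hagree _ _ hRw.1 h hRw.2
    · exact (hagree _ _ hR.1 h hw).symm
  exact (hΨ (Rof z) z hR.2).congr_of_eventuallyEq heq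

end Fermat.Agent.S22.Primitive
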