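import Mathlib
import Fermat.Prelude.Thm_ModularForm_sturm_bound_Gamma0
import Fermat.Prelude.Thm_CongruenceSubgroup_one_mem_strictPeriods_Gamma0

set_option autoImplicit false

open UpperHalfPlane CongruenceSubgroup
open scoped MatrixGroups ModularForm Manifold

namespace Fermat.Agent.S22.Small

theorem sl2z_fg : Group.FG SL(2, ℤ) := by
  rw [Group.fg_iff]
  exact ⟨{ModularGroup.S, ModularGroup.T}, SpecialLinearGroup.SL2Z_generators,
    Set.toFinite _⟩

/-- H3 -/
theorem gamma0_fg (N : ℕ) [NeZero N] : Group.FG (Gamma0 N) := by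
  have := sl2z_fg
  exact Subgroup.fg_of_index_ne_zero (Gamma0 N)

/-- H9: cusp forms of weight < 2 vanish -/
theorem cuspForm_eq_zero_of_weight_lt_two (N : ℕ) [NeZero N] (k : ℤ) (hk : k < 2)
    (f : CuspForm (Gamma0 N) k) : f = 0 := by
  let g : ModularForm (Gamma0 N) k :=
    { toSlashInvariantForm := f.toSlashInvariantForm
      holo' := f.holo'
      bdd_at_cusps' := fun hc γ hγ => (f.zero_at_cusps' hc γ hγ).boundedAtFilter }
  have hg : g = 0 := by
    rcases lt_or_ge k 1 with hk1 | hk1
    · -- k ≤ 0: Sturm bound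
      refine ModularForm.sturm_bound_Gamma0 N g ?_
      intro n hn
      have hn0 : n = 0 := by
        have h0 : k * ((Gamma0 N).index : ℤ) ≤ 0 :=
          mul_nonpos_of_nonpos_of_nonneg (by omega) (by positivity)
        have : (k * ((Gamma0 N).index : ℤ)).toNat = 0 := by omega
        rw [this] at hn
        simpa using hn
      subst hn0
      exact CuspFormClass.qExpansion_coeff_zero f one_pos
        (CongruenceSubgroup.one_mem_strictPeriods_Gamma0 N)
    · -- k = 1
      have hk' : k = 1 := by omega
      subst hk'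
      refine ModularForm.eq_zero_of_neg_one_mem ?_ odd_one g
      refine ⟨-1, ?_, by ext; simp⟩
      show (-1 : SL(2, ℤ)) ∈ Gamma0 N
      rw [Gamma0_mem]
      simp
  ext z
  exact DFunLike.congr_fun hg z

end Fermat.Agent.S22.Small
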