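import Mathlib
import Fermat.Prelude.Def_CuspForm_HeckeAlgebra
import Fermat.Agent.S22_Inj
import Fermat.Agent.S22_Primitive
import Fermat.Agent.S22_Cosets
import Fermat.Agent.S22_Small

set_option autoImplicit false

open UpperHalfPlane CongruenceSubgroup
open scoped MatrixGroups ModularForm Manifold

namespace Fermat.Agent.S22

theorem finite_end (M : Type*) [AddCommGroup M] [Module.Finite ℤ M] :
    Module.Finite ℤ (M →ₗ[ℤ] M) := by
  obtain ⟨s, hs⟩ := (Module.Finite.fg_top : (⊤ : Submodule ℤ M).FG)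
  let φ : (M →ₗ[ℤ] M) →ₗ[ℤ] (↥s → M) :=
    LinearMap.pi (fun i => LinearMap.applyₗ (i : M))
  have hφ : Function.Injective φ := by
    intro f g hfg
    apply LinearMap.ext_on hs
    intro x hx
    exact congrFun hfg ⟨x, Finset.mem_coe.mp hx⟩
  exact Module.Finite.of_injective φ hφ

theorem exists_prim (n N : ℕ) (f : CuspForm (Gamma0 N) ((n : ℤ) + 2)) :
    ∃ U : Wsub n N, IsPrim n f (U : ℍ → E n) := by
  have hf : DifferentiableOn ℂ ((f : ℍ → ℂ) ∘ ofComplex) {z : ℂ | 0 < z.im} :=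
    mdifferentiable_iff.mp f.holo'
  have hβ : Differentiable ℂ (beta n) := by
    rw [differentiable_pi]
    intro j
    exact (differentiable_const _).mul (differentiable_id.pow _)
  obtain ⟨Φ, hΦ⟩ := Primitive.exists_primitive_upperHalfPlane
    (fun w : ℂ => ((f : ℍ → ℂ) ∘ ofComplex) w • beta n w) (hf.smul hβ.differentiableOn)
  set U : ℍ → E n := fun z => Φ (z : ℂ) with hU
  have hprim : IsPrim n f U := by
    intro z
    have h := hΦ (z : ℂ) z.im_pos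
    simp only [Function.comp_apply, ofComplex_apply] at h
    refine h.congr_of_eventuallyEq ?_
    filter_upwards [isOpen_upperHalfPlaneSet.mem_nhds z.im_pos] with w hw
    simp [hU, ofComplex_apply_of_im_pos hw]
  have hmem : U ∈ Wsub n N := by
    intro γ hγ
    have hinv : (f : ℍ → ℂ) ∣[(n : ℤ) + 2] glOf γ = f :=
      SlashInvariantFormClass.slash_action_eq f (glOf γ) (Subgroup.mem_map_of_mem _ hγ)
    have h1 := (isPrim_act hprim (glOf γ) (glOf_det_pos γ)).sub hprim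
    rw [hinv, sub_self] at h1
    obtain ⟨c, hc⟩ := h1.exists_const
    exact ⟨c, fun z => hc z⟩
  exact ⟨⟨U, hmem⟩, hprim⟩

/-- compatibility of an endomorphism of cusp forms and an endomorphism of the functional lattice
through a lift to equivariant families -/
def Rel (n N : ℕ) (t : Module.End ℂ (CuspForm (Gamma0 N) ((n : ℤ) + 2)))
    (s : Mfun n N →ₗ[ℤ] Mfun n N) : Prop :=
  ∃ T : Wsub n N →ₗ[ℂ] Wsub n N,
    (∀ (f : CuspForm (Gamma0 N) ((n : ℤ) + 2)) (U : Wsub n N), IsPrim n f (U : ℍ → E n) →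
      IsPrim n (t f) (T U : ℍ → E n)) ∧
    (∀ ε : Mfun n N, (ε : Wsub n N →ₗ[ℂ] ℂ) ∘ₗ T = (s ε : Wsub n N →ₗ[ℂ] ℂ))

theorem Rel.zero (n N : ℕ) : Rel n N 0 0 := by
  refine ⟨0, fun f U _ => ?_, fun ε => ?_⟩
  · exact IsPrim.zero n
  · simp

theorem Rel.add {n N : ℕ} {t1 t2 : Module.End ℂ (CuspForm (Gamma0 N) ((n : ℤ) + 2))}
    {s1 s2 : Mfun n N →ₗ[ℤ] Mfun n N} (h1 : Rel n N t1 s1) (h2 : Rel n N t2 s2) :
    Rel n N (t1 + t2) (s1 + s2) := by
  obtain ⟨T1, h1, h1'⟩ := h1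
  obtain ⟨T2, h2, h2'⟩ := h2
  refine ⟨T1 + T2, fun f U hU => ?_, fun ε => ?_⟩
  · exact (h1 f U hU).add (h2 f U hU)
  · rw [LinearMap.comp_add, h1', h2']
    rfl

theorem Rel.neg {n N : ℕ} {t : Module.End ℂ (CuspForm (Gamma0 N) ((n : ℤ) + 2))}
    {s : Mfun n N →ₗ[ℤ] Mfun n N} (h : Rel n N t s) : Rel n N (-t) (-s) := by
  obtain ⟨T, h, h'⟩ := h
  refine ⟨-T, fun f U hU => ?_, fun ε => ?_⟩
  · exact (h f U hU).neg
  · rw [LinearMap.comp_neg, h']
    rfl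

theorem Rel.one (n N : ℕ) : Rel n N 1 1 :=
  ⟨LinearMap.id, fun _ _ hU => hU, fun _ => rfl⟩

theorem Rel.mul {n N : ℕ} {t1 t2 : Module.End ℂ (CuspForm (Gamma0 N) ((n : ℤ) + 2))}
    {s1 s2 : Mfun n N →ₗ[ℤ] Mfun n N} (h1 : Rel n N t1 s1) (h2 : Rel n N t2 s2) :
    Rel n N (t1 * t2) (s2 * s1) := by
  obtain ⟨T1, h1, h1'⟩ := h1
  obtain ⟨T2, h2, h2'⟩ := h2
  refine ⟨T1 ∘ₗ T2, fun f U hU => ?_, fun ε => ?_⟩
  · exact h1 (t2 f) (T2 U) (h2 f U hU)
  · rw [← LinearMap.comp_assoc, h1', h2']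
    rfl

theorem Rel.eq_zero {n N : ℕ} [NeZero N]
    {t : Module.End ℂ (CuspForm (Gamma0 N) ((n : ℤ) + 2))} (h : Rel n N t 0) : t = 0 := by
  obtain ⟨T, hlift, hε⟩ := h
  ext1 f
  obtain ⟨U, hU⟩ := exists_prim n N f
  have hTU := hlift f U hU
  have hcoc : ∀ γ ∈ Gamma0 N, cocyc n γ (T U : ℍ → E n) = 0 := by
    intro γ hγ
    apply ev_eq_zero_of_int
    intro w
    have h1 := hε ⟨eps n N γ w, eps_mem_Mfun n N hγ w⟩
    have h2 := congrArg (fun φ : Wsub n N →ₗ[ℂ] ℂ => φ U) h1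
    simpa [eps_apply] using h2
  have hinv : ∀ γ ∈ Gamma0 N, act n (glOf γ) (T U : ℍ → E n) = (T U : ℍ → E n) := by
    intro γ hγ
    rw [act_eq_add_cocyc (T U).2 hγ, hcoc γ hγ]
    funext z
    simp
  rw [prim_invariant_eq_zero n N (t f) (T U) hTU hinv]
  rfl

theorem det_pos_of_int (A : GL (Fin 2) ℝ) (a : Matrix (Fin 2) (Fin 2) ℤ)
    (hA : (A : Matrix (Fin 2) (Fin 2) ℝ) = a.map (Int.cast : ℤ → ℝ)) (ha : 0 < a.det) :
    0 < A.det.val := by
  rw [Matrix.GeneralLinearGroup.val_det_apply, hA, ← Int.cast_det]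
  exact_mod_cast ha

theorem hecke_rel (n N : ℕ) {ι : Type} [Fintype ι] (A : ι → GL (Fin 2) ℝ)
    (a : ι → Matrix (Fin 2) (Fin 2) ℤ)
    (hA : ∀ i, ((A i : GL (Fin 2) ℝ) : Matrix (Fin 2) (Fin 2) ℝ) = (a i).map (Int.cast : ℤ → ℝ))
    (hdet : ∀ i, 0 < (a i).det)
    (hcos : ∀ γ ∈ Gamma0 N, ∃ π : Equiv.Perm ι, ∀ i, ∃ κ ∈ Gamma0 N,
      A i * glOf γ = glOf κ * A (π i))
    (t : Module.End ℂ (CuspForm (Gamma0 N) ((n : ℤ) + 2)))
    (ht : ∀ f : CuspForm (Gamma0 N) ((n : ℤ) + 2),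
      (t f : ℍ → ℂ) = ∑ i, (f : ℍ → ℂ) ∣[(n : ℤ) + 2] A i) :
    ∃ s, Rel n N t s := by
  refine ⟨LinearMap.restrict ((LinearMap.lcomp ℂ ℂ (heckeLift n N A hcos)).restrictScalars ℤ)
    (fun ε hε => comp_heckeLift_mem_Mfun n N A a hA hcos hε), heckeLift n N A hcos,
    fun f U hU => ?_, fun ε => rfl⟩
  rw [ht f, heckeLift_coe]
  exact IsPrim.sum _ fun i _ => isPrim_act hU (A i) (det_pos_of_int (A i) (a i) (hA i) (hdet i))

theorem rel_of_mem_closure (n N : ℕ) [NeZero N] (S : Set ℕ)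
    (x : Module.End ℂ (CuspForm (Gamma0 N) ((n : ℤ) + 2)))
    (hx : x ∈ Subring.closure (CuspForm.heckeGenerators N ((n : ℤ) + 2) S)) :
    ∃ s, Rel n N x s := by
  induction hx using Subring.closure_induction with
  | mem y hy =>
    rcases hy with ⟨ℓ, hℓ, hℓN, -, rfl⟩ | ⟨q, hqN, hq, -, rfl⟩
    · obtain ⟨ι, _, A, a, hA, hdet, hT, hcos⟩ := Cosets.heckeT_cosets (N := N) hℓ hℓN
      exact hecke_rel n N A a hA hdet hcos _ (fun f => by
        rw [CuspForm.coe_heckeTLin_apply, hT])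
    · obtain ⟨ι, _, A, a, hA, hdet, hT, hcos⟩ := Cosets.heckeU_cosets (N := N) hq hqN
      exact hecke_rel n N A a hA hdet hcos _ (fun f => by
        rw [CuspForm.coe_heckeULin_apply, hT])
  | zero => exact ⟨0, Rel.zero n N⟩
  | one => exact ⟨1, Rel.one n N⟩
  | add y z _ _ hy hz =>
    obtain ⟨s1, h1⟩ := hy
    obtain ⟨s2, h2⟩ := hz
    exact ⟨s1 + s2, h1.add h2⟩
  | neg y _ hy =>
    obtain ⟨s1, h1⟩ := hy
    exact ⟨-s1, h1.neg⟩
  | mul y z _ _ hy hz =>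
    obtain ⟨s1, h1⟩ := hy
    obtain ⟨s2, h2⟩ := hz
    exact ⟨s2 * s1, h1.mul h2⟩

/-- the relation as an additive subgroup of the product -/
def relSub (n N : ℕ) :
    AddSubgroup (Module.End ℂ (CuspForm (Gamma0 N) ((n : ℤ) + 2)) × (Mfun n N →ₗ[ℤ] Mfun n N)) where
  carrier := {p | Rel n N p.1 p.2}
  zero_mem' := Rel.zero n N
  add_mem' := by
    rintro ⟨t1, s1⟩ ⟨t2, s2⟩ h1 h2
    have h1' : Rel n N t1 s1 := h1
    have h2' : Rel n N t2 s2 := h2
    exact h1'.add h2'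
  neg_mem' := by
    rintro ⟨t, s⟩ h
    have h' : Rel n N t s := h
    exact h'.neg

theorem mem_relSub {n N : ℕ} {t : Module.End ℂ (CuspForm (Gamma0 N) ((n : ℤ) + 2))}
    {s : Mfun n N →ₗ[ℤ] Mfun n N} : (t, s) ∈ relSub n N ↔ Rel n N t s := Iff.rfl

theorem hecke_finite (n N : ℕ) [NeZero N] (S : Set ℕ) :
    Module.Finite ℤ (CuspForm.heckeAlgebra N ((n : ℤ) + 2) S) := by
  have hMfg : (Mfun n N).FG := Mfun_fg n N (Small.gamma0_fg N)
  have : Module.Finite ℤ (Mfun n N) := Module.Finite.iff_fg.mpr hMfg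
  have : Module.Finite ℤ (Mfun n N →ₗ[ℤ] Mfun n N) := finite_end _
  set R := AddSubgroup.toIntSubmodule (relSub n N) with hR
  let φ : R →ₗ[ℤ] (Mfun n N →ₗ[ℤ] Mfun n N) := (LinearMap.snd ℤ _ _).comp R.subtype
  have hφ : Function.Injective φ := by
    rw [← LinearMap.ker_eq_bot, LinearMap.ker_eq_bot']
    rintro ⟨⟨t, s⟩, hx⟩ h0
    have hs : s = 0 := h0
    subst hs
    have hx' : Rel n N t 0 := hx
    have ht : t = 0 := hx'.eq_zero
    subst ht
    rfl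
  have : Module.Finite ℤ R := Module.Finite.of_injective φ hφ
  have hfg : R.FG := Module.Finite.iff_fg.mp inferInstance
  have hB : (R.map (LinearMap.fst ℤ _ _)).FG := hfg.map _
  have hle : Subalgebra.toSubmodule (CuspForm.heckeAlgebra N ((n : ℤ) + 2) S) ≤
      R.map (LinearMap.fst ℤ _ _) := by
    intro x hx
    have hx' : x ∈ Subring.closure (CuspForm.heckeGenerators N ((n : ℤ) + 2) S) := by
      have h1 : x ∈ Algebra.adjoin ℤ (CuspForm.heckeGenerators N ((n : ℤ) + 2) S) := hx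
      rw [Algebra.adjoin_int] at h1
      exact h1
    obtain ⟨s, hs⟩ := rel_of_mem_closure n N S x hx'
    exact ⟨(x, s), hs, rfl⟩
  exact Module.Finite.iff_fg.mpr (Submodule.FG.of_le hB hle)

theorem hecke_finite_all (N : ℕ) [NeZero N] (k : ℤ) (S : Set ℕ) :
    Module.Finite ℤ (CuspForm.heckeAlgebra N k S) := by
  by_cases hk : k < 2
  · have : Subsingleton (CuspForm (Gamma0 N) k) :=
      ⟨fun f g => by
        rw [Small.cuspForm_eq_zero_of_weight_lt_two N k hk f,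
          Small.cuspForm_eq_zero_of_weight_lt_two N k hk g]⟩
    have : Subsingleton (Module.End ℂ (CuspForm (Gamma0 N) k)) :=
      ⟨fun f g => LinearMap.ext fun x => Subsingleton.elim _ _⟩
    have : Finite (CuspForm.heckeAlgebra N k S) := Finite.of_subsingleton
    exact Module.Finite.of_finite
  · obtain ⟨n, rfl⟩ : ∃ n : ℕ, k = (n : ℤ) + 2 := ⟨(k - 2).toNat, by omega⟩
    exact hecke_finite n N S

end Fermat.Agent.S22
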