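import Mathlib

set_option autoImplicit false
set_option linter.style.haveILetI false

open Polynomial

namespace Fermat.Agent.S23.Descent

/-- Every finitely generated `ℚ`-subalgebra of `ℂ` has a ring homomorphism to `ℂ` with algebraic
values (through a residue field at a maximal ideal). -/
theorem exists_algHom_isIntegral (A : Subalgebra ℚ ℂ) (hA : A.FG) :
    ∃ φ : A →ₐ[ℚ] ℂ, ∀ x : A, IsIntegral ℚ (φ x) := by
  haveI : Algebra.FiniteType ℚ A := (Subalgebra.fg_iff_finiteType A).mp hA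
  obtain ⟨𝔪, h𝔪⟩ := Ideal.exists_maximal A
  haveI := h𝔪
  letI : Field (A ⧸ 𝔪) := Ideal.Quotient.field 𝔪
  haveI : Algebra.FiniteType ℚ (A ⧸ 𝔪) :=
    Algebra.FiniteType.of_surjective (Ideal.Quotient.mkₐ ℚ 𝔪) (Ideal.Quotient.mkₐ_surjective ℚ 𝔪)
  haveI : Module.Finite ℚ (A ⧸ 𝔪) := finite_of_finite_type_of_isJacobsonRing ℚ (A ⧸ 𝔪)
  obtain ⟨τ, -⟩ := IntermediateField.exists_algHom_of_splits_of_aeval (F := ℚ) (E := A ⧸ 𝔪)
    (K := ℂ) (fun s => ⟨Algebra.IsIntegral.isIntegral s, IsAlgClosed.splits _⟩)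
    (x := (0 : A ⧸ 𝔪)) (y := (0 : ℂ)) (by simp)
  refine ⟨τ.comp (Ideal.Quotient.mkₐ ℚ 𝔪), fun x => ?_⟩
  exact (Algebra.IsIntegral.isIntegral (R := ℚ) (Ideal.Quotient.mkₐ ℚ 𝔪 x)).map τ

/-- For an algebraic element `a` of a finitely generated `ℚ`-subalgebra `A` of `ℂ` and any root
`y` of its minimal polynomial there is a ring homomorphism `A → ℂ` sending `a` to `y`. -/
theorem exists_algHom_apply_eq (A : Subalgebra ℚ ℂ) (hA : A.FG) (a : A) (ha : IsIntegral ℚ a)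
    (y : ℂ) (hy : aeval y (minpoly ℚ a) = 0) : ∃ φ : A →ₐ[ℚ] ℂ, φ a = y := by
  haveI : Algebra.FiniteType ℚ A := (Subalgebra.fg_iff_finiteType A).mp hA
  obtain ⟨𝔪, h𝔪⟩ := Ideal.exists_maximal A
  haveI := h𝔪
  letI : Field (A ⧸ 𝔪) := Ideal.Quotient.field 𝔪
  haveI : Algebra.FiniteType ℚ (A ⧸ 𝔪) :=
    Algebra.FiniteType.of_surjective (Ideal.Quotient.mkₐ ℚ 𝔪) (Ideal.Quotient.mkₐ_surjective ℚ 𝔪)
  haveI : Module.Finite ℚ (A ⧸ 𝔪) := finite_of_finite_type_of_isJacobsonRing ℚ (A ⧸ 𝔪)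
  have hmin : minpoly ℚ a = minpoly ℚ (Ideal.Quotient.mkₐ ℚ 𝔪 a) := by
    apply minpoly.eq_of_irreducible_of_monic (minpoly.irreducible ha)
    · rw [aeval_algHom_apply, minpoly.aeval, map_zero]
    · exact minpoly.monic ha
  obtain ⟨τ, hτ⟩ := IntermediateField.exists_algHom_of_splits_of_aeval (F := ℚ) (E := A ⧸ 𝔪)
    (K := ℂ) (fun s => ⟨Algebra.IsIntegral.isIntegral s, IsAlgClosed.splits _⟩)
    (x := Ideal.Quotient.mkₐ ℚ 𝔪 a) (y := y) (by rw [← hmin]; exact hy)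
  exact ⟨τ.comp (Ideal.Quotient.mkₐ ℚ 𝔪), hτ⟩

/-- **Descent lemma.** An element of a finitely generated `ℚ`-subalgebra `A` of `ℂ` which is
fixed by every ring homomorphism `A → ℂ` is rational. -/
theorem mem_range_of_forall_ringHom_fixed (A : Subalgebra ℚ ℂ) (hA : A.FG) (a : A)
    (h : ∀ φ : A →+* ℂ, φ a = (a : ℂ)) : ∃ r : ℚ, (a : ℂ) = (r : ℂ) := by
  -- `a` is algebraic over `ℚ`
  have ha : IsIntegral ℚ a := by
    obtain ⟨φ, hφ⟩ := exists_algHom_isIntegral A hA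
    have h1 : IsIntegral ℚ (A.val a) := by
      have := hφ a
      rwa [show φ a = A.val a from h φ.toRingHom] at this
    exact (isIntegral_algHom_iff A.val Subtype.val_injective).mp h1
  by_contra hne
  -- the minimal polynomial has degree at least two
  have hdeg1 : (minpoly ℚ a).natDegree ≠ 1 := by
    intro h1
    obtain ⟨r, hr⟩ := minpoly.natDegree_eq_one_iff.mp h1
    apply hne
    refine ⟨r, ?_⟩
    rw [← hr]
    rfl
  have hdeg : 1 < (minpoly ℚ a).natDegree := by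
    have := minpoly.natDegree_pos ha
    omega
  -- hence it has a root different from `a`
  have hcard : Fintype.card ((minpoly ℚ a).rootSet ℂ) = (minpoly ℚ a).natDegree :=
    card_rootSet_eq_natDegree (minpoly.irreducible ha).separable (IsAlgClosed.splits _)
  have hmem : (a : ℂ) ∈ (minpoly ℚ a).rootSet ℂ := by
    rw [mem_rootSet]
    refine ⟨minpoly.ne_zero ha, ?_⟩
    have h2 : aeval (A.val a) (minpoly ℚ a) = 0 := by
      rw [aeval_algHom_apply, minpoly.aeval, map_zero]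
    exact h2
  obtain ⟨⟨y, hy⟩, hya⟩ := Fintype.exists_ne_of_one_lt_card (hcard ▸ hdeg) ⟨(a : ℂ), hmem⟩
  obtain ⟨φ, hφ⟩ := exists_algHom_apply_eq A hA a ha y (mem_rootSet.mp hy).2
  apply hya
  apply Subtype.ext
  change y = (a : ℂ)
  rw [← hφ]
  exact h φ.toRingHom

end Fermat.Agent.S23.Descent
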