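import Fermat.Statements.S49
import Fermat.Prelude.Def_CuspForm_HeckeAlgebra
import Fermat.Prelude.Def_CuspForm_IntegralStructure
import Fermat.Prelude.Thm_CuspForm_intLattice_fg
import Fermat.Prelude.Thm_CuspForm_mem_intLattice_of_mem_heckeAlgebra
import Fermat.Prelude.Thm_ModularFormClass_qCoeff_heckeT
import Fermat.Prelude.Thm_ModularFormClass_qCoeff_heckeU
import Fermat.Prelude.Thm_CongruenceSubgroup_one_mem_strictPeriods_Gamma0
import Fermat.Prelude.Thm_UpperHalfPlane_eq_of_forall_qCoeff_eq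

set_option autoImplicit false
open CuspForm EisensteinWeightOne CongruenceSubgroup ModularFormClass UpperHalfPlane

namespace Fermat.Agent.S49

variable {N : ℕ}

theorem one_mem_periods (N : ℕ) :
    (1 : ℝ) ∈ (Gamma0 N : Subgroup (GL (Fin 2) ℝ)).strictPeriods :=
  CongruenceSubgroup.one_mem_strictPeriods_Gamma0 N

theorem qCoeff_add' (f g : CuspForm (Gamma0 N) 2) (n : ℕ) :
    qCoeff (⇑(f + g)) n = qCoeff f n + qCoeff g n := by
  unfold qCoeff
  rw [FunLike.coe_add, ModularForm.qExpansion_add one_pos (one_mem_periods N) f g, map_add]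

theorem qCoeff_smul' (c : ℂ) (f : CuspForm (Gamma0 N) 2) (n : ℕ) :
    qCoeff (⇑(c • f)) n = c * qCoeff f n := by
  unfold qCoeff
  rw [FunLike.coe_smul, ModularForm.qExpansion_smul one_pos (one_mem_periods N) c f]
  simp

theorem qCoeff_neg' (f : CuspForm (Gamma0 N) 2) (n : ℕ) :
    qCoeff (⇑(-f)) n = - qCoeff f n := by
  unfold qCoeff
  rw [FunLike.coe_neg, ModularForm.qExpansion_neg one_pos (one_mem_periods N) f, map_neg]

theorem qCoeff_sub' (f g : CuspForm (Gamma0 N) 2) (n : ℕ) :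
    qCoeff (⇑(f - g)) n = qCoeff f n - qCoeff g n := by
  unfold qCoeff
  rw [FunLike.coe_sub, ModularForm.qExpansion_sub one_pos (one_mem_periods N) f g, map_sub]

theorem qCoeff_zero_idx (f : CuspForm (Gamma0 N) 2) : qCoeff f 0 = 0 := by
  unfold qCoeff
  exact CuspFormClass.qExpansion_coeff_zero f one_pos (one_mem_periods N)

theorem eq_zero_of_qCoeff (f : CuspForm (Gamma0 N) 2) (h : ∀ n, qCoeff f n = 0) : f = 0 := by
  have hc : Fact (IsCusp OnePoint.infty (Gamma0 N : Subgroup (GL (Fin 2) ℝ))) :=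
    ⟨Subgroup.isCusp_of_mem_strictPeriods one_pos (one_mem_periods N)⟩
  have h0 : qExpansion 1 (⇑f) = 0 := by
    ext n
    simpa [qCoeff] using h n
  have := (qExpansion_eq_zero_iff (h := 1) one_pos
    (SlashInvariantFormClass.periodic_comp_ofComplex f (one_mem_periods N))
    (ModularFormClass.holo f) (ModularFormClass.bdd_at_infty f)).mp h0
  exact DFunLike.coe_injective this

theorem qCoeff_heckeTLin {p : ℕ} (hp : p.Prime) (hpN : ¬ p ∣ N) (f : CuspForm (Gamma0 N) 2)
    (n : ℕ) :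
    qCoeff (⇑(CuspForm.heckeTLin 2 hp hpN f)) n =
      qCoeff f (n * p) + if p ∣ n then (p : ℂ) * qCoeff f (n / p) else 0 := by
  rw [CuspForm.coe_heckeTLin_apply, ModularFormClass.qCoeff_heckeT f (one_mem_periods N) hp.ne_zero,
    ModularForm.coeffHeckeT_apply]
  norm_num

theorem qCoeff_heckeULin [NeZero N] {p : ℕ} (hp : p.Prime) (hpN : p ∣ N) (f : CuspForm (Gamma0 N) 2)
    (n : ℕ) :
    qCoeff (⇑(CuspForm.heckeULin 2 hpN f)) n = qCoeff f (n * p) := by
  rw [CuspForm.coe_heckeULin_apply, ModularFormClass.qCoeff_heckeU f (one_mem_periods N) hp.ne_zero,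
    ModularForm.coeffHeckeU_apply]

end Fermat.Agent.S49
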