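import Mathlib
import Fermat.Prelude.Def_CuspForm_HeckeAlgebra
import Fermat.Prelude.Def_CuspForm_IntegralStructure
import Fermat.Prelude.Thm_ModularForm_sturm_bound_Gamma0
import Fermat.Prelude.Thm_CongruenceSubgroup_one_mem_strictPeriods_Gamma0
import Fermat.Agent.S49_QCoeff
import Fermat.Agent.S22
import Fermat.Agent.S23_Descent

/-!
# S23, final step

Given the "twist" property of weight-two cusp forms on `Γ₀(N)` (every form has its
`q`-coefficients in a finitely generated `ℚ`-subalgebra `A` of `ℂ`, and every ring homomorphism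
`A → ℂ` applied to the coefficients gives again the `q`-expansion of a cusp form), the space of
cusp forms is spanned by forms with integer `q`-coefficients:

* echelon basis with respect to finitely many coefficient functionals (finite dimensionality
  comes from the Sturm bound);
* the echelon forms are fixed by all twists, so their coefficients are rational by descent;
* bounded denominators: `a_n(f) = a_1(t_n f)` for a Hecke operator `t_n`, and the Hecke algebra
  is a finitely generated `ℤ`-module (S22).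
-/

set_option autoImplicit false
open CuspForm CongruenceSubgroup ModularFormClass UpperHalfPlane

namespace Fermat.Agent.S23.Final

open Fermat.Agent.S49

variable {N : ℕ}

/-- the `n`-th `q`-coefficient as a linear functional on weight-two cusp forms -/
noncomputable def coeffFun (N : ℕ) (n : ℕ) : Module.Dual ℂ (CuspForm (Gamma0 N) 2) where
  toFun f := qCoeff f n
  map_add' f g := qCoeff_add' f g n
  map_smul' c f := by
    rw [RingHom.id_apply, smul_eq_mul]
    exact qCoeff_smul' c f n

theorem coeffFun_apply (n : ℕ) (f : CuspForm (Gamma0 N) 2) : coeffFun N n f = qCoeff f n := rfl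

theorem finiteDimensional_cuspForm (N : ℕ) [NeZero N] :
    FiniteDimensional ℂ (CuspForm (Gamma0 N) 2) := by
  classical
  set B : ℕ := ((2 : ℤ) * ((Gamma0 N).index : ℤ)).toNat / 12 with hB
  let φ : CuspForm (Gamma0 N) 2 →ₗ[ℂ] (Fin (B + 1) → ℂ) :=
    LinearMap.pi (fun i => coeffFun N (i : ℕ))
  have hφ : Function.Injective φ := by
    rw [← LinearMap.ker_eq_bot, LinearMap.ker_eq_bot']
    intro f hf
    let g : ModularForm (Gamma0 N) 2 :=
      { toSlashInvariantForm := f.toSlashInvariantForm
        holo' := f.holo'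
        bdd_at_cusps' := fun hc γ hγ => (f.zero_at_cusps' hc γ hγ).boundedAtFilter }
    have hg : g = 0 := by
      refine ModularForm.sturm_bound_Gamma0 N g ?_
      intro n hn
      have := congrFun hf ⟨n, Nat.lt_succ_of_le hn⟩
      exact this
    ext z
    exact DFunLike.congr_fun hg z
  exact FiniteDimensional.of_injective φ hφ

/-- the coefficient functionals span the dual space -/
theorem span_coeffFun_eq_top (N : ℕ) [NeZero N] :
    Submodule.span ℂ (Set.range (coeffFun N)) = ⊤ := by
  have := finiteDimensional_cuspForm N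
  have h := Subspace.dualCoannihilator_dualAnnihilator_eq
    (W := Submodule.span ℂ (Set.range (coeffFun N)))
  have h0 : (Submodule.span ℂ (Set.range (coeffFun N))).dualCoannihilator = ⊥ := by
    rw [eq_bot_iff]
    intro f hf
    rw [Submodule.mem_dualCoannihilator] at hf
    rw [Submodule.mem_bot]
    apply eq_zero_of_qCoeff
    intro n
    exact hf (coeffFun N n) (Submodule.subset_span ⟨n, rfl⟩)
  rw [h0, Submodule.dualAnnihilator_bot] at h
  exact h.symm

/-- an "echelon" basis: a finite family of coefficient indices `idx` and a spanning family of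
forms `f` such that the `idx j`-th coefficient of `f i` is `δ_ij`, and such that a form is
determined by its coefficients at the indices `idx j`. -/
theorem exists_echelon (N : ℕ) [NeZero N] :
    ∃ (ι : Type) (_ : Fintype ι) (_ : DecidableEq ι) (idx : ι → ℕ)
      (f : ι → CuspForm (Gamma0 N) 2),
      (∀ i j, qCoeff (f i) (idx j) = if j = i then 1 else 0) ∧
      (∀ g h : CuspForm (Gamma0 N) 2, (∀ j, qCoeff g (idx j) = qCoeff h (idx j)) → g = h) ∧
      Submodule.span ℂ (Set.range f) = ⊤ := by
  classical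
  have := finiteDimensional_cuspForm N
  obtain ⟨b, hbsub, hbspan, hbli⟩ := exists_linearIndependent ℂ (Set.range (coeffFun N))
  rw [span_coeffFun_eq_top] at hbspan
  let B : Module.Basis b ℂ (Module.Dual ℂ (CuspForm (Gamma0 N) 2)) :=
    Module.Basis.mk hbli (by rw [Subtype.range_coe_subtype]; exact hbspan.ge)
  have : Finite b := Module.Finite.finite_basis B
  let _ : Fintype b := Fintype.ofFinite b
  have hB : ∀ i : b, B i = (i : Module.Dual ℂ (CuspForm (Gamma0 N) 2)) := fun i => by
    simp [B]
  have hidx : ∀ i : b, ∃ n : ℕ, coeffFun N n = (i : Module.Dual ℂ (CuspForm (Gamma0 N) 2)) :=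
    fun i => hbsub i.2
  choose idx hidx using hidx
  let e := Module.evalEquiv ℂ (CuspForm (Gamma0 N) 2)
  let f : b → CuspForm (Gamma0 N) 2 := fun i => e.symm (B.dualBasis i)
  have hf : ∀ i j, qCoeff (f i) (idx j) = if j = i then 1 else 0 := by
    intro i j
    have h1 : qCoeff (f i) (idx j) = (B j) (f i) := by
      rw [hB, ← hidx j]; rfl
    have h2 : (B j) (f i) = e (f i) (B j) := rfl
    rw [h1, h2]
    simp only [f, LinearEquiv.apply_symm_apply]
    rw [Module.Basis.dualBasis_apply_self]
  refine ⟨b, inferInstance, inferInstance, idx, f, hf, ?_, ?_⟩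
  · intro g h hgh
    have h0 : ∀ φ : Module.Dual ℂ (CuspForm (Gamma0 N) 2), φ (g - h) = 0 := by
      intro φ
      have : φ ∈ Submodule.span ℂ (Set.range B) := by
        rw [B.span_eq]; exact Submodule.mem_top
      induction this using Submodule.span_induction with
      | mem x hx =>
        obtain ⟨j, rfl⟩ := hx
        rw [hB, ← hidx j, coeffFun_apply, qCoeff_sub', hgh j, sub_self]
      | zero => simp
      | add x y _ _ hx hy => simp [hx, hy]
      | smul c x _ hx => simp [hx]
    have := (Module.forall_dual_apply_eq_zero_iff ℂ (g - h)).mp h0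
    exact sub_eq_zero.mp this
  · have : f = fun i => (B.dualBasis.map e.symm) i := by
      funext i; simp [f]
    rw [this]
    exact (B.dualBasis.map e.symm).span_eq

/-- a form with rational `q`-coefficients -/
def RatCoeff (f : CuspForm (Gamma0 N) 2) : Prop :=
  ∀ n : ℕ, ∃ r : ℚ, qCoeff f n = (r : ℂ)

theorem ratCoeff_zero : RatCoeff (0 : CuspForm (Gamma0 N) 2) := by
  intro n
  refine ⟨0, ?_⟩
  have := qCoeff_smul' (0 : ℂ) (0 : CuspForm (Gamma0 N) 2) n
  rw [zero_smul, zero_mul] at this
  rw [this]; simp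

theorem ratCoeff_add {f g : CuspForm (Gamma0 N) 2} (hf : RatCoeff f) (hg : RatCoeff g) :
    RatCoeff (f + g) := by
  intro n
  obtain ⟨a, ha⟩ := hf n
  obtain ⟨b, hb⟩ := hg n
  exact ⟨a + b, by rw [qCoeff_add', ha, hb]; push_cast; ring⟩

theorem ratCoeff_smul {f : CuspForm (Gamma0 N) 2} (c : ℚ) (hf : RatCoeff f) :
    RatCoeff ((c : ℂ) • f) := by
  intro n
  obtain ⟨a, ha⟩ := hf n
  exact ⟨c * a, by rw [qCoeff_smul', ha]; push_cast; ring⟩

theorem ratCoeff_hecke [NeZero N] {t : Module.End ℂ (CuspForm (Gamma0 N) 2)}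
    (ht : t ∈ CuspForm.heckeAlgebra N 2 ∅) :
    ∀ {f : CuspForm (Gamma0 N) 2}, RatCoeff f → RatCoeff (t f) := by
  unfold CuspForm.heckeAlgebra at ht
  induction ht using Algebra.adjoin_induction with
  | mem x hx =>
    intro f hf n
    rcases hx with ⟨ℓ, hℓ, hℓN, -, rfl⟩ | ⟨q, hqN, hq, -, rfl⟩
    · rw [qCoeff_heckeTLin hℓ hℓN]
      obtain ⟨a, ha⟩ := hf (n * ℓ)
      obtain ⟨b, hb⟩ := hf (n / ℓ)
      by_cases hd : ℓ ∣ n
      · exact ⟨a + ℓ * b, by rw [if_pos hd, ha, hb]; push_cast; ring⟩
      · exact ⟨a, by rw [if_neg hd, ha]; simp⟩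
    · rw [qCoeff_heckeULin hq hqN]
      exact hf (n * q)
  | algebraMap r =>
    intro f hf
    have : (algebraMap ℤ (Module.End ℂ (CuspForm (Gamma0 N) 2)) r) f = ((r : ℚ) : ℂ) • f := by
      rw [Algebra.algebraMap_eq_smul_one, LinearMap.smul_apply, Module.End.one_apply]
      push_cast
      rw [Int.cast_smul_eq_zsmul]
    rw [this]
    exact ratCoeff_smul _ hf
  | add x y _ _ hx hy =>
    intro f hf
    rw [LinearMap.add_apply]
    exact ratCoeff_add (hx hf) (hy hf)
  | mul x y _ _ hx hy =>
    intro f hf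
    rw [Module.End.mul_apply]
    exact hx (hy hf)

/-- every `q`-coefficient is the first coefficient of a Hecke translate -/
theorem exists_hecke_coeff_one (N : ℕ) [NeZero N] (n : ℕ) (hn : 1 ≤ n) :
    ∃ t ∈ CuspForm.heckeAlgebra N 2 ∅, ∀ f : CuspForm (Gamma0 N) 2,
      qCoeff f n = qCoeff (t f) 1 := by
  induction n using Nat.strong_induction_on with
  | _ n ih =>
    rcases Nat.lt_or_ge n 2 with h2 | h2
    · have h1 : n = 1 := by omega
      subst h1
      exact ⟨1, Subalgebra.one_mem _, fun f => rfl⟩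
    · have hp : (n.minFac).Prime := Nat.minFac_prime (by omega)
      set p := n.minFac with hpdef
      have hpn : p ∣ n := Nat.minFac_dvd n
      obtain ⟨m, hm⟩ := hpn
      have hm1 : 1 ≤ m := by
        rcases Nat.eq_zero_or_pos m with h | h
        · rw [h, mul_zero] at hm; omega
        · exact h
      have hmn : m < n := by
        rw [hm]
        exact lt_mul_of_one_lt_left hm1 hp.one_lt
      obtain ⟨tm, htm, htm'⟩ := ih m hmn hm1
      have hnm : n = m * p := by rw [hm, mul_comm]
      by_cases hpN : p ∣ N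
      · refine ⟨tm * CuspForm.heckeULin 2 hpN, Subalgebra.mul_mem _ htm
          (CuspForm.heckeULin_mem_heckeAlgebra hp hpN (Set.notMem_empty _)), fun f => ?_⟩
        rw [Module.End.mul_apply, ← htm', qCoeff_heckeULin hp hpN, hnm]
      · by_cases hpm : p ∣ m
        · obtain ⟨m', hm'⟩ := hpm
          have hm'1 : 1 ≤ m' := by
            rcases Nat.eq_zero_or_pos m' with h | h
            · rw [h, mul_zero] at hm'; omega
            · exact h
          have hm'n : m' < n := by
            have : m' ≤ m := by rw [hm']; exact Nat.le_mul_of_pos_left _ hp.pos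
            omega
          obtain ⟨tm', htm'm, htm''⟩ := ih m' hm'n hm'1
          refine ⟨tm * CuspForm.heckeTLin 2 hp hpN - (p : ℤ) • tm',
            Subalgebra.sub_mem _ (Subalgebra.mul_mem _ htm
              (CuspForm.heckeTLin_mem_heckeAlgebra hp hpN (Set.notMem_empty _)))
              (Subalgebra.zsmul_mem _ htm'm _), fun f => ?_⟩
          rw [LinearMap.sub_apply, Module.End.mul_apply, qCoeff_sub', ← htm',
            qCoeff_heckeTLin hp hpN, if_pos ⟨m', hm'⟩, LinearMap.smul_apply,
            ← Int.cast_smul_eq_zsmul ℂ, qCoeff_smul', ← htm'', hnm]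
          have : m / p = m' := by rw [hm']; exact Nat.mul_div_cancel_left _ hp.pos
          rw [this]
          push_cast
          ring
        · refine ⟨tm * CuspForm.heckeTLin 2 hp hpN, Subalgebra.mul_mem _ htm
            (CuspForm.heckeTLin_mem_heckeAlgebra hp hpN (Set.notMem_empty _)), fun f => ?_⟩
          rw [Module.End.mul_apply, ← htm', qCoeff_heckeTLin hp hpN, if_neg hpm, add_zero, hnm]

/-- bounded denominators: a form with rational coefficients has a nonzero integer multiple
with integer coefficients. -/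
theorem exists_denominator (N : ℕ) [NeZero N] (f : CuspForm (Gamma0 N) 2) (hf : RatCoeff f) :
    ∃ D : ℕ, 0 < D ∧ ∀ n : ℕ, ∃ m : ℤ, (D : ℂ) * qCoeff f n = (m : ℂ) := by
  classical
  have hfin : Module.Finite ℤ (CuspForm.heckeAlgebra N 2 ∅) := Fermat.Agent.S22.result N 2 ∅
  obtain ⟨s, hs⟩ := hfin.fg_top
  have hr : ∀ t : CuspForm.heckeAlgebra N 2 ∅, ∃ r : ℚ,
      qCoeff ((t : Module.End ℂ (CuspForm (Gamma0 N) 2)) f) 1 = (r : ℂ) :=
    fun t => ratCoeff_hecke t.2 hf 1
  choose r hr using hr
  set D : ℕ := ∏ g ∈ s, (r g).den with hD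
  have hDpos : 0 < D := Finset.prod_pos fun g _ => (r g).den_pos
  have key : ∀ t : CuspForm.heckeAlgebra N 2 ∅, ∃ m : ℤ,
      (D : ℂ) * qCoeff ((t : Module.End ℂ (CuspForm (Gamma0 N) 2)) f) 1 = (m : ℂ) := by
    intro t
    have ht : t ∈ Submodule.span ℤ (s : Set (CuspForm.heckeAlgebra N 2 ∅)) := by
      rw [hs]; exact Submodule.mem_top
    induction ht using Submodule.span_induction with
    | mem x hx =>
      have hx' : x ∈ s := hx
      obtain ⟨e, he⟩ : (r x).den ∣ D := Finset.dvd_prod_of_mem _ hx'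
      refine ⟨e * (r x).num, ?_⟩
      rw [hr x, he]
      have h1 : ((r x : ℚ) : ℂ) = ((r x).num : ℂ) / ((r x).den : ℂ) := by
        conv_lhs => rw [← Rat.num_div_den (r x)]
        push_cast
        rfl
      have h2 : ((r x).den : ℂ) ≠ 0 := Nat.cast_ne_zero.mpr (r x).den_pos.ne'
      rw [h1]
      push_cast
      field_simp
    | zero =>
      refine ⟨0, ?_⟩
      have := qCoeff_smul' (0 : ℂ) (0 : CuspForm (Gamma0 N) 2) 1
      rw [zero_smul, zero_mul] at this
      simp only [ZeroMemClass.coe_zero, LinearMap.zero_apply, Int.cast_zero]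
      rw [this, mul_zero]
    | add x y _ _ hx hy =>
      obtain ⟨a, ha⟩ := hx
      obtain ⟨b, hb⟩ := hy
      refine ⟨a + b, ?_⟩
      simp only [Subalgebra.coe_add, LinearMap.add_apply]
      rw [qCoeff_add', mul_add, ha, hb]
      push_cast
      rfl
    | smul c x _ hx =>
      obtain ⟨a, ha⟩ := hx
      refine ⟨c * a, ?_⟩
      have : ((c • x : CuspForm.heckeAlgebra N 2 ∅) : Module.End ℂ (CuspForm (Gamma0 N) 2)) f
          = (c : ℂ) • ((x : Module.End ℂ (CuspForm (Gamma0 N) 2)) f) := by
        rw [Int.cast_smul_eq_zsmul]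
        rfl
      rw [this, qCoeff_smul', mul_left_comm, ha]
      push_cast
      rfl
  refine ⟨D, hDpos, fun n => ?_⟩
  rcases Nat.eq_zero_or_pos n with h0 | hpos
  · subst h0
    exact ⟨0, by rw [qCoeff_zero_idx]; simp⟩
  · obtain ⟨t, ht, htf⟩ := exists_hecke_coeff_one N n hpos
    obtain ⟨m, hm⟩ := key ⟨t, ht⟩
    exact ⟨m, by rw [htf f]; exact hm⟩

/-- rationality of the echelon forms from the twist property -/
theorem ratCoeff_of_twist (N : ℕ) [NeZero N] {ι : Type} (idx : ι → ℕ)
    (F : CuspForm (Gamma0 N) 2) (h01 : ∀ j, qCoeff F (idx j) = 0 ∨ qCoeff F (idx j) = 1)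
    (huniq : ∀ g h : CuspForm (Gamma0 N) 2, (∀ j, qCoeff g (idx j) = qCoeff h (idx j)) → g = h)
    (htw : ∃ A : Subalgebra ℚ ℂ, A.FG ∧ (∀ n, qCoeff F n ∈ A) ∧
      ∀ φ : A →+* ℂ, ∃ G : CuspForm (Gamma0 N) 2,
        ∀ n (h : qCoeff F n ∈ A), qCoeff G n = φ ⟨qCoeff F n, h⟩) :
    RatCoeff F := by
  obtain ⟨A, hA, hmem, htwist⟩ := htw
  intro n
  refine Fermat.Agent.S23.Descent.mem_range_of_forall_ringHom_fixed A hA ⟨qCoeff F n, hmem n⟩ ?_
  intro φ
  obtain ⟨G, hG⟩ := htwist φ
  have hGF : G = F := by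
    apply huniq
    intro j
    rw [hG (idx j) (hmem (idx j))]
    rcases h01 j with h | h
    · have : (⟨qCoeff F (idx j), hmem (idx j)⟩ : A) = 0 := Subtype.ext h
      rw [this, map_zero, h]
    · have : (⟨qCoeff F (idx j), hmem (idx j)⟩ : A) = 1 := Subtype.ext h
      rw [this, map_one, h]
  rw [← hG n (hmem n), hGF]

end Fermat.Agent.S23.Final

namespace Fermat.Agent.S23

open Fermat.Agent.S49 Fermat.Agent.S23.Final

/-- **Final step of S23**: the twist property implies the integral structure. -/
theorem hasIntegralStructure_of_twist (N : ℕ) [NeZero N]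
    (htw : ∀ F : CuspForm (Gamma0 N) 2, ∃ A : Subalgebra ℚ ℂ, A.FG ∧ (∀ n, qCoeff F n ∈ A) ∧
      ∀ φ : A →+* ℂ, ∃ G : CuspForm (Gamma0 N) 2,
        ∀ n (h : qCoeff F n ∈ A), qCoeff G n = φ ⟨qCoeff F n, h⟩) :
    CuspForm.HasIntegralStructure N 2 := by
  obtain ⟨ι, _, _, idx, f, hf, huniq, hspan⟩ := exists_echelon N
  unfold CuspForm.HasIntegralStructure
  rw [eq_top_iff, ← hspan, Submodule.span_le]
  rintro _ ⟨i, rfl⟩
  have hrat : RatCoeff (f i) := by
    refine ratCoeff_of_twist N idx (f i) (fun j => ?_) huniq (htw (f i))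
    rw [hf i j]
    by_cases h : j = i
    · right; rw [if_pos h]
    · left; rw [if_neg h]
  obtain ⟨D, hD, hDint⟩ := exists_denominator N (f i) hrat
  have hDne : (D : ℂ) ≠ 0 := Nat.cast_ne_zero.mpr hD.ne'
  have hmem : (D : ℂ) • f i ∈ CuspForm.intLattice N 2 := by
    apply Submodule.subset_span
    intro n
    obtain ⟨m, hm⟩ := hDint n
    exact ⟨m, by rw [qCoeff_smul', hm]⟩
  have : f i = (D : ℂ)⁻¹ • ((D : ℂ) • f i) := by
    rw [smul_smul, inv_mul_cancel₀ hDne, one_smul]
  rw [this]
  exact Submodule.smul_mem _ _ (Submodule.subset_span hmem)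

end Fermat.Agent.S23
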