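import Mathlib

/-!
# S23, module L1: rational spanning sets of level-one modular forms

For every weight `k : ℤ` the space `ModularForm 𝒮ℒ k` is spanned by finitely many forms whose
`q`-expansions have rational coefficients (products of Eisenstein series and the discriminant).
As a consequence every level-one form can be "twisted" by a ring homomorphism `A →+* ℂ`
of a subalgebra `A ⊆ ℂ` containing finitely many prescribed numbers.
-/

namespace Fermat.Agent.S23

open UpperHalfPlane CongruenceSubgroup ModularFormClass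
open scoped MatrixGroups ModularForm Manifold

namespace LevelOne

open ModularForm EisensteinSeries

/-- The subring of power series over `ℂ` with rational coefficients. -/
noncomputable def ratSeries : Subring (PowerSeries ℂ) := (PowerSeries.map (algebraMap ℚ ℂ)).range

lemma mem_ratSeries_iff (p : PowerSeries ℂ) :
    p ∈ ratSeries ↔ ∀ m, ∃ r : ℚ, p.coeff m = (r : ℂ) := by
  constructor
  · rintro ⟨s, rfl⟩ m
    exact ⟨s.coeff m, by simp⟩
  · intro h
    choose r hr using h
    refine ⟨PowerSeries.mk r, ?_⟩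
    ext m
    simp [hr m]

/-- The `q`-expansion as a linear map on level-one forms. -/
noncomputable def qExpLin (k : ℤ) : ModularForm 𝒮ℒ k →ₗ[ℂ] PowerSeries ℂ where
  toFun f := qExpansion 1 f
  map_add' f g := ModularForm.qExpansion_add one_pos one_mem_strictPeriods_SL f g
  map_smul' c f := ModularForm.qExpansion_smul one_pos one_mem_strictPeriods_SL c f

@[simp] lemma qExpLin_apply (k : ℤ) (f : ModularForm 𝒮ℒ k) : qExpLin k f = qExpansion 1 f := rfl

lemma ratSeries_E {k : ℕ} (hk : 3 ≤ k) (hk2 : Even k) :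
    qExpansion 1 (E hk) ∈ ratSeries := by
  rw [mem_ratSeries_iff]
  intro m
  rw [E_qExpansion_coeff hk hk2]
  by_cases hm : m = 0
  · exact ⟨1, by simp [hm]⟩
  · refine ⟨-(2 * k / bernoulli k) * (ArithmeticFunction.sigma (k - 1) m : ℚ), ?_⟩
    simp [hm]

lemma ratSeries_discriminant : qExpansion 1 ModularForm.discriminant ∈ ratSeries := by
  set g : ModularForm 𝒮ℒ 12 :=
    ModularForm.mcast (by decide) (E₄.pow 3) - ModularForm.mcast (by decide) (E₆.pow 2) with hg
  have hcoe : (ModularForm.discriminant : ℍ → ℂ) = (1 / 1728 : ℂ) • ⇑g := by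
    funext z
    rw [discriminant_eq_E₄_cube_sub_E₆_sq z]
    simp only [hg, Pi.smul_apply, smul_eq_mul, FunLike.coe_sub,
      Pi.sub_apply, ModularForm.coe_mcast, ModularForm.coe_pow, Pi.pow_apply]
    ring
  have hq : qExpansion 1 g = qExpansion 1 E₄ ^ 3 - qExpansion 1 E₆ ^ 2 := by
    simp only [hg, FunLike.coe_sub, ModularForm.coe_mcast,
      ModularForm.qExpansion_sub one_pos one_mem_strictPeriods_SL,
      ModularForm.qExpansion_pow one_pos one_mem_strictPeriods_SL]
  rw [hcoe, ModularForm.qExpansion_smul one_pos one_mem_strictPeriods_SL, hq]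
  have h4 : qExpansion 1 E₄ ∈ ratSeries := ratSeries_E (k := 4) (by norm_num) ⟨2, rfl⟩
  have h6 : qExpansion 1 E₆ ∈ ratSeries := ratSeries_E (k := 6) (by norm_num) ⟨3, rfl⟩
  have hc : (PowerSeries.C (1 / 1728 : ℂ)) ∈ ratSeries :=
    ⟨PowerSeries.C (1 / 1728 : ℚ), by simp⟩
  have := ratSeries.mul_mem hc (ratSeries.sub_mem (ratSeries.pow_mem h4 3) (ratSeries.pow_mem h6 2))
  rwa [← PowerSeries.smul_eq_C_mul] at this

/-- Multiplication by the discriminant as a linear map `M_{k-12} → M_k`. -/
noncomputable def mulDisc (k : ℤ) : ModularForm 𝒮ℒ (k - 12) →ₗ[ℂ] ModularForm 𝒮ℒ k :=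
  CuspForm.toModularFormₗ ∘ₗ (CuspForm.discriminantEquiv (k := k)).symm.toLinearMap

lemma mulDisc_apply (k : ℤ) (h : ModularForm 𝒮ℒ (k - 12)) (z : ℍ) :
    mulDisc k h z = ModularForm.discriminant z * h z := rfl

lemma qExpansion_mulDisc (k : ℤ) (h : ModularForm 𝒮ℒ (k - 12)) :
    qExpansion 1 (mulDisc k h) = qExpansion 1 ModularForm.discriminant * qExpansion 1 h := by
  have : (mulDisc k h : ℍ → ℂ) = ⇑CuspForm.discriminant * ⇑h := rfl
  rw [this, ModularForm.qExpansion_mul_coe one_pos one_mem_strictPeriods_SL, CuspForm.coe_discriminant]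

lemma span_empty_of_forall_zero {k : ℤ} (h : ∀ f : ModularForm 𝒮ℒ k, f = 0) :
    Submodule.span ℂ ((∅ : Finset (ModularForm 𝒮ℒ k)) : Set (ModularForm 𝒮ℒ k)) = ⊤ := by
  rw [eq_top_iff]
  intro f _
  rw [h f]
  exact Submodule.zero_mem _

/-- Level-one forms of any weight are spanned by a finite set of forms with rational
`q`-expansion. -/
theorem exists_finset_rational_span (k : ℤ) :
    ∃ s : Finset (ModularForm 𝒮ℒ k), (∀ f ∈ s, qExpansion 1 f ∈ ratSeries) ∧
      Submodule.span ℂ (s : Set (ModularForm 𝒮ℒ k)) = ⊤ := by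
  induction' hn : k.toNat using Nat.strong_induction_on with n ih generalizing k
  rcases lt_or_ge k 0 with hk | hk
  · exact ⟨∅, by simp, span_empty_of_forall_zero
      (rank_zero_iff_forall_zero.mp (ModularForm.levelOne_neg_weight_rank_zero hk))⟩
  rcases Int.even_or_odd k with hev | hodd
  swap
  · exact ⟨∅, by simp, span_empty_of_forall_zero (ModularForm.levelOne_odd_weight_eq_zero hodd)⟩
  rcases eq_or_ne k 0 with rfl | hk0
  · refine ⟨{1}, ?_, ?_⟩
    · intro f hf
      rw [Finset.mem_singleton] at hf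
      subst hf
      rw [ModularForm.qExpansion_one]
      exact ratSeries.one_mem
    · rw [eq_top_iff]
      intro f _
      obtain ⟨c, hc⟩ := ModularFormClass.levelOne_weight_zero_const f
      have hf : f = c • (1 : ModularForm 𝒮ℒ 0) := by
        ext z
        simp [hc]
      rw [hf]
      exact Submodule.smul_mem _ _ (Submodule.subset_span (by simp))
  rcases eq_or_ne k 2 with rfl | hk2
  · exact ⟨∅, by simp, span_empty_of_forall_zero
      (rank_zero_iff_forall_zero.mp ModularForm.levelOne_weight_two_rank_zero)⟩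
  obtain ⟨K, rfl⟩ := Int.eq_ofNat_of_zero_le hk
  have hK3 : 3 ≤ K := by
    rcases hev with ⟨r, hr⟩
    omega
  have hKev : Even K := by exact_mod_cast hev
  obtain ⟨s', hs', hspan'⟩ := ih ((K : ℤ) - 12).toNat (by omega) ((K : ℤ) - 12) rfl
  classical
  refine ⟨insert (E hK3) (s'.image (mulDisc (K : ℤ))), ?_, ?_⟩
  · intro f hf
    rw [Finset.mem_insert, Finset.mem_image] at hf
    rcases hf with rfl | ⟨h, hh, rfl⟩
    · exact ratSeries_E hK3 hKev
    · rw [qExpansion_mulDisc]
      exact ratSeries.mul_mem ratSeries_discriminant (hs' h hh)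
  · rw [eq_top_iff]
    intro f _
    obtain ⟨g, hg⟩ := ModularForm.sub_smul_isCuspForm f (E hK3) (E_qExpansion_coeff_zero hK3 hKev)
    have hgf : ∀ z, g z = f z - (qExpansion 1 f).coeff 0 * E hK3 z := by
      intro z
      have := congrArg (fun F : ModularForm 𝒮ℒ (K : ℤ) => F z) hg
      simpa using this
    have hf : f = (qExpansion 1 f).coeff 0 • E hK3 +
        mulDisc (K : ℤ) (CuspForm.discriminantEquiv g) := by
      ext z
      simp only [add_apply, smul_apply, smul_eq_mul, mulDisc_apply,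
        ModularForm.discriminant_mul_discriminantEquiv_apply, hgf z]
      ring
    rw [hf]
    refine Submodule.add_mem _ (Submodule.smul_mem _ _ (Submodule.subset_span (by simp))) ?_
    have hmem : CuspForm.discriminantEquiv g ∈
        Submodule.span ℂ (s' : Set (ModularForm 𝒮ℒ ((K : ℤ) - 12))) := by
      rw [hspan']; trivial
    have := Submodule.mem_map_of_mem (f := mulDisc (K : ℤ)) hmem
    rw [Submodule.map_span] at this
    refine Submodule.span_mono ?_ this
    intro x hx
    simp only [Finset.coe_insert, Finset.coe_image]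
    exact Set.mem_insert_of_mem _ hx

end LevelOne

/-- **S23, L1.** Level-one modular forms of weight `k` are spanned by finitely many forms with
rational `q`-expansion coefficients. -/
theorem levelOne_exists_rational_span (k : ℤ) :
    ∃ (n : ℕ) (b : Fin n → ModularForm 𝒮ℒ k),
      (∀ i m, ∃ r : ℚ, (qExpansion 1 (b i)).coeff m = (r : ℂ)) ∧
      Submodule.span ℂ (Set.range b) = ⊤ := by
  obtain ⟨s, hs, hspan⟩ := LevelOne.exists_finset_rational_span k
  refine ⟨s.card, fun i => (s.equivFin.symm i : ModularForm 𝒮ℒ k), ?_, ?_⟩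
  · intro i
    exact (LevelOne.mem_ratSeries_iff _).mp (hs _ (s.equivFin.symm i).2)
  · have : Set.range (fun i => (s.equivFin.symm i : ModularForm 𝒮ℒ k)) =
        (s : Set (ModularForm 𝒮ℒ k)) := by
      ext f
      constructor
      · rintro ⟨i, rfl⟩
        exact (s.equivFin.symm i).2
      · intro hf
        exact ⟨s.equivFin ⟨f, hf⟩, by simp⟩
    rw [this, hspan]

/-- **S23, L1 (twist form).** Every level-one modular form can be twisted by ring homomorphisms
of any subalgebra of `ℂ` containing a suitable finite set of numbers. -/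
theorem levelOne_twist (k : ℤ) (g : ModularForm 𝒮ℒ k) :
    ∃ S : Finset ℂ, ∀ A : Subalgebra ℚ ℂ, (↑S : Set ℂ) ⊆ A →
      ∃ s : PowerSeries A, qExpansion 1 g = s.map A.val ∧
        ∀ φ : A →+* ℂ, ∃ g' : ModularForm 𝒮ℒ k, qExpansion 1 g' = s.map φ := by
  classical
  obtain ⟨T, hT, hspan⟩ := LevelOne.exists_finset_rational_span k
  have hg : g ∈ Submodule.span ℂ (T : Set (ModularForm 𝒮ℒ k)) := by rw [hspan]; trivial
  obtain ⟨x, -, hx⟩ := Submodule.mem_span_finset.mp hg
  have hr : ∀ f : ModularForm 𝒮ℒ k, ∃ r : PowerSeries ℚ,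
      f ∈ T → r.map (algebraMap ℚ ℂ) = qExpansion 1 f := by
    intro f
    by_cases hf : f ∈ T
    · obtain ⟨r, hr⟩ := hT f hf
      exact ⟨r, fun _ => hr⟩
    · exact ⟨0, fun h => absurd h hf⟩
  choose r hr using hr
  refine ⟨T.image x, fun A hA => ?_⟩
  have hxA : ∀ f ∈ T, x f ∈ A := fun f hf => hA (by
    simp only [Finset.coe_image, Set.mem_image, Finset.mem_coe]
    exact ⟨f, hf, rfl⟩)
  set xA : ModularForm 𝒮ℒ k → A := fun f => if h : x f ∈ A then ⟨x f, h⟩ else 0 with hxAdef
  have hxA' : ∀ f ∈ T, (xA f : ℂ) = x f := by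
    intro f hf
    simp [hxAdef, hxA f hf]
  have hq : qExpansion 1 g = ∑ f ∈ T, PowerSeries.C (x f) * qExpansion 1 f := by
    have := congrArg (LevelOne.qExpLin k) hx
    simp only [map_sum, map_smul, LevelOne.qExpLin_apply] at this
    rw [← this]
    exact Finset.sum_congr rfl fun f _ => PowerSeries.smul_eq_C_mul _ _
  refine ⟨∑ f ∈ T, PowerSeries.C (xA f) * (r f).map (algebraMap ℚ A), ?_, ?_⟩
  · rw [hq, map_sum]
    refine Finset.sum_congr rfl fun f hf => ?_
    rw [map_mul, PowerSeries.map_C, ← hr f hf]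
    have h1 : (A.val : A →+* ℂ) (xA f) = x f := hxA' f hf
    have h2 : PowerSeries.map (A.val : A →+* ℂ) (PowerSeries.map (algebraMap ℚ A) (r f)) =
        PowerSeries.map (algebraMap ℚ ℂ) (r f) := by
      ext m
      simp
    rw [h1, h2]
  · intro φ
    refine ⟨∑ f ∈ T, φ (xA f) • f, ?_⟩
    have := (map_sum (LevelOne.qExpLin k) (fun f => φ (xA f) • f) T)
    simp only [map_smul, LevelOne.qExpLin_apply] at this
    rw [this, map_sum]
    refine Finset.sum_congr rfl fun f hf => ?_
    rw [map_mul, PowerSeries.map_C, PowerSeries.smul_eq_C_mul, ← hr f hf]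
    congr 1
    ext m
    simp only [PowerSeries.coeff_map]
    exact (RingHom.congr_fun (RingHom.ext_rat (φ.comp (algebraMap ℚ A)) (algebraMap ℚ ℂ)) _).symm

/-- **S23, L1 (twist form, cusp forms).** The twist of a level-one cusp form is a cusp form. -/
theorem levelOne_twist_cusp (k : ℤ) (g : CuspForm 𝒮ℒ k) :
    ∃ S : Finset ℂ, ∀ A : Subalgebra ℚ ℂ, (↑S : Set ℂ) ⊆ A →
      ∃ s : PowerSeries A, qExpansion 1 g = s.map A.val ∧
        ∀ φ : A →+* ℂ, ∃ g' : CuspForm 𝒮ℒ k, qExpansion 1 g' = s.map φ := by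
  obtain ⟨S, hS⟩ := levelOne_twist k (CuspForm.toModularFormₗ g)
  refine ⟨S, fun A hA => ?_⟩
  obtain ⟨s, hs, htw⟩ := hS A hA
  have hs' : qExpansion 1 g = s.map A.val := hs
  refine ⟨s, hs', fun φ => ?_⟩
  obtain ⟨g', hg'⟩ := htw φ
  have h0 : (qExpansion 1 g).coeff 0 = 0 :=
    (ModularForm.isCuspForm_iff_coeffZero_eq_zero (CuspForm.toModularFormₗ g)).mp ⟨g, rfl⟩
  have hs0 : s.coeff 0 = 0 := by
    rw [hs', PowerSeries.coeff_map] at h0
    exact Subtype.ext h0
  have h0' : (qExpansion 1 g').coeff 0 = 0 := by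
    rw [hg', PowerSeries.coeff_map, hs0, map_zero]
  exact ⟨ModularForm.toCuspForm g' h0', hg'⟩

end Fermat.Agent.S23
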