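import Mathlib
import Fermat.Prelude.Thm_CongruenceSubgroup_one_mem_strictPeriods_Gamma0

set_option autoImplicit false

/-!
# S23, analytic endgame: a quotient which is integral over cusp forms is a cusp form

* `norm_le_of_monic_eq`, `norm_pow_le_of_monic_eq`: root bounds for monic polynomials.
* `exists_differentiableOn_quotient`: division lemma on an open subset of `ℂ`.
-/

namespace Fermat.Agent.S23.Quotient

open Filter Topology

/-- A root of a monic polynomial is bounded by `max 1 (sum of the norms of the lower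
coefficients)`. -/
theorem norm_le_of_monic_eq {d : ℕ} (c : Fin d → ℂ) (x : ℂ)
    (h : x ^ d + ∑ i : Fin d, c i * x ^ (i : ℕ) = 0) :
    ‖x‖ ≤ max 1 (∑ i : Fin d, ‖c i‖) := by
  by_contra hcon
  rw [not_le] at hcon
  have h1 : 1 < ‖x‖ := lt_of_le_of_lt (le_max_left _ _) hcon
  have hS : ∑ i : Fin d, ‖c i‖ < ‖x‖ := lt_of_le_of_lt (le_max_right _ _) hcon
  rcases Nat.eq_zero_or_pos d with rfl | hd
  · simp at h
  have hx : x ^ d = - ∑ i : Fin d, c i * x ^ (i : ℕ) := eq_neg_of_add_eq_zero_left h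
  have hb : ‖x‖ ^ d ≤ (∑ i : Fin d, ‖c i‖) * ‖x‖ ^ (d - 1) := by
    calc ‖x‖ ^ d = ‖x ^ d‖ := (norm_pow _ _).symm
      _ = ‖∑ i : Fin d, c i * x ^ (i : ℕ)‖ := by rw [hx, norm_neg]
      _ ≤ ∑ i : Fin d, ‖c i * x ^ (i : ℕ)‖ := norm_sum_le _ _
      _ ≤ ∑ i : Fin d, ‖c i‖ * ‖x‖ ^ (d - 1) := by
          apply Finset.sum_le_sum
          intro i _
          rw [norm_mul, norm_pow]
          apply mul_le_mul_of_nonneg_left _ (norm_nonneg _)
          exact pow_le_pow_right₀ h1.le (by have := i.2; omega)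
      _ = _ := (Finset.sum_mul _ _ _).symm
  have hpos : 0 < ‖x‖ ^ (d - 1) := pow_pos (lt_trans zero_lt_one h1) _
  have hsplit : ‖x‖ ^ d = ‖x‖ * ‖x‖ ^ (d - 1) := by
    rw [← pow_succ']; congr 1; omega
  rw [hsplit] at hb
  exact absurd (le_of_mul_le_mul_right hb hpos) (not_le.mpr hS)

/-- If the lower coefficients of a monic polynomial are small, so are its roots. -/
theorem norm_pow_le_of_monic_eq {d : ℕ} (c : Fin d → ℂ) (x : ℂ)
    (h : x ^ d + ∑ i : Fin d, c i * x ^ (i : ℕ) = 0) (hc : ∑ i : Fin d, ‖c i‖ ≤ 1) :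
    ‖x‖ ^ d ≤ ∑ i : Fin d, ‖c i‖ := by
  have h1 : ‖x‖ ≤ 1 := (norm_le_of_monic_eq c x h).trans (max_le le_rfl hc)
  have hx : x ^ d = - ∑ i : Fin d, c i * x ^ (i : ℕ) := eq_neg_of_add_eq_zero_left h
  calc ‖x‖ ^ d = ‖x ^ d‖ := (norm_pow _ _).symm
    _ = ‖∑ i : Fin d, c i * x ^ (i : ℕ)‖ := by rw [hx, norm_neg]
    _ ≤ ∑ i : Fin d, ‖c i * x ^ (i : ℕ)‖ := norm_sum_le _ _
    _ ≤ ∑ i : Fin d, ‖c i‖ := by
        apply Finset.sum_le_sum
        intro i _
        rw [norm_mul, norm_pow]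
        exact mul_le_of_le_one_right (norm_nonneg _) (pow_le_one₀ (norm_nonneg _) h1)

/-- **Division lemma.** Let `P1, P2` be holomorphic on an open set `U ⊆ ℂ`, the zeros of `P2`
being isolated, and assume the homogeneous monic relation
`P1 ^ d + ∑ i < d, c i * P1 ^ i * P2 ^ (d - i) = 0` with continuous coefficients `c i`.
Then `P1 / P2` extends to a holomorphic function `G` on `U`, and `G` is a root of the monic
polynomial `X ^ d + ∑ i < d, c i * X ^ i`. -/
theorem exists_differentiableOn_quotient {U : Set ℂ} (hU : IsOpen U)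
    {P1 P2 : ℂ → ℂ} (h1 : DifferentiableOn ℂ P1 U) (h2 : DifferentiableOn ℂ P2 U)
    (hiso : ∀ z ∈ U, ∀ᶠ w in 𝓝[≠] z, P2 w ≠ 0)
    {d : ℕ} (c : Fin d → ℂ → ℂ) (hc : ∀ i, ContinuousOn (c i) U)
    (heq : ∀ z ∈ U, P1 z ^ d + ∑ i : Fin d, c i z * P1 z ^ (i : ℕ) * P2 z ^ (d - i) = 0) :
    ∃ G : ℂ → ℂ, DifferentiableOn ℂ G U ∧ (∀ z ∈ U, G z * P2 z = P1 z) ∧
      ∀ z ∈ U, G z ^ d + ∑ i : Fin d, c i z * G z ^ (i : ℕ) = 0 := by
  classical
  set g : ℂ → ℂ := fun z => P1 z / P2 z with hg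
  -- the monic equation for `g` away from the zeros of `P2`
  have hmon : ∀ z ∈ U, P2 z ≠ 0 → g z ^ d + ∑ i : Fin d, c i z * g z ^ (i : ℕ) = 0 := by
    intro z hz hz2
    have hne : P2 z ^ d ≠ 0 := pow_ne_zero _ hz2
    rw [← mul_left_inj' hne, zero_mul, add_mul, Finset.sum_mul, ← heq z hz]
    congr 1
    · simp only [hg]; rw [div_pow, div_mul_cancel₀ _ hne]
    · apply Finset.sum_congr rfl
      intro i _
      have hi : (i : ℕ) ≤ d := i.2.le
      have hsplit : P2 z ^ d = P2 z ^ (d - i) * P2 z ^ (i : ℕ) := by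
        rw [← pow_add, Nat.sub_add_cancel hi]
      have hne' : P2 z ^ (i : ℕ) ≠ 0 := pow_ne_zero _ hz2
      simp only [hg]
      rw [hsplit, div_pow]
      field_simp
  -- differentiability of `g` away from the zeros of `P2`
  have hgd : ∀ z ∈ U, P2 z ≠ 0 → DifferentiableAt ℂ g z := by
    intro z hz hz2
    exact ((h1 z hz).differentiableAt (hU.mem_nhds hz)).div
      ((h2 z hz).differentiableAt (hU.mem_nhds hz)) hz2
  set G : ℂ → ℂ := fun z => if P2 z = 0 then limUnder (𝓝[≠] z) g else g z with hG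
  have hGg : ∀ z, P2 z ≠ 0 → G z = g z := fun z hz => by simp [hG, hz]
  -- `G` is differentiable at every point of `U`
  have hGd : ∀ z ∈ U, DifferentiableAt ℂ G z := by
    intro z₀ hz₀
    by_cases hz2 : P2 z₀ = 0
    · -- removable singularity
      have hev : ∀ᶠ w in 𝓝 z₀, w ∈ U ∧ (w ≠ z₀ → P2 w ≠ 0) ∧
          ∀ i : Fin d, ‖c i w‖ ≤ ‖c i z₀‖ + 1 := by
        have e1 : ∀ᶠ w in 𝓝 z₀, w ∈ U := hU.mem_nhds hz₀
        have e2 : ∀ᶠ w in 𝓝 z₀, w ≠ z₀ → P2 w ≠ 0 := by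
          have := hiso z₀ hz₀
          rw [eventually_nhdsWithin_iff] at this
          exact this
        have e3 : ∀ᶠ w in 𝓝 z₀, ∀ i : Fin d, ‖c i w‖ ≤ ‖c i z₀‖ + 1 := by
          rw [eventually_all]
          intro i
          have hci : ContinuousAt (c i) z₀ := (hc i).continuousAt (hU.mem_nhds hz₀)
          have : ∀ᶠ w in 𝓝 z₀, ‖c i w‖ < ‖c i z₀‖ + 1 :=
            (hci.norm.tendsto).eventually (gt_mem_nhds (lt_add_one _))
          exact this.mono fun w hw => hw.le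
        exact e1.and (e2.and e3)
      obtain ⟨V, hVsub, hVo, hzV⟩ := eventually_nhds_iff.mp hev
      have hVn : V ∈ 𝓝 z₀ := hVo.mem_nhds hzV
      have hd' : DifferentiableOn ℂ g (V \ {z₀}) := by
        intro w hw
        have hw' := hVsub w hw.1
        exact (hgd w hw'.1 (hw'.2.1 hw.2)).differentiableWithinAt
      have hb : BddAbove (norm ∘ g '' (V \ {z₀})) := by
        refine ⟨max 1 (∑ i : Fin d, (‖c i z₀‖ + 1)), ?_⟩
        rintro _ ⟨w, hw, rfl⟩
        have hw' := hVsub w hw.1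
        have hroot := norm_le_of_monic_eq (fun i => c i w) (g w) (hmon w hw'.1 (hw'.2.1 hw.2))
        refine hroot.trans (max_le_max le_rfl ?_)
        exact Finset.sum_le_sum fun i _ => hw'.2.2 i
      have hupd := Complex.differentiableOn_update_limUnder_of_bddAbove hVn hd' hb
      have hEq : G =ᶠ[𝓝 z₀] Function.update g z₀ (limUnder (𝓝[≠] z₀) g) := by
        filter_upwards [hVn] with w hw
        by_cases hwz : w = z₀
        · subst hwz
          simp [hG, hz2]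
        · have hw' := hVsub w hw
          rw [Function.update_of_ne hwz, hGg w (hw'.2.1 hwz)]
      exact ((hupd z₀ hzV).differentiableAt hVn).congr_of_eventuallyEq hEq
    · have hEq : G =ᶠ[𝓝 z₀] g := by
        have hcont : ContinuousAt P2 z₀ :=
          ((h2 z₀ hz₀).differentiableAt (hU.mem_nhds hz₀)).continuousAt
        filter_upwards [hcont.eventually_ne hz2] with w hw
        exact hGg w hw
      exact (hgd z₀ hz₀ hz2).congr_of_eventuallyEq hEq
  refine ⟨G, fun z hz => (hGd z hz).differentiableWithinAt, ?_, ?_⟩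
  · intro z hz
    by_cases hz2 : P2 z = 0
    · rw [hz2, mul_zero]
      have h0 := heq z hz
      rcases Nat.eq_zero_or_pos d with rfl | hd
      · simp at h0
      have hsum : ∑ i : Fin d, c i z * P1 z ^ (i : ℕ) * P2 z ^ (d - i) = 0 := by
        apply Finset.sum_eq_zero
        intro i _
        have : d - (i : ℕ) ≠ 0 := by have := i.2; omega
        rw [hz2, zero_pow this, mul_zero]
      rw [hsum, add_zero] at h0
      exact (pow_eq_zero_iff hd.ne').mp h0 |>.symm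
    · rw [hGg z hz2]
      simp only [hg]
      exact div_mul_cancel₀ _ hz2
  · intro z₀ hz₀
    by_cases hz2 : P2 z₀ = 0
    · -- by continuity
      have hcont : ContinuousAt (fun w => G w ^ d + ∑ i : Fin d, c i w * G w ^ (i : ℕ)) z₀ := by
        have hGc : ContinuousAt G z₀ := (hGd z₀ hz₀).continuousAt
        refine (hGc.pow d).add ?_
        refine tendsto_finsetSum _ fun i _ => ?_
        exact ((hc i).continuousAt (hU.mem_nhds hz₀)).mul (hGc.pow _)
      have hev : ∀ᶠ w in 𝓝[≠] z₀, G w ^ d + ∑ i : Fin d, c i w * G w ^ (i : ℕ) = 0 := by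
        have e1 : ∀ᶠ w in 𝓝[≠] z₀, w ∈ U := nhdsWithin_le_nhds (hU.mem_nhds hz₀)
        filter_upwards [e1, hiso z₀ hz₀] with w hwU hw2
        rw [hGg w hw2]
        exact hmon w hwU hw2
      have ht1 : Tendsto (fun w => G w ^ d + ∑ i : Fin d, c i w * G w ^ (i : ℕ)) (𝓝[≠] z₀)
          (𝓝 (G z₀ ^ d + ∑ i : Fin d, c i z₀ * G z₀ ^ (i : ℕ))) :=
        hcont.tendsto.mono_left nhdsWithin_le_nhds
      have ht2 : Tendsto (fun w => G w ^ d + ∑ i : Fin d, c i w * G w ^ (i : ℕ)) (𝓝[≠] z₀)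
          (𝓝 0) := by
        refine Tendsto.congr' ?_ tendsto_const_nhds
        exact hev.mono fun w hw => hw.symm
      exact tendsto_nhds_unique ht1 ht2
    · rw [hGg z₀ hz2]
      exact hmon z₀ hz₀ hz2

/-- Version of the division lemma on a preconnected open set, where it suffices that `P2`
does not vanish identically. -/
theorem exists_differentiableOn_quotient_of_isPreconnected {U : Set ℂ} (hU : IsOpen U)
    (hUc : IsPreconnected U)
    {P1 P2 : ℂ → ℂ} (h1 : DifferentiableOn ℂ P1 U) (h2 : DifferentiableOn ℂ P2 U)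
    (hne : ∃ z ∈ U, P2 z ≠ 0)
    {d : ℕ} (c : Fin d → ℂ → ℂ) (hc : ∀ i, ContinuousOn (c i) U)
    (heq : ∀ z ∈ U, P1 z ^ d + ∑ i : Fin d, c i z * P1 z ^ (i : ℕ) * P2 z ^ (d - i) = 0) :
    ∃ G : ℂ → ℂ, DifferentiableOn ℂ G U ∧ (∀ z ∈ U, G z * P2 z = P1 z) ∧
      ∀ z ∈ U, G z ^ d + ∑ i : Fin d, c i z * G z ^ (i : ℕ) = 0 := by
  refine exists_differentiableOn_quotient hU h1 h2 ?_ c hc heq
  intro z hz
  by_contra hcon
  rw [not_eventually] at hcon
  have hfreq : ∃ᶠ w in 𝓝[≠] z, P2 w = 0 := hcon.mono fun w hw => not_not.mp hw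
  have han : AnalyticOnNhd ℂ P2 U := h2.analyticOnNhd hU
  have := han.eqOn_zero_of_preconnected_of_frequently_eq_zero hUc hz hfreq
  obtain ⟨w, hwU, hw⟩ := hne
  exact hw (this hwU)

/-! ### The upper half plane -/

open UpperHalfPlane CongruenceSubgroup ModularForm
open scoped MatrixGroups Manifold

/-- Division lemma on the upper half plane. -/
theorem exists_mdifferentiable_quotient {P1 P2 : ℍ → ℂ} (h1 : MDiff P1) (h2 : MDiff P2)
    (hne : ∃ z, P2 z ≠ 0) {d : ℕ} (c : Fin d → ℍ → ℂ) (hc : ∀ i, Continuous (c i))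
    (heq : ∀ z, P1 z ^ d + ∑ i : Fin d, c i z * P1 z ^ (i : ℕ) * P2 z ^ (d - i) = 0) :
    ∃ G : ℍ → ℂ, MDiff G ∧ (∀ z, G z * P2 z = P1 z) ∧
      ∀ z, G z ^ d + ∑ i : Fin d, c i z * G z ^ (i : ℕ) = 0 := by
  have hUo : IsOpen {z : ℂ | 0 < z.im} := isOpen_upperHalfPlaneSet
  have hUc : IsPreconnected {z : ℂ | 0 < z.im} := (convex_halfSpace_im_gt 0).isPreconnected
  have hne' : ∃ z ∈ {z : ℂ | 0 < z.im}, (P2 ∘ ofComplex) z ≠ 0 := by
    obtain ⟨z, hz⟩ := hne
    exact ⟨z, z.im_pos, by simpa using hz⟩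
  have hc' : ∀ i, ContinuousOn (c i ∘ ofComplex) {z : ℂ | 0 < z.im} := by
    intro i z hz
    exact ((hc i).continuousAt.comp
      (mdifferentiableAt_ofComplex hz).continuousAt).continuousWithinAt
  have heq' : ∀ z ∈ {z : ℂ | 0 < z.im}, (P1 ∘ ofComplex) z ^ d +
      ∑ i : Fin d, (c i ∘ ofComplex) z * (P1 ∘ ofComplex) z ^ (i : ℕ) *
        (P2 ∘ ofComplex) z ^ (d - i) = 0 := fun z _ => heq (ofComplex z)
  obtain ⟨G', hG'd, hG'mul, hG'mon⟩ := exists_differentiableOn_quotient_of_isPreconnected hUo hUc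
    (UpperHalfPlane.mdifferentiable_iff.mp h1) (UpperHalfPlane.mdifferentiable_iff.mp h2) hne'
    (fun i => c i ∘ ofComplex) hc' heq'
  refine ⟨fun z => G' z, ?_, ?_, ?_⟩
  · rw [UpperHalfPlane.mdifferentiable_iff]
    refine hG'd.congr ?_
    intro z hz
    simp only [Function.comp_apply]
    rw [ofComplex_apply_of_im_pos hz]
  · intro z
    simpa using hG'mul z z.im_pos
  · intro z
    simpa using hG'mon z z.im_pos

/-- Cancellation: if `a * P2 = b * P2` with `a, b` continuous and `P2` holomorphic, not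
identically zero, then `a = b`. -/
theorem eq_of_mul_eq_mul {P2 : ℍ → ℂ} (h2 : MDiff P2) (hne : ∃ z, P2 z ≠ 0)
    {a b : ℍ → ℂ} (ha : Continuous a) (hb : Continuous b)
    (h : ∀ z, a z * P2 z = b z * P2 z) : a = b := by
  by_contra hab
  obtain ⟨z₀, hz₀⟩ : ∃ z₀, a z₀ ≠ b z₀ := by
    by_contra hcon
    exact hab (funext fun z => not_not.mp (not_exists.mp hcon z))
  have hUo : IsOpen {z : ℂ | 0 < z.im} := isOpen_upperHalfPlaneSet
  have hUc : IsPreconnected {z : ℂ | 0 < z.im} := (convex_halfSpace_im_gt 0).isPreconnected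
  have han : AnalyticOnNhd ℂ (P2 ∘ ofComplex) {z : ℂ | 0 < z.im} :=
    (UpperHalfPlane.mdifferentiable_iff.mp h2).analyticOnNhd hUo
  have hopen : IsOpen {z : ℍ | a z ≠ b z} := isOpen_ne_fun ha hb
  have hcontO : ContinuousAt ofComplex (z₀ : ℂ) :=
    (mdifferentiableAt_ofComplex z₀.im_pos).continuousAt
  have hev : (P2 ∘ ofComplex) =ᶠ[𝓝 (z₀ : ℂ)] 0 := by
    have hmem : {z : ℍ | a z ≠ b z} ∈ 𝓝 (ofComplex (z₀ : ℂ)) := by
      rw [ofComplex_apply]
      exact hopen.mem_nhds hz₀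
    filter_upwards [hcontO hmem] with w hw
    have hw' : a (ofComplex w) ≠ b (ofComplex w) := hw
    have := h (ofComplex w)
    simp only [Function.comp_apply, Pi.zero_apply]
    by_contra hP
    exact hw' (mul_right_cancel₀ hP this)
  have hzero := han.eqOn_zero_of_preconnected_of_eventuallyEq_zero hUc z₀.im_pos hev
  obtain ⟨z, hz⟩ := hne
  apply hz
  have := hzero z.im_pos
  simpa using this

/-- The weight `k` slash of a root of a monic polynomial with level one coefficients of weights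
`k * (d - i)` is a root of the same polynomial. -/
theorem monic_eq_slash {G : ℍ → ℂ} {k : ℤ} {d : ℕ} (c : Fin d → ℍ → ℂ)
    (γ : SL(2, ℤ)) (hcs : ∀ i : Fin d, c i ∣[k * ((d : ℤ) - (i : ℕ))] γ = c i)
    (hmon : ∀ z, G z ^ d + ∑ i : Fin d, c i z * G z ^ (i : ℕ) = 0) (z : ℍ) :
    (G ∣[k] γ) z ^ d + ∑ i : Fin d, c i z * (G ∣[k] γ) z ^ (i : ℕ) = 0 := by
  have hj : denom γ z ≠ 0 := denom_ne_zero γ z
  have hci : ∀ i : Fin d, c i z = c i (γ • z) * denom γ z ^ (-(k * ((d : ℤ) - (i : ℕ)))) := by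
    intro i
    rw [← SL_slash_apply, hcs i]
  have key : (G ∣[k] γ) z ^ d + ∑ i : Fin d, c i z * (G ∣[k] γ) z ^ (i : ℕ) =
      denom γ z ^ (-(k * d)) * (G (γ • z) ^ d + ∑ i : Fin d, c i (γ • z) * G (γ • z) ^ (i : ℕ)) := by
    rw [mul_add, Finset.mul_sum]
    congr 1
    · rw [SL_slash_apply, mul_pow, ← zpow_natCast (denom γ z ^ (-k)), ← zpow_mul, mul_comm]
      congr 2
      ring
    · apply Finset.sum_congr rfl
      intro i _
      rw [hci i, SL_slash_apply, mul_pow, ← zpow_natCast (denom γ z ^ (-k)), ← zpow_mul]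
      have : denom γ z ^ (-(k * (d : ℤ))) =
          denom γ z ^ (-(k * ((d : ℤ) - (i : ℕ)))) * denom γ z ^ (-k * ((i : ℕ) : ℤ)) := by
        rw [← zpow_add₀ hj]
        congr 1
        ring
      rw [this]
      ring
  rw [key, hmon (γ • z), mul_zero]

/-- A root of a monic polynomial whose lower coefficients tend to zero at `i∞` tends to zero
at `i∞`. -/
theorem isZeroAtImInfty_of_monic_eq {x : ℍ → ℂ} {d : ℕ} (c : Fin d → ℍ → ℂ)
    (hc0 : ∀ i, IsZeroAtImInfty (c i))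
    (hmon : ∀ z, x z ^ d + ∑ i : Fin d, c i z * x z ^ (i : ℕ) = 0) :
    IsZeroAtImInfty x := by
  have hS : Tendsto (fun z => ∑ i : Fin d, ‖c i z‖) atImInfty (𝓝 0) := by
    have : Tendsto (fun z => ∑ i : Fin d, ‖c i z‖) atImInfty (𝓝 (∑ _i : Fin d, (0 : ℝ))) :=
      tendsto_finsetSum _ fun i _ => (tendsto_zero_iff_norm_tendsto_zero.mp (hc0 i))
    simpa using this
  rw [IsZeroAtImInfty, ZeroAtFilter, NormedAddGroup.tendsto_nhds_zero]
  intro ε hε
  set ε' : ℝ := min ε 1 with hε'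
  have hε'pos : 0 < ε' := lt_min hε one_pos
  have hε'le : ε' ≤ 1 := min_le_right _ _
  have hpow : 0 < ε' ^ d := pow_pos hε'pos d
  have hev : ∀ᶠ z in atImInfty, ∑ i : Fin d, ‖c i z‖ < ε' ^ d :=
    hS.eventually (gt_mem_nhds hpow)
  filter_upwards [hev] with z hz
  have hle1 : ∑ i : Fin d, ‖c i z‖ ≤ 1 := hz.le.trans (pow_le_one₀ hε'pos.le hε'le)
  have h1 := norm_pow_le_of_monic_eq (fun i => c i z) (x z) (hmon z) hle1
  have h2 : ‖x z‖ ^ d < ε' ^ d := lt_of_le_of_lt h1 hz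
  exact lt_of_lt_of_le (lt_of_pow_lt_pow_left₀ d hε'pos.le h2) (min_le_left _ _)

/-- **A quotient which is integral over level one cusp forms is a cusp form.**
Let `P1`, `P2` be holomorphic on `ℍ`, slash invariant under `Γ₀(N)` of weights `k + w` and `w`,
`P2` not identically zero, and assume the homogeneous monic relation
`P1 ^ d + ∑ i < d, c i * P1 ^ i * P2 ^ (d - i) = 0` where the `c i` are continuous, invariant
under `SL(2, ℤ)` of weight `k * (d - i)` and tend to zero at `i∞`. Then there is a cusp form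
`G` of weight `k` and level `Γ₀(N)` with `G * P2 = P1`; moreover `G` is a root of the monic
polynomial `X ^ d + ∑ i < d, c i * X ^ i`. -/
theorem exists_cuspForm_of_monic_quotient (N : ℕ) [NeZero N] (k w : ℤ)
    {P1 P2 : ℍ → ℂ} (h1 : MDiff P1) (h2 : MDiff P2) (hne : ∃ z, P2 z ≠ 0)
    (h1s : ∀ γ ∈ Gamma0 N, P1 ∣[k + w] γ = P1)
    (h2s : ∀ γ ∈ Gamma0 N, P2 ∣[w] γ = P2)
    {d : ℕ} (c : Fin d → ℍ → ℂ) (hc : ∀ i, Continuous (c i))
    (hcs : ∀ (i : Fin d) (γ : SL(2, ℤ)), c i ∣[k * ((d : ℤ) - (i : ℕ))] γ = c i)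
    (hc0 : ∀ i, IsZeroAtImInfty (c i))
    (heq : ∀ z, P1 z ^ d + ∑ i : Fin d, c i z * P1 z ^ (i : ℕ) * P2 z ^ (d - i) = 0) :
    ∃ G : CuspForm (Gamma0 N) k, (∀ z, G z * P2 z = P1 z) ∧
      ∀ z, G z ^ d + ∑ i : Fin d, c i z * G z ^ (i : ℕ) = 0 := by
  obtain ⟨G, hGd, hGmul, hGmon⟩ := exists_mdifferentiable_quotient h1 h2 hne c hc heq
  have hGP : G * P2 = P1 := funext hGmul
  have hslash : ∀ γ ∈ Gamma0 N, G ∣[k] γ = G := by
    intro γ hγ
    refine eq_of_mul_eq_mul h2 hne ?_ hGd.continuous ?_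
    · rw [SL_slash]
      exact (hGd.slash k _).continuous
    · intro z
      have := mul_slash_SL2 k w γ G P2
      rw [hGP, h1s γ hγ, h2s γ hγ] at this
      have h' := congrFun this z
      rw [Pi.mul_apply] at h'
      rw [← h', hGmul z]
  refine ⟨{ toFun := G
            slash_action_eq' := ?_
            holo' := hGd
            zero_at_cusps' := ?_ }, hGmul, hGmon⟩
  · rintro γ ⟨γ', hγ', rfl⟩
    exact hslash γ' hγ'
  · intro cusp hcusp
    rw [Subgroup.IsArithmetic.isCusp_iff_isCusp_SL2Z] at hcusp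
    rw [OnePoint.isZeroAt_iff_forall_SL2Z hcusp]
    intro γ _
    exact isZeroAtImInfty_of_monic_eq c hc0 (monic_eq_slash c γ (fun i => hcs i γ) hGmon)

end Fermat.Agent.S23.Quotient

/-! ### Bundled interface (shape of the S23 architecture skeleton) -/

namespace Fermat.Agent.S23

open UpperHalfPlane CongruenceSubgroup ModularFormClass
open scoped MatrixGroups ModularForm Manifold

/-- Bundled version of `Quotient.exists_cuspForm_of_monic_quotient`, with the q-expansion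
identity `qExpansion 1 G * qExpansion 1 P2 = qExpansion 1 P1` and the monic relation for `G`. -/
theorem exists_cuspForm_of_monic_quotient_qExpansion (N : ℕ) [NeZero N] (k w : ℤ)
    (P1 : ModularForm (Gamma0 N) (w + k)) (P2 : ModularForm (Gamma0 N) w) (hP2 : P2 ≠ 0)
    (d : ℕ) (c : Fin d → ℍ → ℂ)
    (hc : ∀ i : Fin d, ∃ g : CuspForm 𝒮ℒ (k * ((d : ℤ) - (i : ℤ))), ⇑g = c i)
    (heq : ∀ z, P1 z ^ d + ∑ i : Fin d, c i z * P1 z ^ (i : ℕ) * P2 z ^ (d - (i : ℕ)) = 0) :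
    ∃ G : CuspForm (Gamma0 N) k, (∀ z, G z * P2 z = P1 z) ∧
      qExpansion 1 G * qExpansion 1 P2 = qExpansion 1 P1 ∧
      ∀ z, G z ^ d + ∑ i : Fin d, c i z * G z ^ (i : ℕ) = 0 := by
  have hne : ∃ z, P2 z ≠ 0 := by
    by_contra hcon
    exact hP2 (ModularForm.ext fun z => not_not.mp (not_exists.mp hcon z))
  have h1s : ∀ γ ∈ Gamma0 N, (⇑P1) ∣[k + w] γ = ⇑P1 := by
    intro γ hγ
    rw [add_comm]
    exact SlashInvariantFormClass.slash_action_eq P1 _ (Subgroup.mem_map_of_mem _ hγ)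
  have h2s : ∀ γ ∈ Gamma0 N, (⇑P2) ∣[w] γ = ⇑P2 := by
    intro γ hγ
    exact SlashInvariantFormClass.slash_action_eq P2 _ (Subgroup.mem_map_of_mem _ hγ)
  have hcc : ∀ i, Continuous (c i) := by
    intro i
    obtain ⟨g, hg⟩ := hc i
    rw [← hg]
    exact (CuspFormClass.holo g).continuous
  have hcs : ∀ (i : Fin d) (γ : SL(2, ℤ)), c i ∣[k * ((d : ℤ) - (i : ℕ))] γ = c i := by
    intro i γ
    obtain ⟨g, hg⟩ := hc i
    rw [← hg]
    exact SlashInvariantFormClass.slash_action_eq g _ ⟨γ, rfl⟩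
  have hc0 : ∀ i, IsZeroAtImInfty (c i) := by
    intro i
    obtain ⟨g, hg⟩ := hc i
    rw [← hg]
    exact CuspFormClass.zero_at_infty g
  obtain ⟨G, hG, hGmon⟩ := Quotient.exists_cuspForm_of_monic_quotient N k w
    (ModularFormClass.holo P1) (ModularFormClass.holo P2) hne h1s h2s c hcc hcs hc0 heq
  refine ⟨G, hG, ?_, hGmon⟩
  have hΓ := CongruenceSubgroup.one_mem_strictPeriods_Gamma0 N
  rw [← ModularForm.qExpansion_mul_coe one_pos hΓ G P2]
  congr 1
  exact funext hG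

/-- **A quotient which is integral over level one cusp forms is a cusp form**
(exact shape of the architecture skeleton). -/
theorem exists_cuspForm_of_monic_quotient (N : ℕ) [NeZero N] (k w : ℤ)
    (P1 : ModularForm (Gamma0 N) (w + k)) (P2 : ModularForm (Gamma0 N) w) (hP2 : P2 ≠ 0)
    (d : ℕ) (_hd : 0 < d) (c : Fin d → ℍ → ℂ)
    (hc : ∀ i : Fin d, ∃ g : CuspForm 𝒮ℒ (k * ((d : ℤ) - (i : ℤ))), ⇑g = c i)
    (heq : ∀ z, P1 z ^ d + ∑ i : Fin d, c i z * P1 z ^ (i : ℕ) * P2 z ^ (d - (i : ℕ)) = 0) :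
    ∃ G : CuspForm (Gamma0 N) k, ∀ z, G z * P2 z = P1 z := by
  obtain ⟨G, hG, -, -⟩ := exists_cuspForm_of_monic_quotient_qExpansion N k w P1 P2 hP2 d c hc heq
  exact ⟨G, hG⟩

/-- Variant with independent weights `k1 = k2 + k` (consumer shape of the twist theorem). -/
theorem exists_cuspForm_of_monic_quotient' (N : ℕ) [NeZero N] (k k1 k2 : ℤ) (hk : k1 = k2 + k)
    (P1 : ModularForm (Gamma0 N) k1) (P2 : ModularForm (Gamma0 N) k2) (hP2 : P2 ≠ 0)
    (d : ℕ) (c : Fin d → ℍ → ℂ)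
    (hc : ∀ i : Fin d, ∃ g : CuspForm 𝒮ℒ (k * ((d : ℤ) - (i : ℤ))), ⇑g = c i)
    (heq : ∀ z, P1 z ^ d + ∑ i : Fin d, c i z * P1 z ^ (i : ℕ) * P2 z ^ (d - (i : ℕ)) = 0) :
    ∃ G : CuspForm (Gamma0 N) k, (∀ z, G z * P2 z = P1 z) ∧
      qExpansion 1 G * qExpansion 1 P2 = qExpansion 1 P1 ∧
      ∀ z, G z ^ d + ∑ i : Fin d, c i z * G z ^ (i : ℕ) = 0 := by
  subst hk
  exact exists_cuspForm_of_monic_quotient_qExpansion N k k2 P1 P2 hP2 d c hc heq

end Fermat.Agent.S23
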