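import Mathlib
import Fermat.Agent.S23_Quotient

set_option autoImplicit false

/-!
# S23: transport of the Lagrange certificate along ring homomorphisms (the twist theorem)

`twist_core`: let `F` be a weight two cusp form on `Γ₀(N)`.  Given
* a generator `Θ` (weight 12, level `N`) with rational `q`-expansion,
* the level-one twist property (every level-one form has a `q`-expansion with coefficients in any
  subalgebra `A` containing finitely many numbers, and ring homs `A → ℂ` can be applied),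
* a certificate `F * Σ D_l Θ^l = Σ C_l Θ^l`, `Σ D_l Θ^l ≠ 0`, `F^μ + Σ c_i F^i = 0` with level-one
  coefficients (`c_i` cusp forms),
there is a finite set `S ⊆ ℂ` such that for every `ℚ`-subalgebra `A ⊇ S` the `q`-expansion of `F`
has coefficients in `A`, and for every ring hom `φ : A → ℂ` the series obtained by applying `φ`
to the coefficients is again the `q`-expansion of a weight two cusp form on `Γ₀(N)`.
-/

open UpperHalfPlane ModularForm ModularFormClass CongruenceSubgroup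
open scoped MatrixGroups ModularForm Manifold

namespace Fermat.Agent.S23.Twist

/-- Functions on the upper half plane with a well-behaved `q`-expansion (period one). -/
def QGood (f : ℍ → ℂ) : Prop :=
  Function.Periodic (f ∘ ofComplex) 1 ∧ MDiff f ∧ IsBoundedAtImInfty f

theorem QGood.analytic {f : ℍ → ℂ} (hf : QGood f) : AnalyticAt ℂ (cuspFunction 1 f) 0 :=
  analyticAt_cuspFunction_zero one_pos hf.1 hf.2.1 hf.2.2

theorem QGood.mdiff {f : ℍ → ℂ} (hf : QGood f) : MDiff f := hf.2.1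

theorem QGood.zero : QGood (0 : ℍ → ℂ) := by
  refine ⟨fun x => rfl, ?_, ?_⟩
  · exact mdifferentiable_const
  · exact Filter.const_boundedAtFilter _ (0 : ℂ)

theorem QGood.one : QGood (1 : ℍ → ℂ) := by
  refine ⟨fun x => rfl, ?_, ?_⟩
  · exact mdifferentiable_const
  · exact Filter.const_boundedAtFilter _ (1 : ℂ)

theorem QGood.add {f g : ℍ → ℂ} (hf : QGood f) (hg : QGood g) : QGood (f + g) := by
  refine ⟨?_, hf.2.1.add hg.2.1, hf.2.2.add hg.2.2⟩
  exact hf.1.add hg.1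

theorem QGood.mul {f g : ℍ → ℂ} (hf : QGood f) (hg : QGood g) : QGood (f * g) := by
  refine ⟨?_, hf.2.1.mul hg.2.1, hf.2.2.mul hg.2.2⟩
  exact hf.1.mul hg.1

theorem QGood.pow {f : ℍ → ℂ} (hf : QGood f) (n : ℕ) : QGood (f ^ n) := by
  induction n with
  | zero => simpa using QGood.one
  | succ n ih => rw [pow_succ]; exact ih.mul hf

theorem QGood.sum {ι : Type*} (T : Finset ι) {f : ι → ℍ → ℂ} (hf : ∀ i ∈ T, QGood (f i)) :
    QGood (∑ i ∈ T, f i) := by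
  classical
  induction T using Finset.induction_on with
  | empty => simpa using QGood.zero
  | insert a T ha ih =>
    rw [Finset.sum_insert ha]
    exact (hf a (Finset.mem_insert_self a T)).add
      (ih fun i hi => hf i (Finset.mem_insert_of_mem hi))

theorem QGood.of_form {F : Type*} [FunLike F ℍ ℂ] {Γ : Subgroup (GL (Fin 2) ℝ)} {k : ℤ}
    [ModularFormClass F Γ k] (f : F) (hΓ : (1 : ℝ) ∈ Γ.strictPeriods) : QGood (f : ℍ → ℂ) := by
  have : Fact (IsCusp OnePoint.infty Γ) := ⟨Γ.isCusp_of_mem_strictPeriods one_pos hΓ⟩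
  exact ⟨SlashInvariantFormClass.periodic_comp_ofComplex f hΓ, ModularFormClass.holo f,
    ModularFormClass.bdd_at_infty f⟩

theorem QGood.eq_zero {f : ℍ → ℂ} (hf : QGood f) (h : qExpansion 1 f = 0) : f = 0 :=
  (qExpansion_eq_zero_iff one_pos hf.1 hf.2.1 hf.2.2).1 h

/-- `f` has `q`-expansion `s` pushed forward along `ψ`. -/
def Mod {A : Type*} [CommRing A] (ψ : A →+* ℂ) (s : PowerSeries A) (f : ℍ → ℂ) : Prop :=
  QGood f ∧ qExpansion 1 f = PowerSeries.map ψ s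

section Mod

variable {A : Type*} [CommRing A] {ψ : A →+* ℂ}

theorem Mod.zero : Mod ψ 0 (0 : ℍ → ℂ) := ⟨QGood.zero, by simp [qExpansion_zero]⟩

theorem Mod.one : Mod ψ 1 (1 : ℍ → ℂ) := ⟨QGood.one, by simp [qExpansion_one]⟩

theorem Mod.add {s s' : PowerSeries A} {f f' : ℍ → ℂ} (h : Mod ψ s f) (h' : Mod ψ s' f') :
    Mod ψ (s + s') (f + f') :=
  ⟨h.1.add h'.1, by rw [qExpansion_add h.1.analytic h'.1.analytic, h.2, h'.2, map_add]⟩

theorem Mod.mul {s s' : PowerSeries A} {f f' : ℍ → ℂ} (h : Mod ψ s f) (h' : Mod ψ s' f') :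
    Mod ψ (s * s') (f * f') :=
  ⟨h.1.mul h'.1, by rw [qExpansion_mul h.1.analytic h'.1.analytic, h.2, h'.2, map_mul]⟩

theorem Mod.pow {s : PowerSeries A} {f : ℍ → ℂ} (h : Mod ψ s f) (n : ℕ) :
    Mod ψ (s ^ n) (f ^ n) := by
  induction n with
  | zero => simpa using Mod.one
  | succ n ih => rw [pow_succ, pow_succ]; exact ih.mul h

theorem Mod.sum {ι : Type*} (T : Finset ι) {s : ι → PowerSeries A} {f : ι → ℍ → ℂ}
    (h : ∀ i ∈ T, Mod ψ (s i) (f i)) : Mod ψ (∑ i ∈ T, s i) (∑ i ∈ T, f i) := by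
  classical
  induction T using Finset.induction_on with
  | empty => simpa using Mod.zero
  | insert a T ha ih =>
    rw [Finset.sum_insert ha, Finset.sum_insert ha]
    exact (h a (Finset.mem_insert_self a T)).add
      (ih fun i hi => h i (Finset.mem_insert_of_mem hi))

end Mod

/-! ### Division of power series over a subring -/

theorem exists_div {A : Type*} [CommRing A] (ι : A →+* ℂ) (hι : Function.Injective ι)
    (sD sP : PowerSeries A) (f : PowerSeries ℂ) (m : ℕ)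
    (hm : ∀ n < m, PowerSeries.coeff n sD = 0) (hu : IsUnit (PowerSeries.coeff m sD))
    (h : f * PowerSeries.map ι sD = PowerSeries.map ι sP) :
    ∃ t : PowerSeries A, f = PowerSeries.map ι t ∧ t * sD = sP := by
  obtain ⟨v, hv⟩ := PowerSeries.X_pow_dvd_iff.mpr hm
  have hvu : IsUnit v := by
    rw [PowerSeries.isUnit_iff_constantCoeff]
    have hc : PowerSeries.constantCoeff v = PowerSeries.coeff m sD := by
      rw [hv, ← PowerSeries.coeff_zero_eq_constantCoeff_apply]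
      have := PowerSeries.coeff_X_pow_mul' v m m
      simp [this]
    rw [hc]; exact hu
  obtain ⟨vu, rfl⟩ := hvu
  set w : PowerSeries A := sP * ↑vu⁻¹ with hw
  have h1 : PowerSeries.map ι w = f * PowerSeries.X ^ m := by
    have hone : PowerSeries.map ι ↑vu * PowerSeries.map ι ↑vu⁻¹ = 1 := by
      rw [← map_mul]; simp
    rw [hw, map_mul, ← h, hv, map_mul, map_pow, PowerSeries.map_X]
    calc f * (PowerSeries.X ^ m * PowerSeries.map ι ↑vu) * PowerSeries.map ι ↑vu⁻¹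
        = f * PowerSeries.X ^ m * (PowerSeries.map ι ↑vu * PowerSeries.map ι ↑vu⁻¹) := by ring
      _ = f * PowerSeries.X ^ m := by rw [hone, mul_one]
  have h2 : ∀ n < m, PowerSeries.coeff n w = 0 := by
    intro n hn
    apply hι
    rw [map_zero, ← PowerSeries.coeff_map, h1, PowerSeries.coeff_mul_X_pow', if_neg (by omega)]
  obtain ⟨t, ht⟩ := PowerSeries.X_pow_dvd_iff.mpr h2
  refine ⟨t, ?_, ?_⟩
  · have hX : (PowerSeries.X : PowerSeries ℂ) ^ m * f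
        = PowerSeries.X ^ m * PowerSeries.map ι t := by
      rw [mul_comm, ← h1, ht, map_mul, map_pow, PowerSeries.map_X]
    exact mul_left_cancel₀ (pow_ne_zero m PowerSeries.X_ne_zero) hX
  · rw [hv]
    calc t * (PowerSeries.X ^ m * ↑vu) = (PowerSeries.X ^ m * t) * ↑vu := by ring
      _ = w * ↑vu := by rw [ht]
      _ = sP := by rw [hw, mul_assoc, Units.inv_mul, mul_one]

/-! ### Slash invariance of polynomial expressions -/

/-- Slash invariance of weight `k` under a subgroup of `SL(2, ℤ)`. -/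
def SI (Γ : Subgroup SL(2, ℤ)) (k : ℤ) (f : ℍ → ℂ) : Prop := ∀ γ ∈ Γ, f ∣[k] γ = f

section SI

variable {Γ : Subgroup SL(2, ℤ)}

theorem SI.cast {k k' : ℤ} {f : ℍ → ℂ} (h : k = k') (hf : SI Γ k f) : SI Γ k' f := h ▸ hf

theorem SI.one : SI Γ 0 (1 : ℍ → ℂ) := fun γ _ => is_invariant_one γ

theorem SI.mul {k1 k2 : ℤ} {f g : ℍ → ℂ} (hf : SI Γ k1 f) (hg : SI Γ k2 g) :
    SI Γ (k1 + k2) (f * g) := fun γ hγ => by
  rw [mul_slash_SL2, hf γ hγ, hg γ hγ]

theorem SI.pow {k : ℤ} {f : ℍ → ℂ} (hf : SI Γ k f) (n : ℕ) : SI Γ (n * k) (f ^ n) := by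
  induction n with
  | zero => simpa using (SI.one : SI Γ 0 (1 : ℍ → ℂ))
  | succ n ih =>
    rw [pow_succ]
    exact (ih.mul hf).cast (by push_cast; ring)

theorem SI.sum {ι : Type*} (T : Finset ι) {k : ℤ} {f : ι → ℍ → ℂ}
    (h : ∀ i ∈ T, SI Γ k (f i)) : SI Γ k (∑ i ∈ T, f i) := fun γ hγ => by
  rw [SlashAction.sum_slash]
  exact Finset.sum_congr rfl fun i hi => h i hi γ hγ

theorem SI.of_levelOne {F : Type*} [FunLike F ℍ ℂ] {k : ℤ} [SlashInvariantFormClass F 𝒮ℒ k]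
    (g : F) : SI Γ k (g : ℍ → ℂ) := fun γ _ => by
  rw [SL_slash]
  exact SlashInvariantFormClass.slash_action_eq g _ ⟨γ, rfl⟩

theorem SI.of_form {F : Type*} [FunLike F ℍ ℂ] {k : ℤ}
    [SlashInvariantFormClass F (Γ : Subgroup (GL (Fin 2) ℝ)) k]
    (g : F) : SI Γ k (g : ℍ → ℂ) := fun γ hγ => by
  rw [SL_slash]
  exact SlashInvariantFormClass.slash_action_eq g _ ⟨γ, hγ, rfl⟩

end SI

/-! ### The twist theorem -/

theorem twist_core (N : ℕ) [NeZero N] (F : CuspForm (Gamma0 N) 2)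
    (Θ : ModularForm (Gamma0 N) 12)
    (hΘ : ∃ r : PowerSeries ℚ, qExpansion 1 Θ = r.map (algebraMap ℚ ℂ))
    (hL1 : ∀ (k : ℤ) (g : ModularForm 𝒮ℒ k), ∃ S : Finset ℂ, ∀ A : Subalgebra ℚ ℂ,
      (↑S : Set ℂ) ⊆ A → ∃ s : PowerSeries A, qExpansion 1 g = s.map (algebraMap A ℂ) ∧
        ∀ φ : A →+* ℂ, ∃ g' : ModularForm 𝒮ℒ k, qExpansion 1 g' = s.map φ)
    (hcert : ∃ (μ : ℕ) (C D c : Fin μ → ℍ → ℂ),
      (∀ l : Fin μ, ∃ g : ModularForm 𝒮ℒ (2 + 12 * ((μ : ℤ) - 1 - (l : ℕ))), ⇑g = C l) ∧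
      (∀ l : Fin μ, ∃ g : ModularForm 𝒮ℒ (12 * ((μ : ℤ) - 1 - (l : ℕ))), ⇑g = D l) ∧
      (∀ i : Fin μ, ∃ g : CuspForm 𝒮ℒ (2 * ((μ : ℤ) - (i : ℕ))), ⇑g = c i) ∧
      (∀ z : ℍ, F z * ∑ l : Fin μ, D l z * Θ z ^ (l : ℕ) = ∑ l : Fin μ, C l z * Θ z ^ (l : ℕ)) ∧
      (∃ z : ℍ, ∑ l : Fin μ, D l z * Θ z ^ (l : ℕ) ≠ 0) ∧
      (∀ z : ℍ, F z ^ μ + ∑ i : Fin μ, c i z * F z ^ (i : ℕ) = 0)) :
    ∃ S : Finset ℂ, ∀ A : Subalgebra ℚ ℂ, (↑S : Set ℂ) ⊆ A →
      ∃ t : PowerSeries A, qExpansion 1 F = t.map (algebraMap A ℂ) ∧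
        ∀ φ : A →+* ℂ, ∃ G : CuspForm (Gamma0 N) 2, qExpansion 1 G = t.map φ := by
  classical
  obtain ⟨μ, C, D, c, hC, hD, hc, hFD, hne, hmon⟩ := hcert
  obtain ⟨rΘ, hrΘ⟩ := hΘ
  choose gC hgC using hC
  choose gD hgD using hD
  choose gc hgc using hc
  choose SC hSC using fun l => hL1 _ (gC l)
  choose SD hSD using fun l => hL1 _ (gD l)
  choose Sc hSc using fun i => hL1 _ (CuspForm.toModularFormₗ (gc i))
  have hΓ1 : (1 : ℝ) ∈ (Gamma0 N : Subgroup (GL (Fin 2) ℝ)).strictPeriods := by simp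
  have gF : QGood ⇑F := QGood.of_form F hΓ1
  have gΘ : QGood ⇑Θ := QGood.of_form Θ hΓ1
  have gCl : ∀ l, QGood (C l) := fun l => hgC l ▸ QGood.of_form (gC l) one_mem_strictPeriods_SL
  have gDl : ∀ l, QGood (D l) := fun l => hgD l ▸ QGood.of_form (gD l) one_mem_strictPeriods_SL
  have gcl : ∀ i, QGood (c i) := fun i => hgc i ▸ QGood.of_form (gc i) one_mem_strictPeriods_SL
  set P1 : ℍ → ℂ := ∑ l : Fin μ, C l * ⇑Θ ^ (l : ℕ) with hP1
  set P2 : ℍ → ℂ := ∑ l : Fin μ, D l * ⇑Θ ^ (l : ℕ) with hP2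
  have hP1z : ∀ z, P1 z = ∑ l : Fin μ, C l z * Θ z ^ (l : ℕ) := fun z => by
    simp [hP1, Finset.sum_apply]
  have hP2z : ∀ z, P2 z = ∑ l : Fin μ, D l z * Θ z ^ (l : ℕ) := fun z => by
    simp [hP2, Finset.sum_apply]
  have gP1 : QGood P1 := QGood.sum _ fun l _ => (gCl l).mul (gΘ.pow _)
  have gP2 : QGood P2 := QGood.sum _ fun l _ => (gDl l).mul (gΘ.pow _)
  have hFP : ⇑F * P2 = P1 := by
    funext z
    rw [Pi.mul_apply, hP1z, hP2z]
    exact hFD z
  have hqP2 : qExpansion 1 P2 ≠ 0 := by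
    intro h
    obtain ⟨z, hz⟩ := hne
    apply hz
    rw [← hP2z, gP2.eq_zero h]
    rfl
  have hex : ∃ n, (qExpansion 1 P2).coeff n ≠ 0 := by
    by_contra hcon
    refine hqP2 (PowerSeries.ext fun n => ?_)
    rw [map_zero]
    by_contra hn
    exact hcon ⟨n, hn⟩
  set m := Nat.find hex with hm
  set u : ℂ := (qExpansion 1 P2).coeff m with hu
  have hu0 : u ≠ 0 := Nat.find_spec hex
  have hlt : ∀ n < m, (qExpansion 1 P2).coeff n = 0 := fun n hn =>
    not_not.mp (Nat.find_min hex hn)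
  refine ⟨((Finset.univ.biUnion SC) ∪ (Finset.univ.biUnion SD) ∪ (Finset.univ.biUnion Sc))
    ∪ {u⁻¹}, fun A hA => ?_⟩
  have hSCA : ∀ l, (↑(SC l) : Set ℂ) ⊆ A := fun l x hx => hA (by
    simp only [Finset.coe_union, Finset.coe_biUnion, Finset.coe_univ, Set.mem_univ,
      Set.iUnion_true, Set.mem_union, Set.mem_iUnion]
    exact Or.inl (Or.inl (Or.inl ⟨l, hx⟩)))
  have hSDA : ∀ l, (↑(SD l) : Set ℂ) ⊆ A := fun l x hx => hA (by
    simp only [Finset.coe_union, Finset.coe_biUnion, Finset.coe_univ, Set.mem_univ,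
      Set.iUnion_true, Set.mem_union, Set.mem_iUnion]
    exact Or.inl (Or.inl (Or.inr ⟨l, hx⟩)))
  have hScA : ∀ i, (↑(Sc i) : Set ℂ) ⊆ A := fun i x hx => hA (by
    simp only [Finset.coe_union, Finset.coe_biUnion, Finset.coe_univ, Set.mem_univ,
      Set.iUnion_true, Set.mem_union, Set.mem_iUnion]
    exact Or.inl (Or.inr ⟨i, hx⟩))
  have huA : u⁻¹ ∈ A := hA (by simp)
  choose sC hsC using fun l => hSC l A (hSCA l)
  choose sD hsD using fun l => hSD l A (hSDA l)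
  choose sc hsc using fun i => hSc i A (hScA i)
  have hι : Function.Injective (algebraMap A ℂ) := Subtype.val_injective
  set sΘ : PowerSeries A := rΘ.map (algebraMap ℚ A) with hsΘdef
  have hsΘ : ∀ ψ : A →+* ℂ, qExpansion 1 Θ = sΘ.map ψ := by
    intro ψ
    rw [hrΘ]
    ext n
    simp [hsΘdef]
  set sP1 : PowerSeries A := ∑ l : Fin μ, sC l * sΘ ^ (l : ℕ) with hsP1
  set sP2 : PowerSeries A := ∑ l : Fin μ, sD l * sΘ ^ (l : ℕ) with hsP2
  set sR : PowerSeries A :=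
    sP1 ^ μ + ∑ i : Fin μ, sc i * sP1 ^ (i : ℕ) * sP2 ^ (μ - (i : ℕ)) with hsR
  -- models over the inclusion
  have mΘ : Mod (algebraMap A ℂ) sΘ ⇑Θ := ⟨gΘ, hsΘ _⟩
  have mC : ∀ l, Mod (algebraMap A ℂ) (sC l) (C l) := fun l =>
    ⟨gCl l, by rw [← hgC l]; exact (hsC l).1⟩
  have mD : ∀ l, Mod (algebraMap A ℂ) (sD l) (D l) := fun l =>
    ⟨gDl l, by rw [← hgD l]; exact (hsD l).1⟩
  have mc : ∀ i, Mod (algebraMap A ℂ) (sc i) (c i) := fun i =>
    ⟨gcl i, by rw [← hgc i]; exact (hsc i).1⟩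
  have mP1 : Mod (algebraMap A ℂ) sP1 P1 := Mod.sum _ fun l _ => (mC l).mul (mΘ.pow _)
  have mP2 : Mod (algebraMap A ℂ) sP2 P2 := Mod.sum _ fun l _ => (mD l).mul (mΘ.pow _)
  have mR : Mod (algebraMap A ℂ) sR
      (P1 ^ μ + ∑ i : Fin μ, c i * P1 ^ (i : ℕ) * P2 ^ (μ - (i : ℕ))) :=
    (mP1.pow μ).add (Mod.sum _ fun i _ => ((mc i).mul (mP1.pow _)).mul (mP2.pow _))
  have hR0 : (P1 ^ μ + ∑ i : Fin μ, c i * P1 ^ (i : ℕ) * P2 ^ (μ - (i : ℕ))) = 0 := by
    funext z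
    have hz : P1 z = F z * P2 z := (congrFun hFP z).symm
    simp only [Pi.add_apply, Pi.pow_apply, Finset.sum_apply, Pi.mul_apply, Pi.zero_apply, hz]
    have hterm : ∀ i : Fin μ, c i z * (F z * P2 z) ^ (i : ℕ) * P2 z ^ (μ - (i : ℕ))
        = P2 z ^ μ * (c i z * F z ^ (i : ℕ)) := by
      intro i
      have hpow : P2 z ^ μ = P2 z ^ (i : ℕ) * P2 z ^ (μ - (i : ℕ)) := by
        rw [← pow_add]; congr 1; have := i.2; omega
      rw [hpow, mul_pow]; ring
    rw [Finset.sum_congr rfl fun i _ => hterm i, ← Finset.mul_sum, mul_pow,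
      mul_comm (F z ^ μ), ← mul_add, hmon z, mul_zero]
  have hsR0 : sR = 0 := by
    apply PowerSeries.map_injective (algebraMap A ℂ) hι
    rw [← mR.2, hR0, qExpansion_zero, map_zero]
  have hq2 : qExpansion 1 P2 = sP2.map (algebraMap A ℂ) := mP2.2
  have hm0 : ∀ n < m, PowerSeries.coeff n sP2 = 0 := fun n hn => hι (by
    rw [map_zero, ← PowerSeries.coeff_map, ← hq2]; exact hlt n hn)
  have hval : algebraMap A ℂ (PowerSeries.coeff m sP2) = u := by
    rw [← PowerSeries.coeff_map, ← hq2]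
  have hunit : IsUnit (PowerSeries.coeff m sP2) := by
    refine IsUnit.of_mul_eq_one (⟨u⁻¹, huA⟩ : A) (hι ?_)
    rw [map_mul, hval, map_one]
    exact mul_inv_cancel₀ hu0
  have hdiv : qExpansion 1 F * sP2.map (algebraMap A ℂ) = sP1.map (algebraMap A ℂ) := by
    rw [← hq2, ← mP1.2, ← hFP, qExpansion_mul gF.analytic gP2.analytic]
  obtain ⟨t, ht, htm⟩ := exists_div (algebraMap A ℂ) hι sP2 sP1 _ m hm0 hunit hdiv
  refine ⟨t, ht, fun φ => ?_⟩
  -- the twisted side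
  choose gC' hgC' using fun l => (hsC l).2 φ
  choose gD' hgD' using fun l => (hsD l).2 φ
  choose gc' hgc' using fun i => (hsc i).2 φ
  have mΘφ : Mod φ sΘ ⇑Θ := ⟨gΘ, hsΘ _⟩
  have mCφ : ∀ l, Mod φ (sC l) ⇑(gC' l) := fun l =>
    ⟨QGood.of_form _ one_mem_strictPeriods_SL, hgC' l⟩
  have mDφ : ∀ l, Mod φ (sD l) ⇑(gD' l) := fun l =>
    ⟨QGood.of_form _ one_mem_strictPeriods_SL, hgD' l⟩
  have mcφ : ∀ i, Mod φ (sc i) ⇑(gc' i) := fun i =>
    ⟨QGood.of_form _ one_mem_strictPeriods_SL, hgc' i⟩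
  set Q1 : ℍ → ℂ := ∑ l : Fin μ, ⇑(gC' l) * ⇑Θ ^ (l : ℕ) with hQ1
  set Q2 : ℍ → ℂ := ∑ l : Fin μ, ⇑(gD' l) * ⇑Θ ^ (l : ℕ) with hQ2
  have mQ1 : Mod φ sP1 Q1 := Mod.sum _ fun l _ => (mCφ l).mul (mΘφ.pow _)
  have mQ2 : Mod φ sP2 Q2 := Mod.sum _ fun l _ => (mDφ l).mul (mΘφ.pow _)
  have mRφ : Mod φ sR
      (Q1 ^ μ + ∑ i : Fin μ, ⇑(gc' i) * Q1 ^ (i : ℕ) * Q2 ^ (μ - (i : ℕ))) :=
    (mQ1.pow μ).add (Mod.sum _ fun i _ => ((mcφ i).mul (mQ1.pow _)).mul (mQ2.pow _))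
  have hRφ0 : (Q1 ^ μ + ∑ i : Fin μ, ⇑(gc' i) * Q1 ^ (i : ℕ) * Q2 ^ (μ - (i : ℕ))) = 0 :=
    mRφ.1.eq_zero (by rw [mRφ.2, hsR0, map_zero])
  have hφ2 : sP2.map φ ≠ 0 := by
    intro h0
    have h1 : φ (PowerSeries.coeff m sP2) = 0 := by
      rw [← PowerSeries.coeff_map, h0, map_zero]
    exact (hunit.map φ).ne_zero h1
  have hQ2ne : ∃ z, Q2 z ≠ 0 := by
    by_contra hcon
    have hz : Q2 = 0 := funext fun z => by
      by_contra hz
      exact hcon ⟨z, hz⟩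
    apply hφ2
    rw [← mQ2.2, hz, qExpansion_zero]
  have hc0 : ∀ i, PowerSeries.coeff 0 (sc i) = 0 := fun i => hι (by
    rw [map_zero, ← PowerSeries.coeff_map, ← (hsc i).1]
    exact CuspFormClass.qExpansion_coeff_zero (gc i) one_pos one_mem_strictPeriods_SL)
  have hzero : ∀ i, IsZeroAtImInfty ⇑(gc' i) := fun i => by
    have h0 : (qExpansion 1 (gc' i)).coeff 0 = 0 := by
      rw [hgc' i, PowerSeries.coeff_map, hc0 i, map_zero]
    exact CuspFormClass.zero_at_infty (ModularForm.toCuspForm (gc' i) h0)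
  have h1s : SI (Gamma0 N) (2 + 12 * ((μ : ℤ) - 1)) Q1 :=
    SI.sum _ fun l _ => (((SI.of_levelOne (gC' l)).mul ((SI.of_form Θ).pow (l : ℕ))).cast
      (by ring))
  have h2s : SI (Gamma0 N) (12 * ((μ : ℤ) - 1)) Q2 :=
    SI.sum _ fun l _ => (((SI.of_levelOne (gD' l)).mul ((SI.of_form Θ).pow (l : ℕ))).cast
      (by ring))
  obtain ⟨G, hG, -⟩ := Quotient.exists_cuspForm_of_monic_quotient N 2 (12 * ((μ : ℤ) - 1))
    (P1 := Q1) (P2 := Q2) mQ1.1.mdiff mQ2.1.mdiff hQ2ne h1s h2s (fun i => ⇑(gc' i))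
    (fun i => (ModularFormClass.holo (gc' i)).continuous)
    (fun i γ => SI.of_levelOne (Γ := ⊤) (gc' i) γ trivial) hzero
    (fun z => by
      have := congrFun hRφ0 z
      simpa only [Pi.add_apply, Pi.pow_apply, Finset.sum_apply, Pi.mul_apply, Pi.zero_apply]
        using this)
  refine ⟨G, ?_⟩
  have hGQ : ⇑G * Q2 = Q1 := funext hG
  have hfin : qExpansion 1 G * sP2.map φ = t.map φ * sP2.map φ := by
    rw [← mQ2.2, ← qExpansion_mul (QGood.of_form G hΓ1).analytic mQ2.1.analytic, hGQ, mQ1.2,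
      ← htm, map_mul, mQ2.2]
  exact mul_right_cancel₀ hφ2 hfin

end Fermat.Agent.S23.Twist
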