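import Mathlib
import Fermat.Agent.S23_Twist
import Fermat.Agent.S23_LevelOne
import Fermat.Agent.S23_DeltaN

set_option autoImplicit false

/-!
# S23: the twist theorem with the level-one twist and the generator `Δ(N z)` plugged in

`twist_of_certificate`: the only remaining input is the Lagrange certificate for `Δ(N z)`.
-/

open UpperHalfPlane ModularForm ModularFormClass CongruenceSubgroup
open scoped MatrixGroups ModularForm Manifold

namespace Fermat.Agent.S23.Twist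

theorem twist_of_certificate (N : ℕ) [NeZero N] (F : CuspForm (Gamma0 N) 2)
    (hcert : ∃ (μ : ℕ) (C D c : Fin μ → ℍ → ℂ),
      (∀ l : Fin μ, ∃ g : ModularForm 𝒮ℒ (2 + 12 * ((μ : ℤ) - 1 - (l : ℕ))), ⇑g = C l) ∧
      (∀ l : Fin μ, ∃ g : ModularForm 𝒮ℒ (12 * ((μ : ℤ) - 1 - (l : ℕ))), ⇑g = D l) ∧
      (∀ i : Fin μ, ∃ g : CuspForm 𝒮ℒ (2 * ((μ : ℤ) - (i : ℕ))), ⇑g = c i) ∧
      (∀ z : ℍ, F z * ∑ l : Fin μ, D l z * DeltaN.deltaN N z ^ (l : ℕ)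
        = ∑ l : Fin μ, C l z * DeltaN.deltaN N z ^ (l : ℕ)) ∧
      (∃ z : ℍ, ∑ l : Fin μ, D l z * DeltaN.deltaN N z ^ (l : ℕ) ≠ 0) ∧
      (∀ z : ℍ, F z ^ μ + ∑ i : Fin μ, c i z * F z ^ (i : ℕ) = 0)) :
    ∃ S : Finset ℂ, ∀ A : Subalgebra ℚ ℂ, (↑S : Set ℂ) ⊆ A →
      ∃ t : PowerSeries A, qExpansion 1 F = t.map (algebraMap A ℂ) ∧
        ∀ φ : A →+* ℂ, ∃ G : CuspForm (Gamma0 N) 2, qExpansion 1 G = t.map φ :=
  twist_core N F (DeltaN.deltaN N) (DeltaN.deltaN_qExpansion_rat N)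
    (fun k g => levelOne_twist k g) hcert

end Fermat.Agent.S23.Twist
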