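import Fermat.Statements.S23
import Fermat.Agent.S23_Final
import Fermat.Agent.S23_Adapter
import Fermat.Agent.S23_TwistMain
import Fermat.Agent.S23_CharPoly

set_option autoImplicit false
open CuspForm

namespace Fermat.Agent.S23

theorem result (N : ℕ) [NeZero N] : CuspForm.HasIntegralStructure N 2 :=
  hasIntegralStructure_of_twist N fun F =>
    exists_twist_of_twist N F
      (Twist.twist_of_certificate N F
        (CharPoly.exists_certificate N F (DeltaN.deltaN N) (DeltaN.mem_Gamma0_of_deltaN_slash N)))

end Fermat.Agent.S23
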