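import Fermat.Agent.S16_Duality
import Fermat.Agent.S16_Defs
import Fermat.Agent.S23

/-!
# S16, work package U1: the duality statement in the shape of the master interface

If `m` divides `ε(P)` for every Hecke polynomial `P` killing `S₂(Γ₀(p))`, there is a cusp form
with integer `q`-coefficients `a_k ≡ σ'(k) mod m` (`k ≥ 1`).
-/

set_option autoImplicit false
open CuspForm ModularCurve CongruenceSubgroup ModularFormClass

namespace Fermat.Agent.S16.Duality

theorem sigmaP_eq_lib (p k : ℕ) : sigmaP p k = (Fermat.Agent.S16Lib.sigmaP p k : ℤ) := by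
  unfold sigmaP Fermat.Agent.S16Lib.sigmaP
  rw [Nat.cast_sum]

/-- **U1 (duality), master-interface shape.** -/
theorem main (p : ℕ) [Fact p.Prime] (m : ℤ)
    (hm : ∀ P : HeckeAlg, heckeEvalForms p 2 P = 0 →
      m ∣ MvPolynomial.aeval (eisensteinSystem p) P) :
    ∃ f : CuspForm (Gamma0 p) 2, ∀ k ≥ 1, ∃ a : ℤ,
      ModularFormClass.qCoeff f k = (a : ℂ) ∧ m ∣ a - (Fermat.Agent.S16Lib.sigmaP p k : ℤ) := by
  have hint : CuspForm.HasIntegralStructure p 2 := Fermat.Agent.S23.result p
  have hinj := (latticeRestrictHom_bijective p ∅ hint).1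
  obtain ⟨f, a, ha, hdvd⟩ := exists_eisenstein_congruent p m (fun P hP => hm P (by
    apply hinj
    rw [map_zero]
    exact hP))
  refine ⟨f, fun k hk => ⟨a k, ha k, ?_⟩⟩
  rw [← sigmaP_eq_lib]
  exact hdvd k hk

/-- Variant with the integrality of all coefficients (including the `0`-th) recorded. -/
theorem main' (p : ℕ) [Fact p.Prime] (m : ℤ)
    (hm : ∀ P : HeckeAlg, heckeEvalForms p 2 P = 0 →
      m ∣ MvPolynomial.aeval (eisensteinSystem p) P) :
    ∃ f : CuspForm (Gamma0 p) 2, ∃ a : ℕ → ℤ, (∀ n, ModularFormClass.qCoeff f n = (a n : ℂ)) ∧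
      a 0 = 0 ∧ ∀ k, 1 ≤ k → m ∣ a k - (Fermat.Agent.S16Lib.sigmaP p k : ℤ) := by
  have hint : CuspForm.HasIntegralStructure p 2 := Fermat.Agent.S23.result p
  have hinj := (latticeRestrictHom_bijective p ∅ hint).1
  obtain ⟨f, a, ha, hdvd⟩ := exists_eisenstein_congruent p m (fun P hP => hm P (by
    apply hinj
    rw [map_zero]
    exact hP))
  refine ⟨f, a, ha, ?_, fun k hk => ?_⟩
  · have h0 := ha 0
    rw [Fermat.Agent.S49.qCoeff_zero_idx] at h0
    exact_mod_cast h0.symm
  · rw [← sigmaP_eq_lib]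
    exact hdvd k hk

end Fermat.Agent.S16.Duality
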