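import Mathlib

/-!
# S16 (L1/L2): the character `γ ↦ d mod p` of `Γ₀(p)`

`dUnit p : Γ₀(p) →* (ZMod p)ˣ` sends `γ = (a b; c d)` to `d mod p` (inverse `a mod p`).
-/

set_option autoImplicit false

open CongruenceSubgroup
open scoped MatrixGroups

namespace Fermat.Agent.S16.LB

/-- the lower-left entry of an element of `Γ₀(N)` vanishes mod `N`. -/
theorem gamma0_entry_one_zero (N : ℕ) (γ : Gamma0 N) :
    ((((γ : SL(2, ℤ)) : Matrix (Fin 2) (Fin 2) ℤ) 1 0 : ℤ) : ZMod N) = 0 :=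
  Gamma0_mem.mp γ.2

/-- `a * d = 1` mod `N` on `Γ₀(N)`. -/
theorem gamma0_entries_mul (N : ℕ) (γ : Gamma0 N) :
    ((((γ : SL(2, ℤ)) : Matrix (Fin 2) (Fin 2) ℤ) 0 0 : ℤ) : ZMod N)
      * ((((γ : SL(2, ℤ)) : Matrix (Fin 2) (Fin 2) ℤ) 1 1 : ℤ) : ZMod N) = 1 := by
  have hdet := (γ : SL(2, ℤ)).det_coe
  rw [Matrix.det_fin_two] at hdet
  have h0 := gamma0_entry_one_zero N γ
  have h1 : (((((γ : SL(2, ℤ)) : Matrix (Fin 2) (Fin 2) ℤ) 0 0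
      * ((γ : SL(2, ℤ)) : Matrix (Fin 2) (Fin 2) ℤ) 1 1
      - ((γ : SL(2, ℤ)) : Matrix (Fin 2) (Fin 2) ℤ) 0 1
      * ((γ : SL(2, ℤ)) : Matrix (Fin 2) (Fin 2) ℤ) 1 0 : ℤ) : ZMod N)) = ((1 : ℤ) : ZMod N) :=
    congrArg _ hdet
  push_cast at h1
  rw [h0, mul_zero, sub_zero] at h1
  exact h1

/-- the lower-right entry of `γ ∈ Γ₀(p)` as a unit mod `p`. -/
noncomputable def dUnit (p : ℕ) [Fact p.Prime] : Gamma0 p →* (ZMod p)ˣ where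
  toFun γ :=
    { val := ((((γ : SL(2, ℤ)) : Matrix (Fin 2) (Fin 2) ℤ) 1 1 : ℤ) : ZMod p)
      inv := ((((γ : SL(2, ℤ)) : Matrix (Fin 2) (Fin 2) ℤ) 0 0 : ℤ) : ZMod p)
      val_inv := by rw [mul_comm]; exact gamma0_entries_mul p γ
      inv_val := gamma0_entries_mul p γ }
  map_one' := by
    apply Units.ext
    show ((((((1 : Gamma0 p) : SL(2, ℤ)) : Matrix (Fin 2) (Fin 2) ℤ) 1 1 : ℤ) : ZMod p)) = 1
    simp
  map_mul' γ δ := by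
    apply Units.ext
    show ((((((γ * δ : Gamma0 p) : SL(2, ℤ)) : Matrix (Fin 2) (Fin 2) ℤ) 1 1 : ℤ) : ZMod p))
      = ((((γ : SL(2, ℤ)) : Matrix (Fin 2) (Fin 2) ℤ) 1 1 : ℤ) : ZMod p)
        * ((((δ : SL(2, ℤ)) : Matrix (Fin 2) (Fin 2) ℤ) 1 1 : ℤ) : ZMod p)
    have h0 := gamma0_entry_one_zero p γ
    rw [Subgroup.coe_mul, Matrix.SpecialLinearGroup.coe_mul, Matrix.mul_apply, Fin.sum_univ_two]
    push_cast
    rw [h0, zero_mul, zero_add]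

theorem dUnit_coe (p : ℕ) [Fact p.Prime] (γ : Gamma0 p) :
    ((dUnit p γ : (ZMod p)ˣ) : ZMod p)
      = ((((γ : SL(2, ℤ)) : Matrix (Fin 2) (Fin 2) ℤ) 1 1 : ℤ) : ZMod p) := rfl

theorem dUnit_inv_coe (p : ℕ) [Fact p.Prime] (γ : Gamma0 p) :
    (((dUnit p γ)⁻¹ : (ZMod p)ˣ) : ZMod p)
      = ((((γ : SL(2, ℤ)) : Matrix (Fin 2) (Fin 2) ℤ) 0 0 : ℤ) : ZMod p) := rfl

end Fermat.Agent.S16.LB
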