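import Mathlib
import Fermat.Prelude.Def_ModularCurve_PeriodHomPair
import Fermat.Agent.S22_Cocycle

/-!
# S16 (L2): Hecke operators on `Hom(Γ₀(N), B)`

For a finite family `α_i` of integral matrices representing distinct left cosets `Γ₀(N) α_i`,
stable under right multiplication by `Γ₀(N)` (`α_i γ = κ_i α_{π(i)}`), the operator
`(t ψ)(γ) = ∑ i, ψ(κ_i)` on `Hom(Γ₀(N), B)`; naturality in `B`, commutation with the
involution `γ ↦ jConj γ`, and a criterion for eigenvectors.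
-/

set_option autoImplicit false

open CongruenceSubgroup ModularCurve.Period
open scoped MatrixGroups

namespace Fermat.Agent.S16.LB

open Fermat.Agent.S22 (glOf glOf_val)

/-- a finite family of integral matrices of positive determinant representing distinct left cosets
`Γ₀(N) α_i`, stable under right multiplication by `Γ₀(N)`. -/
structure CosetFam (N : ℕ) where
  /-- the index type -/
  ι : Type
  /-- finiteness -/
  fin : Fintype ι
  /-- the representatives in `GL₂(ℝ)` -/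
  A : ι → GL (Fin 2) ℝ
  /-- the representatives as integral matrices -/
  a : ι → Matrix (Fin 2) (Fin 2) ℤ
  hA : ∀ i, ((A i : GL (Fin 2) ℝ) : Matrix (Fin 2) (Fin 2) ℝ) = (a i).map (Int.cast : ℤ → ℝ)
  hdet : ∀ i, 0 < (a i).det
  hcos : ∀ γ ∈ Gamma0 N, ∃ π : Equiv.Perm ι, ∀ i, ∃ κ ∈ Gamma0 N,
    A i * glOf γ = glOf κ * A (π i)
  huniq : ∀ i j (κ : SL(2, ℤ)), a i = (κ : Matrix (Fin 2) (Fin 2) ℤ) * a j → i = j

attribute [instance] CosetFam.fin

variable {N : ℕ}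

/-- cancelling an integral matrix of nonzero determinant on the right. -/
theorem mul_right_cancel_of_det_ne_zero {X Y a : Matrix (Fin 2) (Fin 2) ℤ} (ha : a.det ≠ 0)
    (h : X * a = Y * a) : X = Y := by
  have h1 : (X - Y) * a = 0 := by rw [sub_mul, h, sub_self]
  have h2 : (X - Y) * (a * a.adjugate) = 0 := by rw [← mul_assoc, h1, zero_mul]
  rw [Matrix.mul_adjugate, Matrix.mul_smul, mul_one] at h2
  have h3 : X - Y = 0 := (smul_eq_zero.mp h2).resolve_left ha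
  exact sub_eq_zero.mp h3

/-- casting integral matrices to real ones is multiplicative. -/
theorem map_intCast_mul (X Y : Matrix (Fin 2) (Fin 2) ℤ) :
    (X * Y).map (Int.cast : ℤ → ℝ) = X.map (Int.cast : ℤ → ℝ) * Y.map (Int.cast : ℤ → ℝ) :=
  map_mul (Int.castRingHom ℝ).mapMatrix X Y

namespace CosetFam

variable (𝒜 : CosetFam N)

/-- the equation in `GL₂(ℝ)` gives the equation of integral matrices. -/
theorem int_eq_of_gl {i j : 𝒜.ι} {γ κ : SL(2, ℤ)} (h : 𝒜.A i * glOf γ = glOf κ * 𝒜.A j) :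
    𝒜.a i * (γ : Matrix (Fin 2) (Fin 2) ℤ) = (κ : Matrix (Fin 2) (Fin 2) ℤ) * 𝒜.a j := by
  have h1 := congrArg (Units.val) h
  rw [Units.val_mul, Units.val_mul, 𝒜.hA, 𝒜.hA, glOf_val, glOf_val, ← map_intCast_mul,
    ← map_intCast_mul] at h1
  exact Matrix.map_injective Int.cast_injective h1

/-- the equation of integral matrices gives the equation in `GL₂(ℝ)`. -/
theorem gl_eq_of_int {i j : 𝒜.ι} {γ κ : SL(2, ℤ)}
    (h : 𝒜.a i * (γ : Matrix (Fin 2) (Fin 2) ℤ) = (κ : Matrix (Fin 2) (Fin 2) ℤ) * 𝒜.a j) :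
    𝒜.A i * glOf γ = glOf κ * 𝒜.A j := by
  apply Units.ext
  rw [Units.val_mul, Units.val_mul, 𝒜.hA, 𝒜.hA, glOf_val, glOf_val, ← map_intCast_mul,
    ← map_intCast_mul, h]

/-- the permutation of the cosets induced by `γ`. -/
noncomputable def perm (γ : Gamma0 N) : Equiv.Perm 𝒜.ι := (𝒜.hcos γ γ.2).choose

/-- the elements `κ_i` with `α_i γ = κ_i α_{π(i)}`. -/
noncomputable def kap (γ : Gamma0 N) (i : 𝒜.ι) : Gamma0 N :=
  ⟨((𝒜.hcos γ γ.2).choose_spec i).choose, ((𝒜.hcos γ γ.2).choose_spec i).choose_spec.1⟩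

theorem spec (γ : Gamma0 N) (i : 𝒜.ι) :
    𝒜.A i * glOf (γ : SL(2, ℤ)) = glOf (𝒜.kap γ i : SL(2, ℤ)) * 𝒜.A (𝒜.perm γ i) :=
  ((𝒜.hcos γ γ.2).choose_spec i).choose_spec.2

theorem spec_int (γ : Gamma0 N) (i : 𝒜.ι) :
    𝒜.a i * ((γ : SL(2, ℤ)) : Matrix (Fin 2) (Fin 2) ℤ)
      = ((𝒜.kap γ i : SL(2, ℤ)) : Matrix (Fin 2) (Fin 2) ℤ) * 𝒜.a (𝒜.perm γ i) :=
  𝒜.int_eq_of_gl (𝒜.spec γ i)

/-- uniqueness of the decomposition `α_i γ = κ α_j`. -/
theorem unique (γ : Gamma0 N) (i j : 𝒜.ι) (κ : Gamma0 N)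
    (h : 𝒜.a i * ((γ : SL(2, ℤ)) : Matrix (Fin 2) (Fin 2) ℤ)
      = ((κ : SL(2, ℤ)) : Matrix (Fin 2) (Fin 2) ℤ) * 𝒜.a j) :
    j = 𝒜.perm γ i ∧ κ = 𝒜.kap γ i := by
  have h1 := 𝒜.spec_int γ i
  rw [h] at h1
  have hj : j = 𝒜.perm γ i := by
    apply 𝒜.huniq j (𝒜.perm γ i) ((κ : SL(2, ℤ))⁻¹ * (𝒜.kap γ i : SL(2, ℤ)))
    rw [Matrix.SpecialLinearGroup.coe_mul, mul_assoc, ← h1, ← mul_assoc,
      ← Matrix.SpecialLinearGroup.coe_mul, inv_mul_cancel, Matrix.SpecialLinearGroup.coe_one,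
      one_mul]
  refine ⟨hj, ?_⟩
  subst hj
  have h2 := mul_right_cancel_of_det_ne_zero (𝒜.hdet _).ne' h1
  exact Subtype.ext (Subtype.ext h2)

theorem perm_one : 𝒜.perm (1 : Gamma0 N) = 1 := by
  ext i
  have := (𝒜.unique 1 i i 1 (by simp)).1
  exact this.symm

theorem perm_mul (γ δ : Gamma0 N) (i : 𝒜.ι) :
    𝒜.perm (γ * δ) i = 𝒜.perm δ (𝒜.perm γ i) ∧
      𝒜.kap (γ * δ) i = 𝒜.kap γ i * 𝒜.kap δ (𝒜.perm γ i) := by
  have h := 𝒜.unique (γ * δ) i (𝒜.perm δ (𝒜.perm γ i)) (𝒜.kap γ i * 𝒜.kap δ (𝒜.perm γ i)) (by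
    rw [Subgroup.coe_mul, Matrix.SpecialLinearGroup.coe_mul, ← mul_assoc, 𝒜.spec_int γ i,
      mul_assoc, 𝒜.spec_int δ (𝒜.perm γ i), ← mul_assoc, Subgroup.coe_mul,
      Matrix.SpecialLinearGroup.coe_mul])
  exact ⟨h.1.symm, h.2.symm⟩

/-- the Hecke operator on `Hom(Γ₀(N), B)`. -/
noncomputable def tHom {B : Type*} [AddCommGroup B] (ψ : Additive (Gamma0 N) →+ B) :
    Additive (Gamma0 N) →+ B :=
  AddMonoidHom.mk' (fun γ => ∑ i, ψ (Additive.ofMul (𝒜.kap (Additive.toMul γ) i))) (by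
    intro γ δ
    show ∑ i, ψ (Additive.ofMul (𝒜.kap (Additive.toMul γ * Additive.toMul δ) i)) = _
    have h1 : ∀ i, ψ (Additive.ofMul (𝒜.kap (Additive.toMul γ * Additive.toMul δ) i))
        = ψ (Additive.ofMul (𝒜.kap (Additive.toMul γ) i))
          + ψ (Additive.ofMul (𝒜.kap (Additive.toMul δ) (𝒜.perm (Additive.toMul γ) i))) := by
      intro i
      rw [(𝒜.perm_mul _ _ i).2, ofMul_mul, map_add]
    simp only [h1]
    rw [Finset.sum_add_distrib]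
    congr 1
    exact Equiv.sum_comp (𝒜.perm (Additive.toMul γ))
      (fun j => ψ (Additive.ofMul (𝒜.kap (Additive.toMul δ) j))))

theorem tHom_apply {B : Type*} [AddCommGroup B] (ψ : Additive (Gamma0 N) →+ B) (γ : Gamma0 N) :
    𝒜.tHom ψ (Additive.ofMul γ) = ∑ i, ψ (Additive.ofMul (𝒜.kap γ i)) := rfl

/-- the Hecke operator as an additive endomorphism of `Hom(Γ₀(N), B)`. -/
noncomputable def tEnd (B : Type*) [AddCommGroup B] :
    AddMonoid.End (Additive (Gamma0 N) →+ B) :=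
  AddMonoidHom.mk' (fun ψ => 𝒜.tHom ψ) (by
    intro ψ φ
    refine AddMonoidHom.ext fun γ => ?_
    show ∑ i, (ψ + φ) (Additive.ofMul (𝒜.kap (Additive.toMul γ) i)) = _
    simp only [AddMonoidHom.add_apply]
    rw [Finset.sum_add_distrib]
    rfl)

theorem tEnd_apply (B : Type*) [AddCommGroup B] (ψ : Additive (Gamma0 N) →+ B) :
    𝒜.tEnd B ψ = 𝒜.tHom ψ := rfl

/-- naturality in the coefficient group. -/
theorem tHom_comp {B C : Type*} [AddCommGroup B] [AddCommGroup C] (f : B →+ C)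
    (ψ : Additive (Gamma0 N) →+ B) : 𝒜.tHom (f.comp ψ) = f.comp (𝒜.tHom ψ) := by
  refine AddMonoidHom.ext fun γ => ?_
  show ∑ i, f (ψ (Additive.ofMul (𝒜.kap (Additive.toMul γ) i)))
    = f (∑ i, ψ (Additive.ofMul (𝒜.kap (Additive.toMul γ) i)))
  rw [map_sum]

/-- a criterion for eigenvectors: if `χ(κ_i) = w_i + χ(γ) - w_{π(i)}`, then `t χ = #ι • χ`. -/
theorem tHom_eq_card_nsmul {B : Type*} [AddCommGroup B] (χ : Additive (Gamma0 N) →+ B)
    (w : 𝒜.ι → B)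
    (h : ∀ (γ : Gamma0 N) (i : 𝒜.ι), χ (Additive.ofMul (𝒜.kap γ i))
      = w i + χ (Additive.ofMul γ) - w (𝒜.perm γ i)) :
    𝒜.tHom χ = Fintype.card 𝒜.ι • χ := by
  refine AddMonoidHom.ext fun γ => ?_
  show ∑ i, χ (Additive.ofMul (𝒜.kap (Additive.toMul γ) i)) = _
  simp only [h]
  rw [Finset.sum_sub_distrib, Finset.sum_add_distrib,
    Equiv.sum_comp (𝒜.perm (Additive.toMul γ)) w, add_sub_cancel_left, Finset.sum_const,
    Finset.card_univ, AddMonoidHom.nsmul_apply]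
  rfl

/-- commutation with the involution `γ ↦ jConj γ`, for a family which is stable under `jConj` up
to left multiplication by `Γ₀(N)`. -/
theorem tHom_comp_jConj (τ : Equiv.Perm 𝒜.ι) (δ : 𝒜.ι → Gamma0 N)
    (hJ : ∀ i, jConjMat (𝒜.a i)
      = ((δ i : SL(2, ℤ)) : Matrix (Fin 2) (Fin 2) ℤ) * 𝒜.a (τ i))
    {B : Type*} [AddCommGroup B] (ψ : Additive (Gamma0 N) →+ B) :
    𝒜.tHom (ψ.comp (MonoidHom.toAdditive (jConjGamma0 N)))
      = (𝒜.tHom ψ).comp (MonoidHom.toAdditive (jConjGamma0 N)) := by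
  refine AddMonoidHom.ext fun γ' => ?_
  obtain ⟨γ, rfl⟩ : ∃ γ : Gamma0 N, Additive.ofMul γ = γ' := ⟨Additive.toMul γ', rfl⟩
  show ∑ i, ψ (Additive.ofMul (jConjGamma0 N (𝒜.kap γ i)))
    = ∑ j, ψ (Additive.ofMul (𝒜.kap (jConjGamma0 N γ) j))
  -- the decomposition for `jConj γ` at the index `τ i`
  have key : ∀ i, 𝒜.perm (jConjGamma0 N γ) (τ i) = τ (𝒜.perm γ i) ∧
      𝒜.kap (jConjGamma0 N γ) (τ i)
        = (δ i)⁻¹ * jConjGamma0 N (𝒜.kap γ i) * δ (𝒜.perm γ i) := by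
    intro i
    have h := 𝒜.unique (jConjGamma0 N γ) (τ i) (τ (𝒜.perm γ i))
      ((δ i)⁻¹ * jConjGamma0 N (𝒜.kap γ i) * δ (𝒜.perm γ i)) (by
        have h1 := congrArg jConjMat (𝒜.spec_int γ i)
        rw [jConjMat_mul, jConjMat_mul, hJ i, hJ (𝒜.perm γ i)] at h1
        have h2 : ((((δ i)⁻¹ : Gamma0 N) : SL(2, ℤ)) : Matrix (Fin 2) (Fin 2) ℤ)
            * (((δ i : SL(2, ℤ)) : Matrix (Fin 2) (Fin 2) ℤ)) = 1 := by
          rw [← Matrix.SpecialLinearGroup.coe_mul, ← Subgroup.coe_mul, inv_mul_cancel]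
          rfl
        have h3 : 𝒜.a (τ i) * jConjMat ((γ : SL(2, ℤ)) : Matrix (Fin 2) (Fin 2) ℤ)
            = ((((δ i)⁻¹ : Gamma0 N) : SL(2, ℤ)) : Matrix (Fin 2) (Fin 2) ℤ)
              * (jConjMat (((𝒜.kap γ i : Gamma0 N) : SL(2, ℤ)) : Matrix (Fin 2) (Fin 2) ℤ)
              * (((δ (𝒜.perm γ i) : SL(2, ℤ)) : Matrix (Fin 2) (Fin 2) ℤ)
                * 𝒜.a (τ (𝒜.perm γ i)))) := by
          rw [← h1, ← mul_assoc, ← mul_assoc, h2, one_mul]
        rw [jConjGamma0_coe, jConjSL_coe, h3, Subgroup.coe_mul, Subgroup.coe_mul,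
          Matrix.SpecialLinearGroup.coe_mul, Matrix.SpecialLinearGroup.coe_mul, jConjGamma0_coe,
          jConjSL_coe]
        simp only [mul_assoc])
    exact ⟨h.1.symm, h.2.symm⟩
  rw [← Equiv.sum_comp τ (fun j => ψ (Additive.ofMul (𝒜.kap (jConjGamma0 N γ) j)))]
  have h1 : ∀ i, ψ (Additive.ofMul (𝒜.kap (jConjGamma0 N γ) (τ i)))
      = ψ (Additive.ofMul (jConjGamma0 N (𝒜.kap γ i)))
        + (ψ (Additive.ofMul (δ (𝒜.perm γ i))) - ψ (Additive.ofMul (δ i))) := by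
    intro i
    rw [(key i).2, ofMul_mul, ofMul_mul, map_add, map_add, ofMul_inv, map_neg]
    abel
  simp only [h1]
  rw [Finset.sum_add_distrib, Finset.sum_sub_distrib,
    Equiv.sum_comp (𝒜.perm γ) (fun j => ψ (Additive.ofMul (δ j))), sub_self, add_zero]

end CosetFam

end Fermat.Agent.S16.LB
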