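import Mathlib
import Fermat.Prelude.Thm_ModularForm_heckeT_slash_eq_self_of_mem_Gamma0
import Fermat.Agent.S16_HomHecke
import Fermat.Agent.S16_DUnit

/-!
# S16 (L2): the coset families of `T_ℓ` and `U_ℓ`, and the Eisenstein eigenvector

* `famT N ℓ`, `famU N ℓ`: the explicit coset families (representatives `(ℓ 0; 0 1)`,
  `(1 j; 0 ℓ)`) as `CosetFam N`;
* stability under `jConj`;
* for the level `p`: `γ ↦ Λ(d(γ) mod p)` is an eigenvector with eigenvalues `ℓ + 1` (for `T_ℓ`)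
  and `p` (for `U_p`).
-/

set_option autoImplicit false

open UpperHalfPlane CongruenceSubgroup ModularCurve.Period
open scoped MatrixGroups ModularForm

namespace Fermat.Agent.S16.LB

open Fermat.Agent.S22 (glOf glOf_val)
open P2MW.S_ModularForm_heckeT_slash_eq_self_of_mem_Gamma0.ModularForm.HeckeSlashInvariance

/-- the integral representatives of `T_ℓ`. -/
def aT (ℓ : ℕ) (x : OnePoint (ZMod ℓ)) : Matrix (Fin 2) (Fin 2) ℤ :=
  x.elim !![(ℓ : ℤ), 0; 0, 1] (fun j => !![1, (j.val : ℤ); 0, (ℓ : ℤ)])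

/-- the integral representatives of `U_ℓ`. -/
def aU (ℓ : ℕ) (j : ZMod ℓ) : Matrix (Fin 2) (Fin 2) ℤ := !![1, (j.val : ℤ); 0, (ℓ : ℤ)]

theorem aT_infty (ℓ : ℕ) : aT ℓ (OnePoint.infty) = !![(ℓ : ℤ), 0; 0, 1] := rfl

theorem aT_coe (ℓ : ℕ) (j : ZMod ℓ) : aT ℓ (j : OnePoint (ZMod ℓ)) = aU ℓ j := rfl

theorem aU_injective_of_mul {ℓ : ℕ} [NeZero ℓ] (j j' : ZMod ℓ) (κ : SL(2, ℤ))
    (h : aU ℓ j = (κ : Matrix (Fin 2) (Fin 2) ℤ) * aU ℓ j') : j = j' := by
  have h00 := congrFun (congrFun h 0) 0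
  have h01 := congrFun (congrFun h 0) 1
  simp only [aU, Matrix.mul_apply, Fin.sum_univ_two, Matrix.of_apply, Matrix.cons_val',
    Matrix.cons_val_zero, Matrix.cons_val_one, Matrix.cons_val_fin_one, mul_one, mul_zero,
    add_zero] at h00 h01
  have h1 : ((j.val : ℤ) : ZMod ℓ) = ((j'.val : ℤ) : ZMod ℓ) := by
    rw [h01, ← h00]
    push_cast
    simp
  simpa using h1

/-- the coset family of `T_ℓ`, `ℓ ∤ N`. -/
noncomputable def famT (N ℓ : ℕ) [NeZero N] [Fact ℓ.Prime] (hℓN : ¬ ℓ ∣ N) : CosetFam N where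
  ι := OnePoint (ZMod ℓ)
  fin := inferInstance
  A := heckeRep ℓ
  a := aT ℓ
  hA := by
    have hp0 : ℓ ≠ 0 := (Fact.out : ℓ.Prime).ne_zero
    intro x
    induction x using OnePoint.rec with
    | infty =>
      show ((ModularForm.heckeDiagMatrix ℓ : GL (Fin 2) ℝ) : Matrix (Fin 2) (Fin 2) ℝ) = _
      rw [ModularForm.val_heckeDiagMatrix hp0]
      ext i j
      fin_cases i <;> fin_cases j <;> simp [aT, OnePoint.elim_infty]
    | coe j =>
      show ((ModularForm.heckeMatrix ℓ j.val : GL (Fin 2) ℝ) : Matrix (Fin 2) (Fin 2) ℝ) = _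
      rw [ModularForm.val_heckeMatrix hp0]
      ext i j'
      fin_cases i <;> fin_cases j' <;> simp [aT, OnePoint.elim_some]
  hdet := by
    have hpos : (0 : ℤ) < ℓ := by exact_mod_cast (Fact.out : ℓ.Prime).pos
    intro x
    induction x using OnePoint.rec with
    | infty =>
      simp only [aT, OnePoint.elim_infty, Matrix.det_fin_two_of]
      simpa using hpos
    | coe j =>
      simp only [aT, OnePoint.elim_some, Matrix.det_fin_two_of]
      simpa using hpos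
  hcos := by
    intro γ hγ
    have hcN : (N : ℤ) ∣ γ 1 0 :=
      (ZMod.intCast_zmod_eq_zero_iff_dvd _ _).mp (CongruenceSubgroup.Gamma0_mem.mp hγ)
    refine ⟨MulAction.toPerm (redMatrix ℓ γ), fun x => ?_⟩
    obtain ⟨g', hg', hmul⟩ := heckeRep_mul hℓN γ hcN x
    exact ⟨g', CongruenceSubgroup.Gamma0_mem.mpr ((ZMod.intCast_zmod_eq_zero_iff_dvd _ _).mpr hg'),
      hmul⟩
  huniq := by
    have hℓ : ℓ.Prime := Fact.out
    have h2 : (2 : ℤ) ≤ ℓ := by exact_mod_cast hℓ.two_le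
    intro x y κ h
    induction x using OnePoint.rec with
    | infty =>
      induction y using OnePoint.rec with
      | infty => rfl
      | coe j =>
        exfalso
        have h10 := congrFun (congrFun h 1) 0
        have h11 := congrFun (congrFun h 1) 1
        simp only [aT, OnePoint.elim_infty, OnePoint.elim_some, Matrix.mul_apply,
          Fin.sum_univ_two, Matrix.of_apply, Matrix.cons_val', Matrix.cons_val_zero,
          Matrix.cons_val_one, Matrix.cons_val_fin_one, mul_one, mul_zero, add_zero] at h10 h11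
        rw [← h10, zero_mul, zero_add] at h11
        have hd : (ℓ : ℤ) ∣ 1 := ⟨_, by rw [h11]; ring⟩
        have := Int.le_of_dvd one_pos hd
        omega
    | coe j =>
      induction y using OnePoint.rec with
      | infty =>
        exfalso
        have h00 := congrFun (congrFun h 0) 0
        simp only [aT, OnePoint.elim_infty, OnePoint.elim_some, Matrix.mul_apply,
          Fin.sum_univ_two, Matrix.of_apply, Matrix.cons_val', Matrix.cons_val_zero,
          Matrix.cons_val_one, Matrix.cons_val_fin_one, mul_zero, add_zero] at h00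
        have hd : (ℓ : ℤ) ∣ 1 := ⟨_, by rw [h00]; ring⟩
        have := Int.le_of_dvd one_pos hd
        omega
      | coe j' =>
        have : j = j' := aU_injective_of_mul j j' κ h
        rw [this]

/-- the coset family of `U_ℓ`, `ℓ ∣ N`. -/
noncomputable def famU (N ℓ : ℕ) [NeZero N] [Fact ℓ.Prime] (hℓN : ℓ ∣ N) : CosetFam N where
  ι := ZMod ℓ
  fin := inferInstance
  A := fun j => ModularForm.heckeMatrix ℓ j.val
  a := aU ℓ
  hA := by
    have hp0 : ℓ ≠ 0 := (Fact.out : ℓ.Prime).ne_zero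
    intro j
    rw [ModularForm.val_heckeMatrix hp0]
    ext i j'
    fin_cases i <;> fin_cases j' <;> simp [aU]
  hdet := by
    have hpos : (0 : ℤ) < ℓ := by exact_mod_cast (Fact.out : ℓ.Prime).pos
    intro j
    simp only [aU, Matrix.det_fin_two_of]
    simpa using hpos
  hcos := by
    intro γ hγ
    have hcN : (N : ℤ) ∣ γ 1 0 :=
      (ZMod.intCast_zmod_eq_zero_iff_dvd _ _).mp (CongruenceSubgroup.Gamma0_mem.mp hγ)
    have hc : (ℓ : ℤ) ∣ γ 1 0 := (Int.natCast_dvd_natCast.mpr hℓN).trans hcN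
    refine ⟨affinePerm γ ((ZMod.intCast_zmod_eq_zero_iff_dvd _ _).mpr hc), fun x => ?_⟩
    obtain ⟨g', hg', hmul⟩ := heckeMatrix_mul_of_dvd γ hc x
    refine ⟨g', ?_, hmul⟩
    rw [CongruenceSubgroup.Gamma0_mem, hg']
    push_cast
    rw [CongruenceSubgroup.Gamma0_mem.mp hγ, mul_zero]
  huniq := fun j j' κ h => aU_injective_of_mul j j' κ h

theorem heckeT_eq_sum_famT (N ℓ : ℕ) [NeZero N] [Fact ℓ.Prime] (hℓN : ¬ ℓ ∣ N) (k : ℤ)
    (f : ℍ → ℂ) : ModularForm.heckeT k ℓ f = ∑ i, f ∣[k] (famT N ℓ hℓN).A i :=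
  heckeT_eq_sum_onePoint k f

theorem heckeU_eq_sum_famU (N ℓ : ℕ) [NeZero N] [Fact ℓ.Prime] (hℓN : ℓ ∣ N) (k : ℤ)
    (f : ℍ → ℂ) : ModularForm.heckeU k ℓ f = ∑ i, f ∣[k] (famU N ℓ hℓN).A i :=
  heckeU_eq_sum_zmod k f

theorem card_famT (N ℓ : ℕ) [NeZero N] [Fact ℓ.Prime] (hℓN : ¬ ℓ ∣ N) :
    Fintype.card (famT N ℓ hℓN).ι = ℓ + 1 := by
  show Fintype.card (OnePoint (ZMod ℓ)) = ℓ + 1
  rw [show Fintype.card (OnePoint (ZMod ℓ)) = Fintype.card (Option (ZMod ℓ)) from rfl,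
    Fintype.card_option, ZMod.card]

theorem card_famU (N ℓ : ℕ) [NeZero N] [Fact ℓ.Prime] (hℓN : ℓ ∣ N) :
    Fintype.card (famU N ℓ hℓN).ι = ℓ := by
  show Fintype.card (ZMod ℓ) = ℓ
  rw [ZMod.card]

/-! ### stability under `jConj` -/

/-- the translation `(1 m; 0 1)` as an element of `Γ₀(N)`. -/
def transl (N : ℕ) (m : ℤ) : Gamma0 N :=
  ⟨⟨!![1, m; 0, 1], by rw [Matrix.det_fin_two_of]; ring⟩, by
    rw [Gamma0_mem]
    simp⟩

theorem transl_coe (N : ℕ) (m : ℤ) :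
    (((transl N m : Gamma0 N) : SL(2, ℤ)) : Matrix (Fin 2) (Fin 2) ℤ) = !![1, m; 0, 1] := rfl

theorem jConjMat_aU (N ℓ : ℕ) [NeZero ℓ] (j : ZMod ℓ) :
    jConjMat (aU ℓ j)
      = (((transl N (if j = 0 then 0 else -1) : Gamma0 N) : SL(2, ℤ)) :
          Matrix (Fin 2) (Fin 2) ℤ) * aU ℓ (-j) := by
  rw [transl_coe]
  by_cases h : j = 0
  · subst h
    rw [if_pos rfl]
    ext r s
    fin_cases r <;> fin_cases s <;> simp [jConjMat, aU]
  · rw [if_neg h]
    have hval : ((-j).val : ℤ) = (ℓ : ℤ) - (j.val : ℤ) := by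
      rw [ZMod.neg_val, if_neg h]
      have hlt : j.val < ℓ := ZMod.val_lt j
      rw [Nat.cast_sub hlt.le]
    ext r s
    fin_cases r <;> fin_cases s
    · simp [jConjMat, aU]
    · simp only [jConjMat, aU, Matrix.mul_apply, Fin.sum_univ_two]
      simp only [Fin.zero_eta, Fin.isValue, Fin.mk_one, Matrix.of_apply, Matrix.cons_val',
        Matrix.cons_val_zero, Matrix.cons_val_one, Matrix.cons_val_fin_one]
      rw [hval]
      ring
    · simp [jConjMat, aU]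
    · simp [jConjMat, aU]

theorem famU_jConj (N ℓ : ℕ) [NeZero N] [Fact ℓ.Prime] (hℓN : ℓ ∣ N) :
    ∃ (τ : Equiv.Perm (famU N ℓ hℓN).ι) (δ : (famU N ℓ hℓN).ι → Gamma0 N),
      ∀ i, jConjMat ((famU N ℓ hℓN).a i)
        = ((δ i : SL(2, ℤ)) : Matrix (Fin 2) (Fin 2) ℤ) * (famU N ℓ hℓN).a (τ i) := by
  show ∃ (τ : Equiv.Perm (ZMod ℓ)) (δ : ZMod ℓ → Gamma0 N),
      ∀ i, jConjMat (aU ℓ i) = ((δ i : SL(2, ℤ)) : Matrix (Fin 2) (Fin 2) ℤ) * aU ℓ (τ i)
  exact ⟨Equiv.neg (ZMod ℓ), fun j => transl N (if j = 0 then 0 else -1),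
    fun j => jConjMat_aU N ℓ j⟩

theorem famT_jConj (N ℓ : ℕ) [NeZero N] [Fact ℓ.Prime] (hℓN : ¬ ℓ ∣ N) :
    ∃ (τ : Equiv.Perm (famT N ℓ hℓN).ι) (δ : (famT N ℓ hℓN).ι → Gamma0 N),
      ∀ i, jConjMat ((famT N ℓ hℓN).a i)
        = ((δ i : SL(2, ℤ)) : Matrix (Fin 2) (Fin 2) ℤ) * (famT N ℓ hℓN).a (τ i) := by
  refine ⟨(Equiv.optionCongr (Equiv.neg (ZMod ℓ)) : Equiv.Perm (OnePoint (ZMod ℓ))),
    fun x => x.elim 1 (fun j => transl N (if j = 0 then 0 else -1)), fun x => ?_⟩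
  induction x using OnePoint.rec with
  | infty =>
    show jConjMat (aT ℓ OnePoint.infty) = ((((1 : Gamma0 N) : SL(2, ℤ)) :
      Matrix (Fin 2) (Fin 2) ℤ)) * aT ℓ OnePoint.infty
    rw [aT_infty]
    ext r s
    fin_cases r <;> fin_cases s <;> simp [jConjMat]
  | coe j =>
    show jConjMat (aU ℓ j) = (((transl N (if j = 0 then 0 else -1) : Gamma0 N) : SL(2, ℤ)) :
          Matrix (Fin 2) (Fin 2) ℤ) * aU ℓ (-j)
    exact jConjMat_aU N ℓ j

/-! ### the Eisenstein eigenvector at level `p` -/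

section Eigen

variable (p : ℕ) [Fact p.Prime] {B : Type*} [AddCommGroup B]

/-- the homomorphism `γ ↦ Λ(d(γ) mod p)` on `Γ₀(p)`. -/
noncomputable def chiOf (Λ : (ZMod p)ˣ →* Multiplicative B) : Additive (Gamma0 p) →+ B :=
  AddMonoidHom.mk' (fun γ => Multiplicative.toAdd (Λ (dUnit p (Additive.toMul γ)))) (by
    intro γ δ
    show Multiplicative.toAdd (Λ (dUnit p (Additive.toMul γ * Additive.toMul δ))) = _
    rw [map_mul, map_mul, toAdd_mul])

theorem chiOf_apply (Λ : (ZMod p)ˣ →* Multiplicative B) (γ : Gamma0 p) :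
    chiOf p Λ (Additive.ofMul γ) = Multiplicative.toAdd (Λ (dUnit p γ)) := rfl

/-- the relation of lower-right entries mod `p` in `α_i γ = κ_i α_{π(i)}`. -/
theorem entry_mod (𝒜 : CosetFam p) (h10 : ∀ i, 𝒜.a i 1 0 = 0) (γ : Gamma0 p) (i : 𝒜.ι) :
    ((𝒜.a i 1 1 : ℤ) : ZMod p) * ((dUnit p γ : (ZMod p)ˣ) : ZMod p)
      = ((dUnit p (𝒜.kap γ i) : (ZMod p)ˣ) : ZMod p)
        * ((𝒜.a (𝒜.perm γ i) 1 1 : ℤ) : ZMod p) := by
  have h := congrFun (congrFun (𝒜.spec_int γ i) 1) 1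
  rw [Matrix.mul_apply, Matrix.mul_apply, Fin.sum_univ_two, Fin.sum_univ_two, h10 i, zero_mul,
    zero_add] at h
  have h' := congrArg (Int.cast : ℤ → ZMod p) h
  push_cast at h'
  rw [gamma0_entry_one_zero p (𝒜.kap γ i), zero_mul, zero_add] at h'
  rw [dUnit_coe, dUnit_coe]
  exact h'

/-- `T_ℓ χ = (ℓ + 1) χ` for `ℓ ≠ p`. -/
theorem tHom_famT_chiOf (ℓ : ℕ) [Fact ℓ.Prime] (hℓp : ¬ ℓ ∣ p)
    (Λ : (ZMod p)ˣ →* Multiplicative B) :
    (famT p ℓ hℓp).tHom (chiOf p Λ) = (ℓ + 1) • chiOf p Λ := by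
  have hcop : Nat.Coprime ℓ p :=
    (Nat.Prime.coprime_iff_not_dvd (Fact.out : ℓ.Prime)).mpr hℓp
  set u : OnePoint (ZMod ℓ) → (ZMod p)ˣ := fun x => x.elim 1 (fun _ => ZMod.unitOfCoprime ℓ hcop)
    with hu
  have hu' : ∀ x : OnePoint (ZMod ℓ), ((u x : (ZMod p)ˣ) : ZMod p) = ((aT ℓ x 1 1 : ℤ) : ZMod p) := by
    intro x
    induction x using OnePoint.rec with
    | infty => simp [hu, aT]
    | coe j => simp [hu, aT]
  have h10 : ∀ x : OnePoint (ZMod ℓ), aT ℓ x 1 0 = 0 := by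
    intro x
    induction x using OnePoint.rec with
    | infty => simp [aT]
    | coe j => simp [aT]
  have key : ∀ (γ : Gamma0 p) (i : (famT p ℓ hℓp).ι),
      dUnit p ((famT p ℓ hℓp).kap γ i) = u i * dUnit p γ * (u ((famT p ℓ hℓp).perm γ i))⁻¹ := by
    intro γ i
    have h := entry_mod p (famT p ℓ hℓp) h10 γ i
    rw [eq_mul_inv_iff_mul_eq]
    apply Units.ext
    rw [Units.val_mul, Units.val_mul, hu', hu']
    exact h.symm
  rw [← card_famT p ℓ hℓp]
  refine (famT p ℓ hℓp).tHom_eq_card_nsmul (chiOf p Λ) (fun i => Multiplicative.toAdd (Λ (u i))) ?_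
  intro γ i
  rw [chiOf_apply, chiOf_apply, key γ i, Λ.map_mul, Λ.map_mul, Λ.map_inv, toAdd_mul, toAdd_mul,
    toAdd_inv]
  abel

/-- `U_p χ = p χ`. -/
theorem tHom_famU_chiOf (Λ : (ZMod p)ˣ →* Multiplicative B) :
    (famU p p dvd_rfl).tHom (chiOf p Λ) = p • chiOf p Λ := by
  have hp0 : (p : ℤ) ≠ 0 := by exact_mod_cast (Fact.out : p.Prime).ne_zero
  have key : ∀ (γ : Gamma0 p) (i : (famU p p dvd_rfl).ι),
      dUnit p ((famU p p dvd_rfl).kap γ i) = dUnit p γ := by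
    intro γ i
    have h := (famU p p dvd_rfl).spec_int γ i
    change aU p i * _ = _ * aU p ((famU p p dvd_rfl).perm γ i) at h
    have h10 := congrFun (congrFun h 1) 0
    have h11 := congrFun (congrFun h 1) 1
    simp only [aU, Matrix.mul_apply, Fin.sum_univ_two, Matrix.of_apply, Matrix.cons_val',
      Matrix.cons_val_zero, Matrix.cons_val_one, Matrix.cons_val_fin_one, mul_one, mul_zero,
      add_zero, zero_mul, zero_add] at h10 h11
    rw [← h10] at h11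
    have h2 : (((γ : SL(2, ℤ)) : Matrix (Fin 2) (Fin 2) ℤ) 1 1)
        = (((γ : SL(2, ℤ)) : Matrix (Fin 2) (Fin 2) ℤ) 1 0)
            * ((ZMod.val (n := p) ((famU p p dvd_rfl).perm γ i) : ℕ) : ℤ)
          + ((((famU p p dvd_rfl).kap γ i : Gamma0 p) : SL(2, ℤ)) :
              Matrix (Fin 2) (Fin 2) ℤ) 1 1 := by
      apply mul_left_cancel₀ hp0
      rw [h11]
      ring
    apply Units.ext
    rw [dUnit_coe, dUnit_coe, h2]
    push_cast
    rw [gamma0_entry_one_zero p γ, zero_mul, zero_add]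
  have h1 := (famU p p dvd_rfl).tHom_eq_card_nsmul (chiOf p Λ) (fun _ => 0) (by
    intro γ i
    rw [chiOf_apply, chiOf_apply, key γ i]
    simp)
  rw [h1, card_famU p p dvd_rfl]

end Eigen

end Fermat.Agent.S16.LB
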