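import Mathlib
import Fermat.Prelude.Def_ModularCurve_PeriodHomPair
import Fermat.Agent.S22_Primitive

/-!
# S21b (1): every weight two cusp form on `Γ₀(N)` has an equivariant primitive

`exists_hasEquivariantPrimitive`: for `f ∈ S₂(Γ₀(N))` there is `F` with `F' = f`, `F → 0` at `i∞`,
`F ∘ γ - F` constant for `γ ∈ Γ₀(N)` and `F ∘ δ` has a limit at `i∞` for every `δ ∈ SL(2,ℤ)`.
The limits come from the primitive `P(q)` on the unit disc of `(N / 2πi) · g(q) / q`, where `g(q)`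
is the cusp function of `f ∣[2] δ`.
-/

set_option autoImplicit false

open UpperHalfPlane Filter Topology CongruenceSubgroup ModularCurve ModularCurve.Period
open scoped MatrixGroups Manifold ModularForm

namespace Fermat.Agent.S21

local notation "𝕢" => Function.Periodic.qParam

theorem hasDerivAt_qParam (h : ℝ) (z : ℂ) :
    HasDerivAt (𝕢 h) (𝕢 h z * (2 * Real.pi * Complex.I / h)) z := by
  unfold Function.Periodic.qParam
  have h1 : HasDerivAt (fun z : ℂ => 2 * (Real.pi : ℂ) * Complex.I * z / (h : ℂ))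
      (2 * Real.pi * Complex.I / h) z := by
    have := ((hasDerivAt_id z).const_mul (2 * (Real.pi : ℂ) * Complex.I)).div_const (h : ℂ)
    simpa using this
  exact h1.cexp

/-- A holomorphic, periodic function on `ℍ` vanishing at `i∞` has a primitive tending to `0`
at `i∞`. -/
theorem exists_primitive_tendsto {g : ℍ → ℂ} {h : ℝ} (hh : 0 < h)
    (hper : Function.Periodic (g ∘ ofComplex) h) (hhol : MDiff g) (hzero : IsZeroAtImInfty g) :
    ∃ G : ℂ → ℂ, (∀ z : ℂ, 0 < z.im → HasDerivAt G (g (ofComplex z)) z) ∧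
      Tendsto (fun τ : ℍ => G (τ : ℂ)) atImInfty (𝓝 0) := by
  have hd : DifferentiableOn ℂ (cuspFunction h g) (Metric.ball 0 1) :=
    differentiableOn_cuspFunction_ball hh hper hhol hzero.isBoundedAtImInfty
  have h0 : cuspFunction h g 0 = 0 := hzero.cuspFunction_apply_zero hh
  have hball : Metric.ball (0 : ℂ) 1 ∈ 𝓝 (0 : ℂ) := Metric.ball_mem_nhds 0 one_pos
  have hd' : DifferentiableOn ℂ (dslope (cuspFunction h g) 0) (Metric.ball 0 1) :=
    (Complex.differentiableOn_dslope hball).mpr hd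
  set κ : ℂ := (h : ℂ) / (2 * Real.pi * Complex.I) with hκ
  obtain ⟨P, hP0, hP⟩ := ((hd'.const_smul κ).isExactOn_ball).with_val_at 0 0
  have hpi : (2 * (Real.pi : ℂ) * Complex.I) ≠ 0 := by
    simp [Real.pi_ne_zero]
  have hhc : (h : ℂ) ≠ 0 := by exact_mod_cast hh.ne'
  refine ⟨fun z => P (𝕢 h z), fun z hz => ?_, ?_⟩
  · have hq : 𝕢 h z ∈ Metric.ball (0 : ℂ) 1 := by
      rw [mem_ball_zero_iff]
      exact Function.Periodic.norm_qParam_lt_one hh hz
    have h1 := (hP _ hq).comp z (hasDerivAt_qParam h z)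
    have hval : (κ • dslope (cuspFunction h g) 0) (𝕢 h z) * (𝕢 h z * (2 * Real.pi * Complex.I / h))
        = g (ofComplex z) := by
      have hs := sub_smul_dslope (cuspFunction h g) 0 (𝕢 h z)
      rw [sub_zero, h0, sub_zero, smul_eq_mul] at hs
      have he := eq_cuspFunction (f := g) ⟨z, hz⟩ hh.ne' hper
      rw [UpperHalfPlane.coe_mk] at he
      rw [ofComplex_apply_of_im_pos hz, ← he, ← hs]
      simp only [Pi.smul_apply, smul_eq_mul, hκ]
      field_simp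
    rw [hval] at h1
    exact h1
  · have hc : ContinuousAt P 0 := (hP 0 (Metric.mem_ball_self one_pos)).continuousAt
    have ht := hc.tendsto.comp (UpperHalfPlane.qParam_tendsto_atImInfty hh)
    rw [hP0] at ht
    exact ht

theorem coe_smul_eq (δ : SL(2, ℤ)) (τ : ℍ) :
    ((δ • τ : ℍ) : ℂ) = ((δ 0 0 : ℤ) * (τ : ℂ) + (δ 0 1 : ℤ)) / ((δ 1 0 : ℤ) * (τ : ℂ) + (δ 1 1 : ℤ)) := by
  rw [coe_specialLinearGroup_apply]
  simp

theorem denom_eq (δ : SL(2, ℤ)) (τ : ℍ) :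
    denom (δ : GL (Fin 2) ℝ) τ = (δ 1 0 : ℤ) * (τ : ℂ) + (δ 1 1 : ℤ) := by
  rw [ModularGroup.denom_apply]

theorem det_eq_one (δ : SL(2, ℤ)) :
    ((δ 0 0 : ℤ) : ℂ) * (δ 1 1 : ℤ) - (δ 0 1 : ℤ) * (δ 1 0 : ℤ) = 1 := by
  have h := Matrix.det_fin_two (δ : Matrix (Fin 2) (Fin 2) ℤ)
  rw [δ.det_coe] at h
  have h2 : ((δ 0 0 * δ 1 1 - δ 0 1 * δ 1 0 : ℤ) : ℂ) = 1 := by
    rw [← h]; simp
  push_cast at h2
  exact h2

/-- chain rule for the Möbius action: `F₀ ∘ δ` is a primitive of `f ∣[2] δ`. -/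
theorem hasDerivAt_comp_smul {F₀ : ℂ → ℂ} {f : ℍ → ℂ}
    (hF : ∀ z : ℂ, 0 < z.im → HasDerivAt F₀ (f (ofComplex z)) z) (δ : SL(2, ℤ)) (z : ℂ)
    (hz : 0 < z.im) :
    HasDerivAt (fun w : ℂ => F₀ ((δ • ofComplex w : ℍ) : ℂ)) ((f ∣[(2 : ℤ)] δ) (ofComplex z)) z := by
  set a : ℂ := ((δ 0 0 : ℤ) : ℂ) with ha
  set b : ℂ := ((δ 0 1 : ℤ) : ℂ) with hb
  set c : ℂ := ((δ 1 0 : ℤ) : ℂ) with hc
  set d : ℂ := ((δ 1 1 : ℤ) : ℂ) with hd
  have hdet : a * d - b * c = 1 := det_eq_one δ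
  set τ : ℍ := ⟨z, hz⟩ with hτ
  have hden : c * z + d ≠ 0 := by
    have := denom_ne_zero (δ : GL (Fin 2) ℝ) τ
    rwa [denom_eq] at this
  have hm : HasDerivAt (fun w : ℂ => (a * w + b) / (c * w + d)) ((c * z + d) ^ (-2 : ℤ)) z := by
    have h1 : HasDerivAt (fun w : ℂ => a * w + b) a z := by
      simpa using ((hasDerivAt_id z).const_mul a).add_const b
    have h2 : HasDerivAt (fun w : ℂ => c * w + d) c z := by
      simpa using ((hasDerivAt_id z).const_mul c).add_const d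
    have h3 := h1.div h2 hden
    have e : (a * (c * z + d) - (a * z + b) * c) / (c * z + d) ^ 2 = (c * z + d) ^ (-2 : ℤ) := by
      rw [show a * (c * z + d) - (a * z + b) * c = a * d - b * c by ring, hdet, zpow_neg,
        one_div]
      norm_cast
    rw [e] at h3
    exact h3
  have hmz : (a * z + b) / (c * z + d) = ((δ • τ : ℍ) : ℂ) := (coe_smul_eq δ τ).symm
  have hpos : 0 < ((a * z + b) / (c * z + d)).im := by
    rw [hmz]
    exact (δ • τ).im_pos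
  have h4 := (hF _ hpos).comp z hm
  have heq : (fun w : ℂ => F₀ ((δ • ofComplex w : ℍ) : ℂ))
      =ᶠ[𝓝 z] (F₀ ∘ fun w : ℂ => (a * w + b) / (c * w + d)) := by
    filter_upwards [isOpen_upperHalfPlaneSet.mem_nhds hz] with w hw
    simp only [Function.comp_apply]
    rw [ofComplex_apply_of_im_pos hw, coe_smul_eq]
  refine (h4.congr_of_eventuallyEq heq).congr_deriv ?_
  rw [ModularForm.SL_slash_apply, ofComplex_apply_of_im_pos hz, denom_eq, hmz, ofComplex_apply]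

theorem T_zpow_entries (n : ℤ) :
    (ModularGroup.T ^ n) 0 0 = 1 ∧ (ModularGroup.T ^ n) 0 1 = n ∧
      (ModularGroup.T ^ n) 1 0 = 0 ∧ (ModularGroup.T ^ n) 1 1 = 1 := by
  have h := ModularGroup.coe_T_zpow n
  refine ⟨?_, ?_, ?_, ?_⟩
  · have := congrFun (congrFun h 0) 0
    simpa using this
  · have := congrFun (congrFun h 0) 1
    simpa using this
  · have := congrFun (congrFun h 1) 0
    simpa using this
  · have := congrFun (congrFun h 1) 1
    simpa using this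

theorem conj_T_pow_mem_Gamma0 (N : ℕ) (δ : SL(2, ℤ)) :
    δ * ModularGroup.T ^ (N : ℤ) * δ⁻¹ ∈ Gamma0 N := by
  have hT : ModularGroup.T ^ (N : ℤ) ∈ Gamma N := by
    rw [Gamma_mem]
    obtain ⟨h00, h01, h10, h11⟩ := T_zpow_entries (N : ℤ)
    rw [h00, h01, h10, h11]
    simp
  have hc : δ * ModularGroup.T ^ (N : ℤ) * δ⁻¹ ∈ Gamma N := (Gamma_normal N).conj_mem _ hT δ
  rw [Gamma_mem] at hc
  rw [Gamma0_mem]
  exact hc.2.2.1

theorem slash_Gamma0 {N : ℕ} (f : CuspForm (Gamma0 N) 2) {γ : SL(2, ℤ)} (hγ : γ ∈ Gamma0 N) :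
    (f : ℍ → ℂ) ∣[(2 : ℤ)] γ = f :=
  SlashInvariantFormClass.slash_action_eq f _ ⟨γ, hγ, rfl⟩

theorem slash_mdiff {N : ℕ} (f : CuspForm (Gamma0 N) 2) (δ : SL(2, ℤ)) :
    MDiff ((f : ℍ → ℂ) ∣[(2 : ℤ)] δ) :=
  MDifferentiable.slash f.holo' 2 _

theorem slash_zero {N : ℕ} [NeZero N] (f : CuspForm (Gamma0 N) 2) (δ : SL(2, ℤ)) :
    IsZeroAtImInfty ((f : ℍ → ℂ) ∣[(2 : ℤ)] δ) := by
  have hc : IsCusp ((δ : GL (Fin 2) ℝ) • (OnePoint.infty : OnePoint ℝ))
      (Gamma0 N : Subgroup (GL (Fin 2) ℝ)) :=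
    (Subgroup.IsArithmetic.isCusp_iff_isCusp_SL2Z _).mpr (isCusp_SL2Z_iff'.mpr ⟨δ, rfl⟩)
  exact (f.zero_at_cusps' hc) _ rfl

theorem slash_T_pow_apply (g : ℍ → ℂ) (n : ℤ) (τ : ℍ) :
    (g ∣[(2 : ℤ)] (ModularGroup.T ^ n)) τ = g ((n : ℝ) +ᵥ τ) := by
  rw [ModularForm.SL_slash_apply, modular_T_zpow_smul]
  have hden : denom ((ModularGroup.T ^ n : SL(2, ℤ)) : GL (Fin 2) ℝ) τ = 1 := by
    rw [ModularGroup.denom_apply]
    obtain ⟨-, -, h10, h11⟩ := T_zpow_entries n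
    rw [h10, h11]
    simp
  rw [hden]
  simp

theorem slash_periodic_apply {N : ℕ} (f : CuspForm (Gamma0 N) 2) (δ : SL(2, ℤ)) (τ : ℍ) :
    ((f : ℍ → ℂ) ∣[(2 : ℤ)] δ) ((N : ℝ) +ᵥ τ) = ((f : ℍ → ℂ) ∣[(2 : ℤ)] δ) τ := by
  have h := slash_T_pow_apply ((f : ℍ → ℂ) ∣[(2 : ℤ)] δ) (N : ℤ) τ
  rw [Int.cast_natCast] at h
  rw [← h, ← SlashAction.slash_mul,
    show δ * ModularGroup.T ^ (N : ℤ) = (δ * ModularGroup.T ^ (N : ℤ) * δ⁻¹) * δ by group,
    SlashAction.slash_mul, slash_Gamma0 f (conj_T_pow_mem_Gamma0 N δ)]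

theorem slash_periodic {N : ℕ} (f : CuspForm (Gamma0 N) 2) (δ : SL(2, ℤ)) :
    Function.Periodic (((f : ℍ → ℂ) ∣[(2 : ℤ)] δ) ∘ ofComplex) (N : ℝ) := by
  intro w
  by_cases hw : 0 < w.im
  · have hw' : 0 < (w + ((N : ℝ) : ℂ)).im := by simpa using hw
    rw [Function.comp_apply, Function.comp_apply, ofComplex_apply_of_im_pos hw',
      ofComplex_apply_of_im_pos hw]
    have h := slash_periodic_apply f δ ⟨w, hw⟩
    rw [← h]
    refine congrArg _ (UpperHalfPlane.ext ?_)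
    simp [add_comm]
  · have hw0 : w.im ≤ 0 := not_lt.mp hw
    have hw' : (w + ((N : ℝ) : ℂ)).im ≤ 0 := by simpa using hw0
    rw [Function.comp_apply, Function.comp_apply, ofComplex_apply_of_im_nonpos hw',
      ofComplex_apply_of_im_nonpos hw0]

/-- two primitives on the upper half plane differ by a constant -/
theorem exists_const_of_hasDerivAt {G₁ G₂ : ℂ → ℂ} {φ : ℂ → ℂ}
    (h1 : ∀ z : ℂ, 0 < z.im → HasDerivAt G₁ (φ z) z)
    (h2 : ∀ z : ℂ, 0 < z.im → HasDerivAt G₂ (φ z) z) :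
    ∃ c : ℂ, ∀ z : ℂ, 0 < z.im → G₁ z = G₂ z + c := by
  have hD : ∀ z : ℂ, 0 < z.im → HasDerivAt (fun z => G₁ z - G₂ z) 0 z := by
    intro z hz
    have := (h1 z hz).sub (h2 z hz)
    rwa [sub_self] at this
  have hd : DifferentiableOn ℂ (fun z => G₁ z - G₂ z) {z : ℂ | 0 < z.im} := fun z hz =>
    (hD z hz).differentiableAt.differentiableWithinAt
  have hderiv : Set.EqOn (deriv (fun z => G₁ z - G₂ z)) 0 {z : ℂ | 0 < z.im} := by
    intro z hz
    rw [(hD z hz).deriv]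
    rfl
  have hI : (0 : ℝ) < Complex.I.im := by simp
  refine ⟨G₁ Complex.I - G₂ Complex.I, fun z hz => ?_⟩
  have h3 : G₁ z - G₂ z = G₁ Complex.I - G₂ Complex.I :=
    isOpen_upperHalfPlaneSet.is_const_of_deriv_eq_zero
      (convex_halfSpace_im_gt 0).isPreconnected hd hderiv hz hI
  linear_combination h3

theorem natCast_pos_real (N : ℕ) [NeZero N] : (0 : ℝ) < (N : ℝ) := by
  exact_mod_cast Nat.pos_of_ne_zero (NeZero.ne N)

/-- **Existence of equivariant primitives** for weight two cusp forms. -/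
theorem exists_hasEquivariantPrimitive (N : ℕ) [NeZero N] (f : CuspForm (Gamma0 N) 2) :
    ∃ F : ℍ → ℂ, HasEquivariantPrimitive N f F := by
  have hφ : DifferentiableOn ℂ ((f : ℍ → ℂ) ∘ ofComplex) {z : ℂ | 0 < z.im} :=
    UpperHalfPlane.mdifferentiable_iff.mp f.holo'
  obtain ⟨F₀, hF₀'⟩ := Fermat.Agent.S22.Primitive.exists_primitive_upperHalfPlane _ hφ
  have hF₀ : ∀ z : ℂ, 0 < z.im → HasDerivAt F₀ ((f : ℍ → ℂ) (ofComplex z)) z := hF₀'
  have hlim : ∀ δ : SL(2, ℤ), ∃ L : ℂ,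
      Tendsto (fun w : ℍ => F₀ ((δ • w : ℍ) : ℂ)) atImInfty (𝓝 L) := by
    intro δ
    obtain ⟨G, hG, hGlim⟩ := exists_primitive_tendsto (natCast_pos_real N) (slash_periodic f δ)
      (slash_mdiff f δ) (slash_zero f δ)
    obtain ⟨c, hc⟩ := exists_const_of_hasDerivAt (hasDerivAt_comp_smul hF₀ δ) hG
    refine ⟨c, ?_⟩
    have hfun : (fun w : ℍ => F₀ ((δ • w : ℍ) : ℂ)) = fun w : ℍ => G (w : ℂ) + c := by
      funext w
      have := hc w w.im_pos
      rwa [ofComplex_apply] at this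
    rw [hfun]
    simpa using hGlim.add_const c
  obtain ⟨L₁, hL₁⟩ := hlim 1
  refine ⟨fun τ => F₀ (τ : ℂ) - L₁, ?_, ?_, ?_, ?_⟩
  · intro τ
    have h1 : HasDerivAt (fun z : ℂ => F₀ z - L₁) (f τ) τ := by
      have := (hF₀ τ τ.im_pos).sub_const L₁
      rwa [ofComplex_apply] at this
    refine h1.congr_of_eventuallyEq ?_
    filter_upwards [isOpen_upperHalfPlaneSet.mem_nhds τ.im_pos] with w hw
    simp [Function.comp, ofComplex_apply_of_im_pos hw]
  · have := hL₁.sub_const L₁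
    simpa using this
  · intro γ
    have h2 : ∀ z : ℂ, 0 < z.im →
        HasDerivAt F₀ (((f : ℍ → ℂ) ∣[(2 : ℤ)] (γ : SL(2, ℤ))) (ofComplex z)) z := by
      intro z hz
      rw [slash_Gamma0 f γ.2]
      exact hF₀ z hz
    obtain ⟨c, hc⟩ := exists_const_of_hasDerivAt (hasDerivAt_comp_smul hF₀ (γ : SL(2, ℤ))) h2
    refine ⟨c, fun z => ?_⟩
    have := hc z z.im_pos
    rw [ofComplex_apply] at this
    simp only
    rw [this]
    ring
  · intro δ
    obtain ⟨L, hL⟩ := hlim δ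
    exact ⟨L - L₁, hL.sub_const L₁⟩

end Fermat.Agent.S21
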