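import Mathlib
import Fermat.Prelude.Def_ModularCurve_PeriodHomPair
import Fermat.Agent.S21_PeriodPrim

/-!
# S21b (2): the period map is linear and takes values in the parabolic homomorphisms
-/

set_option autoImplicit false

open UpperHalfPlane Filter Topology CongruenceSubgroup ModularCurve ModularCurve.Period
open scoped MatrixGroups Manifold ModularForm

namespace Fermat.Agent.S21

/-- two equivariant primitives of the same form differ by a constant -/
theorem primitive_unique {N : ℕ} {f : CuspForm (Gamma0 N) 2} {F G : ℍ → ℂ}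
    (hF : HasEquivariantPrimitive N f F) (hG : HasEquivariantPrimitive N f G) :
    ∃ c : ℂ, ∀ τ : ℍ, F τ = G τ + c := by
  have h1 : ∀ z : ℂ, 0 < z.im → HasDerivAt (F ∘ ofComplex) ((f : ℍ → ℂ) (ofComplex z)) z := by
    intro z hz
    have := hF.1 ⟨z, hz⟩
    rwa [ofComplex_apply_of_im_pos hz]
  have h2 : ∀ z : ℂ, 0 < z.im → HasDerivAt (G ∘ ofComplex) ((f : ℍ → ℂ) (ofComplex z)) z := by
    intro z hz
    have := hG.1 ⟨z, hz⟩
    rwa [ofComplex_apply_of_im_pos hz]
  obtain ⟨c, hc⟩ := exists_const_of_hasDerivAt h1 h2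
  refine ⟨c, fun τ => ?_⟩
  have := hc τ τ.im_pos
  simpa [ofComplex_apply] using this

/-- the period map is computed by any equivariant primitive, at any base point -/
theorem periodMap_apply {N : ℕ} {f : CuspForm (Gamma0 N) 2} {F : ℍ → ℂ}
    (hF : HasEquivariantPrimitive N f F) (γ : Gamma0 N) (z : ℍ) :
    periodMap N f (Additive.ofMul γ) = F ((γ : SL(2, ℤ)) • z) - F z := by
  obtain ⟨F₀, h₀, h⟩ := periodMap_def N f hF
  rw [h, IsEquivariantPrimitive.periodHom_apply, ← h₀.2.2.1.sub_eq_period γ z]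
  obtain ⟨c, hc⟩ := primitive_unique h₀ hF
  rw [hc, hc]
  ring

theorem hasEquivariantPrimitive_add {N : ℕ} {f g : CuspForm (Gamma0 N) 2} {F G : ℍ → ℂ}
    (hF : HasEquivariantPrimitive N f F) (hG : HasEquivariantPrimitive N g G) :
    HasEquivariantPrimitive N (f + g) (F + G) := by
  refine ⟨fun τ => ?_, ?_, fun γ => ?_, fun δ => ?_⟩
  · exact (hF.1 τ).add (hG.1 τ)
  · have h := hF.2.1.add hG.2.1
    rw [add_zero] at h
    exact h
  · obtain ⟨c, hc⟩ := hF.2.2.1 γ
    obtain ⟨d, hd⟩ := hG.2.2.1 γ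
    refine ⟨c + d, fun z => ?_⟩
    simp only [Pi.add_apply]
    linear_combination hc z + hd z
  · obtain ⟨L, hL⟩ := hF.2.2.2 δ
    obtain ⟨M, hM⟩ := hG.2.2.2 δ
    exact ⟨L + M, hL.add hM⟩

theorem hasEquivariantPrimitive_smul {N : ℕ} {f : CuspForm (Gamma0 N) 2} {F : ℍ → ℂ} (a : ℂ)
    (hF : HasEquivariantPrimitive N f F) :
    HasEquivariantPrimitive N (a • f) (a • F) := by
  refine ⟨fun τ => ?_, ?_, fun γ => ?_, fun δ => ?_⟩
  · exact (hF.1 τ).const_smul a
  · have h := hF.2.1.const_smul a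
    rw [smul_zero] at h
    exact h
  · obtain ⟨c, hc⟩ := hF.2.2.1 γ
    refine ⟨a * c, fun z => ?_⟩
    simp only [Pi.smul_apply, smul_eq_mul]
    linear_combination a * hc z
  · obtain ⟨L, hL⟩ := hF.2.2.2 δ
    exact ⟨a • L, hL.const_smul a⟩

theorem periodMap_add (N : ℕ) [NeZero N] (f g : CuspForm (Gamma0 N) 2) :
    periodMap N (f + g) = periodMap N f + periodMap N g := by
  obtain ⟨F, hF⟩ := exists_hasEquivariantPrimitive N f
  obtain ⟨G, hG⟩ := exists_hasEquivariantPrimitive N g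
  refine AddMonoidHom.ext fun γ => ?_
  have e : γ = Additive.ofMul (Additive.toMul γ) := rfl
  rw [e, AddMonoidHom.add_apply, periodMap_apply (hasEquivariantPrimitive_add hF hG) _ I,
    periodMap_apply hF _ I, periodMap_apply hG _ I]
  simp only [Pi.add_apply]
  ring

theorem periodMap_smul (N : ℕ) [NeZero N] (a : ℂ) (f : CuspForm (Gamma0 N) 2) :
    periodMap N (a • f) = a • periodMap N f := by
  obtain ⟨F, hF⟩ := exists_hasEquivariantPrimitive N f
  refine AddMonoidHom.ext fun γ => ?_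
  have e : γ = Additive.ofMul (Additive.toMul γ) := rfl
  rw [e, AddMonoidHom.smul_apply, periodMap_apply (hasEquivariantPrimitive_smul a hF) _ I,
    periodMap_apply hF _ I]
  simp only [Pi.smul_apply, smul_eq_mul]
  ring

/-- the period map as a linear map -/
noncomputable def periodMapL (N : ℕ) [NeZero N] :
    CuspForm (Gamma0 N) 2 →ₗ[ℂ] (Additive (Gamma0 N) →+ ℂ) where
  toFun := periodMap N
  map_add' := periodMap_add N
  map_smul' := periodMap_smul N

theorem periodMapL_apply (N : ℕ) [NeZero N] (f : CuspForm (Gamma0 N) 2) :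
    periodMapL N f = periodMap N f := rfl

theorem existsPeriodMapLinear (N : ℕ) [NeZero N] : ExistsPeriodMapLinear N :=
  ⟨periodMapL N, fun _ => rfl⟩

/-! ### Parabolic elements -/

theorem exists_coprime_root (a b c d : ℤ) (ht : (a + d) ^ 2 = 4) (hdet : a * d - b * c = 1) :
    ∃ x y : ℤ, IsCoprime x y ∧ c * x ^ 2 + (d - a) * x * y - b * y ^ 2 = 0 := by
  by_cases h0 : Int.gcd (a - d) (2 * c) = 0
  · have hc : c = 0 := by
      have := (Int.gcd_eq_zero_iff.mp h0).2
      omega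
    exact ⟨1, 0, isCoprime_one_left, by rw [hc]; ring⟩
  · have hpos : 0 < Int.gcd (a - d) (2 * c) := Nat.pos_of_ne_zero h0
    obtain ⟨x, y, hxy, hX, hY⟩ := Int.exists_gcd_one hpos
    set g : ℤ := (Int.gcd (a - d) (2 * c) : ℤ) with hg
    have hg0 : g ≠ 0 := by
      rw [hg]
      exact_mod_cast h0
    refine ⟨x, y, Int.isCoprime_iff_gcd_eq_one.mpr hxy, ?_⟩
    have hQ : c * (a - d) ^ 2 + (d - a) * (a - d) * (2 * c) - b * (2 * c) ^ 2 = 0 := by
      linear_combination (-c) * ht + (4 * c) * hdet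
    rw [hX, hY] at hQ
    have hQ' : g ^ 2 * (c * x ^ 2 + (d - a) * x * y - b * y ^ 2) = 0 := by
      have hda : d - a = -(x * g) := by rw [← hX]; ring
      have hda' : c * x ^ 2 + (d - a) * x * y - b * y ^ 2
          = c * x ^ 2 - (x * g) * x * y - b * y ^ 2 := by rw [hda]; ring
      rw [hda'] 
      rw [hda] at hQ
      linear_combination hQ
    rcases mul_eq_zero.mp hQ' with h | h
    · exact absurd ((pow_eq_zero_iff (two_ne_zero)).mp h) hg0
    · exact h

theorem exists_conj_c_eq_zero (γ : SL(2, ℤ))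
    (h : (γ : Matrix (Fin 2) (Fin 2) ℤ).trace ^ 2 = 4) :
    ∃ δ : SL(2, ℤ), (δ⁻¹ * γ * δ) 1 0 = 0 := by
  have ht : (γ 0 0 + γ 1 1) ^ 2 = 4 := by
    rw [Matrix.trace_fin_two] at h
    exact h
  have hdet : γ 0 0 * γ 1 1 - γ 0 1 * γ 1 0 = 1 := by
    have := γ.det_coe
    rw [Matrix.det_fin_two] at this
    exact this
  obtain ⟨x, y, hxy, hQ⟩ := exists_coprime_root _ _ _ _ ht hdet
  obtain ⟨δ, hδ0, hδ1⟩ := hxy.exists_SL2_col 0
  refine ⟨δ, ?_⟩
  rw [Matrix.SpecialLinearGroup.SL2_inv_expl δ]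
  simp only [Matrix.SpecialLinearGroup.coe_mul, Matrix.mul_apply, Fin.sum_univ_two]
  simp only [Matrix.cons_val_zero, Matrix.cons_val_one]
  rw [hδ0, hδ1]
  linear_combination hQ

theorem exists_smul_eq_of_trace_sq (γ : SL(2, ℤ))
    (h : (γ : Matrix (Fin 2) (Fin 2) ℤ).trace ^ 2 = 4) :
    ∃ (δ : SL(2, ℤ)) (n : ℤ), ∀ z : ℍ, γ • (δ • z) = δ • (ModularGroup.T ^ n • z) := by
  obtain ⟨δ, hδ⟩ := exists_conj_c_eq_zero γ h
  obtain ⟨n, hn⟩ := ModularGroup.exists_eq_T_zpow_of_c_eq_zero hδ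
  refine ⟨δ, n, fun z => ?_⟩
  rw [← hn z, ← mul_smul, ← mul_smul]
  congr 1
  group

theorem tendsto_T_zpow_smul (n : ℤ) :
    Tendsto (fun w : ℍ => ModularGroup.T ^ n • w) atImInfty atImInfty := by
  rw [atImInfty, tendsto_comap_iff]
  have : (UpperHalfPlane.im ∘ fun w : ℍ => ModularGroup.T ^ n • w) = UpperHalfPlane.im := by
    funext w
    exact ModularGroup.im_T_zpow_smul w n
  rw [this]
  exact tendsto_comap

/-- the period map takes values in the parabolic homomorphisms -/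
theorem periodMap_mem_parabolicHoms (N : ℕ) [NeZero N] (f : CuspForm (Gamma0 N) 2) :
    periodMap N f ∈ parabolicHoms ℂ (Gamma0 N) ℂ := by
  rw [mem_parabolicHoms_iff]
  intro γ hγ
  obtain ⟨F, hF⟩ := exists_hasEquivariantPrimitive N f
  obtain ⟨δ, n, hδ⟩ := exists_smul_eq_of_trace_sq (γ : SL(2, ℤ)) hγ
  obtain ⟨L, hL⟩ := hF.2.2.2 δ
  have hconst : ∀ w : ℍ, F (δ • (ModularGroup.T ^ n • w)) - F (δ • w)
      = periodMap N f (Additive.ofMul γ) := by
    intro w
    rw [periodMap_apply hF γ (δ • w), hδ w]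
  have h1 : Tendsto (fun w : ℍ => F (δ • (ModularGroup.T ^ n • w)) - F (δ • w)) atImInfty
      (𝓝 (L - L)) := (hL.comp (tendsto_T_zpow_smul n)).sub hL
  have h2 : Tendsto (fun w : ℍ => F (δ • (ModularGroup.T ^ n • w)) - F (δ • w)) atImInfty
      (𝓝 (periodMap N f (Additive.ofMul γ))) := by
    simp only [hconst]
    exact tendsto_const_nhds
  have := tendsto_nhds_unique h2 h1
  rw [this, sub_self]

end Fermat.Agent.S21
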