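import Mathlib
import Fermat.Prelude.Def_ModularCurve_PeriodHomPair
import Fermat.Agent.S21_PeriodLinear
import Fermat.Agent.S22_Families
import Fermat.Agent.S16_HomHecke

/-!
# S16 (L5): the period map is Hecke equivariant

If `g = ∑ i, f ∣[2] α_i` for a coset family `α_i` of `Γ₀(N)`, then
`periodMap N g = tHom (periodMap N f)`.
-/

set_option autoImplicit false

open UpperHalfPlane CongruenceSubgroup ModularCurve ModularCurve.Period
open scoped MatrixGroups ModularForm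

namespace Fermat.Agent.S16.LB

open Fermat.Agent.S22 (glOf)

theorem rho_zero_apply (M : Matrix (Fin 2) (Fin 2) ℂ) (c : Fermat.Agent.S22.E 0) :
    Fermat.Agent.S22.rho 0 M c = c := by
  apply Fermat.Agent.S22.ev_injective
  funext v
  rw [Fermat.Agent.S22.ev_rho, Fermat.Agent.S22.ev_apply, Fermat.Agent.S22.ev_apply]
  simp

/-- derivative of `F ∘ g` for `g ∈ GL₂(ℝ)⁺`, in weight 2. -/
theorem hasDerivAt_comp_gl {f F : ℍ → ℂ} (hF : ∀ τ : ℍ, HasDerivAt (F ∘ ofComplex) (f τ) ↑τ)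
    (g : GL (Fin 2) ℝ) (hg : 0 < g.det.val) (z : ℍ) :
    HasDerivAt ((fun w : ℍ => F (g • w)) ∘ ofComplex) ((f ∣[(2 : ℤ)] g) z) ↑z := by
  have hU : Fermat.Agent.S22.IsPrim 0 f (fun w _ => F w) := by
    intro τ
    rw [hasDerivAt_pi]
    intro j
    have hb : (f τ • Fermat.Agent.S22.beta 0 (τ : ℂ)) j = f τ := by
      simp [Fermat.Agent.S22.beta]
    rw [hb]
    exact hF τ
  have h1 := Fermat.Agent.S22.isPrim_act hU g hg z
  rw [hasDerivAt_pi] at h1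
  have h2 := h1 0
  have hb : ((f ∣[((0 : ℕ) : ℤ) + 2] g) z • Fermat.Agent.S22.beta 0 (z : ℂ)) 0
      = (f ∣[(2 : ℤ)] g) z := by
    simp [Fermat.Agent.S22.beta]
  rw [hb] at h2
  have heq : (fun x : ℂ => (Fermat.Agent.S22.act 0 g (fun w _ => F w) ∘ ofComplex) x 0)
      = (fun w : ℍ => F (g • w)) ∘ ofComplex := by
    funext x
    simp only [Function.comp_apply, Fermat.Agent.S22.act_apply, rho_zero_apply]
  rw [heq] at h2
  exact h2

theorem CosetFam.det_pos {N : ℕ} (𝒜 : CosetFam N) (i : 𝒜.ι) : 0 < (𝒜.A i).det.val := by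
  rw [Matrix.GeneralLinearGroup.val_det_apply, 𝒜.hA, ← Int.cast_det]
  exact_mod_cast 𝒜.hdet i

/-- **Hecke equivariance of the period map.** -/
theorem periodMap_hecke {N : ℕ} [NeZero N] (𝒜 : CosetFam N) (f g : CuspForm (Gamma0 N) 2)
    (hg : (g : ℍ → ℂ) = ∑ i, (f : ℍ → ℂ) ∣[(2 : ℤ)] 𝒜.A i) :
    periodMap N g = 𝒜.tHom (periodMap N f) := by
  obtain ⟨F, hF⟩ := Fermat.Agent.S21.exists_hasEquivariantPrimitive N f
  obtain ⟨G, hG⟩ := Fermat.Agent.S21.exists_hasEquivariantPrimitive N g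
  set H : ℍ → ℂ := fun w => ∑ i, F (𝒜.A i • w) with hH
  have hHd : ∀ z : ℂ, 0 < z.im → HasDerivAt (H ∘ ofComplex) ((g : ℍ → ℂ) (ofComplex z)) z := by
    intro z hz
    have h1 : ∀ i ∈ (Finset.univ : Finset 𝒜.ι),
        HasDerivAt ((fun w : ℍ => F (𝒜.A i • w)) ∘ ofComplex)
          (((f : ℍ → ℂ) ∣[(2 : ℤ)] 𝒜.A i) ⟨z, hz⟩) z := fun i _ =>
      hasDerivAt_comp_gl hF.1 (𝒜.A i) (𝒜.det_pos i) ⟨z, hz⟩
    have h2 := HasDerivAt.fun_sum h1
    rw [hg, ofComplex_apply_of_im_pos hz, Finset.sum_apply]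
    refine h2.congr_of_eventuallyEq (Filter.Eventually.of_forall fun x => ?_)
    simp only [hH, Function.comp_apply]
  have hGd : ∀ z : ℂ, 0 < z.im → HasDerivAt (G ∘ ofComplex) ((g : ℍ → ℂ) (ofComplex z)) z := by
    intro z hz
    have := hG.1 ⟨z, hz⟩
    rwa [ofComplex_apply_of_im_pos hz]
  obtain ⟨c, hc⟩ := Fermat.Agent.S21.exists_const_of_hasDerivAt hGd hHd
  have hc' : ∀ w : ℍ, G w = H w + c := fun w => by
    have := hc w w.im_pos
    simpa [ofComplex_apply] using this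
  refine AddMonoidHom.ext fun γ' => ?_
  obtain ⟨γ, rfl⟩ : ∃ γ : Gamma0 N, Additive.ofMul γ = γ' := ⟨Additive.toMul γ', rfl⟩
  rw [Fermat.Agent.S21.periodMap_apply hG γ I, hc', hc', CosetFam.tHom_apply]
  have h3 : ∀ i, F (𝒜.A i • ((γ : SL(2, ℤ)) • I))
      = F (𝒜.A (𝒜.perm γ i) • I) + periodMap N f (Additive.ofMul (𝒜.kap γ i)) := by
    intro i
    have hs : 𝒜.A i • ((γ : SL(2, ℤ)) • I)
        = ((𝒜.kap γ i : Gamma0 N) : SL(2, ℤ)) • (𝒜.A (𝒜.perm γ i) • I) := by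
      have := congrArg (fun g : GL (Fin 2) ℝ => g • (I : ℍ)) (𝒜.spec γ i)
      simp only [mul_smul] at this
      exact this
    rw [hs, Fermat.Agent.S21.periodMap_apply hF (𝒜.kap γ i) (𝒜.A (𝒜.perm γ i) • I)]
    ring
  simp only [hH, h3]
  rw [Finset.sum_add_distrib, Equiv.sum_comp (𝒜.perm γ) (fun j => F (𝒜.A j • I))]
  ring

end Fermat.Agent.S16.LB
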