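import Mathlib
import Fermat.Agent.S24_Defs

/-!
# S24, M4.5: generic algebra for a domain `A` with fraction field `L` and a group action

* a discrete valuation on `A` extends to `L`;
* invariance of a valuation of `L` can be checked on `A`;
* an invariant element of `L` is a quotient of invariant elements of `A` (norm trick).
-/

set_option autoImplicit false

noncomputable section

namespace Fermat.Agent.S24

namespace FracAlg

variable {K A L G : Type*} [Field K] [CommRing A] [IsDomain A] [Algebra K A]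
  [Field L] [Algebra A L] [IsFractionRing A L] [Algebra K L] [IsScalarTower K A L]

theorem exists_fraction (y : L) :
    ∃ a b : A, b ≠ 0 ∧ y * algebraMap A L b = algebraMap A L a := by
  obtain ⟨a, b, hb, hab⟩ := IsFractionRing.div_surjective (A := A) y
  have hb0 : b ≠ 0 := nonZeroDivisors.ne_zero hb
  have hbL : algebraMap A L b ≠ 0 := by
    rw [Ne, IsFractionRing.to_map_eq_zero_iff]
    exact hb0
  refine ⟨a, b, hb0, ?_⟩
  rw [← hab, div_mul_cancel₀ _ hbL]

theorem algebraMap_ne_zero {a : A} (ha : a ≠ 0) : algebraMap A L a ≠ 0 := by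
  rw [Ne, IsFractionRing.to_map_eq_zero_iff]
  exact ha

/-- a discrete valuation on a domain (given on nonzero elements) extends to the fraction
field. -/
theorem exists_intVal (v : A → ℤ)
    (hmul : ∀ a b : A, a ≠ 0 → b ≠ 0 → v (a * b) = v a + v b)
    (hadd : ∀ a b : A, a ≠ 0 → b ≠ 0 → a + b ≠ 0 → min (v a) (v b) ≤ v (a + b))
    (hK : ∀ c : K, c ≠ 0 → v (algebraMap K A c) = 0) :
    ∃ w : IntVal K L, ∀ a : A, a ≠ 0 → w.toFun (algebraMap A L a) = v a := by
  classical
  have hinj : Function.Injective (algebraMap A L) := IsFractionRing.injective A L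
  have hv1 : v 1 = 0 := by
    have := hmul 1 1 one_ne_zero one_ne_zero
    rw [mul_one] at this
    omega
  -- the extension
  have hpair : ∀ y : L, ∃ p : A × A, p.2 ≠ 0 ∧ y * algebraMap A L p.2 = algebraMap A L p.1 := by
    intro y
    obtain ⟨a, b, hb, hab⟩ := exists_fraction (A := A) y
    exact ⟨(a, b), hb, hab⟩
  choose P hP2 hP using hpair
  let w : L → ℤ := fun y => v (P y).1 - v (P y).2
  -- its characterisation
  have hw : ∀ (y : L) (a b : A), y ≠ 0 → b ≠ 0 → y * algebraMap A L b = algebraMap A L a →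
      w y = v a - v b := by
    intro y a b hy hb hab
    have hb' := hP2 y
    have hab' := hP y
    have ha0 : a ≠ 0 := by
      rintro rfl
      rw [map_zero] at hab
      exact (mul_ne_zero hy (algebraMap_ne_zero hb)) hab
    have ha'0 : (P y).1 ≠ 0 := by
      intro h0
      rw [h0, map_zero] at hab'
      exact (mul_ne_zero hy (algebraMap_ne_zero hb')) hab'
    have hcross : a * (P y).2 = (P y).1 * b := by
      apply hinj
      rw [map_mul, map_mul, ← hab, ← hab']
      ring
    have h1 := hmul a (P y).2 ha0 hb'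
    have h2 := hmul (P y).1 b ha'0 hb
    rw [hcross] at h1
    change v (P y).1 - v (P y).2 = v a - v b
    omega
  refine ⟨⟨w, ?_, ?_, ?_⟩, ?_⟩
  · -- multiplicativity
    intro y₁ y₂ hy₁ hy₂
    obtain ⟨a₁, b₁, hb₁, h₁⟩ := exists_fraction (A := A) y₁
    obtain ⟨a₂, b₂, hb₂, h₂⟩ := exists_fraction (A := A) y₂
    have ha₁ : a₁ ≠ 0 := by
      rintro rfl
      rw [map_zero] at h₁
      exact (mul_ne_zero hy₁ (algebraMap_ne_zero hb₁)) h₁
    have ha₂ : a₂ ≠ 0 := by
      rintro rfl
      rw [map_zero] at h₂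
      exact (mul_ne_zero hy₂ (algebraMap_ne_zero hb₂)) h₂
    rw [hw y₁ a₁ b₁ hy₁ hb₁ h₁, hw y₂ a₂ b₂ hy₂ hb₂ h₂,
      hw (y₁ * y₂) (a₁ * a₂) (b₁ * b₂) (mul_ne_zero hy₁ hy₂) (mul_ne_zero hb₁ hb₂)
        (by rw [map_mul, map_mul, ← h₁, ← h₂]; ring),
      hmul a₁ a₂ ha₁ ha₂, hmul b₁ b₂ hb₁ hb₂]
    ring
  · -- ultrametric inequality
    intro y₁ y₂ hy₁ hy₂ hsum
    obtain ⟨a₁, b₁, hb₁, h₁⟩ := exists_fraction (A := A) y₁
    obtain ⟨a₂, b₂, hb₂, h₂⟩ := exists_fraction (A := A) y₂
    have ha₁ : a₁ ≠ 0 := by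
      rintro rfl
      rw [map_zero] at h₁
      exact (mul_ne_zero hy₁ (algebraMap_ne_zero hb₁)) h₁
    have ha₂ : a₂ ≠ 0 := by
      rintro rfl
      rw [map_zero] at h₂
      exact (mul_ne_zero hy₂ (algebraMap_ne_zero hb₂)) h₂
    have h12 : (y₁ + y₂) * algebraMap A L (b₁ * b₂) = algebraMap A L (a₁ * b₂ + a₂ * b₁) := by
      rw [map_mul, map_add, map_mul, map_mul, ← h₁, ← h₂]
      ring
    have hnum : a₁ * b₂ + a₂ * b₁ ≠ 0 := by
      intro h0
      rw [h0, map_zero] at h12
      exact (mul_ne_zero hsum (algebraMap_ne_zero (mul_ne_zero hb₁ hb₂))) h12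
    rw [hw y₁ a₁ b₁ hy₁ hb₁ h₁, hw y₂ a₂ b₂ hy₂ hb₂ h₂,
      hw (y₁ + y₂) (a₁ * b₂ + a₂ * b₁) (b₁ * b₂) hsum (mul_ne_zero hb₁ hb₂) h12,
      hmul b₁ b₂ hb₁ hb₂]
    have h3 := hadd (a₁ * b₂) (a₂ * b₁) (mul_ne_zero ha₁ hb₂) (mul_ne_zero ha₂ hb₁) hnum
    rw [hmul a₁ b₂ ha₁ hb₂, hmul a₂ b₁ ha₂ hb₁] at h3
    rcases min_cases (v a₁ - v b₁) (v a₂ - v b₂) with ⟨h, _⟩ | ⟨h, _⟩ <;>
    rcases min_cases (v a₁ + v b₂) (v a₂ + v b₁) with ⟨h', _⟩ | ⟨h', _⟩ <;>
    rw [h] <;> rw [h'] at h3 <;> omega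
  · -- triviality on constants
    intro c hc
    have hc' : algebraMap K A c ≠ 0 := by
      rw [Ne, map_eq_zero_iff _ (algebraMap K A).injective]
      exact hc
    have h1 : algebraMap K L c * algebraMap A L 1 = algebraMap A L (algebraMap K A c) := by
      rw [map_one, mul_one, ← IsScalarTower.algebraMap_apply]
    have hcL : algebraMap K L c ≠ 0 := by
      rw [IsScalarTower.algebraMap_apply K A L]
      exact algebraMap_ne_zero hc'
    change w (algebraMap K L c) = 0
    rw [hw _ _ 1 hcL one_ne_zero h1, hK c hc, hv1]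
    ring
  · intro a ha
    change w (algebraMap A L a) = v a
    rw [hw _ a 1 (algebraMap_ne_zero ha) one_ne_zero (by rw [map_one, mul_one]), hv1]
    ring

variable [Group G] [MulSemiringAction G A] [MulSemiringAction G L]

/-- a valuation of `L` is preserved by `c` as soon as it is on `A`. -/
theorem intVal_smul (hcompat : ∀ (g : G) (a : A), g • algebraMap A L a = algebraMap A L (g • a))
    (w : IntVal K L) (c : G)
    (hc : ∀ a : A, a ≠ 0 → w.toFun (algebraMap A L (c • a)) = w.toFun (algebraMap A L a)) :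
    ∀ y : L, y ≠ 0 → w.toFun (c • y) = w.toFun y := by
  intro y hy
  obtain ⟨a, b, hb, hab⟩ := exists_fraction (A := A) y
  have ha : a ≠ 0 := by
    rintro rfl
    rw [map_zero] at hab
    exact (mul_ne_zero hy (algebraMap_ne_zero hb)) hab
  have hbL : algebraMap A L b ≠ 0 := algebraMap_ne_zero hb
  have hcb : c • b ≠ 0 := by
    rw [Ne, smul_eq_zero_iff_eq]
    exact hb
  have hcy : c • y ≠ 0 := by
    rw [Ne, smul_eq_zero_iff_eq]
    exact hy
  have h1 : w.toFun y + w.toFun (algebraMap A L b) = w.toFun (algebraMap A L a) := by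
    rw [← w.map_mul' y _ hy hbL, hab]
  have hab' : c • y * algebraMap A L (c • b) = algebraMap A L (c • a) := by
    rw [← hcompat, ← hcompat, ← smul_mul', hab]
  have h2 : w.toFun (c • y) + w.toFun (algebraMap A L (c • b)) =
      w.toFun (algebraMap A L (c • a)) := by
    rw [← w.map_mul' (c • y) _ hcy (algebraMap_ne_zero hcb), hab']
  rw [hc a ha, hc b hb] at h2
  omega

/-- norm trick: an invariant element of the fraction field is a quotient of invariants. -/
theorem exists_invariant_fraction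
    (hcompat : ∀ (g : G) (a : A), g • algebraMap A L a = algebraMap A L (g • a))
    (Γ₀ : Subgroup G) [Γ₀.FiniteIndex] (htriv : ∀ γ ∈ Γ₀, ∀ a : A, γ • a = a)
    (y : L) (hy : ∀ g : G, g • y = y) :
    ∃ a b : A, b ≠ 0 ∧ (∀ g : G, g • a = a) ∧ (∀ g : G, g • b = b) ∧
      y * algebraMap A L b = algebraMap A L a := by
  classical
  have hinj : Function.Injective (algebraMap A L) := IsFractionRing.injective A L
  obtain ⟨a₀, b₀, hb₀, hab₀⟩ := exists_fraction (A := A) y
  have : Fintype (G ⧸ Γ₀) := Subgroup.fintypeQuotientOfFiniteIndex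
  -- the conjugates of `b₀`, indexed by the cosets
  let φ : G ⧸ Γ₀ → A := fun q => (Quotient.out q : G) • b₀
  have hφ : ∀ g : G, φ (QuotientGroup.mk g) = g • b₀ := by
    intro g
    have h1 : ((Quotient.out (QuotientGroup.mk g : G ⧸ Γ₀) : G))⁻¹ * g ∈ Γ₀ := by
      rw [← QuotientGroup.eq]
      exact Quotient.out_eq _
    have h2 := htriv _ h1 b₀
    change (Quotient.out (QuotientGroup.mk g : G ⧸ Γ₀) : G) • b₀ = g • b₀
    have h3 : g • b₀ = (Quotient.out (QuotientGroup.mk g : G ⧸ Γ₀) : G) •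
        (((Quotient.out (QuotientGroup.mk g : G ⧸ Γ₀) : G))⁻¹ * g) • b₀ := by
      rw [smul_smul, mul_inv_cancel_left]
    rw [h3, h2]
  have hφsmul : ∀ (h : G) (q : G ⧸ Γ₀), h • φ q = φ (h • q) := by
    intro h q
    induction q using QuotientGroup.induction_on with
    | H g =>
      rw [hφ, smul_smul]
      change (h * g) • b₀ = φ (QuotientGroup.mk (h * g))
      rw [hφ]
  have hφne : ∀ q : G ⧸ Γ₀, φ q ≠ 0 := by
    intro q
    change (Quotient.out q : G) • b₀ ≠ 0
    rw [Ne, smul_eq_zero_iff_eq]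
    exact hb₀
  set b : A := ∏ q : G ⧸ Γ₀, φ q with hbdef
  have hbne : b ≠ 0 := Finset.prod_ne_zero_iff.mpr fun q _ => hφne q
  have hbinv : ∀ g : G, g • b = b := by
    intro g
    rw [hbdef, Finset.smul_prod']
    simp only [hφsmul]
    exact Fintype.prod_equiv (MulAction.toPerm g) _ _ fun q => rfl
  set rest : A := ∏ q ∈ (Finset.univ : Finset (G ⧸ Γ₀)).erase (QuotientGroup.mk 1), φ q
    with hrest
  have hb_eq : b = b₀ * rest := by
    rw [hbdef, hrest, ← Finset.mul_prod_erase Finset.univ φ (Finset.mem_univ (QuotientGroup.mk 1)),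
      hφ, one_smul]
  set a : A := a₀ * rest with hadef
  have hab : y * algebraMap A L b = algebraMap A L a := by
    rw [hb_eq, hadef, map_mul, map_mul, ← mul_assoc, hab₀]
  refine ⟨a, b, hbne, fun g => ?_, hbinv, hab⟩
  apply hinj
  rw [← hcompat, ← hab, smul_mul', hy g, hcompat, hbinv g]

end FracAlg

end Fermat.Agent.S24
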