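import Mathlib

/-!
# S24, M4.3: integer `2 × 2` matrices (Hermite normal form, cosets fixed by `Γ(N)`, `Γ₀(N)`)
-/

set_option autoImplicit false

open Matrix CongruenceSubgroup
open scoped MatrixGroups

namespace Fermat.Agent.S24.Hermite

/-- Hermite normal form. -/
theorem exists_hermite (A : Matrix (Fin 2) (Fin 2) ℤ) (hA : 0 < A.det) :
    ∃ (δ : SL(2, ℤ)) (a b d : ℕ), 0 < a ∧ 0 < d ∧ b < d ∧ (a * d : ℤ) = A.det ∧
      A = (δ : Matrix (Fin 2) (Fin 2) ℤ) * !![(a : ℤ), b; 0, d] := by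
  set p := A 0 0 with hp
  set q := A 0 1 with hq
  set r := A 1 0 with hr
  set s := A 1 1 with hs
  have hdet : A.det = p * s - q * r := by rw [Matrix.det_fin_two]
  have hpr : p ≠ 0 ∨ r ≠ 0 := by
    by_contra hcon
    push Not at hcon
    rw [hdet, hcon.1, hcon.2] at hA
    simp at hA
  set g : ℕ := Int.gcd p r with hg
  have hgpos : 0 < g := Int.gcd_pos_iff.mpr hpr
  have hg0 : (g : ℤ) ≠ 0 := by exact_mod_cast hgpos.ne'
  obtain ⟨p', hp'⟩ : (g : ℤ) ∣ p := Int.gcd_dvd_left p r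
  obtain ⟨r', hr'⟩ : (g : ℤ) ∣ r := Int.gcd_dvd_right p r
  set u := Int.gcdA p r with hu
  set v := Int.gcdB p r with hv
  have hbez : (g : ℤ) = p * u + r * v := Int.gcd_eq_gcd_ab p r
  have hbez' : p' * u + r' * v = 1 := by
    have h1 : (g : ℤ) * (p' * u + r' * v) = (g : ℤ) * 1 := by
      rw [mul_one]
      conv_rhs => rw [hbez, hp', hr']
      ring
    exact mul_left_cancel₀ hg0 h1
  set b₀ : ℤ := u * q + v * s with hb₀
  set d : ℤ := p' * s - r' * q with hd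
  have hgd : (g : ℤ) * d = A.det := by
    rw [hdet, hd, hp', hr']; ring
  have hdpos : 0 < d := by
    have h1 : 0 < (g : ℤ) * d := by rw [hgd]; exact hA
    rcases lt_trichotomy d 0 with h | h | h
    · exact absurd h1 (not_lt.mpr (mul_nonpos_of_nonneg_of_nonpos (by positivity) h.le))
    · rw [h, mul_zero] at h1; exact absurd h1 (lt_irrefl 0)
    · exact h
  set k : ℤ := b₀ / d with hk
  set b : ℤ := b₀ % d with hb
  have hbnonneg : 0 ≤ b := Int.emod_nonneg _ hdpos.ne'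
  have hblt : b < d := Int.emod_lt_of_pos _ hdpos
  have hb₀eq : b₀ = d * k + b := (Int.mul_ediv_add_emod b₀ d).symm
  -- the matrix δ
  have hδdet : (!![p', p' * k - v; r', r' * k + u] : Matrix (Fin 2) (Fin 2) ℤ).det = 1 := by
    rw [Matrix.det_fin_two_of]
    linear_combination hbez'
  refine ⟨⟨!![p', p' * k - v; r', r' * k + u], hδdet⟩, g, b.toNat, d.toNat, hgpos,
    by omega, by omega, ?_, ?_⟩
  · rw [Int.toNat_of_nonneg hdpos.le]; exact hgd
  · rw [Int.toNat_of_nonneg hdpos.le, Int.toNat_of_nonneg hbnonneg]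
    ext i j
    fin_cases i <;> fin_cases j
    · simp [Matrix.mul_apply, Fin.sum_univ_two]
      rw [← hp, hp']; ring
    · simp [Matrix.mul_apply, Fin.sum_univ_two]
      rw [← hq]
      have : p' * b + (p' * k - v) * d = q := by
        have hb' : b = b₀ - d * k := by omega
        rw [hb', hb₀, hd]
        linear_combination q * hbez'
      linarith
    · simp [Matrix.mul_apply, Fin.sum_univ_two]
      rw [← hr, hr']; ring
    · simp [Matrix.mul_apply, Fin.sum_univ_two]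
      rw [← hs]
      have : r' * b + (r' * k + u) * d = s := by
        have hb' : b = b₀ - d * k := by omega
        rw [hb', hb₀, hd]
        linear_combination s * hbez'
      linarith

/-- `Γ(N)` fixes every left coset `SL₂(ℤ) A` with `det A ∣ N`. -/
theorem exists_mul_eq_of_mem_Gamma (N : ℕ) (A : Matrix (Fin 2) (Fin 2) ℤ) (hA : 0 < A.det)
    (hAN : A.det ∣ (N : ℤ)) (γ : SL(2, ℤ)) (hγ : γ ∈ Gamma N) :
    ∃ δ : SL(2, ℤ), A * (γ : Matrix (Fin 2) (Fin 2) ℤ) = (δ : Matrix (Fin 2) (Fin 2) ℤ) * A := by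
  obtain ⟨c, hc⟩ := hAN
  obtain ⟨h00, h01, h10, h11⟩ := Gamma_mem.mp hγ
  have d00 : (N : ℤ) ∣ γ 0 0 - 1 := by
    rw [← ZMod.intCast_zmod_eq_zero_iff_dvd]; push_cast; rw [h00]; ring
  have d01 : (N : ℤ) ∣ γ 0 1 := by
    rw [← ZMod.intCast_zmod_eq_zero_iff_dvd]; exact h01
  have d10 : (N : ℤ) ∣ γ 1 0 := by
    rw [← ZMod.intCast_zmod_eq_zero_iff_dvd]; exact h10
  have d11 : (N : ℤ) ∣ γ 1 1 - 1 := by
    rw [← ZMod.intCast_zmod_eq_zero_iff_dvd]; push_cast; rw [h11]; ring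
  obtain ⟨m00, e00⟩ := d00
  obtain ⟨m01, e01⟩ := d01
  obtain ⟨m10, e10⟩ := d10
  obtain ⟨m11, e11⟩ := d11
  set M : Matrix (Fin 2) (Fin 2) ℤ := !![m00, m01; m10, m11] with hM
  have hγeq : (γ : Matrix (Fin 2) (Fin 2) ℤ) = 1 + (N : ℤ) • M := by
    ext i j
    fin_cases i <;> fin_cases j
    · simp [hM]; linarith
    · simp [hM]; linarith
    · simp [hM]; linarith
    · simp [hM]; linarith
  set δm : Matrix (Fin 2) (Fin 2) ℤ := 1 + c • (A * M * A.adjugate) with hδm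
  have key : A * (γ : Matrix (Fin 2) (Fin 2) ℤ) = δm * A := by
    rw [hγeq, hδm, add_mul, one_mul, Matrix.smul_mul, Matrix.mul_assoc, Matrix.adjugate_mul,
      Matrix.mul_smul, mul_one, smul_smul, mul_add, mul_one, Matrix.mul_smul, hc, mul_comm c]
  have hdet : δm.det = 1 := by
    have h1 := congrArg Matrix.det key
    rw [Matrix.det_mul, Matrix.det_mul, γ.det_coe, mul_one] at h1
    have h2 : A.det * 1 = A.det * δm.det := by rw [mul_one, mul_comm]; exact h1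
    exact (mul_left_cancel₀ hA.ne' h2).symm
  exact ⟨⟨δm, hdet⟩, key⟩

/-- `Γ₀(N)` fixes the cosets of `diag(d, 1)`, `d ∣ N`. -/
theorem exists_mul_eq_of_mem_Gamma0 (N d : ℕ) (hd : d ∣ N) (γ : SL(2, ℤ)) (hγ : γ ∈ Gamma0 N) :
    ∃ δ : SL(2, ℤ), !![(d : ℤ), 0; 0, 1] * (γ : Matrix (Fin 2) (Fin 2) ℤ)
      = (δ : Matrix (Fin 2) (Fin 2) ℤ) * !![(d : ℤ), 0; 0, 1] := by
  have h1 : ((γ 1 0 : ℤ) : ZMod N) = 0 := Gamma0_mem.mp hγ
  have h2 : (N : ℤ) ∣ γ 1 0 := (ZMod.intCast_zmod_eq_zero_iff_dvd _ _).mp h1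
  obtain ⟨k, hk⟩ : (d : ℤ) ∣ γ 1 0 := (Int.natCast_dvd_natCast.mpr hd).trans h2
  have hdet : γ 0 0 * γ 1 1 - γ 0 1 * γ 1 0 = 1 := by
    have := γ.det_coe
    rwa [Matrix.det_fin_two] at this
  have hδ : (!![γ 0 0, (d : ℤ) * γ 0 1; k, γ 1 1] : Matrix (Fin 2) (Fin 2) ℤ).det = 1 := by
    rw [Matrix.det_fin_two_of]
    rw [hk] at hdet
    linear_combination hdet
  refine ⟨⟨_, hδ⟩, ?_⟩
  ext i j
  fin_cases i <;> fin_cases j
  · simp [Matrix.mul_apply, Fin.sum_univ_two]; ring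
  · simp [Matrix.mul_apply, Fin.sum_univ_two]
  · simp [Matrix.mul_apply, Fin.sum_univ_two]; rw [hk]; ring
  · simp [Matrix.mul_apply, Fin.sum_univ_two]

theorem mem_Gamma0_of_mul_eq (N : ℕ) (γ δ : SL(2, ℤ))
    (h : !![(N : ℤ), 0; 0, 1] * (γ : Matrix (Fin 2) (Fin 2) ℤ)
      = (δ : Matrix (Fin 2) (Fin 2) ℤ) * !![(N : ℤ), 0; 0, 1]) : γ ∈ Gamma0 N := by
  rw [Gamma0_mem]
  have h10 := congrFun (congrFun h 1) 0
  simp [Matrix.mul_apply, Fin.sum_univ_two] at h10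
  rw [h10]
  push_cast
  simp

end Fermat.Agent.S24.Hermite
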