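import Mathlib
import Fermat.Agent.S24_Defs
import Fermat.Agent.S24_LaurentDefs

/-!
# S24, M4.7: the formal `j`
-/

set_option autoImplicit false

noncomputable section

open ModularCurve

namespace Fermat.Agent.S24.JFormal

local notation "Kbar" => AlgebraicClosure ℚ

/-- `coeffEmb` commutes with `qExpand`. -/
theorem coeffEmb_qExpand (L : Type*) [Field L] [Algebra ℚ L] (n : ℕ) [NeZero n]
    (x : LaurentSeries ℚ) : coeffEmb L (qExpand ℚ n x) = qExpand L n (coeffEmb L x) := by
  ext k
  by_cases hk : (n : ℤ) ∣ k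
  · obtain ⟨m, rfl⟩ := hk
    rw [coeffEmb_coeff, qExpand_coeff_mul, qExpand_coeff_mul, coeffEmb_coeff]
  · rw [coeffEmb_coeff, qExpand_coeff_of_not_dvd n x hk, qExpand_coeff_of_not_dvd n _ hk,
      map_zero]

/-- `qExpand` in terms of `substSeries`. -/
theorem substSeries_one_eq_qExpand {R : Type*} [Field R] (n : ℕ) [NeZero n]
    (s : LaurentSeries R) : substSeries n 1 s = qExpand R n s := by
  ext k
  rw [substSeries_coeff]
  by_cases hk : (n : ℤ) ∣ k
  · rw [if_pos hk]
    obtain ⟨m, rfl⟩ := hk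
    have hn : (n : ℤ) ≠ 0 := by exact_mod_cast NeZero.ne n
    rw [qExpand_coeff_mul, Int.mul_ediv_cancel_left _ hn, one_zpow, mul_one]
  · rw [if_neg hk, qExpand_coeff_of_not_dvd n s hk]

theorem coeff_coeffEmb_jq_pow_self (L : Type*) [Field L] [Algebra ℚ L] (n : ℕ) :
    ((coeffEmb L jq) ^ n).coeff (-(n : ℤ)) = 1 := by
  rw [← map_pow, coeffEmb_coeff, coeff_jq_pow_self, map_one]

theorem coeff_coeffEmb_jq_pow_of_lt (L : Type*) [Field L] [Algebra ℚ L] {n : ℕ} {m : ℤ}
    (hm : m < -(n : ℤ)) : ((coeffEmb L jq) ^ n).coeff m = 0 := by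
  rw [← map_pow, coeffEmb_coeff, coeff_jq_pow_of_lt hm, map_zero]

/-- the order of `j` in `q ^ (1 / N)`. -/
theorem order_qExpand_jq (L : Type*) [Field L] [Algebra ℚ L] (N : ℕ) [NeZero N] :
    (qExpand L N (coeffEmb L jq)).order = -(N : ℤ) := by
  set y := qExpand L N (coeffEmb L jq) with hy
  have h1 : y.coeff (-(N : ℤ)) = 1 := by
    have : -(N : ℤ) = (N : ℤ) * (-1) := by ring
    rw [hy, this, qExpand_coeff_mul, coeffEmb_coeff, coeff_jq_neg_one, map_one]
  have hne : y ≠ 0 := by
    intro h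
    rw [h] at h1
    simp at h1
  have hlt : ∀ k : ℤ, k < -(N : ℤ) → y.coeff k = 0 := by
    intro k hk
    by_cases hd : (N : ℤ) ∣ k
    · obtain ⟨m, rfl⟩ := hd
      rw [hy, qExpand_coeff_mul, coeffEmb_coeff]
      have hN : (0 : ℤ) < N := by exact_mod_cast Nat.pos_of_ne_zero (NeZero.ne N)
      have hm : m < -1 := by
        by_contra hcon
        push Not at hcon
        have : (N : ℤ) * (-1) ≤ (N : ℤ) * m := mul_le_mul_of_nonneg_left hcon hN.le
        linarith
      rw [coeff_jq_of_lt hm, map_zero]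
    · rw [hy, qExpand_coeff_of_not_dvd N _ hd]
  apply le_antisymm
  · exact HahnSeries.order_le_of_coeff_ne_zero (by rw [h1]; exact one_ne_zero)
  · by_contra hcon
    push Not at hcon
    exact hne (HahnSeries.coeff_order_eq_zero.mp (hlt _ hcon))

theorem transcendental_coeffEmb_jq (L : Type*) [Field L] [Algebra ℚ L] :
    Transcendental L (coeffEmb L jq) := by
  rw [transcendental_iff]
  intro p hp
  by_contra hp0
  set n := p.natDegree with hn
  have h2 := congrArg (fun s : LaurentSeries L => s.coeff (-(n : ℤ))) hp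
  simp only [HahnSeries.coeff_zero] at h2
  rw [Polynomial.aeval_eq_sum_range, ← hn] at h2
  rw [HahnSeries.coeff_sum] at h2
  simp only [Algebra.smul_def, ModularCurve.algebraMap_laurentSeries_eq_single] at h2
  have hC : ∀ (c : L) (y : LaurentSeries L) (k : ℤ),
      (HahnSeries.single 0 c * y).coeff k = c * y.coeff k := by
    intro c y k
    simp
  simp only [hC] at h2
  rw [Finset.sum_range_succ, coeff_coeffEmb_jq_pow_self, mul_one] at h2
  have h4 : ∑ i ∈ Finset.range n, p.coeff i * ((coeffEmb L jq) ^ i).coeff (-(n : ℤ)) = 0 := by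
    refine Finset.sum_eq_zero fun i hi => ?_
    have hi' : i < n := Finset.mem_range.mp hi
    rw [coeff_coeffEmb_jq_pow_of_lt L (by omega), mul_zero]
  rw [h4, zero_add] at h2
  exact hp0 (Polynomial.leadingCoeff_eq_zero.mp h2)

theorem transcendental_jBar (N : ℕ) [NeZero N] : Transcendental Kbar (jBar N) := by
  have h := transcendental_coeffEmb_jq Kbar
  intro halg
  apply h
  have : (algebraMap ↥(modularFunctionFieldBar N) (LaurentSeries Kbar)) (jBar N)
      = coeffEmb Kbar jq := rfl
  rw [← this]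
  exact halg.algebraMap

end Fermat.Agent.S24.JFormal
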