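import Mathlib
import Fermat.Agent.S24_LaurentDefs

/-!
# S24, M4.2: calculus of Laurent expansions at `i∞`

Constants, sums, products, uniqueness, boundedness, and the behaviour under the substitutions
`τ ↦ (a τ + b) / d` and `τ ↦ τ + k`.
-/

set_option autoImplicit false

noncomputable section

open UpperHalfPlane
open scoped MatrixGroups Manifold

namespace Fermat.Agent.S24

namespace QLaurent

variable {N : ℕ} [NeZero N] {f g : ℍ → ℂ} {s t : LaurentSeries ℂ}

/-! ### Preliminaries -/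

theorem qN_ne_zero (N : ℕ) (τ : ℍ) : qN N τ ≠ 0 := Function.Periodic.qParam_ne_zero _

theorem norm_qN_lt_one (N : ℕ) [NeZero N] (τ : ℍ) : ‖qN N τ‖ < 1 :=
  Function.Periodic.norm_qParam_lt_one (Nat.cast_pos.mpr (NeZero.pos N)) τ.im_pos

/-- shifting the summation index up by `k`. -/
theorem hasSum_shift_up {s : LaurentSeries ℂ} {M : ℕ}
    (hM : ∀ n : ℤ, n < -(M : ℤ) → s.coeff n = 0) (k : ℕ) {q a : ℂ}
    (h : HasSum (fun n : ℕ => s.coeff ((n : ℤ) - M) * q ^ n) a) :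
    HasSum (fun n : ℕ => s.coeff ((n : ℤ) - (M + k : ℕ)) * q ^ n) (q ^ k * a) := by
  have h1 : HasSum (fun n : ℕ => s.coeff (((n + k : ℕ) : ℤ) - (M + k : ℕ)) * q ^ (n + k))
      (q ^ k * a) := by
    have h0 := h.mul_left (q ^ k)
    have hfun : (fun n : ℕ => s.coeff (((n + k : ℕ) : ℤ) - (M + k : ℕ)) * q ^ (n + k)) =
        fun n : ℕ => q ^ k * (s.coeff ((n : ℤ) - M) * q ^ n) := by
      funext n
      have : (((n + k : ℕ) : ℤ) - ((M + k : ℕ) : ℤ)) = (n : ℤ) - M := by push_cast; ring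
      rw [this, pow_add]
      ring
    rw [hfun]
    exact h0
  have h2 := (hasSum_nat_add_iff
    (f := fun n : ℕ => s.coeff ((n : ℤ) - (M + k : ℕ)) * q ^ n) k).mp h1
  have h3 : ∑ i ∈ Finset.range k, s.coeff ((i : ℤ) - (M + k : ℕ)) * q ^ i = 0 := by
    apply Finset.sum_eq_zero
    intro i hi
    have hik := Finset.mem_range.mp hi
    rw [hM _ (by push_cast; omega), zero_mul]
  rwa [h3, add_zero] at h2

/-- shifting the summation index down by `k`. -/
theorem hasSum_shift_down {s : LaurentSeries ℂ} {M : ℕ}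
    (hM : ∀ n : ℤ, n < -(M : ℤ) → s.coeff n = 0) (k : ℕ) {q a : ℂ} (hq : q ≠ 0)
    (h : HasSum (fun n : ℕ => s.coeff ((n : ℤ) - (M + k : ℕ)) * q ^ n) (q ^ k * a)) :
    HasSum (fun n : ℕ => s.coeff ((n : ℤ) - M) * q ^ n) a := by
  have h3 : ∑ i ∈ Finset.range k, s.coeff ((i : ℤ) - (M + k : ℕ)) * q ^ i = 0 := by
    apply Finset.sum_eq_zero
    intro i hi
    have hik := Finset.mem_range.mp hi
    rw [hM _ (by push_cast; omega), zero_mul]
  have h1 : HasSum (fun n : ℕ => s.coeff (((n + k : ℕ) : ℤ) - (M + k : ℕ)) * q ^ (n + k))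
      (q ^ k * a) := by
    refine (hasSum_nat_add_iff
      (f := fun n : ℕ => s.coeff ((n : ℤ) - (M + k : ℕ)) * q ^ n) k).mpr ?_
    rwa [h3, add_zero]
  have hfun : (fun n : ℕ => s.coeff (((n + k : ℕ) : ℤ) - (M + k : ℕ)) * q ^ (n + k)) =
      fun n : ℕ => q ^ k * (s.coeff ((n : ℤ) - M) * q ^ n) := by
    funext n
    have : (((n + k : ℕ) : ℤ) - ((M + k : ℕ) : ℤ)) = (n : ℤ) - M := by push_cast; ring
    rw [this, pow_add]
    ring
  rw [hfun] at h1
  have h4 := h1.mul_left ((q ^ k)⁻¹)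
  have hqk : q ^ k ≠ 0 := pow_ne_zero _ hq
  have hfun2 : (fun n : ℕ => (q ^ k)⁻¹ * (q ^ k * (s.coeff ((n : ℤ) - M) * q ^ n))) =
      fun n : ℕ => s.coeff ((n : ℤ) - M) * q ^ n := by
    funext n
    rw [← mul_assoc, inv_mul_cancel₀ hqk, one_mul]
  rw [hfun2, ← mul_assoc, inv_mul_cancel₀ hqk, one_mul] at h4
  exact h4

/-- The expansion can be written with any admissible pole order bound. -/
theorem HasLaurentExp.hasSum' (hf : HasLaurentExp N f s) {M' : ℕ}
    (hM' : ∀ n : ℤ, n < -(M' : ℤ) → s.coeff n = 0) (τ : ℍ) :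
    HasSum (fun n : ℕ => s.coeff ((n : ℤ) - M') * qN N τ ^ n) (qN N τ ^ M' * f τ) := by
  obtain ⟨M, hM, hsum⟩ := hf
  rcases le_total M M' with h | h
  · obtain ⟨k, rfl⟩ := Nat.exists_eq_add_of_le h
    have := hasSum_shift_up hM k (hsum τ)
    rwa [← mul_assoc, ← pow_add, add_comm k M] at this
  · obtain ⟨k, rfl⟩ := Nat.exists_eq_add_of_le h
    refine hasSum_shift_down hM' k (qN_ne_zero N τ) ?_
    have := hsum τ
    rwa [pow_add, mul_comm (qN N τ ^ M') (qN N τ ^ k), mul_assoc] at this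

theorem HasLaurentExp.exists_bound (hf : HasLaurentExp N f s) :
    ∃ M : ℕ, ∀ n : ℤ, n < -(M : ℤ) → s.coeff n = 0 := by
  obtain ⟨M, hM, -⟩ := hf
  exact ⟨M, hM⟩

theorem hasLaurentExp_of_hasSum {M : ℕ} (hM : ∀ n : ℤ, n < -(M : ℤ) → s.coeff n = 0)
    (h : ∀ τ : ℍ, HasSum (fun n : ℕ => s.coeff ((n : ℤ) - M) * qN N τ ^ n) (qN N τ ^ M * f τ)) :
    HasLaurentExp N f s := ⟨M, hM, h⟩

theorem cuspFunction_zero_fun (N : ℕ) : cuspFunction (N : ℝ) (0 : ℍ → ℂ) = 0 := by
  funext q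
  unfold cuspFunction Function.Periodic.cuspFunction
  by_cases hq : q = 0
  · subst hq
    simp only [Function.update_self]
    have : ((0 : ℍ → ℂ) ∘ ofComplex) ∘ Function.Periodic.invQParam (N : ℝ) = fun _ => (0 : ℂ) := by
      funext x; simp
    rw [this]
    exact (tendsto_const_nhds (x := (0 : ℂ)) (f := nhdsWithin 0 {0}ᶜ)).limUnder_eq
  · simp [hq]

/-- a power series in `qN N` vanishing identically on `ℍ` is zero. -/
theorem coeff_eq_zero_of_hasSum_zero {c : ℕ → ℂ}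
    (h : ∀ τ : ℍ, HasSum (fun n : ℕ => c n * qN N τ ^ n) 0) (n : ℕ) : c n = 0 := by
  have hpos : (0 : ℝ) < (N : ℝ) := Nat.cast_pos.mpr (NeZero.pos N)
  have han : AnalyticAt ℂ (cuspFunction (N : ℝ) (0 : ℍ → ℂ)) 0 := by
    rw [cuspFunction_zero_fun]
    exact analyticAt_const
  have h' : ∀ τ : ℍ, HasSum (fun m => c m • Function.Periodic.qParam (N : ℝ) ↑τ ^ m)
      ((0 : ℍ → ℂ) τ) := fun τ => h τ
  have key := (hasFPowerSeriesOnBall_cuspFunction (f := (0 : ℍ → ℂ)) (c := c) hpos han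
    h').hasFPowerSeriesAt
  rw [cuspFunction_zero_fun] at key
  have h2 := congrArg (fun p => FormalMultilinearSeries.coeff p n) key.eq_zero
  simp only [FormalMultilinearSeries.coeff_ofScalars] at h2
  rw [h2]
  simp [FormalMultilinearSeries.coeff]

/-- power series in `qN N` converge absolutely. -/
theorem summable_norm_of_hasSum {c : ℕ → ℂ} {F : ℍ → ℂ}
    (h : ∀ τ : ℍ, HasSum (fun n : ℕ => c n * qN N τ ^ n) (F τ)) (τ : ℍ) :
    Summable (fun n : ℕ => ‖c n * qN N τ ^ n‖) := by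
  have him : 0 < ((τ : ℂ) / 2).im := by
    have := τ.im_pos
    simp only [Complex.div_ofNat_im]
    change 0 < τ.im / 2
    positivity
  set τ' : ℍ := ⟨(τ : ℂ) / 2, him⟩ with hτ'
  have hq : qN N τ = qN N τ' ^ 2 := by
    simp only [qN, Function.Periodic.qParam, hτ']
    rw [← Complex.exp_nat_mul]
    congr 1
    change _ = ((2 : ℕ) : ℂ) * (2 * ↑Real.pi * Complex.I * ((τ : ℂ) / 2) / ((N : ℝ) : ℂ))
    push_cast
    ring
  obtain ⟨C, hC⟩ := isBounded_iff_forall_norm_le.mp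
    (Metric.isBounded_range_of_tendsto _ (h τ').summable.tendsto_atTop_zero)
  have hr : ‖qN N τ'‖ < 1 := norm_qN_lt_one N τ'
  refine Summable.of_nonneg_of_le (fun n => norm_nonneg _) (fun n => ?_)
    ((summable_geometric_of_lt_one (norm_nonneg _) hr).mul_left C)
  have h1 : c n * qN N τ ^ n = (c n * qN N τ' ^ n) * qN N τ' ^ n := by
    rw [hq, ← pow_mul, mul_comm 2 n, pow_mul, sq]
    ring
  rw [h1, norm_mul, norm_pow]
  exact mul_le_mul_of_nonneg_right (hC _ ⟨n, rfl⟩) (pow_nonneg (norm_nonneg _) _)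

/-! ### Laurent series as shifted power series -/

theorem eq_single_mul_ofPowerSeries {s : LaurentSeries ℂ} {M : ℕ}
    (hM : ∀ n : ℤ, n < -(M : ℤ) → s.coeff n = 0) :
    s = HahnSeries.single (-(M : ℤ)) (1 : ℂ) *
      HahnSeries.ofPowerSeries ℤ ℂ (PowerSeries.mk fun n : ℕ => s.coeff ((n : ℤ) - M)) := by
  ext j
  rw [HahnSeries.coeff_single_mul, one_mul, PowerSeries.coeff_coe]
  split_ifs with hj
  · exact hM j (by omega)
  · rw [PowerSeries.coeff_mk]
    congr 1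
    omega

theorem coeff_mul_shift {s t : LaurentSeries ℂ} {M₁ M₂ : ℕ}
    (h₁ : ∀ n : ℤ, n < -(M₁ : ℤ) → s.coeff n = 0)
    (h₂ : ∀ n : ℤ, n < -(M₂ : ℤ) → t.coeff n = 0) (n : ℕ) :
    (s * t).coeff ((n : ℤ) - (M₁ + M₂ : ℕ)) =
      ∑ kl ∈ Finset.HasAntidiagonal.antidiagonal n, s.coeff ((kl.1 : ℤ) - M₁) * t.coeff ((kl.2 : ℤ) - M₂) := by
  set P : PowerSeries ℂ := PowerSeries.mk fun n : ℕ => s.coeff ((n : ℤ) - M₁) with hP
  set Q : PowerSeries ℂ := PowerSeries.mk fun n : ℕ => t.coeff ((n : ℤ) - M₂) with hQ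
  have hs := eq_single_mul_ofPowerSeries h₁
  have ht := eq_single_mul_ofPowerSeries h₂
  rw [← hP] at hs
  rw [← hQ] at ht
  have hst : s * t = HahnSeries.single (-((M₁ + M₂ : ℕ) : ℤ)) (1 : ℂ) *
      HahnSeries.ofPowerSeries ℤ ℂ (P * Q) := by
    have h1 : HahnSeries.single (-((M₁ + M₂ : ℕ) : ℤ)) (1 : ℂ) =
        HahnSeries.single (-(M₁ : ℤ)) (1 : ℂ) * HahnSeries.single (-(M₂ : ℤ)) (1 : ℂ) := by
      have hneg : -((M₁ + M₂ : ℕ) : ℤ) = -(M₁ : ℤ) + -(M₂ : ℤ) := by push_cast; ring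
      rw [HahnSeries.single_mul_single, mul_one, hneg]
    rw [h1, map_mul]
    conv_lhs => rw [hs, ht]
    ring
  rw [hst, HahnSeries.coeff_single_mul, one_mul]
  have hn : ((n : ℤ) - ((M₁ + M₂ : ℕ) : ℤ) - -((M₁ + M₂ : ℕ) : ℤ)) = (n : ℤ) := by ring
  rw [hn, HahnSeries.ofPowerSeries_apply_coeff, PowerSeries.coeff_mul]
  simp [hP, hQ]

/-! ### The calculus -/

theorem hasLaurentExp_const (c : ℂ) : HasLaurentExp N (fun _ => c) (HahnSeries.C c) := by
  refine ⟨0, fun n hn => ?_, fun τ => ?_⟩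
  · rw [HahnSeries.C_apply, HahnSeries.coeff_single_of_ne]
    simp only [Nat.cast_zero, neg_zero] at hn
    omega
  · simp only [Nat.cast_zero, sub_zero, pow_zero, one_mul]
    have hfun : (fun n : ℕ => (HahnSeries.C c).coeff (n : ℤ) * qN N τ ^ n) =
        fun n : ℕ => if n = 0 then c else 0 := by
      funext n
      by_cases hn : n = 0
      · subst hn
        simp [HahnSeries.C_apply]
      · rw [if_neg hn, HahnSeries.C_apply, HahnSeries.coeff_single_of_ne (by exact_mod_cast hn),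
          zero_mul]
    rw [hfun]
    exact hasSum_ite_eq 0 c

theorem HasLaurentExp.add (hf : HasLaurentExp N f s) (hg : HasLaurentExp N g t) :
    HasLaurentExp N (f + g) (s + t) := by
  obtain ⟨M₁, hM₁⟩ := HasLaurentExp.exists_bound hf
  obtain ⟨M₂, hM₂⟩ := HasLaurentExp.exists_bound hg
  have h₁ : ∀ n : ℤ, n < -((max M₁ M₂ : ℕ) : ℤ) → s.coeff n = 0 := fun n hn =>
    hM₁ n (by have := le_max_left M₁ M₂; omega)
  have h₂ : ∀ n : ℤ, n < -((max M₁ M₂ : ℕ) : ℤ) → t.coeff n = 0 := fun n hn =>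
    hM₂ n (by have := le_max_right M₁ M₂; omega)
  refine ⟨max M₁ M₂, fun n hn => by rw [HahnSeries.coeff_add, h₁ n hn, h₂ n hn, add_zero],
    fun τ => ?_⟩
  have := (HasLaurentExp.hasSum' hf h₁ τ).add (HasLaurentExp.hasSum' hg h₂ τ)
  have hfun : (fun n : ℕ => (s + t).coeff ((n : ℤ) - (max M₁ M₂ : ℕ)) * qN N τ ^ n) =
      fun n : ℕ => s.coeff ((n : ℤ) - (max M₁ M₂ : ℕ)) * qN N τ ^ n +
        t.coeff ((n : ℤ) - (max M₁ M₂ : ℕ)) * qN N τ ^ n := by
    funext n
    rw [HahnSeries.coeff_add, add_mul]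
  rw [hfun, Pi.add_apply, mul_add]
  exact this

theorem HasLaurentExp.mul (hf : HasLaurentExp N f s) (hg : HasLaurentExp N g t) :
    HasLaurentExp N (f * g) (s * t) := by
  obtain ⟨M₁, hM₁⟩ := HasLaurentExp.exists_bound hf
  obtain ⟨M₂, hM₂⟩ := HasLaurentExp.exists_bound hg
  refine ⟨M₁ + M₂, fun n hn => ?_, fun τ => ?_⟩
  · -- vanishing of the product below `-(M₁ + M₂)`
    rw [HahnSeries.coeff_mul]
    apply Finset.sum_eq_zero
    rintro ⟨i, j⟩ hij
    rw [Finset.mem_antidiagonal] at hij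
    obtain ⟨hi, hj, hsum⟩ := hij
    simp only at hi hj hsum
    by_cases hi' : i < -(M₁ : ℤ)
    · exact absurd (hM₁ i hi') hi
    · have hj' : j < -(M₂ : ℤ) := by push_cast at hn; omega
      exact absurd (hM₂ j hj') hj
  · have hA := HasLaurentExp.hasSum' hf hM₁ τ
    have hB := HasLaurentExp.hasSum' hg hM₂ τ
    have hAn := summable_norm_of_hasSum (N := N) (c := fun n : ℕ => s.coeff ((n : ℤ) - M₁))
      (F := fun τ => qN N τ ^ M₁ * f τ) (fun τ => HasLaurentExp.hasSum' hf hM₁ τ) τ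
    have hBn := summable_norm_of_hasSum (N := N) (c := fun n : ℕ => t.coeff ((n : ℤ) - M₂))
      (F := fun τ => qN N τ ^ M₂ * g τ) (fun τ => HasLaurentExp.hasSum' hg hM₂ τ) τ
    have hprod := tsum_mul_tsum_eq_tsum_sum_antidiagonal_of_summable_norm hAn hBn
    have hsummable := (summable_norm_sum_mul_antidiagonal_of_summable_norm hAn hBn).of_norm
    rw [hA.tsum_eq, hB.tsum_eq] at hprod
    have hfun : (fun n : ℕ => (s * t).coeff ((n : ℤ) - (M₁ + M₂ : ℕ)) * qN N τ ^ n) =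
        fun n : ℕ => ∑ kl ∈ Finset.HasAntidiagonal.antidiagonal n,
          (s.coeff ((kl.1 : ℤ) - M₁) * qN N τ ^ kl.1) *
            (t.coeff ((kl.2 : ℤ) - M₂) * qN N τ ^ kl.2) := by
      funext n
      rw [coeff_mul_shift hM₁ hM₂, Finset.sum_mul]
      refine Finset.sum_congr rfl fun kl hkl => ?_
      rw [← Finset.HasAntidiagonal.mem_antidiagonal.mp hkl, pow_add]
      ring
    rw [hfun]
    have hval : qN N τ ^ (M₁ + M₂) * (f * g) τ =
        qN N τ ^ M₁ * f τ * (qN N τ ^ M₂ * g τ) := by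
      rw [pow_add, Pi.mul_apply]
      ring
    rw [hval, hprod]
    exact hsummable.hasSum

theorem HasLaurentExp.unique (hf : HasLaurentExp N f s) (hg : HasLaurentExp N f t) : s = t := by
  obtain ⟨M₁, hM₁⟩ := HasLaurentExp.exists_bound hf
  obtain ⟨M₂, hM₂⟩ := HasLaurentExp.exists_bound hg
  have h₁ : ∀ n : ℤ, n < -((max M₁ M₂ : ℕ) : ℤ) → s.coeff n = 0 := fun n hn =>
    hM₁ n (by have := le_max_left M₁ M₂; omega)
  have h₂ : ∀ n : ℤ, n < -((max M₁ M₂ : ℕ) : ℤ) → t.coeff n = 0 := fun n hn =>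
    hM₂ n (by have := le_max_right M₁ M₂; omega)
  set M := max M₁ M₂ with hMdef
  have key : ∀ n : ℕ, s.coeff ((n : ℤ) - M) - t.coeff ((n : ℤ) - M) = 0 := by
    apply coeff_eq_zero_of_hasSum_zero (N := N)
    intro τ
    have := (HasLaurentExp.hasSum' hf h₁ τ).sub (HasLaurentExp.hasSum' hg h₂ τ)
    rw [sub_self] at this
    have hfun : (fun n : ℕ => (s.coeff ((n : ℤ) - M) - t.coeff ((n : ℤ) - M)) * qN N τ ^ n) =
        fun n : ℕ => s.coeff ((n : ℤ) - M) * qN N τ ^ n - t.coeff ((n : ℤ) - M) * qN N τ ^ n := by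
      funext n
      rw [sub_mul]
    rw [hfun]
    exact this
  ext j
  by_cases hj : j < -(M : ℤ)
  · rw [h₁ j hj, h₂ j hj]
  · have := key (j + M).toNat
    have hcast : (((j + M).toNat : ℕ) : ℤ) - M = j := by omega
    rw [hcast] at this
    exact sub_eq_zero.mp this

theorem HasLaurentExp.eq_zero_iff (hf : HasLaurentExp N f s) : f = 0 ↔ s = 0 := by
  constructor
  · intro h0
    subst h0
    have hz : HasLaurentExp N (0 : ℍ → ℂ) (0 : LaurentSeries ℂ) := by
      have := hasLaurentExp_const (N := N) 0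
      rw [map_zero] at this
      exact this
    exact HasLaurentExp.unique hf hz
  · intro hs
    subst hs
    obtain ⟨M, -, hsum⟩ := hf
    funext τ
    have h1 := hsum τ
    simp only [HahnSeries.coeff_zero, zero_mul] at h1
    have h2 := h1.unique hasSum_zero
    rcases mul_eq_zero.mp h2 with h | h
    · exact absurd (pow_eq_zero_iff (n := M) (by
        intro hM0
        subst hM0
        simp at h) |>.mp h) (qN_ne_zero N τ)
    · exact h

/-- no negative terms ⇒ bounded at `i∞`. -/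
theorem HasLaurentExp.isBoundedAtImInfty (hf : HasLaurentExp N f s)
    (hs : ∀ n : ℤ, n < 0 → s.coeff n = 0) : IsBoundedAtImInfty f := by
  have hpos : (0 : ℝ) < (N : ℝ) := Nat.cast_pos.mpr (NeZero.pos N)
  have h0 : ∀ n : ℤ, n < -((0 : ℕ) : ℤ) → s.coeff n = 0 := fun n hn => hs n (by simpa using hn)
  refine isBoundedAtImInfty_of_hasSum_qExpansion (h := (N : ℝ)) (c := fun n : ℕ => s.coeff (n : ℤ))
    hpos fun τ => ?_
  have := HasLaurentExp.hasSum' hf h0 τ
  simpa [qN] using this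

/-- a constant series represents a constant function. -/
theorem HasLaurentExp.eq_const (hf : HasLaurentExp N f (HahnSeries.C (s.coeff 0))) :
    ∀ τ, f τ = s.coeff 0 := by
  intro τ
  have hc : HasLaurentExp N (fun _ : ℍ => s.coeff 0) (HahnSeries.C (s.coeff 0)) :=
    hasLaurentExp_const (N := N) (s.coeff 0)
  have h0 : ∀ n : ℤ, n < -((0 : ℕ) : ℤ) → (HahnSeries.C (s.coeff 0)).coeff n = 0 := by
    intro n hn
    rw [HahnSeries.C_apply, HahnSeries.coeff_single_of_ne]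
    simp only [Nat.cast_zero, neg_zero] at hn
    omega
  have h1 := HasLaurentExp.hasSum' hf h0 τ
  have h2 := HasLaurentExp.hasSum' hc h0 τ
  have := h1.unique h2
  simpa using this

/-! ### Substitutions -/

theorem qN_T_zpow_smul (τ : ℍ) (k : ℤ) :
    qN N (ModularGroup.T ^ k • τ) =
      Complex.exp (2 * Real.pi * Complex.I * k / N) * qN N τ := by
  rw [UpperHalfPlane.modular_T_zpow_smul]
  simp only [qN, Function.Periodic.qParam, UpperHalfPlane.coe_vadd]
  rw [← Complex.exp_add]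
  congr 1
  push_cast
  ring

theorem qN_utGL_smul (a b d : ℕ) (ha : a ≠ 0) (hd : d ≠ 0) (hdN : d ∣ N) (τ : ℍ) :
    qN 1 (utGL a b d ha hd • τ) =
      Complex.exp (2 * Real.pi * Complex.I * b / d) * qN N τ ^ (a * (N / d)) := by
  have hdet : 0 < ((utGL a b d ha hd).det : ℝ) := by
    rw [Matrix.GeneralLinearGroup.val_det_apply, utGL, ModularForm.val_upperTriangularGL,
      Matrix.det_fin_two_of]
    have ha' : (0 : ℝ) < a := Nat.cast_pos.mpr (Nat.pos_of_ne_zero ha)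
    have hd' : (0 : ℝ) < d := Nat.cast_pos.mpr (Nat.pos_of_ne_zero hd)
    nlinarith
  have hcoe : ((utGL a b d ha hd • τ : ℍ) : ℂ) = ((a : ℂ) * τ + b) / d := by
    rw [UpperHalfPlane.coe_smul_of_det_pos hdet]
    simp [UpperHalfPlane.num, UpperHalfPlane.denom, utGL, ModularForm.val_upperTriangularGL]
  simp only [qN, Function.Periodic.qParam]
  rw [hcoe, ← Complex.exp_nat_mul, ← Complex.exp_add]
  congr 1
  obtain ⟨e, he⟩ := hdN
  have hN0 : N ≠ 0 := NeZero.ne N
  have he0 : e ≠ 0 := by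
    rintro rfl
    exact hN0 (by simpa using he)
  have hdiv : N / d = e := by
    rw [he]
    exact Nat.mul_div_cancel_left e (Nat.pos_of_ne_zero hd)
  rw [hdiv]
  have hd' : (d : ℂ) ≠ 0 := Nat.cast_ne_zero.mpr hd
  have he' : (e : ℂ) ≠ 0 := Nat.cast_ne_zero.mpr he0
  have hNc : ((N : ℝ) : ℂ) = (d : ℂ) * e := by
    rw [he]
    push_cast
    ring
  rw [hNc]
  push_cast
  field_simp
  ring

/-- substitution `τ ↦ (a τ + b) / d`: from period `1` to period `N` when `d ∣ N`;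
`q₁ ((aτ+b)/d) = exp (2πi b / d) * q_N(τ) ^ (a * (N / d))`. -/
theorem HasLaurentExp.comp_utGL {φ : ℍ → ℂ} (hφ : HasLaurentExp 1 φ s)
    (a b d : ℕ) (ha : a ≠ 0) (hd : d ≠ 0) (hdN : d ∣ N) :
    HasLaurentExp N (fun τ => φ (utGL a b d ha hd • τ))
      (substSeries (a * (N / d)) (Complex.exp (2 * Real.pi * Complex.I * b / d)) s) := by
  obtain ⟨M, hM, hsum⟩ := hφ
  set c := Complex.exp (2 * Real.pi * Complex.I * b / d) with hc
  set m := a * (N / d) with hm
  have hc0 : c ≠ 0 := Complex.exp_ne_zero _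
  have hm0 : m ≠ 0 := mul_ne_zero ha
    (Nat.div_pos (Nat.le_of_dvd (NeZero.pos N) hdN) (Nat.pos_of_ne_zero hd)).ne'
  have hmZ : (0 : ℤ) < (m : ℤ) := by exact_mod_cast Nat.pos_of_ne_zero hm0
  refine ⟨m * M, fun n hn => ?_, fun τ => ?_⟩
  · rw [substSeries_coeff]
    split_ifs with hdvd
    · obtain ⟨l, rfl⟩ := hdvd
      rw [Int.mul_ediv_cancel_left _ hmZ.ne']
      have hl : l < -(M : ℤ) := by
        push_cast at hn
        nlinarith
      rw [hM l hl, zero_mul]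
    · rfl
  · set q := qN N τ with hq
    set τ' := utGL a b d ha hd • τ with hτ'
    have h1 := (hsum τ').mul_left (c ^ (-(M : ℤ)))
    rw [hτ', qN_utGL_smul (N := N) a b d ha hd hdN τ, ← hc, ← hm, ← hq, ← hτ'] at h1
    have hinj : Function.Injective (fun l : ℕ => m * l) := fun x y h =>
      Nat.eq_of_mul_eq_mul_left (Nat.pos_of_ne_zero hm0) h
    set G : ℕ → ℂ := fun n => (substSeries m c s).coeff ((n : ℤ) - (m * M : ℕ)) * q ^ n with hG
    have hG0 : ∀ n ∉ Set.range (fun l : ℕ => m * l), G n = 0 := by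
      intro n hn
      simp only [hG]
      rw [substSeries_coeff, if_neg, zero_mul]
      intro hdvd
      apply hn
      have h3 : (m : ℤ) ∣ (n : ℤ) := by
        have h2 : (m : ℤ) ∣ ((m * M : ℕ) : ℤ) := ⟨M, by push_cast; ring⟩
        have := dvd_add hdvd h2
        simpa using this
      obtain ⟨l, hl⟩ := Int.natCast_dvd_natCast.mp h3
      exact ⟨l, hl.symm⟩
    have hGm : (G ∘ fun l : ℕ => m * l) =
        fun l : ℕ => c ^ (-(M : ℤ)) * (s.coeff ((l : ℤ) - M) * (c * q ^ m) ^ l) := by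
      funext l
      simp only [Function.comp_apply, hG]
      have hdiv : (((m * l : ℕ) : ℤ) - ((m * M : ℕ) : ℤ)) = (m : ℤ) * ((l : ℤ) - M) := by
        push_cast; ring
      rw [substSeries_coeff, hdiv, if_pos (Dvd.intro _ rfl), Int.mul_ediv_cancel_left _ hmZ.ne',
        zpow_sub₀ hc0, zpow_natCast, zpow_natCast, zpow_neg, zpow_natCast, mul_pow, ← pow_mul]
      field_simp
    have h2 : HasSum G (c ^ (-(M : ℤ)) * ((c * q ^ m) ^ M * φ τ')) := by
      rw [← hinj.hasSum_iff hG0, hGm]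
      exact h1
    have hval : c ^ (-(M : ℤ)) * ((c * q ^ m) ^ M * φ τ') = q ^ (m * M) * φ τ' := by
      rw [zpow_neg, zpow_natCast, mul_pow, ← pow_mul]
      field_simp
    rw [hval] at h2
    exact h2

/-- translation `τ ↦ τ + k` (i.e. `T ^ k`) multiplies the `n`-th coefficient by `ζ_N ^ (k n)`. -/
theorem HasLaurentExp.comp_T_zpow (hf : HasLaurentExp N f s) (k : ℤ) :
    HasLaurentExp N (fun τ => f (ModularGroup.T ^ k • τ))
      (substSeries 1 (Complex.exp (2 * Real.pi * Complex.I * k / N)) s) := by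
  obtain ⟨M, hM, hsum⟩ := hf
  set c := Complex.exp (2 * Real.pi * Complex.I * k / N) with hc
  have hc0 : c ≠ 0 := Complex.exp_ne_zero _
  have hcoeff : ∀ j : ℤ, (substSeries 1 c s).coeff j = s.coeff j * c ^ j := by
    intro j
    rw [substSeries_coeff, if_pos (by simp), Nat.cast_one, Int.ediv_one]
  refine ⟨M, fun n hn => by rw [hcoeff, hM n hn, zero_mul], fun τ => ?_⟩
  have h1 := (hsum (ModularGroup.T ^ k • τ)).mul_left (c ^ (-(M : ℤ)))
  rw [qN_T_zpow_smul, ← hc] at h1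
  have hfun : (fun n : ℕ => c ^ (-(M : ℤ)) * (s.coeff ((n : ℤ) - M) * (c * qN N τ) ^ n)) =
      fun n : ℕ => (substSeries 1 c s).coeff ((n : ℤ) - M) * qN N τ ^ n := by
    funext n
    rw [hcoeff, zpow_sub₀ hc0, zpow_natCast, zpow_natCast, zpow_neg, zpow_natCast, mul_pow]
    field_simp
  rw [hfun] at h1
  have hval : c ^ (-(M : ℤ)) * ((c * qN N τ) ^ M * f (ModularGroup.T ^ k • τ)) =
      qN N τ ^ M * f (ModularGroup.T ^ k • τ) := by
    rw [zpow_neg, zpow_natCast, mul_pow]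
    field_simp
  rw [hval] at h1
  exact h1

end QLaurent

end Fermat.Agent.S24
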