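import Mathlib
import Fermat.Agent.S24_Defs
import Fermat.Agent.S24_LaurentDefs
import Fermat.Agent.S24_QLaurent
import Fermat.Agent.S24_Hermite
import Fermat.Agent.S24_JAnalytic
import Fermat.Agent.S24_JFormal
import Fermat.Prelude.Thm_ModularCurve_coeffMap_qExpand

/-!
# S24, the modular tower: the ring of modular functions of level `Γ(N)`

For a field `K` with a fixed embedding into `ℂ`, `modRing K N` is the `K`-algebra of holomorphic
functions on `ℍ`, invariant under `Γ(N)`, which have at every cusp a Laurent expansion in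
`q ^ (1 / N)` with coefficients in `K`.  The group `SL(2, ℤ)` acts on it by
`(γ • f) τ = f (γ⁻¹ • τ)`, and the expansion at `i∞` is an injective `K`-algebra homomorphism
`expRing : modRing K N →ₐ[K] K((u))`.
-/

set_option autoImplicit false

noncomputable section

open UpperHalfPlane ModularCurve CongruenceSubgroup
open scoped MatrixGroups Manifold

namespace Fermat.Agent.S24.Tower

variable (K : Type) [Field K] [Algebra K ℂ] (N : ℕ) [NeZero N]

/-- coefficientwise embedding `K((u)) → ℂ((u))`. -/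
abbrev cmap : LaurentSeries K →+* LaurentSeries ℂ := coeffMap (algebraMap K ℂ)

theorem cmap_injective : Function.Injective (cmap K) := by
  intro s t h
  ext k
  have := congrArg (fun x : LaurentSeries ℂ => x.coeff k) h
  simpa using this

theorem cmap_C (c : K) : cmap K (HahnSeries.C c) = HahnSeries.C (algebraMap K ℂ c) :=
  coeffMap_single (algebraMap K ℂ) 0 c

/-- Modular functions of level `Γ(N)` with `K`-rational expansions at all cusps. -/
def IsModFun (f : ℍ → ℂ) : Prop :=
  MDiff f ∧ (∀ γ ∈ Gamma N, ∀ τ : ℍ, f (γ • τ) = f τ) ∧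
    ∀ γ : SL(2, ℤ), ∃ s : LaurentSeries K, HasLaurentExp N (fun τ => f (γ • τ)) (cmap K s)

theorem mdifferentiable_sl_smul (γ : SL(2, ℤ)) : MDiff (fun τ : ℍ => γ • τ) := by
  have : (0 : ℝ) < (Matrix.SpecialLinearGroup.mapGL ℝ γ).det.val := by simp
  exact mdifferentiable_smul this

variable {K N} in
theorem IsModFun.add {f g : ℍ → ℂ} (hf : IsModFun K N f) (hg : IsModFun K N g) :
    IsModFun K N (f + g) := by
  refine ⟨hf.1.add hg.1, fun γ hγ τ => ?_, fun γ => ?_⟩
  · simp only [Pi.add_apply, hf.2.1 γ hγ τ, hg.2.1 γ hγ τ]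
  · obtain ⟨s, hs⟩ := hf.2.2 γ
    obtain ⟨t, ht⟩ := hg.2.2 γ
    refine ⟨s + t, ?_⟩
    rw [map_add]
    exact QLaurent.HasLaurentExp.add hs ht

variable {K N} in
theorem IsModFun.mul {f g : ℍ → ℂ} (hf : IsModFun K N f) (hg : IsModFun K N g) :
    IsModFun K N (f * g) := by
  refine ⟨hf.1.mul hg.1, fun γ hγ τ => ?_, fun γ => ?_⟩
  · simp only [Pi.mul_apply, hf.2.1 γ hγ τ, hg.2.1 γ hγ τ]
  · obtain ⟨s, hs⟩ := hf.2.2 γ
    obtain ⟨t, ht⟩ := hg.2.2 γ
    refine ⟨s * t, ?_⟩
    rw [map_mul]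
    exact QLaurent.HasLaurentExp.mul hs ht

theorem isModFun_const (c : K) : IsModFun K N (fun _ => algebraMap K ℂ c) := by
  refine ⟨mdifferentiable_const, fun γ _ τ => rfl, fun γ => ⟨HahnSeries.C c, ?_⟩⟩
  rw [cmap_C]
  exact QLaurent.hasLaurentExp_const _

variable {K N} in
theorem IsModFun.comp_smul {f : ℍ → ℂ} (hf : IsModFun K N f) (γ : SL(2, ℤ)) :
    IsModFun K N (fun τ => f (γ • τ)) := by
  refine ⟨hf.1.comp (mdifferentiable_sl_smul γ), fun δ hδ τ => ?_, fun δ => ?_⟩
  · have h1 : γ * δ * γ⁻¹ ∈ Gamma N := (Gamma_normal N).conj_mem δ hδ γ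
    have h2 : γ • δ • τ = (γ * δ * γ⁻¹) • γ • τ := by
      rw [← mul_smul, ← mul_smul, inv_mul_cancel_right]
    show f (γ • δ • τ) = f (γ • τ)
    rw [h2, hf.2.1 _ h1]
  · obtain ⟨s, hs⟩ := hf.2.2 (γ * δ)
    refine ⟨s, ?_⟩
    simpa only [mul_smul] using hs

/-- The ring of modular functions of level `Γ(N)` with `K`-rational expansions. -/
def modRing : Subalgebra K (ℍ → ℂ) where
  carrier := {f | IsModFun K N f}
  mul_mem' hf hg := hf.mul hg
  add_mem' hf hg := hf.add hg
  algebraMap_mem' c := isModFun_const K N c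

variable {K N} in
theorem mem_modRing {f : ℍ → ℂ} : f ∈ modRing K N ↔ IsModFun K N f := Iff.rfl

instance : SMul SL(2, ℤ) (modRing K N) where
  smul γ f := ⟨fun τ => (f : ℍ → ℂ) (γ⁻¹ • τ), f.2.comp_smul γ⁻¹⟩

variable {K N} in
theorem smul_apply (γ : SL(2, ℤ)) (f : modRing K N) (τ : ℍ) :
    ((γ • f : modRing K N) : ℍ → ℂ) τ = (f : ℍ → ℂ) (γ⁻¹ • τ) := rfl

instance : MulSemiringAction SL(2, ℤ) (modRing K N) where
  one_smul f := by
    ext τ
    rw [smul_apply, inv_one, one_smul]
  mul_smul γ δ f := by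
    ext τ
    rw [smul_apply, smul_apply, smul_apply, mul_inv_rev, mul_smul]
  smul_zero γ := by
    ext τ
    rw [smul_apply]
    rfl
  smul_add γ f g := by
    ext τ
    rw [smul_apply]
    rfl
  smul_one γ := by
    ext τ
    rw [smul_apply]
    rfl
  smul_mul γ f g := by
    ext τ
    rw [smul_apply]
    rfl

instance : SMulCommClass SL(2, ℤ) K (modRing K N) where
  smul_comm γ c f := by
    ext τ
    rw [smul_apply]
    rfl

theorem smul_algebraMap (γ : SL(2, ℤ)) (c : K) :
    γ • algebraMap K (modRing K N) c = algebraMap K (modRing K N) c := by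
  ext τ
  rw [smul_apply]
  rfl

/-! ### the expansion at `i∞` -/

/-- The expansion at `i∞` of a modular function, as a Laurent series over `K`. -/
def expFun (f : modRing K N) : LaurentSeries K := (f.2.2.2 1).choose

variable {K N} in
theorem hasLaurentExp_expFun (f : modRing K N) :
    HasLaurentExp N (f : ℍ → ℂ) (cmap K (expFun K N f)) := by
  have key : ∀ s : LaurentSeries K,
      HasLaurentExp N (fun τ => (f : ℍ → ℂ) ((1 : SL(2, ℤ)) • τ)) (cmap K s) →
      HasLaurentExp N (f : ℍ → ℂ) (cmap K s) := by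
    intro s hs
    simpa only [one_smul] using hs
  exact key _ (f.2.2.2 1).choose_spec

variable {K N} in
theorem expFun_eq_of {f : modRing K N} {s : LaurentSeries K}
    (h : HasLaurentExp N (f : ℍ → ℂ) (cmap K s)) : expFun K N f = s :=
  cmap_injective K (QLaurent.HasLaurentExp.unique (hasLaurentExp_expFun f) h)

/-- The expansion at `i∞` as a `K`-algebra homomorphism. -/
def expRing : modRing K N →ₐ[K] LaurentSeries K where
  toFun := expFun K N
  map_one' := by
    apply expFun_eq_of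
    have := QLaurent.hasLaurentExp_const (N := N) (1 : ℂ)
    rw [map_one]
    exact this
  map_mul' f g := by
    apply expFun_eq_of
    rw [map_mul]
    exact QLaurent.HasLaurentExp.mul (hasLaurentExp_expFun f) (hasLaurentExp_expFun g)
  map_zero' := by
    apply expFun_eq_of
    have := QLaurent.hasLaurentExp_const (N := N) (0 : ℂ)
    rw [map_zero]
    rw [map_zero] at this
    exact this
  map_add' f g := by
    apply expFun_eq_of
    rw [map_add]
    exact QLaurent.HasLaurentExp.add (hasLaurentExp_expFun f) (hasLaurentExp_expFun g)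
  commutes' c := by
    apply expFun_eq_of
    rw [algebraMap_laurentSeries_eq_single]
    have := QLaurent.hasLaurentExp_const (N := N) (algebraMap K ℂ c)
    rw [← cmap_C] at this
    exact this

variable {K N} in
theorem hasLaurentExp_expRing (f : modRing K N) :
    HasLaurentExp N (f : ℍ → ℂ) (cmap K (expRing K N f)) := hasLaurentExp_expFun f

variable {K N} in
theorem expRing_eq_of {f : modRing K N} {s : LaurentSeries K}
    (h : HasLaurentExp N (f : ℍ → ℂ) (cmap K s)) : expRing K N f = s := expFun_eq_of h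

theorem expRing_injective : Function.Injective (expRing K N) := by
  rw [injective_iff_map_eq_zero]
  intro f hf
  have h := hasLaurentExp_expRing f
  rw [hf, map_zero] at h
  have := (QLaurent.HasLaurentExp.eq_zero_iff h).mpr rfl
  exact Subtype.ext this

instance : IsDomain (modRing K N) :=
  Function.Injective.isDomain (expRing K N).toRingHom (expRing_injective K N)

/-! ### matrices acting on `ℍ` -/

omit [NeZero N] in
theorem sl_smul_eq (γ : SL(2, ℤ)) (τ : ℍ) :
    γ • τ = Matrix.SpecialLinearGroup.mapGL ℝ γ • τ := rfl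

theorem val_utGL (a b d : ℕ) (ha : a ≠ 0) (hd : d ≠ 0) :
    ((utGL a b d ha hd : GL (Fin 2) ℝ) : Matrix (Fin 2) (Fin 2) ℝ)
      = (!![(a : ℤ), b; 0, d] : Matrix (Fin 2) (Fin 2) ℤ).map (Int.castRingHom ℝ) := by
  ext i j
  fin_cases i <;> fin_cases j <;> simp [utGL]

theorem val_mapGL (γ : SL(2, ℤ)) :
    ((Matrix.SpecialLinearGroup.mapGL ℝ γ : GL (Fin 2) ℝ) : Matrix (Fin 2) (Fin 2) ℝ)
      = (γ : Matrix (Fin 2) (Fin 2) ℤ).map (Int.castRingHom ℝ) := by
  ext i j
  simp [Matrix.SpecialLinearGroup.mapGL]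

/-- an identity of integer matrices gives an identity of Möbius transformations. -/
theorem utGL_mul_sl (a b d a' b' d' : ℕ) (ha : a ≠ 0) (hd : d ≠ 0) (ha' : a' ≠ 0) (hd' : d' ≠ 0)
    (γ δ : SL(2, ℤ))
    (h : !![(a : ℤ), b; 0, d] * (γ : Matrix (Fin 2) (Fin 2) ℤ)
      = (δ : Matrix (Fin 2) (Fin 2) ℤ) * !![(a' : ℤ), b'; 0, d']) (τ : ℍ) :
    utGL a b d ha hd • (γ • τ) = δ • (utGL a' b' d' ha' hd' • τ) := by
  have hGL : utGL a b d ha hd * Matrix.SpecialLinearGroup.mapGL ℝ γ
      = Matrix.SpecialLinearGroup.mapGL ℝ δ * utGL a' b' d' ha' hd' := by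
    apply Units.ext
    have h2 := congrArg (fun M : Matrix (Fin 2) (Fin 2) ℤ => M.map (Int.castRingHom ℝ)) h
    simp only [Matrix.map_mul] at h2
    rw [Units.val_mul, Units.val_mul, val_utGL, val_utGL, val_mapGL, val_mapGL]
    exact h2
  rw [sl_smul_eq, sl_smul_eq, ← mul_smul, ← mul_smul, hGL]

theorem det_utGL_pos (a b d : ℕ) (ha : a ≠ 0) (hd : d ≠ 0) :
    (0 : ℝ) < (utGL a b d ha hd).det.val := by
  have : (utGL a b d ha hd).det.val = (a : ℝ) * d := by
    simp [utGL, ModularForm.upperTriangularGL, Matrix.det_fin_two]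
  rw [this]
  positivity

theorem utGL_one_smul (τ : ℍ) : utGL 1 0 1 one_ne_zero one_ne_zero • τ = τ := by
  have : utGL 1 0 1 one_ne_zero one_ne_zero = 1 := by
    apply Units.ext
    ext i j
    fin_cases i <;> fin_cases j <;> simp [utGL]
  rw [this, one_smul]

/-! ### the expansion of `j` -/

theorem coeff_jq_nat_sub_one (n : ℕ) :
    jq.coeff ((n : ℤ) - 1) = ((PowerSeries.coeff n jNum : ℤ) : ℚ) := by
  rw [jq, HahnSeries.coeff_single_mul, one_mul, sub_neg_eq_add, sub_add_cancel,
    HahnSeries.ofPowerSeries_apply_coeff, jNumQ, PowerSeries.coeff_map]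
  rfl

/-- the analytic `j` has the expansion given by the formal series `jq` of the prelude. -/
theorem hasLaurentExp_jA : HasLaurentExp 1 JAnalytic.jA (coeffEmb ℂ jq) := by
  refine ⟨1, fun n hn => ?_, fun τ => ?_⟩
  · rw [coeffEmb_coeff, coeff_jq_of_lt (by simpa using hn), map_zero]
  · have h := JAnalytic.hasSum_jA τ
    rw [pow_one]
    convert h using 3 with n
    rw [coeffEmb_coeff, Nat.cast_one, coeff_jq_nat_sub_one]
    simp

variable [Algebra ℚ K]

theorem cmap_coeffEmb (x : LaurentSeries ℚ) : cmap K (coeffEmb K x) = coeffEmb ℂ x := by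
  rw [coeffEmb, coeffEmb, coeffMap_coeffMap]
  exact coeffMap_congr (RingHom.ext_rat _ _) x

theorem cmap_substSeries (m : ℕ) (c : K) (s : LaurentSeries K) :
    cmap K (substSeries m c s) = substSeries m (algebraMap K ℂ c) (cmap K s) := by
  ext k
  rw [coeffMap_coeff, substSeries_coeff, substSeries_coeff]
  split_ifs
  · rw [map_mul, map_zpow₀, coeffMap_coeff]
  · rw [map_zero]

theorem exists_algebraMap_eq_of_pow_eq_one [IsAlgClosed K] (z : ℂ) (n : ℕ) (hn : n ≠ 0)
    (hz : z ^ n = 1) : ∃ c : K, algebraMap K ℂ c = z := by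
  have hint : IsIntegral K z := by
    refine ⟨Polynomial.X ^ n - 1, Polynomial.monic_X_pow_sub_C (1 : K) hn, ?_⟩
    simp [hz]
  have hdeg : (minpoly K z).degree = 1 :=
    IsAlgClosed.degree_eq_one_of_irreducible K (minpoly.irreducible hint)
  exact minpoly.mem_range_of_degree_eq_one K z hdeg

/-! ### the generators `τ ↦ j ((a τ + b) / d)` -/

/-- the function `τ ↦ j ((a τ + b) / d)`. -/
def genFun (a b d : ℕ) (ha : a ≠ 0) (hd : d ≠ 0) : ℍ → ℂ :=
  fun τ => JAnalytic.jA (utGL a b d ha hd • τ)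

theorem hasLaurentExp_genFun [IsAlgClosed K] (a b d : ℕ) (ha : a ≠ 0) (hd : d ≠ 0)
    (hdN : d ∣ N) :
    ∃ c : K, algebraMap K ℂ c = Complex.exp (2 * Real.pi * Complex.I * b / d) ∧
      HasLaurentExp N (genFun a b d ha hd)
        (cmap K (substSeries (a * (N / d)) c (coeffEmb K jq))) := by
  have h := QLaurent.HasLaurentExp.comp_utGL (N := N) hasLaurentExp_jA a b d ha hd hdN
  obtain ⟨c, hc⟩ := exists_algebraMap_eq_of_pow_eq_one K
    (Complex.exp (2 * Real.pi * Complex.I * b / d)) d hd (by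
      rw [← Complex.exp_nat_mul, Complex.exp_eq_one_iff]
      refine ⟨b, ?_⟩
      have : (d : ℂ) ≠ 0 := Nat.cast_ne_zero.mpr hd
      push_cast
      field_simp)
  refine ⟨c, hc, ?_⟩
  rw [cmap_substSeries, hc, cmap_coeffEmb]
  exact h

theorem isModFun_genFun [IsAlgClosed K] (a b d : ℕ) (ha : a ≠ 0) (hd : d ≠ 0)
    (h : a * d ∣ N) : IsModFun K N (genFun a b d ha hd) := by
  have hdet : (!![(a : ℤ), b; 0, d] : Matrix (Fin 2) (Fin 2) ℤ).det = a * d := by
    simp [Matrix.det_fin_two]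
  have hpos : (0 : ℤ) < (a : ℤ) * d := by positivity
  refine ⟨JAnalytic.mdifferentiable_jA.comp (mdifferentiable_smul (det_utGL_pos a b d ha hd)),
    fun γ hγ τ => ?_, fun γ => ?_⟩
  · obtain ⟨δ, hδ⟩ := Hermite.exists_mul_eq_of_mem_Gamma N !![(a : ℤ), b; 0, d]
      (by rw [hdet]; exact hpos) (by rw [hdet]; exact_mod_cast h) γ hγ
    show JAnalytic.jA (utGL a b d ha hd • γ • τ) = JAnalytic.jA (utGL a b d ha hd • τ)
    rw [utGL_mul_sl a b d a b d ha hd ha hd γ δ hδ, JAnalytic.jA_smul]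
  · obtain ⟨δ, a', b', d', ha', hd', -, hdet', hδ⟩ := Hermite.exists_hermite
      (!![(a : ℤ), b; 0, d] * (γ : Matrix (Fin 2) (Fin 2) ℤ)) (by
        rw [Matrix.det_mul, hdet, Matrix.SpecialLinearGroup.det_coe, mul_one]; exact hpos)
    rw [Matrix.det_mul, hdet, Matrix.SpecialLinearGroup.det_coe, mul_one] at hdet'
    have hd'N : d' ∣ N := by
      have : a' * d' = a * d := by exact_mod_cast hdet'
      exact (Dvd.intro_left a' this).trans h
    obtain ⟨c, -, hc⟩ := hasLaurentExp_genFun K N a' b' d' ha'.ne' hd'.ne' hd'N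
    refine ⟨substSeries (a' * (N / d')) c (coeffEmb K jq), ?_⟩
    have hfun : (fun τ => genFun a b d ha hd (γ • τ)) = genFun a' b' d' ha'.ne' hd'.ne' := by
      funext τ
      show JAnalytic.jA (utGL a b d ha hd • γ • τ)
        = JAnalytic.jA (utGL a' b' d' ha'.ne' hd'.ne' • τ)
      rw [utGL_mul_sl a b d a' b' d' ha hd ha'.ne' hd'.ne' γ δ hδ, JAnalytic.jA_smul]
    rw [hfun]
    exact hc

/-- `j (d τ)` as an element of the ring, for `d ∣ N`. -/
def jD [IsAlgClosed K] (d : ℕ) (hd : d ∣ N) : modRing K N :=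
  ⟨genFun d 0 1 (ne_zero_of_dvd_ne_zero (NeZero.ne N) hd) one_ne_zero,
    isModFun_genFun K N d 0 1 _ _ (by rwa [mul_one])⟩

/-- `j` as an element of the ring. -/
def jMod [IsAlgClosed K] : modRing K N := jD K N 1 (one_dvd N)

theorem jMod_apply [IsAlgClosed K] (τ : ℍ) : (jMod K N : ℍ → ℂ) τ = JAnalytic.jA τ := by
  show JAnalytic.jA (utGL 1 0 1 one_ne_zero one_ne_zero • τ) = _
  rw [utGL_one_smul]

theorem smul_jMod [IsAlgClosed K] (γ : SL(2, ℤ)) : γ • jMod K N = jMod K N := by
  ext τ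
  rw [smul_apply, jMod_apply, jMod_apply, JAnalytic.jA_smul]

theorem expRing_jD [IsAlgClosed K] (d : ℕ) (hd : d ∣ N) :
    haveI : NeZero d := ⟨ne_zero_of_dvd_ne_zero (NeZero.ne N) hd⟩
    expRing K N (jD K N d hd) = qExpand K N (coeffEmb K (qExpand ℚ d jq)) := by
  have : NeZero d := ⟨ne_zero_of_dvd_ne_zero (NeZero.ne N) hd⟩
  have : NeZero (d * N) := ⟨mul_ne_zero (NeZero.ne d) (NeZero.ne N)⟩
  obtain ⟨c, hc1, hc⟩ := hasLaurentExp_genFun K N d 0 1 (NeZero.ne d) one_ne_zero (one_dvd N)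
  have hc' : c = 1 := by
    apply (algebraMap K ℂ).injective
    rw [hc1, map_one]
    simp
  subst hc'
  apply expRing_eq_of
  have e : qExpand K N (coeffEmb K (qExpand ℚ d jq))
      = substSeries (d * (N / 1)) 1 (coeffEmb K jq) := by
    rw [JFormal.coeffEmb_qExpand, Nat.div_one, JFormal.substSeries_one_eq_qExpand,
      qExpand_qExpand]
    exact qExpand_congr (mul_comm N d) _
  rw [e]
  exact hc

theorem expRing_jMod [IsAlgClosed K] :
    expRing K N (jMod K N) = qExpand K N (coeffEmb K jq) := by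
  have := expRing_jD K N 1 (one_dvd N)
  rw [qExpand_one_apply] at this
  exact this

end Fermat.Agent.S24.Tower
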