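import Mathlib
import Fermat.Agent.S24_TowerRing
import Fermat.Agent.S23_Conj

/-!
# S24, the modular tower: invariants

* `exists_poly_of_invariant`: a modular function invariant under `SL(2, ℤ)` is a polynomial
  in `j` with coefficients in `K`.
* `dvd_mul_of_T_zpow_invariant`: invariance under `T ^ k` constrains the support of the
  expansion at `i∞`.
-/

set_option autoImplicit false

noncomputable section

open UpperHalfPlane ModularCurve CongruenceSubgroup
open scoped MatrixGroups Manifold ModularForm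

namespace Fermat.Agent.S24.Tower

variable (K : Type) [Field K] [Algebra K ℂ] (N : ℕ) [NeZero N]

/-- a holomorphic function on `ℍ`, invariant under `SL(2, ℤ)` and bounded at `i∞`, is
constant. -/
theorem eq_const_of_bounded (f : ℍ → ℂ) (hf : MDiff f)
    (hinv : ∀ (γ : SL(2, ℤ)) (τ : ℍ), f (γ • τ) = f τ) (hb : IsBoundedAtImInfty f) :
    ∃ c : ℂ, ∀ τ, f τ = c := by
  obtain ⟨G, hG⟩ := Fermat.Agent.S23.Conj.exists_modularForm_levelOne 0 f hf hb (by
    rintro _ ⟨g, rfl⟩
    ext τ
    have h1 : (f ∣[(0 : ℤ)] g) τ = f τ := by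
      rw [ModularForm.SL_slash_apply, neg_zero, zpow_zero, mul_one]
      exact hinv g τ
    exact h1)
  obtain ⟨c, hc⟩ := ModularFormClass.levelOne_weight_zero_const G
  exact ⟨c, fun τ => by rw [← hG]; exact congrFun hc τ⟩

variable {K N} in
/-- invariance under `T ^ k` constrains the support of the expansion. -/
theorem dvd_mul_of_T_zpow_invariant (f : modRing K N) (k : ℤ)
    (hT : ∀ τ, (f : ℍ → ℂ) (ModularGroup.T ^ k • τ) = (f : ℍ → ℂ) τ) (n : ℤ)
    (hn : (expRing K N f).coeff n ≠ 0) : (N : ℤ) ∣ k * n := by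
  have h := QLaurent.HasLaurentExp.comp_T_zpow (hasLaurentExp_expRing f) k
  have hfun : (fun τ => (f : ℍ → ℂ) (ModularGroup.T ^ k • τ)) = (f : ℍ → ℂ) := funext hT
  rw [hfun] at h
  have hu := QLaurent.HasLaurentExp.unique (hasLaurentExp_expRing f) h
  have hc := congrArg (fun x : LaurentSeries ℂ => x.coeff n) hu
  simp only [substSeries_coeff, coeffMap_coeff, Nat.cast_one, one_dvd, if_true,
    Int.ediv_one] at hc
  have hne : algebraMap K ℂ ((expRing K N f).coeff n) ≠ 0 := (map_ne_zero _).mpr hn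
  have hz : Complex.exp (2 * Real.pi * Complex.I * k / N) ^ n = 1 := by
    have h3 : algebraMap K ℂ ((expRing K N f).coeff n) * 1
        = algebraMap K ℂ ((expRing K N f).coeff n)
          * Complex.exp (2 * Real.pi * Complex.I * k / N) ^ n := by
      rw [mul_one]; exact hc
    exact (mul_left_cancel₀ hne h3).symm
  rw [← Complex.exp_int_mul, Complex.exp_eq_one_iff] at hz
  obtain ⟨m, hm⟩ := hz
  have hN : (N : ℂ) ≠ 0 := Nat.cast_ne_zero.mpr (NeZero.ne N)
  have h2pi : (2 * Real.pi * Complex.I : ℂ) ≠ 0 := Complex.two_pi_I_ne_zero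
  have h4 : ((k * n : ℤ) : ℂ) = ((m * N : ℤ) : ℂ) := by
    push_cast
    field_simp at hm
    linear_combination hm
  have h5 : k * n = m * N := by exact_mod_cast h4
  exact ⟨m, by rw [h5, mul_comm]⟩

variable [Algebra ℚ K] [IsAlgClosed K]

theorem exists_poly_aux (m : ℕ) : ∀ f : modRing K N, (∀ γ : SL(2, ℤ), γ • f = f) →
    (∀ n : ℤ, n < -((m * N : ℕ) : ℤ) → (expRing K N f).coeff n = 0) →
    ∃ p : Polynomial K, f = Polynomial.aeval (jMod K N) p := by
  induction m with
  | zero =>
    intro f hf h0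
    have hinv : ∀ (γ : SL(2, ℤ)) (τ : ℍ), (f : ℍ → ℂ) (γ • τ) = (f : ℍ → ℂ) τ := by
      intro γ τ
      have := congrArg (fun g : modRing K N => (g : ℍ → ℂ) τ) (hf γ⁻¹)
      simpa [smul_apply] using this
    have hb : IsBoundedAtImInfty (f : ℍ → ℂ) :=
      QLaurent.HasLaurentExp.isBoundedAtImInfty (hasLaurentExp_expRing f) (fun n hn => by
        rw [coeffMap_coeff, h0 n (by simpa using hn), map_zero])
    obtain ⟨c, hc⟩ := eq_const_of_bounded _ f.2.1 hinv hb
    have h1 : HasLaurentExp N (f : ℍ → ℂ) (HahnSeries.C c) := by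
      have : (f : ℍ → ℂ) = fun _ => c := funext hc
      rw [this]
      exact QLaurent.hasLaurentExp_const c
    have hu := QLaurent.HasLaurentExp.unique (hasLaurentExp_expRing f) h1
    have hc0 : algebraMap K ℂ ((expRing K N f).coeff 0) = c := by
      have := congrArg (fun x : LaurentSeries ℂ => x.coeff 0) hu
      simpa using this
    refine ⟨Polynomial.C ((expRing K N f).coeff 0), ?_⟩
    rw [Polynomial.aeval_C]
    ext τ
    rw [hc τ, ← hc0]
    rfl
  | succ m ih =>
    intro f hf hm
    set c := (expRing K N f).coeff (-(((m + 1) * N : ℕ) : ℤ)) with hc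
    set g : modRing K N := f - algebraMap K (modRing K N) c * (jMod K N) ^ (m + 1) with hg
    have hginv : ∀ γ : SL(2, ℤ), γ • g = g := by
      intro γ
      rw [hg, smul_sub, smul_mul', smul_algebraMap, smul_pow', smul_jMod, hf γ]
    have hgexp : expRing K N g
        = expRing K N f - HahnSeries.single 0 c * (qExpand K N (coeffEmb K jq)) ^ (m + 1) := by
      rw [hg, map_sub, map_mul, AlgHom.commutes, map_pow, expRing_jMod,
        algebraMap_laurentSeries_eq_single]
    have hJ : (qExpand K N (coeffEmb K jq)) ^ (m + 1)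
        = qExpand K N (coeffEmb K (jq ^ (m + 1))) := by
      rw [map_pow, map_pow]
    have hJtop : ((qExpand K N (coeffEmb K jq)) ^ (m + 1)).coeff (-(((m + 1) * N : ℕ) : ℤ))
        = 1 := by
      rw [hJ, show (-(((m + 1) * N : ℕ) : ℤ)) = (N : ℤ) * (-((m + 1 : ℕ) : ℤ)) by
        push_cast; ring, qExpand_coeff_mul, coeffEmb_coeff, coeff_jq_pow_self, map_one]
    have hJlow : ∀ n : ℤ, n < -(((m + 1) * N : ℕ) : ℤ) →
        ((qExpand K N (coeffEmb K jq)) ^ (m + 1)).coeff n = 0 := by
      intro n hn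
      rw [hJ]
      by_cases hdvd : (N : ℤ) ∣ n
      · obtain ⟨t, rfl⟩ := hdvd
        have hNpos : (0 : ℤ) < N := by exact_mod_cast Nat.pos_of_ne_zero (NeZero.ne N)
        have ht : t < -((m + 1 : ℕ) : ℤ) := by
          have : (N : ℤ) * t < (N : ℤ) * (-((m + 1 : ℕ) : ℤ)) := by
            calc (N : ℤ) * t < -(((m + 1) * N : ℕ) : ℤ) := hn
              _ = (N : ℤ) * (-((m + 1 : ℕ) : ℤ)) := by push_cast; ring
          exact lt_of_mul_lt_mul_left this hNpos.le
        rw [qExpand_coeff_mul, coeffEmb_coeff, coeff_jq_pow_of_lt ht, map_zero]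
      · exact qExpand_coeff_of_not_dvd N _ hdvd
    have hgT : ∀ n : ℤ, (expRing K N g).coeff n ≠ 0 → (N : ℤ) ∣ n := by
      intro n hn
      have := dvd_mul_of_T_zpow_invariant g 1 (fun τ => by
        have := congrArg (fun g' : modRing K N => (g' : ℍ → ℂ) (ModularGroup.T • τ))
          (hginv ModularGroup.T)
        simp only [smul_apply, inv_smul_smul] at this
        rw [zpow_one]
        exact this.symm) n hn
      simpa using this
    obtain ⟨p, hp⟩ := ih g hginv (fun n hn => by
      by_contra hne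
      obtain ⟨t, rfl⟩ := hgT n hne
      have hNpos : (0 : ℤ) < N := by exact_mod_cast Nat.pos_of_ne_zero (NeZero.ne N)
      have ht : t < -(m : ℤ) := by
        have : (N : ℤ) * t < (N : ℤ) * (-(m : ℤ)) := by
          calc (N : ℤ) * t < -((m * N : ℕ) : ℤ) := hn
            _ = (N : ℤ) * (-(m : ℤ)) := by push_cast; ring
        exact lt_of_mul_lt_mul_left this hNpos.le
      have hle : (N : ℤ) * t ≤ -(((m + 1) * N : ℕ) : ℤ) := by
        have : t ≤ -((m : ℤ) + 1) := by omega
        calc (N : ℤ) * t ≤ (N : ℤ) * (-((m : ℤ) + 1)) := mul_le_mul_of_nonneg_left this hNpos.le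
          _ = -(((m + 1) * N : ℕ) : ℤ) := by push_cast; ring
      apply hne
      rcases lt_or_eq_of_le hle with hlt | heq
      · rw [hgexp, HahnSeries.coeff_sub, HahnSeries.coeff_single_zero_mul, hm _ hlt,
          hJlow _ hlt]
        simp
      · rw [hgexp, HahnSeries.coeff_sub, HahnSeries.coeff_single_zero_mul, heq, hJtop, ← hc]
        simp)
    refine ⟨p + Polynomial.C c * Polynomial.X ^ (m + 1), ?_⟩
    rw [map_add, map_mul, Polynomial.aeval_C, map_pow, Polynomial.aeval_X, ← hp, hg]
    ring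

/-- a modular function invariant under `SL(2, ℤ)` is a polynomial in `j`. -/
theorem exists_poly_of_invariant (f : modRing K N) (hf : ∀ γ : SL(2, ℤ), γ • f = f) :
    ∃ p : Polynomial K, f = Polynomial.aeval (jMod K N) p := by
  obtain ⟨M, hM, -⟩ := hasLaurentExp_expRing f
  refine exists_poly_aux K N M f hf (fun n hn => ?_)
  have h1 : n < -(M : ℤ) := by
    have hN : 1 ≤ N := Nat.pos_of_ne_zero (NeZero.ne N)
    have : (M : ℤ) ≤ ((M * N : ℕ) : ℤ) := by
      exact_mod_cast Nat.le_mul_of_pos_right M hN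
    omega
  have := hM n h1
  rw [coeffMap_coeff] at this
  exact (map_eq_zero _).mp this

end Fermat.Agent.S24.Tower
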