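import Mathlib
import Fermat.Agent.S24_TowerInv
import Fermat.Agent.S24_FracAlg

/-!
# S24, the modular tower: the field of modular functions of level `Γ(N)`

`ModField K N` is the fraction field of `modRing K N`, with the induced action of `SL(2, ℤ)`
and the expansion at `i∞`, `expField : ModField K N →ₐ[K] K((u))`.
-/

set_option autoImplicit false

noncomputable section

open UpperHalfPlane ModularCurve CongruenceSubgroup
open scoped MatrixGroups Manifold

namespace Fermat.Agent.S24.Tower

variable (K : Type) [Field K] [Algebra K ℂ] (N : ℕ) [NeZero N]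

/-- The field of modular functions of level `Γ(N)` with `K`-rational expansions. -/
abbrev ModField : Type := FractionRing (modRing K N)

instance : MulSemiringAction SL(2, ℤ) (ModField K N) :=
  MulSemiringAction.compHom (ModField K N)
    ((IsFractionRing.ringEquivOfRingEquivHom (modRing K N) (ModField K N)).comp
      (MulSemiringAction.toRingAut SL(2, ℤ) (modRing K N)))

variable {K N} in
theorem smul_algebraMap_field (γ : SL(2, ℤ)) (a : modRing K N) :
    γ • algebraMap (modRing K N) (ModField K N) a
      = algebraMap (modRing K N) (ModField K N) (γ • a) := by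
  show IsFractionRing.ringEquivOfRingEquiv (MulSemiringAction.toRingAut SL(2, ℤ) (modRing K N) γ)
    (algebraMap (modRing K N) (ModField K N) a) = _
  rw [IsFractionRing.ringEquivOfRingEquiv_algebraMap]
  rfl

instance : SMulCommClass SL(2, ℤ) K (ModField K N) where
  smul_comm γ c y := by
    rw [Algebra.smul_def, Algebra.smul_def, smul_mul',
      IsScalarTower.algebraMap_apply K (modRing K N) (ModField K N), smul_algebraMap_field,
      smul_algebraMap]

/-- The expansion at `i∞` on the field of modular functions. -/
def expField : ModField K N →ₐ[K] LaurentSeries K :=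
  IsFractionRing.liftAlgHom (expRing_injective K N)

variable {K N} in
theorem expField_algebraMap (a : modRing K N) :
    expField K N (algebraMap (modRing K N) (ModField K N) a) = expRing K N a := by
  rw [expField, IsFractionRing.liftAlgHom_apply]
  exact IsFractionRing.lift_algebraMap _ _

variable {K N} in
/-- `Γ(N)` acts trivially on the ring. -/
theorem smul_eq_of_mem_Gamma {γ : SL(2, ℤ)} (hγ : γ ∈ Gamma N) (a : modRing K N) :
    γ • a = a := by
  ext τ
  rw [smul_apply]
  exact a.2.2.1 γ⁻¹ (inv_mem hγ) τ

variable {K N} in
/-- every element of the field is a quotient of elements of the ring. -/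
theorem exists_fraction (y : ModField K N) :
    ∃ a b : modRing K N, b ≠ 0 ∧
      y * algebraMap (modRing K N) (ModField K N) b
        = algebraMap (modRing K N) (ModField K N) a := by
  obtain ⟨a, b, hb, h⟩ := IsFractionRing.div_surjective (A := modRing K N) y
  refine ⟨a, b, nonZeroDivisors.ne_zero hb, ?_⟩
  rw [← h, div_mul_cancel₀]
  exact (map_ne_zero_iff _ (IsFractionRing.injective (modRing K N) (ModField K N))).mpr
    (nonZeroDivisors.ne_zero hb)

variable {K N} in
/-- `Γ(N)` acts trivially on the field. -/
theorem smul_field_eq_of_mem_Gamma {γ : SL(2, ℤ)} (hγ : γ ∈ Gamma N) (y : ModField K N) :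
    γ • y = y := by
  obtain ⟨a, b, hb, h⟩ := exists_fraction y
  have hb' : algebraMap (modRing K N) (ModField K N) b ≠ 0 :=
    (map_ne_zero_iff _ (IsFractionRing.injective (modRing K N) (ModField K N))).mpr hb
  have h2 := congrArg (fun z => γ • z) h
  simp only [smul_mul', smul_algebraMap_field, smul_eq_of_mem_Gamma hγ] at h2
  exact mul_right_cancel₀ hb' (h2.trans h.symm)

section J

variable [Algebra ℚ K] [IsAlgClosed K]

/-- `j` as an element of the field. -/
def jField : ModField K N := algebraMap (modRing K N) (ModField K N) (jMod K N)

theorem smul_jField (γ : SL(2, ℤ)) : γ • jField K N = jField K N := by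
  rw [jField, smul_algebraMap_field, smul_jMod]

/-- the fixed field of `SL(2, ℤ)` is `K(j)`. -/
theorem mem_adjoin_jField_of_invariant (y : ModField K N) (hy : ∀ γ : SL(2, ℤ), γ • y = y) :
    y ∈ IntermediateField.adjoin K {jField K N} := by
  obtain ⟨a, b, hb, ha, hbinv, h⟩ := FracAlg.exists_invariant_fraction
    (A := modRing K N) (L := ModField K N) (G := SL(2, ℤ))
    (fun g a => smul_algebraMap_field g a) (Gamma N)
    (fun γ hγ a => smul_eq_of_mem_Gamma hγ a) y hy
  obtain ⟨p, hp⟩ := exists_poly_of_invariant K N a ha
  obtain ⟨q, hq⟩ := exists_poly_of_invariant K N b hbinv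
  have hb' : algebraMap (modRing K N) (ModField K N) b ≠ 0 :=
    (map_ne_zero_iff _ (IsFractionRing.injective (modRing K N) (ModField K N))).mpr hb
  have hy' : y = algebraMap (modRing K N) (ModField K N) a
      / algebraMap (modRing K N) (ModField K N) b := by
    rw [eq_div_iff hb', h]
  have hmem : ∀ r : Polynomial K, algebraMap (modRing K N) (ModField K N)
      (Polynomial.aeval (jMod K N) r) ∈ IntermediateField.adjoin K {jField K N} := by
    intro r
    have : algebraMap (modRing K N) (ModField K N) (Polynomial.aeval (jMod K N) r)
        = Polynomial.aeval (jField K N) r := by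
      rw [jField, ← Polynomial.aeval_algebraMap_apply]
    rw [this]
    exact IntermediateField.algebra_adjoin_le_adjoin K _
      (Polynomial.aeval_mem_adjoin_singleton K (jField K N))
  rw [hy', hp, hq]
  exact div_mem (hmem p) (hmem q)

end J

end Fermat.Agent.S24.Tower
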