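import Mathlib
import Fermat.Agent.S24_TowerField
import Fermat.Agent.RR_Defs

/-!
# S20: shared definitions

The function field of `X₀(N)` over `ℂ`, realised analytically:

* `X0Field N`: the subfield of `Tower.ModField ℂ N` (fractions of holomorphic modular functions of
  level `Γ(N)`, meromorphic at the cusps) fixed by `Γ₀(N)`;
* `jX0 N`: the `j`-function as an element of `X0Field N`.
-/

set_option autoImplicit false

noncomputable section

open UpperHalfPlane ModularCurve CongruenceSubgroup
open scoped MatrixGroups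

namespace Fermat.Agent.S20

open Fermat.Agent.S24 Fermat.Agent.S24.Tower

/-- The function field of `X₀(N)` over `ℂ`: the modular functions of level `Γ(N)` invariant
under `Γ₀(N)`. -/
def X0Field (N : ℕ) [NeZero N] : IntermediateField ℂ (ModField ℂ N) :=
  FixedPoints.intermediateField (Gamma0 N)

theorem mem_X0Field {N : ℕ} [NeZero N] {y : ModField ℂ N} :
    y ∈ X0Field N ↔ ∀ γ : SL(2, ℤ), γ ∈ Gamma0 N → γ • y = y := by
  constructor
  · intro h γ hγ
    exact h ⟨γ, hγ⟩
  · intro h γ
    exact h γ.1 γ.2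

theorem smul_coe_X0Field {N : ℕ} [NeZero N] (f : X0Field N) {γ : SL(2, ℤ)} (hγ : γ ∈ Gamma0 N) :
    γ • (f : ModField ℂ N) = f :=
  mem_X0Field.mp f.2 γ hγ

/-- The `j`-function as an element of the function field of `X₀(N)`. -/
def jX0 (N : ℕ) [NeZero N] : X0Field N :=
  ⟨jField ℂ N, mem_X0Field.mpr fun γ _ => smul_jField ℂ N γ⟩

@[simp] theorem coe_jX0 (N : ℕ) [NeZero N] : ((jX0 N : X0Field N) : ModField ℂ N) = jField ℂ N :=
  rfl

theorem algebraMap_jX0 (N : ℕ) [NeZero N] :
    algebraMap (X0Field N) (ModField ℂ N) (jX0 N) = jField ℂ N := rfl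

end Fermat.Agent.S20
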