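import Mathlib
import Fermat.Agent.S24_QLaurent

/-!
# S20: leading term asymptotics at `i∞` of functions with a Laurent expansion in `q ^ (1 / N)`

* `Asymp.tendsto_of_hasSum`: a convergent power series in `qN N` tends to its constant term.
* `Asymp.tendsto_of_hasLaurentExp`: if the expansion of `f` has no terms below `k`, then
  `qN N τ ^ (-k) * f τ` tends to the `k`-th coefficient.
-/

set_option autoImplicit false

noncomputable section

open UpperHalfPlane Filter Topology Fermat.Agent.S24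

namespace Fermat.Agent.S20

namespace Asymp

variable {N : ℕ} [NeZero N]

theorem tendsto_qN : Tendsto (fun τ : ℍ => qN N τ) atImInfty (𝓝 0) :=
  UpperHalfPlane.qParam_tendsto_atImInfty (Nat.cast_pos.mpr (NeZero.pos N))

omit [NeZero N] in
theorem qN_pow_self (hN : N ≠ 0) (τ : ℍ) : qN N τ ^ N = qN 1 τ := by
  simp only [qN, Function.Periodic.qParam]
  rw [← Complex.exp_nat_mul]
  congr 1
  have : (N : ℂ) ≠ 0 := Nat.cast_ne_zero.mpr hN
  push_cast
  field_simp

/-- a convergent power series in `qN N` tends to its constant term at `i∞`. -/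
theorem tendsto_of_hasSum {c : ℕ → ℂ} {g : ℍ → ℂ}
    (h : ∀ τ : ℍ, HasSum (fun n : ℕ => c n * qN N τ ^ n) (g τ)) :
    Tendsto g atImInfty (𝓝 (c 0)) := by
  have hpos : (0 : ℝ) < (N : ℝ) := Nat.cast_pos.mpr (NeZero.pos N)
  have h1 : ∀ τ : ℍ, HasSum (fun n : ℕ => c (n + 1) * qN N τ ^ n)
      ((qN N τ)⁻¹ * (g τ - c 0)) := by
    intro τ
    have hq := QLaurent.qN_ne_zero N τ
    have h2 := (hasSum_nat_add_iff' 1).mpr (h τ)
    simp only [Finset.range_one, Finset.sum_singleton, pow_zero, mul_one] at h2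
    have h3 := h2.mul_left ((qN N τ)⁻¹)
    have hfun : (fun i : ℕ => (qN N τ)⁻¹ * (c (i + 1) * qN N τ ^ (i + 1)))
        = fun n : ℕ => c (n + 1) * qN N τ ^ n := by
      funext n
      rw [pow_succ]
      field_simp
    rw [hfun] at h3
    exact h3
  have hb : IsBoundedAtImInfty (fun τ => (qN N τ)⁻¹ * (g τ - c 0)) :=
    isBoundedAtImInfty_of_hasSum_qExpansion (h := (N : ℝ)) (c := fun n => c (n + 1)) hpos
      (fun τ => by simpa [qN] using h1 τ)
  have hq0 : Tendsto (fun τ : ℍ => qN N τ) atImInfty (𝓝 0) := tendsto_qN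
  have h4 : Tendsto (fun τ => qN N τ * ((qN N τ)⁻¹ * (g τ - c 0))) atImInfty (𝓝 0) := by
    have h5 : (fun τ => qN N τ * ((qN N τ)⁻¹ * (g τ - c 0)))
        =o[atImInfty] (fun _ : ℍ => (1 : ℝ) * (1 : ℝ)) :=
      ((Asymptotics.isLittleO_one_iff ℝ).mpr hq0).mul_isBigO hb
    rw [mul_one] at h5
    exact (Asymptotics.isLittleO_one_iff ℝ).mp h5
  have h6 : g = fun τ => c 0 + qN N τ * ((qN N τ)⁻¹ * (g τ - c 0)) := by
    funext τ
    have hq := QLaurent.qN_ne_zero N τ
    field_simp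
    ring
  rw [h6]
  simpa using h4.const_add (c 0)

/-- rewriting the expansion from the first possibly nonzero term. -/
theorem hasSum_shift {f : ℍ → ℂ} {s : LaurentSeries ℂ} (hf : HasLaurentExp N f s) (k : ℤ)
    (hk : ∀ n : ℤ, n < k → s.coeff n = 0) (τ : ℍ) :
    HasSum (fun n : ℕ => s.coeff ((n : ℤ) + k) * qN N τ ^ n) (qN N τ ^ (-k) * f τ) := by
  have hq := QLaurent.qN_ne_zero N τ
  set M : ℕ := (-k).toNat with hMdef
  have hM : ∀ n : ℤ, n < -(M : ℤ) → s.coeff n = 0 := fun n hn => hk n (by omega)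
  have h1 := QLaurent.HasLaurentExp.hasSum' hf hM τ
  set n₀ : ℕ := (k + M).toNat with hn₀def
  have hn₀ : (n₀ : ℤ) = k + M := by omega
  have h2 := (hasSum_nat_add_iff' n₀).mpr h1
  have h3 : ∑ i ∈ Finset.range n₀, s.coeff ((i : ℤ) - M) * qN N τ ^ i = 0 := by
    apply Finset.sum_eq_zero
    intro i hi
    have := Finset.mem_range.mp hi
    rw [hk _ (by omega), zero_mul]
  rw [h3, sub_zero] at h2
  have h4 := h2.mul_left ((qN N τ ^ n₀)⁻¹)
  have hval : (qN N τ ^ n₀)⁻¹ * (qN N τ ^ M * f τ) = qN N τ ^ (-k) * f τ := by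
    have : -k = (M : ℤ) - n₀ := by omega
    rw [this, zpow_sub₀ hq, zpow_natCast, zpow_natCast]
    field_simp
  rw [hval] at h4
  have hfun : (fun i : ℕ => (qN N τ ^ n₀)⁻¹ * (s.coeff (((i + n₀ : ℕ) : ℤ) - M)
      * qN N τ ^ (i + n₀))) = fun n : ℕ => s.coeff ((n : ℤ) + k) * qN N τ ^ n := by
    funext n
    have : ((n + n₀ : ℕ) : ℤ) - M = (n : ℤ) + k := by push_cast; omega
    rw [this, pow_add]
    field_simp
  rw [hfun] at h4
  exact h4

/-- leading term asymptotics. -/
theorem tendsto_of_hasLaurentExp {f : ℍ → ℂ} {s : LaurentSeries ℂ} (hf : HasLaurentExp N f s)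
    (k : ℤ) (hk : ∀ n : ℤ, n < k → s.coeff n = 0) :
    Tendsto (fun τ => qN N τ ^ (-k) * f τ) atImInfty (𝓝 (s.coeff k)) := by
  have := tendsto_of_hasSum (c := fun n : ℕ => s.coeff ((n : ℤ) + k)) (hasSum_shift hf k hk)
  simpa using this

/-- leading term asymptotics at the order of the expansion. -/
theorem tendsto_order {f : ℍ → ℂ} {s : LaurentSeries ℂ} (hf : HasLaurentExp N f s) :
    Tendsto (fun τ => qN N τ ^ (-s.order) * f τ) atImInfty (𝓝 (s.coeff s.order)) :=
  tendsto_of_hasLaurentExp hf s.order fun _ hn => HahnSeries.coeff_eq_zero_of_lt_order hn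

end Asymp

end Fermat.Agent.S20
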