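import Mathlib

/-!
# S24, M4.6: order of vanishing at a point of the upper half plane
-/

set_option autoImplicit false

noncomputable section

open UpperHalfPlane
open scoped MatrixGroups Manifold

namespace Fermat.Agent.S24

namespace PointOrd

/-- the order of vanishing at `τ₀` of a function on `ℍ`. -/
def ordAt (f : ℍ → ℂ) (τ₀ : ℍ) : ℕ∞ := analyticOrderAt (fun z : ℂ => f (ofComplex z)) (τ₀ : ℂ)

theorem analyticOnNhd_comp_ofComplex {f : ℍ → ℂ} (hf : MDiff f) :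
    AnalyticOnNhd ℂ (fun z : ℂ => f (ofComplex z)) {z : ℂ | 0 < z.im} :=
  (UpperHalfPlane.mdifferentiable_iff.mp hf).analyticOnNhd isOpen_upperHalfPlaneSet

theorem analyticAt_comp_ofComplex {f : ℍ → ℂ} (hf : MDiff f) (τ₀ : ℍ) :
    AnalyticAt ℂ (fun z : ℂ => f (ofComplex z)) (τ₀ : ℂ) :=
  analyticOnNhd_comp_ofComplex hf _ τ₀.im_pos

theorem ordAt_ne_top {f : ℍ → ℂ} (hf : MDiff f) (hf0 : f ≠ 0) (τ₀ : ℍ) : ordAt f τ₀ ≠ ⊤ := by
  obtain ⟨τ₁, hτ₁⟩ : ∃ τ₁ : ℍ, f τ₁ ≠ 0 := by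
    by_contra hcon
    push Not at hcon
    exact hf0 (funext hcon)
  have h1 : analyticOrderAt (fun z : ℂ => f (ofComplex z)) (τ₁ : ℂ) ≠ ⊤ := by
    have h0 : analyticOrderAt (fun z : ℂ => f (ofComplex z)) (τ₁ : ℂ) = 0 := by
      rw [analyticOrderAt_eq_zero]
      right
      simpa [ofComplex_apply] using hτ₁
    rw [h0]
    exact ENat.zero_ne_top
  exact (analyticOnNhd_comp_ofComplex hf).analyticOrderAt_ne_top_of_isPreconnected
    (convex_halfSpace_im_gt 0).isPreconnected τ₁.im_pos τ₀.im_pos h1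

theorem ordAt_mul {f g : ℍ → ℂ} (hf : MDiff f) (hg : MDiff g) (τ₀ : ℍ) :
    ordAt (f * g) τ₀ = ordAt f τ₀ + ordAt g τ₀ :=
  analyticOrderAt_mul (analyticAt_comp_ofComplex hf τ₀) (analyticAt_comp_ofComplex hg τ₀)

theorem ordAt_add {f g : ℍ → ℂ} (τ₀ : ℍ) :
    min (ordAt f τ₀) (ordAt g τ₀) ≤ ordAt (f + g) τ₀ :=
  le_analyticOrderAt_add

theorem ordAt_const {c : ℂ} (hc : c ≠ 0) (τ₀ : ℍ) : ordAt (fun _ => c) τ₀ = 0 := by
  unfold ordAt
  rw [analyticOrderAt_eq_zero]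
  exact Or.inr hc

/-- Möbius transformations preserve orders. -/
theorem ordAt_smul {f : ℍ → ℂ} (hf : MDiff f) (γ : SL(2, ℤ)) (τ₀ : ℍ) :
    ordAt (fun τ => f (γ • τ)) τ₀ = ordAt f (γ • τ₀) := by
  -- the Möbius map on `ℂ`
  set a : ℂ := ((γ 0 0 : ℤ) : ℂ) with ha
  set b : ℂ := ((γ 0 1 : ℤ) : ℂ) with hb
  set c : ℂ := ((γ 1 0 : ℤ) : ℂ) with hc
  set d : ℂ := ((γ 1 1 : ℤ) : ℂ) with hd
  set m : ℂ → ℂ := fun z => (a * z + b) / (c * z + d) with hm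
  have hdet : a * d - b * c = 1 := by
    have h := γ.det_coe
    rw [Matrix.det_fin_two] at h
    have h' : ((γ 0 0 * γ 1 1 - γ 0 1 * γ 1 0 : ℤ) : ℂ) = 1 := by
      rw [h]; simp
    simp only [ha, hb, hc, hd]
    push_cast at h'
    linear_combination h'
  have hcoe : ∀ z : ℍ, ((γ • z : ℍ) : ℂ) = m z := by
    intro z
    rw [UpperHalfPlane.coe_specialLinearGroup_apply]
    simp [hm, ha, hb, hc, hd]
  have hden : ∀ z : ℍ, c * (z : ℂ) + d ≠ 0 := by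
    intro z hz
    have h3 : ((γ • z : ℍ) : ℂ) = 0 := by
      rw [hcoe z]
      simp only [hm]
      rw [hz, div_zero]
    have h4 := (γ • z).im_pos
    have h5 := congrArg Complex.im h3
    rw [UpperHalfPlane.coe_im, Complex.zero_im] at h5
    linarith
  have hev : (fun z : ℂ => f (γ • ofComplex z)) =ᶠ[nhds (τ₀ : ℂ)]
      (fun w : ℂ => f (ofComplex w)) ∘ m := by
    filter_upwards [isOpen_upperHalfPlaneSet.mem_nhds τ₀.im_pos] with z hz
    have h1 : ofComplex z = ⟨z, hz⟩ := ofComplex_apply_of_im_pos hz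
    simp only [Function.comp_apply]
    rw [h1]
    congr 1
    have h2 := hcoe ⟨z, hz⟩
    rw [show m z = ((γ • (⟨z, hz⟩ : ℍ) : ℍ) : ℂ) from h2.symm, ofComplex_apply]
  unfold ordAt
  rw [analyticOrderAt_congr hev]
  have h1 : HasDerivAt (fun z : ℂ => a * z + b) a (τ₀ : ℂ) := by
    simpa using ((hasDerivAt_id (τ₀ : ℂ)).const_mul a).add_const b
  have h2 : HasDerivAt (fun z : ℂ => c * z + d) c (τ₀ : ℂ) := by
    simpa using ((hasDerivAt_id (τ₀ : ℂ)).const_mul c).add_const d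
  have hm_an : AnalyticAt ℂ m (τ₀ : ℂ) := by
    have hnum : AnalyticAt ℂ (fun z : ℂ => a * z + b) (τ₀ : ℂ) := by fun_prop
    have hdenom : AnalyticAt ℂ (fun z : ℂ => c * z + d) (τ₀ : ℂ) := by fun_prop
    exact hnum.div hdenom (hden τ₀)
  have hderiv : deriv m (τ₀ : ℂ) ≠ 0 := by
    have hd1 : HasDerivAt m ((a * (c * (τ₀ : ℂ) + d) - (a * (τ₀ : ℂ) + b) * c) /
        (c * (τ₀ : ℂ) + d) ^ 2) (τ₀ : ℂ) := h1.div h2 (hden τ₀)
    rw [hd1.deriv]
    have hnum1 : a * (c * (τ₀ : ℂ) + d) - (a * (τ₀ : ℂ) + b) * c = 1 := by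
      linear_combination hdet
    rw [hnum1]
    exact one_div_ne_zero (pow_ne_zero 2 (hden τ₀))
  rw [analyticOrderAt_comp_of_deriv_ne_zero hm_an hderiv, ← hcoe τ₀]

end PointOrd

end Fermat.Agent.S24
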