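import Mathlib
import Fermat.Agent.S24_PointOrd

/-!
# S20: holomorphic extension of quotients on the upper half plane

* `ExtQ.exists_mdiff_quotient`: if `a, b, J` are holomorphic on `ℍ`, `b ≠ 0`, and at every point
  the order of `b` is at most the order of `a * J`, then `a * J / b` extends to a holomorphic
  function `f` on `ℍ` (with `b * f = a * J` everywhere).
* `ExtQ.eq_zero_of_mul_eq_zero`: the holomorphic functions on `ℍ` form a domain.
-/

set_option autoImplicit false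

noncomputable section

open UpperHalfPlane Filter Topology Fermat.Agent.S24
open scoped Manifold

namespace Fermat.Agent.S20

namespace ExtQ

/-- a quotient of analytic functions whose poles cancel extends analytically. -/
theorem exists_analytic_quotient {g b : ℂ → ℂ} {U : Set ℂ}
    (hg : AnalyticOnNhd ℂ g U) (hb : AnalyticOnNhd ℂ b U)
    (hord : ∀ z ∈ U, analyticOrderAt b z ≠ ⊤ ∧ analyticOrderAt b z ≤ analyticOrderAt g z) :
    ∃ f : ℂ → ℂ, AnalyticOnNhd ℂ f U ∧ ∀ z ∈ U, b z * f z = g z := by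
  have hmer : MeromorphicOn (g / b) U := fun z hz =>
    (hg z hz).meromorphicAt.div (hb z hz).meromorphicAt
  have hNF := meromorphicNFOn_toMeromorphicNFOn (g / b) U
  have han : ∀ z ∈ U, AnalyticAt ℂ (toMeromorphicNFOn (g / b) U) z := by
    intro z hz
    refine (hNF hz).meromorphicOrderAt_nonneg_iff_analyticAt.mp ?_
    rw [meromorphicOrderAt_toMeromorphicNFOn hmer hz,
      meromorphicOrderAt_div (hg z hz).meromorphicAt (hb z hz).meromorphicAt,
      (hg z hz).meromorphicOrderAt_eq, (hb z hz).meromorphicOrderAt_eq]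
    obtain ⟨h1, h2⟩ := hord z hz
    obtain ⟨n, hn⟩ := ENat.ne_top_iff_exists.mp h1
    rw [← hn] at h2 ⊢
    rcases eq_or_ne (analyticOrderAt g z) ⊤ with h3 | h3
    · rw [h3]
      simp
    · obtain ⟨m, hm⟩ := ENat.ne_top_iff_exists.mp h3
      rw [← hm] at h2 ⊢
      have hnm : n ≤ m := by exact_mod_cast h2
      simp only [ENat.map_natCast]
      have : ((0 : ℤ) : WithTop ℤ) ≤ (((m : ℤ) - (n : ℤ) : ℤ) : WithTop ℤ) := by
        exact_mod_cast (by omega : (0 : ℤ) ≤ (m : ℤ) - n)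
      exact_mod_cast this
  refine ⟨toMeromorphicNFOn (g / b) U, han, fun z hz => ?_⟩
  have h1 : toMeromorphicNFOn (g / b) U =ᶠ[𝓝[≠] z] g / b :=
    hmer.toMeromorphicNFOn_eq_self_on_nhdsNE hz
  have h2 : ∀ᶠ w in 𝓝[≠] z, b w ≠ 0 := by
    rcases (hb z hz).eventually_eq_zero_or_eventually_ne_zero with h | h
    · exact absurd (analyticOrderAt_eq_top.mpr h) (hord z hz).1
    · exact h
  have h3 : (fun w => b w * toMeromorphicNFOn (g / b) U w) =ᶠ[𝓝[≠] z] g := by
    filter_upwards [h1, h2] with w hw1 hw2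
    rw [hw1, Pi.div_apply, mul_div_cancel₀ _ hw2]
  have hc1 : ContinuousAt (fun w => b w * toMeromorphicNFOn (g / b) U w) z :=
    (hb z hz).continuousAt.mul (han z hz).continuousAt
  have h4 := (hc1.eventuallyEq_nhds_iff_eventuallyEq_nhdsNE (hg z hz).continuousAt).mp h3
  exact h4.eq_of_nhds

/-- holomorphic extension of `a * J / b` on the upper half plane. -/
theorem exists_mdiff_quotient {a b J : ℍ → ℂ} (ha : MDiff a) (hb : MDiff b) (hJ : MDiff J)
    (hb0 : b ≠ 0)
    (hord : ∀ τ : ℍ, PointOrd.ordAt b τ ≤ PointOrd.ordAt a τ + PointOrd.ordAt J τ) :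
    ∃ f : ℍ → ℂ, MDiff f ∧ ∀ τ : ℍ, b τ * f τ = a τ * J τ := by
  have hg : AnalyticOnNhd ℂ (fun z : ℂ => (a * J) (ofComplex z)) {z : ℂ | 0 < z.im} :=
    PointOrd.analyticOnNhd_comp_ofComplex (ha.mul hJ)
  have hbb : AnalyticOnNhd ℂ (fun z : ℂ => b (ofComplex z)) {z : ℂ | 0 < z.im} :=
    PointOrd.analyticOnNhd_comp_ofComplex hb
  obtain ⟨F, hF, hFeq⟩ := exists_analytic_quotient hg hbb (fun z hz => by
    have h1 := PointOrd.ordAt_ne_top hb hb0 ⟨z, hz⟩
    have h2 := hord ⟨z, hz⟩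
    rw [← PointOrd.ordAt_mul ha hJ] at h2
    exact ⟨h1, h2⟩)
  refine ⟨fun τ => F (τ : ℂ), ?_, fun τ => ?_⟩
  · rw [UpperHalfPlane.mdifferentiable_iff]
    refine (hF.differentiableOn).congr fun z hz => ?_
    simp only [Function.comp_apply]
    rw [ofComplex_apply_of_im_pos hz]
  · have := hFeq (τ : ℂ) τ.im_pos
    simpa only [ofComplex_apply, Pi.mul_apply] using this

/-- the holomorphic functions on `ℍ` have no zero divisors. -/
theorem eq_zero_of_mul_eq_zero {b u : ℍ → ℂ} (hb : MDiff b) (hu : MDiff u) (hb0 : b ≠ 0)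
    (h : ∀ τ : ℍ, b τ * u τ = 0) : u = 0 := by
  by_contra hu0
  have h1 := PointOrd.ordAt_ne_top hb hb0 UpperHalfPlane.I
  have h2 := PointOrd.ordAt_ne_top hu hu0 UpperHalfPlane.I
  have h3 := PointOrd.ordAt_mul hb hu UpperHalfPlane.I
  have h4 : b * u = 0 := funext h
  have h5 : PointOrd.ordAt (b * u) UpperHalfPlane.I = ⊤ := by
    rw [h4]
    show analyticOrderAt (fun z : ℂ => (0 : ℂ)) _ = ⊤
    rw [analyticOrderAt_eq_top]
    exact Filter.Eventually.of_forall fun _ => rfl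
  rw [h5] at h3
  rcases WithTop.add_eq_top.mp h3.symm with h | h
  · exact h1 h
  · exact h2 h

/-- uniqueness of the quotient. -/
theorem quotient_unique {b f₁ f₂ : ℍ → ℂ} (hb : MDiff b) (hf₁ : MDiff f₁) (hf₂ : MDiff f₂)
    (hb0 : b ≠ 0) (h : ∀ τ : ℍ, b τ * f₁ τ = b τ * f₂ τ) : f₁ = f₂ := by
  have := eq_zero_of_mul_eq_zero (u := f₁ - f₂) hb (hf₁.sub hf₂) hb0 (fun τ => by
    rw [Pi.sub_apply, mul_sub, h τ, sub_self])
  exact sub_eq_zero.mp this

end ExtQ

end Fermat.Agent.S20
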