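import Mathlib
import Fermat.Agent.S24_JAnalytic
import Fermat.Agent.S24_PointOrd

/-!
# S20: the weight two form `E₄² E₆ / Δ` (a nonzero multiple of `dj/dτ`)

* `JW.Jw = E₄² E₆ / Δ`, holomorphic on `ℍ`, of weight two for `SL(2, ℤ)`;
* `JW.tendsto_q_mul_Jw`: `q · Jw → 1` at `i∞` (simple pole);
* `JW.ordAt_Jw`: `ord_τ₀ Jw + 1 = ord_τ₀ (j - j(τ₀))`.
-/

set_option autoImplicit false

noncomputable section

open UpperHalfPlane ModularForm EisensteinSeries Filter Topology Fermat.Agent.S24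
open scoped MatrixGroups Manifold

namespace Fermat.Agent.S20

namespace JW

/-- `E₄² E₆ / Δ`. -/
def Jw (z : ℍ) : ℂ := E₄ z ^ 2 * E₆ z / ModularForm.discriminant z

theorem mdiff_Jw : MDiff Jw := by
  have h4 : MDiff (⇑E₄) := E₄.holo'
  have h6 : MDiff (⇑E₆) := E₆.holo'
  have hΔ := JAnalytic.discr_mdiff
  rw [UpperHalfPlane.mdifferentiable_iff] at h4 h6 hΔ ⊢
  have : DifferentiableOn ℂ
      (fun z => (⇑E₄ ∘ ofComplex) z ^ 2 * (⇑E₆ ∘ ofComplex) z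
        / (ModularForm.discriminant ∘ ofComplex) z) {z | 0 < z.im} :=
    ((h4.pow 2).mul h6).div hΔ fun z _ => ModularForm.discriminant_ne_zero _
  exact this

theorem Jw_smul (γ : SL(2, ℤ)) (z : ℍ) : Jw (γ • z) = denom γ z ^ 2 * Jw z := by
  unfold Jw
  rw [JAnalytic.E4_smul, JAnalytic.E6_smul, JAnalytic.discr_smul]
  have hd : denom γ z ≠ 0 := denom_ne_zero _ z
  have hΔ : ModularForm.discriminant z ≠ 0 := ModularForm.discriminant_ne_zero z
  have h4 : denom γ z ^ (4 : ℤ) = denom γ z ^ 4 := by norm_cast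
  have h6 : denom γ z ^ (6 : ℤ) = denom γ z ^ 6 := by norm_cast
  have h12 : denom γ z ^ (12 : ℤ) = denom γ z ^ 12 := by norm_cast
  rw [h4, h6, h12]
  field_simp

theorem deriv_jA_eq : ∃ c : ℂ, c ≠ 0 ∧ ∀ τ : ℍ,
    deriv (fun z : ℂ => JAnalytic.jA (ofComplex z)) (τ : ℂ) = c * Jw τ := by
  obtain ⟨c, hc, h⟩ := JAnalytic.exists_deriv_jA
  refine ⟨c, hc, fun τ => ?_⟩
  rw [h τ, Jw]
  ring

/-- `ord_τ₀ Jw + 1 = ord_τ₀ (j - j (τ₀))`. -/
theorem ordAt_Jw (τ₀ : ℍ) :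
    PointOrd.ordAt Jw τ₀ + 1
      = analyticOrderAt (fun z : ℂ => JAnalytic.jA (ofComplex z) - JAnalytic.jA τ₀) (τ₀ : ℂ) := by
  obtain ⟨c, hc, h⟩ := deriv_jA_eq
  have han : AnalyticAt ℂ (fun z : ℂ => JAnalytic.jA (ofComplex z)) (τ₀ : ℂ) :=
    PointOrd.analyticAt_comp_ofComplex JAnalytic.mdifferentiable_jA τ₀
  have h1 := han.analyticOrderAt_deriv_add_one
  simp only [ofComplex_apply] at h1
  rw [← h1]
  congr 1
  have heq : (fun z : ℂ => Jw (ofComplex z)) =ᶠ[𝓝 (τ₀ : ℂ)]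
      (fun _ : ℂ => c⁻¹) * deriv (fun z : ℂ => JAnalytic.jA (ofComplex z)) := by
    filter_upwards [isOpen_upperHalfPlaneSet.mem_nhds τ₀.im_pos] with w hw
    have := h ⟨w, hw⟩
    simp only [Pi.mul_apply]
    rw [ofComplex_apply_of_im_pos hw]
    rw [UpperHalfPlane.coe_mk] at this
    rw [this, ← mul_assoc, inv_mul_cancel₀ hc, one_mul]
  have hcan : AnalyticAt ℂ (fun _ : ℂ => c⁻¹) (τ₀ : ℂ) := analyticAt_const
  have hc0 : analyticOrderAt (fun _ : ℂ => c⁻¹) (τ₀ : ℂ) = 0 :=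
    hcan.analyticOrderAt_eq_zero.mpr (inv_ne_zero hc)
  show analyticOrderAt (fun z : ℂ => Jw (ofComplex z)) (τ₀ : ℂ) = _
  rw [analyticOrderAt_congr heq, analyticOrderAt_mul hcan han.deriv, hc0, zero_add]

local notation "𝕢" => Function.Periodic.qParam

theorem tendsto_eulerH : Tendsto JAnalytic.eulerH atImInfty (𝓝 1) := by
  have hc : ContinuousAt JAnalytic.eulerG 0 :=
    JAnalytic.differentiableOn_eulerG.continuousOn.continuousAt
      (Metric.ball_mem_nhds 0 one_pos)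
  have hq : Tendsto (fun τ : ℍ => 𝕢 1 (τ : ℂ)) atImInfty (𝓝 0) :=
    UpperHalfPlane.qParam_tendsto_atImInfty one_pos
  have := hc.tendsto.comp hq
  rw [JAnalytic.eulerG_zero] at this
  exact this

/-- `q · Jw → 1` at `i∞`: `Jw` has a simple pole with leading coefficient one. -/
theorem tendsto_q_mul_Jw : Tendsto (fun τ : ℍ => qN 1 τ * Jw τ) atImInfty (𝓝 1) := by
  have h1 : (fun τ : ℍ => qN 1 τ * Jw τ)
      = fun τ : ℍ => E₄ τ ^ 2 * E₆ τ / JAnalytic.eulerH τ ^ 24 := by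
    funext τ
    have hq : qN 1 τ = 𝕢 1 (τ : ℂ) := by simp [qN]
    have hq0 : 𝕢 1 (τ : ℂ) ≠ 0 := Function.Periodic.qParam_ne_zero _
    have he := JAnalytic.eulerH_ne_zero τ
    rw [Jw, JAnalytic.discr_eq, hq]
    field_simp
  rw [h1]
  have h2 : Tendsto (fun τ : ℍ => E₄ τ ^ 2 * E₆ τ / JAnalytic.eulerH τ ^ 24) atImInfty
      (𝓝 (1 ^ 2 * 1 / 1 ^ 24)) :=
    ((JAnalytic.tendsto_E4.pow 2).mul JAnalytic.tendsto_E6).div (tendsto_eulerH.pow 24)
      (by norm_num)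
  have h3 : (1 : ℂ) ^ 2 * 1 / 1 ^ 24 = 1 := by norm_num
  rw [h3] at h2
  exact h2

theorem Jw_ne_zero : Jw ≠ 0 := by
  intro h0
  have h1 := tendsto_q_mul_Jw
  rw [h0] at h1
  simp only [Pi.zero_apply, mul_zero] at h1
  exact zero_ne_one (tendsto_nhds_unique tendsto_const_nhds h1)

end JW

end Fermat.Agent.S20
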