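import Mathlib
import Fermat.Agent.S24_TowerField
import Fermat.Agent.S24_PointOrd

/-!
# S24, M4.8: the valuations of the modular tower

Two families of discrete valuations on the field `ModField K N` of modular functions of level
`Γ(N)`:

* `exists_intVal_point τ₀`: the order of vanishing at a point `τ₀ ∈ ℍ`, invariant under the
  stabilizer of `τ₀` in `SL(2, ℤ)`;
* `exists_intVal_cusp`: the order at `i∞` in `q ^ (1 / N)`, invariant under `T`;

and their values on `j - j₀`: `1` at a generic point, `2` at `j = 1728` (fixed point of `S`),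
`3` at `j = 0` (fixed point of `S T`), `-N` at `i∞`.
-/

set_option autoImplicit false

noncomputable section

open UpperHalfPlane ModularCurve CongruenceSubgroup
open scoped MatrixGroups Manifold

namespace Fermat.Agent.S24.Tower

/-- two Hahn series with the same support have the same order. -/
theorem val_order_eq_of_coeff_eq_zero_iff {R S : Type*} [Zero R] [Zero S] (s : HahnSeries ℤ R)
    (t : HahnSeries ℤ S) (h : ∀ k : ℤ, s.coeff k = 0 ↔ t.coeff k = 0) : s.order = t.order := by
  by_cases hs : s = 0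
  · have ht : t = 0 := by
      ext k
      rw [HahnSeries.coeff_zero, ← h k, hs, HahnSeries.coeff_zero]
    rw [hs, ht, HahnSeries.order_zero, HahnSeries.order_zero]
  · have ht : t ≠ 0 := by
      rintro rfl
      apply hs
      ext k
      rw [HahnSeries.coeff_zero, h k, HahnSeries.coeff_zero]
    refine le_antisymm ?_ ?_
    · exact HahnSeries.order_le_of_coeff_ne_zero
        (fun h0 => ht (HahnSeries.coeff_order_eq_zero.mp ((h _).mp h0)))
    · exact HahnSeries.order_le_of_coeff_ne_zero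
        (fun h0 => hs (HahnSeries.coeff_order_eq_zero.mp ((h _).mpr h0)))

variable (K : Type) [Field K] [Algebra K ℂ] (N : ℕ) [NeZero N]

variable {K N} in
theorem val_coe_ne_zero_of_ne_zero {a : modRing K N} (ha : a ≠ 0) : (a : ℍ → ℂ) ≠ 0 :=
  fun h => ha (Subtype.ext h)

/-- the valuation "order of vanishing at `τ₀`". -/
theorem exists_intVal_point (τ₀ : ℍ) :
    ∃ w : IntVal K (ModField K N),
      (∀ a : modRing K N, a ≠ 0 → w.toFun (algebraMap (modRing K N) (ModField K N) a)
        = ((PointOrd.ordAt (a : ℍ → ℂ) τ₀).toNat : ℤ)) ∧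
      (∀ c : SL(2, ℤ), c • τ₀ = τ₀ → ∀ y : ModField K N, y ≠ 0 → w.toFun (c • y) = w.toFun y) := by
  have hfin : ∀ a : modRing K N, a ≠ 0 → PointOrd.ordAt (a : ℍ → ℂ) τ₀ ≠ ⊤ :=
    fun a ha => PointOrd.ordAt_ne_top a.2.1 (val_coe_ne_zero_of_ne_zero ha) τ₀
  obtain ⟨w, hw⟩ := FracAlg.exists_intVal (K := K) (A := modRing K N) (L := ModField K N)
    (fun a => ((PointOrd.ordAt (a : ℍ → ℂ) τ₀).toNat : ℤ))
    (fun a b ha hb => by
      have h : PointOrd.ordAt ((a * b : modRing K N) : ℍ → ℂ) τ₀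
          = PointOrd.ordAt (a : ℍ → ℂ) τ₀ + PointOrd.ordAt (b : ℍ → ℂ) τ₀ :=
        PointOrd.ordAt_mul a.2.1 b.2.1 τ₀
      show ((PointOrd.ordAt ((a * b : modRing K N) : ℍ → ℂ) τ₀).toNat : ℤ) = _
      rw [h, ENat.toNat_add (hfin a ha) (hfin b hb)]
      push_cast
      rfl)
    (fun a b ha hb hab => by
      have h : min (PointOrd.ordAt (a : ℍ → ℂ) τ₀) (PointOrd.ordAt (b : ℍ → ℂ) τ₀)
          ≤ PointOrd.ordAt ((a + b : modRing K N) : ℍ → ℂ) τ₀ := PointOrd.ordAt_add τ₀
      have h' : min (PointOrd.ordAt (a : ℍ → ℂ) τ₀).toNat (PointOrd.ordAt (b : ℍ → ℂ) τ₀).toNat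
          ≤ (PointOrd.ordAt ((a + b : modRing K N) : ℍ → ℂ) τ₀).toNat := by
        rcases min_le_iff.mp h with h1 | h1
        · exact (min_le_left _ _).trans (ENat.toNat_le_toNat h1 (hfin _ hab))
        · exact (min_le_right _ _).trans (ENat.toNat_le_toNat h1 (hfin _ hab))
      show min ((PointOrd.ordAt (a : ℍ → ℂ) τ₀).toNat : ℤ) (PointOrd.ordAt (b : ℍ → ℂ) τ₀).toNat
          ≤ ((PointOrd.ordAt ((a + b : modRing K N) : ℍ → ℂ) τ₀).toNat : ℤ)
      exact_mod_cast h')
    (fun c hc => by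
      have h : PointOrd.ordAt ((algebraMap K (modRing K N) c : modRing K N) : ℍ → ℂ) τ₀ = 0 :=
        PointOrd.ordAt_const ((map_ne_zero (algebraMap K ℂ)).mpr hc) τ₀
      show ((PointOrd.ordAt ((algebraMap K (modRing K N) c : modRing K N) : ℍ → ℂ) τ₀).toNat
        : ℤ) = 0
      rw [h]
      rfl)
  refine ⟨w, hw, fun c hc => ?_⟩
  refine FracAlg.intVal_smul (K := K) (A := modRing K N) (L := ModField K N) (G := SL(2, ℤ))
    (fun g a => smul_algebraMap_field g a) w c (fun a ha => ?_)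
  have hca : c • a ≠ 0 := by
    rw [Ne, smul_eq_zero_iff_eq]
    exact ha
  have hc' : c⁻¹ • τ₀ = τ₀ := by
    rw [inv_smul_eq_iff, hc]
  rw [hw a ha, hw (c • a) hca]
  have h : PointOrd.ordAt ((c • a : modRing K N) : ℍ → ℂ) τ₀
      = PointOrd.ordAt (a : ℍ → ℂ) (c⁻¹ • τ₀) := PointOrd.ordAt_smul a.2.1 c⁻¹ τ₀
  rw [h, hc']

/-- the valuation "order at `i∞` in `q ^ (1 / N)`". -/
theorem exists_intVal_cusp :
    ∃ w : IntVal K (ModField K N),
      (∀ a : modRing K N, a ≠ 0 → w.toFun (algebraMap (modRing K N) (ModField K N) a)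
        = (expRing K N a).order) ∧
      (∀ y : ModField K N, y ≠ 0 → w.toFun (ModularGroup.T • y) = w.toFun y) := by
  have hne : ∀ a : modRing K N, a ≠ 0 → expRing K N a ≠ 0 :=
    fun a ha => (map_ne_zero_iff _ (expRing_injective K N)).mpr ha
  obtain ⟨w, hw⟩ := FracAlg.exists_intVal (K := K) (A := modRing K N) (L := ModField K N)
    (fun a => (expRing K N a).order)
    (fun a b ha hb => by
      show (expRing K N (a * b)).order = _
      rw [map_mul, HahnSeries.order_mul (hne a ha) (hne b hb)])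
    (fun a b ha hb hab => by
      show min (expRing K N a).order (expRing K N b).order ≤ (expRing K N (a + b)).order
      rw [map_add]
      refine HahnSeries.min_order_le_order_add ?_
      rw [← map_add]
      exact hne _ hab)
    (fun c hc => by
      show (expRing K N (algebraMap K (modRing K N) c)).order = 0
      rw [AlgHom.commutes, algebraMap_laurentSeries_eq_single, HahnSeries.order_single hc])
  refine ⟨w, hw, ?_⟩
  refine FracAlg.intVal_smul (K := K) (A := modRing K N) (L := ModField K N) (G := SL(2, ℤ))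
    (fun g a => smul_algebraMap_field g a) w ModularGroup.T (fun a ha => ?_)
  have hca : ModularGroup.T • a ≠ 0 := by
    rw [Ne, smul_eq_zero_iff_eq]
    exact ha
  rw [hw a ha, hw _ hca]
  -- the expansion of `T • a`
  have h1 := QLaurent.HasLaurentExp.comp_T_zpow (hasLaurentExp_expRing a) (-1)
  have h2 := hasLaurentExp_expRing (ModularGroup.T • a)
  have hfun : ((ModularGroup.T • a : modRing K N) : ℍ → ℂ)
      = fun τ => (a : ℍ → ℂ) (ModularGroup.T ^ (-1 : ℤ) • τ) := by
    funext τ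
    rw [smul_apply, zpow_neg_one]
  rw [hfun] at h2
  have h3 := QLaurent.HasLaurentExp.unique h2 h1
  have hc0 : Complex.exp (2 * Real.pi * Complex.I * ((-1 : ℤ) : ℂ) / N) ≠ 0 :=
    Complex.exp_ne_zero _
  calc (expRing K N (ModularGroup.T • a)).order
      = (cmap K (expRing K N (ModularGroup.T • a))).order :=
        val_order_eq_of_coeff_eq_zero_iff _ _ (fun k => by
          rw [coeffMap_coeff, map_eq_zero])
    _ = (cmap K (expRing K N a)).order := by
        rw [h3]
        refine val_order_eq_of_coeff_eq_zero_iff _ _ (fun k => ?_)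
        rw [substSeries_coeff, if_pos (by simp), Nat.cast_one, Int.ediv_one, mul_eq_zero]
        exact ⟨fun h => h.resolve_right (zpow_ne_zero _ hc0), fun h => Or.inl h⟩
    _ = (expRing K N a).order :=
        val_order_eq_of_coeff_eq_zero_iff _ _ (fun k => by
          rw [coeffMap_coeff, map_eq_zero])

variable [Algebra ℚ K] [IsAlgClosed K]

theorem val_jField_sub_algebraMap (j₀ : K) :
    jField K N - algebraMap K (ModField K N) j₀
      = algebraMap (modRing K N) (ModField K N) (jMod K N - algebraMap K (modRing K N) j₀) := by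
  rw [map_sub, ← IsScalarTower.algebraMap_apply, jField]

theorem val_coe_jMod_sub (j₀ : K) :
    ((jMod K N - algebraMap K (modRing K N) j₀ : modRing K N) : ℍ → ℂ)
      = fun τ => JAnalytic.jA τ - algebraMap K ℂ j₀ := by
  funext τ
  show (jMod K N : ℍ → ℂ) τ - algebraMap K ℂ j₀ = _
  rw [jMod_apply]

/-- the point valuation at `τ₀` evaluated on `j - j₀`, `j₀ = j (τ₀)`. -/
theorem exists_intVal_point_j (τ₀ : ℍ) (j₀ : K) (hj : JAnalytic.jA τ₀ = algebraMap K ℂ j₀)
    (n : ℕ)
    (hn : analyticOrderAt (fun z : ℂ => JAnalytic.jA (ofComplex z) - JAnalytic.jA τ₀) (τ₀ : ℂ)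
      = n) :
    ∃ w : IntVal K (ModField K N),
      w.toFun (jField K N - algebraMap K (ModField K N) j₀) = n ∧
      (∀ c : SL(2, ℤ), c • τ₀ = τ₀ → ∀ y : ModField K N, y ≠ 0 → w.toFun (c • y) = w.toFun y) := by
  obtain ⟨w, hw, hinv⟩ := exists_intVal_point K N τ₀
  refine ⟨w, ?_, hinv⟩
  have hord : PointOrd.ordAt
      ((jMod K N - algebraMap K (modRing K N) j₀ : modRing K N) : ℍ → ℂ) τ₀ = n := by
    rw [val_coe_jMod_sub, ← hj]
    exact hn
  have hne : jMod K N - algebraMap K (modRing K N) j₀ ≠ 0 := by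
    intro h0
    rw [h0] at hord
    have htop : PointOrd.ordAt ((0 : modRing K N) : ℍ → ℂ) τ₀ = ⊤ := by
      show analyticOrderAt (fun z : ℂ => (0 : ℂ)) (τ₀ : ℂ) = ⊤
      rw [analyticOrderAt_eq_top]
      exact Filter.Eventually.of_forall fun _ => rfl
    rw [htop] at hord
    exact ENat.top_ne_natCast n hord
  rw [val_jField_sub_algebraMap, hw _ hne, hord]
  rfl

theorem exists_intVal_generic (j₀ : K) (h0 : j₀ ≠ 0) (h1 : j₀ ≠ 1728) :
    ∃ w : IntVal K (ModField K N),
      w.toFun (jField K N - algebraMap K (ModField K N) j₀) = 1 := by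
  obtain ⟨τ₀, hτ₀⟩ := JAnalytic.jA_surjective (algebraMap K ℂ j₀)
  have h0' : JAnalytic.jA τ₀ ≠ 0 := by
    rw [hτ₀]
    exact (map_ne_zero (algebraMap K ℂ)).mpr h0
  have h1' : JAnalytic.jA τ₀ ≠ 1728 := by
    rw [hτ₀]
    intro h
    apply h1
    apply (algebraMap K ℂ).injective
    rw [h, map_ofNat]
  obtain ⟨w, hw, -⟩ := exists_intVal_point_j K N τ₀ j₀ hτ₀ 1
    (by rw [JAnalytic.analyticOrderAt_jA_sub τ₀ h0' h1']; rfl)
  exact ⟨w, by rw [hw]; rfl⟩

theorem exists_intVal_S :
    ∃ w : IntVal K (ModField K N),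
      w.toFun (jField K N - algebraMap K (ModField K N) 1728) = 2 ∧
      ∀ y : ModField K N, y ≠ 0 → w.toFun (ModularGroup.S • y) = w.toFun y := by
  obtain ⟨τ₀, hS, hj, hord⟩ := JAnalytic.exists_fixed_S
  obtain ⟨w, hw, hinv⟩ := exists_intVal_point_j K N τ₀ 1728 (by rw [hj, map_ofNat]) 2
    (by rw [hj, hord]; rfl)
  exact ⟨w, by rw [hw]; rfl, hinv _ hS⟩

theorem exists_intVal_ST :
    ∃ w : IntVal K (ModField K N), w.toFun (jField K N) = 3 ∧
      ∀ y : ModField K N, y ≠ 0 →
        w.toFun ((ModularGroup.S * ModularGroup.T) • y) = w.toFun y := by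
  obtain ⟨τ₀, hST, hj, hord⟩ := JAnalytic.exists_fixed_ST
  obtain ⟨w, hw, hinv⟩ := exists_intVal_point_j K N τ₀ 0 (by rw [hj, map_zero]) 3
    (by rw [hj]; simp only [sub_zero]; rw [hord]; rfl)
  refine ⟨w, ?_, hinv _ hST⟩
  rw [map_zero, sub_zero] at hw
  rw [hw]
  rfl

theorem exists_intVal_T :
    ∃ w : IntVal K (ModField K N), w.toFun (jField K N) = -(N : ℤ) ∧
      ∀ y : ModField K N, y ≠ 0 → w.toFun (ModularGroup.T • y) = w.toFun y := by
  obtain ⟨w, hw, hinv⟩ := exists_intVal_cusp K N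
  refine ⟨w, ?_, hinv⟩
  have hord : (expRing K N (jMod K N)).order = -(N : ℤ) := by
    rw [expRing_jMod, JFormal.order_qExpand_jq]
  have hne : jMod K N ≠ 0 := by
    intro h0
    rw [h0, map_zero, HahnSeries.order_zero] at hord
    have : (N : ℤ) ≠ 0 := Nat.cast_ne_zero.mpr (NeZero.ne N)
    omega
  rw [jField, hw _ hne, hord]

end Fermat.Agent.S24.Tower
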