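import Mathlib
import Fermat.Agent.S24_TowerVal
import Fermat.Agent.S24_Kaehler
import Fermat.Agent.RR_IntVal
import Fermat.Agent.RR_Defs
import Fermat.Agent.S20_ExtQ
import Fermat.Agent.S20_Asymp
import Fermat.Agent.S20_JWeight
import Fermat.Agent.S20_Defs

/-!
# S20: regular differentials give cusp forms of weight two

For a function field `F` of `X₀(N)` over `ℂ` — any field with a `ℂ`-embedding `ι` into the field
`Tower.ModField ℂ N` of modular functions of level `Γ(N)` whose image is fixed by `Γ₀(N)`, with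
`ι jF = j` and `jF` a generator — and the divisor `W` of `dj`, we construct an injective
`ℂ`-linear map `L(W) → S₂(Γ₀(N))`, `h ↦ h · E₄² E₆ / Δ` (`E₄² E₆ / Δ` is a nonzero constant
multiple of `dj/dτ`).

* pole cancellation at `τ₀ ∈ ℍ`: the point valuation of the tower restricted to `F` is `e · ord_v`
  for a place `v`, and `ord_v (dj) = ord_v (j - j(τ₀)) - 1`;
* vanishing at the cusps: the cusp valuation (composed with `δ ∈ SL(2, ℤ)`) restricted to `F` is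
  `e · ord_v`, `ord_v (dj) = ord_v j - 1`, and leading term asymptotics of Laurent expansions;
* invariance, linearity: uniqueness of the holomorphic extension.
-/

set_option autoImplicit false

noncomputable section

open UpperHalfPlane ModularCurve CongruenceSubgroup AlgebraicCurve KaehlerDifferential Filter
  Topology Fermat.Agent.S24
open scoped MatrixGroups Manifold ModularForm

namespace Fermat.Agent.S20

namespace Inject

/-- pull back of an integer valued valuation along an embedding of fields. -/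
def comapIntVal {K F L : Type*} [Field K] [Field F] [Field L] [Algebra K F] [Algebra K L]
    (ι : F →ₐ[K] L) (w : IntVal K L) : IntVal K F where
  toFun f := w.toFun (ι f)
  map_mul' a b ha hb := by
    rw [map_mul]
    exact w.map_mul' _ _ ((map_ne_zero ι).mpr ha) ((map_ne_zero ι).mpr hb)
  map_add' a b ha hb hab := by
    rw [map_add]
    refine w.map_add' _ _ ((map_ne_zero ι).mpr ha) ((map_ne_zero ι).mpr hb) ?_
    rw [← map_add]
    exact (map_ne_zero ι).mpr hab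
  map_algebraMap' c hc := by
    rw [AlgHom.commutes]
    exact w.map_algebraMap' c hc

theorem comapIntVal_toFun {K F L : Type*} [Field K] [Field F] [Field L] [Algebra K F]
    [Algebra K L] (ι : F →ₐ[K] L) (w : IntVal K L) (f : F) :
    (comapIntVal ι w).toFun f = w.toFun (ι f) := rfl

variable (N : ℕ) [NeZero N]

theorem cmap_complex (s : LaurentSeries ℂ) : Tower.cmap ℂ s = s := by
  ext k
  rw [coeffMap_coeff]
  rfl

theorem hasLaurentExp_coe (a : Tower.modRing ℂ N) :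
    HasLaurentExp N (a : ℍ → ℂ) (Tower.expRing ℂ N a) := by
  have := Tower.hasLaurentExp_expRing a
  rwa [cmap_complex] at this

theorem algebraMap_ne_zero {a : Tower.modRing ℂ N} (ha : a ≠ 0) :
    algebraMap (Tower.modRing ℂ N) (Tower.ModField ℂ N) a ≠ 0 :=
  (map_ne_zero_iff _ (IsFractionRing.injective (Tower.modRing ℂ N) (Tower.ModField ℂ N))).mpr ha

theorem coe_ne_zero {a : Tower.modRing ℂ N} (ha : a ≠ 0) : (a : ℍ → ℂ) ≠ 0 :=
  fun h => ha (Subtype.ext h)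

/-- the automorphism of the field of modular functions given by `δ`. -/
def actHom (δ : SL(2, ℤ)) : Tower.ModField ℂ N →ₐ[ℂ] Tower.ModField ℂ N :=
  (MulSemiringAction.toAlgEquiv ℂ (Tower.ModField ℂ N) δ).toAlgHom

theorem actHom_apply (δ : SL(2, ℤ)) (y : Tower.ModField ℂ N) : actHom N δ y = δ • y := rfl

omit [NeZero N] in
theorem ordAt_zero (τ₀ : ℍ) : PointOrd.ordAt (0 : ℍ → ℂ) τ₀ = ⊤ := by
  show analyticOrderAt (fun z : ℂ => (0 : ℂ)) (τ₀ : ℂ) = ⊤
  rw [analyticOrderAt_eq_top]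
  exact Filter.Eventually.of_forall fun _ => rfl

variable {N}
variable {F : Type*} [Field F] [Algebra ℂ F] (ι : F →ₐ[ℂ] Tower.ModField ℂ N)
  {jF : F} (hj : ι jF = Tower.jField ℂ N) (hx : IsGenerator ℂ jF)
  {W : Divisor ℂ F} (hW : ∀ v : Place ℂ F, W v = v.ordDifferential (D ℂ F jF))

include hj hx hW in
/-- pole cancellation at a point of the upper half plane. -/
theorem ordAt_le (τ₀ : ℍ) {h : F} (hh : h ∈ RR.LSpace ℂ F W) {a b : Tower.modRing ℂ N}
    (ha : a ≠ 0) (hb : b ≠ 0)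
    (hab : ι h * algebraMap (Tower.modRing ℂ N) (Tower.ModField ℂ N) b
      = algebraMap (Tower.modRing ℂ N) (Tower.ModField ℂ N) a) :
    PointOrd.ordAt (b : ℍ → ℂ) τ₀
      ≤ PointOrd.ordAt (a : ℍ → ℂ) τ₀ + PointOrd.ordAt JW.Jw τ₀ := by
  obtain ⟨w, hw, -⟩ := Tower.exists_intVal_point ℂ N τ₀
  set j₀ : ℂ := JAnalytic.jA τ₀ with hj₀
  have hE := JW.ordAt_Jw τ₀
  have hEtop := JAnalytic.analyticOrderAt_jA_sub_ne_top j₀ τ₀
  rw [← hE] at hEtop
  obtain ⟨e1, he1⟩ : ∃ e1 : ℕ, PointOrd.ordAt JW.Jw τ₀ = e1 := by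
    have : PointOrd.ordAt JW.Jw τ₀ ≠ ⊤ := fun h => hEtop (by rw [h]; rfl)
    exact ⟨_, (ENat.natCast_toNat this).symm⟩
  -- `c = j - j₀` in the ring
  set c : Tower.modRing ℂ N := Tower.jMod ℂ N - algebraMap ℂ (Tower.modRing ℂ N) j₀ with hc
  have hcord : PointOrd.ordAt (c : ℍ → ℂ) τ₀ = ((e1 + 1 : ℕ) : ℕ∞) := by
    rw [hc, Tower.val_coe_jMod_sub]
    show analyticOrderAt (fun z : ℂ => JAnalytic.jA (ofComplex z) - JAnalytic.jA τ₀) (τ₀ : ℂ) = _
    rw [← hE, he1]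
    rfl
  have hc0 : c ≠ 0 := by
    intro h0
    rw [h0] at hcord
    have htop : PointOrd.ordAt ((0 : Tower.modRing ℂ N) : ℍ → ℂ) τ₀ = ⊤ := ordAt_zero τ₀
    rw [htop] at hcord
    exact ENat.top_ne_natCast _ hcord
  have hwc : w.toFun (algebraMap (Tower.modRing ℂ N) (Tower.ModField ℂ N) c) = (e1 : ℤ) + 1 := by
    rw [hw c hc0, hcord, ENat.toNat_natCast]
    push_cast
    rfl
  -- the valuation on `F`
  set w' : IntVal ℂ F := comapIntVal ι w with hw'
  have hιc : ι (jF - algebraMap ℂ F j₀)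
      = algebraMap (Tower.modRing ℂ N) (Tower.ModField ℂ N) c := by
    rw [map_sub, hj, AlgHom.commutes, Tower.val_jField_sub_algebraMap]
  have hjne : jF - algebraMap ℂ F j₀ ≠ 0 := by
    intro h0
    rw [h0, map_zero] at hιc
    exact algebraMap_ne_zero N hc0 hιc.symm
  have hw'j : w'.toFun (jF - algebraMap ℂ F j₀) = (e1 : ℤ) + 1 := by
    rw [hw', comapIntVal_toFun, hιc, hwc]
  obtain ⟨v, e, he, hv⟩ := RR.exists_place_of_intVal w'
    ⟨jF - algebraMap ℂ F j₀, hjne, by rw [hw'j]; omega⟩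
  have hvj := hv _ hjne
  rw [hw'j] at hvj
  have he' : (0 : ℤ) < (e : ℤ) := by exact_mod_cast he
  have hYpos : 0 < v.ord (jF - algebraMap ℂ F j₀) := by
    by_contra hcon
    push Not at hcon
    have := mul_nonpos_of_nonneg_of_nonpos he'.le hcon
    omega
  have hdiff := Kaehler.ordDifferential_D_of_mem_placesAt hx v jF j₀ hYpos
  -- `h ≠ 0`
  have hh0 : h ≠ 0 := by
    rintro rfl
    rw [map_zero, zero_mul] at hab
    exact algebraMap_ne_zero N ha hab.symm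
  have hL := (hh.resolve_left hh0) v
  rw [hW v, hdiff] at hL
  have hvh := hv h hh0
  rw [hw', comapIntVal_toFun] at hvh
  have hmul := w.map_mul' (ι h) _ ((map_ne_zero ι).mpr hh0) (algebraMap_ne_zero N hb)
  rw [hab, hw a ha, hw b hb, hvh] at hmul
  -- conclusion
  have hna := PointOrd.ordAt_ne_top a.2.1 (coe_ne_zero N ha) τ₀
  have hnb := PointOrd.ordAt_ne_top b.2.1 (coe_ne_zero N hb) τ₀
  rw [he1, ← ENat.natCast_toNat hna, ← ENat.natCast_toNat hnb]
  have key : ((PointOrd.ordAt (b : ℍ → ℂ) τ₀).toNat : ℤ)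
      ≤ ((PointOrd.ordAt (a : ℍ → ℂ) τ₀).toNat : ℤ) + e1 := by
    have h1 := mul_nonneg he'.le hL
    have h2 : (e : ℤ) * (v.ord h + (v.ord (jF - algebraMap ℂ F j₀) - 1))
        = (e : ℤ) * v.ord h + (e : ℤ) * v.ord (jF - algebraMap ℂ F j₀) - e := by ring
    rw [h2, ← hvj] at h1
    omega
  exact_mod_cast key

include hj hx hW in
/-- vanishing order at the cusp `δ⁻¹ ∞`. -/
theorem order_le (δ : SL(2, ℤ)) {h : F} (hh : h ∈ RR.LSpace ℂ F W) {a b : Tower.modRing ℂ N}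
    (ha : a ≠ 0) (hb : b ≠ 0)
    (hab : ι h * algebraMap (Tower.modRing ℂ N) (Tower.ModField ℂ N) b
      = algebraMap (Tower.modRing ℂ N) (Tower.ModField ℂ N) a) :
    (Tower.expRing ℂ N (δ • b)).order + N + 1 ≤ (Tower.expRing ℂ N (δ • a)).order := by
  obtain ⟨w, hw, -⟩ := Tower.exists_intVal_cusp ℂ N
  set w' : IntVal ℂ F := comapIntVal ((actHom N δ).comp ι) w with hw'
  have hw'apply : ∀ f : F, w'.toFun f = w.toFun (δ • ι f) := fun f => rfl
  have hN : (0 : ℤ) < (N : ℤ) := by exact_mod_cast NeZero.pos N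
  have hjord : (Tower.expRing ℂ N (Tower.jMod ℂ N)).order = -(N : ℤ) := by
    rw [Tower.expRing_jMod, JFormal.order_qExpand_jq]
  have hjne : Tower.jMod ℂ N ≠ 0 := by
    intro h0
    rw [h0, map_zero, HahnSeries.order_zero] at hjord
    omega
  have hw'j : w'.toFun jF = -(N : ℤ) := by
    rw [hw'apply, hj, Tower.smul_jField, Tower.jField, hw _ hjne, hjord]
  have hjF0 : jF ≠ 0 := by
    intro h0
    rw [h0, map_zero] at hj
    exact algebraMap_ne_zero N hjne hj.symm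
  obtain ⟨v, e, he, hv⟩ := RR.exists_place_of_intVal w' ⟨jF, hjF0, by rw [hw'j]; omega⟩
  have hvj := hv _ hjF0
  rw [hw'j] at hvj
  have he' : (0 : ℤ) < (e : ℤ) := by exact_mod_cast he
  have hYneg : v.ord jF < 0 := by
    by_contra hcon
    push Not at hcon
    have := mul_nonneg he'.le hcon
    omega
  have hdiff := Kaehler.ordDifferential_D_of_ord_neg hx v jF hYneg
  have hh0 : h ≠ 0 := by
    rintro rfl
    rw [map_zero, zero_mul] at hab
    exact algebraMap_ne_zero N ha hab.symm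
  have hL := (hh.resolve_left hh0) v
  rw [hW v, hdiff] at hL
  have hvh := hv h hh0
  rw [hw'apply] at hvh
  have hab' : δ • ι h * algebraMap (Tower.modRing ℂ N) (Tower.ModField ℂ N) (δ • b)
      = algebraMap (Tower.modRing ℂ N) (Tower.ModField ℂ N) (δ • a) := by
    rw [← Tower.smul_algebraMap_field, ← Tower.smul_algebraMap_field, ← smul_mul', hab]
  have hδa : δ • a ≠ 0 := by
    rw [Ne, smul_eq_zero_iff_eq]
    exact ha
  have hδb : δ • b ≠ 0 := by
    rw [Ne, smul_eq_zero_iff_eq]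
    exact hb
  have hδh : δ • ι h ≠ 0 := by
    rw [Ne, smul_eq_zero_iff_eq]
    exact (map_ne_zero ι).mpr hh0
  have hmul := w.map_mul' (δ • ι h) _ hδh (algebraMap_ne_zero N hδb)
  rw [hab', hw _ hδa, hw _ hδb, hvh] at hmul
  have h1 := mul_nonneg he'.le hL
  have h2 : (e : ℤ) * (v.ord h + (v.ord jF - 1))
      = (e : ℤ) * v.ord h + (e : ℤ) * v.ord jF - e := by ring
  rw [h2, ← hvj] at h1
  omega

/-- `f = h · Jw`: for every fraction `ι h = a / b` we have `b · f = a · Jw` on `ℍ`. -/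
def IsFormOf (h : F) (f : ℍ → ℂ) : Prop :=
  ∀ a b : Tower.modRing ℂ N, b ≠ 0 →
    ι h * algebraMap (Tower.modRing ℂ N) (Tower.ModField ℂ N) b
      = algebraMap (Tower.modRing ℂ N) (Tower.ModField ℂ N) a →
    ∀ τ : ℍ, (b : ℍ → ℂ) τ * f τ = (a : ℍ → ℂ) τ * JW.Jw τ

/-- it suffices to check one fraction. -/
theorem isFormOf_of_one {h : F} {f : ℍ → ℂ} (hf : MDiff f) {a₀ b₀ : Tower.modRing ℂ N}
    (hb₀ : b₀ ≠ 0)
    (hab₀ : ι h * algebraMap (Tower.modRing ℂ N) (Tower.ModField ℂ N) b₀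
      = algebraMap (Tower.modRing ℂ N) (Tower.ModField ℂ N) a₀)
    (h₀ : ∀ τ : ℍ, (b₀ : ℍ → ℂ) τ * f τ = (a₀ : ℍ → ℂ) τ * JW.Jw τ) : IsFormOf ι h f := by
  intro a b hb hab τ
  have hring : a * b₀ = a₀ * b := by
    apply IsFractionRing.injective (Tower.modRing ℂ N) (Tower.ModField ℂ N)
    rw [map_mul, map_mul, ← hab, ← hab₀]
    ring
  have hpt : ∀ τ : ℍ, (a : ℍ → ℂ) τ * (b₀ : ℍ → ℂ) τ = (a₀ : ℍ → ℂ) τ * (b : ℍ → ℂ) τ := by
    intro τ
    have := congrArg (fun x : Tower.modRing ℂ N => (x : ℍ → ℂ) τ) hring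
    exact this
  have hu : MDiff (fun τ : ℍ => (b : ℍ → ℂ) τ * f τ - (a : ℍ → ℂ) τ * JW.Jw τ) :=
    (b.2.1.mul hf).sub (a.2.1.mul JW.mdiff_Jw)
  have h0 := ExtQ.eq_zero_of_mul_eq_zero b₀.2.1 hu (coe_ne_zero N hb₀) (fun τ => by
    have e1 := h₀ τ
    have e2 := hpt τ
    linear_combination (b : ℍ → ℂ) τ * e1 - JW.Jw τ * e2)
  have := congrFun h0 τ
  exact sub_eq_zero.mp this

theorem IsFormOf.unique {h : F} {f₁ f₂ : ℍ → ℂ} (hf₁ : MDiff f₁) (hf₂ : MDiff f₂)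
    (h₁ : IsFormOf ι h f₁) (h₂ : IsFormOf ι h f₂) : f₁ = f₂ := by
  obtain ⟨a, b, hb, hab⟩ := Tower.exists_fraction (ι h)
  exact ExtQ.quotient_unique b.2.1 hf₁ hf₂ (coe_ne_zero N hb) (fun τ => by
    rw [h₁ a b hb hab τ, h₂ a b hb hab τ])

theorem isFormOf_zero : IsFormOf ι (0 : F) (0 : ℍ → ℂ) := by
  intro a b hb hab τ
  rw [map_zero, zero_mul] at hab
  have ha : a = 0 := by
    apply IsFractionRing.injective (Tower.modRing ℂ N) (Tower.ModField ℂ N)
    rw [← hab, map_zero]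
  subst ha
  show (b : ℍ → ℂ) τ * 0 = 0 * JW.Jw τ
  ring

theorem IsFormOf.add {h₁ h₂ : F} {f₁ f₂ : ℍ → ℂ} (hf₁ : MDiff f₁) (hf₂ : MDiff f₂)
    (H₁ : IsFormOf ι h₁ f₁) (H₂ : IsFormOf ι h₂ f₂) : IsFormOf ι (h₁ + h₂) (f₁ + f₂) := by
  obtain ⟨a₁, b₁, hb₁, hab₁⟩ := Tower.exists_fraction (ι h₁)
  obtain ⟨a₂, b₂, hb₂, hab₂⟩ := Tower.exists_fraction (ι h₂)
  refine isFormOf_of_one ι (hf₁.add hf₂) (a₀ := a₁ * b₂ + a₂ * b₁) (b₀ := b₁ * b₂)
    (mul_ne_zero hb₁ hb₂) ?_ (fun τ => ?_)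
  · rw [map_add, map_add, map_mul, map_mul, map_mul, ← hab₁, ← hab₂]
    ring
  · have e1 := H₁ a₁ b₁ hb₁ hab₁ τ
    have e2 := H₂ a₂ b₂ hb₂ hab₂ τ
    show ((b₁ : ℍ → ℂ) τ * (b₂ : ℍ → ℂ) τ) * (f₁ τ + f₂ τ)
      = ((a₁ : ℍ → ℂ) τ * (b₂ : ℍ → ℂ) τ + (a₂ : ℍ → ℂ) τ * (b₁ : ℍ → ℂ) τ) * JW.Jw τ
    linear_combination (b₂ : ℍ → ℂ) τ * e1 + (b₁ : ℍ → ℂ) τ * e2

theorem IsFormOf.smul {h : F} {f : ℍ → ℂ} (hf : MDiff f) (H : IsFormOf ι h f) (c : ℂ) :
    IsFormOf ι (c • h) (c • f) := by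
  obtain ⟨a, b, hb, hab⟩ := Tower.exists_fraction (ι h)
  refine isFormOf_of_one ι (hf.const_smul c) (a₀ := c • a) (b₀ := b) hb ?_ (fun τ => ?_)
  · rw [map_smul, smul_mul_assoc, hab, Algebra.smul_def, Algebra.smul_def, map_mul,
      ← IsScalarTower.algebraMap_apply]
  · have e1 := H a b hb hab τ
    show (b : ℍ → ℂ) τ * (c * f τ) = (c * (a : ℍ → ℂ) τ) * JW.Jw τ
    linear_combination c * e1

/-- invariance of weight two. -/
theorem IsFormOf.slash_eq {h : F} {f : ℍ → ℂ} (hf : MDiff f) (H : IsFormOf ι h f)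
    (γ : SL(2, ℤ)) (hγ : γ⁻¹ • ι h = ι h) : f ∣[(2 : ℤ)] γ = f := by
  obtain ⟨a, b, hb, hab⟩ := Tower.exists_fraction (ι h)
  have hb' : γ⁻¹ • b ≠ 0 := by
    rw [Ne, smul_eq_zero_iff_eq]
    exact hb
  have hab' : ι h * algebraMap (Tower.modRing ℂ N) (Tower.ModField ℂ N) (γ⁻¹ • b)
      = algebraMap (Tower.modRing ℂ N) (Tower.ModField ℂ N) (γ⁻¹ • a) := by
    rw [← Tower.smul_algebraMap_field, ← Tower.smul_algebraMap_field, ← hab, smul_mul', hγ]
  have hu : MDiff (f ∣[(2 : ℤ)] γ - f) := (MDifferentiable.slash hf 2 _).sub hf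
  have h0 := ExtQ.eq_zero_of_mul_eq_zero (γ⁻¹ • b).2.1 hu (coe_ne_zero N hb') (fun τ => by
    have e1 := H _ _ hb' hab' τ
    have e2 := H a b hb hab (γ • τ)
    rw [Tower.smul_apply, Tower.smul_apply, inv_inv] at e1
    rw [JW.Jw_smul] at e2
    rw [Tower.smul_apply, inv_inv, Pi.sub_apply, ModularForm.SL_slash_apply]
    have hd : denom γ τ ≠ 0 := denom_ne_zero _ τ
    have hz : denom γ τ ^ (-(2 : ℤ)) = (denom γ τ ^ 2)⁻¹ := by
      rw [zpow_neg]
      norm_cast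
    rw [hz]
    have hd2 : denom γ τ ^ 2 ≠ 0 := pow_ne_zero 2 hd
    field_simp
    linear_combination e2 - denom γ τ ^ 2 * e1)
  exact sub_eq_zero.mp h0

include hj hx hW in
/-- existence of the holomorphic function `h · Jw` for `h ∈ L(W)`. -/
theorem exists_isFormOf {h : F} (hh : h ∈ RR.LSpace ℂ F W) :
    ∃ f : ℍ → ℂ, MDiff f ∧ IsFormOf ι h f := by
  obtain ⟨a, b, hb, hab⟩ := Tower.exists_fraction (ι h)
  rcases eq_or_ne a 0 with rfl | ha
  · have hh0 : h = 0 := by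
      rw [map_zero] at hab
      have := (mul_eq_zero.mp hab).resolve_right (algebraMap_ne_zero N hb)
      exact (map_eq_zero ι).mp this
    subst hh0
    exact ⟨0, mdifferentiable_const, isFormOf_zero ι⟩
  · obtain ⟨f, hf, hfeq⟩ := ExtQ.exists_mdiff_quotient a.2.1 b.2.1 JW.mdiff_Jw (coe_ne_zero N hb)
      (fun τ => ordAt_le ι hj hx hW τ hh ha hb hab)
    exact ⟨f, hf, isFormOf_of_one ι hf hb hab hfeq⟩

include hj hx hW in
/-- vanishing at all cusps. -/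
theorem IsFormOf.isZeroAtImInfty_slash {h : F} (hh : h ∈ RR.LSpace ℂ F W) {f : ℍ → ℂ}
    (hf : MDiff f) (H : IsFormOf ι h f) (δ : SL(2, ℤ)) :
    IsZeroAtImInfty (f ∣[(2 : ℤ)] δ) := by
  obtain ⟨a, b, hb, hab⟩ := Tower.exists_fraction (ι h)
  rcases eq_or_ne a 0 with rfl | ha
  · have hh0 : h = 0 := by
      rw [map_zero] at hab
      have := (mul_eq_zero.mp hab).resolve_right (algebraMap_ne_zero N hb)
      exact (map_eq_zero ι).mp this
    subst hh0
    have hf0 : f = 0 := IsFormOf.unique ι hf mdifferentiable_const H (isFormOf_zero ι)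
    rw [hf0, SlashAction.zero_slash]
    exact Filter.zero_zeroAtFilter _
  -- the translates
  have ha' : δ⁻¹ • a ≠ 0 := by
    rw [Ne, smul_eq_zero_iff_eq]
    exact ha
  have hb' : δ⁻¹ • b ≠ 0 := by
    rw [Ne, smul_eq_zero_iff_eq]
    exact hb
  have hrel : ∀ τ : ℍ, ((δ⁻¹ • b : Tower.modRing ℂ N) : ℍ → ℂ) τ * (f ∣[(2 : ℤ)] δ) τ
      = ((δ⁻¹ • a : Tower.modRing ℂ N) : ℍ → ℂ) τ * JW.Jw τ := by
    intro τ
    have e2 := H a b hb hab (δ • τ)
    rw [JW.Jw_smul] at e2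
    rw [Tower.smul_apply, Tower.smul_apply, inv_inv, ModularForm.SL_slash_apply]
    have hd : denom δ τ ≠ 0 := denom_ne_zero _ τ
    have hz : denom δ τ ^ (-(2 : ℤ)) = (denom δ τ ^ 2)⁻¹ := by
      rw [zpow_neg]
      norm_cast
    rw [hz]
    have hd2 : denom δ τ ^ 2 ≠ 0 := pow_ne_zero 2 hd
    field_simp
    linear_combination e2
  have hord := order_le ι hj hx hW δ⁻¹ hh ha hb hab
  set m := (Tower.expRing ℂ N (δ⁻¹ • a)).order with hm
  set n := (Tower.expRing ℂ N (δ⁻¹ • b)).order with hn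
  set α := (Tower.expRing ℂ N (δ⁻¹ • a)).coeff m with hα
  set β := (Tower.expRing ℂ N (δ⁻¹ • b)).coeff n with hβ
  have hβ0 : β ≠ 0 := by
    rw [hβ, hn, Ne, HahnSeries.coeff_order_eq_zero]
    exact (map_ne_zero_iff _ (Tower.expRing_injective ℂ N)).mpr hb'
  have hA : Tendsto (fun τ => qN N τ ^ (-m) * ((δ⁻¹ • a : Tower.modRing ℂ N) : ℍ → ℂ) τ)
      atImInfty (𝓝 α) := Asymp.tendsto_order (hasLaurentExp_coe N (δ⁻¹ • a))
  have hB : Tendsto (fun τ => qN N τ ^ (-n) * ((δ⁻¹ • b : Tower.modRing ℂ N) : ℍ → ℂ) τ)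
      atImInfty (𝓝 β) := Asymp.tendsto_order (hasLaurentExp_coe N (δ⁻¹ • b))
  have hJ := JW.tendsto_q_mul_Jw
  set k : ℕ := (m - n - N).toNat with hk
  have hk' : (k : ℤ) = m - n - N := by omega
  have hk0 : k ≠ 0 := by omega
  have hq : Tendsto (fun τ : ℍ => qN N τ ^ k) atImInfty (𝓝 0) := by
    have := (Asymp.tendsto_qN (N := N)).pow k
    rwa [zero_pow hk0] at this
  have hT : Tendsto (fun τ : ℍ => qN N τ ^ k
      * (qN N τ ^ (-m) * ((δ⁻¹ • a : Tower.modRing ℂ N) : ℍ → ℂ) τ) * (qN 1 τ * JW.Jw τ)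
      / (qN N τ ^ (-n) * ((δ⁻¹ • b : Tower.modRing ℂ N) : ℍ → ℂ) τ)) atImInfty
      (𝓝 (0 * α * 1 / β)) := ((hq.mul hA).mul hJ).div hB hβ0
  have hev : ∀ᶠ τ in atImInfty, qN N τ ^ (-n) * ((δ⁻¹ • b : Tower.modRing ℂ N) : ℍ → ℂ) τ ≠ 0 :=
    hB.eventually_ne hβ0
  have hlim : (0 : ℂ) * α * 1 / β = 0 := by simp
  rw [hlim] at hT
  refine hT.congr' ?_
  filter_upwards [hev] with τ hτ
  have hqne := QLaurent.qN_ne_zero N τ
  have hbτ : ((δ⁻¹ • b : Tower.modRing ℂ N) : ℍ → ℂ) τ ≠ 0 := right_ne_zero_of_mul hτ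
  have hG : (f ∣[(2 : ℤ)] δ) τ = ((δ⁻¹ • a : Tower.modRing ℂ N) : ℍ → ℂ) τ * JW.Jw τ
      / ((δ⁻¹ • b : Tower.modRing ℂ N) : ℍ → ℂ) τ := by
    rw [eq_div_iff hbτ, mul_comm]
    exact hrel τ
  have hq1 : qN N τ ^ k * qN N τ ^ (-m) * qN 1 τ = qN N τ ^ (-n) := by
    rw [← Asymp.qN_pow_self (NeZero.ne N) τ, ← zpow_natCast, ← zpow_natCast (qN N τ) N,
      ← zpow_add₀ hqne, ← zpow_add₀ hqne]
    congr 1
    omega
  rw [hG]
  have hqn : qN N τ ^ (-n) ≠ 0 := zpow_ne_zero _ hqne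
  rw [div_eq_div_iff hτ hbτ]
  linear_combination ((δ⁻¹ • a : Tower.modRing ℂ N) : ℍ → ℂ) τ * JW.Jw τ
    * ((δ⁻¹ • b : Tower.modRing ℂ N) : ℍ → ℂ) τ * hq1

end Inject

open Inject in
/-- **Regular differentials give cusp forms**: for a function field `F` of `X₀(N)` over `ℂ`
(any field mapping `Γ₀(N)`-invariantly into the field of modular functions, with generator `j`)
and the divisor `W` of `dj`, there is an injective linear map `L(W) → S₂(Γ₀(N))`,
`h ↦ h · E₄² E₆ / Δ` (`= h · j'` up to a constant). -/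
theorem Inject.exists_injective_LSpace_cuspForm (N : ℕ) [NeZero N] {F : Type*} [Field F]
    [Algebra ℂ F] (ι : F →ₐ[ℂ] Tower.ModField ℂ N)
    (hι : ∀ γ ∈ Gamma0 N, ∀ f : F, γ • ι f = ι f)
    (jF : F) (hj : ι jF = Tower.jField ℂ N) (hx : IsGenerator ℂ jF)
    (W : Divisor ℂ F) (hW : ∀ v : Place ℂ F, W v = v.ordDifferential (D ℂ F jF)) :
    ∃ φ : RR.LSpace ℂ F W →ₗ[ℂ] CuspForm (Gamma0 N) 2, Function.Injective φ := by
  have hex : ∀ h : RR.LSpace ℂ F W, ∃ g : CuspForm (Gamma0 N) 2,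
      IsFormOf ι (h : F) (g : ℍ → ℂ) := by
    intro h
    obtain ⟨f, hf, hform⟩ := exists_isFormOf ι hj hx hW h.2
    refine ⟨{ toFun := f, slash_action_eq' := ?_, holo' := hf, zero_at_cusps' := ?_ }, hform⟩
    · rintro A ⟨γ, hγ, rfl⟩
      exact hform.slash_eq ι hf γ (hι γ⁻¹ (inv_mem hγ) h)
    · intro c hc
      rw [Subgroup.IsArithmetic.isCusp_iff_isCusp_SL2Z] at hc
      rw [OnePoint.isZeroAt_iff_forall_SL2Z hc]
      intro δ _
      exact hform.isZeroAtImInfty_slash ι hj hx hW h.2 hf δ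
  choose Φ hΦ using hex
  have hhol : ∀ h : RR.LSpace ℂ F W, MDiff ((Φ h : CuspForm (Gamma0 N) 2) : ℍ → ℂ) :=
    fun h => (Φ h).holo'
  refine ⟨{ toFun := Φ, map_add' := ?_, map_smul' := ?_ }, ?_⟩
  · intro h₁ h₂
    apply DFunLike.coe_injective
    rw [FunLike.coe_add]
    exact IsFormOf.unique ι (hhol _) ((hhol h₁).add (hhol h₂)) (hΦ (h₁ + h₂))
      ((hΦ h₁).add ι (hhol h₁) (hhol h₂) (hΦ h₂))
  · intro c h
    apply DFunLike.coe_injective
    rw [RingHom.id_apply, FunLike.coe_smul]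
    exact IsFormOf.unique ι (hhol _) ((hhol h).const_smul c) (hΦ (c • h))
      ((hΦ h).smul ι (hhol h) c)
  · rw [← LinearMap.ker_eq_bot, LinearMap.ker_eq_bot']
    intro h hh0
    have hzero : ((Φ h : CuspForm (Gamma0 N) 2) : ℍ → ℂ) = 0 := by
      have : Φ h = 0 := hh0
      rw [this]
      rfl
    obtain ⟨a, b, hb, hab⟩ := Tower.exists_fraction (ι (h : F))
    have hrel := hΦ h a b hb hab
    have ha0 : (a : ℍ → ℂ) = 0 :=
      ExtQ.eq_zero_of_mul_eq_zero JW.mdiff_Jw a.2.1 JW.Jw_ne_zero (fun τ => by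
        have := hrel τ
        rw [hzero] at this
        simp only [Pi.zero_apply, mul_zero] at this
        rw [mul_comm]
        exact this.symm)
    have ha : a = 0 := Subtype.ext ha0
    rw [ha, map_zero] at hab
    have h1 := (mul_eq_zero.mp hab).resolve_right (algebraMap_ne_zero N hb)
    exact Subtype.ext ((map_eq_zero ι).mp h1)

/-- the special case `F = X0Field N` (the `Γ₀(N)`-invariants of the tower). -/
theorem Inject.exists_injective_of_isGenerator (N : ℕ) [NeZero N] (hx : IsGenerator ℂ (jX0 N))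
    (W : Divisor ℂ (X0Field N))
    (hW : ∀ v : Place ℂ (X0Field N), W v = v.ordDifferential (D ℂ (X0Field N) (jX0 N))) :
    ∃ Φ : RR.LSpace ℂ (X0Field N) W →ₗ[ℂ] CuspForm (Gamma0 N) 2, Function.Injective Φ :=
  Inject.exists_injective_LSpace_cuspForm N (X0Field N).val
    (fun _ hγ f => smul_coe_X0Field f hγ) (jX0 N) rfl hx W hW

end Fermat.Agent.S20
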