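import Mathlib

set_option autoImplicit false

namespace Fermat.Agent.S24.Scott

open Module Submodule LinearMap

section scott

variable {k : Type*} [Field k] {V : Type*} [AddCommGroup V] [Module k V] [FiniteDimensional k V]

theorem scott_core (x1 x2 y1 y2 y3 : V →ₗ[k] V)
    (hrel : ∀ v, y1 v + x1 (y2 v) + x1 (x2 (y3 v)) = 0) (hy1 : ∀ w, y1 w + x1 w = w) :
    finrank k V + finrank k ↥(range y1 ⊔ range y2) ≤
      finrank k ↥(range y1) + finrank k ↥(range y2) + finrank k ↥(range y3) +
        finrank k ↥(ker y1 ⊓ ker y2 ⊓ ker y3) := by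
  let β : V →ₗ[k] (range y1) × (range y2) × (range y3) :=
    y1.rangeRestrict.prod (y2.rangeRestrict.prod y3.rangeRestrict)
  let δ : (range y1) × (range y2) × (range y3) →ₗ[k] V :=
    (range y1).subtype ∘ₗ LinearMap.fst k _ _ +
      x1 ∘ₗ (range y2).subtype ∘ₗ LinearMap.fst k _ _ ∘ₗ LinearMap.snd k _ _ +
      x1 ∘ₗ x2 ∘ₗ (range y3).subtype ∘ₗ LinearMap.snd k _ _ ∘ₗ LinearMap.snd k _ _
  have hδ : ∀ p : (range y1) × (range y2) × (range y3),
      δ p = (p.1 : V) + x1 (p.2.1 : V) + x1 (x2 (p.2.2 : V)) := fun p => rfl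
  have h1 : range β ≤ ker δ := by
    rintro _ ⟨v, rfl⟩
    rw [LinearMap.mem_ker, hδ]
    exact hrel v
  have h2 : ker β = ker y1 ⊓ ker y2 ⊓ ker y3 := by
    ext v
    rw [LinearMap.mem_ker, Submodule.mem_inf, Submodule.mem_inf, LinearMap.mem_ker,
      LinearMap.mem_ker, LinearMap.mem_ker]
    constructor
    · intro hv
      have a := congrArg (fun p : (range y1) × (range y2) × (range y3) => (p.1 : V)) hv
      have b := congrArg (fun p : (range y1) × (range y2) × (range y3) => (p.2.1 : V)) hv
      have c := congrArg (fun p : (range y1) × (range y2) × (range y3) => (p.2.2 : V)) hv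
      exact ⟨⟨a, b⟩, c⟩
    · rintro ⟨⟨a, b⟩, c⟩
      exact Prod.ext (Subtype.ext a) (Prod.ext (Subtype.ext b) (Subtype.ext c))
  have h3 : range y1 ⊔ range y2 ≤ range δ := by
    refine sup_le ?_ ?_
    · rintro _ ⟨v, rfl⟩
      refine ⟨(⟨y1 v, ⟨v, rfl⟩⟩, 0, 0), ?_⟩
      rw [hδ]
      simp
    · rintro _ ⟨v, rfl⟩
      refine ⟨(⟨y1 (y2 v), ⟨_, rfl⟩⟩, ⟨y2 v, ⟨v, rfl⟩⟩, 0), ?_⟩
      rw [hδ]
      simp [hy1]
  have e1 := LinearMap.finrank_range_add_finrank_ker β
  have e2 := LinearMap.finrank_range_add_finrank_ker δ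
  have e3 : finrank k ((range y1) × (range y2) × (range y3)) =
      finrank k ↥(range y1) + (finrank k ↥(range y2) + finrank k ↥(range y3)) := by
    rw [Module.finrank_prod, Module.finrank_prod]
  have i1 := Submodule.finrank_mono h1
  have i2 := Submodule.finrank_mono h3
  rw [h2] at e1
  omega

/-- **Scott's lemma** (three elements with product one), in subtraction-free form. -/
theorem scott (x1 x2 x3 : V →ₗ[k] V) (h : ∀ v, x1 (x2 (x3 v)) = v) :
    finrank k V + finrank k ↥(range (LinearMap.id - x1) ⊔ range (LinearMap.id - x2)) ≤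
      finrank k ↥(range (LinearMap.id - x1)) + finrank k ↥(range (LinearMap.id - x2)) +
        finrank k ↥(range (LinearMap.id - x3)) +
        finrank k ↥(ker (LinearMap.id - x1) ⊓ ker (LinearMap.id - x2) ⊓
          ker (LinearMap.id - x3)) := by
  refine scott_core x1 x2 _ _ _ (fun v => ?_) (fun w => ?_)
  · simp only [LinearMap.sub_apply, LinearMap.id_apply, map_sub, h]
    abel
  · simp

end scott

section perm

variable {X : Type*} [Fintype X]

/-- permutation representation on functions `X → ℚ` -/
noncomputable def rho (σ : Equiv.Perm X) : (X → ℚ) →ₗ[ℚ] (X → ℚ) :=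
  LinearMap.funLeft ℚ ℚ σ.symm

omit [Fintype X] in
theorem rho_apply (σ : Equiv.Perm X) (v : X → ℚ) (x : X) : rho σ v x = v (σ.symm x) := rfl

omit [Fintype X] in
theorem rho_one (v : X → ℚ) : rho (1 : Equiv.Perm X) v = v := rfl

omit [Fintype X] in
theorem rho_mul (g h : Equiv.Perm X) (v : X → ℚ) : rho (g * h) v = rho g (rho h v) := rfl

omit [Fintype X] in
theorem rho_inv_rho (g : Equiv.Perm X) (v : X → ℚ) : rho g (rho g⁻¹ v) = v := by
  rw [← rho_mul, mul_inv_cancel, rho_one]

omit [Fintype X] in
theorem rho_single [DecidableEq X] (g : Equiv.Perm X) (x : X) :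
    rho g (Pi.single x (1 : ℚ)) = Pi.single (g x) 1 := by
  funext z
  rw [rho_apply, Pi.single_apply, Pi.single_apply]
  congr 1
  rw [eq_iff_iff]
  exact Equiv.symm_apply_eq g

/-- the subgroup of permutations leaving a function invariant -/
def invSubgroup (v : X → ℚ) : Subgroup (Equiv.Perm X) where
  carrier := {g | ∀ x, v (g x) = v x}
  one_mem' := fun x => rfl
  mul_mem' := by
    intro g h hg hh x
    rw [Equiv.Perm.mul_apply, hg, hh]
  inv_mem' := by
    intro g hg x
    have := hg (g⁻¹ x)
    simpa using this.symm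

omit [Fintype X] in
theorem mem_invSubgroup (v : X → ℚ) (g : Equiv.Perm X) :
    g ∈ invSubgroup v ↔ ∀ x, v (g x) = v x := Iff.rfl

omit [Fintype X] in
theorem mem_ker_one_sub_rho (σ : Equiv.Perm X) (v : X → ℚ) :
    v ∈ ker (LinearMap.id - rho σ) ↔ σ ∈ invSubgroup v := by
  rw [LinearMap.mem_ker, mem_invSubgroup, LinearMap.sub_apply, LinearMap.id_apply, sub_eq_zero]
  constructor
  · intro h x
    have := congrFun h (σ x)
    rw [rho_apply, Equiv.symm_apply_apply] at this
    exact this
  · intro h
    funext x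
    rw [rho_apply]
    have := h (σ.symm x)
    rw [Equiv.apply_symm_apply] at this
    exact this

omit [Fintype X] in
theorem sub_rho_mem (a b : Equiv.Perm X) (g : Equiv.Perm X)
    (hg : g ∈ Subgroup.closure ({a, b} : Set (Equiv.Perm X))) (v : X → ℚ) :
    v - rho g v ∈ range (LinearMap.id - rho a) ⊔ range (LinearMap.id - rho b) := by
  induction hg using Subgroup.closure_induction generalizing v with
  | mem g hg =>
    rcases hg with rfl | rfl
    · exact Submodule.mem_sup_left ⟨v, rfl⟩
    · exact Submodule.mem_sup_right ⟨v, rfl⟩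
  | one => rw [rho_one, sub_self]; exact zero_mem _
  | mul g h _ _ ihg ihh =>
    have e : v - rho (g * h) v = (v - rho g v) + ((v - rho h v) - ((v - rho h v) -
        rho g (v - rho h v))) := by
      rw [rho_mul, map_sub]; abel
    rw [e]
    exact add_mem (ihg v) (sub_mem (ihh v) (ihg _))
  | inv g _ ih =>
    have e : v - rho g⁻¹ v = -(rho g⁻¹ v - rho g (rho g⁻¹ v)) := by
      rw [rho_inv_rho]; abel
    rw [e]
    exact neg_mem (ih _)

/-- number of orbits (cycles, including fixed points) of a permutation -/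
noncomputable def orbCount (σ : Equiv.Perm X) : ℕ :=
  Nat.card (MulAction.orbitRel.Quotient (Subgroup.zpowers σ) X)

theorem finrank_ker_one_sub_rho (σ : Equiv.Perm X) :
    finrank ℚ ↥(ker (LinearMap.id - rho σ)) = orbCount σ := by
  classical
  let Q := MulAction.orbitRel.Quotient (Subgroup.zpowers σ) X
  have : Fintype Q := Fintype.ofFinite Q
  let π : X → Q := Quotient.mk''
  have hπ : Function.Surjective π := Quotient.mk''_surjective
  let L : (Q → ℚ) →ₗ[ℚ] (X → ℚ) := LinearMap.funLeft ℚ ℚ π
  have hL : Function.Injective L := LinearMap.funLeft_injective_of_surjective ℚ ℚ π hπ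
  have hrange : range L = ker (LinearMap.id - rho σ) := by
    ext v
    rw [mem_ker_one_sub_rho, mem_invSubgroup]
    constructor
    · rintro ⟨w, rfl⟩ x
      show w (π (σ x)) = w (π x)
      congr 1
      apply Quotient.sound
      exact ⟨⟨σ, Subgroup.mem_zpowers σ⟩, rfl⟩
    · intro h
      have hle : Subgroup.zpowers σ ≤ invSubgroup v := by
        rw [Subgroup.zpowers_le]; exact h
      refine ⟨Quotient.lift v ?_, ?_⟩
      · rintro x y ⟨g, rfl⟩
        exact hle g.2 y
      · rfl
  rw [← hrange, LinearMap.finrank_range_of_inj hL, Module.finrank_fintype_fun_eq_card, orbCount,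
    Nat.card_eq_fintype_card]

theorem finrank_range_one_sub_rho (σ : Equiv.Perm X) :
    finrank ℚ ↥(range (LinearMap.id - rho σ)) + orbCount σ = Fintype.card X := by
  have := LinearMap.finrank_range_add_finrank_ker (LinearMap.id - rho σ)
  rw [finrank_ker_one_sub_rho, Module.finrank_fintype_fun_eq_card] at this
  exact this

variable (a b : Equiv.Perm X)
  (htr : MulAction.IsPretransitive (Subgroup.closure ({a, b} : Set (Equiv.Perm X))) X)

include htr

omit [Fintype X] in
theorem finrank_inf_ker_le_one [Nonempty X] (K : Submodule ℚ (X → ℚ))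
    (hK : K ≤ ker (LinearMap.id - rho a) ⊓ ker (LinearMap.id - rho b)) : finrank ℚ ↥K ≤ 1 := by
  have h1 : K ≤ span ℚ {fun _ : X => (1 : ℚ)} := by
    intro v hv
    have hv' := hK hv
    rw [Submodule.mem_inf, mem_ker_one_sub_rho, mem_ker_one_sub_rho] at hv'
    have hle : Subgroup.closure ({a, b} : Set (Equiv.Perm X)) ≤ invSubgroup v := by
      rw [Subgroup.closure_le]
      rintro g (rfl | rfl)
      · exact hv'.1
      · exact hv'.2
    rw [Submodule.mem_span_singleton]
    refine ⟨v (Classical.arbitrary X), ?_⟩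
    funext y
    obtain ⟨g, hg⟩ := MulAction.exists_smul_eq
      (Subgroup.closure ({a, b} : Set (Equiv.Perm X))) (Classical.arbitrary X) y
    have := hle g.2 (Classical.arbitrary X)
    rw [Pi.smul_apply, smul_eq_mul, mul_one, ← hg]
    exact this.symm
  have h2 : (fun _ : X => (1 : ℚ)) ≠ 0 := fun h =>
    one_ne_zero (congrFun h (Classical.arbitrary X))
  calc finrank ℚ ↥K ≤ finrank ℚ ↥(span ℚ {fun _ : X => (1 : ℚ)}) := Submodule.finrank_mono h1
    _ = 1 := finrank_span_singleton h2

theorem le_finrank_sup_range [Nonempty X] :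
    Fintype.card X ≤
      finrank ℚ ↥(range (LinearMap.id - rho a) ⊔ range (LinearMap.id - rho b)) + 1 := by
  classical
  obtain ⟨W, hW⟩ : ∃ W, W = range (LinearMap.id - rho a) ⊔ range (LinearMap.id - rho b) :=
    ⟨_, rfl⟩
  rw [← hW]
  let x0 : X := Classical.arbitrary X
  have h1 : ∀ x : X, (Pi.single x0 (1 : ℚ) : X → ℚ) - Pi.single x 1 ∈ W := by
    intro x
    obtain ⟨g, hg⟩ := MulAction.exists_smul_eq
      (Subgroup.closure ({a, b} : Set (Equiv.Perm X))) x0 x
    have := sub_rho_mem a b g g.2 (Pi.single x0 (1 : ℚ))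
    rw [rho_single, ← hW] at this
    have hg' : (g : Equiv.Perm X) x0 = x := hg
    rw [hg'] at this
    exact this
  have h2 : (⊤ : Submodule ℚ (X → ℚ)) ≤ W ⊔ span ℚ {(Pi.single x0 (1 : ℚ) : X → ℚ)} := by
    rw [← (Pi.basisFun ℚ X).span_eq, Submodule.span_le]
    rintro _ ⟨x, rfl⟩
    rw [Pi.basisFun_apply]
    have e : (Pi.single x (1 : ℚ) : X → ℚ) =
        -((Pi.single x0 (1 : ℚ) : X → ℚ) - Pi.single x 1) + Pi.single x0 1 := by abel
    rw [e]
    exact add_mem (Submodule.mem_sup_left (neg_mem (h1 x)))
      (Submodule.mem_sup_right (Submodule.mem_span_singleton_self _))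
  have h3 := Submodule.finrank_mono h2
  rw [finrank_top, Module.finrank_fintype_fun_eq_card] at h3
  have h4 := Submodule.finrank_add_le_finrank_add_finrank W
    (span ℚ {(Pi.single x0 (1 : ℚ) : X → ℚ)})
  have h5 : finrank ℚ ↥(span ℚ {(Pi.single x0 (1 : ℚ) : X → ℚ)}) = 1 :=
    finrank_span_singleton (fun h => one_ne_zero (α := ℚ) (by simpa using congrFun h x0))
  omega


/-- **Ree's theorem** (Riemann–Hurwitz inequality): if `a b c = 1` and `⟨a, b⟩` is transitive on
`X`, then the numbers of cycles satisfy `c(a) + c(b) + c(c) ≤ |X| + 2`. -/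
theorem ree_scott [Nonempty X] (c : Equiv.Perm X) (h : a * b * c = 1) :
    orbCount a + orbCount b + orbCount c ≤ Fintype.card X + 2 := by
  have hS := scott (rho a) (rho b) (rho c) (fun v => by
    rw [← rho_mul, ← rho_mul, h, rho_one])
  have ha := finrank_range_one_sub_rho a
  have hb := finrank_range_one_sub_rho b
  have hc := finrank_range_one_sub_rho c
  have h1 := finrank_inf_ker_le_one a b htr
    (ker (LinearMap.id - rho a) ⊓ ker (LinearMap.id - rho b) ⊓ ker (LinearMap.id - rho c))
    inf_le_left
  have h2 := le_finrank_sup_range a b htr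
  rw [Module.finrank_fintype_fun_eq_card] at hS
  omega

end perm

section parity

open Equiv Equiv.Perm

variable {X : Type*} [Fintype X] [DecidableEq X]

omit [Fintype X] [DecidableEq X] in
theorem orbitRel_iff_sameCycle (σ : Equiv.Perm X) (x y : X) :
    (MulAction.orbitRel (Subgroup.zpowers σ) X) x y ↔ σ.SameCycle y x := by
  rw [MulAction.orbitRel_apply, MulAction.mem_orbit_iff]
  constructor
  · rintro ⟨⟨g, hg⟩, rfl⟩
    obtain ⟨k, rfl⟩ := Subgroup.mem_zpowers_iff.mp hg
    exact ⟨k, rfl⟩
  · rintro ⟨k, rfl⟩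
    exact ⟨⟨σ ^ k, k, rfl⟩, rfl⟩

/-- auxiliary labelling of orbits: a fixed point by itself, any other point by its cycle -/
noncomputable def orbLabel (σ : Equiv.Perm X) (x : X) : Equiv.Perm X ⊕ X :=
  if σ x = x then Sum.inr x else Sum.inl (σ.cycleOf x)

theorem orbLabel_eq_iff (σ : Equiv.Perm X) (x y : X) :
    orbLabel σ x = orbLabel σ y ↔ σ.SameCycle y x := by
  unfold orbLabel
  constructor
  · intro h
    by_cases hx : σ x = x <;> by_cases hy : σ y = y
    · rw [if_pos hx, if_pos hy] at h
      rw [Sum.inr.inj h]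
    · rw [if_pos hx, if_neg hy] at h
      exact absurd h (by simp)
    · rw [if_neg hx, if_pos hy] at h
      exact absurd h (by simp)
    · rw [if_neg hx, if_neg hy] at h
      exact ((sameCycle_iff_cycleOf_eq_of_mem_support (mem_support.mpr hx)
        (mem_support.mpr hy)).mpr (Sum.inl.inj h)).symm
  · intro h
    by_cases hy : σ y = y
    · have := h.eq_of_left hy
      subst this
      rfl
    · have hx : ¬ σ x = x := fun hx => hy (h.apply_eq_self_iff.mpr hx)
      rw [if_neg hx, if_neg hy, h.cycleOf_eq]

theorem image_orbLabel (σ : Equiv.Perm X) :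
    Finset.univ.image (orbLabel σ) =
      σ.cycleFactorsFinset.disjSum (Finset.univ.filter fun x => σ x = x) := by
  ext (c | x)
  · rw [Finset.inl_mem_disjSum, Finset.mem_image]
    constructor
    · rintro ⟨x, -, hx⟩
      unfold orbLabel at hx
      by_cases h : σ x = x
      · rw [if_pos h] at hx; exact absurd hx (by simp)
      · rw [if_neg h] at hx
        rw [← Sum.inl.inj hx]
        exact cycleOf_mem_cycleFactorsFinset_iff.mpr (mem_support.mpr h)
    · intro hc
      obtain ⟨a, ha⟩ := (mem_cycleFactorsFinset_iff.mp hc).1.nonempty_support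
      have ha' : a ∈ σ.support := mem_cycleFactorsFinset_support_le hc ha
      refine ⟨a, Finset.mem_univ _, ?_⟩
      unfold orbLabel
      rw [if_neg (mem_support.mp ha'), ← cycle_is_cycleOf ha hc]
  · rw [Finset.inr_mem_disjSum, Finset.mem_image, Finset.mem_filter]
    constructor
    · rintro ⟨y, -, hy⟩
      unfold orbLabel at hy
      by_cases h : σ y = y
      · rw [if_pos h] at hy
        rw [← Sum.inr.inj hy]
        exact ⟨Finset.mem_univ _, h⟩
      · rw [if_neg h] at hy; exact absurd hy (by simp)
    · rintro ⟨-, h⟩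
      exact ⟨x, Finset.mem_univ _, by unfold orbLabel; rw [if_pos h]⟩

/-- bridge to Mathlib's cycle type: the number of orbits is the number of nontrivial cycles plus
the number of fixed points -/
theorem orbCount_eq (σ : Equiv.Perm X) :
    orbCount σ = Multiset.card σ.cycleType + (Fintype.card X - σ.cycleType.sum) := by
  have e1 : MulAction.orbitRel.Quotient (Subgroup.zpowers σ) X ≃
      Quotient (Setoid.ker (orbLabel σ)) :=
    Quotient.congrRight fun x y => by
      rw [orbitRel_iff_sameCycle, Setoid.ker_def, orbLabel_eq_iff]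
  have e2 := Setoid.quotientKerEquivRange (orbLabel σ)
  have h1 : orbCount σ = (Finset.univ.image (orbLabel σ)).card := by
    rw [orbCount, Nat.card_congr (e1.trans e2), Nat.card_coe_set_eq,
      ← Set.ncard_coe_finset]
    congr 1
    ext z
    simp
  have h2 : (Finset.univ.filter fun x => σ x = x).card = Fintype.card X - σ.cycleType.sum := by
    rw [sum_cycleType, ← Finset.card_compl]
    congr 1
    ext x
    simp
  rw [h1, image_orbLabel, Finset.card_disjSum, h2, cycleType_def, Multiset.card_map]
  rfl

theorem card_cycleType_le_sum (σ : Equiv.Perm X) :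
    Multiset.card σ.cycleType ≤ σ.cycleType.sum := by
  have := Multiset.card_nsmul_le_sum (s := σ.cycleType) (a := 1)
    (fun x hx => (one_lt_of_mem_cycleType hx).le)
  simpa using this

/-- `|X| - #cycles` in terms of the cycle type -/
theorem card_sub_orbCount (σ : Equiv.Perm X) :
    Fintype.card X - orbCount σ = σ.cycleType.sum - Multiset.card σ.cycleType := by
  have h1 := orbCount_eq σ
  have h2 := sum_cycleType_le σ
  have h3 := card_cycleType_le_sum σ
  omega

/-- **Parity** (Riemann–Hurwitz): if `a b c = 1` then `∑ (|X| - #cycles)` is even. -/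
theorem parity (a b c : Equiv.Perm X) (h : a * b * c = 1) :
    Even ((Fintype.card X - orbCount a) + (Fintype.card X - orbCount b) +
      (Fintype.card X - orbCount c)) := by
  have hs : sign a * sign b * sign c = 1 := by
    rw [← Perm.sign_mul, ← Perm.sign_mul, h, Perm.sign_one]
  rw [sign_of_cycleType, sign_of_cycleType, sign_of_cycleType, ← pow_add, ← pow_add,
    neg_one_pow_eq_one_iff_even (by decide)] at hs
  obtain ⟨m, hm⟩ := hs
  rw [card_sub_orbCount, card_sub_orbCount, card_sub_orbCount]
  have ha := card_cycleType_le_sum a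
  have hb := card_cycleType_le_sum b
  have hc := card_cycleType_le_sum c
  exact ⟨m - (Multiset.card a.cycleType + Multiset.card b.cycleType + Multiset.card c.cycleType),
    by omega⟩

end parity


/-! ### Versions for a group acting on a finite set -/

section action

variable {G : Type*} [Group G] {X : Type*} [Fintype X] [MulAction G X]

/-- number of orbits on `X` of the cyclic group generated by `g` -/
noncomputable def orbCountAct (X : Type*) [MulAction G X] (g : G) : ℕ :=
  Nat.card (MulAction.orbitRel.Quotient (Subgroup.zpowers g) X)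

omit [Fintype X] in
theorem orbCountAct_eq (g : G) :
    orbCountAct X g = orbCount (MulAction.toPerm g : Equiv.Perm X) := by
  refine Nat.card_congr (Quotient.congrRight fun x y => ?_)
  rw [orbitRel_iff_sameCycle, MulAction.orbitRel_apply, MulAction.mem_orbit_iff]
  have hpow : ∀ k : ℤ, (MulAction.toPerm g : Equiv.Perm X) ^ k = MulAction.toPerm (g ^ k) :=
    fun k => (map_zpow (MulAction.toPermHom G X) g k).symm
  constructor
  · rintro ⟨⟨h, hh⟩, rfl⟩
    obtain ⟨k, rfl⟩ := Subgroup.mem_zpowers_iff.mp hh
    exact ⟨k, by rw [hpow]; rfl⟩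
  · rintro ⟨k, rfl⟩
    exact ⟨⟨g ^ k, k, rfl⟩, by rw [hpow]; rfl⟩

/-- **Parity** for a group action. -/
theorem parity_action (a b c : G) (h : a * b * c = 1) :
    Even ((Fintype.card X - orbCountAct X a) + (Fintype.card X - orbCountAct X b) +
      (Fintype.card X - orbCountAct X c)) := by
  classical
  rw [orbCountAct_eq, orbCountAct_eq, orbCountAct_eq]
  refine parity _ _ _ ?_
  rw [← MulAction.toPermHom_apply, ← MulAction.toPermHom_apply G X b,
    ← MulAction.toPermHom_apply G X c, ← map_mul, ← map_mul, h, map_one]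

/-- **Ree's theorem** for a transitive group action of a group generated by `a`, `b`. -/
theorem ree_scott_action [Nonempty X] [MulAction.IsPretransitive G X] (a b c : G)
    (h : a * b * c = 1) (hgen : Subgroup.closure ({a, b} : Set G) = ⊤) :
    orbCountAct X a + orbCountAct X b + orbCountAct X c ≤ Fintype.card X + 2 := by
  rw [orbCountAct_eq, orbCountAct_eq, orbCountAct_eq]
  refine ree_scott _ _ ?_ _ ?_
  · refine ⟨fun x y => ?_⟩
    obtain ⟨g, hg⟩ := MulAction.exists_smul_eq G x y
    have hmem : MulAction.toPermHom G X g ∈ Subgroup.closure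
        ({MulAction.toPerm a, MulAction.toPerm b} : Set (Equiv.Perm X)) := by
      have h1 : g ∈ Subgroup.closure ({a, b} : Set G) := by rw [hgen]; exact Subgroup.mem_top g
      have h2 := Subgroup.mem_map_of_mem (MulAction.toPermHom G X) h1
      rw [MonoidHom.map_closure] at h2
      have h3 : (MulAction.toPermHom G X) '' ({a, b} : Set G) =
          {MulAction.toPerm a, MulAction.toPerm b} := by
        rw [Set.image_pair]; rfl
      rw [h3] at h2
      exact h2
    exact ⟨⟨_, hmem⟩, hg⟩
  · rw [← MulAction.toPermHom_apply, ← MulAction.toPermHom_apply G X b,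
      ← MulAction.toPermHom_apply G X c, ← map_mul, ← map_mul, h, map_one]

end action

end Fermat.Agent.S24.Scott
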