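import Mathlib
import Fermat.Prelude.Def_ModularCurve_GenusNumerics
import Fermat.Agent.S24_CountModel
import Fermat.Agent.S24_Scott

set_option autoImplicit false

/-!
# S24, M5: the number of `T`-orbits on `SL(2, ℤ) ⧸ Γ₀(N)` is the number of cusps

Burnside's lemma for the cyclic group generated by `T` (which acts through `ℤ/N`):
`N · #orbits = ∑_{k < N} #Fix(T ^ k)`.  In the model "coset ↦ first column mod `N` up to units"
(`S24_CountModel`), `T ^ k` fixes the class of `(a, c)` iff `k c² = 0`, so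
`N φ(N) · #orbits = ∑_{(a, c) primitive} gcd(c², N)`, which is evaluated by sorting the vectors
according to `d = gcd(c, N)`: `N φ(N) ∑_{d ∣ N} φ(gcd(d, N / d))`.
-/

open scoped MatrixGroups

namespace Fermat.Agent.S24.CountCusp

open Finset Fermat.Agent.S24.CountModel CongruenceSubgroup

/-! ### Arithmetic -/

theorem periodic_add_mul (A : ℕ → ℕ) (m : ℕ) (hA : ∀ k, A (k + m) = A k) (q x : ℕ) :
    A (m * q + x) = A x := by
  induction q with
  | zero => simp
  | succ q ih =>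
    have : m * (q + 1) + x = (m * q + x) + m := by ring
    rw [this, hA, ih]

theorem sum_range_mul_periodic (A : ℕ → ℕ) (m q : ℕ) (hA : ∀ k, A (k + m) = A k) :
    ∑ k ∈ range (m * q), A k = q * ∑ j ∈ range m, A j := by
  induction q with
  | zero => simp
  | succ q ih =>
    rw [Nat.mul_succ, sum_range_add, ih]
    simp only [periodic_add_mul A m hA]
    ring

theorem card_filter_range_mul_periodic (P : ℕ → Prop) [DecidablePred P] (m q : ℕ)
    (hP : ∀ k, P (k + m) ↔ P k) :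
    #{k ∈ range (m * q) | P k} = q * #{j ∈ range m | P j} := by
  rw [card_filter, card_filter]
  exact sum_range_mul_periodic (fun k => if P k then 1 else 0) m q
    (fun k => by simp only [hP])

theorem card_coprime_range (d q : ℕ) :
    #{j ∈ range (d * q) | Nat.Coprime j d} = q * Nat.totient d := by
  rw [card_filter_range_mul_periodic _ d q (fun k => Nat.coprime_add_self_left),
    Nat.totient_eq_card_coprime]
  congr 2
  ext j
  simp only [mem_filter, Nat.coprime_comm]

theorem card_dvd_range (t g : ℕ) (ht : 0 < t) :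
    #{k ∈ range (t * g) | t ∣ k} = g := by
  rw [card_filter_range_mul_periodic _ t g (fun k => Nat.dvd_add_self_right)]
  have : #{j ∈ range t | t ∣ j} = 1 := by
    rw [card_eq_one]
    refine ⟨0, ?_⟩
    ext j
    simp only [mem_filter, mem_range, mem_singleton]
    constructor
    · rintro ⟨h1, h2⟩
      exact Nat.eq_zero_of_dvd_of_lt h2 h1
    · rintro rfl
      exact ⟨ht, dvd_zero _⟩
  rw [this, mul_one]

/-- the number of `k < N` with `N ∣ k * M` is `gcd M N` -/
theorem card_dvd_mul (N M : ℕ) (hN : 0 < N) :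
    #{k ∈ range N | N ∣ k * M} = Nat.gcd M N := by
  obtain ⟨g, hg⟩ : ∃ g, g = Nat.gcd M N := ⟨_, rfl⟩
  have hgpos : 0 < g := by rw [hg]; exact Nat.gcd_pos_of_pos_right M hN
  obtain ⟨t, ht⟩ : ∃ t, N = t * g := ⟨N / g, by
    rw [hg]; exact (Nat.div_mul_cancel (Nat.gcd_dvd_right M N)).symm⟩
  obtain ⟨M', hM'⟩ : ∃ M', M = M' * g := ⟨M / g, by
    rw [hg]; exact (Nat.div_mul_cancel (Nat.gcd_dvd_left M N)).symm⟩
  have htpos : 0 < t := by
    rcases Nat.eq_zero_or_pos t with h | h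
    · rw [h, zero_mul] at ht; omega
    · exact h
  have hcop : Nat.Coprime t M' := by
    have h1 : Nat.Coprime (M / g) (N / g) := by
      rw [hg]; exact Nat.coprime_div_gcd_div_gcd (by rw [← hg]; exact hgpos)
    rw [hM', ht, Nat.mul_div_cancel _ hgpos, Nat.mul_div_cancel _ hgpos] at h1
    exact h1.symm
  rw [← hg]
  have key : ∀ k, N ∣ k * M ↔ t ∣ k := by
    intro k
    rw [ht, hM', ← mul_assoc, Nat.mul_dvd_mul_iff_right hgpos]
    exact hcop.dvd_mul_right
  simp only [key]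
  rw [ht]
  exact card_dvd_range t g htpos

/-- `gcd (c², N) = d · gcd (d, N / d)` for `d = gcd (c, N)` -/
theorem gcd_sq (c N : ℕ) (hN : 0 < N) :
    Nat.gcd (c ^ 2) N = Nat.gcd c N * Nat.gcd (Nat.gcd c N) (N / Nat.gcd c N) := by
  obtain ⟨d, hd⟩ : ∃ d, d = Nat.gcd c N := ⟨_, rfl⟩
  have hdpos : 0 < d := by rw [hd]; exact Nat.gcd_pos_of_pos_right c hN
  rw [← hd]
  obtain ⟨N1, hN1⟩ : ∃ N1, N = d * N1 := by
    rw [hd]; exact Nat.gcd_dvd_right c N
  obtain ⟨c1, hc1⟩ : ∃ c1, c = d * c1 := by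
    rw [hd]; exact Nat.gcd_dvd_left c N
  have hcop : Nat.Coprime c1 N1 := by
    have h1 : Nat.Coprime (c / d) (N / d) := by
      rw [hd]; exact Nat.coprime_div_gcd_div_gcd (by rw [← hd]; exact hdpos)
    rw [hc1, hN1, Nat.mul_div_cancel_left _ hdpos, Nat.mul_div_cancel_left _ hdpos] at h1
    exact h1
  rw [hN1, Nat.mul_div_cancel_left _ hdpos, hc1]
  have e : (d * c1) ^ 2 = d * (d * c1 ^ 2) := by ring
  rw [e, Nat.gcd_mul_left]
  congr 1
  exact Nat.Coprime.gcd_mul_right_cancel d (Nat.Coprime.pow_left 2 hcop)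


theorem sum_range_gcd (N : ℕ) (hN : 0 < N) :
    ∑ j ∈ range N, N * (Nat.totient (Nat.gcd j N) *
        Nat.gcd (Nat.gcd j N) (N / Nat.gcd j N)) =
      N * Nat.totient N * ModularCurve.cuspCount N := by
  have hmaps : ∀ j ∈ range N, Nat.gcd j N ∈ N.divisors := fun j _ =>
    Nat.mem_divisors.mpr ⟨Nat.gcd_dvd_right j N, hN.ne'⟩
  rw [← sum_fiberwise_of_maps_to hmaps, ModularCurve.cuspCount, mul_sum]
  refine sum_congr rfl fun d hd => ?_
  have hdN : d ∣ N := Nat.dvd_of_mem_divisors hd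
  have h1 : ∑ j ∈ range N with Nat.gcd j N = d, N * (Nat.totient (Nat.gcd j N) *
      Nat.gcd (Nat.gcd j N) (N / Nat.gcd j N)) =
      ∑ j ∈ range N with Nat.gcd j N = d, N * (Nat.totient d * Nat.gcd d (N / d)) := by
    refine sum_congr rfl fun j hj => ?_
    rw [(mem_filter.mp hj).2]
  rw [h1, sum_const, smul_eq_mul]
  have h2 : #{j ∈ range N | Nat.gcd j N = d} = Nat.totient (N / d) := by
    rw [Nat.totient_div_of_dvd hdN]
    congr 1
    ext j
    simp only [mem_filter, Nat.gcd_comm]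
  have h3 := Nat.totient_gcd_mul_totient_mul d (N / d)
  rw [Nat.mul_div_cancel' hdN] at h3
  rw [h2]
  calc Nat.totient (N / d) * (N * (Nat.totient d * Nat.gcd d (N / d)))
      = N * (Nat.totient d * Nat.totient (N / d) * Nat.gcd d (N / d)) := by ring
    _ = N * (Nat.totient (Nat.gcd d (N / d)) * Nat.totient N) := by rw [h3]
    _ = N * Nat.totient N * Nat.totient (Nat.gcd d (N / d)) := by ring


/-! ### Residues modulo `N` -/

variable (N : ℕ) [NeZero N]

theorem sum_zmod_val (f : ℕ → ℕ) : ∑ c : ZMod N, f c.val = ∑ j ∈ range N, f j := by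
  cases N with
  | zero => exact absurd rfl (NeZero.ne 0)
  | succ n => exact Fin.sum_univ_eq_sum_range f (n + 1)

theorem card_zmod_val (P : ℕ → Prop) [DecidablePred P] :
    #{c : ZMod N | P c.val} = #{j ∈ range N | P j} := by
  rw [card_filter, card_filter]
  exact sum_zmod_val N fun j => if P j then 1 else 0

theorem isPrim_iff (a c : ZMod N) :
    IsPrim ((a, c) : ZMod N × ZMod N) ↔ Nat.Coprime a.val (Nat.gcd c.val N) := by
  constructor
  · rintro ⟨x, y, hxy⟩
    apply Nat.coprime_of_dvd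
    intro p pp hpa hpg
    have hpc : p ∣ c.val := hpg.trans (Nat.gcd_dvd_left _ _)
    have hpN : p ∣ N := hpg.trans (Nat.gcd_dvd_right _ _)
    have : Fact p.Prime := ⟨pp⟩
    have h1 := congrArg (ZMod.castHom hpN (ZMod p)) hxy
    simp only at h1
    rw [map_add, map_mul, map_mul, map_one] at h1
    have e1 : ZMod.castHom hpN (ZMod p) a = 0 := by
      rw [← ZMod.natCast_zmod_val a, map_natCast]
      exact (ZMod.natCast_eq_zero_iff _ p).mpr hpa
    have e2 : ZMod.castHom hpN (ZMod p) c = 0 := by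
      rw [← ZMod.natCast_zmod_val c, map_natCast]
      exact (ZMod.natCast_eq_zero_iff _ p).mpr hpc
    rw [e1, e2, mul_zero, mul_zero, add_zero] at h1
    exact zero_ne_one h1
  · intro h
    have h1 := Nat.gcd_eq_gcd_ab a.val (Nat.gcd c.val N)
    have h2 := Nat.gcd_eq_gcd_ab c.val N
    rw [h.gcd_eq_one] at h1
    have h3 : (1 : ℤ) = a.val * Nat.gcdA a.val (Nat.gcd c.val N) +
        (c.val * Nat.gcdA c.val N + N * Nat.gcdB c.val N) * Nat.gcdB a.val (Nat.gcd c.val N) := by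
      rw [← h2]; exact_mod_cast h1
    have h4 := congrArg (Int.cast : ℤ → ZMod N) h3
    push_cast at h4
    rw [ZMod.natCast_zmod_val, ZMod.natCast_zmod_val, ZMod.natCast_self] at h4
    refine ⟨(Nat.gcdA a.val (Nat.gcd c.val N) : ZMod N),
      (Nat.gcdA c.val N : ZMod N) * (Nat.gcdB a.val (Nat.gcd c.val N) : ZMod N), ?_⟩
    simp only
    linear_combination -h4

open Classical in
theorem card_isPrim_fst (c : ZMod N) :
    #{a : ZMod N | IsPrim ((a, c) : ZMod N × ZMod N)} =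
      N / Nat.gcd c.val N * Nat.totient (Nat.gcd c.val N) := by
  have h1 : #{a : ZMod N | IsPrim ((a, c) : ZMod N × ZMod N)} =
      #{a : ZMod N | Nat.Coprime a.val (Nat.gcd c.val N)} := by
    congr 1
    ext a
    simp only [mem_filter, mem_univ, true_and, isPrim_iff]
  rw [h1, card_zmod_val N (fun j => Nat.Coprime j (Nat.gcd c.val N))]
  obtain ⟨d, hd⟩ : ∃ d, d = Nat.gcd c.val N := ⟨_, rfl⟩
  rw [← hd]
  have h2 : d * (N / d) = N := Nat.mul_div_cancel' (by rw [hd]; exact Nat.gcd_dvd_right _ _)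
  have h3 : #{j ∈ range N | j.Coprime d} = #{j ∈ range (d * (N / d)) | j.Coprime d} := by
    rw [h2]
  rw [h3]
  exact card_coprime_range _ _

theorem card_mul_eq_zero (m : ZMod N) :
    #((range N).filter fun k : ℕ => (k : ZMod N) * m = 0) = Nat.gcd m.val N := by
  rw [← card_dvd_mul N m.val (Nat.pos_of_ne_zero (NeZero.ne N))]
  congr 1
  ext k
  simp only [mem_filter, mem_range, and_congr_right_iff]
  intro _
  rw [← ZMod.natCast_eq_zero_iff, Nat.cast_mul, ZMod.natCast_zmod_val]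

theorem card_mul_sq_eq_zero (c : ZMod N) :
    #((range N).filter fun k : ℕ => (k : ZMod N) * c ^ 2 = 0) =
      Nat.gcd c.val N * Nat.gcd (Nat.gcd c.val N) (N / Nat.gcd c.val N) := by
  rw [card_mul_eq_zero, ← gcd_sq c.val N (Nat.pos_of_ne_zero (NeZero.ne N))]
  have h : (c ^ 2).val = c.val ^ 2 % N := by
    conv_lhs => rw [← ZMod.natCast_zmod_val c, ← Nat.cast_pow, ZMod.val_natCast]
  rw [h, ← Nat.gcd_rec, Nat.gcd_comm]


open Classical in
/-- the weighted count of primitive vectors: `∑_k #{v primitive | k · v₂² = 0} = N φ(N) c(N)` -/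
theorem total_count :
    ∑ k ∈ range N, #{v : ZMod N × ZMod N | IsPrim v ∧ (k : ZMod N) * v.2 ^ 2 = 0} =
      N * Nat.totient N * ModularCurve.cuspCount N := by
  have hN : 0 < N := Nat.pos_of_ne_zero (NeZero.ne N)
  have h1 : ∀ k : ℕ, #{v : ZMod N × ZMod N | IsPrim v ∧ (k : ZMod N) * v.2 ^ 2 = 0} =
      ∑ c : ZMod N, ∑ a : ZMod N,
        (if IsPrim ((a, c) : ZMod N × ZMod N) then 1 else 0) *
          (if (k : ZMod N) * c ^ 2 = 0 then 1 else 0) := by
    intro k
    rw [card_filter, Fintype.sum_prod_type_right]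
    refine sum_congr rfl fun c _ => sum_congr rfl fun a _ => ?_
    by_cases h1 : IsPrim ((a, c) : ZMod N × ZMod N) <;>
      by_cases h2 : (k : ZMod N) * c ^ 2 = 0 <;> simp [h1, h2]
  simp only [h1]
  rw [sum_comm]
  have h2 : ∀ c : ZMod N, ∑ k ∈ range N, ∑ a : ZMod N,
        (if IsPrim ((a, c) : ZMod N × ZMod N) then 1 else 0) *
          (if (k : ZMod N) * c ^ 2 = 0 then 1 else 0) =
      N * (Nat.totient (Nat.gcd c.val N) *
        Nat.gcd (Nat.gcd c.val N) (N / Nat.gcd c.val N)) := by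
    intro c
    rw [sum_comm, ← sum_mul_sum, ← card_filter, ← card_filter, card_isPrim_fst,
      card_mul_sq_eq_zero]
    have hd : N / Nat.gcd c.val N * Nat.gcd c.val N = N :=
      Nat.div_mul_cancel (Nat.gcd_dvd_right _ _)
    calc N / Nat.gcd c.val N * Nat.totient (Nat.gcd c.val N) *
          (Nat.gcd c.val N * Nat.gcd (Nat.gcd c.val N) (N / Nat.gcd c.val N))
        = (N / Nat.gcd c.val N * Nat.gcd c.val N) * (Nat.totient (Nat.gcd c.val N) *
          Nat.gcd (Nat.gcd c.val N) (N / Nat.gcd c.val N)) := by ring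
      _ = _ := by rw [hd]
  simp only [h2]
  rw [sum_zmod_val N fun j => N * (Nat.totient (Nat.gcd j N) *
    Nat.gcd (Nat.gcd j N) (N / Nat.gcd j N))]
  exact sum_range_gcd N hN


open Classical in
/-- **Burnside's lemma** for a cyclic group: if `σ ^ n = 1` then
`n · #orbits = ∑_{k < n} #Fix(σ ^ k)`. -/
theorem cyclic_burnside {X : Type*} [Fintype X] (σ : Equiv.Perm X) (n : ℕ) (hn : σ ^ n = 1) :
    n * Scott.orbCount σ = ∑ k ∈ range n, #{x : X | (σ ^ k) x = x} := by
  obtain ⟨m, hm⟩ : ∃ m, m = orderOf σ := ⟨_, rfl⟩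
  have hmpos : 0 < m := by rw [hm]; exact orderOf_pos σ
  obtain ⟨q, hq⟩ : m ∣ n := by rw [hm]; exact orderOf_dvd_of_pow_eq_one hn
  have hper : ∀ k, #{x : X | (σ ^ (k + m)) x = x} = #{x : X | (σ ^ k) x = x} := by
    intro k
    rw [pow_add, hm, pow_orderOf_eq_one, mul_one]
  have hB := MulAction.sum_card_fixedBy_eq_card_orbits_mul_card_group (Subgroup.zpowers σ) X
  have h1 : Fintype.card (Quotient (MulAction.orbitRel (Subgroup.zpowers σ) X)) =
      Scott.orbCount σ := by
    rw [Scott.orbCount, Nat.card_eq_fintype_card]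
  rw [h1, Fintype.card_zpowers, ← hm] at hB
  have h2 : ∑ g : Subgroup.zpowers σ, Fintype.card (MulAction.fixedBy X g) =
      ∑ j ∈ range m, #{x : X | (σ ^ j) x = x} := by
    rw [← Fin.sum_univ_eq_sum_range (fun j => #{x : X | (σ ^ j) x = x}) m]
    subst hm
    symm
    refine Fintype.sum_equiv (finEquivZPowers (isOfFinOrder_of_finite σ)) _ _ fun i => ?_
    rw [finEquivZPowers_apply]
    symm
    refine Fintype.card_of_subtype _ fun x => ?_
    rw [mem_filter, MulAction.mem_fixedBy]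
    simp only [mem_univ, true_and]
    rfl
  rw [h2] at hB
  rw [hq, sum_range_mul_periodic _ m q hper, hB]
  ring


omit [NeZero N] in
theorem col_T_pow_mul (k : ℕ) (g : SL(2, ℤ)) :
    col N (ModularGroup.T ^ k * g) = ((col N g).1 + (k : ZMod N) * (col N g).2, (col N g).2) := by
  have hT : (ModularGroup.T ^ k : SL(2, ℤ)).1 = !![1, (k : ℤ); 0, 1] := by
    rw [← zpow_natCast, ModularGroup.coe_T_zpow]
  have h00 : (ModularGroup.T ^ k : SL(2, ℤ)) 0 0 = 1 := by
    show (ModularGroup.T ^ k : SL(2, ℤ)).1 0 0 = 1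
    rw [hT]; rfl
  have h01 : (ModularGroup.T ^ k : SL(2, ℤ)) 0 1 = k := by
    show (ModularGroup.T ^ k : SL(2, ℤ)).1 0 1 = k
    rw [hT]; rfl
  have h10 : (ModularGroup.T ^ k : SL(2, ℤ)) 1 0 = 0 := by
    show (ModularGroup.T ^ k : SL(2, ℤ)).1 1 0 = 0
    rw [hT]; rfl
  have h11 : (ModularGroup.T ^ k : SL(2, ℤ)) 1 1 = 1 := by
    show (ModularGroup.T ^ k : SL(2, ℤ)).1 1 1 = 1
    rw [hT]; rfl
  rw [col_mul, h00, h01, h10, h11]
  simp

omit [NeZero N] in
/-- `T ^ k` fixes the coset of `g` iff `k · c² = 0`, `c` the lower left entry of `g` mod `N` -/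
theorem T_pow_smul_mk_eq_iff (k : ℕ) (g : SL(2, ℤ)) :
    (ModularGroup.T ^ k) • (QuotientGroup.mk g : SL(2, ℤ) ⧸ Gamma0 N) = QuotientGroup.mk g ↔
      (k : ZMod N) * (col N g).2 ^ 2 = 0 := by
  rw [MulAction.Quotient.smul_mk, smul_eq_mul, mk_eq_mk_iff, col_T_pow_mul, cross]
  constructor
  · intro h; linear_combination h
  · intro h; linear_combination h


/-- the bijection `(coset, unit) ↦ unit • first column`, as an equivalence -/
noncomputable def colEquiv :
    (SL(2, ℤ) ⧸ Gamma0 N) × (ZMod N)ˣ ≃ {v : ZMod N × ZMod N // IsPrim v} :=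
  Equiv.ofBijective
    (fun qu : (SL(2, ℤ) ⧸ Gamma0 N) × (ZMod N)ˣ =>
      (⟨((qu.2 : ZMod N) * (col N qu.1.out).1, (qu.2 : ZMod N) * (col N qu.1.out).2),
        (isPrim_col N qu.1.out).smul qu.2⟩ : {v : ZMod N × ZMod N // IsPrim v})) <| by
    refine ⟨?_, ?_⟩
    · rintro ⟨q, u⟩ ⟨q', u'⟩ h
      have h' : ((u : ZMod N) * (col N q.out).1, (u : ZMod N) * (col N q.out).2)
          = ((u' : ZMod N) * (col N q'.out).1, (u' : ZMod N) * (col N q'.out).2) :=
        congrArg Subtype.val h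
      have h1 : (col N q'.out) = (((u'⁻¹ * u : (ZMod N)ˣ) : ZMod N) * (col N q.out).1,
          ((u'⁻¹ * u : (ZMod N)ˣ) : ZMod N) * (col N q.out).2) := by
        have e1 := congrArg Prod.fst h'
        have e2 := congrArg Prod.snd h'
        simp only at e1 e2
        have hu : ((u'⁻¹ : (ZMod N)ˣ) : ZMod N) * (u' : ZMod N) = 1 := Units.inv_mul u'
        ext
        · simp only [Units.val_mul]
          linear_combination (-(col N q'.out).1) * hu - ((u'⁻¹ : (ZMod N)ˣ) : ZMod N) * e1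
        · simp only [Units.val_mul]
          linear_combination (-(col N q'.out).2) * hu - ((u'⁻¹ : (ZMod N)ˣ) : ZMod N) * e2
      have hq : q = q' := by
        have := (mk_eq_mk_iff N q.out q'.out).mpr
          ((cross_eq_zero_iff (isPrim_col N _) (isPrim_col N _)).mpr ⟨_, h1⟩)
        rwa [QuotientGroup.out_eq', QuotientGroup.out_eq'] at this
      subst hq
      have hu : u = u' := (isPrim_col N q.out).unit_eq h'
      rw [hu]
    · rintro ⟨v, hv⟩
      obtain ⟨g, rfl⟩ := exists_col_eq N v hv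
      have h0 : ((QuotientGroup.mk g : SL(2, ℤ) ⧸ Gamma0 N).out : SL(2, ℤ) ⧸ Gamma0 N)
          = QuotientGroup.mk g := QuotientGroup.out_eq' _
      obtain ⟨u, hu⟩ := (cross_eq_zero_iff (isPrim_col N _) (isPrim_col N _)).mp
        ((mk_eq_mk_iff N _ g).mp h0)
      exact ⟨⟨QuotientGroup.mk g, u⟩, Subtype.ext hu.symm⟩

theorem colEquiv_apply_snd (qu : (SL(2, ℤ) ⧸ Gamma0 N) × (ZMod N)ˣ) :
    (colEquiv N qu).1.2 = (qu.2 : ZMod N) * (col N qu.1.out).2 := rfl

omit [NeZero N] in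
theorem T_pow_smul_eq_iff (k : ℕ) (q : SL(2, ℤ) ⧸ Gamma0 N) (u : (ZMod N)ˣ) :
    (ModularGroup.T ^ k) • q = q ↔
      (k : ZMod N) * ((u : ZMod N) * (col N q.out).2) ^ 2 = 0 := by
  have h := T_pow_smul_mk_eq_iff N k q.out
  rw [QuotientGroup.out_eq'] at h
  rw [h]
  have hu : ((u⁻¹ : (ZMod N)ˣ) : ZMod N) * (u : ZMod N) = 1 := Units.inv_mul u
  constructor
  · intro h0
    linear_combination (u : ZMod N) ^ 2 * h0
  · intro h0
    linear_combination ((u⁻¹ : (ZMod N)ˣ) : ZMod N) ^ 2 * h0 -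
      (k : ZMod N) * (col N q.out).2 ^ 2 * (((u⁻¹ : (ZMod N)ˣ) : ZMod N) * (u : ZMod N) + 1) * hu

open Classical in
theorem card_fixed_mul [Fintype (SL(2, ℤ) ⧸ Gamma0 N)] (k : ℕ) :
    #{q : SL(2, ℤ) ⧸ Gamma0 N | (ModularGroup.T ^ k) • q = q} * Nat.totient N =
      #{v : ZMod N × ZMod N | IsPrim v ∧ (k : ZMod N) * v.2 ^ 2 = 0} := by
  rw [← ZMod.card_units_eq_totient N, ← card_univ (α := (ZMod N)ˣ), ← card_product,
    ← filter_product_left, univ_product_univ]
  refine card_bij (fun qu _ => (colEquiv N qu).1) ?_ ?_ ?_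
  · intro qu hqu
    rw [mem_filter] at hqu ⊢
    refine ⟨mem_univ _, (colEquiv N qu).2, ?_⟩
    rw [colEquiv_apply_snd]
    exact (T_pow_smul_eq_iff N k qu.1 qu.2).mp hqu.2
  · intro a _ b _ h
    exact (colEquiv N).injective (Subtype.ext h)
  · intro v hv
    rw [mem_filter] at hv
    refine ⟨(colEquiv N).symm ⟨v, hv.2.1⟩, ?_, ?_⟩
    · rw [mem_filter]
      refine ⟨mem_univ _, ?_⟩
      rw [T_pow_smul_eq_iff N k _ ((colEquiv N).symm ⟨v, hv.2.1⟩).2, ← colEquiv_apply_snd,
        Equiv.apply_symm_apply]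
      exact hv.2.2
    · rw [Equiv.apply_symm_apply]

/-- the number of `T`-orbits on `SL(2, ℤ) ⧸ Γ₀(N)` is the number of cusps. -/
theorem card_orbits_T_aux :
    Nat.card (MulAction.orbitRel.Quotient (Subgroup.zpowers ModularGroup.T)
        (SL(2, ℤ) ⧸ Gamma0 N)) = ModularCurve.cuspCount N := by
  classical
  have : Fintype (SL(2, ℤ) ⧸ Gamma0 N) := Fintype.ofFinite _
  have hN : 0 < N := Nat.pos_of_ne_zero (NeZero.ne N)
  have hφ : 0 < Nat.totient N := Nat.totient_pos.mpr hN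
  have h0 : Nat.card (MulAction.orbitRel.Quotient (Subgroup.zpowers ModularGroup.T)
      (SL(2, ℤ) ⧸ Gamma0 N)) =
      Scott.orbCount (MulAction.toPerm ModularGroup.T : Equiv.Perm (SL(2, ℤ) ⧸ Gamma0 N)) :=
    Scott.orbCountAct_eq (X := SL(2, ℤ) ⧸ Gamma0 N) ModularGroup.T
  rw [h0]
  have hpow : ∀ k : ℕ, (MulAction.toPerm ModularGroup.T : Equiv.Perm (SL(2, ℤ) ⧸ Gamma0 N)) ^ k =
      MulAction.toPerm (ModularGroup.T ^ k) :=
    fun k => (map_pow (MulAction.toPermHom SL(2, ℤ) (SL(2, ℤ) ⧸ Gamma0 N)) ModularGroup.T k).symm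
  have hone : (MulAction.toPerm ModularGroup.T : Equiv.Perm (SL(2, ℤ) ⧸ Gamma0 N)) ^ N = 1 := by
    rw [hpow]
    ext q
    rw [MulAction.toPerm_apply, Equiv.Perm.one_apply]
    rw [T_pow_smul_eq_iff N N q 1, ZMod.natCast_self, zero_mul]
  have hB := cyclic_burnside _ N hone
  have hcancel : N * Nat.totient N * Scott.orbCount
      (MulAction.toPerm ModularGroup.T : Equiv.Perm (SL(2, ℤ) ⧸ Gamma0 N)) =
      N * Nat.totient N * ModularCurve.cuspCount N := by
    rw [mul_right_comm, hB, sum_mul, ← total_count N]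
    refine sum_congr rfl fun k _ => ?_
    rw [hpow, ← card_fixed_mul N k]
    simp only [MulAction.toPerm_apply]
  exact Nat.eq_of_mul_eq_mul_left (Nat.mul_pos hN hφ) hcancel

end Fermat.Agent.S24.CountCusp

namespace Fermat.Agent.S24.Count

open ModularCurve CongruenceSubgroup

theorem card_orbits_T (N : ℕ) [NeZero N] :
    Nat.card (MulAction.orbitRel.Quotient (Subgroup.zpowers ModularGroup.T)
        (SL(2, ℤ) ⧸ Gamma0 N)) = cuspCount N :=
  CountCusp.card_orbits_T_aux N

end Fermat.Agent.S24.Count
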