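import Mathlib
import Fermat.Prelude.Def_ModularCurve_GenusNumerics
import Fermat.Agent.S24_CountModel

set_option autoImplicit false

/-!
# S24: fixed points of `S` and `S T` on the cosets of `Γ₀(N)`, and the orbit counts
-/

open Matrix Matrix.SpecialLinearGroup CongruenceSubgroup ModularCurve
open scoped MatrixGroups

namespace Fermat.Agent.S24.CountFix

open Fermat.Agent.S24.CountModel

section Fixed

variable (N : ℕ) [NeZero N]

omit [NeZero N] in
theorem smul_mk (M g : SL(2, ℤ)) :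
    M • (QuotientGroup.mk g : SL(2, ℤ) ⧸ Gamma0 N) = QuotientGroup.mk (M * g) := rfl

/-- The fixed points of `M` (with upper right entry `-1`) on the cosets of `Γ₀(N)` are in
bijection with the roots of a quadratic polynomial modulo `N`. -/
theorem card_fixedBy (M : SL(2, ℤ)) (hq : M 0 1 = -1) :
    Nat.card (MulAction.fixedBy (SL(2, ℤ) ⧸ Gamma0 N) M)
      = Nat.card {x : ZMod N // x ^ 2 + (((M 1 1 : ℤ) : ZMod N) - ((M 0 0 : ℤ) : ZMod N)) * x
          + ((M 1 0 : ℤ) : ZMod N) = 0} := by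
  have hq' : ((M 0 1 : ℤ) : ZMod N) = -1 := by rw [hq]; simp
  have hcast : ∀ x : ZMod N, (((x.val : ℕ) : ℤ) : ZMod N) = x := fun x => by
    rw [Int.cast_natCast, ZMod.natCast_zmod_val]
  have key : ∀ t : ZMod N, ∀ g : SL(2, ℤ), col N g = (1, t) →
      (M • (QuotientGroup.mk g : SL(2, ℤ) ⧸ Gamma0 N) = QuotientGroup.mk g ↔
        t ^ 2 + (((M 1 1 : ℤ) : ZMod N) - ((M 0 0 : ℤ) : ZMod N)) * t
          + ((M 1 0 : ℤ) : ZMod N) = 0) := by
    intro t g hg
    rw [smul_mk, mk_eq_mk_iff, col_mul, hg, hq']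
    simp only [cross]
    constructor
    · intro h; linear_combination -h
    · intro h; linear_combination -h
  symm
  refine Nat.card_congr (Equiv.ofBijective
    (fun x : {x : ZMod N // x ^ 2 + (((M 1 1 : ℤ) : ZMod N) - ((M 0 0 : ℤ) : ZMod N)) * x
          + ((M 1 0 : ℤ) : ZMod N) = 0} =>
      (⟨QuotientGroup.mk (lowerU ((x.1.val : ℕ) : ℤ)), ?_⟩ :
        MulAction.fixedBy (SL(2, ℤ) ⧸ Gamma0 N) M)) ⟨?_, ?_⟩)
  · rw [MulAction.mem_fixedBy]
    refine (key x.1 _ ?_).mpr x.2
    rw [col_lowerU, hcast]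
  · rintro ⟨x, hx⟩ ⟨x', hx'⟩ h
    have h1 := congrArg Subtype.val h
    simp only at h1
    rw [mk_eq_mk_iff, col_lowerU, col_lowerU, hcast, hcast] at h1
    simp only [cross] at h1
    apply Subtype.ext
    simp only
    linear_combination -h1
  · rintro ⟨q, hqf⟩
    obtain ⟨g, rfl⟩ := QuotientGroup.mk_surjective q
    rw [MulAction.mem_fixedBy, smul_mk, mk_eq_mk_iff, col_mul, hq'] at hqf
    obtain ⟨x, y, hxy⟩ := isPrim_col N g
    set a := (col N g).1 with ha
    set c := (col N g).2 with hc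
    set p := ((M 0 0 : ℤ) : ZMod N) with hp
    set r := ((M 1 0 : ℤ) : ZMod N) with hr
    set s := ((M 1 1 : ℤ) : ZMod N) with hs
    have H : (p * a + -1 * c) * c - (r * a + s * c) * a = 0 := hqf
    set b := x ^ 2 * a + 2 * x * y * c + y ^ 2 * (p * c - r * a - s * c) with hb
    have hab : a * b = 1 := by
      rw [hb]
      linear_combination (x * a + y * c + 1) * hxy + y ^ 2 * H
    have hquad : (c * b) ^ 2 + (s - p) * (c * b) + r = 0 := by
      linear_combination (-(b ^ 2)) * H + (-(s - p) * c * b - r * (a * b + 1)) * hab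
    have hcoset : (QuotientGroup.mk (lowerU (((c * b).val : ℕ) : ℤ)) : SL(2, ℤ) ⧸ Gamma0 N)
        = QuotientGroup.mk g := by
      rw [mk_eq_mk_iff, col_lowerU, hcast]
      simp only [cross]
      rw [← ha, ← hc]
      linear_combination (-c) * hab
    exact ⟨⟨c * b, hquad⟩, Subtype.ext hcoset⟩

theorem card_fixedBy_S :
    Nat.card (MulAction.fixedBy (SL(2, ℤ) ⧸ Gamma0 N) ModularGroup.S) = nuTwo N := by
  rw [card_fixedBy N ModularGroup.S (by simp [ModularGroup.S]), nuTwo]
  refine Nat.card_congr (Equiv.subtypeEquivRight fun x => ?_)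
  simp [ModularGroup.S]

theorem card_fixedBy_ST :
    Nat.card (MulAction.fixedBy (SL(2, ℤ) ⧸ Gamma0 N) (ModularGroup.S * ModularGroup.T))
      = nuThree N := by
  rw [card_fixedBy N (ModularGroup.S * ModularGroup.T)
    (by simp [ModularGroup.S, ModularGroup.T, Matrix.mul_apply, Fin.sum_univ_two]), nuThree]
  refine Nat.card_congr (Equiv.subtypeEquivRight fun x => ?_)
  simp [ModularGroup.S, ModularGroup.T, Matrix.mul_apply, Fin.sum_univ_two]

end Fixed

section Burnside

/-- Burnside's lemma for a cyclic group generated by an element of finite order. -/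
theorem cyclic_burnside {G X : Type*} [Group G] [MulAction G X] [Finite X] (g : G) (n : ℕ)
    (hn : orderOf g = n) (hpos : 0 < n) :
    n * Nat.card (MulAction.orbitRel.Quotient (Subgroup.zpowers g) X)
      = ∑ i ∈ Finset.range n, Nat.card (MulAction.fixedBy X (g ^ i)) := by
  classical
  have hfin : IsOfFinOrder g := by rw [← orderOf_pos_iff]; omega
  have : Finite (Subgroup.zpowers g) := Nat.finite_of_card_ne_zero (by
    rw [Nat.card_zpowers]; omega)
  let _ := Fintype.ofFinite X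
  let _ := Fintype.ofFinite (Subgroup.zpowers g)
  let _ : Fintype (MulAction.orbitRel.Quotient (Subgroup.zpowers g) X) := Fintype.ofFinite _
  let _ : ∀ a : Subgroup.zpowers g, Fintype (MulAction.fixedBy X a) := fun a => Fintype.ofFinite _
  have hB := MulAction.sum_card_fixedBy_eq_card_orbits_mul_card_group (Subgroup.zpowers g) X
  have hcard : Fintype.card (Subgroup.zpowers g) = n := by
    rw [← Nat.card_eq_fintype_card, Nat.card_zpowers, hn]
  rw [hcard] at hB
  rw [Nat.card_eq_fintype_card, mul_comm, ← hB]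
  subst hn
  rw [← Fin.sum_univ_eq_sum_range (fun i => Nat.card (MulAction.fixedBy X (g ^ i))) (orderOf g)]
  rw [← (finEquivZPowers hfin).sum_comp]
  refine Finset.sum_congr rfl fun i _ => ?_
  rw [← Nat.card_eq_fintype_card, finEquivZPowers_apply]
  rfl

end Burnside

section Orbits

variable (N : ℕ) [NeZero N]

omit [NeZero N] in
theorem neg_one_smul (q : SL(2, ℤ) ⧸ Gamma0 N) : (-1 : SL(2, ℤ)) • q = q := by
  obtain ⟨g, rfl⟩ := QuotientGroup.mk_surjective q
  rw [smul_mk, mk_eq_mk_iff, col_mul]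
  simp only [cross]
  simp
  ring

omit [NeZero N] in
theorem fixedBy_neg_one_mul (M : SL(2, ℤ)) :
    MulAction.fixedBy (SL(2, ℤ) ⧸ Gamma0 N) (-1 * M) = MulAction.fixedBy _ M := by
  ext q
  simp only [MulAction.mem_fixedBy]
  rw [mul_smul, neg_one_smul]

omit [NeZero N] in
theorem card_fixedBy_neg_one :
    Nat.card (MulAction.fixedBy (SL(2, ℤ) ⧸ Gamma0 N) (-1 : SL(2, ℤ)))
      = Nat.card (SL(2, ℤ) ⧸ Gamma0 N) := by
  have : MulAction.fixedBy (SL(2, ℤ) ⧸ Gamma0 N) (-1 : SL(2, ℤ)) = Set.univ := by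
    ext q
    simp only [MulAction.mem_fixedBy, Set.mem_univ, iff_true]
    exact neg_one_smul N q
  rw [this]
  exact Nat.card_congr (Equiv.Set.univ _)

omit [NeZero N] in
theorem card_fixedBy_one :
    Nat.card (MulAction.fixedBy (SL(2, ℤ) ⧸ Gamma0 N) (1 : SL(2, ℤ)))
      = Nat.card (SL(2, ℤ) ⧸ Gamma0 N) := by
  rw [MulAction.fixedBy_one_eq_univ]
  exact Nat.card_congr (Equiv.Set.univ _)

theorem S_sq : ModularGroup.S ^ 2 = (-1 : SL(2, ℤ)) := by
  ext i j
  fin_cases i <;> fin_cases j <;>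
    simp [pow_two, ModularGroup.S, Matrix.mul_apply, Fin.sum_univ_two]

theorem ST_cube : (ModularGroup.S * ModularGroup.T) ^ 3 = (-1 : SL(2, ℤ)) := by
  ext i j
  fin_cases i <;> fin_cases j <;>
    simp [pow_succ, ModularGroup.S, ModularGroup.T, Matrix.mul_apply, Fin.sum_univ_two]

theorem neg_one_ne_one : (-1 : SL(2, ℤ)) ≠ 1 := by
  intro h
  have := congrArg (fun g : SL(2, ℤ) => g 0 0) h
  simp at this

theorem orderOf_S : orderOf ModularGroup.S = 4 := by
  refine orderOf_eq_of_pow_and_pow_div_prime (by norm_num) ?_ ?_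
  · rw [show (4 : ℕ) = 2 * 2 from rfl, pow_mul, S_sq]; simp
  · intro p hp hp4
    have hp2 : p = 2 := by
      have := (Nat.prime_dvd_prime_iff_eq hp Nat.prime_two).mp
        (hp.dvd_of_dvd_pow (show p ∣ 2 ^ 2 by simpa using hp4))
      exact this
    subst hp2
    rw [show (4 / 2 : ℕ) = 2 from rfl, S_sq]
    exact neg_one_ne_one

theorem ST_sq_ne_one : (ModularGroup.S * ModularGroup.T) ^ 2 ≠ 1 := by
  intro h
  have := congrArg (fun g : SL(2, ℤ) => g 0 0) h
  simp [pow_two, ModularGroup.S, ModularGroup.T, Matrix.mul_apply, Fin.sum_univ_two] at this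

theorem orderOf_ST : orderOf (ModularGroup.S * ModularGroup.T) = 6 := by
  refine orderOf_eq_of_pow_and_pow_div_prime (by norm_num) ?_ ?_
  · rw [show (6 : ℕ) = 3 * 2 from rfl, pow_mul, ST_cube]; simp
  · intro p hp hp6
    have hp23 : p = 2 ∨ p = 3 := by
      have h6 : p ∣ 2 * 3 := by simpa using hp6
      rcases (Nat.Prime.dvd_mul hp).mp h6 with h | h
      · exact Or.inl ((Nat.prime_dvd_prime_iff_eq hp Nat.prime_two).mp h)
      · exact Or.inr ((Nat.prime_dvd_prime_iff_eq hp Nat.prime_three).mp h)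
    rcases hp23 with rfl | rfl
    · rw [show (6 / 2 : ℕ) = 3 from rfl, ST_cube]
      exact neg_one_ne_one
    · rw [show (6 / 3 : ℕ) = 2 from rfl]
      exact ST_sq_ne_one

/-- `2 * #(⟨S⟩-orbits) = #cosets + #Fix(S)`. -/
theorem two_mul_card_orbits_S' :
    2 * Nat.card (MulAction.orbitRel.Quotient (Subgroup.zpowers ModularGroup.S)
        (SL(2, ℤ) ⧸ Gamma0 N)) = Nat.card (SL(2, ℤ) ⧸ Gamma0 N) + nuTwo N := by
  have hB := cyclic_burnside (X := SL(2, ℤ) ⧸ Gamma0 N) ModularGroup.S 4 orderOf_S (by norm_num)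
  have h3 : ModularGroup.S ^ 3 = -1 * ModularGroup.S := by
    rw [pow_succ, S_sq]
  rw [Finset.sum_range_succ, Finset.sum_range_succ, Finset.sum_range_succ, Finset.sum_range_succ,
    Finset.sum_range_zero, pow_zero, pow_one, S_sq, h3, fixedBy_neg_one_mul, card_fixedBy_one,
    card_fixedBy_neg_one, card_fixedBy_S] at hB
  have hB' : 4 * Nat.card (MulAction.orbitRel.Quotient (Subgroup.zpowers ModularGroup.S)
      (SL(2, ℤ) ⧸ Gamma0 N))
      = 0 + Nat.card (SL(2, ℤ) ⧸ Gamma0 N) + nuTwo N + Nat.card (SL(2, ℤ) ⧸ Gamma0 N)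
        + nuTwo N := hB
  omega

/-- `3 * #(⟨ST⟩-orbits) = #cosets + 2 * #Fix(ST)`. -/
theorem three_mul_card_orbits_ST' :
    3 * Nat.card (MulAction.orbitRel.Quotient
        (Subgroup.zpowers (ModularGroup.S * ModularGroup.T)) (SL(2, ℤ) ⧸ Gamma0 N))
      = Nat.card (SL(2, ℤ) ⧸ Gamma0 N) + 2 * nuThree N := by
  have hB := cyclic_burnside (X := SL(2, ℤ) ⧸ Gamma0 N) (ModularGroup.S * ModularGroup.T) 6
    orderOf_ST (by norm_num)
  set U := ModularGroup.S * ModularGroup.T with hU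
  have h2 : U ^ 2 = -1 * U⁻¹ := by
    rw [← ST_cube, pow_succ U 2, mul_inv_cancel_right]
  have h4 : U ^ 4 = -1 * U := by
    rw [pow_succ U 3, ST_cube]
  have h5 : U ^ 5 = -1 * (-1 * U⁻¹) := by
    rw [show (5 : ℕ) = 3 + 2 from rfl, pow_add, ST_cube, h2]
  rw [Finset.sum_range_succ, Finset.sum_range_succ, Finset.sum_range_succ, Finset.sum_range_succ,
    Finset.sum_range_succ, Finset.sum_range_succ, Finset.sum_range_zero, pow_zero, pow_one,
    ST_cube, h2, h4, h5, fixedBy_neg_one_mul, fixedBy_neg_one_mul, fixedBy_neg_one_mul,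
    fixedBy_neg_one_mul, MulAction.fixedBy_inv, card_fixedBy_one, card_fixedBy_neg_one,
    card_fixedBy_ST] at hB
  have hB' : 6 * Nat.card (MulAction.orbitRel.Quotient
      (Subgroup.zpowers U) (SL(2, ℤ) ⧸ Gamma0 N))
      = 0 + Nat.card (SL(2, ℤ) ⧸ Gamma0 N) + nuThree N + nuThree N
        + Nat.card (SL(2, ℤ) ⧸ Gamma0 N) + nuThree N + nuThree N := hB
  omega

end Orbits

end Fermat.Agent.S24.CountFix
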