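import Mathlib
import Fermat.Prelude.Def_ModularCurve_GenusNumerics
import Fermat.Agent.S24_CountIndex
import Fermat.Agent.S24_CountFix

set_option autoImplicit false

/-!
# S24: the numbers of orbits of `S` and `S T` on the cosets of `Γ₀(N)`
-/

open scoped MatrixGroups

namespace Fermat.Agent.S24.Count

open ModularCurve CongruenceSubgroup

theorem two_mul_card_orbits_S (N : ℕ) [NeZero N] :
    2 * Nat.card (MulAction.orbitRel.Quotient (Subgroup.zpowers ModularGroup.S)
        (SL(2, ℤ) ⧸ Gamma0 N)) = dedekindPsi N + nuTwo N := by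
  rw [← card_quotient N]
  exact Fermat.Agent.S24.CountFix.two_mul_card_orbits_S' N

theorem three_mul_card_orbits_ST (N : ℕ) [NeZero N] :
    3 * Nat.card (MulAction.orbitRel.Quotient
        (Subgroup.zpowers (ModularGroup.S * ModularGroup.T)) (SL(2, ℤ) ⧸ Gamma0 N))
      = dedekindPsi N + 2 * nuThree N := by
  rw [← card_quotient N]
  exact Fermat.Agent.S24.CountFix.three_mul_card_orbits_ST' N

end Fermat.Agent.S24.Count
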