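import Mathlib
import Fermat.Agent.S24_Places

set_option autoImplicit false
set_option linter.unusedSectionVars false
set_option linter.unusedVariables false

/-!
# S24 (M3): Galois counting of places

`Γ` acts on a field `L ⊇ F ⊇ K(x)` through a finite quotient, with `L^Γ = K(x)`.
* `isGenerator_of_action`: `F` is finite over `K(x)`.
* `finrank_eq_card_quotient`: `[F : K(x)] = [Γ : H]`, `H` the subgroup fixing `F`.
* `card_placesAt_eq_card_orbits`: the places of `F` over `x = x₀` are counted by the orbits of a
  decomposition group `⟨c⟩` on `Γ ⧸ H`.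
-/

noncomputable section

open AlgebraicCurve
open scoped Pointwise IntermediateField.algebraAdjoinAdjoin

namespace Fermat.Agent.S24.Galois

section Group

variable (K L Γ : Type*) [Field K] [Field L] [Algebra K L]
  [Group Γ] [MulSemiringAction Γ L] [SMulCommClass Γ K L]

/-- The image of `Γ` in the group of `K`-algebra automorphisms of `L`. -/
def imageGroup : Subgroup (L ≃ₐ[K] L) := (MulSemiringAction.toAlgAut Γ K L).range

/-- The surjection from `Γ` onto its image. -/
def toImage : Γ →* imageGroup K L Γ := (MulSemiringAction.toAlgAut Γ K L).rangeRestrict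

variable {K L Γ}

theorem toImage_surjective : Function.Surjective (toImage K L Γ) :=
  (MulSemiringAction.toAlgAut Γ K L).rangeRestrict_surjective

theorem toImage_smul (γ : Γ) (y : L) : toImage K L Γ γ • y = γ • y := rfl

theorem toImage_eq_one_iff (γ : Γ) : toImage K L Γ γ = 1 ↔ ∀ y : L, γ • y = y := by
  constructor
  · intro h y
    have h1 := toImage_smul (K := K) γ y
    rw [h, one_smul] at h1
    exact h1.symm
  · intro h
    apply Subtype.ext
    apply AlgEquiv.ext
    intro y
    exact h y

theorem finite_imageGroup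
    (hker : ∃ Γ₀ : Subgroup Γ, Γ₀.FiniteIndex ∧ ∀ γ ∈ Γ₀, ∀ y : L, γ • y = y) :
    Finite (imageGroup K L Γ) := by
  obtain ⟨Γ₀, hΓ₀, h⟩ := hker
  have hle : Γ₀ ≤ (toImage K L Γ).ker := fun γ hγ =>
    (MonoidHom.mem_ker).mpr ((toImage_eq_one_iff γ).mpr (h γ hγ))
  have : (toImage K L Γ).ker.FiniteIndex := Subgroup.finiteIndex_of_le hle
  have : Finite (Γ ⧸ (toImage K L Γ).ker) := Subgroup.finite_quotient_of_finiteIndex
  refine Finite.of_surjective (QuotientGroup.kerLift (toImage K L Γ)) fun g => ?_
  obtain ⟨γ, rfl⟩ := toImage_surjective g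
  exact ⟨QuotientGroup.mk γ, rfl⟩

end Group

section Field

variable {K F L Γ : Type*} [Field K] [Field F] [Algebra K F]
  [Field L] [Algebra K L] [Algebra F L] [IsScalarTower K F L]
  [Group Γ] [MulSemiringAction Γ L] [SMulCommClass Γ K L]

/-- Elements of `K(x_L) ⊆ L` come from `K(x) ⊆ F`. -/
theorem exists_algebraMap_eq_of_mem_adjoin (x : F) {y : L}
    (hy : y ∈ IntermediateField.adjoin K {algebraMap F L x}) :
    ∃ e : IntermediateField.adjoin K {x},
      algebraMap (IntermediateField.adjoin K {x}) L e = y := by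
  have h : IntermediateField.adjoin K {algebraMap F L x}
      = (IntermediateField.adjoin K {x}).map (IsScalarTower.toAlgHom K F L) := by
    rw [IntermediateField.adjoin_map, Set.image_singleton]
    rfl
  rw [h] at hy
  obtain ⟨e, he, rfl⟩ := hy
  exact ⟨⟨e, he⟩, rfl⟩

/-- The image of `K(x)` in `L` lands in `K(x_L)`. -/
theorem algebraMap_mem_adjoin (x : F) (e : IntermediateField.adjoin K {x}) :
    algebraMap (IntermediateField.adjoin K {x}) L e
      ∈ IntermediateField.adjoin K {algebraMap F L x} := by
  have h : IntermediateField.adjoin K {algebraMap F L x}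
      = (IntermediateField.adjoin K {x}).map (IsScalarTower.toAlgHom K F L) := by
    rw [IntermediateField.adjoin_map, Set.image_singleton]
    rfl
  rw [h]
  exact ⟨e, e.2, rfl⟩

/-- `Γ` fixes the image of `K(x)` in `L` as soon as it fixes `x`. -/
theorem smul_algebraMap_adjoin (x : F)
    (hxfix : ∀ γ : Γ, γ • algebraMap F L x = algebraMap F L x)
    (γ : Γ) (e : IntermediateField.adjoin K {x}) :
    γ • algebraMap (IntermediateField.adjoin K {x}) L e
      = algebraMap (IntermediateField.adjoin K {x}) L e := by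
  have hle : IntermediateField.adjoin K {algebraMap F L x}
      ≤ FixedPoints.intermediateField (F := K) (E := L) Γ := by
    rw [IntermediateField.adjoin_le_iff]
    rintro _ rfl
    exact fun γ => hxfix γ
  exact hle (algebraMap_mem_adjoin x e) γ

theorem isGenerator_of_action_aux (x : F)
    (hfix : ∀ y : L, (∀ γ : Γ, γ • y = y) → y ∈ IntermediateField.adjoin K {algebraMap F L x})
    (hker : ∃ Γ₀ : Subgroup Γ, Γ₀.FiniteIndex ∧ ∀ γ ∈ Γ₀, ∀ y : L, γ • y = y) :
    FiniteDimensional (IntermediateField.adjoin K {x}) F := by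
  have := finite_imageGroup (K := K) hker
  have hfin : FiniteDimensional (FixedPoints.subfield (imageGroup K L Γ) L) L := inferInstance
  obtain ⟨s, hs⟩ := hfin.fg_top
  have hE : FiniteDimensional (IntermediateField.adjoin K {x}) L := by
    refine ⟨⟨s, ?_⟩⟩
    rw [eq_top_iff]
    rintro l -
    have hl : l ∈ Submodule.span (FixedPoints.subfield (imageGroup K L Γ) L) (s : Set L) := by
      rw [hs]; trivial
    induction hl using Submodule.span_induction with
    | mem y hy => exact Submodule.subset_span hy
    | zero => exact Submodule.zero_mem _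
    | add y z _ _ hy hz => exact Submodule.add_mem _ hy hz
    | smul c y _ hy =>
      obtain ⟨e, he⟩ := exists_algebraMap_eq_of_mem_adjoin x
        (hfix (c : L) fun γ => c.2 (toImage K L Γ γ))
      have : c • y = e • y := by
        rw [Algebra.smul_def e y, he]
        rfl
      rw [this]
      exact Submodule.smul_mem _ e hy
  exact FiniteDimensional.of_injective
    (IsScalarTower.toAlgHom (IntermediateField.adjoin K {x}) F L).toLinearMap
    (algebraMap F L).injective

/-- The image of `Γ` is a Galois group for `L / K(x)`. -/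
theorem isGaloisGroup_imageGroup (x : F)
    (hfix : ∀ y : L, (∀ γ : Γ, γ • y = y) → y ∈ IntermediateField.adjoin K {algebraMap F L x})
    (hxfix : ∀ γ : Γ, γ • algebraMap F L x = algebraMap F L x) :
    IsGaloisGroup (imageGroup K L Γ) (IntermediateField.adjoin K {x}) L where
  faithful := inferInstance
  commutes := ⟨fun g e l => by
    obtain ⟨γ, rfl⟩ := toImage_surjective g
    rw [Algebra.smul_def, Algebra.smul_def, smul_mul']
    congr 1
    exact smul_algebraMap_adjoin x hxfix γ e⟩
  isInvariant := ⟨fun y hy =>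
    exists_algebraMap_eq_of_mem_adjoin x (hfix y fun γ => hy (toImage K L Γ γ))⟩

/-- The subgroup of the image of `Γ` fixing `F`. -/
def fixF (K F L Γ : Type*) [Field K] [Field F] [Field L] [Algebra K L] [Algebra F L]
    [Group Γ] [MulSemiringAction Γ L] [SMulCommClass Γ K L] : Subgroup (imageGroup K L Γ) :=
  fixingSubgroup (imageGroup K L Γ) (Set.range (algebraMap F L))

theorem mem_fixF_iff (g : imageGroup K L Γ) :
    g ∈ fixF K F L Γ ↔ ∀ f : F, g • algebraMap F L f = algebraMap F L f := by
  unfold fixF
  rw [mem_fixingSubgroup_iff]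
  constructor
  · intro h f
    exact h _ ⟨f, rfl⟩
  · rintro h _ ⟨f, rfl⟩
    exact h f

theorem comap_fixF (H : Subgroup Γ)
    (hH : ∀ γ : Γ, γ ∈ H ↔ ∀ f : F, γ • algebraMap F L f = algebraMap F L f) :
    H = (fixF K F L Γ).comap (toImage K L Γ) := by
  ext γ
  rw [hH, Subgroup.mem_comap, mem_fixF_iff]
  rfl

theorem finrank_eq_card_quotient_aux (x : F)
    (hfix : ∀ y : L, (∀ γ : Γ, γ • y = y) → y ∈ IntermediateField.adjoin K {algebraMap F L x})
    (hxfix : ∀ γ : Γ, γ • algebraMap F L x = algebraMap F L x)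
    (hker : ∃ Γ₀ : Subgroup Γ, Γ₀.FiniteIndex ∧ ∀ γ ∈ Γ₀, ∀ y : L, γ • y = y)
    (H : Subgroup Γ)
    (hH : ∀ γ : Γ, γ ∈ H ↔ ∀ f : F, γ • algebraMap F L f = algebraMap F L f) :
    Module.finrank (IntermediateField.adjoin K {x}) F = Nat.card (Γ ⧸ H) := by
  have := finite_imageGroup (K := K) hker
  have hG := isGaloisGroup_imageGroup x hfix hxfix
  have hH' : IsGaloisGroup (fixF K F L Γ) F L :=
    IsGaloisGroup.of_isScalarTower (imageGroup K L Γ) (IntermediateField.adjoin K {x}) L F
  have h1 := IsGaloisGroup.card_eq_finrank (imageGroup K L Γ) (IntermediateField.adjoin K {x}) L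
  have h2 := IsGaloisGroup.card_eq_finrank (fixF K F L Γ) F L
  have h3 := Module.finrank_mul_finrank (IntermediateField.adjoin K {x}) F L
  have h4 := Subgroup.card_mul_index (fixF K F L Γ)
  have h5 : H.index = (fixF K F L Γ).index := by
    rw [comap_fixF (K := K) H hH]
    exact Subgroup.index_comap_of_surjective _ toImage_surjective
  have hpos : 0 < Nat.card (fixF K F L Γ) := Nat.card_pos
  change _ = H.index
  rw [h5]
  rw [← h3, ← h2] at h1
  have h6 : Nat.card (fixF K F L Γ) * (fixF K F L Γ).index
      = Nat.card (fixF K F L Γ) * Module.finrank (IntermediateField.adjoin K {x}) F := by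
    rw [h4, h1, mul_comm]
  exact (Nat.eq_of_mul_eq_mul_left hpos h6).symm

end Field



section Abstract

/-- Two surjections with the same fibres have targets of the same cardinality. -/
theorem card_eq_of_surjective {α X Y : Type*} (f : α → X) (q : α → Y)
    (hf : Function.Surjective f) (hq : Function.Surjective q)
    (h : ∀ a b, f a = f b ↔ q a = q b) : Nat.card X = Nat.card Y := by
  have hker : Setoid.ker f = Setoid.ker q := Setoid.ext fun a b => h a b
  rw [← Nat.card_congr (Setoid.quotientKerEquivOfSurjective f hf),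
    ← Nat.card_congr (Setoid.quotientKerEquivOfSurjective q hq), hker]

variable {A T S : Type*} [CommRing A] [CommRing T] [CommRing S] [Algebra A T] [Algebra T S]
  [Algebra A S] [IsScalarTower A T S] [FaithfulSMul T S]
  {G : Type*} [Group G] [Finite G] [MulSemiringAction G S] [IsGaloisGroup G A S]
  (H' : Subgroup G) [IsGaloisGroup H' T S]

omit [FaithfulSMul T S] [Finite G] [IsGaloisGroup G A S] [Algebra A T] [Algebra A S]
  [IsScalarTower A T S] in
theorem under_subgroup_smul (h : G) (hh : h ∈ H') (P : Ideal S) :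
    (h • P).under T = P.under T :=
  Ideal.under_smul T P (⟨h, hh⟩ : H')

omit [FaithfulSMul T S] [IsGaloisGroup G A S] [Algebra A T] [Algebra A S]
  [IsScalarTower A T S] in
theorem exists_subgroup_smul_of_under_eq (P Q : Ideal S) [P.IsPrime] [Q.IsPrime]
    (hPQ : P.under T = Q.under T) : ∃ h ∈ H', Q = h • P := by
  obtain ⟨h, hh⟩ := Algebra.IsInvariant.exists_smul_of_under_eq T S H' P Q hPQ
  exact ⟨h, h.2, hh⟩

/-- The primes of the intermediate ring `T` over `p` are counted by the orbits of a decomposition
group on `G ⧸ H'` (double cosets), transported along a surjection `π : Γ → G`. -/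
theorem card_primesOver_eq_card_orbits
    (p : Ideal A) (P₀ : Ideal S) [P₀.IsPrime] [P₀.LiesOver p]
    {Γ : Type*} [Group Γ] (π : Γ →* G) (hπ : Function.Surjective π)
    (H : Subgroup Γ) (hH : H = H'.comap π)
    (c : Γ) (hc : MulAction.stabilizer G P₀ = Subgroup.zpowers (π c)) :
    Nat.card (p.primesOver T)
      = Nat.card (MulAction.orbitRel.Quotient (Subgroup.zpowers c) (Γ ⧸ H)) := by
  have hint : Algebra.IsIntegral T S := Algebra.IsInvariant.isIntegral T S H'
  -- the map from `Γ` to the primes
  let f : Γ → p.primesOver T := fun γ =>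
    ⟨((π γ)⁻¹ • P₀).under T, inferInstance,
      Ideal.LiesOver.tower_bot ((π γ)⁻¹ • P₀) (((π γ)⁻¹ • P₀).under T) p⟩
  let q : Γ → MulAction.orbitRel.Quotient (Subgroup.zpowers c) (Γ ⧸ H) := fun γ =>
    Quotient.mk'' (QuotientGroup.mk γ)
  have hkey : ∀ γ γ' : Γ, f γ = f γ' ↔
      ∃ d ∈ MulAction.stabilizer G P₀, (d * π γ')⁻¹ * π γ ∈ H' := by
    intro γ γ'
    constructor
    · intro hff
      have h1 : ((π γ)⁻¹ • P₀).under T = ((π γ')⁻¹ • P₀).under T := congrArg Subtype.val hff
      obtain ⟨h, hhH, hh⟩ := exists_subgroup_smul_of_under_eq H' _ _ h1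
      refine ⟨π γ * h⁻¹ * (π γ')⁻¹, ?_, ?_⟩
      · rw [MulAction.mem_stabilizer_iff, mul_smul, hh, mul_smul,
          inv_smul_smul, smul_inv_smul]
      · have : (π γ * h⁻¹ * (π γ')⁻¹ * π γ')⁻¹ * π γ = h := by group
        rw [this]
        exact hhH
    · rintro ⟨d, hd, hdh⟩
      apply Subtype.ext
      change ((π γ)⁻¹ • P₀).under T = ((π γ')⁻¹ • P₀).under T
      have h2 : (π γ)⁻¹ • P₀
          = ((d * π γ')⁻¹ * π γ)⁻¹ • ((π γ')⁻¹ • P₀) := by
        rw [← mul_smul]
        have : (π γ)⁻¹ = ((d * π γ')⁻¹ * π γ)⁻¹ * (π γ')⁻¹ * d⁻¹ := by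
          group
        rw [this, mul_smul]
        congr 1
        rw [inv_smul_eq_iff]
        exact ((MulAction.mem_stabilizer_iff).mp hd).symm
      rw [h2]
      exact under_subgroup_smul H' _ (H'.inv_mem hdh) _
  have hq : ∀ γ γ' : Γ, q γ = q γ' ↔
      ∃ z ∈ Subgroup.zpowers c, (z * γ')⁻¹ * γ ∈ H := by
    intro γ γ'
    change (Quotient.mk'' _ : MulAction.orbitRel.Quotient _ _) = Quotient.mk'' _ ↔ _
    rw [Quotient.eq'', MulAction.orbitRel_apply, MulAction.mem_orbit_iff]
    constructor
    · rintro ⟨z, hz⟩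
      refine ⟨z, z.2, ?_⟩
      have : (QuotientGroup.mk ((z : Γ) * γ') : Γ ⧸ H) = QuotientGroup.mk γ := hz
      exact QuotientGroup.eq.mp this
    · rintro ⟨z, hz, h⟩
      exact ⟨⟨z, hz⟩, QuotientGroup.eq.mpr h⟩
  refine card_eq_of_surjective f q ?_ ?_ ?_
  · rintro ⟨Q, hQ, hQp⟩
    obtain ⟨⟨P, hP, hPQ⟩⟩ := (inferInstance : Nonempty (Q.primesOver S))
    have hPp : P.LiesOver p := Ideal.LiesOver.trans P Q p
    obtain ⟨g, hg⟩ := Algebra.IsInvariant.exists_smul_of_under_eq A S G P₀ P
      ((Ideal.over_def P₀ p).symm.trans (Ideal.over_def P p))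
    obtain ⟨γ, hγ⟩ := hπ g⁻¹
    refine ⟨γ, Subtype.ext ?_⟩
    change ((π γ)⁻¹ • P₀).under T = Q
    rw [hγ, inv_inv, ← hg]
    exact (Ideal.over_def P Q).symm
  · intro y
    induction y using Quotient.inductionOn' with
    | h y =>
      obtain ⟨γ, rfl⟩ := QuotientGroup.mk_surjective y
      exact ⟨γ, rfl⟩
  · intro γ γ'
    rw [hkey, hq, hc]
    constructor
    · rintro ⟨d, hd, h⟩
      obtain ⟨n, rfl⟩ := Subgroup.mem_zpowers_iff.mp hd
      refine ⟨c ^ n, Subgroup.zpow_mem_zpowers c n, ?_⟩
      rw [hH, Subgroup.mem_comap]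
      simpa using h
    · rintro ⟨z, hz, h⟩
      obtain ⟨n, rfl⟩ := Subgroup.mem_zpowers_iff.mp hz
      refine ⟨π c ^ n, Subgroup.zpow_mem_zpowers _ n, ?_⟩
      rw [hH, Subgroup.mem_comap] at h
      simpa using h

end Abstract



section Cyclic

/-- The decomposition group at a prime with residue field the (algebraically closed, characteristic
zero) constant field is generated by any element of it of order at least the ramification
index. -/
theorem stabilizer_eq_zpowers
    {k A S : Type*} [Field k] [IsAlgClosed k] [CharZero k] [CommRing A] [CommRing S]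
    [IsDomain A] [Algebra k A] [Algebra A S]
    [Module.Finite A S] [Module.Flat A S] [IsDedekindDomain S]
    {G : Type*} [Group G] [Finite G] [MulSemiringAction G S] [IsGaloisGroup G A S]
    (p : Ideal A) [p.IsMaximal] (P : Ideal S) [P.IsPrime] [P.LiesOver p]
    (hk : ∀ a : A, ∃ c : k, a - algebraMap k A c ∈ p)
    (hpS : p.map (algebraMap A S) ≠ ⊥)
    (E : ℕ) (hE : ¬ p.map (algebraMap A S) ≤ P ^ (E + 1))
    (σ : G) (hσ : σ • P = P) (hord : ∀ n : ℕ, 0 < n → n < E → σ ^ n ≠ 1) :
    MulAction.stabilizer G P = Subgroup.zpowers σ := by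
  have hint : Algebra.IsIntegral A S := Algebra.IsIntegral.of_finite A S
  have hPmax : P.IsMaximal := Ideal.IsMaximal.of_liesOver_isMaximal P p
  -- the residue field of `p` has characteristic zero, hence is perfect
  have hchar : CharZero p.ResidueField :=
    charZero_of_injective_ringHom
      (f := (algebraMap A p.ResidueField).comp (algebraMap k A)) (RingHom.injective _)
  -- inertia degree one
  have hf : P.inertiaDeg A = 1 := by
    rw [Ideal.inertiaDeg_eq_of_isMaximal p P]
    let _ := Ideal.Quotient.field p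
    let _ := Ideal.Quotient.field P
    have h1 : ((Ideal.Quotient.mk p).comp (algebraMap k A)).IsIntegral := by
      apply RingHom.isIntegral_of_surjective
      intro z
      obtain ⟨a, rfl⟩ := Ideal.Quotient.mk_surjective z
      obtain ⟨c, hc⟩ := hk a
      refine ⟨c, ?_⟩
      rw [RingHom.comp_apply, eq_comm]
      exact Ideal.Quotient.eq.mpr hc
    have h2 : (algebraMap (A ⧸ p) (S ⧸ P)).IsIntegral := fun z =>
      Algebra.IsIntegral.isIntegral z
    have h3 := IsAlgClosed.ringHom_bijective_of_isIntegral _ (h1.trans _ _ h2)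
    rw [finrank_eq_one_iff_of_nonzero' (1 : S ⧸ P) one_ne_zero]
    intro w
    obtain ⟨c, hc⟩ := h3.2 w
    refine ⟨(Ideal.Quotient.mk p) (algebraMap k A c), ?_⟩
    rw [Algebra.smul_def, mul_one]
    exact hc
  -- ramification index at most `E`
  have he : P.ramificationIdx A ≤ E := by
    rw [← Ideal.ramificationIdx'_eq_ramificationIdx' p P hpS]
    exact Nat.lt_succ_iff.mp (Ideal.ramificationIdx'_lt hE)
  have hcard : Nat.card (MulAction.stabilizer G P) ≤ E := by
    rw [Ideal.card_stabilizer_eq (G := G) p P, Ideal.ramificationIdxIn_eq_ramificationIdx p P G,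
      Ideal.inertiaDegIn_eq_inertiaDeg p P G, hf, mul_one]
    exact he
  have hle : Subgroup.zpowers σ ≤ MulAction.stabilizer G P :=
    (Subgroup.zpowers_le).mpr (MulAction.mem_stabilizer_iff.mpr hσ)
  have hEle : E ≤ Nat.card (Subgroup.zpowers σ) := by
    rw [Nat.card_zpowers]
    by_contra hlt
    exact hord (orderOf σ) (orderOf_pos σ) (not_le.mp hlt) (pow_orderOf_eq_one σ)
  exact (Subgroup.eq_of_le_of_card_ge hle (hcard.trans hEle)).symm

end Cyclic



section Val

variable {K L : Type*} [Field K] [Field L] [Algebra K L] (w : IntVal K L)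

theorem w_one : w.toFun 1 = 0 := by
  simpa using w.map_algebraMap' 1 one_ne_zero

theorem w_neg_one : w.toFun (-1) = 0 := by
  simpa using w.map_algebraMap' (-1) (neg_ne_zero.mpr one_ne_zero)

theorem w_neg {y : L} (hy : y ≠ 0) : w.toFun (-y) = w.toFun y := by
  rw [← neg_one_mul, w.map_mul' _ _ (neg_ne_zero.mpr one_ne_zero) hy, w_neg_one, zero_add]

theorem w_pow {y : L} (hy : y ≠ 0) (n : ℕ) : w.toFun (y ^ n) = n * w.toFun y := by
  induction n with
  | zero => simp [w_one]
  | succ n ih =>
    rw [pow_succ, w.map_mul' _ _ (pow_ne_zero n hy) hy, ih]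
    push_cast
    ring

/-- The elements of valuation at least `m` (together with `0`). -/
def valGE (m : ℤ) : AddSubgroup L where
  carrier := {y | y = 0 ∨ m ≤ w.toFun y}
  zero_mem' := Or.inl rfl
  add_mem' := by
    rintro a b (rfl | ha) (rfl | hb)
    · left; simp
    · right; simpa using hb
    · right; simpa using ha
    · by_cases ha0 : a = 0
      · subst ha0; right; simpa using hb
      by_cases hb0 : b = 0
      · subst hb0; right; simpa using ha
      by_cases hab : a + b = 0
      · left; exact hab
      · right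
        exact (le_min ha hb).trans (w.map_add' a b ha0 hb0 hab)
  neg_mem' := by
    rintro a (rfl | ha)
    · left; simp
    · by_cases ha0 : a = 0
      · left; simp [ha0]
      · right
        change m ≤ w.toFun (-a)
        rw [w_neg w ha0]; exact ha

theorem mem_valGE {m : ℤ} {y : L} : y ∈ valGE w m ↔ y = 0 ∨ m ≤ w.toFun y := Iff.rfl

theorem mul_mem_valGE {m n : ℤ} {a b : L} (ha : a ∈ valGE w m) (hb : b ∈ valGE w n) :
    a * b ∈ valGE w (m + n) := by
  by_cases ha0 : a = 0
  · left; simp [ha0]
  by_cases hb0 : b = 0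
  · left; simp [hb0]
  right
  rcases ha with ha | ha
  · exact absurd ha ha0
  rcases hb with hb | hb
  · exact absurd hb hb0
  rw [w.map_mul' a b ha0 hb0]
  exact add_le_add ha hb

theorem algebraMap_mem_valGE (k : K) : algebraMap K L k ∈ valGE w 0 := by
  by_cases hk : k = 0
  · left; simp [hk]
  · right; rw [w.map_algebraMap' k hk]

/-- The valuation ring of `w`. -/
def valRing : Subalgebra K L where
  carrier := {y | y ∈ valGE w 0}
  mul_mem' := fun {a b} ha hb => by simpa using mul_mem_valGE w ha hb
  add_mem' := fun {a b} ha hb => (valGE w 0).add_mem ha hb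
  algebraMap_mem' := algebraMap_mem_valGE w

theorem mem_valRing {y : L} : y ∈ valRing w ↔ y ∈ valGE w 0 := Iff.rfl

/-- The valuation ring is integrally closed in `L`: anything integral over a ring mapping into it
lies in it. -/
theorem mem_valGE_zero_of_isIntegral {R : Type*} [CommRing R] [Algebra R L]
    (hR : ∀ r : R, algebraMap R L r ∈ valGE w 0) {b : L} (hb : IsIntegral R b) :
    b ∈ valGE w 0 := by
  by_cases hb0 : b = 0
  · left; exact hb0
  right
  by_contra hneg
  rw [not_le] at hneg
  obtain ⟨g, hg, hgb⟩ := hb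
  rw [Polynomial.eval₂_eq_sum_range, Finset.sum_range_succ, hg.coeff_natDegree, map_one,
    one_mul] at hgb
  have hterm : ∀ i ∈ Finset.range g.natDegree,
      algebraMap R L (g.coeff i) * b ^ i ∈ valGE w (g.natDegree * w.toFun b + 1) := by
    intro i hi
    have hi' : i < g.natDegree := Finset.mem_range.mp hi
    have h1 : algebraMap R L (g.coeff i) * b ^ i ∈ valGE w (0 + i * w.toFun b) := by
      refine mul_mem_valGE w (hR _) ?_
      right
      rw [w_pow w hb0]
    refine (valGE w _).mem_carrier.mpr ?_
    rcases h1 with h1 | h1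
    · left; exact h1
    · right
      refine le_trans ?_ h1
      have h2 : (i : ℤ) + 1 ≤ g.natDegree := by exact_mod_cast hi'
      nlinarith
  have hsum := (valGE w (g.natDegree * w.toFun b + 1)).sum_mem hterm
  have hpow : b ^ g.natDegree
      = -∑ i ∈ Finset.range g.natDegree, algebraMap R L (g.coeff i) * b ^ i := by
    rw [eq_neg_iff_add_eq_zero, add_comm]
    exact hgb
  have hmem : b ^ g.natDegree ∈ valGE w (g.natDegree * w.toFun b + 1) := by
    rw [hpow]
    exact (valGE w _).neg_mem hsum
  rcases hmem with h | h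
  · exact pow_ne_zero _ hb0 h
  · rw [w_pow w hb0] at h
    omega

variable {R : Type*} [CommRing R] [Algebra R L] (S : Subalgebra R L)
  (hS : ∀ b : S, (b : L) ∈ valGE w 0)

/-- The ideal of elements of valuation at least `n` in a subring of the valuation ring. -/
def valIdeal (n : ℕ) : Ideal S where
  carrier := {b | (b : L) ∈ valGE w n}
  add_mem' := fun {a b} ha hb => (valGE w n).add_mem ha hb
  zero_mem' := (valGE w n).zero_mem
  smul_mem' := fun c b hb => by
    have := mul_mem_valGE w (hS c) hb
    simpa using this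

theorem mem_valIdeal {n : ℕ} {b : S} : b ∈ valIdeal w S hS n ↔ (b : L) ∈ valGE w n := Iff.rfl

theorem valIdeal_one_isPrime : (valIdeal w S hS 1).IsPrime := by
  refine ⟨?_, ?_⟩
  · intro htop
    have h1 : (1 : S) ∈ valIdeal w S hS 1 := htop ▸ Submodule.mem_top
    rcases h1 with h | h
    · exact one_ne_zero h
    · have : w.toFun ((1 : S) : L) = 0 := w_one w
      rw [this] at h
      norm_num at h
  · intro a b hab
    by_cases ha0 : (a : L) = 0
    · left; left; exact ha0
    by_cases hb0 : (b : L) = 0
    · right; left; exact hb0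
    have ha := hS a
    have hb := hS b
    rcases ha with ha | ha
    · exact absurd ha ha0
    rcases hb with hb | hb
    · exact absurd hb hb0
    rcases hab with hab | hab
    · exact absurd hab (mul_ne_zero ha0 hb0)
    · have hab' : (1 : ℤ) ≤ w.toFun ((a : L) * (b : L)) := hab
      rw [w.map_mul' _ _ ha0 hb0] at hab'
      by_cases h1 : 1 ≤ w.toFun (a : L)
      · left; right; exact h1
      · right; right
        push_cast
        omega

theorem valIdeal_one_pow_le (n : ℕ) : valIdeal w S hS 1 ^ n ≤ valIdeal w S hS n := by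
  induction n with
  | zero =>
    intro b _
    exact hS b
  | succ n ih =>
    rw [pow_succ]
    refine Ideal.mul_le.mpr fun r hr s hs => ?_
    have := mul_mem_valGE w (ih hr) hs
    change ((r : L) * (s : L)) ∈ valGE w ((n + 1 : ℕ) : ℤ)
    push_cast
    exact this

end Val



section Ring

variable {K F : Type*} [Field K] [Field F] [Algebra K F] (x : F)

/-- `K[x]` is a principal ideal ring. -/
theorem isPrincipalIdealRing_adjoin : IsPrincipalIdealRing (Algebra.adjoin K {x}) := by
  let f : Polynomial K →ₐ[K] Algebra.adjoin K {x} :=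
    (Polynomial.aeval x).codRestrict (Algebra.adjoin K {x})
      (fun p => Polynomial.aeval_mem_adjoin_singleton K x)
  have hf : Function.Surjective f := by
    rintro ⟨y, hy⟩
    rw [Algebra.adjoin_singleton_eq_range_aeval] at hy
    obtain ⟨p, rfl⟩ := hy
    exact ⟨p, Subtype.ext rfl⟩
  exact IsPrincipalIdealRing.of_surjective f.toRingHom hf

/-- The generator `x` as an element of `K[x]`. -/
def genA : Algebra.adjoin K {x} := ⟨x, Algebra.self_mem_adjoin_singleton K x⟩

/-- The ideal `(x - x₀)` of `K[x]`. -/
def idealAt (x₀ : K) : Ideal (Algebra.adjoin K {x}) :=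
  Ideal.span {genA x - algebraMap K (Algebra.adjoin K {x}) x₀}

theorem exists_sub_mem_idealAt (x₀ : K) (a : Algebra.adjoin K {x}) :
    ∃ c : K, a - algebraMap K (Algebra.adjoin K {x}) c ∈ idealAt x x₀ := by
  obtain ⟨y, hy⟩ := a
  induction hy using Algebra.adjoin_induction with
  | mem y hy =>
    refine ⟨x₀, ?_⟩
    rw [Set.mem_singleton_iff] at hy
    subst hy
    exact Ideal.subset_span rfl
  | algebraMap r =>
    refine ⟨r, ?_⟩
    have : (⟨algebraMap K F r, Subalgebra.algebraMap_mem _ r⟩ : Algebra.adjoin K {x})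
        = algebraMap K (Algebra.adjoin K {x}) r := rfl
    rw [this, sub_self]
    exact Ideal.zero_mem _
  | add y z hy hz ihy ihz =>
    obtain ⟨c₁, h₁⟩ := ihy
    obtain ⟨c₂, h₂⟩ := ihz
    refine ⟨c₁ + c₂, ?_⟩
    have : (⟨y + z, Subalgebra.add_mem _ hy hz⟩ : Algebra.adjoin K {x})
          - algebraMap K (Algebra.adjoin K {x}) (c₁ + c₂)
        = ((⟨y, hy⟩ : Algebra.adjoin K {x}) - algebraMap K (Algebra.adjoin K {x}) c₁)
          + ((⟨z, hz⟩ : Algebra.adjoin K {x}) - algebraMap K (Algebra.adjoin K {x}) c₂) := by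
      rw [map_add]
      apply Subtype.ext
      simp only [Subalgebra.coe_sub, Subalgebra.coe_add]
      ring
    rw [this]
    exact Ideal.add_mem _ h₁ h₂
  | mul y z hy hz ihy ihz =>
    obtain ⟨c₁, h₁⟩ := ihy
    obtain ⟨c₂, h₂⟩ := ihz
    refine ⟨c₁ * c₂, ?_⟩
    have : (⟨y * z, Subalgebra.mul_mem _ hy hz⟩ : Algebra.adjoin K {x})
          - algebraMap K (Algebra.adjoin K {x}) (c₁ * c₂)
        = ((⟨y, hy⟩ : Algebra.adjoin K {x}) - algebraMap K (Algebra.adjoin K {x}) c₁)
            * (⟨z, hz⟩ : Algebra.adjoin K {x})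
          + algebraMap K (Algebra.adjoin K {x}) c₁
            * ((⟨z, hz⟩ : Algebra.adjoin K {x}) - algebraMap K (Algebra.adjoin K {x}) c₂) := by
      rw [map_mul]
      apply Subtype.ext
      simp only [Subalgebra.coe_sub, Subalgebra.coe_add, Subalgebra.coe_mul]
      ring
    rw [this]
    exact Ideal.add_mem _ (Ideal.mul_mem_right _ _ h₁) (Ideal.mul_mem_left _ _ h₂)

/-- A proper ideal containing `x - x₀` is `(x - x₀)`. -/
theorem eq_idealAt_of_le (x₀ : K) (J : Ideal (Algebra.adjoin K {x})) (hJ : J ≠ ⊤)
    (hle : idealAt x x₀ ≤ J) : J = idealAt x x₀ := by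
  refine le_antisymm (fun a ha => ?_) hle
  obtain ⟨c, hc⟩ := exists_sub_mem_idealAt x x₀ a
  have hcJ : algebraMap K (Algebra.adjoin K {x}) c ∈ J := by
    have := J.sub_mem ha (hle hc)
    simpa using this
  have hc0 : c = 0 := by
    by_contra hc0
    apply hJ
    rw [Ideal.eq_top_iff_one]
    have := J.mul_mem_left (algebraMap K (Algebra.adjoin K {x}) c⁻¹) hcJ
    rwa [← map_mul, inv_mul_cancel₀ hc0, map_one] at this
  rw [hc0, map_zero, sub_zero] at hc
  exact hc

theorem idealAt_isMaximal (x₀ : K) (hne : idealAt x x₀ ≠ ⊤) : (idealAt x x₀).IsMaximal := by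
  rw [Ideal.isMaximal_def]
  refine ⟨hne, fun J hJ => ?_⟩
  by_contra hJtop
  exact (ne_of_gt hJ) (eq_idealAt_of_le x x₀ J hJtop hJ.le)

end Ring

section Concrete

variable {K F L : Type*} [Field K] [IsAlgClosed K] [CharZero K] [Field F] [Algebra K F]
  [Field L] [Algebra K L] [Algebra F L] [IsScalarTower K F L]

theorem smulCommClass_adjoin (x : F) {G : Type*} [Group G] [MulSemiringAction G L]
    [SMulCommClass G (IntermediateField.adjoin K {x}) L] :
    SMulCommClass G (Algebra.adjoin K {x}) L :=
  ⟨fun g a l => by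
    have h := smul_comm g (algebraMap (Algebra.adjoin K {x}) (IntermediateField.adjoin K {x}) a) l
    exact h⟩

/-- The map `T → S` between the integral closures of `K[x]` in `F` and in `L`. -/
abbrev algTS (x : F) : Algebra (integralClosure (Algebra.adjoin K {x}) F)
    (integralClosure (Algebra.adjoin K {x}) L) :=
  (AlgHom.mapIntegralClosure
    (IsScalarTower.toAlgHom (Algebra.adjoin K {x}) F L)).toRingHom.toAlgebra

section Instances

variable (x : F)

theorem finiteDimensional_of_tower [FiniteDimensional (IntermediateField.adjoin K {x}) L] :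
    FiniteDimensional (IntermediateField.adjoin K {x}) F :=
  FiniteDimensional.of_injective
    (IsScalarTower.toAlgHom (IntermediateField.adjoin K {x}) F L).toLinearMap
    (algebraMap F L).injective

theorem isFractionRing_S [FiniteDimensional (IntermediateField.adjoin K {x}) L] :
    IsFractionRing (integralClosure (Algebra.adjoin K {x}) L) L :=
  integralClosure.isFractionRing_of_finite_extension (IntermediateField.adjoin K {x}) L

theorem isDedekindDomain_S [FiniteDimensional (IntermediateField.adjoin K {x}) L] :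
    IsDedekindDomain (integralClosure (Algebra.adjoin K {x}) L) :=
  have : IsPrincipalIdealRing (Algebra.adjoin K {x}) := isPrincipalIdealRing_adjoin x
  IsIntegralClosure.isDedekindDomain (Algebra.adjoin K {x}) (IntermediateField.adjoin K {x}) L _

theorem finite_S [FiniteDimensional (IntermediateField.adjoin K {x}) L] :
    Module.Finite (Algebra.adjoin K {x}) (integralClosure (Algebra.adjoin K {x}) L) :=
  have : IsPrincipalIdealRing (Algebra.adjoin K {x}) := isPrincipalIdealRing_adjoin x
  IsIntegralClosure.finite (Algebra.adjoin K {x}) (IntermediateField.adjoin K {x}) L _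

theorem flat_S :
    Module.Flat (Algebra.adjoin K {x}) (integralClosure (Algebra.adjoin K {x}) L) :=
  have : IsPrincipalIdealRing (Algebra.adjoin K {x}) := isPrincipalIdealRing_adjoin x
  Module.Flat.instOfIsDedekindDomainOfIsTorsionFree

theorem isGaloisGroup_S {G : Type*} [Group G] [MulSemiringAction G L]
    [IsGaloisGroup G (IntermediateField.adjoin K {x}) L]
    [SMulCommClass G (Algebra.adjoin K {x}) L]
    [IsFractionRing (integralClosure (Algebra.adjoin K {x}) L) L] :
    IsGaloisGroup G (Algebra.adjoin K {x}) (integralClosure (Algebra.adjoin K {x}) L) :=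
  have : IsPrincipalIdealRing (Algebra.adjoin K {x}) := isPrincipalIdealRing_adjoin x
  IsGaloisGroup.of_isFractionRing G (Algebra.adjoin K {x})
    (integralClosure (Algebra.adjoin K {x}) L) (IntermediateField.adjoin K {x}) L

attribute [local instance] algTS

theorem isScalarTower_ATS : IsScalarTower (Algebra.adjoin K {x})
    (integralClosure (Algebra.adjoin K {x}) F) (integralClosure (Algebra.adjoin K {x}) L) :=
  IsScalarTower.of_algebraMap_eq fun a => rfl

theorem isScalarTower_TSL : IsScalarTower (integralClosure (Algebra.adjoin K {x}) F)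
    (integralClosure (Algebra.adjoin K {x}) L) L :=
  IsScalarTower.of_algebraMap_eq fun a => rfl

theorem isIntegral_TS : Algebra.IsIntegral (integralClosure (Algebra.adjoin K {x}) F)
    (integralClosure (Algebra.adjoin K {x}) L) :=
  have := isScalarTower_ATS (K := K) (L := L) x
  Algebra.IsIntegral.tower_top (Algebra.adjoin K {x})

theorem faithfulSMul_TS : FaithfulSMul (integralClosure (Algebra.adjoin K {x}) F)
    (integralClosure (Algebra.adjoin K {x}) L) := by
  rw [faithfulSMul_iff_algebraMap_injective]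
  intro a b hab
  have h2 : algebraMap F L (a : F) = algebraMap F L (b : F) := congrArg Subtype.val hab
  exact Subtype.ext ((algebraMap F L).injective h2)

theorem isGaloisGroup_TS {G : Type*} [Group G] [MulSemiringAction G L]
    [SMulCommClass G (Algebra.adjoin K {x}) L] (H' : Subgroup G)
    [IsGaloisGroup H' F L]
    [FiniteDimensional (IntermediateField.adjoin K {x}) L] :
    IsGaloisGroup H' (integralClosure (Algebra.adjoin K {x}) F)
      (integralClosure (Algebra.adjoin K {x}) L) :=
  have := finiteDimensional_of_tower (K := K) (L := L) x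
  have : IsFractionRing (integralClosure (Algebra.adjoin K {x}) F) F :=
    integralClosure.isFractionRing_of_finite_extension (IntermediateField.adjoin K {x}) F
  have : IsIntegrallyClosed (integralClosure (Algebra.adjoin K {x}) F) :=
    integralClosure.isIntegrallyClosedOfFiniteExtension (IntermediateField.adjoin K {x})
  have := isFractionRing_S (K := K) (L := L) x
  have := isScalarTower_ATS (K := K) (L := L) x
  have := isScalarTower_TSL (K := K) (L := L) x
  have := isIntegral_TS (K := K) (L := L) x
  IsGaloisGroup.of_isFractionRing H' (integralClosure (Algebra.adjoin K {x}) F)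
    (integralClosure (Algebra.adjoin K {x}) L) F L

end Instances

section Count

attribute [local instance] algTS

theorem algebraMap_adjoin_mem_valGE (x : F) (x₀ : K) (w : IntVal K L) (E : ℕ)
    (hw : w.toFun (algebraMap F L x - algebraMap K L x₀) = E)
    (a : Algebra.adjoin K {x}) : algebraMap (Algebra.adjoin K {x}) L a ∈ valGE w 0 := by
  have hxL : algebraMap F L x ∈ valRing w := by
    have h1 : algebraMap F L x - algebraMap K L x₀ ∈ valGE w 0 := by
      right; rw [hw]; exact Int.natCast_nonneg E
    have h2 := (valGE w 0).add_mem h1 (algebraMap_mem_valGE w x₀)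
    rw [sub_add_cancel] at h2
    exact h2
  have hle : (Algebra.adjoin K {x}).map (IsScalarTower.toAlgHom K F L) ≤ valRing w := by
    rw [AlgHom.map_adjoin, Set.image_singleton]
    exact Algebra.adjoin_le (Set.singleton_subset_iff.mpr hxL)
  exact hle ⟨a, a.2, rfl⟩

theorem card_primes_eq_card_orbits
    (x : F) (hx : Transcendental K x)
    {G : Type*} [Group G] [Finite G] [MulSemiringAction G L]
    [hG : IsGaloisGroup G (IntermediateField.adjoin K {x}) L]
    (x₀ : K) (w : IntVal K L) (E : ℕ) (hE : 0 < E)
    (hw : w.toFun (algebraMap F L x - algebraMap K L x₀) = E)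
    {Γ : Type*} [Group Γ] (π : Γ →* G) (hπ : Function.Surjective π)
    (H : Subgroup Γ) (hH : H = (fixingSubgroup G (Set.range (algebraMap F L))).comap π)
    (c : Γ) (hc : ∀ y : L, y ≠ 0 → w.toFun (π c • y) = w.toFun y)
    (hord : ∀ n : ℕ, 0 < n → n < E → (π c) ^ n ≠ 1) :
    Nat.card {Q : Ideal (integralClosure (Algebra.adjoin K {x}) F) //
        Q.IsPrime ∧ ∀ b : integralClosure (Algebra.adjoin K {x}) F,
          (b : F) = x - algebraMap K F x₀ → b ∈ Q}
      = Nat.card (MulAction.orbitRel.Quotient (Subgroup.zpowers c) (Γ ⧸ H)) := by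
  -- instances
  have hfin : FiniteDimensional (IntermediateField.adjoin K {x}) L :=
    IsGaloisGroup.finiteDimensional G _ L
  have hcomm : SMulCommClass G (Algebra.adjoin K {x}) L := smulCommClass_adjoin x
  have hfrS := isFractionRing_S (K := K) (L := L) x
  have hdedS := isDedekindDomain_S (K := K) (L := L) x
  have hfinS := finite_S (K := K) (L := L) x
  have hflatS := flat_S (K := K) (L := L) x
  have hGS := isGaloisGroup_S (K := K) (L := L) x (G := G)
  have ht1 := isScalarTower_ATS (K := K) (L := L) x
  have hfaith := faithfulSMul_TS (K := K) (L := L) x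
  have hH'F : IsGaloisGroup (fixingSubgroup G (Set.range (algebraMap F L))) F L :=
    IsGaloisGroup.of_isScalarTower G (IntermediateField.adjoin K {x}) L F
  have hH'S := isGaloisGroup_TS (K := K) (L := L) x
    (fixingSubgroup G (Set.range (algebraMap F L)))
  -- the valuation prime
  have hA := algebraMap_adjoin_mem_valGE x x₀ w E hw
  have hS : ∀ b : integralClosure (Algebra.adjoin K {x}) L, (b : L) ∈ valGE w 0 := fun b =>
    mem_valGE_zero_of_isIntegral w hA b.2
  have hP₀ : (valIdeal w (integralClosure (Algebra.adjoin K {x}) L) hS 1).IsPrime :=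
    valIdeal_one_isPrime w _ hS
  -- the element `x - x₀`
  have hxne : x - algebraMap K F x₀ ≠ 0 := by
    intro h
    rw [sub_eq_zero] at h
    exact hx (h ▸ isAlgebraic_algebraMap x₀)
  have hsL : ((algebraMap (Algebra.adjoin K {x}) (integralClosure (Algebra.adjoin K {x}) L)
      (genA x - algebraMap K (Algebra.adjoin K {x}) x₀) :
        integralClosure (Algebra.adjoin K {x}) L) : L)
      = algebraMap F L x - algebraMap K L x₀ := by
    rw [IsScalarTower.algebraMap_apply K F L, ← map_sub]
    rfl
  have hsne : algebraMap (Algebra.adjoin K {x}) (integralClosure (Algebra.adjoin K {x}) L)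
      (genA x - algebraMap K (Algebra.adjoin K {x}) x₀) ≠ 0 := by
    intro h
    have h' := congrArg (Subtype.val) h
    rw [hsL, IsScalarTower.algebraMap_apply K F L, ← map_sub] at h'
    exact hxne ((algebraMap F L).injective (h'.trans (map_zero _).symm))
  have hsP₀ : algebraMap (Algebra.adjoin K {x}) (integralClosure (Algebra.adjoin K {x}) L)
      (genA x - algebraMap K (Algebra.adjoin K {x}) x₀)
        ∈ valIdeal w (integralClosure (Algebra.adjoin K {x}) L) hS 1 := by
    right
    rw [hsL, hw]
    exact_mod_cast hE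
  -- the prime below
  have hple : idealAt x x₀
      ≤ (valIdeal w (integralClosure (Algebra.adjoin K {x}) L) hS 1).under
        (Algebra.adjoin K {x}) := by
    unfold idealAt
    rw [Ideal.span_le, Set.singleton_subset_iff]
    exact hsP₀
  have hunder_ne : (valIdeal w (integralClosure (Algebra.adjoin K {x}) L) hS 1).under
      (Algebra.adjoin K {x}) ≠ ⊤ := Ideal.IsPrime.ne_top inferInstance
  have hpne : idealAt x x₀ ≠ ⊤ := fun h => hunder_ne (top_le_iff.mp (h ▸ hple))
  have hpmax : (idealAt x x₀).IsMaximal := idealAt_isMaximal x x₀ hpne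
  have hlies : (valIdeal w (integralClosure (Algebra.adjoin K {x}) L) hS 1).LiesOver
      (idealAt x x₀) := ⟨(eq_idealAt_of_le x x₀ _ hunder_ne hple).symm⟩
  have hsmap : algebraMap (Algebra.adjoin K {x}) (integralClosure (Algebra.adjoin K {x}) L)
      (genA x - algebraMap K (Algebra.adjoin K {x}) x₀)
        ∈ (idealAt x x₀).map
          (algebraMap (Algebra.adjoin K {x}) (integralClosure (Algebra.adjoin K {x}) L)) :=
    Ideal.mem_map_of_mem _ (Ideal.subset_span rfl)
  have hpS : (idealAt x x₀).map
      (algebraMap (Algebra.adjoin K {x}) (integralClosure (Algebra.adjoin K {x}) L)) ≠ ⊥ := by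
    intro h
    rw [h] at hsmap
    exact hsne hsmap
  have hE' : ¬ (idealAt x x₀).map
      (algebraMap (Algebra.adjoin K {x}) (integralClosure (Algebra.adjoin K {x}) L))
        ≤ valIdeal w (integralClosure (Algebra.adjoin K {x}) L) hS 1 ^ (E + 1) := by
    intro hle
    have h1 := valIdeal_one_pow_le w _ hS (E + 1) (hle hsmap)
    rcases h1 with h1 | h1
    · exact hsne (Subtype.ext h1)
    · rw [hsL, hw] at h1
      push_cast at h1
      omega
  -- the decomposition group
  have hσ : π c • valIdeal w (integralClosure (Algebra.adjoin K {x}) L) hS 1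
      = valIdeal w (integralClosure (Algebra.adjoin K {x}) L) hS 1 := by
    ext b
    rw [Ideal.mem_pointwise_smul_iff_inv_smul_mem]
    change ((π c)⁻¹ • (b : L)) ∈ valGE w 1 ↔ (b : L) ∈ valGE w 1
    by_cases hb : (b : L) = 0
    · rw [hb, smul_zero]
    · have hb' : (π c)⁻¹ • (b : L) ≠ 0 := by
        rwa [Ne, smul_eq_zero_iff_eq]
      have hval : w.toFun ((π c)⁻¹ • (b : L)) = w.toFun (b : L) := by
        have := hc _ hb'
        rw [smul_inv_smul] at this
        exact this.symm
      rw [mem_valGE, mem_valGE, hval]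
      simp [hb, hb']
  have hstab := stabilizer_eq_zpowers (k := K) (idealAt x x₀)
    (valIdeal w (integralClosure (Algebra.adjoin K {x}) L) hS 1)
    (exists_sub_mem_idealAt x x₀) hpS E hE' (π c) hσ hord
  have hcount := card_primesOver_eq_card_orbits
    (T := integralClosure (Algebra.adjoin K {x}) F)
    (fixingSubgroup G (Set.range (algebraMap F L))) (idealAt x x₀)
    (valIdeal w (integralClosure (Algebra.adjoin K {x}) L) hS 1) π hπ H hH c hstab
  rw [← hcount]
  refine Nat.card_congr (Equiv.subtypeEquivRight fun Q => ?_)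
  constructor
  · rintro ⟨hQ, hQx⟩
    refine ⟨hQ, ⟨?_⟩⟩
    have hQle : idealAt x x₀ ≤ Q.under (Algebra.adjoin K {x}) := by
      unfold idealAt
      rw [Ideal.span_le, Set.singleton_subset_iff]
      exact hQx _ rfl
    exact (eq_idealAt_of_le x x₀ _ (Ideal.IsPrime.ne_top inferInstance) hQle).symm
  · rintro ⟨hQ, hQp⟩
    refine ⟨hQ, fun b hb => ?_⟩
    have hmem : genA x - algebraMap K (Algebra.adjoin K {x}) x₀ ∈ Q.under (Algebra.adjoin K {x}) := by
      rw [← hQp.over]
      exact Ideal.subset_span rfl
    have hb' : b = algebraMap (Algebra.adjoin K {x}) (integralClosure (Algebra.adjoin K {x}) F)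
        (genA x - algebraMap K (Algebra.adjoin K {x}) x₀) := Subtype.ext hb
    rw [hb']
    exact hmem

end Count

end Concrete

section Main

variable {K F L Γ : Type*} [Field K] [IsAlgClosed K] [CharZero K] [Field F] [Algebra K F]
  [Field L] [Algebra K L] [Algebra F L] [IsScalarTower K F L]
  [Group Γ] [MulSemiringAction Γ L] [SMulCommClass Γ K L]

/-- hypotheses: `L^Γ = K(x)`, the action factors through a finite quotient. -/
theorem isGenerator_of_action (x : F) (hx : Transcendental K x)
    (hfix : ∀ y : L, (∀ γ : Γ, γ • y = y) → y ∈ IntermediateField.adjoin K {algebraMap F L x})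
    (hker : ∃ Γ₀ : Subgroup Γ, Γ₀.FiniteIndex ∧ ∀ γ ∈ Γ₀, ∀ y : L, γ • y = y) :
    IsGenerator K x :=
  ⟨hx, isGenerator_of_action_aux x hfix hker⟩

/-- `[F : K(x)] = [Γ : H]` when `H` is the subgroup fixing `F`. -/
theorem finrank_eq_card_quotient (x : F) (hx : Transcendental K x)
    (hfix : ∀ y : L, (∀ γ : Γ, γ • y = y) → y ∈ IntermediateField.adjoin K {algebraMap F L x})
    (hxfix : ∀ γ : Γ, γ • algebraMap F L x = algebraMap F L x)
    (hker : ∃ Γ₀ : Subgroup Γ, Γ₀.FiniteIndex ∧ ∀ γ ∈ Γ₀, ∀ y : L, γ • y = y)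
    (H : Subgroup Γ)
    (hH : ∀ γ : Γ, γ ∈ H ↔ ∀ f : F, γ • algebraMap F L f = algebraMap F L f) :
    Module.finrank (IntermediateField.adjoin K {x}) F = Nat.card (Γ ⧸ H) :=
  finrank_eq_card_quotient_aux x hfix hxfix hker H hH

/-- number of places of `F` over `x = x₀` = number of orbits of `⟨c⟩` on `Γ ⧸ H`, if some
integer valuation `w` of `L` with `w (x - x₀) = E` is preserved by `c` and `c` acts on `L` with
order at least `E`. -/
theorem card_placesAt_eq_card_orbits (x : F) (hx : Transcendental K x)
    (hfix : ∀ y : L, (∀ γ : Γ, γ • y = y) → y ∈ IntermediateField.adjoin K {algebraMap F L x})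
    (hxfix : ∀ γ : Γ, γ • algebraMap F L x = algebraMap F L x)
    (hker : ∃ Γ₀ : Subgroup Γ, Γ₀.FiniteIndex ∧ ∀ γ ∈ Γ₀, ∀ y : L, γ • y = y)
    (H : Subgroup Γ)
    (hH : ∀ γ : Γ, γ ∈ H ↔ ∀ f : F, γ • algebraMap F L f = algebraMap F L f)
    (x₀ : K) (w : IntVal K L) (E : ℕ) (hE : 0 < E)
    (hw : w.toFun (algebraMap F L x - algebraMap K L x₀) = E)
    (c : Γ) (hc : ∀ y : L, y ≠ 0 → w.toFun (c • y) = w.toFun y)
    (hord : ∀ k : ℕ, 0 < k → k < E → ∃ y : L, c ^ k • y ≠ y) :
    Nat.card (PlacesAt K x x₀)
      = Nat.card (MulAction.orbitRel.Quotient (Subgroup.zpowers c) (Γ ⧸ H)) := by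
  have := finite_imageGroup (K := K) hker
  have hG := isGaloisGroup_imageGroup x hfix hxfix
  rw [Places.card_placesAt_eq_card_primes (isGenerator_of_action x hx hfix hker) x₀]
  refine card_primes_eq_card_orbits x hx x₀ w E hE hw (toImage K L Γ) toImage_surjective H
    (comap_fixF (K := K) H hH) c hc ?_
  intro n hn hnE h1
  obtain ⟨y, hy⟩ := hord n hn hnE
  apply hy
  have h2 : toImage K L Γ (c ^ n) = 1 := by rw [map_pow]; exact h1
  exact (toImage_eq_one_iff (c ^ n)).mp h2 y

end Main

end Fermat.Agent.S24.Galois
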