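import Mathlib
import Fermat.Agent.S24_TowerField

/-!
# S24, the modular tower (M4.9): the stabilizer of `j (N τ)` and the order of `T`

* `smul_jD_of_mem_Gamma0`: `Γ₀(N)` fixes `j (d τ)` for `d ∣ N`;
* `mem_Gamma0_of_smul_jD`: the stabilizer of `j (N τ)` is contained in `Γ₀(N)`;
* `dvd_of_T_pow_smul`: `T ^ k` acts trivially on the field of modular functions of level `N`
  only if `N ∣ k`.
-/

set_option autoImplicit false

noncomputable section

open UpperHalfPlane ModularCurve CongruenceSubgroup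
open scoped MatrixGroups Manifold

namespace Fermat.Agent.S24.Tower

variable (K : Type) [Field K] [Algebra K ℂ] (N : ℕ) [NeZero N]

variable [Algebra ℚ K] [IsAlgClosed K]

/-- `Γ₀(N)` fixes `j (d τ)` for `d ∣ N`. -/
theorem smul_jD_of_mem_Gamma0 (d : ℕ) (hd : d ∣ N) (γ : SL(2, ℤ)) (hγ : γ ∈ Gamma0 N) :
    γ • jD K N d hd = jD K N d hd := by
  have hd0 : d ≠ 0 := ne_zero_of_dvd_ne_zero (NeZero.ne N) hd
  obtain ⟨δ, hδ⟩ := Hermite.exists_mul_eq_of_mem_Gamma0 N d hd γ⁻¹ (inv_mem hγ)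
  ext τ
  rw [smul_apply]
  show JAnalytic.jA (utGL d 0 1 hd0 one_ne_zero • γ⁻¹ • τ)
    = JAnalytic.jA (utGL d 0 1 hd0 one_ne_zero • τ)
  rw [utGL_mul_sl d 0 1 d 0 1 hd0 one_ne_zero hd0 one_ne_zero γ⁻¹ δ (by simpa using hδ),
    JAnalytic.jA_smul]

/-- the stabilizer of `j (N τ)` is contained in `Γ₀(N)` (compare the leading terms of the
expansions of `j ((a τ + b) / d)` and `j (N τ)`). -/
theorem mem_Gamma0_of_smul_jD (γ : SL(2, ℤ))
    (h : γ • jD K N N dvd_rfl = jD K N N dvd_rfl) : γ ∈ Gamma0 N := by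
  have hN0 : N ≠ 0 := NeZero.ne N
  have hNpos : 0 < N := Nat.pos_of_ne_zero hN0
  have hdetA : (!![(N : ℤ), 0; 0, 1] * ((γ⁻¹ : SL(2, ℤ)) : Matrix (Fin 2) (Fin 2) ℤ)).det
      = N := by
    rw [Matrix.det_mul, Matrix.SpecialLinearGroup.det_coe, mul_one, Matrix.det_fin_two_of]
    ring
  obtain ⟨δ, a, b, d, ha, hd, hbd, hdet, hδ⟩ := Hermite.exists_hermite
    (!![(N : ℤ), 0; 0, 1] * ((γ⁻¹ : SL(2, ℤ)) : Matrix (Fin 2) (Fin 2) ℤ))
    (by rw [hdetA]; exact_mod_cast hNpos)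
  rw [hdetA] at hdet
  have had : a * d = N := by exact_mod_cast hdet
  have hdN : d ∣ N := Dvd.intro_left a had
  have hNd : N / d = a := Nat.div_eq_of_eq_mul_left hd had.symm
  -- the two functions agree
  have hfun : genFun a b d ha.ne' hd.ne' = genFun N 0 1 hN0 one_ne_zero := by
    funext τ
    have h1 := congrArg (fun f : modRing K N => (f : ℍ → ℂ) τ) h
    have h2 : ((γ • jD K N N dvd_rfl : modRing K N) : ℍ → ℂ) τ
        = JAnalytic.jA (utGL N 0 1 hN0 one_ne_zero • γ⁻¹ • τ) := rfl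
    have h3 : ((jD K N N dvd_rfl : modRing K N) : ℍ → ℂ) τ
        = JAnalytic.jA (utGL N 0 1 hN0 one_ne_zero • τ) := rfl
    have h4 : JAnalytic.jA (utGL N 0 1 hN0 one_ne_zero • γ⁻¹ • τ)
        = JAnalytic.jA (utGL N 0 1 hN0 one_ne_zero • τ) := h2.symm.trans (h1.trans h3)
    rw [utGL_mul_sl N 0 1 a b d hN0 one_ne_zero ha.ne' hd.ne' γ⁻¹ δ (by simpa using hδ),
      JAnalytic.jA_smul] at h4
    exact h4
  -- compare the expansions
  obtain ⟨c, hc1, hc⟩ := hasLaurentExp_genFun K N a b d ha.ne' hd.ne' hdN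
  obtain ⟨c', hc1', hc'⟩ := hasLaurentExp_genFun K N N 0 1 hN0 one_ne_zero (one_dvd N)
  rw [hfun] at hc
  have hu := cmap_injective K (QLaurent.HasLaurentExp.unique hc hc')
  have hc'0 : c' ≠ 0 := by
    intro h0
    rw [h0, map_zero] at hc1'
    exact Complex.exp_ne_zero _ hc1'.symm
  have hcoef := congrArg (fun s : LaurentSeries K => s.coeff (-((N * N : ℕ) : ℤ))) hu
  simp only [substSeries_coeff, Nat.div_one, hNd] at hcoef
  have hR : (((N * N : ℕ) : ℤ)) ∣ -((N * N : ℕ) : ℤ) := (dvd_refl _).neg_right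
  have hNN : (((N * N : ℕ) : ℤ)) ≠ 0 := by exact_mod_cast (Nat.mul_pos hNpos hNpos).ne'
  have hq : -((N * N : ℕ) : ℤ) / ((N * N : ℕ) : ℤ) = -1 := by
    rw [Int.neg_ediv_of_dvd (dvd_refl _), Int.ediv_self hNN]
  have hRval : (coeffEmb K jq).coeff (-1) * c' ^ (-1 : ℤ) = c' ^ (-1 : ℤ) := by
    rw [coeffEmb_coeff, coeff_jq_neg_one, map_one, one_mul]
  rw [if_pos hR, hq, hRval] at hcoef
  have hd1 : d = 1 := by
    by_contra hne
    have hd2 : 2 ≤ d := by omega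
    have hL : (if ((a * a : ℕ) : ℤ) ∣ -((N * N : ℕ) : ℤ) then
        (coeffEmb K jq).coeff (-((N * N : ℕ) : ℤ) / ((a * a : ℕ) : ℤ)) *
          c ^ (-((N * N : ℕ) : ℤ) / ((a * a : ℕ) : ℤ)) else 0) = 0 := by
      split_ifs with hdvd
      · have haa : (((a * a : ℕ) : ℤ)) ≠ 0 := by exact_mod_cast (Nat.mul_pos ha ha).ne'
        have hq2 : -((N * N : ℕ) : ℤ) / ((a * a : ℕ) : ℤ) = -((d * d : ℕ) : ℤ) := by
          have e : -((N * N : ℕ) : ℤ) = ((a * a : ℕ) : ℤ) * (-((d * d : ℕ) : ℤ)) := by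
            rw [← had]; push_cast; ring
          rw [e, Int.mul_ediv_cancel_left _ haa]
        rw [hq2, coeffEmb_coeff, coeff_jq_of_lt, map_zero, zero_mul]
        have : 4 ≤ d * d := Nat.mul_le_mul hd2 hd2
        have : (4 : ℤ) ≤ ((d * d : ℕ) : ℤ) := by exact_mod_cast this
        omega
      · rfl
    rw [hL] at hcoef
    exact zpow_ne_zero _ hc'0 hcoef.symm
  subst hd1
  have hb0 : b = 0 := by omega
  subst hb0
  rw [mul_one] at had
  subst had
  have hmem : γ⁻¹ ∈ Gamma0 a := Hermite.mem_Gamma0_of_mul_eq a γ⁻¹ δ (by simpa using hδ)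
  exact inv_mem_iff.mp hmem

/-- `T ^ k` acts trivially only if `N ∣ k` (look at `j (τ / N)`). -/
theorem dvd_of_T_pow_smul (k : ℕ) (h : ∀ y : ModField K N, ModularGroup.T ^ k • y = y) :
    N ∣ k := by
  have hN0 : N ≠ 0 := NeZero.ne N
  obtain ⟨f, hf⟩ : ∃ f : modRing K N, (f : ℍ → ℂ) = genFun 1 0 N one_ne_zero hN0 :=
    ⟨⟨genFun 1 0 N one_ne_zero hN0, isModFun_genFun K N 1 0 N _ _ (by rw [one_mul])⟩, rfl⟩
  have h1 := h (algebraMap (modRing K N) (ModField K N) f)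
  rw [smul_algebraMap_field] at h1
  have h2 : ModularGroup.T ^ k • f = f :=
    IsFractionRing.injective (modRing K N) (ModField K N) h1
  have hT : ∀ τ, (f : ℍ → ℂ) (ModularGroup.T ^ (k : ℤ) • τ) = (f : ℍ → ℂ) τ := by
    intro τ
    have h3 := congrArg (fun g : modRing K N => (g : ℍ → ℂ) (ModularGroup.T ^ k • τ)) h2
    simp only [smul_apply, inv_smul_smul] at h3
    rw [zpow_natCast]
    exact h3.symm
  obtain ⟨c, hc1, hc⟩ := hasLaurentExp_genFun K N 1 0 N one_ne_zero hN0 dvd_rfl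
  rw [← hf] at hc
  have he : expRing K N f = substSeries (1 * (N / N)) c (coeffEmb K jq) := expRing_eq_of hc
  have hc0 : c ≠ 0 := by
    intro h0
    rw [h0, map_zero] at hc1
    exact Complex.exp_ne_zero _ hc1.symm
  have hcoef : (expRing K N f).coeff (-1) ≠ 0 := by
    rw [he, substSeries_coeff, Nat.div_self (Nat.pos_of_ne_zero hN0), mul_one, Nat.cast_one,
      if_pos (one_dvd _), Int.ediv_one, coeffEmb_coeff, coeff_jq_neg_one, map_one, one_mul]
    exact zpow_ne_zero _ hc0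
  have hdvd := dvd_mul_of_T_zpow_invariant f k hT (-1) hcoef
  rw [mul_neg_one, dvd_neg] at hdvd
  exact_mod_cast hdvd

end Fermat.Agent.S24.Tower
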