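import Mathlib
import Fermat.Agent.S20_Defs
import Fermat.Agent.S24_Defs
import Fermat.Agent.S24_Places
import Fermat.Agent.S24_Kaehler
import Fermat.Agent.S24_Galois
import Fermat.Agent.S24_TowerVal
import Fermat.Agent.S24_TowerB
import Fermat.Agent.S24_JFormal
import Fermat.Agent.S24_CountIndex
import Fermat.Agent.S24_CountOrbits
import Fermat.Agent.S24_CountCusp
import Fermat.Agent.RR_Defs
import Fermat.Prelude.Def_ModularCurve_GenusNumerics
import Fermat.Prelude.Def_ModularCurve_X0ModL

/-!
# S20b: the function field of `X₀(N)` over `ℂ` and the degree of the divisor of `dj`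

`X0Field N` is generated by `j` and the divisor of `dj` has degree `2 g - 2`, where `g` is the
genus formula: the `K = ℂ` instance of the S24 assembly (Galois counting of the places over the
branch values `0`, `1728`, `∞` of `j` on the tower of modular functions of level `Γ(N)`).
-/

set_option autoImplicit false
set_option linter.unusedSectionVars false
set_option linter.unusedVariables false
set_option linter.style.haveILetI false

noncomputable section

open UpperHalfPlane ModularCurve CongruenceSubgroup AlgebraicCurve KaehlerDifferential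
open scoped MatrixGroups

namespace Fermat.Agent.S20

open Fermat.Agent.S24 Fermat.Agent.RR

namespace TC

section General

variable {K F : Type*} [Field K] [IsAlgClosed K] [CharZero K] [Field F] [Algebra K F]

theorem natCard_placesAt {x : F} (hx : IsGenerator K x) (x₀ : K) :
    Nat.card (PlacesAt K x x₀) = (Places.finite_placesAt hx x₀).toFinset.card := by
  rw [Nat.card_coe_set_eq, Set.ncard_eq_toFinset_card _ (Places.finite_placesAt hx x₀)]

theorem natCard_poles {x : F} (hx : IsGenerator K x) :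
    Nat.card {v : Place K F | v.ord x < 0} = (Places.finite_poles hx).toFinset.card := by
  rw [Nat.card_coe_set_eq, Set.ncard_eq_toFinset_card _ (Places.finite_poles hx)]

/-- if the number of places over `x₀` is `[F : K(x)]`, all of them are unramified. -/
theorem ord_eq_one_of_card {x : F} (hx : IsGenerator K x) (x₀ : K)
    (h : Nat.card (PlacesAt K x x₀) = Module.finrank (IntermediateField.adjoin K {x}) F)
    (v : Place K F) (hv : v ∈ PlacesAt K x x₀) : v.ord (x - algebraMap K F x₀) = 1 := by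
  classical
  have hsum := Places.sum_ord_placesAt hx x₀
  rw [natCard_placesAt hx x₀] at h
  have h0 : ∑ w ∈ (Places.finite_placesAt hx x₀).toFinset,
      (w.ord (x - algebraMap K F x₀) - 1) = 0 := by
    rw [Finset.sum_sub_distrib, hsum, Finset.sum_const, ← h]; simp
  have hnn : ∀ w ∈ (Places.finite_placesAt hx x₀).toFinset,
      0 ≤ w.ord (x - algebraMap K F x₀) - 1 := by
    intro w hw
    have hw' : w ∈ PlacesAt K x x₀ := (Set.Finite.mem_toFinset _).mp hw
    have : 0 < w.ord (x - algebraMap K F x₀) := hw'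
    omega
  have := (Finset.sum_eq_zero_iff_of_nonneg hnn).mp h0 v ((Set.Finite.mem_toFinset _).mpr hv)
  omega

/-- The degree of the divisor of a nonzero differential. -/
theorem degree_canonical {x : F} (hx : IsGenerator K x) (S : Finset K)
    (hS : ∀ x₀ : K, x₀ ∉ S →
      Nat.card (PlacesAt K x x₀) = Module.finrank (IntermediateField.adjoin K {x}) F)
    (ω : Ω[F⁄K]) (hω : ω ≠ 0) (W : Divisor K F)
    (hW : ∀ v : Place K F, W v = v.ordDifferential ω) :
    Divisor.degree W
      = ∑ x₀ ∈ S, ((Module.finrank (IntermediateField.adjoin K {x}) F : ℤ)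
          - Nat.card (PlacesAt K x x₀))
        - Module.finrank (IntermediateField.adjoin K {x}) F
        - Nat.card {v : Place K F | v.ord x < 0} := by
  classical
  set μ := Module.finrank (IntermediateField.adjoin K {x}) F with hμ
  have hxt : Transcendental K x := hx.1
  -- `ω = c • dx`
  obtain ⟨c, hc⟩ : ∃ c : F, c • D K F x = ω := by
    have : ω ∈ Submodule.span F {D K F x} := by rw [Kaehler.span_D_eq_top hx]; trivial
    exact Submodule.mem_span_singleton.mp this
  have hc0 : c ≠ 0 := by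
    rintro rfl
    exact hω (by rw [← hc, zero_smul])
  -- principal divisor of `c`
  have := Places.hasPrincipalDivisors hx
  obtain ⟨P, hP, hPdeg⟩ := HasPrincipalDivisors.exists_divisor (K := K) c hc0
  set W' : Divisor K F := W - P with hW'
  have hW'v : ∀ v : Place K F, W' v = v.ordDifferential (D K F x) := by
    intro v
    rw [hW', Finsupp.sub_apply, hW v, hP v, ← hc,
      Kaehler.ordDifferential_smul_D hx v x hxt c hc0]
    ring
  have hdeg : Divisor.degree W = Divisor.degree W' := by
    rw [hW', map_sub, hPdeg, sub_zero]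
  rw [hdeg]
  -- the finite sets of places
  set Pl : K → Finset (Place K F) := fun x₀ => (Places.finite_placesAt hx x₀).toFinset with hPl
  set Po : Finset (Place K F) := (Places.finite_poles hx).toFinset with hPo
  have hmemPl : ∀ x₀ v, v ∈ Pl x₀ ↔ v ∈ PlacesAt K x x₀ := fun x₀ v =>
    Set.Finite.mem_toFinset _
  have hmemPo : ∀ v, v ∈ Po ↔ v.ord x < 0 := fun v => Set.Finite.mem_toFinset _
  -- values of `W'`
  have hval_Pl : ∀ x₀ v, v ∈ Pl x₀ → W' v = v.ord (x - algebraMap K F x₀) - 1 := by
    intro x₀ v hv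
    rw [hW'v, Kaehler.ordDifferential_D_of_mem_placesAt hx v x x₀ ((hmemPl x₀ v).mp hv)]
  have hval_Po : ∀ v, v ∈ Po → W' v = v.ord x - 1 := by
    intro v hv
    rw [hW'v, Kaehler.ordDifferential_D_of_ord_neg hx v x ((hmemPo v).mp hv)]
  set T : Finset (Place K F) := S.biUnion Pl ∪ Po with hT
  have hsupp : W'.support ⊆ T := by
    intro v hv
    rw [Finsupp.mem_support_iff] at hv
    by_contra hvT
    rw [hT, Finset.mem_union, not_or, Finset.mem_biUnion] at hvT
    obtain ⟨hv1, hv2⟩ := hvT
    rcases Places.ord_neg_or_exists_center hx v with hneg | ⟨x₀, hx₀⟩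
    · exact hv2 ((hmemPo v).mpr hneg)
    · have hx₀S : x₀ ∉ S := fun h => hv1 ⟨x₀, h, (hmemPl x₀ v).mpr hx₀⟩
      apply hv
      rw [hval_Pl x₀ v ((hmemPl x₀ v).mpr hx₀), ord_eq_one_of_card hx x₀ (hS x₀ hx₀S) v hx₀]
      ring
  have hdegW' : Divisor.degree W' = ∑ v ∈ T, W' v := by
    have h1 : Divisor.degree W' = W'.sum fun v n => n * (v.deg : ℤ) := by
      simp only [Divisor.degree, Finsupp.liftAddHom_apply]
      rfl
    rw [h1, Finsupp.sum_of_support_subset W' hsupp (fun v n => n * (v.deg : ℤ))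
      (fun v _ => zero_mul _)]
    refine Finset.sum_congr rfl fun v _ => ?_
    rw [Places.deg_eq_one hx v]; simp
  rw [hdegW']
  have hdisj1 : Disjoint (S.biUnion Pl) Po := by
    rw [Finset.disjoint_left]
    intro v hv hv'
    obtain ⟨x₀, -, hx₀⟩ := Finset.mem_biUnion.mp hv
    exact Places.not_mem_placesAt_of_ord_neg v ((hmemPo v).mp hv') x₀ ((hmemPl x₀ v).mp hx₀)
  have hdisj2 : (S : Set K).PairwiseDisjoint Pl := by
    intro a _ b _ hab
    rw [Function.onFun, Finset.disjoint_left]
    intro v hva hvb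
    exact (Set.disjoint_left.mp (Places.placesAt_disjoint (x := x) a b hab))
      ((hmemPl a v).mp hva) ((hmemPl b v).mp hvb)
  rw [hT, Finset.sum_union hdisj1, Finset.sum_biUnion hdisj2]
  have hsumPl : ∀ x₀ ∈ S, ∑ v ∈ Pl x₀, W' v = (μ : ℤ) - Nat.card (PlacesAt K x x₀) := by
    intro x₀ _
    rw [Finset.sum_congr rfl (fun v hv => hval_Pl x₀ v hv), Finset.sum_sub_distrib,
      Places.sum_ord_placesAt hx x₀, natCard_placesAt hx x₀, Finset.sum_const]
    simp [hPl, hμ]
  have hsumPo : ∑ v ∈ Po, W' v = -(μ : ℤ) - Nat.card {v : Place K F | v.ord x < 0} := by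
    rw [Finset.sum_congr rfl (fun v hv => hval_Po v hv), Finset.sum_sub_distrib,
      Places.sum_ord_poles hx, natCard_poles hx, Finset.sum_const]
    simp [hPo, hμ]
  rw [Finset.sum_congr rfl hsumPl, hsumPo]
  ring

/-- if `[F : K(x)] = 1`, there is exactly one place over each finite point. -/
theorem natCard_placesAt_of_finrank_eq_one {x : F} (hx : IsGenerator K x) (x₀ : K)
    (h : Module.finrank (IntermediateField.adjoin K {x}) F = 1) :
    Nat.card (PlacesAt K x x₀) = 1 := by
  classical
  have hsum := Places.sum_ord_placesAt hx x₀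
  rw [h] at hsum
  rw [natCard_placesAt hx x₀]
  have hpos : ∀ w ∈ (Places.finite_placesAt hx x₀).toFinset,
      (1 : ℤ) ≤ w.ord (x - algebraMap K F x₀) := by
    intro w hw
    have hw' : w ∈ PlacesAt K x x₀ := (Set.Finite.mem_toFinset _).mp hw
    have : 0 < w.ord (x - algebraMap K F x₀) := hw'
    omega
  have hle := Finset.sum_le_sum hpos
  rw [Finset.sum_const, hsum] at hle
  have hne : (Places.finite_placesAt hx x₀).toFinset.card ≠ 0 := by
    intro h0
    rw [Finset.card_eq_zero] at h0
    rw [h0, Finset.sum_empty] at hsum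
    norm_num at hsum
  simp only [nsmul_eq_mul, mul_one, Nat.cast_one] at hle
  omega

/-- if `[F : K(x)] = 1`, there is exactly one pole of `x`. -/
theorem natCard_poles_of_finrank_eq_one {x : F} (hx : IsGenerator K x)
    (h : Module.finrank (IntermediateField.adjoin K {x}) F = 1) :
    Nat.card {v : Place K F | v.ord x < 0} = 1 := by
  classical
  have hsum := Places.sum_ord_poles hx
  rw [h] at hsum
  rw [natCard_poles hx]
  have hpos : ∀ w ∈ (Places.finite_poles hx).toFinset, w.ord x ≤ (-1 : ℤ) := by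
    intro w hw
    have hw' : w ∈ {v : Place K F | v.ord x < 0} := (Set.Finite.mem_toFinset _).mp hw
    have hw'' : w.ord x < 0 := hw'
    omega
  have hle := Finset.sum_le_sum hpos
  rw [Finset.sum_const, hsum] at hle
  have hne : (Places.finite_poles hx).toFinset.card ≠ 0 := by
    intro h0
    rw [Finset.card_eq_zero] at h0
    rw [h0, Finset.sum_empty] at hsum
    norm_num at hsum
  simp only [nsmul_eq_mul, Nat.cast_one] at hle
  omega

theorem placesAt_inv_zero (x : F) :
    PlacesAt K x⁻¹ 0 = {v : Place K F | v.ord x < 0} := by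
  ext v
  simp only [PlacesAt, Set.mem_ofPred_eq, map_zero, sub_zero, Place.ord_inv]
  omega

theorem IntVal.map_inv {L : Type*} [Field L] [Algebra K L] (w : IntVal K L) (a : L)
    (ha : a ≠ 0) : w.toFun a⁻¹ = -w.toFun a := by
  have h1 : w.toFun (a * a⁻¹) = w.toFun a + w.toFun a⁻¹ := w.map_mul' a a⁻¹ ha (inv_ne_zero ha)
  rw [mul_inv_cancel₀ ha] at h1
  have h2 : w.toFun (1 : L) = 0 := by
    have := w.map_algebraMap' 1 one_ne_zero
    rwa [map_one] at this
  rw [h2] at h1
  omega

theorem adjoin_inv_eq {L : Type*} [Field L] [Algebra K L] (a : L) :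
    IntermediateField.adjoin K {a⁻¹} = IntermediateField.adjoin K {a} := by
  apply le_antisymm
  · rw [IntermediateField.adjoin_simple_le_iff]
    exact inv_mem (IntermediateField.mem_adjoin_simple_self K a)
  · rw [IntermediateField.adjoin_simple_le_iff]
    have := inv_mem (IntermediateField.mem_adjoin_simple_self K a⁻¹)
    rwa [inv_inv] at this

theorem transcendental_inv {x : F} (hx : Transcendental K x) : Transcendental K x⁻¹ := by
  intro h
  apply hx
  have := h.inv
  rwa [inv_inv] at this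

/-- the divisor of `dx` exists (finite support). -/
theorem exists_divisor_D {x : F} (hx : IsGenerator K x) (S : Finset K)
    (hS : ∀ x₀ : K, x₀ ∉ S →
      Nat.card (PlacesAt K x x₀) = Module.finrank (IntermediateField.adjoin K {x}) F) :
    ∃ W : Divisor K F, ∀ v : Place K F, W v = v.ordDifferential (D K F x) := by
  classical
  refine ⟨Finsupp.onFinset
    (S.biUnion (fun x₀ => (Places.finite_placesAt hx x₀).toFinset)
      ∪ (Places.finite_poles hx).toFinset)
    (fun v => v.ordDifferential (D K F x)) ?_, fun v => rfl⟩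
  intro v hv
  by_contra hvT
  rw [Finset.mem_union, not_or, Finset.mem_biUnion] at hvT
  obtain ⟨hv1, hv2⟩ := hvT
  rcases Places.ord_neg_or_exists_center hx v with hneg | ⟨x₀, hx₀⟩
  · exact hv2 ((Set.Finite.mem_toFinset _).mpr hneg)
  · have hx₀S : x₀ ∉ S := fun h => hv1 ⟨x₀, h, (Set.Finite.mem_toFinset _).mpr hx₀⟩
    apply hv
    rw [Kaehler.ordDifferential_D_of_mem_placesAt hx v x x₀ hx₀,
      ord_eq_one_of_card hx x₀ (hS x₀ hx₀S) v hx₀]
    ring

end General

section Orbits

variable {G X : Type*} [Group G] [MulAction G X]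

theorem natCard_orbits_one :
    Nat.card (MulAction.orbitRel.Quotient (Subgroup.zpowers (1 : G)) X) = Nat.card X := by
  symm
  apply Nat.card_eq_of_bijective (fun a : X => (Quotient.mk'' a :
    MulAction.orbitRel.Quotient (Subgroup.zpowers (1 : G)) X))
  constructor
  · intro a b hab
    have h := Quotient.exact' hab
    change a ∈ MulAction.orbit (Subgroup.zpowers (1 : G)) b at h
    obtain ⟨⟨g, hg⟩, rfl⟩ := h
    rw [Subgroup.zpowers_one_eq_bot, Subgroup.mem_bot] at hg
    subst hg
    exact one_smul _ b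
  · intro q
    induction q using Quotient.inductionOn' with
    | h a => exact ⟨a, rfl⟩

theorem natCard_orbits_of_natCard_eq_one (c : G) (h : Nat.card X = 1) :
    Nat.card (MulAction.orbitRel.Quotient (Subgroup.zpowers c) X) = 1 := by
  obtain ⟨hs, hn⟩ := Nat.card_eq_one_iff_unique.mp h
  obtain ⟨a⟩ := hn
  rw [Nat.card_eq_one_iff_unique]
  refine ⟨⟨?_⟩, ⟨Quotient.mk'' a⟩⟩
  intro p q
  induction p using Quotient.inductionOn' with
  | h p =>
    induction q using Quotient.inductionOn' with
    | h q => rw [Subsingleton.elim p q]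

end Orbits

section Gamma0

theorem S_notMem_Gamma0 (N : ℕ) (hN : N ≠ 1) : ModularGroup.S ∉ Gamma0 N := by
  rw [Gamma0_mem]
  simp only [ModularGroup.coe_S, Matrix.of_apply, Matrix.cons_val', Matrix.cons_val_one,
    Matrix.cons_val_zero, Int.cast_one]
  intro h
  haveI : Fact (1 < N) := ⟨by
    rcases N with _ | _ | n
    · simp at h
    · exact absurd rfl hN
    · omega⟩
  exact one_ne_zero h

theorem ST_notMem_Gamma0 (N : ℕ) (hN : N ≠ 1) :
    ModularGroup.S * ModularGroup.T ∉ Gamma0 N := by
  rw [Gamma0_mem]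
  intro h
  have h1 : ((ModularGroup.S * ModularGroup.T : SL(2, ℤ)) 1 0 : ℤ) = 1 := by
    simp [ModularGroup.coe_S, ModularGroup.coe_T, Matrix.mul_apply, Fin.sum_univ_two]
  rw [h1] at h
  haveI : Fact (1 < N) := ⟨by
    rcases N with _ | _ | n
    · simp at h
    · exact absurd rfl hN
    · omega⟩
  simp at h

theorem ST_sq_notMem_Gamma0 (N : ℕ) (hN : N ≠ 1) :
    (ModularGroup.S * ModularGroup.T) ^ 2 ∉ Gamma0 N := by
  rw [Gamma0_mem]
  intro h
  have h1 : (((ModularGroup.S * ModularGroup.T) ^ 2 : SL(2, ℤ)) 1 0 : ℤ) = 1 := by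
    simp [pow_two, ModularGroup.coe_S, ModularGroup.coe_T, Matrix.mul_apply, Fin.sum_univ_two]
  rw [h1] at h
  haveI : Fact (1 < N) := ⟨by
    rcases N with _ | _ | n
    · simp at h
    · exact absurd rfl hN
    · omega⟩
  simp at h

theorem natCard_quotient_Gamma0_one : Nat.card (SL(2, ℤ) ⧸ Gamma0 1) = 1 := by
  have : Gamma0 1 = ⊤ := by
    ext γ
    simp [Gamma0_mem, Subsingleton.elim ((γ 1 0 : ℤ) : ZMod 1) 0]
  rw [this, Nat.card_eq_one_iff_unique]
  exact ⟨QuotientGroup.subsingleton_quotient_top, ⟨QuotientGroup.mk 1⟩⟩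

end Gamma0

section Modular

open Tower ModularGroup

variable (N : ℕ) [NeZero N]

theorem transcendental_jField : Transcendental ℂ (jField ℂ N) := by
  intro halg
  apply JFormal.transcendental_coeffEmb_jq ℂ
  have h1 : IsAlgebraic ℂ (expField ℂ N (jField ℂ N)) := halg.algHom (expField ℂ N)
  rw [jField, expField_algebraMap, expRing_jMod] at h1
  have h2 : IsAlgebraic ℂ (qExpandAlgHomC ℂ N (coeffEmb ℂ jq)) := h1
  exact (isAlgebraic_algHom_iff (qExpandAlgHomC ℂ N) (qExpand_injective N)).mp h2

theorem transcendental_jX0 : Transcendental ℂ (jX0 N) := by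
  intro halg
  apply transcendental_jField N
  exact halg.algHom (X0Field N).val

theorem mem_Gamma0_iff_fix (γ : SL(2, ℤ)) :
    γ ∈ Gamma0 N ↔ ∀ f : X0Field N,
      γ • algebraMap (X0Field N) (ModField ℂ N) f = algebraMap (X0Field N) (ModField ℂ N) f := by
  constructor
  · intro hγ f
    exact smul_coe_X0Field f hγ
  · intro h
    apply mem_Gamma0_of_smul_jD ℂ N γ
    have hmem : algebraMap (modRing ℂ N) (ModField ℂ N) (jD ℂ N N dvd_rfl) ∈ X0Field N := by
      rw [mem_X0Field]
      intro δ hδ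
      rw [smul_algebraMap_field, smul_jD_of_mem_Gamma0 ℂ N N dvd_rfl δ hδ]
    have h1 : γ • algebraMap (modRing ℂ N) (ModField ℂ N) (jD ℂ N N dvd_rfl)
        = algebraMap (modRing ℂ N) (ModField ℂ N) (jD ℂ N N dvd_rfl) := h ⟨_, hmem⟩
    rw [smul_algebraMap_field] at h1
    exact IsFractionRing.injective (modRing ℂ N) (ModField ℂ N) h1

/-- The numbers of places of `X₀(N)` over the points of the `j`-line, over `ℂ`. -/
theorem modular_counts :
    IsGenerator ℂ (jX0 N) ∧
    Module.finrank (IntermediateField.adjoin ℂ {jX0 N}) ↥(X0Field N)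
      = Nat.card (SL(2, ℤ) ⧸ Gamma0 N) ∧
    (∀ j₀ : ℂ, j₀ ≠ 0 → j₀ ≠ 1728 →
      Nat.card (PlacesAt ℂ (jX0 N) j₀) = Nat.card (SL(2, ℤ) ⧸ Gamma0 N)) ∧
    Nat.card (PlacesAt ℂ (jX0 N) 1728)
      = Nat.card (MulAction.orbitRel.Quotient (Subgroup.zpowers ModularGroup.S)
          (SL(2, ℤ) ⧸ Gamma0 N)) ∧
    Nat.card (PlacesAt ℂ (jX0 N) 0)
      = Nat.card (MulAction.orbitRel.Quotient
          (Subgroup.zpowers (ModularGroup.S * ModularGroup.T)) (SL(2, ℤ) ⧸ Gamma0 N)) ∧
    Nat.card {v : Place ℂ ↥(X0Field N) | v.ord (jX0 N) < 0}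
      = Nat.card (MulAction.orbitRel.Quotient (Subgroup.zpowers ModularGroup.T)
          (SL(2, ℤ) ⧸ Gamma0 N)) := by
  have hx : Transcendental ℂ (jX0 N) := transcendental_jX0 N
  have hxfix : ∀ γ : SL(2, ℤ), γ • algebraMap (X0Field N) (ModField ℂ N) (jX0 N)
      = algebraMap (X0Field N) (ModField ℂ N) (jX0 N) := fun γ => smul_jField ℂ N γ
  have hfix : ∀ y : ModField ℂ N, (∀ γ : SL(2, ℤ), γ • y = y) →
      y ∈ IntermediateField.adjoin ℂ {algebraMap (X0Field N) (ModField ℂ N) (jX0 N)} :=
    mem_adjoin_jField_of_invariant ℂ N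
  have hker : ∃ Γ₀ : Subgroup SL(2, ℤ), Γ₀.FiniteIndex ∧
      ∀ γ ∈ Γ₀, ∀ y : ModField ℂ N, γ • y = y :=
    ⟨Gamma N, inferInstance, fun γ hγ y => smul_field_eq_of_mem_Gamma hγ y⟩
  have hH := mem_Gamma0_iff_fix N
  have hgen := exists_intVal_generic ℂ N
  have h1728 := exists_intVal_S ℂ N
  have h0 := exists_intVal_ST ℂ N
  have hinf := exists_intVal_T ℂ N
  have hT := dvd_of_T_pow_smul ℂ N
  have hgenr : IsGenerator ℂ (jX0 N) := Galois.isGenerator_of_action (jX0 N) hx hfix hker
  have hμ := Galois.finrank_eq_card_quotient (jX0 N) hx hfix hxfix hker (Gamma0 N) hH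
  refine ⟨hgenr, hμ, ?_, ?_, ?_, ?_⟩
  · intro j₀ h0 h1
    obtain ⟨w, hw⟩ := hgen j₀ h0 h1
    rw [Galois.card_placesAt_eq_card_orbits (jX0 N) hx hfix hxfix hker (Gamma0 N) hH j₀ w 1
      one_pos (by rw [algebraMap_jX0, hw]; simp) 1 (fun y _ => by rw [one_smul])
      (fun k hk hk' => by omega)]
    exact natCard_orbits_one
  · by_cases hN : N = 1
    · have hc1 : Nat.card (SL(2, ℤ) ⧸ Gamma0 N) = 1 := by
        subst hN
        exact natCard_quotient_Gamma0_one
      rw [natCard_placesAt_of_finrank_eq_one hgenr _ (hμ.trans hc1)]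
      exact (natCard_orbits_of_natCard_eq_one _ hc1).symm
    · obtain ⟨w, hw, hwS⟩ := h1728
      refine Galois.card_placesAt_eq_card_orbits (jX0 N) hx hfix hxfix hker (Gamma0 N) hH 1728 w 2
        two_pos (by rw [algebraMap_jX0, hw]; simp) ModularGroup.S hwS (fun k hk hk' => ?_)
      have hk1 : k = 1 := by omega
      subst hk1
      rw [pow_one]
      have := S_notMem_Gamma0 N hN
      rw [hH] at this
      push Not at this
      obtain ⟨f, hf⟩ := this
      exact ⟨_, hf⟩
  · by_cases hN : N = 1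
    · have hc1 : Nat.card (SL(2, ℤ) ⧸ Gamma0 N) = 1 := by
        subst hN
        exact natCard_quotient_Gamma0_one
      rw [natCard_placesAt_of_finrank_eq_one hgenr _ (hμ.trans hc1)]
      exact (natCard_orbits_of_natCard_eq_one _ hc1).symm
    · obtain ⟨w, hw, hwS⟩ := h0
      refine Galois.card_placesAt_eq_card_orbits (jX0 N) hx hfix hxfix hker (Gamma0 N) hH 0 w 3
        (by norm_num) (by rw [map_zero, sub_zero, algebraMap_jX0, hw]; simp)
        (ModularGroup.S * ModularGroup.T) hwS (fun k hk hk' => ?_)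
      have hk1 : k = 1 ∨ k = 2 := by omega
      rcases hk1 with rfl | rfl
      · rw [pow_one]
        have := ST_notMem_Gamma0 N hN
        rw [hH] at this
        push Not at this
        obtain ⟨f, hf⟩ := this
        exact ⟨_, hf⟩
      · have := ST_sq_notMem_Gamma0 N hN
        rw [hH] at this
        push Not at this
        obtain ⟨f, hf⟩ := this
        exact ⟨_, hf⟩
  · obtain ⟨w, hw, hwT⟩ := hinf
    have hj0 : algebraMap ↥(X0Field N) (ModField ℂ N) (jX0 N) ≠ 0 := by
      rw [map_ne_zero_iff _ (algebraMap ↥(X0Field N) (ModField ℂ N)).injective]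
      intro h
      exact hx (h ▸ isAlgebraic_zero)
    rw [← placesAt_inv_zero]
    refine Galois.card_placesAt_eq_card_orbits (jX0 N)⁻¹ (transcendental_inv hx) ?_ ?_ hker
      (Gamma0 N) hH 0 w N (Nat.pos_of_ne_zero (NeZero.ne N)) ?_ ModularGroup.T hwT
      (fun k hk hk' => ?_)
    · intro y hy
      rw [map_inv₀, adjoin_inv_eq]
      exact hfix y hy
    · intro γ
      rw [map_inv₀, smul_inv'', hxfix]
    · rw [map_zero, sub_zero, map_inv₀, IntVal.map_inv w _ hj0, algebraMap_jX0, hw]
      simp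
    · by_contra hcon
      push Not at hcon
      have := Nat.le_of_dvd hk (hT k hcon)
      omega

end Modular

end TC

/-! ## the statements of S20b -/

theorem isGenerator_jX0 (N : ℕ) [NeZero N] : IsGenerator ℂ (jX0 N) :=
  (TC.modular_counts N).1

/-- the divisor of `dj` on `X₀(N)` over `ℂ` has degree `2g - 2`. -/
theorem exists_canonical_divisor (N : ℕ) [NeZero N] :
    ∃ W : Divisor ℂ (X0Field N),
      (∀ v : Place ℂ (X0Field N), W v = v.ordDifferential (D ℂ (X0Field N) (jX0 N))) ∧
      (Divisor.degree W : ℚ) = 2 * genusFormula N - 2 := by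
  classical
  obtain ⟨hx, hμ, hgen, h1728, h0, hpol⟩ := TC.modular_counts N
  have hS : ∀ x₀ : ℂ, x₀ ∉ ({0, 1728} : Finset ℂ) →
      Nat.card (PlacesAt ℂ (jX0 N) x₀)
        = Module.finrank (IntermediateField.adjoin ℂ {jX0 N}) ↥(X0Field N) := by
    intro x₀ hx₀
    rw [Finset.mem_insert, Finset.mem_singleton, not_or] at hx₀
    rw [hgen x₀ hx₀.1 hx₀.2, hμ]
  obtain ⟨W, hW⟩ := TC.exists_divisor_D hx ({0, 1728} : Finset ℂ) hS
  refine ⟨W, hW, ?_⟩
  have hdeg := TC.degree_canonical hx ({0, 1728} : Finset ℂ) hS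
    (D ℂ (X0Field N) (jX0 N)) (Kaehler.D_ne_zero hx) W hW
  have hne : (0 : ℂ) ≠ 1728 := by norm_num
  rw [Finset.sum_pair hne, hμ, h1728, h0, hpol] at hdeg
  have e1 := Count.card_quotient N
  have e2 := Count.two_mul_card_orbits_S N
  have e3 := Count.three_mul_card_orbits_ST N
  have e4 := Count.card_orbits_T N
  rw [e1, e4] at hdeg
  have e2' : (2 : ℚ) * Nat.card (MulAction.orbitRel.Quotient (Subgroup.zpowers ModularGroup.S)
        (SL(2, ℤ) ⧸ Gamma0 N)) = dedekindPsi N + nuTwo N := by exact_mod_cast e2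
  have e3' : (3 : ℚ) * Nat.card (MulAction.orbitRel.Quotient
        (Subgroup.zpowers (ModularGroup.S * ModularGroup.T)) (SL(2, ℤ) ⧸ Gamma0 N))
      = dedekindPsi N + 2 * nuThree N := by exact_mod_cast e3
  have hdeg' : (Divisor.degree W : ℚ) = ((dedekindPsi N : ℚ)
        - Nat.card (MulAction.orbitRel.Quotient
            (Subgroup.zpowers (ModularGroup.S * ModularGroup.T)) (SL(2, ℤ) ⧸ Gamma0 N)))
        + ((dedekindPsi N : ℚ)
        - Nat.card (MulAction.orbitRel.Quotient (Subgroup.zpowers ModularGroup.S)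
            (SL(2, ℤ) ⧸ Gamma0 N)))
        - (dedekindPsi N : ℚ) - (cuspCount N : ℚ) := by
    rw [hdeg]; push_cast; ring
  rw [hdeg']
  unfold genusFormula
  linarith

end Fermat.Agent.S20
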