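import Mathlib
import Fermat.Prelude.Def_ModularCurve_PeriodHomPair
import Fermat.Prelude.Def_ModularCurve_GenusNumerics
import Fermat.Agent.S24_CountIndex
import Fermat.Agent.S24_CountOrbits
import Fermat.Agent.S24_CountCusp

/-!
# S21a: the space of parabolic homomorphisms `Γ₀(N) → ℂ` has dimension at most `2 g`

Abstract form (`finrank_parabolic_le`): `G = ⟨a, b⟩`, `H ≤ G` of finite index, `a` and `a * b` of
finite order; a space `P` of homomorphisms `H → ℂ` killing every element of `H` conjugate in `G`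
to a power of `b` satisfies `dim P + c(a) + c(a b) + c(b) ≤ [G : H] + 2`, where `c(g)` is the
number of orbits of `g` on `G ⧸ H`.  Proof: Shapiro's lemma by hand.
-/

set_option autoImplicit false

namespace Fermat.Agent.S21.Parabolic

open Module Submodule LinearMap

section permModule

variable (k : Type*) [Field k] {G : Type*} [Group G] {X : Type*} [MulAction G X]

/-- precomposition with the action of `h` on functions `X → k` -/
noncomputable def star (h : G) : (X → k) →ₗ[k] (X → k) :=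
  LinearMap.funLeft k k (fun x : X => h • x)

theorem star_apply (h : G) (f : X → k) (x : X) : star k h f x = f (h • x) := rfl

theorem star_one (f : X → k) : star k (1 : G) f = f := by
  funext x; rw [star_apply, one_smul]

theorem star_mul (h1 h2 : G) (f : X → k) : star k (h1 * h2) f = star k h2 (star k h1 f) := by
  funext x; rw [star_apply, star_apply, star_apply, mul_smul]

theorem star_pow (h : G) (i : ℕ) (f : X → k) (x : X) : star k (h ^ i) f x = f (h ^ i • x) := rfl

theorem star_inv_star (g : G) (f : X → k) : star k g (star k g⁻¹ f) = f := by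
  rw [← star_mul, inv_mul_cancel, star_one]

theorem star_single [DecidableEq X] (g : G) (x : X) :
    star k g (Pi.single x (1 : k)) = Pi.single (g⁻¹ • x) 1 := by
  funext z
  rw [star_apply, Pi.single_apply, Pi.single_apply]
  have : g • z = x ↔ z = g⁻¹ • x := by
    constructor
    · intro h1; rw [← h1, inv_smul_smul]
    · intro h1; rw [h1, smul_inv_smul]
  simp only [this]

/-- the subgroup of elements leaving a function invariant -/
def stab (f : X → k) : Subgroup G where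
  carrier := {g | ∀ x, f (g • x) = f x}
  one_mem' := fun x => by rw [one_smul]
  mul_mem' := by
    intro g h hg hh x
    rw [mul_smul, hg, hh]
  inv_mem' := by
    intro g hg x
    have := hg (g⁻¹ • x)
    rw [smul_inv_smul] at this
    exact this.symm

omit [Field k] in
theorem mem_stab (f : X → k) (g : G) : g ∈ stab k f ↔ ∀ x, f (g • x) = f x := Iff.rfl

theorem mem_ker_one_sub_star (h : G) (f : X → k) :
    f ∈ ker (LinearMap.id - star k h) ↔ h ∈ stab k f := by
  rw [LinearMap.mem_ker, mem_stab, LinearMap.sub_apply, LinearMap.id_apply, sub_eq_zero]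
  constructor
  · intro e x
    exact (congrFun e x).symm
  · intro e
    funext x
    exact (e x).symm

theorem finrank_ker_one_sub_star [Finite X] (h : G) :
    finrank k ↥(ker (LinearMap.id - star k (X := X) h)) =
      Nat.card (MulAction.orbitRel.Quotient (Subgroup.zpowers h) X) := by
  classical
  have : Fintype X := Fintype.ofFinite X
  let Q := MulAction.orbitRel.Quotient (Subgroup.zpowers h) X
  have : Fintype Q := Fintype.ofFinite Q
  let π : X → Q := Quotient.mk''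
  have hπ : Function.Surjective π := Quotient.mk''_surjective
  let L : (Q → k) →ₗ[k] (X → k) := LinearMap.funLeft k k π
  have hL : Function.Injective L := LinearMap.funLeft_injective_of_surjective k k π hπ
  have hrange : range L = ker (LinearMap.id - star k (X := X) h) := by
    ext v
    rw [mem_ker_one_sub_star, mem_stab]
    constructor
    · rintro ⟨w, rfl⟩ x
      show w (π (h • x)) = w (π x)
      congr 1
      apply Quotient.sound
      exact ⟨⟨h, Subgroup.mem_zpowers h⟩, rfl⟩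
    · intro e
      have hle : Subgroup.zpowers h ≤ stab k v := by
        rw [Subgroup.zpowers_le]; exact e
      refine ⟨Quotient.lift v ?_, ?_⟩
      · rintro x y ⟨g, rfl⟩
        exact hle g.2 y
      · rfl
  rw [← hrange, LinearMap.finrank_range_of_inj hL, Module.finrank_fintype_fun_eq_card,
    Nat.card_eq_fintype_card]

theorem sub_star_mem (a b : G) (g : G) (hg : g ∈ Subgroup.closure ({a, b} : Set G))
    (v : X → k) :
    v - star k g v ∈ range (LinearMap.id - star k (X := X) a) ⊔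
      range (LinearMap.id - star k (X := X) b) := by
  induction hg using Subgroup.closure_induction generalizing v with
  | mem g hg =>
    rcases hg with rfl | rfl
    · exact Submodule.mem_sup_left ⟨v, rfl⟩
    · exact Submodule.mem_sup_right ⟨v, rfl⟩
  | one => rw [star_one, sub_self]; exact zero_mem _
  | mul g h _ _ ihg ihh =>
    have e : v - star k (g * h) v = (v - star k h v) + ((v - star k g v) - ((v - star k g v) -
        star k h (v - star k g v))) := by
      rw [star_mul, map_sub]; abel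
    rw [e]
    exact add_mem (ihh v) (sub_mem (ihg v) (ihh _))
  | inv g _ ih =>
    have e : v - star k g⁻¹ v = -(star k g⁻¹ v - star k g (star k g⁻¹ v)) := by
      rw [star_inv_star]; abel
    rw [e]
    exact neg_mem (ih _)

theorem le_finrank_sup_range [Finite X] [Nonempty X] [MulAction.IsPretransitive G X] (a b : G)
    (hgen : Subgroup.closure ({a, b} : Set G) = ⊤) :
    Nat.card X ≤ finrank k ↥(range (LinearMap.id - star k (X := X) a) ⊔
      range (LinearMap.id - star k (X := X) b)) + 1 := by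
  classical
  have : Fintype X := Fintype.ofFinite X
  obtain ⟨W, hW⟩ : ∃ W, W = range (LinearMap.id - star k (X := X) a) ⊔
      range (LinearMap.id - star k (X := X) b) := ⟨_, rfl⟩
  rw [← hW]
  let x0 : X := Classical.arbitrary X
  have h1 : ∀ x : X, (Pi.single x0 (1 : k) : X → k) - Pi.single x 1 ∈ W := by
    intro x
    obtain ⟨g, hg⟩ := MulAction.exists_smul_eq G x x0
    have := sub_star_mem k a b g (by rw [hgen]; exact Subgroup.mem_top g) (Pi.single x0 (1 : k))
    rw [star_single, ← hW] at this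
    have hg' : g⁻¹ • x0 = x := by rw [← hg, inv_smul_smul]
    rw [hg'] at this
    exact this
  have h2 : (⊤ : Submodule k (X → k)) ≤ W ⊔ span k {(Pi.single x0 (1 : k) : X → k)} := by
    rw [← (Pi.basisFun k X).span_eq, Submodule.span_le]
    rintro _ ⟨x, rfl⟩
    rw [Pi.basisFun_apply]
    have e : (Pi.single x (1 : k) : X → k) =
        -((Pi.single x0 (1 : k) : X → k) - Pi.single x 1) + Pi.single x0 1 := by abel
    rw [e]
    exact add_mem (Submodule.mem_sup_left (neg_mem (h1 x)))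
      (Submodule.mem_sup_right (Submodule.mem_span_singleton_self _))
  have h3 := Submodule.finrank_mono h2
  rw [finrank_top, Module.finrank_fintype_fun_eq_card, ← Nat.card_eq_fintype_card] at h3
  have h4 := Submodule.finrank_add_le_finrank_add_finrank W
    (span k {(Pi.single x0 (1 : k) : X → k)})
  have h5 : finrank k ↥(span k {(Pi.single x0 (1 : k) : X → k)}) = 1 :=
    finrank_span_singleton (fun h => one_ne_zero (α := k) (by simpa using congrFun h x0))
  omega

end permModule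


/-! ### The cocycle attached to a homomorphism on a finite index subgroup -/

section cocycle

variable {G : Type*} [Group G] (Γ : Subgroup G)

/-- the `Γ`-valued cocycle `κ(h, x) = out(h • x)⁻¹ · h · out(x)` -/
noncomputable def kappa (h : G) (x : G ⧸ Γ) : Γ :=
  ⟨(h • x).out⁻¹ * (h * x.out), by
    rw [← QuotientGroup.eq, QuotientGroup.out_eq']
    conv_lhs => rw [← QuotientGroup.out_eq' x]
    rfl⟩

theorem kappa_mul (h1 h2 : G) (x : G ⧸ Γ) :
    kappa Γ (h1 * h2) x = kappa Γ h1 (h2 • x) * kappa Γ h2 x := by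
  apply Subtype.ext
  show ((h1 * h2) • x).out⁻¹ * (h1 * h2 * x.out) =
    ((h1 • h2 • x).out⁻¹ * (h1 * (h2 • x).out)) * ((h2 • x).out⁻¹ * (h2 * x.out))
  rw [mul_smul]
  group

/-- `d_φ(h)(x) = φ(κ(h, x))` -/
noncomputable def dmap (h : G) : (Additive Γ →+ ℂ) →ₗ[ℂ] (G ⧸ Γ → ℂ) where
  toFun φ := fun x => φ (Additive.ofMul (kappa Γ h x))
  map_add' _ _ := rfl
  map_smul' _ _ := rfl

theorem dmap_apply (h : G) (φ : Additive Γ →+ ℂ) (x : G ⧸ Γ) :
    dmap Γ h φ x = φ (Additive.ofMul (kappa Γ h x)) := rfl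

theorem dmap_mul (φ : Additive Γ →+ ℂ) (h1 h2 : G) :
    dmap Γ (h1 * h2) φ = star ℂ h2 (dmap Γ h1 φ) + dmap Γ h2 φ := by
  funext x
  rw [Pi.add_apply, star_apply, dmap_apply, dmap_apply, dmap_apply, kappa_mul, ofMul_mul,
    map_add]

/-- the cocycle `e = d_φ + ∂m` -/
noncomputable def emap (h : G) : (Additive Γ →+ ℂ) × (G ⧸ Γ → ℂ) →ₗ[ℂ] (G ⧸ Γ → ℂ) :=
  dmap Γ h ∘ₗ LinearMap.fst ℂ _ _ + (star ℂ h - LinearMap.id) ∘ₗ LinearMap.snd ℂ _ _

theorem emap_apply (h : G) (p : (Additive Γ →+ ℂ) × (G ⧸ Γ → ℂ)) :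
    emap Γ h p = dmap Γ h p.1 + (star ℂ h p.2 - p.2) := rfl

theorem emap_mul (h1 h2 : G) (p : (Additive Γ →+ ℂ) × (G ⧸ Γ → ℂ)) :
    emap Γ (h1 * h2) p = star ℂ h2 (emap Γ h1 p) + emap Γ h2 p := by
  rw [emap_apply, emap_apply, emap_apply, dmap_mul, star_mul, map_add, map_sub]
  abel

theorem emap_one (p : (Additive Γ →+ ℂ) × (G ⧸ Γ → ℂ)) : emap Γ 1 p = 0 := by
  have h := emap_mul Γ 1 1 p
  rw [mul_one, star_one] at h
  have h' : emap Γ 1 p + 0 = emap Γ 1 p + emap Γ 1 p := by rw [add_zero]; exact h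
  exact (add_left_cancel h').symm

theorem emap_pow (h : G) (p : (Additive Γ →+ ℂ) × (G ⧸ Γ → ℂ)) (w : ℕ) (x : G ⧸ Γ) :
    emap Γ (h ^ w) p x = ∑ i ∈ Finset.range w, emap Γ h p (h ^ i • x) := by
  induction w generalizing x with
  | zero => rw [pow_zero, emap_one]; simp
  | succ w ih =>
    rw [pow_succ, emap_mul, Pi.add_apply, star_apply, ih, Finset.sum_range_succ']
    congr 1
    · refine Finset.sum_congr rfl fun i _ => ?_
      rw [pow_succ, mul_smul]
    · rw [pow_zero, one_smul]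

end cocycle


/-! ### The dimension bound -/

section main

theorem finrank_add_le_of_disjoint {k M : Type*} [Field k] [AddCommGroup M] [Module k M]
    [FiniteDimensional k M] (A F : Submodule k M) (h : A ⊓ F = ⊥) :
    finrank k ↥A + finrank k ↥F ≤ finrank k M := by
  have := Submodule.finrank_sup_add_finrank_inf_eq A F
  rw [h, finrank_bot, add_zero] at this
  rw [← this]
  exact Submodule.finrank_le _

/-- linear algebra bookkeeping for the dimension count -/
theorem finrank_le_of_triple {k E M : Type*} [Field k] [AddCommGroup E] [Module k E]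
    [AddCommGroup M] [Module k M] [FiniteDimensional k E] [FiniteDimensional k M]
    (VA VB VZ : Submodule k M) (fA fB fZ : E →ₗ[k] M) (τ : M →ₗ[k] M)
    (hA : ∀ p, fA p ∈ VA) (hB : ∀ p, fB p ∈ VB) (hZ : ∀ p, fZ p ∈ VZ)
    (hrel : ∀ p, fB p = τ (fA p) + fZ p)
    (hker : finrank k ↥(ker fA ⊓ ker fZ) ≤ 1) :
    finrank k E + finrank k ↥(VB ⊔ VZ) ≤
      1 + finrank k ↥VA + finrank k ↥VB + finrank k ↥VZ := by
  let Ψ : E →ₗ[k] ↥VA × ↥VB × ↥VZ :=
    (fA.codRestrict VA hA).prod ((fB.codRestrict VB hB).prod (fZ.codRestrict VZ hZ))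
  let Φ : ↥VA × ↥VB × ↥VZ →ₗ[k] M :=
    VB.subtype ∘ₗ LinearMap.fst k _ _ ∘ₗ LinearMap.snd k _ _
      - τ ∘ₗ VA.subtype ∘ₗ LinearMap.fst k _ _
      - VZ.subtype ∘ₗ LinearMap.snd k _ _ ∘ₗ LinearMap.snd k _ _
  have h1 : range Ψ ≤ ker Φ := by
    rintro _ ⟨p, rfl⟩
    rw [LinearMap.mem_ker]
    show fB p - τ (fA p) - fZ p = 0
    rw [hrel]; abel
  have h2 : ker Ψ ≤ ker fA ⊓ ker fZ := by
    intro p hp
    rw [LinearMap.mem_ker] at hp
    have e1 : fA p = 0 := congrArg (fun q : ↥VA × ↥VB × ↥VZ => (q.1 : M)) hp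
    have e2 : fZ p = 0 := congrArg (fun q : ↥VA × ↥VB × ↥VZ => (q.2.2 : M)) hp
    exact ⟨e1, e2⟩
  have h3 : VB ⊔ VZ ≤ range Φ := by
    rw [sup_le_iff]
    constructor
    · intro v hv
      refine ⟨(0, ⟨v, hv⟩, 0), ?_⟩
      show v - τ 0 - 0 = v
      rw [map_zero, sub_zero, sub_zero]
    · intro v hv
      refine ⟨(0, 0, -⟨v, hv⟩), ?_⟩
      show (0 : M) - τ 0 - (-v) = v
      rw [map_zero, sub_zero, zero_sub, neg_neg]
  have r1 := LinearMap.finrank_range_add_finrank_ker Ψ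
  have r2 := LinearMap.finrank_range_add_finrank_ker Φ
  have r3 := Submodule.finrank_mono h1
  have r4 := Submodule.finrank_mono h2
  have r5 := Submodule.finrank_mono h3
  have r6 : finrank k (↥VA × ↥VB × ↥VZ) = finrank k ↥VA + finrank k ↥VB + finrank k ↥VZ := by
    rw [Module.finrank_prod, Module.finrank_prod]; ring
  omega

variable {G : Type*} [Group G] (Γ : Subgroup G)

/-- `(1 + h + ⋯ + h^(w-1)) t = 0` -/
noncomputable def subZ (h : G) (w : ℕ) : Submodule ℂ (G ⧸ Γ → ℂ) :=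
  ker (∑ i ∈ Finset.range w, star ℂ (h ^ i))

theorem mem_subZ (h : G) (w : ℕ) (f : G ⧸ Γ → ℂ) :
    f ∈ subZ Γ h w ↔ ∑ i ∈ Finset.range w, star ℂ (h ^ i) f = 0 := by
  rw [subZ, LinearMap.mem_ker, LinearMap.sum_apply]

theorem mem_subZ' (h : G) (w : ℕ) (f : G ⧸ Γ → ℂ) :
    f ∈ subZ Γ h w ↔ ∀ x, ∑ i ∈ Finset.range w, f (h ^ i • x) = 0 := by
  rw [mem_subZ]
  constructor
  · intro e x
    have := congrFun e x
    rw [Finset.sum_apply] at this
    exact this
  · intro e
    funext x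
    rw [Finset.sum_apply]
    exact e x

theorem finrank_subZ_add_le [Finite (G ⧸ Γ)] (h : G) (w : ℕ) (hw : 0 < w) :
    finrank ℂ ↥(subZ Γ h w) +
      Nat.card (MulAction.orbitRel.Quotient (Subgroup.zpowers h) (G ⧸ Γ)) ≤ Nat.card (G ⧸ Γ) := by
  have : Fintype (G ⧸ Γ) := Fintype.ofFinite _
  have h0 : finrank ℂ ↥(ker (LinearMap.id - star ℂ (X := G ⧸ Γ) h)) =
      Nat.card (MulAction.orbitRel.Quotient (Subgroup.zpowers h) (G ⧸ Γ)) :=
    finrank_ker_one_sub_star ℂ (X := G ⧸ Γ) h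
  rw [← h0, Nat.card_eq_fintype_card, ← Module.finrank_fintype_fun_eq_card (R := ℂ)]
  refine finrank_add_le_of_disjoint _ _ ?_
  rw [eq_bot_iff]
  rintro f ⟨h1, h2⟩
  rw [SetLike.mem_coe, mem_subZ] at h1
  rw [SetLike.mem_coe, mem_ker_one_sub_star] at h2
  rw [Submodule.mem_bot]
  have hpow : ∀ i : ℕ, star ℂ (h ^ i) f = f := by
    intro i
    funext x
    exact (Subgroup.pow_mem _ h2 i) x
  have h3 : ∑ i ∈ Finset.range w, star ℂ (h ^ i) f = (w : ℂ) • f := by
    rw [Finset.sum_congr rfl (fun i _ => hpow i), Finset.sum_const, Finset.card_range,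
      Nat.cast_smul_eq_nsmul]
  rw [h3] at h1
  have hw' : (w : ℂ) ≠ 0 := by exact_mod_cast hw.ne'
  exact (smul_eq_zero.mp h1).resolve_left hw'

theorem emap_mem_subZ (h : G) (w : ℕ) (p : (Additive Γ →+ ℂ) × (G ⧸ Γ → ℂ))
    (hw : emap Γ (h ^ w) p = 0) : emap Γ h p ∈ subZ Γ h w := by
  rw [mem_subZ']
  intro x
  rw [← emap_pow, hw]
  rfl

theorem sub_star_mem_subZ (h : G) (w : ℕ) (hw : ∀ x : G ⧸ Γ, h ^ w • x = x) (m : G ⧸ Γ → ℂ) :
    m - star ℂ h m ∈ subZ Γ h w := by
  rw [mem_subZ']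
  intro x
  have e : ∀ i ∈ Finset.range w, (m - star ℂ h m) (h ^ i • x) =
      m (h ^ i • x) - m (h ^ (i + 1) • x) := by
    intro i _
    rw [Pi.sub_apply, star_apply, ← mul_smul, ← pow_succ']
  rw [Finset.sum_congr rfl e, Finset.sum_range_sub' (fun i => m (h ^ i • x)), pow_zero, one_smul,
    hw x, sub_self]

theorem range_le_subZ (h : G) (w : ℕ) (hw : ∀ x : G ⧸ Γ, h ^ w • x = x) :
    range (LinearMap.id - star ℂ (X := G ⧸ Γ) h) ≤ subZ Γ h w := by
  rintro _ ⟨m, rfl⟩
  exact sub_star_mem_subZ Γ h w hw m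

/-! #### The kernel -/

theorem emap_closure (a b : G) (p : (Additive Γ →+ ℂ) × (G ⧸ Γ → ℂ))
    (ha : emap Γ a p = 0) (hb : emap Γ b p = 0) (g : G)
    (hg : g ∈ Subgroup.closure ({a, b} : Set G)) : emap Γ g p = 0 := by
  induction hg using Subgroup.closure_induction with
  | mem g hg =>
    rcases hg with rfl | rfl
    · exact ha
    · exact hb
  | one => exact emap_one Γ p
  | mul g h _ _ ihg ihh => rw [emap_mul, ihg, ihh, map_zero, add_zero]
  | inv g _ ih =>
    have h := emap_mul Γ g g⁻¹ p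
    rw [mul_inv_cancel, emap_one, ih, map_zero, zero_add] at h
    exact h.symm

theorem fst_eq_zero_of_emap (p : (Additive Γ →+ ℂ) × (G ⧸ Γ → ℂ))
    (h : ∀ g, emap Γ g p = 0) : p.1 = 0 := by
  refine AddMonoidHom.ext fun γ' => ?_
  obtain ⟨γ, rfl⟩ : ∃ γ : Γ, Additive.ofMul γ = γ' := ⟨Additive.toMul γ', rfl⟩
  obtain ⟨x0, hx0⟩ : ∃ x0 : G ⧸ Γ, x0 = QuotientGroup.mk 1 := ⟨_, rfl⟩
  have hs : x0.out ∈ Γ := by
    have h1 : (QuotientGroup.mk (1 : G) : G ⧸ Γ) = QuotientGroup.mk x0.out := by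
      rw [QuotientGroup.out_eq', hx0]
    rw [QuotientGroup.eq, inv_one, one_mul] at h1
    exact h1
  have hx : (γ : G) • x0 = x0 := by
    rw [hx0]
    show (QuotientGroup.mk ((γ : G) * 1) : G ⧸ Γ) = QuotientGroup.mk 1
    rw [QuotientGroup.eq, mul_one, mul_one]
    exact inv_mem γ.2
  have hk : kappa Γ (γ : G) x0 = (⟨x0.out, hs⟩ : Γ)⁻¹ * γ * ⟨x0.out, hs⟩ := by
    apply Subtype.ext
    show ((γ : G) • x0).out⁻¹ * ((γ : G) * x0.out) = x0.out⁻¹ * γ * x0.out
    rw [hx, mul_assoc]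
  have e := congrFun (h (γ : G)) x0
  rw [emap_apply, Pi.add_apply, Pi.sub_apply, dmap_apply, star_apply, hx, sub_self, add_zero, hk,
    ofMul_mul, ofMul_mul, ofMul_inv, map_add, map_add, map_neg, Pi.zero_apply] at e
  rw [AddMonoidHom.zero_apply]
  linear_combination e

theorem snd_const_of_emap (p : (Additive Γ →+ ℂ) × (G ⧸ Γ → ℂ))
    (h : ∀ g, emap Γ g p = 0) (x y : G ⧸ Γ) : p.2 x = p.2 y := by
  have h1 := fst_eq_zero_of_emap Γ p h
  obtain ⟨g, rfl⟩ := MulAction.exists_smul_eq G y x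
  have e := congrFun (h g) y
  rw [emap_apply, h1, map_zero, zero_add, Pi.sub_apply, star_apply] at e
  exact sub_eq_zero.mp e

end main

end Fermat.Agent.S21.Parabolic

namespace Fermat.Agent.S21

open Module Submodule LinearMap Parabolic

/-- **S21a, abstract form.**  `G = ⟨a, b⟩`, `H` of finite index, `φ : H → ℂ` additive characters
killing every element of `H` that is `G`-conjugate to a power of `b`. -/
theorem finrank_parabolic_le {G : Type} [Group G] (H : Subgroup G) [H.FiniteIndex] (a b : G)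
    (hgen : Subgroup.closure ({a, b} : Set G) = ⊤) (ha : IsOfFinOrder a)
    (hab : IsOfFinOrder (a * b))
    (P : Submodule ℂ (Additive H →+ ℂ))
    (hP : ∀ φ ∈ P, ∀ (g : G) (k : ℤ) (h : g * b ^ k * g⁻¹ ∈ H),
      φ (Additive.ofMul ⟨g * b ^ k * g⁻¹, h⟩) = 0) :
    FiniteDimensional ℂ P ∧
    (Module.finrank ℂ P : ℤ) + Nat.card (MulAction.orbitRel.Quotient (Subgroup.zpowers a) (G ⧸ H))
        + Nat.card (MulAction.orbitRel.Quotient (Subgroup.zpowers (a * b)) (G ⧸ H))
        + Nat.card (MulAction.orbitRel.Quotient (Subgroup.zpowers b) (G ⧸ H))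
      ≤ Nat.card (G ⧸ H) + 2 := by
  classical
  have hfin : Finite (G ⧸ H) := Subgroup.finite_quotient_of_finiteIndex
  have : Fintype (G ⧸ H) := Fintype.ofFinite _
  obtain ⟨U, hU⟩ : ∃ U, U = a * b := ⟨_, rfl⟩
  rw [← hU] at hab ⊢
  obtain ⟨da, hda, hda1⟩ : ∃ d, 0 < d ∧ a ^ d = 1 :=
    ⟨orderOf a, ha.orderOf_pos, pow_orderOf_eq_one a⟩
  obtain ⟨dU, hdU, hdU1⟩ : ∃ d, 0 < d ∧ U ^ d = 1 :=
    ⟨orderOf U, hab.orderOf_pos, pow_orderOf_eq_one U⟩
  obtain ⟨w, hw, hw1⟩ : ∃ w, 0 < w ∧ ∀ x : G ⧸ H, b ^ w • x = x := by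
    obtain ⟨σ, hσ⟩ : ∃ σ : Equiv.Perm (G ⧸ H), σ = MulAction.toPerm b := ⟨_, rfl⟩
    refine ⟨orderOf σ, (isOfFinOrder_of_finite σ).orderOf_pos, fun x => ?_⟩
    have h1 : σ ^ orderOf σ = MulAction.toPerm (b ^ orderOf σ) := by
      rw [hσ]
      exact (map_pow (MulAction.toPermHom G (G ⧸ H)) b _).symm
    rw [pow_orderOf_eq_one] at h1
    have h2 := congrArg (fun τ : Equiv.Perm (G ⧸ H) => τ x) h1
    simp only [Equiv.Perm.one_apply, MulAction.toPerm_apply] at h2
    exact h2.symm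
  -- the cocycle vanishes on `b ^ w`
  have hbw : ∀ p : (Additive H →+ ℂ) × (G ⧸ H → ℂ), p.1 ∈ P → emap H (b ^ w) p = 0 := by
    intro p hp
    funext x
    have hk : ((kappa H (b ^ w) x : H) : G) = x.out⁻¹ * b ^ (w : ℤ) * x.out⁻¹⁻¹ := by
      show (b ^ w • x).out⁻¹ * (b ^ w * x.out) = _
      rw [hw1 x, zpow_natCast, inv_inv, mul_assoc]
    have hmem : x.out⁻¹ * b ^ (w : ℤ) * x.out⁻¹⁻¹ ∈ H := by
      rw [← hk]; exact (kappa H (b ^ w) x).2
    have e : kappa H (b ^ w) x = ⟨_, hmem⟩ := Subtype.ext hk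
    rw [emap_apply, Pi.add_apply, Pi.sub_apply, dmap_apply, e, hP _ hp x.out⁻¹ w hmem, star_apply,
      hw1 x, sub_self, add_zero, Pi.zero_apply]
  have hone_smul : ∀ h : G, ∀ d : ℕ, h ^ d = 1 → ∀ x : G ⧸ H, h ^ d • x = x := by
    intro h d hd x
    rw [hd, one_smul]
  -- the maps
  obtain ⟨ι, hι⟩ : ∃ ι : ↥P × (G ⧸ H → ℂ) →ₗ[ℂ] (Additive H →+ ℂ) × (G ⧸ H → ℂ),
      ι = LinearMap.prodMap P.subtype LinearMap.id := ⟨_, rfl⟩
  have hι1 : ∀ p, (ι p).1 = (p.1 : Additive H →+ ℂ) := fun p => by rw [hι]; rfl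
  have hι2 : ∀ p, (ι p).2 = p.2 := fun p => by rw [hι]; rfl
  have hιP : ∀ p, (ι p).1 ∈ P := fun p => by rw [hι1]; exact p.1.2
  have hA : ∀ p, (emap H a ∘ₗ ι) p ∈ subZ H a da := fun p =>
    emap_mem_subZ H a da _ (by rw [hda1]; exact emap_one H _)
  have hB : ∀ p, (emap H U ∘ₗ ι) p ∈ subZ H U dU := fun p =>
    emap_mem_subZ H U dU _ (by rw [hdU1]; exact emap_one H _)
  have hZ : ∀ p, (emap H b ∘ₗ ι) p ∈ subZ H b w := fun p =>
    emap_mem_subZ H b w _ (hbw _ (hιP p))
  have hrel : ∀ p, (emap H U ∘ₗ ι) p = star ℂ b ((emap H a ∘ₗ ι) p) + (emap H b ∘ₗ ι) p := by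
    intro p
    show emap H U (ι p) = star ℂ b (emap H a (ι p)) + emap H b (ι p)
    rw [hU, emap_mul]
  -- the kernel
  have hkerall : ∀ p : ↥P × (G ⧸ H → ℂ), p ∈ ker (emap H a ∘ₗ ι) ⊓ ker (emap H b ∘ₗ ι) →
      ∀ g, emap H g (ι p) = 0 := by
    rintro p ⟨h1, h2⟩ g
    exact emap_closure H a b (ι p) h1 h2 g (by rw [hgen]; exact Subgroup.mem_top g)
  have hker : finrank ℂ ↥(ker (emap H a ∘ₗ ι) ⊓ ker (emap H b ∘ₗ ι)) ≤ 1 := by
    have hle : ker (emap H a ∘ₗ ι) ⊓ ker (emap H b ∘ₗ ι) ≤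
        span ℂ {((0 : ↥P), (fun _ => 1 : G ⧸ H → ℂ))} := by
      intro p hp
      have h0 := hkerall p hp
      have h1 := fst_eq_zero_of_emap H (ι p) h0
      have h2 := snd_const_of_emap H (ι p) h0
      rw [hι1] at h1
      rw [Submodule.mem_span_singleton]
      refine ⟨p.2 (QuotientGroup.mk 1), ?_⟩
      refine Prod.ext ?_ ?_
      · apply Subtype.ext
        rw [h1]
        simp
      · funext x
        have := h2 x (QuotientGroup.mk 1)
        rw [hι2] at this
        rw [this]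
        simp
    have h3 := Submodule.finrank_mono hle
    have h4 := finrank_span_le_card (R := ℂ) ({((0 : ↥P), (fun _ => 1 : G ⧸ H → ℂ))} : Set _)
    simp only [Set.toFinset_singleton, Finset.card_singleton] at h4
    exact h3.trans h4
  -- finite-dimensionality of `P`
  have hPfin : FiniteDimensional ℂ ↥P := by
    obtain ⟨j, hj⟩ : ∃ j : ↥P →ₗ[ℂ] (G ⧸ H → ℂ) × (G ⧸ H → ℂ),
        j = ((emap H a ∘ₗ ι).prod (emap H b ∘ₗ ι)) ∘ₗ LinearMap.inl ℂ ↥P (G ⧸ H → ℂ) := ⟨_, rfl⟩
    refine FiniteDimensional.of_injective j ?_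
    rw [← LinearMap.ker_eq_bot, eq_bot_iff]
    intro φ hφ
    rw [LinearMap.mem_ker, hj] at hφ
    have h1 : (φ, (0 : G ⧸ H → ℂ)) ∈ ker (emap H a ∘ₗ ι) ⊓ ker (emap H b ∘ₗ ι) :=
      ⟨congrArg Prod.fst hφ, congrArg Prod.snd hφ⟩
    have h2 := fst_eq_zero_of_emap H (ι (φ, 0)) (hkerall _ h1)
    rw [hι1] at h2
    rw [Submodule.mem_bot]
    exact Subtype.ext h2
  refine ⟨hPfin, ?_⟩
  have key := finrank_le_of_triple (subZ H a da) (subZ H U dU) (subZ H b w) (emap H a ∘ₗ ι)
    (emap H U ∘ₗ ι) (emap H b ∘ₗ ι) (star ℂ b) hA hB hZ hrel hker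
  have hE : finrank ℂ (↥P × (G ⧸ H → ℂ)) = finrank ℂ ↥P + Nat.card (G ⧸ H) := by
    rw [Module.finrank_prod, Module.finrank_fintype_fun_eq_card, Nat.card_eq_fintype_card]
  have hgen' : Subgroup.closure ({U, b} : Set G) = ⊤ := by
    rw [eq_top_iff, ← hgen, Subgroup.closure_le]
    intro g hg
    rcases hg with hg | hg
    · have e : g = U * b⁻¹ := by rw [hg, hU]; group
      rw [e]
      exact mul_mem (Subgroup.subset_closure (Set.mem_insert _ _))
        (inv_mem (Subgroup.subset_closure (Set.mem_insert_of_mem _ rfl)))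
    · exact Subgroup.subset_closure (Set.mem_insert_of_mem _ hg)
  have hsup : Nat.card (G ⧸ H) ≤ finrank ℂ ↥(subZ H U dU ⊔ subZ H b w) + 1 := by
    have h1 := le_finrank_sup_range ℂ (X := G ⧸ H) U b hgen'
    have h2 : range (LinearMap.id - star ℂ (X := G ⧸ H) U) ⊔
        range (LinearMap.id - star ℂ (X := G ⧸ H) b) ≤ subZ H U dU ⊔ subZ H b w :=
      sup_le_sup (range_le_subZ H U dU (hone_smul U dU hdU1)) (range_le_subZ H b w hw1)
    have h3 := Submodule.finrank_mono h2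
    omega
  have cA := finrank_subZ_add_le H a da hda
  have cB := finrank_subZ_add_le H U dU hdU
  have cZ := finrank_subZ_add_le H b w hw
  rw [hE] at key
  omega

/-! ### The modular group -/

section concrete

open CongruenceSubgroup ModularCurve ModularCurve.Period
open scoped MatrixGroups

theorem Parabolic.trace_conj_T_zpow (g : SL(2, ℤ)) (k : ℤ) :
    ((g * ModularGroup.T ^ k * g⁻¹ : SL(2, ℤ)) : Matrix (Fin 2) (Fin 2) ℤ).trace = 2 := by
  rw [Matrix.SpecialLinearGroup.coe_mul, Matrix.SpecialLinearGroup.coe_mul,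
    Matrix.trace_mul_cycle, ← Matrix.SpecialLinearGroup.coe_mul, inv_mul_cancel,
    Matrix.SpecialLinearGroup.coe_one, one_mul, ModularGroup.coe_T_zpow, Matrix.trace_fin_two_of]
  norm_num

theorem Parabolic.parabolicHoms_aux (N : ℕ) [NeZero N] :
    FiniteDimensional ℂ (parabolicHoms ℂ (Gamma0 N) ℂ) ∧
    (Module.finrank ℂ (parabolicHoms ℂ (Gamma0 N) ℂ) : ℤ)
        + Nat.card (MulAction.orbitRel.Quotient (Subgroup.zpowers ModularGroup.S)
            (SL(2, ℤ) ⧸ Gamma0 N))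
        + Nat.card (MulAction.orbitRel.Quotient
            (Subgroup.zpowers (ModularGroup.S * ModularGroup.T)) (SL(2, ℤ) ⧸ Gamma0 N))
        + Nat.card (MulAction.orbitRel.Quotient (Subgroup.zpowers ModularGroup.T)
            (SL(2, ℤ) ⧸ Gamma0 N))
      ≤ Nat.card (SL(2, ℤ) ⧸ Gamma0 N) + 2 := by
  refine finrank_parabolic_le (Gamma0 N) ModularGroup.S ModularGroup.T
    SpecialLinearGroup.SL2Z_generators ?_ ?_ _ ?_
  · exact orderOf_pos_iff.mp (by rw [Fermat.Agent.S24.CountFix.orderOf_S]; norm_num)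
  · exact orderOf_pos_iff.mp (by rw [Fermat.Agent.S24.CountFix.orderOf_ST]; norm_num)
  · intro φ hφ g k h
    refine hφ _ ?_
    show ((g * ModularGroup.T ^ k * g⁻¹ : SL(2, ℤ)) : Matrix (Fin 2) (Fin 2) ℤ).trace ^ 2 = 4
    rw [trace_conj_T_zpow]
    norm_num

/-- **S21a**: the space of parabolic homomorphisms is finite-dimensional. -/
theorem finiteDimensional_parabolicHoms (N : ℕ) [NeZero N] :
    FiniteDimensional ℂ (parabolicHoms ℂ (Gamma0 N) ℂ) :=
  (parabolicHoms_aux N).1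

/-- **S21a**: `dim_ℂ parabolicHoms ≤ 2 g`. -/
theorem finrank_parabolicHoms_le (N : ℕ) [NeZero N] :
    (Module.finrank ℂ (parabolicHoms ℂ (Gamma0 N) ℂ) : ℚ) ≤ 2 * genusFormula N := by
  have h := (parabolicHoms_aux N).2
  have hn := Fermat.Agent.S24.Count.card_quotient N
  have h2 := Fermat.Agent.S24.Count.two_mul_card_orbits_S N
  have h3 := Fermat.Agent.S24.Count.three_mul_card_orbits_ST N
  have hT := Fermat.Agent.S24.Count.card_orbits_T N
  rw [hn, hT] at h
  generalize Nat.card (MulAction.orbitRel.Quotient (Subgroup.zpowers ModularGroup.S)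
    (SL(2, ℤ) ⧸ Gamma0 N)) = cS at h h2
  generalize Nat.card (MulAction.orbitRel.Quotient
    (Subgroup.zpowers (ModularGroup.S * ModularGroup.T)) (SL(2, ℤ) ⧸ Gamma0 N)) = cST at h h3
  have h' : (Module.finrank ℂ (parabolicHoms ℂ (Gamma0 N) ℂ) : ℚ) + cS + cST + cuspCount N ≤
      dedekindPsi N + 2 := by exact_mod_cast h
  have h2' : (2 : ℚ) * cS = dedekindPsi N + nuTwo N := by exact_mod_cast h2
  have h3' : (3 : ℚ) * cST = dedekindPsi N + 2 * nuThree N := by exact_mod_cast h3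
  unfold genusFormula
  linarith

end concrete

end Fermat.Agent.S21
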