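import Mathlib
import Fermat.Prelude.Def_ModularCurve_PeriodHomPair
import Fermat.Prelude.Def_ModularCurve_GenusNumerics
import Fermat.Agent.S21_Parabolic

/-!
# S21 / S20: dimension bookkeeping around the Eichler–Shimura pair

Conditional forms (the analytic inputs `periodHomPair_injective`, `range_periodHomPair_le`
are hypotheses):
* `finrank_cuspForm_le_of`: `dim S₂(Γ₀(N)) ≤ g`;
* `result_of_le_of`: if moreover `g ≤ dim S₂(Γ₀(N))` then the pair is an isomorphism onto the
  parabolic homomorphisms.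
-/

set_option autoImplicit false

open CongruenceSubgroup ModularCurve ModularCurve.Period
open scoped MatrixGroups

namespace Fermat.Agent.S21

open Module

/-- the period pair, with values restricted to the parabolic homomorphisms -/
theorem Parabolic.finrank_prod_le (N : ℕ) [NeZero N]
    (hinj : Function.Injective (periodHomPair N))
    (hrange : LinearMap.range (periodHomPair N) ≤ parabolicHoms ℂ (Gamma0 N) ℂ) :
    FiniteDimensional ℂ (CuspForm (Gamma0 N) 2) ∧
      2 * finrank ℂ (CuspForm (Gamma0 N) 2) ≤ finrank ℂ (parabolicHoms ℂ (Gamma0 N) ℂ) := by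
  have hW : FiniteDimensional ℂ (parabolicHoms ℂ (Gamma0 N) ℂ) := finiteDimensional_parabolicHoms N
  obtain ⟨Λ, hΛ⟩ : ∃ Λ : (CuspForm (Gamma0 N) 2 × CuspForm (Gamma0 N) 2) →ₗ[ℂ]
      ↥(parabolicHoms ℂ (Gamma0 N) ℂ), ∀ p, (Λ p : Additive (Gamma0 N) →+ ℂ) = periodHomPair N p :=
    ⟨LinearMap.codRestrict _ (periodHomPair N) (fun p => hrange ⟨p, rfl⟩), fun _ => rfl⟩
  have hΛinj : Function.Injective Λ := by
    intro p q h
    apply hinj
    rw [← hΛ, ← hΛ, h]
  have hVV : FiniteDimensional ℂ (CuspForm (Gamma0 N) 2 × CuspForm (Gamma0 N) 2) :=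
    FiniteDimensional.of_injective Λ hΛinj
  have hV : FiniteDimensional ℂ (CuspForm (Gamma0 N) 2) :=
    FiniteDimensional.of_injective
      (LinearMap.inl ℂ (CuspForm (Gamma0 N) 2) (CuspForm (Gamma0 N) 2)) LinearMap.inl_injective
  refine ⟨hV, ?_⟩
  have h1 := LinearMap.finrank_le_finrank_of_injective hΛinj
  rw [Module.finrank_prod] at h1
  omega

/-- `dim S₂(Γ₀(N)) ≤ g`, given the analytic properties of the period pair. -/
theorem finrank_cuspForm_le_of (N : ℕ) [NeZero N]
    (hinj : Function.Injective (periodHomPair N))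
    (hrange : LinearMap.range (periodHomPair N) ≤ parabolicHoms ℂ (Gamma0 N) ℂ) :
    FiniteDimensional ℂ (CuspForm (Gamma0 N) 2) ∧
    (Module.finrank ℂ (CuspForm (Gamma0 N) 2) : ℚ) ≤ genusFormula N := by
  obtain ⟨hV, h1⟩ := Parabolic.finrank_prod_le N hinj hrange
  refine ⟨hV, ?_⟩
  have h2 := finrank_parabolicHoms_le N
  have h3 : (2 : ℚ) * (finrank ℂ (CuspForm (Gamma0 N) 2) : ℚ) ≤
      (finrank ℂ (parabolicHoms ℂ (Gamma0 N) ℂ) : ℚ) := by exact_mod_cast h1
  linarith

/-- Eichler–Shimura, given the analytic properties of the period pair and the lower bound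
`g ≤ dim S₂(Γ₀(N))`. -/
theorem result_of_le_of (N : ℕ) [NeZero N]
    (hinj : Function.Injective (periodHomPair N))
    (hrange : LinearMap.range (periodHomPair N) ≤ parabolicHoms ℂ (Gamma0 N) ℂ)
    (h20 : genusFormula N ≤ (Module.finrank ℂ (CuspForm (Gamma0 N) 2) : ℚ)) :
    Function.Injective (periodHomPair N)
      ∧ LinearMap.range (periodHomPair N) = parabolicHoms ℂ (Gamma0 N) ℂ := by
  refine ⟨hinj, ?_⟩
  have hW : FiniteDimensional ℂ (parabolicHoms ℂ (Gamma0 N) ℂ) := finiteDimensional_parabolicHoms N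
  obtain ⟨hV, -⟩ := Parabolic.finrank_prod_le N hinj hrange
  refine Submodule.eq_of_le_of_finrank_le hrange ?_
  rw [LinearMap.finrank_range_of_inj hinj, Module.finrank_prod]
  have h2 := finrank_parabolicHoms_le N
  have h3 : (finrank ℂ (parabolicHoms ℂ (Gamma0 N) ℂ) : ℚ) ≤
      ((finrank ℂ (CuspForm (Gamma0 N) 2) + finrank ℂ (CuspForm (Gamma0 N) 2) : ℕ) : ℚ) := by
    push_cast
    linarith
  exact_mod_cast h3

/-- `dim S₂(Γ₀(N)) = g`, given the analytic properties of the period pair and the lower bound. -/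
theorem finrank_cuspForm_eq_of (N : ℕ) [NeZero N]
    (hinj : Function.Injective (periodHomPair N))
    (hrange : LinearMap.range (periodHomPair N) ≤ parabolicHoms ℂ (Gamma0 N) ℂ)
    (h20 : genusFormula N ≤ (Module.finrank ℂ (CuspForm (Gamma0 N) 2) : ℚ)) :
    (Module.finrank ℂ (CuspForm (Gamma0 N) 2) : ℚ) = genusFormula N :=
  le_antisymm (finrank_cuspForm_le_of N hinj hrange).2 h20

end Fermat.Agent.S21
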