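import Mathlib
import Fermat.Prelude.Def_ModularCurve_PeriodHomPair
import Fermat.Agent.S21_PeriodLinear

/-!
# S21b (part 2): injectivity of the Eichler–Shimura pair

* `const_of_re_invariant`: a holomorphic function on the upper half plane whose real part is
  invariant under `Gamma0 N` and which has limits at all cusps is constant (maximum modulus
  principle for the exponential, on the `q`-discs at the cusps).
* `periodHomPair_injective`, `range_periodHomPair_le`.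
-/

set_option autoImplicit false

open UpperHalfPlane Filter Topology CongruenceSubgroup ModularCurve ModularCurve.Period
open scoped MatrixGroups Manifold ModularForm

namespace Fermat.Agent.S21

local notation "𝕢" => Function.Periodic.qParam

/-- bound for the cusp function in terms of a bound for the function -/
theorem norm_cuspFunction_le {u : ℍ → ℂ} {h : ℝ} (hh : 0 < h)
    (hper : Function.Periodic (u ∘ ofComplex) h) (hhol : MDiff u) (hbdd : IsBoundedAtImInfty u)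
    {B : ℝ} (hB : ∀ w : ℍ, ‖u w‖ ≤ B) {q : ℂ} (hq : ‖q‖ < 1) :
    ‖cuspFunction h u q‖ ≤ B := by
  have hne : ∀ q : ℂ, ‖q‖ < 1 → q ≠ 0 → ‖cuspFunction h u q‖ ≤ B := by
    intro q hq hq0
    have him := Function.Periodic.im_invQParam_pos_of_norm_lt_one hh hq hq0
    have h1 := eq_cuspFunction (f := u) ⟨_, him⟩ hh.ne' hper
    rw [UpperHalfPlane.coe_mk, Function.Periodic.qParam_right_inv hh.ne' hq0] at h1
    rw [h1]
    exact hB _
  rcases eq_or_ne q 0 with rfl | hq0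
  · have hc : ContinuousAt (cuspFunction h u) 0 :=
      (differentiableAt_cuspFunction hh hper hhol hbdd (by simp)).continuousAt
    have ht : Tendsto (fun q => ‖cuspFunction h u q‖) (𝓝[≠] (0 : ℂ)) (𝓝 ‖cuspFunction h u 0‖) :=
      hc.norm.tendsto.mono_left nhdsWithin_le_nhds
    refine le_of_tendsto ht ?_
    have h1 : ∀ᶠ q : ℂ in 𝓝[≠] (0 : ℂ), q ∈ Metric.ball (0 : ℂ) 1 :=
      mem_nhdsWithin_of_mem_nhds (Metric.ball_mem_nhds 0 one_pos)
    filter_upwards [h1, self_mem_nhdsWithin] with q hq1 hq0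
    exact hne q (mem_ball_zero_iff.mp hq1) hq0
  · exact hne q hq hq0

section MaxMod

variable {N : ℕ} {Φ : ℍ → ℂ}

theorem comp_smul_periodic
    (hinv : ∀ γ ∈ Gamma0 N, ∃ κ : ℂ, κ.re = 0 ∧ ∀ z : ℍ, Φ (γ • z) = Φ z + κ)
    (hlim : ∀ δ : SL(2, ℤ), ∃ L : ℂ, Tendsto (fun w : ℍ => Φ (δ • w)) atImInfty (𝓝 L))
    (δ : SL(2, ℤ)) (w : ℍ) :
    Φ (δ • ((N : ℝ) +ᵥ w)) = Φ (δ • w) := by
  obtain ⟨κ, -, hκ⟩ := hinv _ (conj_T_pow_mem_Gamma0 N δ)
  have hT : ∀ w : ℍ, Φ (δ • (ModularGroup.T ^ (N : ℤ) • w)) = Φ (δ • w) + κ := by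
    intro w
    rw [← hκ (δ • w), ← mul_smul, ← mul_smul]
    congr 2
    group
  obtain ⟨L, hL⟩ := hlim δ
  have h1 : Tendsto (fun w : ℍ => Φ (δ • (ModularGroup.T ^ (N : ℤ) • w))) atImInfty (𝓝 L) :=
    hL.comp (tendsto_T_zpow_smul (N : ℤ))
  have h2 : Tendsto (fun w : ℍ => Φ (δ • (ModularGroup.T ^ (N : ℤ) • w))) atImInfty (𝓝 (L + κ)) := by
    simp only [hT]
    exact hL.add_const κ
  have hκ0 : κ = 0 := by
    have := tendsto_nhds_unique h1 h2
    linear_combination -this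
  have := hT w
  rw [hκ0, add_zero, modular_T_zpow_smul, Int.cast_natCast] at this
  exact this


theorem mdiff_comp_smul (hΦ : MDiff Φ) (δ : SL(2, ℤ)) : MDiff (fun w : ℍ => Φ (δ • w)) := by
  have h := MDifferentiable.slash hΦ 0 (δ : GL (Fin 2) ℝ)
  have he : (Φ ∣[(0 : ℤ)] δ) = fun w : ℍ => Φ (δ • w) := by
    funext w
    rw [ModularForm.SL_slash_apply]
    simp
  rw [← he]
  exact h

theorem mdiff_exp_comp_smul (hΦ : MDiff Φ) (δ : SL(2, ℤ)) :
    MDiff (fun w : ℍ => Complex.exp (Φ (δ • w))) := by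
  have h := mdiff_comp_smul hΦ δ
  rw [UpperHalfPlane.mdifferentiable_iff] at h ⊢
  exact h.cexp

theorem exp_comp_smul_periodic
    (hinv : ∀ γ ∈ Gamma0 N, ∃ κ : ℂ, κ.re = 0 ∧ ∀ z : ℍ, Φ (γ • z) = Φ z + κ)
    (hlim : ∀ δ : SL(2, ℤ), ∃ L : ℂ, Tendsto (fun w : ℍ => Φ (δ • w)) atImInfty (𝓝 L))
    (δ : SL(2, ℤ)) :
    Function.Periodic ((fun w : ℍ => Complex.exp (Φ (δ • w))) ∘ ofComplex) (N : ℝ) := by
  intro w
  by_cases hw : 0 < w.im
  · have hw' : 0 < (w + ((N : ℝ) : ℂ)).im := by simpa using hw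
    rw [Function.comp_apply, Function.comp_apply, ofComplex_apply_of_im_pos hw',
      ofComplex_apply_of_im_pos hw]
    have h := comp_smul_periodic hinv hlim δ ⟨w, hw⟩
    show Complex.exp (Φ (δ • _)) = Complex.exp (Φ (δ • _))
    rw [← h]
    refine congrArg _ (congrArg _ (congrArg _ (UpperHalfPlane.ext ?_)))
    simp [add_comm]
  · have hw0 : w.im ≤ 0 := not_lt.mp hw
    have hw' : (w + ((N : ℝ) : ℂ)).im ≤ 0 := by simpa using hw0
    rw [Function.comp_apply, Function.comp_apply, ofComplex_apply_of_im_nonpos hw',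
      ofComplex_apply_of_im_nonpos hw0]

theorem exp_comp_smul_bdd
    (hlim : ∀ δ : SL(2, ℤ), ∃ L : ℂ, Tendsto (fun w : ℍ => Φ (δ • w)) atImInfty (𝓝 L))
    (δ : SL(2, ℤ)) :
    IsBoundedAtImInfty (fun w : ℍ => Complex.exp (Φ (δ • w))) := by
  obtain ⟨L, hL⟩ := hlim δ
  have h : Tendsto (fun w : ℍ => Complex.exp (Φ (δ • w))) atImInfty (𝓝 (Complex.exp L)) :=
    (Complex.continuous_exp.tendsto L).comp hL
  exact h.isBigO_one ℝ


theorem norm_qParam_le_of_half_le {h : ℝ} (hh : 0 < h) {w : ℍ} (hw : 1 / 2 ≤ w.im) :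
    ‖𝕢 h (w : ℂ)‖ ≤ Real.exp (-Real.pi / h) := by
  rw [Function.Periodic.norm_qParam]
  apply Real.exp_le_exp.mpr
  rw [div_le_div_iff_of_pos_right hh, UpperHalfPlane.coe_im]
  nlinarith [Real.pi_pos]

theorem exists_max_cusp [NeZero N] (hΦ : MDiff Φ)
    (hinv : ∀ γ ∈ Gamma0 N, ∃ κ : ℂ, κ.re = 0 ∧ ∀ z : ℍ, Φ (γ • z) = Φ z + κ)
    (hlim : ∀ δ : SL(2, ℤ), ∃ L : ℂ, Tendsto (fun w : ℍ => Φ (δ • w)) atImInfty (𝓝 L))
    (δ : SL(2, ℤ)) :
    ∃ q₀ : ℂ, ‖q₀‖ < 1 ∧ ∀ w : ℍ, 1 / 2 ≤ w.im →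
      ‖Complex.exp (Φ (δ • w))‖ ≤
        ‖cuspFunction (N : ℝ) (fun w : ℍ => Complex.exp (Φ (δ • w))) q₀‖ := by
  have hN := natCast_pos_real N
  set u : ℍ → ℂ := fun w : ℍ => Complex.exp (Φ (δ • w)) with hu
  have hper := exp_comp_smul_periodic hinv hlim δ
  have hd := differentiableOn_cuspFunction_ball hN hper (mdiff_exp_comp_smul hΦ δ)
    (exp_comp_smul_bdd hlim δ)
  set r : ℝ := Real.exp (-Real.pi / N) with hr
  have hr1 : r < 1 := by
    rw [hr, ← Real.exp_zero, Real.exp_lt_exp]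
    exact div_neg_of_neg_of_pos (neg_lt_zero.mpr Real.pi_pos) hN
  have hK : IsCompact (Metric.closedBall (0 : ℂ) r) := isCompact_closedBall 0 r
  have hsub : Metric.closedBall (0 : ℂ) r ⊆ Metric.ball 0 1 := Metric.closedBall_subset_ball hr1
  have hcont : ContinuousOn (fun q => ‖cuspFunction (N : ℝ) u q‖) (Metric.closedBall (0 : ℂ) r) :=
    (hd.continuousOn.mono hsub).norm
  obtain ⟨q₀, hq₀, hmax⟩ := hK.exists_isMaxOn
    ⟨0, Metric.mem_closedBall_self (Real.exp_pos _).le⟩ hcont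
  refine ⟨q₀, mem_ball_zero_iff.mp (hsub hq₀), fun w hw => ?_⟩
  have h1 := eq_cuspFunction (f := u) w hN.ne' hper
  show ‖u w‖ ≤ _
  rw [← h1]
  exact hmax (mem_closedBall_zero_iff.mpr (norm_qParam_le_of_half_le hN hw))

/-- **Maximum principle on the modular curve**: a holomorphic function on the upper half plane
whose real part is invariant under `Gamma0 N` and which has limits at all cusps is constant. -/
theorem const_of_re_invariant (N : ℕ) [NeZero N] (Φ : ℍ → ℂ) (hΦ : MDiff Φ)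
    (hinv : ∀ γ ∈ Gamma0 N, ∃ κ : ℂ, κ.re = 0 ∧ ∀ z : ℍ, Φ (γ • z) = Φ z + κ)
    (hlim : ∀ δ : SL(2, ℤ), ∃ L : ℂ, Tendsto (fun w : ℍ => Φ (δ • w)) atImInfty (𝓝 L)) :
    ∃ c : ℂ, ∀ z : ℍ, Φ z = c := by
  classical
  have hN := natCast_pos_real N
  choose q₀ hq₀1 hq₀ using fun δ => exists_max_cusp hΦ hinv hlim δ
  let m : SL(2, ℤ) → ℝ := fun δ =>
    sSup ((fun w : ℍ => ‖Complex.exp (Φ (δ • w))‖) '' {w : ℍ | 1 / 2 ≤ w.im})
  have hbdd : ∀ δ : SL(2, ℤ),
      BddAbove ((fun w : ℍ => ‖Complex.exp (Φ (δ • w))‖) '' {w : ℍ | 1 / 2 ≤ w.im}) := by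
    intro δ
    refine ⟨‖cuspFunction (N : ℝ) (fun w : ℍ => Complex.exp (Φ (δ • w))) (q₀ δ)‖, ?_⟩
    rintro _ ⟨w, hw, rfl⟩
    exact hq₀ δ w hw
  have hm_le : ∀ δ : SL(2, ℤ),
      m δ ≤ ‖cuspFunction (N : ℝ) (fun w : ℍ => Complex.exp (Φ (δ • w))) (q₀ δ)‖ := by
    intro δ
    apply csSup_le
    · exact ⟨_, ⟨UpperHalfPlane.I, by simp; norm_num, rfl⟩⟩
    · rintro _ ⟨w, hw, rfl⟩
      exact hq₀ δ w hw
  have hle_m : ∀ (δ : SL(2, ℤ)) (w : ℍ), 1 / 2 ≤ w.im → ‖Complex.exp (Φ (δ • w))‖ ≤ m δ :=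
    fun δ w hw => le_csSup (hbdd δ) ⟨w, hw, rfl⟩
  have hm_inv : ∀ γ ∈ Gamma0 N, ∀ δ : SL(2, ℤ), m (γ * δ) = m δ := by
    intro γ hγ δ
    obtain ⟨κ, hκ0, hκ⟩ := hinv γ hγ
    have : (fun w : ℍ => ‖Complex.exp (Φ ((γ * δ) • w))‖)
        = fun w : ℍ => ‖Complex.exp (Φ (δ • w))‖ := by
      funext w
      rw [mul_smul, hκ, Complex.norm_exp, Complex.norm_exp, Complex.add_re, hκ0, add_zero]
    show sSup _ = sSup _
    rw [this]
  obtain ⟨δ₀, hδ₀⟩ : ∃ δ₀ : SL(2, ℤ), ∀ δ : SL(2, ℤ), m δ ≤ m δ₀ := by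
    let mq : SL(2, ℤ) ⧸ Gamma0 N → ℝ := fun x => Quotient.liftOn' x (fun g => m g⁻¹) (by
      intro a b hab
      have hab' : a⁻¹ * b ∈ Gamma0 N := QuotientGroup.leftRel_apply.mp hab
      show m a⁻¹ = m b⁻¹
      have : a⁻¹ = (a⁻¹ * b) * b⁻¹ := by group
      rw [this, hm_inv _ hab'])
    obtain ⟨x₀, hx₀⟩ := Finite.exists_max mq
    obtain ⟨g₀, rfl⟩ := QuotientGroup.mk_surjective x₀
    refine ⟨g₀⁻¹, fun δ => ?_⟩
    have h := hx₀ (QuotientGroup.mk δ⁻¹)
    have e1 : mq (QuotientGroup.mk δ⁻¹) = m δ⁻¹⁻¹ := rfl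
    have e2 : mq (QuotientGroup.mk g₀) = m g₀⁻¹ := rfl
    rw [e1, e2, inv_inv] at h
    exact h
  have hglobal : ∀ z : ℍ, ‖Complex.exp (Φ z)‖ ≤ m δ₀ := by
    intro z
    obtain ⟨g, hg⟩ := ModularGroup.exists_one_half_le_im_smul z
    have h1 := hle_m g⁻¹ (g • z) hg
    rw [← mul_smul, inv_mul_cancel, one_smul] at h1
    exact h1.trans (hδ₀ _)
  set u : ℍ → ℂ := fun w : ℍ => Complex.exp (Φ (δ₀ • w)) with hu
  have hper := exp_comp_smul_periodic hinv hlim δ₀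
  have hhol := mdiff_exp_comp_smul hΦ δ₀
  have hbd := exp_comp_smul_bdd hlim δ₀
  have hd := differentiableOn_cuspFunction_ball hN hper hhol hbd
  have hmaxon : IsMaxOn (norm ∘ cuspFunction (N : ℝ) u) (Metric.ball 0 1) (q₀ δ₀) := by
    intro q hq
    show ‖cuspFunction (N : ℝ) u q‖ ≤ ‖cuspFunction (N : ℝ) u (q₀ δ₀)‖
    exact (norm_cuspFunction_le hN hper hhol hbd (fun w => hglobal _)
      (mem_ball_zero_iff.mp hq)).trans (hm_le δ₀)
  have hconst := Complex.eqOn_of_isPreconnected_of_isMaxOn_norm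
    (convex_ball (0 : ℂ) 1).isPreconnected Metric.isOpen_ball hd
    (mem_ball_zero_iff.mpr (hq₀1 δ₀)) hmaxon
  set C := cuspFunction (N : ℝ) u (q₀ δ₀) with hC
  have hexp : ∀ z : ℍ, Complex.exp (Φ z) = C := by
    intro z
    have h1 := eq_cuspFunction (f := u) (δ₀⁻¹ • z) hN.ne' hper
    have hmem : 𝕢 (N : ℝ) ((δ₀⁻¹ • z : ℍ) : ℂ) ∈ Metric.ball (0 : ℂ) 1 :=
      mem_ball_zero_iff.mpr (Function.Periodic.norm_qParam_lt_one hN (δ₀⁻¹ • z).im_pos)
    have h2 := hconst hmem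
    rw [h2] at h1
    have h3 : u (δ₀⁻¹ • z) = Complex.exp (Φ z) := by
      show Complex.exp (Φ (δ₀ • (δ₀⁻¹ • z))) = _
      rw [← mul_smul, mul_inv_cancel, one_smul]
    rw [← h3, ← h1]
    rfl
  have hdiff := UpperHalfPlane.mdifferentiable_iff.mp hΦ
  have hD : ∀ z : ℂ, 0 < z.im → HasDerivAt (Φ ∘ ofComplex) 0 z := by
    intro z hz
    have hda : DifferentiableAt ℂ (Φ ∘ ofComplex) z :=
      (hdiff z hz).differentiableAt (isOpen_upperHalfPlaneSet.mem_nhds hz)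
    have h1 := hda.hasDerivAt.cexp
    have h2 : HasDerivAt (fun w => Complex.exp ((Φ ∘ ofComplex) w)) 0 z := by
      refine (hasDerivAt_const z C).congr_of_eventuallyEq ?_
      filter_upwards [isOpen_upperHalfPlaneSet.mem_nhds hz] with w hw
      exact hexp _
    have h3 := h1.unique h2
    have h4 : deriv (Φ ∘ ofComplex) z = 0 := by
      rcases mul_eq_zero.mp h3 with h | h
      · exact absurd h (Complex.exp_ne_zero _)
      · exact h
    rw [← h4]
    exact hda.hasDerivAt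
  obtain ⟨c, hc⟩ := exists_const_of_hasDerivAt (G₁ := Φ ∘ ofComplex) (G₂ := fun _ => 0)
    (φ := fun _ => 0) hD (fun z _ => hasDerivAt_const z 0)
  refine ⟨c, fun z => ?_⟩
  have h := hc z z.im_pos
  simpa using h

end MaxMod


section Reflection

/-- the reflection `z ↦ -conj z` of the upper half plane -/
noncomputable def cRefl (z : ℍ) : ℍ :=
  ⟨-(starRingEnd ℂ (z : ℂ)), by simpa using z.im_pos⟩

theorem coe_cRefl (z : ℍ) : ((cRefl z : ℍ) : ℂ) = -(starRingEnd ℂ (z : ℂ)) := rfl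

theorem cRefl_cRefl (z : ℍ) : cRefl (cRefl z) = z := by
  apply UpperHalfPlane.ext
  simp [coe_cRefl]

theorem im_cRefl (z : ℍ) : (cRefl z).im = z.im := by
  rw [← UpperHalfPlane.coe_im, coe_cRefl]
  simp

theorem tendsto_cRefl : Tendsto cRefl atImInfty atImInfty := by
  rw [atImInfty, tendsto_comap_iff]
  have : UpperHalfPlane.im ∘ cRefl = UpperHalfPlane.im := funext im_cRefl
  rw [this]
  exact tendsto_comap

theorem jConjSL_entries (γ : SL(2, ℤ)) :
    (jConjSL γ) 0 0 = γ 0 0 ∧ (jConjSL γ) 0 1 = -γ 0 1 ∧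
      (jConjSL γ) 1 0 = -γ 1 0 ∧ (jConjSL γ) 1 1 = γ 1 1 := by
  refine ⟨?_, ?_, ?_, ?_⟩
  · show jConjMat (γ : Matrix (Fin 2) (Fin 2) ℤ) 0 0 = _
    simp
  · show jConjMat (γ : Matrix (Fin 2) (Fin 2) ℤ) 0 1 = _
    simp
  · show jConjMat (γ : Matrix (Fin 2) (Fin 2) ℤ) 1 0 = _
    simp
  · show jConjMat (γ : Matrix (Fin 2) (Fin 2) ℤ) 1 1 = _
    simp

theorem cRefl_smul (γ : SL(2, ℤ)) (z : ℍ) : cRefl (γ • z) = jConjSL γ • cRefl z := by
  apply UpperHalfPlane.ext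
  obtain ⟨h00, h01, h10, h11⟩ := jConjSL_entries γ
  rw [coe_cRefl, coe_smul_eq, coe_smul_eq, coe_cRefl, h00, h01, h10, h11]
  simp only [map_div₀, map_add, map_mul, map_intCast, Int.cast_neg]
  rw [show (-((γ 1 0 : ℤ) : ℂ)) * (-(starRingEnd ℂ (z : ℂ))) + ((γ 1 1 : ℤ) : ℂ)
      = ((γ 1 0 : ℤ) : ℂ) * (starRingEnd ℂ (z : ℂ)) + ((γ 1 1 : ℤ) : ℂ) by ring, ← neg_div]
  congr 1
  ring

theorem hasDerivAt_conj_comp_cRefl {W : ℍ → ℂ} {g : ℍ → ℂ}
    (hW : ∀ τ : ℍ, HasDerivAt (W ∘ ofComplex) (g τ) ↑τ) (τ : ℍ) :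
    HasDerivAt ((fun z : ℍ => starRingEnd ℂ (W (cRefl z))) ∘ ofComplex)
      (-(starRingEnd ℂ (g (cRefl τ)))) ↑τ := by
  have h0 := hW (cRefl τ)
  rw [coe_cRefl] at h0
  have h1 : HasDerivAt ((W ∘ ofComplex) ∘ Neg.neg) (-(g (cRefl τ)))
      (starRingEnd ℂ (τ : ℂ)) := by
    have := HasDerivAt.comp (starRingEnd ℂ (τ : ℂ)) h0 (hasDerivAt_neg _)
    simpa using this
  have h2 := h1.conj_conj
  rw [Complex.conj_conj, map_neg] at h2
  refine h2.congr_of_eventuallyEq ?_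
  filter_upwards [isOpen_upperHalfPlaneSet.mem_nhds τ.im_pos] with w hw
  have hw' : 0 < (-(starRingEnd ℂ w)).im := by simpa using hw
  show starRingEnd ℂ (W (cRefl (ofComplex w))) = starRingEnd ℂ (W (ofComplex (-(starRingEnd ℂ w))))
  congr 2
  apply UpperHalfPlane.ext
  rw [coe_cRefl, ofComplex_apply_of_im_pos hw, ofComplex_apply_of_im_pos hw']

end Reflection

/-- the analytic core of the injectivity of the Eichler–Shimura pair -/
theorem eq_zero_of_periods {N : ℕ} [NeZero N] {u v U W : ℍ → ℂ}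
    (hU : ∀ τ : ℍ, HasDerivAt (U ∘ ofComplex) (u τ) ↑τ)
    (hW : ∀ τ : ℍ, HasDerivAt (W ∘ ofComplex) (v τ) ↑τ)
    (hUlim : ∀ δ : SL(2, ℤ), ∃ L : ℂ, Tendsto (fun w : ℍ => U (δ • w)) atImInfty (𝓝 L))
    (hWlim : ∀ δ : SL(2, ℤ), ∃ L : ℂ, Tendsto (fun w : ℍ => W (δ • w)) atImInfty (𝓝 L))
    (hper : ∀ γ ∈ Gamma0 N, ∃ p : ℂ, (∀ z : ℍ, U (γ • z) - U z = p) ∧
      ∀ z : ℍ, W (jConjSL γ • z) - W z = -p) :
    (∀ τ : ℍ, u τ = 0) ∧ ∀ τ : ℍ, v τ = 0 := by
  set G : ℍ → ℂ := fun z : ℍ => starRingEnd ℂ (W (cRefl z)) with hGdef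
  have hG : ∀ τ : ℍ, HasDerivAt (G ∘ ofComplex) (-(starRingEnd ℂ (v (cRefl τ)))) ↑τ :=
    hasDerivAt_conj_comp_cRefl hW
  have hGper : ∀ γ ∈ Gamma0 N, ∀ p : ℂ, (∀ z : ℍ, W (jConjSL γ • z) - W z = -p) →
      ∀ z : ℍ, G (γ • z) - G z = -(starRingEnd ℂ p) := by
    intro γ _ p hp z
    show starRingEnd ℂ (W (cRefl (γ • z))) - starRingEnd ℂ (W (cRefl z)) = _
    rw [cRefl_smul, ← map_sub, hp, map_neg]
  have hGlim : ∀ δ : SL(2, ℤ), ∃ L : ℂ, Tendsto (fun w : ℍ => G (δ • w)) atImInfty (𝓝 L) := by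
    intro δ
    obtain ⟨L, hL⟩ := hWlim (jConjSL δ)
    refine ⟨starRingEnd ℂ L, ?_⟩
    have h1 : Tendsto (fun w : ℍ => W (jConjSL δ • cRefl w)) atImInfty (𝓝 L) :=
      hL.comp tendsto_cRefl
    have h2 := (Complex.continuous_conj.tendsto L).comp h1
    refine h2.congr fun w => ?_
    show starRingEnd ℂ (W (jConjSL δ • cRefl w)) = starRingEnd ℂ (W (cRefl (δ • w)))
    rw [cRefl_smul]
  -- the two holomorphic functions with purely imaginary periods
  have hAdiff : MDiff (fun z : ℍ => U z + G z) := by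
    rw [UpperHalfPlane.mdifferentiable_iff]
    intro z hz
    have := (hU ⟨z, hz⟩).add (hG ⟨z, hz⟩)
    exact this.differentiableAt.differentiableWithinAt
  have hBdiff : MDiff (fun z : ℍ => Complex.I * (U z - G z)) := by
    rw [UpperHalfPlane.mdifferentiable_iff]
    intro z hz
    have := ((hU ⟨z, hz⟩).sub (hG ⟨z, hz⟩)).const_mul Complex.I
    exact this.differentiableAt.differentiableWithinAt
  obtain ⟨cA, hcA⟩ := const_of_re_invariant N (fun z : ℍ => U z + G z) hAdiff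
    (by
      intro γ hγ
      obtain ⟨p, hp1, hp2⟩ := hper γ hγ
      refine ⟨p - starRingEnd ℂ p, by simp, fun z => ?_⟩
      have h1 := hp1 z
      have h2 := hGper γ hγ p hp2 z
      show U (γ • z) + G (γ • z) = U z + G z + (p - starRingEnd ℂ p)
      linear_combination h1 + h2)
    (by
      intro δ
      obtain ⟨L1, hL1⟩ := hUlim δ
      obtain ⟨L2, hL2⟩ := hGlim δ
      exact ⟨L1 + L2, hL1.add hL2⟩)
  obtain ⟨cB, hcB⟩ := const_of_re_invariant N (fun z : ℍ => Complex.I * (U z - G z)) hBdiff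
    (by
      intro γ hγ
      obtain ⟨p, hp1, hp2⟩ := hper γ hγ
      refine ⟨Complex.I * (p + starRingEnd ℂ p), by simp, fun z => ?_⟩
      have h1 := hp1 z
      have h2 := hGper γ hγ p hp2 z
      show Complex.I * (U (γ • z) - G (γ • z)) = Complex.I * (U z - G z)
        + Complex.I * (p + starRingEnd ℂ p)
      linear_combination Complex.I * h1 - Complex.I * h2)
    (by
      intro δ
      obtain ⟨L1, hL1⟩ := hUlim δ
      obtain ⟨L2, hL2⟩ := hGlim δ
      exact ⟨Complex.I * (L1 - L2), (hL1.sub hL2).const_mul Complex.I⟩)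
  have hUc : ∀ z : ℍ, U z = (cA - Complex.I * cB) / 2 := by
    intro z
    have h1 : U z + G z = cA := hcA z
    have h2 : Complex.I * (U z - G z) = cB := hcB z
    have hI : Complex.I * Complex.I = -1 := Complex.I_mul_I
    rw [← h1, ← h2]
    linear_combination ((U z - G z) / 2) * hI
  have hGc : ∀ z : ℍ, G z = (cA + Complex.I * cB) / 2 := by
    intro z
    have h1 : U z + G z = cA := hcA z
    have h2 : Complex.I * (U z - G z) = cB := hcB z
    have hI : Complex.I * Complex.I = -1 := Complex.I_mul_I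
    rw [← h1, ← h2]
    linear_combination (-(U z - G z) / 2) * hI
  constructor
  · intro τ
    have h1 : U ∘ ofComplex = fun _ => (cA - Complex.I * cB) / 2 := funext fun w => hUc _
    have h2 := hU τ
    rw [h1] at h2
    exact h2.unique (hasDerivAt_const _ _)
  · have hv : ∀ τ : ℍ, v (cRefl τ) = 0 := by
      intro τ
      have h1 : G ∘ ofComplex = fun _ => (cA + Complex.I * cB) / 2 := funext fun w => hGc _
      have h2 := hG τ
      rw [h1] at h2
      have h3 := h2.unique (hasDerivAt_const _ _)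
      have h4 : starRingEnd ℂ (v (cRefl τ)) = 0 := neg_eq_zero.mp h3
      exact (map_eq_zero _).mp h4
    intro τ
    rw [← cRefl_cRefl τ]
    exact hv _


/-- the relation between the periods of `f` and `g` when the pair vanishes -/
theorem periodHomPair_apply_apply (N : ℕ) [NeZero N] (f g : CuspForm (Gamma0 N) 2)
    (γ : Gamma0 N) :
    periodHomPair N (f, g) (Additive.ofMul γ) =
      periodMap N f (Additive.ofMul γ) + periodMap N f (Additive.ofMul (jConjGamma0 N γ))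
        + (periodMap N g (Additive.ofMul γ) - periodMap N g (Additive.ofMul (jConjGamma0 N γ))) := by
  obtain ⟨pml, hpml, hdef⟩ := periodHomPair_def N (existsPeriodMapLinear N)
  rw [hdef, LinearMap.coprod_apply, LinearMap.comp_apply, LinearMap.comp_apply,
    LinearMap.add_apply, LinearMap.sub_apply, LinearMap.id_apply, LinearMap.id_apply, hpml, hpml]
  rfl

/-- **Injectivity of the Eichler–Shimura pair.** -/
theorem periodHomPair_injective (N : ℕ) [NeZero N] : Function.Injective (periodHomPair N) := by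
  rw [← LinearMap.ker_eq_bot, LinearMap.ker_eq_bot']
  rintro ⟨f, g⟩ hfg
  obtain ⟨Ff, hFf⟩ := exists_hasEquivariantPrimitive N f
  obtain ⟨Fg, hFg⟩ := exists_hasEquivariantPrimitive N g
  have hrel : ∀ γ : Gamma0 N,
      periodMap N f (Additive.ofMul γ) + periodMap N f (Additive.ofMul (jConjGamma0 N γ))
        + (periodMap N g (Additive.ofMul γ)
          - periodMap N g (Additive.ofMul (jConjGamma0 N γ))) = 0 := by
    intro γ
    rw [← periodHomPair_apply_apply, hfg]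
    rfl
  have key := eq_zero_of_periods (N := N) (u := fun τ : ℍ => f τ + g τ)
    (v := fun τ : ℍ => f τ - g τ) (U := fun z : ℍ => Ff z + Fg z)
    (W := fun z : ℍ => Ff z - Fg z)
    (fun τ => (hFf.1 τ).add (hFg.1 τ)) (fun τ => (hFf.1 τ).sub (hFg.1 τ))
    (by
      intro δ
      obtain ⟨L1, hL1⟩ := hFf.2.2.2 δ
      obtain ⟨L2, hL2⟩ := hFg.2.2.2 δ
      exact ⟨L1 + L2, hL1.add hL2⟩)
    (by
      intro δ
      obtain ⟨L1, hL1⟩ := hFf.2.2.2 δ
      obtain ⟨L2, hL2⟩ := hFg.2.2.2 δ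
      exact ⟨L1 - L2, hL1.sub hL2⟩)
    (by
      intro γ hγ
      refine ⟨periodMap N f (Additive.ofMul ⟨γ, hγ⟩) + periodMap N g (Additive.ofMul ⟨γ, hγ⟩),
        fun z => ?_, fun z => ?_⟩
      · have h1 := periodMap_apply hFf ⟨γ, hγ⟩ z
        have h2 := periodMap_apply hFg ⟨γ, hγ⟩ z
        show Ff (γ • z) + Fg (γ • z) - (Ff z + Fg z) = _
        rw [h1, h2]
        ring
      · have h1 := periodMap_apply hFf (jConjGamma0 N ⟨γ, hγ⟩) z
        have h2 := periodMap_apply hFg (jConjGamma0 N ⟨γ, hγ⟩) z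
        have h3 := hrel ⟨γ, hγ⟩
        rw [jConjGamma0_coe] at h1 h2
        show Ff (jConjSL γ • z) - Fg (jConjSL γ • z) - (Ff z - Fg z) = _
        rw [h1, h2] at h3
        linear_combination h3)
  obtain ⟨hu, hv⟩ := key
  have hf : ∀ τ : ℍ, f τ = 0 := by
    intro τ
    have h1 : f τ + g τ = 0 := hu τ
    have h2 : f τ - g τ = 0 := hv τ
    linear_combination (h1 + h2) / 2
  have hg : ∀ τ : ℍ, g τ = 0 := by
    intro τ
    have h1 : f τ + g τ = 0 := hu τ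
    have h2 : f τ - g τ = 0 := hv τ
    linear_combination (h1 - h2) / 2
  refine Prod.ext ?_ ?_
  · exact DFunLike.ext _ _ fun τ => hf τ
  · exact DFunLike.ext _ _ fun τ => hg τ

/-- the Eichler–Shimura pair takes values in the parabolic homomorphisms -/
theorem range_periodHomPair_le (N : ℕ) [NeZero N] :
    LinearMap.range (periodHomPair N) ≤ parabolicHoms ℂ (Gamma0 N) ℂ := by
  obtain ⟨pml, hpml, hdef⟩ := periodHomPair_def N (existsPeriodMapLinear N)
  rintro _ ⟨⟨f, g⟩, rfl⟩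
  have hf := periodMap_mem_parabolicHoms N f
  have hg := periodMap_mem_parabolicHoms N g
  rw [hdef, LinearMap.coprod_apply, LinearMap.comp_apply, LinearMap.comp_apply,
    LinearMap.add_apply, LinearMap.sub_apply, LinearMap.id_apply, LinearMap.id_apply, hpml, hpml]
  exact Submodule.add_mem _
    (Submodule.add_mem _ hf (charInvolution_mem_parabolicHoms N ℂ ℂ hf))
    (Submodule.sub_mem _ hg (charInvolution_mem_parabolicHoms N ℂ ℂ hg))

end Fermat.Agent.S21
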