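import Mathlib
import Fermat.Prelude.Def_ModularCurve_PeriodHomPair
import Fermat.Prelude.Def_ModularCurve_GenusNumerics
import Fermat.Agent.S21_PeriodInj
import Fermat.Agent.S21_Assembly

/-!
# S21: upper bound `dim S₂(Γ₀(N)) ≤ g` and the conditional Eichler–Shimura statement

Unconditional forms of the bookkeeping lemmas of `S21_Assembly`, using the analytic results
`periodHomPair_injective` and `range_periodHomPair_le`.
-/

set_option autoImplicit false

open CongruenceSubgroup ModularCurve ModularCurve.Period UpperHalfPlane
open scoped MatrixGroups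

namespace Fermat.Agent.S21

/-- consequence used by S20 (upper bound). -/
theorem finrank_cuspForm_le (N : ℕ) [NeZero N] :
    FiniteDimensional ℂ (CuspForm (Gamma0 N) 2) ∧
    (Module.finrank ℂ (CuspForm (Gamma0 N) 2) : ℚ) ≤ genusFormula N :=
  finrank_cuspForm_le_of N (periodHomPair_injective N) (range_periodHomPair_le N)

/-- Eichler–Shimura, given the lower bound `g ≤ dim S₂(Γ₀(N))`. -/
theorem result_of_le (N : ℕ) [NeZero N]
    (h20 : genusFormula N ≤ (Module.finrank ℂ (CuspForm (Gamma0 N) 2) : ℚ)) :
    Function.Injective (periodHomPair N)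
      ∧ LinearMap.range (periodHomPair N) = parabolicHoms ℂ (Gamma0 N) ℂ :=
  result_of_le_of N (periodHomPair_injective N) (range_periodHomPair_le N) h20

end Fermat.Agent.S21
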