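import Mathlib
import Fermat.Agent.S20_Defs
import Fermat.Agent.S20_TowerC
import Fermat.Agent.S20_Inject
import Fermat.Agent.S21_Assembly
import Fermat.Agent.S21_PeriodInj
import Fermat.Agent.S21_Upper
import Fermat.Agent.S24_Kaehler
import Fermat.Agent.RR_Main
import Fermat.Agent.RR_ResThm

/-!
# S20 / S21: final assembly

* `Fermat.Agent.S20.genusFormula_le`: `genusFormula N ≤ dim S₂(Γ₀(N))` (Riemann–Roch for the
  function field `X0Field N` + the injection of `L(div (dj))` into the cusp forms);
* `Fermat.Agent.S20.finrank_cuspForm_eq`: `dim S₂(Γ₀(N)) = genusFormula N`;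
* `Fermat.Agent.S21.eichlerShimura`: the period pairing is injective with image the parabolic
  homomorphisms.
-/

set_option autoImplicit false

noncomputable section

open UpperHalfPlane ModularCurve CongruenceSubgroup AlgebraicCurve KaehlerDifferential
open scoped MatrixGroups

namespace Fermat.Agent.S20

open Fermat.Agent.S24 Fermat.Agent.RR

/-- the lower bound: Riemann–Roch gives `g` linearly independent cusp forms. -/
theorem genusFormula_le (N : ℕ) [NeZero N] (hfd : FiniteDimensional ℂ (CuspForm (Gamma0 N) 2)) :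
    genusFormula N ≤ (Module.finrank ℂ (CuspForm (Gamma0 N) 2) : ℚ) := by
  have hx := isGenerator_jX0 N
  obtain ⟨W, hW, hdeg⟩ := exists_canonical_divisor N
  obtain ⟨R⟩ := exists_residueSystem hx
  have hfdL : FiniteDimensional ℂ (LSpace ℂ (X0Field N) W) := finiteDimensional_LSpace hx W
  have hrr := two_mul_finrank_LSpace_canonical hx R W hW
  obtain ⟨φ, hφ⟩ := Inject.exists_injective_LSpace_cuspForm N (X0Field N).val
    (fun γ hγ f => smul_coe_X0Field f hγ) (jX0 N) rfl hx W hW
  have hle : Module.finrank ℂ (LSpace ℂ (X0Field N) W)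
      ≤ Module.finrank ℂ (CuspForm (Gamma0 N) 2) :=
    LinearMap.finrank_le_finrank_of_injective hφ
  have h1 : (2 : ℚ) * (Module.finrank ℂ (LSpace ℂ (X0Field N) W) : ℚ) - 2
      = (Divisor.degree W : ℚ) := by
    exact_mod_cast hrr
  have h2 : (Module.finrank ℂ (LSpace ℂ (X0Field N) W) : ℚ) = genusFormula N := by
    linarith
  rw [← h2]
  exact_mod_cast hle

theorem finrank_cuspForm_eq (N : ℕ) [NeZero N] :
    (Module.finrank ℂ (CuspForm (Gamma0 N) 2) : ℚ) = genusFormula N :=
  Fermat.Agent.S21.finrank_cuspForm_eq_of N (Fermat.Agent.S21.periodHomPair_injective N)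
    (Fermat.Agent.S21.range_periodHomPair_le N)
    (genusFormula_le N (Fermat.Agent.S21.finrank_cuspForm_le_of N
      (Fermat.Agent.S21.periodHomPair_injective N) (Fermat.Agent.S21.range_periodHomPair_le N)).1)

end Fermat.Agent.S20

namespace Fermat.Agent.S21

open ModularCurve.Period

theorem eichlerShimura (N : ℕ) [NeZero N] :
    Function.Injective (periodHomPair N)
      ∧ LinearMap.range (periodHomPair N) = parabolicHoms ℂ (Gamma0 N) ℂ :=
  result_of_le_of N (periodHomPair_injective N) (range_periodHomPair_le N)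
    (Fermat.Agent.S20.genusFormula_le N
      (finrank_cuspForm_le_of N (periodHomPair_injective N) (range_periodHomPair_le N)).1)

end Fermat.Agent.S21
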