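import Mathlib
import Fermat.Prelude.Def_CuspForm_HeckeEvalForms
import Fermat.Prelude.Def_ModularCurve_PeriodHomPair
import Fermat.Agent.S20_Main
import Fermat.Agent.S16_HeckeFam
import Fermat.Agent.S16_Periods

/-!
# S16 (L2)+(L5): the lower bound from a lift of the Shimura character

If `ψ : Γ₀(p) → ℤ` is a parabolic homomorphism whose reduction mod `n` is `γ ↦ Λ(d(γ))` and takes
the value `1`, then every Hecke polynomial `P` killing `S₂(Γ₀(p))` has Eisenstein eigenvalue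
divisible by `n`.
-/

set_option autoImplicit false

open UpperHalfPlane CongruenceSubgroup ModularCurve ModularCurve.Period
open scoped MatrixGroups ModularForm

namespace Fermat.Agent.S16.LB

variable (p : ℕ) [Fact p.Prime]

/-- the coset family of the `ℓ`-th Hecke generator at level `p`. -/
noncomputable def fam (ℓ : Nat.Primes) : CosetFam p :=
  haveI : Fact (ℓ : ℕ).Prime := ⟨ℓ.2⟩
  if h : (ℓ : ℕ) ∣ p then famU p ℓ h else famT p ℓ h

theorem fam_of_dvd (ℓ : Nat.Primes) (h : (ℓ : ℕ) ∣ p) :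
    fam p ℓ = @famU p ℓ _ ⟨ℓ.2⟩ h := dif_pos h

theorem fam_of_not_dvd (ℓ : Nat.Primes) (h : ¬ (ℓ : ℕ) ∣ p) :
    fam p ℓ = @famT p ℓ _ ⟨ℓ.2⟩ h := dif_neg h

/-- the period map intertwines the `ℓ`-th Hecke generator with `tHom`. -/
theorem periodMap_gen (ℓ : Nat.Primes) (f : CuspForm (Gamma0 p) 2) :
    periodMap p (((CuspForm.heckeFormsGen p 2 ℓ : CuspForm.heckeAlgebra p 2 ∅) :
      Module.End ℂ (CuspForm (Gamma0 p) 2)) f) = (fam p ℓ).tHom (periodMap p f) := by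
  have : Fact (ℓ : ℕ).Prime := ⟨ℓ.2⟩
  by_cases h : (ℓ : ℕ) ∣ p
  · rw [CuspForm.heckeFormsGen_of_dvd h, CuspForm.heckeAlgebra.coe_U, fam_of_dvd p ℓ h]
    refine periodMap_hecke (famU p ℓ h) f _ ?_
    rw [CuspForm.coe_heckeULin_apply]
    exact heckeU_eq_sum_famU p ℓ h 2 f
  · rw [CuspForm.heckeFormsGen_of_not_dvd h, CuspForm.heckeAlgebra.coe_T, fam_of_not_dvd p ℓ h]
    refine periodMap_hecke (famT p ℓ h) f _ ?_
    rw [CuspForm.coe_heckeTLin_apply]
    exact heckeT_eq_sum_famT p ℓ h 2 f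

/-- `tHom` of the `ℓ`-th family commutes with the involution. -/
theorem fam_tHom_comp_jConj (ℓ : Nat.Primes) {B : Type*} [AddCommGroup B]
    (ψ : Additive (Gamma0 p) →+ B) :
    (fam p ℓ).tHom (ψ.comp (MonoidHom.toAdditive (jConjGamma0 p)))
      = ((fam p ℓ).tHom ψ).comp (MonoidHom.toAdditive (jConjGamma0 p)) := by
  have : Fact (ℓ : ℕ).Prime := ⟨ℓ.2⟩
  by_cases h : (ℓ : ℕ) ∣ p
  · rw [fam_of_dvd p ℓ h]
    obtain ⟨τ, δ, hJ⟩ := famU_jConj p ℓ h
    exact (famU p ℓ h).tHom_comp_jConj τ δ hJ ψ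
  · rw [fam_of_not_dvd p ℓ h]
    obtain ⟨τ, δ, hJ⟩ := famT_jConj p ℓ h
    exact (famT p ℓ h).tHom_comp_jConj τ δ hJ ψ

/-- the Eisenstein eigenvector. -/
theorem fam_tHom_chiOf (n : ℕ) (hn : n ∣ p - 1) (lam : (ZMod p)ˣ →* Multiplicative (ZMod n))
    (ℓ : Nat.Primes) :
    (fam p ℓ).tHom (chiOf p lam) = (eisensteinSystem p ℓ) • chiOf p lam := by
  have : Fact (ℓ : ℕ).Prime := ⟨ℓ.2⟩
  by_cases h : (ℓ : ℕ) ∣ p
  · rw [fam_of_dvd p ℓ h, eisensteinSystem_of_dvd h, one_smul]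
    have hℓp : (ℓ : ℕ) = p := (Nat.prime_dvd_prime_iff_eq ℓ.2 (Fact.out : p.Prime)).mp h
    obtain ⟨ℓ', hℓ'⟩ := ℓ
    change ℓ' = p at hℓp
    subst hℓp
    have h1 := tHom_famU_chiOf ℓ' lam
    have h2 : (ℓ' : ℕ) • chiOf ℓ' lam = chiOf ℓ' lam := by
      refine AddMonoidHom.ext fun γ => ?_
      rw [AddMonoidHom.nsmul_apply, nsmul_eq_mul]
      have hp1 : ((ℓ' : ℕ) : ZMod n) = 1 := by
        have h0 : (((ℓ' - 1 : ℕ) : ℕ) : ZMod n) = 0 := (CharP.cast_eq_zero_iff (ZMod n) n _).mpr hn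
        have hpos : 1 ≤ ℓ' := (Fact.out : ℓ'.Prime).one_lt.le
        rw [Nat.cast_sub hpos, Nat.cast_one, sub_eq_zero] at h0
        exact h0
      rw [hp1, one_mul]
    exact h1.trans h2
  · rw [fam_of_not_dvd p ℓ h, eisensteinSystem_of_not_dvd h, tHom_famT_chiOf p ℓ h lam]
    rw [show ((1 : ℤ) + ((ℓ : ℕ) : ℤ)) = (((ℓ : ℕ) + 1 : ℕ) : ℤ) by push_cast; ring, natCast_zsmul]

/-- the compatible system of operators attached to a Hecke polynomial. -/
def Compat (n : ℕ) (lam : (ZMod p)ˣ →* Multiplicative (ZMod n)) (P : HeckeAlg) : Prop :=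
  ∃ (s : AddMonoid.End (Additive (Gamma0 p) →+ ℤ))
    (s' : AddMonoid.End (Additive (Gamma0 p) →+ ℂ))
    (sbar : AddMonoid.End (Additive (Gamma0 p) →+ ZMod n)),
    (∀ f : CuspForm (Gamma0 p) 2,
      periodMap p (((CuspForm.heckeEvalForms p 2 P : CuspForm.heckeAlgebra p 2 ∅) :
        Module.End ℂ (CuspForm (Gamma0 p) 2)) f) = s' (periodMap p f)) ∧
    (∀ ψ : Additive (Gamma0 p) →+ ℂ, s' (ψ.comp (MonoidHom.toAdditive (jConjGamma0 p)))
      = (s' ψ).comp (MonoidHom.toAdditive (jConjGamma0 p))) ∧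
    (∀ ψ : Additive (Gamma0 p) →+ ℤ,
      s' ((Int.castAddHom ℂ).comp ψ) = (Int.castAddHom ℂ).comp (s ψ)) ∧
    (∀ ψ : Additive (Gamma0 p) →+ ℤ,
      sbar ((Int.castAddHom (ZMod n)).comp ψ) = (Int.castAddHom (ZMod n)).comp (s ψ)) ∧
    sbar (chiOf p lam) = (MvPolynomial.aeval (fun ℓ => eisensteinSystem p ℓ) P) • chiOf p lam

theorem periodMap_zsmul (a : ℤ) (f : CuspForm (Gamma0 p) 2) :
    periodMap p (a • f) = a • periodMap p f := by
  rw [← Fermat.Agent.S21.periodMapL_apply, ← Fermat.Agent.S21.periodMapL_apply, map_zsmul]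

theorem periodMap_zero' : periodMap p (0 : CuspForm (Gamma0 p) 2) = 0 := by
  rw [← Fermat.Agent.S21.periodMapL_apply, map_zero]

theorem compat_all (n : ℕ) (hn : n ∣ p - 1) (lam : (ZMod p)ˣ →* Multiplicative (ZMod n))
    (P : HeckeAlg) : Compat p n lam P := by
  induction P using MvPolynomial.induction_on with
  | C a =>
    refine ⟨a • 1, a • 1, a • 1, ?_, ?_, ?_, ?_, ?_⟩
    · intro f
      rw [CuspForm.heckeEvalForms_C]
      have h1 : ((algebraMap ℤ (CuspForm.heckeAlgebra p 2 ∅) a : CuspForm.heckeAlgebra p 2 ∅) :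
          Module.End ℂ (CuspForm (Gamma0 p) 2)) = a • (1 : Module.End ℂ (CuspForm (Gamma0 p) 2)) := by
        rw [Algebra.algebraMap_eq_smul_one]
        rfl
      rw [h1]
      show periodMap p (a • f) = a • periodMap p f
      exact periodMap_zsmul p a f
    · intro ψ
      rfl
    · intro ψ
      refine AddMonoidHom.ext fun γ => ?_
      show a • ((ψ γ : ℤ) : ℂ) = ((a • ψ γ : ℤ) : ℂ)
      simp
    · intro ψ
      refine AddMonoidHom.ext fun γ => ?_
      show a • ((ψ γ : ℤ) : ZMod n) = ((a • ψ γ : ℤ) : ZMod n)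
      simp
    · rw [MvPolynomial.aeval_C]
      rfl
  | add P Q hP hQ =>
    obtain ⟨s1, s1', s1bar, h1a, h1b, h1c, h1d, h1e⟩ := hP
    obtain ⟨s2, s2', s2bar, h2a, h2b, h2c, h2d, h2e⟩ := hQ
    refine ⟨s1 + s2, s1' + s2', s1bar + s2bar, ?_, ?_, ?_, ?_, ?_⟩
    · intro f
      rw [map_add]
      show periodMap p (((CuspForm.heckeEvalForms p 2 P : CuspForm.heckeAlgebra p 2 ∅) :
        Module.End ℂ (CuspForm (Gamma0 p) 2)) f + ((CuspForm.heckeEvalForms p 2 Q :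
          CuspForm.heckeAlgebra p 2 ∅) : Module.End ℂ (CuspForm (Gamma0 p) 2)) f) = _
      rw [Fermat.Agent.S21.periodMap_add, h1a, h2a]
      rfl
    · intro ψ
      show s1' _ + s2' _ = _
      rw [h1b, h2b]
      rfl
    · intro ψ
      show s1' _ + s2' _ = _
      rw [h1c, h2c]
      refine AddMonoidHom.ext fun γ => ?_
      show ((s1 ψ γ : ℤ) : ℂ) + ((s2 ψ γ : ℤ) : ℂ) = (((s1 ψ + s2 ψ) γ : ℤ) : ℂ)
      simp
    · intro ψ
      show s1bar _ + s2bar _ = _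
      rw [h1d, h2d]
      refine AddMonoidHom.ext fun γ => ?_
      show ((s1 ψ γ : ℤ) : ZMod n) + ((s2 ψ γ : ℤ) : ZMod n) = (((s1 ψ + s2 ψ) γ : ℤ) : ZMod n)
      simp
    · show s1bar _ + s2bar _ = _
      rw [h1e, h2e, map_add, add_smul]
  | mul_X P ℓ hP =>
    obtain ⟨s1, s1', s1bar, h1a, h1b, h1c, h1d, h1e⟩ := hP
    refine ⟨s1 * (fam p ℓ).tEnd ℤ, s1' * (fam p ℓ).tEnd ℂ, s1bar * (fam p ℓ).tEnd (ZMod n),
      ?_, ?_, ?_, ?_, ?_⟩
    · intro f
      rw [map_mul]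
      have hX : CuspForm.heckeEvalForms p 2 (MvPolynomial.X ℓ) = CuspForm.heckeFormsGen p 2 ℓ :=
        CuspForm.heckeEvalForms_heckeGen p 2 ℓ
      rw [hX]
      show periodMap p (((CuspForm.heckeEvalForms p 2 P : CuspForm.heckeAlgebra p 2 ∅) :
        Module.End ℂ (CuspForm (Gamma0 p) 2)) (((CuspForm.heckeFormsGen p 2 ℓ :
          CuspForm.heckeAlgebra p 2 ∅) : Module.End ℂ (CuspForm (Gamma0 p) 2)) f)) = _
      rw [h1a, periodMap_gen]
      rfl
    · intro ψ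
      show s1' ((fam p ℓ).tHom _) = (s1' ((fam p ℓ).tHom ψ)).comp _
      rw [fam_tHom_comp_jConj, h1b]
    · intro ψ
      show s1' ((fam p ℓ).tHom _) = (Int.castAddHom ℂ).comp (s1 ((fam p ℓ).tHom ψ))
      rw [CosetFam.tHom_comp, h1c]
    · intro ψ
      show s1bar ((fam p ℓ).tHom _) = (Int.castAddHom (ZMod n)).comp (s1 ((fam p ℓ).tHom ψ))
      rw [CosetFam.tHom_comp, h1d]
    · show s1bar ((fam p ℓ).tHom _) = _
      rw [fam_tHom_chiOf p n hn lam ℓ, map_zsmul, h1e, map_mul, MvPolynomial.aeval_X, smul_smul,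
        mul_comm]

/-- **(LB) from a lift.** -/
theorem dvd_aeval_eisensteinSystem (n : ℕ) (hn : n ∣ p - 1)
    (lam : (ZMod p)ˣ →* Multiplicative (ZMod n)) (psi : Additive (Gamma0 p) →+ ℤ)
    (hpar : ModularCurve.Period.IsParabolicHom (Gamma0 p) psi)
    (hpsi : ∀ γ : Gamma0 p, ((psi (Additive.ofMul γ) : ℤ) : ZMod n)
      = Multiplicative.toAdd (lam (dUnit p γ)))
    (hone : ∃ γ : Gamma0 p, ((psi (Additive.ofMul γ) : ℤ) : ZMod n) = 1)
    (P : ModularCurve.HeckeAlg)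
    (hP : ((CuspForm.heckeEvalForms p 2 P : CuspForm.heckeAlgebra p 2 ∅) :
      Module.End ℂ (CuspForm (Gamma0 p) 2)) = 0) :
    (n : ℤ) ∣ MvPolynomial.aeval (fun ℓ => ModularCurve.eisensteinSystem p ℓ) P := by
  obtain ⟨s, s', sbar, ha, hb, hc, hd, he⟩ := compat_all p n hn lam P
  -- `s'` kills the periods and their conjugates
  have h1 : ∀ f : CuspForm (Gamma0 p) 2, s' (periodMap p f) = 0 := by
    intro f
    rw [← ha f, hP]
    exact periodMap_zero' p
  have h2 : ∀ f : CuspForm (Gamma0 p) 2,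
      s' ((periodMap p f).comp (MonoidHom.toAdditive (jConjGamma0 p))) = 0 := by
    intro f
    rw [hb, h1]
    rfl
  -- `s'` kills the image of the period pairing
  have h3 : ∀ x : CuspForm (Gamma0 p) 2 × CuspForm (Gamma0 p) 2, s' (periodHomPair p x) = 0 := by
    rintro ⟨f, g⟩
    obtain ⟨pml, hpml, hdef⟩ := periodHomPair_def p (Fermat.Agent.S21.existsPeriodMapLinear p)
    rw [hdef, LinearMap.coprod_apply, LinearMap.comp_apply, LinearMap.comp_apply,
      LinearMap.add_apply, LinearMap.sub_apply, LinearMap.id_apply, LinearMap.id_apply, hpml, hpml]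
    show s' (periodMap p f + (periodMap p f).comp (MonoidHom.toAdditive (jConjGamma0 p))
      + (periodMap p g - (periodMap p g).comp (MonoidHom.toAdditive (jConjGamma0 p)))) = 0
    rw [map_add, map_add, map_sub, h1, h1, h2, h2]
    simp
  -- hence the parabolic homomorphisms
  have h4 : s' ((Int.castAddHom ℂ).comp psi) = 0 := by
    have hmem : (Int.castAddHom ℂ).comp psi ∈ parabolicHoms ℂ (Gamma0 p) ℂ := by
      rw [mem_parabolicHoms_iff]
      intro γ hγ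
      show ((psi (Additive.ofMul γ) : ℤ) : ℂ) = 0
      rw [hpar γ hγ, Int.cast_zero]
    rw [← (Fermat.Agent.S21.eichlerShimura p).2] at hmem
    obtain ⟨x, hx⟩ := hmem
    rw [← hx]
    exact h3 x
  have h5 : s psi = 0 := by
    rw [hc] at h4
    refine AddMonoidHom.ext fun γ => ?_
    have := congrArg (fun φ : Additive (Gamma0 p) →+ ℂ => φ γ) h4
    have h' : ((s psi γ : ℤ) : ℂ) = 0 := this
    exact_mod_cast h'
  have h6 : (Int.castAddHom (ZMod n)).comp psi = chiOf p lam := by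
    refine AddMonoidHom.ext fun γ' => ?_
    obtain ⟨γ, rfl⟩ : ∃ γ : Gamma0 p, Additive.ofMul γ = γ' := ⟨Additive.toMul γ', rfl⟩
    rw [chiOf_apply]
    exact hpsi γ
  have h7 : (MvPolynomial.aeval (fun ℓ => eisensteinSystem p ℓ) P) • chiOf p lam = 0 := by
    rw [← he, ← h6, hd, h5, AddMonoidHom.comp_zero]
  obtain ⟨γ, hγ⟩ := hone
  have h8 := congrArg (fun φ : Additive (Gamma0 p) →+ ZMod n => φ (Additive.ofMul γ)) h7
  have h9 : (MvPolynomial.aeval (fun ℓ => eisensteinSystem p ℓ) P)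
      • (chiOf p lam (Additive.ofMul γ)) = 0 := h8
  rw [chiOf_apply, ← hpsi γ, hγ, zsmul_eq_mul, mul_one] at h9
  exact (CharP.intCast_eq_zero_iff (ZMod n) n _).mp h9

end Fermat.Agent.S16.LB
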