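import Mathlib
import Fermat.Prelude.Def_ModularCurve_ModularUnit
import Fermat.Agent.S16_LB

/-!
# S16 (L1): the Shimura character, and the lower bound from the lifting statement

* `exists_chi`: a surjective character `(ℤ/p)ˣ → ℤ/n` (`n = eisensteinNumerator p`) killing the
  `12`-torsion;
* `dUnit_surjective`: `γ ↦ d(γ) mod p` is onto `(ℤ/p)ˣ`;
* `LB_of_lift`: if every such character composed with `d` lifts to an integral parabolic
  homomorphism of `Γ₀(p)`, then `n` divides the Eisenstein eigenvalue of every Hecke polynomial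
  killing `S₂(Γ₀(p))`.
-/

set_option autoImplicit false

open CongruenceSubgroup ModularCurve ModularCurve.Period
open scoped MatrixGroups

namespace Fermat.Agent.S16.Shimura

open Fermat.Agent.S16.LB

/-- **(L1)** a surjective character of `(ℤ/p)ˣ` with values in `ℤ/n` which kills `12`-torsion. -/
theorem exists_chi (p : ℕ) [Fact p.Prime] :
    ∃ χ : (ZMod p)ˣ →* Multiplicative (ZMod (eisensteinNumerator p)),
      Function.Surjective χ ∧ ∀ x : (ZMod p)ˣ, x ^ 12 = 1 → χ x = 1 := by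
  have hcard : Nat.card (ZMod p)ˣ = p - 1 := by rw [Nat.card_eq_fintype_card, ZMod.card_units]
  have hcyc : IsCyclic (ZMod p)ˣ := inferInstance
  have hdvd : eisensteinNumerator p ∣ Nat.card (ZMod p)ˣ := hcard ▸ eisensteinNumerator_dvd p
  set e : Multiplicative (ZMod (Nat.card (ZMod p)ˣ)) ≃* (ZMod p)ˣ := zmodCyclicMulEquiv hcyc
    with he
  set c : ZMod (Nat.card (ZMod p)ˣ) →+* ZMod (eisensteinNumerator p) := ZMod.castHom hdvd _
    with hc
  refine ⟨(AddMonoidHom.toMultiplicative c.toAddMonoidHom).comp e.symm.toMonoidHom, ?_, ?_⟩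
  · intro y
    obtain ⟨a, ha⟩ := ZMod.castHom_surjective hdvd (Multiplicative.toAdd y)
    refine ⟨e (Multiplicative.ofAdd a), ?_⟩
    show Multiplicative.ofAdd (c (Multiplicative.toAdd (e.symm (e (Multiplicative.ofAdd a))))) = y
    rw [e.symm_apply_apply]
    show Multiplicative.ofAdd (c a) = y
    rw [hc, ha]
    rfl
  · intro x hx
    have hx1 : x ^ (p - 1) = 1 := by
      rw [← hcard]
      exact pow_card_eq_one'
    have hx2 : x ^ (Nat.gcd (p - 1) 12) = 1 := pow_gcd_eq_one.mpr ⟨hx1, hx⟩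
    -- in additive terms
    set a : ZMod (Nat.card (ZMod p)ˣ) := Multiplicative.toAdd (e.symm x) with ha
    have h1 : (Nat.gcd (p - 1) 12) • a = 0 := by
      have h2 : (e.symm x) ^ (Nat.gcd (p - 1) 12) = 1 := by rw [← map_pow, hx2, map_one]
      have h3 := congrArg Multiplicative.toAdd h2
      rw [toAdd_pow] at h3
      exact h3
    show Multiplicative.ofAdd (c a) = 1
    have h4 : c a = 0 := by
      have hp1 : 0 < p - 1 := Nat.sub_pos_of_lt (Fact.out : p.Prime).one_lt
      haveI : NeZero (Nat.card (ZMod p)ˣ) := ⟨by rw [hcard]; exact hp1.ne'⟩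
      have h5 : ((Nat.gcd (p - 1) 12 * a.val : ℕ) : ZMod (Nat.card (ZMod p)ˣ)) = 0 := by
        rw [Nat.cast_mul, ZMod.natCast_zmod_val, ← nsmul_eq_mul]
        exact h1
      rw [ZMod.natCast_eq_zero_iff] at h5
      have h5' : p - 1 ∣ Nat.gcd (p - 1) 12 * a.val := hcard ▸ h5
      have hg : 0 < Nat.gcd (p - 1) 12 := Nat.gcd_pos_of_pos_right _ (by norm_num)
      have h6 : eisensteinNumerator p ∣ a.val := by
        have h7 : Nat.gcd (p - 1) 12 * eisensteinNumerator p = p - 1 :=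
          Nat.mul_div_cancel' (Nat.gcd_dvd_left _ _)
        have h9 : Nat.gcd (p - 1) 12 * eisensteinNumerator p ∣ Nat.gcd (p - 1) 12 * a.val := by
          rw [h7]
          exact h5'
        exact (Nat.mul_dvd_mul_iff_left hg).mp h9
      have h8 : c a = ((a.val : ℕ) : ZMod (eisensteinNumerator p)) := by
        conv_lhs => rw [← ZMod.natCast_zmod_val a]
        rw [map_natCast]
      rw [h8, ZMod.natCast_eq_zero_iff]
      exact h6
    rw [h4]
    rfl

/-- `γ ↦ d(γ) mod p` is onto `(ℤ/p)ˣ`. -/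
theorem dUnit_surjective (p : ℕ) [Fact p.Prime] : Function.Surjective (dUnit p) := by
  intro u
  have hcop : Nat.Coprime (u : ZMod p).val p := ZMod.val_coe_unit_coprime u
  set d : ℕ := (u : ZMod p).val with hd
  -- Bezout: `d * x + p * y = 1`
  have hb := Nat.gcd_eq_gcd_ab d p
  rw [Nat.Coprime.gcd_eq_one hcop] at hb
  set x : ℤ := d.gcdA p with hx
  set y : ℤ := d.gcdB p with hy
  let g : SL(2, ℤ) := ⟨!![x, -y; (p : ℤ), (d : ℤ)], by
    rw [Matrix.det_fin_two_of]
    push_cast at hb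
    linarith⟩
  have hg : g ∈ Gamma0 p := by
    rw [Gamma0_mem]
    show (((p : ℤ) : ℤ) : ZMod p) = 0
    simp
  refine ⟨⟨g, hg⟩, ?_⟩
  apply Units.ext
  rw [dUnit_coe]
  show (((d : ℤ) : ℤ) : ZMod p) = (u : ZMod p)
  rw [Int.cast_natCast, hd, ZMod.natCast_zmod_val]

/-- **(LB) from the lifting statement.** -/
theorem LB_of_lift (p : ℕ) [Fact p.Prime]
    (h : ∀ χ : (ZMod p)ˣ →* Multiplicative (ZMod (eisensteinNumerator p)),
      (∀ x : (ZMod p)ˣ, x ^ 12 = 1 → χ x = 1) →
      ∃ ψ : Additive (Gamma0 p) →+ ℤ, IsParabolicHom (Gamma0 p) ψ ∧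
        ∀ γ : Gamma0 p, ((ψ (Additive.ofMul γ) : ℤ) : ZMod (eisensteinNumerator p))
          = Multiplicative.toAdd (χ (dUnit p γ))) :
    ∀ P : HeckeAlg, CuspForm.heckeEvalForms p 2 P = 0 →
      (eisensteinNumerator p : ℤ) ∣ MvPolynomial.aeval (eisensteinSystem p) P := by
  obtain ⟨χ, hsurj, htors⟩ := exists_chi p
  obtain ⟨ψ, hpar, hψ⟩ := h χ htors
  intro P hP
  obtain ⟨u, hu⟩ := hsurj (Multiplicative.ofAdd 1)
  obtain ⟨γ, hγ⟩ := dUnit_surjective p u
  refine dvd_aeval_eisensteinSystem p (eisensteinNumerator p) (eisensteinNumerator_dvd p) χ ψ hpar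
    hψ ⟨γ, ?_⟩ P ?_
  · rw [hψ γ, hγ, hu]
    rfl
  · rw [hP]
    rfl

end Fermat.Agent.S16.Shimura
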