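import Mathlib

set_option autoImplicit false

open scoped MatrixGroups Pointwise
open Matrix ModularGroup

namespace Fermat.Agent.S16.FreeProd

/-- carrier of the congruence action `M ↦ g M gᵀ` of `SL(2,ℤ)` on integer matrices -/
@[ext] structure Cong where
  m : Matrix (Fin 2) (Fin 2) ℤ

instance : SMul SL(2, ℤ) Cong := ⟨fun g M => ⟨g.1 * M.m * g.1ᵀ⟩⟩

theorem smul_m (g : SL(2, ℤ)) (M : Cong) : (g • M).m = g.1 * M.m * g.1ᵀ := rfl

instance : MulAction SL(2, ℤ) Cong where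
  one_smul M := by
    ext1
    simp [smul_m]
  mul_smul g h M := by
    ext1
    simp [smul_m, Matrix.mul_assoc, Matrix.transpose_mul]

/-- the rank one matrix `v vᵀ` for `v = (a, b)` -/
def vv (a b : ℤ) : Cong := ⟨!![a * a, a * b; a * b, b * b]⟩

theorem smul_vv (g : SL(2, ℤ)) (a b : ℤ) :
    g • vv a b = vv (g 0 0 * a + g 0 1 * b) (g 1 0 * a + g 1 1 * b) := by
  ext1
  rw [smul_m]
  ext i j
  fin_cases i <;> fin_cases j <;>
    simp [vv, Matrix.mul_apply, Fin.sum_univ_two, Matrix.transpose_apply] <;> ring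

def XP : Set Cong := {M | ∃ a b : ℤ, 0 < a * b ∧ M = vv a b}

def XN : Set Cong := {M | ∃ a b : ℤ, a * b < 0 ∧ M = vv a b}

theorem vv_m01 (a b : ℤ) : (vv a b).m 0 1 = a * b := by simp [vv]

theorem disjoint_XP_XN : Disjoint XP XN := by
  rw [Set.disjoint_left]
  rintro M ⟨a, b, hab, rfl⟩ ⟨c, d, hcd, h⟩
  have := congrArg (fun M : Cong => M.m 0 1) h
  simp only [vv_m01] at this
  omega

/-- the permutation representation -/
noncomputable def rho : SL(2, ℤ) →* Equiv.Perm Cong := MulAction.toPermHom SL(2, ℤ) Cong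

theorem rho_apply (g : SL(2, ℤ)) (M : Cong) : rho g M = g • M := rfl

theorem coe_ST : ((S * T : SL(2, ℤ)) : Matrix (Fin 2) (Fin 2) ℤ) = !![0, -1; 1, 1] := by
  rw [Matrix.SpecialLinearGroup.coe_mul, coe_S, coe_T]
  ext i j
  fin_cases i <;> fin_cases j <;> simp [Matrix.mul_apply, Fin.sum_univ_two]

theorem S_entries : (S 0 0 = 0) ∧ (S 0 1 = -1) ∧ (S 1 0 = 1) ∧ (S 1 1 = 0) := by
  refine ⟨rfl, rfl, rfl, rfl⟩

theorem ST_entries : ((S * T) 0 0 = 0) ∧ ((S * T) 0 1 = -1) ∧ ((S * T) 1 0 = 1) ∧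
    ((S * T) 1 1 = 1) := by
  rw [coe_ST]
  refine ⟨rfl, rfl, rfl, rfl⟩

theorem S_smul_vv (a b : ℤ) : S • vv a b = vv (-b) a := by
  rw [smul_vv]
  obtain ⟨h1, h2, h3, h4⟩ := S_entries
  rw [h1, h2, h3, h4]
  congr 1 <;> ring

theorem ST_smul_vv (a b : ℤ) : (S * T) • vv a b = vv (-b) (a + b) := by
  rw [smul_vv]
  obtain ⟨h1, h2, h3, h4⟩ := ST_entries
  rw [h1, h2, h3, h4]
  congr 1 <;> ring

theorem rho_eq_one_of_coe {g : SL(2, ℤ)} (hg : (g : Matrix (Fin 2) (Fin 2) ℤ) = -1) :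
    rho g = 1 := by
  ext1 M
  rw [rho_apply, Equiv.Perm.one_apply]
  ext1
  rw [smul_m, hg]
  simp

theorem rho_S_sq : rho S ^ 2 = 1 := by
  rw [← map_pow]
  apply rho_eq_one_of_coe
  rw [pow_two, Matrix.SpecialLinearGroup.coe_mul]
  exact S_mul_S_eq

theorem rho_ST_cube : rho (S * T) ^ 3 = 1 := by
  rw [← map_pow]
  apply rho_eq_one_of_coe
  rw [pow_succ, pow_two, Matrix.SpecialLinearGroup.coe_mul, Matrix.SpecialLinearGroup.coe_mul,
    coe_ST]
  ext i j
  fin_cases i <;> fin_cases j <;> simp [Matrix.mul_apply, Fin.sum_univ_two]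

/-- the homomorphism from the cyclic group of order `n` sending the generator to `x` -/
noncomputable def cycHom {W : Type*} [Group W] (n : ℕ) (x : W) (hx : x ^ n = 1) :
    Multiplicative (ZMod n) →* W :=
  AddMonoidHom.toMultiplicativeLeft
    (ZMod.lift n ⟨zmultiplesHom (Additive W) (Additive.ofMul x), by
      rw [zmultiplesHom_apply, natCast_zsmul, ← ofMul_pow, hx]
      rfl⟩)

theorem cycHom_natCast {W : Type*} [Group W] (n : ℕ) (x : W) (hx : x ^ n = 1) (k : ℕ) :
    cycHom n x hx (Multiplicative.ofAdd ((k : ℕ) : ZMod n)) = x ^ k := by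
  have h : ((k : ℕ) : ZMod n) = ((k : ℤ) : ZMod n) := by simp
  rw [h, cycHom, AddMonoidHom.coe_toMultiplicativeLeft]
  simp only [Function.comp_apply, toAdd_ofAdd, ZMod.lift_coe]
  simp [zmultiplesHom_apply]

/-- the two cyclic factors `C₂`, `C₃` -/
abbrev H (i : Fin 2) : Type := Multiplicative (ZMod ((i : ℕ) + 2))

/-- a pair of generators with `g 0 ^ 2 = 1`, `g 1 ^ 3 = 1` gives the family of homs -/
noncomputable def fam {W : Type*} [Group W] (g : Fin 2 → W) (hg : ∀ i : Fin 2, g i ^ ((i : ℕ) + 2) = 1)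
    (i : Fin 2) : H i →* W :=
  cycHom ((i : ℕ) + 2) (g i) (hg i)

noncomputable def gP : Fin 2 → Equiv.Perm Cong := ![rho S, rho (S * T)]

theorem gP_pow (i : Fin 2) : gP i ^ ((i : ℕ) + 2) = 1 := by
  fin_cases i
  · exact rho_S_sq
  · exact rho_ST_cube

def XX : Fin 2 → Set Cong := ![XP, XN]

theorem H_zero_cases (h : H 0) : h = 1 ∨ h = Multiplicative.ofAdd ((1 : ℕ) : ZMod 2) := by
  obtain ⟨a, rfl⟩ := Multiplicative.ofAdd.surjective h
  change ZMod 2 at a
  fin_cases a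
  · left; rfl
  · right; rfl

theorem H_one_cases (h : H 1) : h = 1 ∨ h = Multiplicative.ofAdd ((1 : ℕ) : ZMod 3) ∨
    h = Multiplicative.ofAdd ((2 : ℕ) : ZMod 3) := by
  obtain ⟨a, rfl⟩ := Multiplicative.ofAdd.surjective h
  change ZMod 3 at a
  fin_cases a
  · left; rfl
  · right; left; rfl
  · right; right; rfl

theorem S_XN : ∀ M ∈ XN, S • M ∈ XP := by
  rintro M ⟨a, b, hab, rfl⟩
  refine ⟨-b, a, ?_, S_smul_vv a b⟩
  nlinarith

theorem ST_XP : ∀ M ∈ XP, (S * T) • M ∈ XN := by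
  rintro M ⟨a, b, hab, rfl⟩
  refine ⟨-b, a + b, ?_, ST_smul_vv a b⟩
  nlinarith [mul_self_nonneg b, mul_pos_iff.mp hab]

theorem ST_sq_XP : ∀ M ∈ XP, (S * T) • ((S * T) • M) ∈ XN := by
  rintro M ⟨a, b, hab, rfl⟩
  refine ⟨-(a + b), -b + (a + b), ?_, ?_⟩
  · nlinarith [mul_self_nonneg a, mul_pos_iff.mp hab]
  · rw [ST_smul_vv, ST_smul_vv]

theorem ping_pong_hpp :
    Pairwise fun i j : Fin 2 => ∀ h : H i, h ≠ 1 → fam gP gP_pow i h • XX j ⊆ XX i := by
  intro i j hij h hh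
  fin_cases i <;> fin_cases j
  · exact absurd rfl hij
  · -- i = 0, j = 1
    rcases H_zero_cases h with rfl | rfl
    · exact absurd rfl hh
    · rintro _ ⟨M, hM, rfl⟩
      have : fam gP gP_pow 0 (Multiplicative.ofAdd ((1 : ℕ) : ZMod 2)) = rho S := by
        show cycHom 2 (gP 0) _ _ = _
        rw [cycHom_natCast, pow_one]
        rfl
      show (fam gP gP_pow 0 (Multiplicative.ofAdd ((1 : ℕ) : ZMod 2))) M ∈ XP
      rw [this]
      exact S_XN M hM
  · -- i = 1, j = 0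
    rcases H_one_cases h with rfl | rfl | rfl
    · exact absurd rfl hh
    · rintro _ ⟨M, hM, rfl⟩
      have : fam gP gP_pow 1 (Multiplicative.ofAdd ((1 : ℕ) : ZMod 3)) = rho (S * T) := by
        show cycHom 3 (gP 1) _ _ = _
        rw [cycHom_natCast, pow_one]
        rfl
      show (fam gP gP_pow 1 (Multiplicative.ofAdd ((1 : ℕ) : ZMod 3))) M ∈ XN
      rw [this]
      exact ST_XP M hM
    · rintro _ ⟨M, hM, rfl⟩
      have : fam gP gP_pow 1 (Multiplicative.ofAdd ((2 : ℕ) : ZMod 3)) = rho (S * T) ^ 2 := by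
        show cycHom 3 (gP 1) _ _ = _
        rw [cycHom_natCast]
        rfl
      show (fam gP gP_pow 1 (Multiplicative.ofAdd ((2 : ℕ) : ZMod 3))) M ∈ XN
      rw [this, pow_two]
      exact ST_sq_XP M hM
  · exact absurd rfl hij

theorem lift_injective : Function.Injective (Monoid.CoprodI.lift (fam gP gP_pow)) := by
  refine Monoid.CoprodI.lift_injective_of_ping_pong (fam gP gP_pow) (Or.inr ⟨1, ?_⟩) XX ?_ ?_
    ping_pong_hpp
  · show (3 : Cardinal) ≤ Cardinal.mk (Multiplicative (ZMod 3))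
    rw [Cardinal.mk_fintype]
    have : Fintype.card (Multiplicative (ZMod 3)) = 3 := by
      rw [Fintype.card_multiplicative, ZMod.card]
    rw [this]
    norm_num
  · intro i
    fin_cases i
    · exact ⟨vv 1 1, 1, 1, by norm_num, rfl⟩
    · exact ⟨vv 1 (-1), 1, -1, by norm_num, rfl⟩
  · intro i j hij
    fin_cases i <;> fin_cases j
    · exact absurd rfl hij
    · exact disjoint_XP_XN
    · exact disjoint_XP_XN.symm
    · exact absurd rfl hij

theorem rho_mem_range (g : SL(2, ℤ)) : rho g ∈ (Monoid.CoprodI.lift (fam gP gP_pow)).range := by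
  have hS : rho S ∈ (Monoid.CoprodI.lift (fam gP gP_pow)).range := by
    refine ⟨Monoid.CoprodI.of (i := (0 : Fin 2)) (Multiplicative.ofAdd ((1 : ℕ) : ZMod 2)), ?_⟩
    rw [Monoid.CoprodI.lift_of]
    show cycHom 2 (gP 0) _ _ = _
    rw [cycHom_natCast, pow_one]
    rfl
  have hST : rho (S * T) ∈ (Monoid.CoprodI.lift (fam gP gP_pow)).range := by
    refine ⟨Monoid.CoprodI.of (i := (1 : Fin 2)) (Multiplicative.ofAdd ((1 : ℕ) : ZMod 3)), ?_⟩
    rw [Monoid.CoprodI.lift_of]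
    show cycHom 3 (gP 1) _ _ = _
    rw [cycHom_natCast, pow_one]
    rfl
  have hT : rho T ∈ (Monoid.CoprodI.lift (fam gP gP_pow)).range := by
    have : rho T = (rho S)⁻¹ * rho (S * T) := by
      rw [map_mul, inv_mul_cancel_left]
    rw [this]
    exact Subgroup.mul_mem _ (Subgroup.inv_mem _ hS) hST
  have hle : Subgroup.closure ({S, T} : Set SL(2, ℤ)) ≤
      ((Monoid.CoprodI.lift (fam gP gP_pow)).range).comap rho := by
    rw [Subgroup.closure_le]
    rintro x (rfl | rfl)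
    · exact hS
    · exact hT
  have hg : g ∈ Subgroup.closure ({S, T} : Set SL(2, ℤ)) := by
    rw [_root_.SpecialLinearGroup.SL2Z_generators]
    trivial
  exact hle hg

/-- **Universal property of `PSL(2,ℤ) = C₂ * C₃`**: any pair `s, r` with `s² = 1`, `r³ = 1` in a
group is the image of `(S, S * T)` under a homomorphism from `SL(2, ℤ)`. -/
theorem exists_hom {W : Type*} [Group W] (s r : W) (hs : s ^ 2 = 1) (hr : r ^ 3 = 1) :
    ∃ Φ : SL(2, ℤ) →* W, Φ S = s ∧ Φ (S * T) = r := by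
  have hg : ∀ i : Fin 2, (![s, r] : Fin 2 → W) i ^ ((i : ℕ) + 2) = 1 := by
    intro i
    fin_cases i
    · exact hs
    · exact hr
  let F := Monoid.CoprodI.lift (fam gP gP_pow)
  let F' := Monoid.CoprodI.lift (fam (![s, r] : Fin 2 → W) hg)
  let e := MonoidHom.ofInjective lift_injective
  let Φ : SL(2, ℤ) →* W := F'.comp (e.symm.toMonoidHom.comp (rho.codRestrict F.range rho_mem_range))
  refine ⟨Φ, ?_, ?_⟩
  · have h1 : e.symm (rho.codRestrict F.range rho_mem_range S) =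
        Monoid.CoprodI.of (i := (0 : Fin 2)) (Multiplicative.ofAdd ((1 : ℕ) : ZMod 2)) := by
      rw [MulEquiv.symm_apply_eq]
      apply Subtype.ext
      rw [MonoidHom.ofInjective_apply]
      show rho S = Monoid.CoprodI.lift (fam gP gP_pow) _
      rw [Monoid.CoprodI.lift_of]
      show _ = cycHom 2 (gP 0) _ _
      rw [cycHom_natCast, pow_one]
      rfl
    show F' (e.symm (rho.codRestrict F.range rho_mem_range S)) = s
    rw [h1]
    show Monoid.CoprodI.lift (fam (![s, r] : Fin 2 → W) hg) _ = s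
    rw [Monoid.CoprodI.lift_of]
    show cycHom 2 ((![s, r] : Fin 2 → W) 0) _ _ = _
    rw [cycHom_natCast, pow_one]
    rfl
  · have h1 : e.symm (rho.codRestrict F.range rho_mem_range (S * T)) =
        Monoid.CoprodI.of (i := (1 : Fin 2)) (Multiplicative.ofAdd ((1 : ℕ) : ZMod 3)) := by
      rw [MulEquiv.symm_apply_eq]
      apply Subtype.ext
      rw [MonoidHom.ofInjective_apply]
      show rho (S * T) = Monoid.CoprodI.lift (fam gP gP_pow) _
      rw [Monoid.CoprodI.lift_of]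
      show _ = cycHom 3 (gP 1) _ _
      rw [cycHom_natCast, pow_one]
      rfl
    show F' (e.symm (rho.codRestrict F.range rho_mem_range (S * T))) = r
    rw [h1]
    show Monoid.CoprodI.lift (fam (![s, r] : Fin 2 → W) hg) _ = r
    rw [Monoid.CoprodI.lift_of]
    show cycHom 3 ((![s, r] : Fin 2 → W) 1) _ _ = _
    rw [cycHom_natCast, pow_one]
    rfl

end Fermat.Agent.S16.FreeProd
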