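import Mathlib
import Fermat.Prelude.Def_ModularCurve_PeriodHomPair
import Fermat.Agent.S21_PeriodLinear
import Fermat.Agent.S16_FreeProd

/-!
# S16, L4 (abstract part): lifting a homomorphism `Γ → ℤ/n` killing torsion to `Γ → ℤ`

`Γ ≤ SL(2,ℤ)` containing `-1`, `X = SL(2,ℤ) ⧸ Γ`.  A homomorphism `σ : Γ → ℤ/n` induces a cocycle
`d_σ : SL(2,ℤ) → Map(X, ℤ/n)` (Shapiro).  Its values `u`, `v` at `S`, `S * T` lift orbitwise to
integer valued functions with the same relations (because `σ` kills torsion), and the universal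
property of `PSL(2,ℤ) = C₂ * C₃` produces an integral cocycle.
-/

set_option autoImplicit false

open scoped MatrixGroups
open ModularGroup

namespace Fermat.Agent.S16.Lift

/-! ### Orbitwise lifting -/

section Orbit

variable {X : Type*} {n : ℕ}

theorem exists_lift_invol (e : X → ℕ) (he : Function.Injective e) (τ : X → X)
    (hτ : ∀ x, τ (τ x) = x) (u : X → ZMod n) (hu : ∀ x, u (τ x) + u x = 0)
    (hfix : ∀ x, τ x = x → u x = 0) :
    ∃ U : X → ℤ, (∀ x, ((U x : ℤ) : ZMod n) = u x) ∧ ∀ x, U (τ x) + U x = 0 := by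
  classical
  let L : ZMod n → ℤ := fun a => (ZMod.cast a : ℤ)
  have hL : ∀ a : ZMod n, ((L a : ℤ) : ZMod n) = a := fun a => ZMod.intCast_zmod_cast a
  have hL0 : L 0 = 0 := ZMod.cast_zero
  refine ⟨fun x => L (u x) - (if e x ≤ e (τ x) then L (u x) + L (u (τ x)) else 0),
    fun x => ?_, fun x => ?_⟩
  · have h0 : ((L (u x) + L (u (τ x)) : ℤ) : ZMod n) = 0 := by
      push_cast
      rw [hL, hL, add_comm]
      exact hu x
    by_cases h : e x ≤ e (τ x)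
    · simp only [if_pos h]
      rw [Int.cast_sub, h0, sub_zero, hL]
    · simp only [if_neg h]
      rw [Int.cast_sub, Int.cast_zero, sub_zero, hL]
  · by_cases hx : τ x = x
    · simp [hx, hfix x hx, hL0]
    · have hne : e (τ x) ≠ e x := fun h => hx (he h)
      simp only [hτ]
      split_ifs <;> omega

/-- prescribing the value of the lift at one point of a free orbit -/
theorem exists_lift_invol_at (e : X → ℕ) (he : Function.Injective e) (τ : X → X)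
    (hτ : ∀ x, τ (τ x) = x) (u : X → ZMod n) (hu : ∀ x, u (τ x) + u x = 0)
    (hfix : ∀ x, τ x = x → u x = 0) (x₁ : X) (hx₁ : τ x₁ ≠ x₁) (a : ℤ)
    (ha : ((a : ℤ) : ZMod n) = u x₁) :
    ∃ U : X → ℤ, (∀ x, ((U x : ℤ) : ZMod n) = u x) ∧ (∀ x, U (τ x) + U x = 0) ∧ U x₁ = a := by
  classical
  obtain ⟨U, hU1, hU2⟩ := exists_lift_invol e he τ hτ u hu hfix
  have hd : (((a - U x₁ : ℤ)) : ZMod n) = 0 := by
    rw [Int.cast_sub, ha, hU1, sub_self]
  refine ⟨fun x => U x + (a - U x₁) * ((if x = x₁ then 1 else 0) - (if x = τ x₁ then 1 else 0)),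
    fun x => ?_, fun x => ?_, ?_⟩
  · rw [Int.cast_add, Int.cast_mul, hd, zero_mul, add_zero, hU1]
  · have h1 : (τ x = x₁) ↔ (x = τ x₁) := by
      constructor
      · intro h; rw [← h, hτ]
      · intro h; rw [h, hτ]
    have h2 : (τ x = τ x₁) ↔ (x = x₁) := by
      constructor
      · intro h; rw [← hτ x, h, hτ]
      · intro h; rw [h]
    simp only [h1, h2]
    linear_combination hU2 x
  · show U x₁ + (a - U x₁) * ((if x₁ = x₁ then 1 else 0) - (if x₁ = τ x₁ then 1 else 0)) = a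
    rw [if_pos rfl, if_neg (Ne.symm hx₁)]
    ring

theorem exists_lift_three (e : X → ℕ) (he : Function.Injective e) (ρ : X → X)
    (hρ : ∀ x, ρ (ρ (ρ x)) = x) (v : X → ZMod n) (hv : ∀ x, v x + v (ρ x) + v (ρ (ρ x)) = 0)
    (hfix : ∀ x, ρ x = x → v x = 0) :
    ∃ V : X → ℤ, (∀ x, ((V x : ℤ) : ZMod n) = v x) ∧ ∀ x, V x + V (ρ x) + V (ρ (ρ x)) = 0 := by
  classical
  let L : ZMod n → ℤ := fun a => (ZMod.cast a : ℤ)
  have hL : ∀ a : ZMod n, ((L a : ℤ) : ZMod n) = a := fun a => ZMod.intCast_zmod_cast a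
  have hL0 : L 0 = 0 := ZMod.cast_zero
  refine ⟨fun x => L (v x) - (if e x ≤ e (ρ x) ∧ e x ≤ e (ρ (ρ x)) then
    L (v x) + L (v (ρ x)) + L (v (ρ (ρ x))) else 0), fun x => ?_, fun x => ?_⟩
  · have h0 : ((L (v x) + L (v (ρ x)) + L (v (ρ (ρ x))) : ℤ) : ZMod n) = 0 := by
      push_cast
      rw [hL, hL, hL]
      exact hv x
    by_cases h : e x ≤ e (ρ x) ∧ e x ≤ e (ρ (ρ x))
    · simp only [if_pos h]
      rw [Int.cast_sub, h0, sub_zero, hL]
    · simp only [if_neg h]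
      rw [Int.cast_sub, Int.cast_zero, sub_zero, hL]
  · by_cases hx : ρ x = x
    · simp [hx, hfix x hx, hL0]
    · have h1 : e (ρ x) ≠ e x := fun h => hx (he h)
      have h2 : e (ρ (ρ x)) ≠ e (ρ x) := by
        intro h
        have h' := he h
        apply hx
        have h'' := congrArg ρ h'
        rw [hρ] at h''
        rw [← h', ← h'']
      have h3 : e (ρ (ρ x)) ≠ e x := by
        intro h
        have h' := he h
        apply hx
        have := congrArg ρ h'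
        rw [hρ] at this
        exact this.symm
      simp only [hρ]
      split_ifs <;> omega

end Orbit

/-! ### Affine permutations and the integral cocycle -/

section Cocycle

variable (Γ : Subgroup SL(2, ℤ))

/-- the affine permutation `(x, k) ↦ (g • x, k + u x)` of `X × ℤ` -/
def aff (g : SL(2, ℤ)) (u : SL(2, ℤ) ⧸ Γ → ℤ) : Equiv.Perm ((SL(2, ℤ) ⧸ Γ) × ℤ) where
  toFun q := (g • q.1, q.2 + u q.1)
  invFun q := (g⁻¹ • q.1, q.2 - u (g⁻¹ • q.1))
  left_inv q := by simp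
  right_inv q := by simp

theorem aff_apply (g : SL(2, ℤ)) (u : SL(2, ℤ) ⧸ Γ → ℤ) (q : (SL(2, ℤ) ⧸ Γ) × ℤ) :
    aff Γ g u q = (g • q.1, q.2 + u q.1) := rfl

theorem aff_mul (g h : SL(2, ℤ)) (u u' : SL(2, ℤ) ⧸ Γ → ℤ) :
    aff Γ g u * aff Γ h u' = aff Γ (g * h) (fun x => u (h • x) + u' x) := by
  ext1 q
  rw [Equiv.Perm.mul_apply, aff_apply, aff_apply, aff_apply, mul_smul]
  simp only [Prod.mk.injEq, true_and]
  ring

theorem aff_inv (g : SL(2, ℤ)) (u : SL(2, ℤ) ⧸ Γ → ℤ) :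
    (aff Γ g u)⁻¹ = aff Γ g⁻¹ (fun x => - u (g⁻¹ • x)) := by
  rw [inv_eq_iff_mul_eq_one, aff_mul]
  ext1 q
  rw [aff_apply, Equiv.Perm.one_apply]
  simp

theorem aff_injective (g : SL(2, ℤ)) {u u' : SL(2, ℤ) ⧸ Γ → ℤ} (h : aff Γ g u = aff Γ g u') :
    u = u' := by
  funext x
  have := congrArg (fun f : Equiv.Perm ((SL(2, ℤ) ⧸ Γ) × ℤ) => (f (x, 0)).2) h
  simpa [aff_apply] using this

theorem aff_eq_one {g : SL(2, ℤ)} (hg : ∀ x : SL(2, ℤ) ⧸ Γ, g • x = x)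
    {u : SL(2, ℤ) ⧸ Γ → ℤ} (hu : ∀ x, u x = 0) : aff Γ g u = 1 := by
  ext1 q
  rw [aff_apply, Equiv.Perm.one_apply, hg, hu, add_zero]

theorem ST_cube : (S * T) * (S * T) * (S * T) = S * S := by
  apply Subtype.ext
  simp only [Matrix.SpecialLinearGroup.coe_mul, coe_S, coe_T]
  ext i j
  fin_cases i <;> fin_cases j <;> simp [Matrix.mul_apply, Fin.sum_univ_two]

theorem closure_S_ST : Subgroup.closure ({S, S * T} : Set SL(2, ℤ)) = ⊤ := by
  rw [eq_top_iff, ← SpecialLinearGroup.SL2Z_generators, Subgroup.closure_le]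
  rintro x (rfl | rfl)
  · exact Subgroup.subset_closure (Set.mem_insert _ _)
  · have hS : S ∈ Subgroup.closure ({S, S * T} : Set SL(2, ℤ)) :=
      Subgroup.subset_closure (Set.mem_insert _ _)
    have hST : S * T ∈ Subgroup.closure ({S, S * T} : Set SL(2, ℤ)) :=
      Subgroup.subset_closure (Set.mem_insert_of_mem _ rfl)
    have hT := Subgroup.mul_mem _ (Subgroup.inv_mem _ hS) hST
    rwa [inv_mul_cancel_left] at hT

/-- **integral cocycle with prescribed values at `S` and `S * T`** -/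
theorem exists_cocycle (hcen : ∀ x : SL(2, ℤ) ⧸ Γ, (S * S) • x = x) (U V : SL(2, ℤ) ⧸ Γ → ℤ)
    (hU : ∀ x, U (S • x) + U x = 0)
    (hV : ∀ x, V x + V ((S * T) • x) + V ((S * T) • (S * T) • x) = 0) :
    ∃ c : SL(2, ℤ) → SL(2, ℤ) ⧸ Γ → ℤ,
      (∀ g h x, c (g * h) x = c g (h • x) + c h x) ∧ c S = U ∧ c (S * T) = V := by
  have hs : aff Γ S U ^ 2 = 1 := by
    rw [pow_two, aff_mul]
    exact aff_eq_one Γ hcen hU
  have hr : aff Γ (S * T) V ^ 3 = 1 := by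
    rw [pow_succ, pow_two, aff_mul, aff_mul, ST_cube]
    refine aff_eq_one Γ hcen fun x => ?_
    show V ((S * T) • (S * T) • x) + V ((S * T) • x) + V x = 0
    linear_combination hV x
  obtain ⟨Φ, hΦS, hΦR⟩ := FreeProd.exists_hom (aff Γ S U) (aff Γ (S * T) V) hs hr
  have key : ∀ g : SL(2, ℤ), ∃ c : SL(2, ℤ) ⧸ Γ → ℤ, Φ g = aff Γ g c := by
    intro g
    have hg : g ∈ Subgroup.closure ({S, S * T} : Set SL(2, ℤ)) := by
      rw [closure_S_ST]
      trivial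
    induction hg using Subgroup.closure_induction with
    | mem x hx =>
      rcases hx with rfl | hx
      · exact ⟨U, hΦS⟩
      · rw [Set.mem_singleton_iff] at hx
        subst hx
        exact ⟨V, hΦR⟩
    | one =>
      refine ⟨fun _ => 0, ?_⟩
      rw [map_one]
      exact (aff_eq_one Γ (fun x => one_smul _ x) (fun _ => rfl)).symm
    | mul x y _ _ hx hy =>
      obtain ⟨cx, hcx⟩ := hx
      obtain ⟨cy, hcy⟩ := hy
      exact ⟨_, by rw [map_mul, hcx, hcy, aff_mul]⟩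
    | inv x _ hx =>
      obtain ⟨cx, hcx⟩ := hx
      exact ⟨_, by rw [map_inv, hcx, aff_inv]⟩
  choose c hc using key
  refine ⟨c, fun g h x => ?_, ?_, ?_⟩
  · have h1 : aff Γ (g * h) (c (g * h)) = aff Γ (g * h) (fun x => c g (h • x) + c h x) := by
      rw [← hc, map_mul, hc g, hc h, aff_mul]
    exact congrFun (aff_injective Γ _ h1) x
  · exact aff_injective Γ S ((hc S).symm.trans hΦS)
  · exact aff_injective Γ (S * T) ((hc (S * T)).symm.trans hΦR)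

end Cocycle

/-! ### Formal properties of cocycles -/

section CocycleProps

variable {Γ : Subgroup SL(2, ℤ)} {A : Type*} [AddCommGroup A]
  (c : SL(2, ℤ) → SL(2, ℤ) ⧸ Γ → A)
  (hc : ∀ g h x, c (g * h) x = c g (h • x) + c h x)

include hc

theorem coc_one (x : SL(2, ℤ) ⧸ Γ) : c 1 x = 0 := by
  have h := hc 1 1 x
  rw [mul_one, one_smul] at h
  exact (add_eq_left.mp h.symm)

theorem coc_inv (g : SL(2, ℤ)) (x : SL(2, ℤ) ⧸ Γ) : c g⁻¹ x = - c g (g⁻¹ • x) := by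
  have h := hc g g⁻¹ x
  rw [mul_inv_cancel, coc_one c hc] at h
  exact eq_neg_of_add_eq_zero_right h.symm

theorem coc_pow_fix (g : SL(2, ℤ)) (y : SL(2, ℤ) ⧸ Γ) (hy : g • y = y) (k : ℕ) :
    c (g ^ k) y = k • c g y := by
  induction k with
  | zero => rw [pow_zero, coc_one c hc, zero_smul]
  | succ k ih => rw [pow_succ, hc, hy, ih, succ_nsmul]

theorem coc_zpow_fix (g : SL(2, ℤ)) (y : SL(2, ℤ) ⧸ Γ) (hy : g • y = y) (k : ℤ) :
    c (g ^ k) y = k • c g y := by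
  have hpow : ∀ j : ℕ, g ^ j • y = y := by
    intro j
    induction j with
    | zero => rw [pow_zero, one_smul]
    | succ j ih => rw [pow_succ, mul_smul, hy, ih]
  obtain ⟨j, rfl | rfl⟩ := Int.eq_nat_or_neg k
  · rw [zpow_natCast, natCast_zsmul]
    exact coc_pow_fix c hc g y hy j
  · rw [zpow_neg, zpow_natCast, coc_inv c hc, neg_smul, natCast_zsmul]
    have : (g ^ j)⁻¹ • y = y := by
      rw [inv_smul_eq_iff, hpow]
    rw [this, coc_pow_fix c hc g y hy j]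

theorem coc_pow_sum (g : SL(2, ℤ)) (y : SL(2, ℤ) ⧸ Γ) (k : ℕ) :
    c (g ^ k) y = ∑ i ∈ Finset.range k, c g (g ^ i • y) := by
  induction k generalizing y with
  | zero => rw [pow_zero, coc_one c hc, Finset.range_zero, Finset.sum_empty]
  | succ k ih =>
    rw [pow_succ, hc, ih, Finset.sum_range_succ', pow_zero, one_smul]
    congr 1
    refine Finset.sum_congr rfl fun i _ => ?_
    rw [pow_succ, mul_smul]

/-- conjugation formula: the value at `x₀` of the cocycle on `δ h δ⁻¹` -/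
theorem coc_conj (δ h : SL(2, ℤ)) (x : SL(2, ℤ) ⧸ Γ) (hx : (δ * h * δ⁻¹) • x = x) :
    c (δ * h * δ⁻¹) x = c h (δ⁻¹ • x) := by
  have h1 : h • δ⁻¹ • x = δ⁻¹ • x := by
    rw [eq_inv_smul_iff, ← mul_smul, ← mul_smul]
    exact hx
  rw [hc, hc, h1, coc_inv c hc]
  abel

end CocycleProps

/-! ### The Shapiro cocycle of a homomorphism and the comparison -/

section Shapiro

variable (Γ : Subgroup SL(2, ℤ)) {n : ℕ}

/-- `κ(h, x) = out(h • x)⁻¹ · h · out(x) ∈ Γ` -/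
noncomputable def kap (h : SL(2, ℤ)) (x : SL(2, ℤ) ⧸ Γ) : Γ :=
  ⟨(h • x).out⁻¹ * (h * x.out), by
    rw [← QuotientGroup.eq, QuotientGroup.out_eq']
    conv_lhs => rw [← QuotientGroup.out_eq' x]
    rfl⟩

theorem kap_mul (h1 h2 : SL(2, ℤ)) (x : SL(2, ℤ) ⧸ Γ) :
    kap Γ (h1 * h2) x = kap Γ h1 (h2 • x) * kap Γ h2 x := by
  apply Subtype.ext
  show ((h1 * h2) • x).out⁻¹ * (h1 * h2 * x.out) =
    ((h1 • h2 • x).out⁻¹ * (h1 * (h2 • x).out)) * ((h2 • x).out⁻¹ * (h2 * x.out))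
  rw [mul_smul]
  group

/-- the Shapiro cocycle `d_σ(g)(x) = σ(κ(g, x))` -/
noncomputable def dsig (σ : Additive Γ →+ ZMod n) (g : SL(2, ℤ)) (x : SL(2, ℤ) ⧸ Γ) : ZMod n :=
  σ (Additive.ofMul (kap Γ g x))

theorem dsig_mul (σ : Additive Γ →+ ZMod n) (g h : SL(2, ℤ)) (x : SL(2, ℤ) ⧸ Γ) :
    dsig Γ σ (g * h) x = dsig Γ σ g (h • x) + dsig Γ σ h x := by
  rw [dsig, dsig, dsig, kap_mul, ofMul_mul, map_add]

/-- the base point `x₀ = Γ` -/
def base : SL(2, ℤ) ⧸ Γ := ((1 : SL(2, ℤ)) : SL(2, ℤ) ⧸ Γ)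

theorem smul_base {γ : SL(2, ℤ)} (hγ : γ ∈ Γ) : γ • base Γ = base Γ := by
  show ((γ * 1 : SL(2, ℤ)) : SL(2, ℤ) ⧸ Γ) = ((1 : SL(2, ℤ)) : SL(2, ℤ) ⧸ Γ)
  rw [QuotientGroup.eq]
  simpa using Γ.inv_mem hγ

theorem out_base_mem : (base Γ).out ∈ Γ := by
  have h : (((base Γ).out : SL(2, ℤ)) : SL(2, ℤ) ⧸ Γ) = ((1 : SL(2, ℤ)) : SL(2, ℤ) ⧸ Γ) :=
    QuotientGroup.out_eq' _
  rw [QuotientGroup.eq] at h
  simpa using Γ.inv_mem h

theorem dsig_base (σ : Additive Γ →+ ZMod n) (γ : Γ) :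
    dsig Γ σ (γ : SL(2, ℤ)) (base Γ) = σ (Additive.ofMul γ) := by
  have hk : kap Γ (γ : SL(2, ℤ)) (base Γ) =
      (⟨(base Γ).out, out_base_mem Γ⟩ : Γ)⁻¹ * γ * ⟨(base Γ).out, out_base_mem Γ⟩ := by
    apply Subtype.ext
    show (((γ : SL(2, ℤ)) • base Γ).out)⁻¹ * ((γ : SL(2, ℤ)) * (base Γ).out) = _
    rw [smul_base Γ γ.2]
    simp [mul_assoc]
  rw [dsig, hk, ofMul_mul, ofMul_mul, map_add, map_add, ofMul_inv, map_neg]
  abel

theorem dsig_eq_zero_of_fix (σ : Additive Γ →+ ZMod n)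
    (hσ : ∀ γ : Γ, IsOfFinOrder γ → σ (Additive.ofMul γ) = 0)
    (g : SL(2, ℤ)) (hg : IsOfFinOrder g) (x : SL(2, ℤ) ⧸ Γ) (hx : g • x = x) :
    dsig Γ σ g x = 0 := by
  apply hσ
  have hcoe : IsOfFinOrder ((kap Γ g x : Γ) : SL(2, ℤ)) → IsOfFinOrder (kap Γ g x) := by
    intro h
    obtain ⟨k, hk, hgk⟩ := isOfFinOrder_iff_pow_eq_one.mp h
    refine isOfFinOrder_iff_pow_eq_one.mpr ⟨k, hk, Subtype.ext ?_⟩
    rw [SubmonoidClass.coe_pow, hgk]
    rfl
  apply hcoe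
  show IsOfFinOrder ((g • x).out⁻¹ * (g * x.out))
  rw [hx]
  obtain ⟨k, hk, hgk⟩ := isOfFinOrder_iff_pow_eq_one.mp hg
  refine isOfFinOrder_iff_pow_eq_one.mpr ⟨k, hk, ?_⟩
  have : x.out⁻¹ * (g * x.out) = x.out⁻¹ * g * (x.out⁻¹)⁻¹ := by group
  rw [this, conj_pow, hgk]
  group

theorem S_sq_sq : (S * S) ^ 2 = (1 : SL(2, ℤ)) := by
  apply Subtype.ext
  rw [pow_two]
  simp only [Matrix.SpecialLinearGroup.coe_mul, coe_S, Matrix.SpecialLinearGroup.coe_one]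
  ext i j
  fin_cases i <;> fin_cases j <;> simp [Matrix.mul_apply, Fin.sum_univ_two]

theorem isOfFinOrder_S_sq : IsOfFinOrder (S * S : SL(2, ℤ)) :=
  isOfFinOrder_iff_pow_eq_one.mpr ⟨2, by norm_num, S_sq_sq⟩

theorem isOfFinOrder_S : IsOfFinOrder (S : SL(2, ℤ)) :=
  isOfFinOrder_iff_pow_eq_one.mpr ⟨4, by norm_num, by
    have : (S : SL(2, ℤ)) ^ 4 = (S * S) ^ 2 := by
      rw [show (4 : ℕ) = 2 * 2 from rfl, pow_mul, pow_two S]
    rw [this, S_sq_sq]⟩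

theorem isOfFinOrder_ST : IsOfFinOrder (S * T : SL(2, ℤ)) :=
  isOfFinOrder_iff_pow_eq_one.mpr ⟨6, by norm_num, by
    have : (S * T : SL(2, ℤ)) ^ 6 = ((S * T) * (S * T) * (S * T)) ^ 2 := by
      rw [show (6 : ℕ) = 3 * 2 from rfl, pow_mul, pow_succ (S * T) 2, pow_two (S * T)]
    rw [this, ST_cube, S_sq_sq]⟩

/-- **Lifting theorem (abstract form).**  If `σ : Γ → ℤ/n` kills the elements of finite order and
`T`, there is an integral cocycle `c` congruent to the Shapiro cocycle of `σ`, whose values `U`,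
`V` at `S`, `S * T` satisfy the orbit relations and `U x₀ = V x₀`. -/
theorem exists_cocycle_lift [Countable (SL(2, ℤ) ⧸ Γ)]
    (hcen : ∀ x : SL(2, ℤ) ⧸ Γ, (S * S) • x = x)
    (σ : Additive Γ →+ ZMod n) (hσ : ∀ γ : Γ, IsOfFinOrder γ → σ (Additive.ofMul γ) = 0)
    (hT : T ∈ Γ) (hS : S ∉ Γ) (hσT : σ (Additive.ofMul (⟨T, hT⟩ : Γ)) = 0) :
    ∃ (c : SL(2, ℤ) → SL(2, ℤ) ⧸ Γ → ℤ) (U V : SL(2, ℤ) ⧸ Γ → ℤ),
      (∀ g h x, c (g * h) x = c g (h • x) + c h x) ∧ c S = U ∧ c (S * T) = V ∧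
      (∀ x, U (S • x) + U x = 0) ∧
      (∀ x, V x + V ((S * T) • x) + V ((S * T) • (S * T) • x) = 0) ∧
      U (base Γ) = V (base Γ) ∧
      ∀ g x, ((c g x : ℤ) : ZMod n) = dsig Γ σ g x := by
  obtain ⟨e, he⟩ := exists_injective_nat (SL(2, ℤ) ⧸ Γ)
  have hd := dsig_mul Γ σ
  -- the order three relation
  have hR3 : ∀ x : SL(2, ℤ) ⧸ Γ, (S * T) • (S * T) • (S * T) • x = x := by
    intro x
    rw [← mul_smul, ← mul_smul, ST_cube, hcen]
  have hv : ∀ x, dsig Γ σ (S * T) x + dsig Γ σ (S * T) ((S * T) • x) +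
      dsig Γ σ (S * T) ((S * T) • (S * T) • x) = 0 := by
    intro x
    have h0 : dsig Γ σ ((S * T) * (S * T) * (S * T)) x = 0 := by
      rw [ST_cube]
      exact dsig_eq_zero_of_fix Γ σ hσ _ isOfFinOrder_S_sq x (hcen x)
    rw [hd, hd, ← mul_smul] at h0
    rw [← mul_smul]
    linear_combination h0
  obtain ⟨V, hV1, hV2⟩ := exists_lift_three e he (fun x => (S * T) • x) hR3
    (dsig Γ σ (S * T)) hv
    (fun x hx => dsig_eq_zero_of_fix Γ σ hσ _ isOfFinOrder_ST x hx)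
  -- the involution relation
  have hS2 : ∀ x : SL(2, ℤ) ⧸ Γ, S • S • x = x := by
    intro x
    rw [← mul_smul, hcen]
  have hu : ∀ x, dsig Γ σ S (S • x) + dsig Γ σ S x = 0 := by
    intro x
    have h0 : dsig Γ σ (S * S) x = 0 :=
      dsig_eq_zero_of_fix Γ σ hσ _ isOfFinOrder_S_sq x (hcen x)
    rw [hd] at h0
    exact h0
  have hSbase : S • base Γ ≠ base Γ := by
    intro h
    apply hS
    have h' : ((S * 1 : SL(2, ℤ)) : SL(2, ℤ) ⧸ Γ) = ((1 : SL(2, ℤ)) : SL(2, ℤ) ⧸ Γ) := h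
    rw [QuotientGroup.eq] at h'
    simpa using Γ.inv_mem h'
  have huv : ((V (base Γ) : ℤ) : ZMod n) = dsig Γ σ S (base Γ) := by
    rw [hV1]
    have h1 : dsig Γ σ T (base Γ) = 0 := by
      have := dsig_base Γ σ ⟨T, hT⟩
      rw [hσT] at this
      exact this
    have h2 : T = S⁻¹ * (S * T) := by group
    rw [h2, hd, coc_inv (dsig Γ σ) hd, ← mul_smul] at h1
    have h4 : S⁻¹ * (S * T) = T := by group
    rw [h4, smul_base Γ hT] at h1
    exact (neg_add_eq_zero.mp h1).symm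
  obtain ⟨U, hU1, hU2, hU3⟩ := exists_lift_invol_at e he (fun x => S • x) hS2
    (dsig Γ σ S) hu (fun x hx => dsig_eq_zero_of_fix Γ σ hσ _ isOfFinOrder_S x hx)
    (base Γ) hSbase (V (base Γ)) huv
  obtain ⟨c, hc, hcS, hcR⟩ := exists_cocycle Γ hcen U V hU2 hV2
  refine ⟨c, U, V, hc, hcS, hcR, hU2, hV2, hU3, ?_⟩
  intro g
  have hg : g ∈ Subgroup.closure ({S, S * T} : Set SL(2, ℤ)) := by
    rw [closure_S_ST]
    trivial
  induction hg using Subgroup.closure_induction with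
  | mem x hx =>
    rcases hx with rfl | hx
    · intro x
      rw [hcS, hU1]
    · rw [Set.mem_singleton_iff] at hx
      subst hx
      intro x
      rw [hcR, hV1]
  | one =>
    intro x
    rw [coc_one c hc, coc_one (dsig Γ σ) hd, Int.cast_zero]
  | mul a b _ _ ha hb =>
    intro x
    rw [hc, hd, Int.cast_add, ha, hb]
  | inv a _ ha =>
    intro x
    rw [coc_inv c hc, coc_inv (dsig Γ σ) hd, Int.cast_neg, ha]

end Shapiro

/-! ### The case `Γ = Γ₀(p)` -/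

section Gamma0

open CongruenceSubgroup ModularCurve.Period

variable (p : ℕ) [Fact p.Prime]

theorem S_sq_eq_neg_one : (S * S : SL(2, ℤ)) = -1 := by
  apply Subtype.ext
  rw [Matrix.SpecialLinearGroup.coe_mul, S_mul_S_eq, Matrix.SpecialLinearGroup.coe_neg,
    Matrix.SpecialLinearGroup.coe_one]

theorem T_mem : T ∈ Gamma0 p := by
  rw [Gamma0_mem, coe_T]
  simp

theorem S_not_mem : S ∉ Gamma0 p := by
  rw [Gamma0_mem, coe_S]
  have hp : (1 : ℕ) < p := (Fact.out : p.Prime).one_lt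
  have : Fact (1 < p) := ⟨hp⟩
  simp

theorem S_sq_mem : S * S ∈ Gamma0 p := by
  rw [S_sq_eq_neg_one, Gamma0_mem]
  simp

theorem hcen (x : SL(2, ℤ) ⧸ Gamma0 p) : (S * S) • x = x := by
  induction x using QuotientGroup.induction_on with
  | H g =>
    show ((S * S * g : SL(2, ℤ)) : SL(2, ℤ) ⧸ Gamma0 p) = (g : SL(2, ℤ) ⧸ Gamma0 p)
    have h : S * S * g = g * (S * S) := by
      rw [S_sq_eq_neg_one]
      simp
    rw [h]
    exact QuotientGroup.mk_mul_of_mem g (S_sq_mem p)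

omit [Fact p.Prime] in
theorem mk_eq_base_iff (g : SL(2, ℤ)) :
    (g : SL(2, ℤ) ⧸ Gamma0 p) = base (Gamma0 p) ↔ (p : ℤ) ∣ g 1 0 := by
  show (g : SL(2, ℤ) ⧸ Gamma0 p) = ((1 : SL(2, ℤ)) : SL(2, ℤ) ⧸ Gamma0 p) ↔ _
  rw [QuotientGroup.eq, mul_one, inv_mem_iff, Gamma0_mem, ZMod.intCast_zmod_eq_zero_iff_dvd]

theorem entry_conj (g g' : SL(2, ℤ)) (m : ℤ) :
    ((T ^ m * g)⁻¹ * g') 1 0 = g 1 0 * g' 1 0 * m + (g 0 0 * g' 1 0 - g 1 0 * g' 0 0) := by
  have h1 : ((T ^ m * g)⁻¹ * g' : SL(2, ℤ)) = g⁻¹ * (T ^ (-m) * g') := by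
    rw [mul_inv_rev, zpow_neg, mul_assoc]
  rw [h1, Matrix.SpecialLinearGroup.coe_mul, Matrix.SpecialLinearGroup.coe_mul, coe_T_zpow,
    Matrix.SpecialLinearGroup.coe_inv, Matrix.adjugate_fin_two]
  simp [Matrix.mul_apply, Fin.sum_univ_two, Matrix.vecMul, dotProduct]
  ring

omit [Fact p.Prime] in
theorem T_zpow_smul_mk_eq_iff (g g' : SL(2, ℤ)) (m : ℤ) :
    T ^ m • (g : SL(2, ℤ) ⧸ Gamma0 p) = (g' : SL(2, ℤ) ⧸ Gamma0 p) ↔
      (p : ℤ) ∣ g 1 0 * g' 1 0 * m + (g 0 0 * g' 1 0 - g 1 0 * g' 0 0) := by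
  show ((T ^ m * g : SL(2, ℤ)) : SL(2, ℤ) ⧸ Gamma0 p) = (g' : SL(2, ℤ) ⧸ Gamma0 p) ↔ _
  rw [QuotientGroup.eq, Gamma0_mem, ZMod.intCast_zmod_eq_zero_iff_dvd, entry_conj]

theorem T_zpow_smul_fix_iff (g : SL(2, ℤ)) (hg : ¬ (p : ℤ) ∣ g 1 0) (m : ℤ) :
    T ^ m • (g : SL(2, ℤ) ⧸ Gamma0 p) = (g : SL(2, ℤ) ⧸ Gamma0 p) ↔ (p : ℤ) ∣ m := by
  have hp : Prime (p : ℤ) := Nat.prime_iff_prime_int.mp Fact.out
  rw [T_zpow_smul_mk_eq_iff]
  have : g 1 0 * g 1 0 * m + (g 0 0 * g 1 0 - g 1 0 * g 0 0) = g 1 0 * g 1 0 * m := by ring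
  rw [this]
  constructor
  · intro h
    rcases hp.dvd_or_dvd h with h | h
    · rcases hp.dvd_or_dvd h with h | h <;> exact absurd h hg
    · exact h
  · intro h
    exact Dvd.dvd.mul_left h _

theorem eq_T_zpow_or (h : SL(2, ℤ)) (hc : h 1 0 = 0) :
    ∃ m : ℤ, h = T ^ m ∨ h = (S * S) * T ^ m := by
  have had := h.det_coe
  replace had : h 0 0 * h 1 1 = 1 := by rw [Matrix.det_fin_two, hc] at had; lia
  rcases Int.eq_one_or_neg_one_of_mul_eq_one' had with (⟨ha, hd⟩ | ⟨ha, hd⟩)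
  · refine ⟨h 0 1, Or.inl ?_⟩
    ext i j; fin_cases i <;> fin_cases j <;>
      simp [ha, hc, hd, coe_T_zpow, show (1 : Fin (0 + 2)) = (1 : Fin 2) from rfl]
  · refine ⟨-(h 0 1), Or.inr ?_⟩
    rw [S_sq_eq_neg_one]
    ext i j; fin_cases i <;> fin_cases j <;>
      simp [ha, hc, hd, coe_T_zpow, show (1 : Fin (0 + 2)) = (1 : Fin 2) from rfl]

theorem sum_orbit [Fintype (SL(2, ℤ) ⧸ Gamma0 p)] [DecidableEq (SL(2, ℤ) ⧸ Gamma0 p)]
    (f : SL(2, ℤ) ⧸ Gamma0 p → ℤ) (y : SL(2, ℤ) ⧸ Gamma0 p) (hy : y ≠ base (Gamma0 p)) :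
    ∑ i ∈ Finset.range p, f (T ^ i • y) = ∑ x ∈ Finset.univ.erase (base (Gamma0 p)), f x := by
  have hpp : p.Prime := Fact.out
  have : NeZero p := ⟨hpp.ne_zero⟩
  have hpZ : Prime (p : ℤ) := Nat.prime_iff_prime_int.mp hpp
  induction y using QuotientGroup.induction_on with
  | H g =>
    have hg : ¬ (p : ℤ) ∣ g 1 0 := fun h => hy ((mk_eq_base_iff p g).mpr h)
    have himg : (Finset.range p).image (fun i : ℕ => T ^ i • (g : SL(2, ℤ) ⧸ Gamma0 p)) =
        Finset.univ.erase (base (Gamma0 p)) := by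
      ext x
      constructor
      · intro hx
        obtain ⟨i, -, rfl⟩ := Finset.mem_image.mp hx
        rw [Finset.mem_erase]
        refine ⟨fun h => hg ?_, Finset.mem_univ _⟩
        have h' : ((T ^ (i : ℤ) * g : SL(2, ℤ)) : SL(2, ℤ) ⧸ Gamma0 p) = base (Gamma0 p) := by
          rw [zpow_natCast]
          exact h
        rw [mk_eq_base_iff, T_pow_mul_apply_one] at h'
        exact h'
      · intro hx
        rw [Finset.mem_erase] at hx
        induction x using QuotientGroup.induction_on with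
        | H g' =>
          have hg' : ¬ (p : ℤ) ∣ g' 1 0 := fun h => hx.1 ((mk_eq_base_iff p g').mpr h)
          have hcc : ((g 1 0 * g' 1 0 : ℤ) : ZMod p) ≠ 0 := by
            rw [Ne, ZMod.intCast_zmod_eq_zero_iff_dvd]
            intro h
            rcases hpZ.dvd_or_dvd h with h | h
            · exact hg h
            · exact hg' h
          set i₀ : ZMod p := ((g 1 0 * g' 1 0 : ℤ) : ZMod p)⁻¹ *
            ((g 1 0 * g' 0 0 - g 0 0 * g' 1 0 : ℤ) : ZMod p) with hi₀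
          refine Finset.mem_image.mpr ⟨i₀.val, Finset.mem_range.mpr (ZMod.val_lt i₀), ?_⟩
          rw [← zpow_natCast, T_zpow_smul_mk_eq_iff, ← ZMod.intCast_zmod_eq_zero_iff_dvd]
          have e1 : ((g 1 0 * g' 1 0 * ((i₀.val : ℕ) : ℤ) +
              (g 0 0 * g' 1 0 - g 1 0 * g' 0 0) : ℤ) : ZMod p) =
              ((g 1 0 * g' 1 0 : ℤ) : ZMod p) * i₀ +
                ((g 0 0 * g' 1 0 - g 1 0 * g' 0 0 : ℤ) : ZMod p) := by
            rw [Int.cast_add, Int.cast_mul, Int.cast_natCast, ZMod.natCast_zmod_val]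
          rw [e1, hi₀, mul_inv_cancel_left₀ hcc, ← Int.cast_add]
          have e2 : g 1 0 * g' 0 0 - g 0 0 * g' 1 0 + (g 0 0 * g' 1 0 - g 1 0 * g' 0 0) = 0 := by
            ring
          rw [e2, Int.cast_zero]
    rw [← himg, Finset.sum_image]
    intro i hi j hj hij
    have hi' := Finset.mem_range.mp hi
    have hj' := Finset.mem_range.mp hj
    have hij' : T ^ i • (g : SL(2, ℤ) ⧸ Gamma0 p) = T ^ j • (g : SL(2, ℤ) ⧸ Gamma0 p) := hij
    have hfix : T ^ (-(j : ℤ) + (i : ℤ)) • (g : SL(2, ℤ) ⧸ Gamma0 p) = (g : SL(2, ℤ) ⧸ Gamma0 p) := by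
      rw [zpow_add, mul_smul, zpow_natCast, hij', ← zpow_natCast T j, ← mul_smul, ← zpow_add,
        neg_add_cancel, zpow_zero, one_smul]
    rw [T_zpow_smul_fix_iff p g hg] at hfix
    have h0 := Int.eq_zero_of_abs_lt_dvd hfix (by rw [abs_lt]; constructor <;> omega)
    omega

/-- **Lifting to a parabolic homomorphism** for `Γ₀(p)`. -/
theorem exists_parabolic_lift (n : ℕ) (σ : Additive (Gamma0 p) →+ ZMod n)
    (hσ : ∀ γ : Gamma0 p, IsOfFinOrder γ → σ (Additive.ofMul γ) = 0)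
    (hσT : σ (Additive.ofMul (⟨T, T_mem p⟩ : Gamma0 p)) = 0) :
    ∃ ψ : Additive (Gamma0 p) →+ ℤ, IsParabolicHom (Gamma0 p) ψ ∧
      ∀ γ : Gamma0 p, ((ψ (Additive.ofMul γ) : ℤ) : ZMod n) = σ (Additive.ofMul γ) := by
  classical
  have hpp : p.Prime := Fact.out
  have : NeZero p := ⟨hpp.ne_zero⟩
  have hpZ : Prime (p : ℤ) := Nat.prime_iff_prime_int.mp hpp
  have : Finite (SL(2, ℤ) ⧸ Gamma0 p) := Subgroup.finite_quotient_of_finiteIndex
  let _ : Fintype (SL(2, ℤ) ⧸ Gamma0 p) := Fintype.ofFinite _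
  obtain ⟨c, U, V, hc, hcS, hcR, hU, hV, hUV, hcong⟩ :=
    exists_cocycle_lift (Gamma0 p) (hcen p) σ hσ (T_mem p) (S_not_mem p) hσT
  set x₀ := base (Gamma0 p) with hx₀
  have hTx₀ : T • x₀ = x₀ := smul_base _ (T_mem p)
  -- the value of the cocycle at `T`
  have hcT : ∀ x, c T x = V x - U (T • x) := by
    intro x
    have h3 := hc S⁻¹ (S * T) x
    rw [coc_inv c hc, hcS, hcR, ← mul_smul, inv_mul_cancel_left] at h3
    rw [h3]
    ring
  have hcT0 : c T x₀ = 0 := by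
    rw [hcT, hTx₀, hUV]
    ring
  -- sums over `X`
  have hsumU : ∑ x, U x = 0 := by
    have h1 : ∑ x, U (S • x) = ∑ x, U x :=
      Fintype.sum_equiv (MulAction.toPerm S) _ _ (fun x => rfl)
    have h2 : ∑ x, (U (S • x) + U x) = 0 := Finset.sum_eq_zero (fun x _ => hU x)
    rw [Finset.sum_add_distrib, h1] at h2
    omega
  have hsumV : ∑ x, V x = 0 := by
    have h1 : ∑ x, V ((S * T) • x) = ∑ x, V x :=
      Fintype.sum_equiv (MulAction.toPerm (S * T)) _ _ (fun x => rfl)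
    have h1' : ∑ x, V ((S * T) • (S * T) • x) = ∑ x, V x := by
      rw [← h1]
      exact Fintype.sum_equiv (MulAction.toPerm (S * T)) _ _ (fun x => rfl)
    have h2 : ∑ x, (V x + V ((S * T) • x) + V ((S * T) • (S * T) • x)) = 0 :=
      Finset.sum_eq_zero (fun x _ => hV x)
    rw [Finset.sum_add_distrib, Finset.sum_add_distrib, h1, h1'] at h2
    omega
  have hsumT : ∑ x, c T x = 0 := by
    have h1 : ∑ x, U (T • x) = ∑ x, U x :=
      Fintype.sum_equiv (MulAction.toPerm T) _ _ (fun x => rfl)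
    simp only [hcT]
    rw [Finset.sum_sub_distrib, h1, hsumU, hsumV, sub_zero]
  -- the other cusp
  have hcTp : ∀ y, y ≠ x₀ → c (T ^ p) y = 0 := by
    intro y hy
    rw [coc_pow_sum c hc, sum_orbit p (c T) y hy,
      Finset.sum_erase_eq_sub (Finset.mem_univ _), hsumT, hcT0, sub_zero]
  -- vanishing on powers of `T` at fixed points
  have hTm : ∀ (m : ℤ) (y : SL(2, ℤ) ⧸ Gamma0 p), T ^ m • y = y → c (T ^ m) y = 0 := by
    intro m y hy
    by_cases hy0 : y = x₀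
    · rw [hy0, coc_zpow_fix c hc T x₀ hTx₀, hcT0, smul_zero]
    · have hpm : (p : ℤ) ∣ m := by
        induction y using QuotientGroup.induction_on with
        | H g =>
          have hg : ¬ (p : ℤ) ∣ g 1 0 := fun h => hy0 ((mk_eq_base_iff p g).mpr h)
          exact (T_zpow_smul_fix_iff p g hg m).mp hy
      obtain ⟨k, rfl⟩ := hpm
      have hTp : T ^ p • y = y := by
        induction y using QuotientGroup.induction_on with
        | H g =>
          have hg : ¬ (p : ℤ) ∣ g 1 0 := fun h => hy0 ((mk_eq_base_iff p g).mpr h)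
          rw [← zpow_natCast]
          exact (T_zpow_smul_fix_iff p g hg p).mpr dvd_rfl
      rw [zpow_mul, zpow_natCast, coc_zpow_fix c hc (T ^ p) y hTp, hcTp y hy0, smul_zero]
  have hcSS : ∀ z, c (S * S) z = 0 := by
    intro z
    rw [hc, hcS]
    exact hU z
  -- the homomorphism
  let ψ : Additive (Gamma0 p) →+ ℤ :=
    AddMonoidHom.mk' (fun γ => c ((Additive.toMul γ : Gamma0 p) : SL(2, ℤ)) x₀) (by
      intro a b
      show c (((Additive.toMul a * Additive.toMul b : Gamma0 p)) : SL(2, ℤ)) x₀ = _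
      rw [Subgroup.coe_mul, hc, smul_base _ (Additive.toMul b).2])
  refine ⟨ψ, ?_, ?_⟩
  · intro γ hγ
    show c (γ : SL(2, ℤ)) x₀ = 0
    obtain ⟨δ, hδ⟩ := Fermat.Agent.S21.exists_conj_c_eq_zero (γ : SL(2, ℤ)) hγ
    have hγ' : (γ : SL(2, ℤ)) = δ * (δ⁻¹ * γ * δ) * δ⁻¹ := by group
    have hfix : (δ * (δ⁻¹ * γ * δ) * δ⁻¹) • x₀ = x₀ := by
      rw [← hγ']
      exact smul_base _ γ.2
    have hy : (δ⁻¹ * γ * δ) • (δ⁻¹ • x₀) = δ⁻¹ • x₀ := by
      rw [← mul_smul]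
      have : δ⁻¹ * (γ : SL(2, ℤ)) * δ * δ⁻¹ = δ⁻¹ * γ := by group
      rw [this, mul_smul, smul_base _ γ.2]
    rw [hγ', coc_conj c hc δ _ x₀ hfix]
    obtain ⟨m, hm | hm⟩ := eq_T_zpow_or (δ⁻¹ * γ * δ) hδ
    · rw [hm] at hy ⊢
      exact hTm m _ hy
    · rw [hm] at hy ⊢
      rw [mul_smul, hcen] at hy
      rw [hc, hcSS, zero_add]
      exact hTm m _ hy
  · intro γ
    show ((c (γ : SL(2, ℤ)) x₀ : ℤ) : ZMod n) = _
    rw [hcong, dsig_base]

end Gamma0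

end Fermat.Agent.S16.Lift
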