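import Mathlib
import Fermat.Prelude.Def_ModularCurve_PeriodHomPair
import Fermat.Prelude.Def_ModularCurve_ModularUnit
import Fermat.Agent.S16_Lift

/-!
# S16, L1 + L4: the Shimura class `σ̄ = χ ∘ d : Γ₀(p) → ℤ/n` lifts to an integral parabolic hom
-/

set_option autoImplicit false

open CongruenceSubgroup ModularCurve.Period
open scoped MatrixGroups

namespace Fermat.Agent.S16.Shimura

/-- the lower right entry mod `N` as a character `Γ₀(N) → (ℤ/N)ˣ` -/
def dHom (N : ℕ) : Gamma0 N →* (ZMod N)ˣ := (Gamma0Map N).toHomUnits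

theorem dHom_coe (N : ℕ) (γ : Gamma0 N) :
    ((dHom N γ : (ZMod N)ˣ) : ZMod N) = (((γ : SL(2, ℤ)) 1 1 : ℤ) : ZMod N) := rfl

theorem dHom_surjective (p : ℕ) [Fact p.Prime] : Function.Surjective (dHom p) := by
  intro d
  have hpp : p.Prime := Fact.out
  have : NeZero p := ⟨hpp.ne_zero⟩
  have hcop : IsCoprime (p : ℤ) (((d : ZMod p).val : ℕ) : ℤ) := by
    rw [Int.isCoprime_iff_gcd_eq_one, Int.gcd_natCast_natCast]
    have h1 : Nat.Coprime (d : ZMod p).val p := ZMod.val_coe_unit_coprime d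
    exact h1.symm
  obtain ⟨g, h10, h11⟩ := hcop.exists_SL2_row 1
  have hmem : g ∈ Gamma0 p := by
    rw [Gamma0_mem, h10]
    simp
  refine ⟨⟨g, hmem⟩, Units.ext ?_⟩
  rw [dHom_coe]
  show ((g 1 1 : ℤ) : ZMod p) = (d : ZMod p)
  rw [h11, Int.cast_natCast, ZMod.natCast_zmod_val]

/-! ### Elements of finite order -/

theorem trace_sq_le_of_isOfFinOrder (γ : SL(2, ℤ)) (h : IsOfFinOrder γ) :
    (γ : Matrix (Fin 2) (Fin 2) ℤ).trace ^ 2 ≤ 4 := by
  by_contra hlt0
  obtain ⟨M, hM⟩ : ∃ M : Matrix (Fin 2) (Fin 2) ℤ, M = (γ : Matrix (Fin 2) (Fin 2) ℤ) := ⟨_, rfl⟩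
  obtain ⟨t, ht⟩ : ∃ t : ℤ, t = M.trace := ⟨_, rfl⟩
  rw [← hM, ← ht] at hlt0
  have hlt : 4 < t ^ 2 := not_le.mp hlt0
  have hdet : M 0 0 * M 1 1 - M 0 1 * M 1 0 = 1 := by
    have := γ.det_coe
    rw [Matrix.det_fin_two, ← hM] at this
    exact this
  have htr : t = M 0 0 + M 1 1 := by rw [ht, Matrix.trace_fin_two]
  have hCH : M * M = t • M - 1 := by
    ext i j
    fin_cases i <;> fin_cases j <;>
      simp [Matrix.mul_apply, Fin.sum_univ_two, htr, -zsmul_eq_mul] <;>
      first | ring1 | linear_combination -hdet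
  have hrec : ∀ k : ℕ, (M ^ (k + 2)).trace = t * (M ^ (k + 1)).trace - (M ^ k).trace := by
    intro k
    rw [pow_add, pow_two, hCH, mul_sub, mul_one, Matrix.mul_smul, ← pow_succ, Matrix.trace_sub,
      Matrix.trace_smul, smul_eq_mul]
  have h3 : 3 ≤ |t| := by
    by_contra hcon
    have h2 : |t| ≤ 2 := by omega
    have h4 := abs_le.mp h2
    nlinarith
  have hmono : ∀ k : ℕ, |(M ^ k).trace| < |(M ^ (k + 1)).trace| := by
    intro k
    induction k with
    | zero =>
      rw [pow_zero, Matrix.trace_one, zero_add, pow_one, ← ht]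
      simp only [Fintype.card_fin, Nat.cast_ofNat, abs_two]
      omega
    | succ k ih =>
      rw [hrec k]
      have h5 := abs_sub_abs_le_abs_sub (t * (M ^ (k + 1)).trace) ((M ^ k).trace)
      rw [abs_mul] at h5
      nlinarith [abs_nonneg ((M ^ (k + 1)).trace), abs_nonneg ((M ^ k).trace)]
  have hbig : ∀ k : ℕ, 1 ≤ k → 2 < |(M ^ k).trace| := by
    intro k hk
    induction k with
    | zero => omega
    | succ k ih =>
      rcases Nat.eq_zero_or_pos k with rfl | hk0
      · rw [zero_add, pow_one, ← ht]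
        omega
      · exact lt_trans (ih hk0) (hmono k)
  obtain ⟨k, hk, hγk⟩ := isOfFinOrder_iff_pow_eq_one.mp h
  have hMk : M ^ k = 1 := by
    have := congrArg (fun g : SL(2, ℤ) => (g : Matrix (Fin 2) (Fin 2) ℤ)) hγk
    rw [hM]
    simpa using this
  have := hbig k hk
  rw [hMk, Matrix.trace_one] at this
  simp at this

theorem dHom_pow_twelve (p : ℕ) [Fact p.Prime] (γ : Gamma0 p) (h : IsOfFinOrder γ) :
    dHom p γ ^ 12 = 1 := by
  have hfin : IsOfFinOrder (γ : SL(2, ℤ)) := by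
    obtain ⟨k, hk, hγk⟩ := isOfFinOrder_iff_pow_eq_one.mp h
    refine isOfFinOrder_iff_pow_eq_one.mpr ⟨k, hk, ?_⟩
    rw [← SubmonoidClass.coe_pow, hγk]
    rfl
  have htr := trace_sq_le_of_isOfFinOrder (γ : SL(2, ℤ)) hfin
  set M : Matrix (Fin 2) (Fin 2) ℤ := ((γ : SL(2, ℤ)) : Matrix (Fin 2) (Fin 2) ℤ) with hM
  have hdet : M 0 0 * M 1 1 - M 0 1 * M 1 0 = 1 := by
    have := (γ : SL(2, ℤ)).det_coe
    rw [Matrix.det_fin_two] at this
    exact this
  have hc : ((M 1 0 : ℤ) : ZMod p) = 0 := Gamma0_mem.mp γ.2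
  rw [Matrix.trace_fin_two] at htr
  set dd : ZMod p := ((M 1 1 : ℤ) : ZMod p) with hdd
  set t : ℤ := M 0 0 + M 1 1 with ht
  have hquad : dd * dd - (t : ZMod p) * dd + 1 = 0 := by
    have h1 : ((M 0 0 * M 1 1 - M 0 1 * M 1 0 : ℤ) : ZMod p) = 1 := by
      rw [hdet, Int.cast_one]
    push_cast at h1
    rw [hc, mul_zero, sub_zero] at h1
    rw [ht]
    push_cast
    linear_combination (-1 : ZMod p) * h1
  have hrange : -2 ≤ t ∧ t ≤ 2 := by
    constructor <;> nlinarith
  have hdd12 : dd ^ 12 = 1 := by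
    obtain ⟨h1, h2⟩ := hrange
    interval_cases t
    · -- t = -2
      have h0 : (dd + 1) ^ 2 = 0 := by
        push_cast at hquad
        linear_combination hquad
      have h3 : dd = -1 := by
        have := pow_eq_zero_iff (two_ne_zero) |>.mp h0
        linear_combination this
      rw [h3]
      norm_num
    · -- t = -1
      push_cast at hquad
      linear_combination (dd - 1) * (dd ^ 3 + 1) * (dd ^ 6 + 1) * hquad
    · -- t = 0
      push_cast at hquad
      linear_combination (dd ^ 10 - dd ^ 8 + dd ^ 6 - dd ^ 4 + dd ^ 2 - 1) * hquad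
    · -- t = 1
      push_cast at hquad
      linear_combination (dd ^ 3 - 1) * (dd + 1) * (dd ^ 6 + 1) * hquad
    · -- t = 2
      have h0 : (dd - 1) ^ 2 = 0 := by
        push_cast at hquad
        linear_combination hquad
      have h3 : dd = 1 := by
        have := pow_eq_zero_iff (two_ne_zero) |>.mp h0
        linear_combination this
      rw [h3]
      norm_num
  apply Units.ext
  rw [Units.val_pow_eq_pow_val, dHom_coe]
  exact hdd12

/-! ### The character -/

theorem exists_char {C : Type*} [CommGroup C] [IsCyclic C] [Finite C] (n : ℕ)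
    (hn : n ∣ Nat.card C) :
    ∃ χ : C →* Multiplicative (ZMod n), Function.Surjective χ ∧
      ∀ x : C, x ^ (Nat.card C / n) = 1 → χ x = 1 := by
  set m := Nat.card C with hm
  have hm0 : 0 < m := Nat.card_pos
  have : NeZero m := ⟨hm0.ne'⟩
  have hn0 : 0 < n := Nat.pos_of_dvd_of_pos hn hm0
  let e : Multiplicative (ZMod m) ≃* C := zmodCyclicMulEquiv ‹IsCyclic C›
  let χ : C →* Multiplicative (ZMod n) :=
    (AddMonoidHom.toMultiplicative (ZMod.castHom hn (ZMod n)).toAddMonoidHom).comp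
      e.symm.toMonoidHom
  refine ⟨χ, ?_, ?_⟩
  · intro y
    obtain ⟨a, ha⟩ := ZMod.ringHom_surjective (ZMod.castHom hn (ZMod n)) (Multiplicative.toAdd y)
    refine ⟨e (Multiplicative.ofAdd a), ?_⟩
    show Multiplicative.ofAdd ((ZMod.castHom hn (ZMod n))
      (Multiplicative.toAdd (e.symm (e (Multiplicative.ofAdd a))))) = y
    rw [MulEquiv.symm_apply_apply, toAdd_ofAdd, ha, ofAdd_toAdd]
  · intro x hx
    set a : ZMod m := Multiplicative.toAdd (e.symm x) with ha
    have h1 : (m / n) • a = 0 := by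
      have h2 : (e.symm x) ^ (m / n) = 1 := by rw [← map_pow, hx, map_one]
      have h3 := congrArg Multiplicative.toAdd h2
      rw [toAdd_pow] at h3
      exact h3
    have h4 : (((m / n) * a.val : ℕ) : ZMod m) = 0 := by
      rw [Nat.cast_mul, ZMod.natCast_zmod_val, ← nsmul_eq_mul]
      exact h1
    rw [ZMod.natCast_eq_zero_iff] at h4
    have h5 : n ∣ a.val := by
      have h7 : 0 < m / n := Nat.div_pos (Nat.le_of_dvd hm0 hn) hn0
      have h4' : (m / n) * n ∣ (m / n) * a.val := by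
        rw [Nat.div_mul_cancel hn]
        exact h4
      exact Nat.dvd_of_mul_dvd_mul_left h7 h4'
    show Multiplicative.ofAdd ((ZMod.castHom hn (ZMod n)) a) = 1
    rw [ZMod.castHom_apply, ← ZMod.natCast_val, (ZMod.natCast_eq_zero_iff _ _).mpr h5]
    rfl

/-- **L1 + L3 + L4**: the Shimura class `σ̄ = χ ∘ d : Γ₀(p) → ℤ/n` (with `χ` onto) is the
reduction mod `n` of an integral parabolic homomorphism. -/
theorem exists_shimura_lift (p : ℕ) [Fact p.Prime] :
    ∃ (χ : (ZMod p)ˣ →* Multiplicative (ZMod (ModularCurve.eisensteinNumerator p)))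
      (ψ : Additive (Gamma0 p) →+ ℤ),
      Function.Surjective χ ∧ IsParabolicHom (Gamma0 p) ψ ∧
      ∀ γ : Gamma0 p,
        ((ψ (Additive.ofMul γ) : ℤ) : ZMod (ModularCurve.eisensteinNumerator p))
          = Multiplicative.toAdd (χ (dHom p γ)) := by
  have hpp : p.Prime := Fact.out
  have hcard : Nat.card (ZMod p)ˣ = p - 1 := by
    rw [Nat.card_eq_fintype_card, ZMod.card_units]
  have hp1 : 0 < p - 1 := Nat.sub_pos_of_lt hpp.one_lt
  have hn : ModularCurve.eisensteinNumerator p ∣ Nat.card (ZMod p)ˣ := by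
    rw [hcard]
    exact ModularCurve.eisensteinNumerator_dvd p
  obtain ⟨χ, hχ, hker⟩ := exists_char (C := (ZMod p)ˣ) (ModularCurve.eisensteinNumerator p) hn
  have hdiv : Nat.card (ZMod p)ˣ / ModularCurve.eisensteinNumerator p = Nat.gcd (p - 1) 12 := by
    rw [hcard, ModularCurve.eisensteinNumerator]
    exact Nat.div_div_self (Nat.gcd_dvd_left _ _) hp1.ne'
  let σ : Additive (Gamma0 p) →+ ZMod (ModularCurve.eisensteinNumerator p) :=
    MonoidHom.toAdditiveLeft (χ.comp (dHom p))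
  have hσ : ∀ γ : Gamma0 p, IsOfFinOrder γ → σ (Additive.ofMul γ) = 0 := by
    intro γ hγ
    have h12 := dHom_pow_twelve p γ hγ
    have hm : dHom p γ ^ (p - 1) = 1 := by
      rw [← hcard]
      exact pow_card_eq_one'
    have hg : dHom p γ ^ Nat.gcd (p - 1) 12 = 1 := pow_gcd_eq_one.mpr ⟨hm, h12⟩
    have := hker (dHom p γ) (by rw [hdiv]; exact hg)
    show Multiplicative.toAdd (χ (dHom p γ)) = 0
    rw [this]
    rfl
  have hσT : σ (Additive.ofMul (⟨ModularGroup.T, Lift.T_mem p⟩ : Gamma0 p)) = 0 := by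
    have h1 : dHom p (⟨ModularGroup.T, Lift.T_mem p⟩ : Gamma0 p) = 1 := by
      apply Units.ext
      rw [dHom_coe]
      simp [ModularGroup.coe_T]
    show Multiplicative.toAdd (χ (dHom p (⟨ModularGroup.T, Lift.T_mem p⟩ : Gamma0 p))) = 0
    rw [h1, map_one]
    rfl
  obtain ⟨ψ, hψ1, hψ2⟩ := Lift.exists_parabolic_lift p _ σ hσ hσT
  exact ⟨χ, ψ, hχ, hψ1, fun γ => hψ2 γ⟩

end Fermat.Agent.S16.Shimura
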