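import Mathlib
import Fermat.Agent.S16_Chi
import Fermat.Agent.S16_Shimura

/-!
# S16: the lower bound (LB), fully applied

`lift_of_char`: every character `χ : (ℤ/p)ˣ → ℤ/n` killing `12`-torsion, composed with
`d : Γ₀(p) → (ℤ/p)ˣ`, is the reduction of an integral parabolic homomorphism (L3 + L4);
`LB`: `n = eisensteinNumerator p` divides the Eisenstein eigenvalue of every Hecke polynomial
killing `S₂(Γ₀(p))`.
-/

set_option autoImplicit false

open CongruenceSubgroup ModularCurve ModularCurve.Period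
open scoped MatrixGroups

namespace Fermat.Agent.S16.LBMain

open Fermat.Agent.S16

theorem dUnit_eq_dHom (p : ℕ) [Fact p.Prime] (γ : Gamma0 p) :
    LB.dUnit p γ = Shimura.dHom p γ :=
  Units.ext rfl

/-- **(L3 + L4) in the shape of the hypothesis of `Shimura.LB_of_lift`** (any modulus `n`). -/
theorem lift_of_char (p : ℕ) [Fact p.Prime] (n : ℕ)
    (χ : (ZMod p)ˣ →* Multiplicative (ZMod n))
    (hχ : ∀ x : (ZMod p)ˣ, x ^ 12 = 1 → χ x = 1) :
    ∃ ψ : Additive (Gamma0 p) →+ ℤ, IsParabolicHom (Gamma0 p) ψ ∧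
      ∀ γ : Gamma0 p, ((ψ (Additive.ofMul γ) : ℤ) : ZMod n)
        = Multiplicative.toAdd (χ (LB.dUnit p γ)) := by
  let σ : Additive (Gamma0 p) →+ ZMod n := MonoidHom.toAdditiveLeft (χ.comp (LB.dUnit p))
  have hσ : ∀ γ : Gamma0 p, IsOfFinOrder γ → σ (Additive.ofMul γ) = 0 := by
    intro γ hγ
    have h12 : LB.dUnit p γ ^ 12 = 1 := by
      rw [dUnit_eq_dHom]
      exact Shimura.dHom_pow_twelve p γ hγ
    show Multiplicative.toAdd (χ (LB.dUnit p γ)) = 0
    rw [hχ _ h12]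
    rfl
  have hσT : σ (Additive.ofMul (⟨ModularGroup.T, Lift.T_mem p⟩ : Gamma0 p)) = 0 := by
    have h1 : LB.dUnit p (⟨ModularGroup.T, Lift.T_mem p⟩ : Gamma0 p) = 1 := by
      apply Units.ext
      rw [LB.dUnit_coe]
      simp [ModularGroup.coe_T]
    show Multiplicative.toAdd (χ (LB.dUnit p (⟨ModularGroup.T, Lift.T_mem p⟩ : Gamma0 p))) = 0
    rw [h1, map_one]
    rfl
  obtain ⟨ψ, hψ1, hψ2⟩ := Lift.exists_parabolic_lift p n σ hσ hσT
  exact ⟨ψ, hψ1, fun γ => hψ2 γ⟩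

/-- **(LB)**: for `P` in the kernel of `ℤ[X_ℓ] → End S₂(Γ₀(p))`, the Eisenstein numerator divides
the Eisenstein eigenvalue `ε(P)`. -/
theorem LB (p : ℕ) [Fact p.Prime] :
    ∀ P : HeckeAlg, CuspForm.heckeEvalForms p 2 P = 0 →
      (eisensteinNumerator p : ℤ) ∣ MvPolynomial.aeval (eisensteinSystem p) P :=
  Shimura.LB_of_lift p (fun χ hχ => lift_of_char p _ χ hχ)

end Fermat.Agent.S16.LBMain
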