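import Mathlib
import Fermat.Agent.S16_Defs
import Fermat.Agent.S16_Eis
import Fermat.Agent.S16_Norm
import Fermat.Agent.S16_Conj
import Fermat.Agent.S16_NormSeries

/-!
# S16 (U5): Lemma A — no weight-two form on `Γ₀(p)` is `≡ 1 mod ℓ` for a prime `ℓ ≥ 5`

`Φ = E₄ − p²G²` (for `ℓ ≥ 7`) resp. `E₆ + p³G³` (for `ℓ = 5`): its norm to level one is
`≡ (E − c)(E − 1)^p` modulo `ℓ`, of `q`-order `≥ p`, contradicting Miller's lemma.
(K1) — the formula for `G ∣ S Tⁱ` — is a hypothesis here.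
-/

namespace Fermat.Agent.S16.LemmaA

open UpperHalfPlane CongruenceSubgroup Complex
open Fermat.Agent.S16.NormCore Fermat.Agent.S16.IntRing Fermat.Agent.S16.Norm
open Fermat.Agent.S16.NormSeries Fermat.Agent.S16Lib
open scoped ModularForm MatrixGroups Real

noncomputable section

theorem isQ_pow {H : ℍ → ℂ} (h : IsQ H) (m : ℕ) : IsQ (H ^ m) := by
  induction m with
  | zero => simpa using IsQ.one
  | succ m ih =>
    rw [pow_succ]
    exact ih.mul h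

theorem qExpansion_pow' {H : ℍ → ℂ} (h : IsQ H) (m : ℕ) :
    qExpansion 1 (H ^ m) = qExpansion 1 H ^ m := by
  induction m with
  | zero => simp [UpperHalfPlane.qExpansion_one]
  | succ m ih => rw [pow_succ, qExpansion_mul' (isQ_pow h m) h, ih, pow_succ]

/-- the root of unity `e^{2πi·i/p}` is an algebraic integer -/
theorem isIntegral_zeta (p : ℕ) (hp : 0 < p) (i : ℕ) :
    IsIntegral ℤ (cexp (2 * π * Complex.I * (((i : ℝ) / p : ℝ) : ℂ))) := by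
  refine IsIntegral.of_pow hp ?_
  have hp' : (p : ℂ) ≠ 0 := by exact_mod_cast hp.ne'
  have : cexp (2 * π * Complex.I * (((i : ℝ) / p : ℝ) : ℂ)) ^ p = 1 := by
    rw [← Complex.exp_nat_mul]
    have e : (p : ℂ) * (2 * π * Complex.I * (((i : ℝ) / p : ℝ) : ℂ)) =
        (i : ℂ) * (2 * π * Complex.I) := by
      push_cast
      field_simp
    rw [e]
    exact Complex.exp_nat_mul_two_pi_mul_I i
  rw [this]
  exact isIntegral_one

/-- the twisted `U_p`-series: `∑ ζ^{in} a_{np} qⁿ` -/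
def Utw (p : ℕ) (Gq : PowerSeries ℂ) (i : ℕ) : PowerSeries ℂ :=
  PowerSeries.mk fun n => cexp (2 * π * Complex.I * (((i : ℝ) / p : ℝ) : ℂ)) ^ n *
    Gq.coeff (n * p)

theorem coeff_Utw (p : ℕ) (Gq : PowerSeries ℂ) (i n : ℕ) :
    (Utw p Gq i).coeff n = cexp (2 * π * Complex.I * (((i : ℝ) / p : ℝ) : ℂ)) ^ n *
      Gq.coeff (n * p) := by
  simp [Utw]

/-- the `q`-expansion of `z ↦ (U_p G)(z + i/p)` -/
theorem qExpansion_heckeU_vadd {p : ℕ} (hp : 0 < p) {G : ℍ → ℂ} (hG : IsQ G) (i : ℕ) :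
    qExpansion 1 (fun z : ℍ => ModularForm.heckeU 2 p G (((i : ℝ) / p : ℝ) +ᵥ z)) =
      Utw p (qExpansion 1 G) i := by
  ext n
  rw [qExpansion_comp_vadd (isQ_heckeU hG 2 p), qExpansion_heckeU_coeff hG 2 hp.ne', coeff_Utw]

section generic

variable (p : ℕ) [Fact p.Prime] (ℓ : ℕ) [Fact ℓ.Prime] (G : ModularForm (Gamma0 p) 2)
  (hK1 : ∀ (i : ℕ) (z : ℍ),
    ((G : ℍ → ℂ) ∣[(2 : ℤ)] (ModularGroup.S * ModularGroup.T ^ (i : ℤ))) z
      = -(p : ℂ)⁻¹ * ModularForm.heckeU 2 p G (ModularForm.heckeMatrix p i • z))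

include hK1 in
/-- Lemma A for a general "test form" `cg·G^m + A`. -/
theorem lemmaA_generic (hcong : CongOne ℓ 1 (qExpansion 1 G))
    (m : ℕ) (k : ℤ) (hk : (k * (p + 1)).toNat / 12 < p)
    (g : ModularForm (Gamma0 p) k) (cg : ℤ)
    (hg : ∀ z, g z = (cg : ℂ) * G z ^ m)
    (hgs : ∀ (i : ℕ) (w : ℍ),
      ((g : ℍ → ℂ) ∣[k] (ModularGroup.S * ModularGroup.T ^ (i : ℤ))) w =
        (cg : ℂ) *
          (((G : ℍ → ℂ) ∣[(2 : ℤ)] (ModularGroup.S * ModularGroup.T ^ (i : ℤ))) w) ^ m)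
    (hcg : (cg : ℂ) * (-(p : ℂ)⁻¹) ^ m = -1)
    (A : ModularForm (Gamma0 1) k) (Eℤ : PowerSeries ℤ)
    (hA : qExpansion 1 A = Eℤ.map (Int.castRingHom ℂ))
    (hE0 : Eℤ.coeff 0 = 1) (hE1 : ¬ (ℓ : ℤ) ∣ Eℤ.coeff 1) : False := by
  have hp0 : 0 < p := (Fact.out : p.Prime).pos
  obtain ⟨Φ, hΦ⟩ := exists_norm p 1 (by simpa using (Fact.out : p.Prime).one_lt.ne') k g A
  have hGQ : IsQ (G : ℍ → ℂ) := isQ_Gamma0 G
  -- the functions
  set V : ℕ → ℍ → ℂ := fun i => conjFun p hp0 G i with hVdef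
  have hV : ∀ i, IsQ (V i) := fun i => isQ_conj hp0 G hK1 hGQ i
  set Ad : ℍ → ℂ := fun z => A (dil p hp0 z) with hAddef
  have hAd : IsQ Ad := (isQ_Gamma0 A).comp_dil p hp0
  set H₀ : ℍ → ℂ := fun z => ((g : ℍ → ℂ) + (A : ℍ → ℂ)) (dil p hp0 z) with hH₀def
  set Hc : ℕ → ℍ → ℂ := fun i => (cg : ℂ) • V i ^ m + Ad with hHcdef
  have hH₀ : IsQ H₀ := ((isQ_Gamma0 g).add (isQ_Gamma0 A)).comp_dil p hp0
  have hHc : ∀ i, IsQ (Hc i) := fun i => ((isQ_pow (hV i) m).const_smul _).add hAd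
  have hfun : (fun z => Φ (dil p hp0 z)) = H₀ * ∏ i ∈ Finset.range p, Hc i := by
    funext z
    rw [hΦ, Pi.mul_apply, Finset.prod_apply]
    congr 1
    refine Finset.prod_congr rfl fun i _ => ?_
    rw [hgs]
    rfl
  have hprod : (qExpansion 1 Φ).expand p hp0.ne' =
      qExpansion 1 H₀ * ∏ i ∈ Finset.range p, qExpansion 1 (Hc i) := by
    rw [← qExpansion_comp_dil (isQ_Gamma0 Φ) p hp0, hfun,
      qExpansion_mul' hH₀ (IsQ.prod _ _ (fun i _ => hHc i)),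
      qExpansion_prod _ _ (fun i _ => hHc i)]
  -- the series
  set Gq : PowerSeries ℂ := qExpansion 1 G with hGq
  have hVq : ∀ i, qExpansion 1 (V i) = (-(p : ℂ)⁻¹) • Utw p Gq i := by
    intro i
    rw [hVdef]
    simp only
    rw [conjFun_eq hp0 G hK1, qExpansion_smul' ((isQ_heckeU hGQ 2 p).comp_vadd _),
      qExpansion_heckeU_vadd hp0 hGQ]
  have hgq : qExpansion 1 g = (cg : ℂ) • Gq ^ m := by
    have : (g : ℍ → ℂ) = (cg : ℂ) • (G : ℍ → ℂ) ^ m := funext fun z => by simpa using hg z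
    rw [this, qExpansion_smul' (isQ_pow hGQ m), qExpansion_pow' hGQ]
  have hF₀ : qExpansion 1 H₀ =
      ((cg : ℂ) • Gq ^ m + Eℤ.map (Int.castRingHom ℂ)).expand p hp0.ne' := by
    rw [hH₀def, qExpansion_comp_dil ((isQ_Gamma0 g).add (isQ_Gamma0 A)) p hp0,
      qExpansion_add' (isQ_Gamma0 g) (isQ_Gamma0 A), hgq, hA]
  have hF : ∀ i < p, qExpansion 1 (Hc i) =
      -(Utw p Gq i) ^ m + (Eℤ.map (Int.castRingHom ℂ)).expand p hp0.ne' := by
    intro i _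
    rw [hHcdef]
    simp only
    rw [qExpansion_add' ((isQ_pow (hV i) m).const_smul _) hAd,
      qExpansion_smul' (isQ_pow (hV i) m), qExpansion_pow' (hV i), hVq, hAddef,
      qExpansion_comp_dil (isQ_Gamma0 A) p hp0, hA, smul_pow, smul_smul, hcg, neg_one_smul]
  -- the congruences
  obtain ⟨h0, s, hs, hsk⟩ := hcong
  have hGn : ∀ n, 1 ≤ n → Gq.coeff n ∈ I ℓ := fun n hn => by
    obtain ⟨b, hb⟩ := hsk n hn
    exact mem_I_of_mul_eq hs le_rfl hb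
  have hGcong : Gq - 1 ∈ IS (I ℓ) := by
    intro n
    rw [map_sub, PowerSeries.coeff_one]
    split_ifs with hn
    · subst hn
      rw [h0, sub_self]
      exact (I ℓ).zero_mem
    · rw [sub_zero]
      exact hGn n (Nat.one_le_iff_ne_zero.mpr hn)
  have hUcong : ∀ i < p, Utw p Gq i - 1 ∈ IS (I ℓ) := by
    intro i _ n
    rw [map_sub, PowerSeries.coeff_one, coeff_Utw]
    split_ifs with hn
    · subst hn
      rw [pow_zero, one_mul, zero_mul, h0, sub_self]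
      exact (I ℓ).zero_mem
    · rw [sub_zero]
      exact mul_mem_I ((O ℓ).pow_mem (isIntegral_mem_O (isIntegral_zeta p hp0 i)) n)
        (hGn _ (Nat.mul_pos (Nat.pos_of_ne_zero hn) hp0))
  exact lemmaA_series p hp0.ne' hk Φ m cg Eℤ hE0 hE1 Gq (Utw p Gq) hGcong hUcong _ _ hF₀ hF hprod

end generic

/-! ### The two test forms -/

/-- the integral `q`-expansion of `E₄` -/
def E4Z : PowerSeries ℤ :=
  PowerSeries.mk fun n => if n = 0 then 1 else 240 * (ArithmeticFunction.sigma 3 n : ℤ)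

/-- the integral `q`-expansion of `E₆` -/
def E6Z : PowerSeries ℤ :=
  PowerSeries.mk fun n => if n = 0 then 1 else -504 * (ArithmeticFunction.sigma 5 n : ℤ)

theorem E4Z_coeff_zero : E4Z.coeff 0 = 1 := by simp [E4Z]

theorem E4Z_coeff_one : E4Z.coeff 1 = 240 := by simp [E4Z]

theorem E6Z_coeff_zero : E6Z.coeff 0 = 1 := by simp [E6Z]

theorem E6Z_coeff_one : E6Z.coeff 1 = -504 := by simp [E6Z]

theorem qExpansion_E4 :
    qExpansion 1 (Eis.levelRestrict 1 ModularForm.E₄) = E4Z.map (Int.castRingHom ℂ) := by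
  rw [Eis.qExpansion_levelRestrict]
  ext n
  rw [Eis.qExpansion_E4_coeff, PowerSeries.coeff_map, E4Z, PowerSeries.coeff_mk]
  split_ifs <;> simp

theorem qExpansion_E6 :
    qExpansion 1 (Eis.levelRestrict 1 ModularForm.E₆) = E6Z.map (Int.castRingHom ℂ) := by
  rw [Eis.qExpansion_levelRestrict]
  ext n
  rw [Eis.qExpansion_E6_coeff, PowerSeries.coeff_map, E6Z, PowerSeries.coeff_mk]
  split_ifs <;> simp

section testForms

variable (p : ℕ) (G : ModularForm (Gamma0 p) 2)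

/-- `-p²·G²` -/
def gSq : ModularForm (Gamma0 p) 4 :=
  ModularForm.mcast (by norm_num) ((-(p : ℂ) ^ 2) • (G.mul G))

theorem gSq_apply (z : ℍ) : gSq p G z = ((-(p : ℤ) ^ 2 : ℤ) : ℂ) * G z ^ 2 := by
  show (-(p : ℂ) ^ 2) • (G z * G z) = _
  push_cast
  rw [smul_eq_mul]
  ring

theorem gSq_slash (γ : SL(2, ℤ)) (w : ℍ) :
    ((gSq p G : ℍ → ℂ) ∣[(4 : ℤ)] γ) w =
      ((-(p : ℤ) ^ 2 : ℤ) : ℂ) * (((G : ℍ → ℂ) ∣[(2 : ℤ)] γ) w) ^ 2 := by
  have h : (gSq p G : ℍ → ℂ) = (-(p : ℂ) ^ 2) • ((G : ℍ → ℂ) * (G : ℍ → ℂ)) := rfl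
  rw [h, ModularForm.SL_smul_slash, show (4 : ℤ) = 2 + 2 by norm_num,
    ModularForm.mul_slash_SL2]
  simp only [Pi.smul_apply, Pi.mul_apply, smul_eq_mul]
  push_cast
  ring

/-- `p³·G³` -/
def gCube : ModularForm (Gamma0 p) 6 :=
  ModularForm.mcast (by norm_num) (((p : ℂ) ^ 3) • ((G.mul G).mul G))

theorem gCube_apply (z : ℍ) : gCube p G z = (((p : ℤ) ^ 3 : ℤ) : ℂ) * G z ^ 3 := by
  show ((p : ℂ) ^ 3) • (G z * G z * G z) = _
  push_cast
  rw [smul_eq_mul]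
  ring

theorem gCube_slash (γ : SL(2, ℤ)) (w : ℍ) :
    ((gCube p G : ℍ → ℂ) ∣[(6 : ℤ)] γ) w =
      (((p : ℤ) ^ 3 : ℤ) : ℂ) * (((G : ℍ → ℂ) ∣[(2 : ℤ)] γ) w) ^ 3 := by
  have h : (gCube p G : ℍ → ℂ) =
      ((p : ℂ) ^ 3) • ((G : ℍ → ℂ) * (G : ℍ → ℂ) * (G : ℍ → ℂ)) := rfl
  rw [h, ModularForm.SL_smul_slash, show (6 : ℤ) = 2 + 2 + 2 by norm_num,
    ModularForm.mul_slash_SL2, ModularForm.mul_slash_SL2]
  simp only [Pi.smul_apply, Pi.mul_apply, smul_eq_mul]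
  push_cast
  ring

end testForms

/-- **Lemma A** (with (K1) as a hypothesis): for primes `p, ℓ ≥ 5`, no `G ∈ M₂(Γ₀(p))` has
`q`-expansion `≡ 1 mod ℓ`. -/
theorem lemmaA_of_K1 (p : ℕ) [Fact p.Prime] (ℓ : ℕ) (hℓ : ℓ.Prime) (hℓ5 : 5 ≤ ℓ)
    (G : ModularForm (Gamma0 p) 2)
    (hK1 : ∀ (i : ℕ) (z : ℍ),
      ((G : ℍ → ℂ) ∣[(2 : ℤ)] (ModularGroup.S * ModularGroup.T ^ (i : ℤ))) z
        = -(p : ℂ)⁻¹ * ModularForm.heckeU 2 p G (ModularForm.heckeMatrix p i • z)) :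
    ¬ CongOne ℓ 1 (qExpansion 1 G) := by
  intro hcong
  haveI : Fact ℓ.Prime := ⟨hℓ⟩
  have hp2 : 2 ≤ p := (Fact.out : p.Prime).two_le
  have hp0 : (p : ℂ) ≠ 0 := by exact_mod_cast (Fact.out : p.Prime).ne_zero
  by_cases h5 : ℓ = 5
  · subst h5
    refine lemmaA_generic p 5 G hK1 hcong 3 6 ?_ (gCube p G) ((p : ℤ) ^ 3) (gCube_apply p G)
      (fun i w => gCube_slash p G _ w) ?_ (Eis.levelRestrict 1 ModularForm.E₆) E6Z
      qExpansion_E6 E6Z_coeff_zero ?_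
    · omega
    · push_cast
      field_simp
    · rw [E6Z_coeff_one]
      norm_num
  · refine lemmaA_generic p ℓ G hK1 hcong 2 4 ?_ (gSq p G) (-(p : ℤ) ^ 2) (gSq_apply p G)
      (fun i w => gSq_slash p G _ w) ?_ (Eis.levelRestrict 1 ModularForm.E₄) E4Z
      qExpansion_E4 E4Z_coeff_zero ?_
    · omega
    · push_cast
      field_simp
    · rw [E4Z_coeff_one]
      intro hdvd
      have h240 : ℓ ∣ 2 ^ 4 * 3 * 5 := by
        have : ((ℓ : ℤ)) ∣ ((240 : ℕ) : ℤ) := by exact_mod_cast hdvd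
        exact Int.natCast_dvd_natCast.mp this
      rcases (Nat.Prime.dvd_mul hℓ).mp h240 with h | h
      · rcases (Nat.Prime.dvd_mul hℓ).mp h with h | h
        · have := Nat.le_of_dvd (by norm_num) (hℓ.dvd_of_dvd_pow h)
          omega
        · have := Nat.le_of_dvd (by norm_num) h
          omega
      · have := Nat.le_of_dvd (by norm_num) h
        omega

end

end Fermat.Agent.S16.LemmaA
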