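import Mathlib
import Fermat.Agent.S16_LemmaA
import Fermat.Agent.S16_TraceMain

/-!
# S16 (U5): Lemma A, final form

For primes `p, ℓ ≥ 5`, no weight-two modular form on `Γ₀(p)` has `q`-expansion `≡ 1 mod ℓ`.
-/

namespace Fermat.Agent.S16.LemmaA

open UpperHalfPlane CongruenceSubgroup
open Fermat.Agent.S16Lib
open scoped ModularForm MatrixGroups

/-- **Lemma A.** -/
theorem noCongOne (p ℓ : ℕ) [Fact p.Prime] (hℓ : ℓ.Prime) (hp : 5 ≤ p) (hℓ5 : 5 ≤ ℓ) :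
    NoCongOne p ℓ 1 :=
  fun G => lemmaA_of_K1 p ℓ hℓ hℓ5 G (Fermat.Agent.S16.Trace.slash_ST_apply G)

end Fermat.Agent.S16.LemmaA
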