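import Fermat.Statements.S16
import Fermat.Agent.S23

/-!
# S16, work package 0: reformulation

`𝕋 / φ(ker ε) ≅ ℤ / n` as soon as `ε (ker φ) = nℤ`, i.e.
(LB) `∀ P, φ P = 0 → n ∣ ε P` and (UB) `∃ P, φ P = 0 ∧ ε P = n`.
-/

set_option autoImplicit false

open ModularCurve CuspForm

namespace Fermat.Agent.S16Lib

/-- Pure algebra: two surjections `φ : R → T`, `ε : R → ℤ`; if `ε (ker φ) = nℤ` then
`T / φ(ker ε)` has `n` elements. -/
theorem card_quot_map_ker {R T : Type*} [CommRing R] [CommRing T] (φ : R →+* T)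
    (hφ : Function.Surjective φ) (ε : R →+* ℤ) (hε : Function.Surjective ε) (n : ℕ)
    (LB : ∀ P, φ P = 0 → (n : ℤ) ∣ ε P) (UB : ∃ P, φ P = 0 ∧ ε P = n) :
    Nat.card (T ⧸ Ideal.map φ (RingHom.ker ε)) = n := by
  classical
  set g : R →+* ZMod n := (Int.castRingHom (ZMod n)).comp ε with hg
  have hker : RingHom.ker φ ≤ RingHom.ker g := by
    intro P hP
    rw [RingHom.mem_ker] at hP ⊢
    rw [hg, RingHom.comp_apply, Int.coe_castRingHom, ZMod.intCast_zmod_eq_zero_iff_dvd]
    exact LB P hP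
  set f : T →+* ZMod n := φ.liftOfSurjective hφ ⟨g, hker⟩ with hf
  have hfφ : ∀ P, f (φ P) = g P := fun P => φ.liftOfSurjective_comp_apply hφ ⟨g, hker⟩ P
  have hfsurj : Function.Surjective f := by
    intro y
    obtain ⟨a, rfl⟩ := ZMod.intCast_surjective y
    obtain ⟨P, rfl⟩ := hε a
    exact ⟨φ P, by rw [hfφ]; rfl⟩
  have hkerf : RingHom.ker f = Ideal.map φ (RingHom.ker ε) := by
    apply le_antisymm
    · intro t ht
      obtain ⟨P, rfl⟩ := hφ t
      rw [RingHom.mem_ker, hfφ, hg, RingHom.comp_apply, Int.coe_castRingHom,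
        ZMod.intCast_zmod_eq_zero_iff_dvd] at ht
      obtain ⟨c, hc⟩ := ht
      obtain ⟨Q, hQ0, hQ⟩ := UB
      have h1 : φ P = φ (P - (c : R) * Q) := by
        rw [map_sub, map_mul, hQ0, mul_zero, sub_zero]
      rw [h1]
      apply Ideal.mem_map_of_mem
      rw [RingHom.mem_ker, map_sub, map_mul, map_intCast, hQ, hc]
      simp [mul_comm]
    · rw [Ideal.map_le_iff_le_comap]
      intro P hP
      rw [RingHom.mem_ker] at hP
      rw [Ideal.mem_comap, RingHom.mem_ker, hfφ, hg, RingHom.comp_apply, hP]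
      simp
  rw [← hkerf, Nat.card_congr (RingHom.quotientKerEquivOfSurjective hfsurj).toEquiv,
    Nat.card_zmod]

/-- The polynomial ring `ℤ[X_ℓ]` surjects onto the Hecke algebra. -/
theorem heckeEvalForms_surjective (N : ℕ) [NeZero N] (k : ℤ) :
    Function.Surjective (heckeEvalForms N k) := by
  have hrange : (MvPolynomial.aeval (R := ℤ) (heckeFormsGen N k)).range = ⊤ := by
    rw [MvPolynomial.aeval_range]
    rw [eq_top_iff]
    rintro ⟨x, hx⟩ -
    change x ∈ Algebra.adjoin ℤ (heckeGenerators N k ∅) at hx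
    induction hx using Algebra.adjoin_induction with
    | mem x hx =>
      apply Algebra.subset_adjoin
      rcases hx with ⟨ℓ, hℓ, hℓN, -, rfl⟩ | ⟨q, hqN, hq, -, rfl⟩
      · refine ⟨⟨ℓ, hℓ⟩, ?_⟩
        rw [heckeFormsGen_of_not_dvd (N := N) (k := k) (ℓ := ⟨ℓ, hℓ⟩) hℓN]
        rfl
      · refine ⟨⟨q, hq⟩, ?_⟩
        rw [heckeFormsGen_of_dvd (N := N) (k := k) (q := ⟨q, hq⟩) hqN]
        rfl
    | algebraMap r =>
      exact Subalgebra.algebraMap_mem _ r
    | add x y hx hy hx' hy' =>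
      exact Subalgebra.add_mem _ hx' hy'
    | mul x y hx hy hx' hy' =>
      exact Subalgebra.mul_mem _ hx' hy'
  intro t
  have ht : t ∈ (MvPolynomial.aeval (R := ℤ) (heckeFormsGen N k)).range := by
    rw [hrange]; trivial
  obtain ⟨P, hP⟩ := ht
  exact ⟨P, hP⟩

/-- **Reformulation of S16.**  It suffices to show, for the kernel `K` of
`ℤ[X_ℓ] → End S₂(Γ₀(p))` and the Eisenstein character `ε`, that `ε(K) = nℤ`. -/
theorem card_of_LB_UB (p : ℕ) [Fact p.Prime]
    (LB : ∀ P : HeckeAlg, heckeEvalForms p 2 P = 0 →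
      (eisensteinNumerator p : ℤ) ∣ MvPolynomial.aeval (eisensteinSystem p) P)
    (UB : ∃ P : HeckeAlg, heckeEvalForms p 2 P = 0 ∧
      MvPolynomial.aeval (eisensteinSystem p) P = (eisensteinNumerator p : ℤ)) :
    Nat.card (↥(heckeLatticeAlgebra p ∅) ⧸
        Ideal.map ((latticeRestrictHom p ∅).toRingHom.comp (heckeEvalForms p 2))
          (eisensteinIdeal p)) =
      eisensteinNumerator p := by
  have hint : CuspForm.HasIntegralStructure p 2 := Fermat.Agent.S23.result p
  have hbij := latticeRestrictHom_bijective p ∅ hint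
  have hε : Function.Surjective
      ((MvPolynomial.aeval (R := ℤ) (eisensteinSystem p)).toRingHom) := by
    intro a
    exact ⟨MvPolynomial.C a, by simp⟩
  have h := card_quot_map_ker
    ((latticeRestrictHom p ∅).toRingHom.comp (heckeEvalForms p 2))
    (hbij.2.comp (heckeEvalForms_surjective p 2))
    ((MvPolynomial.aeval (R := ℤ) (eisensteinSystem p)).toRingHom) hε
    (eisensteinNumerator p)
    (fun P hP => LB P (hbij.1 (by rw [map_zero]; exact hP)))
    (by
      obtain ⟨P, hP0, hP⟩ := UB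
      refine ⟨P, ?_, hP⟩
      change (latticeRestrictHom p ∅) (heckeEvalForms p 2 P) = 0
      rw [hP0, map_zero])
  exact h

end Fermat.Agent.S16Lib
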