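import Fermat.Agent.S16_Defs
import Fermat.Agent.S16_Reduce
import Fermat.Agent.S07
import Fermat.Prelude.Thm_ModularForm_sturm_bound_Gamma0
import Fermat.Prelude.Thm_CongruenceSubgroup_one_mem_strictPeriods_Gamma0

/-!
# S16: the upper bound `n ∈ ε(K)` from duality, the Eisenstein series and the five lemmas
(valuation bookkeeping)
-/

set_option autoImplicit false

open scoped MatrixGroups ModularForm
open CongruenceSubgroup UpperHalfPlane ModularFormClass ModularCurve CuspForm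

namespace Fermat.Agent.S16Lib

/-- (U1) duality, as a hypothesis -/
def U1Statement (p : ℕ) [Fact p.Prime] : Prop :=
  ∀ m : ℤ, (∀ P : HeckeAlg, heckeEvalForms p 2 P = 0 →
      m ∣ MvPolynomial.aeval (eisensteinSystem p) P) →
    ∃ f : CuspForm (Gamma0 p) 2, ∀ k : ℕ, 1 ≤ k →
      ∃ a : ℤ, ModularFormClass.qCoeff f k = (a : ℂ) ∧ m ∣ a - (sigmaP p k : ℤ)

/-- (U2) the Eisenstein series of level `p`, as a hypothesis -/
def U2Statement (p : ℕ) : Prop :=
  ∃ e : ModularForm (Gamma0 p) 2,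
    PowerSeries.coeff 0 (qExpansion 1 e) = ((p : ℂ) - 1) / 24 ∧
    ∀ k : ℕ, 1 ≤ k → PowerSeries.coeff k (qExpansion 1 e) = (sigmaP p k : ℂ)

/-- a cusp form as a modular form -/
noncomputable def cuspToModular {N : ℕ} (f : CuspForm (Gamma0 N) 2) :
    ModularForm (Gamma0 N) 2 :=
  { toSlashInvariantForm := f.toSlashInvariantForm
    holo' := f.holo'
    bdd_at_cusps' := fun hc γ hγ => (f.zero_at_cusps' hc γ hγ).boundedAtFilter }

theorem coe_cuspToModular {N : ℕ} (f : CuspForm (Gamma0 N) 2) :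
    (cuspToModular f : ℍ → ℂ) = (f : ℍ → ℂ) := rfl

/-- The key step: if `ℓ^(a+1)` divides `ε(K)` where `n = ℓ^a s`, `24 = D t`, `p - 1 = n D`,
`ℓ^(r-1) ∣ t`, there is a form `G ≡ 1 mod ℓ^r`. -/
theorem exists_congOne (p : ℕ) [Fact p.Prime] (hU1 : U1Statement p) (hU2 : U2Statement p)
    (ℓ a s D t t' r n : ℕ) (hℓ : ℓ ≠ 0) (hs : ¬ ℓ ∣ s) (hn : n = ℓ ^ a * s) (hD : p - 1 = n * D)
    (ht : 24 = D * t) (hr : t * ℓ = ℓ ^ r * t') (hp1 : 1 < p)
    (hm : ∀ P : HeckeAlg, heckeEvalForms p 2 P = 0 →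
      ((ℓ : ℤ) ^ (a + 1)) ∣ MvPolynomial.aeval (eisensteinSystem p) P) :
    ∃ G : ModularForm (Gamma0 p) 2, CongOne ℓ r (qExpansion 1 G) := by
  obtain ⟨f, hf⟩ := hU1 _ hm
  obtain ⟨e, he0, hek⟩ := hU2
  have hΓ := CongruenceSubgroup.one_mem_strictPeriods_Gamma0 p
  have hp1' : ((p : ℂ) - 1) ≠ 0 := by
    intro h
    have h' : (p : ℂ) = 1 := by linear_combination h
    have : p = 1 := by exact_mod_cast h'
    omega
  set c : ℂ := 24 / ((p : ℂ) - 1) with hc
  refine ⟨c • (e - cuspToModular f), ?_⟩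
  have hq : qExpansion 1 (⇑(c • (e - cuspToModular f))) =
      c • (qExpansion 1 e - qExpansion 1 f) := by
    have h1 : (⇑(c • (e - cuspToModular f)) : ℍ → ℂ) = c • ⇑(e - cuspToModular f) := rfl
    rw [h1, ModularForm.qExpansion_smul one_pos hΓ c (e - cuspToModular f)]
    have h2 : (⇑(e - cuspToModular f) : ℍ → ℂ) = ⇑e - ⇑f := rfl
    rw [h2, ModularForm.qExpansion_sub one_pos hΓ e f]
  have hf0 : PowerSeries.coeff 0 (qExpansion 1 f) = 0 :=
    CuspFormClass.qExpansion_coeff_zero f one_pos hΓ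
  refine ⟨?_, s, hs, ?_⟩
  · rw [hq]
    simp only [map_smul, map_sub, he0, hf0, sub_zero, smul_eq_mul, hc]
    field_simp
  · intro k hk
    obtain ⟨ak, hak, w, hw⟩ := hf k hk
    refine ⟨-(t' : ℤ) * w, ?_⟩
    rw [hq]
    have hfk : PowerSeries.coeff k (qExpansion 1 f) = (ak : ℂ) := hak
    simp only [map_smul, map_sub, hek k hk, hfk, smul_eq_mul, hc]
    have hpc : ((p : ℂ) - 1) = (ℓ : ℂ) ^ a * s * D := by
      have h1 : ((p - 1 : ℕ) : ℂ) = (p : ℂ) - 1 := by
        rw [Nat.cast_sub hp1.le]; simp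
      rw [← h1, hD, hn]; push_cast; ring
    have h24 : (24 : ℂ) = (D : ℂ) * t := by exact_mod_cast congrArg (Nat.cast : ℕ → ℂ) ht
    have hrc : (t : ℂ) * ℓ = (ℓ : ℂ) ^ r * t' := by exact_mod_cast congrArg (Nat.cast : ℕ → ℂ) hr
    have hak' : (ak : ℂ) = (sigmaP p k : ℂ) + (ℓ : ℂ) ^ (a + 1) * w := by
      have : (ak : ℤ) = (sigmaP p k : ℤ) + (ℓ : ℤ) ^ (a + 1) * w := by linarith
      exact_mod_cast congrArg (Int.cast : ℤ → ℂ) this
    have hℓ0 : (ℓ : ℂ) ≠ 0 := by exact_mod_cast hℓ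
    have hnD : n * D ≠ 0 := by omega
    have hs0 : (s : ℂ) ≠ 0 := by
      have : s ≠ 0 := by
        rintro rfl
        simp at hn
        subst hn
        simp at hnD
      exact_mod_cast this
    have hD0 : (D : ℂ) ≠ 0 := by
      have : D ≠ 0 := by
        rintro rfl
        simp at hnD
      exact_mod_cast this
    rw [hpc, h24, hak']
    push_cast
    field_simp
    linear_combination (-((ℓ : ℂ) ^ a * (w : ℂ))) * hrc

theorem t_facts_aux : ∀ D < 13, D ∣ 12 → ∃ t < 25, 24 = D * t ∧ 2 ∣ t ∧ (¬ 3 ∣ D → 3 ∣ t) ∧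
    (¬ 4 ∣ D → 4 ∣ t) := by decide

theorem t_facts (D : ℕ) (hD : D ∣ 12) : ∃ t, 24 = D * t ∧ 2 ∣ t ∧ (¬ 3 ∣ D → 3 ∣ t) ∧
    (¬ 4 ∣ D → 4 ∣ t) := by
  have h13 : D < 13 := Nat.lt_succ_of_le (Nat.le_of_dvd (by norm_num) hD)
  obtain ⟨t, -, h⟩ := t_facts_aux D h13 hD
  exact ⟨t, h⟩

/-- For every prime `ℓ` some element of `ε(K)` is not divisible by `ℓ^(v_ℓ(n)+1)`. -/
theorem key_claim (p : ℕ) [Fact p.Prime] (hp : 5 ≤ p) (hU1 : U1Statement p)
    (hU2 : U2Statement p)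
    (hA : ∀ ℓ : ℕ, ℓ.Prime → 5 ≤ ℓ → NoCongOne p ℓ 1)
    (hB3 : p % 3 = 1 → NoCongOne p 3 1) (hB9 : p % 3 = 2 → NoCongOne p 3 2)
    (hC4 : p % 4 = 1 → NoCongOne p 2 2) (hC8 : p % 4 = 3 → NoCongOne p 2 3)
    (ℓ : ℕ) (hℓ : ℓ.Prime) :
    ¬ ∀ P : HeckeAlg, heckeEvalForms p 2 P = 0 →
      ((ℓ : ℤ) ^ ((eisensteinNumerator p).factorization ℓ + 1)) ∣
        MvPolynomial.aeval (eisensteinSystem p) P := by
  intro hm
  have hpp : p.Prime := Fact.out
  set n := eisensteinNumerator p with hn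
  set D := Nat.gcd (p - 1) 12 with hDdef
  have hD12 : D ∣ 12 := Nat.gcd_dvd_right _ _
  have hDp : D ∣ p - 1 := Nat.gcd_dvd_left _ _
  have hnD : p - 1 = n * D := by
    rw [hn, eisensteinNumerator, ← hDdef]
    exact (Nat.div_mul_cancel hDp).symm
  have hn0 : n ≠ 0 := by
    rintro h0
    rw [h0] at hnD
    omega
  obtain ⟨t, ht, ht2, ht3, ht4⟩ := t_facts D hD12
  set a := n.factorization ℓ with ha
  set s := n / ℓ ^ a with hs
  have hns : n = ℓ ^ a * s := (Nat.ordProj_mul_ordCompl_eq_self n ℓ).symm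
  have hsℓ : ¬ ℓ ∣ s := Nat.not_dvd_ordCompl hℓ hn0
  have key : ∀ (r t' : ℕ), t * ℓ = ℓ ^ r * t' →
      ∃ G : ModularForm (Gamma0 p) 2, CongOne ℓ r (qExpansion 1 G) := fun r t' hr =>
    exists_congOne p hU1 hU2 ℓ a s D t t' r n hℓ.ne_zero hsℓ hns hnD ht hr (by omega) hm
  by_cases h5 : 5 ≤ ℓ
  · obtain ⟨G, hG⟩ := key 1 t (by ring)
    exact hA ℓ hℓ h5 G hG
  · have hℓ23 : ℓ = 2 ∨ ℓ = 3 := by
      have h2 := hℓ.two_le
      have : ℓ ≠ 4 := by
        rintro rfl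
        norm_num at hℓ
      omega
    rcases hℓ23 with rfl | rfl
    · -- ℓ = 2
      have hodd : p % 2 = 1 := by
        rcases hpp.eq_two_or_odd with h | h
        · omega
        · exact h
      have h4 : p % 4 = 1 ∨ p % 4 = 3 := by omega
      rcases h4 with h4 | h4
      · obtain ⟨t', rfl⟩ := ht2
        obtain ⟨G, hG⟩ := key 2 t' (by ring)
        exact hC4 h4 G hG
      · have hD4 : ¬ 4 ∣ D := by
          intro h
          have := h.trans hDp
          omega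
        obtain ⟨t', rfl⟩ := ht4 hD4
        obtain ⟨G, hG⟩ := key 3 t' (by ring)
        exact hC8 h4 G hG
    · -- ℓ = 3
      have h3 : p % 3 = 1 ∨ p % 3 = 2 := by
        have : p % 3 ≠ 0 := by
          intro h
          have h3p : 3 ∣ p := Nat.dvd_of_mod_eq_zero h
          have := (Nat.prime_dvd_prime_iff_eq Nat.prime_three hpp).mp h3p
          omega
        omega
      rcases h3 with h3 | h3
      · obtain ⟨G, hG⟩ := key 1 t (by ring)
        exact hB3 h3 G hG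
      · have hD3 : ¬ 3 ∣ D := by
          intro h
          have := h.trans hDp
          omega
        obtain ⟨t', rfl⟩ := ht3 hD3
        obtain ⟨G, hG⟩ := key 2 t' (by ring)
        exact hB9 h3 G hG

/-- From the key claim to the upper bound. -/
theorem UB_of_key (p : ℕ) [Fact p.Prime] (hn0 : eisensteinNumerator p ≠ 0)
    (hkey : ∀ ℓ : ℕ, ℓ.Prime → ¬ ∀ P : HeckeAlg, heckeEvalForms p 2 P = 0 →
      ((ℓ : ℤ) ^ ((eisensteinNumerator p).factorization ℓ + 1)) ∣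
        MvPolynomial.aeval (eisensteinSystem p) P) :
    ∃ P : HeckeAlg, heckeEvalForms p 2 P = 0 ∧
      MvPolynomial.aeval (eisensteinSystem p) P = (eisensteinNumerator p : ℤ) := by
  classical
  set n := eisensteinNumerator p with hn
  set ε : HeckeAlg →+* ℤ := (MvPolynomial.aeval (R := ℤ) (eisensteinSystem p)).toRingHom with hε
  have hεsurj : Function.Surjective ε := fun a => ⟨MvPolynomial.C a, by simp [hε]⟩
  set 𝔞 : Ideal ℤ := Ideal.map ε (RingHom.ker (heckeEvalForms p 2)) with h𝔞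
  have hmem : ∀ x : ℤ, x ∈ 𝔞 ↔ ∃ P : HeckeAlg, heckeEvalForms p 2 P = 0 ∧
      MvPolynomial.aeval (eisensteinSystem p) P = x := by
    intro x
    rw [h𝔞, Ideal.mem_map_iff_of_surjective ε hεsurj]
    constructor
    · rintro ⟨P, hP, rfl⟩
      exact ⟨P, RingHom.mem_ker.mp hP, rfl⟩
    · rintro ⟨P, hP, rfl⟩
      exact ⟨P, RingHom.mem_ker.mpr hP, rfl⟩
  set m : ℤ := Submodule.IsPrincipal.generator 𝔞 with hm
  have hspan : 𝔞 = Ideal.span {m} := (Ideal.span_singleton_generator 𝔞).symm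
  have hdvd : ∀ P : HeckeAlg, heckeEvalForms p 2 P = 0 →
      m ∣ MvPolynomial.aeval (eisensteinSystem p) P := by
    intro P hP
    have : MvPolynomial.aeval (eisensteinSystem p) P ∈ 𝔞 := (hmem _).mpr ⟨P, hP, rfl⟩
    rw [hspan, Ideal.mem_span_singleton] at this
    exact this
  have hm0 : m.natAbs ≠ 0 := by
    intro h0
    have hm0' : m = 0 := Int.natAbs_eq_zero.mp h0
    apply hkey 2 Nat.prime_two
    intro P hP
    have := hdvd P hP
    rw [hm0'] at this
    rw [zero_dvd_iff.mp this]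
    exact dvd_zero _
  have hfac : m.natAbs ∣ n := by
    rw [← Nat.factorization_le_iff_dvd hm0 hn0]
    intro ℓ
    by_cases hℓ : ℓ.Prime
    · by_contra hlt
      rw [not_le] at hlt
      have h1 : ℓ ^ (n.factorization ℓ + 1) ∣ m.natAbs :=
        (hℓ.pow_dvd_iff_le_factorization hm0).mpr hlt
      apply hkey ℓ hℓ
      intro P hP
      have h2 : ((ℓ : ℤ) ^ (n.factorization ℓ + 1)) ∣ m := by
        have : ((ℓ ^ (n.factorization ℓ + 1) : ℕ) : ℤ) ∣ m :=
          Int.natCast_dvd.mpr h1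
        simpa using this
      exact h2.trans (hdvd P hP)
    · simp [Nat.factorization_eq_zero_of_not_prime _ hℓ]
  have hmn : m ∣ (n : ℤ) := Int.natAbs_dvd_natAbs.mp (by simpa using hfac)
  have : (n : ℤ) ∈ 𝔞 := by
    rw [hspan, Ideal.mem_span_singleton]
    exact hmn
  exact (hmem _).mp this

theorem eisensteinNumerator_ne_zero (p : ℕ) (hp : 2 ≤ p) : eisensteinNumerator p ≠ 0 := by
  intro h0
  have hDp : Nat.gcd (p - 1) 12 ∣ p - 1 := Nat.gcd_dvd_left _ _
  have := Nat.div_mul_cancel hDp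
  rw [eisensteinNumerator] at h0
  rw [h0] at this
  omega

/-- **The upper bound for `p ≥ 5`.** -/
theorem UB_of_lemmas (p : ℕ) [Fact p.Prime] (hp : 5 ≤ p) (hU1 : U1Statement p)
    (hU2 : U2Statement p)
    (hA : ∀ ℓ : ℕ, ℓ.Prime → 5 ≤ ℓ → NoCongOne p ℓ 1)
    (hB3 : p % 3 = 1 → NoCongOne p 3 1) (hB9 : p % 3 = 2 → NoCongOne p 3 2)
    (hC4 : p % 4 = 1 → NoCongOne p 2 2) (hC8 : p % 4 = 3 → NoCongOne p 2 3) :
    ∃ P : HeckeAlg, heckeEvalForms p 2 P = 0 ∧
      MvPolynomial.aeval (eisensteinSystem p) P = (eisensteinNumerator p : ℤ) :=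
  UB_of_key p (eisensteinNumerator_ne_zero p (by omega))
    (fun ℓ hℓ => key_claim p hp hU1 hU2 hA hB3 hB9 hC4 hC8 ℓ hℓ)

/-! ### The primes `p = 2, 3` -/

theorem zmod3_aux : ∀ a₁ c₁ a₂ c₂ : ZMod 3, c₁ ≠ 0 → c₂ ≠ 0 → a₁ * c₁ = a₂ * c₂ →
    a₁ * c₂ - c₁ * a₂ = 0 := by decide

theorem index_Gamma0_three_le : (CongruenceSubgroup.Gamma0 3).index ≤ 4 := by
  classical
  let φ : SL(2, ℤ) → Option (ZMod 3) := fun g =>
    if ((g 1 0 : ℤ) : ZMod 3) = 0 then none
    else some (((g 0 0 : ℤ) : ZMod 3) * ((g 1 0 : ℤ) : ZMod 3))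
  let ψ : SL(2, ℤ) ⧸ (CongruenceSubgroup.Gamma0 3) → Option (ZMod 3) := fun q => φ q.out
  have hψ : Function.Injective ψ := by
    intro q₁ q₂ h
    rw [← QuotientGroup.out_eq' q₁, ← QuotientGroup.out_eq' q₂]
    rw [QuotientGroup.eq]
    rw [CongruenceSubgroup.Gamma0_mem]
    rw [Matrix.SpecialLinearGroup.coe_mul, Matrix.SpecialLinearGroup.coe_inv,
      Matrix.adjugate_fin_two, Matrix.mul_apply, Fin.sum_univ_two]
    simp only [Matrix.of_apply, Matrix.cons_val', Matrix.cons_val_one, Matrix.cons_val_zero,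
      Matrix.cons_val_fin_one]
    push_cast
    simp only [ψ, φ] at h
    by_cases h1 : ((q₁.out 1 0 : ℤ) : ZMod 3) = 0
    · by_cases h2 : ((q₂.out 1 0 : ℤ) : ZMod 3) = 0
      · rw [h1, h2]; ring
      · rw [if_pos h1, if_neg h2] at h
        exact absurd h (by simp)
    · by_cases h2 : ((q₂.out 1 0 : ℤ) : ZMod 3) = 0
      · rw [if_neg h1, if_pos h2] at h
        exact absurd h (by simp)
      · rw [if_neg h1, if_neg h2] at h
        have h' := Option.some.inj h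
        have := zmod3_aux _ _ _ _ h1 h2 h'
        linear_combination this
  have := Nat.card_le_card_of_injective ψ hψ
  simpa [Subgroup.index] using this

theorem cuspForm_three_eq_zero (f : CuspForm (CongruenceSubgroup.Gamma0 3) 2) : f = 0 := by
  have hg : cuspToModular f = 0 := by
    refine ModularForm.sturm_bound_Gamma0 3 (cuspToModular f) ?_
    intro n hn
    have h4 := index_Gamma0_three_le
    have hn0 : n = 0 := by
      have : ((2 : ℤ) * ((CongruenceSubgroup.Gamma0 3).index : ℤ)).toNat / 12 = 0 := by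
        omega
      omega
    subst hn0
    exact CuspFormClass.qExpansion_coeff_zero f one_pos
      (CongruenceSubgroup.one_mem_strictPeriods_Gamma0 3)
  ext z
  exact DFunLike.congr_fun hg z

/-- If there are no cusp forms, the upper bound is trivial. -/
theorem UB_of_forall_eq_zero (p : ℕ) [Fact p.Prime]
    (h : ∀ f : CuspForm (CongruenceSubgroup.Gamma0 p) 2, f = 0) :
    ∃ P : HeckeAlg, heckeEvalForms p 2 P = 0 ∧
      MvPolynomial.aeval (eisensteinSystem p) P = (eisensteinNumerator p : ℤ) := by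
  refine ⟨MvPolynomial.C (eisensteinNumerator p : ℤ), ?_, by simp⟩
  apply Subtype.ext
  apply LinearMap.ext
  intro f
  rw [h f, map_zero, map_zero]

/-- **The upper bound for `p = 2, 3`.** -/
theorem UB_small (p : ℕ) [Fact p.Prime] (hp : p < 5) :
    ∃ P : HeckeAlg, heckeEvalForms p 2 P = 0 ∧
      MvPolynomial.aeval (eisensteinSystem p) P = (eisensteinNumerator p : ℤ) := by
  have hpp : p.Prime := Fact.out
  have h23 : p = 2 ∨ p = 3 := by
    have h2 := hpp.two_le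
    have : p ≠ 4 := by
      rintro rfl
      norm_num at hpp
    omega
  rcases h23 with rfl | rfl
  · exact UB_of_forall_eq_zero 2 Fermat.Agent.S07.result
  · exact UB_of_forall_eq_zero 3 cuspForm_three_eq_zero

/-- **S16 from its pieces**: the lower bound, duality, the Eisenstein series and the five
lemmas. -/
theorem card_of_pieces (p : ℕ) [Fact p.Prime]
    (LB : ∀ P : HeckeAlg, heckeEvalForms p 2 P = 0 →
      (eisensteinNumerator p : ℤ) ∣ MvPolynomial.aeval (eisensteinSystem p) P)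
    (hU1 : 5 ≤ p → U1Statement p) (hU2 : 5 ≤ p → U2Statement p)
    (hA : 5 ≤ p → ∀ ℓ : ℕ, ℓ.Prime → 5 ≤ ℓ → NoCongOne p ℓ 1)
    (hB3 : 5 ≤ p → p % 3 = 1 → NoCongOne p 3 1) (hB9 : 5 ≤ p → p % 3 = 2 → NoCongOne p 3 2)
    (hC4 : 5 ≤ p → p % 4 = 1 → NoCongOne p 2 2) (hC8 : 5 ≤ p → p % 4 = 3 → NoCongOne p 2 3) :
    Nat.card (↥(heckeLatticeAlgebra p ∅) ⧸
        Ideal.map ((latticeRestrictHom p ∅).toRingHom.comp (heckeEvalForms p 2))
          (eisensteinIdeal p)) =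
      eisensteinNumerator p := by
  apply card_of_LB_UB p LB
  by_cases hp : 5 ≤ p
  · exact UB_of_lemmas p hp (hU1 hp) (hU2 hp) (hA hp) (hB3 hp) (hB9 hp) (hC4 hp) (hC8 hp)
  · exact UB_small p (by omega)

end Fermat.Agent.S16Lib
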