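-- Statement S16 (row 15): Mazur's theorem `𝕋 / I ≅ ℤ / n` for the Eisenstein ideal of
-- weight 2 and prime level `p`, `n = (p - 1) / gcd (p - 1, 12)`.
import Fermat.Statements.S16
import Fermat.Agent.S16_UB
import Fermat.Agent.S16_LBMain
import Fermat.Agent.S16_DualityMain
import Fermat.Agent.S16_Eis
import Fermat.Agent.S16_LemmaAFinal
import Fermat.Agent.S16_B3C4
import Fermat.Agent.S16_B9Glue
import Fermat.Agent.S16_C8Final

set_option autoImplicit false
open ModularCurve CuspForm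
open ModularCurve

namespace Fermat.Agent.S16

/-- The Eisenstein series `e = (p E₂(pz) - E₂(z)) / 24` of level `p`, with expansion
`(p - 1)/24 + ∑ σ'(k) qᵏ`. -/
theorem eisenstein_series (p : ℕ) [Fact p.Prime] : Fermat.Agent.S16Lib.U2Statement p := by
  have : NeZero p := ⟨(Fact.out : p.Prime).ne_zero⟩
  refine ⟨Eis.eis p, ?_, ?_⟩
  · rw [Eis.qExpansion_eis_coeff, if_pos rfl]
  · intro k hk
    rw [Eis.qExpansion_eis_coeff, if_neg (by omega)]
    rfl

theorem result
    (p : ℕ) [Fact p.Prime] :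
    Nat.card (↥(heckeLatticeAlgebra p ∅) ⧸
        Ideal.map ((latticeRestrictHom p ∅).toRingHom.comp (heckeEvalForms p 2))
          (eisensteinIdeal p)) =
      eisensteinNumerator p := by
  refine Fermat.Agent.S16Lib.card_of_pieces p (LBMain.LB p) (fun _ => Duality.main p)
    (fun _ => eisenstein_series p) ?_ ?_ ?_ ?_ ?_
  · -- Lemma A: no `G ≡ 1 mod ℓ`, `ℓ ≥ 5`
    intro hp ℓ hℓ hℓ5
    exact LemmaA.noCongOne p ℓ hℓ hp hℓ5
  · -- Lemma B₃: `p ≡ 1 mod 3`, no `G ≡ 1 mod 3`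
    intro _ h3
    exact B3C4.noCongOne_three p h3
  · -- Lemma B₉: `p ≡ 2 mod 3`, no `G ≡ 1 mod 9`
    intro hp h3
    exact B9.noCongOne p hp h3
  · -- Lemma C₄: `p ≡ 1 mod 4`, no `G ≡ 1 mod 4`
    intro _ h4
    exact B3C4.noCongOne_four p h4
  · -- Lemma C₈: `p ≡ 3 mod 4`, no `G ≡ 1 mod 8`
    intro hp h4
    exact C8.noCongOne p hp h4

end Fermat.Agent.S16
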