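import Fermat.Statements.S49
import Fermat.Agent.S49_QCoeff

set_option autoImplicit false
open CuspForm EisensteinWeightOne CongruenceSubgroup ModularFormClass UpperHalfPlane

namespace Fermat.Agent.S49

variable {N : ℕ}

def IntCoeff (f : CuspForm (Gamma0 N) 2) : Prop :=
  ∀ n : ℕ, ∃ m : ℤ, qCoeff f n = (m : ℂ)

def Div3 (f : CuspForm (Gamma0 N) 2) : Prop :=
  ∀ n : ℕ, ∃ m : ℤ, qCoeff f n = 3 * (m : ℂ)

theorem qCoeff_zero_form (n : ℕ) : qCoeff (⇑(0 : CuspForm (Gamma0 N) 2)) n = 0 := by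
  have := qCoeff_smul' (0 : ℂ) (0 : CuspForm (Gamma0 N) 2) n
  rw [zero_smul, zero_mul] at this
  exact this

theorem qCoeff_zsmul' (c : ℤ) (f : CuspForm (Gamma0 N) 2) (n : ℕ) :
    qCoeff (⇑(c • f)) n = (c : ℂ) * qCoeff f n := by
  rw [← Int.cast_smul_eq_zsmul ℂ c f, qCoeff_smul']

theorem intCoeff_of_mem_intLattice {f : CuspForm (Gamma0 N) 2}
    (hf : f ∈ CuspForm.intLattice N 2) : IntCoeff f := by
  unfold CuspForm.intLattice at hf
  induction hf using Submodule.span_induction with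
  | mem x hx => exact hx
  | zero => intro n; exact ⟨0, by rw [qCoeff_zero_form]; simp⟩
  | add x y _ _ hx hy =>
    intro n
    obtain ⟨a, ha⟩ := hx n
    obtain ⟨b, hb⟩ := hy n
    exact ⟨a + b, by rw [qCoeff_add', ha, hb]; push_cast; ring⟩
  | smul c x _ hx =>
    intro n
    obtain ⟨a, ha⟩ := hx n
    exact ⟨c * a, by rw [qCoeff_zsmul', ha]; push_cast; ring⟩

theorem mem_intLattice_of_intCoeff {f : CuspForm (Gamma0 N) 2} (hf : IntCoeff f) :
    f ∈ CuspForm.intLattice N 2 :=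
  Submodule.subset_span hf

theorem intCoeff_of_mem_qIntegralSet {f : CuspForm (Gamma0 N) 2}
    (hf : f ∈ CuspForm.qIntegralSet N) : IntCoeff f := by
  intro n
  obtain ⟨m, hm⟩ := Subring.mem_bot.mp (hf n)
  exact ⟨m, hm.symm⟩

theorem div3_iff {f : CuspForm (Gamma0 N) 2} :
    Div3 f ↔ ∃ g : CuspForm (Gamma0 N) 2, IntCoeff g ∧ f = (3 : ℂ) • g := by
  constructor
  · intro h
    refine ⟨(3⁻¹ : ℂ) • f, ?_, ?_⟩
    · intro n
      obtain ⟨m, hm⟩ := h n
      exact ⟨m, by rw [qCoeff_smul', hm]; field_simp⟩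
    · rw [smul_smul, mul_inv_cancel₀ (by norm_num : (3 : ℂ) ≠ 0), one_smul]
  · rintro ⟨g, hg, rfl⟩ n
    obtain ⟨m, hm⟩ := hg n
    exact ⟨m, by rw [qCoeff_smul', hm]⟩

theorem div3_zero : Div3 (0 : CuspForm (Gamma0 N) 2) := by
  intro n
  exact ⟨0, by rw [qCoeff_zero_form]; simp⟩

theorem div3_add {f g : CuspForm (Gamma0 N) 2} (hf : Div3 f) (hg : Div3 g) : Div3 (f + g) := by
  intro n
  obtain ⟨a, ha⟩ := hf n
  obtain ⟨b, hb⟩ := hg n
  exact ⟨a + b, by rw [qCoeff_add', ha, hb]; push_cast; ring⟩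

theorem div3_sub {f g : CuspForm (Gamma0 N) 2} (hf : Div3 f) (hg : Div3 g) : Div3 (f - g) := by
  intro n
  obtain ⟨a, ha⟩ := hf n
  obtain ⟨b, hb⟩ := hg n
  exact ⟨a - b, by rw [qCoeff_sub', ha, hb]; push_cast; ring⟩

theorem div3_int_smul {f : CuspForm (Gamma0 N) 2} (c : ℤ) (hf : Div3 f) :
    Div3 ((c : ℂ) • f) := by
  intro n
  obtain ⟨a, ha⟩ := hf n
  exact ⟨c * a, by rw [qCoeff_smul', ha]; push_cast; ring⟩

theorem div3_three_smul {f : CuspForm (Gamma0 N) 2} (c : ℤ) (hf : IntCoeff f) :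
    Div3 (((3 * c : ℤ) : ℂ) • f) := by
  intro n
  obtain ⟨a, ha⟩ := hf n
  exact ⟨c * a, by rw [qCoeff_smul', ha]; push_cast; ring⟩

theorem div3_hecke [NeZero N] {t : Module.End ℂ (CuspForm (Gamma0 N) 2)}
    (ht : t ∈ CuspForm.heckeAlgebra N 2 ∅) {f : CuspForm (Gamma0 N) 2} (hf : Div3 f) :
    Div3 (t f) := by
  obtain ⟨g, hg, rfl⟩ := div3_iff.mp hf
  rw [map_smul]
  exact div3_iff.mpr ⟨t g, intCoeff_of_mem_intLattice
    (CuspForm.mem_intLattice_of_mem_heckeAlgebra (by norm_num) ht (mem_intLattice_of_intCoeff hg)),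
    rfl⟩

theorem finiteDimensional_of_hasIntegralBasis [NeZero N] (h : CuspForm.HasIntegralBasis N) :
    FiniteDimensional ℂ (CuspForm (Gamma0 N) 2) := by
  obtain ⟨S, hS⟩ := CuspForm.intLattice_fg N 2
  refine Module.finite_def.mpr ⟨S, ?_⟩
  rw [eq_top_iff, ← h]
  apply Submodule.span_le.mpr
  intro f hf
  have hfL : f ∈ CuspForm.intLattice N 2 :=
    mem_intLattice_of_intCoeff (intCoeff_of_mem_qIntegralSet hf)
  rw [← hS] at hfL
  exact Submodule.span_le_restrictScalars ℤ ℂ _ hfL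

theorem span_intLattice_eq_top (h : CuspForm.HasIntegralBasis N) :
    Submodule.span ℂ ((CuspForm.intLattice N 2 : Submodule ℤ (CuspForm (Gamma0 N) 2)) :
      Set (CuspForm (Gamma0 N) 2)) = ⊤ := by
  rw [eq_top_iff, ← h]
  apply Submodule.span_mono
  intro f hf
  exact mem_intLattice_of_intCoeff (intCoeff_of_mem_qIntegralSet hf)

end Fermat.Agent.S49
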