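import Fermat.Statements.S16
import Fermat.Agent.S49_Lattice

/-!
# S16, work package U1: duality between the Hecke algebra and the lattice of integral cusp forms

* `opOf N P` : the operator on `S₂(Γ₀(N))` attached to a Hecke polynomial `P ∈ ℤ[X_ℓ]`.
* `exists_theta` : for `k ≥ 1` a polynomial `Θ_k` with `a₁(Θ_k f) = a_k(f)`, whose value under any
  "eigen-system" `c` is the `k`-th term of the formal eigen-expansion `s`.
* `exists_form_of_functional` : every `ℤ`-linear functional on the lattice Hecke algebra is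
  `t ↦ a₁(t f)` for a unique integral cusp form `f` (perfectness of the pairing).
* `exists_form_of_ker_dvd` : if `m ∣ ε_c(P)` for every `P` acting as `0` on the lattice, there is an
  integral cusp form with `a_k(f) ≡ s(k) mod m` for all `k ≥ 1`.
-/

set_option autoImplicit false
open CuspForm ModularCurve CongruenceSubgroup ModularFormClass

namespace Fermat.Agent.S16.Duality

open Fermat.Agent.S49

variable (N : ℕ) [NeZero N]

/-- The operator on weight-2 cusp forms attached to a Hecke polynomial. -/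
noncomputable def opOf (P : HeckeAlg) : Module.End ℂ (CuspForm (Gamma0 N) 2) :=
  ((heckeEvalForms N 2 P : heckeAlgebra N 2 ∅) : Module.End ℂ (CuspForm (Gamma0 N) 2))

theorem opOf_mem (P : HeckeAlg) : opOf N P ∈ heckeAlgebra N 2 ∅ := (heckeEvalForms N 2 P).2

theorem opOf_one : opOf N 1 = 1 := by
  unfold opOf; rw [map_one]; rfl

theorem opOf_mul (P Q : HeckeAlg) : opOf N (P * Q) = opOf N P * opOf N Q := by
  unfold opOf; rw [map_mul]; rfl

theorem opOf_add (P Q : HeckeAlg) : opOf N (P + Q) = opOf N P + opOf N Q := by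
  unfold opOf; rw [map_add]; rfl

theorem opOf_sub (P Q : HeckeAlg) : opOf N (P - Q) = opOf N P - opOf N Q := by
  unfold opOf; rw [map_sub]; rfl

theorem opOf_C (a : ℤ) : opOf N (MvPolynomial.C a) = (a : ℂ) • (1 : Module.End ℂ (CuspForm (Gamma0 N) 2)) := by
  unfold opOf
  rw [heckeEvalForms_C, Algebra.algebraMap_eq_smul_one, Int.cast_smul_eq_zsmul ℂ a]
  rfl

theorem opOf_X_T (ℓ : Nat.Primes) (h : ¬ (ℓ : ℕ) ∣ N) :
    opOf N (MvPolynomial.X ℓ) = heckeTLin 2 ℓ.2 h := by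
  unfold opOf
  have := heckeEvalForms_heckeGen_of_not_dvd (k := 2) h
  rw [show (MvPolynomial.X ℓ : HeckeAlg) = heckeGen ℓ from rfl, this]
  rfl

theorem opOf_X_U (q : Nat.Primes) (h : (q : ℕ) ∣ N) :
    opOf N (MvPolynomial.X q) = heckeULin 2 h := by
  unfold opOf
  have := heckeEvalForms_heckeGen_of_dvd (k := 2) h
  rw [show (MvPolynomial.X q : HeckeAlg) = heckeGen q from rfl, this]
  rfl

theorem opOf_mul_apply (P Q : HeckeAlg) (f : CuspForm (Gamma0 N) 2) :
    opOf N (P * Q) f = opOf N P (opOf N Q f) := by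
  rw [opOf_mul]; rfl

theorem opOf_C_mul_apply (a : ℤ) (Q : HeckeAlg) (f : CuspForm (Gamma0 N) 2) :
    opOf N (MvPolynomial.C a * Q) f = (a : ℂ) • opOf N Q f := by
  rw [opOf_mul, opOf_C]; rfl

theorem opOf_sub_apply (P Q : HeckeAlg) (f : CuspForm (Gamma0 N) 2) :
    opOf N (P - Q) f = opOf N P f - opOf N Q f := by
  rw [opOf_sub]; rfl

/-- `s` is a formal eigen-expansion for the eigen-system `c` at level `N`:
`s 1 = 1`, `s (mℓ) = c_ℓ s(m) - ℓ s(m/ℓ)` for `ℓ ∤ N`, `s (mq) = c_q s(m)` for `q ∣ N`. -/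
def IsEigenExpansion (c : Nat.Primes → ℤ) (s : ℕ → ℤ) : Prop :=
  s 1 = 1 ∧
  (∀ ℓ : Nat.Primes, ¬ (ℓ : ℕ) ∣ N → ∀ m : ℕ, 0 < m →
      s (m * ℓ) = c ℓ * s m - if (ℓ : ℕ) ∣ m then (ℓ : ℤ) * s (m / ℓ) else 0) ∧
  (∀ q : Nat.Primes, (q : ℕ) ∣ N → ∀ m : ℕ, 0 < m → s (m * q) = c q * s m)

/-- The Hecke polynomial `Θ_k` with `a₁(Θ_k f) = a_k(f)`; its value under an eigen-system `c`
is the `k`-th term of any formal eigen-expansion for `c`. -/
theorem exists_theta (k : ℕ) (hk : 0 < k) :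
    ∃ Θ : HeckeAlg, (∀ f : CuspForm (Gamma0 N) 2, qCoeff (opOf N Θ f) 1 = qCoeff f k) ∧
      ∀ (c : Nat.Primes → ℤ) (s : ℕ → ℤ), IsEigenExpansion N c s →
        MvPolynomial.aeval c Θ = s k := by
  induction k using Nat.strong_induction_on with
  | _ k ih =>
    rcases Nat.lt_or_ge 1 k with hk1 | hk1
    swap
    · have hk' : k = 1 := by omega
      subst hk'
      exact ⟨1, fun f => by rw [opOf_one]; rfl, fun c s hs => by rw [map_one]; exact hs.1.symm⟩
    · have hℓp : (k.minFac).Prime := Nat.minFac_prime (by omega)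
      obtain ⟨m, hm⟩ : ∃ m, k = m * k.minFac :=
        ⟨k / k.minFac, (Nat.div_mul_cancel (Nat.minFac_dvd k)).symm⟩
      generalize k.minFac = ℓ₀ at hℓp hm
      obtain ⟨ℓ, rfl⟩ : ∃ ℓ : Nat.Primes, (ℓ : ℕ) = ℓ₀ := ⟨⟨ℓ₀, hℓp⟩, rfl⟩
      have hm0 : 0 < m := by
        rcases Nat.eq_zero_or_pos m with h | h
        · subst h; omega
        · exact h
      have hmk : m < k := by rw [hm]; exact lt_mul_of_one_lt_right hm0 hℓp.one_lt
      obtain ⟨Θm, hΘm, hΘm'⟩ := ih m hmk hm0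
      by_cases hN : (ℓ : ℕ) ∣ N
      · refine ⟨Θm * MvPolynomial.X ℓ, fun f => ?_, fun c s hs => ?_⟩
        · rw [opOf_mul_apply, opOf_X_U N ℓ hN, hΘm, qCoeff_heckeULin hℓp hN, hm]
        · rw [map_mul, hΘm' c s hs, MvPolynomial.aeval_X, hm, hs.2.2 ℓ hN m hm0, mul_comm]
      · by_cases hd : (ℓ : ℕ) ∣ m
        · have hml0 : 0 < m / ℓ := Nat.div_pos (Nat.le_of_dvd hm0 hd) hℓp.pos
          have hmlk : m / ℓ < k := lt_of_le_of_lt (Nat.div_le_self _ _) hmk
          obtain ⟨Θ', hΘ', hΘ''⟩ := ih (m / ℓ) hmlk hml0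
          refine ⟨Θm * MvPolynomial.X ℓ - MvPolynomial.C ((ℓ : ℕ) : ℤ) * Θ',
            fun f => ?_, fun c s hs => ?_⟩
          · rw [opOf_sub_apply, opOf_mul_apply, opOf_C_mul_apply, qCoeff_sub', qCoeff_smul',
              opOf_X_T N ℓ hN, hΘm, hΘ', qCoeff_heckeTLin hℓp hN, if_pos hd, hm]
            push_cast
            ring
          · rw [map_sub, map_mul, map_mul, hΘm' c s hs, hΘ'' c s hs, MvPolynomial.aeval_X,
              MvPolynomial.aeval_C, hm, hs.2.1 ℓ hN m hm0, if_pos hd]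
            simp only [eq_intCast, Int.cast_natCast]
            ring
        · refine ⟨Θm * MvPolynomial.X ℓ, fun f => ?_, fun c s hs => ?_⟩
          · rw [opOf_mul_apply, opOf_X_T N ℓ hN, hΘm, qCoeff_heckeTLin hℓp hN,
              if_neg hd, hm, add_zero]
          · rw [map_mul, hΘm' c s hs, MvPolynomial.aeval_X, hm, hs.2.1 ℓ hN m hm0,
              if_neg hd, sub_zero, mul_comm]

/-! ### Surjectivity of the evaluation -/

theorem exists_opOf_eq {t : Module.End ℂ (CuspForm (Gamma0 N) 2)} (ht : t ∈ heckeAlgebra N 2 ∅) :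
    ∃ P : HeckeAlg, opOf N P = t := by
  unfold heckeAlgebra at ht
  induction ht using Algebra.adjoin_induction with
  | mem x hx =>
    rcases hx with ⟨ℓ, hℓ, hℓN, -, rfl⟩ | ⟨q, hqN, hq, -, rfl⟩
    · exact ⟨MvPolynomial.X ⟨ℓ, hℓ⟩, opOf_X_T N ⟨ℓ, hℓ⟩ hℓN⟩
    · exact ⟨MvPolynomial.X ⟨q, hq⟩, opOf_X_U N ⟨q, hq⟩ hqN⟩
  | algebraMap r =>
    refine ⟨MvPolynomial.C r, ?_⟩
    rw [opOf_C, Algebra.algebraMap_eq_smul_one, Int.cast_smul_eq_zsmul ℂ r]
  | add x y _ _ hx hy =>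
    obtain ⟨P, rfl⟩ := hx
    obtain ⟨Q, rfl⟩ := hy
    exact ⟨P + Q, opOf_add N P Q⟩
  | mul x y _ _ hx hy =>
    obtain ⟨P, rfl⟩ := hx
    obtain ⟨Q, rfl⟩ := hy
    exact ⟨P * Q, opOf_mul N P Q⟩

theorem heckeEvalForms_surjective : Function.Surjective (heckeEvalForms N 2) := by
  rintro ⟨t, ht⟩
  obtain ⟨P, hP⟩ := exists_opOf_eq N ht
  exact ⟨P, Subtype.ext hP⟩

/-- The map `ℤ[X_ℓ] → 𝕋` of the statement of S16. -/
noncomputable def phi : HeckeAlg →+* ↥(heckeLatticeAlgebra N ∅) :=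
  (latticeRestrictHom N ∅).toRingHom.comp (heckeEvalForms N 2)

theorem phi_surjective : Function.Surjective (phi N) :=
  (latticeRestrictHom_surjective N ∅).comp (heckeEvalForms_surjective N)

theorem phi_apply_coe (P : HeckeAlg) (f : ↥(intLattice N 2)) :
    (((phi N P : Module.End ℤ ↥(intLattice N 2)) f : ↥(intLattice N 2)) :
      CuspForm (Gamma0 N) 2) = opOf N P (f : CuspForm (Gamma0 N) 2) := rfl

/-! ### Integer coefficients of lattice elements -/

/-- The `n`-th `q`-coefficient of an element of the integral lattice, as an integer. -/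
noncomputable def coeffZ (f : ↥(intLattice N 2)) (n : ℕ) : ℤ :=
  (intCoeff_of_mem_intLattice f.2 n).choose

omit [NeZero N] in
theorem coeffZ_spec (f : ↥(intLattice N 2)) (n : ℕ) :
    qCoeff (⇑(f : CuspForm (Gamma0 N) 2)) n = (coeffZ N f n : ℂ) :=
  (intCoeff_of_mem_intLattice f.2 n).choose_spec

omit [NeZero N] in
theorem coeffZ_add (f g : ↥(intLattice N 2)) (n : ℕ) :
    coeffZ N (f + g) n = coeffZ N f n + coeffZ N g n := by
  apply Int.cast_injective (α := ℂ)
  rw [Int.cast_add, ← coeffZ_spec, ← coeffZ_spec, ← coeffZ_spec, Submodule.coe_add, qCoeff_add']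

omit [NeZero N] in
theorem coeffZ_zsmul (c : ℤ) (f : ↥(intLattice N 2)) (n : ℕ) :
    coeffZ N (c • f) n = c * coeffZ N f n := by
  apply Int.cast_injective (α := ℂ)
  rw [Int.cast_mul, ← coeffZ_spec, ← coeffZ_spec, Submodule.coe_smul, qCoeff_zsmul']

omit [NeZero N] in
theorem eq_zero_of_coeffZ (f : ↥(intLattice N 2)) (h : ∀ k, 0 < k → coeffZ N f k = 0) :
    f = 0 := by
  apply Subtype.ext
  apply eq_zero_of_qCoeff
  intro n
  rcases Nat.eq_zero_or_pos n with rfl | hn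
  · exact qCoeff_zero_idx _
  · rw [coeffZ_spec, h n hn, Int.cast_zero]

theorem coeffZ_phi_theta {k : ℕ} {Θ : HeckeAlg}
    (hΘ : ∀ f : CuspForm (Gamma0 N) 2, qCoeff (opOf N Θ f) 1 = qCoeff f k)
    (f : ↥(intLattice N 2)) :
    coeffZ N ((phi N Θ : Module.End ℤ ↥(intLattice N 2)) f) 1 = coeffZ N f k := by
  apply Int.cast_injective (α := ℂ)
  rw [← coeffZ_spec, ← coeffZ_spec, phi_apply_coe, hΘ]

/-! ### The pairing `(t, f) ↦ a₁(t f)` -/

/-- The pairing `𝕋 × S_ℤ → ℤ`, `(t, f) ↦ a₁(t f)`. -/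
noncomputable def pairing : ↥(heckeLatticeAlgebra N ∅) →ₗ[ℤ] ↥(intLattice N 2) →ₗ[ℤ] ℤ :=
  LinearMap.mk₂ ℤ (fun t f => coeffZ N ((t : Module.End ℤ ↥(intLattice N 2)) f) 1)
    (fun t t' f => by
      show coeffZ N ((t : Module.End ℤ ↥(intLattice N 2)) f +
        (t' : Module.End ℤ ↥(intLattice N 2)) f) 1 = _
      rw [coeffZ_add])
    (fun c t f => by
      show coeffZ N (c • ((t : Module.End ℤ ↥(intLattice N 2)) f)) 1 = _
      rw [coeffZ_zsmul]; rfl)
    (fun t f g => by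
      show coeffZ N ((t : Module.End ℤ ↥(intLattice N 2)) (f + g)) 1 = _
      rw [map_add, coeffZ_add])
    (fun c t f => by
      show coeffZ N ((t : Module.End ℤ ↥(intLattice N 2)) (c • f)) 1 = _
      rw [map_zsmul, coeffZ_zsmul]; rfl)

theorem pairing_apply (t : ↥(heckeLatticeAlgebra N ∅)) (f : ↥(intLattice N 2)) :
    pairing N t f = coeffZ N ((t : Module.End ℤ ↥(intLattice N 2)) f) 1 := rfl

theorem pairing_flip_injective : Function.Injective (pairing N).flip := by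
  rw [injective_iff_map_eq_zero]
  intro f hf
  apply eq_zero_of_coeffZ
  intro k hk
  obtain ⟨Θ, hΘ, -⟩ := exists_theta N k hk
  rw [← coeffZ_phi_theta N hΘ]
  exact LinearMap.congr_fun hf (phi N Θ)

theorem pairing_injective : Function.Injective (pairing N) := by
  rw [injective_iff_map_eq_zero]
  intro t ht
  apply Subtype.ext
  apply LinearMap.ext
  intro f
  show (t : Module.End ℤ ↥(intLattice N 2)) f = 0
  apply eq_zero_of_coeffZ
  intro k hk
  obtain ⟨Θ, hΘ, -⟩ := exists_theta N k hk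
  rw [← coeffZ_phi_theta N hΘ]
  have hcomm : (phi N Θ : Module.End ℤ ↥(intLattice N 2))
      ((t : Module.End ℤ ↥(intLattice N 2)) f) =
      (t : Module.End ℤ ↥(intLattice N 2)) ((phi N Θ : Module.End ℤ ↥(intLattice N 2)) f) :=
    congrArg (fun u : ↥(heckeLatticeAlgebra N ∅) => (u : Module.End ℤ ↥(intLattice N 2)) f)
      (mul_comm (phi N Θ) t)
  rw [hcomm]
  exact LinearMap.congr_fun ht _

/-- **Perfectness of the pairing**: every functional on the lattice Hecke algebra is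
`t ↦ a₁(t g)` for an integral cusp form `g`. -/
theorem exists_form_of_functional (lam : ↥(heckeLatticeAlgebra N ∅) →ₗ[ℤ] ℤ) :
    ∃ g : ↥(intLattice N 2), ∀ t, pairing N t g = lam t := by
  have := intLattice.moduleFinite N
  have := intLattice.moduleFree N
  have h1 : Module.finrank ℤ ↥(intLattice N 2) ≤
      Module.finrank ℤ ↥(heckeLatticeAlgebra N ∅) := by
    have := LinearMap.finrank_le_finrank_of_injective (pairing_flip_injective N)
    rwa [Module.finrank_linearMap_self] at this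
  have h2 : Module.finrank ℤ ↥(heckeLatticeAlgebra N ∅) ≤
      Module.finrank ℤ ↥(intLattice N 2) := by
    have := LinearMap.finrank_le_finrank_of_injective (pairing_injective N)
    rwa [Module.finrank_linearMap_self] at this
  have h3 : Module.finrank ℤ (LinearMap.range (pairing N).flip) =
      Module.finrank ℤ (↥(heckeLatticeAlgebra N ∅) →ₗ[ℤ] ℤ) := by
    rw [LinearMap.finrank_range_of_inj (pairing_flip_injective N), Module.finrank_linearMap_self]
    exact le_antisymm h1 h2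
  have h4 : Module.finrank ℤ ((↥(heckeLatticeAlgebra N ∅) →ₗ[ℤ] ℤ) ⧸
      LinearMap.range (pairing N).flip) = 0 := by
    have := Submodule.finrank_quotient_add_finrank (LinearMap.range (pairing N).flip)
    omega
  have h5 := (Module.finrank_eq_zero_iff_isTorsion (R := ℤ)).mp h4
  obtain ⟨⟨d, hd⟩, hd'⟩ := @h5 (Submodule.Quotient.mk lam)
  have hd0 : d ≠ 0 := nonZeroDivisors.ne_zero hd
  have hmem : d • lam ∈ LinearMap.range (pairing N).flip := by
    rw [← Submodule.Quotient.mk_eq_zero, Submodule.Quotient.mk_smul]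
    exact hd'
  obtain ⟨f, hf⟩ := hmem
  have hfT : ∀ t, pairing N t f = d * lam t := fun t => by
    have := LinearMap.congr_fun hf t
    simpa using this
  -- the coefficients of `f` are divisible by `d`
  have hcoef : ∀ k, 0 < k → ∃ z : ℤ, coeffZ N f k = d * z := by
    intro k hk
    obtain ⟨Θ, hΘ, -⟩ := exists_theta N k hk
    exact ⟨lam (phi N Θ), by rw [← coeffZ_phi_theta N hΘ, ← pairing_apply, hfT]⟩
  have hdC : (d : ℂ) ≠ 0 := Int.cast_ne_zero.mpr hd0
  have hg₀ : IntCoeff ((d : ℂ)⁻¹ • (f : CuspForm (Gamma0 N) 2)) := by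
    intro n
    rcases Nat.eq_zero_or_pos n with rfl | hn
    · exact ⟨0, by rw [qCoeff_zero_idx]; simp⟩
    · obtain ⟨z, hz⟩ := hcoef n hn
      refine ⟨z, ?_⟩
      rw [qCoeff_smul', coeffZ_spec, hz]
      push_cast
      field_simp
  let g : ↥(intLattice N 2) := ⟨_, mem_intLattice_of_intCoeff hg₀⟩
  have hdg : d • g = f := by
    apply Subtype.ext
    show d • ((d : ℂ)⁻¹ • (f : CuspForm (Gamma0 N) 2)) = f
    rw [← Int.cast_smul_eq_zsmul ℂ d, smul_smul, mul_inv_cancel₀ hdC, one_smul]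
  refine ⟨g, fun t => ?_⟩
  have h6 : d * pairing N t g = d * lam t := by
    rw [← hfT t, ← hdg, map_zsmul]
    rfl
  exact mul_left_cancel₀ hd0 h6

/-- **Duality (U1), general form.** If `m` divides `ε_c(P)` for every Hecke polynomial `P` acting as
zero on the lattice of integral cusp forms, there is an integral cusp form whose `k`-th coefficient
is congruent mod `m` to the `k`-th term of the formal eigen-expansion, for all `k ≥ 1`. -/
theorem exists_form_of_ker_dvd (c : Nat.Primes → ℤ) (s : ℕ → ℤ) (hs : IsEigenExpansion N c s)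
    (m : ℤ)
    (hm : ∀ P : HeckeAlg, ((latticeRestrictHom N ∅).toRingHom.comp (heckeEvalForms N 2)) P = 0 →
      m ∣ MvPolynomial.aeval c P) :
    ∃ f : CuspForm (Gamma0 N) 2, ∃ a : ℕ → ℤ, (∀ n, qCoeff f n = (a n : ℂ)) ∧
      ∀ k, 0 < k → m ∣ a k - s k := by
  classical
  let b := Module.Free.chooseBasis ℤ ↥(heckeLatticeAlgebra N ∅)
  choose Pb hPb using fun i => phi_surjective N (b i)
  let lam : ↥(heckeLatticeAlgebra N ∅) →ₗ[ℤ] ℤ :=
    b.constr ℤ (fun i => MvPolynomial.aeval c (Pb i))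
  have hlam : ∀ P : HeckeAlg, m ∣ MvPolynomial.aeval c P - lam (phi N P) := by
    intro P
    have hQ : phi N (P - ∑ i, b.repr (phi N P) i • Pb i) = 0 := by
      rw [map_sub, map_sum]
      simp only [map_zsmul, hPb]
      rw [b.sum_repr, sub_self]
    have h1 := hm _ hQ
    have h2 : lam (phi N P) = ∑ i, b.repr (phi N P) i • MvPolynomial.aeval c (Pb i) := by
      conv_lhs => rw [← b.sum_repr (phi N P)]
      rw [map_sum]
      refine Finset.sum_congr rfl fun i _ => ?_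
      rw [map_zsmul, Module.Basis.constr_basis]
    rw [map_sub, map_sum] at h1
    simp only [map_zsmul] at h1
    rw [h2]
    exact h1
  obtain ⟨g, hg⟩ := exists_form_of_functional N lam
  refine ⟨g.1, fun n => coeffZ N g n, fun n => coeffZ_spec N g n, fun k hk => ?_⟩
  obtain ⟨Θ, hΘ, hΘ'⟩ := exists_theta N k hk
  show m ∣ coeffZ N g k - s k
  rw [← hΘ' c s hs, ← coeffZ_phi_theta N hΘ g, ← pairing_apply, hg]
  exact (dvd_sub_comm).mp (hlam Θ)

/-- `σ'(k)`: the sum of the divisors of `k` prime to `p`. -/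
def sigmaP (p k : ℕ) : ℤ := ∑ d ∈ k.divisors.filter (fun d => ¬ p ∣ d), (d : ℤ)

theorem sigmaP_eq (p k : ℕ) :
    sigmaP p k = ∑ d ∈ k.divisors, if p ∣ d then 0 else (d : ℤ) := by
  unfold sigmaP
  rw [Finset.sum_filter]
  refine Finset.sum_congr rfl fun d _ => ?_
  by_cases h : p ∣ d <;> simp [h]

theorem divisors_mul_prime {n ℓ : ℕ} (hn : 0 < n) (hℓ : ℓ.Prime) :
    (n * ℓ).divisors = n.divisors ∪ n.divisors.image (· * ℓ) := by
  ext e
  simp only [Nat.mem_divisors, Finset.mem_union, Finset.mem_image]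
  constructor
  · rintro ⟨he, -⟩
    by_cases hℓe : ℓ ∣ e
    · obtain ⟨e', rfl⟩ := hℓe
      right
      refine ⟨e', ⟨?_, hn.ne'⟩, mul_comm _ _⟩
      have h1 : e' * ℓ ∣ n * ℓ := by rwa [mul_comm e' ℓ]
      exact Nat.dvd_of_mul_dvd_mul_right hℓ.pos h1
    · left
      exact ⟨Nat.Coprime.dvd_of_dvd_mul_right
        ((Nat.Prime.coprime_iff_not_dvd hℓ).mpr hℓe).symm he, hn.ne'⟩
  · rintro (⟨he, -⟩ | ⟨d, ⟨hd, -⟩, rfl⟩)
    · exact ⟨Dvd.dvd.mul_right he ℓ, Nat.mul_ne_zero hn.ne' hℓ.ne_zero⟩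
    · exact ⟨Nat.mul_dvd_mul_right hd ℓ, Nat.mul_ne_zero hn.ne' hℓ.ne_zero⟩

theorem divisors_inter_image {n ℓ : ℕ} (hn : 0 < n) (hℓ : ℓ.Prime) :
    n.divisors ∩ n.divisors.image (· * ℓ) =
      if ℓ ∣ n then (n / ℓ).divisors.image (· * ℓ) else ∅ := by
  split_ifs with h
  · ext e
    simp only [Finset.mem_inter, Nat.mem_divisors, Finset.mem_image]
    constructor
    · rintro ⟨⟨he, -⟩, d, -, rfl⟩
      refine ⟨d, ⟨?_, (Nat.div_pos (Nat.le_of_dvd hn h) hℓ.pos).ne'⟩, rfl⟩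
      obtain ⟨n', rfl⟩ := h
      rw [Nat.mul_div_cancel_left _ hℓ.pos]
      rw [mul_comm ℓ n'] at he
      exact Nat.dvd_of_mul_dvd_mul_right hℓ.pos he
    · rintro ⟨d, ⟨hd, -⟩, rfl⟩
      have h1 : d * ℓ ∣ n := by
        have h2 := Nat.mul_dvd_mul_right hd ℓ
        rwa [Nat.div_mul_cancel h] at h2
      exact ⟨⟨h1, hn.ne'⟩, d, ⟨Dvd.dvd.trans (Dvd.intro _ rfl) h1, hn.ne'⟩, rfl⟩
  · ext e
    simp only [Finset.mem_inter, Nat.mem_divisors, Finset.mem_image, Finset.notMem_empty,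
      iff_false]
    rintro ⟨⟨he, -⟩, d, -, rfl⟩
    exact h (Dvd.dvd.trans (Dvd.intro_left _ rfl) he)

/-- Inclusion–exclusion for a sum over the divisors of `n ℓ`. -/
theorem sum_divisors_mul_prime {n ℓ : ℕ} (hn : 0 < n) (hℓ : ℓ.Prime) (g : ℕ → ℤ) :
    ∑ e ∈ (n * ℓ).divisors, g e =
      ∑ d ∈ n.divisors, g d + ∑ d ∈ n.divisors, g (d * ℓ) -
        if ℓ ∣ n then ∑ d ∈ (n / ℓ).divisors, g (d * ℓ) else 0 := by
  have hinj : ∀ s : Finset ℕ, ∑ e ∈ s.image (· * ℓ), g e = ∑ d ∈ s, g (d * ℓ) := fun s =>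
    Finset.sum_image fun a _ b _ hab => Nat.eq_of_mul_eq_mul_right hℓ.pos hab
  have h1 := Finset.sum_union_inter (s₁ := n.divisors) (s₂ := n.divisors.image (· * ℓ)) (f := g)
  rw [← divisors_mul_prime hn hℓ, divisors_inter_image hn hℓ, hinj] at h1
  split_ifs with h
  · rw [if_pos h, hinj] at h1
    linarith
  · rw [if_neg h, Finset.sum_empty] at h1
    linarith

theorem isEigenExpansion_sigmaP (p : ℕ) [hp : Fact p.Prime] :
    IsEigenExpansion p (eisensteinSystem p) (sigmaP p) := by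
  refine ⟨?_, ?_, ?_⟩
  · rw [sigmaP_eq, Nat.divisors_one, Finset.sum_singleton, if_neg (Nat.Prime.not_dvd_one hp.1)]
    rfl
  · intro ℓ hℓp m hm0
    have hne : (ℓ : ℕ) ≠ p := fun h => hℓp (h ▸ dvd_rfl)
    have hg : ∀ d : ℕ, (if p ∣ d * (ℓ : ℕ) then (0 : ℤ) else ((d * (ℓ : ℕ) : ℕ) : ℤ)) =
        ((ℓ : ℕ) : ℤ) * (if p ∣ d then 0 else (d : ℤ)) := by
      intro d
      have hiff : p ∣ d * (ℓ : ℕ) ↔ p ∣ d := by
        constructor
        · intro h
          rcases (Nat.Prime.dvd_mul hp.1).mp h with h | h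
          · exact h
          · exact absurd ((Nat.prime_dvd_prime_iff_eq hp.1 ℓ.2).mp h).symm hne
        · exact fun h => Dvd.dvd.mul_right h _
      by_cases h : p ∣ d
      · rw [if_pos (hiff.mpr h), if_pos h, mul_zero]
      · rw [if_neg (fun h' => h (hiff.mp h')), if_neg h]
        push_cast
        ring
    rw [eisensteinSystem_of_not_dvd hℓp, sigmaP_eq, sigmaP_eq, sigmaP_eq,
      sum_divisors_mul_prime hm0 ℓ.2]
    simp only [hg, ← Finset.mul_sum]
    split_ifs <;> ring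
  · intro q hq m hm0
    have hqp : (q : ℕ) = p := (Nat.prime_dvd_prime_iff_eq q.2 hp.1).mp hq
    have hg : ∀ d : ℕ, (if p ∣ d * (q : ℕ) then (0 : ℤ) else ((d * (q : ℕ) : ℕ) : ℤ)) = 0 := by
      intro d
      rw [if_pos (hqp ▸ Dvd.intro_left d rfl)]
    rw [eisensteinSystem_of_dvd hq, sigmaP_eq, sigmaP_eq, sum_divisors_mul_prime hm0 q.2]
    simp only [hg, Finset.sum_const_zero, ite_self]
    ring

/-- **Duality (U1) for the Eisenstein system at prime level `p`.** -/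
theorem exists_eisenstein_congruent (p : ℕ) [Fact p.Prime] (m : ℤ)
    (hm : ∀ P : HeckeAlg, ((latticeRestrictHom p ∅).toRingHom.comp (heckeEvalForms p 2)) P = 0 →
      m ∣ MvPolynomial.aeval (eisensteinSystem p) P) :
    ∃ f : CuspForm (Gamma0 p) 2, ∃ a : ℕ → ℤ, (∀ n, qCoeff f n = (a n : ℂ)) ∧
      ∀ k, 0 < k → m ∣ a k - sigmaP p k :=
  exists_form_of_ker_dvd p (eisensteinSystem p) (sigmaP p) (isEigenExpansion_sigmaP p) m hm

end Fermat.Agent.S16.Duality
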