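import Mathlib
import Fermat.Agent.S16_Norm
import Fermat.Agent.S16_Miller

/-!
# S16 (U3): the trace from level `p` to level one

`exists_trace`: for `g ∈ M_k(Γ₀(p))` the function `g + ∑_{i < p} g|ST^i` is a modular form of
level one.  Consequences: it vanishes in weight `2` (`trace_weight_two`) and is a multiple of
`E₄` in weight `4` (`trace_weight_four`).
-/

set_option autoImplicit false
set_option linter.unusedSectionVars false

open UpperHalfPlane Filter CongruenceSubgroup Matrix.SpecialLinearGroup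
open scoped ModularForm MatrixGroups Manifold Topology

namespace Fermat.Agent.S16.Trace

open Fermat.Agent.S16.Norm

variable (p : ℕ) [Fact p.Prime]

/-- **The trace from level `p` to level `Γ₀(1)`**: `g + ∑_{i<p} g|ST^i`. -/
theorem exists_trace_Gamma0_one (k : ℤ) (g : ModularForm (Gamma0 p) k) :
    ∃ Φ : ModularForm (Gamma0 1) k, ∀ z : ℍ,
      Φ z = g z + ∑ i ∈ Finset.range p,
          (⇑g ∣[k] (ModularGroup.S * ModularGroup.T ^ (i : ℤ))) z := by
  classical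
  have : NeZero p := ⟨(Fact.out : p.Prime).ne_zero⟩
  have hpN : ¬ p ∣ 1 := Nat.Prime.not_dvd_one Fact.out
  obtain ⟨δ, hδp, hδ⟩ := exists_delta p 1 hpN
  have hbij := rep_bijective p 1 hpN δ hδ
  have hcard : Nat.card (((Gamma0 1 : Subgroup SL(2, ℤ)) : Subgroup (GL (Fin 2) ℝ)) ⧸
      (((Gamma0 (p * 1) : Subgroup SL(2, ℤ)) : Subgroup (GL (Fin 2) ℝ)).subgroupOf
        ((Gamma0 1 : Subgroup SL(2, ℤ)) : Subgroup (GL (Fin 2) ℝ)))) = p + 1 := by
    rw [← Nat.card_eq_of_bijective _ hbij]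
    simp [Nat.card_eq_fintype_card, ZMod.card]
  have : ((Gamma0 (p * 1) : Subgroup SL(2, ℤ)) : Subgroup (GL (Fin 2) ℝ)).IsFiniteRelIndex
      ((Gamma0 1 : Subgroup SL(2, ℤ)) : Subgroup (GL (Fin 2) ℝ)) :=
    ⟨by rw [Subgroup.relIndex, Subgroup.index_eq_card, hcard]; omega⟩
  refine ⟨ModularForm.trace ((Gamma0 1 : Subgroup SL(2, ℤ)) : Subgroup (GL (Fin 2) ℝ))
      (sumForm p 1 g 0), fun z => ?_⟩
  rw [ModularForm.coe_trace]
  let _ : Fintype (((Gamma0 1 : Subgroup SL(2, ℤ)) : Subgroup (GL (Fin 2) ℝ)) ⧸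
      (((Gamma0 (p * 1) : Subgroup SL(2, ℤ)) : Subgroup (GL (Fin 2) ℝ)).subgroupOf
        ((Gamma0 1 : Subgroup SL(2, ℤ)) : Subgroup (GL (Fin 2) ℝ)))) := Fintype.ofFinite _
  rw [← hbij.sum_comp (fun q => SlashInvariantForm.quotientFunc (sumForm p 1 g 0) q),
    Fintype.sum_option]
  have h0 : SlashInvariantForm.quotientFunc (sumForm p 1 g 0)
      (rep p 1 δ (fun i => (hδ i).1) none) = ⇑g := by
    show SlashInvariantForm.quotientFunc (sumForm p 1 g 0) (qmk p 1 1 (one_mem _)) = _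
    rw [quotientFunc_qmk, inv_one, SlashAction.slash_one]
    ext z
    simp
  have h1 : ∀ a : ZMod p, SlashInvariantForm.quotientFunc (sumForm p 1 g 0)
      (rep p 1 δ (fun i => (hδ i).1) (some a))
      = (⇑g ∣[k] (ModularGroup.S * ModularGroup.T ^ (a.val : ℤ))) := by
    intro a
    show SlashInvariantForm.quotientFunc (sumForm p 1 g 0)
      (qmk p 1 (δ * ModularGroup.S * ModularGroup.T ^ (a.val : ℤ))⁻¹ (inv_mem (hδ _).1)) = _
    rw [quotientFunc_qmk, inv_inv, coe_sumForm, SlashAction.add_slash]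
    have hz : ((⇑(0 : ModularForm (Gamma0 1) k) : ℍ → ℂ) ∣[k]
        (δ * ModularGroup.S * ModularGroup.T ^ (a.val : ℤ))) = 0 := by
      rw [FunLike.coe_zero, SlashAction.zero_slash]
    rw [hz, add_zero, mul_assoc, SlashAction.slash_mul, slash_SL_eq g δ hδp]
  rw [h0]
  simp only [h1]
  rw [Pi.add_apply, Finset.sum_apply]
  congr 1
  rw [← Fin.sum_univ_eq_sum_range
    (fun i => (⇑g ∣[k] (ModularGroup.S * ModularGroup.T ^ (i : ℤ))) z) p]
  refine (Fintype.sum_equiv (ZMod.finEquiv p).toEquiv _ _ (fun i => ?_)).symm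
  have hv : (((ZMod.finEquiv p).toEquiv i).val : ℤ) = ((i : ℕ) : ℤ) := by
    have := val_finEquiv p i
    exact_mod_cast this
  rw [hv]

/-- **The trace from level `p` to level one**, as a form on `SL(2, ℤ)`. -/
theorem exists_trace (k : ℤ) (g : ModularForm (Gamma0 p) k) :
    ∃ Φ : ModularForm 𝒮ℒ k, ∀ z : ℍ,
      Φ z = g z + ∑ i ∈ Finset.range p,
          (⇑g ∣[k] (ModularGroup.S * ModularGroup.T ^ (i : ℤ))) z := by
  obtain ⟨Φ₁, hΦ₁⟩ := exists_trace_Gamma0_one p k g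
  obtain ⟨Φ, hΦ⟩ := Fermat.Agent.S16.Miller.exists_levelOne_of_Gamma0_one Φ₁
  exact ⟨Φ, fun z => by rw [← hΦ₁ z, ← hΦ]⟩

/-- **[T1]** In weight `2` the trace to level one vanishes. -/
theorem trace_weight_two (g : ModularForm (Gamma0 p) 2) (z : ℍ) :
    g z + ∑ i ∈ Finset.range p,
      (⇑g ∣[(2 : ℤ)] (ModularGroup.S * ModularGroup.T ^ (i : ℤ))) z = 0 := by
  obtain ⟨Φ, hΦ⟩ := exists_trace p 2 g
  have h0 : Φ = 0 := (rank_zero_iff_forall_zero.mp ModularForm.levelOne_weight_two_rank_zero) Φ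
  rw [← hΦ z, h0]
  rfl

/-- In weight `4` the trace to level one is a multiple of `E₄`. -/
theorem trace_weight_four (g : ModularForm (Gamma0 p) 4) :
    ∃ c : ℂ, ∀ z : ℍ, g z + ∑ i ∈ Finset.range p,
      (⇑g ∣[(4 : ℤ)] (ModularGroup.S * ModularGroup.T ^ (i : ℤ))) z = c * ModularForm.E₄ z := by
  obtain ⟨Φ, hΦ⟩ := exists_trace p 4 g
  obtain ⟨c, hc⟩ : ∃ c, c • ModularForm.E₄ = Φ :=
    (finrank_eq_one_iff_of_nonzero' ModularForm.E₄ (EisensteinSeries.E_ne_zero _ ⟨2, rfl⟩)).mp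
      (Module.rank_eq_one_iff_finrank_eq_one.mp ModularForm.levelOne_weight_four_rank_one) _
  exact ⟨c, fun z => by rw [← hΦ z, ← hc]; rfl⟩

/-- In weight `6` the trace to level one is a multiple of `E₆`. -/
theorem trace_weight_six (g : ModularForm (Gamma0 p) 6) :
    ∃ c : ℂ, ∀ z : ℍ, g z + ∑ i ∈ Finset.range p,
      (⇑g ∣[(6 : ℤ)] (ModularGroup.S * ModularGroup.T ^ (i : ℤ))) z = c * ModularForm.E₆ z := by
  obtain ⟨Φ, hΦ⟩ := exists_trace p 6 g
  obtain ⟨c, hc⟩ : ∃ c, c • ModularForm.E₆ = Φ :=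
    (finrank_eq_one_iff_of_nonzero' ModularForm.E₆ (EisensteinSeries.E_ne_zero _ ⟨3, rfl⟩)).mp
      (Module.rank_eq_one_iff_finrank_eq_one.mp ModularForm.levelOne_weight_six_rank_one) _
  exact ⟨c, fun z => by rw [← hΦ z, ← hc]; rfl⟩

end Fermat.Agent.S16.Trace
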