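import Mathlib
import Fermat.Prelude.Def_ModularForm_HeckeOperatorForms
import Fermat.Prelude.Thm_CongruenceSubgroup_one_mem_strictPeriods_Gamma0
import Fermat.Prelude.Thm_ModularFormClass_qCoeff_heckeU
import Fermat.Agent.S16_TraceLevelOne
import Fermat.Agent.S16_QSeries
import Fermat.Agent.S16_QProd

/-!
# S16 (U3): the weight-4 trace identity (W4) and `U_p² = 1`, from the conjugation formula (K1)

For `G ∈ M₂(Γ₀(p))` assume (K1): `(G|ST^i)(z) = -p⁻¹ (U_p G)((z+i)/p)`.  Then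

* `heckeU_heckeU_of_K1` : `U_p (U_p G) = G`;
* `W4_of_K1` : `p G² + U_p((U_p G)²) = (p+1) a₀(G)² E₄` as `q`-expansions.
-/

set_option autoImplicit false

open UpperHalfPlane CongruenceSubgroup ModularForm
open scoped MatrixGroups ModularForm Manifold

noncomputable section

namespace Fermat.Agent.S16.Trace

open Fermat.Agent.S16.QSeries Fermat.Agent.S16.Norm

variable {p : ℕ} [Fact p.Prime]

theorem one_mem_periods_Gamma0 (N : ℕ) :
    (1 : ℝ) ∈ ((Gamma0 N : Subgroup SL(2, ℤ)) : Subgroup (GL (Fin 2) ℝ)).strictPeriods :=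
  CongruenceSubgroup.one_mem_strictPeriods_Gamma0 N

/-- `q`-expansion of `U_p G` (any weight): `a_n ↦ a_{np}`. -/
theorem qExpansion_heckeU_wt {k : ℤ} (G : ModularForm (Gamma0 p) k) :
    qExpansion 1 (heckeU k p G) = Uq p (qExpansion 1 G) := by
  ext n
  have h := ModularFormClass.qCoeff_heckeU (k := k) G (one_mem_periods_Gamma0 p)
    (Fact.out : p.Prime).ne_zero n
  rw [coeff_Uq]
  exact h

/-- **(W4)** from (K1): `p G² + U((UG)²) = (p + 1) a₀(G)² E₄`. -/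
theorem W4_of_K1 (G : ModularForm (Gamma0 p) 2)
    (hK1 : ∀ (i : ℕ) (z : ℍ),
      ((G : ℍ → ℂ) ∣[(2 : ℤ)] (ModularGroup.S * ModularGroup.T ^ (i : ℤ))) z
        = -(p : ℂ)⁻¹ * heckeU 2 p G (heckeMatrix p i • z)) :
    (p : ℂ) • (qExpansion 1 G) ^ 2 + Uq p ((Uq p (qExpansion 1 G)) ^ 2)
      = (((p : ℂ) + 1) * (PowerSeries.coeff 0 (qExpansion 1 G)) ^ 2) • qExpansion 1 E₄ := by
  have hp : p ≠ 0 := (Fact.out : p.Prime).ne_zero
  have hpC : (p : ℂ) ≠ 0 := Nat.cast_ne_zero.mpr hp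
  have : NeZero p := ⟨hp⟩
  let UG : ModularForm (Gamma0 p) 2 := ModularForm.heckeULin 2 (dvd_refl p) G
  have hUG : (⇑UG : ℍ → ℂ) = heckeU 2 p G := rfl
  let G2 : ModularForm (Gamma0 p) 4 := ModularForm.mcast (by norm_num) (G.mul G)
  have hG2 : (⇑G2 : ℍ → ℂ) = ⇑G * ⇑G := rfl
  let V2 : ModularForm (Gamma0 p) 4 := ModularForm.mcast (by norm_num) (UG.mul UG)
  have hV2 : (⇑V2 : ℍ → ℂ) = heckeU 2 p G * heckeU 2 p G := rfl
  let UV2 : ModularForm (Gamma0 p) 4 := ModularForm.heckeULin 4 (dvd_refl p) V2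
  have hUV2 : (⇑UV2 : ℍ → ℂ) = heckeU 4 p (⇑V2) := rfl
  obtain ⟨c, hc⟩ := trace_weight_four p G2
  -- the identity of functions
  have hfun : (⇑G * ⇑G : ℍ → ℂ) + (p : ℂ)⁻¹ • heckeU 4 p (⇑V2) = c • (⇑E₄ : ℍ → ℂ) := by
    funext z
    have h1 := hc z
    rw [Pi.add_apply, Pi.smul_apply, Pi.smul_apply, smul_eq_mul, smul_eq_mul, ← h1, hG2]
    congr 1
    rw [heckeU_apply 4 hp, hV2, Finset.mul_sum, Finset.mul_sum]
    refine Finset.sum_congr rfl fun i _ => ?_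
    have hmul : ((⇑G * ⇑G : ℍ → ℂ) ∣[(4 : ℤ)] (ModularGroup.S * ModularGroup.T ^ (i : ℤ))) =
        ((⇑G : ℍ → ℂ) ∣[(2 : ℤ)] (ModularGroup.S * ModularGroup.T ^ (i : ℤ))) *
        ((⇑G : ℍ → ℂ) ∣[(2 : ℤ)] (ModularGroup.S * ModularGroup.T ^ (i : ℤ))) :=
      ModularForm.mul_slash_SL2 2 2 (ModularGroup.S * ModularGroup.T ^ (i : ℤ)) (⇑G) (⇑G)
    rw [hmul]
    simp only [Pi.mul_apply]
    rw [hK1 i z]
    ring
  -- `q`-expansions
  have hGQ : IsQ (⇑G : ℍ → ℂ) := IsQ.of_modularForm G (one_mem_periods_Gamma0 p)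
  have hUGQ : IsQ (heckeU 2 p G) := hUG ▸ IsQ.of_modularForm UG (one_mem_periods_Gamma0 p)
  have hUV2Q : IsQ (heckeU 4 p (⇑V2)) :=
    hUV2 ▸ IsQ.of_modularForm UV2 (one_mem_periods_Gamma0 p)
  have hE4Q : IsQ (⇑E₄ : ℍ → ℂ) := IsQ.of_modularForm E₄ one_mem_strictPeriods_SL
  have hQ := congrArg (qExpansion 1) hfun
  rw [qExpansion_add' (hGQ.mul hGQ) (hUV2Q.const_smul _), qExpansion_mul' hGQ hGQ,
    qExpansion_smul' hUV2Q, qExpansion_smul' hE4Q, qExpansion_heckeU_wt V2, hV2,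
    qExpansion_mul' hUGQ hUGQ, qExpansion_heckeU_wt G, ← pow_two, ← pow_two] at hQ
  -- the constant
  have hc0 : c = (PowerSeries.coeff 0 (qExpansion 1 G)) ^ 2
      + (p : ℂ)⁻¹ * (PowerSeries.coeff 0 (qExpansion 1 G)) ^ 2 := by
    have h0 := congrArg (PowerSeries.coeff 0) hQ
    rw [map_add, PowerSeries.coeff_smul, PowerSeries.coeff_smul, coeff_Uq, zero_mul,
      EisensteinSeries.E_qExpansion_coeff_zero _ ⟨2, rfl⟩, smul_eq_mul, smul_eq_mul, mul_one] at h0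
    have h1 : ∀ F : PowerSeries ℂ, PowerSeries.coeff 0 (F ^ 2) = (PowerSeries.coeff 0 F) ^ 2 := by
      intro F
      simp only [PowerSeries.coeff_zero_eq_constantCoeff, map_pow]
    rw [h1, h1, coeff_Uq, zero_mul] at h0
    exact h0.symm
  have hfin : (p : ℂ) • ((qExpansion 1 G) ^ 2 + (p : ℂ)⁻¹ • Uq p ((Uq p (qExpansion 1 G)) ^ 2))
      = (p : ℂ) • (c • qExpansion 1 E₄) := by rw [hQ]
  rw [smul_add, smul_smul, mul_inv_cancel₀ hpC, one_smul, smul_smul] at hfin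
  rw [hfin, hc0]
  congr 1
  field_simp

/-- `U_p (U_p G) = G` on `M₂(Γ₀(p))`, from (K1) and the vanishing of the weight-2 trace. -/
theorem heckeU_heckeU_of_K1 (G : ModularForm (Gamma0 p) 2)
    (hK1 : ∀ (i : ℕ) (z : ℍ),
      ((G : ℍ → ℂ) ∣[(2 : ℤ)] (ModularGroup.S * ModularGroup.T ^ (i : ℤ))) z
        = -(p : ℂ)⁻¹ * heckeU 2 p G (heckeMatrix p i • z)) :
    heckeU 2 p (heckeU 2 p G) = G := by
  have hp : p ≠ 0 := (Fact.out : p.Prime).ne_zero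
  funext z
  have h1 := trace_weight_two p G z
  rw [heckeU_apply 2 hp, Finset.mul_sum]
  have h2 : ∑ i ∈ Finset.range p,
      ((G : ℍ → ℂ) ∣[(2 : ℤ)] (ModularGroup.S * ModularGroup.T ^ (i : ℤ))) z
      = - ∑ i ∈ Finset.range p, (p : ℂ)⁻¹ * heckeU 2 p G (heckeMatrix p i • z) := by
    rw [← Finset.sum_neg_distrib]
    refine Finset.sum_congr rfl fun i _ => ?_
    rw [hK1 i z]
    ring
  rw [h2] at h1
  linear_combination -h1

/-- `U_p² = 1` on the `q`-expansion of `G ∈ M₂(Γ₀(p))`, from (K1). -/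
theorem Uq_Uq_qExpansion_of_K1 (G : ModularForm (Gamma0 p) 2)
    (hK1 : ∀ (i : ℕ) (z : ℍ),
      ((G : ℍ → ℂ) ∣[(2 : ℤ)] (ModularGroup.S * ModularGroup.T ^ (i : ℤ))) z
        = -(p : ℂ)⁻¹ * heckeU 2 p G (heckeMatrix p i • z)) :
    Uq p (Uq p (qExpansion 1 G)) = qExpansion 1 G := by
  have hp : p ≠ 0 := (Fact.out : p.Prime).ne_zero
  have : NeZero p := ⟨hp⟩
  have h1 := qExpansion_heckeU_wt (ModularForm.heckeULin 2 (dvd_refl p) G)
  rw [ModularForm.coe_heckeULin_apply, heckeU_heckeU_of_K1 G hK1, qExpansion_heckeU_wt G] at h1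
  exact h1.symm

end Fermat.Agent.S16.Trace
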