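import Fermat.Agent.S16_TraceMain
import Fermat.Agent.S16_W4

/-!
# S16 (U3): the final statements — `U_p² = 1` and the weight-4 identity (W4) on `M₂(Γ₀(p))`

(K1) `slash_ST_apply` (S16_TraceMain) plugged into `W4_of_K1`, `heckeU_heckeU_of_K1` (S16_W4).
-/

set_option autoImplicit false

open UpperHalfPlane CongruenceSubgroup ModularForm
open scoped MatrixGroups ModularForm Manifold

noncomputable section

namespace Fermat.Agent.S16.Trace

open Fermat.Agent.S16.QSeries

variable {p : ℕ} [Fact p.Prime]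

/-- `U_p² G = G` on `M₂(Γ₀(p))`. -/
theorem heckeU_heckeU (G : ModularForm (Gamma0 p) 2) :
    heckeU 2 p (heckeU 2 p G) = G :=
  heckeU_heckeU_of_K1 G (slash_ST_apply G)

theorem Uq_Uq_qExpansion (G : ModularForm (Gamma0 p) 2) :
    Uq p (Uq p (qExpansion 1 G)) = qExpansion 1 G :=
  Uq_Uq_qExpansion_of_K1 G (slash_ST_apply G)

/-- **(W4)** `p G² + U((UG)²) = (p + 1) a₀(G)² E₄`. -/
theorem W4 (G : ModularForm (Gamma0 p) 2) :
    (p : ℂ) • (qExpansion 1 G) ^ 2 + Uq p ((Uq p (qExpansion 1 G)) ^ 2)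
      = (((p : ℂ) + 1) * (PowerSeries.coeff 0 (qExpansion 1 G)) ^ 2) • qExpansion 1 E₄ :=
  W4_of_K1 G (slash_ST_apply G)

end Fermat.Agent.S16.Trace
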