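import Mathlib
import Fermat.Agent.S24_Places
import Fermat.Agent.RR_Defs

/-!
# S18, WP-C: integral-closure charts of a function field over the line (any base field)

`K` any field, `E / K(h)` finite separable, `h` transcendental over `K`.

* `IsChart K F h e D`: `e` is a `K[h]`-basis of the integral closure of `K[h]` in `E`
  (`F = K(h)`), `D(h)` its discriminant; `exists_isChart`.
* `discOrd K h b`: order at `h = b` of the discriminant (chart independent:
  `IsChart.rootMultiplicity_eq`; local generators: `rootMultiplicity_eq_discOrd_of_local`).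
* `exists_chartPair`: charts at `0` and at `∞` with transition matrices over `K[h, h⁻¹]` and the
  degree identity; `sum_discOrd_le`.
* places: `isIntegral_of_forall_place`, `isAlgebraic_of_forall_ord_nonneg`, `mem_LSpace_iff`.
-/

set_option autoImplicit false
set_option linter.style.haveILetI false

noncomputable section

open Polynomial IntermediateField AlgebraicCurve

namespace Fermat.Agent.S18.Charts

variable {K E : Type*} [Field K] [Field E] [Algebra K E]

structure IsChart (K : Type*) {E : Type*} [Field K] [Field E] [Algebra K E]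
    (F : IntermediateField K E) (h : E) {n : ℕ} (e : Fin n → E) (D : K[X]) : Prop where
  isIntegral : ∀ i, IsIntegral (Algebra.adjoin K {h}) (e i)
  linearIndependent : LinearIndependent F e
  span_eq_top : Submodule.span F (Set.range e) = ⊤
  mem_iff : ∀ x : E, IsIntegral (Algebra.adjoin K {h}) x ↔
    ∃ p : Fin n → K[X], x = ∑ i, aeval h (p i) * e i
  D_ne_zero : D ≠ 0
  discr_eq : algebraMap F E (Algebra.discr F e) = aeval h D

theorem mem_adjoin_iff (h : E) (x : E) : x ∈ Algebra.adjoin K {h} ↔ ∃ p : K[X], aeval h p = x := by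
  rw [Algebra.adjoin_singleton_eq_range_aeval]
  exact Iff.rfl

theorem isIntegral_aeval (h : E) (p : K[X]) : IsIntegral (Algebra.adjoin K {h}) (aeval h p) := by
  have hmem : aeval h p ∈ Algebra.adjoin K {h} := (mem_adjoin_iff h _).mpr ⟨p, rfl⟩
  exact isIntegral_algebraMap (R := Algebra.adjoin K {h}) (x := ⟨aeval h p, hmem⟩)

theorem aeval_mem (F : IntermediateField K E) {x : E} (hx : x ∈ F) (p : K[X]) : aeval x p ∈ F := by
  have h1 : Algebra.adjoin K {x} ≤ F.toSubalgebra :=
    Algebra.adjoin_le (by simpa using hx)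
  exact h1 ((mem_adjoin_iff x _).mpr ⟨p, rfl⟩)

namespace IsChart

variable {F : IntermediateField K E} {x : E} {n : ℕ} {e : Fin n → E} {D : K[X]}

/-- uniqueness of polynomial coordinates -/
theorem coeff_unique (hc : IsChart K F x e D) (hx : Transcendental K x) (hxF : x ∈ F)
    {p q : Fin n → K[X]} (hpq : ∑ i, aeval x (p i) * e i = ∑ i, aeval x (q i) * e i) : p = q := by
  have hli := Fintype.linearIndependent_iff.mp hc.linearIndependent
  have h0 : ∑ i, (⟨aeval x (p i - q i), aeval_mem F hxF _⟩ : F) • e i = 0 := by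
    have : ∀ i, (⟨aeval x (p i - q i), aeval_mem F hxF _⟩ : F) • e i
        = aeval x (p i) * e i - aeval x (q i) * e i := by
      intro i
      rw [IntermediateField.smul_def, smul_eq_mul]
      simp only [map_sub, sub_mul]
    rw [Finset.sum_congr rfl fun i _ => this i, Finset.sum_sub_distrib, hpq, sub_self]
  funext i
  have h1 := hli _ h0 i
  have h2 : aeval x (p i - q i) = 0 := congrArg Subtype.val h1
  have h3 := (transcendental_iff.mp hx) _ h2
  exact sub_eq_zero.mp h3

/-- coordinates of a family of integral elements -/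
theorem exists_matrix (hc : IsChart K F x e D) {m : ℕ} (y : Fin m → E)
    (hy : ∀ l, IsIntegral (Algebra.adjoin K {x}) (y l)) :
    ∃ P : Matrix (Fin n) (Fin m) K[X], ∀ l, y l = ∑ i, aeval x (P i l) * e i := by
  have h1 : ∀ l, ∃ p : Fin n → K[X], y l = ∑ i, aeval x (p i) * e i :=
    fun l => (hc.mem_iff (y l)).mp (hy l)
  choose p hp using h1
  exact ⟨fun i l => p l i, hp⟩

end IsChart

/-- composition of coordinate changes -/
theorem sum_comp (x : E) {n m r : ℕ} (e : Fin n → E) (P : Matrix (Fin n) (Fin m) K[X])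
    (Q : Matrix (Fin m) (Fin r) K[X]) (y : Fin m → E)
    (hy : ∀ i, y i = ∑ k, aeval x (P k i) * e k) (l : Fin r) :
    ∑ i, aeval x (Q i l) * y i = ∑ k, aeval x ((P * Q) k l) * e k := by
  simp only [hy, Finset.mul_sum, Matrix.mul_apply, map_sum, map_mul, Finset.sum_mul]
  rw [Finset.sum_comm]
  refine Finset.sum_congr rfl fun k _ => Finset.sum_congr rfl fun i _ => ?_
  ring

/-- discriminants under a polynomial change of coordinates -/
theorem discr_of_poly_matrix (F : IntermediateField K E) {x : E} (hxF : x ∈ F) {n : ℕ}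
    (e e' : Fin n → E) (P : Matrix (Fin n) (Fin n) K[X])
    (he' : ∀ l, e' l = ∑ i, aeval x (P i l) * e i) :
    algebraMap F E (Algebra.discr F e') = aeval x P.det ^ 2 * algebraMap F E (Algebra.discr F e) := by
  classical
  set g : K[X] →ₐ[K] F := aeval (⟨x, hxF⟩ : F) with hg
  have hgx : ∀ p : K[X], algebraMap F E (g p) = aeval x p := by
    intro p
    rw [hg, ← aeval_algebraMap_apply]
    rfl
  have he'' : e' = Matrix.vecMul e ((P.map g).map (algebraMap F E)) := by
    funext l
    rw [he' l]
    simp only [Matrix.vecMul, dotProduct, Matrix.map_apply, hgx]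
    exact Finset.sum_congr rfl fun i _ => mul_comm _ _
  rw [he'', Algebra.discr_of_matrix_vecMul, map_mul, map_pow]
  congr 2
  rw [← hgx, AlgHom.map_det]
  rfl

/-- two charts (same generator) differ by a constant -/
theorem IsChart.eq_C_mul {F : IntermediateField K E} {x : E} {n : ℕ} {e e' : Fin n → E}
    {D D' : K[X]} (hc : IsChart K F x e D) (hc' : IsChart K F x e' D')
    (hx : Transcendental K x) (hxF : x ∈ F) : ∃ u : K, u ≠ 0 ∧ D' = C u * D := by
  classical
  obtain ⟨P, hP⟩ := hc.exists_matrix e' hc'.isIntegral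
  obtain ⟨Q, hQ⟩ := hc'.exists_matrix e hc.isIntegral
  have hPQ : P * Q = 1 := by
    refine Matrix.ext fun k l => ?_
    have h1 : ∑ k, aeval x ((P * Q) k l) * e k = ∑ k, aeval x ((1 : Matrix (Fin n) (Fin n) K[X]) k l) * e k := by
      rw [← sum_comp x e P Q e' hP l, ← hQ l]
      rw [Finset.sum_eq_single l]
      · simp
      · intro k _ hkl
        simp [Matrix.one_apply_ne hkl]
      · simp
    exact congrFun (hc.coeff_unique hx hxF h1) k
  have hdet : P.det * Q.det = 1 := by rw [← Matrix.det_mul, hPQ, Matrix.det_one]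
  have hunit : IsUnit P.det := IsUnit.of_mul_eq_one _ hdet
  obtain ⟨u, hu, hu'⟩ := Polynomial.isUnit_iff.mp hunit
  refine ⟨u ^ 2, pow_ne_zero 2 hu.ne_zero, ?_⟩
  have h2 := discr_of_poly_matrix F hxF e e' P hP
  rw [hc.discr_eq, hc'.discr_eq, ← hu', ← map_pow, ← map_mul] at h2
  have h3 := (transcendental_iff.mp hx) (D' - (C u) ^ 2 * D) (by rw [map_sub, h2, sub_self])
  rw [map_pow]
  exact sub_eq_zero.mp h3

theorem IsChart.card_eq {F : IntermediateField K E} {x : E} {n n' : ℕ} {e : Fin n → E}
    {e' : Fin n' → E} {D D' : K[X]} (hc : IsChart K F x e D) (hc' : IsChart K F x e' D') :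
    n = n' := by
  have b := Module.Basis.mk hc.linearIndependent hc.span_eq_top.ge
  have b' := Module.Basis.mk hc'.linearIndependent hc'.span_eq_top.ge
  have h1 := Module.finrank_eq_card_basis b
  have h2 := Module.finrank_eq_card_basis b'
  simpa using h1.symm.trans h2

/-- the local discriminant order at `h = b` (`a_b` of the blueprint). -/
def discOrd (K : Type*) {E : Type*} [Field K] [Field E] [Algebra K E] (h : E) (b : K) : ℕ :=
  sInf {m | ∃ (n : ℕ) (e : Fin n → E) (D : K[X]),
    IsChart K (IntermediateField.adjoin K {h}) h e D ∧ D.rootMultiplicity b = m}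

theorem rootMultiplicity_C_mul' {u : K} (hu : u ≠ 0) (D : K[X]) (b : K) :
    (C u * D).rootMultiplicity b = D.rootMultiplicity b := by
  rcases eq_or_ne D 0 with rfl | hD
  · simp
  rw [Polynomial.rootMultiplicity_mul (mul_ne_zero (C_ne_zero.mpr hu) hD),
    Polynomial.rootMultiplicity_C, zero_add]

/-- the local discriminant order does not depend on the chart. -/
theorem IsChart.rootMultiplicity_eq {h : E} (hh : Transcendental K h) {n : ℕ} {e : Fin n → E}
    {D : K[X]} (hc : IsChart K (IntermediateField.adjoin K {h}) h e D) (b : K) :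
    D.rootMultiplicity b = discOrd K h b := by
  have hset : {m | ∃ (n : ℕ) (e : Fin n → E) (D : K[X]),
      IsChart K (IntermediateField.adjoin K {h}) h e D ∧ D.rootMultiplicity b = m}
      = {D.rootMultiplicity b} := by
    ext m
    simp only [Set.mem_ofPred_eq, Set.mem_singleton_iff]
    constructor
    · rintro ⟨n', e', D', hc', rfl⟩
      obtain rfl := hc.card_eq hc'
      obtain ⟨u, hu, rfl⟩ := hc.eq_C_mul hc' hh (mem_adjoin_simple_self K h)
      exact rootMultiplicity_C_mul' hu D b
    · rintro rfl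
      exact ⟨n, e, D, hc, rfl⟩
  rw [discOrd, hset, csInf_singleton]

open IntermediateField algebraAdjoinAdjoin in
theorem exists_isChart_aux (h : E) (hh : Transcendental K h)
    [FiniteDimensional (IntermediateField.adjoin K {h}) E]
    [Algebra.IsSeparable (IntermediateField.adjoin K {h}) E] :
    ∃ (e : Fin (Module.finrank (IntermediateField.adjoin K {h}) E) → E) (D : K[X]),
      IsChart K (IntermediateField.adjoin K {h}) h e D := by
  classical
  haveI := S24.Places.isPrincipalIdealRing_adjoin hh
  have hfin : Module.Finite (Algebra.adjoin K {h}) (integralClosure (Algebra.adjoin K {h}) E) :=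
    IsIntegralClosure.finite (Algebra.adjoin K {h}) (IntermediateField.adjoin K {h}) E _
  haveI := hfin
  have hfree : Module.Free (Algebra.adjoin K {h}) (integralClosure (Algebra.adjoin K {h}) E) :=
    Module.free_of_finite_type_torsion_free'
  haveI := hfree
  let b := Module.Free.chooseBasis (Algebra.adjoin K {h}) (integralClosure (Algebra.adjoin K {h}) E)
  haveI hloc : IsLocalization (Algebra.algebraMapSubmonoid (integralClosure (Algebra.adjoin K {h}) E)
      (nonZeroDivisors (Algebra.adjoin K {h}))) E :=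
    IsIntegralClosure.isLocalization (Algebra.adjoin K {h}) (IntermediateField.adjoin K {h}) E _
  let bK := b.localizationLocalization (IntermediateField.adjoin K {h})
    (nonZeroDivisors (Algebra.adjoin K {h})) E
  have hcard : Fintype.card (Module.Free.ChooseBasisIndex (Algebra.adjoin K {h})
      (integralClosure (Algebra.adjoin K {h}) E)) = Module.finrank (IntermediateField.adjoin K {h}) E :=
    (Module.finrank_eq_card_basis bK).symm
  let eqv := Fintype.equivFinOfCardEq hcard
  let bK' := bK.reindex eqv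
  have hbK' : ∀ i, bK' i = ((b (eqv.symm i) : integralClosure (Algebra.adjoin K {h}) E) : E) := by
    intro i
    simp [bK', bK, Module.Basis.localizationLocalization_apply]
  -- the discriminant
  have hint : ∀ i, IsIntegral (Algebra.adjoin K {h}) (bK' i) := by
    intro i
    rw [hbK']
    exact (b (eqv.symm i)).2
  have hdint : IsIntegral (Algebra.adjoin K {h})
      (Algebra.discr (IntermediateField.adjoin K {h}) bK') :=
    Algebra.discr_isIntegral (IntermediateField.adjoin K {h}) hint
  obtain ⟨a, ha⟩ := (IsIntegrallyClosed.isIntegral_iff (R := Algebra.adjoin K {h})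
    (K := IntermediateField.adjoin K {h})).mp hdint
  obtain ⟨D, hD⟩ := (mem_adjoin_iff h (a : E)).mp a.2
  have hdne : Algebra.discr (IntermediateField.adjoin K {h}) bK' ≠ 0 :=
    Algebra.discr_not_zero_of_basis _ bK'
  refine ⟨fun i => bK' i, D, hint, bK'.linearIndependent, bK'.span_eq, ?_, ?_, ?_⟩
  · intro x
    constructor
    · intro hx
      have hrepr := b.sum_repr ⟨x, hx⟩
      have hc : ∀ i, ∃ p : K[X], aeval h p = ((b.repr ⟨x, hx⟩ i : Algebra.adjoin K {h}) : E) :=
        fun i => (mem_adjoin_iff h _).mp (b.repr ⟨x, hx⟩ i).2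
      choose p hp using hc
      refine ⟨fun i => p (eqv.symm i), ?_⟩
      have h1 := congrArg (fun t : integralClosure (Algebra.adjoin K {h}) E => (t : E)) hrepr
      simp only at h1
      rw [← h1]
      rw [← Equiv.sum_comp eqv.symm]
      simp only [hbK', hp]
      rw [AddSubmonoidClass.coe_finsetSum]
      rfl
    · rintro ⟨p, rfl⟩
      exact IsIntegral.sum _ fun i _ => (isIntegral_aeval h (p i)).mul (hint i)
  · rintro rfl
    apply hdne
    have : ((a : Algebra.adjoin K {h}) : E) = 0 := by rw [← hD]; simp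
    have ha0 : a = 0 := Subtype.ext this
    rw [← ha, ha0, map_zero]
  · rw [hD, ← ha]
    rfl


/-- (C1) existence of a chart: the integral closure of `K[h]` in a finite separable extension
`E` of `K(h)` is free of rank `n = [E : K(h)]` over `K[h]`. -/
theorem exists_isChart (F : IntermediateField K E) (h : E) (hF : F = IntermediateField.adjoin K {h})
    (hh : Transcendental K h) [FiniteDimensional F E] [Algebra.IsSeparable F E] :
    ∃ (e : Fin (Module.finrank F E) → E) (D : K[X]), IsChart K F h e D := by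
  subst hF
  exact exists_isChart_aux h hh

/-- local generators at `h = b` compute the local discriminant order. -/
theorem rootMultiplicity_eq_discOrd_of_local {h : E} (hh : Transcendental K h)
    [FiniteDimensional (IntermediateField.adjoin K {h}) E]
    [Algebra.IsSeparable (IntermediateField.adjoin K {h}) E] (b : K)
    (ε : Fin (Module.finrank (IntermediateField.adjoin K {h}) E) → E)
    (hε : ∀ i, IsIntegral (Algebra.adjoin K {h}) (ε i)) (Dε : K[X])
    (hDε : algebraMap (IntermediateField.adjoin K {h}) E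
      (Algebra.discr (IntermediateField.adjoin K {h}) ε) = aeval h Dε)
    (hloc : ∀ x : E, IsIntegral (Algebra.adjoin K {h}) x → ∃ s : K[X], s.eval b ≠ 0 ∧
      ∃ p : Fin (Module.finrank (IntermediateField.adjoin K {h}) E) → K[X],
        aeval h s * x = ∑ i, aeval h (p i) * ε i) :
    Dε.rootMultiplicity b = discOrd K h b := by
  classical
  obtain ⟨e, D, hc⟩ := exists_isChart_aux h hh
  rw [← hc.rootMultiplicity_eq hh b]
  have hxF := mem_adjoin_simple_self K h
  obtain ⟨P, hP⟩ := hc.exists_matrix ε hε
  have h1 : ∀ i, ∃ s : K[X], s.eval b ≠ 0 ∧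
      ∃ p : Fin (Module.finrank (IntermediateField.adjoin K {h}) E) → K[X],
        aeval h s * e i = ∑ j, aeval h (p j) * ε j := fun i => hloc (e i) (hc.isIntegral i)
  choose s hs q hq using h1
  have hPQ : P * (Matrix.of fun j i => q i j) = Matrix.diagonal s := by
    refine Matrix.ext fun k l => ?_
    have h2 : ∑ k, aeval h ((P * Matrix.of fun j i => q i j) k l) * e k
        = ∑ k, aeval h ((Matrix.diagonal s) k l) * e k := by
      rw [← sum_comp h e P _ ε hP l]
      simp only [Matrix.of_apply]
      rw [← hq l, Finset.sum_eq_single l]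
      · simp
      · intro k _ hkl
        simp [Matrix.diagonal_apply_ne _ hkl]
      · simp
    exact congrFun (hc.coeff_unique hh hxF h2) k
  have hdet : P.det * (Matrix.of fun j i => q i j).det = ∏ i, s i := by
    rw [← Matrix.det_mul, hPQ, Matrix.det_diagonal]
  have hPb : P.det.eval b ≠ 0 := by
    intro h0
    have h5 := congrArg (Polynomial.eval b) hdet
    rw [eval_mul, h0, zero_mul, eval_prod] at h5
    exact (Finset.prod_ne_zero_iff.mpr fun i _ => hs i) h5.symm
  have hP0 : P.det ≠ 0 := fun h0 => hPb (by rw [h0, eval_zero])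
  have h3 := discr_of_poly_matrix _ hxF e ε P hP
  rw [hDε, hc.discr_eq, ← map_pow, ← map_mul] at h3
  have h4 : Dε = P.det ^ 2 * D :=
    sub_eq_zero.mp ((transcendental_iff.mp hh) _ (by rw [map_sub, h3, sub_self]))
  rw [h4, rootMultiplicity_mul (mul_ne_zero (pow_ne_zero 2 hP0) hc.D_ne_zero)]
  have h6 : (P.det ^ 2).rootMultiplicity b = 0 := by
    apply rootMultiplicity_eq_zero
    rw [IsRoot.def, eval_pow]
    exact pow_ne_zero 2 hPb
  rw [h6, zero_add]

/-- an element integral over `K[h⁻¹]` becomes integral over `K[h]` after multiplication by a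
power of `h`. -/
theorem exists_pow_mul_isIntegral (h : E) (hh0 : h ≠ 0) (x : E)
    (hx : IsIntegral (Algebra.adjoin K {h⁻¹}) x) :
    ∃ N : ℕ, IsIntegral (Algebra.adjoin K {h}) (h ^ N * x) := by
  classical
  obtain ⟨P, hPm, hPx⟩ := hx
  have hc : ∀ i, ∃ q : K[X], aeval h⁻¹ q = ((P.coeff i : Algebra.adjoin K {h⁻¹}) : E) :=
    fun i => (mem_adjoin_iff h⁻¹ _).mp (P.coeff i).2
  choose q hq using hc
  set N : ℕ := (Finset.range (P.natDegree + 1)).sup (fun i => (q i).natDegree) with hN
  refine ⟨N, ?_⟩
  letI : Invertible h⁻¹ := ⟨h, mul_inv_cancel₀ hh0, inv_mul_cancel₀ hh0⟩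
  have hcoef : ∀ i, i ≤ P.natDegree →
      h ^ N * ((P.coeff i : Algebra.adjoin K {h⁻¹}) : E) ∈ Algebra.adjoin K {h} := by
    intro i hi
    have hle : (q i).natDegree ≤ N :=
      Finset.le_sup (f := fun i => (q i).natDegree) (Finset.mem_range.mpr (Nat.lt_succ_of_le hi))
    have h1 := eval₂_reflect_mul_pow (algebraMap K E) h⁻¹ N (q i) hle
    change eval₂ (algebraMap K E) h (reflect N (q i)) * h⁻¹ ^ N = _ at h1
    have h2 : h ^ N * ((P.coeff i : Algebra.adjoin K {h⁻¹}) : E)
        = aeval h (reflect N (q i)) := by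
      rw [← hq i, aeval_def, aeval_def, ← h1, mul_comm, mul_assoc, ← mul_pow,
        inv_mul_cancel₀ hh0, one_pow, mul_one]
    rw [h2]
    exact (mem_adjoin_iff h _).mpr ⟨_, rfl⟩
  set PE : E[X] := P.map (algebraMap (Algebra.adjoin K {h⁻¹}) E) with hPE
  have hPEm : PE.Monic := hPm.map _
  have hPEx : aeval x PE = 0 := by
    rw [hPE, aeval_def, eval₂_map]
    simpa using hPx
  have hroot : aeval (h ^ N * x) (scaleRoots PE (h ^ N)) = 0 := by
    have := scaleRoots_aeval_eq_zero (p := PE) (a := x) (r := h ^ N) hPEx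
    simpa using this
  have hdeg : PE.natDegree = P.natDegree :=
    natDegree_map_eq_of_injective (FaithfulSMul.algebraMap_injective _ _) P
  have hlift : scaleRoots PE (h ^ N) ∈ lifts (algebraMap (Algebra.adjoin K {h}) E) := by
    rw [lifts_iff_coeff_lifts]
    intro i
    rw [coeff_scaleRoots, hPE, coeff_map, hdeg]
    rcases lt_trichotomy i P.natDegree with hi | hi | hi
    · have h1 := hcoef i hi.le
      have h2 : (h ^ N) ^ (P.natDegree - i) = h ^ N * (h ^ N) ^ (P.natDegree - i - 1) := by
        rw [← pow_succ']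
        congr 1
        omega
      have h3 : (h ^ N) ^ (P.natDegree - i - 1) ∈ Algebra.adjoin K {h} :=
        pow_mem (pow_mem (Algebra.self_mem_adjoin_singleton K h) _) _
      refine ⟨⟨_, mul_mem h1 h3⟩, ?_⟩
      show h ^ N * algebraMap (Algebra.adjoin K {h⁻¹}) E (P.coeff i) * (h ^ N) ^ (P.natDegree - i - 1) = _
      rw [h2]
      ring
    · refine ⟨1, ?_⟩
      rw [hi, Nat.sub_self, pow_zero, mul_one, map_one]
      have : P.coeff P.natDegree = 1 := hPm
      rw [this, map_one]
    · refine ⟨0, ?_⟩
      rw [coeff_eq_zero_of_natDegree_lt hi, map_zero, map_zero, zero_mul]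
  obtain ⟨Q, hQ, -, hQm⟩ := lifts_and_natDegree_eq_and_monic hlift ((monic_scaleRoots_iff _).mpr hPEm)
  refine ⟨Q, hQm, ?_⟩
  rw [← eval_map, hQ]
  simpa [aeval_def] using hroot

theorem adjoin_inv' (x : E) :
    IntermediateField.adjoin K {x⁻¹} = IntermediateField.adjoin K {x} := by
  apply le_antisymm
  · rw [IntermediateField.adjoin_simple_le_iff]
    exact inv_mem (IntermediateField.mem_adjoin_simple_self K x)
  · rw [IntermediateField.adjoin_simple_le_iff]
    have := inv_mem (IntermediateField.mem_adjoin_simple_self K x⁻¹)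
    rwa [inv_inv] at this

theorem transcendental_inv' {x : E} (hx : Transcendental K x) : Transcendental K x⁻¹ := by
  intro h
  apply hx
  have h' := h.inv
  rwa [inv_inv] at h'

/-- the degree identity behind (Δ) -/
theorem natDegree_add_rootMultiplicity (h : E) (hh : Transcendental K h) (D₀ Di : K[X])
    (hD₀ : D₀ ≠ 0) (hDi : Di ≠ 0) (c : K) (hc : c ≠ 0) (d : ℤ)
    (heq : aeval h⁻¹ Di = (algebraMap K E c * h ^ d) ^ 2 * aeval h D₀) :
    (D₀.natDegree : ℤ) + Di.rootMultiplicity 0 = -2 * d := by
  have hh0 : h ≠ 0 := fun h0 => hh (h0 ▸ isAlgebraic_zero)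
  letI : Invertible h⁻¹ := ⟨h, mul_inv_cancel₀ hh0, inv_mul_cancel₀ hh0⟩
  have h1 := eval₂_reverse_mul_pow (algebraMap K E) h⁻¹ Di
  change eval₂ (algebraMap K E) h Di.reverse * h⁻¹ ^ Di.natDegree = _ at h1
  rw [rootMultiplicity_eq_natTrailingDegree']
  have hrev : (Di.reverse.natDegree : ℤ) = Di.natDegree - Di.natTrailingDegree := by
    rw [reverse_natDegree, Nat.cast_sub (natTrailingDegree_le_natDegree Di)]
  have hrev0 : Di.reverse ≠ 0 := fun h0 => hDi (reverse_eq_zero.mp h0)
  -- aeval h (reverse Di) = c² h^(m+2d) aeval h D₀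
  have h2 : aeval h Di.reverse = algebraMap K E (c ^ 2) * h ^ ((Di.natDegree : ℤ) + 2 * d) * aeval h D₀ := by
    have h3 : aeval h Di.reverse = aeval h⁻¹ Di * h ^ Di.natDegree := by
      rw [aeval_def, aeval_def, ← h1, mul_assoc, ← mul_pow, inv_mul_cancel₀ hh0, one_pow, mul_one]
    have e1 : (h ^ d) ^ 2 = h ^ (2 * d) := by
      rw [← zpow_natCast (h ^ d) 2, ← zpow_mul]
      congr 1
      push_cast
      ring
    have e2 : h ^ ((Di.natDegree : ℤ) + 2 * d) = h ^ Di.natDegree * h ^ (2 * d) := by
      rw [zpow_add₀ hh0, zpow_natCast]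
    rw [h3, heq, e2, mul_pow, e1, map_pow]
    ring
  rcases le_or_gt 0 ((Di.natDegree : ℤ) + 2 * d) with ht | ht
  · obtain ⟨k, hk⟩ := Int.eq_ofNat_of_zero_le ht
    rw [hk, zpow_natCast] at h2
    have h4 : Di.reverse = C (c ^ 2) * X ^ k * D₀ :=
      sub_eq_zero.mp ((transcendental_iff.mp hh) _ (by
        rw [map_sub, h2]; simp [aeval_def]))
    have h5 : Di.reverse.natDegree = k + D₀.natDegree := by
      rw [h4, mul_assoc, natDegree_C_mul (pow_ne_zero 2 hc), natDegree_X_pow_mul (n := k) hD₀, add_comm]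
    have h6 : (Di.reverse.natDegree : ℤ) = k + D₀.natDegree := by exact_mod_cast h5
    omega
  · obtain ⟨k, hk⟩ := Int.eq_ofNat_of_zero_le (neg_nonneg.mpr ht.le)
    have h2' : h ^ k * aeval h Di.reverse = algebraMap K E (c ^ 2) * aeval h D₀ := by
      rw [h2, ← zpow_natCast, ← hk]
      have : h ^ (-((Di.natDegree : ℤ) + 2 * d)) * h ^ ((Di.natDegree : ℤ) + 2 * d) = 1 := by
        rw [← zpow_add₀ hh0]; simp
      calc h ^ (-((Di.natDegree : ℤ) + 2 * d)) *
            (algebraMap K E (c ^ 2) * h ^ ((Di.natDegree : ℤ) + 2 * d) * aeval h D₀)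
          = (h ^ (-((Di.natDegree : ℤ) + 2 * d)) * h ^ ((Di.natDegree : ℤ) + 2 * d)) *
            (algebraMap K E (c ^ 2) * aeval h D₀) := by ring
        _ = _ := by rw [this, one_mul]
    have h4 : X ^ k * Di.reverse = C (c ^ 2) * D₀ :=
      sub_eq_zero.mp ((transcendental_iff.mp hh) _ (by
        rw [map_sub, map_mul, map_mul, map_pow, aeval_X, h2']; simp [aeval_def]))
    have h5 : k + Di.reverse.natDegree = D₀.natDegree := by
      have := congrArg natDegree h4
      rw [natDegree_X_pow_mul (n := k) hrev0, natDegree_C_mul (pow_ne_zero 2 hc)] at this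
      omega
    have h6 : (k : ℤ) + Di.reverse.natDegree = D₀.natDegree := by exact_mod_cast h5
    omega


theorem coe_aeval_gen (h : E) (p : K[X]) :
    algebraMap (IntermediateField.adjoin K {h}) E (aeval (AdjoinSimple.gen K h) p) = aeval h p := by
  rw [← aeval_algebraMap_apply]
  rfl

theorem coe_aeval_gen_inv (h : E) (p : K[X]) :
    algebraMap (IntermediateField.adjoin K {h}) E (aeval (AdjoinSimple.gen K h)⁻¹ p)
      = aeval h⁻¹ p := by
  rw [← aeval_algebraMap_apply, map_inv₀]
  rfl

theorem aeval_mem_adjoin_pair {F : Type*} [Field F] [Algebra K F] (g : F) (p : K[X]) :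
    aeval g p ∈ Algebra.adjoin K {g, g⁻¹} :=
  Algebra.adjoin_mono (by simp) (Polynomial.aeval_mem_adjoin_singleton K g)

theorem aeval_inv_mem_adjoin_pair {F : Type*} [Field F] [Algebra K F] (g : F) (p : K[X]) :
    aeval g⁻¹ p ∈ Algebra.adjoin K {g, g⁻¹} :=
  Algebra.adjoin_mono (by simp) (Polynomial.aeval_mem_adjoin_singleton K g⁻¹)

/-- the degree identity for two charts and their transition matrix -/
theorem IsChart.natDegree_add {h : E} (hh : Transcendental K h)
    {n : ℕ} {e e' : Fin n → E} {D₀ Di : K[X]}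
    (hc : IsChart K (IntermediateField.adjoin K {h}) h e D₀)
    (hc' : IsChart K (IntermediateField.adjoin K {h}) h⁻¹ e' Di)
    (T : Matrix (Fin n) (Fin n) (IntermediateField.adjoin K {h}))
    (hT : ∀ l, e' l = ∑ i, T i l • e i) (c : K) (d : ℤ) (hc0 : c ≠ 0)
    (hdet : T.det = algebraMap K (IntermediateField.adjoin K {h}) c * (AdjoinSimple.gen K h) ^ d) :
    (D₀.natDegree : ℤ) + Di.rootMultiplicity 0 = -2 * d := by
  classical
  have hdisc := Algebra.discr_of_matrix_vecMul e T
  have he'v : e' = Matrix.vecMul e (T.map (algebraMap (IntermediateField.adjoin K {h}) E)) := by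
    funext l
    rw [hT l]
    simp only [Matrix.vecMul, dotProduct, Matrix.map_apply]
    exact Finset.sum_congr rfl fun i _ => by rw [Algebra.smul_def, mul_comm]
  rw [← he'v] at hdisc
  have h3 : aeval h⁻¹ Di = (algebraMap K E c * h ^ d) ^ 2 * aeval h D₀ := by
    rw [← hc'.discr_eq, hdisc, map_mul, map_pow, hc.discr_eq, hdet, map_mul, map_zpow₀]
    congr 2
  exact natDegree_add_rootMultiplicity h hh D₀ Di hc.D_ne_zero hc'.D_ne_zero c hc0 d h3

/-- (C2)+(Δ) the two charts at `0` and `∞` and their transition matrix. -/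
theorem exists_chartPair (h : E) (hh : Transcendental K h)
    [FiniteDimensional (IntermediateField.adjoin K {h}) E]
    [Algebra.IsSeparable (IntermediateField.adjoin K {h}) E] :
    ∃ (e e' : Fin (Module.finrank (IntermediateField.adjoin K {h}) E) → E)
      (T T' : Matrix (Fin (Module.finrank (IntermediateField.adjoin K {h}) E))
        (Fin (Module.finrank (IntermediateField.adjoin K {h}) E)) (IntermediateField.adjoin K {h}))
      (D₀ Di : K[X]),
      IsChart K (IntermediateField.adjoin K {h}) h e D₀ ∧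
      IsChart K (IntermediateField.adjoin K {h}) h⁻¹ e' Di ∧
      (∀ i l, T i l ∈ Algebra.adjoin K {AdjoinSimple.gen K h, (AdjoinSimple.gen K h)⁻¹}) ∧
      (∀ i l, T' i l ∈ Algebra.adjoin K {AdjoinSimple.gen K h, (AdjoinSimple.gen K h)⁻¹}) ∧
      T * T' = 1 ∧ (∀ l, e' l = ∑ i, T i l • e i) ∧
      ∀ (c : K) (d : ℤ), c ≠ 0 →
        T.det = algebraMap K (IntermediateField.adjoin K {h}) c * (AdjoinSimple.gen K h) ^ d →
        (D₀.natDegree : ℤ) + Di.rootMultiplicity 0 = -2 * d := by
  classical
  have hh0 : h ≠ 0 := fun h0 => hh (h0 ▸ isAlgebraic_zero)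
  obtain ⟨e, D₀, hc⟩ := exists_isChart (IntermediateField.adjoin K {h}) h rfl hh
  obtain ⟨e', Di, hc'⟩ := exists_isChart (IntermediateField.adjoin K {h}) h⁻¹
    (adjoin_inv' h).symm (transcendental_inv' hh)
  set g := AdjoinSimple.gen K h with hg
  have hgE : algebraMap (IntermediateField.adjoin K {h}) E g = h := AdjoinSimple.algebraMap_gen K h
  let bE := Module.Basis.mk hc.linearIndependent hc.span_eq_top.ge
  let bE' := Module.Basis.mk hc'.linearIndependent hc'.span_eq_top.ge
  have hbE : ∀ i, bE i = e i := fun i => Module.Basis.mk_apply _ _ i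
  have hbE' : ∀ i, bE' i = e' i := fun i => Module.Basis.mk_apply _ _ i
  have huniq : ∀ (y : E) (c : Fin (Module.finrank (IntermediateField.adjoin K {h}) E) →
      IntermediateField.adjoin K {h}), y = ∑ i, c i • e i → ∀ i, bE.repr y i = c i := by
    intro y c hy i
    have h1 := bE.repr_sum_self c
    simp only [hbE] at h1
    rw [hy, h1]
  have huniq' : ∀ (y : E) (c : Fin (Module.finrank (IntermediateField.adjoin K {h}) E) →
      IntermediateField.adjoin K {h}), y = ∑ i, c i • e' i → ∀ i, bE'.repr y i = c i := by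
    intro y c hy i
    have h1 := bE'.repr_sum_self c
    simp only [hbE'] at h1
    rw [hy, h1]
  have hsum : ∀ y : E, y = ∑ i, bE.repr y i • e i := by
    intro y
    conv_lhs => rw [← bE.sum_repr y]
    simp only [hbE]
  have hsum' : ∀ y : E, y = ∑ i, bE'.repr y i • e' i := by
    intro y
    conv_lhs => rw [← bE'.sum_repr y]
    simp only [hbE']
  refine ⟨e, e', fun i l => bE.repr (e' l) i, fun i l => bE'.repr (e l) i, D₀, Di, hc, hc',
    ?_, ?_, ?_, fun l => hsum (e' l), ?_⟩
  · intro i l
    obtain ⟨N, hN⟩ := exists_pow_mul_isIntegral h hh0 (e' l) (hc'.isIntegral l)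
    obtain ⟨p, hp⟩ := (hc.mem_iff _).mp hN
    have h1 : e' l = ∑ i, (g⁻¹ ^ N * aeval g (p i)) • e i := by
      have h2 : e' l = h⁻¹ ^ N * (h ^ N * e' l) := by
        rw [← mul_assoc, ← mul_pow, inv_mul_cancel₀ hh0, one_pow, one_mul]
      rw [h2, hp, Finset.mul_sum]
      refine Finset.sum_congr rfl fun i _ => ?_
      rw [Algebra.smul_def, map_mul, map_pow, map_inv₀, hgE, coe_aeval_gen]
      ring
    show bE.repr (e' l) i ∈ _
    rw [huniq _ _ h1 i]
    exact mul_mem (pow_mem (Algebra.subset_adjoin (by simp)) _) (aeval_mem_adjoin_pair g _)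
  · intro i l
    have hint : IsIntegral (Algebra.adjoin K {h⁻¹⁻¹}) (e l) := by
      rw [inv_inv]; exact hc.isIntegral l
    obtain ⟨N, hN⟩ := exists_pow_mul_isIntegral h⁻¹ (inv_ne_zero hh0) (e l) hint
    obtain ⟨p, hp⟩ := (hc'.mem_iff _).mp hN
    have h1 : e l = ∑ i, (g ^ N * aeval g⁻¹ (p i)) • e' i := by
      have h2 : e l = h ^ N * (h⁻¹ ^ N * e l) := by
        rw [← mul_assoc, ← mul_pow, mul_inv_cancel₀ hh0, one_pow, one_mul]
      rw [h2, hp, Finset.mul_sum]
      refine Finset.sum_congr rfl fun i _ => ?_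
      rw [Algebra.smul_def, map_mul, map_pow, hgE, coe_aeval_gen_inv]
      ring
    show bE'.repr (e l) i ∈ _
    rw [huniq' _ _ h1 i]
    exact mul_mem (pow_mem (Algebra.subset_adjoin (by simp)) _) (aeval_inv_mem_adjoin_pair g _)
  · refine Matrix.ext fun i k => ?_
    rw [Matrix.mul_apply]
    have h1 : e k = ∑ i, (∑ l, bE.repr (e' l) i * bE'.repr (e k) l) • e i := by
      conv_lhs => rw [hsum' (e k)]
      have h2 : ∀ l, bE'.repr (e k) l • e' l
          = ∑ i, (bE.repr (e' l) i * bE'.repr (e k) l) • e i := by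
        intro l
        conv_lhs => rw [hsum (e' l), Finset.smul_sum]
        refine Finset.sum_congr rfl fun i _ => ?_
        rw [smul_smul, mul_comm]
      rw [Finset.sum_congr rfl fun l _ => h2 l, Finset.sum_comm]
      refine Finset.sum_congr rfl fun i _ => ?_
      rw [Finset.sum_smul]
    have h3 := huniq _ _ h1 i
    rw [← h3, ← hbE k, bE.repr_self, Finsupp.single_apply, Matrix.one_apply]
    simp only [eq_comm]
  · intro c d hc0 hdet
    exact hc.natDegree_add hh hc' _ (fun l => hsum (e' l)) c d hc0 hdet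

theorem sum_rootMultiplicity_le_natDegree (D : K[X]) (B : Finset K) :
    ∑ b ∈ B, D.rootMultiplicity b ≤ D.natDegree := by
  classical
  have h0 : ∀ b, D.rootMultiplicity b = D.roots.count b := fun b => (count_roots D).symm
  rw [Finset.sum_congr rfl fun b _ => h0 b]
  have h1 : ∑ b ∈ B, D.roots.count b ≤ ∑ b ∈ B ∪ D.roots.toFinset, D.roots.count b :=
    Finset.sum_le_sum_of_subset Finset.subset_union_left
  have h2 : ∑ b ∈ D.roots.toFinset, D.roots.count b = ∑ b ∈ B ∪ D.roots.toFinset, D.roots.count b :=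
    Finset.sum_subset Finset.subset_union_right
      (fun b _ hb => Multiset.count_eq_zero.mpr (by simpa using hb))
  rw [← h2, Multiset.toFinset_sum_count_eq] at h1
  exact h1.trans (card_roots' D)

/-- (Δ): `∑_{b ∈ B} a_b + a_∞ ≤ -2d`. -/
theorem sum_discOrd_le (h : E) (hh : Transcendental K h)
    {n : ℕ} {e e' : Fin n → E} {D₀ Di : K[X]}
    (hc : IsChart K (IntermediateField.adjoin K {h}) h e D₀)
    (hc' : IsChart K (IntermediateField.adjoin K {h}) h⁻¹ e' Di)
    (T : Matrix (Fin n) (Fin n) (IntermediateField.adjoin K {h}))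
    (hT : ∀ l, e' l = ∑ i, T i l • e i) (c : K) (d : ℤ) (hc0 : c ≠ 0)
    (hdet : T.det = algebraMap K (IntermediateField.adjoin K {h}) c * (AdjoinSimple.gen K h) ^ d)
    (B : Finset K) :
    (∑ b ∈ B, (discOrd K h b : ℤ)) + discOrd K h⁻¹ 0 ≤ -2 * d := by
  have h1 := hc.natDegree_add hh hc' T hT c d hc0 hdet
  have hc'' : IsChart K (IntermediateField.adjoin K {h⁻¹}) h⁻¹ e' Di := by
    rw [adjoin_inv']; exact hc'
  rw [← hc''.rootMultiplicity_eq (transcendental_inv' hh) 0,
    Finset.sum_congr rfl fun b _ => by rw [← hc.rootMultiplicity_eq hh b]]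
  have h2 := sum_rootMultiplicity_le_natDegree D₀ B
  have h3 : (∑ b ∈ B, (D₀.rootMultiplicity b : ℤ)) ≤ D₀.natDegree := by exact_mod_cast h2
  omega


section Places

open IntermediateField algebraAdjoinAdjoin in
theorem isIntegral_of_forall_place (h : E) (hh : Transcendental K h)
    [FiniteDimensional (IntermediateField.adjoin K {h}) E]
    [Algebra.IsSeparable (IntermediateField.adjoin K {h}) E] (y : E)
    (hy : ∀ v : Place K E, h ∈ v.toValuationSubring → y ∈ v.toValuationSubring) :
    IsIntegral (Algebra.adjoin K {h}) y := by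
  haveI := S24.Places.isPrincipalIdealRing_adjoin hh
  haveI hD : IsDedekindDomain (integralClosure (Algebra.adjoin K {h}) E) :=
    integralClosure.isDedekindDomain (Algebra.adjoin K {h}) (IntermediateField.adjoin K {h}) E
  haveI hFr : IsFractionRing (integralClosure (Algebra.adjoin K {h}) E) E :=
    integralClosure.isFractionRing_of_finite_extension (IntermediateField.adjoin K {h}) E
  have hmem : y ∈ (algebraMap (integralClosure (Algebra.adjoin K {h}) E) E).range := by
    apply IsDedekindDomain.HeightOneSpectrum.mem_integers_of_valuation_le_one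
    intro w
    have hh' : h ∈ (Place.ofHeightOneSpectrum (K := K) (F := E) w).toValuationSubring := by
      rw [S24.Places.mem_ofHeightOneSpectrum_iff]
      exact w.valuation_le_one
        (⟨h, isIntegral_algebraMap (R := Algebra.adjoin K {h})
          (x := ⟨h, Algebra.self_mem_adjoin_singleton K h⟩)⟩ :
          integralClosure (Algebra.adjoin K {h}) E)
    exact (S24.Places.mem_ofHeightOneSpectrum_iff (K := K) w y).mp
      (hy (Place.ofHeightOneSpectrum (K := K) w) hh')
  obtain ⟨t, rfl⟩ := hmem
  exact t.2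

/-- (T1, char-free) no poles at the places where `h` is regular ⇒ integral over `K[h]`.
(`F` is a parameter with `hF` so that the same field serves `h` and `h⁻¹`.) -/
theorem isIntegral_of_forall_place' (F : IntermediateField K E) (h : E)
    (hF : F = IntermediateField.adjoin K {h}) (hh : Transcendental K h)
    [FiniteDimensional F E] [Algebra.IsSeparable F E] (y : E)
    (hy : ∀ v : Place K E, h ∈ v.toValuationSubring → y ∈ v.toValuationSubring) :
    IsIntegral (Algebra.adjoin K {h}) y := by
  subst hF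
  exact isIntegral_of_forall_place h hh y hy

open IntermediateField algebraAdjoinAdjoin in
theorem minpoly_coeff_aux (h : E) (hh : Transcendental K h)
    [FiniteDimensional (IntermediateField.adjoin K {h}) E] (f : E)
    (hf : IsIntegral (Algebra.adjoin K {h}) f) (i : ℕ) :
    ∃ p : K[X], algebraMap (IntermediateField.adjoin K {h}) E
      ((minpoly (IntermediateField.adjoin K {h}) f).coeff i) = aeval h p := by
  haveI := S24.Places.isPrincipalIdealRing_adjoin hh
  rw [minpoly.isIntegrallyClosed_eq_field_fractions' (IntermediateField.adjoin K {h}) hf, coeff_map]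
  obtain ⟨p, hp⟩ := (mem_adjoin_iff h _).mp ((minpoly (Algebra.adjoin K {h}) f).coeff i).2
  exact ⟨p, hp.symm⟩

theorem minpoly_coeff (F : IntermediateField K E) (h : E)
    (hF : F = IntermediateField.adjoin K {h}) (hh : Transcendental K h)
    [FiniteDimensional F E] (f : E)
    (hf : IsIntegral (Algebra.adjoin K {h}) f) (i : ℕ) :
    ∃ p : K[X], algebraMap F E ((minpoly F f).coeff i) = aeval h p := by
  subst hF
  exact minpoly_coeff_aux h hh f hf i

/-- `K[h] ∩ K[h⁻¹] = K` -/
theorem exists_algebraMap_eq_of_aeval_eq (h : E) (hh : Transcendental K h) (p q : K[X])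
    (hpq : aeval h p = aeval h⁻¹ q) : ∃ c : K, aeval h p = algebraMap K E c := by
  have hh0 : h ≠ 0 := fun h0 => hh (h0 ▸ isAlgebraic_zero)
  letI : Invertible h⁻¹ := ⟨h, mul_inv_cancel₀ hh0, inv_mul_cancel₀ hh0⟩
  have h1 := eval₂_reverse_mul_pow (algebraMap K E) h⁻¹ q
  change eval₂ (algebraMap K E) h q.reverse * h⁻¹ ^ q.natDegree = _ at h1
  have h2 : aeval h q.reverse = aeval h (p * X ^ q.natDegree) := by
    rw [map_mul, map_pow, aeval_X, hpq, aeval_def, aeval_def, ← h1, mul_assoc, ← mul_pow,
      inv_mul_cancel₀ hh0, one_pow, mul_one]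
  have h3 : q.reverse = p * X ^ q.natDegree :=
    sub_eq_zero.mp ((transcendental_iff.mp hh) _ (by rw [map_sub, h2, sub_self]))
  rcases eq_or_ne p 0 with rfl | hp
  · exact ⟨0, by simp⟩
  have h4 : p.natDegree + q.natDegree ≤ q.natDegree := by
    have := reverse_natDegree_le q
    rwa [h3, natDegree_mul_X_pow _ hp] at this
  have h5 : p.natDegree = 0 := by omega
  refine ⟨p.coeff 0, ?_⟩
  conv_lhs => rw [eq_C_of_natDegree_eq_zero h5]
  simp

/-- integral over `K[h]` and over `K[h⁻¹]` ⇒ algebraic over `K`. -/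
theorem isAlgebraic_of_isIntegral_of_isIntegral_inv (h : E) (hh : Transcendental K h)
    [FiniteDimensional (IntermediateField.adjoin K {h}) E] (f : E)
    (h0 : IsIntegral (Algebra.adjoin K {h}) f) (hinf : IsIntegral (Algebra.adjoin K {h⁻¹}) f) :
    IsAlgebraic K f := by
  set F := IntermediateField.adjoin K {h} with hFdef
  have hfF : IsIntegral F f := IsIntegral.of_finite F f
  have hcoef : ∀ i, ∃ c : K, (minpoly F f).coeff i = algebraMap K F c := by
    intro i
    obtain ⟨p, hp⟩ := minpoly_coeff F h rfl hh f h0 i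
    obtain ⟨q, hq⟩ := minpoly_coeff F h⁻¹ (adjoin_inv' h).symm (transcendental_inv' hh) f hinf i
    obtain ⟨c, hc⟩ := exists_algebraMap_eq_of_aeval_eq h hh p q (hp.symm.trans hq)
    refine ⟨c, ?_⟩
    apply (algebraMap F E).injective
    rw [hp, hc]
    rfl
  have hlift : minpoly F f ∈ lifts (algebraMap K F) := by
    rw [lifts_iff_coeff_lifts]
    intro i
    obtain ⟨c, hc⟩ := hcoef i
    exact ⟨c, hc.symm⟩
  obtain ⟨g, hg⟩ := hlift
  refine ⟨g, ?_, ?_⟩
  · rintro rfl
    rw [Polynomial.coe_mapRingHom, Polynomial.map_zero] at hg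
    exact minpoly.ne_zero hfF hg.symm
  · have h1 : aeval f (minpoly F f) = 0 := minpoly.aeval F f
    rw [← hg, Polynomial.coe_mapRingHom, aeval_def, eval₂_map, ← IsScalarTower.algebraMap_eq] at h1
    exact h1

/-- "div f = 0 ⇒ f constant" (char-free): an element without poles is algebraic over `K`. -/
theorem isAlgebraic_of_forall_ord_nonneg (h : E) (hh : Transcendental K h)
    [FiniteDimensional (IntermediateField.adjoin K {h}) E]
    [Algebra.IsSeparable (IntermediateField.adjoin K {h}) E] (f : E)
    (hf : ∀ v : Place K E, 0 ≤ v.ord f) : IsAlgebraic K f := by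
  have hmem : ∀ v : Place K E, f ∈ v.toValuationSubring :=
    fun v => S24.Places.mem_of_ord_nonneg v (hf v)
  exact isAlgebraic_of_isIntegral_of_isIntegral_inv h hh f
    (isIntegral_of_forall_place' _ h rfl hh f fun v _ => hmem v)
    (isIntegral_of_forall_place' _ h⁻¹ (adjoin_inv' h).symm (transcendental_inv' hh) f
      fun v _ => hmem v)

/-- elements integral over `K[h]` are regular at every place where `h` is regular. -/
theorem mem_of_isIntegral (h : E) (v : Place K E) (hv : h ∈ v.toValuationSubring) (y : E)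
    (hy : IsIntegral (Algebra.adjoin K {h}) y) : y ∈ v.toValuationSubring :=
  S24.Places.intRing_mem v hv ⟨y, hy⟩

/-- dictionary: `R₀ ∩ h^j R_∞ = L(j·H_∞)`, `H_∞` the pole divisor of `h`. -/
theorem mem_LSpace_iff (h : E) (hh : Transcendental K h)
    [FiniteDimensional (IntermediateField.adjoin K {h}) E]
    [Algebra.IsSeparable (IntermediateField.adjoin K {h}) E]
    (H : Divisor K E) (hH : ∀ v : Place K E, H v = max 0 (-(v.ord h))) (j : ℤ) (f : E) :
    f ∈ RR.LSpace K E (j • H) ↔
      IsIntegral (Algebra.adjoin K {h}) f ∧ IsIntegral (Algebra.adjoin K {h⁻¹}) (f * h ^ (-j)) := by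
  have hh0 : h ≠ 0 := fun h0 => hh (h0 ▸ isAlgebraic_zero)
  rcases eq_or_ne f 0 with rfl | hf0
  · simp only [zero_mul]
    exact ⟨fun _ => ⟨isIntegral_zero, isIntegral_zero⟩, fun _ => Submodule.zero_mem _⟩
  have hfj0 : f * h ^ (-j) ≠ 0 := mul_ne_zero hf0 (zpow_ne_zero _ hh0)
  have hordfj : ∀ v : Place K E, v.ord (f * h ^ (-j)) = v.ord f - j * v.ord h := by
    intro v
    rw [v.ord_mul hf0 (zpow_ne_zero _ hh0), v.ord_zpow]
    ring
  have hDv : ∀ v : Place K E, (j • H) v = j * H v := fun v => by
    rw [Finsupp.smul_apply, smul_eq_mul]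
  rw [RR.mem_LSpace]
  constructor
  · intro hf
    have hf' := hf.resolve_left hf0
    constructor
    · refine isIntegral_of_forall_place' _ h rfl hh f fun v hv => ?_
      have h1 := (S24.Places.mem_iff_ord_nonneg v).mp hv
      have h2 := hf' v
      rw [hDv, hH, max_eq_left (by omega), mul_zero, add_zero] at h2
      exact S24.Places.mem_of_ord_nonneg v h2
    · refine isIntegral_of_forall_place' _ h⁻¹ (adjoin_inv' h).symm (transcendental_inv' hh) _
        fun v hv => ?_
      have h1 := (S24.Places.mem_iff_ord_nonneg v).mp hv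
      rw [v.ord_inv] at h1
      have h2 := hf' v
      rw [hDv, hH, max_eq_right (by omega)] at h2
      apply S24.Places.mem_of_ord_nonneg v
      rw [hordfj]
      linarith
  · rintro ⟨h1, h2⟩
    refine Or.inr fun v => ?_
    rw [hDv, hH]
    rcases le_or_gt 0 (v.ord h) with hv | hv
    · have h3 := mem_of_isIntegral h v (S24.Places.mem_of_ord_nonneg v hv) f h1
      have h4 := (S24.Places.mem_iff_ord_nonneg v).mp h3
      rw [max_eq_left (by omega), mul_zero, add_zero]
      exact h4
    · have hv' : h⁻¹ ∈ v.toValuationSubring := by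
        apply S24.Places.mem_of_ord_nonneg v
        rw [v.ord_inv]
        omega
      have h3 := mem_of_isIntegral h⁻¹ v hv' _ h2
      have h4 := (S24.Places.mem_iff_ord_nonneg v).mp h3
      rw [hordfj] at h4
      rw [max_eq_right (by omega)]
      linarith

end Places

end Fermat.Agent.S18.Charts
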