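import Mathlib
import Fermat.Prelude.Def_ModularCurve_ReductionModL

/-!
# S18, WP-I, Step 0: normalisation

Let `z = [D]` be a class of `J₀(N)(ℚ̄)` with `m • z = 0` and trivial reduction.  Then there is a
function `u` of the function field with
* `u = a / s` for Laurent series `a, s` with coefficients in the valuation ring whose reductions
  are equal and nonzero ("`u` lies in the Gauss ring and reduces to `1`");
* `m ∣ ord_P u` at every place;
* if `u` is an `m`-th power in the function field, then `z = 0`.
-/

set_option autoImplicit false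
set_option linter.unusedSectionVars false
set_option linter.unusedVariables false

noncomputable section

open HahnSeries IntermediateField AlgebraicCurve ModularCurve

namespace Fermat.Agent.S18.Step0

section Along

variable {L : Type*} [Field L] [Algebra ℚ L] {A : ValuationSubring L}
variable {k : Type*} [Field k] {π : A →+* k} {N : ℕ}

/-- a series with nonzero reduction is nonzero. -/
theorem ne_zero_of_coeffMap_ne_zero {R S : Type*} [CommRing R] [CommRing S] (f : R →+* S)
    {a : LaurentSeries R} (h : coeffMap f a ≠ 0) : a ≠ 0 := by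
  rintro rfl
  exact h (map_zero _)

theorem coeffMap_injective {R S : Type*} [CommRing R] [CommRing S] (f : R →+* S)
    (hf : Function.Injective f) : Function.Injective (coeffMap f) := by
  intro a b hab
  ext n
  have h := congrArg (fun x : LaurentSeries S => x.coeff n) hab
  simp only [coeffMap_coeff] at h
  exact hf h

theorem coeffMap_subtype_ne_zero {a : LaurentSeries A} (h : a ≠ 0) :
    coeffMap A.subtype a ≠ 0 := by
  intro h0
  exact h (coeffMap_injective A.subtype Subtype.val_injective (h0.trans (map_zero _).symm))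

variable (r : Place L (laurentBaseChange L (modularFunctionFieldFull N)) →
  Place k (modularFunctionFieldFullC k N))

/-- `E` is the divisor of a quotient `a / s` of integral series with nonzero reductions, and its
reduction is the divisor of the quotient of the reductions. -/
def IntRep (E : Divisor L (laurentBaseChange L (modularFunctionFieldFull N))) : Prop :=
  ∃ (a s : LaurentSeries A)
    (ha : coeffMap A.subtype a ∈ laurentBaseChange L (modularFunctionFieldFull N))
    (hs : coeffMap A.subtype s ∈ laurentBaseChange L (modularFunctionFieldFull N))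
    (hak : coeffMap π a ∈ modularFunctionFieldFullC k N)
    (hsk : coeffMap π s ∈ modularFunctionFieldFullC k N),
    coeffMap π a ≠ 0 ∧ coeffMap π s ≠ 0 ∧
    (∀ P, E P = P.ord (⟨coeffMap A.subtype a, ha⟩ :
        laurentBaseChange L (modularFunctionFieldFull N))
      - P.ord (⟨coeffMap A.subtype s, hs⟩ : laurentBaseChange L (modularFunctionFieldFull N))) ∧
    (∀ Q, Finsupp.mapDomain r E Q = Q.ord (⟨coeffMap π a, hak⟩ : modularFunctionFieldFullC k N)
      - Q.ord (⟨coeffMap π s, hsk⟩ : modularFunctionFieldFullC k N))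

variable {r}

theorem intRep_zero : IntRep (A := A) (π := π) r 0 := by
  refine ⟨1, 1, by rw [map_one]; exact one_mem _, by rw [map_one]; exact one_mem _,
    by rw [map_one]; exact one_mem _, by rw [map_one]; exact one_mem _,
    by rw [map_one]; exact one_ne_zero, by rw [map_one]; exact one_ne_zero, fun P => ?_, fun Q => ?_⟩
  · rw [sub_self]; rfl
  · rw [sub_self, Finsupp.mapDomain_zero]; rfl

theorem intRep_neg {E : Divisor L (laurentBaseChange L (modularFunctionFieldFull N))}
    (h : IntRep (A := A) (π := π) r E) : IntRep (A := A) (π := π) r (-E) := by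
  obtain ⟨a, s, ha, hs, hak, hsk, ha0, hs0, hE, hrE⟩ := h
  refine ⟨s, a, hs, ha, hsk, hak, hs0, ha0, fun P => ?_, fun Q => ?_⟩
  · rw [Finsupp.neg_apply, hE P]; ring
  · rw [← Finsupp.mapDomain.addMonoidHom_apply, map_neg, Finsupp.mapDomain.addMonoidHom_apply,
      Finsupp.neg_apply, hrE Q]; ring

theorem intRep_add {E E' : Divisor L (laurentBaseChange L (modularFunctionFieldFull N))}
    (h : IntRep (A := A) (π := π) r E) (h' : IntRep (A := A) (π := π) r E') :
    IntRep (A := A) (π := π) r (E + E') := by
  obtain ⟨a, s, ha, hs, hak, hsk, ha0, hs0, hE, hrE⟩ := h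
  obtain ⟨a', s', ha', hs', hak', hsk', ha0', hs0', hE', hrE'⟩ := h'
  have e1 : ∀ {x y : LaurentSeries A}
      (hx : coeffMap A.subtype x ∈ laurentBaseChange L (modularFunctionFieldFull N))
      (hy : coeffMap A.subtype y ∈ laurentBaseChange L (modularFunctionFieldFull N))
      (hxy : coeffMap A.subtype (x * y) ∈ laurentBaseChange L (modularFunctionFieldFull N)),
      coeffMap π x ≠ 0 → coeffMap π y ≠ 0 →
      ∀ P : Place L (laurentBaseChange L (modularFunctionFieldFull N)),
      P.ord (⟨coeffMap A.subtype (x * y), hxy⟩ : laurentBaseChange L (modularFunctionFieldFull N))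
        = P.ord (⟨coeffMap A.subtype x, hx⟩ : laurentBaseChange L (modularFunctionFieldFull N))
        + P.ord (⟨coeffMap A.subtype y, hy⟩ :
          laurentBaseChange L (modularFunctionFieldFull N)) := by
    intro x y hx hy hxy hx0 hy0 P
    have h1 : (⟨coeffMap A.subtype (x * y), hxy⟩ :
        laurentBaseChange L (modularFunctionFieldFull N))
        = ⟨coeffMap A.subtype x, hx⟩ * ⟨coeffMap A.subtype y, hy⟩ :=
      Subtype.ext (map_mul _ _ _)
    rw [h1]
    exact P.ord_mul
      (fun h => coeffMap_subtype_ne_zero (ne_zero_of_coeffMap_ne_zero π hx0)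
        (congrArg Subtype.val h))
      (fun h => coeffMap_subtype_ne_zero (ne_zero_of_coeffMap_ne_zero π hy0)
        (congrArg Subtype.val h))
  have e2 : ∀ {x y : LaurentSeries A}
      (hx : coeffMap π x ∈ modularFunctionFieldFullC k N)
      (hy : coeffMap π y ∈ modularFunctionFieldFullC k N)
      (hxy : coeffMap π (x * y) ∈ modularFunctionFieldFullC k N),
      coeffMap π x ≠ 0 → coeffMap π y ≠ 0 →
      ∀ Q : Place k (modularFunctionFieldFullC k N),
      Q.ord (⟨coeffMap π (x * y), hxy⟩ : modularFunctionFieldFullC k N)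
        = Q.ord (⟨coeffMap π x, hx⟩ : modularFunctionFieldFullC k N)
        + Q.ord (⟨coeffMap π y, hy⟩ : modularFunctionFieldFullC k N) := by
    intro x y hx hy hxy hx0 hy0 Q
    have h1 : (⟨coeffMap π (x * y), hxy⟩ : modularFunctionFieldFullC k N)
        = ⟨coeffMap π x, hx⟩ * ⟨coeffMap π y, hy⟩ := Subtype.ext (map_mul _ _ _)
    rw [h1]
    exact Q.ord_mul (fun h => hx0 (congrArg Subtype.val h)) (fun h => hy0 (congrArg Subtype.val h))
  have m1 : coeffMap A.subtype (a * a') ∈ laurentBaseChange L (modularFunctionFieldFull N) := by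
    rw [map_mul]; exact mul_mem ha ha'
  have m2 : coeffMap A.subtype (s * s') ∈ laurentBaseChange L (modularFunctionFieldFull N) := by
    rw [map_mul]; exact mul_mem hs hs'
  have m3 : coeffMap π (a * a') ∈ modularFunctionFieldFullC k N := by
    rw [map_mul]; exact mul_mem hak hak'
  have m4 : coeffMap π (s * s') ∈ modularFunctionFieldFullC k N := by
    rw [map_mul]; exact mul_mem hsk hsk'
  refine ⟨a * a', s * s', m1, m2, m3, m4, by rw [map_mul]; exact mul_ne_zero ha0 ha0',
    by rw [map_mul]; exact mul_ne_zero hs0 hs0', fun P => ?_, fun Q => ?_⟩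
  · rw [Finsupp.add_apply, hE P, hE' P, e1 ha ha' m1 ha0 ha0' P, e1 hs hs' m2 hs0 hs0' P]; ring
  · rw [Finsupp.mapDomain_add, Finsupp.add_apply, hrE Q, hrE' Q, e2 hak hak' m3 ha0 ha0' Q,
      e2 hsk hsk' m4 hs0 hs0' Q]; ring

theorem intRep_of_mem (hr : IsPlaceReductionAlong A π N r)
    {E : Divisor L (laurentBaseChange L (modularFunctionFieldFull N))}
    (hE : E ∈ integralPrincipalDivisors A π N) : IntRep (A := A) (π := π) r E := by
  obtain ⟨y, hy, hyk, hne, hDy⟩ := hE
  have h1L : (⟨coeffMap A.subtype 1, by rw [map_one]; exact one_mem _⟩ :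
      laurentBaseChange L (modularFunctionFieldFull N)) = 1 := Subtype.ext (map_one _)
  have h1k : (⟨coeffMap π 1, by rw [map_one]; exact one_mem _⟩ :
      modularFunctionFieldFullC k N) = 1 := Subtype.ext (map_one _)
  refine ⟨y, 1, hy, by rw [map_one]; exact one_mem _, hyk, by rw [map_one]; exact one_mem _,
    hne, by rw [map_one]; exact one_ne_zero, fun P => ?_, fun Q => ?_⟩
  · rw [h1L, Place.ord_one, sub_zero]; exact hDy P
  · rw [h1k, Place.ord_one, sub_zero]; exact hr.2 y hy hyk hne E hDy Q

theorem intRep_of_principal (hr : IsPlaceReductionAlong A π N r)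
    (hgen : PrincipalGeneratedByIntegral A π N)
    {E : Divisor L (laurentBaseChange L (modularFunctionFieldFull N))}
    (hE : E ∈ Divisor.principal (K := L) (F := laurentBaseChange L (modularFunctionFieldFull N))) :
    IntRep (A := A) (π := π) r E := by
  have hE' := hgen hE
  clear hE
  induction hE' using AddSubgroup.closure_induction with
  | mem E hE => exact intRep_of_mem hr hE
  | zero => exact intRep_zero
  | add E E' _ _ hE hE' => exact intRep_add hE hE'
  | neg E _ hE => exact intRep_neg hE

end Along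

section Lift

variable {L : Type*} [Field L] [Algebra ℚ L] (A : ValuationSubring L)
variable {k : Type*} [Field k] (π : A →+* k) (N : ℕ)

/-- `x = p̄ / q̄` for integral series `p, q` of the function field, `q̄ ≠ 0`. -/
def HasLift (x : LaurentSeries k) : Prop :=
  ∃ p q : LaurentSeries A,
    coeffMap A.subtype p ∈ laurentBaseChange L (modularFunctionFieldFull N) ∧
    coeffMap A.subtype q ∈ laurentBaseChange L (modularFunctionFieldFull N) ∧
    coeffMap π q ≠ 0 ∧ x * coeffMap π q = coeffMap π p

variable {A π N}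

theorem jqNModC_mem_laurentBaseChange {d : ℕ} [NeZero d] (hd : d ∣ N) :
    jqNModC L d ∈ laurentBaseChange L (modularFunctionFieldFull N) := by
  have h1 : jqNModC L d = coeffEmb L (qExpand ℚ d jq) :=
    (coeffMap_jqNModC (algebraMap ℚ L) d).symm
  rw [h1]
  exact coeffEmb_mem_laurentBaseChange L (jqd_mem_full N hd)

theorem hasLift_of_mem (hπ : Function.Surjective π) {x : LaurentSeries k}
    (hx : x ∈ modularFunctionFieldFullC k N) : HasLift A π N x := by
  unfold modularFunctionFieldFullC at hx
  induction hx using IntermediateField.adjoin_induction with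
  | mem x hx =>
    obtain ⟨d, hd0, hd, rfl⟩ := hx
    refine ⟨jqNModC A d, 1, ?_, by rw [map_one]; exact one_mem _,
      by rw [map_one]; exact one_ne_zero, ?_⟩
    · rw [coeffMap_jqNModC]
      exact jqNModC_mem_laurentBaseChange hd
    · rw [map_one, mul_one, coeffMap_jqNModC]
      rfl
  | algebraMap c =>
    obtain ⟨a, rfl⟩ := hπ c
    refine ⟨HahnSeries.single 0 a, 1, ?_, by rw [map_one]; exact one_mem _,
      by rw [map_one]; exact one_ne_zero, ?_⟩
    · rw [coeffMap_single]
      have h1 : HahnSeries.single (0 : ℤ) (A.subtype a)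
          = algebraMap L (LaurentSeries L) (a : L) :=
        (algebraMap_laurentSeries_eq_single L (a : L)).symm
      rw [h1]
      exact (laurentBaseChange L (modularFunctionFieldFull N)).algebraMap_mem _
    · rw [map_one, mul_one, coeffMap_single, algebraMap_laurentSeries_eq_single]
  | add x y _ _ hx hy =>
    obtain ⟨p, q, hp, hq, hq0, hxq⟩ := hx
    obtain ⟨p', q', hp', hq', hq0', hyq⟩ := hy
    refine ⟨p * q' + p' * q, q * q', ?_, ?_, ?_, ?_⟩
    · rw [map_add, map_mul, map_mul]
      exact add_mem (mul_mem hp hq') (mul_mem hp' hq)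
    · rw [map_mul]; exact mul_mem hq hq'
    · rw [map_mul]; exact mul_ne_zero hq0 hq0'
    · rw [map_add, map_mul, map_mul, map_mul, ← hxq, ← hyq]; ring
  | inv x _ hx =>
    obtain ⟨p, q, hp, hq, hq0, hxq⟩ := hx
    by_cases hp0 : coeffMap π p = 0
    · have hx0 : x = 0 := by
        rw [hp0] at hxq
        exact (mul_eq_zero.mp hxq).resolve_right hq0
      refine ⟨0, 1, by rw [map_zero]; exact zero_mem _, by rw [map_one]; exact one_mem _,
        by rw [map_one]; exact one_ne_zero, ?_⟩
      rw [hx0, inv_zero, zero_mul, map_zero]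
    · have hx0 : x ≠ 0 := by
        rintro rfl
        rw [zero_mul] at hxq
        exact hp0 hxq.symm
      refine ⟨q, p, hq, hp, hp0, ?_⟩
      rw [← hxq, ← mul_assoc, inv_mul_cancel₀ hx0, one_mul]
  | mul x y _ _ hx hy =>
    obtain ⟨p, q, hp, hq, hq0, hxq⟩ := hx
    obtain ⟨p', q', hp', hq', hq0', hyq⟩ := hy
    refine ⟨p * p', q * q', ?_, ?_, ?_, ?_⟩
    · rw [map_mul]; exact mul_mem hp hp'
    · rw [map_mul]; exact mul_mem hq hq'
    · rw [map_mul]; exact mul_ne_zero hq0 hq0'
    · rw [map_mul, map_mul, ← hxq, ← hyq]; ring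

end Lift

section Main

variable {L : Type*} [Field L] [Algebra ℚ L] {A : ValuationSubring L}
variable {k : Type*} [Field k] {π : A →+* k} {N : ℕ}
variable {r : Place L (laurentBaseChange L (modularFunctionFieldFull N)) →
  Place k (modularFunctionFieldFullC k N)}

theorem ord_pow' {K F : Type*} [Field K] [Field F] [Algebra K F] (v : Place K F) (f : F)
    (n : ℕ) : v.ord (f ^ n) = n * v.ord f := by
  have h := v.ord_zpow f (n : ℤ)
  rwa [zpow_natCast] at h

/-- **Step 0** (general form).  If `m • D` is principal and the reduction of `D` is principal,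
there is a function `u = a / s` (`a, s` integral series with equal nonzero reductions) whose
divisor is divisible by `m` and such that `D` is principal as soon as `u` is an `m`-th power. -/
theorem step0_along [IsAlgClosed k] (hπ : Function.Surjective π)
    (hconst : ∀ f : modularFunctionFieldFullC k N, f ≠ 0 →
      (∀ Q : Place k (modularFunctionFieldFullC k N), Q.ord f = 0) →
      ∃ c : k, f = algebraMap k (modularFunctionFieldFullC k N) c)
    (hr : IsPlaceReductionAlong A π N r) (hgen : PrincipalGeneratedByIntegral A π N)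
    (m : ℕ) (hm : m ≠ 0)
    (D : Divisor L (laurentBaseChange L (modularFunctionFieldFull N)))
    (hmD : m • D ∈ Divisor.principal (K := L)
      (F := laurentBaseChange L (modularFunctionFieldFull N)))
    (hred : Finsupp.mapDomain r D ∈ Divisor.principal (K := k)
      (F := modularFunctionFieldFullC k N)) :
    ∃ (u : laurentBaseChange L (modularFunctionFieldFull N)) (a s : LaurentSeries A),
      u ≠ 0 ∧ coeffMap π s ≠ 0 ∧ coeffMap π a = coeffMap π s ∧
      coeffMap A.subtype s * (u : LaurentSeries L) = coeffMap A.subtype a ∧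
      (∀ P : Place L (laurentBaseChange L (modularFunctionFieldFull N)), (m : ℤ) ∣ P.ord u) ∧
      ((∃ t : laurentBaseChange L (modularFunctionFieldFull N), t ^ m = u) →
        D ∈ Divisor.principal (K := L)
          (F := laurentBaseChange L (modularFunctionFieldFull N))) := by
  obtain ⟨a, s, ha, hs, hak, hsk, ha0, hs0, hE, hrE⟩ := intRep_of_principal hr hgen hmD
  obtain ⟨xb, hxb0, hxb⟩ := hred
  set ab : modularFunctionFieldFullC k N := ⟨coeffMap π a, hak⟩ with hab_def
  set sb : modularFunctionFieldFullC k N := ⟨coeffMap π s, hsk⟩ with hsb_def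
  have hab0 : ab ≠ 0 := fun h => ha0 (congrArg Subtype.val h)
  have hsb0 : sb ≠ 0 := fun h => hs0 (congrArg Subtype.val h)
  have hm1 : ∀ Q : Place k (modularFunctionFieldFullC k N),
      (m : ℤ) * Q.ord xb = Q.ord ab - Q.ord sb := by
    intro Q
    rw [← hrE Q, Finsupp.mapDomain_smul, Finsupp.smul_apply, hxb Q, nsmul_eq_mul]
  -- the quotient has trivial divisor
  have hf0 : ab / (sb * xb ^ m) ≠ 0 :=
    div_ne_zero hab0 (mul_ne_zero hsb0 (pow_ne_zero m hxb0))
  have hford : ∀ Q : Place k (modularFunctionFieldFullC k N),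
      Q.ord (ab / (sb * xb ^ m)) = 0 := by
    intro Q
    rw [div_eq_mul_inv, Q.ord_mul hab0 (inv_ne_zero (mul_ne_zero hsb0 (pow_ne_zero m hxb0))),
      Q.ord_inv, Q.ord_mul hsb0 (pow_ne_zero m hxb0), ord_pow']
    have := hm1 Q
    omega
  obtain ⟨c, hc⟩ := hconst _ hf0 hford
  obtain ⟨d, hd⟩ := IsAlgClosed.exists_pow_nat_eq c (Nat.pos_of_ne_zero hm)
  have hc0 : c ≠ 0 := by
    rintro rfl
    rw [map_zero] at hc
    exact hf0 hc
  have hd0 : d ≠ 0 := by
    rintro rfl
    rw [zero_pow hm] at hd
    exact hc0 hd.symm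
  set x' : modularFunctionFieldFullC k N := algebraMap k (modularFunctionFieldFullC k N) d * xb
    with hx'_def
  have hx'0 : x' ≠ 0 := mul_ne_zero ((map_ne_zero _).mpr hd0) hxb0
  have hab : ab = sb * x' ^ m := by
    rw [hx'_def, mul_pow, ← map_pow, hd, ← hc]
    field_simp
  -- lift `x'`
  obtain ⟨p, q, hp, hq, hq0, hxq⟩ := hasLift_of_mem (A := A) (π := π) hπ x'.2
  have hp0 : coeffMap π p ≠ 0 := by
    rw [← hxq]
    exact mul_ne_zero (fun h => hx'0 (Subtype.ext h)) hq0
  -- the four functions over `L`
  set aL : laurentBaseChange L (modularFunctionFieldFull N) := ⟨coeffMap A.subtype a, ha⟩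
    with haL
  set sL : laurentBaseChange L (modularFunctionFieldFull N) := ⟨coeffMap A.subtype s, hs⟩
    with hsL
  set pL : laurentBaseChange L (modularFunctionFieldFull N) := ⟨coeffMap A.subtype p, hp⟩
    with hpL
  set qL : laurentBaseChange L (modularFunctionFieldFull N) := ⟨coeffMap A.subtype q, hq⟩
    with hqL
  have haL0 : aL ≠ 0 := fun h =>
    coeffMap_subtype_ne_zero (ne_zero_of_coeffMap_ne_zero π ha0) (congrArg Subtype.val h)
  have hsL0 : sL ≠ 0 := fun h =>
    coeffMap_subtype_ne_zero (ne_zero_of_coeffMap_ne_zero π hs0) (congrArg Subtype.val h)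
  have hpL0 : pL ≠ 0 := fun h =>
    coeffMap_subtype_ne_zero (ne_zero_of_coeffMap_ne_zero π hp0) (congrArg Subtype.val h)
  have hqL0 : qL ≠ 0 := fun h =>
    coeffMap_subtype_ne_zero (ne_zero_of_coeffMap_ne_zero π hq0) (congrArg Subtype.val h)
  have hden : sL * pL ^ m ≠ 0 := mul_ne_zero hsL0 (pow_ne_zero m hpL0)
  have hu0 : aL * qL ^ m / (sL * pL ^ m) ≠ 0 :=
    div_ne_zero (mul_ne_zero haL0 (pow_ne_zero m hqL0)) hden
  have hordu : ∀ P : Place L (laurentBaseChange L (modularFunctionFieldFull N)),
      P.ord (aL * qL ^ m / (sL * pL ^ m)) = (m : ℤ) * (D P + P.ord qL - P.ord pL) := by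
    intro P
    rw [div_eq_mul_inv, P.ord_mul (mul_ne_zero haL0 (pow_ne_zero m hqL0)) (inv_ne_zero hden),
      P.ord_inv, P.ord_mul haL0 (pow_ne_zero m hqL0), P.ord_mul hsL0 (pow_ne_zero m hpL0),
      ord_pow', ord_pow']
    have h1 := hE P
    rw [Finsupp.smul_apply, nsmul_eq_mul] at h1
    linear_combination -h1
  refine ⟨aL * qL ^ m / (sL * pL ^ m), a * q ^ m, s * p ^ m, hu0, ?_, ?_, ?_, ?_, ?_⟩
  · rw [map_mul, map_pow]
    exact mul_ne_zero hs0 (pow_ne_zero m hp0)
  · have h1 : coeffMap π a = coeffMap π s * (x' : LaurentSeries k) ^ m := by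
      have h2 := congrArg (Subtype.val) hab
      exact h2
    rw [map_mul, map_pow, map_mul, map_pow, h1, ← hxq]
    ring
  · have h1 : ((aL * qL ^ m / (sL * pL ^ m) :
        laurentBaseChange L (modularFunctionFieldFull N)) : LaurentSeries L)
        = coeffMap A.subtype a * coeffMap A.subtype q ^ m
          / (coeffMap A.subtype s * coeffMap A.subtype p ^ m) := rfl
    have h2 : coeffMap A.subtype s * coeffMap A.subtype p ^ m ≠ 0 := fun h =>
      hden (Subtype.ext h)
    rw [h1, map_mul, map_pow, map_mul, map_pow, mul_div_cancel₀ _ h2]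
  · intro P
    exact ⟨_, hordu P⟩
  · rintro ⟨t, ht⟩
    have ht0 : t ≠ 0 := by
      rintro rfl
      rw [zero_pow hm] at ht
      exact hu0 ht.symm
    refine ⟨t * pL / qL, div_ne_zero (mul_ne_zero ht0 hpL0) hqL0, fun P => ?_⟩
    have h1 := hordu P
    rw [← ht, ord_pow'] at h1
    have h2 : P.ord t = D P + P.ord qL - P.ord pL :=
      mul_left_cancel₀ (Nat.cast_ne_zero.mpr hm) h1
    rw [div_eq_mul_inv, P.ord_mul (mul_ne_zero ht0 hpL0) (inv_ne_zero hqL0), P.ord_inv,
      P.ord_mul ht0 hpL0, h2]
    ring

end Main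

section CharL

set_option synthInstance.maxHeartbeats 400000

variable (A : ValuationSubring (AlgebraicClosure ℚ)) (N : ℕ)

/-- **Step 0** for `J₀(N)` and `reductionModL`. -/
theorem step0 [IsAlgClosed (IsLocalRing.ResidueField A)]
    (hconst : ∀ f : modularFunctionFieldFullC (IsLocalRing.ResidueField A) N, f ≠ 0 →
      (∀ Q : Place (IsLocalRing.ResidueField A)
        (modularFunctionFieldFullC (IsLocalRing.ResidueField A) N), Q.ord f = 0) →
      ∃ c : IsLocalRing.ResidueField A,
        f = algebraMap (IsLocalRing.ResidueField A)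
          (modularFunctionFieldFullC (IsLocalRing.ResidueField A) N) c)
    (h : ReductionInputsModL A N) (m : ℕ) (hm : m ≠ 0) (z : JZero N) (hmz : m • z = 0)
    (hz : reductionModL A N z = 0) :
    ∃ (u : modularFunctionFieldBar N) (a s : LaurentSeries A),
      u ≠ 0 ∧ coeffMap (IsLocalRing.residue A) s ≠ 0 ∧
      coeffMap (IsLocalRing.residue A) a = coeffMap (IsLocalRing.residue A) s ∧
      coeffMap A.subtype s * (u : LaurentSeries (AlgebraicClosure ℚ)) = coeffMap A.subtype a ∧
      (∀ P : Place (AlgebraicClosure ℚ) (modularFunctionFieldBar N), (m : ℤ) ∣ P.ord u) ∧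
      ((∃ t : modularFunctionFieldBar N, t ^ m = u) → z = 0) := by
  obtain ⟨D, rfl⟩ := Pic0.mk_surjective z
  have hr := isPlaceReductionModL_placeReductionModL h
  have hgen : PrincipalGeneratedByIntegral A (IsLocalRing.residue A) N := h.choose_spec.2
  have hmD : m • (D : Divisor (AlgebraicClosure ℚ) (modularFunctionFieldBar N))
      ∈ Divisor.principal (K := AlgebraicClosure ℚ) (F := modularFunctionFieldBar N) := by
    have h1 : (QuotientAddGroup.mk (m • D) : Pic0 (AlgebraicClosure ℚ)
        (modularFunctionFieldBar N)) = 0 := by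
      rw [QuotientAddGroup.mk_nsmul]
      exact hmz
    have h2 := (QuotientAddGroup.eq_zero_iff _).mp h1
    rw [AddSubgroup.mem_addSubgroupOf, AddSubgroupClass.coe_nsmul] at h2
    exact h2
  have hred : Finsupp.mapDomain (placeReductionModL h)
      (D : Divisor (AlgebraicClosure ℚ) (modularFunctionFieldBar N))
      ∈ Divisor.principal (K := IsLocalRing.ResidueField A)
        (F := modularFunctionFieldFullC (IsLocalRing.ResidueField A) N) := by
    rw [reductionModL_mk h D] at hz
    have h2 := (QuotientAddGroup.eq_zero_iff _).mp hz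
    rw [AddSubgroup.mem_addSubgroupOf, coe_reductionDegZeroAlong] at h2
    exact h2
  obtain ⟨u, a, s, hu0, hs0, has, hgauss, hdiv, hconcl⟩ :=
    step0_along (IsLocalRing.residue_surjective) hconst hr hgen m hm
      (D : Divisor (AlgebraicClosure ℚ) (modularFunctionFieldBar N)) hmD hred
  refine ⟨u, a, s, hu0, hs0, has, hgauss, hdiv, fun ht => ?_⟩
  have h3 := hconcl ht
  exact (QuotientAddGroup.eq_zero_iff _).mpr (AddSubgroup.mem_addSubgroupOf.mpr h3)

end CharL

end Fermat.Agent.S18.Step0
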