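/-
S18 moonshot, WP-A (helper9): the valuation-ring toolbox.

`L` a field, `O : ValuationSubring L`, `k = IsLocalRing.ResidueField O`.

* (A1) `exists_integral_basis`: pivot elimination for a subspace of `L^ι`.
* (A2) `roots_map_residue`, `rootMultiplicity_residue_eq_card`: roots of a polynomial over `O`
  with nonzero reduction reduce to the roots of the reduction (`L` algebraically closed).
* (A3) `exists_lift_algHom`, `exists_lift_ringHom`, `card_algHom_residue_le`: residue points of a
  finite free algebra lift.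
* (A4) valuation subrings of `ℚ̄` over a prime: archimedean, residue field algebraically closed
  of characteristic `ℓ`, algebraic over the prime field.
* (A5) finitely generated torsion-free modules are free; the torsion of a finitely generated
  module is killed by one nonzero element.
-/
import Mathlib
import Fermat.Prelude.Def_FLTPrelim_Ramification

set_option autoImplicit false
set_option linter.style.haveILetI false
set_option linter.unusedSectionVars false

namespace Fermat.Agent.S18.ValRing

open Polynomial TensorProduct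

variable {L : Type*} [Field L] (O : ValuationSubring L)

/-! ### (A1) -/

/-- the inductive form of (A1) -/
theorem exists_integral_basis_aux {ι : Type*} [Finite ι] (n : ℕ) :
    ∀ W : Submodule L (ι → L), Module.finrank L W = n →
    ∃ w : Fin n → ι → O,
      (∀ i, (fun j => ((w i j : O) : L)) ∈ W) ∧
      LinearIndependent (IsLocalRing.ResidueField O)
        (fun i j => IsLocalRing.residue O (w i j)) ∧
      ∀ x ∈ W, ∃ c : Fin n → L, (x = fun j => ∑ i, c i * ((w i j : O) : L)) ∧
        ((∀ j, x j ∈ O) → ∀ i, c i ∈ O) := by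
  classical
  induction n with
  | zero =>
    intro W hW
    have hW' : W = ⊥ := Submodule.finrank_eq_zero.mp hW
    refine ⟨Fin.elim0, fun i => i.elim0, linearIndependent_empty_type, ?_⟩
    intro x hx
    rw [hW', Submodule.mem_bot] at hx
    refine ⟨Fin.elim0, ?_, fun _ i => i.elim0⟩
    rw [hx]
    funext j
    simp
  | succ n ih =>
    intro W hW
    -- a nonzero vector
    have hWne : W ≠ ⊥ := by
      intro h
      rw [h, finrank_bot] at hW
      exact absurd hW (by omega)
    obtain ⟨x₀, hx₀W, hx₀⟩ := (Submodule.ne_bot_iff W).mp hWne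
    have hne : ∃ j, x₀ j ≠ 0 := by
      by_contra h
      push Not at h
      exact hx₀ (funext h)
    haveI : Nonempty ι := ⟨hne.choose⟩
    obtain ⟨j₀, hj₀⟩ := Finite.exists_max (fun j => O.valuation (x₀ j))
    have hx₀j₀ : x₀ j₀ ≠ 0 := by
      intro h0
      obtain ⟨j, hj⟩ := hne
      have h1 := hj₀ j
      rw [h0, map_zero] at h1
      exact hj ((map_eq_zero _).mp (le_antisymm h1 zero_le))
    -- the normalised pivot vector
    set u : ι → L := (x₀ j₀)⁻¹ • x₀ with hu
    have huW : u ∈ W := W.smul_mem _ hx₀W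
    have huj₀ : u j₀ = 1 := by
      simp [hu, hx₀j₀]
    have huO : ∀ j, u j ∈ O := by
      intro j
      rw [← O.valuation_le_one_iff]
      simp only [hu, Pi.smul_apply, smul_eq_mul, map_mul, map_inv₀]
      have hpos : O.valuation (x₀ j₀) ≠ 0 := (_root_.map_ne_zero _).mpr hx₀j₀
      rw [inv_mul_le_iff₀ (zero_lt_iff.mpr hpos), mul_one]
      exact hj₀ j
    -- the complementary subspace
    set W' : Submodule L (ι → L) := W ⊓ LinearMap.ker (LinearMap.proj j₀ : (ι → L) →ₗ[L] L)
      with hW'
    have hmemW' : ∀ y : ι → L, y ∈ W' ↔ y ∈ W ∧ y j₀ = 0 := by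
      intro y
      rw [hW', Submodule.mem_inf, LinearMap.mem_ker, LinearMap.proj_apply]
    have hdecomp : ∀ x ∈ W, x - x j₀ • u ∈ W' := by
      intro x hx
      rw [hmemW']
      refine ⟨W.sub_mem hx (W.smul_mem _ huW), ?_⟩
      simp [huj₀]
    have hfr : Module.finrank L W' = n := by
      have hsup : W' ⊔ Submodule.span L {u} = W := by
        apply le_antisymm
        · refine sup_le inf_le_left ?_
          rw [Submodule.span_singleton_le_iff_mem]
          exact huW
        · intro x hx
          have : x = (x - x j₀ • u) + x j₀ • u := by abel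
          rw [this]
          exact Submodule.add_mem_sup (hdecomp x hx)
            (Submodule.smul_mem _ _ (Submodule.mem_span_singleton_self u))
      have hinf : W' ⊓ Submodule.span L {u} = ⊥ := by
        rw [eq_bot_iff]
        rintro x ⟨hx1, hx2⟩
        obtain ⟨a, rfl⟩ := Submodule.mem_span_singleton.mp hx2
        have h3 : (a • u) j₀ = 0 := ((hmemW' _).mp hx1).2
        rw [Pi.smul_apply, huj₀, smul_eq_mul, mul_one] at h3
        rw [h3, zero_smul]
        exact Submodule.zero_mem _
      have h4 := Submodule.finrank_sup_add_finrank_inf_eq W' (Submodule.span L {u})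
      rw [hsup, hinf, finrank_bot, add_zero, hW] at h4
      have hu0 : u ≠ 0 := by
        intro h
        rw [h] at huj₀
        simp at huj₀
      rw [finrank_span_singleton hu0] at h4
      omega
    obtain ⟨w', hw'W, hw'ind, hw'dec⟩ := ih W' hfr
    let uO : ι → O := fun j => ⟨u j, huO j⟩
    refine ⟨Fin.cons uO w', ?_, ?_, ?_⟩
    · intro i
      refine Fin.cases ?_ (fun i => ?_) i
      · exact huW
      · exact ((hmemW' _).mp (hw'W i)).1
    · have heq : (fun (i : Fin (n + 1)) (j : ι) =>
          IsLocalRing.residue O ((Fin.cons uO w' : Fin (n + 1) → ι → O) i j)) =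
          Fin.cons (fun j => IsLocalRing.residue O (uO j))
            (fun (i : Fin n) (j : ι) => IsLocalRing.residue O (w' i j)) := by
        funext i
        refine Fin.cases ?_ (fun i => ?_) i
        · rfl
        · rfl
      rw [heq, linearIndependent_finCons]
      refine ⟨hw'ind, ?_⟩
      intro hmem
      have hle : Submodule.span (IsLocalRing.ResidueField O)
          (Set.range fun (i : Fin n) (j : ι) => IsLocalRing.residue O (w' i j)) ≤
          LinearMap.ker (LinearMap.proj j₀ :
            (ι → IsLocalRing.ResidueField O) →ₗ[IsLocalRing.ResidueField O] _) := by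
        rw [Submodule.span_le]
        rintro _ ⟨i, rfl⟩
        rw [SetLike.mem_coe, LinearMap.mem_ker, LinearMap.proj_apply]
        have h5 : ((w' i j₀ : O) : L) = 0 := ((hmemW' _).mp (hw'W i)).2
        have h6 : w' i j₀ = 0 := Subtype.ext h5
        show IsLocalRing.residue O (w' i j₀) = 0
        rw [h6, map_zero]
      have h7 := hle hmem
      rw [LinearMap.mem_ker, LinearMap.proj_apply] at h7
      have h8 : uO j₀ = 1 := Subtype.ext huj₀
      rw [h8, map_one] at h7
      exact one_ne_zero h7
    · intro x hx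
      obtain ⟨c', hc', hc'O⟩ := hw'dec _ (hdecomp x hx)
      refine ⟨Fin.cons (x j₀) c', ?_, ?_⟩
      · funext j
        have h9 := congrFun hc' j
        simp only [Pi.sub_apply, Pi.smul_apply, smul_eq_mul] at h9
        rw [Fin.sum_univ_succ]
        simp only [Fin.cons_zero, Fin.cons_succ]
        rw [← h9]
        show x j = x j₀ * u j + (x j - x j₀ * u j)
        ring
      · intro hxO i
        refine Fin.cases ?_ (fun i => ?_) i
        · exact hxO j₀
        · refine hc'O ?_ i
          intro j
          simp only [Pi.sub_apply, Pi.smul_apply, smul_eq_mul]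
          exact sub_mem (hxO j) (mul_mem (hxO j₀) (huO j))

/-- **(A1)** pivot elimination: a subspace `W ⊆ L^ι` has a basis `w` of vectors with
coordinates in `O`, whose reductions are linearly independent over the residue field, and such
that every vector of `W` with coordinates in `O` is an `O`-linear combination of the `w i`. -/
theorem exists_integral_basis {ι : Type*} [Finite ι] (W : Submodule L (ι → L)) :
    ∃ w : Fin (Module.finrank L W) → ι → O,
      (∀ i, (fun j => ((w i j : O) : L)) ∈ W) ∧
      LinearIndependent (IsLocalRing.ResidueField O)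
        (fun i j => IsLocalRing.residue O (w i j)) ∧
      LinearIndependent L (fun i j => ((w i j : O) : L)) ∧
      Submodule.span L (Set.range fun i j => ((w i j : O) : L)) = W ∧
      ∀ x ∈ W, (∀ j, x j ∈ O) →
        ∃ c : Fin (Module.finrank L W) → O,
          x = fun j => ∑ i, ((c i : O) : L) * ((w i j : O) : L) := by
  obtain ⟨w, hwW, hwind, hwdec⟩ := exists_integral_basis_aux O (Module.finrank L W) W rfl
  have hspan : Submodule.span L (Set.range fun i j => ((w i j : O) : L)) = W := by
    apply le_antisymm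
    · rw [Submodule.span_le]
      rintro _ ⟨i, rfl⟩
      exact hwW i
    · intro x hx
      obtain ⟨c, hc, -⟩ := hwdec x hx
      have h1 : (fun j => ∑ i, c i * ((w i j : O) : L)) =
          ∑ i, c i • (fun j => ((w i j : O) : L)) := by
        funext j
        simp [Finset.sum_apply]
      rw [hc, h1]
      exact Submodule.sum_mem _
        (fun i _ => Submodule.smul_mem _ _ (Submodule.subset_span ⟨i, rfl⟩))
  refine ⟨w, hwW, hwind, ?_, hspan, ?_⟩
  · rw [linearIndependent_iff_card_eq_finrank_span, Set.finrank, hspan, Fintype.card_fin]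
  · intro x hx hxO
    obtain ⟨c, hc, hcO⟩ := hwdec x hx
    exact ⟨fun i => ⟨c i, hcO hxO i⟩, hc⟩

/-! ### (A2) -/

open Classical in
/-- the reduction of an integral element, `none` for a non-integral one -/
noncomputable def resOpt (c : L) : Option (IsLocalRing.ResidueField O) :=
  if h : c ∈ O then some (IsLocalRing.residue O ⟨c, h⟩) else none

theorem resOpt_of_mem {c : L} (h : c ∈ O) :
    resOpt O c = some (IsLocalRing.residue O ⟨c, h⟩) := by
  rw [resOpt, dif_pos h]

theorem resOpt_of_not_mem {c : L} (h : c ∉ O) : resOpt O c = none := by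
  rw [resOpt, dif_neg h]

/-- **(A2)**, multiset form, with `resOpt`. -/
theorem roots_map_residue_aux [IsAlgClosed L] (n : ℕ) :
    ∀ D : Polynomial O, D.natDegree = n → D.map (IsLocalRing.residue O) ≠ 0 →
    (D.map (IsLocalRing.residue O)).roots =
      (D.map (algebraMap O L)).roots.filterMap (resOpt O) := by
  classical
  induction n using Nat.strong_induction_on with
  | _ n ih =>
  intro D hDn hD
  have hinj : Function.Injective (algebraMap O L) := FaithfulSMul.algebraMap_injective O L
  have hD0 : D ≠ 0 := by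
    rintro rfl
    exact hD (Polynomial.map_zero _)
  by_cases hdeg : D.natDegree = 0
  · obtain ⟨a, rfl⟩ : ∃ a, D = Polynomial.C a := ⟨_, Polynomial.eq_C_of_natDegree_eq_zero hdeg⟩
    simp
  · have hdegL : (D.map (algebraMap O L)).degree ≠ 0 := by
      rw [Polynomial.degree_map_eq_of_injective hinj, Polynomial.degree_eq_natDegree hD0]
      exact_mod_cast hdeg
    obtain ⟨c, hc⟩ := IsAlgClosed.exists_root _ hdegL
    have hcev : Polynomial.eval₂ (algebraMap O L) c D = 0 := by
      rw [Polynomial.eval₂_eq_eval_map]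
      exact hc
    by_cases hcO : c ∈ O
    · -- an integral root
      set c' : O := ⟨c, hcO⟩ with hc'
      have hroot : D.IsRoot c' := by
        apply hinj
        rw [map_zero, ← Polynomial.eval₂_at_apply]
        exact hcev
      have hfac : (Polynomial.X - Polynomial.C c') * (D /ₘ (Polynomial.X - Polynomial.C c')) = D :=
        Polynomial.mul_divByMonic_eq_iff_isRoot.mpr hroot
      set D₁ := D /ₘ (Polynomial.X - Polynomial.C c') with hD₁
      have hD₁deg : D₁.natDegree < n := by
        rw [hD₁, Polynomial.natDegree_divByMonic _ (Polynomial.monic_X_sub_C c'),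
          Polynomial.natDegree_X_sub_C, hDn]
        omega
      have hmapk : D.map (IsLocalRing.residue O) =
          (Polynomial.X - Polynomial.C (IsLocalRing.residue O c')) *
            D₁.map (IsLocalRing.residue O) := by
        conv_lhs => rw [← hfac]
        simp
      have hmapL : D.map (algebraMap O L) =
          (Polynomial.X - Polynomial.C c) * D₁.map (algebraMap O L) := by
        conv_lhs => rw [← hfac]
        simp [hc']
      have hD₁k : D₁.map (IsLocalRing.residue O) ≠ 0 := by
        intro h0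
        rw [hmapk, h0, mul_zero] at hD
        exact hD rfl
      have hDL0 : D.map (algebraMap O L) ≠ 0 := (Polynomial.map_ne_zero_iff hinj).mpr hD0
      have hih := ih _ hD₁deg D₁ rfl hD₁k
      rw [hmapk, Polynomial.roots_mul (by rw [← hmapk]; exact hD), Polynomial.roots_X_sub_C,
        hmapL, Polynomial.roots_mul (by rw [← hmapL]; exact hDL0), Polynomial.roots_X_sub_C,
        Multiset.singleton_add, Multiset.singleton_add,
        Multiset.filterMap_cons_some _ _ _ (resOpt_of_mem O hcO), hih]
    · -- a non-integral root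
      have hc0 : c ≠ 0 := by
        rintro rfl
        exact hcO (zero_mem O)
      have heO : c⁻¹ ∈ O := (O.mem_or_inv_mem c).resolve_left hcO
      set e : O := ⟨c⁻¹, heO⟩ with he
      have hemax : IsLocalRing.residue O e = 0 := by
        rw [IsLocalRing.residue_eq_zero_iff, IsLocalRing.mem_maximalIdeal, mem_nonunits_iff]
        intro hu
        obtain ⟨u, hu⟩ := hu
        apply hcO
        have h1 : ((u⁻¹ : Oˣ) : O) * e = 1 := by rw [← hu]; simp
        have h2 : (((u⁻¹ : Oˣ) : O) : L) * c⁻¹ = 1 := by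
          have := congrArg (fun z : O => (z : L)) h1
          simpa [he] using this
        have h3 : c = (((u⁻¹ : Oˣ) : O) : L) := by
          field_simp at h2
          exact h2.symm
        rw [h3]
        exact Subtype.mem _
      set N := D.natDegree with hN
      set R := Polynomial.reflect N D with hR
      have hRroot : R.IsRoot e := by
        apply hinj
        rw [map_zero, ← Polynomial.eval₂_at_apply]
        letI : Invertible c := invertibleOfNonzero hc0
        have h1 := (Polynomial.eval₂_reflect_eq_zero_iff (algebraMap O L) c N D le_rfl).mpr hcev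
        rw [invOf_eq_inv] at h1
        exact h1
      have hfac : (Polynomial.X - Polynomial.C e) * (R /ₘ (Polynomial.X - Polynomial.C e)) = R :=
        Polynomial.mul_divByMonic_eq_iff_isRoot.mpr hRroot
      set R₁ := R /ₘ (Polynomial.X - Polynomial.C e) with hR₁
      have hRdeg : R.natDegree ≤ N := by
        have := Polynomial.natDegree_reflect_le (N := N) (p := D)
        rwa [max_self] at this
      have hR₁deg : R₁.natDegree ≤ N - 1 := by
        rw [hR₁, Polynomial.natDegree_divByMonic _ (Polynomial.monic_X_sub_C e),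
          Polynomial.natDegree_X_sub_C]
        omega
      have hNpos : 1 + (N - 1) = N := by omega
      set D₂ := Polynomial.reflect (N - 1) R₁ with hD₂
      have hDfac : D = (1 - Polynomial.C e * Polynomial.X) * D₂ := by
        have h1 : D = Polynomial.reflect N R := by rw [hR, Polynomial.reflect_reflect]
        rw [h1, ← hfac, ← hNpos,
          Polynomial.reflect_mul _ _ (Polynomial.natDegree_X_sub_C_le e) hR₁deg]
        congr 1
        rw [Polynomial.reflect_sub, Polynomial.reflect_C]
        have h2 : Polynomial.reflect 1 (Polynomial.X : Polynomial O) = 1 := by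
          have := Polynomial.reflect_monomial (R := O) 1 1
          rw [pow_one] at this
          rw [this]
          simp [Polynomial.revAt_le]
        rw [h2, pow_one]
      have hD₂deg : D₂.natDegree < n := by
        have h1 := Polynomial.natDegree_reflect_le (N := N - 1) (p := R₁)
        have h2 : D₂.natDegree ≤ N - 1 := by
          rw [hD₂]
          exact le_trans h1 (max_le le_rfl hR₁deg)
        omega
      have hmapk : D.map (IsLocalRing.residue O) = D₂.map (IsLocalRing.residue O) := by
        conv_lhs => rw [hDfac]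
        simp [hemax]
      have hmapL : D.map (algebraMap O L) =
          (Polynomial.C (-c⁻¹) * (Polynomial.X - Polynomial.C c)) * D₂.map (algebraMap O L) := by
        conv_lhs => rw [hDfac]
        have h1 : (Polynomial.C (-c⁻¹) * (Polynomial.X - Polynomial.C c) : Polynomial L) =
            1 - Polynomial.C c⁻¹ * Polynomial.X := by
          rw [mul_sub, ← Polynomial.C_mul, neg_mul, inv_mul_cancel₀ hc0]
          simp
          ring
        rw [h1]
        simp [he]
      have hDL0 : D.map (algebraMap O L) ≠ 0 := (Polynomial.map_ne_zero_iff hinj).mpr hD0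
      have hih := ih _ hD₂deg D₂ rfl (by rw [← hmapk]; exact hD)
      rw [hmapk, hih, hmapL, Polynomial.roots_mul (by rw [← hmapL]; exact hDL0),
        Polynomial.roots_C_mul _ (neg_ne_zero.mpr (inv_ne_zero hc0)), Polynomial.roots_X_sub_C,
        Multiset.singleton_add, Multiset.filterMap_cons_none _ _ (resOpt_of_not_mem O hcO)]

open Classical in
/-- **(A2)**, multiset form: the roots of the reduction are the reductions of the integral
roots. -/
theorem roots_map_residue [IsAlgClosed L] (D : Polynomial O)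
    (hD : D.map (IsLocalRing.residue O) ≠ 0) :
    (D.map (IsLocalRing.residue O)).roots =
      (D.map (algebraMap O L)).roots.filterMap
        (fun c => if h : c ∈ O then some (IsLocalRing.residue O ⟨c, h⟩) else none) :=
  roots_map_residue_aux O _ D rfl hD

theorem residue_eq_iff_valuation_sub_lt_one (b : O) {c : L} (hcO : c ∈ O) :
    IsLocalRing.residue O b = IsLocalRing.residue O ⟨c, hcO⟩ ↔ O.valuation (c - (b : L)) < 1 := by
  have h1 : O.valuation (c - (b : L)) = O.valuation (((⟨c, hcO⟩ - b : O) : O) : L) := rfl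
  rw [h1, ← O.valuation_lt_one_iff, ← IsLocalRing.residue_eq_zero_iff, map_sub, sub_eq_zero]
  exact eq_comm

open Classical in
/-- **(A2)**: the order of vanishing of the reduction at `b̄` is the number of roots of `D`
(with multiplicity) in the residue disc of `b`. -/
theorem rootMultiplicity_residue_eq_card [IsAlgClosed L] (D : Polynomial O)
    (hD : D.map (IsLocalRing.residue O) ≠ 0) (b : O) :
    (D.map (IsLocalRing.residue O)).rootMultiplicity (IsLocalRing.residue O b) =
      Multiset.card ((D.map (algebraMap O L)).roots.filter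
        (fun c => O.valuation (c - (b : L)) < 1)) := by
  rw [← Polynomial.count_roots, roots_map_residue_aux O _ D rfl hD]
  generalize (D.map (algebraMap O L)).roots = M
  induction M using Multiset.induction_on with
  | empty => simp
  | cons c M ih =>
    by_cases hcO : c ∈ O
    · rw [Multiset.filterMap_cons_some _ _ _ (resOpt_of_mem O hcO), Multiset.count_cons, ih]
      by_cases hcb : O.valuation (c - (b : L)) < 1
      · rw [Multiset.filter_cons_of_pos (p := fun c => O.valuation (c - (b : L)) < 1) M hcb,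
          Multiset.card_cons,
          if_pos ((residue_eq_iff_valuation_sub_lt_one O b hcO).mpr hcb)]
      · rw [Multiset.filter_cons_of_neg (p := fun c => O.valuation (c - (b : L)) < 1) M hcb,
          if_neg (fun h => hcb ((residue_eq_iff_valuation_sub_lt_one O b hcO).mp h)), add_zero]
    · have hneg : ¬ O.valuation (c - (b : L)) < 1 := by
        intro h
        apply hcO
        have h1 : c - (b : L) ∈ O := (O.valuation_le_one_iff _).mp h.le
        have h2 : c - (b : L) + (b : L) ∈ O := O.add_mem _ _ h1 b.2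
        simpa using h2
      rw [Multiset.filterMap_cons_none _ _ (resOpt_of_not_mem O hcO), ih,
        Multiset.filter_cons_of_neg (p := fun c => O.valuation (c - (b : L)) < 1) M hneg]

/-! ### (A3) -/

/-- **(A3)** every residue point of a finite free `O`-algebra lifts to an `O`-point. -/
theorem exists_lift_algHom [IsAlgClosed L] (C : Type*) [CommRing C] [Algebra O C]
    [Module.Free O C] [Module.Finite O C] (φ : C →ₐ[O] IsLocalRing.ResidueField O) :
    ∃ x : C →ₐ[O] O, ∀ c, φ c = IsLocalRing.residue O (x c) := by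
  classical
  haveI hprime : (RingHom.ker (φ : C →+* IsLocalRing.ResidueField O)).IsPrime :=
    RingHom.ker_isPrime _
  obtain ⟨𝔭, h𝔭min, h𝔭le⟩ := Ideal.exists_minimalPrimes_le
    (show (⊥ : Ideal C) ≤ RingHom.ker (φ : C →+* IsLocalRing.ResidueField O) from bot_le)
  haveI h𝔭prime : 𝔭.IsPrime := h𝔭min.1.1
  have hmin : 𝔭 ∈ minimalPrimes C := h𝔭min
  have hdisj := Ideal.disjoint_nonZeroDivisors_of_mem_minimalPrimes hmin
  have hnot : ∀ a : O, a ≠ 0 → algebraMap O C a ∉ 𝔭 := by
    intro a ha hmem
    refine Set.disjoint_left.mp hdisj hmem ?_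
    rw [SetLike.mem_coe, mem_nonZeroDivisors_iff_right]
    intro c hc
    have h1 : a • c = 0 := by rw [Algebra.smul_def, mul_comm]; exact hc
    exact (smul_eq_zero.mp h1).resolve_left ha
  -- the quotient domain
  haveI : Module.IsTorsionFree O (C ⧸ 𝔭) := by
    refine Module.IsTorsionFree.of_smul_eq_zero ?_
    intro a m ham
    by_cases ha : a = 0
    · exact Or.inl ha
    · right
      obtain ⟨c, rfl⟩ := Ideal.Quotient.mk_surjective m
      have h1 : Ideal.Quotient.mk 𝔭 (algebraMap O C a * c) = 0 := by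
        rw [← Algebra.smul_def]
        exact ham
      rw [Ideal.Quotient.eq_zero_iff_mem] at h1 ⊢
      exact (h𝔭prime.mem_or_mem h1).resolve_left (hnot a ha)
  haveI : Module.IsTorsionFree O L := by
    refine Module.IsTorsionFree.of_smul_eq_zero ?_
    intro a m ham
    rw [Algebra.smul_def] at ham
    rcases mul_eq_zero.mp ham with h | h
    · left
      exact Subtype.ext h
    · exact Or.inr h
  haveI : Module.Finite O (C ⧸ 𝔭) :=
    Module.Finite.of_surjective (Ideal.Quotient.mkₐ O 𝔭).toLinearMap
      (Ideal.Quotient.mkₐ_surjective O 𝔭)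
  haveI : Algebra.IsIntegral O (C ⧸ 𝔭) := Algebra.IsIntegral.of_finite O (C ⧸ 𝔭)
  let g : C ⧸ 𝔭 →ₐ[O] L := IsAlgClosed.lift
  have hginj : Function.Injective g := by
    rw [injective_iff_map_eq_zero]
    intro s hs
    have hker : RingHom.ker (g : C ⧸ 𝔭 →+* L) = ⊥ := by
      apply Ideal.eq_bot_of_comap_eq_bot (R := O)
      rw [eq_bot_iff]
      intro a ha
      rw [Ideal.mem_comap, RingHom.mem_ker] at ha
      have h2 : g (algebraMap O (C ⧸ 𝔭) a) = algebraMap O L a := g.commutes a
      have h3 : algebraMap O L a = 0 := by rw [← h2]; exact ha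
      rw [Ideal.mem_bot]
      exact Subtype.ext h3
    have : s ∈ RingHom.ker (g : C ⧸ 𝔭 →+* L) := hs
    rw [hker] at this
    exact this
  let y : C →ₐ[O] L := g.comp (Ideal.Quotient.mkₐ O 𝔭)
  have hmem : ∀ c : C, y c ∈ O := by
    intro c
    have hint : IsIntegral O (y c) := (Algebra.IsIntegral.isIntegral (R := O) c).map y
    obtain ⟨z, hz⟩ := IsIntegrallyClosed.isIntegral_iff.mp hint
    rw [← hz]
    exact z.2
  let x : C →ₐ[O] O :=
    { toFun := fun c => ⟨y c, hmem c⟩
      map_one' := Subtype.ext (map_one y)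
      map_mul' := fun a b => Subtype.ext (map_mul y a b)
      map_zero' := Subtype.ext (map_zero y)
      map_add' := fun a b => Subtype.ext (map_add y a b)
      commutes' := fun a => Subtype.ext (y.commutes a) }
  refine ⟨x, fun c => ?_⟩
  have hc' : c - algebraMap O C (x c) ∈ 𝔭 := by
    rw [← Ideal.Quotient.eq_zero_iff_mem]
    apply hginj
    rw [map_zero]
    have h1 : g (Ideal.Quotient.mk 𝔭 (c - algebraMap O C (x c))) = y (c - algebraMap O C (x c)) :=
      rfl
    rw [h1, map_sub, y.commutes]
    exact sub_self _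
  have h2 : φ (c - algebraMap O C (x c)) = 0 := h𝔭le hc'
  rw [map_sub, sub_eq_zero, φ.commutes] at h2
  rw [h2]
  rfl

/-- **(A3)**, counting form. -/
theorem card_algHom_residue_le [IsAlgClosed L] (C : Type*) [CommRing C] [Algebra O C]
    [Module.Free O C] [Module.Finite O C] :
    Finite (C →ₐ[O] L) ∧
      Nat.card (C →ₐ[O] IsLocalRing.ResidueField O) ≤ Nat.card (C →ₐ[O] L) := by
  classical
  haveI : Finite (C →ₐ[O] L) := Finite.algHom O C L
  refine ⟨inferInstance, ?_⟩
  choose x hx using exists_lift_algHom O C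
  let incl : O →ₐ[O] L := Algebra.ofId O L
  refine Nat.card_le_card_of_injective (fun φ => incl.comp (x φ)) ?_
  intro φ ψ h
  have hx' : x φ = x ψ := by
    ext c
    have := congrArg (fun f : C →ₐ[O] L => f c) h
    exact this
  ext c
  rw [hx φ c, hx ψ c, hx']

/-- **(A3)** over a base ring `R → O` (e.g. `ℤ_(ℓ) → A`): a ring hom `C → k` compatible with
`R → O → k` lifts to a ring hom `C → O` compatible with `R → O`. -/
theorem exists_lift_ringHom [IsAlgClosed L] (R : Type*) [CommRing R] (ι₀ : R →+* O)
    (C : Type*) [CommRing C] [Algebra R C] [Module.Free R C] [Module.Finite R C]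
    (φ : C →+* IsLocalRing.ResidueField O)
    (hφ : ∀ r : R, φ (algebraMap R C r) = IsLocalRing.residue O (ι₀ r)) :
    ∃ x : C →+* O, (∀ r : R, x (algebraMap R C r) = ι₀ r) ∧
      ∀ c, φ c = IsLocalRing.residue O (x c) := by
  letI : Algebra R O := ι₀.toAlgebra
  letI : Algebra R (IsLocalRing.ResidueField O) :=
    ((IsLocalRing.residue O).comp ι₀).toAlgebra
  haveI : IsScalarTower R O (IsLocalRing.ResidueField O) :=
    IsScalarTower.of_algebraMap_eq (fun r => rfl)
  let φ' : C →ₐ[R] IsLocalRing.ResidueField O := { φ with commutes' := hφ }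
  let Φ : O ⊗[R] C →ₐ[O] IsLocalRing.ResidueField O :=
    Algebra.TensorProduct.lift (Algebra.ofId O _) φ' (fun _ _ => Commute.all _ _)
  obtain ⟨x', hx'⟩ := exists_lift_algHom O (O ⊗[R] C) Φ
  refine ⟨(x' : O ⊗[R] C →+* O).comp
    ((Algebra.TensorProduct.includeRight : C →ₐ[R] O ⊗[R] C) : C →+* O ⊗[R] C), ?_, ?_⟩
  · intro r
    have h1 : (Algebra.TensorProduct.includeRight : C →ₐ[R] O ⊗[R] C) (algebraMap R C r) =
        algebraMap O (O ⊗[R] C) (ι₀ r) := by
      rw [AlgHom.commutes]
      rfl
    show x' ((Algebra.TensorProduct.includeRight : C →ₐ[R] O ⊗[R] C) (algebraMap R C r)) = ι₀ r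
    rw [h1, x'.commutes]
    rfl
  · intro c
    have h1 := hx' ((Algebra.TensorProduct.includeRight : C →ₐ[R] O ⊗[R] C) c)
    have h2 : Φ ((Algebra.TensorProduct.includeRight : C →ₐ[R] O ⊗[R] C) c) = φ c := by
      show Φ (1 ⊗ₜ c) = φ c
      rw [Algebra.TensorProduct.lift_tmul, map_one, one_mul]
      rfl
    rw [← h2, h1]
    rfl

/-! ### (A5) -/

/-- **(A5)** a finitely generated torsion-free module over a valuation ring is free. -/
theorem free_of_finite_of_torsionFree (M : Type*) [AddCommGroup M] [Module O M]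
    [Module.Finite O M] (htf : ∀ (a : O) (x : M), a • x = 0 → a = 0 ∨ x = 0) :
    Module.Free O M := by
  haveI : Module.IsTorsionFree O M := Module.IsTorsionFree.of_smul_eq_zero htf
  have htors : Submodule.torsion O M = ⊥ := Submodule.isTorsionFree_iff_torsion_eq_bot.mp inferInstance
  haveI : Module.Flat O M := Module.Flat.flat_iff_torsion_eq_bot_of_isBezout.mpr htors
  exact Module.free_of_flat_of_isLocalRing

/-- **(A5)** the torsion of a finitely generated module over a valuation ring is killed by a
single nonzero element. -/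
theorem exists_smul_torsion_eq_zero (M : Type*) [AddCommGroup M] [Module O M]
    [Module.Finite O M] :
    ∃ e : O, e ≠ 0 ∧ ∀ x : M, (∃ a : O, a ≠ 0 ∧ a • x = 0) → e • x = 0 := by
  classical
  set T : Submodule O M := Submodule.torsion O M with hT
  have hQ : Submodule.torsion O (M ⧸ T) = ⊥ := Submodule.QuotientTorsion.torsion_eq_bot
  haveI : Module.Flat O (M ⧸ T) := Module.Flat.flat_iff_torsion_eq_bot_of_isBezout.mpr hQ
  haveI : Module.Free O (M ⧸ T) := Module.free_of_flat_of_isLocalRing
  obtain ⟨s, hs⟩ := Module.projective_lifting_property T.mkQ LinearMap.id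
    (Submodule.mkQ_surjective T)
  have hfg : T.FG := by
    set pr : M →ₗ[O] M := LinearMap.id - s ∘ₗ T.mkQ with hpr
    have hrange : T = LinearMap.range pr := by
      apply le_antisymm
      · intro x hx
        refine ⟨x, ?_⟩
        have : T.mkQ x = 0 := (Submodule.Quotient.mk_eq_zero T).mpr hx
        simp [hpr, this]
      · rintro _ ⟨y, rfl⟩
        rw [← Submodule.Quotient.mk_eq_zero T]
        have h1 : T.mkQ (s (T.mkQ y)) = T.mkQ y := by
          have := LinearMap.congr_fun hs (T.mkQ y)
          simpa using this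
        have h2 : T.mkQ (pr y) = 0 := by
          simp only [hpr, LinearMap.sub_apply, LinearMap.id_coe, id_eq, LinearMap.coe_comp,
            Function.comp_apply, map_sub]
          rw [h1, sub_self]
        exact h2
    rw [hrange, LinearMap.range_eq_map]
    exact Submodule.FG.map _ Module.Finite.fg_top
  obtain ⟨S, hS⟩ := hfg
  have hmem : ∀ x ∈ S, ∃ a : O, a ≠ 0 ∧ a • x = 0 := by
    intro x hx
    have hxT : x ∈ T := hS ▸ Submodule.subset_span hx
    obtain ⟨a, ha⟩ := (Submodule.mem_torsion_iff x).mp hxT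
    exact ⟨a, nonZeroDivisors.coe_ne_zero a, ha⟩
  choose! a ha0 ha using hmem
  refine ⟨∏ x ∈ S, a x, Finset.prod_ne_zero_iff.mpr ha0, ?_⟩
  rintro x ⟨b, hb0, hbx⟩
  have hxT : x ∈ T := (Submodule.mem_torsion_iff x).mpr ⟨⟨b, mem_nonZeroDivisors_of_ne_zero hb0⟩, hbx⟩
  rw [← hS] at hxT
  have hle : Submodule.span O (S : Set M) ≤ LinearMap.ker (LinearMap.lsmul O M (∏ x ∈ S, a x)) := by
    rw [Submodule.span_le]
    intro y hy
    rw [SetLike.mem_coe, LinearMap.mem_ker, LinearMap.lsmul_apply,
      ← Finset.mul_prod_erase S a hy, mul_comm, mul_smul, ha y hy, smul_zero]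
  exact hle hxT

/-- **(A5)** with an archimedean value group: the torsion is killed by a power of any nonzero
nonunit. -/
theorem exists_pow_smul_torsion_eq_zero
    (harch : ∀ π : O, π ∈ IsLocalRing.maximalIdeal O → π ≠ 0 → ∀ a : O, a ≠ 0 →
      ∃ n : ℕ, ∃ c : O, π ^ n = a * c)
    (M : Type*) [AddCommGroup M] [Module O M] [Module.Finite O M]
    (π : O) (hπ : π ∈ IsLocalRing.maximalIdeal O) (hπ0 : π ≠ 0) :
    ∃ n : ℕ, ∀ x : M, (∃ a : O, a ≠ 0 ∧ a • x = 0) → π ^ n • x = 0 := by
  obtain ⟨e, he0, he⟩ := exists_smul_torsion_eq_zero O M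
  obtain ⟨n, c, hn⟩ := harch π hπ hπ0 e he0
  refine ⟨n, fun x hx => ?_⟩
  rw [hn, mul_comm, mul_smul, he x hx, smul_zero]

/-! ### (A4) valuation subrings of `ℚ̄` over a prime -/

section QBar

variable (A : ValuationSubring (AlgebraicClosure ℚ))

/-- integers lie in `A` -/
theorem intCast_mem' (m : ℤ) : ((m : ℤ) : AlgebraicClosure ℚ) ∈ A := intCast_mem A m

theorem valuation_intCast_le_one (m : ℤ) : A.valuation ((m : ℤ) : AlgebraicClosure ℚ) ≤ 1 :=
  (A.valuation_le_one_iff _).mpr (intCast_mem A m)

/-- an element of `ℚ̄` integral over `ℤ` lies in `A` -/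
theorem mem_of_isIntegral_int {x : AlgebraicClosure ℚ} (hx : IsIntegral ℤ x) : x ∈ A := by
  have h1 : IsIntegral A x := hx.tower_top
  obtain ⟨z, hz⟩ := IsIntegrallyClosed.isIntegral_iff.mp h1
  rw [← hz]
  exact z.2

/-- every element of `ℚ̄` is a root of a primitive integer polynomial -/
theorem exists_primitive_int_poly (x : AlgebraicClosure ℚ) :
    ∃ P : Polynomial ℤ, P.IsPrimitive ∧ Polynomial.aeval x P = 0 := by
  have h1 : IsAlgebraic ℚ x := (AlgebraicClosure.isAlgebraic ℚ).isAlgebraic x
  have h2 : IsAlgebraic ℤ x := (IsFractionRing.isAlgebraic_iff ℤ ℚ (AlgebraicClosure ℚ)).mpr h1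
  obtain ⟨p, hp0, hp⟩ := h2
  exact ⟨p.primPart, p.isPrimitive_primPart, Polynomial.aeval_primPart_eq_zero hp0 hp⟩

/-- **(A4)** the residue field is algebraically closed. -/
theorem isAlgClosed_residueField : IsAlgClosed (IsLocalRing.ResidueField A) := by
  refine IsAlgClosed.of_exists_root _ ?_
  intro p hpmonic hpirr
  have hsurj : Function.Surjective (IsLocalRing.residue A) := IsLocalRing.residue_surjective
  have hlift : p ∈ Polynomial.lifts (IsLocalRing.residue A) := by
    rw [Polynomial.mem_lifts]
    exact Polynomial.map_surjective _ hsurj p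
  obtain ⟨P, hPmap, hPdeg, hPmonic⟩ :=
    Polynomial.lifts_and_natDegree_eq_and_monic hlift hpmonic
  have hdeg : (P.map (algebraMap A (AlgebraicClosure ℚ))).degree ≠ 0 := by
    rw [Polynomial.degree_map_eq_of_injective (FaithfulSMul.algebraMap_injective A _)]
    rw [Polynomial.degree_eq_natDegree hPmonic.ne_zero, hPdeg]
    have h1 : p.natDegree ≠ 0 := by
      intro h0
      have h2 : p.degree = 0 := by
        rw [Polynomial.degree_eq_natDegree hpmonic.ne_zero, h0]
        rfl
      exact hpirr.not_isUnit (Polynomial.isUnit_iff_degree_eq_zero.mpr h2)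
    exact_mod_cast h1
  obtain ⟨x, hx⟩ := IsAlgClosed.exists_root _ hdeg
  have hint : IsIntegral A x := by
    refine ⟨P, hPmonic, ?_⟩
    rw [← Polynomial.eval_map]
    exact hx
  obtain ⟨z, hz⟩ := IsIntegrallyClosed.isIntegral_iff.mp hint
  refine ⟨IsLocalRing.residue A z, ?_⟩
  have h3 : P.eval z = 0 := by
    apply FaithfulSMul.algebraMap_injective A (AlgebraicClosure ℚ)
    rw [map_zero, ← Polynomial.eval₂_at_apply, Polynomial.eval₂_eq_eval_map, hz]
    exact hx
  rw [← hPmap, Polynomial.eval_map, Polynomial.eval₂_hom, h3, map_zero]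

variable {ℓ : ℕ} [Fact ℓ.Prime]

theorem valuation_prime_lt_one (hA : A.LiesOverPrime ℓ) :
    A.valuation ((ℓ : ℕ) : AlgebraicClosure ℚ) < 1 := hA

/-- integers prime to `ℓ` are units -/
theorem valuation_intCast_eq_one (hA : A.LiesOverPrime ℓ) (m : ℤ) (hm : ¬ (ℓ : ℤ) ∣ m) :
    A.valuation ((m : ℤ) : AlgebraicClosure ℚ) = 1 := by
  have hℓ : Prime (ℓ : ℤ) := Nat.prime_iff_prime_int.mp (Fact.out : ℓ.Prime)
  have hcop : IsCoprime (ℓ : ℤ) m := (Prime.coprime_iff_not_dvd hℓ).mpr hm
  obtain ⟨w, u, hwu⟩ := hcop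
  have h1 : ((w : ℤ) : AlgebraicClosure ℚ) * ((ℓ : ℕ) : AlgebraicClosure ℚ) +
      ((u : ℤ) : AlgebraicClosure ℚ) * ((m : ℤ) : AlgebraicClosure ℚ) = 1 := by
    have := congrArg (fun z : ℤ => (z : AlgebraicClosure ℚ)) hwu
    push_cast at this
    exact this
  by_contra hne
  have hlt : A.valuation ((m : ℤ) : AlgebraicClosure ℚ) < 1 :=
    lt_of_le_of_ne (valuation_intCast_le_one A m) hne
  have h2 : A.valuation (((w : ℤ) : AlgebraicClosure ℚ) * ((ℓ : ℕ) : AlgebraicClosure ℚ)) < 1 := by
    rw [map_mul]
    calc A.valuation ((w : ℤ) : AlgebraicClosure ℚ) * A.valuation ((ℓ : ℕ) : AlgebraicClosure ℚ)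
        ≤ 1 * A.valuation ((ℓ : ℕ) : AlgebraicClosure ℚ) :=
          mul_le_mul_left (valuation_intCast_le_one A w) _
      _ < 1 := by rw [one_mul]; exact hA
  have h3 : A.valuation (((u : ℤ) : AlgebraicClosure ℚ) * ((m : ℤ) : AlgebraicClosure ℚ)) < 1 := by
    rw [map_mul]
    calc A.valuation ((u : ℤ) : AlgebraicClosure ℚ) * A.valuation ((m : ℤ) : AlgebraicClosure ℚ)
        ≤ 1 * A.valuation ((m : ℤ) : AlgebraicClosure ℚ) :=
          mul_le_mul_left (valuation_intCast_le_one A u) _
      _ < 1 := by rw [one_mul]; exact hlt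
  have h4 := A.valuation.map_add_lt h2 h3
  rw [h1, map_one] at h4
  exact lt_irrefl _ h4

/-- integers divisible by `ℓ` have valuation at most that of `ℓ` -/
theorem valuation_intCast_le_of_dvd (m : ℤ) (hm : (ℓ : ℤ) ∣ m) :
    A.valuation ((m : ℤ) : AlgebraicClosure ℚ) ≤ A.valuation ((ℓ : ℕ) : AlgebraicClosure ℚ) := by
  obtain ⟨c, rfl⟩ := hm
  push_cast
  rw [map_mul]
  calc A.valuation ((ℓ : ℕ) : AlgebraicClosure ℚ) * A.valuation ((c : ℤ) : AlgebraicClosure ℚ)
      ≤ A.valuation ((ℓ : ℕ) : AlgebraicClosure ℚ) * 1 :=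
        mul_le_mul_right (valuation_intCast_le_one A c) _
    _ = _ := mul_one _

/-- for every nonzero `a : ℚ̄` some power of `ℓ` lies in `a • A` -/
theorem exists_prime_pow_mul_inv_mem (hA : A.LiesOverPrime ℓ) (a : AlgebraicClosure ℚ)
    (_ha : a ≠ 0) : ∃ s : ℕ, ((ℓ : ℕ) : AlgebraicClosure ℚ) ^ s * a⁻¹ ∈ A := by
  have h1 : IsAlgebraic ℚ a⁻¹ := (AlgebraicClosure.isAlgebraic ℚ).isAlgebraic a⁻¹
  have h2 : IsAlgebraic ℤ a⁻¹ := (IsFractionRing.isAlgebraic_iff ℤ ℚ (AlgebraicClosure ℚ)).mpr h1
  obtain ⟨y, hy0, hy⟩ := h2.exists_integral_multiple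
  have hℓ : Prime (ℓ : ℤ) := Nat.prime_iff_prime_int.mp (Fact.out : ℓ.Prime)
  have hfin : FiniteMultiplicity (ℓ : ℤ) y :=
    Int.finiteMultiplicity_iff.mpr ⟨by
      simpa using (Fact.out : ℓ.Prime).one_lt.ne', hy0⟩
  obtain ⟨c, hc, hcdvd⟩ := hfin.exists_eq_pow_mul_and_not_dvd
  refine ⟨multiplicity (ℓ : ℤ) y, ?_⟩
  have h3 : y • a⁻¹ ∈ A := mem_of_isIntegral_int A hy
  rw [← A.valuation_le_one_iff] at h3 ⊢
  have h4 : y • a⁻¹ = (((ℓ : ℕ) : AlgebraicClosure ℚ) ^ multiplicity (ℓ : ℤ) y * a⁻¹) *
      ((c : ℤ) : AlgebraicClosure ℚ) := by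
    rw [zsmul_eq_mul]
    conv_lhs => rw [hc]
    push_cast
    ring
  rw [h4, map_mul, valuation_intCast_eq_one A hA c hcdvd, mul_one] at h3
  exact h3

/-- a nonzero nonunit has a power of valuation at most that of `ℓ` -/
theorem exists_pow_valuation_le_prime (hA : A.LiesOverPrime ℓ) (π : AlgebraicClosure ℚ)
    (hπ0 : π ≠ 0) (hπ : A.valuation π < 1) :
    ∃ N : ℕ, A.valuation (π ^ N) ≤ A.valuation ((ℓ : ℕ) : AlgebraicClosure ℚ) := by
  classical
  obtain ⟨P, hPprim, hP⟩ := exists_primitive_int_poly π
  have hex : ∃ i, ¬ (ℓ : ℤ) ∣ P.coeff i := by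
    by_contra h
    push Not at h
    have h1 : Polynomial.C (ℓ : ℤ) ∣ P := (Polynomial.C_dvd_iff_dvd_coeff _ _).mpr h
    have h2 : IsUnit (ℓ : ℤ) := hPprim _ h1
    have hℓ : Prime (ℓ : ℤ) := Nat.prime_iff_prime_int.mp (Fact.out : ℓ.Prime)
    exact hℓ.not_isUnit h2
  set i₀ := Nat.find hex with hi₀
  have hi₀spec : ¬ (ℓ : ℤ) ∣ P.coeff i₀ := Nat.find_spec hex
  have hi₀min : ∀ i, i < i₀ → (ℓ : ℤ) ∣ P.coeff i := fun i hi => by
    by_contra h
    exact Nat.find_min hex hi h
  refine ⟨i₀, ?_⟩
  have hvpos : A.valuation π ≠ 0 := (_root_.map_ne_zero _).mpr hπ0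
  -- the terms
  set f : ℕ → AlgebraicClosure ℚ := fun i => ((P.coeff i : ℤ) : AlgebraicClosure ℚ) * π ^ i with hf
  have hsum : ∑ i ∈ P.support, f i = 0 := by
    rw [← hP, Polynomial.aeval_def, Polynomial.eval₂_eq_sum, Polynomial.sum_def]
    refine Finset.sum_congr rfl (fun i _ => ?_)
    simp [hf]
  have hi₀supp : i₀ ∈ P.support := by
    rw [Polynomial.mem_support_iff]
    intro h0
    exact hi₀spec (h0 ▸ dvd_zero _)
  have hsplit : f i₀ = - ∑ i ∈ P.support.erase i₀, f i := by
    rw [eq_neg_iff_add_eq_zero, Finset.add_sum_erase _ _ hi₀supp]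
    exact hsum
  have hfi₀ : A.valuation (f i₀) = A.valuation (π ^ i₀) := by
    simp only [hf]
    rw [map_mul, valuation_intCast_eq_one A hA _ hi₀spec, one_mul]
  set g := max (A.valuation ((ℓ : ℕ) : AlgebraicClosure ℚ)) (A.valuation (π ^ (i₀ + 1))) with hg
  have hbound : A.valuation (∑ i ∈ P.support.erase i₀, f i) ≤ g := by
    refine A.valuation.map_sum_le (fun i hi => ?_)
    have hne : i ≠ i₀ := Finset.ne_of_mem_erase hi
    simp only [hf]
    rw [map_mul]
    rcases lt_or_gt_of_ne hne with hlt | hgt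
    · refine le_trans ?_ (le_max_left _ _)
      calc A.valuation ((P.coeff i : ℤ) : AlgebraicClosure ℚ) * A.valuation (π ^ i)
          ≤ A.valuation ((ℓ : ℕ) : AlgebraicClosure ℚ) * 1 := by
            refine mul_le_mul' (valuation_intCast_le_of_dvd A _ (hi₀min i hlt)) ?_
            rw [map_pow]
            exact pow_le_one' hπ.le i
        _ = _ := mul_one _
    · refine le_trans ?_ (le_max_right _ _)
      calc A.valuation ((P.coeff i : ℤ) : AlgebraicClosure ℚ) * A.valuation (π ^ i)
          ≤ 1 * A.valuation (π ^ (i₀ + 1)) := by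
            refine mul_le_mul' (valuation_intCast_le_one A _) ?_
            rw [map_pow, map_pow]
            exact pow_le_pow_right_of_le_one' hπ.le hgt
        _ = _ := one_mul _
  have h5 : A.valuation (π ^ i₀) ≤ g := by
    rw [← hfi₀, hsplit, Valuation.map_neg]
    exact hbound
  rcases le_max_iff.mp h5 with h6 | h6
  · exact h6
  · exfalso
    rw [map_pow, map_pow, pow_succ] at h6
    have h7 : A.valuation π ^ i₀ * A.valuation π < A.valuation π ^ i₀ := by
      have hpos : 0 < A.valuation π ^ i₀ := zero_lt_iff.mpr (pow_ne_zero _ hvpos)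
      calc A.valuation π ^ i₀ * A.valuation π < A.valuation π ^ i₀ * 1 :=
            mul_lt_mul_of_pos_left hπ hpos
        _ = _ := mul_one _
    exact lt_irrefl _ (lt_of_le_of_lt h6 h7)

/-- **(A4)** the value group is archimedean (the shape of `Archimedean'` of the hub). -/
theorem archimedean' (hA : A.LiesOverPrime ℓ) :
    ∀ π a : AlgebraicClosure ℚ, π ∈ A → π ≠ 0 → π⁻¹ ∉ A → a ∈ A → a ≠ 0 →
      ∃ N : ℕ, π ^ N * a⁻¹ ∈ A := by
  intro π a _ hπ0 hπinv _ ha0
  have hπ : A.valuation π < 1 := by
    by_contra h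
    push Not at h
    have h1 : A.valuation π⁻¹ ≤ 1 := by
      rw [map_inv₀]
      exact inv_le_one_of_one_le₀ h
    exact hπinv ((A.valuation_le_one_iff _).mp h1)
  obtain ⟨N₁, hN₁⟩ := exists_pow_valuation_le_prime A hA π hπ0 hπ
  obtain ⟨s, hs⟩ := exists_prime_pow_mul_inv_mem A hA a ha0
  refine ⟨N₁ * s, ?_⟩
  rw [← A.valuation_le_one_iff] at hs ⊢
  rw [map_mul] at hs ⊢
  refine le_trans ?_ hs
  refine mul_le_mul' ?_ le_rfl
  rw [pow_mul, map_pow _ (π ^ N₁) s, map_pow _ (((ℓ : ℕ) : AlgebraicClosure ℚ)) s]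
  exact pow_le_pow_left' hN₁ s

/-- **(A4)** the value group is archimedean. -/
theorem archimedean (hA : A.LiesOverPrime ℓ) (π : A) (hπ : π ∈ IsLocalRing.maximalIdeal A)
    (hπ0 : π ≠ 0) (a : A) (ha : a ≠ 0) : ∃ n : ℕ, ∃ c : A, π ^ n = a * c := by
  have hπ0' : (π : AlgebraicClosure ℚ) ≠ 0 := fun h => hπ0 (Subtype.ext h)
  have ha0' : (a : AlgebraicClosure ℚ) ≠ 0 := fun h => ha (Subtype.ext h)
  have hπinv : (π : AlgebraicClosure ℚ)⁻¹ ∉ A := by
    have h1 : A.valuation (π : AlgebraicClosure ℚ) < 1 := (A.valuation_lt_one_iff π).mp hπ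
    intro hmem
    have h2 : A.valuation (π : AlgebraicClosure ℚ)⁻¹ ≤ 1 := (A.valuation_le_one_iff _).mpr hmem
    rw [map_inv₀] at h2
    have h3 : A.valuation (π : AlgebraicClosure ℚ) ≠ 0 := (_root_.map_ne_zero _).mpr hπ0'
    have h4 : 1 ≤ A.valuation (π : AlgebraicClosure ℚ) := by
      rwa [inv_le_one₀ (zero_lt_iff.mpr h3)] at h2
    exact lt_irrefl _ (lt_of_lt_of_le h1 h4)
  obtain ⟨N, hN⟩ := archimedean' A hA π a π.2 hπ0' hπinv a.2 ha0'
  refine ⟨N, ⟨_, hN⟩, Subtype.ext ?_⟩
  show ((π : AlgebraicClosure ℚ)) ^ N = (a : AlgebraicClosure ℚ) * ((π : AlgebraicClosure ℚ) ^ N * (a : AlgebraicClosure ℚ)⁻¹)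
  field_simp



/-- **(A4)** the residue field has characteristic `ℓ`. -/
theorem charP_residueField (hA : A.LiesOverPrime ℓ) : CharP (IsLocalRing.ResidueField A) ℓ := by
  rw [CharP.charP_iff_prime_eq_zero (Fact.out : ℓ.Prime)]
  have h1 : ((ℓ : ℕ) : A) ∈ IsLocalRing.maximalIdeal A := by
    rw [A.valuation_lt_one_iff]
    have : (((ℓ : ℕ) : A) : AlgebraicClosure ℚ) = ((ℓ : ℕ) : AlgebraicClosure ℚ) := by
      push_cast
      rfl
    rw [this]
    exact hA
  have h2 : IsLocalRing.residue A ((ℓ : ℕ) : A) = 0 :=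
    (IsLocalRing.residue_eq_zero_iff _).mpr h1
  rw [map_natCast] at h2
  exact h2

/-- **(A4)** the residue field is algebraic over the prime field (integer polynomial form). -/
theorem exists_int_poly_residue (_hA : A.LiesOverPrime ℓ) (x : IsLocalRing.ResidueField A) :
    ∃ P : Polynomial ℤ, P.map (Int.castRingHom (ZMod ℓ)) ≠ 0 ∧
      Polynomial.eval₂ (Int.castRingHom (IsLocalRing.ResidueField A)) x P = 0 := by
  obtain ⟨z, rfl⟩ := IsLocalRing.residue_surjective x
  obtain ⟨P, hPprim, hP⟩ := exists_primitive_int_poly (z : AlgebraicClosure ℚ)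
  refine ⟨P, ?_, ?_⟩
  · intro h0
    have h1 : ∀ i, (ℓ : ℤ) ∣ P.coeff i := by
      intro i
      have h2 := congrArg (fun q => Polynomial.coeff q i) h0
      simp only [Polynomial.coeff_map, Polynomial.coeff_zero, eq_intCast] at h2
      exact (ZMod.intCast_zmod_eq_zero_iff_dvd _ _).mp h2
    have h3 : Polynomial.C (ℓ : ℤ) ∣ P := (Polynomial.C_dvd_iff_dvd_coeff _ _).mpr h1
    have hℓ : Prime (ℓ : ℤ) := Nat.prime_iff_prime_int.mp (Fact.out : ℓ.Prime)
    exact hℓ.not_isUnit (hPprim _ h3)
  · have h4 : Polynomial.eval₂ (Int.castRingHom A) z P = 0 := by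
      apply Subtype.ext
      have h5 : ((Polynomial.eval₂ (Int.castRingHom A) z P : A) : AlgebraicClosure ℚ) =
          Polynomial.eval₂ (A.subtype.comp (Int.castRingHom A)) (A.subtype z) P :=
        Polynomial.hom_eval₂ P (Int.castRingHom A) A.subtype z
      rw [h5]
      rw [Polynomial.aeval_def] at hP
      have h6 : A.subtype.comp (Int.castRingHom A) = algebraMap ℤ (AlgebraicClosure ℚ) :=
        RingHom.ext_int _ _
      rw [h6]
      exact hP
    have h7 := Polynomial.hom_eval₂ P (Int.castRingHom A) (IsLocalRing.residue A) z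
    rw [h4, map_zero] at h7
    have h8 : (IsLocalRing.residue A).comp (Int.castRingHom A) =
        Int.castRingHom (IsLocalRing.ResidueField A) := RingHom.ext_int _ _
    rw [h8] at h7
    exact h7.symm

/-- **(A4)** the residue field is algebraic over `ZMod ℓ` (for any algebra structure). -/
theorem isAlgebraic_residueField (hA : A.LiesOverPrime ℓ)
    [Algebra (ZMod ℓ) (IsLocalRing.ResidueField A)] :
    Algebra.IsAlgebraic (ZMod ℓ) (IsLocalRing.ResidueField A) := by
  refine ⟨fun x => ?_⟩
  obtain ⟨P, hP0, hP⟩ := exists_int_poly_residue A hA x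
  refine ⟨P.map (Int.castRingHom (ZMod ℓ)), hP0, ?_⟩
  rw [Polynomial.aeval_def, Polynomial.eval₂_map]
  have h1 : (algebraMap (ZMod ℓ) (IsLocalRing.ResidueField A)).comp (Int.castRingHom (ZMod ℓ)) =
      Int.castRingHom (IsLocalRing.ResidueField A) := RingHom.ext_int _ _
  rw [h1]
  exact hP

end QBar

end Fermat.Agent.S18.ValRing
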