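import Mathlib
import Fermat.Prelude.Def_ModularCurve_IgusaScheme
import Fermat.Prelude.Def_ModularCurve_X0ModL

set_option autoImplicit false

/-!
# S28: the Gauss valuation ring inside `ℚ((q))`

`Zl ℓ = ℤ_(ℓ)`, its residue map to `ZMod ℓ`, Laurent series over `ℤ_(ℓ)` with the reduction
`red` to `𝔽_ℓ((q))`, the subring `gaussSub ℓ` of `ℚ((q))` of fractions `a / s` with
`red s ≠ 0`, and the reduction homomorphism `rhoT : gaussSub ℓ →+* 𝔽_ℓ((q))` whose kernel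
is `ℓ · gaussSub ℓ`.
-/

open ModularCurve

namespace Fermat.Agent.S28.Gauss

variable (ℓ : ℕ) [Fact ℓ.Prime]

/-- `ℤ_(ℓ)` as a subring of `ℚ`. -/
abbrev Zl : Subring ℚ := GaloisRep.ratLocalizedAt ℓ

theorem den_ne_zero (x : Zl ℓ) : (((x : ℚ).den : ℕ) : ZMod ℓ) ≠ 0 := by
  have h : (x : ℚ).den.Coprime ℓ := x.2
  rw [Ne, ZMod.natCast_eq_zero_iff]
  intro hd
  have h1 : ℓ = 1 := Nat.Coprime.eq_one_of_dvd h.symm hd
  exact (Fact.out : ℓ.Prime).one_lt.ne' h1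

/-- the residue map `ℤ_(ℓ) → 𝔽_ℓ`. -/
def res : Zl ℓ →+* ZMod ℓ where
  toFun x := ((x : ℚ) : ZMod ℓ)
  map_one' := by simp
  map_mul' x y := by
    show (((x * y : Zl ℓ) : ℚ) : ZMod ℓ) = _
    rw [Subring.coe_mul, Rat.cast_mul_of_ne_zero (den_ne_zero ℓ x) (den_ne_zero ℓ y)]
  map_zero' := by simp
  map_add' x y := by
    show (((x + y : Zl ℓ) : ℚ) : ZMod ℓ) = _
    rw [Subring.coe_add, Rat.cast_add_of_ne_zero (den_ne_zero ℓ x) (den_ne_zero ℓ y)]

theorem res_apply (x : Zl ℓ) : res ℓ x = ((x : ℚ) : ZMod ℓ) := rfl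

omit [Fact ℓ.Prime] in
theorem natCast_mem_Zl (n : ℕ) : (n : ℚ) ∈ Zl ℓ := natCast_mem _ n

theorem res_natCast_self : res ℓ (ℓ : Zl ℓ) = 0 := by
  rw [map_natCast]; exact ZMod.natCast_self ℓ

/-- the kernel of the residue map is generated by `ℓ`. -/
theorem exists_eq_mul_of_res_eq_zero (x : Zl ℓ) (hx : res ℓ x = 0) :
    ∃ y : Zl ℓ, x = (ℓ : Zl ℓ) * y := by
  have hℓ : ℓ.Prime := Fact.out
  rw [res_apply, Rat.cast_def] at hx
  have hnum : (((x : ℚ).num : ℤ) : ZMod ℓ) = 0 := by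
    rcases div_eq_zero_iff.mp hx with h | h
    · exact h
    · exact absurd h (den_ne_zero ℓ x)
  rw [ZMod.intCast_zmod_eq_zero_iff_dvd] at hnum
  obtain ⟨m, hm⟩ := hnum
  have hmem : (Rat.divInt m ((x : ℚ).den : ℤ)) ∈ Zl ℓ := by
    show (Rat.divInt m ((x : ℚ).den : ℤ)).den.Coprime ℓ
    have h1 : ((Rat.divInt m ((x : ℚ).den : ℤ)).den : ℤ) ∣ ((x : ℚ).den : ℤ) :=
      Rat.den_dvd m ((x : ℚ).den : ℤ)
    have h2 : (Rat.divInt m ((x : ℚ).den : ℤ)).den ∣ (x : ℚ).den := Int.natCast_dvd_natCast.mp h1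
    exact Nat.Coprime.coprime_dvd_left h2 x.2
  refine ⟨⟨_, hmem⟩, Subtype.ext ?_⟩
  show (x : ℚ) = (ℓ : ℚ) * (Rat.divInt m ((x : ℚ).den : ℤ))
  have hden : ((x : ℚ).den : ℚ) ≠ 0 := Nat.cast_ne_zero.mpr (x : ℚ).den_ne_zero
  have hx' : (x : ℚ) = ((x : ℚ).num : ℚ) / ((x : ℚ).den : ℚ) := (Rat.num_div_den (x : ℚ)).symm
  rw [Rat.divInt_eq_div]
  conv_lhs => rw [hx', hm]
  push_cast
  field_simp

theorem natCast_ne_zero_Zl : (ℓ : Zl ℓ) ≠ 0 := by
  intro h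
  have := congrArg (Subring.subtype (Zl ℓ)) h
  simp at this
  exact (Fact.out : ℓ.Prime).ne_zero this

/-- elements of `ℤ_(ℓ)` have nonnegative `ℓ`-adic valuation -/
theorem padicValRat_nonneg (x : Zl ℓ) : 0 ≤ padicValRat ℓ (x : ℚ) := by
  rw [padicValRat_def]
  have h : padicValNat ℓ (x : ℚ).den = 0 := by
    apply padicValNat.eq_zero_of_not_dvd
    intro hd
    have h1 : ℓ = 1 := Nat.Coprime.eq_one_of_dvd (x.2 : (x : ℚ).den.Coprime ℓ).symm hd
    exact (Fact.out : ℓ.Prime).one_lt.ne' h1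
  rw [h]
  simp

/-- Laurent series over `ℤ_(ℓ)`. -/
abbrev LZ : Type := LaurentSeries (Zl ℓ)

/-- the embedding `ℤ_(ℓ)((q)) → ℚ((q))`. -/
noncomputable def emb : LZ ℓ →+* LaurentSeries ℚ := coeffMap (Zl ℓ).subtype

/-- the reduction `ℤ_(ℓ)((q)) → 𝔽_ℓ((q))`. -/
noncomputable def red : LZ ℓ →+* LaurentSeries (ZMod ℓ) := coeffMap (res ℓ)

omit [Fact ℓ.Prime] in
theorem emb_coeff (a : LZ ℓ) (k : ℤ) : (emb ℓ a).coeff k = (a.coeff k : ℚ) := rfl

theorem red_coeff (a : LZ ℓ) (k : ℤ) : (red ℓ a).coeff k = res ℓ (a.coeff k) := rfl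

omit [Fact ℓ.Prime] in
theorem emb_injective : Function.Injective (emb ℓ) := by
  intro a b h
  ext k
  have := congrArg (fun x : LaurentSeries ℚ => x.coeff k) h
  simpa [emb_coeff] using this

theorem coeff_natCast_mul {R : Type*} [CommRing R] (n : ℕ) (a : LaurentSeries R) (k : ℤ) :
    ((n : LaurentSeries R) * a).coeff k = n * a.coeff k := by
  rw [← nsmul_eq_mul, HahnSeries.coeff_nsmul]
  simp

theorem red_natCast_self : red ℓ (ℓ : LZ ℓ) = 0 := by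
  rw [map_natCast]
  have : ((ℓ : ZMod ℓ)) = 0 := ZMod.natCast_self ℓ
  rw [← map_natCast (HahnSeries.C : ZMod ℓ →+* LaurentSeries (ZMod ℓ)), this, map_zero]

/-- division by `ℓ` on the kernel of the residue map, extended by zero -/
noncomputable def divl : ZeroHom (Zl ℓ) (Zl ℓ) where
  toFun c := by
    classical
    exact if h : res ℓ c = 0 then (exists_eq_mul_of_res_eq_zero ℓ c h).choose else 0
  map_zero' := by
    classical
    have h : res ℓ (0 : Zl ℓ) = 0 := map_zero _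
    simp only [dif_pos h]
    have := (exists_eq_mul_of_res_eq_zero ℓ 0 h).choose_spec
    exact ((mul_eq_zero.mp this.symm).resolve_left (natCast_ne_zero_Zl ℓ))

theorem mul_divl (c : Zl ℓ) (h : res ℓ c = 0) : (ℓ : Zl ℓ) * divl ℓ c = c := by
  classical
  show (ℓ : Zl ℓ) * (if h : res ℓ c = 0 then (exists_eq_mul_of_res_eq_zero ℓ c h).choose else 0) = c
  rw [dif_pos h]
  exact (exists_eq_mul_of_res_eq_zero ℓ c h).choose_spec.symm

/-- the kernel of `red` is generated by `ℓ`. -/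
theorem exists_eq_mul_of_red_eq_zero (a : LZ ℓ) (ha : red ℓ a = 0) :
    ∃ a' : LZ ℓ, a = (ℓ : LZ ℓ) * a' := by
  refine ⟨a.map (divl ℓ), ?_⟩
  apply HahnSeries.ext
  funext k
  rw [coeff_natCast_mul]
  show a.coeff k = (ℓ : Zl ℓ) * divl ℓ (a.coeff k)
  rw [mul_divl]
  have := congrArg (fun x : LaurentSeries (ZMod ℓ) => x.coeff k) ha
  simpa [red_coeff] using this

/-- Gauss factorisation: a nonzero series is `ℓ^m` times a series with nonzero reduction. -/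
theorem exists_pow_mul (a : LZ ℓ) (ha : a ≠ 0) :
    ∃ (m : ℕ) (a' : LZ ℓ), a = (ℓ : LZ ℓ) ^ m * a' ∧ red ℓ a' ≠ 0 := by
  have hℓ : ℓ.Prime := Fact.out
  obtain ⟨k, hk⟩ : ∃ k, a.coeff k ≠ 0 := by
    by_contra hcon
    push Not at hcon
    exact ha (HahnSeries.ext (funext hcon))
  have key : ∀ (v : ℕ) (a : LZ ℓ), a.coeff k ≠ 0 → padicValRat ℓ ((a.coeff k : Zl ℓ) : ℚ) ≤ v →
      ∃ (m : ℕ) (a' : LZ ℓ), a = (ℓ : LZ ℓ) ^ m * a' ∧ red ℓ a' ≠ 0 := by
    intro v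
    induction v with
    | zero =>
      intro a hak hv
      by_cases hr : red ℓ a = 0
      · exfalso
        obtain ⟨a', rfl⟩ := exists_eq_mul_of_red_eq_zero ℓ a hr
        rw [coeff_natCast_mul] at hak hv
        have h1 : a'.coeff k ≠ 0 := fun h => hak (by rw [h, mul_zero])
        have h2 : ((a'.coeff k : Zl ℓ) : ℚ) ≠ 0 := fun h => h1 (Subtype.ext h)
        have h3 : padicValRat ℓ (((ℓ : Zl ℓ) * a'.coeff k : Zl ℓ) : ℚ)
            = 1 + padicValRat ℓ ((a'.coeff k : Zl ℓ) : ℚ) := by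
          rw [Subring.coe_mul, padicValRat.mul (by simpa using hℓ.ne_zero) h2]
          congr 1
          simpa using padicValRat.self hℓ.one_lt
        have h4 := padicValRat_nonneg ℓ (a'.coeff k)
        rw [h3] at hv
        push_cast at hv
        omega
      · exact ⟨0, a, by simp, hr⟩
    | succ v ih =>
      intro a hak hv
      by_cases hr : red ℓ a = 0
      · obtain ⟨a', rfl⟩ := exists_eq_mul_of_red_eq_zero ℓ a hr
        rw [coeff_natCast_mul] at hak hv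
        have h1 : a'.coeff k ≠ 0 := fun h => hak (by rw [h, mul_zero])
        have h2 : ((a'.coeff k : Zl ℓ) : ℚ) ≠ 0 := fun h => h1 (Subtype.ext h)
        have h3 : padicValRat ℓ (((ℓ : Zl ℓ) * a'.coeff k : Zl ℓ) : ℚ)
            = 1 + padicValRat ℓ ((a'.coeff k : Zl ℓ) : ℚ) := by
          rw [Subring.coe_mul, padicValRat.mul (by simpa using hℓ.ne_zero) h2]
          congr 1
          simpa using padicValRat.self hℓ.one_lt
        rw [h3] at hv
        obtain ⟨m, a'', rfl, hne⟩ := ih a' h1 (by push_cast at hv ⊢; omega)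
        exact ⟨m + 1, a'', by rw [pow_succ']; ring, hne⟩
      · exact ⟨0, a, by simp, hr⟩
  have h0 := padicValRat_nonneg ℓ (a.coeff k)
  exact key (padicValRat ℓ ((a.coeff k : Zl ℓ) : ℚ)).toNat a hk (by rw [Int.toNat_of_nonneg h0])

/-- the Gauss ring: fractions `a / s` in `ℚ((q))` with `a, s ∈ ℤ_(ℓ)((q))` and `red s ≠ 0`. -/
noncomputable def gaussSub : Subring (LaurentSeries ℚ) where
  carrier := {x | ∃ s a : LZ ℓ, red ℓ s ≠ 0 ∧ emb ℓ s * x = emb ℓ a}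
  mul_mem' := by
    rintro x y ⟨s, a, hs, h⟩ ⟨s', a', hs', h'⟩
    refine ⟨s * s', a * a', ?_, ?_⟩
    · rw [map_mul]; exact mul_ne_zero hs hs'
    · rw [map_mul, map_mul, ← h, ← h']; ring
  one_mem' := ⟨1, 1, by rw [map_one]; exact one_ne_zero, by simp⟩
  add_mem' := by
    rintro x y ⟨s, a, hs, h⟩ ⟨s', a', hs', h'⟩
    refine ⟨s * s', a * s' + a' * s, ?_, ?_⟩
    · rw [map_mul]; exact mul_ne_zero hs hs'
    · rw [map_mul, map_add, map_mul, map_mul, ← h, ← h']; ring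
  zero_mem' := ⟨1, 0, by rw [map_one]; exact one_ne_zero, by simp⟩
  neg_mem' := by
    rintro x ⟨s, a, hs, h⟩
    exact ⟨s, -a, hs, by rw [map_neg, ← h]; ring⟩

theorem mem_gaussSub {x : LaurentSeries ℚ} :
    x ∈ gaussSub ℓ ↔ ∃ s a : LZ ℓ, red ℓ s ≠ 0 ∧ emb ℓ s * x = emb ℓ a := Iff.rfl

theorem emb_mem_gaussSub (b : LZ ℓ) : emb ℓ b ∈ gaussSub ℓ :=
  ⟨1, b, by rw [map_one]; exact one_ne_zero, by simp⟩

theorem rho_aux {x : LaurentSeries ℚ} {s a s' a' : LZ ℓ} (h : emb ℓ s * x = emb ℓ a)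
    (h' : emb ℓ s' * x = emb ℓ a') : red ℓ a * red ℓ s' = red ℓ a' * red ℓ s := by
  have : a * s' = a' * s := by
    apply emb_injective
    rw [map_mul, map_mul, ← h, ← h']; ring
  rw [← map_mul, ← map_mul, this]

/-- the reduction of an element of the Gauss ring -/
noncomputable def rhoFun (x : gaussSub ℓ) : LaurentSeries (ZMod ℓ) :=
  red ℓ x.2.choose_spec.choose / red ℓ x.2.choose

theorem rhoFun_eq (x : gaussSub ℓ) (s a : LZ ℓ) (hs : red ℓ s ≠ 0)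
    (h : emb ℓ s * (x : LaurentSeries ℚ) = emb ℓ a) : rhoFun ℓ x = red ℓ a / red ℓ s := by
  have hs0 := x.2.choose_spec.choose_spec.1
  have h0 := x.2.choose_spec.choose_spec.2
  rw [rhoFun, div_eq_div_iff hs0 hs]
  exact rho_aux ℓ h0 h

/-- the reduction homomorphism on the Gauss ring -/
noncomputable def rhoT : gaussSub ℓ →+* LaurentSeries (ZMod ℓ) where
  toFun := rhoFun ℓ
  map_one' := by
    rw [rhoFun_eq ℓ 1 1 1 (by rw [map_one]; exact one_ne_zero) (by simp)]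
    simp
  map_mul' x y := by
    obtain ⟨s, a, hs, h⟩ := x.2
    obtain ⟨s', a', hs', h'⟩ := y.2
    rw [rhoFun_eq ℓ x s a hs h, rhoFun_eq ℓ y s' a' hs' h',
      rhoFun_eq ℓ (x * y) (s * s') (a * a') (by rw [map_mul]; exact mul_ne_zero hs hs')
        (by rw [map_mul, map_mul, ← h, ← h']; push_cast; ring)]
    rw [map_mul, map_mul]
    field_simp
  map_zero' := by
    rw [rhoFun_eq ℓ 0 1 0 (by rw [map_one]; exact one_ne_zero) (by simp)]
    simp
  map_add' x y := by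
    obtain ⟨s, a, hs, h⟩ := x.2
    obtain ⟨s', a', hs', h'⟩ := y.2
    rw [rhoFun_eq ℓ x s a hs h, rhoFun_eq ℓ y s' a' hs' h',
      rhoFun_eq ℓ (x + y) (s * s') (a * s' + a' * s) (by rw [map_mul]; exact mul_ne_zero hs hs')
        (by rw [map_mul, map_add, map_mul, map_mul, ← h, ← h']; push_cast; ring)]
    rw [map_mul, map_add, map_mul, map_mul]
    field_simp

theorem rhoT_eq (x : gaussSub ℓ) (s a : LZ ℓ) (hs : red ℓ s ≠ 0)
    (h : emb ℓ s * (x : LaurentSeries ℚ) = emb ℓ a) : rhoT ℓ x = red ℓ a / red ℓ s :=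
  rhoFun_eq ℓ x s a hs h

theorem rhoT_emb (b : LZ ℓ) : rhoT ℓ ⟨emb ℓ b, emb_mem_gaussSub ℓ b⟩ = red ℓ b := by
  rw [rhoT_eq ℓ _ 1 b (by rw [map_one]; exact one_ne_zero) (by simp)]
  simp

theorem natCast_ne_zero_laurent : ((ℓ : ℕ) : LaurentSeries ℚ) ≠ 0 := by
  rw [← map_natCast (HahnSeries.C : ℚ →+* LaurentSeries ℚ)]
  intro h
  have h1 : ((ℓ : ℕ) : ℚ) = 0 := HahnSeries.C_injective (by rw [h, map_zero])
  exact (Fact.out : ℓ.Prime).ne_zero (by exact_mod_cast h1)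

/-- the kernel of the reduction is generated by `ℓ`. -/
theorem exists_eq_mul_of_rhoT_eq_zero (x : gaussSub ℓ) (hx : rhoT ℓ x = 0) :
    ∃ y : gaussSub ℓ, (x : LaurentSeries ℚ) = (ℓ : LaurentSeries ℚ) * (y : LaurentSeries ℚ) := by
  obtain ⟨s, a, hs, h⟩ := x.2
  rw [rhoT_eq ℓ x s a hs h, div_eq_zero_iff] at hx
  have ha : red ℓ a = 0 := hx.resolve_right hs
  obtain ⟨a', rfl⟩ := exists_eq_mul_of_red_eq_zero ℓ a ha
  have hℓ := natCast_ne_zero_laurent ℓ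
  refine ⟨⟨(ℓ : LaurentSeries ℚ)⁻¹ * (x : LaurentSeries ℚ), s, a', hs, ?_⟩, ?_⟩
  · rw [map_mul, map_natCast] at h
    rw [← mul_assoc, mul_comm (emb ℓ s), mul_assoc, h, ← mul_assoc, inv_mul_cancel₀ hℓ, one_mul]
  · show (x : LaurentSeries ℚ) = (ℓ : LaurentSeries ℚ) * ((ℓ : LaurentSeries ℚ)⁻¹ * x)
    rw [← mul_assoc, mul_inv_cancel₀ hℓ, one_mul]

/-- fractions of integral series are in the Gauss ring, or their inverses are. -/
theorem mem_or_inv_mem {x : LaurentSeries ℚ} {a b : LZ ℓ} (hb : b ≠ 0)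
    (h : emb ℓ b * x = emb ℓ a) : x ∈ gaussSub ℓ ∨ x⁻¹ ∈ gaussSub ℓ := by
  have hℓ := natCast_ne_zero_laurent ℓ
  have hb' : emb ℓ b ≠ 0 := fun h0 => hb (emb_injective ℓ (by rw [h0, map_zero]))
  rcases eq_or_ne a 0 with rfl | ha
  · left
    rw [map_zero] at h
    rw [(mul_eq_zero.mp h).resolve_left hb']
    exact (gaussSub ℓ).zero_mem
  obtain ⟨m, a₀, rfl, ha₀⟩ := exists_pow_mul ℓ a ha
  obtain ⟨m', b₀, rfl, hb₀⟩ := exists_pow_mul ℓ b hb
  simp only [map_mul, map_pow, map_natCast] at h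
  rcases le_total m' m with hmm | hmm
  · left
    obtain ⟨d, rfl⟩ := Nat.exists_eq_add_of_le hmm
    refine ⟨b₀, (ℓ : LZ ℓ) ^ d * a₀, hb₀, ?_⟩
    rw [map_mul, map_pow, map_natCast]
    have h2 : (ℓ : LaurentSeries ℚ) ^ m' * (emb ℓ b₀ * x)
        = (ℓ : LaurentSeries ℚ) ^ m' * ((ℓ : LaurentSeries ℚ) ^ d * emb ℓ a₀) := by
      rw [← mul_assoc, h, pow_add]; ring
    exact mul_left_cancel₀ (pow_ne_zero m' hℓ) h2
  · right
    obtain ⟨d, rfl⟩ := Nat.exists_eq_add_of_le hmm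
    have ha₀' : emb ℓ a₀ ≠ 0 := fun h0 => ha₀ (by
      have : a₀ = 0 := emb_injective ℓ (by rw [h0, map_zero])
      rw [this, map_zero])
    have hx : x ≠ 0 := by
      rintro rfl
      rw [mul_zero] at h
      exact (mul_ne_zero (pow_ne_zero m hℓ) ha₀') h.symm
    refine ⟨a₀, (ℓ : LZ ℓ) ^ d * b₀, ha₀, ?_⟩
    rw [map_mul, map_pow, map_natCast]
    have h2 : (ℓ : LaurentSeries ℚ) ^ m * (emb ℓ a₀ * x⁻¹ * x)
        = (ℓ : LaurentSeries ℚ) ^ m * ((ℓ : LaurentSeries ℚ) ^ d * emb ℓ b₀ * x) := by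
      rw [inv_mul_cancel_right₀ hx, ← h, pow_add]; ring
    exact mul_right_cancel₀ hx (mul_left_cancel₀ (pow_ne_zero m hℓ) h2)

end Fermat.Agent.S28.Gauss
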