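import Mathlib
import Fermat.Prelude.Def_ModularCurve_IgusaScheme
import Fermat.Prelude.Def_ModularCurve_X0ModL
import Fermat.Prelude.Thm_ModularCurve_coeffMap_qExpand
import Fermat.Agent.S28_Gauss

/-!
# S28 kernel block, base part

* `fracField ℓ`: the field of fractions of `Z_(ℓ)((q))` inside `ℚ((q))`; contains the full
  modular function field.
* `OF N ℓ`: the valuation subring (function field) ∩ (Gauss ring).
* chart rings lie in `OF`; `rhoS`: the reduction of a chart ring.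
* `isIntegral_adjoin_of_isIntegral`: the minimal polynomial step.
-/

set_option autoImplicit false

open Polynomial ModularCurve ModularCurve.IgusaScheme

namespace Fermat.Agent.S28.Kernel


open IntermediateField in
open scoped IntermediateField.algebraAdjoinAdjoin in
theorem isIntegral_adjoin_of_isIntegral
    {k F : Type*} [Field k] [Field F] [Algebra k F]
    {A : Type*} [CommRing A] [Algebra A k] [Algebra A F] [IsScalarTower A k F]
    (t : F) (ht : Transcendental k t) (O : ValuationSubring F)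
    (hD : ∀ f : k[X], aeval t f ∈ O → ∃ g : A[X], g.map (algebraMap A k) = f)
    (y : F) (hy1 : IsIntegral (Algebra.adjoin k {t}) y)
    (hy2 : IsIntegral (k⟮t⟯.toSubring ⊓ O.toSubring : Subring F) y) :
    IsIntegral (Algebra.adjoin A {t}) y := by
  classical
  set E : IntermediateField k F := k⟮t⟯ with hE
  let Ov : ValuationSubring E := O.comap (algebraMap E F)
  letI algOv : Algebra Ov F := ((algebraMap E F).comp Ov.subtype).toAlgebra
  haveI : IsScalarTower Ov E F := IsScalarTower.of_algebraMap_eq (fun x => rfl)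
  -- y integral over Ov
  have hy2' : IsIntegral Ov y := by
    let φ : ↥(k⟮t⟯.toSubring ⊓ O.toSubring : Subring F) →+* Ov :=
      { toFun := fun x => ⟨⟨x.1, x.2.1⟩, x.2.2⟩
        map_one' := rfl
        map_mul' := fun _ _ => rfl
        map_zero' := rfl
        map_add' := fun _ _ => rfl }
    exact hy2.map_of_comp_eq φ (RingHom.id F) (by ext; rfl)
  haveI : IsIntegrallyClosed (Algebra.adjoin k {t}) :=
    IsIntegrallyClosed.of_equiv (Polynomial.algEquivOfTranscendental k t ht).toRingEquiv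
  have h1 := minpoly.isIntegrallyClosed_eq_field_fractions' E hy1
  have h2 := minpoly.isIntegrallyClosed_eq_field_fractions' E hy2'
  set q : F[X] := (minpoly E y).map (algebraMap E F) with hq
  have hyE : IsIntegral E y := hy1.tower_top
  have hqmonic : q.Monic := (minpoly.monic hyE).map _
  have hqroot : q.eval y = 0 := by
    rw [hq, Polynomial.eval_map, ← Polynomial.aeval_def, minpoly.aeval]
  have hqcoeff : ∀ i, q.coeff i ∈ Algebra.adjoin A {t} := by
    intro i
    have hO : q.coeff i ∈ O := by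
      rw [hq, Polynomial.coeff_map, h2, Polynomial.coeff_map]
      exact ((minpoly Ov y).coeff i).2
    have hA : q.coeff i ∈ Algebra.adjoin k {t} := by
      rw [hq, Polynomial.coeff_map, h1, Polynomial.coeff_map]
      exact ((minpoly (Algebra.adjoin k {t}) y).coeff i).2
    obtain ⟨f, hf⟩ := Algebra.adjoin_mem_exists_aeval _ _ hA
    rw [← hf] at hO
    obtain ⟨g, rfl⟩ := hD f hO
    rw [← hf, Polynomial.aeval_map_algebraMap]
    rw [Algebra.adjoin_singleton_eq_range_aeval]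
    exact ⟨g, rfl⟩
  have hlifts : q ∈ Polynomial.lifts (algebraMap (Algebra.adjoin A {t}) F) :=
    (Polynomial.lifts_iff_coeff_lifts q).mpr fun i => ⟨⟨q.coeff i, hqcoeff i⟩, rfl⟩
  obtain ⟨q', hq'q, -, hq'monic⟩ := Polynomial.lifts_and_natDegree_eq_and_monic hlifts hqmonic
  exact ⟨q', hq'monic, by rw [Polynomial.eval₂_eq_eval_map, hq'q, hqroot]⟩


section base


open Fermat.Agent.S28.Gauss

variable (ℓ : ℕ) [Fact ℓ.Prime]

/-- the field of fractions of `Z_(ℓ)((q))` inside `ℚ((q))`. -/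
noncomputable def fracField : IntermediateField ℚ (LaurentSeries ℚ) where
  carrier := {x | ∃ a b : LZ ℓ, b ≠ 0 ∧ emb ℓ b * x = emb ℓ a}
  mul_mem' := by
    rintro x y ⟨a, b, hb, h⟩ ⟨a', b', hb', h'⟩
    refine ⟨a * a', b * b', mul_ne_zero hb hb', ?_⟩
    rw [map_mul, map_mul, ← h, ← h']
    ring
  add_mem' := by
    rintro x y ⟨a, b, hb, h⟩ ⟨a', b', hb', h'⟩
    refine ⟨a * b' + a' * b, b * b', mul_ne_zero hb hb', ?_⟩
    rw [map_mul, map_add, map_mul, map_mul, ← h, ← h']
    ring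
  algebraMap_mem' := by
    intro r
    refine ⟨((r.num : ℤ) : LZ ℓ), ((r.den : ℕ) : LZ ℓ), ?_, ?_⟩
    · intro h
      have h2 := congrArg (emb ℓ) h
      rw [map_natCast, map_zero] at h2
      have h3 : ((r.den : ℕ) : LaurentSeries ℚ) = algebraMap ℚ (LaurentSeries ℚ) (r.den : ℚ) := by
        rw [map_natCast]
      rw [h3] at h2
      have h4 := (algebraMap ℚ (LaurentSeries ℚ)).injective (h2.trans (map_zero _).symm)
      exact r.den_ne_zero (by exact_mod_cast h4)
    · rw [map_natCast, map_intCast]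
      have h3 : ((r.den : ℕ) : LaurentSeries ℚ) = algebraMap ℚ (LaurentSeries ℚ) (r.den : ℚ) := by
        rw [map_natCast]
      have h4 : ((r.num : ℤ) : LaurentSeries ℚ) = algebraMap ℚ (LaurentSeries ℚ) (r.num : ℚ) := by
        rw [map_intCast]
      rw [h3, h4, ← map_mul, Rat.den_mul_eq_num]
  inv_mem' := by
    rintro x ⟨a, b, hb, h⟩
    by_cases hx : x = 0
    · refine ⟨0, 1, one_ne_zero, ?_⟩
      rw [hx, inv_zero, mul_zero, map_zero]
    · have hb' : emb ℓ b ≠ 0 := fun h0 => hb (emb_injective ℓ (h0.trans (map_zero _).symm))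
      refine ⟨b, a, ?_, ?_⟩
      · intro ha
        rw [ha, map_zero] at h
        exact (mul_ne_zero hb' hx) h
      · rw [← h, mul_assoc, mul_inv_cancel₀ hx, mul_one]

theorem mem_fracField {x : LaurentSeries ℚ} :
    x ∈ fracField ℓ ↔ ∃ a b : LZ ℓ, b ≠ 0 ∧ emb ℓ b * x = emb ℓ a := Iff.rfl

theorem emb_mem_fracField (a : LZ ℓ) : emb ℓ a ∈ fracField ℓ :=
  ⟨a, 1, one_ne_zero, by rw [map_one, one_mul]⟩

theorem emb_jqModC : emb ℓ (jqModC (Zl ℓ)) = jq := by
  rw [emb, coeffMap_jqModC, jqModC_rat]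

theorem red_jqModC : red ℓ (jqModC (Zl ℓ)) = jqModC (ZMod ℓ) := by
  rw [red, coeffMap_jqModC]

theorem full_le_fracField (N : ℕ) [NeZero N] : modularFunctionFieldFull N ≤ fracField ℓ := by
  rw [modularFunctionFieldFull, IntermediateField.adjoin_le_iff]
  rintro x ⟨d, hd, -, rfl⟩
  have : qExpand ℚ d jq = emb ℓ (qExpand (Zl ℓ) d (jqModC (Zl ℓ))) := by
    rw [emb, coeffMap_qExpand, coeffMap_jqModC, jqModC_rat]
  rw [this]
  exact emb_mem_fracField ℓ _

theorem jq_mem_gaussSub : jq ∈ gaussSub ℓ := by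
  rw [← emb_jqModC ℓ]
  exact emb_mem_gaussSub ℓ _

theorem jqModC_zmod_ne_zero : jqModC (ZMod ℓ) ≠ 0 :=
  jqModC_ne_zero_of_nontrivial (ZMod ℓ)

theorem jq_inv_mem_gaussSub : jq⁻¹ ∈ gaussSub ℓ := by
  rw [mem_gaussSub]
  refine ⟨jqModC (Zl ℓ), 1, ?_, ?_⟩
  · rw [red_jqModC]
    exact jqModC_zmod_ne_zero ℓ
  · rw [emb_jqModC, map_one, mul_inv_cancel₀ jq_ne_zero]

theorem emb_C (a : Zl ℓ) : emb ℓ (HahnSeries.C a) = HahnSeries.C (a : ℚ) := by
  rw [emb]
  exact coeffMap_single _ _ _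

theorem red_C (a : Zl ℓ) : red ℓ (HahnSeries.C a) = HahnSeries.C (res ℓ a) := by
  rw [red]
  exact coeffMap_single _ _ _

theorem algebraMap_mem_gaussSub (a : Zl ℓ) :
    algebraMap ℚ (LaurentSeries ℚ) (a : ℚ) ∈ gaussSub ℓ := by
  have : algebraMap ℚ (LaurentSeries ℚ) (a : ℚ) = emb ℓ (HahnSeries.C a) := by
    rw [emb_C, algebraMap_laurentSeries_eq_single]
    rfl
  rw [this]
  exact emb_mem_gaussSub ℓ _

/-- units of the Gauss ring -/
theorem inv_mem_gaussSub_of_rhoT_ne_zero (x : gaussSub ℓ) (hx : rhoT ℓ x ≠ 0) :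
    (x : LaurentSeries ℚ)⁻¹ ∈ gaussSub ℓ := by
  obtain ⟨s, a, hs, h⟩ := (mem_gaussSub ℓ).mp x.2
  have h1 := rhoT_eq ℓ x s a hs h
  have ha : red ℓ a ≠ 0 := by
    intro h0
    rw [h0, zero_div] at h1
    exact hx h1
  have hx0 : (x : LaurentSeries ℚ) ≠ 0 := by
    intro h0
    apply hx
    have : x = 0 := Subtype.ext h0
    rw [this, map_zero]
  rw [mem_gaussSub]
  refine ⟨a, s, ha, ?_⟩
  rw [← h, mul_assoc, mul_inv_cancel₀ hx0, mul_one]


end base

section charts


open Fermat.Agent.S28.Gauss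

variable (N : ℕ) [NeZero N] (ℓ : ℕ) [Fact ℓ.Prime]

/-- the valuation subring `F ∩ gaussSub` of the function field. -/
noncomputable def OF : ValuationSubring ↥(modularFunctionFieldFull N) where
  toSubring := (gaussSub ℓ).comap
    ((modularFunctionFieldFull N).val : ↥(modularFunctionFieldFull N) →+* LaurentSeries ℚ)
  mem_or_inv_mem' := by
    intro x
    obtain ⟨a, b, hb, h⟩ := (mem_fracField ℓ).mp (full_le_fracField ℓ N x.2)
    exact Gauss.mem_or_inv_mem ℓ hb h

theorem mem_OF {x : ↥(modularFunctionFieldFull N)} :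
    x ∈ OF N ℓ ↔ (x : LaurentSeries ℚ) ∈ gaussSub ℓ := Iff.rfl

theorem coe_algebraMap_rat (r : ℚ) :
    ((algebraMap ℚ ↥(modularFunctionFieldFull N) r : ↥(modularFunctionFieldFull N)) :
      LaurentSeries ℚ) = algebraMap ℚ (LaurentSeries ℚ) r :=
  RingHom.congr_fun (RingHom.ext_rat
    (((modularFunctionFieldFull N).val : ↥(modularFunctionFieldFull N) →+* LaurentSeries ℚ).comp
      (algebraMap ℚ ↥(modularFunctionFieldFull N))) (algebraMap ℚ (LaurentSeries ℚ))) r

theorem coe_algebraMap_Zl (a : Zl ℓ) :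
    ((algebraMap (Zl ℓ) ↥(modularFunctionFieldFull N) a : ↥(modularFunctionFieldFull N)) :
      LaurentSeries ℚ) = algebraMap ℚ (LaurentSeries ℚ) (a : ℚ) := by
  have h1 : (algebraMap (Zl ℓ) ↥(modularFunctionFieldFull N) a : ↥(modularFunctionFieldFull N))
      = algebraMap ℚ ↥(modularFunctionFieldFull N) (a : ℚ) := rfl
  rw [h1, coe_algebraMap_rat]

theorem coe_aeval (x : ↥(modularFunctionFieldFull N)) (f : ℚ[X]) :
    ((aeval x f : ↥(modularFunctionFieldFull N)) : LaurentSeries ℚ)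
      = aeval (x : LaurentSeries ℚ) f := by
  rw [aeval_def, aeval_def]
  have h := Polynomial.hom_eval₂ f (algebraMap ℚ ↥(modularFunctionFieldFull N))
    ((modularFunctionFieldFull N).val : ↥(modularFunctionFieldFull N) →+* LaurentSeries ℚ) x
  rw [RingHom.ext_rat
    (((modularFunctionFieldFull N).val : ↥(modularFunctionFieldFull N) →+* LaurentSeries ℚ).comp
      (algebraMap ℚ ↥(modularFunctionFieldFull N))) (algebraMap ℚ (LaurentSeries ℚ))] at h
  exact h

theorem algebraMap_mem_OF (a : Zl ℓ) :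
    algebraMap (Zl ℓ) ↥(modularFunctionFieldFull N) a ∈ OF N ℓ := by
  rw [mem_OF, coe_algebraMap_Zl]
  exact algebraMap_mem_gaussSub ℓ a

theorem jFull_mem_OF : jFull N ∈ OF N ℓ := by
  rw [mem_OF]
  exact jq_mem_gaussSub ℓ

theorem jFull_inv_mem_OF : (jFull N)⁻¹ ∈ OF N ℓ := by
  rw [mem_OF]
  exact jq_inv_mem_gaussSub ℓ

theorem adjoin_le_OF (S : Set ↥(modularFunctionFieldFull N))
    (hS : S ⊆ {jFull N, (jFull N)⁻¹}) (x : ↥(modularFunctionFieldFull N))
    (hx : x ∈ Algebra.adjoin (Zl ℓ) S) : x ∈ OF N ℓ := by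
  induction hx using Algebra.adjoin_induction with
  | mem y hy =>
    rcases hS hy with rfl | rfl
    · exact jFull_mem_OF N ℓ
    · exact jFull_inv_mem_OF N ℓ
  | algebraMap a => exact algebraMap_mem_OF N ℓ a
  | add y z _ _ hy hz => exact add_mem hy hz
  | mul y z _ _ hy hz => exact mul_mem hy hz

theorem chartAlg_le_OF (S : Set ↥(modularFunctionFieldFull N))
    (hS : S ⊆ {jFull N, (jFull N)⁻¹}) (x : ↥(modularFunctionFieldFull N))
    (hx : x ∈ chartAlg N ℓ S) : x ∈ OF N ℓ := by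
  have hx' : IsIntegral (Algebra.adjoin (Zl ℓ) S) x := hx
  let φ : ↥(Algebra.adjoin (Zl ℓ) S) →+* ↥(OF N ℓ) :=
    { toFun := fun y => ⟨y.1, adjoin_le_OF N ℓ S hS y.1 y.2⟩
      map_one' := rfl
      map_mul' := fun _ _ => rfl
      map_zero' := rfl
      map_add' := fun _ _ => rfl }
  have h2 : IsIntegral (OF N ℓ) x :=
    hx'.map_of_comp_eq φ (RingHom.id _) (by ext; rfl)
  obtain ⟨y, hy⟩ := IsIntegrallyClosed.isIntegral_iff.mp h2
  rw [← hy]
  exact y.2

/-- the chart ring into the Gauss ring. -/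
noncomputable def toGauss (S : Set ↥(modularFunctionFieldFull N))
    (hS : S ⊆ {jFull N, (jFull N)⁻¹}) : chartAlg N ℓ S →+* gaussSub ℓ where
  toFun x := ⟨((x : ↥(modularFunctionFieldFull N)) : LaurentSeries ℚ),
    chartAlg_le_OF N ℓ S hS x x.2⟩
  map_one' := rfl
  map_mul' _ _ := rfl
  map_zero' := rfl
  map_add' _ _ := rfl

/-- the reduction of the chart ring. -/
noncomputable def rhoS (S : Set ↥(modularFunctionFieldFull N))
    (hS : S ⊆ {jFull N, (jFull N)⁻¹}) : chartAlg N ℓ S →+* LaurentSeries (ZMod ℓ) :=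
  (rhoT ℓ).comp (toGauss N ℓ S hS)

theorem coe_toGauss (S : Set ↥(modularFunctionFieldFull N))
    (hS : S ⊆ {jFull N, (jFull N)⁻¹}) (x : chartAlg N ℓ S) :
    ((toGauss N ℓ S hS x : gaussSub ℓ) : LaurentSeries ℚ) =
      ((x : ↥(modularFunctionFieldFull N)) : LaurentSeries ℚ) := rfl


end charts

end Fermat.Agent.S28.Kernel
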