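import Mathlib
import Fermat.Agent.S28_Gauss

/-!
# S28 (Igusa): polynomial lemmas for the Gauss valuation ring

On top of `S28_Gauss` (`Zl`, `res`, `emb`, `red`, `gaussSub`, `rhoT`):

* (Q1) scaling of polynomials over `ℤ_(ℓ)` and over `ℚ` by powers of `ℓ` (`exists_normalise`);
* (Q2) evaluation of polynomials over `ℤ_(ℓ)` at an element `t` of the Gauss ring
  (`aeval_mem`, `rhoT_aeval`);
* (Q3) the Gauss lemma `O ∩ ℚ[t] = ℤ_(ℓ)[t]` when the reduction of `t` is transcendental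
  (`poly_mem_of_aeval_mem`);
* (Q4) `jq` and `jq⁻¹` lie in the Gauss ring, their reductions are transcendental over `𝔽_ℓ`;
* (Q5) the normalised span relation (`exists_normalised_span`).
-/

set_option autoImplicit false

noncomputable section

open Polynomial ModularCurve

namespace Fermat.Agent.S28.QEP

open Fermat.Agent.S28.Gauss

variable (ℓ : ℕ) [Fact ℓ.Prime]

/-! ### Scaling by powers of `ℓ` -/

theorem res_eq_zero_iff_dvd (a : Zl ℓ) : res ℓ a = 0 ↔ (ℓ : Zl ℓ) ∣ a := by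
  constructor
  · intro h
    exact exists_eq_mul_of_res_eq_zero ℓ a h
  · rintro ⟨b, rfl⟩
    rw [map_mul, res_natCast_self, zero_mul]

/-- A nonzero element of `ℤ_(ℓ)` is not divisible by arbitrarily high powers of `ℓ`. -/
theorem exists_not_pow_dvd {a : Zl ℓ} (ha : a ≠ 0) :
    ∃ m : ℕ, ¬ ((ℓ : Zl ℓ) ^ (m + 1) ∣ a) := by
  refine ⟨(padicValRat ℓ (a : ℚ)).toNat, ?_⟩
  rintro ⟨b, hb⟩
  have ha' : (a : ℚ) ≠ 0 := fun h => ha (Subtype.ext h)
  have hb0 : (b : ℚ) ≠ 0 := by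
    rintro h
    apply ha'
    rw [hb]; simp [h]
  have hl : (ℓ : ℚ) ≠ 0 := Nat.cast_ne_zero.mpr (Fact.out : ℓ.Prime).ne_zero
  have h1 : (a : ℚ) = (ℓ : ℚ) ^ ((padicValRat ℓ (a : ℚ)).toNat + 1) * (b : ℚ) := by
    have := congrArg (Subtype.val) hb
    simpa using this
  have h2 : padicValRat ℓ (a : ℚ) =
      (((padicValRat ℓ (a : ℚ)).toNat + 1 : ℕ) : ℤ) + padicValRat ℓ (b : ℚ) := by
    conv_lhs => rw [h1]
    rw [padicValRat.mul (pow_ne_zero _ hl) hb0, padicValRat.pow, padicValRat.self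
      (Fact.out : ℓ.Prime).one_lt]
    simp
  have h3 := padicValRat_nonneg ℓ b
  have h4 := padicValRat_nonneg ℓ a
  have h5 : ((padicValRat ℓ (a : ℚ)).toNat : ℤ) = padicValRat ℓ (a : ℚ) := Int.toNat_of_nonneg h4
  push_cast at h2
  omega

/-- Every rational number is `ℓ`-integral after multiplication by a power of `ℓ`. -/
theorem exists_pow_mul_mem (q : ℚ) : ∃ m : ℕ, (ℓ : ℚ) ^ m * q ∈ Zl ℓ := by
  obtain ⟨e, d', hd', hden⟩ :=
    Nat.exists_eq_pow_mul_and_not_dvd q.den_nz ℓ (Fact.out : ℓ.Prime).ne_one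
  refine ⟨e, ?_⟩
  have hl : (ℓ : ℚ) ≠ 0 := Nat.cast_ne_zero.mpr (Fact.out : ℓ.Prime).ne_zero
  have hd0 : d' ≠ 0 := by
    rintro rfl
    exact hd' (dvd_zero _)
  have hq : (ℓ : ℚ) ^ e * q = (q.num : ℚ) / ((d' : ℤ) : ℚ) := by
    conv_lhs => rw [← Rat.num_div_den q, hden]
    have hd'' : (d' : ℚ) ≠ 0 := Nat.cast_ne_zero.mpr hd0
    push_cast
    field_simp
  rw [hq]
  show ((q.num : ℚ) / ((d' : ℤ) : ℚ)).den.Coprime ℓ
  have hdvd : (((q.num : ℚ) / ((d' : ℤ) : ℚ)).den : ℤ) ∣ (d' : ℤ) := by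
    rw [← Rat.divInt_eq_div]; exact Rat.den_dvd _ _
  have hdvd' : ((q.num : ℚ) / ((d' : ℤ) : ℚ)).den ∣ d' := by exact_mod_cast hdvd
  refine Nat.Coprime.coprime_dvd_left hdvd' ?_
  exact ((Nat.Prime.coprime_iff_not_dvd (Fact.out : ℓ.Prime)).mpr hd').symm

omit [Fact ℓ.Prime] in
theorem pow_mul_mem_of_le {q : ℚ} {m m' : ℕ} (h : (ℓ : ℚ) ^ m * q ∈ Zl ℓ)
    (hmm : m ≤ m') : (ℓ : ℚ) ^ m' * q ∈ Zl ℓ := by
  obtain ⟨k, rfl⟩ := Nat.exists_eq_add_of_le hmm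
  have h1 : (ℓ : ℚ) ^ (m + k) * q = ((ℓ : ℚ) ^ k) * ((ℓ : ℚ) ^ m * q) := by ring
  rw [h1]
  exact Subring.mul_mem _ (Subring.pow_mem _ (natCast_mem _ ℓ) k) h

/-- A polynomial over `ℤ_(ℓ)` whose reduction vanishes is divisible by `ℓ`. -/
theorem exists_eq_C_mul_of_map_res_eq_zero {P : Polynomial (Zl ℓ)} (h : P.map (res ℓ) = 0) :
    ∃ P₁ : Polynomial (Zl ℓ), P = C (ℓ : Zl ℓ) * P₁ := by
  have : C (ℓ : Zl ℓ) ∣ P := by
    rw [C_dvd_iff_dvd_coeff]
    intro i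
    rw [← res_eq_zero_iff_dvd, ← coeff_map, h, coeff_zero]
  exact this

theorem map_res_C_mul (P : Polynomial (Zl ℓ)) : (C (ℓ : Zl ℓ) * P).map (res ℓ) = 0 := by
  rw [Polynomial.map_mul, map_C, res_natCast_self, map_zero, zero_mul]

/-- A nonzero polynomial over `ℤ_(ℓ)` is a power of `ℓ` times a polynomial with nonzero
reduction. -/
theorem exists_eq_pow_mul_primitive {P : Polynomial (Zl ℓ)} (hP : P ≠ 0) :
    ∃ (k : ℕ) (P₀ : Polynomial (Zl ℓ)), P = C ((ℓ : Zl ℓ) ^ k) * P₀ ∧ P₀.map (res ℓ) ≠ 0 := by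
  obtain ⟨i, hi⟩ : ∃ i, P.coeff i ≠ 0 := by
    by_contra hcon
    exact hP (Polynomial.ext fun i => by
      rw [coeff_zero]
      by_contra hi
      exact hcon ⟨i, hi⟩)
  obtain ⟨m, hm⟩ := exists_not_pow_dvd ℓ hi
  clear hi hP
  induction m generalizing P with
  | zero =>
    refine ⟨0, P, by simp, ?_⟩
    intro h0
    apply hm
    rw [zero_add, pow_one, ← res_eq_zero_iff_dvd, ← coeff_map, h0, coeff_zero]
  | succ m ih =>
    by_cases h0 : P.map (res ℓ) = 0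
    · obtain ⟨P₁, rfl⟩ := exists_eq_C_mul_of_map_res_eq_zero ℓ h0
      have hm' : ¬ ((ℓ : Zl ℓ) ^ (m + 1) ∣ P₁.coeff i) := by
        rintro ⟨b, hb⟩
        apply hm
        refine ⟨b, ?_⟩
        rw [coeff_C_mul, hb]
        ring
      obtain ⟨k, P₀, hP₀, hne⟩ := ih hm'
      refine ⟨k + 1, P₀, ?_, hne⟩
      rw [hP₀, ← mul_assoc, ← C_mul, ← pow_succ']
    · exact ⟨0, P, by simp, h0⟩

/-- A rational polynomial becomes `ℓ`-integral after multiplication by a power of `ℓ`. -/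
theorem exists_pow_mul_eq_map (P : Polynomial ℚ) :
    ∃ (m : ℕ), ∀ m', m ≤ m' → ∃ P' : Polynomial (Zl ℓ),
      C ((ℓ : ℚ) ^ m') * P = P'.map (Zl ℓ).subtype := by
  choose e he using fun i : ℕ => exists_pow_mul_mem ℓ (P.coeff i)
  refine ⟨P.support.sup e, fun m' hm' => ?_⟩
  have hmem : ∀ i, (ℓ : ℚ) ^ m' * P.coeff i ∈ Zl ℓ := by
    intro i
    by_cases hi : i ∈ P.support
    · exact pow_mul_mem_of_le ℓ (he i) ((Finset.le_sup hi).trans hm')
    · rw [notMem_support_iff.mp hi, mul_zero]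
      exact Subring.zero_mem _
  have hlift : C ((ℓ : ℚ) ^ m') * P ∈ Polynomial.lifts (Zl ℓ).subtype := by
    rw [Polynomial.lifts_iff_coeff_lifts]
    intro i
    rw [coeff_C_mul]
    exact ⟨⟨_, hmem i⟩, rfl⟩
  obtain ⟨P', hP'⟩ := hlift
  exact ⟨P', hP'.symm⟩

/-- A finite family of rational polynomials becomes `ℓ`-integral after multiplication by a
common power of `ℓ`. -/
theorem exists_pow_mul_eq_map_family {ι : Type*} [Finite ι] (P : ι → Polynomial ℚ) :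
    ∃ (m : ℕ) (P' : ι → Polynomial (Zl ℓ)),
      ∀ i, C ((ℓ : ℚ) ^ m) * P i = (P' i).map (Zl ℓ).subtype := by
  classical
  have := Fintype.ofFinite ι
  choose e he using fun i : ι => exists_pow_mul_eq_map ℓ (P i)
  have hle : ∀ i, e i ≤ Finset.univ.sup e := fun i => Finset.le_sup (Finset.mem_univ i)
  choose P' hP' using fun i : ι => he i _ (hle i)
  exact ⟨Finset.univ.sup e, P', hP'⟩


/-- (Q1) A finite family of polynomials over `ℤ_(ℓ)`, not all zero, is a common power of `ℓ`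
times a family with some member of nonzero reduction. -/
theorem exists_eq_pow_mul_primitive_family {ι : Type*} (P : ι → Polynomial (Zl ℓ))
    (h : ∃ i, P i ≠ 0) :
    ∃ (k : ℕ) (Q : ι → Polynomial (Zl ℓ)), (∀ i, P i = C ((ℓ : Zl ℓ) ^ k) * Q i) ∧
      ∃ i, (Q i).map (res ℓ) ≠ 0 := by
  obtain ⟨i₀, hi₀⟩ := h
  obtain ⟨j, hj⟩ : ∃ j, (P i₀).coeff j ≠ 0 := by
    by_contra hcon
    exact hi₀ (Polynomial.ext fun i => by
      rw [coeff_zero]
      by_contra hi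
      exact hcon ⟨i, hi⟩)
  obtain ⟨m, hm⟩ := exists_not_pow_dvd ℓ hj
  clear hj hi₀
  induction m generalizing P with
  | zero =>
    refine ⟨0, P, by simp, i₀, ?_⟩
    intro h0
    apply hm
    rw [zero_add, pow_one, ← res_eq_zero_iff_dvd, ← coeff_map, h0, coeff_zero]
  | succ m ih =>
    by_cases h0 : ∃ i, (P i).map (res ℓ) ≠ 0
    · exact ⟨0, P, by simp, h0⟩
    · have h0' : ∀ i, (P i).map (res ℓ) = 0 := by
        intro i
        by_contra hi
        exact h0 ⟨i, hi⟩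
      choose P₁ hP₁ using fun i => exists_eq_C_mul_of_map_res_eq_zero ℓ (h0' i)
      have hm' : ¬ ((ℓ : Zl ℓ) ^ (m + 1) ∣ (P₁ i₀).coeff j) := by
        rintro ⟨b, hb⟩
        apply hm
        refine ⟨b, ?_⟩
        rw [hP₁ i₀, coeff_C_mul, hb]
        ring
      obtain ⟨k, Q, hQ, hne⟩ := ih P₁ hm'
      refine ⟨k + 1, Q, fun i => ?_, hne⟩
      rw [hP₁ i, hQ i, ← mul_assoc, ← C_mul, ← pow_succ']

theorem natCast_ne_zero_rat : (ℓ : ℚ) ≠ 0 := Nat.cast_ne_zero.mpr (Fact.out : ℓ.Prime).ne_zero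

/-- (Q1) Normalisation of a finite family of rational polynomials, not all zero: after
multiplication by a suitable (possibly negative) power of `ℓ` all members are `ℓ`-integral and
one of them has nonzero reduction. -/
theorem exists_normalise {ι : Type*} [Finite ι] (P : ι → Polynomial ℚ) (h : ∃ i, P i ≠ 0) :
    ∃ (m : ℤ) (Q : ι → Polynomial (Zl ℓ)),
      (∀ i, (Q i).map (algebraMap (Zl ℓ) ℚ) = C ((ℓ : ℚ) ^ m) * P i) ∧
      ∃ i, (Q i).map (res ℓ) ≠ 0 := by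
  have hl := natCast_ne_zero_rat ℓ
  obtain ⟨m₀, P', hP'⟩ := exists_pow_mul_eq_map_family ℓ P
  have hne : ∃ i, P' i ≠ 0 := by
    obtain ⟨i, hi⟩ := h
    refine ⟨i, fun h0 => hi ?_⟩
    have h1 := hP' i
    rw [h0, Polynomial.map_zero] at h1
    rcases mul_eq_zero.mp h1 with h2 | h2
    · exact absurd (C_eq_zero.mp h2) (pow_ne_zero _ hl)
    · exact h2
  obtain ⟨k, Q, hQ, hQne⟩ := exists_eq_pow_mul_primitive_family ℓ P' hne
  refine ⟨(m₀ : ℤ) - k, Q, fun i => ?_, hQne⟩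
  have h1 : C ((ℓ : ℚ) ^ k) * (Q i).map (algebraMap (Zl ℓ) ℚ) = C ((ℓ : ℚ) ^ m₀) * P i := by
    rw [hP' i, hQ i, Polynomial.map_mul, map_C]
    congr 2
  have h2 : (ℓ : ℚ) ^ ((m₀ : ℤ) - k) = ((ℓ : ℚ) ^ k)⁻¹ * (ℓ : ℚ) ^ m₀ := by
    rw [zpow_sub₀ hl, zpow_natCast, zpow_natCast]; ring
  rw [h2, C_mul, mul_assoc, ← h1, ← mul_assoc, ← C_mul, inv_mul_cancel₀ (pow_ne_zero _ hl),
    C_1, one_mul]

/-! ### (Q2) Evaluation of `ℓ`-integral polynomials at elements of the Gauss ring -/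

omit [Fact ℓ.Prime] in
theorem emb_C (a : Zl ℓ) : emb ℓ (HahnSeries.C a) = HahnSeries.C (a : ℚ) := by
  rw [HahnSeries.C_apply, HahnSeries.C_apply]
  exact coeffMap_single _ _ _

theorem red_C (a : Zl ℓ) : red ℓ (HahnSeries.C a) = HahnSeries.C (res ℓ a) := by
  rw [HahnSeries.C_apply, HahnSeries.C_apply]
  exact coeffMap_single _ _ _

/-- constants of `ℤ_(ℓ)` in the Gauss ring. -/
def cZ : Zl ℓ →+* gaussSub ℓ :=
  ((HahnSeries.C : ℚ →+* LaurentSeries ℚ).comp (Zl ℓ).subtype).codRestrict (gaussSub ℓ)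
    (fun a => by
      show HahnSeries.C (a : ℚ) ∈ gaussSub ℓ
      rw [← emb_C]
      exact emb_mem_gaussSub ℓ _)

theorem coe_cZ (a : Zl ℓ) : ((cZ ℓ a : gaussSub ℓ) : LaurentSeries ℚ) = HahnSeries.C (a : ℚ) :=
  rfl

theorem rhoT_cZ (a : Zl ℓ) : rhoT ℓ (cZ ℓ a) = HahnSeries.C (res ℓ a) := by
  rw [rhoT_eq ℓ (cZ ℓ a) 1 (HahnSeries.C a) (by rw [map_one]; exact one_ne_zero)
    (by rw [map_one, one_mul, coe_cZ, emb_C]), map_one, div_one, red_C]

/-- evaluation of a polynomial over `ℤ_(ℓ)` at an element of the Gauss ring. -/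
def evT (t : gaussSub ℓ) : Polynomial (Zl ℓ) →+* gaussSub ℓ := Polynomial.eval₂RingHom (cZ ℓ) t

theorem coe_evT (t : gaussSub ℓ) (g : Polynomial (Zl ℓ)) :
    ((evT ℓ t g : gaussSub ℓ) : LaurentSeries ℚ) =
      aeval (t : LaurentSeries ℚ) (g.map (algebraMap (Zl ℓ) ℚ)) := by
  have h1 : ((evT ℓ t g : gaussSub ℓ) : LaurentSeries ℚ) =
      (gaussSub ℓ).subtype (Polynomial.eval₂ (cZ ℓ) t g) := rfl
  rw [h1, Polynomial.hom_eval₂, aeval_def, Polynomial.eval₂_map]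
  congr 1
  ext a : 1
  show HahnSeries.C (a : ℚ) = algebraMap ℚ (LaurentSeries ℚ) (a : ℚ)
  rw [algebraMap_apply_eq_single, HahnSeries.C_apply]

theorem rhoT_evT (t : gaussSub ℓ) (g : Polynomial (Zl ℓ)) :
    rhoT ℓ (evT ℓ t g) = aeval (rhoT ℓ t) (g.map (res ℓ)) := by
  have h1 : rhoT ℓ (evT ℓ t g) = rhoT ℓ (Polynomial.eval₂ (cZ ℓ) t g) := rfl
  rw [h1, Polynomial.hom_eval₂, aeval_def, Polynomial.eval₂_map]
  congr 1
  ext a : 1
  show rhoT ℓ (cZ ℓ a) = algebraMap (ZMod ℓ) (LaurentSeries (ZMod ℓ)) (res ℓ a)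
  rw [rhoT_cZ, algebraMap_laurentSeries_eq_single, HahnSeries.C_apply]

/-- (Q2) -/
theorem aeval_mem (t : gaussSub ℓ) (g : Polynomial (Zl ℓ)) :
    aeval (t : LaurentSeries ℚ) (g.map (algebraMap (Zl ℓ) ℚ)) ∈ gaussSub ℓ := by
  rw [← coe_evT]
  exact (evT ℓ t g).2

/-- (Q2) -/
theorem rhoT_aeval (t : gaussSub ℓ) (g : Polynomial (Zl ℓ)) :
    rhoT ℓ ⟨aeval (t : LaurentSeries ℚ) (g.map (algebraMap (Zl ℓ) ℚ)), aeval_mem ℓ t g⟩ =
      aeval (rhoT ℓ t) (g.map (res ℓ)) := by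
  rw [← rhoT_evT]
  congr 1
  exact Subtype.ext (coe_evT ℓ t g).symm

theorem rhoT_natCast_self : rhoT ℓ ((ℓ : ℕ) : gaussSub ℓ) = 0 := by
  rw [map_natCast]
  have : ((ℓ : ZMod ℓ)) = 0 := ZMod.natCast_self ℓ
  rw [← map_natCast (HahnSeries.C : ZMod ℓ →+* LaurentSeries (ZMod ℓ)), this, map_zero]

/-! ### (Q3) The Gauss lemma -/

/-- (Q3) `ℚ[t] ∩ O = ℤ_(ℓ)[t]` for an element `t` of the Gauss ring with transcendental
reduction. -/
theorem poly_mem_of_aeval_mem (t : gaussSub ℓ) (ht : Transcendental (ZMod ℓ) (rhoT ℓ t))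
    (f : Polynomial ℚ) (hf : aeval (t : LaurentSeries ℚ) f ∈ gaussSub ℓ) :
    ∃ g : Polynomial (Zl ℓ), g.map (algebraMap (Zl ℓ) ℚ) = f := by
  have hl := natCast_ne_zero_rat ℓ
  obtain ⟨m, hm⟩ := exists_pow_mul_eq_map ℓ f
  obtain ⟨P', hP'⟩ := hm m le_rfl
  clear hm
  induction m generalizing P' with
  | zero =>
    refine ⟨P', ?_⟩
    rw [pow_zero, C_1, one_mul] at hP'
    exact hP'.symm
  | succ m ih =>
    -- the value of `P'` at `t` is `ℓ` times an element of the Gauss ring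
    have h1 : evT ℓ t P' = ((ℓ : ℕ) : gaussSub ℓ) * (((ℓ : ℕ) : gaussSub ℓ) ^ m *
        ⟨_, hf⟩) := by
      apply Subtype.ext
      rw [coe_evT]
      show aeval (t : LaurentSeries ℚ) (P'.map (Zl ℓ).subtype) = _
      rw [← hP', map_mul, aeval_C]
      simp only [Subring.coe_mul, Subring.coe_pow, Subring.coe_natCast, map_pow, map_natCast]
      ring
    have h2 : rhoT ℓ (evT ℓ t P') = 0 := by
      rw [h1, map_mul, rhoT_natCast_self, zero_mul]
    rw [rhoT_evT] at h2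
    have h3 : P'.map (res ℓ) = 0 := (transcendental_iff.mp ht) _ h2
    obtain ⟨P₁, rfl⟩ := exists_eq_C_mul_of_map_res_eq_zero ℓ h3
    refine ih P₁ ?_
    have h4 : C (ℓ : ℚ) * (C ((ℓ : ℚ) ^ m) * f) = C (ℓ : ℚ) * P₁.map (Zl ℓ).subtype := by
      rw [← mul_assoc, ← C_mul, ← pow_succ', hP', Polynomial.map_mul, map_C]
      rfl
    exact mul_left_cancel₀ (C_ne_zero.mpr hl) h4

/-! ### (Q4) `jq` and its inverse -/

theorem transcendental_jqModC (K : Type*) [Field K] : Transcendental K (jqModC K) := by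
  rw [transcendental_iff]
  intro p hp
  by_contra hp0
  have h1 : (aeval (jqModC K) p).coeff (-(p.natDegree : ℤ)) = p.leadingCoeff := by
    rw [aeval_def, Polynomial.eval₂_eq_sum_range, HahnSeries.coeff_sum]
    rw [Finset.sum_eq_single p.natDegree]
    · rw [algebraMap_laurentSeries_eq_single, ← HahnSeries.C_apply, HahnSeries.C_mul_eq_smul,
        HahnSeries.coeff_smul, coeff_jqModC_pow_self, smul_eq_mul, mul_one]
      rfl
    · intro i hi hne
      have hlt : i < p.natDegree := lt_of_le_of_ne (Nat.lt_succ_iff.mp (Finset.mem_range.mp hi)) hne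
      rw [algebraMap_laurentSeries_eq_single, ← HahnSeries.C_apply, HahnSeries.C_mul_eq_smul,
        HahnSeries.coeff_smul, coeff_jqModC_pow_of_lt K (by omega), smul_zero]
    · intro h
      exact absurd (Finset.mem_range.mpr (Nat.lt_succ_self _)) h
  rw [hp, HahnSeries.coeff_zero] at h1
  exact hp0 (leadingCoeff_eq_zero.mp h1.symm)

theorem transcendental_jqModC_inv (K : Type*) [Field K] : Transcendental K (jqModC K)⁻¹ := by
  intro h
  have h2 := h.inv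
  rw [inv_inv] at h2
  exact transcendental_jqModC K h2

omit [Fact ℓ.Prime] in
theorem emb_jqModC : emb ℓ (jqModC (Zl ℓ)) = jq := by
  show coeffMap (Zl ℓ).subtype (jqModC (Zl ℓ)) = jq
  rw [coeffMap_jqModC, jqModC_rat]

theorem red_jqModC : red ℓ (jqModC (Zl ℓ)) = jqModC (ZMod ℓ) := by
  show coeffMap (res ℓ) (jqModC (Zl ℓ)) = _
  rw [coeffMap_jqModC]

/-- (Q4) -/
theorem jq_mem : jq ∈ gaussSub ℓ := by
  rw [← emb_jqModC ℓ]
  exact emb_mem_gaussSub ℓ _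

/-- (Q4) -/
theorem rhoT_jq : rhoT ℓ ⟨jq, jq_mem ℓ⟩ = jqModC (ZMod ℓ) := by
  rw [rhoT_eq ℓ _ 1 (jqModC (Zl ℓ)) (by rw [map_one]; exact one_ne_zero)
    (by rw [map_one, one_mul, emb_jqModC]), map_one, div_one, red_jqModC]

/-- (Q4) -/
theorem jq_inv_mem : jq⁻¹ ∈ gaussSub ℓ := by
  refine ⟨jqModC (Zl ℓ), 1, ?_, ?_⟩
  · rw [red_jqModC]
    exact jqModC_ne_zero_of_nontrivial _
  · rw [emb_jqModC, map_one, mul_inv_cancel₀ jq_ne_zero]

/-- (Q4) -/
theorem rhoT_jq_inv : rhoT ℓ ⟨jq⁻¹, jq_inv_mem ℓ⟩ = (jqModC (ZMod ℓ))⁻¹ := by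
  rw [rhoT_eq ℓ _ (jqModC (Zl ℓ)) 1
    (by rw [red_jqModC]; exact jqModC_ne_zero_of_nontrivial _)
    (by rw [emb_jqModC, map_one]; exact mul_inv_cancel₀ jq_ne_zero), map_one, red_jqModC,
    one_div]

/-- (Q4) -/
theorem transcendental_rhoT_jq : Transcendental (ZMod ℓ) (rhoT ℓ ⟨jq, jq_mem ℓ⟩) := by
  rw [rhoT_jq]
  exact transcendental_jqModC _

/-- (Q4) -/
theorem transcendental_rhoT_jq_inv : Transcendental (ZMod ℓ) (rhoT ℓ ⟨jq⁻¹, jq_inv_mem ℓ⟩) := by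
  rw [rhoT_jq_inv]
  exact transcendental_jqModC_inv _

/-! ### (Q5) The normalised span relation -/

omit [Fact ℓ.Prime] in
theorem emb_intSeries (u : LaurentSeries ℤ) :
    emb ℓ (coeffMap (Int.castRingHom (Zl ℓ)) u) = coeffMap (Int.castRingHom ℚ) u := by
  show coeffMap (Zl ℓ).subtype (coeffMap (Int.castRingHom (Zl ℓ)) u) = _
  rw [coeffMap_coeffMap]
  exact coeffMap_congr (RingHom.ext_int _ _) u

theorem red_intSeries (u : LaurentSeries ℤ) :
    red ℓ (coeffMap (Int.castRingHom (Zl ℓ)) u) = coeffMap (Int.castRingHom (ZMod ℓ)) u := by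
  show coeffMap (res ℓ) (coeffMap (Int.castRingHom (Zl ℓ)) u) = _
  rw [coeffMap_coeffMap]
  exact coeffMap_congr (RingHom.ext_int _ _) u

/-- an integer-coefficient series lies in the Gauss ring. -/
theorem intSeries_mem (u : LaurentSeries ℤ) : coeffMap (Int.castRingHom ℚ) u ∈ gaussSub ℓ := by
  rw [← emb_intSeries ℓ]
  exact emb_mem_gaussSub ℓ _

theorem rhoT_intSeries (u : LaurentSeries ℤ) :
    rhoT ℓ ⟨coeffMap (Int.castRingHom ℚ) u, intSeries_mem ℓ u⟩ =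
      coeffMap (Int.castRingHom (ZMod ℓ)) u := by
  rw [rhoT_eq ℓ _ 1 (coeffMap (Int.castRingHom (Zl ℓ)) u) (by rw [map_one]; exact one_ne_zero)
    (by rw [map_one, one_mul, emb_intSeries]), map_one, div_one, red_intSeries]

/-- (Q5) Normalised span relation: if `x` lies in the Gauss ring and satisfies a relation
`x * D(j) = ∑ P_i(j) u^i` over `ℚ`, and `1, ū, …, ū^(n-1)` are linearly independent over
`𝔽_ℓ[j̄]`, then there is such a relation with `D, P_i` over `ℤ_(ℓ)` and `D` nonzero mod `ℓ`. -/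
theorem exists_normalised_span (n : ℕ) (u : LaurentSeries ℤ)
    (hmc : ∀ P : Fin n → Polynomial (ZMod ℓ),
      ∑ i : Fin n, aeval (jqModC (ZMod ℓ)) (P i) *
        (coeffMap (Int.castRingHom (ZMod ℓ)) u) ^ (i : ℕ) = 0 → ∀ i, P i = 0)
    (x : LaurentSeries ℚ) (hx : x ∈ gaussSub ℓ)
    (hspan : ∃ (D : Polynomial ℚ) (P : Fin n → Polynomial ℚ), D ≠ 0 ∧
      x * aeval jq D = ∑ i : Fin n, aeval jq (P i) * (coeffMap (Int.castRingHom ℚ) u) ^ (i : ℕ)) :
    ∃ (D : Polynomial (Zl ℓ)) (P : Fin n → Polynomial (Zl ℓ)), D.map (res ℓ) ≠ 0 ∧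
      x * aeval jq (D.map (algebraMap (Zl ℓ) ℚ)) =
        ∑ i : Fin n, aeval jq ((P i).map (algebraMap (Zl ℓ) ℚ)) *
          (coeffMap (Int.castRingHom ℚ) u) ^ (i : ℕ) := by
  obtain ⟨D₀, P₀, hD₀, h⟩ := hspan
  have hl := natCast_ne_zero_rat ℓ
  have hlL := natCast_ne_zero_laurent ℓ
  -- normalise the denominator
  obtain ⟨m, Q, hQ, i₀, hQne'⟩ := exists_normalise ℓ (fun _ : Unit => D₀) ⟨(), hD₀⟩
  have hQne : (Q ()).map (res ℓ) ≠ 0 := hQne'
  clear hQne'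
  set D := Q () with hDdef
  have hD : D.map (algebraMap (Zl ℓ) ℚ) = C ((ℓ : ℚ) ^ m) * D₀ := hQ ()
  -- scale the numerators
  obtain ⟨e, P', hP'⟩ := exists_pow_mul_eq_map_family ℓ (fun i => C ((ℓ : ℚ) ^ m) * P₀ i)
  have hstar : ((ℓ : ℕ) : LaurentSeries ℚ) ^ e * (x * aeval jq (D.map (algebraMap (Zl ℓ) ℚ))) =
      ∑ i : Fin n, aeval jq ((P' i).map (algebraMap (Zl ℓ) ℚ)) *
        (coeffMap (Int.castRingHom ℚ) u) ^ (i : ℕ) := by
    have h1 : ∀ i, aeval jq ((P' i).map (algebraMap (Zl ℓ) ℚ)) =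
        ((ℓ : ℕ) : LaurentSeries ℚ) ^ e *
          (algebraMap ℚ (LaurentSeries ℚ) ((ℓ : ℚ) ^ m) * aeval jq (P₀ i)) := by
      intro i
      have h2 : (P' i).map (algebraMap (Zl ℓ) ℚ) = C ((ℓ : ℚ) ^ e) * (C ((ℓ : ℚ) ^ m) * P₀ i) :=
        (hP' i).symm
      rw [h2, map_mul, map_mul, aeval_C, aeval_C, map_pow, map_natCast]
    rw [hD, map_mul, aeval_C]
    simp_rw [h1]
    rw [← mul_assoc x, mul_comm x, mul_assoc _ x, h, Finset.mul_sum, Finset.mul_sum]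
    refine Finset.sum_congr rfl fun i _ => ?_
    ring
  clear hP'
  -- descend on the exponent
  induction e generalizing P' with
  | zero =>
    refine ⟨D, P', hQne, ?_⟩
    rw [pow_zero, one_mul] at hstar
    exact hstar
  | succ e ih =>
    set J : gaussSub ℓ := ⟨jq, jq_mem ℓ⟩ with hJ
    set U : gaussSub ℓ := ⟨coeffMap (Int.castRingHom ℚ) u, intSeries_mem ℓ u⟩ with hU
    have hg : ((ℓ : ℕ) : gaussSub ℓ) ^ (e + 1) * (⟨x, hx⟩ * evT ℓ J D) =
        ∑ i : Fin n, evT ℓ J (P' i) * U ^ (i : ℕ) := by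
      apply Subtype.ext
      have hsum : ((∑ i : Fin n, evT ℓ J (P' i) * U ^ (i : ℕ) : gaussSub ℓ) : LaurentSeries ℚ) =
          ∑ i : Fin n, aeval jq ((P' i).map (algebraMap (Zl ℓ) ℚ)) *
            (coeffMap (Int.castRingHom ℚ) u) ^ (i : ℕ) := by
        rw [AddSubmonoidClass.coe_finsetSum]
        refine Finset.sum_congr rfl fun i _ => ?_
        rw [Subring.coe_mul, Subring.coe_pow, coe_evT]
      rw [hsum, ← hstar, Subring.coe_mul, Subring.coe_pow, Subring.coe_natCast, Subring.coe_mul,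
        coe_evT]
    have hr := congrArg (rhoT ℓ) hg
    rw [map_mul, map_pow, rhoT_natCast_self, zero_pow (Nat.succ_ne_zero e), zero_mul,
      map_sum] at hr
    have hr' : ∑ i : Fin n, aeval (jqModC (ZMod ℓ)) ((P' i).map (res ℓ)) *
        (coeffMap (Int.castRingHom (ZMod ℓ)) u) ^ (i : ℕ) = 0 := by
      rw [hr]
      refine Finset.sum_congr rfl fun i _ => ?_
      rw [map_mul, map_pow, rhoT_evT, hJ, rhoT_jq, hU, rhoT_intSeries]
    have hzero := hmc (fun i => (P' i).map (res ℓ)) hr'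
    choose P'' hP'' using fun i => exists_eq_C_mul_of_map_res_eq_zero ℓ (hzero i)
    refine ih P'' ?_
    have h3 : ∀ i, aeval jq ((P' i).map (algebraMap (Zl ℓ) ℚ)) =
        ((ℓ : ℕ) : LaurentSeries ℚ) * aeval jq ((P'' i).map (algebraMap (Zl ℓ) ℚ)) := by
      intro i
      rw [hP'' i, Polynomial.map_mul, map_C, map_mul, aeval_C]
      congr 1
      show algebraMap ℚ (LaurentSeries ℚ) (((ℓ : ℕ) : Zl ℓ) : ℚ) = _
      rw [Subring.coe_natCast, map_natCast]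
    simp_rw [h3] at hstar
    have h4 : ((ℓ : ℕ) : LaurentSeries ℚ) * (((ℓ : ℕ) : LaurentSeries ℚ) ^ e *
        (x * aeval jq (D.map (algebraMap (Zl ℓ) ℚ)))) =
        ((ℓ : ℕ) : LaurentSeries ℚ) * ∑ i : Fin n,
          aeval jq ((P'' i).map (algebraMap (Zl ℓ) ℚ)) *
            (coeffMap (Int.castRingHom ℚ) u) ^ (i : ℕ) := by
      rw [← mul_assoc, ← pow_succ', hstar, Finset.mul_sum]
      refine Finset.sum_congr rfl fun i _ => ?_
      ring
    exact mul_left_cancel₀ hlL h4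

/-! ### Variants with the shapes consumed by `S28_Kernel` -/

/-- (Q1), variant with a nonzero rational constant and `(Zl ℓ).subtype`. -/
theorem exists_normalise' {ι : Type*} [Finite ι] (P : ι → Polynomial ℚ) (h : ∃ i, P i ≠ 0) :
    ∃ (c : ℚ) (Q : ι → Polynomial (Zl ℓ)), c ≠ 0 ∧
      (∀ i, (Q i).map (Zl ℓ).subtype = C c * P i) ∧ ∃ i, (Q i).map (res ℓ) ≠ 0 := by
  obtain ⟨m, Q, hQ, hne⟩ := exists_normalise ℓ P h
  exact ⟨(ℓ : ℚ) ^ m, Q, zpow_ne_zero _ (natCast_ne_zero_rat ℓ), hQ, hne⟩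

/-- (Q2), variant with `(Zl ℓ).subtype`. -/
theorem aeval_mem_gaussSub (t : gaussSub ℓ) (g : Polynomial (Zl ℓ)) :
    aeval (t : LaurentSeries ℚ) (g.map (Zl ℓ).subtype) ∈ gaussSub ℓ :=
  aeval_mem ℓ t g

/-- (Q2), variant with an arbitrary membership proof and `(Zl ℓ).subtype`. -/
theorem rhoT_aeval' (t : gaussSub ℓ) (g : Polynomial (Zl ℓ))
    (h : aeval (t : LaurentSeries ℚ) (g.map (Zl ℓ).subtype) ∈ gaussSub ℓ) :
    rhoT ℓ ⟨aeval (t : LaurentSeries ℚ) (g.map (Zl ℓ).subtype), h⟩ =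
      aeval (rhoT ℓ t) (g.map (res ℓ)) :=
  rhoT_aeval ℓ t g

/-- (Q3), variant with `(Zl ℓ).subtype`. -/
theorem poly_mem_of_aeval_mem' (t : gaussSub ℓ) (ht : Transcendental (ZMod ℓ) (rhoT ℓ t))
    (f : Polynomial ℚ) (hf : aeval (t : LaurentSeries ℚ) f ∈ gaussSub ℓ) :
    ∃ g : Polynomial (Zl ℓ), g.map (Zl ℓ).subtype = f :=
  poly_mem_of_aeval_mem ℓ t ht f hf

/-- (Q4), variant with an arbitrary membership proof. -/
theorem rhoT_jq' (h : jq ∈ gaussSub ℓ) : rhoT ℓ ⟨jq, h⟩ = jqModC (ZMod ℓ) := rhoT_jq ℓ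

/-- (Q4), variant with an arbitrary membership proof. -/
theorem rhoT_jq_inv' (h : jq⁻¹ ∈ gaussSub ℓ) : rhoT ℓ ⟨jq⁻¹, h⟩ = (jqModC (ZMod ℓ))⁻¹ :=
  rhoT_jq_inv ℓ

/-- (Q4), variant with an arbitrary membership proof. -/
theorem transcendental_rhoT_jq' (h : jq ∈ gaussSub ℓ) :
    Transcendental (ZMod ℓ) (rhoT ℓ ⟨jq, h⟩) := transcendental_rhoT_jq ℓ

/-- (Q4), variant with an arbitrary membership proof. -/
theorem transcendental_rhoT_jq_inv' (h : jq⁻¹ ∈ gaussSub ℓ) :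
    Transcendental (ZMod ℓ) (rhoT ℓ ⟨jq⁻¹, h⟩) := transcendental_rhoT_jq_inv ℓ

/-- the reduction of an integer-coefficient series, for an arbitrary membership proof. -/
theorem rhoT_intSeries' (u : LaurentSeries ℤ) (h : coeffMap (Int.castRingHom ℚ) u ∈ gaussSub ℓ) :
    rhoT ℓ ⟨coeffMap (Int.castRingHom ℚ) u, h⟩ = coeffMap (Int.castRingHom (ZMod ℓ)) u :=
  rhoT_intSeries ℓ u

/-! ### Coordinates and integrality (for the step (K3) of `S28_Kernel`) -/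

/-- Elements of the Gauss ring with nonzero reduction are units. -/
theorem inv_mem_of_rhoT_ne_zero (x : gaussSub ℓ) (h : rhoT ℓ x ≠ 0) :
    (x : LaurentSeries ℚ)⁻¹ ∈ gaussSub ℓ := by
  obtain ⟨s, a, hs, hsa⟩ := x.2
  rw [rhoT_eq ℓ x s a hs hsa] at h
  have ha : red ℓ a ≠ 0 := fun h0 => h (by rw [h0, zero_div])
  have hx0 : (x : LaurentSeries ℚ) ≠ 0 := by
    intro hx
    rw [hx, mul_zero] at hsa
    apply ha
    have : a = 0 := emb_injective ℓ (by rw [← hsa, map_zero])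
    rw [this, map_zero]
  refine ⟨a, s, ha, ?_⟩
  rw [← hsa, mul_assoc, mul_inv_cancel₀ hx0, mul_one]

/-- A polynomial in `jq` over `ℤ_(ℓ)` with nonzero reduction is a unit of the Gauss ring. -/
theorem inv_aeval_jq_mem (D : Polynomial (Zl ℓ)) (hD : D.map (res ℓ) ≠ 0) :
    (aeval jq (D.map (algebraMap (Zl ℓ) ℚ)))⁻¹ ∈ gaussSub ℓ := by
  have h1 : rhoT ℓ (evT ℓ ⟨jq, jq_mem ℓ⟩ D) ≠ 0 := by
    rw [rhoT_evT, rhoT_jq]
    intro h0
    exact hD ((transcendental_iff.mp (transcendental_jqModC (ZMod ℓ))) _ h0)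
  have h2 := inv_mem_of_rhoT_ne_zero ℓ _ h1
  rwa [coe_evT] at h2

/-- Coordinates: an element of the Gauss ring satisfying a span relation over `ℚ[jq]` is a
combination of `1, u, …, u^(n-1)` with coefficients in `ℚ(jq) ∩ gaussSub`. -/
theorem exists_coords (n : ℕ) (u : LaurentSeries ℤ)
    (hmc : ∀ P : Fin n → Polynomial (ZMod ℓ),
      ∑ i : Fin n, aeval (jqModC (ZMod ℓ)) (P i) *
        (coeffMap (Int.castRingHom (ZMod ℓ)) u) ^ (i : ℕ) = 0 → ∀ i, P i = 0)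
    (x : LaurentSeries ℚ) (hx : x ∈ gaussSub ℓ)
    (hspan : ∃ (D : Polynomial ℚ) (P : Fin n → Polynomial ℚ), D ≠ 0 ∧
      x * aeval jq D = ∑ i : Fin n, aeval jq (P i) * (coeffMap (Int.castRingHom ℚ) u) ^ (i : ℕ)) :
    ∃ r : Fin n → LaurentSeries ℚ,
      (∀ i, r i ∈ gaussSub ℓ ∧ r i ∈ IntermediateField.adjoin ℚ {jq}) ∧
      x = ∑ i : Fin n, r i * (coeffMap (Int.castRingHom ℚ) u) ^ (i : ℕ) := by
  obtain ⟨D, P, hD, h⟩ := exists_normalised_span ℓ n u hmc x hx hspan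
  have hinv := inv_aeval_jq_mem ℓ D hD
  have hmemJ : ∀ p : Polynomial ℚ, aeval jq p ∈ IntermediateField.adjoin ℚ {jq} := fun p =>
    IntermediateField.algebra_adjoin_le_adjoin ℚ _ (Polynomial.aeval_mem_adjoin_singleton ℚ jq)
  have hd0 : aeval jq (D.map (algebraMap (Zl ℓ) ℚ)) ≠ 0 := by
    intro h0
    have h1 : rhoT ℓ (evT ℓ ⟨jq, jq_mem ℓ⟩ D) = 0 := by
      have : evT ℓ ⟨jq, jq_mem ℓ⟩ D = 0 := Subtype.ext (by rw [coe_evT]; exact h0)
      rw [this, map_zero]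
    rw [rhoT_evT, rhoT_jq] at h1
    exact hD ((transcendental_iff.mp (transcendental_jqModC (ZMod ℓ))) _ h1)
  refine ⟨fun i => aeval jq ((P i).map (algebraMap (Zl ℓ) ℚ)) *
      (aeval jq (D.map (algebraMap (Zl ℓ) ℚ)))⁻¹, fun i => ⟨?_, ?_⟩, ?_⟩
  · exact (gaussSub ℓ).mul_mem (aeval_mem ℓ ⟨jq, jq_mem ℓ⟩ (P i)) hinv
  · exact mul_mem (hmemJ _) (inv_mem (hmemJ _))
  · have h2 : x = (x * aeval jq (D.map (algebraMap (Zl ℓ) ℚ))) *
        (aeval jq (D.map (algebraMap (Zl ℓ) ℚ)))⁻¹ := by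
      rw [mul_assoc, mul_inv_cancel₀ hd0, mul_one]
    rw [h2, h, Finset.sum_mul]
    refine Finset.sum_congr rfl fun i _ => ?_
    ring

/-- Abstract integrality: if every element of a subring `S` of a field is a combination of
`1, u, …, u^(n-1)` with coefficients in a subring `R ≤ S`, then `S` is integral over `R`. -/
theorem isIntegral_of_coords {L : Type*} [Field L] (R S : Subring L) (hRS : R ≤ S) (n : ℕ)
    (u : L) (hu : u ∈ S)
    (h : ∀ s ∈ S, ∃ r : Fin n → L, (∀ i, r i ∈ R) ∧ s = ∑ i : Fin n, r i * u ^ (i : ℕ)) :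
    ∀ s ∈ S, IsIntegral R s := by
  let S' : Subalgebra R L :=
    { S.toSubsemiring with
      algebraMap_mem' := fun r => hRS r.2 }
  have hfg : (Subalgebra.toSubmodule S').FG := by
    have hspan : Subalgebra.toSubmodule S' =
        Submodule.span R (Set.range fun i : Fin n => u ^ (i : ℕ)) := by
      apply le_antisymm
      · intro s hs
        obtain ⟨r, hr, rfl⟩ := h s hs
        refine Submodule.sum_mem _ fun i _ => ?_
        have : r i * u ^ (i : ℕ) = (⟨r i, hr i⟩ : R) • u ^ (i : ℕ) := rfl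
        rw [this]
        exact Submodule.smul_mem _ _ (Submodule.subset_span ⟨i, rfl⟩)
      · rw [Submodule.span_le]
        rintro _ ⟨i, rfl⟩
        exact S.pow_mem hu _
    rw [hspan]
    exact Submodule.fg_span (Set.finite_range _)
  intro s hs
  exact IsIntegral.of_mem_of_fg S' hfg s hs

/-- (K3), concrete form: under the span relation and (MC), every element of
`F ∩ gaussSub` (for an intermediate field `F ∋ jq, u`) is integral over `ℚ(jq) ∩ gaussSub`. -/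
theorem isIntegral_inf_adjoin_jq (F : IntermediateField ℚ (LaurentSeries ℚ)) (hjF : jq ∈ F)
    (n : ℕ) (u : LaurentSeries ℤ) (hu : coeffMap (Int.castRingHom ℚ) u ∈ F)
    (hspan : ∀ x ∈ F, ∃ (D : Polynomial ℚ) (P : Fin n → Polynomial ℚ), D ≠ 0 ∧
      x * aeval jq D = ∑ i : Fin n, aeval jq (P i) * (coeffMap (Int.castRingHom ℚ) u) ^ (i : ℕ))
    (hmc : ∀ P : Fin n → Polynomial (ZMod ℓ),
      ∑ i : Fin n, aeval (jqModC (ZMod ℓ)) (P i) *
        (coeffMap (Int.castRingHom (ZMod ℓ)) u) ^ (i : ℕ) = 0 → ∀ i, P i = 0)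
    (x : LaurentSeries ℚ) (hxF : x ∈ F) (hx : x ∈ gaussSub ℓ) :
    IsIntegral (↥(gaussSub ℓ ⊓ (IntermediateField.adjoin ℚ {jq}).toSubfield.toSubring)) x := by
  have hle : IntermediateField.adjoin ℚ {jq} ≤ F := by
    rw [IntermediateField.adjoin_le_iff]
    rintro y hy
    rw [Set.mem_singleton_iff] at hy
    rw [hy]
    exact hjF
  refine isIntegral_of_coords (gaussSub ℓ ⊓ (IntermediateField.adjoin ℚ {jq}).toSubfield.toSubring)
    (gaussSub ℓ ⊓ F.toSubfield.toSubring) ?_ n (coeffMap (Int.castRingHom ℚ) u)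
    ⟨intSeries_mem ℓ u, hu⟩ ?_ x ⟨hx, hxF⟩
  · rintro y ⟨hy1, hy2⟩
    exact ⟨hy1, hle hy2⟩
  · rintro s ⟨hs1, hs2⟩
    obtain ⟨r, hr, hsum⟩ := exists_coords ℓ n u hmc s hs1 (hspan s hs2)
    exact ⟨r, fun i => ⟨(hr i).1, (hr i).2⟩, hsum⟩

end Fermat.Agent.S28.QEP
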