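import Mathlib
import Fermat.Prelude.Def_ModularCurve_IgusaScheme
import Fermat.Prelude.Def_ModularCurve_X0ModL
import Fermat.Prelude.Thm_ModularCurve_coeffMap_qExpand
import Fermat.Prelude.Thm_ModularCurve_coeff_jqModC_neg_one
import Fermat.Agent.S28_Gauss
import Fermat.Agent.S28_KernelBase
import Fermat.Agent.S28_QEP

/-!
# S28 kernel block

`Fermat.Agent.S28.exists_chart_reduction`: under the interface (M*) (a series `u` with integer
coefficients in the full modular function field such that `1, u, …, u^(n-1)` span the function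
field over `ℚ(j)` and stay independent over `𝔽_ℓ[j]` after reduction), each of the three chart
rings admits a ring hom to `𝔽_ℓ((q))` whose kernel is generated by `ℓ`.
-/

set_option autoImplicit false

open Polynomial ModularCurve ModularCurve.IgusaScheme

namespace Fermat.Agent.S28.Kernel

open Fermat.Agent.S28.Gauss

section nf

variable (N : ℕ) [NeZero N] (ℓ : ℕ) [Fact ℓ.Prime]

theorem aeval_jqModC_eq_zero' (K : Type*) [CommRing K] {p : K[X]}
    (hp : aeval (jqModC K) p = 0) : p = 0 :=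
  P2MW.S_ModularCurve_coeff_jqModC_neg_one.ModularCurve.CharLRows.aeval_jqModC_eq_zero K hp

theorem aeval_jq_eq_zero {p : ℚ[X]} (hp : aeval jq p = 0) : p = 0 :=
  aeval_jqModC_eq_zero' ℚ hp

theorem coeffMap_int_eq_emb (u : LaurentSeries ℤ) :
    coeffMap (Int.castRingHom ℚ) u = emb ℓ (coeffMap (Int.castRingHom (Zl ℓ)) u) := by
  rw [emb, coeffMap_coeffMap]
  exact coeffMap_congr (RingHom.ext_int _ _) u

theorem red_coeffMap_int (u : LaurentSeries ℤ) :
    red ℓ (coeffMap (Int.castRingHom (Zl ℓ)) u) = coeffMap (Int.castRingHom (ZMod ℓ)) u := by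
  rw [red, coeffMap_coeffMap]
  exact coeffMap_congr (RingHom.ext_int _ _) u

theorem coeffMap_int_mem_gaussSub (u : LaurentSeries ℤ) :
    coeffMap (Int.castRingHom ℚ) u ∈ gaussSub ℓ := by
  rw [coeffMap_int_eq_emb ℓ]
  exact emb_mem_gaussSub ℓ _

theorem rhoT_coeffMap_int (u : LaurentSeries ℤ) (h : coeffMap (Int.castRingHom ℚ) u ∈ gaussSub ℓ) :
    rhoT ℓ ⟨coeffMap (Int.castRingHom ℚ) u, h⟩ = coeffMap (Int.castRingHom (ZMod ℓ)) u := by
  have h1 := rhoT_emb ℓ (coeffMap (Int.castRingHom (Zl ℓ)) u)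
  rw [red_coeffMap_int] at h1
  rw [← h1]
  congr 1

theorem rhoT_jq (h : jq ∈ gaussSub ℓ) : rhoT ℓ ⟨jq, h⟩ = jqModC (ZMod ℓ) := by
  have h1 := rhoT_emb ℓ (jqModC (Zl ℓ))
  rw [red_jqModC] at h1
  rw [← h1]
  congr 1
  exact Subtype.ext (emb_jqModC ℓ).symm

/-- the normalised form of the spanning relation. -/
theorem exists_normal_form (n : ℕ) (u : LaurentSeries ℤ)
    (hspan : ∀ x ∈ modularFunctionFieldFull N, ∃ (D : ℚ[X]) (P : Fin n → ℚ[X]), D ≠ 0 ∧
      x * aeval jq D = ∑ i, aeval jq (P i) * (coeffMap (Int.castRingHom ℚ) u) ^ (i : ℕ))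
    (hmc : ∀ P : Fin n → (ZMod ℓ)[X],
      ∑ i, aeval (jqModC (ZMod ℓ)) (P i) * (coeffMap (Int.castRingHom (ZMod ℓ)) u) ^ (i : ℕ) = 0 →
        ∀ i, P i = 0)
    (x : LaurentSeries ℚ) (hxF : x ∈ modularFunctionFieldFull N) (hxG : x ∈ gaussSub ℓ) :
    ∃ (D : (Zl ℓ)[X]) (P : Fin n → (Zl ℓ)[X]), D.map (res ℓ) ≠ 0 ∧
      x * aeval jq (D.map (Zl ℓ).subtype) =
        ∑ i, aeval jq ((P i).map (Zl ℓ).subtype) * (coeffMap (Int.castRingHom ℚ) u) ^ (i : ℕ) := by
  obtain ⟨D₀, P₀, hD₀, hrel⟩ := hspan x hxF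
  obtain ⟨c, Q, hc, hQ, hne⟩ :=
    QEP.exists_normalise' ℓ (fun o : Option (Fin n) => o.elim D₀ P₀) ⟨none, hD₀⟩
  have hrelZ : x * aeval jq ((Q none).map (Zl ℓ).subtype) =
      ∑ i, aeval jq ((Q (some i)).map (Zl ℓ).subtype) *
        (coeffMap (Int.castRingHom ℚ) u) ^ (i : ℕ) := by
    rw [hQ none]
    simp only [hQ (some _), Option.elim, map_mul]
    rw [mul_left_comm, hrel, Finset.mul_sum]
    exact Finset.sum_congr rfl (fun i _ => by ring)
  refine ⟨Q none, fun i => Q (some i), ?_, hrelZ⟩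
  intro hD
  set jG : gaussSub ℓ := ⟨jq, jq_mem_gaussSub ℓ⟩ with hjG
  set uG : gaussSub ℓ := ⟨coeffMap (Int.castRingHom ℚ) u, coeffMap_int_mem_gaussSub ℓ u⟩ with huG
  set xG : gaussSub ℓ := ⟨x, hxG⟩ with hxG'
  have hmemD := QEP.aeval_mem_gaussSub ℓ jG (Q none)
  have hmemP := fun i => QEP.aeval_mem_gaussSub ℓ jG (Q (some i))
  have hG : xG * ⟨_, hmemD⟩ = ∑ i, (⟨_, hmemP i⟩ : gaussSub ℓ) * uG ^ (i : ℕ) := by
    apply Subtype.ext
    rw [Subring.coe_mul, AddSubmonoidClass.coe_finsetSum]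
    exact hrelZ
  have h2 := congrArg (rhoT ℓ) hG
  rw [map_mul, map_sum, QEP.rhoT_aeval', hD, map_zero, mul_zero] at h2
  have h3 : ∀ i, (Q (some i)).map (res ℓ) = 0 := by
    apply hmc
    rw [h2]
    refine Finset.sum_congr rfl (fun i _ => ?_)
    rw [map_mul, map_pow, QEP.rhoT_aeval', hjG, rhoT_jq, huG, rhoT_coeffMap_int]
  obtain ⟨o, ho⟩ := hne
  cases o with
  | none => exact ho hD
  | some i => exact ho (h3 i)

theorem aeval_mem_intermediate {k F : Type*} [Field k] [Field F] [Algebra k F]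
    (E : IntermediateField k F) {x : F} (hx : x ∈ E) (p : k[X]) : aeval x p ∈ E :=
  (Algebra.adjoin_le (Set.singleton_subset_iff.mpr hx) :
    Algebra.adjoin k {x} ≤ E.toSubalgebra) (Polynomial.aeval_mem_adjoin_singleton k x)

set_option maxHeartbeats 1000000 in
/-- every element of the valuation ring is integral over `E ∩ O`. -/
theorem isIntegral_inf (n : ℕ) (u : LaurentSeries ℤ)
    (hu : coeffMap (Int.castRingHom ℚ) u ∈ modularFunctionFieldFull N)
    (hspan : ∀ x ∈ modularFunctionFieldFull N, ∃ (D : ℚ[X]) (P : Fin n → ℚ[X]), D ≠ 0 ∧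
      x * aeval jq D = ∑ i, aeval jq (P i) * (coeffMap (Int.castRingHom ℚ) u) ^ (i : ℕ))
    (hmc : ∀ P : Fin n → (ZMod ℓ)[X],
      ∑ i, aeval (jqModC (ZMod ℓ)) (P i) * (coeffMap (Int.castRingHom (ZMod ℓ)) u) ^ (i : ℕ) = 0 →
        ∀ i, P i = 0)
    (E : IntermediateField ℚ ↥(modularFunctionFieldFull N)) (hjE : jFull N ∈ E)
    (x : ↥(modularFunctionFieldFull N)) (hx : x ∈ OF N ℓ) :
    IsIntegral (E.toSubring ⊓ (OF N ℓ).toSubring : Subring ↥(modularFunctionFieldFull N)) x := by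
  classical
  set R : Subring ↥(modularFunctionFieldFull N) := E.toSubring ⊓ (OF N ℓ).toSubring with hR
  set uF : ↥(modularFunctionFieldFull N) := ⟨coeffMap (Int.castRingHom ℚ) u, hu⟩ with huF
  have huO : uF ∈ OF N ℓ := by
    rw [mem_OF]
    exact coeffMap_int_mem_gaussSub ℓ u
  have hn : 0 < n := by
    by_contra h0
    have hn0 : n = 0 := by omega
    subst hn0
    obtain ⟨D, P, hD, h⟩ := hspan 1 (one_mem _)
    rw [one_mul, Finset.univ_eq_empty, Finset.sum_empty] at h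
    exact hD (aeval_jq_eq_zero h)
  set Nsub : Submodule R ↥(modularFunctionFieldFull N) :=
    Submodule.span R (Set.range fun i : Fin n => uF ^ (i : ℕ)) with hNsub
  have hN : Nsub ≠ ⊥ := by
    intro h
    have h1 : (1 : ↥(modularFunctionFieldFull N)) ∈ Nsub := by
      have : uF ^ ((⟨0, hn⟩ : Fin n) : ℕ) ∈ Nsub := Submodule.subset_span ⟨⟨0, hn⟩, rfl⟩
      simpa using this
    rw [h, Submodule.mem_bot] at h1
    exact one_ne_zero h1
  have hN' : Nsub.FG := Submodule.fg_span (Set.finite_range _)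
  refine isIntegral_of_smul_mem_submodule Nsub hN hN' x ?_
  intro m hm
  induction hm using Submodule.span_induction with
  | mem m hm =>
    obtain ⟨k, rfl⟩ := hm
    have hxk : (x * uF ^ (k : ℕ)) ∈ OF N ℓ := mul_mem hx (pow_mem huO _)
    obtain ⟨D, P, hD, hrel⟩ := exists_normal_form N ℓ n u hspan hmc
      ((x * uF ^ (k : ℕ) : ↥(modularFunctionFieldFull N)) : LaurentSeries ℚ)
      (x * uF ^ (k : ℕ)).2 hxk
    set jG : gaussSub ℓ := ⟨jq, jq_mem_gaussSub ℓ⟩ with hjG
    set dF : ↥(modularFunctionFieldFull N) := aeval (jFull N) (D.map (Zl ℓ).subtype) with hdF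
    have hdF_coe : (dF : LaurentSeries ℚ) = aeval jq (D.map (Zl ℓ).subtype) := coe_aeval N _ _
    have hdmem := QEP.aeval_mem_gaussSub ℓ jG D
    have hd_rho : rhoT ℓ ⟨_, hdmem⟩ ≠ 0 := by
      rw [QEP.rhoT_aeval', hjG, rhoT_jq]
      intro h0
      exact hD (aeval_jqModC_eq_zero' _ h0)
    have hd_inv : (dF⁻¹ : ↥(modularFunctionFieldFull N)) ∈ OF N ℓ := by
      rw [mem_OF]
      have := inv_mem_gaussSub_of_rhoT_ne_zero ℓ ⟨_, hdmem⟩ hd_rho
      rw [IntermediateField.coe_inv, hdF_coe]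
      exact this
    have hd0 : dF ≠ 0 := by
      intro h0
      apply hd_rho
      have : (⟨_, hdmem⟩ : gaussSub ℓ) = 0 := Subtype.ext (by
        show aeval jq (D.map (Zl ℓ).subtype) = 0
        rw [← hdF_coe, h0]; rfl)
      rw [this, map_zero]
    have hcmem : ∀ i : Fin n, aeval (jFull N) ((P i).map (Zl ℓ).subtype) * dF⁻¹ ∈ R := by
      intro i
      refine ⟨E.mul_mem (aeval_mem_intermediate E hjE _)
        (E.inv_mem (aeval_mem_intermediate E hjE _)), mul_mem ?_ hd_inv⟩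
      show _ ∈ OF N ℓ
      rw [mem_OF, coe_aeval]
      exact QEP.aeval_mem_gaussSub ℓ jG (P i)
    have h1 : x * uF ^ (k : ℕ) * dF
        = ∑ i : Fin n, aeval (jFull N) ((P i).map (Zl ℓ).subtype) * uF ^ (i : ℕ) := by
      apply Subtype.ext
      rw [IntermediateField.coe_mul, hdF_coe, hrel, IntermediateField.coe_sum]
      refine Finset.sum_congr rfl (fun i _ => ?_)
      rw [IntermediateField.coe_mul, coe_aeval, IntermediateField.coe_pow]
      rfl
    have h2 : x • uF ^ (k : ℕ) = ∑ i : Fin n, (⟨_, hcmem i⟩ : R) • uF ^ (i : ℕ) := by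
      rw [smul_eq_mul, eq_div_iff hd0 |>.mpr h1, Finset.sum_div]
      refine Finset.sum_congr rfl (fun i _ => ?_)
      rw [Subring.smul_def, smul_eq_mul]
      ring
    rw [h2]
    exact Submodule.sum_mem _ (fun i _ => Submodule.smul_mem _ _ (Submodule.subset_span ⟨i, rfl⟩))
  | zero => rw [smul_zero]; exact Submodule.zero_mem _
  | add a b _ _ ha hb => rw [smul_add]; exact Submodule.add_mem _ ha hb
  | smul r m _ hm =>
    have h3 := Submodule.smul_mem _ r hm
    rw [Subring.smul_def, smul_eq_mul, smul_eq_mul] at h3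
    rw [Subring.smul_def, smul_eq_mul, smul_eq_mul, mul_left_comm]
    exact h3

end nf

section single

variable (N : ℕ) [NeZero N] (ℓ : ℕ) [Fact ℓ.Prime]

theorem transcendental_jFull : Transcendental ℚ (jFull N) := by
  rw [transcendental_iff]
  intro p hp
  apply aeval_jq_eq_zero
  have h : ((aeval (jFull N) p : ↥(modularFunctionFieldFull N)) : LaurentSeries ℚ) = 0 := by
    rw [hp]
    rfl
  rw [coe_aeval] at h
  exact h

theorem transcendental_jFull_inv : Transcendental ℚ (jFull N)⁻¹ := by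
  intro h
  apply transcendental_jFull N
  have h2 := h.inv
  rwa [inv_inv] at h2

set_option maxHeartbeats 1000000 in
/-- the kernel statement for the two one-generator charts. -/
theorem exists_mul_single (n : ℕ) (u : LaurentSeries ℤ)
    (hu : coeffMap (Int.castRingHom ℚ) u ∈ modularFunctionFieldFull N)
    (hspan : ∀ x ∈ modularFunctionFieldFull N, ∃ (D : ℚ[X]) (P : Fin n → ℚ[X]), D ≠ 0 ∧
      x * aeval jq D = ∑ i, aeval jq (P i) * (coeffMap (Int.castRingHom ℚ) u) ^ (i : ℕ))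
    (hmc : ∀ P : Fin n → (ZMod ℓ)[X],
      ∑ i, aeval (jqModC (ZMod ℓ)) (P i) * (coeffMap (Int.castRingHom (ZMod ℓ)) u) ^ (i : ℕ) = 0 →
        ∀ i, P i = 0)
    (t : ↥(modularFunctionFieldFull N)) (ht : t = jFull N ∨ t = (jFull N)⁻¹)
    (a : ↥(modularFunctionFieldFull N)) (ha : a ∈ chartAlg N ℓ {t})
    (y : LaurentSeries ℚ) (hy : y ∈ gaussSub ℓ)
    (hay : (a : LaurentSeries ℚ) = ((ℓ : ℕ) : LaurentSeries ℚ) * y) :
    ∃ b : ↥(modularFunctionFieldFull N), b ∈ chartAlg N ℓ {t} ∧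
      a = ((ℓ : ℕ) : ↥(modularFunctionFieldFull N)) * b := by
  have hl0 : ((ℓ : ℕ) : ↥(modularFunctionFieldFull N)) ≠ 0 :=
    Nat.cast_ne_zero.mpr (Fact.out : ℓ.Prime).ne_zero
  set b : ↥(modularFunctionFieldFull N) := ((ℓ : ℕ) : ↥(modularFunctionFieldFull N))⁻¹ * a with hb
  have hab : a = ((ℓ : ℕ) : ↥(modularFunctionFieldFull N)) * b := by
    rw [hb, ← mul_assoc, mul_inv_cancel₀ hl0, one_mul]
  have hbcoe : (b : LaurentSeries ℚ) = y := by
    have h1 : ((ℓ : ℕ) : LaurentSeries ℚ) * (b : LaurentSeries ℚ)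
        = ((ℓ : ℕ) : LaurentSeries ℚ) * y := by
      rw [← hay]
      conv_rhs => rw [hab]
      rw [IntermediateField.coe_mul]
      rfl
    exact mul_left_cancel₀ (natCast_ne_zero_laurent ℓ) h1
  have hbO : b ∈ OF N ℓ := by
    rw [mem_OF, hbcoe]
    exact hy
  refine ⟨b, ?_, hab⟩
  rw [mem_chartAlg_iff]
  have htO : (t : LaurentSeries ℚ) ∈ gaussSub ℓ := by
    rcases ht with rfl | rfl
    · exact jq_mem_gaussSub ℓ
    · exact jq_inv_mem_gaussSub ℓ
  have htr : Transcendental ℚ t := by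
    rcases ht with rfl | rfl
    · exact transcendental_jFull N
    · exact transcendental_jFull_inv N
  have htrρ : Transcendental (ZMod ℓ) (rhoT ℓ ⟨(t : LaurentSeries ℚ), htO⟩) := by
    rcases ht with rfl | rfl
    · exact QEP.transcendental_rhoT_jq' ℓ _
    · exact QEP.transcendental_rhoT_jq_inv' ℓ _
  have hjE : jFull N ∈ IntermediateField.adjoin ℚ {t} := by
    rcases ht with rfl | rfl
    · exact IntermediateField.mem_adjoin_simple_self ℚ _
    · have h := inv_mem (IntermediateField.mem_adjoin_simple_self ℚ (jFull N)⁻¹)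
      rwa [inv_inv] at h
  refine isIntegral_adjoin_of_isIntegral (k := ℚ) (A := Zl ℓ) t htr (OF N ℓ) ?_ b ?_ ?_
  · intro f hf
    rw [← SetLike.mem_coe] at hf
    have hf' : ((aeval t f : ↥(modularFunctionFieldFull N)) : LaurentSeries ℚ) ∈ gaussSub ℓ := hf
    rw [coe_aeval] at hf'
    exact QEP.poly_mem_of_aeval_mem ℓ ⟨(t : LaurentSeries ℚ), htO⟩ htrρ f hf'
  · have ha' : IsIntegral (Algebra.adjoin (Zl ℓ) {t}) a := ha
    have hle : ∀ z ∈ Algebra.adjoin (Zl ℓ) {t}, z ∈ Algebra.adjoin ℚ {t} := by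
      intro z hz
      induction hz using Algebra.adjoin_induction with
      | mem y hy => exact Algebra.subset_adjoin hy
      | algebraMap r => exact Subalgebra.algebraMap_mem _ (r : ℚ)
      | add y z _ _ hy hz => exact add_mem hy hz
      | mul y z _ _ hy hz => exact mul_mem hy hz
    let φ : ↥(Algebra.adjoin (Zl ℓ) {t}) →+* ↥(Algebra.adjoin ℚ {t}) :=
      { toFun := fun z => ⟨z.1, hle z.1 z.2⟩
        map_one' := rfl
        map_mul' := fun _ _ => rfl
        map_zero' := rfl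
        map_add' := fun _ _ => rfl }
    have h1 : IsIntegral (Algebra.adjoin ℚ {t}) a :=
      ha'.map_of_comp_eq φ (RingHom.id _) (by ext; rfl)
    have h2 : IsIntegral (Algebra.adjoin ℚ {t})
        (((ℓ : ℕ) : ↥(modularFunctionFieldFull N))⁻¹) := by
      have h3 : (((ℓ : ℕ) : ↥(modularFunctionFieldFull N))⁻¹)
          = algebraMap (Algebra.adjoin ℚ {t}) ↥(modularFunctionFieldFull N)
            (algebraMap ℚ (Algebra.adjoin ℚ {t}) ((ℓ : ℚ)⁻¹)) := by
        rw [← IsScalarTower.algebraMap_apply, map_inv₀, map_natCast]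
      rw [h3]
      exact isIntegral_algebraMap
    exact h2.mul h1
  · exact isIntegral_inf N ℓ n u hu hspan hmc _ hjE b hbO

end single

end Fermat.Agent.S28.Kernel


namespace Fermat.Agent.S28

open Fermat.Agent.S28.Gauss Fermat.Agent.S28.Kernel

set_option maxHeartbeats 800000 in
set_option synthInstance.maxHeartbeats 400000 in
/-- **Kernel block of S28**: each chart ring has a ring hom to `𝔽_ℓ((q))` whose kernel is
generated by `ℓ`. -/
theorem exists_chart_reduction (N : ℕ) [NeZero N] (ℓ : ℕ) [Fact ℓ.Prime] (n : ℕ)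
    (u : LaurentSeries ℤ)
    (hu : coeffMap (Int.castRingHom ℚ) u ∈ modularFunctionFieldFull N)
    (hspan : ∀ x ∈ modularFunctionFieldFull N, ∃ (D : ℚ[X]) (P : Fin n → ℚ[X]), D ≠ 0 ∧
      x * aeval jq D = ∑ i, aeval jq (P i) * (coeffMap (Int.castRingHom ℚ) u) ^ (i : ℕ))
    (hmc : ∀ P : Fin n → (ZMod ℓ)[X],
      ∑ i, aeval (jqModC (ZMod ℓ)) (P i) * (coeffMap (Int.castRingHom (ZMod ℓ)) u) ^ (i : ℕ) = 0 →
        ∀ i, P i = 0)
    (S : Set ↥(modularFunctionFieldFull N))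
    (hS : S = {jFull N} ∨ S = {(jFull N)⁻¹} ∨ S = {jFull N, (jFull N)⁻¹}) :
    ∃ ρ : chartAlg N ℓ S →+* LaurentSeries (ZMod ℓ),
      ∀ a : chartAlg N ℓ S, ρ a = 0 → ∃ b : chartAlg N ℓ S, a = (ℓ : chartAlg N ℓ S) * b := by
  have hSsub : S ⊆ {jFull N, (jFull N)⁻¹} := by
    rcases hS with rfl | rfl | rfl
    · exact sFin_subset N
    · exact sInf_subset N
    · exact subset_rfl
  refine ⟨rhoS N ℓ S hSsub, ?_⟩
  intro a ha
  obtain ⟨y, hy⟩ := exists_eq_mul_of_rhoT_eq_zero ℓ (toGauss N ℓ S hSsub a) ha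
  have hay : ((a : ↥(modularFunctionFieldFull N)) : LaurentSeries ℚ)
      = ((ℓ : ℕ) : LaurentSeries ℚ) * (y : LaurentSeries ℚ) := hy
  have key : ∃ b : ↥(modularFunctionFieldFull N), b ∈ chartAlg N ℓ S ∧
      (a : ↥(modularFunctionFieldFull N)) = ((ℓ : ℕ) : ↥(modularFunctionFieldFull N)) * b := by
    rcases hS with rfl | rfl | rfl
    · exact exists_mul_single N ℓ n u hu hspan hmc (jFull N) (Or.inl rfl) a a.2 y y.2 hay
    · exact exists_mul_single N ℓ n u hu hspan hmc (jFull N)⁻¹ (Or.inr rfl) a a.2 y y.2 hay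
    · have hpair : ({jFull N, (jFull N)⁻¹} : Set ↥(modularFunctionFieldFull N))
          = insert (jFull N)⁻¹ {jFull N} := Set.pair_comm _ _
      have ha2 : (a : ↥(modularFunctionFieldFull N)) ∈
          chartAlg N ℓ (insert (jFull N)⁻¹ {jFull N}) := by
        rw [← hpair]
        exact a.2
      obtain ⟨m, hm⟩ := exists_pow_mul_mem_chartAlg (s := jFull N) (S := {jFull N}) rfl
        (jFull_ne_zero N) ha2
      have hcoe : (((jFull N) ^ m * (a : ↥(modularFunctionFieldFull N)) :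
          ↥(modularFunctionFieldFull N)) : LaurentSeries ℚ)
          = ((ℓ : ℕ) : LaurentSeries ℚ) * (jq ^ m * (y : LaurentSeries ℚ)) := by
        rw [IntermediateField.coe_mul, IntermediateField.coe_pow, hay, coe_jFull]
        ring
      obtain ⟨b, hb, hab⟩ := exists_mul_single N ℓ n u hu hspan hmc (jFull N) (Or.inl rfl) _ hm
        (jq ^ m * y) (mul_mem (pow_mem (jq_mem_gaussSub ℓ) m) y.2) hcoe
      have hjinv : (jFull N)⁻¹ ∈ chartAlg N ℓ {jFull N, (jFull N)⁻¹} :=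
        subset_chartAlg N ℓ {jFull N, (jFull N)⁻¹}
          (Set.mem_insert_of_mem (jFull N) (Set.mem_singleton _))
      have hbmid : b ∈ chartAlg N ℓ {jFull N, (jFull N)⁻¹} :=
        chartAlg_mono N ℓ (sFin_subset N) hb
      refine ⟨((jFull N)⁻¹) ^ m * b, ?_, ?_⟩
      · exact Subalgebra.mul_mem _ (Subalgebra.pow_mem _ hjinv m) hbmid
      · have hj := jFull_ne_zero N
        have h1 : (a : ↥(modularFunctionFieldFull N))
            = ((jFull N)⁻¹) ^ m * ((jFull N) ^ m * a) := by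
          rw [← mul_assoc, ← mul_pow, inv_mul_cancel₀ hj, one_pow, one_mul]
        rw [h1, hab]
        ring
  obtain ⟨b, hb, hab⟩ := key
  refine ⟨⟨b, hb⟩, Subtype.ext ?_⟩
  rw [Subalgebra.coe_mul]
  exact hab

end Fermat.Agent.S28
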