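import Mathlib
import Fermat.Agent.S28_Kernel
import Fermat.Agent.S18_Charts
import Fermat.Agent.S18_ValRing
import Fermat.Agent.S18_Step0

/-!
# S18: functions without zeros and poles on the reduction are constant

For a field `k` of characteristic `ℓ ∤ N` the field `modularFunctionFieldFullC k N`
(`= k (j̄_d : d ∣ N) ⊂ k((q))`) is a finite separable extension of `k(j̄)`: it is contained in
`k(j̄)(ū)` for the reduction `ū` of an integral series `u` satisfying the interface (M*) of S28
and separable over `k(j̄)`.  Hence a function with trivial divisor is algebraic over `k`.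
-/

set_option autoImplicit false
set_option linter.unusedSectionVars false
set_option linter.unusedVariables false
set_option linter.style.haveILetI false

noncomputable section

open Polynomial HahnSeries IntermediateField AlgebraicCurve ModularCurve

namespace Fermat.Agent.S18.Const

open Fermat.Agent.S28 Fermat.Agent.S28.Gauss

section NormalForm

variable (N : ℕ) [NeZero N] (ℓ : ℕ) [Fact ℓ.Prime]

/-- the normal form of `j_d` (`d ∣ N`) in terms of `u`, reduced modulo `ℓ`. -/
theorem exists_normal_form_mod (n : ℕ) (u : LaurentSeries ℤ)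
    (hspan : ∀ x ∈ modularFunctionFieldFull N, ∃ (D : ℚ[X]) (P : Fin n → ℚ[X]), D ≠ 0 ∧
      x * aeval jq D = ∑ i, aeval jq (P i) * (coeffMap (Int.castRingHom ℚ) u) ^ (i : ℕ))
    (hmc : ∀ P : Fin n → (ZMod ℓ)[X],
      ∑ i, aeval (jqModC (ZMod ℓ)) (P i) * (coeffMap (Int.castRingHom (ZMod ℓ)) u) ^ (i : ℕ) = 0 →
        ∀ i, P i = 0)
    (d : ℕ) [NeZero d] (hd : d ∣ N) :
    ∃ (D : (ZMod ℓ)[X]) (P : Fin n → (ZMod ℓ)[X]), D ≠ 0 ∧
      jqNModC (ZMod ℓ) d * aeval (jqModC (ZMod ℓ)) D
        = ∑ i, aeval (jqModC (ZMod ℓ)) (P i)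
            * (coeffMap (Int.castRingHom (ZMod ℓ)) u) ^ (i : ℕ) := by
  have hx : coeffMap (Int.castRingHom ℚ) (jqNModC ℤ d) = qExpand ℚ d jq :=
    coeffMap_jqNModC (Int.castRingHom ℚ) d
  have hxF : coeffMap (Int.castRingHom ℚ) (jqNModC ℤ d) ∈ modularFunctionFieldFull N := by
    rw [hx]; exact jqd_mem_full N hd
  have hxG : coeffMap (Int.castRingHom ℚ) (jqNModC ℤ d) ∈ gaussSub ℓ :=
    Kernel.coeffMap_int_mem_gaussSub ℓ _
  obtain ⟨D, P, hD, hrel⟩ := Kernel.exists_normal_form N ℓ n u hspan hmc _ hxF hxG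
  refine ⟨D.map (res ℓ), fun i => (P i).map (res ℓ), hD, ?_⟩
  set jG : gaussSub ℓ := ⟨jq, Kernel.jq_mem_gaussSub ℓ⟩ with hjG
  set uG : gaussSub ℓ := ⟨coeffMap (Int.castRingHom ℚ) u, Kernel.coeffMap_int_mem_gaussSub ℓ u⟩
    with huG
  set xG : gaussSub ℓ := ⟨coeffMap (Int.castRingHom ℚ) (jqNModC ℤ d), hxG⟩ with hxG'
  have hmemD := QEP.aeval_mem_gaussSub ℓ jG D
  have hmemP := fun i => QEP.aeval_mem_gaussSub ℓ jG (P i)
  have hG : xG * ⟨_, hmemD⟩ = ∑ i, (⟨_, hmemP i⟩ : gaussSub ℓ) * uG ^ (i : ℕ) := by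
    apply Subtype.ext
    rw [Subring.coe_mul, AddSubmonoidClass.coe_finsetSum]
    exact hrel
  have h2 := congrArg (rhoT ℓ) hG
  rw [map_mul, map_sum, QEP.rhoT_aeval'] at h2
  have h3 : rhoT ℓ xG = jqNModC (ZMod ℓ) d := by
    rw [hxG', Kernel.rhoT_coeffMap_int, coeffMap_jqNModC]
  have hj : rhoT ℓ jG = jqModC (ZMod ℓ) := Kernel.rhoT_jq ℓ _
  have hu : rhoT ℓ uG = coeffMap (Int.castRingHom (ZMod ℓ)) u := Kernel.rhoT_coeffMap_int ℓ u _
  rw [h3, hj] at h2
  rw [h2]
  refine Finset.sum_congr rfl (fun i _ => ?_)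
  rw [map_mul, map_pow, QEP.rhoT_aeval', hj, hu]

end NormalForm

section Transfer

/-- separability descends along compatible ring homs of the base fields. -/
theorem isSeparable_of_ringHom {A B E Ω : Type*} [Field A] [Field B] [Field E] [Field Ω]
    [Algebra A E] [Algebra B Ω] (ι : E →+* Ω) (σ : B →+* A)
    (hσ : ∀ b : B, ι (algebraMap A E (σ b)) = algebraMap B Ω b)
    (x : E) (hx : IsSeparable B (ι x)) : IsSeparable A x := by
  have hp : (minpoly B (ι x)).Separable := hx
  have hq0 : aeval x ((minpoly B (ι x)).map σ) = 0 := by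
    apply ι.injective
    rw [map_zero, aeval_def, Polynomial.hom_eval₂, Polynomial.eval₂_map]
    have h1 : (ι.comp (algebraMap A E)).comp σ = algebraMap B Ω := RingHom.ext hσ
    rw [h1]
    exact minpoly.aeval B (ι x)
  exact (hp.map (f := σ)).of_dvd (minpoly.dvd A x hq0)

/-- separability over an intermediate field can be tested after an embedding. -/
theorem isSeparable_of_map {k E Ω : Type*} [Field k] [Field E] [Field Ω] [Algebra k E]
    [Algebra k Ω] (ι : E →ₐ[k] Ω) (K : IntermediateField k E) (x : E)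
    (hx : IsSeparable (K.map ι) (ι x)) : IsSeparable K x := by
  refine isSeparable_of_ringHom (ι : E →+* Ω)
    ((IntermediateField.equivMap K ι).symm : (K.map ι) →+* K) (fun b => ?_) x hx
  have h1 := IntermediateField.coe_equivMap_apply K ι ((IntermediateField.equivMap K ι).symm b)
  rw [AlgEquiv.apply_symm_apply] at h1
  exact h1.symm

end Transfer

section BaseChange

theorem coeffMap_aeval {K K' : Type*} [Field K] [Field K'] (f : K →+* K')
    (x : LaurentSeries K) (p : K[X]) :
    coeffMap f (aeval x p) = aeval (coeffMap f x) (p.map f) := by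
  rw [aeval_def, aeval_def, Polynomial.hom_eval₂, Polynomial.eval₂_map]
  congr 1
  refine RingHom.ext fun c => ?_
  rw [RingHom.comp_apply, RingHom.comp_apply, algebraMap_laurentSeries_eq_single,
    algebraMap_laurentSeries_eq_single, coeffMap_single]

variable (N : ℕ) [NeZero N] (ℓ : ℕ) [Fact ℓ.Prime] (k : Type*) [Field k] [Algebra (ZMod ℓ) k]

/-- the normal form of `j̄_d` over any field of characteristic `ℓ`. -/
theorem exists_normal_form_field (n : ℕ) (u : LaurentSeries ℤ)
    (hspan : ∀ x ∈ modularFunctionFieldFull N, ∃ (D : ℚ[X]) (P : Fin n → ℚ[X]), D ≠ 0 ∧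
      x * aeval jq D = ∑ i, aeval jq (P i) * (coeffMap (Int.castRingHom ℚ) u) ^ (i : ℕ))
    (hmc : ∀ P : Fin n → (ZMod ℓ)[X],
      ∑ i, aeval (jqModC (ZMod ℓ)) (P i) * (coeffMap (Int.castRingHom (ZMod ℓ)) u) ^ (i : ℕ) = 0 →
        ∀ i, P i = 0)
    (d : ℕ) [NeZero d] (hd : d ∣ N) :
    ∃ (D : k[X]) (P : Fin n → k[X]), D ≠ 0 ∧
      jqNModC k d * aeval (jqModC k) D
        = ∑ i, aeval (jqModC k) (P i) * (coeffMap (Int.castRingHom k) u) ^ (i : ℕ) := by
  obtain ⟨D, P, hD, hrel⟩ := exists_normal_form_mod N ℓ n u hspan hmc d hd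
  refine ⟨D.map (algebraMap (ZMod ℓ) k), fun i => (P i).map (algebraMap (ZMod ℓ) k),
    (Polynomial.map_ne_zero_iff (algebraMap (ZMod ℓ) k).injective).mpr hD, ?_⟩
  have h1 := congrArg (coeffMap (algebraMap (ZMod ℓ) k)) hrel
  have hu : coeffMap (algebraMap (ZMod ℓ) k) (coeffMap (Int.castRingHom (ZMod ℓ)) u)
      = coeffMap (Int.castRingHom k) u := by
    rw [coeffMap_coeffMap]
    exact coeffMap_congr (RingHom.ext_int _ _) u
  rw [map_mul, map_sum, coeffMap_jqNModC, coeffMap_aeval, coeffMap_jqModC] at h1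
  rw [h1]
  refine Finset.sum_congr rfl (fun i _ => ?_)
  rw [map_mul, map_pow, coeffMap_aeval, coeffMap_jqModC, hu]

end BaseChange

section Separable

variable (N : ℕ) [NeZero N] (ℓ : ℕ) [Fact ℓ.Prime] (k : Type*) [Field k] [Algebra (ZMod ℓ) k]

/-- `j̄` as an element of the function field in characteristic `ℓ`. -/
def jBarC : modularFunctionFieldFullC k N := ⟨jqModC k, jqModC_mem_full k N⟩

theorem transcendental_jBarC : Transcendental k (jBarC N k) := by
  intro h
  have h1 : IsAlgebraic k ((modularFunctionFieldFullC k N).val (jBarC N k)) :=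
    h.algHom (modularFunctionFieldFullC k N).val
  exact QEP.transcendental_jqModC k h1

/-- the function field is contained in `k(j̄)(ū)`. -/
theorem fullC_le_adjoin (n : ℕ) (u : LaurentSeries ℤ)
    (hspan : ∀ x ∈ modularFunctionFieldFull N, ∃ (D : ℚ[X]) (P : Fin n → ℚ[X]), D ≠ 0 ∧
      x * aeval jq D = ∑ i, aeval jq (P i) * (coeffMap (Int.castRingHom ℚ) u) ^ (i : ℕ))
    (hmc : ∀ P : Fin n → (ZMod ℓ)[X],
      ∑ i, aeval (jqModC (ZMod ℓ)) (P i) * (coeffMap (Int.castRingHom (ZMod ℓ)) u) ^ (i : ℕ) = 0 →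
        ∀ i, P i = 0)
    (x : LaurentSeries k) (hx : x ∈ modularFunctionFieldFullC k N) :
    x ∈ (IntermediateField.adjoin k {jqModC k})⟮coeffMap (Int.castRingHom k) u⟯ := by
  set B : IntermediateField k (LaurentSeries k) := IntermediateField.adjoin k {jqModC k} with hB
  have hle : modularFunctionFieldFullC k N
      ≤ (B⟮coeffMap (Int.castRingHom k) u⟯).restrictScalars k := by
    unfold modularFunctionFieldFullC
    rw [IntermediateField.adjoin_le_iff]
    rintro y ⟨d, hd0, hd, rfl⟩
    show qExpand k d (jqModC k) ∈ B⟮coeffMap (Int.castRingHom k) u⟯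
    obtain ⟨D, P, hD, hrel⟩ := exists_normal_form_field N ℓ k n u hspan hmc d hd
    have hDj : aeval (jqModC k) D ≠ 0 := fun h => hD (Kernel.aeval_jqModC_eq_zero' k h)
    have hjB : jqModC k ∈ B := IntermediateField.subset_adjoin k _ (Set.mem_singleton _)
    have hmemB : ∀ p : k[X], aeval (jqModC k) p ∈ B⟮coeffMap (Int.castRingHom k) u⟯ := by
      intro p
      have h1 : aeval (jqModC k) p ∈ B := Kernel.aeval_mem_intermediate B hjB p
      exact (B⟮coeffMap (Int.castRingHom k) u⟯).algebraMap_mem ⟨_, h1⟩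
    have hu : coeffMap (Int.castRingHom k) u ∈ B⟮coeffMap (Int.castRingHom k) u⟯ :=
      IntermediateField.mem_adjoin_simple_self B _
    have hxe : qExpand k d (jqModC k)
        = (∑ i, aeval (jqModC k) (P i) * (coeffMap (Int.castRingHom k) u) ^ (i : ℕ))
          / aeval (jqModC k) D := by
      rw [← hrel, mul_div_cancel_right₀ _ hDj]
      rfl
    rw [hxe]
    exact div_mem (sum_mem fun i _ => mul_mem (hmemB _) (pow_mem hu _)) (hmemB _)
  exact hle hx

/-- every element of the function field is separable over `k(j̄)`. -/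
theorem isSeparable_fullC (n : ℕ) (u : LaurentSeries ℤ)
    (hspan : ∀ x ∈ modularFunctionFieldFull N, ∃ (D : ℚ[X]) (P : Fin n → ℚ[X]), D ≠ 0 ∧
      x * aeval jq D = ∑ i, aeval jq (P i) * (coeffMap (Int.castRingHom ℚ) u) ^ (i : ℕ))
    (hmc : ∀ P : Fin n → (ZMod ℓ)[X],
      ∑ i, aeval (jqModC (ZMod ℓ)) (P i) * (coeffMap (Int.castRingHom (ZMod ℓ)) u) ^ (i : ℕ) = 0 →
        ∀ i, P i = 0)
    (hsep : IsSeparable (IntermediateField.adjoin k {jqModC k})
      (coeffMap (Int.castRingHom k) u))
    (x : modularFunctionFieldFullC k N) :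
    IsSeparable (IntermediateField.adjoin k {jBarC N k}) x := by
  set B : IntermediateField k (LaurentSeries k) := IntermediateField.adjoin k {jqModC k} with hB
  have hK₁ : Algebra.IsSeparable B B⟮coeffMap (Int.castRingHom k) u⟯ :=
    (IntermediateField.isSeparable_adjoin_simple_iff_isSeparable B _).mpr hsep
  have h1 : IsSeparable B (x : LaurentSeries k) :=
    IntermediateField.isSeparable_of_mem_isSeparable B _
      (fullC_le_adjoin N ℓ k n u hspan hmc x x.2)
  apply isSeparable_of_map (modularFunctionFieldFullC k N).val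
  have hmap : (IntermediateField.adjoin k {jBarC N k}).map (modularFunctionFieldFullC k N).val
      = B := by
    rw [IntermediateField.adjoin_map, Set.image_singleton]
    rfl
  rw [hmap]
  exact h1

theorem finite_divisorExpansionsC : (divisorExpansionsC k N).Finite := by
  classical
  refine Set.Finite.subset ((Finset.finite_toSet N.divisors).image
    (fun d : ℕ => if hd : d = 0 then (0 : LaurentSeries k)
      else (haveI : NeZero d := ⟨hd⟩; qExpand k d (jqModC k)))) ?_
  rintro x ⟨d, hd0, hd, rfl⟩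
  refine ⟨d, ?_, ?_⟩
  · rw [Finset.mem_coe, Nat.mem_divisors]
    exact ⟨hd, NeZero.ne N⟩
  · simp only [dif_neg (NeZero.ne d)]

set_option synthInstance.maxHeartbeats 400000 in
/-- the function field in characteristic `ℓ ∤ N` is a finite separable extension of `k(j̄)`. -/
theorem finite_separable_fullC (n : ℕ) (u : LaurentSeries ℤ)
    (hspan : ∀ x ∈ modularFunctionFieldFull N, ∃ (D : ℚ[X]) (P : Fin n → ℚ[X]), D ≠ 0 ∧
      x * aeval jq D = ∑ i, aeval jq (P i) * (coeffMap (Int.castRingHom ℚ) u) ^ (i : ℕ))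
    (hmc : ∀ P : Fin n → (ZMod ℓ)[X],
      ∑ i, aeval (jqModC (ZMod ℓ)) (P i) * (coeffMap (Int.castRingHom (ZMod ℓ)) u) ^ (i : ℕ) = 0 →
        ∀ i, P i = 0)
    (hsep : IsSeparable (IntermediateField.adjoin k {jqModC k})
      (coeffMap (Int.castRingHom k) u)) :
    FiniteDimensional (IntermediateField.adjoin k {jBarC N k}) (modularFunctionFieldFullC k N) ∧
      Algebra.IsSeparable (IntermediateField.adjoin k {jBarC N k})
        (modularFunctionFieldFullC k N) := by
  have hsepA : Algebra.IsSeparable (IntermediateField.adjoin k {jBarC N k})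
      (modularFunctionFieldFullC k N) :=
    ⟨fun x => isSeparable_fullC N ℓ k n u hspan hmc hsep x⟩
  refine ⟨?_, hsepA⟩
  have hess : Algebra.EssFiniteType k (modularFunctionFieldFullC k N) := by
    unfold modularFunctionFieldFullC
    exact (IntermediateField.essFiniteType_iff
      (K := IntermediateField.adjoin k (divisorExpansionsC k N))).mpr
      (IntermediateField.fg_adjoin_of_finite (finite_divisorExpansionsC N k))
  have hess' : Algebra.EssFiniteType (IntermediateField.adjoin k {jBarC N k})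
      (modularFunctionFieldFullC k N) :=
    Algebra.EssFiniteType.of_comp k (IntermediateField.adjoin k {jBarC N k})
      (modularFunctionFieldFullC k N)
  have halg : Algebra.IsAlgebraic (IntermediateField.adjoin k {jBarC N k})
      (modularFunctionFieldFullC k N) :=
    ⟨fun x => (isSeparable_fullC N ℓ k n u hspan hmc hsep x).isIntegral.isAlgebraic⟩
  exact Algebra.finite_of_essFiniteType_of_isAlgebraic

end Separable

section Constants

variable (N : ℕ) [NeZero N] (ℓ : ℕ) [Fact ℓ.Prime] (k : Type*) [Field k] [Algebra (ZMod ℓ) k]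
  [IsAlgClosed k]

set_option synthInstance.maxHeartbeats 400000 in
/-- a function without zeros and poles on the reduction of `X₀(N)` is constant. -/
theorem const_of_ord_eq_zero (n : ℕ) (u : LaurentSeries ℤ)
    (hspan : ∀ x ∈ modularFunctionFieldFull N, ∃ (D : ℚ[X]) (P : Fin n → ℚ[X]), D ≠ 0 ∧
      x * aeval jq D = ∑ i, aeval jq (P i) * (coeffMap (Int.castRingHom ℚ) u) ^ (i : ℕ))
    (hmc : ∀ P : Fin n → (ZMod ℓ)[X],
      ∑ i, aeval (jqModC (ZMod ℓ)) (P i) * (coeffMap (Int.castRingHom (ZMod ℓ)) u) ^ (i : ℕ) = 0 →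
        ∀ i, P i = 0)
    (hsep : IsSeparable (IntermediateField.adjoin k {jqModC k})
      (coeffMap (Int.castRingHom k) u))
    (f : modularFunctionFieldFullC k N)
    (hf : ∀ Q : Place k (modularFunctionFieldFullC k N), Q.ord f = 0) :
    ∃ c : k, f = algebraMap k (modularFunctionFieldFullC k N) c := by
  obtain ⟨hfin, hsepA⟩ := finite_separable_fullC N ℓ k n u hspan hmc hsep
  have halg : IsAlgebraic k f :=
    Fermat.Agent.S18.Charts.isAlgebraic_of_forall_ord_nonneg (jBarC N k)
      (transcendental_jBarC N k) f (fun v => (hf v).ge)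
  have hint : IsIntegral k f := halg.isIntegral
  have hdeg := IsAlgClosed.degree_eq_one_of_irreducible k (minpoly.irreducible hint)
  obtain ⟨c, hc⟩ := (minpoly.degree_eq_one_iff).mp hdeg
  exact ⟨c, hc.symm⟩

end Constants

section Final

set_option synthInstance.maxHeartbeats 400000

variable (ℓ : ℕ) [Fact ℓ.Prime] (A : ValuationSubring (AlgebraicClosure ℚ)) (N : ℕ) [NeZero N]

/-- **Step 0** with the constancy hypothesis discharged: it only needs an integral series `u`
with the interface (M*) of S28 whose reduction is separable over `k(j̄)`. -/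
theorem step0_of_series (hA : A.LiesOverPrime ℓ) (n : ℕ) (u : LaurentSeries ℤ)
    (hspan : ∀ x ∈ modularFunctionFieldFull N, ∃ (D : ℚ[X]) (P : Fin n → ℚ[X]), D ≠ 0 ∧
      x * aeval jq D = ∑ i, aeval jq (P i) * (coeffMap (Int.castRingHom ℚ) u) ^ (i : ℕ))
    (hmc : ∀ P : Fin n → (ZMod ℓ)[X],
      ∑ i, aeval (jqModC (ZMod ℓ)) (P i) * (coeffMap (Int.castRingHom (ZMod ℓ)) u) ^ (i : ℕ) = 0 →
        ∀ i, P i = 0)
    (hsep : IsSeparable
      (IntermediateField.adjoin (IsLocalRing.ResidueField A)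
        {jqModC (IsLocalRing.ResidueField A)})
      (coeffMap (Int.castRingHom (IsLocalRing.ResidueField A)) u))
    (h : ReductionInputsModL A N) (m : ℕ) (hm : m ≠ 0) (z : JZero N) (hmz : m • z = 0)
    (hz : reductionModL A N z = 0) :
    ∃ (u : modularFunctionFieldBar N) (a s : LaurentSeries A),
      u ≠ 0 ∧ coeffMap (IsLocalRing.residue A) s ≠ 0 ∧
      coeffMap (IsLocalRing.residue A) a = coeffMap (IsLocalRing.residue A) s ∧
      coeffMap A.subtype s * (u : LaurentSeries (AlgebraicClosure ℚ)) = coeffMap A.subtype a ∧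
      (∀ P : Place (AlgebraicClosure ℚ) (modularFunctionFieldBar N), (m : ℤ) ∣ P.ord u) ∧
      ((∃ t : modularFunctionFieldBar N, t ^ m = u) → z = 0) := by
  haveI : IsAlgClosed (IsLocalRing.ResidueField A) :=
    Fermat.Agent.S18.ValRing.isAlgClosed_residueField A
  haveI : CharP (IsLocalRing.ResidueField A) ℓ := Fermat.Agent.S18.ValRing.charP_residueField A hA
  letI : Algebra (ZMod ℓ) (IsLocalRing.ResidueField A) := ZMod.algebra _ ℓ
  exact Fermat.Agent.S18.Step0.step0 A N
    (fun f _ hf => const_of_ord_eq_zero N ℓ (IsLocalRing.ResidueField A) n u hspan hmc hsep f hf)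
    h m hm z hmz hz

end Final

end Fermat.Agent.S18.Const
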