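import Mathlib
import Fermat.Prelude.Def_ModularCurve_LaurentCoeff

/-!
# S18, WP-D1 (generic part): the Gauss ring inside `L((q))` for a valued field `(L, A)`

`A : ValuationSubring L`, `k = IsLocalRing.ResidueField A`.
* `emb A : A((q)) →+* L((q))`, `red A : A((q)) →+* k((q))` (coefficientwise);
* `gaussRing A ⊂ L((q))`: the fractions `a / s` with `a, s ∈ A((q))`, `red s ≠ 0`;
* `rho A : gaussRing A →+* k((q))`, `rho (a / s) = red a / red s`.
-/

set_option autoImplicit false

noncomputable section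

open ModularCurve Polynomial

namespace Fermat.Agent.S18.Gauss

variable {L : Type*} [Field L] (A : ValuationSubring L)

/-- the embedding `A((q)) → L((q))`. -/
def emb : LaurentSeries A →+* LaurentSeries L := coeffMap A.subtype

/-- the reduction `A((q)) → k((q))`. -/
def red : LaurentSeries A →+* LaurentSeries (IsLocalRing.ResidueField A) :=
  coeffMap (IsLocalRing.residue A)

theorem emb_coeff (a : LaurentSeries A) (i : ℤ) : (emb A a).coeff i = (a.coeff i : L) := rfl

theorem red_coeff (a : LaurentSeries A) (i : ℤ) :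
    (red A a).coeff i = IsLocalRing.residue A (a.coeff i) := rfl

theorem emb_injective : Function.Injective (emb A) := by
  intro a b h
  ext i
  have := congrArg (fun x : LaurentSeries L => x.coeff i) h
  simpa [emb_coeff] using this

/-- the Gauss ring: fractions `a / s` in `L((q))` with `a, s ∈ A((q))` and `red s ≠ 0`. -/
def gaussRing : Subring (LaurentSeries L) where
  carrier := {x | ∃ s a : LaurentSeries A, red A s ≠ 0 ∧ emb A s * x = emb A a}
  mul_mem' := by
    rintro x y ⟨s, a, hs, h⟩ ⟨s', a', hs', h'⟩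
    refine ⟨s * s', a * a', ?_, ?_⟩
    · rw [map_mul]; exact mul_ne_zero hs hs'
    · rw [map_mul, map_mul, ← h, ← h']; ring
  one_mem' := ⟨1, 1, by rw [map_one]; exact one_ne_zero, by simp⟩
  add_mem' := by
    rintro x y ⟨s, a, hs, h⟩ ⟨s', a', hs', h'⟩
    refine ⟨s * s', a * s' + a' * s, ?_, ?_⟩
    · rw [map_mul]; exact mul_ne_zero hs hs'
    · rw [map_mul, map_add, map_mul, map_mul, ← h, ← h']; ring
  zero_mem' := ⟨1, 0, by rw [map_one]; exact one_ne_zero, by simp⟩
  neg_mem' := by
    rintro x ⟨s, a, hs, h⟩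
    exact ⟨s, -a, hs, by rw [map_neg, ← h]; ring⟩

theorem mem_gaussRing {x : LaurentSeries L} :
    x ∈ gaussRing A ↔ ∃ s a : LaurentSeries A, red A s ≠ 0 ∧ emb A s * x = emb A a := Iff.rfl

theorem emb_mem_gaussRing (b : LaurentSeries A) : emb A b ∈ gaussRing A :=
  ⟨1, b, by rw [map_one]; exact one_ne_zero, by simp⟩

theorem rho_aux {x : LaurentSeries L} {s a s' a' : LaurentSeries A} (h : emb A s * x = emb A a)
    (h' : emb A s' * x = emb A a') : red A a * red A s' = red A a' * red A s := by
  have : a * s' = a' * s := by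
    apply emb_injective
    rw [map_mul, map_mul, ← h, ← h']; ring
  rw [← map_mul, ← map_mul, this]

/-- the reduction of an element of the Gauss ring -/
def rhoFun (x : gaussRing A) : LaurentSeries (IsLocalRing.ResidueField A) :=
  red A x.2.choose_spec.choose / red A x.2.choose

theorem rhoFun_eq (x : gaussRing A) (s a : LaurentSeries A) (hs : red A s ≠ 0)
    (h : emb A s * (x : LaurentSeries L) = emb A a) : rhoFun A x = red A a / red A s := by
  have hs0 := x.2.choose_spec.choose_spec.1
  have h0 := x.2.choose_spec.choose_spec.2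
  rw [rhoFun, div_eq_div_iff hs0 hs]
  exact rho_aux A h0 h

/-- the reduction homomorphism on the Gauss ring -/
def rho : gaussRing A →+* LaurentSeries (IsLocalRing.ResidueField A) where
  toFun := rhoFun A
  map_one' := by
    rw [rhoFun_eq A 1 1 1 (by rw [map_one]; exact one_ne_zero) (by simp)]
    simp
  map_mul' x y := by
    obtain ⟨s, a, hs, h⟩ := x.2
    obtain ⟨s', a', hs', h'⟩ := y.2
    rw [rhoFun_eq A x s a hs h, rhoFun_eq A y s' a' hs' h',
      rhoFun_eq A (x * y) (s * s') (a * a') (by rw [map_mul]; exact mul_ne_zero hs hs')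
        (by rw [map_mul, map_mul, ← h, ← h']; push_cast; ring)]
    rw [map_mul, map_mul]
    field_simp
  map_zero' := by
    rw [rhoFun_eq A 0 1 0 (by rw [map_one]; exact one_ne_zero) (by simp)]
    simp
  map_add' x y := by
    obtain ⟨s, a, hs, h⟩ := x.2
    obtain ⟨s', a', hs', h'⟩ := y.2
    rw [rhoFun_eq A x s a hs h, rhoFun_eq A y s' a' hs' h',
      rhoFun_eq A (x + y) (s * s') (a * s' + a' * s) (by rw [map_mul]; exact mul_ne_zero hs hs')
        (by rw [map_mul, map_add, map_mul, map_mul, ← h, ← h']; push_cast; ring)]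
    rw [map_mul, map_add, map_mul, map_mul]
    field_simp

theorem rho_eq (x : gaussRing A) (s a : LaurentSeries A) (hs : red A s ≠ 0)
    (h : emb A s * (x : LaurentSeries L) = emb A a) : rho A x = red A a / red A s :=
  rhoFun_eq A x s a hs h

theorem rho_emb (b : LaurentSeries A) : rho A ⟨emb A b, emb_mem_gaussRing A b⟩ = red A b := by
  rw [rho_eq A _ 1 b (by rw [map_one]; exact one_ne_zero) (by simp)]
  simp

/-! ### units, constants -/

theorem emb_ne_zero {a : LaurentSeries A} (ha : red A a ≠ 0) : emb A a ≠ 0 := by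
  intro h
  have : a = 0 := emb_injective A (by rw [h, map_zero])
  exact ha (by rw [this, map_zero])

theorem inv_emb_mem_gaussRing {a : LaurentSeries A} (ha : red A a ≠ 0) :
    (emb A a)⁻¹ ∈ gaussRing A :=
  ⟨a, 1, ha, by rw [map_one, mul_inv_cancel₀ (emb_ne_zero A ha)]⟩

theorem inv_mem_of_rho_ne_zero (x : gaussRing A) (hx : rho A x ≠ 0) :
    (x : LaurentSeries L)⁻¹ ∈ gaussRing A := by
  obtain ⟨s, a, hs, h⟩ := x.2
  rw [rho_eq A x s a hs h] at hx
  have ha : red A a ≠ 0 := fun h0 => hx (by rw [h0, zero_div])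
  have hx0 : (x : LaurentSeries L) ≠ 0 := by
    intro h0
    rw [h0, mul_zero] at h
    exact emb_ne_zero A ha h.symm
  refine ⟨a, s, ha, ?_⟩
  rw [← h, mul_assoc, mul_inv_cancel₀ hx0, mul_one]

theorem emb_C (a : A) :
    emb A (HahnSeries.C a) = algebraMap L (LaurentSeries L) (a : L) := by
  rw [algebraMap_laurentSeries_eq_single]
  exact coeffMap_single A.subtype 0 a

theorem red_C (a : A) :
    red A (HahnSeries.C a) = algebraMap (IsLocalRing.ResidueField A)
      (LaurentSeries (IsLocalRing.ResidueField A)) (IsLocalRing.residue A a) := by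
  rw [algebraMap_laurentSeries_eq_single]
  exact coeffMap_single (IsLocalRing.residue A) 0 a

theorem algebraMap_mem_gaussRing {c : L} (hc : c ∈ A) :
    algebraMap L (LaurentSeries L) c ∈ gaussRing A := by
  have := emb_mem_gaussRing A (HahnSeries.C (⟨c, hc⟩ : A))
  rwa [emb_C] at this

theorem rho_algebraMap {c : L} (hc : c ∈ A) :
    rho A ⟨algebraMap L (LaurentSeries L) c, algebraMap_mem_gaussRing A hc⟩
      = algebraMap (IsLocalRing.ResidueField A) (LaurentSeries (IsLocalRing.ResidueField A))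
          (IsLocalRing.residue A ⟨c, hc⟩) := by
  have h := rho_emb A (HahnSeries.C (⟨c, hc⟩ : A))
  rw [red_C] at h
  rw [← h]
  congr 1
  exact Subtype.ext (emb_C A ⟨c, hc⟩).symm

theorem residue_eq_zero_of_inv_notMem {c : L} (hc : c ∈ A) (hc' : c⁻¹ ∉ A) :
    IsLocalRing.residue A ⟨c, hc⟩ = 0 := by
  rw [IsLocalRing.residue_eq_zero_iff, IsLocalRing.mem_maximalIdeal, mem_nonunits_iff]
  intro hu
  obtain ⟨d, hd⟩ := hu.exists_right_inv
  have h1 : c * (d : L) = 1 := congrArg Subtype.val hd
  have h2 : c⁻¹ = (d : L) := inv_eq_of_mul_eq_one_right h1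
  exact hc' (h2 ▸ d.2)

theorem algebraMap_mem_gaussRing_iff (c : L) :
    algebraMap L (LaurentSeries L) c ∈ gaussRing A ↔ c ∈ A := by
  refine ⟨fun h => ?_, algebraMap_mem_gaussRing A⟩
  by_contra hc
  have hc' : c⁻¹ ∈ A := (A.mem_or_inv_mem c).resolve_left hc
  have hres : IsLocalRing.residue A ⟨c⁻¹, hc'⟩ = 0 :=
    residue_eq_zero_of_inv_notMem A hc' (by rwa [inv_inv])
  have hc0 : c ≠ 0 := fun h0 => hc (h0 ▸ A.zero_mem)
  have hmul : (⟨algebraMap L (LaurentSeries L) c⁻¹, algebraMap_mem_gaussRing A hc'⟩ : gaussRing A)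
      * ⟨_, h⟩ = 1 := by
    apply Subtype.ext
    show algebraMap L (LaurentSeries L) c⁻¹ * algebraMap L (LaurentSeries L) c = 1
    rw [← map_mul, inv_mul_cancel₀ hc0, map_one]
  have h1 := congrArg (rho A) hmul
  rw [map_mul, rho_algebraMap A hc', hres, map_zero, zero_mul, map_one] at h1
  exact zero_ne_one h1

/-- multiplying by a constant of the maximal ideal kills the reduction. -/
theorem rho_eq_zero_of_mul {c : L} (hc : c ∈ A) (hc' : c⁻¹ ∉ A) (x : gaussRing A)
    (b : LaurentSeries A) (h : emb A b = algebraMap L (LaurentSeries L) c * (x : LaurentSeries L)) :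
    red A b = 0 := by
  have hmul : (⟨emb A b, emb_mem_gaussRing A b⟩ : gaussRing A)
      = ⟨algebraMap L (LaurentSeries L) c, algebraMap_mem_gaussRing A hc⟩ * x := Subtype.ext h
  have h1 := congrArg (rho A) hmul
  rw [map_mul, rho_emb, rho_algebraMap A hc, residue_eq_zero_of_inv_notMem A hc hc', map_zero,
    zero_mul] at h1
  exact h1

/-! ### polynomials -/

/-- evaluation of a polynomial over `A` at a series over `A`. -/
def evalA (P : A[X]) (x : LaurentSeries A) : LaurentSeries A :=
  Polynomial.eval₂ (HahnSeries.C : A →+* LaurentSeries A) x P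

theorem emb_evalA (P : A[X]) (x : LaurentSeries A) :
    emb A (evalA A P x) = aeval (emb A x) (P.map A.subtype) := by
  rw [evalA, Polynomial.hom_eval₂, aeval_def, Polynomial.eval₂_map]
  congr 1
  ext a : 1
  exact emb_C A a

theorem red_evalA (P : A[X]) (x : LaurentSeries A) :
    red A (evalA A P x) = aeval (red A x) (P.map (IsLocalRing.residue A)) := by
  rw [evalA, Polynomial.hom_eval₂, aeval_def, Polynomial.eval₂_map]
  congr 1
  ext a : 1
  exact red_C A a

open Classical in
/-- the element of `A` with a given value (junk `0` outside `A`). -/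
def toA (x : L) : A := if h : x ∈ A then ⟨x, h⟩ else 0

theorem toA_of_mem {x : L} (h : x ∈ A) : toA A x = ⟨x, h⟩ := by
  rw [toA, dif_pos h]

theorem toA_zero : toA A 0 = 0 := by
  rw [toA_of_mem A A.zero_mem]; rfl

theorem toA_one : toA A 1 = 1 := by
  rw [toA_of_mem A A.one_mem]; rfl

/-- lift of a polynomial with coefficients in `A`. -/
def liftPoly (p : L[X]) : A[X] := ∑ j ∈ p.support, Polynomial.monomial j (toA A (p.coeff j))

theorem liftPoly_coeff (p : L[X]) (j : ℕ) : (liftPoly A p).coeff j = toA A (p.coeff j) := by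
  classical
  rw [liftPoly, Polynomial.finsetSum_coeff]
  simp only [Polynomial.coeff_monomial]
  rw [Finset.sum_ite_eq' p.support j (fun i => toA A (p.coeff i))]
  split_ifs with h
  · rfl
  · rw [Polynomial.notMem_support_iff.1 h, toA_zero]

theorem map_liftPoly (p : L[X]) (hp : ∀ j, p.coeff j ∈ A) : (liftPoly A p).map A.subtype = p := by
  ext j
  rw [Polynomial.coeff_map, liftPoly_coeff, toA_of_mem A (hp j)]
  rfl

/-- normalisation of a finite family: scale so that all members are in `A` and one is `1`. -/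
theorem exists_scale {ι : Type*} (S : Finset ι) (f : ι → L) (hf : ∃ i ∈ S, f i ≠ 0) :
    ∃ c : L, c ≠ 0 ∧ (∀ i ∈ S, c * f i ∈ A) ∧ ∃ i ∈ S, c * f i = 1 := by
  obtain ⟨i₁, hi₁, hne⟩ := hf
  obtain ⟨i₀, hi₀, hmax⟩ := Finset.exists_max_image S (fun i => A.valuation (f i)) ⟨i₁, hi₁⟩
  have h0 : f i₀ ≠ 0 := by
    intro h
    have h1 := hmax i₁ hi₁
    simp only [h, map_zero] at h1
    exact hne ((map_eq_zero A.valuation).1 (le_antisymm h1 zero_le))
  refine ⟨(f i₀)⁻¹, inv_ne_zero h0, fun i hi => ?_, i₀, hi₀, inv_mul_cancel₀ h0⟩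
  rw [← A.valuation_le_one_iff, map_mul, map_inv₀]
  have hv0 : A.valuation (f i₀) ≠ 0 := (_root_.map_ne_zero _).2 h0
  rw [inv_mul_le_iff₀ (zero_lt_iff.2 hv0), mul_one]
  exact hmax i hi

/-- normalisation of a finite family of polynomials: after scaling, all coefficients are in
`A` and the reductions are not all zero. -/
theorem exists_scale_poly {n : ℕ} (p : Fin n → L[X]) (hp : ∃ i, p i ≠ 0) :
    ∃ (c : L) (Q : Fin n → A[X]), c ≠ 0 ∧
      (∀ i, (Q i).map A.subtype = Polynomial.C c * p i) ∧
      ∃ i, (Q i).map (IsLocalRing.residue A) ≠ 0 := by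
  classical
  let S : Finset (Fin n × ℕ) :=
    Finset.univ.biUnion (fun i => (p i).support.image (fun j => (i, j)))
  let f : Fin n × ℕ → L := fun x => (p x.1).coeff x.2
  have hS : ∀ i j, (p i).coeff j ≠ 0 → (i, j) ∈ S := by
    intro i j h
    simp only [S, Finset.mem_biUnion, Finset.mem_univ, Finset.mem_image, true_and]
    exact ⟨i, j, Polynomial.mem_support_iff.2 h, rfl⟩
  obtain ⟨i, hi⟩ := hp
  have hex : ∃ x ∈ S, f x ≠ 0 := by
    obtain ⟨j, hj⟩ : ∃ j, (p i).coeff j ≠ 0 := by
      by_contra h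
      push Not at h
      exact hi (Polynomial.ext (by simpa using h))
    exact ⟨(i, j), hS i j hj, hj⟩
  obtain ⟨c, hc0, hmem, x₀, hx₀, h1⟩ := exists_scale A S f hex
  have hall : ∀ i j, c * (p i).coeff j ∈ A := by
    intro i j
    by_cases h : (p i).coeff j = 0
    · rw [h, mul_zero]; exact A.zero_mem
    · exact hmem (i, j) (hS i j h)
  refine ⟨c, fun i => liftPoly A (Polynomial.C c * p i), hc0, fun i => map_liftPoly A _
    (fun j => by rw [Polynomial.coeff_C_mul]; exact hall i j), x₀.1, ?_⟩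
  intro h
  have h2 := congrArg (fun q => q.coeff x₀.2) h
  simp only [Polynomial.coeff_map, liftPoly_coeff, Polynomial.coeff_C_mul,
    Polynomial.coeff_zero] at h2
  have h3 : c * (p x₀.1).coeff x₀.2 = 1 := h1
  rw [h3, toA_one, map_one] at h2
  exact one_ne_zero h2

/-- single polynomial version. -/
theorem exists_scale_poly_one (d : L[X]) (hd : d ≠ 0) :
    ∃ (c : L) (Q : A[X]), c ≠ 0 ∧ Q.map A.subtype = Polynomial.C c * d ∧
      Q.map (IsLocalRing.residue A) ≠ 0 := by
  obtain ⟨c, Q, hc, hQ, i, hi⟩ := exists_scale_poly A (n := 1) (fun _ => d) ⟨0, hd⟩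
  exact ⟨c, Q i, hc, hQ i, hi⟩

end Fermat.Agent.S18.Gauss
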