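import Mathlib
import Fermat.Agent.RR_Main

/-!
# S18 hub: good-reduction valuation rings and the statement of the main theorem (MT)

`GoodVal O h`: a valuation subring `V` of the function field `F/L` extending the valuation
subring `O` of `L`, with the same value group, for which `h` is a unit.  Its residue field `κ`
is an algebra over the residue field `k` of `O`.

`GoodVal.Lbar j ⊂ κ`: elements integral over `k[h̄]` whose product with `h̄^{-j}` is integral over
`k[h̄⁻¹]` (sections of `O(j·∞)` on the special fibre).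
-/

set_option autoImplicit false

noncomputable section

open AlgebraicCurve Fermat.Agent.S24 Fermat.Agent.RR

namespace Fermat.Agent.S18

variable {L F : Type*} [Field L] [Field F] [Algebra L F]

/-- A valuation subring of `F` extending `O ⊂ L` with the same value group, `h` a unit. -/
structure GoodVal (O : ValuationSubring L) (h : F) where
  /-- the valuation ring -/
  V : ValuationSubring F
  mem_iff : ∀ c : L, algebraMap L F c ∈ V ↔ c ∈ O
  scale : ∀ y : F, y ≠ 0 →
    ∃ c : L, c ≠ 0 ∧ algebraMap L F c * y ∈ V ∧ (algebraMap L F c * y)⁻¹ ∈ V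
  h_mem : h ∈ V
  hinv_mem : h⁻¹ ∈ V

namespace GoodVal

variable {O : ValuationSubring L} {h : F} (G : GoodVal O h)

/-- the inclusion `O → V`. -/
def incl : O →+* G.V where
  toFun c := ⟨algebraMap L F c, (G.mem_iff c).2 c.2⟩
  map_one' := Subtype.ext (by simp)
  map_mul' a b := Subtype.ext (by simp)
  map_zero' := Subtype.ext (by simp)
  map_add' a b := Subtype.ext (by simp)

@[simp] theorem coe_incl (c : O) : ((G.incl c : G.V) : F) = algebraMap L F c := rfl

instance isLocalHom_incl : IsLocalHom G.incl where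
  map_nonunit c hc := by
    rcases eq_or_ne (c : L) 0 with h0 | h0
    · exfalso
      have : (G.incl c : G.V) = 0 := Subtype.ext (by simp [h0])
      rw [this] at hc
      exact not_isUnit_zero hc
    · obtain ⟨d, hd⟩ := hc.exists_right_inv
      have hd' : algebraMap L F (c : L) * (d : F) = 1 := by
        have := congrArg (Subtype.val) hd
        simpa using this
      have hd2 : (d : F) = algebraMap L F ((c : L)⁻¹) := by
        rw [map_inv₀]
        have hne : algebraMap L F (c : L) ≠ 0 := by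
          rw [Ne, map_eq_zero]; exact h0
        field_simp
        rw [mul_comm]; exact hd'
      have hmem : ((c : L)⁻¹) ∈ O := (G.mem_iff _).1 (hd2 ▸ d.2)
      exact IsUnit.of_mul_eq_one (⟨_, hmem⟩ : O) (Subtype.ext (by simp [h0]))

/-- the residue field of the valuation ring. -/
abbrev κ : Type _ := IsLocalRing.ResidueField G.V

/-- reduction. -/
abbrev ρ : G.V →+* G.κ := IsLocalRing.residue G.V

instance algebraκ : Algebra (IsLocalRing.ResidueField O) (IsLocalRing.ResidueField G.V) :=
  (IsLocalRing.ResidueField.map G.incl).toAlgebra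

/-- the reduction of `h`. -/
def hbar : G.κ := G.ρ ⟨h, G.h_mem⟩

/-- sections of `O(j·∞)` on the special fibre. -/
def Lbar (j : ℕ) : Set G.κ :=
  {s | IsIntegral (Algebra.adjoin (IsLocalRing.ResidueField O) {G.hbar}) s ∧
    IsIntegral (Algebra.adjoin (IsLocalRing.ResidueField O) {G.hbar⁻¹}) (s * G.hbar⁻¹ ^ j)}

/-- TRANSFER on the finite chart. -/
def TransferZero : Prop :=
  ∀ y : G.V, (∀ P : Place L F, 0 ≤ P.ord h → 0 ≤ P.ord (y : F)) →
    IsIntegral (Algebra.adjoin (IsLocalRing.ResidueField O) {G.hbar}) (G.ρ y)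

/-- TRANSFER on the chart at infinity. -/
def TransferInf : Prop :=
  ∀ y : G.V, (∀ P : Place L F, P.ord h ≤ 0 → 0 ≤ P.ord (y : F)) →
    IsIntegral (Algebra.adjoin (IsLocalRing.ResidueField O) {G.hbar⁻¹}) (G.ρ y)

/-- LATTICE LEMMA. -/
def LatticeLemma : Prop :=
  ∀ W : Submodule L F, FiniteDimensional L W →
    ∃ y : Fin (Module.finrank L W) → F, (∀ i, y i ∈ W ∧ y i ∈ G.V) ∧
      ∀ x ∈ W, x ∈ G.V → ∃ c : Fin (Module.finrank L W) → L, (∀ i, c i ∈ O) ∧ x = ∑ i, c i • y i

/-- G2: the upper bound for the special fibre (`n = [F : L(h)]`, `g` the genus). -/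
def G2 (g : ℤ) : Prop :=
  ∃ j₀ : ℕ, ∀ j : ℕ, j₀ ≤ j → ∀ (r : ℕ) (s : Fin r → G.κ), (∀ i, s i ∈ G.Lbar j) →
    LinearIndependent (IsLocalRing.ResidueField O) s →
      (r : ℤ) ≤ (Module.finrank (IntermediateField.adjoin L {h}) F : ℤ) * j + 1 - g

end GoodVal

/-- `O` has archimedean value group. -/
def Archimedean' (O : ValuationSubring L) : Prop :=
  ∀ π a : L, π ∈ O → π ≠ 0 → π⁻¹ ∉ O → a ∈ O → a ≠ 0 → ∃ N : ℕ, π ^ N * a⁻¹ ∈ O

/-- the statement of the hub theorem (MT). -/
def MainStatement {L F : Type*} [Field L] [Field F] [Algebra L F]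
    (O : ValuationSubring L) (h : F) (G : GoodVal O h) : Prop :=
  ∀ m : ℕ, ((m : ℕ) : IsLocalRing.ResidueField O) ≠ 0 → ∀ u : G.V, G.ρ u = 1 →
    (∀ P : Place L F, (m : ℤ) ∣ P.ord (u : F)) → ∃ t : F, t ^ m = (u : F)

/-- the genus hypothesis: `ℓ(D) = deg D + 1 - g` for divisors of large degree. -/
def GenusFormula (L F : Type*) [Field L] [Field F] [Algebra L F] (g : ℤ) : Prop :=
  ∃ d₀ : ℤ, ∀ D : Divisor L F, d₀ < Divisor.degree D →
    (Module.finrank L (LSpace L F D) : ℤ) = Divisor.degree D + 1 - g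

end Fermat.Agent.S18
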