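import Mathlib
import Fermat.Agent.S18_Gauss
import Fermat.Agent.S18_Hub

/-!
# S18, WP-D1: the Gauss valuation ring of a function field `F ⊂ L((q))`

Input (`Datum A F n`): `h, θ ∈ A((q))` whose images lie in `F`, every element of `F` is
`(∑_{i<n} p_i(h) θ^i) / d(h)`, the reduction `h̄` is transcendental over `k` and
`1, θ̄, …, θ̄^{n-1}` are independent over `k[h̄]` (I1).

Output: `D.V = gaussRing A ∩ F` is a valuation subring, `D.goodVal : GoodVal A D.h`,
the embedding `D.κemb` of its residue field into `k((q))`, the Gauss lemma and the basis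
`θ^i` of `F` over `L(h)` with `V = ⊕ (V ∩ L(h)) θ^i`.
-/

set_option autoImplicit false

noncomputable section

open ModularCurve Polynomial

namespace Fermat.Agent.S18.Gauss

variable {L : Type*} [Field L]

/-- the input of the Gauss construction. -/
structure Datum (A : ValuationSubring L) (F : IntermediateField L (LaurentSeries L)) (n : ℕ) where
  /-- the generator `h`, an integral series -/
  hA : LaurentSeries A
  /-- the primitive element `θ`, an integral series -/
  θA : LaurentSeries A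
  h_mem : emb A hA ∈ F
  θ_mem : emb A θA ∈ F
  span : ∀ y ∈ F, ∃ (d : L[X]) (p : Fin n → L[X]), d ≠ 0 ∧
    aeval (emb A hA) d * y = ∑ i, aeval (emb A hA) (p i) * emb A θA ^ (i : ℕ)
  trans : Transcendental (IsLocalRing.ResidueField A) (red A hA)
  indep : ∀ P : Fin n → (IsLocalRing.ResidueField A)[X],
    ∑ i, aeval (red A hA) (P i) * red A θA ^ (i : ℕ) = 0 → ∀ i, P i = 0

/-- elements of `L(h)` are fractions of polynomials in `h`. -/
theorem exists_frac {E : Type*} [Field E] [Algebra L E] (h : E) (c : E)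
    (hc : c ∈ IntermediateField.adjoin L {h}) :
    ∃ r s : L[X], s ≠ 0 ∧ aeval h s * c = aeval h r := by
  obtain ⟨r, s, rfl⟩ := (IntermediateField.mem_adjoin_simple_iff L c).1 hc
  by_cases hs : aeval h s = 0
  · exact ⟨0, 1, one_ne_zero, by rw [hs, div_zero, mul_zero, map_zero]⟩
  · exact ⟨r, s, fun h0 => hs (by rw [h0, map_zero]), mul_div_cancel₀ _ hs⟩

/-- common denominators in `L(h)`. -/
theorem exists_common_den {E : Type*} [Field E] [Algebra L E] (h : E) {n : ℕ}
    (g : Fin n → IntermediateField.adjoin L {h}) :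
    ∃ (s : L[X]) (r : Fin n → L[X]), s ≠ 0 ∧ ∀ i, aeval h s * (g i : E) = aeval h (r i) := by
  classical
  choose r s hs hr using fun i => exists_frac h (g i : E) (g i).2
  refine ⟨∏ j, s j, fun i => r i * ∏ j ∈ Finset.univ.erase i, s j,
    Finset.prod_ne_zero_iff.2 (fun j _ => hs j), fun i => ?_⟩
  rw [← Finset.mul_prod_erase Finset.univ s (Finset.mem_univ i), map_mul, map_mul,
    mul_right_comm, hr i]

theorem span_of_adjoin_eq_top_aux {E : Type*} [Field E] [Algebra L E] (h θ : E) (n : ℕ)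
    (hgen : IntermediateField.adjoin L {h, θ} = ⊤)
    (hfin : Module.finrank (IntermediateField.adjoin L {h}) E = n) (hn : n ≠ 0) (y : E) :
    ∃ (d : L[X]) (p : Fin n → L[X]), d ≠ 0 ∧
      aeval h d * y = ∑ i, aeval h (p i) * θ ^ (i : ℕ) := by
  set K := IntermediateField.adjoin L {h} with hK
  have : FiniteDimensional K E := Module.finite_of_finrank_pos (by omega)
  have hθ : IsIntegral K θ := IsIntegral.of_finite K θ
  have htop : IntermediateField.adjoin K {θ} = ⊤ := by
    apply IntermediateField.restrictScalars_injective L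
    rw [IntermediateField.adjoin_adjoin_left, IntermediateField.restrictScalars_top]
    rw [← hgen]
    congr 1
  have hy : y ∈ Algebra.adjoin K {θ} := by
    rw [← IntermediateField.adjoin_simple_toSubalgebra_of_isAlgebraic hθ.isAlgebraic, htop]
    exact Algebra.mem_top
  rw [Algebra.adjoin_singleton_eq_range_aeval] at hy
  obtain ⟨f, rfl⟩ := hy
  have hmonic := minpoly.monic hθ
  set g := f %ₘ minpoly K θ with hg
  have hg1 : aeval θ g = aeval θ f :=
    Polynomial.aeval_modByMonic_eq_self_of_root (minpoly.aeval K θ)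
  have hg2 : g.natDegree < n := by
    have h1 : g.natDegree < (minpoly K θ).natDegree :=
      Polynomial.natDegree_modByMonic_lt f hmonic (minpoly.ne_one K θ)
    have h2 : (minpoly K θ).natDegree ≤ n := hfin ▸ minpoly.natDegree_le θ
    omega
  obtain ⟨s, r, hs, hr⟩ := exists_common_den h (fun i : Fin n => g.coeff i)
  refine ⟨s, r, hs, ?_⟩
  have h3 : (aeval θ) f = ∑ i : Fin n, (g.coeff i : E) * θ ^ (i : ℕ) := by
    rw [← hg1, Polynomial.aeval_eq_sum_range' hg2, Finset.sum_range]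
    rfl
  show (aeval h) s * (aeval θ) f = _
  rw [h3, Finset.mul_sum]
  refine Finset.sum_congr rfl (fun i _ => ?_)
  rw [← mul_assoc, hr i]

/-- (S) from `F = L(h, θ)` and `[F : L(h)] = n`. -/
theorem span_of_adjoin_eq_top (F : IntermediateField L (LaurentSeries L)) (h θ : F) (n : ℕ)
    (hgen : IntermediateField.adjoin L {h, θ} = ⊤)
    (hfin : Module.finrank (IntermediateField.adjoin L {h}) F = n) (hn : n ≠ 0) :
    ∀ y ∈ F, ∃ (d : L[X]) (p : Fin n → L[X]), d ≠ 0 ∧
      aeval (h : LaurentSeries L) d * y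
        = ∑ i, aeval (h : LaurentSeries L) (p i) * (θ : LaurentSeries L) ^ (i : ℕ) := by
  intro y hy
  obtain ⟨d, p, hd, h1⟩ := span_of_adjoin_eq_top_aux h θ n hgen hfin hn (⟨y, hy⟩ : F)
  refine ⟨d, p, hd, ?_⟩
  have h3 : F.val (∑ i, aeval h (p i) * θ ^ (i : ℕ))
      = ∑ i, aeval (h : LaurentSeries L) (p i) * (θ : LaurentSeries L) ^ (i : ℕ) := by
    rw [map_sum]
    refine Finset.sum_congr rfl (fun i _ => ?_)
    rw [map_mul, map_pow, ← Polynomial.aeval_algHom_apply]
    rfl
  have h4 : F.val (aeval h d * ⟨y, hy⟩) = aeval (h : LaurentSeries L) d * y := by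
    rw [map_mul, ← Polynomial.aeval_algHom_apply]
    rfl
  rw [← h4, ← h3, h1]

theorem coe_aeval (F : IntermediateField L (LaurentSeries L)) (y : F) (p : L[X]) :
    ((aeval y p : F) : LaurentSeries L) = aeval (y : LaurentSeries L) p :=
  (Polynomial.aeval_algHom_apply F.val y p).symm

namespace Datum

variable {A : ValuationSubring L} {F : IntermediateField L (LaurentSeries L)} {n : ℕ}
  (D : Datum A F n)

include D

/-! ### reductions of polynomial combinations -/

theorem red_hA_ne_zero : red A D.hA ≠ 0 := by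
  intro h0
  have h := D.trans
  rw [h0] at h
  exact h isAlgebraic_zero

theorem red_evalA_ne_zero (d : A[X]) (hd : d.map (IsLocalRing.residue A) ≠ 0) :
    red A (evalA A d D.hA) ≠ 0 := by
  rw [red_evalA]
  exact fun h => hd (transcendental_iff.1 D.trans _ h)

/-- the series `∑ Q_i(h) θ^i` over `A`. -/
def comb (Q : Fin n → A[X]) : LaurentSeries A := ∑ i, evalA A (Q i) D.hA * D.θA ^ (i : ℕ)

/-- the polynomial combination `∑ p_i(h) θ^i` in `L((q))`. -/
def combL (p : Fin n → L[X]) : LaurentSeries L :=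
  ∑ i, aeval (emb A D.hA) (p i) * emb A D.θA ^ (i : ℕ)

theorem emb_comb (Q : Fin n → A[X]) :
    emb A (D.comb Q) = D.combL (fun i => (Q i).map A.subtype) := by
  simp only [comb, combL, map_sum, map_mul, map_pow, emb_evalA]

theorem red_comb (Q : Fin n → A[X]) : red A (D.comb Q)
    = ∑ i, aeval (red A D.hA) ((Q i).map (IsLocalRing.residue A)) * red A D.θA ^ (i : ℕ) := by
  simp only [comb, map_sum, map_mul, map_pow, red_evalA]

theorem red_comb_ne_zero (Q : Fin n → A[X])
    (hQ : ∃ i, (Q i).map (IsLocalRing.residue A) ≠ 0) : red A (D.comb Q) ≠ 0 := by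
  rw [red_comb]
  intro h
  obtain ⟨i, hi⟩ := hQ
  exact hi (D.indep _ h i)

theorem combL_C_mul (c : L) (p : Fin n → L[X]) :
    D.combL (fun i => Polynomial.C c * p i) = algebraMap L (LaurentSeries L) c * D.combL p := by
  simp only [combL, map_mul, aeval_C, Finset.mul_sum, mul_assoc]

theorem exists_scale_comb (p : Fin n → L[X]) (hp : ∃ i, p i ≠ 0) :
    ∃ (c : L) (Q : Fin n → A[X]), c ≠ 0 ∧ (∀ i, (Q i).map A.subtype = Polynomial.C c * p i) ∧
      red A (D.comb Q) ≠ 0 ∧
      emb A (D.comb Q) = algebraMap L (LaurentSeries L) c * D.combL p := by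
  obtain ⟨c, Q, hc, hQ, hne⟩ := exists_scale_poly A p hp
  refine ⟨c, Q, hc, hQ, D.red_comb_ne_zero Q hne, ?_⟩
  rw [emb_comb, ← combL_C_mul]
  congr 1
  funext i
  exact hQ i

theorem combL_ne_zero (p : Fin n → L[X]) (hp : ∃ i, p i ≠ 0) : D.combL p ≠ 0 := by
  obtain ⟨c, Q, hc, hQ, hne, h⟩ := D.exists_scale_comb p hp
  intro h0
  rw [h0, mul_zero] at h
  exact emb_ne_zero A hne h

theorem coeff_mem_of_combL_mem (p : Fin n → L[X]) (hz : D.combL p ∈ gaussRing A) :
    ∀ i j, (p i).coeff j ∈ A := by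
  by_cases hp : ∃ i, p i ≠ 0
  · obtain ⟨c, Q, hc, hQ, hne, h⟩ := D.exists_scale_comb p hp
    by_cases hc' : c⁻¹ ∈ A
    · intro i j
      have h1 : (((Q i).coeff j : A) : L) = c * (p i).coeff j := by
        have h0 := congrArg (fun q => q.coeff j) (hQ i)
        simpa [Polynomial.coeff_map] using h0
      have h2 : (p i).coeff j = c⁻¹ * (((Q i).coeff j : A) : L) := by
        rw [h1, ← mul_assoc, inv_mul_cancel₀ hc, one_mul]
      rw [h2]
      exact A.mul_mem _ _ hc' ((Q i).coeff j).2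
    · exfalso
      have hcA : c ∈ A := (A.mem_or_inv_mem c).resolve_right hc'
      exact hne (rho_eq_zero_of_mul A hcA hc' ⟨_, hz⟩ _ h)
  · push Not at hp
    intro i j
    rw [hp i, Polynomial.coeff_zero]
    exact A.zero_mem

theorem combL_mem (p : Fin n → L[X]) (hp : ∀ i j, (p i).coeff j ∈ A) :
    D.combL p ∈ gaussRing A := by
  have h : D.combL p = emb A (D.comb (fun i => liftPoly A (p i))) := by
    rw [emb_comb]
    congr 1
    funext i
    exact (map_liftPoly A _ (hp i)).symm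
  rw [h]
  exact emb_mem_gaussRing A _

theorem exists_scale_one (d : L[X]) (hd : d ≠ 0) :
    ∃ (c : L) (Q : A[X]), c ≠ 0 ∧ Q.map A.subtype = Polynomial.C c * d ∧
      red A (evalA A Q D.hA) ≠ 0 ∧
      emb A (evalA A Q D.hA) = algebraMap L (LaurentSeries L) c * aeval (emb A D.hA) d := by
  obtain ⟨c, Q, hc, hQ, hne⟩ := exists_scale_poly_one A d hd
  refine ⟨c, Q, hc, hQ, D.red_evalA_ne_zero Q hne, ?_⟩
  rw [emb_evalA, hQ, map_mul, aeval_C]

theorem aevalL_ne_zero (d : L[X]) (hd : d ≠ 0) : aeval (emb A D.hA) d ≠ 0 := by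
  obtain ⟨c, Q, hc, hQ, hne, h⟩ := D.exists_scale_one d hd
  intro h0
  rw [h0, mul_zero] at h
  exact emb_ne_zero A hne h

theorem coeff_mem_of_aevalL_mem (d : L[X]) (hz : aeval (emb A D.hA) d ∈ gaussRing A) :
    ∀ j, d.coeff j ∈ A := by
  by_cases hd : d = 0
  · intro j
    rw [hd, Polynomial.coeff_zero]
    exact A.zero_mem
  · obtain ⟨c, Q, hc, hQ, hne, h⟩ := D.exists_scale_one d hd
    by_cases hc' : c⁻¹ ∈ A
    · intro j
      have h1 : ((Q.coeff j : A) : L) = c * d.coeff j := by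
        have h0 := congrArg (fun q => q.coeff j) hQ
        simpa [Polynomial.coeff_map] using h0
      have h2 : d.coeff j = c⁻¹ * ((Q.coeff j : A) : L) := by
        rw [h1, ← mul_assoc, inv_mul_cancel₀ hc, one_mul]
      rw [h2]
      exact A.mul_mem _ _ hc' (Q.coeff j).2
    · exfalso
      have hcA : c ∈ A := (A.mem_or_inv_mem c).resolve_right hc'
      exact hne (rho_eq_zero_of_mul A hcA hc' ⟨_, hz⟩ _ h)

theorem aevalL_eq_emb (d : L[X]) (hd : ∀ j, d.coeff j ∈ A) :
    aeval (emb A D.hA) d = emb A (evalA A (liftPoly A d) D.hA) := by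
  rw [emb_evalA, map_liftPoly A d hd]

theorem aevalL_mem (d : L[X]) (hd : ∀ j, d.coeff j ∈ A) :
    aeval (emb A D.hA) d ∈ gaussRing A := by
  rw [D.aevalL_eq_emb d hd]
  exact emb_mem_gaussRing A _

theorem inv_aevalL_mem (d : L[X]) (hd : ∀ j, d.coeff j ∈ A)
    (hu : ∃ j, d.coeff j ≠ 0 ∧ (d.coeff j)⁻¹ ∈ A) :
    (aeval (emb A D.hA) d)⁻¹ ∈ gaussRing A := by
  rw [D.aevalL_eq_emb d hd]
  apply inv_emb_mem_gaussRing
  apply D.red_evalA_ne_zero
  obtain ⟨j, hj0, hj⟩ := hu
  intro h
  have h2 := congrArg (fun q => q.coeff j) h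
  simp only [Polynomial.coeff_map, liftPoly_coeff, Polynomial.coeff_zero] at h2
  rw [toA_of_mem A (hd j), IsLocalRing.residue_eq_zero_iff, IsLocalRing.mem_maximalIdeal,
    mem_nonunits_iff] at h2
  exact h2 (IsUnit.of_mul_eq_one (⟨(d.coeff j)⁻¹, hj⟩ : A) (Subtype.ext (mul_inv_cancel₀ hj0)))

/-- normal form: `d(h) · y = ∑ p_i(h) θ^i` with `d` integral of nonzero reduction. -/
theorem exists_normal_form (y : LaurentSeries L) (hy : y ∈ F) :
    ∃ (d : A[X]) (p : Fin n → L[X]), red A (evalA A d D.hA) ≠ 0 ∧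
      emb A (evalA A d D.hA) * y = D.combL p := by
  obtain ⟨d₀, p₀, hd₀, h⟩ := D.span y hy
  obtain ⟨c, Q, hc, hQ, hne, hQe⟩ := D.exists_scale_one d₀ hd₀
  refine ⟨Q, fun i => Polynomial.C c * p₀ i, hne, ?_⟩
  rw [combL_C_mul, hQe, mul_assoc, h]
  rfl

/-! ### the valuation ring -/

/-- scaling: every nonzero element of `F` is a constant times a unit of the Gauss ring. -/
theorem scale_aux (y : F) (hy : y ≠ 0) :
    ∃ c : L, c ≠ 0 ∧ ((algebraMap L F c * y : F) : LaurentSeries L) ∈ gaussRing A ∧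
      (((algebraMap L F c * y)⁻¹ : F) : LaurentSeries L) ∈ gaussRing A := by
  have hy' : (y : LaurentSeries L) ≠ 0 := fun h => hy (Subtype.ext h)
  obtain ⟨d, p, hd, h⟩ := D.exists_normal_form y y.2
  have hp : ∃ i, p i ≠ 0 := by
    by_contra hcon
    push Not at hcon
    have h0 : D.combL p = 0 := by
      simp only [combL, hcon, map_zero, zero_mul, Finset.sum_const_zero]
    rw [h0] at h
    exact (mul_ne_zero (emb_ne_zero A hd) hy') h
  obtain ⟨c, Q, hc, hQ, hne, hQe⟩ := D.exists_scale_comb p hp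
  have key : emb A (evalA A d D.hA) * (algebraMap L (LaurentSeries L) c * (y : LaurentSeries L))
      = emb A (D.comb Q) := by
    rw [hQe, ← h]; ring
  have hcL : algebraMap L (LaurentSeries L) c ≠ 0 := by
    rw [Ne, map_eq_zero]; exact hc
  have hcy : algebraMap L (LaurentSeries L) c * (y : LaurentSeries L) ≠ 0 := mul_ne_zero hcL hy'
  refine ⟨c, hc, ⟨evalA A d D.hA, D.comb Q, hd, key⟩, ⟨D.comb Q, evalA A d D.hA, hne, ?_⟩⟩
  show emb A (D.comb Q) * (algebraMap L (LaurentSeries L) c * (y : LaurentSeries L))⁻¹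
    = emb A (evalA A d D.hA)
  rw [← key, mul_assoc, mul_inv_cancel₀ hcy, mul_one]

theorem mem_or_inv_mem_aux (y : F) :
    (y : LaurentSeries L) ∈ gaussRing A ∨ ((y⁻¹ : F) : LaurentSeries L) ∈ gaussRing A := by
  rcases eq_or_ne y 0 with rfl | hy
  · left; exact (gaussRing A).zero_mem
  obtain ⟨c, hc, h1, h2⟩ := D.scale_aux y hy
  have hcL : algebraMap L (LaurentSeries L) c ≠ 0 := by
    rw [Ne, map_eq_zero]; exact hc
  rcases A.mem_or_inv_mem c with hcA | hcA
  · right
    have h3 : ((y⁻¹ : F) : LaurentSeries L) = algebraMap L (LaurentSeries L) c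
        * (algebraMap L (LaurentSeries L) c * (y : LaurentSeries L))⁻¹ := by
      show (y : LaurentSeries L)⁻¹ = _
      rw [mul_inv, ← mul_assoc, mul_inv_cancel₀ hcL, one_mul]
    rw [h3]
    exact (gaussRing A).mul_mem (algebraMap_mem_gaussRing A hcA) h2
  · left
    have h3 : (y : LaurentSeries L) = algebraMap L (LaurentSeries L) c⁻¹
        * (algebraMap L (LaurentSeries L) c * (y : LaurentSeries L)) := by
      rw [← mul_assoc, ← map_mul, inv_mul_cancel₀ hc, map_one, one_mul]
    rw [h3]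
    exact (gaussRing A).mul_mem (algebraMap_mem_gaussRing A hcA) h1

/-- `h` as an element of `F`. -/
def h : F := ⟨emb A D.hA, D.h_mem⟩

/-- `θ` as an element of `F`. -/
def θ : F := ⟨emb A D.θA, D.θ_mem⟩

/-- the Gauss valuation ring `gaussRing A ∩ F`. -/
def V : ValuationSubring F where
  toSubring := (gaussRing A).comap (F.val : F →+* LaurentSeries L)
  mem_or_inv_mem' := D.mem_or_inv_mem_aux

theorem mem_V (y : F) : y ∈ D.V ↔ (y : LaurentSeries L) ∈ gaussRing A := Iff.rfl

theorem mem_V_of (y : F) (s a : LaurentSeries A) (hs : red A s ≠ 0)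
    (h : emb A s * (y : LaurentSeries L) = emb A a) : y ∈ D.V :=
  ⟨s, a, hs, h⟩

theorem h_mem_V : D.h ∈ D.V := emb_mem_gaussRing A D.hA

theorem θ_mem_V : D.θ ∈ D.V := emb_mem_gaussRing A D.θA

theorem hinv_mem_V : D.h⁻¹ ∈ D.V := inv_emb_mem_gaussRing A D.red_hA_ne_zero

theorem algebraMap_mem_V_iff (c : L) : algebraMap L F c ∈ D.V ↔ c ∈ A :=
  algebraMap_mem_gaussRing_iff A c

theorem scale (y : F) (hy : y ≠ 0) :
    ∃ c : L, c ≠ 0 ∧ algebraMap L F c * y ∈ D.V ∧ (algebraMap L F c * y)⁻¹ ∈ D.V :=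
  D.scale_aux y hy

/-- the `GoodVal` of the hub. -/
def goodVal : GoodVal A D.h where
  V := D.V
  mem_iff := D.algebraMap_mem_V_iff
  scale := D.scale
  h_mem := D.h_mem_V
  hinv_mem := D.hinv_mem_V

theorem goodVal_V : D.goodVal.V = D.V := rfl

/-- the reduction `V → k((q))`. -/
def rhoV : D.goodVal.V →+* LaurentSeries (IsLocalRing.ResidueField A) :=
  (rho A).comp
    { toFun := fun y => (⟨((y : F) : LaurentSeries L), y.2⟩ : gaussRing A)
      map_one' := rfl
      map_mul' := fun _ _ => rfl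
      map_zero' := rfl
      map_add' := fun _ _ => rfl }

theorem rhoV_eq (y : D.goodVal.V) (s a : LaurentSeries A) (hs : red A s ≠ 0)
    (h : emb A s * ((y : F) : LaurentSeries L) = emb A a) : D.rhoV y = red A a / red A s :=
  rho_eq A _ s a hs h

theorem rhoV_h : D.rhoV ⟨D.h, D.h_mem_V⟩ = red A D.hA := rho_emb A D.hA

theorem rhoV_θ : D.rhoV ⟨D.θ, D.θ_mem_V⟩ = red A D.θA := rho_emb A D.θA

theorem rhoV_algebraMap (c : A) :
    D.rhoV ⟨algebraMap L F c, (D.algebraMap_mem_V_iff c).2 c.2⟩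
      = algebraMap (IsLocalRing.ResidueField A) (LaurentSeries (IsLocalRing.ResidueField A))
          (IsLocalRing.residue A c) :=
  rho_algebraMap A c.2

theorem isLocalHom_rhoV : IsLocalHom D.rhoV := by
  refine ⟨fun y hy => ?_⟩
  have hne : D.rhoV y ≠ 0 := hy.ne_zero
  have hinv : ((y : F) : LaurentSeries L)⁻¹ ∈ gaussRing A :=
    inv_mem_of_rho_ne_zero A ⟨((y : F) : LaurentSeries L), y.2⟩ hne
  have hy0 : (y : F) ≠ 0 := by
    intro h0
    apply hne
    have : y = 0 := Subtype.ext h0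
    rw [this, map_zero]
  exact IsUnit.of_mul_eq_one (⟨(y : F)⁻¹, hinv⟩ : D.goodVal.V) (Subtype.ext (mul_inv_cancel₀ hy0))

/-- the embedding of the residue field of `V` into `k((q))`. -/
def κemb : D.goodVal.κ →+* LaurentSeries (IsLocalRing.ResidueField A) :=
  haveI : IsLocalHom D.rhoV := D.isLocalHom_rhoV
  IsLocalRing.ResidueField.lift D.rhoV

theorem κemb_ρ (y : D.goodVal.V) : D.κemb (D.goodVal.ρ y) = D.rhoV y := by
  have : IsLocalHom D.rhoV := D.isLocalHom_rhoV
  exact IsLocalRing.ResidueField.lift_residue_apply D.rhoV y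

theorem κemb_injective : Function.Injective D.κemb := D.κemb.injective

theorem κemb_hbar : D.κemb D.goodVal.hbar = red A D.hA :=
  (D.κemb_ρ _).trans D.rhoV_h

theorem κemb_algebraMap (c : IsLocalRing.ResidueField A) :
    D.κemb (algebraMap (IsLocalRing.ResidueField A) D.goodVal.κ c)
      = algebraMap (IsLocalRing.ResidueField A) (LaurentSeries (IsLocalRing.ResidueField A)) c := by
  obtain ⟨a, rfl⟩ := IsLocalRing.residue_surjective c
  have h1 : algebraMap (IsLocalRing.ResidueField A) D.goodVal.κ (IsLocalRing.residue A a)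
      = D.goodVal.ρ (D.goodVal.incl a) := IsLocalRing.ResidueField.map_residue _ a
  rw [h1, κemb_ρ]
  exact rho_algebraMap A a.2

/-- `κemb` as a `k`-algebra hom. -/
def κembAlg : D.goodVal.κ →ₐ[IsLocalRing.ResidueField A]
    LaurentSeries (IsLocalRing.ResidueField A) :=
  { D.κemb with commutes' := D.κemb_algebraMap }

theorem κembAlg_apply (x : D.goodVal.κ) : D.κembAlg x = D.κemb x := rfl

/-- raw criterion for `ρ(u) = 1` (output shape of Step 0). -/
theorem ρ_eq_one (y : F) (s a : LaurentSeries A) (hs : red A s ≠ 0)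
    (h : emb A s * (y : LaurentSeries L) = emb A a) (hsa : red A a = red A s) :
    D.goodVal.ρ ⟨y, D.mem_V_of y s a hs h⟩ = 1 := by
  apply D.κemb_injective
  have h1 := D.κemb_ρ ⟨y, D.mem_V_of y s a hs h⟩
  have h2 := D.rhoV_eq ⟨y, D.mem_V_of y s a hs h⟩ s a hs h
  rw [hsa, div_self hs] at h2
  exact (h1.trans h2).trans (map_one D.κemb).symm

/-! ### the Gauss lemma in `F` -/

theorem coe_aeval_h (p : L[X]) :
    ((aeval D.h p : F) : LaurentSeries L) = aeval (emb A D.hA) p := coe_aeval F D.h p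

/-- Gauss: a polynomial in `h` with coefficients in `A`, one of them a unit, is a unit of `V`. -/
theorem inv_aeval_mem (p : L[X]) (hp : ∀ i, p.coeff i ∈ A)
    (hu : ∃ i, p.coeff i ≠ 0 ∧ (p.coeff i)⁻¹ ∈ A) : (aeval D.h p)⁻¹ ∈ D.V := by
  show ((aeval D.h p : F) : LaurentSeries L)⁻¹ ∈ gaussRing A
  rw [coe_aeval_h]
  exact D.inv_aevalL_mem p hp hu

theorem aeval_mem_iff (p : L[X]) : aeval D.h p ∈ D.V ↔ ∀ i, p.coeff i ∈ A := by
  rw [mem_V, coe_aeval_h]
  exact ⟨D.coeff_mem_of_aevalL_mem p, D.aevalL_mem p⟩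

theorem aeval_ne_zero (p : L[X]) (hp : p ≠ 0) : aeval D.h p ≠ 0 := by
  intro h0
  apply D.aevalL_ne_zero p hp
  rw [← coe_aeval_h, h0]
  rfl

theorem transcendental_h : Transcendental L D.h := by
  rw [transcendental_iff]
  intro p hp
  by_contra hp0
  exact D.aeval_ne_zero p hp0 hp

end Datum

end Fermat.Agent.S18.Gauss
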