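import Mathlib
import Fermat.Agent.S24_Scott

set_option autoImplicit false

/-!
# S24, M5: parity and nonnegativity of the genus

`|X| - c(S) - c(ST) - c(T) = 2 g - 2` for `X = SL(2, ℤ) ⧸ Γ₀(N)`, with `g : ℕ`, by the sign
argument (parity) and Ree's inequality (Scott's lemma); see `S24_Scott.lean`.
-/

open scoped MatrixGroups

namespace Fermat.Agent.S24.Count

open CongruenceSubgroup Fermat.Agent.S24.Scott

theorem orbCountAct_le_card {G : Type*} [Group G] {X : Type*} [Fintype X] [MulAction G X]
    (g : G) : orbCountAct X g ≤ Fintype.card X := by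
  rw [orbCountAct_eq]
  have := finrank_range_one_sub_rho (MulAction.toPerm g : Equiv.Perm X)
  omega

theorem genus_arith (n cS cST cT m : ℕ) (hS : cS ≤ n) (hST : cST ≤ n) (hT : cT ≤ n)
    (hm : (n - cS) + (n - cT) + (n - cST) = m + m) (hree : cS + cT + cST ≤ n + 2) :
    (n : ℤ) - cS - cST - cT = 2 * ((m + 1 - n : ℕ) : ℤ) - 2 := by
  omega

/-- Abstract form: a group `G` generated by `a`, `b`, acting transitively on a finite set `X`. -/
theorem exists_genus_action {G : Type*} [Group G] {X : Type*} [Finite X] [MulAction G X]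
    [Nonempty X] [MulAction.IsPretransitive G X] (a b : G)
    (hgen : Subgroup.closure ({a, b} : Set G) = ⊤) :
    ∃ g : ℕ, (Nat.card X : ℤ)
        - Nat.card (MulAction.orbitRel.Quotient (Subgroup.zpowers a) X)
        - Nat.card (MulAction.orbitRel.Quotient (Subgroup.zpowers (a * b)) X)
        - Nat.card (MulAction.orbitRel.Quotient (Subgroup.zpowers b) X)
      = 2 * (g : ℤ) - 2 := by
  classical
  have : Fintype X := Fintype.ofFinite _
  have hmul : a * b * (a * b)⁻¹ = 1 := mul_inv_cancel _
  have hpar := parity_action (X := X) _ _ _ hmul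
  have hree := ree_scott_action (X := X) _ _ _ hmul hgen
  have hinv : orbCountAct X (a * b)⁻¹ = orbCountAct X (a * b) := by
    unfold orbCountAct
    rw [Subgroup.zpowers_inv]
  rw [hinv] at hpar hree
  obtain ⟨m, hm⟩ := hpar
  rw [Nat.card_eq_fintype_card]
  exact ⟨m + 1 - Fintype.card X, genus_arith _ _ _ _ m (orbCountAct_le_card a)
    (orbCountAct_le_card (a * b)) (orbCountAct_le_card b) hm hree⟩

/-- parity and nonnegativity of the genus (sign argument + Scott's lemma). -/
theorem exists_genus (N : ℕ) [NeZero N] :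
    ∃ g : ℕ, (Nat.card (SL(2, ℤ) ⧸ Gamma0 N) : ℤ)
        - Nat.card (MulAction.orbitRel.Quotient (Subgroup.zpowers ModularGroup.S)
            (SL(2, ℤ) ⧸ Gamma0 N))
        - Nat.card (MulAction.orbitRel.Quotient
            (Subgroup.zpowers (ModularGroup.S * ModularGroup.T)) (SL(2, ℤ) ⧸ Gamma0 N))
        - Nat.card (MulAction.orbitRel.Quotient (Subgroup.zpowers ModularGroup.T)
            (SL(2, ℤ) ⧸ Gamma0 N))
      = 2 * (g : ℤ) - 2 :=
  exists_genus_action ModularGroup.S ModularGroup.T SpecialLinearGroup.SL2Z_generators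

end Fermat.Agent.S24.Count
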