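import Mathlib
import Fermat.Prelude.Def_ModularCurve_X0
import Fermat.Prelude.Def_ModularCurve_LaurentCoeff
import Fermat.Prelude.Def_ModularCurve_X0ModL

/-!
# S24, M4.10: mapping the formal function field into a field with expansions

The base change of the full modular function field (inside the Laurent series) is generated over
the coefficient field by the `j (d τ)`, `d ∣ N`; algebra homomorphisms out of it are determined
by these generators; and any field `L` with an expansion map whose image contains the
`q ^ (1 / N)`-expansions of the generators receives the formal function field.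
-/

set_option autoImplicit false
set_option linter.unusedSectionVars false
set_option linter.style.haveILetI false

noncomputable section

open ModularCurve

namespace Fermat.Agent.S24.TowerMap

variable (Kc : Type) [Field Kc] [Algebra ℚ Kc] (N : ℕ) [NeZero N]

/-- `coeffEmb` of a constant -/
theorem coeffEmb_algebraMap (q : ℚ) :
    coeffEmb Kc (algebraMap ℚ (LaurentSeries ℚ) q)
      = algebraMap Kc (LaurentSeries Kc) (algebraMap ℚ Kc q) := by
  rw [algebraMap_apply_eq_single, algebraMap_laurentSeries_eq_single, coeffEmb, coeffMap_single]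

theorem coeffEmb_mem_adjoin {x : LaurentSeries ℚ}
    (hx : x ∈ IntermediateField.adjoin ℚ (divisorExpansions N)) :
    coeffEmb Kc x ∈ IntermediateField.adjoin Kc
      {x | ∃ (d : ℕ) (_ : NeZero d), d ∣ N ∧ x = coeffEmb Kc (qExpand ℚ d jq)} := by
  induction hx using IntermediateField.adjoin_induction with
  | mem y hy =>
    obtain ⟨d, hd, hdvd, rfl⟩ := hy
    exact IntermediateField.subset_adjoin _ _ ⟨d, hd, hdvd, rfl⟩
  | algebraMap q =>
    rw [coeffEmb_algebraMap]
    exact IntermediateField.algebraMap_mem _ _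
  | add y z _ _ hy hz => rw [map_add]; exact add_mem hy hz
  | inv y _ hy => rw [map_inv₀]; exact inv_mem hy
  | mul y z _ _ hy hz => rw [map_mul]; exact mul_mem hy hz

/-- the base change of the full modular function field is generated by the `j (d τ)`. -/
theorem laurentBaseChange_full_eq :
    laurentBaseChange Kc (modularFunctionFieldFull N)
      = IntermediateField.adjoin Kc
          {x | ∃ (d : ℕ) (_ : NeZero d), d ∣ N ∧ x = coeffEmb Kc (qExpand ℚ d jq)} := by
  apply le_antisymm
  · rw [laurentBaseChange, IntermediateField.adjoin_le_iff]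
    rintro _ ⟨x, hx, rfl⟩
    exact coeffEmb_mem_adjoin Kc N hx
  · rw [IntermediateField.adjoin_le_iff]
    rintro _ ⟨d, hd, hdvd, rfl⟩
    haveI := hd
    exact coeffEmb_mem_laurentBaseChange Kc (jqd_mem_full N hdvd)

variable {L : Type} [Field L] [Algebra Kc L]

/-- algebra homomorphisms out of the function field are determined by the `j (d τ)`. -/
theorem algHom_ext_full (φ ψ : ↥(laurentBaseChange Kc (modularFunctionFieldFull N)) →ₐ[Kc] L)
    (h : ∀ f : ↥(laurentBaseChange Kc (modularFunctionFieldFull N)),
      (∃ (d : ℕ) (_ : NeZero d), d ∣ N ∧ (f : LaurentSeries Kc) = coeffEmb Kc (qExpand ℚ d jq)) →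
      φ f = ψ f) : φ = ψ := by
  refine IntermediateField.algHom_ext_of_eq_adjoin Kc (laurentBaseChange_full_eq Kc N) ?_
  intro x hx
  exact h _ hx

/-- if `L` has an expansion map whose image contains the expansions (in `q ^ (1 / N)`) of the
`j (d τ)`, `d ∣ N`, then the formal function field maps to `L` compatibly. -/
theorem exists_algHom_of_expansion (E : L →ₐ[Kc] LaurentSeries Kc)
    (hE : ∀ d : ℕ, d ∣ N → ∀ (_ : NeZero d),
      ∃ y : L, E y = qExpand Kc N (coeffEmb Kc (qExpand ℚ d jq))) :
    ∃ φ : ↥(laurentBaseChange Kc (modularFunctionFieldFull N)) →ₐ[Kc] L,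
      ∀ f : ↥(laurentBaseChange Kc (modularFunctionFieldFull N)),
        E (φ f) = qExpand Kc N (f : LaurentSeries Kc) := by
  have hrange : ∀ f : ↥(laurentBaseChange Kc (modularFunctionFieldFull N)),
      qExpandAlgHomC Kc N (f : LaurentSeries Kc) ∈ E.range := by
    intro f
    have hf : (f : LaurentSeries Kc) ∈ IntermediateField.adjoin Kc
        {x | ∃ (d : ℕ) (_ : NeZero d), d ∣ N ∧ x = coeffEmb Kc (qExpand ℚ d jq)} := by
      rw [← laurentBaseChange_full_eq]; exact f.2
    have hmap : (IntermediateField.adjoin Kc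
        {x | ∃ (d : ℕ) (_ : NeZero d), d ∣ N ∧ x = coeffEmb Kc (qExpand ℚ d jq)}).map
          (qExpandAlgHomC Kc N) ≤ E.fieldRange := by
      rw [IntermediateField.adjoin_map, IntermediateField.adjoin_le_iff]
      rintro _ ⟨x, ⟨d, hd, hdvd, rfl⟩, rfl⟩
      obtain ⟨y, hy⟩ := hE d hdvd hd
      exact ⟨y, hy⟩
    have hmem : qExpandAlgHomC Kc N (f : LaurentSeries Kc) ∈ E.fieldRange :=
      hmap ⟨_, hf, rfl⟩
    obtain ⟨y, hy⟩ := hmem
    exact ⟨y, hy⟩
  let e : L ≃ₐ[Kc] E.range := AlgEquiv.ofInjectiveField E
  let Q' : ↥(laurentBaseChange Kc (modularFunctionFieldFull N)) →ₐ[Kc] E.range :=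
    ((qExpandAlgHomC Kc N).comp (IntermediateField.val _)).codRestrict E.range
      (fun f => hrange f)
  refine ⟨(e.symm : E.range →ₐ[Kc] L).comp Q', fun f => ?_⟩
  have h1 : (e (e.symm (Q' f)) : LaurentSeries Kc) = E (e.symm (Q' f)) := rfl
  show E (e.symm (Q' f)) = _
  rw [← h1, AlgEquiv.apply_symm_apply]
  rfl

end Fermat.Agent.S24.TowerMap
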