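import Mathlib
import Fermat.Agent.S24_TowerField
import Fermat.Agent.S24_TowerVal
import Fermat.Agent.S24_TowerMap
import Fermat.Agent.S24_TowerB
import Fermat.Agent.S24_JFormal

/-!
# S24, the modular tower: assembly

`exists_modular_tower`: the function field of `X₀(N)` over `ℚ̄` embeds into a field `L` with an
action of `SL(2, ℤ)` whose fixed field is `ℚ̄(j)`, in which `Γ₀(N)` is the subgroup fixing the
function field, with valuations over every point of the `j`-line having the expected
ramification and stabilizers.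
-/

set_option autoImplicit false

noncomputable section

open UpperHalfPlane ModularCurve CongruenceSubgroup
open scoped MatrixGroups Manifold

namespace Fermat.Agent.S24.Tower

section Generic

variable (K : Type) [Field K] [Algebra K ℂ] [Algebra ℚ K] [IsAlgClosed K] (N : ℕ) [NeZero N]

/-- the formal function field over `K` generated by the `j (d τ)`, `d ∣ N`. -/
abbrev FuncField : Type := ↥(laurentBaseChange K (modularFunctionFieldFull N))

/-- the comparison map from the formal function field to the field of modular functions. -/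
theorem exists_funcFieldMap :
    ∃ φ : FuncField K N →ₐ[K] ModField K N,
      ∀ f : FuncField K N, expField K N (φ f) = qExpand K N (f : LaurentSeries K) :=
  TowerMap.exists_algHom_of_expansion K N (expField K N) (fun d hd _ =>
    ⟨algebraMap (modRing K N) (ModField K N) (jD K N d hd), by
      rw [expField_algebraMap, expRing_jD]⟩)

variable {K N} in
theorem funcFieldMap_eq_jD (φ : FuncField K N →ₐ[K] ModField K N)
    (hφ : ∀ f : FuncField K N, expField K N (φ f) = qExpand K N (f : LaurentSeries K))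
    (f : FuncField K N) (d : ℕ) (hd : d ∣ N) [NeZero d]
    (hf : (f : LaurentSeries K) = coeffEmb K (qExpand ℚ d jq)) :
    φ f = algebraMap (modRing K N) (ModField K N) (jD K N d hd) := by
  apply (expField K N).toRingHom.injective
  show expField K N (φ f) = expField K N _
  rw [hφ, expField_algebraMap, expRing_jD, hf]

variable {K N} in
theorem funcFieldMap_smul_iff (φ : FuncField K N →ₐ[K] ModField K N)
    (hφ : ∀ f : FuncField K N, expField K N (φ f) = qExpand K N (f : LaurentSeries K)) (γ : SL(2, ℤ)) :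
    γ ∈ Gamma0 N ↔ ∀ f : FuncField K N, γ • φ f = φ f := by
  constructor
  · intro hγ
    have key : (MulSemiringAction.toAlgHom K (ModField K N) γ).comp φ = φ := by
      apply TowerMap.algHom_ext_full K N
      rintro f ⟨d, hd0, hd, hf⟩
      have h1 := funcFieldMap_eq_jD φ hφ f d hd hf
      show γ • φ f = φ f
      rw [h1, smul_algebraMap_field, smul_jD_of_mem_Gamma0 K N d hd γ hγ]
    intro f
    have := congrArg (fun ψ : FuncField K N →ₐ[K] ModField K N => ψ f) key
    exact this
  · intro h
    have hmem : coeffEmb K (qExpand ℚ N jq) ∈ laurentBaseChange K (modularFunctionFieldFull N) :=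
      coeffEmb_mem_laurentBaseChange K (jqd_mem_full N dvd_rfl)
    have h1 := funcFieldMap_eq_jD φ hφ ⟨_, hmem⟩ N dvd_rfl rfl
    have h2 := h ⟨_, hmem⟩
    rw [h1, smul_algebraMap_field] at h2
    exact mem_Gamma0_of_smul_jD K N γ
      (IsFractionRing.injective (modRing K N) (ModField K N) h2)

/-- `j` as an element of the formal function field. -/
def jGen : FuncField K N :=
  ⟨coeffEmb K jq, coeffEmb_mem_laurentBaseChange K (modularFunctionField_le_full N (jq_mem N))⟩

theorem transcendental_jGen : Transcendental K (jGen K N) := by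
  have h := JFormal.transcendental_coeffEmb_jq K
  intro halg
  apply h
  have : (algebraMap (FuncField K N) (LaurentSeries K)) (jGen K N) = coeffEmb K jq := rfl
  rw [← this]
  exact halg.algebraMap

/-- packaging: a field with the listed properties, as the existential statement. -/
theorem tower_of_data (L : Type) [Field L] [Algebra K L]
    [MulSemiringAction SL(2, ℤ) L] [SMulCommClass SL(2, ℤ) K L]
    (φ : FuncField K N →ₐ[K] L)
    (h1 : ∀ γ : SL(2, ℤ), γ • φ (jGen K N) = φ (jGen K N))
    (h2 : ∀ y : L, (∀ γ : SL(2, ℤ), γ • y = y) →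
      y ∈ IntermediateField.adjoin K {φ (jGen K N)})
    (h3 : ∃ Γ₀ : Subgroup SL(2, ℤ), Γ₀.FiniteIndex ∧ ∀ γ ∈ Γ₀, ∀ y : L, γ • y = y)
    (h4 : ∀ γ : SL(2, ℤ), γ ∈ Gamma0 N ↔ ∀ f : FuncField K N, γ • φ f = φ f)
    (h5 : ∀ j₀ : K, j₀ ≠ 0 → j₀ ≠ 1728 → ∃ w : IntVal K L,
      w.toFun (φ (jGen K N) - algebraMap K L j₀) = 1)
    (h6 : ∃ w : IntVal K L, w.toFun (φ (jGen K N) - algebraMap K L 1728) = 2 ∧
      ∀ y : L, y ≠ 0 → w.toFun (ModularGroup.S • y) = w.toFun y)
    (h7 : ∃ w : IntVal K L, w.toFun (φ (jGen K N)) = 3 ∧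
      ∀ y : L, y ≠ 0 → w.toFun ((ModularGroup.S * ModularGroup.T) • y) = w.toFun y)
    (h8 : ∃ w : IntVal K L, w.toFun (φ (jGen K N)) = -(N : ℤ) ∧
      ∀ y : L, y ≠ 0 → w.toFun (ModularGroup.T • y) = w.toFun y)
    (h9 : ∀ k : ℕ, (∀ y : L, ModularGroup.T ^ k • y = y) → N ∣ k) :
    ∃ (L : Type) (_ : Field L) (_ : Algebra K L)
      (_ : Algebra (FuncField K N) L)
      (_ : IsScalarTower K (FuncField K N) L)
      (_ : MulSemiringAction SL(2, ℤ) L) (_ : SMulCommClass SL(2, ℤ) K L),
      Transcendental K (jGen K N) ∧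
      (∀ γ : SL(2, ℤ), γ • algebraMap (FuncField K N) L (jGen K N)
        = algebraMap (FuncField K N) L (jGen K N)) ∧
      (∀ y : L, (∀ γ : SL(2, ℤ), γ • y = y) →
        y ∈ IntermediateField.adjoin K {algebraMap (FuncField K N) L (jGen K N)}) ∧
      (∃ Γ₀ : Subgroup SL(2, ℤ), Γ₀.FiniteIndex ∧ ∀ γ ∈ Γ₀, ∀ y : L, γ • y = y) ∧
      (∀ γ : SL(2, ℤ), γ ∈ Gamma0 N ↔
        ∀ f : FuncField K N, γ • algebraMap (FuncField K N) L f
          = algebraMap (FuncField K N) L f) ∧
      (∀ j₀ : K, j₀ ≠ 0 → j₀ ≠ 1728 → ∃ w : IntVal K L,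
        w.toFun (algebraMap (FuncField K N) L (jGen K N) - algebraMap K L j₀) = 1) ∧
      (∃ w : IntVal K L,
        w.toFun (algebraMap (FuncField K N) L (jGen K N) - algebraMap K L 1728) = 2 ∧
        ∀ y : L, y ≠ 0 → w.toFun (ModularGroup.S • y) = w.toFun y) ∧
      (∃ w : IntVal K L,
        w.toFun (algebraMap (FuncField K N) L (jGen K N)) = 3 ∧
        ∀ y : L, y ≠ 0 → w.toFun ((ModularGroup.S * ModularGroup.T) • y) = w.toFun y) ∧
      (∃ w : IntVal K L,
        w.toFun (algebraMap (FuncField K N) L (jGen K N)) = -(N : ℤ) ∧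
        ∀ y : L, y ≠ 0 → w.toFun (ModularGroup.T • y) = w.toFun y) ∧
      (∀ k : ℕ, (∀ y : L, ModularGroup.T ^ k • y = y) → N ∣ k) := by
  letI : Algebra (FuncField K N) L := φ.toRingHom.toAlgebra
  haveI : IsScalarTower K (FuncField K N) L :=
    IsScalarTower.of_algebraMap_eq (fun c => (φ.commutes c).symm)
  exact ⟨L, inferInstance, inferInstance, inferInstance, inferInstance, inferInstance,
    inferInstance, transcendental_jGen K N, h1, h2, h3, h4, h5, h6, h7, h8, h9⟩

/-- **The modular tower.**  The formal function field `K(j(dτ) : d ∣ N)` of `X₀(N)` embeds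
into a field `L` with an action of `SL(2, ℤ)` whose fixed field is `K(j)`, in which `Γ₀(N)` is
the subgroup fixing the function field, with valuations over the points of the `j`-line having
the expected ramification and stabilizers. -/
theorem exists_modular_tower :
    ∃ (L : Type) (_ : Field L) (_ : Algebra K L)
      (_ : Algebra (FuncField K N) L)
      (_ : IsScalarTower K (FuncField K N) L)
      (_ : MulSemiringAction SL(2, ℤ) L) (_ : SMulCommClass SL(2, ℤ) K L),
      Transcendental K (jGen K N) ∧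
      (∀ γ : SL(2, ℤ), γ • algebraMap (FuncField K N) L (jGen K N)
        = algebraMap (FuncField K N) L (jGen K N)) ∧
      (∀ y : L, (∀ γ : SL(2, ℤ), γ • y = y) →
        y ∈ IntermediateField.adjoin K {algebraMap (FuncField K N) L (jGen K N)}) ∧
      (∃ Γ₀ : Subgroup SL(2, ℤ), Γ₀.FiniteIndex ∧ ∀ γ ∈ Γ₀, ∀ y : L, γ • y = y) ∧
      (∀ γ : SL(2, ℤ), γ ∈ Gamma0 N ↔
        ∀ f : FuncField K N, γ • algebraMap (FuncField K N) L f
          = algebraMap (FuncField K N) L f) ∧
      (∀ j₀ : K, j₀ ≠ 0 → j₀ ≠ 1728 → ∃ w : IntVal K L,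
        w.toFun (algebraMap (FuncField K N) L (jGen K N) - algebraMap K L j₀) = 1) ∧
      (∃ w : IntVal K L,
        w.toFun (algebraMap (FuncField K N) L (jGen K N) - algebraMap K L 1728) = 2 ∧
        ∀ y : L, y ≠ 0 → w.toFun (ModularGroup.S • y) = w.toFun y) ∧
      (∃ w : IntVal K L,
        w.toFun (algebraMap (FuncField K N) L (jGen K N)) = 3 ∧
        ∀ y : L, y ≠ 0 → w.toFun ((ModularGroup.S * ModularGroup.T) • y) = w.toFun y) ∧
      (∃ w : IntVal K L,
        w.toFun (algebraMap (FuncField K N) L (jGen K N)) = -(N : ℤ) ∧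
        ∀ y : L, y ≠ 0 → w.toFun (ModularGroup.T • y) = w.toFun y) ∧
      (∀ k : ℕ, (∀ y : L, ModularGroup.T ^ k • y = y) → N ∣ k) := by
  obtain ⟨φ, hφ⟩ := exists_funcFieldMap K N
  have hj : φ (jGen K N) = jField K N :=
    funcFieldMap_eq_jD φ hφ (jGen K N) 1 (one_dvd N) (by rw [qExpand_one_apply]; rfl)
  refine tower_of_data K N (ModField K N) φ ?_ ?_ ?_ ?_ ?_ ?_ ?_ ?_ ?_
  · intro γ
    rw [hj, smul_jField]
  · intro y hy
    rw [hj]
    exact mem_adjoin_jField_of_invariant K N y hy
  · exact ⟨Gamma N, inferInstance, fun γ hγ y => smul_field_eq_of_mem_Gamma hγ y⟩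
  · intro γ
    exact funcFieldMap_smul_iff φ hφ γ
  · intro j₀ h0 h1
    rw [hj]
    exact exists_intVal_generic K N j₀ h0 h1
  · rw [hj]
    exact exists_intVal_S K N
  · rw [hj]
    exact exists_intVal_ST K N
  · rw [hj]
    exact exists_intVal_T K N
  · exact dvd_of_T_pow_smul K N

end Generic

end Fermat.Agent.S24.Tower
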