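import Mathlib
import Fermat.Agent.S24_Main

/-!
# S18: the degree of `X₀(pN) → X₀(N)` for a prime `p ∤ N`

* `relIndex_Gamma0`: `[Γ₀(N) : Γ₀(pN)] = p + 1`.
* `relfinrank_level`: `[F_{pN} : F_N] = p + 1` for the function fields over an algebraically
  closed field of characteristic zero.
* `exists_pow_eq_of_coprime`: norm descent of `m`-th roots along an extension of degree prime
  to `m`.
-/

set_option autoImplicit false
set_option linter.unusedSectionVars false
set_option linter.style.haveILetI false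

noncomputable section

open CongruenceSubgroup Matrix MatrixGroups ModularCurve

namespace Fermat.Agent.S18.Index

section Group

variable (p : ℕ) [Fact p.Prime]

/-- the point `(a : c)` of `P¹(𝔽_p)`. -/
def cls (a c : ZMod p) : Option (ZMod p) := if c = 0 then none else some (a / c)

theorem cls_eq_iff (a c a' c' : ZMod p) (h : a = 0 → c ≠ 0) (h' : a' = 0 → c' ≠ 0) :
    cls p a c = cls p a' c' ↔ a * c' - c * a' = 0 := by
  unfold cls
  by_cases hc : c = 0
  · have ha : a ≠ 0 := fun ha => h ha hc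
    by_cases hc' : c' = 0
    · simp [hc, hc']
    · rw [if_pos hc, if_neg hc']
      constructor
      · intro h; exact absurd h (by simp)
      · intro h2
        exfalso
        apply hc'
        have : a * c' = 0 := by rw [hc] at h2; simpa using h2
        exact (mul_eq_zero.mp this).resolve_left ha
  · by_cases hc' : c' = 0
    · have ha' : a' ≠ 0 := fun ha => h' ha hc'
      rw [if_neg hc, if_pos hc']
      constructor
      · intro h; exact absurd h (by simp)
      · intro h2
        exfalso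
        have : c * a' = 0 := by
          rw [hc'] at h2
          linear_combination -h2
        rcases mul_eq_zero.mp this with h1 | h1
        · exact hc h1
        · exact ha' h1
    · rw [if_neg hc, if_neg hc', Option.some.injEq, div_eq_div_iff hc hc']
      constructor
      · intro h; linear_combination h
      · intro h; linear_combination h

/-- the class of the first column of `γ` in `P¹(𝔽_p)`. -/
def colClass (γ : SL(2, ℤ)) : Option (ZMod p) :=
  cls p ((γ 0 0 : ℤ) : ZMod p) ((γ 1 0 : ℤ) : ZMod p)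

theorem det_cast (γ : SL(2, ℤ)) :
    ((γ 0 0 : ℤ) : ZMod p) * ((γ 1 1 : ℤ) : ZMod p)
      - ((γ 0 1 : ℤ) : ZMod p) * ((γ 1 0 : ℤ) : ZMod p) = 1 := by
  have h := γ.det_coe
  rw [Matrix.det_fin_two] at h
  have h2 := congrArg (Int.cast : ℤ → ZMod p) h
  push_cast at h2
  exact h2

theorem inv_mul_apply_one_zero (γ γ' : SL(2, ℤ)) :
    (γ⁻¹ * γ') 1 0 = γ 0 0 * γ' 1 0 - γ 1 0 * γ' 0 0 := by
  rw [Matrix.SpecialLinearGroup.coe_mul, Matrix.SpecialLinearGroup.coe_inv,
    Matrix.adjugate_fin_two, Matrix.mul_apply, Fin.sum_univ_two]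
  simp
  ring

theorem colClass_eq_iff (γ γ' : SL(2, ℤ)) :
    colClass p γ = colClass p γ' ↔ (((γ⁻¹ * γ') 1 0 : ℤ) : ZMod p) = 0 := by
  rw [inv_mul_apply_one_zero]
  push_cast
  have hd := det_cast p γ
  have hd' := det_cast p γ'
  unfold colClass
  apply cls_eq_iff
  · intro ha hc
    rw [ha, hc] at hd
    simp at hd
  · intro ha hc
    rw [ha, hc] at hd'
    simp at hd'

variable (N : ℕ)

theorem Gamma0_mul_le : Gamma0 (p * N) ≤ Gamma0 N := by
  intro γ hγ
  rw [Gamma0_mem, ZMod.intCast_zmod_eq_zero_iff_dvd] at hγ ⊢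
  exact dvd_trans (by push_cast; exact dvd_mul_left _ _) hγ

theorem mem_Gamma0_mul_iff (hp : ¬ p ∣ N) (γ : SL(2, ℤ)) (hγ : γ ∈ Gamma0 N) :
    γ ∈ Gamma0 (p * N) ↔ ((γ 1 0 : ℤ) : ZMod p) = 0 := by
  rw [Gamma0_mem, ZMod.intCast_zmod_eq_zero_iff_dvd, ZMod.intCast_zmod_eq_zero_iff_dvd] at *
  have hcop : IsCoprime (p : ℤ) (N : ℤ) := by
    rw [Int.isCoprime_iff_gcd_eq_one]
    have := (Nat.Prime.coprime_iff_not_dvd (Fact.out : p.Prime)).mpr hp
    simpa [Int.gcd] using this
  constructor
  · intro h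
    exact dvd_trans (by push_cast; exact dvd_mul_right _ _) h
  · intro h
    push_cast
    exact hcop.mul_dvd h hγ

/-- `[Γ₀(N) : Γ₀(pN)] = p + 1` for a prime `p ∤ N`. -/
theorem relIndex_Gamma0 (hp : ¬ p ∣ N) : (Gamma0 (p * N)).relIndex (Gamma0 N) = p + 1 := by
  classical
  have hpN : ((N : ℤ) : ZMod p) ≠ 0 := by
    rw [Ne, ZMod.intCast_zmod_eq_zero_iff_dvd]
    exact fun h => hp (Int.natCast_dvd_natCast.mp h)
  unfold Subgroup.relIndex
  rw [Subgroup.index_eq_card]
  have hrel : ∀ x y : Gamma0 N,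
      QuotientGroup.leftRel ((Gamma0 (p * N)).subgroupOf (Gamma0 N)) x y
        ↔ colClass p (x : SL(2, ℤ)) = colClass p (y : SL(2, ℤ)) := by
    intro x y
    rw [QuotientGroup.leftRel_apply, Subgroup.mem_subgroupOf, colClass_eq_iff]
    have hmem : ((x⁻¹ * y : Gamma0 N) : SL(2, ℤ)) ∈ Gamma0 N := (x⁻¹ * y).2
    rw [mem_Gamma0_mul_iff p N hp _ hmem]
    rfl
  let f : (Gamma0 N) ⧸ ((Gamma0 (p * N)).subgroupOf (Gamma0 N)) → Option (ZMod p) :=
    Quotient.lift (fun x : Gamma0 N => colClass p (x : SL(2, ℤ)))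
      (fun x y hxy => (hrel x y).mp hxy)
  have hinj : Function.Injective f := by
    intro x y
    induction x using Quotient.inductionOn with | _ x => ?_
    induction y using Quotient.inductionOn with | _ y => ?_
    intro h
    exact Quotient.sound ((hrel x y).mpr h)
  have hsurj : Function.Surjective f := by
    intro t
    rcases t with _ | t
    · refine ⟨Quotient.mk _ 1, ?_⟩
      show colClass p ((1 : Gamma0 N) : SL(2, ℤ)) = none
      unfold colClass cls
      simp
    · obtain ⟨s, hs⟩ := ZMod.intCast_surjective (t - (((N : ℤ) : ZMod p))⁻¹)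
      let γ : SL(2, ℤ) := ⟨!![1 + s * N, s; N, 1], by
        rw [Matrix.det_fin_two]; simp⟩
      have hγ : γ ∈ Gamma0 N := by
        rw [Gamma0_mem]
        show (((N : ℤ)) : ZMod N) = 0
        simp
      refine ⟨Quotient.mk _ ⟨γ, hγ⟩, ?_⟩
      show colClass p γ = some t
      unfold colClass cls
      have h10 : (γ 1 0 : ℤ) = N := rfl
      have h00 : (γ 0 0 : ℤ) = 1 + s * N := rfl
      have hs' : (s : ZMod p) = t - ((N : ZMod p))⁻¹ := by rw [hs, Int.cast_natCast]
      have hpN' : (N : ZMod p) ≠ 0 := by rwa [Int.cast_natCast] at hpN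
      rw [h10, h00, if_neg hpN]
      congr 1
      push_cast
      rw [hs']
      field_simp
      ring
  have hbij : Function.Bijective f := ⟨hinj, hsurj⟩
  rw [Nat.card_eq_of_bijective f hbij]
  simp [Nat.card_eq_fintype_card, ZMod.card]

theorem card_quotient_Gamma0 (hp : ¬ p ∣ N) :
    Nat.card (SL(2, ℤ) ⧸ Gamma0 (p * N)) = (p + 1) * Nat.card (SL(2, ℤ) ⧸ Gamma0 N) := by
  rw [← Subgroup.index_eq_card, ← Subgroup.index_eq_card, ← relIndex_Gamma0 p N hp]
  exact (Subgroup.relIndex_mul_index (Gamma0_mul_le p N)).symm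

end Group

section Fields

theorem full_le_of_dvd {N M : ℕ} (h : N ∣ M) :
    modularFunctionFieldFull N ≤ modularFunctionFieldFull M := by
  unfold modularFunctionFieldFull
  apply IntermediateField.adjoin.mono
  rintro x ⟨d, hd0, hd, rfl⟩
  exact ⟨d, hd0, hd.trans h, rfl⟩

theorem bar_le_of_dvd (K : Type*) [Field K] [Algebra ℚ K] {N M : ℕ} (h : N ∣ M) :
    laurentBaseChange K (modularFunctionFieldFull N)
      ≤ laurentBaseChange K (modularFunctionFieldFull M) := by
  unfold laurentBaseChange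
  apply IntermediateField.adjoin.mono
  exact Set.image_mono (full_le_of_dvd h)

variable (K : Type) [Field K] [Algebra K ℂ] [Algebra ℚ K] [IsAlgClosed K]

/-- `K(j)` inside `K((q))`. -/
def jField : IntermediateField K (LaurentSeries K) := IntermediateField.adjoin K {coeffEmb K jq}

theorem jField_le (N : ℕ) [NeZero N] :
    jField K ≤ laurentBaseChange K (modularFunctionFieldFull N) := by
  unfold jField
  rw [IntermediateField.adjoin_le_iff]
  rintro x rfl
  exact (Fermat.Agent.S24.Tower.jGen K N).2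

/-- `[F_N : K(j)] = [SL₂(ℤ) : Γ₀(N)]`, in relative form. -/
theorem relfinrank_jField (N : ℕ) [NeZero N] :
    (jField K).relfinrank (laurentBaseChange K (modularFunctionFieldFull N))
      = Nat.card (SL(2, ℤ) ⧸ Gamma0 N) := by
  have h := (Fermat.Agent.S24.modular_counts K N).2.1
  rw [← h]
  have h1 := IntermediateField.finrank_comap (A := jField K)
    (laurentBaseChange K (modularFunctionFieldFull N)).val
  rw [IntermediateField.fieldRange_val] at h1
  rw [← h1]
  have h2 : (jField K).comap (laurentBaseChange K (modularFunctionFieldFull N)).val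
      = IntermediateField.adjoin K {Fermat.Agent.S24.Tower.jGen K N} := by
    have h3 : jField K = (IntermediateField.adjoin K {Fermat.Agent.S24.Tower.jGen K N}).map
        (laurentBaseChange K (modularFunctionFieldFull N)).val := by
      rw [IntermediateField.adjoin_map, Set.image_singleton]
      rfl
    rw [h3, IntermediateField.comap_map]
  rw [h2]

theorem relfinrank_jField_pos (N : ℕ) [NeZero N] :
    0 < (jField K).relfinrank (laurentBaseChange K (modularFunctionFieldFull N)) := by
  have hfd : FiniteDimensional (IntermediateField.adjoin K {Fermat.Agent.S24.Tower.jGen K N})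
      (Fermat.Agent.S24.Tower.FuncField K N) := (Fermat.Agent.S24.modular_counts K N).1.2
  have h := (Fermat.Agent.S24.modular_counts K N).2.1
  rw [relfinrank_jField, ← h]
  exact Module.finrank_pos

/-- `[F_{pN} : F_N] = p + 1` for a prime `p ∤ N`. -/
theorem relfinrank_level (p : ℕ) [Fact p.Prime] (N : ℕ) [NeZero N] (hp : ¬ p ∣ N) :
    (laurentBaseChange K (modularFunctionFieldFull N)).relfinrank
      (laurentBaseChange K (modularFunctionFieldFull (p * N))) = p + 1 := by
  have h1 := IntermediateField.relfinrank_mul_relfinrank (jField_le K N)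
    (bar_le_of_dvd K (Dvd.intro_left p rfl : N ∣ p * N))
  rw [relfinrank_jField K N, relfinrank_jField K (p * N), card_quotient_Gamma0 p N hp] at h1
  have hpos := relfinrank_jField_pos K N
  rw [relfinrank_jField K N] at hpos
  have h2 : Nat.card (SL(2, ℤ) ⧸ Gamma0 N)
      * (laurentBaseChange K (modularFunctionFieldFull N)).relfinrank
        (laurentBaseChange K (modularFunctionFieldFull (p * N)))
      = Nat.card (SL(2, ℤ) ⧸ Gamma0 N) * (p + 1) := by
    rw [h1]; ring
  exact Nat.eq_of_mul_eq_mul_left hpos h2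

end Fields

section Norm

/-- **Norm descent**: if `u ∈ E₁` is an `m`-th power in an extension `E₂` of degree prime to `m`,
then it is an `m`-th power in `E₁`. -/
theorem exists_pow_eq_of_coprime {K Ω : Type*} [Field K] [Field Ω] [Algebra K Ω]
    (E₁ E₂ : IntermediateField K Ω) (hle : E₁ ≤ E₂) (m : ℕ)
    (hcop : Nat.Coprime m (E₁.relfinrank E₂)) (u : Ω) (hu : u ∈ E₁)
    (ht : ∃ t ∈ E₂, t ^ m = u) : ∃ s ∈ E₁, s ^ m = u := by
  obtain ⟨t, htE, htm⟩ := ht
  by_cases hu0 : u = 0
  · by_cases hm : m = 0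
    · subst hm
      rw [pow_zero] at htm
      exact ⟨1, E₁.one_mem, by rw [pow_zero, htm]⟩
    · exact ⟨0, E₁.zero_mem, by rw [hu0, zero_pow hm]⟩
  rw [IntermediateField.relfinrank_eq_finrank_of_le hle] at hcop
  set E := IntermediateField.extendScalars hle with hE
  set d := Module.finrank E₁ E with hd
  let t' : E := ⟨t, htE⟩
  let u' : E₁ := ⟨u, hu⟩
  have hu'0 : u' ≠ 0 := fun h => hu0 (congrArg Subtype.val h)
  have h1 : t' ^ m = algebraMap E₁ E u' := Subtype.ext htm
  have h2 : (Algebra.norm E₁ t') ^ m = u' ^ d := by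
    rw [← map_pow, h1, Algebra.norm_algebraMap]
  -- Bezout
  have hb : (m : ℤ) * Nat.gcdA m d + (d : ℤ) * Nat.gcdB m d = 1 := by
    have := Nat.gcd_eq_gcd_ab m d
    rw [hcop.gcd_eq_one] at this
    exact_mod_cast this.symm
  refine ⟨((u' ^ (Nat.gcdA m d) * (Algebra.norm E₁ t') ^ (Nat.gcdB m d) : E₁) : Ω),
    SetLike.coe_mem _, ?_⟩
  have h3 : (u' ^ (Nat.gcdA m d) * (Algebra.norm E₁ t') ^ (Nat.gcdB m d)) ^ m = u' := by
    have e1 : ((Algebra.norm E₁ t') ^ (Nat.gcdB m d)) ^ m
        = (u' ^ (d : ℤ)) ^ (Nat.gcdB m d) := by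
      rw [← zpow_natCast, ← _root_.zpow_mul, mul_comm, _root_.zpow_mul, zpow_natCast, h2,
        zpow_natCast]
    have e2 : (u' ^ (Nat.gcdA m d)) ^ m = u' ^ ((m : ℤ) * Nat.gcdA m d) := by
      rw [← zpow_natCast, ← _root_.zpow_mul, mul_comm]
    rw [mul_pow, e1, e2, ← _root_.zpow_mul, ← zpow_add₀ hu'0, hb, zpow_one]
  exact congrArg (Subtype.val : E₁ → Ω) h3

end Norm

section Bar

/-- `[F_{pN} : F_N] = p + 1` over `ℚ̄`, for a prime `p ∤ N`. -/
theorem relfinrank_level_bar (p : ℕ) [Fact p.Prime] (N : ℕ) [NeZero N] (hp : ¬ p ∣ N) :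
    (modularFunctionFieldBar N).relfinrank (modularFunctionFieldBar (p * N)) = p + 1 := by
  haveI : Algebra.IsAlgebraic ℚ (AlgebraicClosure ℚ) := AlgebraicClosure.isAlgebraic ℚ
  letI : Algebra (AlgebraicClosure ℚ) ℂ :=
    (IsAlgClosed.lift : AlgebraicClosure ℚ →ₐ[ℚ] ℂ).toRingHom.toAlgebra
  exact relfinrank_level (AlgebraicClosure ℚ) p N hp

theorem modularFunctionFieldBar_le_of_dvd {N M : ℕ} (h : N ∣ M) :
    modularFunctionFieldBar N ≤ modularFunctionFieldBar M :=
  bar_le_of_dvd (AlgebraicClosure ℚ) h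

/-- **Level descent of `m`-th roots**: for a prime `p ∤ N` and `m` prime to `p + 1`, an element
of `F_N` which is an `m`-th power in `F_{pN}` is an `m`-th power in `F_N`. -/
theorem exists_pow_eq_level (p : ℕ) [Fact p.Prime] (N : ℕ) [NeZero N] (hp : ¬ p ∣ N) (m : ℕ)
    (hm : Nat.Coprime m (p + 1)) (u : LaurentSeries (AlgebraicClosure ℚ))
    (hu : u ∈ modularFunctionFieldBar N)
    (ht : ∃ t ∈ modularFunctionFieldBar (p * N), t ^ m = u) :
    ∃ s ∈ modularFunctionFieldBar N, s ^ m = u := by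
  refine exists_pow_eq_of_coprime (modularFunctionFieldBar N) (modularFunctionFieldBar (p * N))
    (modularFunctionFieldBar_le_of_dvd (Dvd.intro_left p rfl)) m ?_ u hu ht
  rw [relfinrank_level_bar p N hp]
  exact hm

/-- the same in subtype form. -/
theorem exists_pow_eq_level' (p : ℕ) [Fact p.Prime] (N : ℕ) [NeZero N] (hp : ¬ p ∣ N) (m : ℕ)
    (hm : Nat.Coprime m (p + 1)) (u : modularFunctionFieldBar N)
    (ht : ∃ t : modularFunctionFieldBar (p * N),
      (t : LaurentSeries (AlgebraicClosure ℚ)) ^ m = (u : LaurentSeries (AlgebraicClosure ℚ))) :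
    ∃ s : modularFunctionFieldBar N, s ^ m = u := by
  obtain ⟨t, ht⟩ := ht
  obtain ⟨s, hs, hsm⟩ := exists_pow_eq_level p N hp m hm u u.2 ⟨t, t.2, ht⟩
  exact ⟨⟨s, hs⟩, Subtype.ext hsm⟩

end Bar

end Fermat.Agent.S18.Index
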