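import Mathlib
import Fermat.Agent.RR_PlaceExt
import Fermat.Agent.S18_Index

/-!
# S18: divisibility of the divisor of a function is preserved by a finite extension

* `dvd_ord_of_le`: for intermediate fields `E₁ ≤ E₂` of finite relative degree over an
  algebraically closed field of characteristic zero, if `m` divides all orders of `u ∈ E₁` at the
  places of `E₁`, it divides all orders of `u` at the places of `E₂`.
* `dvd_ord_level`: the case `F_N ⊂ F_{pN}`.
-/

set_option autoImplicit false
set_option linter.style.haveILetI false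

noncomputable section

open AlgebraicCurve ModularCurve

namespace Fermat.Agent.S18.Index

theorem dvd_ord_of_le {K Ω : Type*} [Field K] [IsAlgClosed K] [CharZero K] [Field Ω]
    [Algebra K Ω] (E₁ E₂ : IntermediateField K Ω) (hle : E₁ ≤ E₂)
    (hfin : E₁.relfinrank E₂ ≠ 0) (m : ℤ) (u : E₁) (hu : ∀ P : Place K E₁, m ∣ P.ord u)
    (P' : Place K E₂) : m ∣ P'.ord (IntermediateField.inclusion hle u) := by
  letI : Algebra E₁ E₂ := (IntermediateField.inclusion hle).toRingHom.toAlgebra
  haveI : IsScalarTower K E₁ E₂ := IsScalarTower.of_algebraMap_eq (fun x => rfl)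
  haveI : FiniteDimensional E₁ E₂ := by
    rw [IntermediateField.relfinrank_eq_finrank_of_le hle] at hfin
    haveI : Module.Finite E₁ (IntermediateField.extendScalars hle) :=
      Module.finite_of_finrank_pos (Nat.pos_of_ne_zero hfin)
    let e : (IntermediateField.extendScalars hle) →ₗ[E₁] E₂ :=
      { toFun := fun x => ⟨x.1, x.2⟩
        map_add' := fun x y => rfl
        map_smul' := fun c x => rfl }
    exact Module.Finite.of_surjective e (fun y => ⟨⟨y.1, y.2⟩, rfl⟩)
  obtain ⟨v, e, he, hord⟩ := Fermat.Agent.RR.exists_restrict (K := K) (F := E₁) (L := E₂) P'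
  by_cases hu0 : u = 0
  · rw [hu0, map_zero, Place.ord_zero]
    exact dvd_zero m
  · have h1 : P'.ord (IntermediateField.inclusion hle u) = e * v.ord u := hord u hu0
    rw [h1]
    exact Dvd.dvd.mul_left (hu v) _

/-- if `m` divides the divisor of `u ∈ F_N`, it divides the divisor of `u` on `X₀(pN)`. -/
theorem dvd_ord_level (p : ℕ) [Fact p.Prime] (N : ℕ) [NeZero N] (hp : ¬ p ∣ N) (m : ℤ)
    (u : modularFunctionFieldBar N)
    (hu : ∀ P : Place (AlgebraicClosure ℚ) (modularFunctionFieldBar N), m ∣ P.ord u)
    (P' : Place (AlgebraicClosure ℚ) (modularFunctionFieldBar (p * N))) :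
    m ∣ P'.ord (⟨(u : LaurentSeries (AlgebraicClosure ℚ)),
      modularFunctionFieldBar_le_of_dvd (Dvd.intro_left p rfl) u.2⟩ :
        modularFunctionFieldBar (p * N)) := by
  have h := dvd_ord_of_le (modularFunctionFieldBar N) (modularFunctionFieldBar (p * N))
    (modularFunctionFieldBar_le_of_dvd (Dvd.intro_left p rfl))
    (by rw [relfinrank_level_bar p N hp]; exact Nat.succ_ne_zero p) m u hu P'
  exact h

end Fermat.Agent.S18.Index
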