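import Mathlib
import Fermat.Agent.S18_Const
import Fermat.Agent.S18_GaussField
import Fermat.Agent.S18_Index
import Fermat.Agent.S18_LevelOrd

/-!
# S18: the outer glue of the final assembly

Given the output of the hub at an auxiliary level `M ∈ {N, p·N}` ("package": a Gauss datum `D`
on `F_M` with `MainStatement A D.h D.goodVal`) and the inputs of Step 0 at level `N`, the
reduction map is injective on prime-to-`ℓ` torsion.

* `exists_root_of_package`: the Step-0 function is an `m`-th power in `F_M`;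
* `outer_same`: the case `M = N`;
* `outer_level`: the case `M = p · N`, `p ∤ N` prime, `m` prime to `p + 1`.
-/

set_option autoImplicit false
set_option linter.unusedSectionVars false
set_option linter.unusedVariables false
set_option linter.style.haveILetI false

noncomputable section

open Polynomial AlgebraicCurve ModularCurve

namespace Fermat.Agent.S18.Outer

variable {ℓ : ℕ} [Fact ℓ.Prime] (A : ValuationSubring (AlgebraicClosure ℚ))

/-- the hub at level `M` extracts an `m`-th root of a function `u ∈ F_M` with `ρ(u) = 1` (in the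
raw shape `s · u = a`, `s̄ = ā ≠ 0`) whose divisor is divisible by `m`. -/
theorem exists_root_of_package {M : ℕ}
    (hpack : ∃ (n : ℕ) (D : Gauss.Datum A (modularFunctionFieldBar M) n),
      MainStatement A D.h D.goodVal)
    (hA : A.LiesOverPrime ℓ) (m : ℕ) (hm : ¬ ℓ ∣ m)
    (u : modularFunctionFieldBar M) (a s : LaurentSeries A)
    (hs : coeffMap (IsLocalRing.residue A) s ≠ 0)
    (has : coeffMap (IsLocalRing.residue A) a = coeffMap (IsLocalRing.residue A) s)
    (hrel : coeffMap A.subtype s * (u : LaurentSeries (AlgebraicClosure ℚ))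
      = coeffMap A.subtype a)
    (hdiv : ∀ P : Place (AlgebraicClosure ℚ) (modularFunctionFieldBar M), (m : ℤ) ∣ P.ord u) :
    ∃ t : modularFunctionFieldBar M, t ^ m = u := by
  obtain ⟨n, D, hMS⟩ := hpack
  haveI : CharP (IsLocalRing.ResidueField A) ℓ := ValRing.charP_residueField A hA
  have hmk : ((m : ℕ) : IsLocalRing.ResidueField A) ≠ 0 := by
    rw [Ne, CharP.cast_eq_zero_iff (IsLocalRing.ResidueField A) ℓ]
    exact hm
  have hρ := D.ρ_eq_one u s a hs hrel has
  exact hMS m hmk ⟨u, D.mem_V_of u s a hs hrel⟩ hρ hdiv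

variable (N : ℕ) [NeZero N]

/-- **final assembly, case `M = N`.** -/
theorem outer_same (hA : A.LiesOverPrime ℓ) (n₀ : ℕ) (u₀ : LaurentSeries ℤ)
    (hspan : ∀ x ∈ modularFunctionFieldFull N, ∃ (D : ℚ[X]) (P : Fin n₀ → ℚ[X]), D ≠ 0 ∧
      x * aeval jq D = ∑ i, aeval jq (P i) * (coeffMap (Int.castRingHom ℚ) u₀) ^ (i : ℕ))
    (hmc : ∀ P : Fin n₀ → (ZMod ℓ)[X],
      ∑ i, aeval (jqModC (ZMod ℓ)) (P i) * (coeffMap (Int.castRingHom (ZMod ℓ)) u₀) ^ (i : ℕ) = 0 →
        ∀ i, P i = 0)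
    (hsep : IsSeparable
      (IntermediateField.adjoin (IsLocalRing.ResidueField A)
        {jqModC (IsLocalRing.ResidueField A)})
      (coeffMap (Int.castRingHom (IsLocalRing.ResidueField A)) u₀))
    (hpack : ∃ (n : ℕ) (D : Gauss.Datum A (modularFunctionFieldBar N) n),
      MainStatement A D.h D.goodVal)
    (h : ReductionInputsModL A N) (m : ℕ) (hm : ¬ ℓ ∣ m) (z : JZero N) (hmz : m • z = 0)
    (hz : reductionModL A N z = 0) : z = 0 := by
  have hm0 : m ≠ 0 := fun h0 => hm (h0 ▸ dvd_zero ℓ)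
  obtain ⟨u, a, s, hu0, hs, has, hrel, hdiv, hfin⟩ :=
    Const.step0_of_series ℓ A N hA n₀ u₀ hspan hmc hsep h m hm0 z hmz hz
  exact hfin (exists_root_of_package A hpack hA m hm u a s hs has hrel hdiv)

/-- **final assembly, case `M = p · N`** for a prime `p ∤ N` with `m` prime to `p + 1`. -/
theorem outer_level (p : ℕ) [Fact p.Prime] (hp : ¬ p ∣ N) (hA : A.LiesOverPrime ℓ) (n₀ : ℕ)
    (u₀ : LaurentSeries ℤ)
    (hspan : ∀ x ∈ modularFunctionFieldFull N, ∃ (D : ℚ[X]) (P : Fin n₀ → ℚ[X]), D ≠ 0 ∧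
      x * aeval jq D = ∑ i, aeval jq (P i) * (coeffMap (Int.castRingHom ℚ) u₀) ^ (i : ℕ))
    (hmc : ∀ P : Fin n₀ → (ZMod ℓ)[X],
      ∑ i, aeval (jqModC (ZMod ℓ)) (P i) * (coeffMap (Int.castRingHom (ZMod ℓ)) u₀) ^ (i : ℕ) = 0 →
        ∀ i, P i = 0)
    (hsep : IsSeparable
      (IntermediateField.adjoin (IsLocalRing.ResidueField A)
        {jqModC (IsLocalRing.ResidueField A)})
      (coeffMap (Int.castRingHom (IsLocalRing.ResidueField A)) u₀))
    (hpack : ∃ (n : ℕ) (D : Gauss.Datum A (modularFunctionFieldBar (p * N)) n),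
      MainStatement A D.h D.goodVal)
    (h : ReductionInputsModL A N) (m : ℕ) (hm : ¬ ℓ ∣ m) (hcop : Nat.Coprime m (p + 1))
    (z : JZero N) (hmz : m • z = 0) (hz : reductionModL A N z = 0) : z = 0 := by
  have hm0 : m ≠ 0 := fun h0 => hm (h0 ▸ dvd_zero ℓ)
  obtain ⟨u, a, s, hu0, hs, has, hrel, hdiv, hfin⟩ :=
    Const.step0_of_series ℓ A N hA n₀ u₀ hspan hmc hsep h m hm0 z hmz hz
  have hdiv' : ∀ P' : Place (AlgebraicClosure ℚ) (modularFunctionFieldBar (p * N)),
      (m : ℤ) ∣ P'.ord (⟨(u : LaurentSeries (AlgebraicClosure ℚ)),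
        Index.modularFunctionFieldBar_le_of_dvd (Dvd.intro_left p rfl) u.2⟩ :
          modularFunctionFieldBar (p * N)) :=
    fun P' => Index.dvd_ord_level p N hp (m : ℤ) u hdiv P'
  obtain ⟨t, ht⟩ := exists_root_of_package A hpack hA m hm
    (⟨(u : LaurentSeries (AlgebraicClosure ℚ)),
      Index.modularFunctionFieldBar_le_of_dvd (Dvd.intro_left p rfl) u.2⟩ :
        modularFunctionFieldBar (p * N)) a s hs has hrel hdiv'
  exact hfin (Index.exists_pow_eq_level' p N hp m hcop u ⟨t, congrArg Subtype.val ht⟩)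

/-- `m` prime to `3` is prime to `2 + 1`. -/
theorem coprime_two_add_one {m : ℕ} (hm : ¬ 3 ∣ m) : Nat.Coprime m (2 + 1) :=
  ((Nat.Prime.coprime_iff_not_dvd Nat.prime_three).mpr hm).symm

/-- `m` odd is prime to `3 + 1`. -/
theorem coprime_three_add_one {m : ℕ} (hm : ¬ 2 ∣ m) : Nat.Coprime m (3 + 1) := by
  have h2 : Nat.Coprime m 2 := ((Nat.Prime.coprime_iff_not_dvd Nat.prime_two).mpr hm).symm
  have : Nat.Coprime m (2 ^ 2) := Nat.Coprime.pow_right 2 h2
  exact this

end Fermat.Agent.S18.Outer
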