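import Mathlib
import Fermat.Agent.S24_Galois
import Fermat.Agent.S24_Main

/-!
# S18, WP-H2: unramifiedness input (I2)

* `Galois.pow_le_of_intVal`, `ord_le_of_intVal`: in the Galois setting of `S24_Galois`, an integer
  valuation `w` of the big field with `w (x - x₀) = E` bounds the order of `x - x₀` at every place
  of the intermediate field over `x₀` by `E`.
* `ord_jGen_le_three`, `ord_jGen_sub_le_two`: on `X₀(M)`, `ord_P j ≤ 3` over `j = 0` and
  `ord_P (j - 1728) ≤ 2` over `j = 1728`.
* `natCard_placesAt_of_rel_two`, `natCard_placesAt_of_rel_three`: a function `h` with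
  `j h² = (h + 256)³` (resp. `j h³ = (h + 27) (h + 243)³`) is unramified outside `{0, -64, ∞}`
  (resp. `{0, -27, ∞}`).
-/

set_option autoImplicit false
set_option linter.unusedSectionVars false
set_option linter.unusedVariables false

noncomputable section

open AlgebraicCurve
open scoped Pointwise IntermediateField.algebraAdjoinAdjoin

namespace Fermat.Agent.S18.H2

open Fermat.Agent.S24 Fermat.Agent.S24.Galois

section Concrete

variable {K F L : Type*} [Field K] [IsAlgClosed K] [CharZero K] [Field F] [Algebra K F]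
  [Field L] [Algebra K L] [Algebra F L] [IsScalarTower K F L]

attribute [local instance] algTS

/-- if `x - x₀` lies in the `n`-th power of a prime of the integral closure of `K[x]` in `F`,
then `n ≤ w (x - x₀)` for every integer valuation `w` of the Galois closure over `x₀`. -/
theorem pow_le_of_intVal
    (x : F) (hx : Transcendental K x)
    {G : Type*} [Group G] [Finite G] [MulSemiringAction G L]
    [hG : IsGaloisGroup G (IntermediateField.adjoin K {x}) L]
    (x₀ : K) (w : IntVal K L) (E : ℕ) (hE : 0 < E)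
    (hw : w.toFun (algebraMap F L x - algebraMap K L x₀) = E)
    (Q : Ideal (integralClosure (Algebra.adjoin K {x}) F)) [hQ : Q.IsPrime]
    (n : ℕ) (hn : 0 < n)
    (hxi : algebraMap (Algebra.adjoin K {x}) (integralClosure (Algebra.adjoin K {x}) F)
      (genA x - algebraMap K (Algebra.adjoin K {x}) x₀) ∈ Q ^ n) : n ≤ E := by
  -- instances
  have hfin : FiniteDimensional (IntermediateField.adjoin K {x}) L :=
    IsGaloisGroup.finiteDimensional G _ L
  have hcomm : SMulCommClass G (Algebra.adjoin K {x}) L := smulCommClass_adjoin x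
  have hfrS := isFractionRing_S (K := K) (L := L) x
  have hdedS := isDedekindDomain_S (K := K) (L := L) x
  have hfinS := finite_S (K := K) (L := L) x
  have hflatS := flat_S (K := K) (L := L) x
  have hGS := isGaloisGroup_S (K := K) (L := L) x (G := G)
  have ht1 := isScalarTower_ATS (K := K) (L := L) x
  have hfaith := faithfulSMul_TS (K := K) (L := L) x
  have hintTS := isIntegral_TS (K := K) (L := L) x
  -- the valuation prime
  have hA := algebraMap_adjoin_mem_valGE x x₀ w E hw
  have hS : ∀ b : integralClosure (Algebra.adjoin K {x}) L, (b : L) ∈ valGE w 0 := fun b =>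
    mem_valGE_zero_of_isIntegral w hA b.2
  have hP₀ : (valIdeal w (integralClosure (Algebra.adjoin K {x}) L) hS 1).IsPrime :=
    valIdeal_one_isPrime w _ hS
  -- the element `x - x₀`
  have hxne : x - algebraMap K F x₀ ≠ 0 := by
    intro h
    rw [sub_eq_zero] at h
    exact hx (h ▸ isAlgebraic_algebraMap x₀)
  have hsL : ((algebraMap (Algebra.adjoin K {x}) (integralClosure (Algebra.adjoin K {x}) L)
      (genA x - algebraMap K (Algebra.adjoin K {x}) x₀) :
        integralClosure (Algebra.adjoin K {x}) L) : L)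
      = algebraMap F L x - algebraMap K L x₀ := by
    rw [IsScalarTower.algebraMap_apply K F L, ← map_sub]
    rfl
  have hsne : algebraMap (Algebra.adjoin K {x}) (integralClosure (Algebra.adjoin K {x}) L)
      (genA x - algebraMap K (Algebra.adjoin K {x}) x₀) ≠ 0 := by
    intro h
    have h' := congrArg (Subtype.val) h
    rw [hsL, IsScalarTower.algebraMap_apply K F L, ← map_sub] at h'
    exact hxne ((algebraMap F L).injective (h'.trans (map_zero _).symm))
  have hsP₀ : algebraMap (Algebra.adjoin K {x}) (integralClosure (Algebra.adjoin K {x}) L)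
      (genA x - algebraMap K (Algebra.adjoin K {x}) x₀)
        ∈ valIdeal w (integralClosure (Algebra.adjoin K {x}) L) hS 1 := by
    right
    rw [hsL, hw]
    exact_mod_cast hE
  -- the prime below
  have hple : idealAt x x₀
      ≤ (valIdeal w (integralClosure (Algebra.adjoin K {x}) L) hS 1).under
        (Algebra.adjoin K {x}) := by
    unfold idealAt
    rw [Ideal.span_le, Set.singleton_subset_iff]
    exact hsP₀
  have hunder_ne : (valIdeal w (integralClosure (Algebra.adjoin K {x}) L) hS 1).under
      (Algebra.adjoin K {x}) ≠ ⊤ := Ideal.IsPrime.ne_top inferInstance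
  have hP₀under : (valIdeal w (integralClosure (Algebra.adjoin K {x}) L) hS 1).under
      (Algebra.adjoin K {x}) = idealAt x x₀ := eq_idealAt_of_le x x₀ _ hunder_ne hple
  -- the prime `Q` lies over `idealAt x x₀`
  have hxiQ : algebraMap (Algebra.adjoin K {x}) (integralClosure (Algebra.adjoin K {x}) F)
      (genA x - algebraMap K (Algebra.adjoin K {x}) x₀) ∈ Q :=
    Ideal.pow_le_self (Nat.pos_iff_ne_zero.mp hn) hxi
  have hQle : idealAt x x₀ ≤ Q.under (Algebra.adjoin K {x}) := by
    unfold idealAt
    rw [Ideal.span_le, Set.singleton_subset_iff]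
    exact hxiQ
  have hQunder : Q.under (Algebra.adjoin K {x}) = idealAt x x₀ :=
    eq_idealAt_of_le x x₀ _ (Ideal.IsPrime.ne_top inferInstance) hQle
  -- a prime of `S` over `Q`
  obtain ⟨⟨P, hP, hPQ⟩⟩ := (inferInstance :
    Nonempty (Q.primesOver (integralClosure (Algebra.adjoin K {x}) L)))
  have hPunder : P.under (Algebra.adjoin K {x}) = idealAt x x₀ := by
    rw [← hQunder, hPQ.over, Ideal.under_under]
  -- transitivity
  obtain ⟨g, hg⟩ := Algebra.IsInvariant.exists_smul_of_under_eq (Algebra.adjoin K {x})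
    (integralClosure (Algebra.adjoin K {x}) L) G
    (valIdeal w (integralClosure (Algebra.adjoin K {x}) L) hS 1) P
    (hP₀under.trans hPunder.symm)
  -- `x - x₀ ∈ P ^ n`
  have hmemP : algebraMap (Algebra.adjoin K {x}) (integralClosure (Algebra.adjoin K {x}) L)
      (genA x - algebraMap K (Algebra.adjoin K {x}) x₀) ∈ P ^ n := by
    have h1 : algebraMap (integralClosure (Algebra.adjoin K {x}) F)
        (integralClosure (Algebra.adjoin K {x}) L)
        (algebraMap (Algebra.adjoin K {x}) (integralClosure (Algebra.adjoin K {x}) F)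
          (genA x - algebraMap K (Algebra.adjoin K {x}) x₀))
          ∈ (Q ^ n).map (algebraMap (integralClosure (Algebra.adjoin K {x}) F)
            (integralClosure (Algebra.adjoin K {x}) L)) := Ideal.mem_map_of_mem _ hxi
    rw [Ideal.map_pow] at h1
    have h2 : Q.map (algebraMap (integralClosure (Algebra.adjoin K {x}) F)
        (integralClosure (Algebra.adjoin K {x}) L)) ≤ P := by
      rw [Ideal.map_le_iff_le_comap, hPQ.over]
    have h3 := Ideal.pow_right_mono h2 n h1
    rwa [← IsScalarTower.algebraMap_apply] at h3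
  -- move to `P₀ ^ n`
  have hmemP₀ : algebraMap (Algebra.adjoin K {x}) (integralClosure (Algebra.adjoin K {x}) L)
      (genA x - algebraMap K (Algebra.adjoin K {x}) x₀)
        ∈ valIdeal w (integralClosure (Algebra.adjoin K {x}) L) hS 1 ^ n := by
    have h2 : P ^ n
        = g • ((valIdeal w (integralClosure (Algebra.adjoin K {x}) L) hS 1) ^ n) := by
      rw [hg, Ideal.pointwise_smul_def, Ideal.pointwise_smul_def, Ideal.map_pow]
    have h1 := hmemP
    rw [h2, Ideal.mem_pointwise_smul_iff_inv_smul_mem, smul_algebraMap] at h1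
    exact h1
  have h4 := valIdeal_one_pow_le w _ hS n hmemP₀
  rcases h4 with h4 | h4
  · exact absurd (Subtype.ext h4) hsne
  · rw [hsL, hw] at h4
    exact_mod_cast h4

end Concrete

section Main

variable {K F L Γ : Type*} [Field K] [IsAlgClosed K] [CharZero K] [Field F] [Algebra K F]
  [Field L] [Algebra K L] [Algebra F L] [IsScalarTower K F L]
  [Group Γ] [MulSemiringAction Γ L] [SMulCommClass Γ K L]

/-- In the Galois setting of `S24_Galois` (`L^Γ = K(x)`, finite quotient): an integer valuation
`w` of `L` with `w (x - x₀) = E > 0` bounds the order of `x - x₀` at every place of `F` over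
`x₀` by `E`. -/
theorem ord_le_of_intVal (x : F) (hx : Transcendental K x)
    (hfix : ∀ y : L, (∀ γ : Γ, γ • y = y) → y ∈ IntermediateField.adjoin K {algebraMap F L x})
    (hxfix : ∀ γ : Γ, γ • algebraMap F L x = algebraMap F L x)
    (hker : ∃ Γ₀ : Subgroup Γ, Γ₀.FiniteIndex ∧ ∀ γ ∈ Γ₀, ∀ y : L, γ • y = y)
    (x₀ : K) (w : IntVal K L) (E : ℕ) (hE : 0 < E)
    (hw : w.toFun (algebraMap F L x - algebraMap K L x₀) = E)
    (v : Place K F) (hv : v ∈ PlacesAt K x x₀) :
    v.ord (x - algebraMap K F x₀) ≤ E := by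
  have := finite_imageGroup (K := K) hker
  have hG := isGaloisGroup_imageGroup x hfix hxfix
  have hgen := isGenerator_of_action x hx hfix hker
  have := Places.isDedekindDomain_intRing hgen
  have := Places.isFractionRing_intRing hgen
  obtain ⟨wQ, hwQ, hmem⟩ := Places.exists_prime_of_mem_placesAt hx x₀ v hv
  have hord : v.ord (x - algebraMap K F x₀)
      = (multiplicity wQ.asIdeal (Ideal.span {Places.xi K x x₀}) : ℤ) := by
    rw [← hwQ, ← Places.algebraMap_xi,
      Places.ord_ofHeightOneSpectrum_algebraMap wQ (Places.xi_ne_zero hx x₀)]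
  have hpos : 0 < multiplicity wQ.asIdeal (Ideal.span {Places.xi K x x₀}) := by
    have h0 : 0 < v.ord (x - algebraMap K F x₀) := hv
    rw [hord] at h0
    exact_mod_cast h0
  have hxi : Places.xi K x x₀
      ∈ wQ.asIdeal ^ multiplicity wQ.asIdeal (Ideal.span {Places.xi K x x₀}) := by
    have h1 := pow_multiplicity_dvd wQ.asIdeal (Ideal.span {Places.xi K x x₀})
    rw [Ideal.dvd_iff_le] at h1
    exact h1 (Ideal.subset_span rfl)
  rw [hord]
  exact_mod_cast pow_le_of_intVal (G := imageGroup K L Γ) x hx x₀ w E hE hw wQ.asIdeal _ hpos hxi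

end Main

section Abstract

variable {K F : Type*} [Field K] [IsAlgClosed K] [CharZero K] [Field F] [Algebra K F]

/-- at a place over `h = c`, the function `h - c'` is a unit for `c' ≠ c`. -/
theorem ord_sub_eq_zero {h : F} {c : K} (v : Place K F) (hv : v ∈ PlacesAt K h c) (c' : K)
    (hc : c' ≠ c) : v.ord (h - algebraMap K F c') = 0 := by
  have h1 : ¬ (0 < v.ord (h - algebraMap K F c')) := fun h' =>
    Set.disjoint_left.mp (Places.placesAt_disjoint (x := h) c c' (Ne.symm hc)) hv h'
  have h2 : h - algebraMap K F c ∈ v.toValuationSubring :=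
    Places.mem_of_ord_nonneg v (le_of_lt hv)
  have h3 : h - algebraMap K F c' ∈ v.toValuationSubring := by
    have h4 := add_mem h2 (v.algebraMap_mem' (c - c'))
    rw [map_sub] at h4
    have h5 : h - algebraMap K F c + (algebraMap K F c - algebraMap K F c')
        = h - algebraMap K F c' := by ring
    rwa [h5] at h4
  have h6 := Places.ord_nonneg_of_mem v h3
  omega

theorem ord_pow_nat (v : Place K F) (f : F) (n : ℕ) : v.ord (f ^ n) = n * v.ord f := by
  have h := v.ord_zpow f (n : ℤ)
  rwa [zpow_natCast] at h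

/-- from `y * U = t ^ k * M` with `U` a unit and `M` regular at `v`: `k * ord t ≤ ord y`. -/
theorem le_ord_of_mul_eq (v : Place K F) {y U t M : F} (k : ℕ) (hy : y ≠ 0) (hU : U ≠ 0)
    (hUo : v.ord U = 0) (ht : t ≠ 0) (hM : M ∈ v.toValuationSubring)
    (hid : y * U = t ^ k * M) : k * v.ord t ≤ v.ord y := by
  have hM0 : M ≠ 0 := by
    rintro rfl
    rw [mul_zero] at hid
    exact mul_ne_zero hy hU hid
  have h1 := congrArg v.ord hid
  rw [v.ord_mul hy hU, hUo, add_zero, v.ord_mul (pow_ne_zero k ht) hM0, ord_pow_nat] at h1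
  have h3 := Places.ord_nonneg_of_mem v hM
  omega

/-- `h` with `j h² = (h + 256)³` is unramified over every `c ∉ {0, -64}`. -/
theorem ord_eq_one_of_rel_two {j h : F} (hj : Transcendental K j)
    (hrel : j * h ^ 2 = (h + 256) ^ 3)
    (hgen : ∀ j₀ : K, j₀ ≠ 0 → j₀ ≠ 1728 → ∀ v ∈ PlacesAt K j j₀,
      v.ord (j - algebraMap K F j₀) = 1)
    (h0 : ∀ v ∈ PlacesAt K j 0, v.ord j ≤ 3)
    (h1728 : ∀ v ∈ PlacesAt K j 1728, v.ord (j - algebraMap K F 1728) ≤ 2)
    (c : K) (hc0 : c ≠ 0) (hc : c ≠ -64) (v : Place K F) (hv : v ∈ PlacesAt K h c) :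
    v.ord (h - algebraMap K F c) = 1 := by
  have he : 0 < v.ord (h - algebraMap K F c) := hv
  have hhc : h - algebraMap K F c ≠ 0 := fun h' => by
    rw [h', Place.ord_zero] at he; omega
  have hh0 : v.ord h = 0 := by
    have h1 := ord_sub_eq_zero v hv 0 (Ne.symm hc0)
    rwa [map_zero, sub_zero] at h1
  have hcharF : CharZero F := charZero_of_injective_algebraMap (algebraMap K F).injective
  have hhne : h ≠ 0 := by
    rintro rfl
    norm_num at hrel
  have hhmem : h ∈ v.toValuationSubring := Places.mem_of_ord_nonneg v hh0.ge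
  have hjne : j ≠ 0 := fun h' => hj (h' ▸ isAlgebraic_zero)
  have hjsub : ∀ a : K, j - algebraMap K F a ≠ 0 := fun a h' =>
    hj (by rw [sub_eq_zero.mp h']; exact isAlgebraic_algebraMap _)
  have hU : v.ord (h ^ 2) = 0 := by rw [ord_pow_nat, hh0, mul_zero]
  by_cases hc256 : c = -256
  · -- over `j = 0`
    have hid : j * h ^ 2 = (h - algebraMap K F c) ^ 3 * 1 := by
      rw [hrel, hc256, map_neg, map_ofNat]; ring
    have h3 := le_ord_of_mul_eq v 3 hjne (pow_ne_zero 2 hhne) hU hhc (one_mem _) hid
    have hjpos : v ∈ PlacesAt K j 0 := by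
      show 0 < v.ord (j - algebraMap K F 0)
      rw [map_zero, sub_zero]
      push_cast at h3
      omega
    have h4 := h0 v hjpos
    push_cast at h3
    omega
  by_cases hc512 : c = 512
  · -- over `j = 1728`
    have hid : (j - algebraMap K F 1728) * h ^ 2
        = (h - algebraMap K F c) ^ 2 * (h - algebraMap K F (-64)) := by
      rw [hc512, map_neg, map_ofNat, map_ofNat, map_ofNat]
      linear_combination hrel
    have hmem : h - algebraMap K F (-64) ∈ v.toValuationSubring :=
      sub_mem hhmem (v.algebraMap_mem' _)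
    have h3 := le_ord_of_mul_eq v 2 (hjsub 1728) (pow_ne_zero 2 hhne) hU hhc hmem hid
    have hjpos : v ∈ PlacesAt K j 1728 := by
      show 0 < v.ord (j - algebraMap K F 1728)
      push_cast at h3
      omega
    have h4 := h1728 v hjpos
    push_cast at h3
    omega
  -- generic
  set j₀ : K := (c + 256) ^ 3 / c ^ 2 with hj₀
  have hj₀c : j₀ * c ^ 2 = (c + 256) ^ 3 := by
    rw [hj₀, div_mul_cancel₀ _ (pow_ne_zero 2 hc0)]
  have hj₀0 : j₀ ≠ 0 := by
    intro h'
    rw [h', zero_mul] at hj₀c
    have h1 : c + 256 = 0 := by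
      have := hj₀c.symm
      exact (pow_eq_zero_iff (by norm_num)).mp this
    exact hc256 (by linear_combination h1)
  have hj₀1 : j₀ ≠ 1728 := by
    intro h'
    rw [h'] at hj₀c
    have h1 : (c + 64) * (c - 512) ^ 2 = 0 := by linear_combination -hj₀c
    rcases mul_eq_zero.mp h1 with h2 | h2
    · exact hc (by linear_combination h2)
    · have h3 : c - 512 = 0 := (pow_eq_zero_iff (by norm_num)).mp h2
      exact hc512 (by linear_combination h3)
  have hj₀F : algebraMap K F j₀ * algebraMap K F c ^ 2 = (algebraMap K F c + 256) ^ 3 := by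
    rw [← map_pow, ← map_mul, hj₀c, map_pow, map_add, map_ofNat]
  have hid : (j - algebraMap K F j₀) * (h ^ 2 * algebraMap K F (c ^ 2))
      = (h - algebraMap K F c) ^ 1 * (algebraMap K F (c ^ 2) * h ^ 2
        - algebraMap K F (196608 * c + 16777216) * h - algebraMap K F (16777216 * c)) := by
    simp only [map_mul, map_add, map_pow, map_ofNat]
    linear_combination (algebraMap K F c ^ 2) * hrel - h ^ 2 * hj₀F
  have hUc : v.ord (h ^ 2 * algebraMap K F (c ^ 2)) = 0 := by
    rw [v.ord_mul (pow_ne_zero 2 hhne) (by rw [Ne, map_eq_zero]; exact pow_ne_zero 2 hc0), hU,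
      Places.ord_algebraMap, add_zero]
  have hmem : algebraMap K F (c ^ 2) * h ^ 2
        - algebraMap K F (196608 * c + 16777216) * h - algebraMap K F (16777216 * c)
        ∈ v.toValuationSubring :=
    sub_mem (sub_mem (mul_mem (v.algebraMap_mem' _) (pow_mem hhmem 2))
      (mul_mem (v.algebraMap_mem' _) hhmem)) (v.algebraMap_mem' _)
  have h3 := le_ord_of_mul_eq v 1 (hjsub j₀)
    (mul_ne_zero (pow_ne_zero 2 hhne) (by rw [Ne, map_eq_zero]; exact pow_ne_zero 2 hc0))
    hUc hhc hmem hid
  have hjpos : v ∈ PlacesAt K j j₀ := by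
    show 0 < v.ord (j - algebraMap K F j₀)
    push_cast at h3
    omega
  have h4 := hgen j₀ hj₀0 hj₀1 v hjpos
  push_cast at h3
  omega

/-- `h` with `j h³ = (h + 27) (h + 243)³` is unramified over every `c ∉ {0, -27}`. -/
theorem ord_eq_one_of_rel_three {j h : F} (hj : Transcendental K j)
    (hrel : j * h ^ 3 = (h + 27) * (h + 243) ^ 3)
    (hgen : ∀ j₀ : K, j₀ ≠ 0 → j₀ ≠ 1728 → ∀ v ∈ PlacesAt K j j₀,
      v.ord (j - algebraMap K F j₀) = 1)
    (h0 : ∀ v ∈ PlacesAt K j 0, v.ord j ≤ 3)
    (h1728 : ∀ v ∈ PlacesAt K j 1728, v.ord (j - algebraMap K F 1728) ≤ 2)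
    (c : K) (hc0 : c ≠ 0) (hc : c ≠ -27) (v : Place K F) (hv : v ∈ PlacesAt K h c) :
    v.ord (h - algebraMap K F c) = 1 := by
  have he : 0 < v.ord (h - algebraMap K F c) := hv
  have hhc : h - algebraMap K F c ≠ 0 := fun h' => by
    rw [h', Place.ord_zero] at he; omega
  have hh0 : v.ord h = 0 := by
    have h1 := ord_sub_eq_zero v hv 0 (Ne.symm hc0)
    rwa [map_zero, sub_zero] at h1
  have hcharF : CharZero F := charZero_of_injective_algebraMap (algebraMap K F).injective
  have hhne : h ≠ 0 := by
    rintro rfl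
    norm_num at hrel
  have hhmem : h ∈ v.toValuationSubring := Places.mem_of_ord_nonneg v hh0.ge
  have hjne : j ≠ 0 := fun h' => hj (h' ▸ isAlgebraic_zero)
  have hjsub : ∀ a : K, j - algebraMap K F a ≠ 0 := fun a h' =>
    hj (by rw [sub_eq_zero.mp h']; exact isAlgebraic_algebraMap _)
  have hU : v.ord (h ^ 3) = 0 := by rw [ord_pow_nat, hh0, mul_zero]
  by_cases hc243 : c = -243
  · -- over `j = 0`
    have hid : j * h ^ 3 = (h - algebraMap K F c) ^ 3 * (h - algebraMap K F (-27)) := by
      rw [hrel, hc243, map_neg, map_ofNat, map_neg, map_ofNat]; ring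
    have hmem : h - algebraMap K F (-27) ∈ v.toValuationSubring :=
      sub_mem hhmem (v.algebraMap_mem' _)
    have h3 := le_ord_of_mul_eq v 3 hjne (pow_ne_zero 3 hhne) hU hhc hmem hid
    have hjpos : v ∈ PlacesAt K j 0 := by
      show 0 < v.ord (j - algebraMap K F 0)
      rw [map_zero, sub_zero]
      push_cast at h3
      omega
    have h4 := h0 v hjpos
    push_cast at h3
    omega
  by_cases hq : c ^ 2 - 486 * c - 19683 = 0
  · -- over `j = 1728`
    have hqF : algebraMap K F c ^ 2 - 486 * algebraMap K F c - 19683 = 0 := by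
      have h1 := congrArg (algebraMap K F) hq
      simpa only [map_sub, map_mul, map_pow, map_ofNat, map_zero] using h1
    have hid : (j - algebraMap K F 1728) * h ^ 3
        = (h - algebraMap K F c) ^ 2 * (h + algebraMap K F (c - 486)) ^ 2 := by
      simp only [map_sub, map_ofNat]
      linear_combination hrel + (2 * (h ^ 2 - 486 * h - 19683)
        - (algebraMap K F c ^ 2 - 486 * algebraMap K F c - 19683)) * hqF
    have hmem : (h + algebraMap K F (c - 486)) ^ 2 ∈ v.toValuationSubring :=
      pow_mem (add_mem hhmem (v.algebraMap_mem' _)) 2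
    have h3 := le_ord_of_mul_eq v 2 (hjsub 1728) (pow_ne_zero 3 hhne) hU hhc hmem hid
    have hjpos : v ∈ PlacesAt K j 1728 := by
      show 0 < v.ord (j - algebraMap K F 1728)
      push_cast at h3
      omega
    have h4 := h1728 v hjpos
    push_cast at h3
    omega
  -- generic
  set j₀ : K := (c + 27) * (c + 243) ^ 3 / c ^ 3 with hj₀
  have hj₀c : j₀ * c ^ 3 = (c + 27) * (c + 243) ^ 3 := by
    rw [hj₀, div_mul_cancel₀ _ (pow_ne_zero 3 hc0)]
  have hj₀0 : j₀ ≠ 0 := by
    intro h'
    rw [h', zero_mul] at hj₀c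
    rcases mul_eq_zero.mp hj₀c.symm with h1 | h1
    · exact hc (by linear_combination h1)
    · have h2 : c + 243 = 0 := (pow_eq_zero_iff (by norm_num)).mp h1
      exact hc243 (by linear_combination h2)
  have hj₀1 : j₀ ≠ 1728 := by
    intro h'
    rw [h'] at hj₀c
    have h1 : (c ^ 2 - 486 * c - 19683) ^ 2 = 0 := by linear_combination -hj₀c
    exact hq ((pow_eq_zero_iff (by norm_num)).mp h1)
  have hj₀F : algebraMap K F j₀ * algebraMap K F c ^ 3
      = (algebraMap K F c + 27) * (algebraMap K F c + 243) ^ 3 := by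
    rw [← map_pow, ← map_mul, hj₀c, map_mul, map_pow, map_add, map_add, map_ofNat, map_ofNat]
  have hid : (j - algebraMap K F j₀) * (h ^ 3 * algebraMap K F (c ^ 3))
      = (h - algebraMap K F c) ^ 1 * (algebraMap K F (c ^ 3) * h ^ 3
        - algebraMap K F (196830 * c ^ 2 + 19131876 * c + 387420489) * h ^ 2
        - algebraMap K F (19131876 * c ^ 2 + 387420489 * c) * h
        - algebraMap K F (387420489 * c ^ 2)) := by
    simp only [map_mul, map_add, map_pow, map_ofNat]
    linear_combination (algebraMap K F c ^ 3) * hrel - h ^ 3 * hj₀F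
  have hUc : v.ord (h ^ 3 * algebraMap K F (c ^ 3)) = 0 := by
    rw [v.ord_mul (pow_ne_zero 3 hhne) (by rw [Ne, map_eq_zero]; exact pow_ne_zero 3 hc0), hU,
      Places.ord_algebraMap, add_zero]
  have hmem : algebraMap K F (c ^ 3) * h ^ 3
        - algebraMap K F (196830 * c ^ 2 + 19131876 * c + 387420489) * h ^ 2
        - algebraMap K F (19131876 * c ^ 2 + 387420489 * c) * h
        - algebraMap K F (387420489 * c ^ 2) ∈ v.toValuationSubring :=
    sub_mem (sub_mem (sub_mem (mul_mem (v.algebraMap_mem' _) (pow_mem hhmem 3))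
      (mul_mem (v.algebraMap_mem' _) (pow_mem hhmem 2)))
      (mul_mem (v.algebraMap_mem' _) hhmem)) (v.algebraMap_mem' _)
  have h3 := le_ord_of_mul_eq v 1 (hjsub j₀)
    (mul_ne_zero (pow_ne_zero 3 hhne) (by rw [Ne, map_eq_zero]; exact pow_ne_zero 3 hc0))
    hUc hhc hmem hid
  have hjpos : v ∈ PlacesAt K j j₀ := by
    show 0 < v.ord (j - algebraMap K F j₀)
    push_cast at h3
    omega
  have h4 := hgen j₀ hj₀0 hj₀1 v hjpos
  push_cast at h3
  omega

/-- a function related to a generator by a relation forcing transcendence is a generator;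
if all places over `c` are unramified, their number is the degree. -/
theorem natCard_placesAt_of_ord_eq_one {h : F} (hh : IsGenerator K h) (c : K)
    (hord : ∀ v ∈ PlacesAt K h c, v.ord (h - algebraMap K F c) = 1) :
    Nat.card (PlacesAt K h c) = Module.finrank (IntermediateField.adjoin K {h}) F := by
  classical
  have hsum := Places.sum_ord_placesAt hh c
  rw [natCard_placesAt hh c]
  have h1 : ∑ v ∈ (Places.finite_placesAt hh c).toFinset, v.ord (h - algebraMap K F c)
      = ∑ v ∈ (Places.finite_placesAt hh c).toFinset, (1 : ℤ) :=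
    Finset.sum_congr rfl fun v hv => hord v ((Set.Finite.mem_toFinset _).mp hv)
  rw [h1, Finset.sum_const, nsmul_eq_mul, mul_one] at hsum
  exact_mod_cast hsum

theorem transcendental_of_rel_two {j h : F} (hj : Transcendental K j)
    (hrel : j * h ^ 2 = (h + 256) ^ 3) : Transcendental K h := by
  have hcharF : CharZero F := charZero_of_injective_algebraMap (algebraMap K F).injective
  intro halg
  obtain ⟨a, rfl⟩ := Places.exists_algebraMap_eq_of_isAlgebraic halg
  have ha : a ≠ 0 := by
    rintro rfl
    rw [map_zero] at hrel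
    norm_num at hrel
  apply hj
  have h1 : j = algebraMap K F ((a + 256) ^ 3 / a ^ 2) := by
    rw [map_div₀, map_pow, map_pow, map_add, map_ofNat, eq_div_iff (pow_ne_zero 2
      ((map_ne_zero _).mpr ha))]
    exact hrel
  rw [h1]
  exact isAlgebraic_algebraMap _

theorem transcendental_of_rel_three {j h : F} (hj : Transcendental K j)
    (hrel : j * h ^ 3 = (h + 27) * (h + 243) ^ 3) : Transcendental K h := by
  have hcharF : CharZero F := charZero_of_injective_algebraMap (algebraMap K F).injective
  intro halg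
  obtain ⟨a, rfl⟩ := Places.exists_algebraMap_eq_of_isAlgebraic halg
  have ha : a ≠ 0 := by
    rintro rfl
    rw [map_zero] at hrel
    norm_num at hrel
  apply hj
  have h1 : j = algebraMap K F ((a + 27) * (a + 243) ^ 3 / a ^ 3) := by
    rw [map_div₀, map_mul, map_pow, map_pow, map_add, map_add, map_ofNat, map_ofNat,
      eq_div_iff (pow_ne_zero 3 ((map_ne_zero _).mpr ha))]
    exact hrel
  rw [h1]
  exact isAlgebraic_algebraMap _

/-- abstract (I2) for `h₂`. -/
theorem natCard_placesAt_of_rel_two {j h : F} (hj : IsGenerator K j)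
    (hrel : j * h ^ 2 = (h + 256) ^ 3)
    (hgen : ∀ j₀ : K, j₀ ≠ 0 → j₀ ≠ 1728 → ∀ v ∈ PlacesAt K j j₀,
      v.ord (j - algebraMap K F j₀) = 1)
    (h0 : ∀ v ∈ PlacesAt K j 0, v.ord j ≤ 3)
    (h1728 : ∀ v ∈ PlacesAt K j 1728, v.ord (j - algebraMap K F 1728) ≤ 2) :
    IsGenerator K h ∧ ∀ c : K, c ≠ 0 → c ≠ -64 →
      Nat.card (PlacesAt K h c) = Module.finrank (IntermediateField.adjoin K {h}) F := by
  have hh : IsGenerator K h :=
    Places.isGenerator_of_transcendental hj (transcendental_of_rel_two hj.1 hrel)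
  exact ⟨hh, fun c hc0 hc => natCard_placesAt_of_ord_eq_one hh c fun v hv =>
    ord_eq_one_of_rel_two hj.1 hrel hgen h0 h1728 c hc0 hc v hv⟩

/-- abstract (I2) for `h₃`. -/
theorem natCard_placesAt_of_rel_three {j h : F} (hj : IsGenerator K j)
    (hrel : j * h ^ 3 = (h + 27) * (h + 243) ^ 3)
    (hgen : ∀ j₀ : K, j₀ ≠ 0 → j₀ ≠ 1728 → ∀ v ∈ PlacesAt K j j₀,
      v.ord (j - algebraMap K F j₀) = 1)
    (h0 : ∀ v ∈ PlacesAt K j 0, v.ord j ≤ 3)
    (h1728 : ∀ v ∈ PlacesAt K j 1728, v.ord (j - algebraMap K F 1728) ≤ 2) :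
    IsGenerator K h ∧ ∀ c : K, c ≠ 0 → c ≠ -27 →
      Nat.card (PlacesAt K h c) = Module.finrank (IntermediateField.adjoin K {h}) F := by
  have hh : IsGenerator K h :=
    Places.isGenerator_of_transcendental hj (transcendental_of_rel_three hj.1 hrel)
  exact ⟨hh, fun c hc0 hc => natCard_placesAt_of_ord_eq_one hh c fun v hv =>
    ord_eq_one_of_rel_three hj.1 hrel hgen h0 h1728 c hc0 hc v hv⟩

end Abstract

section Modular

open scoped MatrixGroups

variable (K : Type) [Field K] [Algebra K ℂ] [Algebra ℚ K] [IsAlgClosed K] (N : ℕ) [NeZero N]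

/-- on `X₀(N)`, the order of `j` at a place over `j = 0` is at most `3`. -/
theorem ord_jGen_le_three (v : Place K (Tower.FuncField K N))
    (hv : v ∈ PlacesAt K (Tower.jGen K N) 0) : v.ord (Tower.jGen K N) ≤ 3 := by
  have : CharZero K := algebraRat.charZero K
  obtain ⟨L, iF, iA, iA', iST, iMSA, iSCC, hx, hxfix, hfix, hker, hH, hgen, h1728, h0, hinf, hT⟩ :=
    Tower.exists_modular_tower K N
  obtain ⟨w, hw, -⟩ := h0
  have h := ord_le_of_intVal (Tower.jGen K N) hx hfix hxfix hker 0 w 3 (by norm_num)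
    (by rw [map_zero, sub_zero, hw]; simp) v hv
  rw [map_zero, sub_zero] at h
  exact_mod_cast h

/-- on `X₀(N)`, the order of `j - 1728` at a place over `j = 1728` is at most `2`. -/
theorem ord_jGen_sub_le_two (v : Place K (Tower.FuncField K N))
    (hv : v ∈ PlacesAt K (Tower.jGen K N) 1728) :
    v.ord (Tower.jGen K N - algebraMap K (Tower.FuncField K N) 1728) ≤ 2 := by
  have : CharZero K := algebraRat.charZero K
  obtain ⟨L, iF, iA, iA', iST, iMSA, iSCC, hx, hxfix, hfix, hker, hH, hgen, h1728, h0, hinf, hT⟩ :=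
    Tower.exists_modular_tower K N
  obtain ⟨w, hw, -⟩ := h1728
  have h := ord_le_of_intVal (Tower.jGen K N) hx hfix hxfix hker 1728 w 2 (by norm_num)
    (by rw [hw]; simp) v hv
  exact_mod_cast h

/-- **(I2) for `h₂`**: a function `h` on `X₀(N)` with `j h² = (h + 256)³` is a generator,
unramified over every `c ∉ {0, -64}`. -/
theorem natCard_placesAt_h2 (h : Tower.FuncField K N)
    (hrel : Tower.jGen K N * h ^ 2 = (h + 256) ^ 3) :
    IsGenerator K h ∧ ∀ c : K, c ≠ 0 → c ≠ -64 →
      Nat.card (PlacesAt K h c)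
        = Module.finrank (IntermediateField.adjoin K {h}) (Tower.FuncField K N) := by
  have : CharZero K := algebraRat.charZero K
  obtain ⟨hx, hμ, hgen, -⟩ := modular_counts K N
  refine natCard_placesAt_of_rel_two hx hrel (fun j₀ h0 h1 v hv => ?_)
    (ord_jGen_le_three K N) (ord_jGen_sub_le_two K N)
  exact ord_eq_one_of_card hx j₀ ((hgen j₀ h0 h1).trans hμ.symm) v hv

/-- **(I2) for `h₃`**: a function `h` on `X₀(N)` with `j h³ = (h + 27) (h + 243)³` is a
generator, unramified over every `c ∉ {0, -27}`. -/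
theorem natCard_placesAt_h3 (h : Tower.FuncField K N)
    (hrel : Tower.jGen K N * h ^ 3 = (h + 27) * (h + 243) ^ 3) :
    IsGenerator K h ∧ ∀ c : K, c ≠ 0 → c ≠ -27 →
      Nat.card (PlacesAt K h c)
        = Module.finrank (IntermediateField.adjoin K {h}) (Tower.FuncField K N) := by
  have : CharZero K := algebraRat.charZero K
  obtain ⟨hx, hμ, hgen, -⟩ := modular_counts K N
  refine natCard_placesAt_of_rel_three hx hrel (fun j₀ h0 h1 v hv => ?_)
    (ord_jGen_le_three K N) (ord_jGen_sub_le_two K N)
  exact ord_eq_one_of_card hx j₀ ((hgen j₀ h0 h1).trans hμ.symm) v hv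

end Modular

end Fermat.Agent.S18.H2
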