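import Mathlib
import Fermat.Prelude.Def_ModularCurve_X0ModL

/-!
# S28: coefficient rings for `q`-expansions

* `Rl l`: the ring of `l`-integral algebraic numbers in `ℂ`
  (`z` with `m * z` integral over `ℤ` for some `m` prime to `l`).  It contains all roots of unity
  and the inverses of the integers prime to `l`; `l` is not a unit in it.
* `lam l`, `kap l`, `red l`: a maximal ideal of `Rl l` containing `l`, its residue field
  (of characteristic `l`) and the reduction map.
* `IntS R`: Laurent series with coefficients in a subring `R`; lifting `liftS`.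
* `coeff_mem_of_aeval_jq`: a polynomial `p` with `p (j (q ^ N))` having coefficients in `R` has
  coefficients in `R`.
-/

set_option autoImplicit false

noncomputable section

open ModularCurve Polynomial

namespace Fermat.Agent.S28.Coeff

/-! ### C1: the coefficient ring -/

section Ring

variable (l : ℕ) [hl : Fact l.Prime]

/-- The ring of `l`-integral algebraic numbers. -/
def Rl : Subring ℂ where
  carrier := {z | ∃ m : ℕ, ¬ l ∣ m ∧ IsIntegral ℤ ((m : ℂ) * z)}
  mul_mem' := by
    rintro a b ⟨m, hm, ha⟩ ⟨m', hm', hb⟩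
    refine ⟨m * m', ?_, ?_⟩
    · rw [hl.out.dvd_mul]
      tauto
    · have := ha.mul hb
      have e : ((m * m' : ℕ) : ℂ) * (a * b) = (m : ℂ) * a * ((m' : ℂ) * b) := by
        push_cast; ring
      rw [e]
      exact this
  one_mem' := ⟨1, by simpa using hl.out.one_lt.ne', by simpa using isIntegral_one⟩
  add_mem' := by
    rintro a b ⟨m, hm, ha⟩ ⟨m', hm', hb⟩
    refine ⟨m * m', ?_, ?_⟩
    · rw [hl.out.dvd_mul]
      tauto
    · have e : ((m * m' : ℕ) : ℂ) * (a + b)
          = (m' : ℂ) * ((m : ℂ) * a) + (m : ℂ) * ((m' : ℂ) * b) := by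
        push_cast; ring
      rw [e]
      have i1 : IsIntegral ℤ ((m' : ℂ)) := by
        have := isIntegral_algebraMap (R := ℤ) (A := ℂ) (x := (m' : ℤ))
        simpa using this
      have i2 : IsIntegral ℤ ((m : ℂ)) := by
        have := isIntegral_algebraMap (R := ℤ) (A := ℂ) (x := (m : ℤ))
        simpa using this
      exact (i1.mul ha).add (i2.mul hb)
  zero_mem' := ⟨1, by simpa using hl.out.one_lt.ne', by simpa using isIntegral_zero⟩
  neg_mem' := by
    rintro a ⟨m, hm, ha⟩
    exact ⟨m, hm, by rw [mul_neg]; exact ha.neg⟩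

variable {l}

theorem mem_Rl {z : ℂ} : z ∈ Rl l ↔ ∃ m : ℕ, ¬ l ∣ m ∧ IsIntegral ℤ ((m : ℂ) * z) := Iff.rfl

theorem mem_Rl_of_isIntegral {z : ℂ} (hz : IsIntegral ℤ z) : z ∈ Rl l :=
  ⟨1, by simpa using hl.out.one_lt.ne', by simpa using hz⟩

theorem natCast_inv_mem {m : ℕ} (hm : ¬ l ∣ m) : ((m : ℂ))⁻¹ ∈ Rl l := by
  have hm0 : (m : ℂ) ≠ 0 := by
    rw [Nat.cast_ne_zero]
    rintro rfl
    exact hm (dvd_zero l)
  exact ⟨m, hm, by rw [mul_inv_cancel₀ hm0]; exact isIntegral_one⟩

theorem mem_Rl_of_pow_eq_one {z : ℂ} {n : ℕ} (hn : n ≠ 0) (hz : z ^ n = 1) : z ∈ Rl l :=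
  mem_Rl_of_isIntegral (IsIntegral.of_pow (Nat.pos_of_ne_zero hn) (by rw [hz]; exact isIntegral_one))

theorem exp_mem (b d : ℕ) (hd : d ≠ 0) :
    Complex.exp (2 * Real.pi * Complex.I * b / d) ∈ Rl l := by
  refine mem_Rl_of_pow_eq_one hd ?_
  rw [← Complex.exp_nat_mul, Complex.exp_eq_one_iff]
  refine ⟨b, ?_⟩
  have : (d : ℂ) ≠ 0 := Nat.cast_ne_zero.mpr hd
  push_cast
  field_simp

/-- rational numbers in `Rl l` have denominator prime to `l`. -/
theorem ratCast_mem_iff (r : ℚ) : (r : ℂ) ∈ Rl l ↔ r.den.Coprime l := by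
  constructor
  · rintro ⟨m, hm, h⟩
    have h1 : IsIntegral ℤ ((m : ℚ) * r) := by
      have e : (algebraMap ℚ ℂ) ((m : ℚ) * r) = (m : ℂ) * (r : ℂ) := by simp
      rw [← e] at h
      exact (isIntegral_algebraMap_iff (algebraMap ℚ ℂ).injective).mp h
    obtain ⟨y, hy⟩ := IsIntegrallyClosed.isIntegral_iff.mp h1
    rw [Nat.coprime_comm, hl.out.coprime_iff_not_dvd]
    intro hdvd
    -- `m * r = y`, so `r.den ∣ m`
    have h2 : r = (y : ℚ) / (m : ℚ) := by
      have hm0 : (m : ℚ) ≠ 0 := by
        rw [Nat.cast_ne_zero]; rintro rfl; exact hm (dvd_zero l)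
      rw [eq_div_iff hm0, mul_comm]
      simpa using hy.symm
    have h2' : r = Rat.divInt y (m : ℤ) := by
      rw [Rat.divInt_eq_div]; exact_mod_cast h2
    have h3 : (r.den : ℤ) ∣ (m : ℤ) := by
      rw [h2']
      exact Rat.den_dvd y m
    exact hm ((Int.natCast_dvd_natCast.mp ((Int.natCast_dvd_natCast.mpr hdvd).trans h3)))
  · intro h
    refine ⟨r.den, ?_, ?_⟩
    · rw [← hl.out.coprime_iff_not_dvd, Nat.coprime_comm]
      exact h
    · have e : ((r.den : ℂ)) * (r : ℂ) = algebraMap ℤ ℂ r.num := by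
        have := Rat.den_mul_eq_num r
        have h' : (((r.den : ℚ) * r : ℚ) : ℂ) = ((r.num : ℚ) : ℂ) := by rw [this]
        push_cast at h'
        rw [h']
        simp
      rw [e]
      exact isIntegral_algebraMap

theorem natCast_inv_not_mem : ((l : ℂ))⁻¹ ∉ Rl l := by
  intro h
  have e : ((l : ℂ))⁻¹ = (((l : ℚ)⁻¹ : ℚ) : ℂ) := by simp
  rw [e, ratCast_mem_iff] at h
  have hden : ((l : ℚ)⁻¹).den = l := by
    have := Rat.inv_natCast_den l
    rw [this, if_neg hl.out.ne_zero]
  rw [hden, Nat.coprime_self] at h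
  exact hl.out.one_lt.ne' h

theorem natCast_not_isUnit : ¬ IsUnit ((l : ℕ) : Rl l) := by
  intro h
  obtain ⟨u, hu⟩ := h
  have h1 : ((u⁻¹ : (Rl l)ˣ) : Rl l) * (l : Rl l) = 1 := by
    rw [← hu]; exact u.inv_mul
  have h2 : (((u⁻¹ : (Rl l)ˣ) : Rl l) : ℂ) * (l : ℂ) = 1 := by
    have := congrArg (Subtype.val) h1
    simpa using this
  have hl0 : (l : ℂ) ≠ 0 := Nat.cast_ne_zero.mpr hl.out.ne_zero
  have h3 : (((u⁻¹ : (Rl l)ˣ) : Rl l) : ℂ) = (l : ℂ)⁻¹ := by
    exact eq_inv_of_mul_eq_one_left h2
  exact natCast_inv_not_mem (l := l) (h3 ▸ ((u⁻¹ : (Rl l)ˣ) : Rl l).2)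

variable (l)

theorem exists_maximal : ∃ I : Ideal (Rl l), I.IsMaximal ∧ ((l : ℕ) : Rl l) ∈ I := by
  have hne : Ideal.span {((l : ℕ) : Rl l)} ≠ ⊤ := by
    rw [Ne, Ideal.span_singleton_eq_top]
    exact natCast_not_isUnit
  obtain ⟨I, hI, hle⟩ := Ideal.exists_le_maximal _ hne
  exact ⟨I, hI, hle (Ideal.mem_span_singleton_self _)⟩

/-- a maximal ideal of `Rl l` containing `l`. -/
def lam : Ideal (Rl l) := (exists_maximal l).choose

instance lam_isMaximal : (lam l).IsMaximal := (exists_maximal l).choose_spec.1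

theorem natCast_mem_lam : ((l : ℕ) : Rl l) ∈ lam l := (exists_maximal l).choose_spec.2

/-- the residue field. -/
abbrev kap : Type := Rl l ⧸ lam l

instance kap_field : Field (kap l) := Ideal.Quotient.field (lam l)

/-- the reduction map. -/
def red : Rl l →+* kap l := Ideal.Quotient.mk (lam l)

theorem red_surjective : Function.Surjective (red l) := Ideal.Quotient.mk_surjective

theorem red_natCast : red l ((l : ℕ) : Rl l) = 0 :=
  Ideal.Quotient.eq_zero_iff_mem.mpr (natCast_mem_lam l)

instance kap_charP : CharP (kap l) l := by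
  have h : ((l : ℕ) : kap l) = 0 := by
    have := red_natCast l
    rwa [map_natCast] at this
  exact (CharP.charP_iff_prime_eq_zero hl.out).mpr h

instance kap_algebra : Algebra (ZMod l) (kap l) := ZMod.algebra (kap l) l

variable {l}

theorem red_ne_zero_of_isUnit {x : Rl l} (hx : IsUnit x) : red l x ≠ 0 :=
  (hx.map (red l)).ne_zero

theorem isUnit_of_pow_eq_one {x : Rl l} {n : ℕ} (hn : n ≠ 0) (hx : x ^ n = 1) : IsUnit x :=
  IsUnit.of_pow_eq_one hx hn

/-- the inverse of an integer prime to `l`, as a unit of `Rl l`. -/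
theorem isUnit_natCast {m : ℕ} (hm : ¬ l ∣ m) : IsUnit ((m : ℕ) : Rl l) := by
  have hm0 : (m : ℂ) ≠ 0 := by
    rw [Nat.cast_ne_zero]
    rintro rfl
    exact hm (dvd_zero l)
  refine IsUnit.of_mul_eq_one (⟨((m : ℂ))⁻¹, natCast_inv_mem hm⟩ : Rl l) ?_
  apply Subtype.ext
  simp [hm0]

end Ring

/-! ### C2: Laurent series with coefficients in a subring -/

section Series

variable {K : Type*} [CommRing K] (R : Subring K)

/-- Laurent series all of whose coefficients lie in `R`. -/
def IntS : Subring (LaurentSeries K) := (coeffMap R.subtype).range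

theorem coeffMap_subtype_injective : Function.Injective (coeffMap R.subtype) := by
  intro x y h
  ext k
  have := congrArg (fun s : LaurentSeries K => s.coeff k) h
  simpa using this

/-- the lift of a Laurent series with coefficients in `R` to a Laurent series over `R`. -/
def liftS (s : LaurentSeries K) (h : ∀ k, s.coeff k ∈ R) : LaurentSeries R where
  coeff k := ⟨s.coeff k, h k⟩
  isPWO_support' := by
    have e : Function.support (fun k => (⟨s.coeff k, h k⟩ : R)) = s.support := by
      ext k
      simp [Subtype.ext_iff]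
    rw [e]
    exact s.isPWO_support

@[simp]
theorem liftS_coeff (s : LaurentSeries K) (h : ∀ k, s.coeff k ∈ R) (k : ℤ) :
    ((liftS R s h).coeff k : K) = s.coeff k := rfl

@[simp]
theorem coeffMap_liftS (s : LaurentSeries K) (h : ∀ k, s.coeff k ∈ R) :
    coeffMap R.subtype (liftS R s h) = s := by
  ext k
  rfl

variable {R}

theorem mem_IntS {s : LaurentSeries K} : s ∈ IntS R ↔ ∀ k, s.coeff k ∈ R := by
  constructor
  · rintro ⟨t, rfl⟩ k
    rw [coeffMap_coeff]
    exact (t.coeff k).2
  · intro h
    exact ⟨liftS R s h, coeffMap_liftS R s h⟩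

theorem coeffMap_mem_IntS (t : LaurentSeries R) : coeffMap R.subtype t ∈ IntS R := ⟨t, rfl⟩

theorem qExpand_mem_IntS (N : ℕ) [NeZero N] {s : LaurentSeries K} (h : s ∈ IntS R) :
    qExpand K N s ∈ IntS R := by
  obtain ⟨t, rfl⟩ := h
  exact ⟨qExpand R N t, coeffMap_qExpand _ _ _⟩

theorem single_mem_IntS (k : ℤ) {c : K} (hc : c ∈ R) : HahnSeries.single k c ∈ IntS R := by
  rw [mem_IntS]
  intro i
  rw [HahnSeries.coeff_single]
  split_ifs
  · exact hc
  · exact zero_mem R

theorem C_mem_IntS {c : K} (hc : c ∈ R) : (HahnSeries.C c : LaurentSeries K) ∈ IntS R :=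
  single_mem_IntS 0 hc

theorem coeffMap_intCast_mem_IntS (t : LaurentSeries ℤ) :
    coeffMap (Int.castRingHom K) t ∈ IntS R := by
  rw [mem_IntS]
  intro k
  rw [coeffMap_coeff]
  exact intCast_mem R _

theorem jqModC_mem_IntS : jqModC K ∈ IntS R := by
  rw [← coeffMap_jqModC (Int.castRingHom K)]
  exact coeffMap_intCast_mem_IntS _

theorem liftS_coeffMap (t : LaurentSeries R) (h : ∀ k, (coeffMap R.subtype t).coeff k ∈ R) :
    liftS R (coeffMap R.subtype t) h = t :=
  coeffMap_subtype_injective R (coeffMap_liftS R _ h)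

variable (R)

/-- Laurent series over `R` are the Laurent series with coefficients in `R`. -/
def liftEquiv : LaurentSeries R ≃+* IntS R :=
  RingEquiv.ofBijective (coeffMap R.subtype).rangeRestrict
    ⟨fun _ _ h => coeffMap_subtype_injective R (congrArg Subtype.val h),
      RingHom.rangeRestrict_surjective _⟩

/-- the lift as a ring homomorphism. -/
def liftHom : IntS R →+* LaurentSeries R := (liftEquiv R).symm.toRingHom

@[simp]
theorem coeffMap_liftHom (s : IntS R) : coeffMap R.subtype (liftHom R s) = s := by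
  have h := (liftEquiv R).apply_symm_apply s
  exact congrArg Subtype.val h

@[simp]
theorem liftHom_coeffMap (t : LaurentSeries R) :
    liftHom R ⟨coeffMap R.subtype t, coeffMap_mem_IntS t⟩ = t :=
  coeffMap_subtype_injective R (coeffMap_liftHom R _)

theorem liftHom_eq_liftS (s : IntS R) :
    liftHom R s = liftS R (s : LaurentSeries K) (mem_IntS.mp s.2) :=
  coeffMap_subtype_injective R (by rw [coeffMap_liftHom, coeffMap_liftS])

theorem liftHom_coeff (s : IntS R) (k : ℤ) :
    ((liftHom R s).coeff k : K) = (s : LaurentSeries K).coeff k := by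
  rw [liftHom_eq_liftS]
  rfl

theorem liftHom_injective : Function.Injective (liftHom R) := (liftEquiv R).symm.injective

/-- reduction of Laurent series with coefficients in `R` along a ring homomorphism out of `R`. -/
def redS {κ : Type*} [CommRing κ] (f : R →+* κ) : IntS R →+* LaurentSeries κ :=
  (coeffMap f).comp (liftHom R)

theorem redS_apply {κ : Type*} [CommRing κ] (f : R →+* κ) (s : IntS R) :
    redS R f s = coeffMap f (liftHom R s) := rfl

theorem redS_coeff {κ : Type*} [CommRing κ] (f : R →+* κ) (s : IntS R) (k : ℤ) :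
    (redS R f s).coeff k = f ⟨(s : LaurentSeries K).coeff k, mem_IntS.mp s.2 k⟩ := by
  rw [redS_apply, coeffMap_coeff]
  congr 1
  exact Subtype.ext (liftHom_coeff R s k)

theorem redS_coeffMap {κ : Type*} [CommRing κ] (f : R →+* κ) (t : LaurentSeries R) :
    redS R f ⟨coeffMap R.subtype t, coeffMap_mem_IntS t⟩ = coeffMap f t := by
  rw [redS_apply, liftHom_coeffMap]

/-- the reduction of a series with integer coefficients. -/
theorem redS_intCast {κ : Type*} [CommRing κ] (f : R →+* κ) (u : LaurentSeries ℤ) :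
    redS R f ⟨coeffMap (Int.castRingHom K) u, coeffMap_intCast_mem_IntS u⟩
      = coeffMap (Int.castRingHom κ) u := by
  have e : coeffMap (Int.castRingHom K) u
      = coeffMap R.subtype (coeffMap (Int.castRingHom R) u) := by
    rw [coeffMap_coeffMap]
    exact coeffMap_congr (RingHom.ext_int _ _) u
  have e2 : (⟨coeffMap (Int.castRingHom K) u, coeffMap_intCast_mem_IntS u⟩ : IntS R)
      = ⟨coeffMap R.subtype (coeffMap (Int.castRingHom R) u), coeffMap_mem_IntS _⟩ :=
    Subtype.ext e
  rw [e2, redS_coeffMap, coeffMap_coeffMap]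
  exact coeffMap_congr (RingHom.ext_int _ _) u

end Series

/-! ### reduction of leading terms -/

section Lead

variable {A κ : Type*} [CommRing A] [CommRing κ] (f : A →+* κ)

theorem coeffMap_ne_zero_of_coeff {s : LaurentSeries A} {k : ℤ} (hk : f (s.coeff k) ≠ 0) :
    coeffMap f s ≠ 0 := by
  intro h
  apply hk
  have := congrArg (fun t : LaurentSeries κ => t.coeff k) h
  simpa using this

/-- if `s = c q ^ k + higher terms` and `f c ≠ 0`, the reduction of `s` has order `k`. -/
theorem order_coeffMap_eq {s : LaurentSeries A} {k : ℤ} (hlt : ∀ i < k, s.coeff i = 0)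
    (hk : f (s.coeff k) ≠ 0) : (coeffMap f s).order = k := by
  have hne := coeffMap_ne_zero_of_coeff f hk
  apply le_antisymm
  · exact HahnSeries.order_le_of_coeff_ne_zero (by rw [coeffMap_coeff]; exact hk)
  · by_contra hcon
    push Not at hcon
    have h1 : (coeffMap f s).coeff (coeffMap f s).order ≠ 0 := fun h0 =>
      hne (HahnSeries.coeff_order_eq_zero.mp h0)
    rw [coeffMap_coeff, hlt _ hcon, map_zero] at h1
    exact h1 rfl

/-- the order of the reduction is at least the order bound of the series. -/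
theorem le_order_coeffMap {s : LaurentSeries A} {k : ℤ} (hlt : ∀ i < k, s.coeff i = 0)
    (hne : coeffMap f s ≠ 0) : k ≤ (coeffMap f s).order := by
  by_contra hcon
  push Not at hcon
  have h1 : (coeffMap f s).coeff (coeffMap f s).order ≠ 0 := fun h0 =>
    hne (HahnSeries.coeff_order_eq_zero.mp h0)
  rw [coeffMap_coeff, hlt _ hcon, map_zero] at h1
  exact h1 rfl

end Lead

/-! ### C3: polynomials in `j` with integral expansion are integral -/

section Poly

variable {K : Type*} [CommRing K] (R : Subring K) (N : ℕ) [NeZero N]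

theorem coeff_qExpand_jq_pow_self (m : ℕ) :
    ((qExpand K N (jqModC K)) ^ m).coeff (-((N : ℤ) * m)) = 1 := by
  rw [← map_pow, show -((N : ℤ) * m) = (N : ℤ) * (-(m : ℤ)) by ring, qExpand_coeff_mul,
    coeff_jqModC_pow_self]

theorem coeff_qExpand_jq_pow_of_lt {m : ℕ} {i : ℤ} (hi : i < -((N : ℤ) * m)) :
    ((qExpand K N (jqModC K)) ^ m).coeff i = 0 := by
  rw [← map_pow]
  by_cases hd : (N : ℤ) ∣ i
  · obtain ⟨k, rfl⟩ := hd
    rw [qExpand_coeff_mul]
    apply coeff_jqModC_pow_of_lt
    have hN : (0 : ℤ) < N := by exact_mod_cast Nat.pos_of_ne_zero (NeZero.ne N)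
    have : (N : ℤ) * k < (N : ℤ) * (-(m : ℤ)) := by linarith
    exact lt_of_mul_lt_mul_left this hN.le
  · exact qExpand_coeff_of_not_dvd N _ hd

omit [NeZero N] in
theorem algebraMap_eq_C (c : K) : algebraMap K (LaurentSeries K) c = HahnSeries.C c := by
  have h1 : algebraMap K (PowerSeries K) c = PowerSeries.C c := by
    simp
  rw [HahnSeries.algebraMap_apply', h1, HahnSeries.ofPowerSeries_C]

omit [NeZero N] in
theorem coeff_C_mul (c : K) (x : LaurentSeries K) (a : ℤ) :
    (HahnSeries.C c * x).coeff a = c * x.coeff a :=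
  HahnSeries.coeff_single_zero_mul

theorem qExpand_jq_pow_mem_IntS (m : ℕ) : (qExpand K N (jqModC K)) ^ m ∈ IntS R :=
  pow_mem (qExpand_mem_IntS N jqModC_mem_IntS) m

theorem coeff_mem_aux (m : ℕ) : ∀ p : K[X], (∀ i, m ≤ i → p.coeff i = 0) →
    aeval (qExpand K N (jqModC K)) p ∈ IntS R → ∀ i, p.coeff i ∈ R := by
  induction m with
  | zero =>
    intro p hp _ i
    rw [hp i (Nat.zero_le i)]
    exact zero_mem R
  | succ m ih =>
    intro p hp h
    set J := qExpand K N (jqModC K) with hJ
    have hdeg : p.natDegree < m + 1 := by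
      rw [Nat.lt_succ_iff, Polynomial.natDegree_le_iff_coeff_eq_zero]
      intro i hi
      exact hp i hi
    -- the top coefficient
    have htop : (aeval J p).coeff (-((N : ℤ) * m)) = p.coeff m := by
      rw [Polynomial.aeval_eq_sum_range' hdeg]
      simp only [Algebra.smul_def, algebraMap_eq_C]
      rw [HahnSeries.coeff_sum, Finset.sum_eq_single m]
      · rw [coeff_C_mul, coeff_qExpand_jq_pow_self, mul_one]
      · intro i hi hne
        rw [coeff_C_mul, coeff_qExpand_jq_pow_of_lt, mul_zero]
        have hN : (0 : ℤ) < N := by exact_mod_cast Nat.pos_of_ne_zero (NeZero.ne N)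
        have him : (i : ℤ) < m := by
          have := Finset.mem_range.mp hi
          exact_mod_cast lt_of_le_of_ne (Nat.lt_succ_iff.mp this) hne
        nlinarith
      · intro hm
        exact absurd (Finset.mem_range.mpr (Nat.lt_succ_self m)) hm
    have hpm : p.coeff m ∈ R := by
      rw [← htop]
      exact mem_IntS.mp h _
    -- remove the top term
    have hsplit : p = Polynomial.monomial m (p.coeff m) + p.erase m :=
      (Polynomial.monomial_add_erase p m).symm
    have herase : aeval J (p.erase m) ∈ IntS R := by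
      have e : aeval J (p.erase m) = aeval J p - HahnSeries.C (p.coeff m) * J ^ m := by
        have e2 : aeval J p = aeval J (Polynomial.monomial m (p.coeff m)) + aeval J (p.erase m) := by
          rw [← map_add, ← hsplit]
        rw [e2, Polynomial.aeval_monomial, algebraMap_eq_C]
        ring
      rw [e]
      exact sub_mem h (mul_mem (C_mem_IntS hpm) (qExpand_jq_pow_mem_IntS R N m))
    have hrec := ih (p.erase m) (by
      intro i hi
      rw [Polynomial.coeff_erase]
      split_ifs with h1
      · rfl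
      · exact hp i (Nat.succ_le_of_lt (lt_of_le_of_ne hi (Ne.symm h1)))) herase
    intro i
    by_cases him : i = m
    · rw [him]; exact hpm
    · have := hrec i
      rwa [Polynomial.coeff_erase, if_neg him] at this

/-- **Integrality of polynomials in `j`**: if `p (j (q ^ N))` has all its coefficients in the
subring `R`, then so does `p`. -/
theorem coeff_mem_of_aeval_jq (p : K[X])
    (h : aeval (qExpand K N (jqModC K)) p ∈ IntS R) (i : ℕ) : p.coeff i ∈ R :=
  coeff_mem_aux R N (p.natDegree + 1) p
    (fun _ hi => Polynomial.coeff_eq_zero_of_natDegree_lt (Nat.lt_of_succ_le hi)) h i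

/-- the same, producing a polynomial over `R`. -/
theorem exists_poly_of_aeval_jq (p : K[X])
    (h : aeval (qExpand K N (jqModC K)) p ∈ IntS R) :
    ∃ p' : R[X], p'.map R.subtype = p := by
  have hp : p ∈ Polynomial.lifts R.subtype := by
    rw [Polynomial.lifts_iff_coeff_lifts]
    intro i
    exact ⟨⟨p.coeff i, coeff_mem_of_aeval_jq R N p h i⟩, rfl⟩
  obtain ⟨p', hp'⟩ := hp
  exact ⟨p', hp'⟩

end Poly

/-! ### reduction of a factorisation with integral roots -/

section Transfer

/-- evaluation of a polynomial at `j (q ^ N)`, as a plain ring homomorphism. -/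
def evJ (A : Type*) [CommRing A] (N : ℕ) [NeZero N] : A[X] →+* LaurentSeries A :=
  Polynomial.eval₂RingHom (HahnSeries.C : A →+* LaurentSeries A) (qExpand A N (jqModC A))

theorem evJ_C (A : Type*) [CommRing A] (N : ℕ) [NeZero N] (a : A) :
    evJ A N (Polynomial.C a) = HahnSeries.C a := by
  simp [evJ]

theorem evJ_X (A : Type*) [CommRing A] (N : ℕ) [NeZero N] :
    evJ A N Polynomial.X = qExpand A N (jqModC A) := by
  simp [evJ]

theorem evJ_eq_aeval (A : Type*) [CommRing A] (N : ℕ) [NeZero N] (p : A[X]) :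
    evJ A N p = aeval (qExpand A N (jqModC A)) p := by
  have h : (evJ A N) = ((aeval (qExpand A N (jqModC A)) : A[X] →ₐ[A] LaurentSeries A) :
      A[X] →+* LaurentSeries A) := by
    apply Polynomial.ringHom_ext
    · intro a
      rw [evJ_C, RingHom.coe_coe, Polynomial.aeval_C, algebraMap_eq_C]
    · rw [evJ_X, RingHom.coe_coe, Polynomial.aeval_X]
  rw [h]
  rfl

theorem coeffMap_comp_evJ {A B : Type*} [CommRing A] [CommRing B] (f : A →+* B) (N : ℕ)
    [NeZero N] : (coeffMap f).comp (evJ A N) = (evJ B N).comp (Polynomial.mapRingHom f) := by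
  apply Polynomial.ringHom_ext
  · intro a
    rw [RingHom.comp_apply, RingHom.comp_apply, evJ_C, Polynomial.coe_mapRingHom,
      Polynomial.map_C, evJ_C]
    exact coeffMap_single f 0 a
  · rw [RingHom.comp_apply, RingHom.comp_apply, evJ_X, Polynomial.coe_mapRingHom,
      Polynomial.map_X, evJ_X, coeffMap_qExpand, coeffMap_jqModC]

theorem coeffMap_evJ {A B : Type*} [CommRing A] [CommRing B] (f : A →+* B) (N : ℕ)
    [NeZero N] (p : A[X]) : coeffMap f (evJ A N p) = evJ B N (p.map f) := by
  have := congrArg (fun g : A[X] →+* LaurentSeries B => g p) (coeffMap_comp_evJ f N)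
  simpa using this

variable {K : Type*} [CommRing K] (R : Subring K) (N : ℕ) [NeZero N]

/-- **Reduction of a split polynomial.**  Let `χ` be a polynomial in `Y` whose coefficients are
polynomials in `j`, and suppose that after substituting `j = j (q ^ N)` it splits as
`∏ (Y - U i)` with all `U i` having coefficients in the subring `R`.  Then `χ` is defined over
`R`, and the factorisation can be reduced along any ring homomorphism `f : R →+* κ`. -/
theorem exists_reduction {ι : Type*} [Fintype ι] {κ : Type*} [CommRing κ] (f : R →+* κ)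
    (χ : K[X][X]) (U : ι → LaurentSeries K) (hU : ∀ i, U i ∈ IntS R)
    (h : χ.map (evJ K N) = ∏ i, (Polynomial.X - Polynomial.C (U i))) :
    ∃ χ' : (↥R)[X][X], χ'.map (Polynomial.mapRingHom R.subtype) = χ ∧
      (χ'.map (Polynomial.mapRingHom f)).map (evJ κ N)
        = ∏ i, (Polynomial.X - Polynomial.C (redS R f ⟨U i, hU i⟩)) := by
  classical
  -- the coefficients of `χ` have integral expansions
  have hprod : ∏ i, (Polynomial.X - Polynomial.C (U i))
      = (∏ i, (Polynomial.X - Polynomial.C (⟨U i, hU i⟩ : IntS R))).map (IntS R).subtype := by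
    rw [Polynomial.map_prod]
    refine Finset.prod_congr rfl fun i _ => ?_
    rw [Polynomial.map_sub, Polynomial.map_X, Polynomial.map_C]
    rfl
  have hc : ∀ k, evJ K N (χ.coeff k) ∈ IntS R := by
    intro k
    rw [← Polynomial.coeff_map, h, hprod, Polynomial.coeff_map]
    exact Subtype.property _
  -- hence `χ` lifts to `R`
  have hlift : χ ∈ Polynomial.lifts (Polynomial.mapRingHom R.subtype) := by
    rw [Polynomial.lifts_iff_coeff_lifts]
    intro k
    have hk := hc k
    rw [evJ_eq_aeval] at hk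
    obtain ⟨c, hc'⟩ := exists_poly_of_aeval_jq R N (χ.coeff k) hk
    exact ⟨c, hc'⟩
  obtain ⟨χ', hχ'⟩ := hlift
  refine ⟨χ', hχ', ?_⟩
  -- the factorisation over `R`
  have hR : χ'.map (evJ (↥R) N)
      = ∏ i, (Polynomial.X - Polynomial.C (liftHom R ⟨U i, hU i⟩)) := by
    apply Polynomial.map_injective (coeffMap R.subtype) (coeffMap_subtype_injective R)
    rw [Polynomial.map_map, coeffMap_comp_evJ, ← Polynomial.map_map]
    rw [show Polynomial.map (Polynomial.mapRingHom R.subtype) χ' = χ from hχ', h,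
      Polynomial.map_prod]
    refine Finset.prod_congr rfl fun i _ => ?_
    rw [Polynomial.map_sub, Polynomial.map_X, Polynomial.map_C, coeffMap_liftHom]
  have h2 := congrArg (Polynomial.map (coeffMap f)) hR
  rw [Polynomial.map_map, coeffMap_comp_evJ, ← Polynomial.map_map, Polynomial.map_prod] at h2
  rw [h2]
  refine Finset.prod_congr rfl fun i _ => ?_
  rw [Polynomial.map_sub, Polynomial.map_X, Polynomial.map_C]
  rfl

end Transfer

end Fermat.Agent.S28.Coeff
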