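import Mathlib
import Fermat.Agent.S28_Coeff

/-!
# S28: the mod `l` linear independence `(MC)` from a split factorisation

* `eq_zero_of_factorization` (abstract irreducibility): over a field `κ`, if
  `χ (j (q ^ N), Y) = ∏ c, (Y - Ub c)` in `κ((q))[Y]` and all `Ub c`, `c ≠ c₀`, are nonzero of
  positive order, then `1, Ub c₀, …, Ub c₀ ^ (n - 1)` (`n` the number of roots) are linearly
  independent over `κ[j (q ^ N)]`.
* `hmc_of_factorization`: the same conclusion over `ZMod l` for an integer series `u`, from a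
  factorisation over `ℂ((q_N))` whose other roots are `l`-integral with unit leading coefficient
  and positive order.
-/

set_option autoImplicit false

noncomputable section

open ModularCurve Polynomial

namespace Fermat.Agent.S28.MC

open Fermat.Agent.S28.Coeff

section Top

variable {A : Type*} [CommRing A] (N : ℕ) [NeZero N]

/-- the lowest coefficient of `p (j (q ^ N))` is the leading coefficient of `p`. -/
theorem coeff_evJ_top (p : A[X]) :
    (evJ A N p).coeff (-((N : ℤ) * p.natDegree)) = p.leadingCoeff := by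
  rw [evJ_eq_aeval, Polynomial.aeval_eq_sum_range]
  simp only [Algebra.smul_def, algebraMap_eq_C]
  rw [HahnSeries.coeff_sum, Finset.sum_eq_single p.natDegree]
  · rw [Coeff.coeff_C_mul, coeff_qExpand_jq_pow_self, mul_one]
    rfl
  · intro i hi hne
    rw [Coeff.coeff_C_mul, coeff_qExpand_jq_pow_of_lt, mul_zero]
    have hN : (0 : ℤ) < N := by exact_mod_cast Nat.pos_of_ne_zero (NeZero.ne N)
    have him : (i : ℤ) < p.natDegree := by
      have := Finset.mem_range.mp hi
      exact_mod_cast lt_of_le_of_ne (Nat.lt_succ_iff.mp this) hne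
    nlinarith
  · intro hm
    exact absurd (Finset.mem_range.mpr (Nat.lt_succ_self _)) hm

theorem evJ_ne_zero {p : A[X]} (hp : p ≠ 0) : evJ A N p ≠ 0 := by
  intro h
  have := coeff_evJ_top N p
  rw [h, HahnSeries.coeff_zero] at this
  exact (Polynomial.leadingCoeff_ne_zero.mpr hp) this.symm

theorem evJ_injective : Function.Injective (evJ A N) := by
  rw [injective_iff_map_eq_zero]
  intro p hp
  by_contra h
  exact evJ_ne_zero N h hp

theorem order_evJ_le {p : A[X]} (hp : p ≠ 0) : (evJ A N p).order ≤ 0 := by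
  have h1 : (evJ A N p).coeff (-((N : ℤ) * p.natDegree)) ≠ 0 := by
    rw [coeff_evJ_top]
    exact Polynomial.leadingCoeff_ne_zero.mpr hp
  have h2 := HahnSeries.order_le_of_coeff_ne_zero h1
  have hN : (0 : ℤ) ≤ (N : ℤ) * p.natDegree := by positivity
  omega

end Top

section Abstract

variable {κ : Type*} [Field κ] (N : ℕ) [NeZero N]

theorem prod_pos_order (s : Multiset (LaurentSeries κ)) :
    (∀ r ∈ s, r ≠ 0 ∧ 0 < r.order) → s.prod ≠ 0 ∧ (Multiset.card s : ℤ) ≤ s.prod.order := by
  induction s using Multiset.induction_on with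
  | empty =>
    intro _
    refine ⟨by simp, ?_⟩
    simp [HahnSeries.order_one]
  | cons a s ih =>
    intro h
    obtain ⟨h1, h2⟩ := ih (fun r hr => h r (Multiset.mem_cons_of_mem hr))
    obtain ⟨ha, ha'⟩ := h a (Multiset.mem_cons_self a s)
    rw [Multiset.prod_cons, Multiset.card_cons]
    refine ⟨mul_ne_zero ha h1, ?_⟩
    rw [HahnSeries.order_mul ha h1]
    push_cast
    omega

/-- **Abstract irreducibility, in linear independence form.** -/
theorem eq_zero_of_factorization {ι : Type*} [Fintype ι] (c₀ : ι)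
    (χ : κ[X][X]) (Ub : ι → LaurentSeries κ)
    (hfac : χ.map (evJ κ N) = ∏ c, (X - C (Ub c)))
    (hpos : ∀ c, c ≠ c₀ → Ub c ≠ 0 ∧ 0 < (Ub c).order)
    {n : ℕ} (hn : Nat.card ι = n) (Q : Fin n → κ[X])
    (hQ : ∑ i, evJ κ N (Q i) * Ub c₀ ^ (i : ℕ) = 0) : ∀ i, Q i = 0 := by
  classical
  have hn' : Fintype.card ι = n := by rw [← hn, Nat.card_eq_fintype_card]
  subst hn'
  have hinj : Function.Injective (evJ κ N) := evJ_injective N
  let _ : Algebra κ[X] (LaurentSeries κ) := (evJ κ N).toAlgebra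
  have halg : algebraMap κ[X] (LaurentSeries κ) = evJ κ N := rfl
  have : Module.IsTorsionFree κ[X] (LaurentSeries κ) :=
    Module.isTorsionFree_iff_algebraMap_injective.mpr hinj
  have haeval : ∀ p : κ[X][X], aeval (Ub c₀) p = (p.map (evJ κ N)).eval (Ub c₀) := fun p => by
    rw [Polynomial.aeval_def, Polynomial.eval₂_eq_eval_map, halg]
  -- `χ` is monic and kills `Ub c₀`
  have hmonicL : (χ.map (evJ κ N)).Monic := by
    rw [hfac]
    exact Polynomial.monic_prod_of_monic _ _ (fun c _ => Polynomial.monic_X_sub_C _)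
  have hmonic : χ.Monic := Polynomial.monic_of_injective hinj hmonicL
  have hχs : aeval (Ub c₀) χ = 0 := by
    rw [haeval, hfac, Polynomial.eval_prod]
    exact Finset.prod_eq_zero (Finset.mem_univ c₀) (by simp)
  have hint : IsIntegral κ[X] (Ub c₀) := ⟨χ, hmonic, by rwa [Polynomial.aeval_def] at hχs⟩
  -- the polynomial `g`
  set g : κ[X][X] := ∑ i : Fin (Fintype.card ι), C (Q i) * X ^ (i : ℕ) with hg
  have hgs : aeval (Ub c₀) g = 0 := by
    rw [hg, map_sum]
    simp only [map_mul, aeval_C, map_pow, aeval_X, halg]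
    exact hQ
  have hgcoeff : ∀ i : Fin (Fintype.card ι), g.coeff i = Q i := by
    intro i
    rw [hg, Polynomial.finsetSum_coeff, Finset.sum_eq_single i]
    · rw [Polynomial.coeff_C_mul, Polynomial.coeff_X_pow, if_pos rfl, mul_one]
    · intro j _ hji
      rw [Polynomial.coeff_C_mul, Polynomial.coeff_X_pow,
        if_neg (fun h => hji (Fin.ext h.symm)), mul_zero]
    · intro h
      exact absurd (Finset.mem_univ i) h
  suffices hg0 : g = 0 by
    intro i
    rw [← hgcoeff i, hg0, Polynomial.coeff_zero]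
  by_contra hg0
  -- the minimal polynomial
  have hπmonic : (minpoly κ[X] (Ub c₀)).Monic := minpoly.monic hint
  have hπχ : minpoly κ[X] (Ub c₀) ∣ χ := minpoly.isIntegrallyClosed_dvd hint hχs
  have hπg : minpoly κ[X] (Ub c₀) ∣ g := minpoly.isIntegrallyClosed_dvd hint hgs
  have hdegg : g.natDegree < Fintype.card ι :=
    (Polynomial.natDegree_lt_iff_degree_lt hg0).mpr (Polynomial.degree_sum_fin_lt Q)
  have hdegπ : (minpoly κ[X] (Ub c₀)).natDegree < Fintype.card ι :=
    lt_of_le_of_lt (Polynomial.natDegree_le_of_dvd hπg hg0) hdegg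
  obtain ⟨π', hπ'⟩ := hπχ
  have hπ'monic : π'.Monic := hπmonic.of_mul_monic_left (hπ' ▸ hmonic)
  have hdegχ : χ.natDegree = Fintype.card ι := by
    rw [← hmonic.natDegree_map (evJ κ N), hfac,
      Polynomial.natDegree_finsetProd_X_sub_C_eq_card]
    rfl
  have hdegπ' : 0 < π'.natDegree := by
    have := hπmonic.natDegree_mul hπ'monic
    rw [← hπ', hdegχ] at this
    omega
  -- over the field of Laurent series
  have hfac2 : χ.map (evJ κ N)
      = (X - C (Ub c₀)) * ∏ c ∈ Finset.univ.erase c₀, (X - C (Ub c)) := by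
    rw [hfac]
    exact (Finset.mul_prod_erase Finset.univ (fun c => X - C (Ub c)) (Finset.mem_univ c₀)).symm
  have hroot : ((minpoly κ[X] (Ub c₀)).map (evJ κ N)).IsRoot (Ub c₀) := by
    rw [Polynomial.IsRoot.def, ← haeval]
    exact minpoly.aeval _ _
  obtain ⟨ρ, hρ⟩ := Polynomial.dvd_iff_isRoot.mpr hroot
  have hΨeq : ∏ c ∈ Finset.univ.erase c₀, (X - C (Ub c)) = ρ * π'.map (evJ κ N) := by
    have h1 : (X - C (Ub c₀)) * ∏ c ∈ Finset.univ.erase c₀, (X - C (Ub c))
        = (X - C (Ub c₀)) * (ρ * π'.map (evJ κ N)) := by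
      rw [← hfac2, hπ', Polynomial.map_mul, hρ, mul_assoc]
    exact mul_left_cancel₀ (Polynomial.X_sub_C_ne_zero (Ub c₀)) h1
  have hΨsplits : (∏ c ∈ Finset.univ.erase c₀, (X - C (Ub c))).Splits :=
    Polynomial.Splits.prod (fun c _ => Polynomial.Splits.X_sub_C _)
  have hΨne : (∏ c ∈ Finset.univ.erase c₀, (X - C (Ub c))) ≠ 0 :=
    (Polynomial.monic_prod_of_monic _ _ (fun c _ => Polynomial.monic_X_sub_C _)).ne_zero
  have hπ'L : (π'.map (evJ κ N)).Splits :=
    hΨsplits.of_dvd hΨne ⟨ρ, by rw [hΨeq, mul_comm]⟩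
  have hπ'Lmonic : (π'.map (evJ κ N)).Monic := hπ'monic.map (evJ κ N)
  -- the roots of `π'` have positive order
  have hroots : ∀ r ∈ (π'.map (evJ κ N)).roots, r ≠ 0 ∧ 0 < r.order := by
    intro r hr
    have hr1 : (π'.map (evJ κ N)).eval r = 0 := by
      rw [Polynomial.mem_roots hπ'Lmonic.ne_zero] at hr
      exact hr
    have hr' : (∏ c ∈ Finset.univ.erase c₀, (X - C (Ub c))).eval r = 0 := by
      rw [hΨeq, Polynomial.eval_mul, hr1, mul_zero]
    rw [Polynomial.eval_prod, Finset.prod_eq_zero_iff] at hr'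
    obtain ⟨c, hc, hc0⟩ := hr'
    have : r = Ub c := by simpa [sub_eq_zero] using hc0
    rw [this]
    exact hpos c (Finset.ne_of_mem_erase hc)
  obtain ⟨hprod_ne, hprod_ord⟩ := prod_pos_order _ hroots
  have hcard : Multiset.card (π'.map (evJ κ N)).roots = π'.natDegree := by
    rw [← hπ'L.natDegree_eq_card_roots, hπ'monic.natDegree_map]
  have hcoeff0 := hπ'L.coeff_zero_eq_prod_roots_of_monic hπ'Lmonic
  rw [Polynomial.coeff_map] at hcoeff0
  have hc_ne : π'.coeff 0 ≠ 0 := by
    intro h0
    rw [h0, map_zero] at hcoeff0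
    exact (mul_ne_zero (pow_ne_zero _ (neg_ne_zero.mpr one_ne_zero)) hprod_ne) hcoeff0.symm
  have hle := order_evJ_le N hc_ne
  have hord : (π'.natDegree : ℤ) ≤ (evJ κ N (π'.coeff 0)).order := by
    rw [hcoeff0, ← hcard]
    rcases neg_one_pow_eq_or (LaurentSeries κ) (π'.map (evJ κ N)).natDegree with h | h
    · rw [h, one_mul]
      exact hprod_ord
    · rw [h, neg_one_mul, HahnSeries.order_neg]
      exact hprod_ord
  omega

end Abstract

/-! ### the bridge from the analytic factorisation to `(MC)` over `ZMod l` -/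

section Bridge

/-- `coeffEmb K jq` is the `j`-series over `K`. -/
theorem coeffEmb_jq (K : Type*) [Field K] [Algebra ℚ K] : coeffEmb K jq = jqModC K := by
  rw [← jqModC_rat]
  exact coeffMap_jqModC (algebraMap ℚ K)

/-- evaluation at `j (q ^ N)` through `aeval` (as used on the tower) is `evJ`. -/
theorem aeval_toRingHom_eq_evJ (K : Type*) [Field K] [Algebra ℚ K] (N : ℕ) [NeZero N] :
    (aeval (qExpand K N (coeffEmb K jq)) : K[X] →ₐ[K] LaurentSeries K).toRingHom = evJ K N := by
  refine RingHom.ext fun p => ?_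
  rw [coeffEmb_jq, evJ_eq_aeval]
  rfl

variable (l : ℕ) [Fact l.Prime] (N : ℕ) [NeZero N]

/-- the comparison map from `(ZMod l)((q))` to `kap((q_N))`. -/
def theta : LaurentSeries (ZMod l) →+* LaurentSeries (kap l) :=
  (qExpand (kap l) N).comp (coeffMap (algebraMap (ZMod l) (kap l)))

theorem theta_aeval (p : (ZMod l)[X]) :
    theta l N (aeval (jqModC (ZMod l)) p) = evJ (kap l) N (p.map (algebraMap (ZMod l) (kap l))) := by
  have h : (theta l N).comp
      ((aeval (jqModC (ZMod l)) : (ZMod l)[X] →ₐ[ZMod l] LaurentSeries (ZMod l)) :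
        (ZMod l)[X] →+* LaurentSeries (ZMod l))
      = (evJ (kap l) N).comp (Polynomial.mapRingHom (algebraMap (ZMod l) (kap l))) := by
    apply Polynomial.ringHom_ext
    · intro a
      rw [RingHom.comp_apply, RingHom.comp_apply, RingHom.coe_coe, Polynomial.aeval_C,
        algebraMap_eq_C, Polynomial.coe_mapRingHom, Polynomial.map_C, evJ_C, theta,
        RingHom.comp_apply]
      have : coeffMap (algebraMap (ZMod l) (kap l)) (HahnSeries.C a)
          = HahnSeries.C (algebraMap (ZMod l) (kap l) a) := coeffMap_single _ 0 a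
      rw [this, qExpand_C]
    · rw [RingHom.comp_apply, RingHom.comp_apply, RingHom.coe_coe, Polynomial.aeval_X,
        Polynomial.coe_mapRingHom, Polynomial.map_X, evJ_X, theta, RingHom.comp_apply,
        coeffMap_jqModC]
  have := congrArg (fun g : (ZMod l)[X] →+* LaurentSeries (kap l) => g p) h
  simpa using this

theorem theta_intCast (u : LaurentSeries ℤ) :
    theta l N (coeffMap (Int.castRingHom (ZMod l)) u)
      = qExpand (kap l) N (coeffMap (Int.castRingHom (kap l)) u) := by
  rw [theta, RingHom.comp_apply, coeffMap_coeffMap]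
  congr 1
  exact coeffMap_congr (RingHom.ext_int _ _) u

/-- **(MC) from the analytic factorisation.**  Let `χ (j (q_N), Y) = ∏ c, (Y - U c)` in
`ℂ((q_N))[Y]`, where `U c₀` is the expansion (in `q_N`) of a series `u` with integer
coefficients and every other `U c` has coefficients in the ring `Rl l` of `l`-integral algebraic
numbers, positive order, and leading coefficient invertible in `Rl l`.  Then
`1, u, …, u ^ (n - 1)` are linearly independent mod `l` over `(ZMod l)[j]`. -/
theorem hmc_of_factorization {ι : Type*} [Fintype ι] (c₀ : ι)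
    (χ : ℂ[X][X]) (U : ι → LaurentSeries ℂ)
    (hfac : χ.map (evJ ℂ N) = ∏ c, (X - C (U c)))
    (u : LaurentSeries ℤ)
    (hU0 : U c₀ = qExpand ℂ N (coeffMap (Int.castRingHom ℂ) u))
    (hU : ∀ c, c ≠ c₀ → U c ∈ IntS (Rl l) ∧ ∃ k : ℤ, 0 < k ∧ (∀ i < k, (U c).coeff i = 0) ∧
        ∃ v ∈ Rl l, (U c).coeff k * v = 1)
    {n : ℕ} (hn : Nat.card ι = n) (P : Fin n → (ZMod l)[X])
    (hP : ∑ i, aeval (jqModC (ZMod l)) (P i) * (coeffMap (Int.castRingHom (ZMod l)) u) ^ (i : ℕ)
      = 0) : ∀ i, P i = 0 := by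
  classical
  have hU0' : U c₀ = coeffMap (Int.castRingHom ℂ) (qExpand ℤ N u) := by
    rw [hU0, coeffMap_qExpand]
  have hUall : ∀ c, U c ∈ IntS (Rl l) := by
    intro c
    by_cases hc : c = c₀
    · rw [hc, hU0']
      exact coeffMap_intCast_mem_IntS _
    · exact (hU c hc).1
  obtain ⟨χ', -, hred⟩ := exists_reduction (Rl l) N (red l) χ U hUall hfac
  -- the reduced root at `c₀`
  have hUb0 : redS (Rl l) (red l) ⟨U c₀, hUall c₀⟩
      = qExpand (kap l) N (coeffMap (Int.castRingHom (kap l)) u) := by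
    have e : (⟨U c₀, hUall c₀⟩ : IntS (Rl l))
        = ⟨coeffMap (Int.castRingHom ℂ) (qExpand ℤ N u), coeffMap_intCast_mem_IntS _⟩ :=
      Subtype.ext hU0'
    rw [e, redS_intCast, coeffMap_qExpand]
  -- the other reduced roots
  have hpos : ∀ c, c ≠ c₀ → redS (Rl l) (red l) ⟨U c, hUall c⟩ ≠ 0 ∧
      0 < (redS (Rl l) (red l) ⟨U c, hUall c⟩).order := by
    intro c hc
    obtain ⟨-, k, hk, hlt, v, hv, hkv⟩ := hU c hc
    have hlt' : ∀ i < k, (liftHom (Rl l) ⟨U c, hUall c⟩).coeff i = 0 := by
      intro i hi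
      apply Subtype.ext
      rw [liftHom_coeff]
      exact hlt i hi
    have hunit : IsUnit ((liftHom (Rl l) ⟨U c, hUall c⟩).coeff k) := by
      refine IsUnit.of_mul_eq_one (⟨v, hv⟩ : Rl l) ?_
      apply Subtype.ext
      rw [Subring.coe_mul, liftHom_coeff]
      exact hkv
    have hne : red l ((liftHom (Rl l) ⟨U c, hUall c⟩).coeff k) ≠ 0 :=
      red_ne_zero_of_isUnit hunit
    rw [redS_apply]
    refine ⟨coeffMap_ne_zero_of_coeff (red l) hne, ?_⟩
    rw [order_coeffMap_eq (red l) hlt' hne]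
    exact hk
  -- transport the relation
  have hQ : ∑ i, evJ (kap l) N ((P i).map (algebraMap (ZMod l) (kap l)))
      * redS (Rl l) (red l) ⟨U c₀, hUall c₀⟩ ^ (i : ℕ) = 0 := by
    have h := congrArg (theta l N) hP
    rw [map_sum, map_zero] at h
    rw [← h]
    refine Finset.sum_congr rfl fun i _ => ?_
    rw [map_mul, map_pow, theta_aeval, theta_intCast, hUb0]
  have hres := eq_zero_of_factorization N c₀ (χ'.map (Polynomial.mapRingHom (red l)))
    (fun c => redS (Rl l) (red l) ⟨U c, hUall c⟩) hred hpos hn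
    (fun i => (P i).map (algebraMap (ZMod l) (kap l))) hQ
  intro i
  have := hres i
  exact Polynomial.map_injective _ (algebraMap (ZMod l) (kap l)).injective
    (by rw [this, Polynomial.map_zero])

end Bridge

end Fermat.Agent.S28.MC
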