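import Mathlib
import Fermat.Agent.S28_MCAbs

/-!
# S18 (WP-H3): abstract uniqueness for a polynomial relation between two Laurent series

Let `j = q^(-N) (1 + …)` and `u = q^(-rN) (1 + …)` be Laurent series.  The monomials `j^a u^i`
with `a < r` (for all `i` but the largest) have pairwise distinct pole orders, so a polynomial
expression `∑ ρ_i(j) u^i` with `deg ρ_i < r` for `i + 1 < n` whose coefficients at `q^k`, `k ≤ 0`,
all vanish, is identically zero.  Together with the degree bounds coming from a factorisation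
`P(j, X) = S(X) (X - u)`, `S ≡ X^(n-1)` modulo `q`, this identifies `P`.
-/

set_option autoImplicit false

noncomputable section

open Polynomial

namespace Fermat.Agent.S18.HauptPoly

open HahnSeries

section Mono

variable {K : Type*} [CommRing K]

/-- `(q^(-N) J)^a (q^(-M) H)^i = q^(-(N a + M i)) J^a H^i`. -/
theorem mono_eq (N M : ℕ) (J H : PowerSeries K) (a i : ℕ) :
    (single (-(N : ℤ)) (1 : K) * ofPowerSeries ℤ K J) ^ a *
        (single (-(M : ℤ)) (1 : K) * ofPowerSeries ℤ K H) ^ i
      = single (-((N * a + M * i : ℕ) : ℤ)) (1 : K) * ofPowerSeries ℤ K (J ^ a * H ^ i) := by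
  rw [mul_pow, mul_pow, single_pow, single_pow, one_pow, one_pow, ← map_pow, ← map_pow, map_mul]
  have e : single (a • (-(N : ℤ))) (1 : K) * single (i • (-(M : ℤ))) (1 : K)
      = single (-((N * a + M * i : ℕ) : ℤ)) (1 : K) := by
    rw [single_mul_single, one_mul]
    have e2 : a • (-(N : ℤ)) + i • (-(M : ℤ)) = -((N * a + M * i : ℕ) : ℤ) := by
      push_cast
      simp only [nsmul_eq_mul]
      ring
    rw [e2]
  rw [← e]
  ring

/-- coefficients of `q^(-w) p` at `q^(-W)`. -/
theorem coeff_single_mul_ofPS (w W : ℕ) (p : PowerSeries K) :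
    (single (-(w : ℤ)) (1 : K) * ofPowerSeries ℤ K p).coeff (-(W : ℤ))
      = if W ≤ w then PowerSeries.coeff (w - W) p else 0 := by
  rw [coeff_single_mul, one_mul]
  split_ifs with h
  · have e : -(W : ℤ) - -(w : ℤ) = ((w - W : ℕ) : ℤ) := by
      rw [Nat.cast_sub h]; ring
    rw [e, ofPowerSeries_apply_coeff]
  · exact ModularCurve.ofPowerSeries_coeff_of_neg p (by omega)

/-- coefficients of `q^(-w) p` at `q^k`, general `k`. -/
theorem coeff_single_mul_ofPS' (w : ℕ) (p : PowerSeries K) (k : ℤ) :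
    (single (-(w : ℤ)) (1 : K) * ofPowerSeries ℤ K p).coeff k
      = if 0 ≤ k + w then PowerSeries.coeff (k + w).toNat p else 0 := by
  rw [coeff_single_mul, one_mul]
  split_ifs with h
  · have e : k - -(w : ℤ) = (((k + w).toNat : ℕ) : ℤ) := by
      rw [Int.toNat_of_nonneg h]; ring
    rw [e, ofPowerSeries_apply_coeff]
  · exact ModularCurve.ofPowerSeries_coeff_of_neg p (by omega)

end Mono

section Uniq

variable {K : Type*} [Field K]

/-- **Abstract uniqueness.** -/
theorem eq_zero_of_coeff_nonpos (N r : ℕ) (hN : 0 < N) (_hr : 0 < r)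
    (J H : PowerSeries K) (hJ : PowerSeries.constantCoeff J = 1)
    (hH : PowerSeries.constantCoeff H = 1) (n : ℕ)
    (ρ : ℕ → K[X]) (hρ : ∀ i, i + 1 < n → (ρ i).natDegree < r)
    (h : ∀ k : ℤ, k ≤ 0 → (∑ i ∈ Finset.range n,
      Polynomial.aeval (single (-(N : ℤ)) (1 : K) * ofPowerSeries ℤ K J) (ρ i) *
        (single (-((r * N : ℕ) : ℤ)) (1 : K) * ofPowerSeries ℤ K H) ^ i).coeff k = 0) :
    ∀ i < n, ρ i = 0 := by
  classical
  by_contra hcon
  push Not at hcon
  obtain ⟨i₀, hi₀, hρ₀⟩ := hcon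
  -- the finite set of monomials with nonzero coefficient
  let T : Finset (ℕ × ℕ) := (Finset.range n).biUnion fun i =>
    ((Finset.range ((ρ i).natDegree + 1)).filter fun a => (ρ i).coeff a ≠ 0).image fun a => (i, a)
  have hT : ∀ x : ℕ × ℕ, x ∈ T ↔ x.1 < n ∧ x.2 ≤ (ρ x.1).natDegree ∧ (ρ x.1).coeff x.2 ≠ 0 := by
    rintro ⟨i, a⟩
    simp only [T, Finset.mem_biUnion, Finset.mem_image, Finset.mem_filter, Finset.mem_range,
      Prod.mk.injEq]
    constructor
    · rintro ⟨i', hi', a', ⟨ha', hne⟩, rfl, rfl⟩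
      exact ⟨hi', by omega, hne⟩
    · rintro ⟨hi, ha, hne⟩
      exact ⟨i, hi, a, ⟨by omega, hne⟩, rfl, rfl⟩
  have hTne : T.Nonempty :=
    ⟨(i₀, (ρ i₀).natDegree), (hT _).mpr ⟨hi₀, le_rfl, Polynomial.leadingCoeff_ne_zero.mpr hρ₀⟩⟩
  obtain ⟨⟨i₁, a₁⟩, hmem, hmax⟩ := Finset.exists_max_image T (fun x => x.2 + r * x.1) hTne
  obtain ⟨hi₁, ha₁, hc₁⟩ := (hT _).mp hmem
  simp only at hi₁ ha₁ hc₁
  -- injectivity of the weight on `T`
  have hinj : ∀ i a, (i, a) ∈ T → a + r * i = a₁ + r * i₁ → i = i₁ ∧ a = a₁ := by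
    intro i a hx hw
    obtain ⟨hi, ha, -⟩ := (hT _).mp hx
    simp only at hi ha
    rcases lt_trichotomy i i₁ with hlt | heq | hgt
    · exfalso
      have h1 : a < r := lt_of_le_of_lt ha (hρ i (by omega))
      have h2 : r * (i + 1) ≤ r * i₁ := Nat.mul_le_mul_left r hlt
      nlinarith
    · subst heq
      exact ⟨rfl, by omega⟩
    · exfalso
      have h1 : a₁ < r := lt_of_le_of_lt ha₁ (hρ i₁ (by omega))
      have h2 : r * (i₁ + 1) ≤ r * i := Nat.mul_le_mul_left r hgt
      nlinarith
  set W : ℕ := N * (a₁ + r * i₁) with hW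
  have hk := h (-(W : ℤ)) (by omega)
  rw [HahnSeries.coeff_sum] at hk
  -- each summand
  have hterm : ∀ i ∈ Finset.range n,
      (Polynomial.aeval (single (-(N : ℤ)) (1 : K) * ofPowerSeries ℤ K J) (ρ i) *
        (single (-((r * N : ℕ) : ℤ)) (1 : K) * ofPowerSeries ℤ K H) ^ i).coeff (-(W : ℤ))
        = if i = i₁ then (ρ i₁).coeff a₁ else 0 := by
    intro i hi
    rw [Finset.mem_range] at hi
    rw [Polynomial.aeval_def, Polynomial.eval₂_eq_sum_range, Finset.sum_mul, HahnSeries.coeff_sum]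
    have hinner : ∀ a ∈ Finset.range ((ρ i).natDegree + 1),
        ((algebraMap K (LaurentSeries K) ((ρ i).coeff a) *
            (single (-(N : ℤ)) (1 : K) * ofPowerSeries ℤ K J) ^ a) *
          (single (-((r * N : ℕ) : ℤ)) (1 : K) * ofPowerSeries ℤ K H) ^ i).coeff (-(W : ℤ))
          = if i = i₁ ∧ a = a₁ then (ρ i₁).coeff a₁ else 0 := by
      intro a ha
      rw [Finset.mem_range] at ha
      rw [Fermat.Agent.S28.Coeff.algebraMap_eq_C, mul_assoc,
        Fermat.Agent.S28.Coeff.coeff_C_mul, mono_eq, coeff_single_mul_ofPS]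
      by_cases hc : (ρ i).coeff a = 0
      · rw [hc, zero_mul, if_neg]
        rintro ⟨rfl, rfl⟩
        exact hc₁ hc
      · have hx : (i, a) ∈ T := (hT (i, a)).mpr ⟨hi, Nat.lt_succ_iff.mp ha, hc⟩
        have hle := hmax _ hx
        simp only at hle
        have hwt : N * a + r * N * i = N * (a + r * i) := by ring
        rw [hwt]
        by_cases heq : a + r * i = a₁ + r * i₁
        · obtain ⟨rfl, rfl⟩ := hinj i a hx heq
          rw [if_pos le_rfl, if_pos ⟨rfl, rfl⟩, Nat.sub_self, PowerSeries.coeff_zero_eq_constantCoeff,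
            map_mul, map_pow, map_pow, hJ, hH, one_pow, one_pow, mul_one, mul_one]
        · have hlt : a + r * i < a₁ + r * i₁ := lt_of_le_of_ne hle heq
          have hlt' : N * (a + r * i) < W := by
            rw [hW]; exact Nat.mul_lt_mul_of_pos_left hlt hN
          rw [if_neg (by omega), mul_zero, if_neg]
          rintro ⟨rfl, rfl⟩
          exact heq rfl
    rw [Finset.sum_congr rfl hinner]
    by_cases hii : i = i₁
    · subst hii
      rw [if_pos rfl, Finset.sum_eq_single a₁]
      · rw [if_pos ⟨rfl, rfl⟩]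
      · intro a _ hne
        rw [if_neg]
        rintro ⟨-, rfl⟩
        exact hne rfl
      · intro hnot
        exact absurd (Finset.mem_range.mpr (by omega)) hnot
    · rw [if_neg hii]
      refine Finset.sum_eq_zero fun a _ => ?_
      rw [if_neg]
      rintro ⟨rfl, -⟩
      exact hii rfl
  rw [Finset.sum_congr rfl hterm, Finset.sum_ite_eq' (Finset.range n) i₁, if_pos
    (Finset.mem_range.mpr hi₁)] at hk
  exact hc₁ hk

/-- the level one form of the abstract uniqueness. -/
theorem eq_zero_of_coeff_nonpos_one (r : ℕ) (hr : 0 < r) (H : PowerSeries K)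
    (hH : PowerSeries.constantCoeff H = 1) (n : ℕ)
    (ρ : ℕ → K[X]) (hρ : ∀ i, i + 1 < n → (ρ i).natDegree < r)
    (h : ∀ k : ℤ, k ≤ 0 → (∑ i ∈ Finset.range n,
      Polynomial.aeval (ModularCurve.jqModC K) (ρ i) *
        (single (-(r : ℤ)) (1 : K) * ofPowerSeries ℤ K H) ^ i).coeff k = 0) :
    ∀ i < n, ρ i = 0 := by
  have hJ : PowerSeries.constantCoeff
      (PowerSeries.map (Int.castRingHom K) ModularCurve.jNum) = 1 := by
    rw [← PowerSeries.coeff_zero_eq_constantCoeff, PowerSeries.coeff_map,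
      PowerSeries.coeff_zero_eq_constantCoeff, ModularCurve.constantCoeff_jNum]
    simp
  have e1 : single (-((1 : ℕ) : ℤ)) (1 : K) *
      ofPowerSeries ℤ K (PowerSeries.map (Int.castRingHom K) ModularCurve.jNum)
        = ModularCurve.jqModC K := by
    rw [Nat.cast_one]
    rfl
  have e2 : ((r * 1 : ℕ) : ℤ) = (r : ℤ) := by rw [mul_one]
  have key := eq_zero_of_coeff_nonpos 1 r one_pos hr _ H hJ hH n ρ hρ
  rw [e1, e2] at key
  exact key h

end Uniq

section Order

variable {R : Type*} [CommRing R]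

/-- orders add under multiplication (coefficient form). -/
theorem coeff_mul_eq_zero_of_lt {s t : LaurentSeries R} {m m' : ℤ}
    (hs : ∀ k : ℤ, k < m → s.coeff k = 0) (ht : ∀ k : ℤ, k < m' → t.coeff k = 0) :
    ∀ k : ℤ, k < m + m' → (s * t).coeff k = 0 := by
  intro k hk
  rw [HahnSeries.coeff_mul]
  refine Finset.sum_eq_zero fun x hx => ?_
  rw [Finset.mem_antidiagonal] at hx
  obtain ⟨-, -, hx⟩ := hx
  by_cases h1 : x.1 < m
  · rw [hs _ h1, zero_mul]
  · rw [ht x.2 (by omega), mul_zero]

theorem qExpand_coeff_eq_zero_of_lt (N : ℕ) [NeZero N] {s : LaurentSeries R} {m : ℤ}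
    (hs : ∀ k : ℤ, k < m → s.coeff k = 0) :
    ∀ k : ℤ, k < (N : ℤ) * m → (ModularCurve.qExpand R N s).coeff k = 0 := by
  intro k hk
  by_cases hd : (N : ℤ) ∣ k
  · obtain ⟨k', rfl⟩ := hd
    rw [ModularCurve.qExpand_coeff_mul]
    apply hs
    have hN : (0 : ℤ) < N := by exact_mod_cast NeZero.pos N
    exact lt_of_mul_lt_mul_left hk hN.le
  · exact ModularCurve.qExpand_coeff_of_not_dvd N s hd

end Order

section Factor

variable {K : Type*} [Field K]

open Fermat.Agent.S28.Coeff

/-- the non-leading coefficients of `∏ (X - a c)` have positive order when all `a c` do. -/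
theorem coeff_prod_X_sub_C {ι : Type*} (s : Finset ι) (a : ι → LaurentSeries K)
    (ha : ∀ c ∈ s, ∀ k : ℤ, k < 1 → (a c).coeff k = 0) :
    ∀ i, i < s.card → ∀ k : ℤ, k < 1 → ((∏ c ∈ s, (X - Polynomial.C (a c))).coeff i).coeff k = 0 := by
  classical
  induction s using Finset.induction_on with
  | empty =>
    intro i hi
    simp at hi
  | insert c s hc ih =>
    intro i hi k hk
    rw [Finset.card_insert_of_notMem hc] at hi
    rw [Finset.prod_insert hc]
    have ih' := ih (fun c' hc' => ha c' (Finset.mem_insert_of_mem hc'))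
    have hac := ha c (Finset.mem_insert_self c s)
    have hTdeg : (∏ c ∈ s, (X - Polynomial.C (a c))).natDegree = s.card :=
      Polynomial.natDegree_finsetProd_X_sub_C_eq_card s a
    have hTmonic : (∏ c ∈ s, (X - Polynomial.C (a c))).Monic :=
      monic_prod_of_monic _ _ fun _ _ => monic_X_sub_C _
    generalize (∏ c ∈ s, (X - Polynomial.C (a c))) = T at ih' hTdeg hTmonic ⊢
    have hmul : ∀ j, j ≤ s.card → (a c * T.coeff j).coeff k = 0 := by
      intro j hj
      rcases lt_or_eq_of_le hj with hlt | heq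
      · exact coeff_mul_eq_zero_of_lt hac (ih' j hlt) k (by omega)
      · have h1 : T.coeff j = 1 := by
          rw [heq, ← hTdeg]
          exact hTmonic.coeff_natDegree
        rw [h1, mul_one]
        exact hac k hk
    rw [sub_mul, Polynomial.coeff_sub, Polynomial.coeff_C_mul, HahnSeries.coeff_sub]
    cases i with
    | zero =>
      rw [Polynomial.coeff_X_mul_zero, HahnSeries.coeff_zero, zero_sub, neg_eq_zero]
      exact hmul 0 (Nat.zero_le _)
    | succ i =>
      rw [Polynomial.coeff_X_mul, ih' i (by omega) k hk, zero_sub, neg_eq_zero]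
      exact hmul (i + 1) (by omega)

/-- **Degree bound.**  If `P(j(q^N), X) = S(X) (X - U)` with `U` of order `≥ -rN` and the
coefficients `S_i`, `i + 1 < n`, of positive order, then `deg_j P_i < r` for `i + 1 < n`. -/
theorem natDegree_coeff_lt (N r : ℕ) [NeZero N] (hr : 0 < r) (P : K[X][X])
    (S : (LaurentSeries K)[X]) (U : LaurentSeries K)
    (hU : ∀ k : ℤ, k < -((N : ℤ) * r) → U.coeff k = 0)
    (hfac : P.map (evJ K N) = S * (X - Polynomial.C U)) (n : ℕ)
    (hS : ∀ i, i + 1 < n → ∀ k : ℤ, k < 1 → (S.coeff i).coeff k = 0) :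
    ∀ i, i + 1 < n → (P.coeff i).natDegree < r := by
  intro i hi
  by_contra hge
  rw [not_lt] at hge
  have hp0 : P.coeff i ≠ 0 := by
    intro h0
    rw [h0, natDegree_zero] at hge
    omega
  have htop := Fermat.Agent.S28.MC.coeff_evJ_top N (P.coeff i)
  have hcoeff : evJ K N (P.coeff i) = (S * (X - Polynomial.C U)).coeff i := by
    rw [← hfac, Polynomial.coeff_map]
  have hle : (N : ℤ) * r ≤ (N : ℤ) * (P.coeff i).natDegree := by
    exact_mod_cast Nat.mul_le_mul_left N hge
  have hN0 : (0 : ℤ) ≤ (N : ℤ) * r := by positivity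
  have hk : -((N : ℤ) * (P.coeff i).natDegree) < 1 + -((N : ℤ) * r) := by omega
  have hzero : (evJ K N (P.coeff i)).coeff (-((N : ℤ) * (P.coeff i).natDegree)) = 0 := by
    rw [hcoeff]
    cases i with
    | zero =>
      rw [Polynomial.mul_coeff_zero, Polynomial.coeff_sub, Polynomial.coeff_X_zero,
        Polynomial.coeff_C_zero, zero_sub, mul_neg, HahnSeries.coeff_neg, neg_eq_zero]
      exact coeff_mul_eq_zero_of_lt (hS 0 hi) hU _ hk
    | succ i =>
      rw [Polynomial.coeff_mul_X_sub_C, HahnSeries.coeff_sub, hS i (by omega) _ (by omega),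
        coeff_mul_eq_zero_of_lt (hS (i + 1) hi) hU _ hk, sub_zero]
  rw [htop] at hzero
  exact (Polynomial.leadingCoeff_ne_zero.mpr hp0) hzero

/-- evaluation of a monic polynomial of degree `n`: lower part plus `u ^ n`. -/
theorem eval_monic_eq (M : K[X][X]) (hM : M.Monic) (n : ℕ) (hn : M.natDegree = n)
    (u : LaurentSeries K) :
    (M.map (evJ K 1)).eval u
      = ∑ i ∈ Finset.range n, Polynomial.aeval (ModularCurve.jqModC K) (M.coeff i) * u ^ i
        + u ^ n := by
  have hφ : ∀ p : K[X], evJ K 1 p = Polynomial.aeval (ModularCurve.jqModC K) p := fun p => by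
    rw [evJ_eq_aeval, ModularCurve.qExpand_one_apply]
  have hdeg : (M.map (evJ K 1)).natDegree < n + 1 :=
    Nat.lt_succ_of_le ((Polynomial.natDegree_map_le).trans hn.le)
  rw [Polynomial.eval_eq_sum_range' hdeg, Finset.sum_range_succ]
  congr 1
  · refine Finset.sum_congr rfl fun i _ => ?_
    rw [Polynomial.coeff_map, hφ]
  · have h1 : M.coeff n = 1 := by
      rw [← hn]
      exact hM.coeff_natDegree
    rw [Polynomial.coeff_map, h1, map_one, one_mul]

/-- **Identification of a relation.**  Let `P(j(q^N), X) = S(X) (X - u(q^N))` with `P` monic of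
degree `n`, `u = q^(-r) (1 + …)`, and `S ≡ X^(n-1)` modulo positive order.  If `Q` is monic of
degree `n` with `deg_j Q_i < r` for `i + 1 < n` and `Q(j, u)` has no coefficients at `q^k`,
`k ≤ 0`, then `Q(j, u) = 0`. -/
theorem eval_eq_zero_of_factorization (N r : ℕ) [NeZero N] (hr : 0 < r)
    (H : PowerSeries K) (hH : PowerSeries.constantCoeff H = 1) (n : ℕ)
    (P Q : K[X][X]) (hP : P.Monic) (hPn : P.natDegree = n) (hQ : Q.Monic) (hQn : Q.natDegree = n)
    (S : (LaurentSeries K)[X])
    (hfac : P.map (evJ K N) = S * (X - Polynomial.C (ModularCurve.qExpand K N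
      (single (-(r : ℤ)) (1 : K) * ofPowerSeries ℤ K H))))
    (hS : ∀ i, i + 1 < n → ∀ k : ℤ, k < 1 → (S.coeff i).coeff k = 0)
    (hQdeg : ∀ i, i + 1 < n → (Q.coeff i).natDegree < r)
    (hcheck : ∀ k : ℤ, k ≤ 0 →
      ((Q.map (evJ K 1)).eval (single (-(r : ℤ)) (1 : K) * ofPowerSeries ℤ K H)).coeff k = 0) :
    (Q.map (evJ K 1)).eval (single (-(r : ℤ)) (1 : K) * ofPowerSeries ℤ K H) = 0 := by
  have hu_lt : ∀ k : ℤ, k < -(r : ℤ) →
      (single (-(r : ℤ)) (1 : K) * ofPowerSeries ℤ K H).coeff k = 0 := by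
    intro k hk
    rw [coeff_single_mul_ofPS', if_neg (by omega)]
  set u : LaurentSeries K := single (-(r : ℤ)) (1 : K) * ofPowerSeries ℤ K H with hu
  have hU := qExpand_coeff_eq_zero_of_lt N hu_lt
  have hPdeg := natDegree_coeff_lt N r hr P S (ModularCurve.qExpand K N u)
    (fun k hk => hU k (by rw [mul_neg]; exact hk)) hfac n hS
  -- the root at level `N`, then at level one
  have hrootN : (P.map (evJ K N)).eval (ModularCurve.qExpand K N u) = 0 := by
    rw [hfac, Polynomial.eval_mul, Polynomial.eval_sub, Polynomial.eval_X, Polynomial.eval_C,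
      sub_self, mul_zero]
  have hcomp : (ModularCurve.qExpand K N).comp (evJ K 1) = evJ K N := by
    apply Polynomial.ringHom_ext
    · intro a
      rw [RingHom.comp_apply, evJ_C, evJ_C, ModularCurve.qExpand_C]
    · rw [RingHom.comp_apply, evJ_X, evJ_X, ModularCurve.qExpand_one_apply]
  have hroot1 : (P.map (evJ K 1)).eval u = 0 := by
    apply ModularCurve.qExpand_injective (R := K) N
    rw [Polynomial.eval_map] at hrootN ⊢
    rw [map_zero, Polynomial.hom_eval₂, hcomp]
    exact hrootN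
  -- the difference
  have hdiff : ∑ i ∈ Finset.range n,
      Polynomial.aeval (ModularCurve.jqModC K) (P.coeff i - Q.coeff i) * u ^ i
        = -((Q.map (evJ K 1)).eval u) := by
    have h1 := eval_monic_eq P hP n hPn u
    have h2 := eval_monic_eq Q hQ n hQn u
    rw [hroot1] at h1
    simp only [map_sub, sub_mul, Finset.sum_sub_distrib]
    rw [h2]
    linear_combination -h1
  have hρ : ∀ i, i + 1 < n → (P.coeff i - Q.coeff i).natDegree < r := fun i hi =>
    lt_of_le_of_lt (Polynomial.natDegree_sub_le _ _) (max_lt (hPdeg i hi) (hQdeg i hi))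
  have hall := eq_zero_of_coeff_nonpos_one r hr H hH n (fun i => P.coeff i - Q.coeff i) hρ
    (fun k hk => by
      show (∑ i ∈ Finset.range n,
        Polynomial.aeval (ModularCurve.jqModC K) (P.coeff i - Q.coeff i) * u ^ i).coeff k = 0
      rw [hdiff, HahnSeries.coeff_neg, hcheck k hk, neg_zero])
  have hsum0 : ∑ i ∈ Finset.range n,
      Polynomial.aeval (ModularCurve.jqModC K) (P.coeff i - Q.coeff i) * u ^ i = 0 :=
    Finset.sum_eq_zero fun i hi => by rw [hall i (Finset.mem_range.mp hi), map_zero, zero_mul]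
  rw [hsum0] at hdiff
  exact neg_eq_zero.mp hdiff.symm

end Factor

end Fermat.Agent.S18.HauptPoly
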