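import Mathlib
import Fermat.Prelude.Def_ModularCurve_X0

/-!
# S18 (WP-H3): certified truncated power series arithmetic

Finite checks for the Hauptmodul relations of levels 2 and 3: with `E = ∏ (1 - Xⁿ)`,
`E_p = E(X^p)` and `E₄` the Eisenstein series,

* `X ^ 4 ∣ (E²⁴ + 256 X E₂²⁴)³ - E₄³ E²⁴ E₂²⁴`,
* `X ^ 9 ∣ (E¹² + 27 X E₃¹²) (E¹² + 243 X E₃¹²)³ - E₄³ E¹² E₃¹²`.

All arithmetic is done on explicit coefficient lists and checked by kernel evaluation.
-/

set_option autoImplicit false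

namespace Fermat.Agent.S18.HauptTrunc

open PowerSeries ModularCurve Filter Topology

/-- `l` lists the first `n` coefficients of `a`. -/
def IsTr (n : ℕ) (a : PowerSeries ℤ) (l : List ℤ) : Prop := ∀ i < n, coeff i a = l.getD i 0

theorem IsTr.congr {n : ℕ} {a : PowerSeries ℤ} {l l' : List ℤ} (h : IsTr n a l) (e : l = l') :
    IsTr n a l' := e ▸ h

/-- partial convolution sums. -/
def convAux (a b : List ℤ) (k : ℕ) : ℕ → ℤ
  | 0 => a.getD 0 0 * b.getD k 0
  | i + 1 => convAux a b k i + a.getD (i + 1) 0 * b.getD (k - (i + 1)) 0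

theorem convAux_eq (a b : List ℤ) (k j : ℕ) :
    convAux a b k j = ∑ t ∈ Finset.range (j + 1), a.getD t 0 * b.getD (k - t) 0 := by
  induction j with
  | zero => simp [convAux]
  | succ j ih => rw [convAux, ih, Finset.sum_range_succ _ (j + 1)]

/-- truncated product of lists. -/
def mulL (n : ℕ) (a b : List ℤ) : List ℤ := (List.range n).map fun k => convAux a b k k

/-- truncated sum of lists. -/
def addL (n : ℕ) (a b : List ℤ) : List ℤ := (List.range n).map fun k => a.getD k 0 + b.getD k 0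

/-- truncated difference of lists. -/
def subL (n : ℕ) (a b : List ℤ) : List ℤ := (List.range n).map fun k => a.getD k 0 - b.getD k 0

theorem getD_map_range {n : ℕ} (f : ℕ → ℤ) {i : ℕ} (hi : i < n) :
    ((List.range n).map f).getD i 0 = f i := by
  simp [List.getD_eq_getElem?_getD, hi]

theorem IsTr.mul {n : ℕ} {a b : PowerSeries ℤ} {la lb : List ℤ} (ha : IsTr n a la)
    (hb : IsTr n b lb) : IsTr n (a * b) (mulL n la lb) := by
  intro i hi
  rw [mulL, getD_map_range _ hi, convAux_eq, PowerSeries.coeff_mul,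
    Finset.Nat.sum_antidiagonal_eq_sum_range_succ (fun x y => coeff x a * coeff y b)]
  refine Finset.sum_congr rfl fun t ht => ?_
  rw [Finset.mem_range] at ht
  rw [ha t (by omega), hb (i - t) (by omega)]

theorem IsTr.add {n : ℕ} {a b : PowerSeries ℤ} {la lb : List ℤ} (ha : IsTr n a la)
    (hb : IsTr n b lb) : IsTr n (a + b) (addL n la lb) := by
  intro i hi
  rw [addL, getD_map_range _ hi, map_add, ha i hi, hb i hi]

theorem IsTr.sub {n : ℕ} {a b : PowerSeries ℤ} {la lb : List ℤ} (ha : IsTr n a la)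
    (hb : IsTr n b lb) : IsTr n (a - b) (subL n la lb) := by
  intro i hi
  rw [subL, getD_map_range _ hi, map_sub, ha i hi, hb i hi]

theorem isTr_one_sub_X_pow (n m : ℕ) :
    IsTr n (1 - (X : PowerSeries ℤ) ^ m)
      ((List.range n).map fun i => (if i = 0 then 1 else 0) - (if i = m then 1 else 0)) := by
  intro i hi
  rw [getD_map_range _ hi, map_sub, PowerSeries.coeff_one, PowerSeries.coeff_X_pow]

theorem isTr_X (n : ℕ) :
    IsTr n (X : PowerSeries ℤ) ((List.range n).map fun i => if i = 1 then 1 else 0) := by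
  intro i hi
  rw [getD_map_range _ hi, PowerSeries.coeff_X]

theorem isTr_C (n : ℕ) (c : ℤ) :
    IsTr n (C c : PowerSeries ℤ) ((List.range n).map fun i => if i = 0 then c else 0) := by
  intro i hi
  rw [getD_map_range _ hi, PowerSeries.coeff_C]

theorem isTr_eisenstein4 (n : ℕ) :
    IsTr n eisenstein4
      ((List.range n).map fun i : ℕ => if i = 0 then (1 : ℤ) else 240 * ∑ d ∈ Nat.divisors i, ((d : ℕ) : ℤ) ^ 3) := by
  intro i hi
  rw [getD_map_range _ hi, eisenstein4, PowerSeries.coeff_mk]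

theorem IsTr.expand {n : ℕ} {a : PowerSeries ℤ} {la : List ℤ} (ha : IsTr n a la) (p : ℕ)
    (hp : p ≠ 0) :
    IsTr n (PowerSeries.expand p hp a)
      ((List.range n).map fun i => if p ∣ i then la.getD (i / p) 0 else 0) := by
  intro i hi
  rw [getD_map_range _ hi, PowerSeries.coeff_expand]
  split_ifs with h
  · exact ha _ (lt_of_le_of_lt (Nat.div_le_self i p) hi)
  · rfl

theorem IsTr.X_pow_dvd {n : ℕ} {a : PowerSeries ℤ} {l : List ℤ} (ha : IsTr n a l)
    (hl : ((List.range n).map fun i => l.getD i 0) = List.replicate n 0) :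
    (X : PowerSeries ℤ) ^ n ∣ a := by
  rw [PowerSeries.X_pow_dvd_iff]
  intro m hm
  rw [ha m hm]
  have h1 := getD_map_range (fun i => l.getD i 0) hm
  rw [hl] at h1
  rw [← h1]
  simp [List.getD_eq_getElem?_getD, hm]




open scoped PowerSeries.WithPiTopology in
/-- the coefficients of the Euler product agree with those of its partial products. -/
theorem coeff_etaProd (N k : ℕ) (hk : k ≤ N) :
    coeff k etaProd = coeff k (∏ m ∈ Finset.range N, (1 - (X : PowerSeries ℤ) ^ (m + 1))) := by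
  have h1 := (PowerSeries.WithPiTopology.multipliable_one_sub_X_pow ℤ).hasProd.tendsto_prod_nat
  have h2 := ((PowerSeries.WithPiTopology.continuous_coeff ℤ k).tendsto _).comp h1
  have hst : ∀ M, N ≤ M → coeff k (∏ m ∈ Finset.range M, (1 - (X : PowerSeries ℤ) ^ (m + 1)))
      = coeff k (∏ m ∈ Finset.range N, (1 - (X : PowerSeries ℤ) ^ (m + 1))) := by
    intro M hM
    induction M, hM using Nat.le_induction with
    | base => rfl
    | succ M hM ih =>
      rw [Finset.prod_range_succ, mul_sub, mul_one, map_sub, PowerSeries.coeff_mul_X_pow',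
        if_neg (by omega), sub_zero, ih]
  have h3 : Tendsto (fun M => coeff k (∏ m ∈ Finset.range M, (1 - (X : PowerSeries ℤ) ^ (m + 1))))
      atTop (𝓝 (coeff k (∏ m ∈ Finset.range N, (1 - (X : PowerSeries ℤ) ^ (m + 1))))) :=
    tendsto_const_nhds.congr' (by
      filter_upwards [Filter.eventually_ge_atTop N] with M hM
      exact (hst M hM).symm)
  exact tendsto_nhds_unique h2 h3



/-! ### primed forms, with the resulting list given explicitly -/

theorem IsTr.mul' {n : ℕ} {a b : PowerSeries ℤ} {la lb l : List ℤ} (ha : IsTr n a la)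
    (hb : IsTr n b lb) (hl : mulL n la lb = l) : IsTr n (a * b) l := (ha.mul hb).congr hl

theorem IsTr.add' {n : ℕ} {a b : PowerSeries ℤ} {la lb l : List ℤ} (ha : IsTr n a la)
    (hb : IsTr n b lb) (hl : addL n la lb = l) : IsTr n (a + b) l := (ha.add hb).congr hl

theorem IsTr.sub' {n : ℕ} {a b : PowerSeries ℤ} {la lb l : List ℤ} (ha : IsTr n a la)
    (hb : IsTr n b lb) (hl : subL n la lb = l) : IsTr n (a - b) l := (ha.sub hb).congr hl

theorem IsTr.pow' {n : ℕ} {a : PowerSeries ℤ} {l1 l2 l : List ℤ} {i j k : ℕ}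
    (h1 : IsTr n (a ^ i) l1) (h2 : IsTr n (a ^ j) l2) (hk : i + j = k)
    (hl : mulL n l1 l2 = l) : IsTr n (a ^ k) l := by
  subst hk
  rw [pow_add]
  exact h1.mul' h2 hl

theorem IsTr.pow_one' {n : ℕ} {a : PowerSeries ℤ} {l : List ℤ} (h : IsTr n a l) :
    IsTr n (a ^ 1) l := by rwa [pow_one]

theorem IsTr.expand' {n : ℕ} {a : PowerSeries ℤ} {la l : List ℤ} (ha : IsTr n a la) (p : ℕ)
    (hp : p ≠ 0)
    (hl : ((List.range n).map fun i => if p ∣ i then la.getD (i / p) 0 else 0) = l) :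
    IsTr n (PowerSeries.expand p hp a) l := (ha.expand p hp).congr hl

theorem isTr_prod_zero (n : ℕ) {l : List ℤ}
    (hl : ((List.range n).map fun i => if i = 0 then (1 : ℤ) else 0) = l) :
    IsTr n (∏ m ∈ Finset.range 0, (1 - (X : PowerSeries ℤ) ^ (m + 1))) l := by
  rw [Finset.prod_range_zero, ← map_one (C (R := ℤ))]
  exact (isTr_C n 1).congr hl

theorem IsTr.prod_succ {n k : ℕ} {l l' : List ℤ}
    (h : IsTr n (∏ m ∈ Finset.range k, (1 - (X : PowerSeries ℤ) ^ (m + 1))) l)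
    (hl : mulL n l ((List.range n).map fun i =>
      (if i = 0 then (1 : ℤ) else 0) - (if i = k + 1 then 1 else 0)) = l') :
    IsTr n (∏ m ∈ Finset.range (k + 1), (1 - (X : PowerSeries ℤ) ^ (m + 1))) l' := by
  rw [Finset.prod_range_succ]
  exact h.mul' (isTr_one_sub_X_pow n (k + 1)) hl

theorem isTr_etaProd {n : ℕ} {l : List ℤ}
    (h : IsTr n (∏ m ∈ Finset.range n, (1 - (X : PowerSeries ℤ) ^ (m + 1))) l) :
    IsTr n etaProd l := by
  intro i hi
  rw [coeff_etaProd n i hi.le]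
  exact h i hi


/-! ### level 2: the identity modulo `X ^ 4` -/

theorem prA_0 : IsTr 4 (∏ m ∈ Finset.range 0, (1 - (X : PowerSeries ℤ) ^ (m + 1))) [1, 0, 0, 0] :=
  isTr_prod_zero 4 (by decide +kernel)

theorem prA_1 : IsTr 4 (∏ m ∈ Finset.range 1, (1 - (X : PowerSeries ℤ) ^ (m + 1))) [1, -1, 0, 0] :=
  prA_0.prod_succ (by decide +kernel)

theorem prA_2 : IsTr 4 (∏ m ∈ Finset.range 2, (1 - (X : PowerSeries ℤ) ^ (m + 1))) [1, -1, -1, 1] :=
  prA_1.prod_succ (by decide +kernel)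

theorem prA_3 : IsTr 4 (∏ m ∈ Finset.range 3, (1 - (X : PowerSeries ℤ) ^ (m + 1))) [1, -1, -1, 0] :=
  prA_2.prod_succ (by decide +kernel)

theorem prA_4 : IsTr 4 (∏ m ∈ Finset.range 4, (1 - (X : PowerSeries ℤ) ^ (m + 1))) [1, -1, -1, 0] :=
  prA_3.prod_succ (by decide +kernel)

theorem etaA : IsTr 4 etaProd [1, -1, -1, 0] := isTr_etaProd prA_4

theorem etxA : IsTr 4 (PowerSeries.expand 2 (by norm_num) etaProd) [1, 0, -1, 0] :=
  etaA.expand' 2 (by norm_num) (by decide +kernel)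

theorem peA_1 : IsTr 4 (etaProd ^ 1) [1, -1, -1, 0] := etaA.pow_one'

theorem peA_2 : IsTr 4 (etaProd ^ 2) [1, -2, -1, 2] :=
  peA_1.pow' peA_1 rfl (by decide +kernel)

theorem peA_3 : IsTr 4 (etaProd ^ 3) [1, -3, 0, 5] :=
  peA_2.pow' peA_1 rfl (by decide +kernel)

theorem peA_6 : IsTr 4 (etaProd ^ 6) [1, -6, 9, 10] :=
  peA_3.pow' peA_3 rfl (by decide +kernel)

theorem peA_12 : IsTr 4 (etaProd ^ 12) [1, -12, 54, -88] :=
  peA_6.pow' peA_6 rfl (by decide +kernel)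

theorem peA_24 : IsTr 4 (etaProd ^ 24) [1, -24, 252, -1472] :=
  peA_12.pow' peA_12 rfl (by decide +kernel)

theorem pxA_1 : IsTr 4 ((PowerSeries.expand 2 (by norm_num) etaProd) ^ 1) [1, 0, -1, 0] := etxA.pow_one'

theorem pxA_2 : IsTr 4 ((PowerSeries.expand 2 (by norm_num) etaProd) ^ 2) [1, 0, -2, 0] :=
  pxA_1.pow' pxA_1 rfl (by decide +kernel)

theorem pxA_3 : IsTr 4 ((PowerSeries.expand 2 (by norm_num) etaProd) ^ 3) [1, 0, -3, 0] :=
  pxA_2.pow' pxA_1 rfl (by decide +kernel)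

theorem pxA_6 : IsTr 4 ((PowerSeries.expand 2 (by norm_num) etaProd) ^ 6) [1, 0, -6, 0] :=
  pxA_3.pow' pxA_3 rfl (by decide +kernel)

theorem pxA_12 : IsTr 4 ((PowerSeries.expand 2 (by norm_num) etaProd) ^ 12) [1, 0, -12, 0] :=
  pxA_6.pow' pxA_6 rfl (by decide +kernel)

theorem pxA_24 : IsTr 4 ((PowerSeries.expand 2 (by norm_num) etaProd) ^ 24) [1, 0, -24, 0] :=
  pxA_12.pow' pxA_12 rfl (by decide +kernel)

theorem e4A : IsTr 4 eisenstein4 [1, 240, 2160, 6720] :=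
  (isTr_eisenstein4 4).congr (by decide +kernel)

theorem pfA_1 : IsTr 4 (eisenstein4 ^ 1) [1, 240, 2160, 6720] := e4A.pow_one'

theorem pfA_2 : IsTr 4 (eisenstein4 ^ 2) [1, 480, 61920, 1050240] :=
  pfA_1.pow' pfA_1 rfl (by decide +kernel)

theorem pfA_3 : IsTr 4 (eisenstein4 ^ 3) [1, 720, 179280, 16954560] :=
  pfA_2.pow' pfA_1 rfl (by decide +kernel)

theorem xxA : IsTr 4 (X : PowerSeries ℤ) [0, 1, 0, 0] :=
  (isTr_X 4).congr (by decide +kernel)

theorem xeA : IsTr 4 (X * (PowerSeries.expand 2 (by norm_num) etaProd) ^ 24) [0, 1, 0, -24] :=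
  xxA.mul' pxA_24 (by decide +kernel)

theorem ccA_256 : IsTr 4 (C (256 : ℤ) : PowerSeries ℤ) [256, 0, 0, 0] :=
  (isTr_C 4 256).congr (by decide +kernel)

theorem cxA_256 : IsTr 4 (C (256 : ℤ) * (X * (PowerSeries.expand 2 (by norm_num) etaProd) ^ 24)) [0, 256, 0, -6144] :=
  ccA_256.mul' xeA (by decide +kernel)

theorem smA_256 : IsTr 4 (etaProd ^ 24 + C (256 : ℤ) * (X * (PowerSeries.expand 2 (by norm_num) etaProd) ^ 24)) [1, 232, 252, -7616] :=
  peA_24.add' cxA_256 (by decide +kernel)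

theorem cuA_1 : IsTr 4 ((etaProd ^ 24 + C (256 : ℤ) * (X * (PowerSeries.expand 2 (by norm_num) etaProd) ^ 24)) ^ 1) [1, 232, 252, -7616] := smA_256.pow_one'

theorem cuA_2 : IsTr 4 ((etaProd ^ 24 + C (256 : ℤ) * (X * (PowerSeries.expand 2 (by norm_num) etaProd) ^ 24)) ^ 2) [1, 464, 54328, 101696] :=
  cuA_1.pow' cuA_1 rfl (by decide +kernel)

theorem cuA_3 : IsTr 4 ((etaProd ^ 24 + C (256 : ℤ) * (X * (PowerSeries.expand 2 (by norm_num) etaProd) ^ 24)) ^ 3) [1, 696, 162228, 12815104] :=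
  cuA_2.pow' cuA_1 rfl (by decide +kernel)

theorem rhA_1 : IsTr 4 (eisenstein4 ^ 3 * etaProd ^ 24) [1, 696, 162252, 12831808] :=
  pfA_3.mul' peA_24 (by decide +kernel)

theorem rhA_2 : IsTr 4 (eisenstein4 ^ 3 * etaProd ^ 24 * (PowerSeries.expand 2 (by norm_num) etaProd) ^ 24) [1, 696, 162228, 12815104] :=
  rhA_1.mul' pxA_24 (by decide +kernel)

theorem dfA : IsTr 4 ((etaProd ^ 24 + C (256 : ℤ) * (X * (PowerSeries.expand 2 (by norm_num) etaProd) ^ 24)) ^ 3 - eisenstein4 ^ 3 * etaProd ^ 24 * (PowerSeries.expand 2 (by norm_num) etaProd) ^ 24) [0, 0, 0, 0] :=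
  cuA_3.sub' rhA_2 (by decide +kernel)

/-- the level 2 truncation identity. -/
theorem dvdA : (X : PowerSeries ℤ) ^ 4 ∣
    (etaProd ^ 24 + C (256 : ℤ) * (X * (PowerSeries.expand 2 (by norm_num) etaProd) ^ 24)) ^ 3 - eisenstein4 ^ 3 * etaProd ^ 24 * (PowerSeries.expand 2 (by norm_num) etaProd) ^ 24 :=
  dfA.X_pow_dvd (by decide +kernel)


/-! ### level 3: the identity modulo `X ^ 9` -/

theorem prB_0 : IsTr 9 (∏ m ∈ Finset.range 0, (1 - (X : PowerSeries ℤ) ^ (m + 1))) [1, 0, 0, 0, 0, 0, 0, 0, 0] :=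
  isTr_prod_zero 9 (by decide +kernel)

theorem prB_1 : IsTr 9 (∏ m ∈ Finset.range 1, (1 - (X : PowerSeries ℤ) ^ (m + 1))) [1, -1, 0, 0, 0, 0, 0, 0, 0] :=
  prB_0.prod_succ (by decide +kernel)

theorem prB_2 : IsTr 9 (∏ m ∈ Finset.range 2, (1 - (X : PowerSeries ℤ) ^ (m + 1))) [1, -1, -1, 1, 0, 0, 0, 0, 0] :=
  prB_1.prod_succ (by decide +kernel)

theorem prB_3 : IsTr 9 (∏ m ∈ Finset.range 3, (1 - (X : PowerSeries ℤ) ^ (m + 1))) [1, -1, -1, 0, 1, 1, -1, 0, 0] :=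
  prB_2.prod_succ (by decide +kernel)

theorem prB_4 : IsTr 9 (∏ m ∈ Finset.range 4, (1 - (X : PowerSeries ℤ) ^ (m + 1))) [1, -1, -1, 0, 0, 2, 0, 0, -1] :=
  prB_3.prod_succ (by decide +kernel)

theorem prB_5 : IsTr 9 (∏ m ∈ Finset.range 5, (1 - (X : PowerSeries ℤ) ^ (m + 1))) [1, -1, -1, 0, 0, 1, 1, 1, -1] :=
  prB_4.prod_succ (by decide +kernel)

theorem prB_6 : IsTr 9 (∏ m ∈ Finset.range 6, (1 - (X : PowerSeries ℤ) ^ (m + 1))) [1, -1, -1, 0, 0, 1, 0, 2, 0] :=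
  prB_5.prod_succ (by decide +kernel)

theorem prB_7 : IsTr 9 (∏ m ∈ Finset.range 7, (1 - (X : PowerSeries ℤ) ^ (m + 1))) [1, -1, -1, 0, 0, 1, 0, 1, 1] :=
  prB_6.prod_succ (by decide +kernel)

theorem prB_8 : IsTr 9 (∏ m ∈ Finset.range 8, (1 - (X : PowerSeries ℤ) ^ (m + 1))) [1, -1, -1, 0, 0, 1, 0, 1, 0] :=
  prB_7.prod_succ (by decide +kernel)

theorem prB_9 : IsTr 9 (∏ m ∈ Finset.range 9, (1 - (X : PowerSeries ℤ) ^ (m + 1))) [1, -1, -1, 0, 0, 1, 0, 1, 0] :=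
  prB_8.prod_succ (by decide +kernel)

theorem etaB : IsTr 9 etaProd [1, -1, -1, 0, 0, 1, 0, 1, 0] := isTr_etaProd prB_9

theorem etxB : IsTr 9 (PowerSeries.expand 3 (by norm_num) etaProd) [1, 0, 0, -1, 0, 0, -1, 0, 0] :=
  etaB.expand' 3 (by norm_num) (by decide +kernel)

theorem peB_1 : IsTr 9 (etaProd ^ 1) [1, -1, -1, 0, 0, 1, 0, 1, 0] := etaB.pow_one'

theorem peB_2 : IsTr 9 (etaProd ^ 2) [1, -2, -1, 2, 1, 2, -2, 0, -2] :=
  peB_1.pow' peB_1 rfl (by decide +kernel)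

theorem peB_3 : IsTr 9 (etaProd ^ 3) [1, -3, 0, 5, 0, 0, -7, 0, 0] :=
  peB_2.pow' peB_1 rfl (by decide +kernel)

theorem peB_6 : IsTr 9 (etaProd ^ 6) [1, -6, 9, 10, -30, 0, 11, 42, 0] :=
  peB_3.pow' peB_3 rfl (by decide +kernel)

theorem peB_12 : IsTr 9 (etaProd ^ 12) [1, -12, 54, -88, -99, 540, -418, -648, 594] :=
  peB_6.pow' peB_6 rfl (by decide +kernel)

theorem pxB_1 : IsTr 9 ((PowerSeries.expand 3 (by norm_num) etaProd) ^ 1) [1, 0, 0, -1, 0, 0, -1, 0, 0] := etxB.pow_one'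

theorem pxB_2 : IsTr 9 ((PowerSeries.expand 3 (by norm_num) etaProd) ^ 2) [1, 0, 0, -2, 0, 0, -1, 0, 0] :=
  pxB_1.pow' pxB_1 rfl (by decide +kernel)

theorem pxB_3 : IsTr 9 ((PowerSeries.expand 3 (by norm_num) etaProd) ^ 3) [1, 0, 0, -3, 0, 0, 0, 0, 0] :=
  pxB_2.pow' pxB_1 rfl (by decide +kernel)

theorem pxB_6 : IsTr 9 ((PowerSeries.expand 3 (by norm_num) etaProd) ^ 6) [1, 0, 0, -6, 0, 0, 9, 0, 0] :=
  pxB_3.pow' pxB_3 rfl (by decide +kernel)

theorem pxB_12 : IsTr 9 ((PowerSeries.expand 3 (by norm_num) etaProd) ^ 12) [1, 0, 0, -12, 0, 0, 54, 0, 0] :=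
  pxB_6.pow' pxB_6 rfl (by decide +kernel)

theorem e4B : IsTr 9 eisenstein4 [1, 240, 2160, 6720, 17520, 30240, 60480, 82560, 140400] :=
  (isTr_eisenstein4 9).congr (by decide +kernel)

theorem pfB_1 : IsTr 9 (eisenstein4 ^ 1) [1, 240, 2160, 6720, 17520, 30240, 60480, 82560, 140400] := e4B.pow_one'

theorem pfB_2 : IsTr 9 (eisenstein4 ^ 2) [1, 480, 61920, 1050240, 7926240, 37500480, 135480960, 395301120, 1014559200] :=
  pfB_1.pow' pfB_1 rfl (by decide +kernel)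

theorem pfB_3 : IsTr 9 (eisenstein4 ^ 3) [1, 720, 179280, 16954560, 396974160, 4632858720, 34413301440, 187477879680, 814940600400] :=
  pfB_2.pow' pfB_1 rfl (by decide +kernel)

theorem xxB : IsTr 9 (X : PowerSeries ℤ) [0, 1, 0, 0, 0, 0, 0, 0, 0] :=
  (isTr_X 9).congr (by decide +kernel)

theorem xeB : IsTr 9 (X * (PowerSeries.expand 3 (by norm_num) etaProd) ^ 12) [0, 1, 0, 0, -12, 0, 0, 54, 0] :=
  xxB.mul' pxB_12 (by decide +kernel)

theorem ccB_27 : IsTr 9 (C (27 : ℤ) : PowerSeries ℤ) [27, 0, 0, 0, 0, 0, 0, 0, 0] :=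
  (isTr_C 9 27).congr (by decide +kernel)

theorem cxB_27 : IsTr 9 (C (27 : ℤ) * (X * (PowerSeries.expand 3 (by norm_num) etaProd) ^ 12)) [0, 27, 0, 0, -324, 0, 0, 1458, 0] :=
  ccB_27.mul' xeB (by decide +kernel)

theorem smB_27 : IsTr 9 (etaProd ^ 12 + C (27 : ℤ) * (X * (PowerSeries.expand 3 (by norm_num) etaProd) ^ 12)) [1, 15, 54, -88, -423, 540, -418, 810, 594] :=
  peB_12.add' cxB_27 (by decide +kernel)

theorem ccB_243 : IsTr 9 (C (243 : ℤ) : PowerSeries ℤ) [243, 0, 0, 0, 0, 0, 0, 0, 0] :=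
  (isTr_C 9 243).congr (by decide +kernel)

theorem cxB_243 : IsTr 9 (C (243 : ℤ) * (X * (PowerSeries.expand 3 (by norm_num) etaProd) ^ 12)) [0, 243, 0, 0, -2916, 0, 0, 13122, 0] :=
  ccB_243.mul' xeB (by decide +kernel)

theorem smB_243 : IsTr 9 (etaProd ^ 12 + C (243 : ℤ) * (X * (PowerSeries.expand 3 (by norm_num) etaProd) ^ 12)) [1, 231, 54, -88, -3015, 540, -418, 12474, 594] :=
  peB_12.add' cxB_243 (by decide +kernel)

theorem cuB_1 : IsTr 9 ((etaProd ^ 12 + C (243 : ℤ) * (X * (PowerSeries.expand 3 (by norm_num) etaProd) ^ 12)) ^ 1) [1, 231, 54, -88, -3015, 540, -418, 12474, 594] := smB_243.pow_one'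

theorem cuB_2 : IsTr 9 ((etaProd ^ 12 + C (243 : ℤ) * (X * (PowerSeries.expand 3 (by norm_num) etaProd) ^ 12)) ^ 2) [1, 462, 53469, 24772, -43770, -1401354, -69232, 420792, 14714217] :=
  cuB_1.pow' cuB_1 rfl (by decide +kernel)

theorem cuB_3 : IsTr 9 ((etaProd ^ 12 + C (243 : ℤ) * (X * (PowerSeries.expand 3 (by norm_num) etaProd) ^ 12)) ^ 3) [1, 693, 160245, 12400971, 8522217, -16272198, -489285495, -133388118, 360254763] :=
  cuB_2.pow' cuB_1 rfl (by decide +kernel)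

theorem lhB : IsTr 9 ((etaProd ^ 12 + C (27 : ℤ) * (X * (PowerSeries.expand 3 (by norm_num) etaProd) ^ 12)) * (etaProd ^ 12 + C (243 : ℤ) * (X * (PowerSeries.expand 3 (by norm_num) etaProd) ^ 12)) ^ 3) [1, 708, 170694, 14841980, 203128605, 766819332, -1431864028, -14260691628, -23604824250] :=
  smB_27.mul' cuB_3 (by decide +kernel)

theorem rhB_1 : IsTr 9 (eisenstein4 ^ 3 * etaProd ^ 12) [1, 708, 170694, 14841992, 203137101, 768867660, -1253760178, -11823084648, -14387629806] :=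
  pfB_3.mul' peB_12 (by decide +kernel)

theorem rhB_2 : IsTr 9 (eisenstein4 ^ 3 * etaProd ^ 12 * (PowerSeries.expand 3 (by norm_num) etaProd) ^ 12) [1, 708, 170694, 14841980, 203128605, 766819332, -1431864028, -14260691628, -23604824250] :=
  rhB_1.mul' pxB_12 (by decide +kernel)

theorem dfB : IsTr 9 ((etaProd ^ 12 + C (27 : ℤ) * (X * (PowerSeries.expand 3 (by norm_num) etaProd) ^ 12)) * (etaProd ^ 12 + C (243 : ℤ) * (X * (PowerSeries.expand 3 (by norm_num) etaProd) ^ 12)) ^ 3 - eisenstein4 ^ 3 * etaProd ^ 12 * (PowerSeries.expand 3 (by norm_num) etaProd) ^ 12) [0, 0, 0, 0, 0, 0, 0, 0, 0] :=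
  lhB.sub' rhB_2 (by decide +kernel)

/-- the level 3 truncation identity. -/
theorem dvdB : (X : PowerSeries ℤ) ^ 9 ∣
    (etaProd ^ 12 + C (27 : ℤ) * (X * (PowerSeries.expand 3 (by norm_num) etaProd) ^ 12)) * (etaProd ^ 12 + C (243 : ℤ) * (X * (PowerSeries.expand 3 (by norm_num) etaProd) ^ 12)) ^ 3 - eisenstein4 ^ 3 * etaProd ^ 12 * (PowerSeries.expand 3 (by norm_num) etaProd) ^ 12 :=
  dfB.X_pow_dvd (by decide +kernel)


end Fermat.Agent.S18.HauptTrunc
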