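import Mathlib
import Fermat.Agent.S18_HauptPoly
import Fermat.Agent.S18_HauptTrunc

/-!
# S18 (WP-H3): the Hauptmodul series of levels 2 and 3 (formal part)

`h2Z = (η(τ)/η(2τ))^24 = q⁻¹ - 24 + …` and `h3Z = (η(τ)/η(3τ))^12 = q⁻¹ - 12 + …` as Laurent
series with integer coefficients, their shapes, and the finite checks: the expressions
`(h₂ + 256)³ - j h₂²` and `(h₃ + 27)(h₃ + 243)³ - j h₃³` have no coefficients at `q^k`, `k ≤ 0`
(resp. `k ≤ 4`).
-/

set_option autoImplicit false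

noncomputable section

open ModularCurve HahnSeries

namespace Fermat.Agent.S18.Haupt

open Fermat.Agent.S18.HauptPoly Fermat.Agent.S18.HauptTrunc

/-! ### the inverse of the Euler product -/

/-- `∏ (1 - qⁿ)⁻¹`. -/
def etaInv : PowerSeries ℤ := etaProd.invOfUnit 1

theorem etaProd_mul_etaInv : etaProd * etaInv = 1 :=
  PowerSeries.mul_invOfUnit _ _ (by rw [constantCoeff_etaProd]; rfl)

theorem constantCoeff_etaInv : PowerSeries.constantCoeff etaInv = 1 := by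
  have h := congrArg (PowerSeries.constantCoeff (R := ℤ)) etaProd_mul_etaInv
  rwa [map_mul, constantCoeff_etaProd, one_mul, map_one] at h

theorem etaInv_pow : etaInv ^ 24 = dedekindEtaUnitInv := by
  have h1 : dedekindEtaUnit * etaInv ^ 24 = 1 := by
    rw [dedekindEtaUnit, ← mul_pow, etaProd_mul_etaInv, one_pow]
  have h2 := dedekindEtaUnit_mul_inv
  calc etaInv ^ 24 = etaInv ^ 24 * (dedekindEtaUnit * dedekindEtaUnitInv) := by rw [h2, mul_one]
    _ = (dedekindEtaUnit * etaInv ^ 24) * dedekindEtaUnitInv := by ring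
    _ = dedekindEtaUnitInv := by rw [h1, one_mul]

theorem jNum_eq : jNum = eisenstein4 ^ 3 * etaInv ^ 24 := by rw [jNum, etaInv_pow]

/-- `q ↦ q^p` on power series inside Laurent series. -/
theorem qExpand_ofPowerSeries {R : Type*} [CommRing R] (p : ℕ) [NeZero p] (f : PowerSeries R) :
    qExpand R p (ofPowerSeries ℤ R f)
      = ofPowerSeries ℤ R (PowerSeries.expand p (NeZero.ne p) f) := by
  have hp : (0 : ℤ) < p := by exact_mod_cast NeZero.pos p
  ext k
  by_cases hd : (p : ℤ) ∣ k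
  · obtain ⟨m, rfl⟩ := hd
    rw [qExpand_coeff_mul]
    rcases lt_or_ge m 0 with hm | hm
    · rw [ofPowerSeries_coeff_of_neg _ hm, ofPowerSeries_coeff_of_neg _ (by nlinarith)]
    · lift m to ℕ using hm
      rw [ofPowerSeries_apply_coeff, show ((p : ℤ) * (m : ℤ)) = ((p * m : ℕ) : ℤ) by push_cast; ring,
        ofPowerSeries_apply_coeff, PowerSeries.coeff_expand_mul]
  · rw [qExpand_coeff_of_not_dvd _ _ hd]
    rcases lt_or_ge k 0 with hk | hk
    · rw [ofPowerSeries_coeff_of_neg _ hk]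
    · lift k to ℕ using hk
      rw [ofPowerSeries_apply_coeff, PowerSeries.coeff_expand_of_not_dvd]
      exact fun h => hd (Int.natCast_dvd_natCast.mpr h)

/-! ### the series -/

/-- `(η(τ)/η(2τ))^24 = q⁻¹ ∏ (1 - qⁿ)^24 / (1 - q^(2n))^24`. -/
def h2Z : LaurentSeries ℤ :=
  single (-1 : ℤ) (1 : ℤ) *
    (ofPowerSeries ℤ ℤ (etaProd ^ 24) * qExpand ℤ 2 (ofPowerSeries ℤ ℤ (etaInv ^ 24)))

/-- `(η(τ)/η(3τ))^12 = q⁻¹ ∏ (1 - qⁿ)^12 / (1 - q^(3n))^12`. -/
def h3Z : LaurentSeries ℤ :=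
  single (-1 : ℤ) (1 : ℤ) *
    (ofPowerSeries ℤ ℤ (etaProd ^ 12) * qExpand ℤ 3 (ofPowerSeries ℤ ℤ (etaInv ^ 12)))

/-- the power series part of `h2Z`. -/
def H2 : PowerSeries ℤ := etaProd ^ 24 * PowerSeries.expand 2 two_ne_zero etaInv ^ 24

/-- the power series part of `h3Z`. -/
def H3 : PowerSeries ℤ := etaProd ^ 12 * PowerSeries.expand 3 three_ne_zero etaInv ^ 12

theorem h2Z_eq_H2 : h2Z = single (-1 : ℤ) (1 : ℤ) * ofPowerSeries ℤ ℤ H2 := by
  rw [h2Z, qExpand_ofPowerSeries, ← map_mul, H2, map_pow]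

theorem h3Z_eq_H3 : h3Z = single (-1 : ℤ) (1 : ℤ) * ofPowerSeries ℤ ℤ H3 := by
  rw [h3Z, qExpand_ofPowerSeries, ← map_mul, H3, map_pow]

theorem constantCoeff_H2 : PowerSeries.constantCoeff H2 = 1 := by
  rw [H2, map_mul, map_pow, map_pow, PowerSeries.constantCoeff_expand, constantCoeff_etaProd,
    constantCoeff_etaInv, one_pow, one_mul]

theorem constantCoeff_H3 : PowerSeries.constantCoeff H3 = 1 := by
  rw [H3, map_mul, map_pow, map_pow, PowerSeries.constantCoeff_expand, constantCoeff_etaProd,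
    constantCoeff_etaInv, one_pow, one_mul]

theorem h2Z_eq : ∃ P : PowerSeries ℤ, PowerSeries.constantCoeff P = 1 ∧
    h2Z = single (-1 : ℤ) (1 : ℤ) * ofPowerSeries ℤ ℤ P := ⟨H2, constantCoeff_H2, h2Z_eq_H2⟩

theorem h3Z_eq : ∃ P : PowerSeries ℤ, PowerSeries.constantCoeff P = 1 ∧
    h3Z = single (-1 : ℤ) (1 : ℤ) * ofPowerSeries ℤ ℤ P := ⟨H3, constantCoeff_H3, h3Z_eq_H3⟩

/-! ### the finite checks -/

theorem jqModC_int : jqModC ℤ = single (-1 : ℤ) (1 : ℤ) * ofPowerSeries ℤ ℤ jNum := by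
  rw [jqModC]
  congr 2

theorem single_mul_X : single (-1 : ℤ) (1 : ℤ) * ofPowerSeries ℤ ℤ PowerSeries.X = 1 := by
  rw [ofPowerSeries_X, single_mul_single]
  simp

theorem expand_mul_expand (p : ℕ) (hp : p ≠ 0) :
    PowerSeries.expand p hp etaInv * PowerSeries.expand p hp etaProd = 1 := by
  rw [← map_mul, mul_comm, etaProd_mul_etaInv, map_one]

/-- the level 2 power series identity. -/
theorem T2_eq : (H2 + 256 * PowerSeries.X) ^ 3 - jNum * H2 ^ 2
    = PowerSeries.expand 2 two_ne_zero etaInv ^ 72 *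
      ((etaProd ^ 24 + PowerSeries.C (256 : ℤ) *
          (PowerSeries.X * PowerSeries.expand 2 two_ne_zero etaProd ^ 24)) ^ 3
        - eisenstein4 ^ 3 * etaProd ^ 24 * PowerSeries.expand 2 two_ne_zero etaProd ^ 24) := by
  have hcb : PowerSeries.expand 2 two_ne_zero etaInv ^ 24 *
      PowerSeries.expand 2 two_ne_zero etaProd ^ 24 = 1 := by
    rw [← mul_pow, expand_mul_expand, one_pow]
  have had : etaProd ^ 24 * etaInv ^ 24 = 1 := by rw [← mul_pow, etaProd_mul_etaInv, one_pow]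
  have hC : (PowerSeries.C (256 : ℤ) : PowerSeries ℤ) = 256 := map_ofNat _ _
  rw [jNum_eq, H2, hC]
  generalize PowerSeries.expand 2 two_ne_zero etaInv = c at hcb ⊢
  generalize PowerSeries.expand 2 two_ne_zero etaProd = b at hcb ⊢
  generalize etaProd = a at had ⊢
  generalize etaInv = d at had ⊢
  generalize eisenstein4 = e
  have e1 : a ^ 24 * c ^ 24 + 256 * PowerSeries.X
      = c ^ 24 * (a ^ 24 + 256 * (PowerSeries.X * b ^ 24)) := by
    linear_combination (-(256 * PowerSeries.X)) * hcb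
  rw [e1]
  linear_combination (e ^ 3 * a ^ 24 * c ^ 48) * hcb - (e ^ 3 * a ^ 24 * c ^ 48) * had

theorem T2_dvd : (PowerSeries.X : PowerSeries ℤ) ^ 4 ∣ (H2 + 256 * PowerSeries.X) ^ 3 - jNum * H2 ^ 2 := by
  rw [T2_eq]
  exact Dvd.dvd.mul_left dvdA _

/-- the level 3 power series identity. -/
theorem T3_eq : (H3 + 27 * PowerSeries.X) * (H3 + 243 * PowerSeries.X) ^ 3 - jNum * H3 ^ 3
    = PowerSeries.expand 3 three_ne_zero etaInv ^ 48 *
      ((etaProd ^ 12 + PowerSeries.C (27 : ℤ) *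
          (PowerSeries.X * PowerSeries.expand 3 three_ne_zero etaProd ^ 12)) *
        (etaProd ^ 12 + PowerSeries.C (243 : ℤ) *
          (PowerSeries.X * PowerSeries.expand 3 three_ne_zero etaProd ^ 12)) ^ 3
        - eisenstein4 ^ 3 * etaProd ^ 12 * PowerSeries.expand 3 three_ne_zero etaProd ^ 12) := by
  have hcb : PowerSeries.expand 3 three_ne_zero etaInv ^ 12 *
      PowerSeries.expand 3 three_ne_zero etaProd ^ 12 = 1 := by
    rw [← mul_pow, expand_mul_expand, one_pow]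
  have had : etaProd ^ 24 * etaInv ^ 24 = 1 := by rw [← mul_pow, etaProd_mul_etaInv, one_pow]
  have hC : (PowerSeries.C (27 : ℤ) : PowerSeries ℤ) = 27 := map_ofNat _ _
  have hC' : (PowerSeries.C (243 : ℤ) : PowerSeries ℤ) = 243 := map_ofNat _ _
  rw [jNum_eq, H3, hC, hC']
  generalize PowerSeries.expand 3 three_ne_zero etaInv = c at hcb ⊢
  generalize PowerSeries.expand 3 three_ne_zero etaProd = b at hcb ⊢
  generalize etaProd = a at had ⊢
  generalize etaInv = d at had ⊢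
  generalize eisenstein4 = e
  have e1 : a ^ 12 * c ^ 12 + 27 * PowerSeries.X
      = c ^ 12 * (a ^ 12 + 27 * (PowerSeries.X * b ^ 12)) := by
    linear_combination (-(27 * PowerSeries.X)) * hcb
  have e2 : a ^ 12 * c ^ 12 + 243 * PowerSeries.X
      = c ^ 12 * (a ^ 12 + 243 * (PowerSeries.X * b ^ 12)) := by
    linear_combination (-(243 * PowerSeries.X)) * hcb
  rw [e1, e2]
  linear_combination (e ^ 3 * a ^ 12 * c ^ 36) * hcb - (e ^ 3 * a ^ 12 * c ^ 36) * had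

theorem T3_dvd : (PowerSeries.X : PowerSeries ℤ) ^ 9 ∣
    (H3 + 27 * PowerSeries.X) * (H3 + 243 * PowerSeries.X) ^ 3 - jNum * H3 ^ 3 := by
  rw [T3_eq]
  exact Dvd.dvd.mul_left dvdB _

/-! ### the Laurent series forms of the checks -/

/-- `(h₂ + 256)³ - j h₂²` has no coefficients at `q^k`, `k ≤ 0`. -/
theorem relF2_coeff : ∀ k : ℤ, k ≤ 0 → ((h2Z + 256) ^ 3 - jqModC ℤ * h2Z ^ 2).coeff k = 0 := by
  have e : (h2Z + 256) ^ 3 - jqModC ℤ * h2Z ^ 2
      = single (-((3 : ℕ) : ℤ)) (1 : ℤ) *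
        ofPowerSeries ℤ ℤ ((H2 + 256 * PowerSeries.X) ^ 3 - jNum * H2 ^ 2) := by
    rw [h2Z_eq_H2, jqModC_int]
    have hs : single (-((3 : ℕ) : ℤ)) (1 : ℤ) = single (-1 : ℤ) (1 : ℤ) ^ 3 := by
      rw [single_pow]
      simp
    rw [hs]
    simp only [map_sub, map_pow, map_add, map_mul, map_ofNat]
    have hsx := single_mul_X
    generalize single (-1 : ℤ) (1 : ℤ) = s at hsx ⊢
    generalize ofPowerSeries ℤ ℤ PowerSeries.X = x at hsx ⊢
    generalize ofPowerSeries ℤ ℤ H2 = A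
    generalize ofPowerSeries ℤ ℤ jNum = J
    have e1 : s * A + 256 = s * (A + 256 * x) := by rw [mul_add, mul_left_comm, hsx, mul_one]
    rw [e1]
    ring
  intro k hk
  rw [e, coeff_single_mul_ofPS']
  split_ifs with h
  · exact (PowerSeries.X_pow_dvd_iff.mp T2_dvd) _ (by omega)
  · rfl

theorem relF3_eq : (h3Z + 27) * (h3Z + 243) ^ 3 - jqModC ℤ * h3Z ^ 3
    = single (-((4 : ℕ) : ℤ)) (1 : ℤ) * ofPowerSeries ℤ ℤ
        ((H3 + 27 * PowerSeries.X) * (H3 + 243 * PowerSeries.X) ^ 3 - jNum * H3 ^ 3) := by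
  rw [h3Z_eq_H3, jqModC_int]
  have hs : single (-((4 : ℕ) : ℤ)) (1 : ℤ) = single (-1 : ℤ) (1 : ℤ) ^ 4 := by
    rw [single_pow]
    simp
  rw [hs]
  simp only [map_sub, map_pow, map_add, map_mul, map_ofNat]
  have hsx := single_mul_X
  generalize single (-1 : ℤ) (1 : ℤ) = s at hsx ⊢
  generalize ofPowerSeries ℤ ℤ PowerSeries.X = x at hsx ⊢
  generalize ofPowerSeries ℤ ℤ H3 = A
  generalize ofPowerSeries ℤ ℤ jNum = J
  have e1 : s * A + 27 = s * (A + 27 * x) := by rw [mul_add, mul_left_comm, hsx, mul_one]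
  have e2 : s * A + 243 = s * (A + 243 * x) := by rw [mul_add, mul_left_comm, hsx, mul_one]
  rw [e1, e2]
  ring

/-- `(h₃ + 27)(h₃ + 243)³ - j h₃³` has no coefficients at `q^k`, `k ≤ 4`. -/
theorem relF3_coeff : ∀ k : ℤ, k < 5 →
    ((h3Z + 27) * (h3Z + 243) ^ 3 - jqModC ℤ * h3Z ^ 3).coeff k = 0 := by
  intro k hk
  rw [relF3_eq, coeff_single_mul_ofPS']
  split_ifs with h
  · exact (PowerSeries.X_pow_dvd_iff.mp T3_dvd) _ (by omega)
  · rfl

theorem relG3_eq : (27 - h3Z) * (243 - h3Z) ^ 3 + jqModC ℤ * h3Z ^ 3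
    = single (-((4 : ℕ) : ℤ)) (1 : ℤ) * ofPowerSeries ℤ ℤ
        ((27 * PowerSeries.X - H3) * (243 * PowerSeries.X - H3) ^ 3 + jNum * H3 ^ 3) := by
  rw [h3Z_eq_H3, jqModC_int]
  have hs : single (-((4 : ℕ) : ℤ)) (1 : ℤ) = single (-1 : ℤ) (1 : ℤ) ^ 4 := by
    rw [single_pow]
    simp
  rw [hs]
  simp only [map_sub, map_pow, map_add, map_mul, map_ofNat]
  have hsx := single_mul_X
  generalize single (-1 : ℤ) (1 : ℤ) = s at hsx ⊢
  generalize ofPowerSeries ℤ ℤ PowerSeries.X = x at hsx ⊢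
  generalize ofPowerSeries ℤ ℤ H3 = A
  generalize ofPowerSeries ℤ ℤ jNum = J
  have e1 : 27 - s * A = s * (27 * x - A) := by rw [mul_sub, mul_left_comm, hsx, mul_one]
  have e2 : 243 - s * A = s * (243 * x - A) := by rw [mul_sub, mul_left_comm, hsx, mul_one]
  rw [e1, e2]
  ring

theorem relG3_coeff_lt : ∀ k : ℤ, k < -4 →
    ((27 - h3Z) * (243 - h3Z) ^ 3 + jqModC ℤ * h3Z ^ 3).coeff k = 0 := by
  intro k hk
  rw [relG3_eq, coeff_single_mul_ofPS', if_neg (by push_cast; omega)]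

theorem relG3_ne_zero : (27 - h3Z) * (243 - h3Z) ^ 3 + jqModC ℤ * h3Z ^ 3 ≠ 0 := by
  intro h0
  have h1 := congrArg (fun s : LaurentSeries ℤ => s.coeff (-4)) h0
  simp only [HahnSeries.coeff_zero] at h1
  rw [relG3_eq, coeff_single_mul_ofPS', if_pos (by norm_num)] at h1
  have h2 : ((-4 : ℤ) + ((4 : ℕ) : ℤ)).toNat = 0 := by norm_num
  rw [h2, PowerSeries.coeff_zero_eq_constantCoeff] at h1
  simp only [map_add, map_sub, map_mul, map_pow, constantCoeff_H3, constantCoeff_jNum,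
    PowerSeries.constantCoeff_X, map_ofNat] at h1
  norm_num at h1

/-- the relation between `j` and `D = h₃²`, as the product of the two `h₃`-relations. -/
theorem relQ3_eq :
    ((h3Z ^ 2) ^ 2 + 196830 * h3Z ^ 2 + 387420489) ^ 2
      - h3Z ^ 2 * ((756 * h3Z ^ 2 + 19131876) - jqModC ℤ * h3Z ^ 2) ^ 2
    = ((h3Z + 27) * (h3Z + 243) ^ 3 - jqModC ℤ * h3Z ^ 3) *
      ((27 - h3Z) * (243 - h3Z) ^ 3 + jqModC ℤ * h3Z ^ 3) := by
  ring

theorem relQ3_coeff : ∀ k : ℤ, k ≤ 0 →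
    (((h3Z ^ 2) ^ 2 + 196830 * h3Z ^ 2 + 387420489) ^ 2
      - h3Z ^ 2 * ((756 * h3Z ^ 2 + 19131876) - jqModC ℤ * h3Z ^ 2) ^ 2).coeff k = 0 := by
  intro k hk
  rw [relQ3_eq]
  exact coeff_mul_eq_zero_of_lt relF3_coeff relG3_coeff_lt k (by omega)

end Fermat.Agent.S18.Haupt
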