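import Mathlib

set_option autoImplicit false

open Finset
open scoped ArithmeticFunction.Moebius

namespace Fermat.Agent.S28.Eta

/-- Jordan's totient `J₂(n) = ∑_{d e = n} μ(d) e²`. -/
def jordan2 (n : ℕ) : ℤ := ∑ x ∈ n.divisorsAntidiagonal, (μ x.1 : ℤ) * (x.2 : ℤ) ^ 2

theorem sum_jordan2 : ∀ n : ℕ, n > 0 → ∑ i ∈ n.divisors, jordan2 i = (n : ℤ) ^ 2 :=
  (ArithmeticFunction.sum_eq_iff_sum_mul_moebius_eq (f := jordan2)
    (g := fun n => (n : ℤ) ^ 2)).mpr fun _ _ => rfl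

theorem sum_moebius_mul_gcd_sq (c : ℕ) : ∀ n : ℕ, n > 0 →
    ∑ x ∈ n.divisorsAntidiagonal, (μ x.1 : ℤ) * ((Nat.gcd c x.2 : ℕ) : ℤ) ^ 2
      = if n ∣ c then jordan2 n else 0 := by
  refine (ArithmeticFunction.sum_eq_iff_sum_mul_moebius_eq
    (f := fun n => if n ∣ c then jordan2 n else 0)
    (g := fun n => ((Nat.gcd c n : ℕ) : ℤ) ^ 2)).mp fun n hn => ?_
  have hg : 0 < Nat.gcd c n := Nat.gcd_pos_of_pos_right c hn
  rw [← sum_jordan2 _ hg, ← Finset.sum_filter]
  refine Finset.sum_congr ?_ fun _ _ => rfl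
  ext i
  simp only [Finset.mem_filter, Nat.mem_divisors]
  constructor
  · rintro ⟨⟨h1, -⟩, h2⟩
    exact ⟨Nat.dvd_gcd h2 h1, hg.ne'⟩
  · rintro ⟨h1, -⟩
    exact ⟨⟨h1.trans (Nat.gcd_dvd_right c n), hn.ne'⟩, h1.trans (Nat.gcd_dvd_left c n)⟩

theorem sum_moebius_mul_id : ∀ n : ℕ, n > 0 →
    ∑ x ∈ n.divisorsAntidiagonal, (μ x.1 : ℤ) * (x.2 : ℤ) = (n.totient : ℤ) := by
  refine (ArithmeticFunction.sum_eq_iff_sum_mul_moebius_eq
    (f := fun n => (n.totient : ℤ)) (g := fun n => (n : ℤ))).mp fun n _ => ?_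
  have := Nat.sum_totient n
  exact_mod_cast this

/-- the weights of the Igusa eta quotient: `w m = -μ(N/m) m`. -/
def igusaWeight (N : ℕ) (m : ℕ) : ℤ := -(μ (N / m) : ℤ) * m

/-- the order of the Igusa eta quotient at the cusp `γ ∞` (`c` the lower left entry). -/
theorem igusa_order (N : ℕ) (hN : 0 < N) (c : ℕ) :
    ∑ m ∈ N.divisors,
      igusaWeight N m * (((N / m : ℕ) : ℤ) * ((Nat.gcd c m : ℕ) : ℤ) ^ 2 - N)
      = N * ((N.totient : ℤ) - if N ∣ c then jordan2 N else 0) := by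
  have h1 := sum_moebius_mul_gcd_sq c N hN
  have h2 := sum_moebius_mul_id N hN
  rw [Nat.sum_divisorsAntidiagonal' (f := fun d m => (μ d : ℤ) * ((Nat.gcd c m : ℕ) : ℤ) ^ 2)] at h1
  rw [Nat.sum_divisorsAntidiagonal' (f := fun d m => (μ d : ℤ) * (m : ℤ))] at h2
  rw [← h1, ← h2, ← Finset.sum_sub_distrib, Finset.mul_sum]
  refine Finset.sum_congr rfl fun m hm => ?_
  have hmN : m * (N / m) = N := Nat.mul_div_cancel' (Nat.dvd_of_mem_divisors hm)
  have hmN' : (m : ℤ) * ((N / m : ℕ) : ℤ) = N := by exact_mod_cast hmN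
  unfold igusaWeight
  linear_combination (-(μ (N / m) : ℤ) * ((Nat.gcd c m : ℕ) : ℤ) ^ 2) * hmN'

/-- Jordan's totient as an arithmetic function. -/
noncomputable def jordanAF : ArithmeticFunction ℤ :=
  (μ : ArithmeticFunction ℤ) * ((ArithmeticFunction.pow 2 : ArithmeticFunction ℕ) : ArithmeticFunction ℤ)

theorem jordanAF_apply {n : ℕ} (hn : n ≠ 0) : jordanAF n = jordan2 n := by
  unfold jordanAF jordan2
  rw [ArithmeticFunction.mul_apply]
  refine Finset.sum_congr rfl fun x hx => ?_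
  have h2 : x.2 ≠ 0 := by
    have := Nat.mem_divisorsAntidiagonal.mp hx
    rintro h0
    rw [h0, mul_zero] at this
    exact hn this.1.symm
  simp [ArithmeticFunction.pow_apply, h2]

theorem isMultiplicative_jordanAF : ArithmeticFunction.IsMultiplicative jordanAF :=
  ArithmeticFunction.isMultiplicative_moebius.mul ArithmeticFunction.isMultiplicative_pow.natCast

theorem jordanAF_prime_pow {p k : ℕ} (hp : p.Prime) (hk : k ≠ 0) :
    jordanAF (p ^ k) = (p : ℤ) ^ (2 * k) - (p : ℤ) ^ (2 * (k - 1)) := by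
  rw [jordanAF_apply (pow_ne_zero _ hp.ne_zero)]
  unfold jordan2
  rw [Nat.sum_divisorsAntidiagonal (f := fun a b => (μ a : ℤ) * (b : ℤ) ^ 2),
    Nat.divisors_prime_pow hp, Finset.sum_map]
  simp only [Function.Embedding.coeFn_mk]
  obtain ⟨k, rfl⟩ := Nat.exists_eq_succ_of_ne_zero hk
  rw [Finset.sum_range_succ', Finset.sum_range_succ']
  have hz : ∑ i ∈ Finset.range k, (μ (p ^ (i + 1 + 1)) : ℤ) * ((p ^ (k + 1) / p ^ (i + 1 + 1) : ℕ) : ℤ) ^ 2 = 0 := by
    refine Finset.sum_eq_zero fun i _ => ?_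
    rw [ArithmeticFunction.moebius_apply_prime_pow hp (by omega), if_neg (by omega)]
    simp
  rw [hz, zero_add]
  have h1 : p ^ (k + 1) / p ^ (0 + 1) = p ^ k := by
    rw [zero_add, pow_one, pow_succ, Nat.mul_div_cancel _ hp.pos]
  rw [h1, pow_zero, Nat.div_one, ArithmeticFunction.moebius_apply_one,
    ArithmeticFunction.moebius_apply_prime_pow hp (by omega), if_pos (by omega)]
  push_cast
  simp only [Nat.succ_eq_add_one]
  ring

theorem jordan2_pos {n : ℕ} (hn : n ≠ 0) : 0 < jordan2 n := by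
  rw [← jordanAF_apply hn,
    isMultiplicative_jordanAF.multiplicative_factorization jordanAF hn]
  refine Finset.prod_pos fun p hp => ?_
  have hpp : p.Prime := Nat.prime_of_mem_primeFactors (Nat.support_factorization n ▸ hp)
  have hk : n.factorization p ≠ 0 := Finsupp.mem_support_iff.mp hp
  show 0 < jordanAF (p ^ n.factorization p)
  rw [jordanAF_prime_pow hpp hk]
  have h1 : (1 : ℤ) < p := by exact_mod_cast hpp.one_lt
  have h2 : (p : ℤ) ^ (2 * (n.factorization p - 1)) < (p : ℤ) ^ (2 * n.factorization p) :=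
    pow_lt_pow_right₀ h1 (by omega)
  linarith

end Fermat.Agent.S28.Eta
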