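import Mathlib
import Fermat.Agent.S24_QLaurent
import Fermat.Agent.S24_JAnalytic
import Fermat.Agent.S24_TowerRing

set_option autoImplicit false

noncomputable section

open UpperHalfPlane ModularCurve
open scoped MatrixGroups Manifold

namespace Fermat.Agent.S28.Eta

open Fermat.Agent.S24 Fermat.Agent.S24.QLaurent

local notation "Δ" => ModularForm.discriminant

/-- the monomial `q_N ^ k`. -/
theorem hasLaurentExp_qN_zpow (N : ℕ) [NeZero N] (k : ℤ) :
    HasLaurentExp N (fun τ => qN N τ ^ k) (HahnSeries.single k (1 : ℂ)) := by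
  refine ⟨(-k).toNat, fun n hn => ?_, fun τ => ?_⟩
  · rw [HahnSeries.coeff_single_of_ne]
    omega
  · have hq := qN_ne_zero N τ
    have h := hasSum_ite_eq (k + (-k).toNat).toNat (qN N τ ^ (k + (-k).toNat).toNat)
    have e : (fun n : ℕ => (HahnSeries.single k (1 : ℂ)).coeff ((n : ℤ) - ((-k).toNat : ℕ)) * qN N τ ^ n)
        = fun n : ℕ => if n = (k + (-k).toNat).toNat then qN N τ ^ (k + (-k).toNat).toNat else 0 := by
      funext n
      by_cases hn : n = (k + (-k).toNat).toNat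
      · rw [if_pos hn, hn]
        have : (((k + (-k).toNat).toNat : ℕ) : ℤ) - ((-k).toNat : ℕ) = k := by omega
        rw [this, HahnSeries.coeff_single_same, one_mul]
      · rw [if_neg hn, HahnSeries.coeff_single_of_ne, zero_mul]
        omega
    rw [e]
    convert h using 1
    rw [← zpow_natCast, ← zpow_natCast, ← zpow_add₀ hq]
    congr 1
    omega

/-- a `q`-regular function has the Laurent expansion given by its `q`-expansion. -/
theorem hasLaurentExp_of_isQReg {F : ℍ → ℂ} (hF : Fermat.Agent.S23.QReg.IsQReg F) :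
    HasLaurentExp 1 F (HahnSeries.ofPowerSeries ℤ ℂ (UpperHalfPlane.qExpansion 1 F)) := by
  refine ⟨0, fun n hn => ?_, fun τ => ?_⟩
  · exact ModularCurve.ofPowerSeries_coeff_of_neg _ (by simpa using hn)
  · have h := UpperHalfPlane.hasSum_qExpansion one_pos hF.1 hF.2.1 hF.2.2 τ
    rw [pow_zero, one_mul]
    convert h using 2 with n
    · simp only [Nat.cast_zero, sub_zero, smul_eq_mul]
      rw [HahnSeries.ofPowerSeries_apply_coeff]
      simp [qN]

/-- `Δ = q ∏ (1 - qⁿ)²⁴` as a Laurent expansion with integer coefficients. -/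
theorem hasLaurentExp_discr :
    HasLaurentExp 1 (fun τ => Δ τ) (HahnSeries.single (1 : ℤ) (1 : ℂ) *
      HahnSeries.ofPowerSeries ℤ ℂ (PowerSeries.map (Int.castRingHom ℂ) dedekindEtaUnit)) := by
  have h1 := hasLaurentExp_qN_zpow 1 1
  have h2 := hasLaurentExp_of_isQReg (JAnalytic.isQReg_eulerH.pow 24)
  rw [Fermat.Agent.S23.QReg.qExpansion_pow JAnalytic.isQReg_eulerH, JAnalytic.qExpansion_eulerH,
    ← map_pow] at h2
  have h := HasLaurentExp.mul h1 h2
  have e : (fun τ => Δ τ) = (fun τ => qN 1 τ ^ (1 : ℤ)) * (JAnalytic.eulerH ^ 24) := by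
    funext τ
    rw [JAnalytic.discr_eq]
    simp [qN]
  rw [e]
  exact h

/-- `1 / Δ` as a Laurent expansion with integer coefficients. -/
theorem hasLaurentExp_discr_inv :
    HasLaurentExp 1 (fun τ => (Δ τ)⁻¹) (HahnSeries.single (-1 : ℤ) (1 : ℂ) *
      HahnSeries.ofPowerSeries ℤ ℂ (PowerSeries.map (Int.castRingHom ℂ) dedekindEtaUnitInv)) := by
  have h1 := hasLaurentExp_qN_zpow 1 (-1)
  have h2 := hasLaurentExp_of_isQReg JAnalytic.isQReg_eulerInv
  rw [JAnalytic.qExpansion_eulerInv] at h2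
  have h := HasLaurentExp.mul h1 h2
  have e : (fun τ => (Δ τ)⁻¹) = (fun τ => qN 1 τ ^ (-1 : ℤ)) *
      (fun τ : ℍ => JAnalytic.eulerInv (Function.Periodic.qParam 1 (τ : ℂ))) := by
    funext τ
    rw [JAnalytic.discr_eq]
    simp only [Pi.mul_apply, JAnalytic.eulerInv, JAnalytic.eulerH, qN, zpow_neg, zpow_one,
      Nat.cast_one, mul_inv]
  rw [e]
  exact h


/-! ### Unit expansions -/

/-- `f` has at `i∞` an expansion `C q_N^k (1 + c₁ q_N + c₂ q_N² + …)` with all `cᵢ ∈ R` and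
`C` a unit of `R`. -/
def UExp (R : Subring ℂ) (N : ℕ) (f : ℍ → ℂ) (k : ℤ) : Prop :=
  ∃ (C : ℂ) (p : PowerSeries ℂ), C ∈ R ∧ C⁻¹ ∈ R ∧ C ≠ 0 ∧ PowerSeries.constantCoeff p = 1 ∧
    (∀ n, PowerSeries.coeff n p ∈ R) ∧
    HasLaurentExp N f (HahnSeries.single k C * HahnSeries.ofPowerSeries ℤ ℂ p)

variable {R : Subring ℂ} {N : ℕ} [NeZero N]

theorem coeff_mul_mem {p p' : PowerSeries ℂ} (hp : ∀ n, PowerSeries.coeff n p ∈ R)
    (hp' : ∀ n, PowerSeries.coeff n p' ∈ R) (n : ℕ) : PowerSeries.coeff n (p * p') ∈ R := by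
  rw [PowerSeries.coeff_mul]
  exact Subring.sum_mem _ fun x _ => Subring.mul_mem _ (hp _) (hp' _)

theorem UExp.mul {f g : ℍ → ℂ} {k l : ℤ} (hf : UExp R N f k) (hg : UExp R N g l) :
    UExp R N (f * g) (k + l) := by
  obtain ⟨C, p, hC, hC', hC0, hp0, hp, hf⟩ := hf
  obtain ⟨C', p', hD, hD', hD0, hp0', hp', hg⟩ := hg
  refine ⟨C * C', p * p', Subring.mul_mem _ hC hD, ?_, mul_ne_zero hC0 hD0, ?_,
    coeff_mul_mem hp hp', ?_⟩
  · rw [mul_inv]
    exact Subring.mul_mem _ hC' hD'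
  · rw [map_mul, hp0, hp0', one_mul]
  · have h := HasLaurentExp.mul hf hg
    have e : HahnSeries.single (k + l) (C * C') * HahnSeries.ofPowerSeries ℤ ℂ (p * p')
        = HahnSeries.single k C * HahnSeries.ofPowerSeries ℤ ℂ p *
          (HahnSeries.single l C' * HahnSeries.ofPowerSeries ℤ ℂ p') := by
      rw [(HahnSeries.ofPowerSeries ℤ ℂ).map_mul p p', ← HahnSeries.single_mul_single]
      ring
    rw [e]
    exact h

theorem UExp.const {c : ℂ} (hc : c ∈ R) (hc' : c⁻¹ ∈ R) (hc0 : c ≠ 0) :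
    UExp R N (fun _ => c) 0 := by
  refine ⟨c, 1, hc, hc', hc0, by simp, fun n => ?_, ?_⟩
  · rw [PowerSeries.coeff_one]
    split_ifs
    · exact Subring.one_mem _
    · exact Subring.zero_mem _
  · rw [map_one, mul_one]
    exact hasLaurentExp_const c

theorem UExp.one : UExp R N (fun _ => (1 : ℂ)) 0 :=
  UExp.const (Subring.one_mem _) (by rw [inv_one]; exact Subring.one_mem _) one_ne_zero

theorem UExp.pow {f : ℍ → ℂ} {k : ℤ} (hf : UExp R N f k) (n : ℕ) :
    UExp R N (f ^ n) (n * k) := by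
  induction n with
  | zero =>
    have : (f ^ 0 : ℍ → ℂ) = fun _ => (1 : ℂ) := by funext τ; simp
    rw [this]
    simpa using (UExp.one (R := R) (N := N))
  | succ n ih =>
    have h := ih.mul hf
    have e : ((n + 1 : ℕ) : ℤ) * k = n * k + k := by push_cast; ring
    rw [pow_succ, e]
    exact h

omit [NeZero N] in
theorem UExp.congr {f g : ℍ → ℂ} {k l : ℤ} (hf : UExp R N f k) (hfg : ∀ τ, f τ = g τ)
    (hkl : k = l) : UExp R N g l := by
  have : f = g := funext hfg
  rw [← this, ← hkl]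
  exact hf

theorem UExp.prod {ι : Type*} (s : Finset ι) {f : ι → ℍ → ℂ} {k : ι → ℤ}
    (h : ∀ i ∈ s, UExp R N (f i) (k i)) :
    UExp R N (fun τ => ∏ i ∈ s, f i τ) (∑ i ∈ s, k i) := by
  classical
  induction s using Finset.induction_on with
  | empty =>
    simpa using (UExp.one (R := R) (N := N))
  | insert a s ha ih =>
    have h1 := h a (Finset.mem_insert_self a s)
    have h2 := ih fun i hi => h i (Finset.mem_insert_of_mem hi)
    refine (h1.mul h2).congr (fun τ => ?_) ?_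
    · rw [Finset.prod_insert ha]
      rfl
    · rw [Finset.sum_insert ha]


/-! ### Substitution `q ↦ c q^m` in unit expansions -/

/-- the substitution `q ↦ c q^m` in a power series. -/
def substPS (m : ℕ) (c : ℂ) (p : PowerSeries ℂ) : PowerSeries ℂ :=
  PowerSeries.mk fun n => if m ∣ n then PowerSeries.coeff (n / m) p * c ^ (n / m) else 0

theorem coeff_substPS (m : ℕ) (c : ℂ) (p : PowerSeries ℂ) (n : ℕ) :
    PowerSeries.coeff n (substPS m c p)
      = if m ∣ n then PowerSeries.coeff (n / m) p * c ^ (n / m) else 0 := by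
  rw [substPS, PowerSeries.coeff_mk]

theorem constantCoeff_substPS (m : ℕ) (c : ℂ) (p : PowerSeries ℂ) :
    PowerSeries.constantCoeff (substPS m c p) = PowerSeries.constantCoeff p := by
  rw [← PowerSeries.coeff_zero_eq_constantCoeff]
  simp [coeff_substPS]

omit [NeZero N] in
theorem coeff_substPS_mem (m : ℕ) {c : ℂ} (hc : c ∈ R) {p : PowerSeries ℂ}
    (hp : ∀ n, PowerSeries.coeff n p ∈ R) (n : ℕ) : PowerSeries.coeff n (substPS m c p) ∈ R := by
  rw [coeff_substPS]
  split_ifs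
  · exact Subring.mul_mem _ (hp _) (Subring.pow_mem _ hc _)
  · exact Subring.zero_mem _

theorem ofPowerSeries_coeff_nat (p : PowerSeries ℂ) (n : ℕ) :
    (HahnSeries.ofPowerSeries ℤ ℂ p).coeff (n : ℤ) = PowerSeries.coeff n p :=
  HahnSeries.ofPowerSeries_apply_coeff p n

theorem substSeries_single_mul (m : ℕ) (hm : 0 < m) (c : ℂ) (hc : c ≠ 0) (k : ℤ) (C : ℂ)
    (p : PowerSeries ℂ) :
    substSeries m c (HahnSeries.single k C * HahnSeries.ofPowerSeries ℤ ℂ p)
      = HahnSeries.single ((m : ℤ) * k) (C * c ^ k) *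
          HahnSeries.ofPowerSeries ℤ ℂ (substPS m c p) := by
  have hmZ : (0 : ℤ) < (m : ℤ) := by exact_mod_cast hm
  ext j
  rw [substSeries_coeff, HahnSeries.coeff_single_mul, HahnSeries.coeff_single_mul]
  by_cases hdvd : (m : ℤ) ∣ j
  · rw [if_pos hdvd]
    obtain ⟨t, rfl⟩ := hdvd
    rw [Int.mul_ediv_cancel_left _ hmZ.ne']
    have e1 : (m : ℤ) * t - (m : ℤ) * k = (m : ℤ) * (t - k) := by ring
    rw [e1]
    rcases lt_or_ge (t - k) 0 with hneg | hpos
    · rw [ModularCurve.ofPowerSeries_coeff_of_neg _ hneg,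
        ModularCurve.ofPowerSeries_coeff_of_neg _ (by nlinarith)]
      simp
    · obtain ⟨n, hn⟩ := Int.eq_ofNat_of_zero_le hpos
      rw [hn]
      have e2 : (m : ℤ) * (n : ℤ) = ((m * n : ℕ) : ℤ) := by push_cast; ring
      rw [e2, ofPowerSeries_coeff_nat, ofPowerSeries_coeff_nat, coeff_substPS,
        if_pos (Dvd.intro _ rfl), Nat.mul_div_cancel_left _ hm]
      have e3 : t = k + n := by omega
      rw [e3, zpow_add₀ hc, zpow_natCast]
      ring
  · rw [if_neg hdvd]
    rcases lt_or_ge (j - (m : ℤ) * k) 0 with hneg | hpos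
    · rw [ModularCurve.ofPowerSeries_coeff_of_neg _ hneg, mul_zero]
    · obtain ⟨n, hn⟩ := Int.eq_ofNat_of_zero_le hpos
      rw [hn, ofPowerSeries_coeff_nat, coeff_substPS, if_neg, mul_zero]
      intro hmn
      apply hdvd
      have : j = (n : ℤ) + (m : ℤ) * k := by omega
      rw [this]
      exact dvd_add (Int.natCast_dvd_natCast.mpr hmn) (Dvd.intro _ rfl)

/-- roots of unity `exp (2πi b / d)`, `d ∣ N`, lie in `R` as soon as `exp (2πi / N)` does. -/
theorem exp_mem (hζ : Complex.exp (2 * Real.pi * Complex.I / N) ∈ R) {d : ℕ} (hd : d ∣ N)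
    (b : ℕ) : Complex.exp (2 * Real.pi * Complex.I * b / d) ∈ R := by
  obtain ⟨e, he⟩ := hd
  have hN0 : N ≠ 0 := NeZero.ne N
  have hd0 : d ≠ 0 := by rintro rfl; exact hN0 (by simpa using he)
  have he0 : e ≠ 0 := by rintro rfl; exact hN0 (by simpa using he)
  have : Complex.exp (2 * Real.pi * Complex.I * b / d)
      = Complex.exp (2 * Real.pi * Complex.I / N) ^ (b * e) := by
    rw [← Complex.exp_nat_mul]
    congr 1
    have hd' : (d : ℂ) ≠ 0 := Nat.cast_ne_zero.mpr hd0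
    have he' : (e : ℂ) ≠ 0 := Nat.cast_ne_zero.mpr he0
    rw [he]
    push_cast
    field_simp
  rw [this]
  exact Subring.pow_mem _ hζ _

theorem exp_inv_mem (hζ : Complex.exp (2 * Real.pi * Complex.I / N) ∈ R) {d : ℕ} (hd : d ∣ N)
    (b : ℕ) : (Complex.exp (2 * Real.pi * Complex.I * b / d))⁻¹ ∈ R := by
  have hN0 : N ≠ 0 := NeZero.ne N
  have hd0 : d ≠ 0 := by rintro rfl; exact hN0 (by simpa using hd)
  have : (Complex.exp (2 * Real.pi * Complex.I * b / d))⁻¹
      = Complex.exp (2 * Real.pi * Complex.I * ((d - 1) * b : ℕ) / d) := by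
    rw [← Complex.exp_neg]
    rw [Complex.exp_eq_exp_iff_exists_int]
    refine ⟨-(b : ℤ), ?_⟩
    have hd' : (d : ℂ) ≠ 0 := Nat.cast_ne_zero.mpr hd0
    have h1 : ((d - 1 : ℕ) : ℂ) = (d : ℂ) - 1 := by
      rw [Nat.cast_sub (Nat.pos_of_ne_zero hd0)]; simp
    push_cast
    rw [h1]
    field_simp
    ring
  rw [this]
  exact exp_mem hζ hd _

/-- substitution `τ ↦ (a τ + b) / d` in a unit expansion of period one. -/
theorem UExp.comp_utGL (hζ : Complex.exp (2 * Real.pi * Complex.I / N) ∈ R)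
    {φ : ℍ → ℂ} {k : ℤ} {p : PowerSeries ℂ} (hp0 : PowerSeries.constantCoeff p = 1)
    (hp : ∀ n, PowerSeries.coeff n p ∈ R)
    (hφ : HasLaurentExp 1 φ (HahnSeries.single k (1 : ℂ) * HahnSeries.ofPowerSeries ℤ ℂ p))
    (a b d : ℕ) (ha : a ≠ 0) (hd : d ≠ 0) (hdN : d ∣ N) :
    UExp R N (fun τ => φ (utGL a b d ha hd • τ)) ((a * (N / d) : ℕ) * k) := by
  have h := HasLaurentExp.comp_utGL (N := N) hφ a b d ha hd hdN
  set c := Complex.exp (2 * Real.pi * Complex.I * b / d) with hc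
  have hc0 : c ≠ 0 := Complex.exp_ne_zero _
  have hm0 : 0 < a * (N / d) := Nat.mul_pos (Nat.pos_of_ne_zero ha)
    (Nat.div_pos (Nat.le_of_dvd (NeZero.pos N) hdN) (Nat.pos_of_ne_zero hd))
  rw [substSeries_single_mul _ hm0 c hc0, one_mul] at h
  have hcR : c ∈ R := exp_mem hζ hdN b
  have hcR' : c⁻¹ ∈ R := exp_inv_mem hζ hdN b
  refine ⟨c ^ k, substPS (a * (N / d)) c p, ?_, ?_, zpow_ne_zero _ hc0, ?_,
    coeff_substPS_mem _ hcR hp, h⟩
  · rcases Int.eq_nat_or_neg k with ⟨n, rfl | rfl⟩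
    · rw [zpow_natCast]; exact Subring.pow_mem _ hcR _
    · rw [zpow_neg, zpow_natCast, ← inv_pow]; exact Subring.pow_mem _ hcR' _
  · rcases Int.eq_nat_or_neg k with ⟨n, rfl | rfl⟩
    · rw [zpow_natCast, ← inv_pow]; exact Subring.pow_mem _ hcR' _
    · rw [zpow_neg, zpow_natCast, inv_inv]; exact Subring.pow_mem _ hcR _
  · rw [constantCoeff_substPS, hp0]

end Fermat.Agent.S28.Eta
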