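import Mathlib
import Fermat.Agent.S24_QLaurent
import Fermat.Agent.S24_JAnalytic
import Fermat.Agent.S24_TowerRing

set_option autoImplicit false

noncomputable section

open UpperHalfPlane ModularCurve
open scoped MatrixGroups Manifold

namespace Fermat.Agent.S28.Eta

open Fermat.Agent.S24 Fermat.Agent.S24.QLaurent Fermat.Agent.S24.Tower

local notation "Δ" => ModularForm.discriminant

theorem coe_utGL_smul (a b d : ℕ) (ha : a ≠ 0) (hd : d ≠ 0) (τ : ℍ) :
    ((utGL a b d ha hd • τ : ℍ) : ℂ) = ((a : ℂ) * τ + b) / d := by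
  have hdet : 0 < ((utGL a b d ha hd).det : ℝ) := det_utGL_pos a b d ha hd
  rw [UpperHalfPlane.coe_smul_of_det_pos hdet]
  simp [UpperHalfPlane.num, UpperHalfPlane.denom, utGL, ModularForm.val_upperTriangularGL]

theorem denom_sl (γ : SL(2, ℤ)) (τ : ℍ) :
    denom γ τ = (γ 1 0 : ℂ) * τ + γ 1 1 := by
  simp [UpperHalfPlane.denom]

/-- **Hermite decomposition and the transformation of `Δ(mτ)/Δ(τ)`.** -/
theorem exists_discr_ratio_smul (m : ℕ) (hm : m ≠ 0) (γ : SL(2, ℤ)) :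
    ∃ (a b d : ℕ) (ha : a ≠ 0) (hd : d ≠ 0), a * d = m ∧ b < d ∧
      a = Nat.gcd (γ 1 0).natAbs m ∧
      ∀ τ : ℍ, Δ (utGL m 0 1 hm one_ne_zero • (γ • τ)) =
        (denom γ τ / d) ^ 12 * Δ (utGL a b d ha hd • τ) := by
  have hdetA : (!![(m : ℤ), ((0 : ℕ) : ℤ); 0, ((1 : ℕ) : ℤ)] *
      (γ : Matrix (Fin 2) (Fin 2) ℤ)).det = m := by
    rw [Matrix.det_mul, Matrix.SpecialLinearGroup.det_coe, mul_one]
    simp [Matrix.det_fin_two]
  obtain ⟨δ, a, b, d, ha, hd, hb, hdet, hδ⟩ := Hermite.exists_hermite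
    (!![(m : ℤ), ((0 : ℕ) : ℤ); 0, ((1 : ℕ) : ℤ)] * (γ : Matrix (Fin 2) (Fin 2) ℤ))
    (by rw [hdetA]; exact_mod_cast Nat.pos_of_ne_zero hm)
  rw [hdetA] at hdet
  have had : a * d = m := by exact_mod_cast hdet
  have h10 : γ 1 0 = δ 1 0 * a := by
    have := congrFun (congrFun hδ 1) 0
    simpa [Matrix.mul_apply, Fin.sum_univ_two] using this
  have h11 : γ 1 1 = δ 1 0 * b + δ 1 1 * d := by
    have := congrFun (congrFun hδ 1) 1
    simpa [Matrix.mul_apply, Fin.sum_univ_two] using this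
  have h00 : (m : ℤ) * γ 0 0 = δ 0 0 * a := by
    have := congrFun (congrFun hδ 0) 0
    simpa [Matrix.mul_apply, Fin.sum_univ_two] using this
  have haZ : (a : ℤ) ≠ 0 := by exact_mod_cast ha.ne'
  have h00' : δ 0 0 = d * γ 0 0 := by
    have h1 : (a : ℤ) * (δ 0 0) = a * (d * γ 0 0) := by
      rw [← had] at h00
      push_cast at h00
      linarith
    exact mul_left_cancel₀ haZ h1
  have hdetδ : δ 0 0 * δ 1 1 - δ 0 1 * δ 1 0 = 1 := by
    have := δ.det_coe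
    rwa [Matrix.det_fin_two] at this
  have hcop : IsCoprime (δ 1 0) (d : ℤ) := by
    refine ⟨-δ 0 1, γ 0 0 * δ 1 1, ?_⟩
    rw [h00'] at hdetδ
    linarith
  refine ⟨a, b, d, ha.ne', hd.ne', had, hb, ?_, fun τ => ?_⟩
  · rw [h10, ← had, Int.natAbs_mul, Int.natAbs_natCast, mul_comm a d, Nat.gcd_mul_right]
    have : Nat.gcd (δ 1 0).natAbs d = 1 := by
      have := Int.isCoprime_iff_gcd_eq_one.mp hcop
      rwa [Int.gcd, Int.natAbs_natCast] at this
    rw [this, one_mul]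
  · have hsm := utGL_mul_sl m 0 1 a b d hm one_ne_zero ha.ne' hd.ne' γ δ hδ τ
    rw [hsm, JAnalytic.discr_smul]
    congr 1
    rw [denom_sl, denom_sl, coe_utGL_smul, h10, h11]
    have hd' : (d : ℂ) ≠ 0 := Nat.cast_ne_zero.mpr hd.ne'
    push_cast
    field_simp
    ring

end Fermat.Agent.S28.Eta
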