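import Mathlib
import Fermat.Agent.S24_QLaurent
import Fermat.Agent.S24_JAnalytic
import Fermat.Agent.S24_TowerRing
import Fermat.Prelude.Def_ModularCurve_X0ModL
import Fermat.Agent.S28_EtaBase
import Fermat.Agent.S28_EtaTrans

set_option autoImplicit false

noncomputable section

open UpperHalfPlane ModularCurve CongruenceSubgroup
open scoped MatrixGroups Manifold

namespace Fermat.Agent.S28.Eta

open Fermat.Agent.S24 Fermat.Agent.S24.QLaurent Fermat.Agent.S24.Tower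

local notation "Δ" => ModularForm.discriminant

variable {R : Subring ℂ} {N : ℕ} [NeZero N]

/-! ### expansions of `Δ ((a τ + b) / d)` and its inverse -/

theorem coeff_map_int_mem (p : PowerSeries ℤ) (n : ℕ) :
    PowerSeries.coeff n (PowerSeries.map (Int.castRingHom ℂ) p) ∈ R := by
  rw [PowerSeries.coeff_map]
  exact intCast_mem _ _

theorem uexp_discr_comp (hζ : Complex.exp (2 * Real.pi * Complex.I / N) ∈ R)
    (a b d : ℕ) (ha : a ≠ 0) (hd : d ≠ 0) (hdN : d ∣ N) :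
    UExp R N (fun τ => Δ (utGL a b d ha hd • τ)) ((a * (N / d) : ℕ) : ℤ) := by
  have h := UExp.comp_utGL (R := R) (N := N) hζ (k := 1)
    (p := PowerSeries.map (Int.castRingHom ℂ) dedekindEtaUnit)
    (by
      rw [← PowerSeries.coeff_zero_eq_constantCoeff, PowerSeries.coeff_map,
        PowerSeries.coeff_zero_eq_constantCoeff, constantCoeff_dedekindEtaUnit]
      simp)
    (coeff_map_int_mem _) hasLaurentExp_discr a b d ha hd hdN
  exact h.congr (fun τ => rfl) (by ring)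

theorem uexp_discr_inv_comp (hζ : Complex.exp (2 * Real.pi * Complex.I / N) ∈ R)
    (a b d : ℕ) (ha : a ≠ 0) (hd : d ≠ 0) (hdN : d ∣ N) :
    UExp R N (fun τ => (Δ (utGL a b d ha hd • τ))⁻¹) (-((a * (N / d) : ℕ) : ℤ)) := by
  have h := UExp.comp_utGL (R := R) (N := N) hζ (k := -1)
    (p := PowerSeries.map (Int.castRingHom ℂ) dedekindEtaUnitInv)
    (by
      rw [← PowerSeries.coeff_zero_eq_constantCoeff, PowerSeries.coeff_map,
        PowerSeries.coeff_zero_eq_constantCoeff, constantCoeff_dedekindEtaUnitInv]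
      simp)
    (coeff_map_int_mem _) hasLaurentExp_discr_inv a b d ha hd hdN
  exact h.congr (fun τ => rfl) (by ring)

theorem uexp_discr (hζ : Complex.exp (2 * Real.pi * Complex.I / N) ∈ R) :
    UExp R N (fun τ => Δ τ) (N : ℤ) := by
  have h := uexp_discr_comp (R := R) (N := N) hζ 1 0 1 one_ne_zero one_ne_zero (one_dvd N)
  refine h.congr (fun τ => ?_) ?_
  · rw [utGL_one_smul]
  · simp

theorem uexp_discr_inv (hζ : Complex.exp (2 * Real.pi * Complex.I / N) ∈ R) :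
    UExp R N (fun τ => (Δ τ)⁻¹) (-(N : ℤ)) := by
  have h := uexp_discr_inv_comp (R := R) (N := N) hζ 1 0 1 one_ne_zero one_ne_zero (one_dvd N)
  refine h.congr (fun τ => ?_) ?_
  · rw [utGL_one_smul]
  · simp

/-! ### the functions `Δ(mτ)/Δ(τ)` and `Δ(τ)/Δ(mτ)` -/

/-- `τ ↦ m τ` on `ℍ` (the identity for `m = 0`). -/
def scl (m : ℕ) (τ : ℍ) : ℍ := if h : m ≠ 0 then utGL m 0 1 h one_ne_zero • τ else τ

/-- `Δ(mτ)/Δ(τ)`. -/
def rfun (m : ℕ) (τ : ℍ) : ℂ := Δ (scl m τ) * (Δ τ)⁻¹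

/-- `Δ(τ)/Δ(mτ)`. -/
def rinv (m : ℕ) (τ : ℍ) : ℂ := Δ τ * (Δ (scl m τ))⁻¹

theorem rfun_ne_zero (m : ℕ) (τ : ℍ) : rfun m τ ≠ 0 :=
  mul_ne_zero (ModularForm.discriminant_ne_zero _) (inv_ne_zero (ModularForm.discriminant_ne_zero _))

theorem rinv_ne_zero (m : ℕ) (τ : ℍ) : rinv m τ ≠ 0 :=
  mul_ne_zero (ModularForm.discriminant_ne_zero _) (inv_ne_zero (ModularForm.discriminant_ne_zero _))

theorem rfun_mul_rinv (m : ℕ) (τ : ℍ) : rfun m τ * rinv m τ = 1 := by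
  unfold rfun rinv
  have h1 := ModularForm.discriminant_ne_zero (scl m τ)
  have h2 := ModularForm.discriminant_ne_zero τ
  field_simp

theorem rinv_eq_inv (m : ℕ) (τ : ℍ) : rinv m τ = (rfun m τ)⁻¹ :=
  eq_inv_of_mul_eq_one_right (rfun_mul_rinv m τ)

/-- The expansion of `Δ(mτ)/Δ(τ)` at the cusp `γ ∞`. -/
theorem exists_rfun_smul (m : ℕ) (hm : m ≠ 0) (γ : SL(2, ℤ)) :
    ∃ (a b d : ℕ) (ha : a ≠ 0) (hd : d ≠ 0), a * d = m ∧ b < d ∧
      a = Nat.gcd (γ 1 0).natAbs m ∧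
      (∀ τ : ℍ, rfun m (γ • τ) = ((d : ℂ) ^ 12)⁻¹ * (Δ (utGL a b d ha hd • τ) * (Δ τ)⁻¹)) ∧
      (∀ τ : ℍ, rinv m (γ • τ) = (d : ℂ) ^ 12 * (Δ τ * (Δ (utGL a b d ha hd • τ))⁻¹)) := by
  obtain ⟨a, b, d, ha, hd, had, hb, hgcd, htr⟩ := exists_discr_ratio_smul m hm γ
  have key : ∀ τ : ℍ, rfun m (γ • τ) = ((d : ℂ) ^ 12)⁻¹ * (Δ (utGL a b d ha hd • τ) * (Δ τ)⁻¹) := by
    intro τ
    unfold rfun scl
    rw [dif_pos hm, htr, JAnalytic.discr_smul]
    have h1 : denom γ τ ≠ 0 := denom_ne_zero _ τ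
    have h2 := ModularForm.discriminant_ne_zero τ
    have hd' : (d : ℂ) ≠ 0 := Nat.cast_ne_zero.mpr hd
    have e : denom γ τ ^ (12 : ℤ) = denom γ τ ^ 12 := by norm_cast
    rw [e]
    field_simp
  refine ⟨a, b, d, ha, hd, had, hb, hgcd, key, fun τ => ?_⟩
  rw [rinv_eq_inv, key]
  have h2 := ModularForm.discriminant_ne_zero τ
  have h3 := ModularForm.discriminant_ne_zero (utGL a b d ha hd • τ)
  have hd' : (d : ℂ) ≠ 0 := Nat.cast_ne_zero.mpr hd
  field_simp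

omit [NeZero N] in
theorem natCast_inv_mem (hN : (N : ℂ)⁻¹ ∈ R) [NeZero N] {d : ℕ} (hd : d ∣ N) : (d : ℂ)⁻¹ ∈ R := by
  obtain ⟨e, he⟩ := hd
  have hN0 : N ≠ 0 := NeZero.ne N
  have hd0 : d ≠ 0 := by rintro rfl; exact hN0 (by simpa using he)
  have : (d : ℂ)⁻¹ = (e : ℂ) * (N : ℂ)⁻¹ := by
    have hd' : (d : ℂ) ≠ 0 := Nat.cast_ne_zero.mpr hd0
    have he0 : e ≠ 0 := by rintro rfl; exact hN0 (by simpa using he)
    have he' : (e : ℂ) ≠ 0 := Nat.cast_ne_zero.mpr he0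
    rw [he]
    push_cast
    field_simp
  rw [this]
  exact Subring.mul_mem _ (natCast_mem _ _) hN

theorem order_aux {a d m e : ℕ} (had : a * d = m) (hd : d ≠ 0) (hN : N = m * e) :
    ((a * (N / d) : ℕ) : ℤ) = ((N / m : ℕ) : ℤ) * (a : ℤ) ^ 2 := by
  have hm0 : m ≠ 0 := by
    rintro rfl
    exact NeZero.ne N (by simpa using hN)
  have h1 : N / d = a * e := by
    rw [hN, ← had]
    rw [show a * d * e = d * (a * e) by ring]
    exact Nat.mul_div_cancel_left _ (Nat.pos_of_ne_zero hd)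
  have h2 : N / m = e := by
    rw [hN]
    exact Nat.mul_div_cancel_left _ (Nat.pos_of_ne_zero hm0)
  rw [h1, h2]
  push_cast
  ring

theorem rfun_smul_uexp (hN : (N : ℂ)⁻¹ ∈ R)
    (hζ : Complex.exp (2 * Real.pi * Complex.I / N) ∈ R) {m : ℕ} (hm : m ∣ N) (γ : SL(2, ℤ)) :
    UExp R N (fun τ => rfun m (γ • τ))
      (((N / m : ℕ) : ℤ) * (Nat.gcd (γ 1 0).natAbs m : ℤ) ^ 2 - N) ∧
    UExp R N (fun τ => rinv m (γ • τ))
      (N - ((N / m : ℕ) : ℤ) * (Nat.gcd (γ 1 0).natAbs m : ℤ) ^ 2) := by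
  have hm0 : m ≠ 0 := by
    rintro rfl
    exact NeZero.ne N (by simpa using hm)
  obtain ⟨a, b, d, ha, hd, had, hb, hgcd, h1, h2⟩ := exists_rfun_smul m hm0 γ
  have hdN : d ∣ N := (Dvd.intro_left a had).trans hm
  obtain ⟨e, he⟩ := hm
  have hord := order_aux (N := N) had hd he
  have hdR : (d : ℂ) ∈ R := natCast_mem _ _
  have hdR' : (d : ℂ)⁻¹ ∈ R := natCast_inv_mem hN hdN
  have hd' : (d : ℂ) ≠ 0 := Nat.cast_ne_zero.mpr hd
  constructor
  · have hc : UExp R N (fun _ : ℍ => ((d : ℂ) ^ 12)⁻¹) 0 :=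
      UExp.const (by rw [← inv_pow]; exact Subring.pow_mem _ hdR' _)
        (by rw [inv_inv]; exact Subring.pow_mem _ hdR _) (inv_ne_zero (pow_ne_zero _ hd'))
    have h := hc.mul ((uexp_discr_comp (R := R) (N := N) hζ a b d ha hd hdN).mul
      (uexp_discr_inv (R := R) (N := N) hζ))
    refine h.congr (fun τ => ?_) ?_
    · rw [h1]; rfl
    · rw [hord, ← hgcd]; ring
  · have hc : UExp R N (fun _ : ℍ => (d : ℂ) ^ 12) 0 :=
      UExp.const (Subring.pow_mem _ hdR _) (by rw [← inv_pow]; exact Subring.pow_mem _ hdR' _)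
        (pow_ne_zero _ hd')
    have h := hc.mul ((uexp_discr (R := R) (N := N) hζ).mul
      (uexp_discr_inv_comp (R := R) (N := N) hζ a b d ha hd hdN))
    refine h.congr (fun τ => ?_) ?_
    · rw [h2]; rfl
    · rw [hord, ← hgcd]; ring


/-! ### holomorphy -/

theorem mdiff_inv {f : ℍ → ℂ} (hf : MDiff f) (h0 : ∀ τ, f τ ≠ 0) : MDiff (fun τ => (f τ)⁻¹) := by
  rw [UpperHalfPlane.mdifferentiable_iff] at hf ⊢
  have : DifferentiableOn ℂ (fun z => ((f ∘ ofComplex) z)⁻¹) {z | 0 < z.im} :=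
    hf.inv fun z _ => h0 _
  exact this

theorem mdiff_discr_scl (m : ℕ) : MDiff (fun τ => Δ (scl m τ)) := by
  unfold scl
  by_cases hm : m ≠ 0
  · simp only [dif_pos hm]
    exact JAnalytic.discr_mdiff.comp (mdifferentiable_smul (det_utGL_pos m 0 1 hm one_ne_zero))
  · simp only [dif_neg hm]
    exact JAnalytic.discr_mdiff

theorem mdiff_rfun (m : ℕ) : MDiff (rfun m) :=
  (mdiff_discr_scl m).mul (mdiff_inv JAnalytic.discr_mdiff ModularForm.discriminant_ne_zero)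

theorem mdiff_rinv (m : ℕ) : MDiff (rinv m) :=
  JAnalytic.discr_mdiff.mul (mdiff_inv (mdiff_discr_scl m)
    fun _ => ModularForm.discriminant_ne_zero _)

theorem mdiff_pow {f : ℍ → ℂ} (hf : MDiff f) (n : ℕ) : MDiff (fun τ => f τ ^ n) := by
  induction n with
  | zero => simpa using (mdifferentiable_const : MDiff (fun _ : ℍ => (1 : ℂ)))
  | succ n ih =>
    have : (fun τ => f τ ^ (n + 1)) = (fun τ => f τ ^ n) * f := by
      funext τ; simp [pow_succ]
    rw [this]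
    exact ih.mul hf

theorem mdiff_prod {ι : Type*} (s : Finset ι) {f : ι → ℍ → ℂ} (h : ∀ i ∈ s, MDiff (f i)) :
    MDiff (fun τ => ∏ i ∈ s, f i τ) := by
  classical
  induction s using Finset.induction_on with
  | empty => simpa using (mdifferentiable_const : MDiff (fun _ : ℍ => (1 : ℂ)))
  | insert a s ha ih =>
    have h1 := h a (Finset.mem_insert_self a s)
    have h2 := ih fun i hi => h i (Finset.mem_insert_of_mem hi)
    have : (fun τ => ∏ i ∈ insert a s, f i τ) = f a * fun τ => ∏ i ∈ s, f i τ := by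
      funext τ
      rw [Finset.prod_insert ha]
      rfl
    rw [this]
    exact h1.mul h2

/-! ### the eta quotient with weights `w` -/

/-- The eta quotient `∏_{m ∣ N} (Δ(mτ)/Δ(τ))^(w m)` (weight zero). -/
def etaQuot (N : ℕ) (w : ℕ → ℤ) (τ : ℍ) : ℂ :=
  ∏ m ∈ N.divisors, (rfun m τ ^ (w m).toNat * rinv m τ ^ (-(w m)).toNat)

omit [NeZero N] in
theorem etaQuot_eq_zpow (w : ℕ → ℤ) (τ : ℍ) :
    etaQuot N w τ = ∏ m ∈ N.divisors, rfun m τ ^ (w m) := by
  unfold etaQuot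
  refine Finset.prod_congr rfl fun m _ => ?_
  have h0 := rfun_ne_zero m τ
  rw [rinv_eq_inv]
  rcases le_total 0 (w m) with h | h
  · have e1 : (-(w m)).toNat = 0 := by omega
    rw [e1, pow_zero, mul_one]
    conv_rhs => rw [← Int.toNat_of_nonneg h]
    rw [zpow_natCast]
  · have e1 : (w m).toNat = 0 := by omega
    rw [e1, pow_zero, one_mul]
    have e2 : w m = -(((-(w m)).toNat : ℕ) : ℤ) := by omega
    conv_rhs => rw [e2]
    rw [zpow_neg, zpow_natCast, inv_pow]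

omit [NeZero N] in
theorem etaQuot_ne_zero (w : ℕ → ℤ) (τ : ℍ) : etaQuot N w τ ≠ 0 := by
  unfold etaQuot
  exact Finset.prod_ne_zero_iff.mpr fun m _ =>
    mul_ne_zero (pow_ne_zero _ (rfun_ne_zero m τ)) (pow_ne_zero _ (rinv_ne_zero m τ))

omit [NeZero N] in
theorem mdiff_etaQuot (w : ℕ → ℤ) : MDiff (etaQuot N w) := by
  unfold etaQuot
  exact mdiff_prod _ fun m _ => (mdiff_pow (mdiff_rfun m) _).mul (mdiff_pow (mdiff_rinv m) _)

/-- **Expansion of the eta quotient at every cusp.**  For every `γ ∈ SL(2, ℤ)` with lower left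
entry `c`, the function `τ ↦ etaQuot N w (γ τ)` has the expansion
`C q_N^k (1 + c₁ q_N + …)`, `C ∈ Rˣ`, `cᵢ ∈ R`,
`k = ∑_{m ∣ N} w m * ((N / m) * gcd(c, m)² - N)`. -/
theorem etaQuot_smul_uexp (hN : (N : ℂ)⁻¹ ∈ R)
    (hζ : Complex.exp (2 * Real.pi * Complex.I / N) ∈ R) (w : ℕ → ℤ) (γ : SL(2, ℤ)) :
    UExp R N (fun τ => etaQuot N w (γ • τ))
      (∑ m ∈ N.divisors,
        w m * (((N / m : ℕ) : ℤ) * (Nat.gcd (γ 1 0).natAbs m : ℤ) ^ 2 - N)) := by
  have key : ∀ m ∈ N.divisors, UExp R N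
      (fun τ => rfun m (γ • τ) ^ (w m).toNat * rinv m (γ • τ) ^ (-(w m)).toNat)
      (w m * (((N / m : ℕ) : ℤ) * (Nat.gcd (γ 1 0).natAbs m : ℤ) ^ 2 - N)) := by
    intro m hm
    obtain ⟨h1, h2⟩ := rfun_smul_uexp (R := R) (N := N) hN hζ (Nat.dvd_of_mem_divisors hm) γ
    refine ((h1.pow (w m).toNat).mul (h2.pow (-(w m)).toNat)).congr (fun τ => rfl) ?_
    rcases le_total 0 (w m) with h | h
    · have e1 : (-(w m)).toNat = 0 := by omega
      have e2 : (((w m).toNat : ℕ) : ℤ) = w m := Int.toNat_of_nonneg h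
      rw [e1, e2]
      simp
    · have e1 : (w m).toNat = 0 := by omega
      have e2 : (((-(w m)).toNat : ℕ) : ℤ) = -(w m) := by omega
      rw [e1, e2]
      simp only [Nat.cast_zero, zero_mul, zero_add]
      ring
  exact (UExp.prod N.divisors key).congr (fun τ => rfl) rfl


/-! ### invariance under `Γ₀(N)` -/

theorem rfun_smul_of_mem_Gamma0 {m : ℕ} (hm : m ∣ N) {γ : SL(2, ℤ)} (hγ : γ ∈ Gamma0 N)
    (τ : ℍ) : rfun m (γ • τ) = rfun m τ := by
  have hm0 : m ≠ 0 := by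
    rintro rfl
    exact NeZero.ne N (by simpa using hm)
  obtain ⟨a, b, d, ha, hd, had, hb, hgcd, h1, -⟩ := exists_rfun_smul m hm0 γ
  have hc : ((γ 1 0 : ℤ) : ZMod N) = 0 := Gamma0_mem.mp hγ
  have hc' : (N : ℤ) ∣ γ 1 0 := (ZMod.intCast_zmod_eq_zero_iff_dvd _ _).mp hc
  have hmc : m ∣ (γ 1 0).natAbs := by
    have : (m : ℤ) ∣ γ 1 0 := (Int.natCast_dvd_natCast.mpr hm).trans hc'
    exact Int.natCast_dvd.mp this
  have ham : a = m := by rw [hgcd]; exact Nat.gcd_eq_right hmc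
  subst ham
  have hd1 : d = 1 := by
    have : a * d = a * 1 := by rw [had, mul_one]
    exact Nat.eq_of_mul_eq_mul_left (Nat.pos_of_ne_zero ha) this
  subst hd1
  have hb0 : b = 0 := by omega
  subst hb0
  rw [h1]
  unfold rfun scl
  rw [dif_pos hm0]
  simp

theorem etaQuot_smul_of_mem_Gamma0 (w : ℕ → ℤ) {γ : SL(2, ℤ)} (hγ : γ ∈ Gamma0 N) (τ : ℍ) :
    etaQuot N w (γ • τ) = etaQuot N w τ := by
  unfold etaQuot
  refine Finset.prod_congr rfl fun m hm => ?_
  rw [rinv_eq_inv, rinv_eq_inv, rfun_smul_of_mem_Gamma0 (Nat.dvd_of_mem_divisors hm) hγ]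

/-- the eta quotient belongs to the ring of modular functions of level `Γ(N)` over `ℂ`. -/
theorem isModFun_etaQuot (w : ℕ → ℤ) : IsModFun ℂ N (etaQuot N w) := by
  refine ⟨mdiff_etaQuot w, fun γ hγ τ => ?_, fun γ => ?_⟩
  · have hγ0 : γ ∈ Gamma0 N := by
      rw [Gamma0_mem]
      exact (Gamma_mem.mp hγ).2.2.1
    exact etaQuot_smul_of_mem_Gamma0 w hγ0 τ
  · obtain ⟨C, p, -, -, -, -, -, h⟩ := etaQuot_smul_uexp (R := (⊤ : Subring ℂ)) (N := N)
      (Subring.mem_top _) (Subring.mem_top _) w γ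
    have e : ∀ s : LaurentSeries ℂ, cmap ℂ s = s := by
      intro s
      ext k
      simp [cmap]
    generalize HahnSeries.single _ C * HahnSeries.ofPowerSeries ℤ ℂ p = s at h
    exact ⟨s, by rw [e]; exact h⟩


/-! ### the expansion at `i∞` has integer coefficients -/

theorem exp_one_mem_bot : Complex.exp (2 * Real.pi * Complex.I / ((1 : ℕ) : ℂ)) ∈ (⊥ : Subring ℂ) := by
  have : Complex.exp (2 * Real.pi * Complex.I / ((1 : ℕ) : ℂ)) = 1 := by
    rw [Nat.cast_one, div_one, Complex.exp_two_pi_mul_I]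
  rw [this]
  exact Subring.one_mem _

theorem rfun_uexp_int {m : ℕ} (hm : m ≠ 0) :
    UExp (⊥ : Subring ℂ) 1 (rfun m) ((m : ℤ) - 1) ∧ UExp (⊥ : Subring ℂ) 1 (rinv m) (1 - (m : ℤ)) := by
  constructor
  · have h := (uexp_discr_comp (R := (⊥ : Subring ℂ)) (N := 1) exp_one_mem_bot m 0 1 hm one_ne_zero
      (one_dvd 1)).mul (uexp_discr_inv (R := (⊥ : Subring ℂ)) (N := 1) exp_one_mem_bot)
    refine h.congr (fun τ => ?_) ?_
    · unfold rfun scl
      rw [dif_pos hm]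
      rfl
    · simp
      ring
  · have h := (uexp_discr (R := (⊥ : Subring ℂ)) (N := 1) exp_one_mem_bot).mul
      (uexp_discr_inv_comp (R := (⊥ : Subring ℂ)) (N := 1) exp_one_mem_bot m 0 1 hm one_ne_zero
        (one_dvd 1))
    refine h.congr (fun τ => ?_) ?_
    · unfold rinv scl
      rw [dif_pos hm]
      rfl
    · simp
      ring

omit [NeZero N] in
theorem etaQuot_uexp_int (w : ℕ → ℤ) :
    UExp (⊥ : Subring ℂ) 1 (etaQuot N w) (∑ m ∈ N.divisors, w m * ((m : ℤ) - 1)) := by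
  have key : ∀ m ∈ N.divisors, UExp (⊥ : Subring ℂ) 1
      (fun τ => rfun m τ ^ (w m).toNat * rinv m τ ^ (-(w m)).toNat) (w m * ((m : ℤ) - 1)) := by
    intro m hm
    have hm0 : m ≠ 0 := (Nat.pos_of_mem_divisors hm).ne'
    obtain ⟨h1, h2⟩ := rfun_uexp_int hm0
    refine ((h1.pow (w m).toNat).mul (h2.pow (-(w m)).toNat)).congr (fun τ => rfl) ?_
    rcases le_total 0 (w m) with h | h
    · have e1 : (-(w m)).toNat = 0 := by omega
      have e2 : (((w m).toNat : ℕ) : ℤ) = w m := Int.toNat_of_nonneg h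
      rw [e1, e2]
      simp
    · have e1 : (w m).toNat = 0 := by omega
      have e2 : (((-(w m)).toNat : ℕ) : ℤ) = -(w m) := by omega
      rw [e1, e2]
      simp only [Nat.cast_zero, zero_mul, zero_add]
      ring
  exact (UExp.prod N.divisors key).congr (fun τ => rfl) rfl

omit [NeZero N] in
/-- the eta quotient has a `q`-expansion with integer coefficients. -/
theorem exists_int_expansion (w : ℕ → ℤ) :
    ∃ u : LaurentSeries ℤ, HasLaurentExp 1 (etaQuot N w) (coeffMap (Int.castRingHom ℂ) u) := by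
  obtain ⟨C, p, hC, -, -, -, hp, h⟩ := etaQuot_uexp_int (N := N) w
  obtain ⟨c, rfl⟩ := Subring.mem_bot.mp hC
  have hp' : ∀ n, ∃ a : ℤ, (a : ℂ) = PowerSeries.coeff n p := fun n => Subring.mem_bot.mp (hp n)
  choose a ha using hp'
  generalize (∑ m ∈ N.divisors, w m * ((m : ℤ) - 1)) = k at h
  refine ⟨HahnSeries.single k c * HahnSeries.ofPowerSeries ℤ ℤ (PowerSeries.mk a), ?_⟩
  have e : PowerSeries.map (Int.castRingHom ℂ) (PowerSeries.mk a) = p := by
    ext n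
    rw [PowerSeries.coeff_map, PowerSeries.coeff_mk]
    exact ha n
  rw [map_mul, coeffMap_single, coeffMap_ofPowerSeries, e]
  exact_mod_cast h

end Fermat.Agent.S28.Eta
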