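import Mathlib
import Fermat.Agent.S28_EtaQuot
import Fermat.Agent.S28_EtaOrder

/-!
# S28: the Igusa eta quotient and its expansions at all cusps

`igusaT N τ = ∏_{m ∣ N} (Δ(mτ)/Δ(τ))^(-μ(N/m) m)` is a modular unit on `Γ₀(N)` (weight zero,
holomorphic and nowhere zero on `ℍ`) with an integral `q`-expansion, a pole at `i∞` (for `N > 1`),
and such that every conjugate `τ ↦ igusaT N (γ τ)`, `γ ∉ Γ₀(N)`, has an expansion
`C q_N^(N φ(N)) (1 + c₁ q_N + …)` with `C` a unit of `ℤ[1/N, ζ_N]` and `cᵢ ∈ ℤ[ζ_N, 1/N]`: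
all the other conjugates vanish at `i∞`, with unit leading coefficient.
-/

set_option autoImplicit false

noncomputable section

open UpperHalfPlane ModularCurve CongruenceSubgroup
open scoped MatrixGroups Manifold

namespace Fermat.Agent.S28.Eta

open Fermat.Agent.S24 Fermat.Agent.S24.Tower

variable {R : Subring ℂ} {N : ℕ} [NeZero N]

/-- The Igusa eta quotient `∏_{m ∣ N} (Δ(mτ)/Δ(τ))^(-μ(N/m) m)`. -/
def igusaT (N : ℕ) : ℍ → ℂ := etaQuot N (igusaWeight N)

omit [NeZero N] in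
theorem igusaT_ne_zero (τ : ℍ) : igusaT N τ ≠ 0 := etaQuot_ne_zero _ τ

omit [NeZero N] in
theorem mdiff_igusaT : MDiff (igusaT N) := mdiff_etaQuot _

theorem igusaT_smul_of_mem_Gamma0 {γ : SL(2, ℤ)} (hγ : γ ∈ Gamma0 N) (τ : ℍ) :
    igusaT N (γ • τ) = igusaT N τ := etaQuot_smul_of_mem_Gamma0 _ hγ τ

theorem isModFun_igusaT : IsModFun ℂ N (igusaT N) := isModFun_etaQuot _

/-- the expansion of the Igusa eta quotient at the cusp `γ ∞`; `c` the lower left entry. -/
theorem igusaT_smul_uexp' (hN : (N : ℂ)⁻¹ ∈ R)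
    (hζ : Complex.exp (2 * Real.pi * Complex.I / N) ∈ R) (γ : SL(2, ℤ)) :
    UExp R N (fun τ => igusaT N (γ • τ))
      (N * ((N.totient : ℤ) - if N ∣ (γ 1 0).natAbs then jordan2 N else 0)) := by
  have h := etaQuot_smul_uexp (R := R) (N := N) hN hζ (igusaWeight N) γ
  exact h.congr (fun τ => rfl) (igusa_order N (NeZero.pos N) (γ 1 0).natAbs)

/-- **All conjugates of the Igusa eta quotient outside `Γ₀(N)` vanish at `i∞`**, to the order
`N φ(N)` in `q_N`, with a leading coefficient which is a unit of `R` and all coefficients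
in `R` (any subring of `ℂ` containing `1/N` and `exp(2πi/N)`). -/
theorem igusaT_smul_uexp (hN : (N : ℂ)⁻¹ ∈ R)
    (hζ : Complex.exp (2 * Real.pi * Complex.I / N) ∈ R) {γ : SL(2, ℤ)} (hγ : γ ∉ Gamma0 N) :
    UExp R N (fun τ => igusaT N (γ • τ)) ((N : ℤ) * (N.totient : ℤ)) := by
  have h := igusaT_smul_uexp' (R := R) (N := N) hN hζ γ
  have hnd : ¬ N ∣ (γ 1 0).natAbs := by
    intro hd
    apply hγ
    rw [Gamma0_mem, ZMod.intCast_zmod_eq_zero_iff_dvd]
    exact Int.natCast_dvd.mpr hd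
  rw [if_neg hnd, sub_zero] at h
  exact h

theorem order_pos : (0 : ℤ) < (N : ℤ) * (N.totient : ℤ) := by
  have h1 : 0 < N := NeZero.pos N
  have h2 : 0 < N.totient := Nat.totient_pos.mpr h1
  positivity

omit [NeZero N] in
/-- the Igusa eta quotient has a `q`-expansion with integer coefficients. -/
theorem igusaT_exists_int_expansion :
    ∃ u : LaurentSeries ℤ, HasLaurentExp 1 (igusaT N) (coeffMap (Int.castRingHom ℂ) u) :=
  exists_int_expansion _

end Fermat.Agent.S28.Eta
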