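import Mathlib
import Fermat.Agent.S28_Eta
import Fermat.Agent.S24_JFormal

set_option autoImplicit false

noncomputable section

open UpperHalfPlane ModularCurve CongruenceSubgroup
open scoped MatrixGroups Manifold

namespace Fermat.Agent.S28.Eta

open Fermat.Agent.S24 Fermat.Agent.S24.Tower

variable {R : Subring ℂ} {N : ℕ} [NeZero N]

/-- the `q_N`-order in a unit expansion is unique. -/
theorem UExp.order_unique {f : ℍ → ℂ} {k k' : ℤ} (h : UExp R N f k) (h' : UExp R N f k') :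
    k = k' := by
  obtain ⟨C, p, -, -, hC0, hp0, -, hf⟩ := h
  obtain ⟨C', p', -, -, hC0', hp0', -, hf'⟩ := h'
  have e := QLaurent.HasLaurentExp.unique hf hf'
  have key : ∀ (k k' : ℤ) (C C' : ℂ) (p p' : PowerSeries ℂ), C ≠ 0 →
      PowerSeries.constantCoeff p = 1 →
      HahnSeries.single k C * HahnSeries.ofPowerSeries ℤ ℂ p
        = HahnSeries.single k' C' * HahnSeries.ofPowerSeries ℤ ℂ p' → k' ≤ k := by
    intro k k' C C' p p' hC hp he
    by_contra hlt
    rw [not_le] at hlt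
    have h1 := congrArg (fun s : LaurentSeries ℂ => s.coeff k) he
    simp only [HahnSeries.coeff_single_mul, sub_self] at h1
    rw [ModularCurve.ofPowerSeries_coeff_of_neg p' (show k - k' < 0 by omega), mul_zero] at h1
    have h2 : (HahnSeries.ofPowerSeries ℤ ℂ p).coeff 0 = 1 := by
      have := HahnSeries.ofPowerSeries_apply_coeff (Γ := ℤ) p 0
      rw [Nat.cast_zero] at this
      rw [this, PowerSeries.coeff_zero_eq_constantCoeff, hp]
    rw [h2, mul_one] at h1
    exact hC h1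
  exact le_antisymm (key k' k C' C p' p hC0' hp0' e.symm) (key k k' C C' p p' hC0 hp0 e)

/-- the Igusa eta quotient as an element of the ring of modular functions of level `Γ(N)`. -/
def igusaMod (N : ℕ) [NeZero N] : modRing ℂ N := ⟨igusaT N, isModFun_igusaT⟩

theorem igusaMod_apply (τ : ℍ) : (igusaMod N : ℍ → ℂ) τ = igusaT N τ := rfl

omit [NeZero N] in
theorem top_mem_aux : ((N : ℂ)⁻¹ ∈ (⊤ : Subring ℂ)) ∧
    Complex.exp (2 * Real.pi * Complex.I / N) ∈ (⊤ : Subring ℂ) :=
  ⟨Subring.mem_top _, Subring.mem_top _⟩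

/-- the stabiliser of the Igusa eta quotient in `SL(2, ℤ)` is exactly `Γ₀(N)`. -/
theorem igusaMod_smul_iff (γ : SL(2, ℤ)) : γ ∈ Gamma0 N ↔ γ • igusaMod N = igusaMod N := by
  constructor
  · intro hγ
    ext τ
    rw [Tower.smul_apply]
    exact igusaT_smul_of_mem_Gamma0 ((Gamma0 N).inv_mem hγ) τ
  · intro h
    by_contra hγ
    have hγ' : γ⁻¹ ∉ Gamma0 N := fun h' => hγ (by simpa using (Gamma0 N).inv_mem h')
    have h1 := igusaT_smul_uexp (R := (⊤ : Subring ℂ)) (N := N) top_mem_aux.1 top_mem_aux.2 hγ'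
    have h2 := igusaT_smul_uexp' (R := (⊤ : Subring ℂ)) (N := N) top_mem_aux.1 top_mem_aux.2 1
    have hfun : (fun τ => igusaT N (γ⁻¹ • τ)) = fun τ => igusaT N ((1 : SL(2, ℤ)) • τ) := by
      funext τ
      have := congrArg (fun f : modRing ℂ N => (f : ℍ → ℂ) τ) h
      simp only [Tower.smul_apply, igusaMod_apply] at this
      rw [this, one_smul]
    rw [hfun] at h1
    have hk := h1.order_unique h2
    have hdvd : N ∣ ((1 : SL(2, ℤ)) 1 0).natAbs := by simp
    rw [if_pos hdvd] at hk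
    have hJ := jordan2_pos (NeZero.ne N)
    have hN : (0 : ℤ) < N := by exact_mod_cast NeZero.pos N
    nlinarith

/-- the expansion at `i∞` of the Igusa eta quotient is the `q ↦ q^N` substitution of a series
with integer coefficients. -/
theorem exists_expRing_igusaMod :
    ∃ u : LaurentSeries ℤ, HasLaurentExp 1 (igusaT N) (coeffMap (Int.castRingHom ℂ) u) ∧
      expRing ℂ N (igusaMod N)
        = qExpand ℂ N (coeffEmb ℂ (coeffMap (Int.castRingHom ℚ) u)) := by
  obtain ⟨u, hu⟩ := igusaT_exists_int_expansion (N := N)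
  refine ⟨u, hu, ?_⟩
  apply expRing_eq_of
  have h := QLaurent.HasLaurentExp.comp_utGL (N := N) hu 1 0 1 one_ne_zero one_ne_zero (one_dvd N)
  have e1 : (fun τ => igusaT N (utGL 1 0 1 one_ne_zero one_ne_zero • τ)) = igusaT N := by
    funext τ
    rw [utGL_one_smul]
  have e2 : Complex.exp (2 * Real.pi * Complex.I * ((0 : ℕ) : ℂ) / ((1 : ℕ) : ℂ)) = 1 := by simp
  rw [e1, e2, Nat.div_one, one_mul, JFormal.substSeries_one_eq_qExpand] at h
  have e3 : cmap ℂ (qExpand ℂ N (coeffEmb ℂ (coeffMap (Int.castRingHom ℚ) u)))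
      = qExpand ℂ N (coeffMap (Int.castRingHom ℂ) u) := by
    have e4 : coeffEmb ℂ (coeffMap (Int.castRingHom ℚ) u) = coeffMap (Int.castRingHom ℂ) u := by
      rw [coeffEmb, coeffMap_coeffMap]
      exact coeffMap_congr (RingHom.ext_int _ _) u
    rw [e4]
    ext k
    simp [cmap]
  rw [e3]
  exact h

/-- the expansions of the other conjugates: order `N φ(N) > 0`, unit leading coefficient,
coefficients in `R`. -/
theorem exists_expRing_smul_igusaMod (hN : (N : ℂ)⁻¹ ∈ R)
    (hζ : Complex.exp (2 * Real.pi * Complex.I / N) ∈ R) {γ : SL(2, ℤ)} (hγ : γ ∉ Gamma0 N) :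
    ∃ (C : ℂ) (p : PowerSeries ℂ), C ∈ R ∧ C⁻¹ ∈ R ∧ C ≠ 0 ∧
      PowerSeries.constantCoeff p = 1 ∧ (∀ n, PowerSeries.coeff n p ∈ R) ∧
      expRing ℂ N (γ • igusaMod N)
        = HahnSeries.single ((N : ℤ) * (N.totient : ℤ)) C * HahnSeries.ofPowerSeries ℤ ℂ p := by
  have hγ' : γ⁻¹ ∉ Gamma0 N := fun h' => hγ (by simpa using (Gamma0 N).inv_mem h')
  obtain ⟨C, p, hC, hC', hC0, hp0, hp, h⟩ := igusaT_smul_uexp (R := R) (N := N) hN hζ hγ'
  refine ⟨C, p, hC, hC', hC0, hp0, hp, ?_⟩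
  apply expRing_eq_of
  have e : ∀ s : LaurentSeries ℂ, cmap ℂ s = s := by
    intro s
    ext k
    simp [cmap]
  rw [e]
  exact h

end Fermat.Agent.S28.Eta
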