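/-
S28 (Igusa): the product polynomial on the S24 modular tower.

For a `Γ₀(N)`-invariant modular function `t` of level `Γ(N)`, the polynomial
`∏_{c ∈ SL₂(ℤ)/Γ₀(N)} (X - c • t)` has `SL₂(ℤ)`-invariant coefficients, hence coefficients that
are polynomials in `j`.
-/
import Mathlib
import Fermat.Agent.S24_TowerInv

set_option autoImplicit false

noncomputable section

open UpperHalfPlane ModularCurve CongruenceSubgroup
open scoped MatrixGroups Manifold

namespace Fermat.Agent.S28.Prod

open Fermat.Agent.S24 Fermat.Agent.S24.Tower Polynomial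

variable {K : Type} [Field K] [Algebra K ℂ] {N : ℕ} [NeZero N]

/-- the conjugates `γ • t` of a `Γ₀(N)`-invariant function, indexed by `SL₂(ℤ)/Γ₀(N)`. -/
def conj (t : modRing K N) (ht : ∀ γ ∈ Gamma0 N, γ • t = t) :
    SL(2, ℤ) ⧸ Gamma0 N → modRing K N :=
  fun c => Quotient.liftOn' c (fun γ : SL(2, ℤ) => γ • t) (by
    intro a b hab
    have h : a⁻¹ * b ∈ Gamma0 N := QuotientGroup.leftRel_apply.mp hab
    have e : b = a * (a⁻¹ * b) := by group
    show a • t = b • t
    rw [e, mul_smul, ht _ h])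

theorem conj_mk (t : modRing K N) (ht : ∀ γ ∈ Gamma0 N, γ • t = t) (γ : SL(2, ℤ)) :
    conj t ht (γ : SL(2, ℤ) ⧸ Gamma0 N) = γ • t := rfl

theorem conj_one (t : modRing K N) (ht : ∀ γ ∈ Gamma0 N, γ • t = t) :
    conj t ht ((1 : SL(2, ℤ)) : SL(2, ℤ) ⧸ Gamma0 N) = t := by
  rw [conj_mk, one_smul]

theorem smul_conj (t : modRing K N) (ht : ∀ γ ∈ Gamma0 N, γ • t = t) (γ : SL(2, ℤ))
    (c : SL(2, ℤ) ⧸ Gamma0 N) : γ • conj t ht c = conj t ht (γ • c) := by
  induction c using QuotientGroup.induction_on with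
  | H g =>
    rw [conj_mk, MulAction.Quotient.smul_mk, conj_mk, smul_eq_mul, mul_smul]

/-- the expansion of a conjugate, from an expansion of `τ ↦ t (γ⁻¹ • τ)`. -/
theorem expRing_conj_mk (t : modRing K N) (ht : ∀ γ ∈ Gamma0 N, γ • t = t) (γ : SL(2, ℤ))
    {s : LaurentSeries K}
    (h : HasLaurentExp N (fun τ => (t : ℍ → ℂ) (γ⁻¹ • τ)) (cmap K s)) :
    expRing K N (conj t ht (γ : SL(2, ℤ) ⧸ Gamma0 N)) = s := by
  rw [conj_mk]
  exact expRing_eq_of h

variable [Fintype (SL(2, ℤ) ⧸ Gamma0 N)]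

/-- the product polynomial `∏_c (X - c • t)`. -/
def prodPoly (t : modRing K N) (ht : ∀ γ ∈ Gamma0 N, γ • t = t) : (modRing K N)[X] :=
  ∏ c : SL(2, ℤ) ⧸ Gamma0 N, (X - C (conj t ht c))

theorem prodPoly_monic (t : modRing K N) (ht : ∀ γ ∈ Gamma0 N, γ • t = t) :
    (prodPoly t ht).Monic :=
  monic_prod_of_monic _ _ fun _ _ => monic_X_sub_C _

theorem prodPoly_natDegree (t : modRing K N) (ht : ∀ γ ∈ Gamma0 N, γ • t = t) :
    (prodPoly t ht).natDegree = Fintype.card (SL(2, ℤ) ⧸ Gamma0 N) := by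
  rw [prodPoly, natDegree_prod_of_monic _ _ fun c _ => monic_X_sub_C _]
  simp

theorem map_smul_prodPoly (t : modRing K N) (ht : ∀ γ ∈ Gamma0 N, γ • t = t) (γ : SL(2, ℤ)) :
    (prodPoly t ht).map (MulSemiringAction.toRingHom SL(2, ℤ) (modRing K N) γ)
      = prodPoly t ht := by
  rw [prodPoly, Polynomial.map_prod]
  have h1 : ∀ c : SL(2, ℤ) ⧸ Gamma0 N,
      (X - C (conj t ht c)).map (MulSemiringAction.toRingHom SL(2, ℤ) (modRing K N) γ)
        = X - C (conj t ht ((MulAction.toPerm γ : Equiv.Perm (SL(2, ℤ) ⧸ Gamma0 N)) c)) := by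
    intro c
    rw [Polynomial.map_sub, Polynomial.map_X, Polynomial.map_C]
    congr 2
    exact smul_conj t ht γ c
  rw [Finset.prod_congr rfl fun c _ => h1 c]
  exact Equiv.prod_comp (MulAction.toPerm γ : Equiv.Perm (SL(2, ℤ) ⧸ Gamma0 N))
    (fun c => X - C (conj t ht c))

theorem smul_coeff_prodPoly (t : modRing K N) (ht : ∀ γ ∈ Gamma0 N, γ • t = t) (γ : SL(2, ℤ))
    (k : ℕ) : γ • (prodPoly t ht).coeff k = (prodPoly t ht).coeff k := by
  have := congrArg (fun p : (modRing K N)[X] => p.coeff k) (map_smul_prodPoly t ht γ)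
  simpa [Polynomial.coeff_map] using this

variable [Algebra ℚ K] [IsAlgClosed K]

/-- **The product polynomial has coefficients in `K[j]`.** -/
theorem exists_charPoly (t : modRing K N) (ht : ∀ γ ∈ Gamma0 N, γ • t = t) :
    ∃ P : Polynomial (Polynomial K), P.Monic ∧
      P.natDegree = Fintype.card (SL(2, ℤ) ⧸ Gamma0 N) ∧
      P.map (Polynomial.aeval (jMod K N)).toRingHom = prodPoly t ht := by
  have hex : ∀ k : ℕ, ∃ p : Polynomial K,
      (prodPoly t ht).coeff k = Polynomial.aeval (jMod K N) p := fun k =>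
    exists_poly_of_invariant K N _ (fun γ => smul_coeff_prodPoly t ht γ k)
  choose p hp using hex
  set n := Fintype.card (SL(2, ℤ) ⧸ Gamma0 N) with hn
  set Q : Polynomial (Polynomial K) := ∑ i ∈ Finset.range n, C (p i) * X ^ i with hQ
  have hQdeg : Q.degree < n := by
    rw [hQ]
    refine (Polynomial.degree_sum_le _ _).trans_lt ?_
    rw [Finset.sup_lt_iff (by exact WithBot.bot_lt_coe n)]
    intro i hi
    refine (Polynomial.degree_C_mul_X_pow_le i (p i)).trans_lt ?_
    exact_mod_cast Finset.mem_range.mp hi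
  have hmonic : (X ^ n + Q).Monic := Polynomial.monic_X_pow_add hQdeg
  refine ⟨X ^ n + Q, hmonic, ?_, ?_⟩
  · rw [Polynomial.natDegree_add_eq_left_of_degree_lt (by rwa [Polynomial.degree_X_pow]),
      Polynomial.natDegree_X_pow]
  · have h1 := (prodPoly_monic t ht).as_sum
    rw [prodPoly_natDegree] at h1
    rw [h1, Polynomial.map_add, Polynomial.map_pow, Polynomial.map_X, hQ, Polynomial.map_sum]
    congr 1
    refine Finset.sum_congr rfl fun i _ => ?_
    rw [Polynomial.map_mul, Polynomial.map_pow, Polynomial.map_X, Polynomial.map_C, hp i]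
    rfl

/-- **The product polynomial, in expansions.**  There is a monic `P ∈ K[Y][X]` of degree
`[SL₂(ℤ) : Γ₀(N)]` with `P(j, X) = ∏_c (X - (c • t)(q))` in `K((q_N))[X]`. -/
theorem exists_charPoly_exp (t : modRing K N) (ht : ∀ γ ∈ Gamma0 N, γ • t = t) :
    ∃ P : Polynomial (Polynomial K), P.Monic ∧
      P.natDegree = Fintype.card (SL(2, ℤ) ⧸ Gamma0 N) ∧
      P.map (Polynomial.aeval (qExpand K N (coeffEmb K jq))).toRingHom
        = ∏ c : SL(2, ℤ) ⧸ Gamma0 N, (X - C (expRing K N (conj t ht c))) := by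
  obtain ⟨P, hP1, hP2, hP3⟩ := exists_charPoly t ht
  refine ⟨P, hP1, hP2, ?_⟩
  have h1 := congrArg (Polynomial.map (expRing K N).toRingHom) hP3
  rw [Polynomial.map_map, prodPoly, Polynomial.map_prod] at h1
  have h2 : (expRing K N).toRingHom.comp
        (Polynomial.aeval (R := K) (jMod K N)).toRingHom
      = (Polynomial.aeval (R := K) (qExpand K N (coeffEmb K jq))).toRingHom := by
    rw [← expRing_jMod K N]
    refine Polynomial.ringHom_ext (fun a => ?_) ?_
    · show expRing K N (Polynomial.aeval (jMod K N) (C a))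
        = Polynomial.aeval (expRing K N (jMod K N)) (C a)
      rw [Polynomial.aeval_C, Polynomial.aeval_C, AlgHom.commutes]
    · show expRing K N (Polynomial.aeval (jMod K N) X)
        = Polynomial.aeval (expRing K N (jMod K N)) X
      rw [Polynomial.aeval_X, Polynomial.aeval_X]
  rw [h2] at h1
  rw [h1]
  refine Finset.prod_congr rfl fun c _ => ?_
  rw [Polynomial.map_sub, Polynomial.map_X, Polynomial.map_C]
  rfl

end Fermat.Agent.S28.Prod
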