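import Mathlib
import Fermat.Agent.S28_MCAbs
import Fermat.Agent.S28_Prod
import Fermat.Agent.S28_EtaMod

/-!
# S28: `(MC)` for the Igusa eta quotient

`hmc_igusa`: for `ℓ ∤ N`, the powers `1, u, …, u ^ (n - 1)` of the integer `q`-expansion `u` of
the Igusa eta quotient (`n = [SL₂(ℤ) : Γ₀(N)]`) are linearly independent mod `ℓ` over
`(ZMod ℓ)[j]`.
-/

set_option autoImplicit false

noncomputable section

open UpperHalfPlane ModularCurve CongruenceSubgroup Polynomial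
open scoped MatrixGroups

namespace Fermat.Agent.S28.MC

open Fermat.Agent.S24 Fermat.Agent.S24.Tower Fermat.Agent.S28.Coeff

/-- coefficients of a series `C q ^ k (1 + …)`. -/
theorem single_mul_ofPowerSeries_props {R : Subring ℂ} (k : ℤ) (C : ℂ) (p : PowerSeries ℂ)
    (hC : C ∈ R) (hp : ∀ n, PowerSeries.coeff n p ∈ R)
    (hp0 : PowerSeries.constantCoeff p = 1) :
    (HahnSeries.single k C * HahnSeries.ofPowerSeries ℤ ℂ p) ∈ IntS R ∧
      (∀ i < k, (HahnSeries.single k C * HahnSeries.ofPowerSeries ℤ ℂ p).coeff i = 0) ∧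
      (HahnSeries.single k C * HahnSeries.ofPowerSeries ℤ ℂ p).coeff k = C := by
  refine ⟨?_, ?_, ?_⟩
  · rw [mem_IntS]
    intro i
    rw [HahnSeries.coeff_single_mul]
    rcases lt_or_ge (i - k) 0 with h | h
    · rw [ModularCurve.ofPowerSeries_coeff_of_neg p h, mul_zero]
      exact zero_mem R
    · obtain ⟨m, hm⟩ := Int.eq_ofNat_of_zero_le h
      rw [hm, HahnSeries.ofPowerSeries_apply_coeff]
      exact mul_mem hC (hp m)
  · intro i hi
    rw [HahnSeries.coeff_single_mul, ModularCurve.ofPowerSeries_coeff_of_neg p (by omega),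
      mul_zero]
  · rw [HahnSeries.coeff_single_mul, sub_self]
    have := HahnSeries.ofPowerSeries_apply_coeff (Γ := ℤ) p 0
    rw [Nat.cast_zero] at this
    rw [this, PowerSeries.coeff_zero_eq_constantCoeff, hp0, mul_one]

theorem exp_two_pi_div_mem (ℓ : ℕ) [Fact ℓ.Prime] (N : ℕ) [NeZero N] :
    Complex.exp (2 * Real.pi * Complex.I / N) ∈ Rl ℓ := by
  refine mem_Rl_of_pow_eq_one (NeZero.ne N) ?_
  rw [← Complex.exp_nat_mul, Complex.exp_eq_one_iff]
  refine ⟨1, ?_⟩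
  have : (N : ℂ) ≠ 0 := Nat.cast_ne_zero.mpr (NeZero.ne N)
  push_cast
  field_simp

/-- **(MC) for the Igusa eta quotient.** -/
theorem hmc_igusa (N : ℕ) [NeZero N] (ℓ : ℕ) [Fact ℓ.Prime] (hℓN : ¬ ℓ ∣ N)
    (u : LaurentSeries ℤ)
    (hexp : Tower.expRing ℂ N (Eta.igusaMod N)
      = qExpand ℂ N (coeffEmb ℂ (coeffMap (Int.castRingHom ℚ) u))) :
    ∀ P : Fin (Nat.card (SL(2, ℤ) ⧸ Gamma0 N)) → (ZMod ℓ)[X],
      ∑ i, aeval (jqModC (ZMod ℓ)) (P i) * (coeffMap (Int.castRingHom (ZMod ℓ)) u) ^ (i : ℕ) = 0 →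
        ∀ i, P i = 0 := by
  classical
  have : Finite (SL(2, ℤ) ⧸ Gamma0 N) := Subgroup.finite_quotient_of_finiteIndex
  let _ : Fintype (SL(2, ℤ) ⧸ Gamma0 N) := Fintype.ofFinite _
  have ht : ∀ γ ∈ Gamma0 N, γ • Eta.igusaMod N = Eta.igusaMod N :=
    fun γ hγ => (Eta.igusaMod_smul_iff γ).mp hγ
  obtain ⟨χ, -, -, hχ⟩ := Prod.exists_charPoly_exp (K := ℂ) (Eta.igusaMod N) ht
  rw [aeval_toRingHom_eq_evJ] at hχ
  intro P hP
  refine hmc_of_factorization ℓ N ((1 : SL(2, ℤ)) : SL(2, ℤ) ⧸ Gamma0 N) χ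
    (fun c => expRing ℂ N (Prod.conj (Eta.igusaMod N) ht c)) hχ u ?_ ?_ rfl P hP
  · show expRing ℂ N (Prod.conj (Eta.igusaMod N) ht ((1 : SL(2, ℤ)) : SL(2, ℤ) ⧸ Gamma0 N)) = _
    have e4 : coeffEmb ℂ (coeffMap (Int.castRingHom ℚ) u) = coeffMap (Int.castRingHom ℂ) u := by
      rw [coeffEmb, coeffMap_coeffMap]
      exact coeffMap_congr (RingHom.ext_int _ _) u
    rw [Prod.conj_one, hexp, e4]
  · intro c hc
    induction c using QuotientGroup.induction_on with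
    | H γ =>
      have hγ : γ ∉ Gamma0 N := by
        intro h
        apply hc
        rw [QuotientGroup.eq]
        simpa using (Gamma0 N).inv_mem h
      obtain ⟨C, p, hC, hC', hC0, hp0, hp, he⟩ :=
        Eta.exists_expRing_smul_igusaMod (R := Rl ℓ) (natCast_inv_mem hℓN)
          (exp_two_pi_div_mem ℓ N) hγ
      obtain ⟨h1, h2, h3⟩ := single_mul_ofPowerSeries_props (R := Rl ℓ)
        ((N : ℤ) * (N.totient : ℤ)) C p hC hp hp0
      show expRing ℂ N (γ • Eta.igusaMod N) ∈ IntS (Rl ℓ) ∧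
        ∃ k : ℤ, 0 < k ∧ (∀ i < k, (expRing ℂ N (γ • Eta.igusaMod N)).coeff i = 0) ∧
          ∃ v ∈ Rl ℓ, (expRing ℂ N (γ • Eta.igusaMod N)).coeff k * v = 1
      rw [he]
      refine ⟨h1, (N : ℤ) * (N.totient : ℤ), ?_, h2, C⁻¹, hC', ?_⟩
      · have hN : (0 : ℤ) < N := by exact_mod_cast NeZero.pos N
        have hφ : (0 : ℤ) < (N.totient : ℤ) := by
          exact_mod_cast Nat.totient_pos.mpr (NeZero.pos N)
        positivity
      · rw [h3, mul_inv_cancel₀ hC0]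

end Fermat.Agent.S28.MC
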