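import Mathlib
import Fermat.Prelude.Def_ModularCurve_LaurentCoeff

/-!
# S28: descent of Laurent series from `L((q))` to `ℚ((q))`

For a field `L ⊇ ℚ`, the coefficientwise application `proj π` of a `ℚ`-linear functional
`π : L → ℚ` is `ℚ((q))`-semilinear.  Consequences:

* `eq_zero_of_sum_eq_zero` : `L ⊗_ℚ ℚ((q)) → L((q))` is injective;
* `mem_of_coeffEmb_mem` : `(L · E) ∩ ℚ((q)) = E` for an intermediate field `E` of `ℚ((q))/ℚ`;
* `finrank_le` : `[E : ℚ(y)] ≤ [L · E : L(y)]`.
-/

set_option autoImplicit false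

noncomputable section

open ModularCurve Polynomial

namespace Fermat.Agent.S28.Descent

variable {L : Type*} [Field L] [Algebra ℚ L]

/-- Coefficientwise application of a `ℚ`-linear functional. -/
def proj (π : L →ₗ[ℚ] ℚ) (z : LaurentSeries L) : LaurentSeries ℚ := z.map π

@[simp]
theorem proj_coeff (π : L →ₗ[ℚ] ℚ) (z : LaurentSeries L) (k : ℤ) :
    (proj π z).coeff k = π (z.coeff k) := rfl

@[simp]
theorem proj_zero (π : L →ₗ[ℚ] ℚ) : proj π (0 : LaurentSeries L) = 0 := by
  ext k; simp

theorem proj_add (π : L →ₗ[ℚ] ℚ) (z w : LaurentSeries L) :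
    proj π (z + w) = proj π z + proj π w := by
  ext k; simp

theorem proj_sum {ι : Type*} (π : L →ₗ[ℚ] ℚ) (s : Finset ι) (z : ι → LaurentSeries L) :
    proj π (∑ i ∈ s, z i) = ∑ i ∈ s, proj π (z i) := by
  classical
  induction s using Finset.induction_on with
  | empty => simp
  | insert a s ha ih => rw [Finset.sum_insert ha, Finset.sum_insert ha, proj_add, ih]

/-- `proj π` is semilinear over `ℚ((q))`. -/
theorem proj_coeffEmb_mul (π : L →ₗ[ℚ] ℚ) (y : LaurentSeries ℚ) (z : LaurentSeries L) :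
    proj π (coeffEmb L y * z) = y * proj π z := by
  ext a
  have h1 : (coeffEmb L y).support ⊆ y.support := by
    intro k hk
    rw [HahnSeries.mem_support] at hk ⊢
    intro h0
    apply hk
    rw [coeffEmb_coeff, h0, map_zero]
  have h2 : (proj π z).support ⊆ z.support := by
    intro k hk
    rw [HahnSeries.mem_support] at hk ⊢
    intro h0
    apply hk
    rw [proj_coeff, h0, map_zero]
  rw [proj_coeff, HahnSeries.coeff_mul_left' y.isPWO_support h1,
    HahnSeries.coeff_mul_right' z.isPWO_support h2, map_sum]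
  refine Finset.sum_congr rfl fun ij _ => ?_
  rw [coeffEmb_coeff, ← Algebra.smul_def, map_smul, smul_eq_mul, proj_coeff]

theorem proj_mul_coeffEmb (π : L →ₗ[ℚ] ℚ) (z : LaurentSeries L) (y : LaurentSeries ℚ) :
    proj π (z * coeffEmb L y) = proj π z * y := by
  rw [mul_comm, proj_coeffEmb_mul, mul_comm]

/-- `proj π (c · y) = π c · y` for a constant `c : L` and a rational series `y`. -/
theorem proj_algebraMap_mul_coeffEmb (π : L →ₗ[ℚ] ℚ) (c : L) (y : LaurentSeries ℚ) :
    proj π (algebraMap L (LaurentSeries L) c * coeffEmb L y)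
      = algebraMap ℚ (LaurentSeries ℚ) (π c) * y := by
  ext k
  rw [proj_coeff, algebraMap_laurentSeries_eq_single, algebraMap_laurentSeries_eq_single,
    HahnSeries.coeff_single_zero_mul, HahnSeries.coeff_single_zero_mul, coeffEmb_coeff,
    mul_comm, ← Algebra.smul_def, map_smul, smul_eq_mul, mul_comm]

theorem proj_coeffEmb (π : L →ₗ[ℚ] ℚ) (y : LaurentSeries ℚ) :
    proj π (coeffEmb L y) = algebraMap ℚ (LaurentSeries ℚ) (π 1) * y := by
  have := proj_algebraMap_mul_coeffEmb π 1 y
  rwa [map_one, one_mul] at this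

/-- Functionals separate series. -/
theorem eq_zero_of_forall_proj_eq_zero {z : LaurentSeries L}
    (h : ∀ π : L →ₗ[ℚ] ℚ, proj π z = 0) : z = 0 := by
  ext k
  rw [HahnSeries.coeff_zero]
  refine (Module.forall_dual_apply_eq_zero_iff ℚ (z.coeff k)).mp fun φ => ?_
  have := congrArg (fun w : LaurentSeries ℚ => w.coeff k) (h φ)
  simpa using this

theorem exists_proj_ne_zero {z : LaurentSeries L} (hz : z ≠ 0) :
    ∃ π : L →ₗ[ℚ] ℚ, proj π z ≠ 0 := by
  by_contra hcon
  push Not at hcon
  exact hz (eq_zero_of_forall_proj_eq_zero hcon)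

theorem coeffEmb_injective : Function.Injective (coeffEmb L) :=
  (coeffEmb L).injective

/-- **Linear disjointness**: `L ⊗_ℚ ℚ((q)) → L((q))` is injective. -/
theorem eq_zero_of_sum_eq_zero {ι : Type*} (s : Finset ι) (c : ι → L)
    (hc : LinearIndependent ℚ c) (x : ι → LaurentSeries ℚ)
    (h : ∑ i ∈ s, algebraMap L (LaurentSeries L) (c i) * coeffEmb L (x i) = 0) :
    ∀ i ∈ s, x i = 0 := by
  classical
  intro i₀ hi₀
  -- a functional dual to `c i₀`
  obtain ⟨π, hπ⟩ : ∃ π : L →ₗ[ℚ] ℚ, ∀ i, π (c i) = if i = i₀ then 1 else 0 := by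
    obtain ⟨g, hg⟩ := LinearMap.exists_extend
      ((Finsupp.lapply i₀ : (ι →₀ ℚ) →ₗ[ℚ] ℚ).comp hc.repr)
    refine ⟨g, fun i => ?_⟩
    have h1 : g (c i) = ((Finsupp.lapply i₀ : (ι →₀ ℚ) →ₗ[ℚ] ℚ).comp hc.repr)
        ⟨c i, Submodule.subset_span (Set.mem_range_self i)⟩ := by
      rw [← hg]; rfl
    rw [h1, LinearMap.comp_apply, hc.repr_eq_single i _ rfl,
      Finsupp.lapply_apply, Finsupp.single_apply]
  have h2 := congrArg (proj π) h
  rw [proj_sum, proj_zero] at h2
  simp only [proj_algebraMap_mul_coeffEmb, hπ] at h2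
  rw [Finset.sum_eq_single i₀] at h2
  · simpa using h2
  · intro i _ hi
    simp [hi]
  · intro hi; exact absurd hi₀ hi

/-- `L`-linear combinations of rational series of `E`. -/
inductive InSpan (E : IntermediateField ℚ (LaurentSeries ℚ)) : LaurentSeries L → Prop
  | gen (c : L) (e : LaurentSeries ℚ) (he : e ∈ E) :
      InSpan E (algebraMap L (LaurentSeries L) c * coeffEmb L e)
  | zero : InSpan E 0
  | add (a b : LaurentSeries L) (ha : InSpan E a) (hb : InSpan E b) : InSpan E (a + b)

theorem InSpan.mul {E : IntermediateField ℚ (LaurentSeries ℚ)} {a b : LaurentSeries L}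
    (ha : InSpan E a) (hb : InSpan E b) : InSpan E (a * b) := by
  induction ha with
  | gen c e he =>
    induction hb with
    | gen c' e' he' =>
      have : algebraMap L (LaurentSeries L) c * coeffEmb L e *
          (algebraMap L (LaurentSeries L) c' * coeffEmb L e')
          = algebraMap L (LaurentSeries L) (c * c') * coeffEmb L (e * e') := by
        rw [map_mul, map_mul]; ring
      rw [this]
      exact InSpan.gen _ _ (E.mul_mem he he')
    | zero => rw [mul_zero]; exact InSpan.zero
    | add a b _ _ iha ihb => rw [mul_add]; exact InSpan.add _ _ iha ihb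
  | zero => rw [zero_mul]; exact InSpan.zero
  | add a b _ _ iha ihb => rw [add_mul]; exact InSpan.add _ _ iha ihb

theorem inSpan_of_mem_adjoin {E : IntermediateField ℚ (LaurentSeries ℚ)} {a : LaurentSeries L}
    (ha : a ∈ Algebra.adjoin L (⇑(coeffEmb L) '' (E : Set (LaurentSeries ℚ)))) : InSpan E a := by
  induction ha using Algebra.adjoin_induction with
  | mem x hx =>
    obtain ⟨e, he, rfl⟩ := hx
    have := InSpan.gen (L := L) 1 e he
    rwa [map_one, one_mul] at this
  | algebraMap c =>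
    have := InSpan.gen (L := L) (E := E) c 1 E.one_mem
    rwa [map_one, mul_one] at this
  | add x y _ _ hx hy => exact InSpan.add _ _ hx hy
  | mul x y _ _ hx hy => exact hx.mul hy

theorem proj_mem_of_inSpan {E : IntermediateField ℚ (LaurentSeries ℚ)} (π : L →ₗ[ℚ] ℚ)
    {a : LaurentSeries L} (ha : InSpan E a) : proj π a ∈ E := by
  induction ha with
  | gen c e he =>
    rw [proj_algebraMap_mul_coeffEmb]
    exact E.mul_mem (E.algebraMap_mem _) he
  | zero => rw [proj_zero]; exact E.zero_mem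
  | add a b _ _ iha ihb => rw [proj_add]; exact E.add_mem iha ihb

/-- **Membership descent**: `(L · E) ∩ ℚ((q)) = E`. -/
theorem mem_of_coeffEmb_mem (E : IntermediateField ℚ (LaurentSeries ℚ)) {x : LaurentSeries ℚ}
    (hx : coeffEmb L x ∈ laurentBaseChange L E) : x ∈ E := by
  rw [laurentBaseChange, IntermediateField.mem_adjoin_iff_div] at hx
  obtain ⟨r, hr, s, hs, hxrs⟩ := hx
  rcases eq_or_ne s 0 with rfl | hs0
  · rw [div_zero] at hxrs
    have : x = 0 := coeffEmb_injective (by rw [hxrs, map_zero])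
    rw [this]; exact E.zero_mem
  obtain ⟨π, hπ⟩ := exists_proj_ne_zero hs0
  have h1 : coeffEmb L x * s = r := by rw [hxrs, div_mul_cancel₀ _ hs0]
  have h2 := congrArg (proj π) h1
  rw [proj_coeffEmb_mul] at h2
  have h3 : x = proj π r / proj π s := by rw [← h2, mul_div_cancel_right₀ _ hπ]
  rw [h3]
  exact E.div_mem (proj_mem_of_inSpan π (inSpan_of_mem_adjoin hr))
    (proj_mem_of_inSpan π (inSpan_of_mem_adjoin hs))

/-- Coefficientwise projection of a polynomial. -/
def projPoly (π : L →ₗ[ℚ] ℚ) (P : L[X]) : ℚ[X] :=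
  ∑ k ∈ P.support, monomial k (π (P.coeff k))

@[simp]
theorem projPoly_coeff (π : L →ₗ[ℚ] ℚ) (P : L[X]) (m : ℕ) :
    (projPoly π P).coeff m = π (P.coeff m) := by
  classical
  rw [projPoly, finsetSum_coeff]
  simp only [coeff_monomial]
  rw [Finset.sum_ite_eq' P.support m]
  split_ifs with h
  · rfl
  · rw [notMem_support_iff.mp h, map_zero]

theorem projPoly_add (π : L →ₗ[ℚ] ℚ) (P Q : L[X]) :
    projPoly π (P + Q) = projPoly π P + projPoly π Q := by
  ext m; simp

theorem projPoly_monomial (π : L →ₗ[ℚ] ℚ) (n : ℕ) (c : L) :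
    projPoly π (monomial n c) = monomial n (π c) := by
  ext m
  rw [projPoly_coeff, coeff_monomial, coeff_monomial]
  split_ifs <;> simp

theorem exists_projPoly_ne_zero {P : L[X]} (hP : P ≠ 0) :
    ∃ π : L →ₗ[ℚ] ℚ, projPoly π P ≠ 0 := by
  obtain ⟨m, hm⟩ : ∃ m, P.coeff m ≠ 0 := by
    by_contra hcon
    push Not at hcon
    exact hP (Polynomial.ext fun m => by rw [hcon m, coeff_zero])
  have : ¬ ∀ φ : Module.Dual ℚ L, φ (P.coeff m) = 0 := fun h =>
    hm ((Module.forall_dual_apply_eq_zero_iff ℚ (P.coeff m)).mp h)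
  push Not at this
  obtain ⟨π, hπ⟩ := this
  refine ⟨π, fun h => hπ ?_⟩
  have := congrArg (fun Q : ℚ[X] => Q.coeff m) h
  simpa using this

/-- Projection of a polynomial expression in a rational series. -/
theorem proj_aeval_mul (π : L →ₗ[ℚ] ℚ) (y : LaurentSeries ℚ) (P : L[X]) (e : LaurentSeries ℚ) :
    proj π (aeval (coeffEmb L y) P * coeffEmb L e) = aeval y (projPoly π P) * e := by
  induction P using Polynomial.induction_on' with
  | add p q hp hq =>
    rw [map_add, add_mul, proj_add, hp, hq, projPoly_add, map_add, add_mul]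
  | monomial n c =>
    rw [projPoly_monomial, aeval_monomial, aeval_monomial, mul_assoc, ← map_pow, ← map_mul,
      proj_algebraMap_mul_coeffEmb, mul_assoc]

theorem proj_aeval (π : L →ₗ[ℚ] ℚ) (y : LaurentSeries ℚ) (P : L[X]) :
    proj π (aeval (coeffEmb L y) P) = aeval y (projPoly π P) := by
  have := proj_aeval_mul π y P 1
  rwa [map_one, mul_one, mul_one] at this

/-- **Descent of a polynomial relation** (the `(SPAN)` statement): a relation
`x · D(J) = ∑ Pᵢ(J) · vᵢ` between rational series with coefficient polynomials over `L`,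
`D ≠ 0`, yields one with rational coefficient polynomials. -/
theorem exists_rat_relation {ι : Type*} [Fintype ι] (x J : LaurentSeries ℚ)
    (v : ι → LaurentSeries ℚ) (D : L[X]) (P : ι → L[X]) (hD : D ≠ 0)
    (h : coeffEmb L x * aeval (coeffEmb L J) D
      = ∑ i, aeval (coeffEmb L J) (P i) * coeffEmb L (v i)) :
    ∃ (D' : ℚ[X]) (P' : ι → ℚ[X]), D' ≠ 0 ∧
      x * aeval J D' = ∑ i, aeval J (P' i) * v i := by
  obtain ⟨π, hπ⟩ := exists_projPoly_ne_zero hD
  refine ⟨projPoly π D, fun i => projPoly π (P i), hπ, ?_⟩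
  have h1 := congrArg (proj π) h
  rw [proj_coeffEmb_mul, proj_aeval, proj_sum] at h1
  rw [h1]
  exact Finset.sum_congr rfl fun i _ => proj_aeval_mul π J (P i) (v i)

/-- The same with powers of one series `u` (the shape used in the `(M*)` interface). -/
theorem exists_rat_relation_pow (n : ℕ) (x J u : LaurentSeries ℚ)
    (D : L[X]) (P : Fin n → L[X]) (hD : D ≠ 0)
    (h : coeffEmb L x * aeval (coeffEmb L J) D
      = ∑ i : Fin n, aeval (coeffEmb L J) (P i) * coeffEmb L u ^ (i : ℕ)) :
    ∃ (D' : ℚ[X]) (P' : Fin n → ℚ[X]), D' ≠ 0 ∧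
      x * aeval J D' = ∑ i : Fin n, aeval J (P' i) * u ^ (i : ℕ) := by
  refine exists_rat_relation x J (fun i : Fin n => u ^ (i : ℕ)) D P hD ?_
  rw [h]
  exact Finset.sum_congr rfl fun i _ => by rw [map_pow]

/-- Elements of a simple extension as fractions of polynomial expressions with nonzero
denominator. -/
theorem exists_aeval_mul_eq {K A : Type*} [Field K] [Field A] [Algebra K A] (Y : A)
    (g : IntermediateField.adjoin K {Y}) :
    ∃ r s : K[X], aeval Y s ≠ 0 ∧ (g : A) * aeval Y s = aeval Y r := by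
  obtain ⟨r, s, h⟩ := (IntermediateField.mem_adjoin_simple_iff K (g : A)).mp g.2
  by_cases hs : aeval Y s = 0
  · refine ⟨0, 1, by simp, ?_⟩
    rw [h, hs, div_zero]; simp
  · exact ⟨r, s, hs, by rw [h, div_mul_cancel₀ _ hs]⟩

/-- **Clearing denominators**: a linear combination with coefficients in `K(Y)` becomes a
polynomial relation with a common nonzero denominator. -/
theorem exists_poly_relation {K A : Type*} [Field K] [Field A] [Algebra K A] (Y : A)
    {ι : Type*} [Fintype ι] (g : ι → IntermediateField.adjoin K {Y}) (v : ι → A) :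
    ∃ (D : K[X]) (P : ι → K[X]), aeval Y D ≠ 0 ∧ D ≠ 0 ∧
      (∑ i, g i • v i) * aeval Y D = ∑ i, aeval Y (P i) * v i ∧
      ∀ i, (g i : A) * aeval Y D = aeval Y (P i) := by
  classical
  choose r d hd hrd using fun i => exists_aeval_mul_eq Y (g i)
  have hD0 : aeval Y (∏ i, d i) ≠ 0 := by
    rw [map_prod]
    exact Finset.prod_ne_zero_iff.mpr fun i _ => hd i
  have hP : ∀ i, (g i : A) * aeval Y (∏ i, d i)
      = aeval Y (r i * ∏ k ∈ Finset.univ.erase i, d k) := by
    intro i
    have : (∏ i, d i) = d i * ∏ k ∈ Finset.univ.erase i, d k := by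
      rw [Finset.mul_prod_erase _ _ (Finset.mem_univ i)]
    rw [this, map_mul, ← mul_assoc, hrd i, ← map_mul]
  refine ⟨∏ i, d i, fun i => r i * ∏ k ∈ Finset.univ.erase i, d k, hD0, ?_, ?_, hP⟩
  · intro h0
    rw [h0, map_zero] at hD0
    exact hD0 rfl
  · rw [Finset.sum_mul]
    refine Finset.sum_congr rfl fun i _ => ?_
    rw [← hP i, IntermediateField.smul_def, smul_eq_mul]
    ring

end Fermat.Agent.S28.Descent
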