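/-
S28 (Igusa), Galois piece on the S24 modular tower:
modular functions of level `Γ(N)` that are invariant under `Γ₀(N)` lie in the formal function
field `K(j(dτ) : d ∣ N)`, and the degree of that field over `K(j)` is the index of `Γ₀(N)`.
-/
import Mathlib
import Fermat.Agent.S24_Tower
import Fermat.Agent.S24_Galois

set_option autoImplicit false

noncomputable section

open UpperHalfPlane ModularCurve CongruenceSubgroup
open scoped MatrixGroups Manifold

namespace Fermat.Agent.S28.Inv

open Fermat.Agent.S24 Fermat.Agent.S24.Tower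

section Abstract

variable {K F L Γ : Type*} [Field K] [Field F] [Algebra K F]
  [Field L] [Algebra K L] [Algebra F L] [IsScalarTower K F L]
  [Group Γ] [MulSemiringAction Γ L] [SMulCommClass Γ K L]

/-- Galois correspondence, in the form needed: if `L^Γ = K(x)`, the action factors through a
finite quotient and `H` is the subgroup fixing `F`, then every `H`-invariant element of `L`
lies in `F`. -/
theorem exists_algebraMap_eq_of_fixed (x : F)
    (hfix : ∀ y : L, (∀ γ : Γ, γ • y = y) → y ∈ IntermediateField.adjoin K {algebraMap F L x})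
    (hxfix : ∀ γ : Γ, γ • algebraMap F L x = algebraMap F L x)
    (hker : ∃ Γ₀ : Subgroup Γ, Γ₀.FiniteIndex ∧ ∀ γ ∈ Γ₀, ∀ y : L, γ • y = y)
    (H : Subgroup Γ)
    (hH : ∀ γ : Γ, γ ∈ H ↔ ∀ f : F, γ • algebraMap F L f = algebraMap F L f)
    (y : L) (hy : ∀ γ ∈ H, γ • y = y) : ∃ f : F, algebraMap F L f = y := by
  have := Galois.finite_imageGroup (K := K) hker
  have hG := Galois.isGaloisGroup_imageGroup x hfix hxfix
  have hH' : IsGaloisGroup (Galois.fixF K F L Γ) F L :=
    IsGaloisGroup.of_isScalarTower (Galois.imageGroup K L Γ) (IntermediateField.adjoin K {x}) L F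
  refine hH'.isInvariant.isInvariant y ?_
  intro g
  obtain ⟨γ, hγ⟩ := Galois.toImage_surjective (g : Galois.imageGroup K L Γ)
  have hγH : γ ∈ H := by
    rw [hH]
    intro f
    have := (Galois.mem_fixF_iff (g : Galois.imageGroup K L Γ)).mp g.2 f
    rw [← hγ] at this
    exact this
  show (g : Galois.imageGroup K L Γ) • y = y
  rw [← hγ]
  exact hy γ hγH

end Abstract

section Tower

variable (K : Type) [Field K] [Algebra K ℂ] [Algebra ℚ K] [IsAlgClosed K] (N : ℕ) [NeZero N]

/-- **`Γ₀(N)`-invariant modular functions lie in `K(j(dτ) : d ∣ N)`.** -/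
theorem exists_funcField_of_invariant (y : ModField K N)
    (hy : ∀ γ ∈ Gamma0 N, γ • y = y) :
    ∃ f : FuncField K N, expField K N y = qExpand K N (f : LaurentSeries K) := by
  obtain ⟨φ, hφ⟩ := exists_funcFieldMap K N
  have hj : φ (jGen K N) = jField K N :=
    funcFieldMap_eq_jD φ hφ (jGen K N) 1 (one_dvd N) (by rw [qExpand_one_apply]; rfl)
  let _ : Algebra (FuncField K N) (ModField K N) := φ.toRingHom.toAlgebra
  have : IsScalarTower K (FuncField K N) (ModField K N) :=
    IsScalarTower.of_algebraMap_eq (fun c => (φ.commutes c).symm)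
  obtain ⟨f, hf⟩ := exists_algebraMap_eq_of_fixed (K := K) (Γ := SL(2, ℤ)) (jGen K N)
    (fun y hy => by
      show y ∈ IntermediateField.adjoin K {φ (jGen K N)}
      rw [hj]
      exact mem_adjoin_jField_of_invariant K N y hy)
    (fun γ => by
      show γ • φ (jGen K N) = φ (jGen K N)
      rw [hj, smul_jField])
    ⟨Gamma N, inferInstance, fun γ hγ y => smul_field_eq_of_mem_Gamma hγ y⟩
    (Gamma0 N) (fun γ => funcFieldMap_smul_iff φ hφ γ) y hy
  refine ⟨f, ?_⟩
  rw [← hf]
  exact hφ f

/-- the `modRing` version: a `Γ₀(N)`-invariant element of the ring of modular functions whose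
expansion is the `N`-th root substitution of a series `s` has `s` in the formal function field. -/
theorem mem_laurentBaseChange_of_invariant (t : modRing K N)
    (ht : ∀ γ ∈ Gamma0 N, γ • t = t) (s : LaurentSeries K)
    (hs : expRing K N t = qExpand K N s) :
    s ∈ laurentBaseChange K (modularFunctionFieldFull N) := by
  obtain ⟨f, hf⟩ := exists_funcField_of_invariant K N
    (algebraMap (modRing K N) (ModField K N) t)
    (fun γ hγ => by rw [smul_algebraMap_field, ht γ hγ])
  rw [expField_algebraMap, hs] at hf
  have : s = (f : LaurentSeries K) := (qExpand K N).injective hf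
  rw [this]
  exact f.2

/-- **`[K(j(dτ) : d ∣ N) : K(j)] = [SL₂(ℤ) : Γ₀(N)]`.** -/
theorem finrank_funcField :
    Module.finrank (IntermediateField.adjoin K {jGen K N}) (FuncField K N)
      = Nat.card (SL(2, ℤ) ⧸ Gamma0 N) := by
  obtain ⟨φ, hφ⟩ := exists_funcFieldMap K N
  have hj : φ (jGen K N) = jField K N :=
    funcFieldMap_eq_jD φ hφ (jGen K N) 1 (one_dvd N) (by rw [qExpand_one_apply]; rfl)
  let _ : Algebra (FuncField K N) (ModField K N) := φ.toRingHom.toAlgebra
  have : IsScalarTower K (FuncField K N) (ModField K N) :=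
    IsScalarTower.of_algebraMap_eq (fun c => (φ.commutes c).symm)
  have : CharZero K := algebraRat.charZero K
  exact Galois.finrank_eq_card_quotient (K := K) (Γ := SL(2, ℤ)) (L := ModField K N)
    (jGen K N) (transcendental_jGen K N)
    (fun y hy => by
      show y ∈ IntermediateField.adjoin K {φ (jGen K N)}
      rw [hj]
      exact mem_adjoin_jField_of_invariant K N y hy)
    (fun γ => by
      show γ • φ (jGen K N) = φ (jGen K N)
      rw [hj, smul_jField])
    ⟨Gamma N, inferInstance, fun γ hγ y => smul_field_eq_of_mem_Gamma hγ y⟩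
    (Gamma0 N) (fun γ => funcFieldMap_smul_iff φ hφ γ)

end Tower

end Fermat.Agent.S28.Inv
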