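import Mathlib
import Fermat.Agent.S24_Tower
import Fermat.Agent.S24_Galois
import Fermat.Agent.S28_Inv
import Fermat.Agent.S28_Descent

/-!
# S28 (Igusa): the `(hu)` + `(hspan)` half of the chart-reduction interface

For a modular function `t` of level `N` (an element of the S24 tower ring `modRing K N`)
whose stabiliser in `SL(2, ℤ)` is exactly `Γ₀(N)` and whose expansion is the rational
`q`-series `u₀`:

* `u₀` lies in the rational function field `modularFunctionFieldFull N`;
* `1, u₀, …, u₀ ^ (n - 1)`, `n = [SL(2, ℤ) : Γ₀(N)]`, span that field over `ℚ(j)`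
  (in the denominator-cleared polynomial form).
-/

set_option autoImplicit false

noncomputable section

open UpperHalfPlane ModularCurve CongruenceSubgroup Polynomial
open scoped MatrixGroups Manifold

namespace Fermat.Agent.S28.Span

open Fermat.Agent.S24 Fermat.Agent.S24.Tower

section Abstract

variable {K F L Γ : Type*} [Field K] [Field F] [Algebra K F]
  [Field L] [Algebra K L] [Algebra F L] [IsScalarTower K F L]
  [Group Γ] [MulSemiringAction Γ L] [SMulCommClass Γ K L]

/-- In the S24 Galois setting: if the stabiliser of (the image of) `f ∈ F` is contained in the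
subgroup `H` fixing `F`, then `F = K(x, f)`. -/
theorem adjoin_pair_eq_top (x : F)
    (hfix : ∀ y : L, (∀ γ : Γ, γ • y = y) → y ∈ IntermediateField.adjoin K {algebraMap F L x})
    (hxfix : ∀ γ : Γ, γ • algebraMap F L x = algebraMap F L x)
    (hker : ∃ Γ₀ : Subgroup Γ, Γ₀.FiniteIndex ∧ ∀ γ ∈ Γ₀, ∀ y : L, γ • y = y)
    (H : Subgroup Γ)
    (hH : ∀ γ : Γ, γ ∈ H ↔ ∀ f : F, γ • algebraMap F L f = algebraMap F L f)
    (f : F) (hf : ∀ γ : Γ, γ • algebraMap F L f = algebraMap F L f → γ ∈ H) :
    IntermediateField.adjoin K {x, f} = ⊤ := by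
  have hxm : x ∈ IntermediateField.adjoin K {x, f} :=
    IntermediateField.subset_adjoin K _ (by simp)
  have hfm : f ∈ IntermediateField.adjoin K {x, f} :=
    IntermediateField.subset_adjoin K _ (by simp)
  rw [eq_top_iff]
  intro y _
  obtain ⟨g, hg⟩ := Inv.exists_algebraMap_eq_of_fixed (K := K) (Γ := Γ)
    (F := IntermediateField.adjoin K {x, f}) (L := L) ⟨x, hxm⟩
    hfix hxfix hker H
    (fun γ => by
      constructor
      · intro hγ g
        exact (hH γ).mp hγ (g : F)
      · intro h
        exact hf γ (h ⟨f, hfm⟩))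
    (algebraMap F L y) (fun γ hγ => (hH γ).mp hγ y)
  have hgy : (g : F) = y := (algebraMap F L).injective hg
  rw [← hgy]
  exact g.2

end Abstract

section AbstractHom

variable {K F L Γ : Type*} [Field K] [Field F] [Algebra K F]
  [Field L] [Algebra K L]
  [Group Γ] [MulSemiringAction Γ L] [SMulCommClass Γ K L]

/-- The same with an explicit embedding `φ : F →ₐ[K] L` instead of an algebra instance. -/
theorem adjoin_pair_eq_top_of_algHom (φ : F →ₐ[K] L) (x : F)
    (hfix : ∀ y : L, (∀ γ : Γ, γ • y = y) → y ∈ IntermediateField.adjoin K {φ x})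
    (hxfix : ∀ γ : Γ, γ • φ x = φ x)
    (hker : ∃ Γ₀ : Subgroup Γ, Γ₀.FiniteIndex ∧ ∀ γ ∈ Γ₀, ∀ y : L, γ • y = y)
    (H : Subgroup Γ)
    (hH : ∀ γ : Γ, γ ∈ H ↔ ∀ f : F, γ • φ f = φ f)
    (f : F) (hf : ∀ γ : Γ, γ • φ f = φ f → γ ∈ H) :
    IntermediateField.adjoin K {x, f} = ⊤ := by
  let _ : Algebra F L := φ.toRingHom.toAlgebra
  have : IsScalarTower K F L := IsScalarTower.of_algebraMap_eq (fun c => (φ.commutes c).symm)
  exact adjoin_pair_eq_top x hfix hxfix hker H hH f hf

end AbstractHom

section Abstract2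

variable {K A : Type*} [Field K] [Field A] [Algebra K A]

/-- If `A = K(Y, f)` has degree `n > 0` over `K(Y)`, then `1, f, …, f ^ (n - 1)` span `A` over
`K(Y)`. -/
theorem exists_coeffs (Y f : A) (n : ℕ) (hn : 0 < n)
    (htop : IntermediateField.adjoin K {Y, f} = ⊤)
    (hfin : Module.finrank (IntermediateField.adjoin K {Y}) A = n) (x : A) :
    ∃ g : Fin n → IntermediateField.adjoin K {Y}, x = ∑ i, g i • f ^ (i : ℕ) := by
  have hfd : FiniteDimensional (IntermediateField.adjoin K {Y}) A :=
    Module.finite_of_finrank_pos (by rw [hfin]; exact hn)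
  have hint : IsIntegral (IntermediateField.adjoin K {Y}) f := IsIntegral.of_finite _ f
  have hEf : IntermediateField.adjoin (IntermediateField.adjoin K {Y}) {f} = ⊤ := by
    apply IntermediateField.restrictScalars_injective K
    rw [IntermediateField.adjoin_adjoin_left, IntermediateField.restrictScalars_top, ← htop]
    congr 1
  have hdeg : (minpoly (IntermediateField.adjoin K {Y}) f).natDegree = n := by
    rw [← IntermediateField.adjoin.finrank hint, hEf, IntermediateField.finrank_top', hfin]
  have hx : x ∈ Algebra.adjoin (IntermediateField.adjoin K {Y}) {f} := by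
    rw [← IntermediateField.adjoin_simple_toSubalgebra_of_isAlgebraic hint.isAlgebraic, hEf]
    trivial
  rw [Algebra.adjoin_singleton_eq_range_aeval] at hx
  obtain ⟨p, rfl⟩ := hx
  have hmonic := minpoly.monic hint
  have hne1 : minpoly (IntermediateField.adjoin K {Y}) f ≠ 1 := by
    intro h
    rw [h, natDegree_one] at hdeg
    omega
  refine ⟨fun i => (p %ₘ minpoly (IntermediateField.adjoin K {Y}) f).coeff i, ?_⟩
  have h1 : aeval f (p %ₘ minpoly (IntermediateField.adjoin K {Y}) f) = aeval f p :=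
    Polynomial.aeval_modByMonic_eq_self_of_root (minpoly.aeval _ f)
  have h2 : (p %ₘ minpoly (IntermediateField.adjoin K {Y}) f).natDegree < n := by
    rw [← hdeg]
    exact natDegree_modByMonic_lt p hmonic hne1
  show aeval f p = _
  rw [← h1, Polynomial.aeval_eq_sum_range' h2, Finset.sum_range]

/-- The denominator-cleared form. -/
theorem exists_poly_span (Y f : A) (n : ℕ) (hn : 0 < n)
    (htop : IntermediateField.adjoin K {Y, f} = ⊤)
    (hfin : Module.finrank (IntermediateField.adjoin K {Y}) A = n) (x : A) :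
    ∃ (D : K[X]) (P : Fin n → K[X]), D ≠ 0 ∧
      x * aeval Y D = ∑ i, aeval Y (P i) * f ^ (i : ℕ) := by
  obtain ⟨g, hg⟩ := exists_coeffs Y f n hn htop hfin x
  obtain ⟨D, P, -, hD, h, -⟩ := Descent.exists_poly_relation Y g (fun i : Fin n => f ^ (i : ℕ))
  exact ⟨D, P, hD, by rw [hg, h]⟩

end Abstract2

section Tower

variable (K : Type) [Field K] [Algebra K ℂ] [Algebra ℚ K] [IsAlgClosed K] (N : ℕ) [NeZero N]

/-- The formal function field of level `N` is generated over `K(j)` by (the expansion of) any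
modular function whose stabiliser is exactly `Γ₀(N)`. -/
theorem adjoin_eq_top (t : modRing K N) (hinv : ∀ γ : SL(2, ℤ), γ • t = t → γ ∈ Gamma0 N)
    (f : FuncField K N) (hf : expRing K N t = qExpand K N (f : LaurentSeries K)) :
    IntermediateField.adjoin K {jGen K N, f} = ⊤ := by
  obtain ⟨φ, hφ⟩ := exists_funcFieldMap K N
  have hj : φ (jGen K N) = jField K N :=
    funcFieldMap_eq_jD φ hφ (jGen K N) 1 (one_dvd N) (by rw [qExpand_one_apply]; rfl)
  have hφf : φ f = algebraMap (modRing K N) (ModField K N) t := by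
    apply (expField K N).toRingHom.injective
    show expField K N (φ f) = expField K N _
    rw [hφ f, expField_algebraMap, hf]
  exact adjoin_pair_eq_top_of_algHom (K := K) (Γ := SL(2, ℤ)) (L := ModField K N) φ (jGen K N)
    (fun y hy => by
      rw [hj]
      exact mem_adjoin_jField_of_invariant K N y hy)
    (fun γ => by rw [hj, smul_jField])
    ⟨Gamma N, inferInstance, fun γ hγ y => smul_field_eq_of_mem_Gamma hγ y⟩
    (Gamma0 N) (fun γ => funcFieldMap_smul_iff φ hφ γ) f
    (fun γ h => by
      rw [hφf, smul_algebraMap_field] at h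
      exact hinv γ (IsFractionRing.injective (modRing K N) (ModField K N) h))

/-- **`(hu)` + `(hspan)`**: a modular function `t` of level `N` with stabiliser exactly
`Γ₀(N)` and rational expansion `u₀` gives `u₀ ∈ ℚ(j(dτ) : d ∣ N)` and the denominator-cleared
power basis `1, u₀, …, u₀ ^ (n - 1)` of that field over `ℚ(j)`, `n = [SL(2, ℤ) : Γ₀(N)]`. -/
theorem exists_span (t : modRing K N) (hinv : ∀ γ : SL(2, ℤ), γ ∈ Gamma0 N ↔ γ • t = t)
    (u₀ : LaurentSeries ℚ) (hexp : expRing K N t = qExpand K N (coeffEmb K u₀)) :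
    u₀ ∈ modularFunctionFieldFull N ∧
    ∀ x ∈ modularFunctionFieldFull N,
      ∃ (D : ℚ[X]) (P : Fin (Nat.card (SL(2, ℤ) ⧸ Gamma0 N)) → ℚ[X]),
        D ≠ 0 ∧ x * aeval jq D = ∑ i, aeval jq (P i) * u₀ ^ (i : ℕ) := by
  have hmem : coeffEmb K u₀ ∈ laurentBaseChange K (modularFunctionFieldFull N) :=
    Inv.mem_laurentBaseChange_of_invariant K N t (fun γ hγ => (hinv γ).mp hγ) _ hexp
  refine ⟨Descent.mem_of_coeffEmb_mem _ hmem, fun x hx => ?_⟩
  have htop := adjoin_eq_top K N t (fun γ h => (hinv γ).mpr h) ⟨coeffEmb K u₀, hmem⟩ hexp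
  have hn : 0 < Nat.card (SL(2, ℤ) ⧸ Gamma0 N) :=
    Nat.pos_of_ne_zero (Subgroup.FiniteIndex.index_ne_zero (H := Gamma0 N))
  obtain ⟨D, P, hD, h⟩ := exists_poly_span (K := K) (jGen K N) ⟨coeffEmb K u₀, hmem⟩ _ hn htop
    (Inv.finrank_funcField K N) ⟨coeffEmb K x, coeffEmb_mem_laurentBaseChange K hx⟩
  refine Descent.exists_rat_relation_pow _ x jq u₀ D P hD ?_
  have h' := congrArg (IntermediateField.val (laurentBaseChange K (modularFunctionFieldFull N))) h
  rw [map_mul, map_sum] at h'
  simp only [map_mul, map_pow, ← Polynomial.aeval_algHom_apply] at h'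
  exact h'

end Tower

end Fermat.Agent.S28.Span
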