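import Mathlib
import Fermat.Agent.S28_MC
import Fermat.Agent.S28_Span
import Fermat.Agent.S24_CountIndex
import Fermat.Agent.S18_HauptSeries

/-!
# S18 (WP-H3): the modular functions `Δ(τ)/Δ(pτ)` and their product polynomials

For a prime `p`, `t_p = Δ(τ)/Δ(pτ)` is a `Γ₀(p)`-invariant modular function of level `p` with
expansion `dSer p` at `i∞`, all of whose other conjugates vanish at `i∞`.  Hence its product
polynomial factors as `S(X) (X - t_p)` with `S ≡ X^p` modulo positive order.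
-/

set_option autoImplicit false

noncomputable section

open UpperHalfPlane ModularCurve CongruenceSubgroup Polynomial
open scoped MatrixGroups Manifold

namespace Fermat.Agent.S18.Haupt

open Fermat.Agent.S24 Fermat.Agent.S24.Tower Fermat.Agent.S28 Fermat.Agent.S28.Coeff
open Fermat.Agent.S18.HauptPoly

local notation "Δ" => ModularForm.discriminant

/-- the expansion of `Δ(τ)/Δ(pτ)`. -/
def dSer (p : ℕ) [NeZero p] : LaurentSeries ℤ :=
  (HahnSeries.single (1 : ℤ) (1 : ℤ) * HahnSeries.ofPowerSeries ℤ ℤ dedekindEtaUnit) *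
    qExpand ℤ p (HahnSeries.single (-1 : ℤ) (1 : ℤ) *
      HahnSeries.ofPowerSeries ℤ ℤ dedekindEtaUnitInv)

theorem hasLaurentExp_rinv (p : ℕ) [NeZero p] :
    HasLaurentExp 1 (Eta.rinv p) (coeffMap (Int.castRingHom ℂ) (dSer p)) := by
  have hp : p ≠ 0 := NeZero.ne p
  have h1 := Eta.hasLaurentExp_discr
  have h2 := QLaurent.HasLaurentExp.comp_utGL (N := 1) Eta.hasLaurentExp_discr_inv p 0 1 hp
    one_ne_zero (one_dvd 1)
  have e2 : Complex.exp (2 * Real.pi * Complex.I * ((0 : ℕ) : ℂ) / ((1 : ℕ) : ℂ)) = 1 := by simp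
  rw [e2, Nat.div_one, mul_one, JFormal.substSeries_one_eq_qExpand] at h2
  have h := QLaurent.HasLaurentExp.mul h1 h2
  have e : Eta.rinv p = (fun τ => Δ τ) * (fun τ => (Δ (utGL p 0 1 hp one_ne_zero • τ))⁻¹) := by
    funext τ
    simp only [Eta.rinv, Eta.scl, dif_pos hp, Pi.mul_apply]
  rw [e]
  convert h using 1
  rw [dSer, map_mul, map_mul, coeffMap_single, coeffMap_ofPowerSeries, coeffMap_qExpand, map_mul,
    coeffMap_single, coeffMap_ofPowerSeries]
  simp

theorem isModFun_rinv (p : ℕ) [NeZero p] : IsModFun ℂ p (Eta.rinv p) := by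
  refine ⟨Eta.mdiff_rinv p, fun γ hγ τ => ?_, fun γ => ?_⟩
  · have hγ0 : γ ∈ Gamma0 p := by
      rw [Gamma0_mem]
      exact (Gamma_mem.mp hγ).2.2.1
    rw [Eta.rinv_eq_inv, Eta.rinv_eq_inv, Eta.rfun_smul_of_mem_Gamma0 (dvd_refl p) hγ0]
  · obtain ⟨C, q, -, -, -, -, -, h⟩ := (Eta.rfun_smul_uexp (R := (⊤ : Subring ℂ)) (N := p)
      (Subring.mem_top _) (Subring.mem_top _) (dvd_refl p) γ).2
    have e : ∀ s : LaurentSeries ℂ, cmap ℂ s = s := by
      intro s
      ext k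
      simp [cmap]
    generalize HahnSeries.single _ C * HahnSeries.ofPowerSeries ℤ ℂ q = s at h
    exact ⟨s, by rw [e]; exact h⟩

/-- `Δ(τ)/Δ(pτ)` as an element of the ring of modular functions of level `p`. -/
def tMod (p : ℕ) [NeZero p] : modRing ℂ p := ⟨Eta.rinv p, isModFun_rinv p⟩

theorem tMod_smul (p : ℕ) [NeZero p] (γ : SL(2, ℤ)) (hγ : γ ∈ Gamma0 p) :
    γ • tMod p = tMod p := by
  ext τ
  rw [Tower.smul_apply]
  show Eta.rinv p (γ⁻¹ • τ) = Eta.rinv p τ
  rw [Eta.rinv_eq_inv, Eta.rinv_eq_inv,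
    Eta.rfun_smul_of_mem_Gamma0 (dvd_refl p) ((Gamma0 p).inv_mem hγ)]

theorem expRing_tMod (p : ℕ) [NeZero p] :
    expRing ℂ p (tMod p) = qExpand ℂ p (coeffMap (Int.castRingHom ℂ) (dSer p)) := by
  apply expRing_eq_of
  have h := QLaurent.HasLaurentExp.comp_utGL (N := p) (hasLaurentExp_rinv p) 1 0 1 one_ne_zero
    one_ne_zero (one_dvd p)
  have e1 : (fun τ => Eta.rinv p (utGL 1 0 1 one_ne_zero one_ne_zero • τ)) = Eta.rinv p := by
    funext τ
    rw [utGL_one_smul]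
  have e2 : Complex.exp (2 * Real.pi * Complex.I * ((0 : ℕ) : ℂ) / ((1 : ℕ) : ℂ)) = 1 := by simp
  rw [e1, e2, Nat.div_one, one_mul, JFormal.substSeries_one_eq_qExpand] at h
  have e3 : cmap ℂ (qExpand ℂ p (coeffMap (Int.castRingHom ℂ) (dSer p)))
      = qExpand ℂ p (coeffMap (Int.castRingHom ℂ) (dSer p)) := by
    ext k
    simp [cmap]
  rw [e3]
  exact h

/-- the other conjugates of `Δ(τ)/Δ(pτ)` vanish at `i∞`. -/
theorem expRing_smul_tMod_coeff (p : ℕ) [NeZero p] (hp : p.Prime) {γ : SL(2, ℤ)}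
    (hγ : γ ∉ Gamma0 p) :
    ∀ k : ℤ, k < 1 → (expRing ℂ p (γ • tMod p)).coeff k = 0 := by
  have hγ' : γ⁻¹ ∉ Gamma0 p := fun h' => hγ (by simpa using (Gamma0 p).inv_mem h')
  obtain ⟨C, q, -, -, -, -, -, h⟩ := (Eta.rfun_smul_uexp (R := (⊤ : Subring ℂ)) (N := p)
    (Subring.mem_top _) (Subring.mem_top _) (dvd_refl p) γ⁻¹).2
  have hnd : ¬ p ∣ (γ⁻¹ 1 0).natAbs := by
    intro hd
    apply hγ'
    rw [Gamma0_mem, ZMod.intCast_zmod_eq_zero_iff_dvd]
    exact Int.natCast_dvd.mpr hd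
  have hgcd : Nat.gcd (γ⁻¹ 1 0).natAbs p = 1 := by
    rw [Nat.gcd_comm]
    exact (Nat.Prime.coprime_iff_not_dvd hp).mpr hnd
  have hord : ((p : ℤ) - ((p / p : ℕ) : ℤ) * ((Nat.gcd (γ⁻¹ 1 0).natAbs p : ℕ) : ℤ) ^ 2)
      = (p : ℤ) - 1 := by
    rw [hgcd, Nat.div_self hp.pos]
    simp
  rw [hord] at h
  have e : ∀ s : LaurentSeries ℂ, cmap ℂ s = s := by
    intro s
    ext k
    simp [cmap]
  have hexp : expRing ℂ p (γ • tMod p)
      = HahnSeries.single ((p : ℤ) - 1) C * HahnSeries.ofPowerSeries ℤ ℂ q := by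
    apply expRing_eq_of
    rw [e]
    exact h
  intro k hk
  have hp2 : (2 : ℤ) ≤ p := by exact_mod_cast hp.two_le
  rw [hexp, HahnSeries.coeff_single_mul, ofPowerSeries_coeff_of_neg _ (by omega), mul_zero]

/-- **The product polynomial of `Δ(τ)/Δ(pτ)`**, split at the identity coset. -/
theorem exists_factorization (p : ℕ) [NeZero p] (hp : p.Prime) :
    ∃ (P : ℂ[X][X]) (S : (LaurentSeries ℂ)[X]), P.Monic ∧ P.natDegree = p + 1 ∧
      P.map (evJ ℂ p) = S * (X - Polynomial.C (qExpand ℂ p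
        (coeffMap (Int.castRingHom ℂ) (dSer p)))) ∧
      ∀ i, i + 1 < p + 1 → ∀ k : ℤ, k < 1 → (S.coeff i).coeff k = 0 := by
  classical
  have : Finite (SL(2, ℤ) ⧸ Gamma0 p) := Subgroup.finite_quotient_of_finiteIndex
  let _ : Fintype (SL(2, ℤ) ⧸ Gamma0 p) := Fintype.ofFinite _
  have hcard : Fintype.card (SL(2, ℤ) ⧸ Gamma0 p) = p + 1 := by
    rw [← Nat.card_eq_fintype_card, CountIndex.card_quotient_Gamma0]
    have := CountIndex.dedekindPsi_prime_pow p 1 hp one_pos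
    simpa using this
  obtain ⟨P, hP1, hP2, hP3⟩ := Prod.exists_charPoly_exp (K := ℂ) (tMod p) (tMod_smul p)
  rw [MC.aeval_toRingHom_eq_evJ] at hP3
  set c₀ : SL(2, ℤ) ⧸ Gamma0 p := ((1 : SL(2, ℤ)) : SL(2, ℤ) ⧸ Gamma0 p) with hc₀
  refine ⟨P, ∏ c ∈ Finset.univ.erase c₀,
    (X - Polynomial.C (expRing ℂ p (Prod.conj (tMod p) (tMod_smul p) c))), hP1, by rw [hP2, hcard],
    ?_, ?_⟩
  · rw [hP3, ← Finset.prod_erase_mul Finset.univ _ (Finset.mem_univ c₀), hc₀, Prod.conj_one,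
      expRing_tMod]
  · intro i hi k hk
    refine coeff_prod_X_sub_C (Finset.univ.erase c₀)
      (fun c => expRing ℂ p (Prod.conj (tMod p) (tMod_smul p) c)) ?_ i ?_ k hk
    · intro c hc
      have hc' : c ≠ c₀ := Finset.ne_of_mem_erase hc
      induction c using QuotientGroup.induction_on with
      | H γ =>
        have hγ : γ ∉ Gamma0 p := by
          intro h
          apply hc'
          rw [hc₀, QuotientGroup.eq]
          simpa using (Gamma0 p).inv_mem h
        exact expRing_smul_tMod_coeff p hp hγ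
    · rw [Finset.card_erase_of_mem (Finset.mem_univ c₀), Finset.card_univ, hcard]
      omega

/-- membership in the rational function field of level `p`. -/
theorem dSer_mem (p : ℕ) [NeZero p] :
    coeffMap (Int.castRingHom ℚ) (dSer p) ∈ modularFunctionFieldFull p := by
  have e4 : coeffEmb ℂ (coeffMap (Int.castRingHom ℚ) (dSer p))
      = coeffMap (Int.castRingHom ℂ) (dSer p) := by
    rw [coeffEmb, coeffMap_coeffMap]
    exact coeffMap_congr (RingHom.ext_int _ _) (dSer p)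
  have hmem : coeffEmb ℂ (coeffMap (Int.castRingHom ℚ) (dSer p))
      ∈ laurentBaseChange ℂ (modularFunctionFieldFull p) :=
    Inv.mem_laurentBaseChange_of_invariant ℂ p (tMod p) (tMod_smul p) _
      (by rw [expRing_tMod, e4])
  exact Descent.mem_of_coeffEmb_mem _ hmem

end Fermat.Agent.S18.Haupt
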