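import Mathlib
import Fermat.Agent.S18_HauptMod

/-!
# S18 (WP-H3): the Hauptmoduln of levels 2 and 3

* `h2Z = (η(τ)/η(2τ))^24`, `h3Z = (η(τ)/η(3τ))^12 ∈ ℤ((q))`, of the shape `q⁻¹ (1 + …)`;
* `h2Z_rel : j h₂² = (h₂ + 256)³`, `h3Z_rel : j h₃³ = (h₃ + 27) (h₃ + 243)³` in `ℤ((q))`,
  and their base changes `h2_rel R`, `h3_rel R` to any commutative ring;
* `h2_mem`, `h3_mem`: the rational series lie in the function fields of levels 2 and 3.
-/

set_option autoImplicit false

noncomputable section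

open ModularCurve Polynomial

namespace Fermat.Agent.S18.Haupt

open Fermat.Agent.S28.Coeff Fermat.Agent.S18.HauptPoly

/-! ### the expansion of `Δ(τ)/Δ(pτ)` in terms of the Euler product -/

theorem dSer_eq (p : ℕ) [NeZero p] :
    dSer p = HahnSeries.single (1 + (p : ℤ) * -1) (1 : ℤ) * HahnSeries.ofPowerSeries ℤ ℤ
      (etaProd ^ 24 * PowerSeries.expand p (NeZero.ne p) etaInv ^ 24) := by
  rw [dSer, map_mul, qExpand_single, qExpand_ofPowerSeries, ← etaInv_pow, map_pow, dedekindEtaUnit,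
    mul_mul_mul_comm, HahnSeries.single_mul_single, one_mul, ← map_mul]

theorem dSer_two : dSer 2 = h2Z := by
  rw [dSer_eq, h2Z_eq_H2, H2]
  norm_num

theorem dSer_three : dSer 3 = h3Z ^ 2 := by
  rw [dSer_eq, h3Z_eq_H3, H3, mul_pow, HahnSeries.single_pow,
    ← map_pow (HahnSeries.ofPowerSeries ℤ ℤ), one_pow]
  have e : etaProd ^ 24 * PowerSeries.expand 3 (NeZero.ne 3) etaInv ^ 24
      = (etaProd ^ 12 * PowerSeries.expand 3 three_ne_zero etaInv ^ 12) ^ 2 := by ring
  rw [e]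
  norm_num

theorem coeffMap_intCast_injective (R : Type*) [CommRing R] [CharZero R] :
    Function.Injective (coeffMap (Int.castRingHom R)) := by
  intro s t h
  ext k
  have := congrArg (fun x : LaurentSeries R => x.coeff k) h
  simp only [coeffMap_coeff] at this
  exact (Int.castRingHom R).injective_int this

theorem constantCoeff_map_int (H : PowerSeries ℤ) (hH : PowerSeries.constantCoeff H = 1) :
    PowerSeries.constantCoeff (PowerSeries.map (Int.castRingHom ℂ) H) = 1 := by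
  rw [← PowerSeries.coeff_zero_eq_constantCoeff, PowerSeries.coeff_map,
    PowerSeries.coeff_zero_eq_constantCoeff, hH]
  simp

/-! ### level 2 -/

/-- `(X + 256)³ - Y X²` as a polynomial in `X` over `ℂ[Y]`. -/
def Q2 : ℂ[X][X] :=
  X ^ 3 + C (C 768 - X) * X ^ 2 + C (C 196608) * X + C (C 16777216)

theorem Q2_monic : Q2.Monic := by
  unfold Q2
  monicity!

theorem Q2_natDegree : Q2.natDegree = 3 := by
  unfold Q2
  compute_degree!

theorem Q2_coeff_natDegree : ∀ i, i + 1 < 3 → (Q2.coeff i).natDegree < 1 := by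
  intro i hi
  have h2 : i = 0 ∨ i = 1 := by omega
  rcases h2 with rfl | rfl
  · have : Q2.coeff 0 = C 16777216 := by
      rw [Q2]
      simp only [Polynomial.coeff_add, Polynomial.coeff_C_mul_X_pow, Polynomial.coeff_X_pow,
        Polynomial.coeff_C_mul_X, Polynomial.coeff_C]
      norm_num
    rw [this, natDegree_C]
    exact one_pos
  · have : Q2.coeff 1 = C 196608 := by
      rw [Q2]
      simp only [Polynomial.coeff_add, Polynomial.coeff_C_mul_X_pow, Polynomial.coeff_X_pow,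
        Polynomial.coeff_C_mul_X, Polynomial.coeff_C]
      norm_num
    rw [this, natDegree_C]
    exact one_pos

theorem Q2_eval (u : LaurentSeries ℂ) :
    (Q2.map (evJ ℂ 1)).eval u = (u + 256) ^ 3 - jqModC ℂ * u ^ 2 := by
  simp only [Q2, Polynomial.map_add, Polynomial.map_mul, Polynomial.map_pow, Polynomial.map_X,
    Polynomial.map_C, Polynomial.map_sub, Polynomial.eval_add, Polynomial.eval_mul,
    Polynomial.eval_pow, Polynomial.eval_X, Polynomial.eval_C, Polynomial.eval_sub, map_sub,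
    evJ_C, evJ_X, qExpand_one_apply]
  simp only [map_ofNat]
  ring

/-- **`j h₂² = (h₂ + 256)³`.** -/
theorem h2Z_rel : jqModC ℤ * h2Z ^ 2 = (h2Z + 256) ^ 3 := by
  obtain ⟨P, S, hP1, hP2, hfac, hS⟩ := exists_factorization 2 Nat.prime_two
  have hu : coeffMap (Int.castRingHom ℂ) (dSer 2)
      = HahnSeries.single (-((1 : ℕ) : ℤ)) (1 : ℂ) *
        HahnSeries.ofPowerSeries ℤ ℂ (PowerSeries.map (Int.castRingHom ℂ) H2) := by
    rw [dSer_two, h2Z_eq_H2, map_mul, coeffMap_single, coeffMap_ofPowerSeries]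
    simp
  rw [hu] at hfac
  have hcheck : ∀ k : ℤ, k ≤ 0 → ((Q2.map (evJ ℂ 1)).eval
      (HahnSeries.single (-((1 : ℕ) : ℤ)) (1 : ℂ) *
        HahnSeries.ofPowerSeries ℤ ℂ (PowerSeries.map (Int.castRingHom ℂ) H2))).coeff k = 0 := by
    intro k hk
    rw [← hu, dSer_two, Q2_eval]
    have e : (coeffMap (Int.castRingHom ℂ) h2Z + 256) ^ 3
        - jqModC ℂ * coeffMap (Int.castRingHom ℂ) h2Z ^ 2
        = coeffMap (Int.castRingHom ℂ) ((h2Z + 256) ^ 3 - jqModC ℤ * h2Z ^ 2) := by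
      simp only [map_sub, map_pow, map_add, map_mul, map_ofNat, coeffMap_jqModC]
    rw [e, coeffMap_coeff, relF2_coeff k hk, map_zero]
  have key := eval_eq_zero_of_factorization 2 1 one_pos (PowerSeries.map (Int.castRingHom ℂ) H2)
    (constantCoeff_map_int H2 constantCoeff_H2) 3 P Q2 hP1 hP2 Q2_monic Q2_natDegree S hfac hS
    Q2_coeff_natDegree hcheck
  rw [← hu, dSer_two, Q2_eval] at key
  have e : (coeffMap (Int.castRingHom ℂ) h2Z + 256) ^ 3
      - jqModC ℂ * coeffMap (Int.castRingHom ℂ) h2Z ^ 2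
      = coeffMap (Int.castRingHom ℂ) ((h2Z + 256) ^ 3 - jqModC ℤ * h2Z ^ 2) := by
    simp only [map_sub, map_pow, map_add, map_mul, map_ofNat, coeffMap_jqModC]
  rw [e, ← map_zero (coeffMap (Int.castRingHom ℂ))] at key
  have h0 := coeffMap_intCast_injective ℂ key
  exact (sub_eq_zero.mp h0).symm

/-! ### level 3 -/

/-- `A(X)² - X (B(X) - Y X)²`, `A = X² + 196830 X + 387420489`, `B = 756 X + 19131876`, as a
polynomial in `X` over `ℂ[Y]`: the relation between `j` and `h₃²`. -/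
def Q3 : ℂ[X][X] :=
  X ^ 4 + C (C 393660 - (C 756 - X) ^ 2) * X ^ 3 + C (C 38263752 * X + C 10589493366) * X ^ 2
    + C (C (-213516729579636)) * X + C (C 150094635296999121)

theorem Q3_monic : Q3.Monic := by
  unfold Q3
  monicity!

theorem Q3_natDegree : Q3.natDegree = 4 := by
  unfold Q3
  compute_degree!

theorem Q3_coeff_natDegree : ∀ i, i + 1 < 4 → (Q3.coeff i).natDegree < 2 := by
  intro i hi
  have h2 : i = 0 ∨ i = 1 ∨ i = 2 := by omega
  rcases h2 with rfl | rfl | rfl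
  · have : Q3.coeff 0 = C 150094635296999121 := by
      rw [Q3]
      simp only [Polynomial.coeff_add, Polynomial.coeff_C_mul_X_pow, Polynomial.coeff_X_pow,
        Polynomial.coeff_C_mul_X, Polynomial.coeff_C]
      norm_num
    rw [this, natDegree_C]
    exact two_pos
  · have : Q3.coeff 1 = C (-213516729579636) := by
      rw [Q3]
      simp only [Polynomial.coeff_add, Polynomial.coeff_C_mul_X_pow, Polynomial.coeff_X_pow,
        Polynomial.coeff_C_mul_X, Polynomial.coeff_C]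
      norm_num
    rw [this, natDegree_C]
    exact two_pos
  · have : Q3.coeff 2 = C 38263752 * X + C 10589493366 := by
      rw [Q3]
      simp only [Polynomial.coeff_add, Polynomial.coeff_C_mul_X_pow, Polynomial.coeff_X_pow,
        Polynomial.coeff_C_mul_X, Polynomial.coeff_C]
      norm_num
    rw [this]
    exact lt_of_le_of_lt (natDegree_linear_le) one_lt_two

theorem Q3_eval (u : LaurentSeries ℂ) :
    (Q3.map (evJ ℂ 1)).eval u = (u ^ 2 + 196830 * u + 387420489) ^ 2
      - u * ((756 * u + 19131876) - jqModC ℂ * u) ^ 2 := by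
  simp only [Q3, Polynomial.map_add, Polynomial.map_mul, Polynomial.map_pow, Polynomial.map_X,
    Polynomial.map_C, Polynomial.map_sub, Polynomial.eval_add, Polynomial.eval_mul,
    Polynomial.eval_pow, Polynomial.eval_X, Polynomial.eval_C, Polynomial.eval_sub, map_sub,
    map_add, map_mul, map_pow, evJ_C, evJ_X, qExpand_one_apply]
  simp only [map_neg, map_ofNat]
  ring

/-- **`j h₃³ = (h₃ + 27) (h₃ + 243)³`.** -/
theorem h3Z_rel : jqModC ℤ * h3Z ^ 3 = (h3Z + 27) * (h3Z + 243) ^ 3 := by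
  obtain ⟨P, S, hP1, hP2, hfac, hS⟩ := exists_factorization 3 Nat.prime_three
  have hu : coeffMap (Int.castRingHom ℂ) (dSer 3)
      = HahnSeries.single (-((2 : ℕ) : ℤ)) (1 : ℂ) *
        HahnSeries.ofPowerSeries ℤ ℂ (PowerSeries.map (Int.castRingHom ℂ) (H3 ^ 2)) := by
    rw [dSer_three, h3Z_eq_H3, mul_pow, HahnSeries.single_pow, ← map_pow, map_mul,
      coeffMap_single, coeffMap_ofPowerSeries]
    simp
  rw [hu] at hfac
  have e : ((coeffMap (Int.castRingHom ℂ) (h3Z ^ 2)) ^ 2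
        + 196830 * coeffMap (Int.castRingHom ℂ) (h3Z ^ 2) + 387420489) ^ 2
      - coeffMap (Int.castRingHom ℂ) (h3Z ^ 2) *
        ((756 * coeffMap (Int.castRingHom ℂ) (h3Z ^ 2) + 19131876)
          - jqModC ℂ * coeffMap (Int.castRingHom ℂ) (h3Z ^ 2)) ^ 2
      = coeffMap (Int.castRingHom ℂ) (((h3Z ^ 2) ^ 2 + 196830 * h3Z ^ 2 + 387420489) ^ 2
      - h3Z ^ 2 * ((756 * h3Z ^ 2 + 19131876) - jqModC ℤ * h3Z ^ 2) ^ 2) := by
    simp only [map_sub, map_pow, map_add, map_mul, map_ofNat, coeffMap_jqModC]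
  have hcheck : ∀ k : ℤ, k ≤ 0 → ((Q3.map (evJ ℂ 1)).eval
      (HahnSeries.single (-((2 : ℕ) : ℤ)) (1 : ℂ) *
        HahnSeries.ofPowerSeries ℤ ℂ (PowerSeries.map (Int.castRingHom ℂ) (H3 ^ 2)))).coeff k
        = 0 := by
    intro k hk
    rw [← hu, dSer_three, Q3_eval, e, coeffMap_coeff, relQ3_coeff k hk, map_zero]
  have hH : PowerSeries.constantCoeff (H3 ^ 2) = 1 := by
    rw [map_pow, constantCoeff_H3, one_pow]
  have key := eval_eq_zero_of_factorization 3 2 two_pos
    (PowerSeries.map (Int.castRingHom ℂ) (H3 ^ 2)) (constantCoeff_map_int _ hH) 4 P Q3 hP1 hP2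
    Q3_monic Q3_natDegree S hfac hS Q3_coeff_natDegree hcheck
  rw [← hu, dSer_three, Q3_eval, e, ← map_zero (coeffMap (Int.castRingHom ℂ))] at key
  have h0 := coeffMap_intCast_injective ℂ key
  rw [relQ3_eq] at h0
  rcases mul_eq_zero.mp h0 with h1 | h1
  · exact (sub_eq_zero.mp h1).symm
  · exact absurd h1 relG3_ne_zero

/-! ### base change and membership -/

/-- `h₂` over any commutative ring. -/
def h2 (R : Type*) [CommRing R] : LaurentSeries R := coeffMap (Int.castRingHom R) h2Z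

/-- `h₃` over any commutative ring. -/
def h3 (R : Type*) [CommRing R] : LaurentSeries R := coeffMap (Int.castRingHom R) h3Z

theorem h2_rel (R : Type*) [CommRing R] : jqModC R * h2 R ^ 2 = (h2 R + 256) ^ 3 := by
  have h := congrArg (coeffMap (Int.castRingHom R)) h2Z_rel
  simp only [map_pow, map_add, map_mul, map_ofNat, coeffMap_jqModC] at h
  exact h

theorem h3_rel (R : Type*) [CommRing R] :
    jqModC R * h3 R ^ 3 = (h3 R + 27) * (h3 R + 243) ^ 3 := by
  have h := congrArg (coeffMap (Int.castRingHom R)) h3Z_rel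
  simp only [map_pow, map_add, map_mul, map_ofNat, coeffMap_jqModC] at h
  exact h

theorem h2_mem : h2 ℚ ∈ modularFunctionFieldFull 2 := by
  have h := dSer_mem 2
  rwa [dSer_two] at h

theorem h3_sq_mem : h3 ℚ ^ 2 ∈ modularFunctionFieldFull 3 := by
  have h := dSer_mem 3
  rwa [dSer_three, map_pow] at h

theorem h3_mem : h3 ℚ ∈ modularFunctionFieldFull 3 := by
  have hD := h3_sq_mem
  have hj : jqModC ℚ ∈ modularFunctionFieldFull 3 := by
    rw [jqModC_rat]
    exact modularFunctionField_le_full 3 (jq_mem 3)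
  have rel := h3_rel ℚ
  set h := h3 ℚ with hh
  set j := jqModC ℚ with hjdef
  have hden : j * h ^ 2 - (756 * h ^ 2 + 19131876) ∈ modularFunctionFieldFull 3 :=
    sub_mem (mul_mem hj hD) (add_mem (mul_mem (ofNat_mem _ 756) hD) (ofNat_mem _ 19131876))
  have hnum : (h ^ 2) ^ 2 + 196830 * h ^ 2 + 387420489 ∈ modularFunctionFieldFull 3 :=
    add_mem (add_mem (pow_mem hD 2) (mul_mem (ofNat_mem _ 196830) hD)) (ofNat_mem _ 387420489)
  have hmul : h * (j * h ^ 2 - (756 * h ^ 2 + 19131876))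
      = (h ^ 2) ^ 2 + 196830 * h ^ 2 + 387420489 := by
    linear_combination rel
  have hG : (27 - h) * (243 - h) ^ 3 + j * h ^ 3
      = 2 * ((h ^ 2) ^ 2 + 196830 * h ^ 2 + 387420489) := by
    linear_combination rel
  have hG0 : (27 - h) * (243 - h) ^ 3 + j * h ^ 3 ≠ 0 := by
    have e : (27 - h) * (243 - h) ^ 3 + j * h ^ 3
        = coeffMap (Int.castRingHom ℚ) ((27 - h3Z) * (243 - h3Z) ^ 3 + jqModC ℤ * h3Z ^ 3) := by
      simp only [map_sub, map_pow, map_add, map_mul, map_ofNat, coeffMap_jqModC, hh, hjdef, h3]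
    rw [e]
    intro h0
    apply relG3_ne_zero
    rw [← map_zero (coeffMap (Int.castRingHom ℚ))] at h0
    exact coeffMap_intCast_injective ℚ h0
  have hden0 : j * h ^ 2 - (756 * h ^ 2 + 19131876) ≠ 0 := by
    intro h0
    rw [h0, mul_zero] at hmul
    rw [← hmul, mul_zero] at hG
    exact hG0 hG
  have hfin : h = ((h ^ 2) ^ 2 + 196830 * h ^ 2 + 387420489) *
      (j * h ^ 2 - (756 * h ^ 2 + 19131876))⁻¹ := by
    rw [← hmul, mul_assoc, mul_inv_cancel₀ hden0, mul_one]
  rw [hfin]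
  exact mul_mem hnum (inv_mem hden)

/-! ### shape of the series -/

theorem coeff_neg_one_of_eq {h : LaurentSeries ℤ} {P : PowerSeries ℤ}
    (hP : PowerSeries.constantCoeff P = 1)
    (hh : h = HahnSeries.single (-1 : ℤ) (1 : ℤ) * HahnSeries.ofPowerSeries ℤ ℤ P) :
    h.coeff (-1) = 1 ∧ ∀ i : ℤ, i < -1 → h.coeff i = 0 := by
  have e : HahnSeries.single (-1 : ℤ) (1 : ℤ) = HahnSeries.single (-((1 : ℕ) : ℤ)) (1 : ℤ) := by
    norm_num
  rw [hh, e]
  constructor
  · rw [coeff_single_mul_ofPS', if_pos (by norm_num)]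
    have h2 : ((-1 : ℤ) + ((1 : ℕ) : ℤ)).toNat = 0 := by norm_num
    rw [h2, PowerSeries.coeff_zero_eq_constantCoeff, hP]
  · intro i hi
    rw [coeff_single_mul_ofPS', if_neg (by push_cast; omega)]

theorem h2Z_coeff_neg_one : h2Z.coeff (-1) = 1 :=
  (coeff_neg_one_of_eq constantCoeff_H2 h2Z_eq_H2).1

theorem h2Z_coeff_lt : ∀ i : ℤ, i < -1 → h2Z.coeff i = 0 :=
  (coeff_neg_one_of_eq constantCoeff_H2 h2Z_eq_H2).2

theorem h3Z_coeff_neg_one : h3Z.coeff (-1) = 1 :=
  (coeff_neg_one_of_eq constantCoeff_H3 h3Z_eq_H3).1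

theorem h3Z_coeff_lt : ∀ i : ℤ, i < -1 → h3Z.coeff i = 0 :=
  (coeff_neg_one_of_eq constantCoeff_H3 h3Z_eq_H3).2

end Fermat.Agent.S18.Haupt
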