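import Mathlib
import Fermat.Agent.S18_Haupt

/-!
# S18 (WP-H3): the Hauptmodul relations in polynomial form

`j · Q(h) = P(h)` with `P = (X + 256)³`, `Q = X²` (level 2) and `P = (X + 27)(X + 243)³`,
`Q = X³` (level 3), together with the elementary facts on `P`, `Q` (monic, degrees, coprime
over `ℚ`) — the fields of the structure `H1.Haupt`.
-/

set_option autoImplicit false

noncomputable section

open ModularCurve Polynomial

namespace Fermat.Agent.S18.Haupt

/-- `(X + 256)³`. -/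
def polyP2 : ℤ[X] := (X + C 256) ^ 3

/-- `X²`. -/
def polyQ2 : ℤ[X] := X ^ 2

/-- `(X + 27) (X + 243)³`. -/
def polyP3 : ℤ[X] := (X + C 27) * (X + C 243) ^ 3

/-- `X³`. -/
def polyQ3 : ℤ[X] := X ^ 3

theorem aeval_polyP2 {A : Type*} [CommRing A] [Algebra ℤ A] (h : A) :
    aeval h polyP2 = (h + 256) ^ 3 := by
  simp only [polyP2, map_pow, map_add, aeval_X, map_ofNat]

theorem aeval_polyQ2 {A : Type*} [CommRing A] [Algebra ℤ A] (h : A) :
    aeval h polyQ2 = h ^ 2 := by
  simp only [polyQ2, map_pow, aeval_X]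

theorem aeval_polyP3 {A : Type*} [CommRing A] [Algebra ℤ A] (h : A) :
    aeval h polyP3 = (h + 27) * (h + 243) ^ 3 := by
  simp only [polyP3, map_pow, map_add, map_mul, aeval_X, map_ofNat]

theorem aeval_polyQ3 {A : Type*} [CommRing A] [Algebra ℤ A] (h : A) :
    aeval h polyQ3 = h ^ 3 := by
  simp only [polyQ3, map_pow, aeval_X]

theorem h2Z_aeval_rel : jqModC ℤ * aeval h2Z polyQ2 = aeval h2Z polyP2 := by
  rw [aeval_polyP2, aeval_polyQ2]
  exact h2Z_rel

theorem h3Z_aeval_rel : jqModC ℤ * aeval h3Z polyQ3 = aeval h3Z polyP3 := by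
  rw [aeval_polyP3, aeval_polyQ3]
  exact h3Z_rel

theorem polyP2_monic : polyP2.Monic := (monic_X_add_C _).pow 3

theorem polyP3_monic : polyP3.Monic := (monic_X_add_C _).mul ((monic_X_add_C _).pow 3)

theorem polyP2_natDegree : polyP2.natDegree = 3 := by
  rw [polyP2, (monic_X_add_C (256 : ℤ)).natDegree_pow, natDegree_X_add_C]

theorem polyP3_natDegree : polyP3.natDegree = 4 := by
  rw [polyP3, (monic_X_add_C (27 : ℤ)).natDegree_mul ((monic_X_add_C (243 : ℤ)).pow 3),
    (monic_X_add_C (243 : ℤ)).natDegree_pow, natDegree_X_add_C, natDegree_X_add_C]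

theorem polyQ2_natDegree : polyQ2.natDegree = 2 := by
  rw [polyQ2, natDegree_X_pow]

theorem polyQ3_natDegree : polyQ3.natDegree = 3 := by
  rw [polyQ3, natDegree_X_pow]

theorem isCoprime_X_add_C_X (a : ℚ) (ha : a ≠ 0) : IsCoprime (X + C a) (X : ℚ[X]) := by
  refine ⟨C a⁻¹, -C a⁻¹, ?_⟩
  have h : (C a⁻¹ : ℚ[X]) * C a = 1 := by
    rw [← C_mul, inv_mul_cancel₀ ha, C_1]
  linear_combination h

theorem polyP2_polyQ2_coprime :
    IsCoprime (polyP2.map (Int.castRingHom ℚ)) (polyQ2.map (Int.castRingHom ℚ)) := by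
  have e1 : polyP2.map (Int.castRingHom ℚ) = (X + C (256 : ℚ)) ^ 3 := by
    rw [polyP2, Polynomial.map_pow, Polynomial.map_add, Polynomial.map_X, Polynomial.map_C]
    simp only [map_ofNat]
  have e2 : polyQ2.map (Int.castRingHom ℚ) = X ^ 2 := by
    rw [polyQ2, Polynomial.map_pow, Polynomial.map_X]
  rw [e1, e2]
  exact (isCoprime_X_add_C_X 256 (by norm_num)).pow

theorem polyP3_polyQ3_coprime :
    IsCoprime (polyP3.map (Int.castRingHom ℚ)) (polyQ3.map (Int.castRingHom ℚ)) := by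
  have e1 : polyP3.map (Int.castRingHom ℚ) = (X + C (27 : ℚ)) * (X + C (243 : ℚ)) ^ 3 := by
    rw [polyP3, Polynomial.map_mul, Polynomial.map_pow, Polynomial.map_add, Polynomial.map_add,
      Polynomial.map_X, Polynomial.map_C, Polynomial.map_C]
    simp only [map_ofNat]
  have e2 : polyQ3.map (Int.castRingHom ℚ) = X ^ 3 := by
    rw [polyQ3, Polynomial.map_pow, Polynomial.map_X]
  rw [e1, e2]
  exact IsCoprime.mul_left ((isCoprime_X_add_C_X 27 (by norm_num)).pow_right)
    (isCoprime_X_add_C_X 243 (by norm_num)).pow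

end Fermat.Agent.S18.Haupt
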