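import Mathlib
import Fermat.Agent.S18_H2
import Fermat.Agent.S18_HauptPQ
import Fermat.Agent.S18_ValRing

/-!
# S18 (C6): branch data of the three Hauptmoduln in the shape of `G2.exists_G2`

For a valuation subring `A` of `K` and a function `g` on `X₀(M)` related to `j` by
`j · Q(g) = P(g)` with `(P, Q) = (X, 1)`, `((X + 256)³, X²)`, `((X + 27)(X + 243)³, X³)`:

* `hunr_j`, `hunr_h2`, `hunr_h3`: `g` is unramified outside the branch set
  `branchJ A = {0, 1728}`, `branch2 A = {0, -64}`, `branch3 A = {0, -27}`;
* `hB_j`, `hB_h2`, `hB_h3`: the branch values do not collide modulo `ℓ` (`ℓ ≥ 5`, `ℓ = 3`,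
  `ℓ = 2` respectively).
-/

set_option autoImplicit false
set_option linter.unusedSectionVars false
set_option linter.style.haveILetI false

noncomputable section

open Polynomial AlgebraicCurve ModularCurve Fermat.Agent.S24

namespace Fermat.Agent.S18.Branch

open Classical in
/-- the branch set of `j`. -/
def branchJ {K : Type*} [Field K] (A : ValuationSubring K) : Finset A := {0, 1728}

open Classical in
/-- the branch set of `h₂`. -/
def branch2 {K : Type*} [Field K] (A : ValuationSubring K) : Finset A := {0, -64}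

open Classical in
/-- the branch set of `h₃`. -/
def branch3 {K : Type*} [Field K] (A : ValuationSubring K) : Finset A := {0, -27}

section NonCollision

variable {K : Type*} [Field K] (A : ValuationSubring K)

theorem injOn_pair (c : A) (hc : IsLocalRing.residue A c ≠ 0) :
    Set.InjOn (IsLocalRing.residue A) ((({0, c} : Set A))) := by
  intro x hx y hy hxy
  rcases hx with rfl | rfl <;> rcases hy with rfl | rfl
  · rfl
  · rw [map_zero] at hxy
    exact absurd hxy.symm hc
  · rw [map_zero] at hxy
    exact absurd hxy hc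
  · rfl

variable (ℓ : ℕ) [Fact ℓ.Prime]

/-- non-collision for `j`, `ℓ ≥ 5`. -/
theorem hB_j (hchar : CharP (IsLocalRing.ResidueField A) ℓ) (hℓ : 5 ≤ ℓ) :
    Set.InjOn (IsLocalRing.residue A) (branchJ A : Set A) := by
  classical
  have hc : IsLocalRing.residue A (1728 : A) ≠ 0 := by
    have h1 : IsLocalRing.residue A (1728 : A) = ((1728 : ℕ) : IsLocalRing.ResidueField A) := by
      rw [← map_natCast (IsLocalRing.residue A)]
      norm_num
    rw [h1, Ne, CharP.cast_eq_zero_iff (IsLocalRing.ResidueField A) ℓ]
    intro hdvd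
    have hp : ℓ.Prime := Fact.out
    have h2 : ℓ ∣ 2 ^ 6 * 3 ^ 3 := by norm_num; exact hdvd
    rcases (Nat.Prime.dvd_mul hp).mp h2 with h | h
    · have := Nat.le_of_dvd (by norm_num) (hp.dvd_of_dvd_pow h)
      omega
    · have := Nat.le_of_dvd (by norm_num) (hp.dvd_of_dvd_pow h)
      omega
  have := injOn_pair A (1728 : A) hc
  unfold branchJ
  rw [Finset.coe_insert, Finset.coe_singleton]
  exact this

/-- non-collision for `h₂`, `ℓ = 3`. -/
theorem hB_h2 (hchar : CharP (IsLocalRing.ResidueField A) ℓ) (hℓ : ℓ = 3) :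
    Set.InjOn (IsLocalRing.residue A) (branch2 A : Set A) := by
  classical
  subst hℓ
  have hc : IsLocalRing.residue A (-64 : A) ≠ 0 := by
    have h1 : IsLocalRing.residue A (-64 : A) = -((64 : ℕ) : IsLocalRing.ResidueField A) := by
      rw [← map_natCast (IsLocalRing.residue A), ← map_neg]
      norm_num
    rw [h1, Ne, neg_eq_zero, CharP.cast_eq_zero_iff (IsLocalRing.ResidueField A) 3]
    norm_num
  have := injOn_pair A (-64 : A) hc
  unfold branch2
  rw [Finset.coe_insert, Finset.coe_singleton]
  exact this

/-- non-collision for `h₃`, `ℓ = 2`. -/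
theorem hB_h3 (hchar : CharP (IsLocalRing.ResidueField A) ℓ) (hℓ : ℓ = 2) :
    Set.InjOn (IsLocalRing.residue A) (branch3 A : Set A) := by
  classical
  subst hℓ
  have hc : IsLocalRing.residue A (-27 : A) ≠ 0 := by
    have h1 : IsLocalRing.residue A (-27 : A) = -((27 : ℕ) : IsLocalRing.ResidueField A) := by
      rw [← map_natCast (IsLocalRing.residue A), ← map_neg]
      norm_num
    rw [h1, Ne, neg_eq_zero, CharP.cast_eq_zero_iff (IsLocalRing.ResidueField A) 2]
    norm_num
  have := injOn_pair A (-27 : A) hc
  unfold branch3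
  rw [Finset.coe_insert, Finset.coe_singleton]
  exact this

end NonCollision

/-- evaluating the base change of an integer polynomial. -/
theorem aeval_map_int {K F : Type*} [Field K] [Field F] [Algebra K F] (g : F) (p : ℤ[X]) :
    aeval g (p.map (Int.castRingHom K)) = aeval g p := by
  rw [aeval_def, aeval_def, Polynomial.eval₂_map]
  congr 1
  exact RingHom.ext_int _ _

section Unramified

variable (K : Type) [Field K] [Algebra K ℂ] [Algebra ℚ K] [IsAlgClosed K] (M : ℕ) [NeZero M]
  (A : ValuationSubring K)

/-- `j` is unramified outside `{0, 1728}`. -/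
theorem hunr_j (g : Tower.FuncField K M)
    (hrel : Tower.jGen K M * aeval g ((1 : ℤ[X]).map (Int.castRingHom K))
      = aeval g ((X : ℤ[X]).map (Int.castRingHom K))) :
    ∀ c : K, (∀ b ∈ branchJ A, (b : K) ≠ c) →
      Nat.card (PlacesAt K g c)
        = Module.finrank (IntermediateField.adjoin K {g}) (Tower.FuncField K M) := by
  classical
  intro c hc
  have hg : g = Tower.jGen K M := by
    rw [Polynomial.map_one, Polynomial.map_X, aeval_X, map_one, mul_one] at hrel
    exact hrel.symm
  have h0 : c ≠ 0 := by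
    have := hc 0 (by unfold branchJ; simp)
    exact fun h => this (by rw [h]; rfl)
  have h1 : c ≠ 1728 := by
    have := hc 1728 (by unfold branchJ; simp)
    exact fun h => this (by rw [h]; rfl)
  obtain ⟨-, hμ, hgen, -⟩ := modular_counts K M
  rw [hg, hgen c h0 h1, hμ]

/-- `h₂` is unramified outside `{0, -64}`. -/
theorem hunr_h2 (g : Tower.FuncField K M)
    (hrel : Tower.jGen K M * aeval g (Fermat.Agent.S18.Haupt.polyQ2.map (Int.castRingHom K))
      = aeval g (Fermat.Agent.S18.Haupt.polyP2.map (Int.castRingHom K))) :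
    ∀ c : K, (∀ b ∈ branch2 A, (b : K) ≠ c) →
      Nat.card (PlacesAt K g c)
        = Module.finrank (IntermediateField.adjoin K {g}) (Tower.FuncField K M) := by
  classical
  intro c hc
  have hrel' : Tower.jGen K M * g ^ 2 = (g + 256) ^ 3 := by
    have e1 : aeval g (Fermat.Agent.S18.Haupt.polyQ2.map (Int.castRingHom K)) = g ^ 2 := by
      rw [aeval_map_int, Fermat.Agent.S18.Haupt.aeval_polyQ2]
    have e2 : aeval g (Fermat.Agent.S18.Haupt.polyP2.map (Int.castRingHom K)) = (g + 256) ^ 3 := by
      rw [aeval_map_int, Fermat.Agent.S18.Haupt.aeval_polyP2]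
    rw [e1, e2] at hrel
    exact hrel
  have h0 : c ≠ 0 := by
    have := hc 0 (by unfold branch2; simp)
    exact fun h => this (by rw [h]; rfl)
  have h1 : c ≠ -64 := by
    have := hc (-64) (by unfold branch2; simp)
    exact fun h => this (by rw [h]; rfl)
  exact (Fermat.Agent.S18.H2.natCard_placesAt_h2 K M g hrel').2 c h0 h1

/-- `h₃` is unramified outside `{0, -27}`. -/
theorem hunr_h3 (g : Tower.FuncField K M)
    (hrel : Tower.jGen K M * aeval g (Fermat.Agent.S18.Haupt.polyQ3.map (Int.castRingHom K))
      = aeval g (Fermat.Agent.S18.Haupt.polyP3.map (Int.castRingHom K))) :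
    ∀ c : K, (∀ b ∈ branch3 A, (b : K) ≠ c) →
      Nat.card (PlacesAt K g c)
        = Module.finrank (IntermediateField.adjoin K {g}) (Tower.FuncField K M) := by
  classical
  intro c hc
  have hrel' : Tower.jGen K M * g ^ 3 = (g + 27) * (g + 243) ^ 3 := by
    have e1 : aeval g (Fermat.Agent.S18.Haupt.polyQ3.map (Int.castRingHom K)) = g ^ 3 := by
      rw [aeval_map_int, Fermat.Agent.S18.Haupt.aeval_polyQ3]
    have e2 : aeval g (Fermat.Agent.S18.Haupt.polyP3.map (Int.castRingHom K))
        = (g + 27) * (g + 243) ^ 3 := by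
      rw [aeval_map_int, Fermat.Agent.S18.Haupt.aeval_polyP3]
    rw [e1, e2] at hrel
    exact hrel
  have h0 : c ≠ 0 := by
    have := hc 0 (by unfold branch3; simp)
    exact fun h => this (by rw [h]; rfl)
  have h1 : c ≠ -27 := by
    have := hc (-27) (by unfold branch3; simp)
    exact fun h => this (by rw [h]; rfl)
  exact (Fermat.Agent.S18.H2.natCard_placesAt_h3 K M g hrel').2 c h0 h1

end Unramified

end Fermat.Agent.S18.Branch
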