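import Mathlib
import Fermat.Agent.S18_GaussField

/-!
# S18, WP-D1: the residue field of the Gauss valuation ring is `k(h̄, θ̄)`

* `Datum.range_κemb`: the image of `κemb : κ → k((q))` is `k(h̄, θ̄)`;
* `Datum.adjoin_hbar_θbar`: `κ = k(ρ h, ρ θ)`;
* `Datum.isSeparable_κ`, `Datum.isSeparable_κ_inv`: `κ` is separable over `k(ρ h)`
  (resp. `k(ρ h⁻¹)`) as soon as `θ̄` is separable over `k(h̄)` inside `k((q))`.
-/

set_option autoImplicit false

noncomputable section

open ModularCurve Polynomial

namespace Fermat.Agent.S18.Gauss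

variable {L : Type*} [Field L]

namespace Datum

variable {A : ValuationSubring L} {F : IntermediateField L (LaurentSeries L)} {n : ℕ}
  (D : Datum A F n)

include D

theorem aeval_red_mem (P : (IsLocalRing.ResidueField A)[X])
    (S : IntermediateField (IsLocalRing.ResidueField A) (LaurentSeries (IsLocalRing.ResidueField A)))
    (hS : red A D.hA ∈ S) : aeval (red A D.hA) P ∈ S := by
  have h := coe_aeval S ⟨red A D.hA, hS⟩ P
  rw [← h]
  exact SetLike.coe_mem _

theorem rhoV_mem_adjoin (y : D.goodVal.V) :
    D.rhoV y ∈ IntermediateField.adjoin (IsLocalRing.ResidueField A)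
      {red A D.hA, red A D.θA} := by
  obtain ⟨d, p, hd, h⟩ := D.exists_normal_form ((y : F) : LaurentSeries L) (y : F).2
  have hz : D.combL p ∈ gaussRing A := by
    rw [← h]
    exact (gaussRing A).mul_mem (emb_mem_gaussRing A _) y.2
  have hp := D.coeff_mem_of_combL_mem p hz
  have h2 : D.combL p = emb A (D.comb (fun i => liftPoly A (p i))) := by
    rw [emb_comb]
    congr 1
    funext i
    exact (map_liftPoly A _ (hp i)).symm
  rw [h2] at h
  rw [D.rhoV_eq y _ _ hd h, red_comb, red_evalA]
  have hh : red A D.hA ∈ IntermediateField.adjoin (IsLocalRing.ResidueField A)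
      {red A D.hA, red A D.θA} := IntermediateField.subset_adjoin _ _ (by simp)
  have hθ : red A D.θA ∈ IntermediateField.adjoin (IsLocalRing.ResidueField A)
      {red A D.hA, red A D.θA} := IntermediateField.subset_adjoin _ _ (by simp)
  exact div_mem (sum_mem (fun i _ => mul_mem (D.aeval_red_mem _ _ hh) (pow_mem hθ _)))
    (D.aeval_red_mem _ _ hh)

/-- the reduction of `θ`. -/
def θbar : D.goodVal.κ := D.goodVal.ρ ⟨D.θ, D.θ_mem_V⟩

theorem κemb_θbar : D.κemb D.θbar = red A D.θA := (D.κemb_ρ _).trans D.rhoV_θ

/-- the residue field is `k(h̄, θ̄)`. -/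
theorem range_κemb : D.κembAlg.fieldRange =
    IntermediateField.adjoin (IsLocalRing.ResidueField A) {red A D.hA, red A D.θA} := by
  apply le_antisymm
  · rintro _ ⟨x, rfl⟩
    obtain ⟨y, rfl⟩ := IsLocalRing.residue_surjective x
    have h1 : D.κembAlg (IsLocalRing.residue _ y) = D.rhoV y := D.κemb_ρ y
    show D.κembAlg (IsLocalRing.residue _ y) ∈ _
    rw [h1]
    exact D.rhoV_mem_adjoin y
  · rw [IntermediateField.adjoin_le_iff]
    rintro x (rfl | rfl)
    · exact ⟨D.goodVal.hbar, D.κemb_hbar⟩
    · exact ⟨D.θbar, D.κemb_θbar⟩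

theorem adjoin_hbar_θbar :
    IntermediateField.adjoin (IsLocalRing.ResidueField A) {D.goodVal.hbar, D.θbar} = ⊤ := by
  apply IntermediateField.map_injective D.κembAlg
  rw [IntermediateField.adjoin_map, ← AlgHom.fieldRange_eq_map, range_κemb]
  congr 1
  rw [Set.image_pair]
  congr 1
  · exact D.κemb_hbar
  · rw [Set.singleton_eq_singleton_iff]
    exact D.κemb_θbar

theorem map_adjoin_hbar :
    (IntermediateField.adjoin (IsLocalRing.ResidueField A) {D.goodVal.hbar}).map D.κembAlg
      = IntermediateField.adjoin (IsLocalRing.ResidueField A) {red A D.hA} := by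
  rw [IntermediateField.adjoin_map, Set.image_singleton]
  congr 1
  rw [Set.singleton_eq_singleton_iff]
  exact D.κemb_hbar

/-- `ρ θ` is separable over `k(ρ h)` if `θ̄` is separable over `k(h̄)` in `k((q))`. -/
theorem isSeparable_θbar
    (hsep : IsSeparable (IntermediateField.adjoin (IsLocalRing.ResidueField A) {red A D.hA})
      (red A D.θA)) :
    IsSeparable (IntermediateField.adjoin (IsLocalRing.ResidueField A) {D.goodVal.hbar})
      D.θbar := by
  have hmap := D.map_adjoin_hbar
  have hmem : ∀ c : IntermediateField.adjoin (IsLocalRing.ResidueField A) {D.goodVal.hbar},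
      D.κemb (c : D.goodVal.κ)
        ∈ IntermediateField.adjoin (IsLocalRing.ResidueField A) {red A D.hA} := by
    intro c
    rw [← hmap]
    exact ⟨c, c.2, rfl⟩
  let φ : IntermediateField.adjoin (IsLocalRing.ResidueField A) {D.goodVal.hbar} →+*
      IntermediateField.adjoin (IsLocalRing.ResidueField A) {red A D.hA} :=
    (D.κemb.comp (algebraMap _ D.goodVal.κ)).codRestrict _ hmem
  have hφ : ∀ c, ((φ c : IntermediateField.adjoin (IsLocalRing.ResidueField A) {red A D.hA}) :
      LaurentSeries (IsLocalRing.ResidueField A)) = D.κemb (c : D.goodVal.κ) := fun c => rfl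
  have hsurj : Function.Surjective φ := by
    intro c'
    have hc' : (c' : LaurentSeries (IsLocalRing.ResidueField A)) ∈
        (IntermediateField.adjoin (IsLocalRing.ResidueField A) {D.goodVal.hbar}).map
          D.κembAlg := by
      rw [hmap]
      exact c'.2
    obtain ⟨c, hc, hcc⟩ := hc'
    exact ⟨⟨c, hc⟩, Subtype.ext hcc⟩
  let e := RingEquiv.ofBijective φ ⟨φ.injective, hsurj⟩
  have hsep0 : (minpoly (IntermediateField.adjoin (IsLocalRing.ResidueField A) {red A D.hA})
      (red A D.θA)).Separable := hsep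
  have hroot : aeval D.θbar ((minpoly (IntermediateField.adjoin (IsLocalRing.ResidueField A)
      {red A D.hA}) (red A D.θA)).map e.symm.toRingHom) = 0 := by
    apply D.κemb_injective
    rw [map_zero, aeval_def, Polynomial.eval₂_map, Polynomial.hom_eval₂, κemb_θbar]
    have hcomp : (D.κemb.comp ((algebraMap
        (IntermediateField.adjoin (IsLocalRing.ResidueField A) {D.goodVal.hbar})
        D.goodVal.κ).comp e.symm.toRingHom))
        = algebraMap (IntermediateField.adjoin (IsLocalRing.ResidueField A) {red A D.hA})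
          (LaurentSeries (IsLocalRing.ResidueField A)) := by
      ext c : 1
      show D.κemb ((e.symm c : IntermediateField.adjoin (IsLocalRing.ResidueField A)
        {D.goodVal.hbar}) : D.goodVal.κ) = (c : LaurentSeries (IsLocalRing.ResidueField A))
      rw [← hφ]
      exact congrArg Subtype.val (e.apply_symm_apply c)
    rw [hcomp, ← aeval_def]
    exact minpoly.aeval _ _
  exact Polynomial.Separable.of_dvd (Polynomial.Separable.map hsep0) (minpoly.dvd _ _ hroot)

set_option synthInstance.maxHeartbeats 400000 in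
/-- `κ` is separable over `k(ρ h)`: the `hsep` input of `D2.chartVal` for the chart `h`. -/
theorem isSeparable_κ
    (hsep : IsSeparable (IntermediateField.adjoin (IsLocalRing.ResidueField A) {red A D.hA})
      (red A D.θA)) :
    Algebra.IsSeparable
      (IntermediateField.adjoin (IsLocalRing.ResidueField A) {D.goodVal.hbar}) D.goodVal.κ := by
  have htop : IntermediateField.adjoin
      (IntermediateField.adjoin (IsLocalRing.ResidueField A) {D.goodVal.hbar}) {D.θbar} = ⊤ := by
    apply IntermediateField.restrictScalars_injective (IsLocalRing.ResidueField A)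
    rw [IntermediateField.adjoin_adjoin_left, IntermediateField.restrictScalars_top,
      ← D.adjoin_hbar_θbar]
    congr 1
  have h1 : D.θbar ∈ separableClosure
      (IntermediateField.adjoin (IsLocalRing.ResidueField A) {D.goodVal.hbar}) D.goodVal.κ :=
    mem_separableClosure_iff.2 (D.isSeparable_θbar hsep)
  have h2 : separableClosure
      (IntermediateField.adjoin (IsLocalRing.ResidueField A) {D.goodVal.hbar}) D.goodVal.κ
      = ⊤ := by
    rw [eq_top_iff, ← htop, IntermediateField.adjoin_simple_le_iff]
    exact h1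
  exact (separableClosure.eq_top_iff _ _).1 h2

/-- the same, with `ρ h` spelled out (shape of `D2.chartVal`). -/
theorem isSeparable_κ'
    (hsep : IsSeparable (IntermediateField.adjoin (IsLocalRing.ResidueField A) {red A D.hA})
      (red A D.θA)) :
    Algebra.IsSeparable
      (IntermediateField.adjoin (IsLocalRing.ResidueField A)
        {D.goodVal.ρ ⟨D.h, D.h_mem_V⟩}) D.goodVal.κ :=
  D.isSeparable_κ hsep

theorem h_ne_zero : D.h ≠ 0 := by
  intro h0
  exact emb_ne_zero A D.red_hA_ne_zero (congrArg Subtype.val h0)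

theorem ρ_hinv : D.goodVal.ρ ⟨D.h⁻¹, D.hinv_mem_V⟩ = D.goodVal.hbar⁻¹ := by
  have h1 : D.goodVal.ρ ⟨D.h⁻¹, D.hinv_mem_V⟩ * D.goodVal.hbar = 1 := by
    rw [GoodVal.hbar, ← map_mul]
    have h2 : (⟨D.h⁻¹, D.hinv_mem_V⟩ : D.goodVal.V) * ⟨D.h, D.goodVal.h_mem⟩ = 1 :=
      Subtype.ext (inv_mul_cancel₀ D.h_ne_zero)
    rw [h2, map_one]
  exact eq_inv_of_mul_eq_one_left h1

omit D in
theorem adjoin_inv_eq {k E : Type*} [Field k] [Field E] [Algebra k E] (x : E) :
    IntermediateField.adjoin k {x⁻¹} = IntermediateField.adjoin k {x} := by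
  apply le_antisymm
  · rw [IntermediateField.adjoin_simple_le_iff]
    exact inv_mem (IntermediateField.mem_adjoin_simple_self k x)
  · rw [IntermediateField.adjoin_simple_le_iff]
    have h := inv_mem (IntermediateField.mem_adjoin_simple_self k x⁻¹)
    rwa [inv_inv] at h

omit D in
theorem isSeparable_of_eq {k E : Type*} [Field k] [Field E] [Algebra k E]
    {K₁ K₂ : IntermediateField k E} (h : K₁ = K₂) (hs : Algebra.IsSeparable K₂ E) :
    Algebra.IsSeparable K₁ E := by
  subst h
  exact hs

/-- `κ` is separable over `k(ρ h⁻¹)`: the `hsep` input of `D2.chartVal` for the chart `h⁻¹`. -/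
theorem isSeparable_κ_inv
    (hsep : IsSeparable (IntermediateField.adjoin (IsLocalRing.ResidueField A) {red A D.hA})
      (red A D.θA)) :
    Algebra.IsSeparable
      (IntermediateField.adjoin (IsLocalRing.ResidueField A)
        {D.goodVal.ρ ⟨D.h⁻¹, D.hinv_mem_V⟩}) D.goodVal.κ := by
  refine isSeparable_of_eq ?_ (D.isSeparable_κ hsep)
  rw [ρ_hinv]
  exact adjoin_inv_eq _

end Datum

end Fermat.Agent.S18.Gauss
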