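import Mathlib
import Fermat.Agent.S18_GaussField

/-!
# S18, WP-D1: the Gauss datum attached to two integer series

`Datum.ofSeries`: for `hZ θZ : LaurentSeries ℤ` whose images generate `F` over `L` with
`[F : L(h)] = n`, and whose reductions satisfy transcendence and (I1), the `Datum A F n` with
`hA = coeffMap (Int.castRingHom A) hZ`, `θA = coeffMap (Int.castRingHom A) θZ`.
-/

set_option autoImplicit false

noncomputable section

open ModularCurve Polynomial

namespace Fermat.Agent.S18.Gauss

variable {L : Type*} [Field L] (A : ValuationSubring L)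

theorem emb_intSeries (x : LaurentSeries ℤ) :
    emb A (coeffMap (Int.castRingHom A) x) = coeffMap (Int.castRingHom L) x := by
  rw [emb, coeffMap_coeffMap]
  exact coeffMap_congr (RingHom.ext_int _ _) x

theorem red_intSeries (x : LaurentSeries ℤ) :
    red A (coeffMap (Int.castRingHom A) x)
      = coeffMap (Int.castRingHom (IsLocalRing.ResidueField A)) x := by
  rw [red, coeffMap_coeffMap]
  exact coeffMap_congr (RingHom.ext_int _ _) x

/-- the Gauss datum attached to two integer series. -/
def Datum.ofSeries (F : IntermediateField L (LaurentSeries L)) (hZ θZ : LaurentSeries ℤ)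
    (n : ℕ) (hn : n ≠ 0)
    (hh : coeffMap (Int.castRingHom L) hZ ∈ F) (hθ : coeffMap (Int.castRingHom L) θZ ∈ F)
    (hgen : IntermediateField.adjoin L
      {(⟨coeffMap (Int.castRingHom L) hZ, hh⟩ : F), ⟨coeffMap (Int.castRingHom L) θZ, hθ⟩} = ⊤)
    (hfin : Module.finrank
      (IntermediateField.adjoin L {(⟨coeffMap (Int.castRingHom L) hZ, hh⟩ : F)}) F = n)
    (htrans : Transcendental (IsLocalRing.ResidueField A)
      (coeffMap (Int.castRingHom (IsLocalRing.ResidueField A)) hZ))
    (hindep : ∀ P : Fin n → (IsLocalRing.ResidueField A)[X],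
      ∑ i, aeval (coeffMap (Int.castRingHom (IsLocalRing.ResidueField A)) hZ) (P i)
        * coeffMap (Int.castRingHom (IsLocalRing.ResidueField A)) θZ ^ (i : ℕ) = 0 →
      ∀ i, P i = 0) :
    Datum A F n where
  hA := coeffMap (Int.castRingHom A) hZ
  θA := coeffMap (Int.castRingHom A) θZ
  h_mem := by rw [emb_intSeries]; exact hh
  θ_mem := by rw [emb_intSeries]; exact hθ
  span := by
    rw [emb_intSeries, emb_intSeries]
    exact span_of_adjoin_eq_top F ⟨_, hh⟩ ⟨_, hθ⟩ n hgen hfin hn
  trans := by rw [red_intSeries]; exact htrans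
  indep := by rw [red_intSeries, red_intSeries]; exact hindep

section

variable (F : IntermediateField L (LaurentSeries L)) (hZ θZ : LaurentSeries ℤ)
    (n : ℕ) (hn : n ≠ 0)
    (hh : coeffMap (Int.castRingHom L) hZ ∈ F) (hθ : coeffMap (Int.castRingHom L) θZ ∈ F)
    (hgen : IntermediateField.adjoin L
      {(⟨coeffMap (Int.castRingHom L) hZ, hh⟩ : F), ⟨coeffMap (Int.castRingHom L) θZ, hθ⟩} = ⊤)
    (hfin : Module.finrank
      (IntermediateField.adjoin L {(⟨coeffMap (Int.castRingHom L) hZ, hh⟩ : F)}) F = n)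
    (htrans : Transcendental (IsLocalRing.ResidueField A)
      (coeffMap (Int.castRingHom (IsLocalRing.ResidueField A)) hZ))
    (hindep : ∀ P : Fin n → (IsLocalRing.ResidueField A)[X],
      ∑ i, aeval (coeffMap (Int.castRingHom (IsLocalRing.ResidueField A)) hZ) (P i)
        * coeffMap (Int.castRingHom (IsLocalRing.ResidueField A)) θZ ^ (i : ℕ) = 0 →
      ∀ i, P i = 0)

@[simp] theorem Datum.ofSeries_hA :
    (Datum.ofSeries A F hZ θZ n hn hh hθ hgen hfin htrans hindep).hA
      = coeffMap (Int.castRingHom A) hZ := rfl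

@[simp] theorem Datum.ofSeries_θA :
    (Datum.ofSeries A F hZ θZ n hn hh hθ hgen hfin htrans hindep).θA
      = coeffMap (Int.castRingHom A) θZ := rfl

/-- the generator of the datum, as a series over `L`. -/
theorem Datum.coe_ofSeries_h :
    (((Datum.ofSeries A F hZ θZ n hn hh hθ hgen hfin htrans hindep).h : F) : LaurentSeries L)
      = coeffMap (Int.castRingHom L) hZ := emb_intSeries A hZ

theorem Datum.coe_ofSeries_θ :
    (((Datum.ofSeries A F hZ θZ n hn hh hθ hgen hfin htrans hindep).θ : F) : LaurentSeries L)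
      = coeffMap (Int.castRingHom L) θZ := emb_intSeries A θZ

theorem Datum.ofSeries_h :
    (Datum.ofSeries A F hZ θZ n hn hh hθ hgen hfin htrans hindep).h
      = ⟨coeffMap (Int.castRingHom L) hZ, hh⟩ := Subtype.ext (emb_intSeries A hZ)

theorem Datum.ofSeries_θ :
    (Datum.ofSeries A F hZ θZ n hn hh hθ hgen hfin htrans hindep).θ
      = ⟨coeffMap (Int.castRingHom L) θZ, hθ⟩ := Subtype.ext (emb_intSeries A θZ)

end

end Fermat.Agent.S18.Gauss
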