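import Mathlib
import Fermat.Agent.S18_Hub
import Fermat.Agent.S24_Main
import Fermat.Agent.RR_Main
import Fermat.Agent.RR_ResThm

/-!
# S18: the genus, Riemann–Roch in large degree and Riemann–Hurwitz

For a function field `F/K` (`K` algebraically closed of characteristic zero) with a generator
`x` unramified outside `S ∪ {∞}`: there is `g` with `ℓ(D) = deg D + 1 - g` for `deg D` large
(`GenusFormula K F g` of the hub) and `2g - 2 = ∑_{x₀ ∈ S} (n - #P_{x₀}) - n - #P_∞`.
-/

set_option autoImplicit false
set_option linter.style.haveILetI false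

noncomputable section

open AlgebraicCurve KaehlerDifferential Fermat.Agent.S24 Fermat.Agent.RR

namespace Fermat.Agent.S18.Genus

variable {K F : Type*} [Field K] [IsAlgClosed K] [CharZero K] [Field F] [Algebra K F]

/-- genus, the Riemann–Roch formula in large degree and Riemann–Hurwitz for a generator `x`
unramified outside `S ∪ {∞}`. -/
theorem exists_genus {x : F} (hx : IsGenerator K x) (S : Finset K)
    (hS : ∀ x₀ : K, x₀ ∉ S →
      Nat.card (PlacesAt K x x₀) = Module.finrank (IntermediateField.adjoin K {x}) F) :
    ∃ g : ℤ, GenusFormula K F g ∧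
      2 * g - 2 = ∑ x₀ ∈ S, ((Module.finrank (IntermediateField.adjoin K {x}) F : ℤ)
          - Nat.card (PlacesAt K x x₀))
        - Module.finrank (IntermediateField.adjoin K {x}) F
        - Nat.card {v : Place K F | v.ord x < 0} := by
  obtain ⟨W, hW⟩ := exists_divisor_D hx S hS
  obtain ⟨R⟩ := exists_residueSystem hx
  have hcan := two_mul_finrank_LSpace_canonical hx R W hW
  have hdeg := degree_canonical hx S hS (D K F x) (Kaehler.D_ne_zero hx) W hW
  refine ⟨(Module.finrank K (LSpace K F W) : ℤ), ⟨Divisor.degree W, fun D₀ hD₀ => ?_⟩, ?_⟩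
  · have h1 := riemann_roch hx R W hW D₀
    have h2 : LSpace K F (W - D₀) = ⊥ :=
      LSpace_eq_bot_of_degree_neg hx _ (by rw [map_sub]; omega)
    rw [h2, finrank_bot] at h1
    push_cast at h1
    linarith
  · rw [hcan, hdeg]

end Fermat.Agent.S18.Genus
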