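import Mathlib
import Fermat.Agent.S28_Span
import Fermat.Agent.S28_EtaMod

/-!
# S18, WP-H1 Part B: the Igusa series generates the level-`M` function field

For any integral series `u` which is the expansion of the Igusa eta quotient of level `M`:

* `igusa_mem`, `igusa_span`: `u ∈ ℚ(j(q^d) : d ∣ M)` and the rational spanning statement
  (these are the S28 `Span.exists_span` for the Igusa function);
* `adjoin_j_igusa`: `F_M = K(j, u)` over every algebraically closed `K ⊆ ℂ`, obtained from the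
  rational spanning by base change (no modular functions over `K` are needed).
-/

set_option autoImplicit false

noncomputable section

open ModularCurve CongruenceSubgroup Polynomial
open Fermat.Agent.S24
open scoped MatrixGroups

namespace Fermat.Agent.S18.H1Adj

section Abstract

variable (K : Type*) [Field K] [Algebra ℚ K]

/-- `coeffEmb` commutes with polynomial evaluation. -/
theorem coeffEmb_aeval (Y : LaurentSeries ℚ) (D : ℚ[X]) :
    coeffEmb K (aeval Y D) = aeval (coeffEmb K Y) (D.map (algebraMap ℚ K)) := by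
  rw [aeval_def, Polynomial.hom_eval₂, aeval_def, Polynomial.eval₂_map]
  congr 1
  exact RingHom.ext_rat _ _

/-- Base change of a rational spanning statement: if every element of `F₀` is a
`ℚ(Y)`-combination of powers of `u₀`, the base change of `F₀` lies in `K(Y, u₀)`. -/
theorem laurentBaseChange_le_adjoin_pair (F₀ : IntermediateField ℚ (LaurentSeries ℚ))
    (Y u₀ : LaurentSeries ℚ) (n : ℕ) (hYtr : Transcendental K (coeffEmb K Y))
    (hspan : ∀ x ∈ F₀, ∃ (D : ℚ[X]) (P : Fin n → ℚ[X]), D ≠ 0 ∧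
      x * aeval Y D = ∑ i, aeval Y (P i) * u₀ ^ (i : ℕ)) :
    laurentBaseChange K F₀ ≤ IntermediateField.adjoin K {coeffEmb K Y, coeffEmb K u₀} := by
  have hYm : coeffEmb K Y ∈ IntermediateField.adjoin K {coeffEmb K Y, coeffEmb K u₀} :=
    IntermediateField.subset_adjoin K _ (by simp)
  have hum : coeffEmb K u₀ ∈ IntermediateField.adjoin K {coeffEmb K Y, coeffEmb K u₀} :=
    IntermediateField.subset_adjoin K _ (by simp)
  have haev : ∀ Q : K[X], aeval (coeffEmb K Y) Q
      ∈ IntermediateField.adjoin K {coeffEmb K Y, coeffEmb K u₀} := by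
    intro Q
    rw [aeval_eq_sum_range]
    refine sum_mem fun i _ => ?_
    rw [Algebra.smul_def]
    exact mul_mem (IntermediateField.algebraMap_mem _ _) (pow_mem hYm i)
  rw [laurentBaseChange, IntermediateField.adjoin_le_iff]
  rintro _ ⟨x, hx, rfl⟩
  obtain ⟨D, P, hD, h⟩ := hspan x hx
  have h' := congrArg (coeffEmb K) h
  rw [map_mul, map_sum, coeffEmb_aeval] at h'
  have hD' : aeval (coeffEmb K Y) (D.map (algebraMap ℚ K)) ≠ 0 := by
    intro h0
    have := (transcendental_iff.mp hYtr) _ h0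
    exact hD ((Polynomial.map_eq_zero_iff (algebraMap ℚ K).injective).mp this)
  have hx' : coeffEmb K x = (∑ i, coeffEmb K (aeval Y (P i) * u₀ ^ (i : ℕ)))
      / aeval (coeffEmb K Y) (D.map (algebraMap ℚ K)) := by
    rw [eq_div_iff hD', h']
  show coeffEmb K x ∈ IntermediateField.adjoin K {coeffEmb K Y, coeffEmb K u₀}
  rw [hx']
  refine div_mem (sum_mem fun i _ => ?_) (haev _)
  rw [map_mul, map_pow, coeffEmb_aeval]
  exact mul_mem (haev _) (pow_mem hum _)

/-- The subtype form: `Y` and `u₀` generate the base-changed field. -/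
theorem adjoin_pair_eq_top_of_span (F₀ : IntermediateField ℚ (LaurentSeries ℚ))
    (Y u₀ : LaurentSeries ℚ) (hY : Y ∈ F₀) (hu : u₀ ∈ F₀) (n : ℕ)
    (hYtr : Transcendental K (coeffEmb K Y))
    (hspan : ∀ x ∈ F₀, ∃ (D : ℚ[X]) (P : Fin n → ℚ[X]), D ≠ 0 ∧
      x * aeval Y D = ∑ i, aeval Y (P i) * u₀ ^ (i : ℕ)) :
    IntermediateField.adjoin K
      {(⟨coeffEmb K Y, coeffEmb_mem_laurentBaseChange K hY⟩ : ↥(laurentBaseChange K F₀)),
        ⟨coeffEmb K u₀, coeffEmb_mem_laurentBaseChange K hu⟩} = ⊤ := by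
  rw [eq_top_iff]
  intro y _
  have hy := laurentBaseChange_le_adjoin_pair K F₀ Y u₀ n hYtr hspan y.2
  have hmap : (IntermediateField.adjoin K
      {(⟨coeffEmb K Y, coeffEmb_mem_laurentBaseChange K hY⟩ : ↥(laurentBaseChange K F₀)),
        ⟨coeffEmb K u₀, coeffEmb_mem_laurentBaseChange K hu⟩}).map
        (laurentBaseChange K F₀).val
      = IntermediateField.adjoin K {coeffEmb K Y, coeffEmb K u₀} := by
    rw [IntermediateField.adjoin_map]
    congr 1
    ext z
    simp [Set.image_insert_eq]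
  rw [← hmap] at hy
  obtain ⟨z, hz, hzy⟩ := hy
  have : z = y := Subtype.ext hzy
  rw [← this]
  exact hz

end Abstract

section Igusa

variable (M : ℕ) [NeZero M] (u : LaurentSeries ℤ)

/-- `u ∈ ℚ(j(q^d) : d ∣ M)`. -/
theorem igusa_mem
    (hexp : Tower.expRing ℂ M (Fermat.Agent.S28.Eta.igusaMod M)
      = qExpand ℂ M (coeffEmb ℂ (coeffMap (Int.castRingHom ℚ) u))) :
    coeffMap (Int.castRingHom ℚ) u ∈ modularFunctionFieldFull M :=
  (Fermat.Agent.S28.Span.exists_span ℂ M (Fermat.Agent.S28.Eta.igusaMod M)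
    Fermat.Agent.S28.Eta.igusaMod_smul_iff _ hexp).1

/-- rational spanning: every element of the level-`M` field is a `ℚ(j)`-combination of the
first `ψ(M)` powers of `u`. -/
theorem igusa_span
    (hexp : Tower.expRing ℂ M (Fermat.Agent.S28.Eta.igusaMod M)
      = qExpand ℂ M (coeffEmb ℂ (coeffMap (Int.castRingHom ℚ) u))) :
    ∀ x ∈ modularFunctionFieldFull M,
      ∃ (D : ℚ[X]) (P : Fin (Nat.card (SL(2, ℤ) ⧸ Gamma0 M)) → ℚ[X]), D ≠ 0 ∧
        x * aeval jq D = ∑ i, aeval jq (P i) * (coeffMap (Int.castRingHom ℚ) u) ^ (i : ℕ) :=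
  (Fermat.Agent.S28.Span.exists_span ℂ M (Fermat.Agent.S28.Eta.igusaMod M)
    Fermat.Agent.S28.Eta.igusaMod_smul_iff _ hexp).2

/-- `F_M = K(j, u)` for every coefficient field `K`. -/
theorem adjoin_j_igusa (K : Type) [Field K] [Algebra K ℂ] [Algebra ℚ K] [IsAlgClosed K]
    (hexp : Tower.expRing ℂ M (Fermat.Agent.S28.Eta.igusaMod M)
      = qExpand ℂ M (coeffEmb ℂ (coeffMap (Int.castRingHom ℚ) u))) :
    IntermediateField.adjoin K {Tower.jGen K M,
      (⟨coeffEmb K (coeffMap (Int.castRingHom ℚ) u),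
        coeffEmb_mem_laurentBaseChange K (igusa_mem M u hexp)⟩ : Tower.FuncField K M)} = ⊤ :=
  adjoin_pair_eq_top_of_span K (modularFunctionFieldFull M) jq _
    (modularFunctionField_le_full M (jq_mem M)) (igusa_mem M u hexp) _
    (JFormal.transcendental_coeffEmb_jq K) (igusa_span M u hexp)

end Igusa

end Fermat.Agent.S18.H1Adj
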