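import Mathlib
import Fermat.Agent.S28_MC

/-!
# S18, WP-H1 Part B: independence and separability of the Igusa series over any field of
characteristic `ℓ ∤ M`

For an integer series `u` which is the `q`-expansion of the Igusa eta quotient of level `M`
(hypothesis `hexp`, the shape of `S28.MC.hmc_igusa`) and every field `k` of characteristic
`ℓ ∤ M`:

* `polyIndep_igusa`: `1, ū, …, ū ^ (ψ(M) - 1)` are linearly independent over `k[j̄]`;
* `isSeparable_igusa`: `ū` is separable over `k(j̄)`.

The first is the base change of `S28.MC.hmc_igusa` from `ZMod ℓ` to `k`.  For the second, the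
reduction mod `ℓ` of the factorisation `χ(j(q^M), Y) = ∏_c (Y - U_c)` has `ū(q^M)` as a
simple root (otherwise all roots would have positive order, but the constant term is a nonzero
polynomial in `j`); the polynomial is then descended from the residue field `κ` of the ring of
`ℓ`-integral algebraic numbers to `ZMod ℓ` by a linear functional and base-changed to `k`.
-/

set_option autoImplicit false

noncomputable section

open ModularCurve Polynomial

namespace Fermat.Agent.S18.H1Sep

/-! ### coefficientwise additive maps on polynomials -/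

section MapA

variable {A B : Type*} [Semiring A] [Semiring B]

/-- apply an additive map to the coefficients of a polynomial. -/
def mapA (f : A →+ B) (p : A[X]) : B[X] := ∑ a ∈ p.support, monomial a (f (p.coeff a))

@[simp]
theorem coeff_mapA (f : A →+ B) (p : A[X]) (a : ℕ) : (mapA f p).coeff a = f (p.coeff a) := by
  classical
  rw [mapA, finsetSum_coeff]
  simp only [coeff_monomial]
  rw [Finset.sum_ite_eq' p.support a]
  split_ifs with h
  · rfl
  · rw [notMem_support_iff.1 h, map_zero]

theorem mapA_add (f : A →+ B) (p q : A[X]) : mapA f (p + q) = mapA f p + mapA f q := by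
  ext a
  simp

theorem mapA_zero (f : A →+ B) : mapA f (0 : A[X]) = 0 := by
  ext a
  simp

theorem mapA_monomial (f : A →+ B) (n : ℕ) (c : A) : mapA f (monomial n c) = monomial n (f c) := by
  ext a
  simp only [coeff_mapA, coeff_monomial]
  split_ifs
  · rfl
  · exact map_zero f

/-- `mapA` as an additive map. -/
def mapAHom (f : A →+ B) : A[X] →+ B[X] where
  toFun := mapA f
  map_zero' := mapA_zero f
  map_add' := mapA_add f

@[simp]
theorem mapAHom_apply (f : A →+ B) (p : A[X]) : mapAHom f p = mapA f p := rfl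

theorem derivative_mapA (f : A →+ B) (p : A[X]) :
    derivative (mapA f p) = mapA f (derivative p) := by
  ext a
  rw [coeff_derivative, coeff_mapA, coeff_mapA, coeff_derivative]
  have h1 : p.coeff (a + 1) * ((a : A) + 1) = (a + 1) • p.coeff (a + 1) := by
    rw [nsmul_eq_mul', Nat.cast_add, Nat.cast_one]
  have h2 : f (p.coeff (a + 1)) * ((a : B) + 1) = (a + 1) • f (p.coeff (a + 1)) := by
    rw [nsmul_eq_mul', Nat.cast_add, Nat.cast_one]
  rw [h1, h2, map_nsmul]

end MapA

/-! ### evaluation at two series, and descent along a linear functional -/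

section Descend

/-- evaluation of a polynomial at a Laurent series, as a plain ring homomorphism. -/
def evS (A : Type*) [CommRing A] (j : LaurentSeries A) : A[X] →+* LaurentSeries A :=
  Polynomial.eval₂RingHom (HahnSeries.C : A →+* LaurentSeries A) j

theorem evS_C (A : Type*) [CommRing A] (j : LaurentSeries A) (a : A) :
    evS A j (Polynomial.C a) = HahnSeries.C a := by
  simp [evS]

theorem evS_X (A : Type*) [CommRing A] (j : LaurentSeries A) :
    evS A j Polynomial.X = j := by
  simp [evS]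

theorem evS_monomial (A : Type*) [CommRing A] (j : LaurentSeries A) (n : ℕ) (a : A) :
    evS A j (monomial n a) = HahnSeries.C a * j ^ n := by
  rw [← C_mul_X_pow_eq_monomial, map_mul, map_pow, evS_C, evS_X]

theorem evS_eq_aeval (A : Type*) [CommRing A] (j : LaurentSeries A) (p : A[X]) :
    evS A j p = aeval j p := by
  have h : (evS A j) = ((aeval j : A[X] →ₐ[A] LaurentSeries A) : A[X] →+* LaurentSeries A) := by
    apply Polynomial.ringHom_ext
    · intro a
      rw [evS_C, RingHom.coe_coe, Polynomial.aeval_C, Fermat.Agent.S28.Coeff.algebraMap_eq_C]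
    · rw [evS_X, RingHom.coe_coe, Polynomial.aeval_X]
  rw [h]
  rfl

theorem coeffMap_comp_evS {A B : Type*} [CommRing A] [CommRing B] (f : A →+* B)
    (j : LaurentSeries A) :
    (coeffMap f).comp (evS A j) = (evS B (coeffMap f j)).comp (Polynomial.mapRingHom f) := by
  apply Polynomial.ringHom_ext
  · intro a
    rw [RingHom.comp_apply, RingHom.comp_apply, evS_C, Polynomial.coe_mapRingHom,
      Polynomial.map_C, evS_C]
    exact coeffMap_single f 0 a
  · rw [RingHom.comp_apply, RingHom.comp_apply, evS_X, Polynomial.coe_mapRingHom,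
      Polynomial.map_X, evS_X]

/-- base change of a value `G(j, u)`. -/
theorem coeffMap_eval_evS {A B : Type*} [CommRing A] [CommRing B] (f : A →+* B)
    (j u : LaurentSeries A) (G : A[X][X]) :
    coeffMap f (eval u (G.map (evS A j)))
      = eval (coeffMap f u) ((G.map (Polynomial.mapRingHom f)).map (evS B (coeffMap f j))) := by
  rw [Polynomial.eval_map, Polynomial.hom_eval₂, coeffMap_comp_evS, Polynomial.map_map,
    Polynomial.eval_map]

variable {F κ : Type*} [CommRing F] [CommRing κ] [Algebra F κ]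

/-- **Descent along a linear functional**: applying `φ` to the coefficients of the series
`G(j, u)`, where `j`, `u` have coefficients in `F`, gives the series `(φ G)(j, u)`. -/
theorem descend_coeff (φ : κ →ₗ[F] F) (j u : LaurentSeries F) (G : κ[X][X]) (m : ℤ) :
    φ ((eval (coeffMap (algebraMap F κ) u)
        (G.map (evS κ (coeffMap (algebraMap F κ) j)))).coeff m)
      = (eval u ((mapA (mapAHom φ.toAddMonoidHom) G).map (evS F j))).coeff m := by
  induction G using Polynomial.induction_on' with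
  | add p q hp hq =>
    rw [Polynomial.map_add, eval_add, HahnSeries.coeff_add, map_add, hp, hq, mapA_add,
      Polynomial.map_add, eval_add, HahnSeries.coeff_add]
  | monomial i p =>
    rw [mapA_monomial, Polynomial.map_monomial, Polynomial.map_monomial, eval_monomial,
      eval_monomial, mapAHom_apply]
    induction p using Polynomial.induction_on' with
    | add p q hp hq =>
      rw [map_add, add_mul, HahnSeries.coeff_add, map_add, hp, hq, mapA_add, map_add, add_mul,
        HahnSeries.coeff_add]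
    | monomial a c =>
      rw [mapA_monomial, evS_monomial, evS_monomial, ← map_pow, ← map_pow, mul_assoc, ← map_mul,
        mul_assoc, Fermat.Agent.S28.Coeff.coeff_C_mul, Fermat.Agent.S28.Coeff.coeff_C_mul,
        coeffMap_coeff]
      have h : c * algebraMap F κ ((j ^ a * u ^ i).coeff m) = (j ^ a * u ^ i).coeff m • c := by
        rw [Algebra.smul_def, mul_comm]
      rw [h, map_smul, smul_eq_mul, mul_comm]
      rfl

end Descend

/-! ### a separability criterion -/

theorem isSeparable_of_aeval_derivative_ne_zero {E L : Type*} [Field E] [Field L] [Algebra E L]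
    (x : L) (f : E[X]) (h0 : aeval x f = 0) (h1 : aeval x (derivative f) ≠ 0) :
    IsSeparable E x := by
  have hf : f ≠ 0 := by
    rintro rfl
    simp at h1
  have hint : IsIntegral E x := (isAlgebraic_iff_isIntegral).1 ⟨f, hf, h0⟩
  obtain ⟨g, hg⟩ := minpoly.dvd E x h0
  rw [IsSeparable, Polynomial.separable_iff_derivative_ne_zero (minpoly.irreducible hint)]
  intro hd
  apply h1
  rw [hg, derivative_mul, hd, zero_mul, zero_add, map_mul, minpoly.aeval, zero_mul]

/-! ### the simple root of a split polynomial with one root of non-positive order -/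

section Simple

open Fermat.Agent.S28.Coeff Fermat.Agent.S28.MC

variable {κ : Type*} [Field κ] (N : ℕ) [NeZero N]

/-- in the situation of `S28.MC.eq_zero_of_factorization` the root `Ub c₀` is different from all
the other roots: otherwise all roots would be nonzero of positive order, while the constant term
is a nonzero polynomial in `j`, of order `≤ 0`. -/
theorem ne_of_factorization {ι : Type*} [Fintype ι] (c₀ : ι)
    (χ : κ[X][X]) (Ub : ι → LaurentSeries κ)
    (hfac : χ.map (evJ κ N) = ∏ c, (X - C (Ub c)))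
    (hpos : ∀ c, c ≠ c₀ → Ub c ≠ 0 ∧ 0 < (Ub c).order) (c : ι) (hc : c ≠ c₀) :
    Ub c₀ ≠ Ub c := by
  classical
  intro heq
  have hall : ∀ r ∈ (Finset.univ.val.map Ub), r ≠ 0 ∧ 0 < r.order := by
    intro r hr
    rw [Multiset.mem_map] at hr
    obtain ⟨c', -, rfl⟩ := hr
    by_cases h : c' = c₀
    · rw [h, heq]
      exact hpos c hc
    · exact hpos c' h
  obtain ⟨hne, hord⟩ := prod_pos_order _ hall
  rw [Multiset.card_map, Finset.card_val, Finset.card_univ] at hord
  have hprod : (Finset.univ.val.map Ub).prod = ∏ c, Ub c := rfl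
  rw [hprod] at hne hord
  have h0 : evJ κ N (χ.coeff 0) = (-1) ^ (Fintype.card ι) * ∏ c, Ub c := by
    rw [← Polynomial.coeff_map, hfac, Polynomial.coeff_zero_eq_eval_zero, Polynomial.eval_prod]
    simp only [eval_sub, eval_X, eval_C, zero_sub]
    rw [Finset.prod_neg, Finset.card_univ]
  have hc_ne : χ.coeff 0 ≠ 0 := by
    intro h
    rw [h, map_zero] at h0
    exact (mul_ne_zero (pow_ne_zero _ (neg_ne_zero.mpr one_ne_zero)) hne) h0.symm
  have hle := order_evJ_le N hc_ne
  have hcard : 0 < Fintype.card ι := Fintype.card_pos_iff.2 ⟨c₀⟩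
  have hord' : (Fintype.card ι : ℤ) ≤ (evJ κ N (χ.coeff 0)).order := by
    rw [h0]
    rcases neg_one_pow_eq_or (LaurentSeries κ) (Fintype.card ι) with h | h
    · rw [h, one_mul]
      exact hord
    · rw [h, neg_one_mul, HahnSeries.order_neg]
      exact hord
  omega

/-- `Ub c₀` is a simple root. -/
theorem simple_root_of_factorization {ι : Type*} [Fintype ι] (c₀ : ι)
    (χ : κ[X][X]) (Ub : ι → LaurentSeries κ)
    (hfac : χ.map (evJ κ N) = ∏ c, (X - C (Ub c)))
    (hpos : ∀ c, c ≠ c₀ → Ub c ≠ 0 ∧ 0 < (Ub c).order) :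
    eval (Ub c₀) (χ.map (evJ κ N)) = 0 ∧ eval (Ub c₀) (derivative (χ.map (evJ κ N))) ≠ 0 := by
  classical
  have hfac2 : χ.map (evJ κ N)
      = (X - C (Ub c₀)) * ∏ c ∈ Finset.univ.erase c₀, (X - C (Ub c)) := by
    rw [hfac]
    exact (Finset.mul_prod_erase Finset.univ (fun c => X - C (Ub c)) (Finset.mem_univ c₀)).symm
  rw [hfac2]
  refine ⟨by simp, ?_⟩
  rw [derivative_mul, eval_add, eval_mul, eval_mul]
  simp only [derivative_sub, derivative_X, derivative_C, sub_zero, eval_one, one_mul, eval_sub,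
    eval_X, eval_C, sub_self, zero_mul, add_zero]
  rw [eval_prod, Finset.prod_ne_zero_iff]
  intro c hc
  simp only [eval_sub, eval_X, eval_C]
  exact sub_ne_zero.2 (ne_of_factorization N c₀ χ Ub hfac hpos c (Finset.ne_of_mem_erase hc))

end Simple

/-! ### the bridge from the analytic factorisation to a simple root over the residue field -/

section Bridge

open Fermat.Agent.S28.Coeff Fermat.Agent.S28.MC

variable (l : ℕ) [Fact l.Prime] (N : ℕ) [NeZero N]

/-- In the situation of `S28.MC.hmc_of_factorization`: the reduction of `χ` has the reduction of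
`u (q ^ N)` as a simple root. -/
theorem exists_simple_root_of_factorization {ι : Type*} [Fintype ι] (c₀ : ι)
    (χ : ℂ[X][X]) (U : ι → LaurentSeries ℂ)
    (hfac : χ.map (evJ ℂ N) = ∏ c, (X - C (U c)))
    (u : LaurentSeries ℤ)
    (hU0 : U c₀ = qExpand ℂ N (coeffMap (Int.castRingHom ℂ) u))
    (hU : ∀ c, c ≠ c₀ → U c ∈ IntS (Rl l) ∧ ∃ k : ℤ, 0 < k ∧ (∀ i < k, (U c).coeff i = 0) ∧
        ∃ v ∈ Rl l, (U c).coeff k * v = 1) :
    ∃ G : (kap l)[X][X],
      eval (qExpand (kap l) N (coeffMap (Int.castRingHom (kap l)) u))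
          (G.map (evJ (kap l) N)) = 0 ∧
        eval (qExpand (kap l) N (coeffMap (Int.castRingHom (kap l)) u))
          (derivative (G.map (evJ (kap l) N))) ≠ 0 := by
  classical
  have hU0' : U c₀ = coeffMap (Int.castRingHom ℂ) (qExpand ℤ N u) := by
    rw [hU0, coeffMap_qExpand]
  have hUall : ∀ c, U c ∈ IntS (Rl l) := by
    intro c
    by_cases hc : c = c₀
    · rw [hc, hU0']
      exact coeffMap_intCast_mem_IntS _
    · exact (hU c hc).1
  obtain ⟨χ', -, hred⟩ := exists_reduction (Rl l) N (red l) χ U hUall hfac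
  -- the reduced root at `c₀`
  have hUb0 : redS (Rl l) (red l) ⟨U c₀, hUall c₀⟩
      = qExpand (kap l) N (coeffMap (Int.castRingHom (kap l)) u) := by
    have e : (⟨U c₀, hUall c₀⟩ : IntS (Rl l))
        = ⟨coeffMap (Int.castRingHom ℂ) (qExpand ℤ N u), coeffMap_intCast_mem_IntS _⟩ :=
      Subtype.ext hU0'
    rw [e, redS_intCast, coeffMap_qExpand]
  -- the other reduced roots
  have hpos : ∀ c, c ≠ c₀ → redS (Rl l) (red l) ⟨U c, hUall c⟩ ≠ 0 ∧
      0 < (redS (Rl l) (red l) ⟨U c, hUall c⟩).order := by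
    intro c hc
    obtain ⟨-, k, hk, hlt, v, hv, hkv⟩ := hU c hc
    have hlt' : ∀ i < k, (liftHom (Rl l) ⟨U c, hUall c⟩).coeff i = 0 := by
      intro i hi
      apply Subtype.ext
      rw [liftHom_coeff]
      exact hlt i hi
    have hunit : IsUnit ((liftHom (Rl l) ⟨U c, hUall c⟩).coeff k) := by
      refine IsUnit.of_mul_eq_one (⟨v, hv⟩ : Rl l) ?_
      apply Subtype.ext
      rw [Subring.coe_mul, liftHom_coeff]
      exact hkv
    have hne : red l ((liftHom (Rl l) ⟨U c, hUall c⟩).coeff k) ≠ 0 :=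
      red_ne_zero_of_isUnit hunit
    rw [redS_apply]
    refine ⟨coeffMap_ne_zero_of_coeff (red l) hne, ?_⟩
    rw [order_coeffMap_eq (red l) hlt' hne]
    exact hk
  have hres := simple_root_of_factorization N c₀ (χ'.map (Polynomial.mapRingHom (red l)))
    (fun c => redS (Rl l) (red l) ⟨U c, hUall c⟩) hred hpos
  simp only [hUb0] at hres
  exact ⟨_, hres⟩

end Bridge

/-! ### the Igusa eta quotient -/

section Igusa

open UpperHalfPlane CongruenceSubgroup
open scoped MatrixGroups
open Fermat.Agent.S24 Fermat.Agent.S24.Tower Fermat.Agent.S28.Coeff Fermat.Agent.S28.MC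

/-- the reduction of the product polynomial of the Igusa eta quotient has `ū (q ^ N)` as a
simple root. -/
theorem exists_simple_root_igusa (N : ℕ) [NeZero N] (ℓ : ℕ) [Fact ℓ.Prime] (hℓN : ¬ ℓ ∣ N)
    (u : LaurentSeries ℤ)
    (hexp : Tower.expRing ℂ N (Fermat.Agent.S28.Eta.igusaMod N)
      = qExpand ℂ N (coeffEmb ℂ (coeffMap (Int.castRingHom ℚ) u))) :
    ∃ G : (kap ℓ)[X][X],
      eval (qExpand (kap ℓ) N (coeffMap (Int.castRingHom (kap ℓ)) u))
          (G.map (evJ (kap ℓ) N)) = 0 ∧
        eval (qExpand (kap ℓ) N (coeffMap (Int.castRingHom (kap ℓ)) u))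
          (derivative (G.map (evJ (kap ℓ) N))) ≠ 0 := by
  classical
  have : Finite (SL(2, ℤ) ⧸ Gamma0 N) := Subgroup.finite_quotient_of_finiteIndex
  let _ : Fintype (SL(2, ℤ) ⧸ Gamma0 N) := Fintype.ofFinite _
  have ht : ∀ γ ∈ Gamma0 N, γ • Fermat.Agent.S28.Eta.igusaMod N = Fermat.Agent.S28.Eta.igusaMod N :=
    fun γ hγ => (Fermat.Agent.S28.Eta.igusaMod_smul_iff γ).mp hγ
  obtain ⟨χ, -, -, hχ⟩ :=
    Fermat.Agent.S28.Prod.exists_charPoly_exp (K := ℂ) (Fermat.Agent.S28.Eta.igusaMod N) ht
  rw [aeval_toRingHom_eq_evJ] at hχ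
  refine exists_simple_root_of_factorization ℓ N ((1 : SL(2, ℤ)) : SL(2, ℤ) ⧸ Gamma0 N) χ
    (fun c => expRing ℂ N (Fermat.Agent.S28.Prod.conj (Fermat.Agent.S28.Eta.igusaMod N) ht c))
    hχ u ?_ ?_
  · show expRing ℂ N (Fermat.Agent.S28.Prod.conj (Fermat.Agent.S28.Eta.igusaMod N) ht
        ((1 : SL(2, ℤ)) : SL(2, ℤ) ⧸ Gamma0 N)) = _
    have e4 : coeffEmb ℂ (coeffMap (Int.castRingHom ℚ) u) = coeffMap (Int.castRingHom ℂ) u := by
      rw [coeffEmb, coeffMap_coeffMap]
      exact coeffMap_congr (RingHom.ext_int _ _) u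
    rw [Fermat.Agent.S28.Prod.conj_one, hexp, e4]
  · intro c hc
    induction c using QuotientGroup.induction_on with
    | H γ =>
      have hγ : γ ∉ Gamma0 N := by
        intro h
        apply hc
        rw [QuotientGroup.eq]
        simpa using (Gamma0 N).inv_mem h
      obtain ⟨C, p, hC, hC', hC0, hp0, hp, he⟩ :=
        Fermat.Agent.S28.Eta.exists_expRing_smul_igusaMod (R := Rl ℓ) (natCast_inv_mem hℓN)
          (exp_two_pi_div_mem ℓ N) hγ
      obtain ⟨h1, h2, h3⟩ := single_mul_ofPowerSeries_props (R := Rl ℓ)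
        ((N : ℤ) * (N.totient : ℤ)) C p hC hp hp0
      show expRing ℂ N (γ • Fermat.Agent.S28.Eta.igusaMod N) ∈ IntS (Rl ℓ) ∧
        ∃ k : ℤ, 0 < k ∧ (∀ i < k, (expRing ℂ N (γ • Fermat.Agent.S28.Eta.igusaMod N)).coeff i = 0) ∧
          ∃ v ∈ Rl ℓ, (expRing ℂ N (γ • Fermat.Agent.S28.Eta.igusaMod N)).coeff k * v = 1
      rw [he]
      refine ⟨h1, (N : ℤ) * (N.totient : ℤ), ?_, h2, C⁻¹, hC', ?_⟩
      · have hN : (0 : ℤ) < N := by exact_mod_cast NeZero.pos N
        have hφ : (0 : ℤ) < (N.totient : ℤ) := by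
          exact_mod_cast Nat.totient_pos.mpr (NeZero.pos N)
        positivity
      · rw [h3, mul_inv_cancel₀ hC0]

end Igusa

/-! ### descent to `ZMod ℓ` and base change to an arbitrary field of characteristic `ℓ` -/

section Final

open CongruenceSubgroup
open scoped MatrixGroups
open Fermat.Agent.S24 Fermat.Agent.S28.Coeff Fermat.Agent.S28.MC

theorem evJ_eq_comp (A : Type*) [CommRing A] (N : ℕ) [NeZero N] :
    evJ A N = (qExpand A N).comp (evS A (jqModC A)) := by
  apply Polynomial.ringHom_ext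
  · intro a
    rw [evJ_C, RingHom.comp_apply, evS_C, qExpand_C]
  · rw [evJ_X, RingHom.comp_apply, evS_X]

theorem coeffMap_intCast_eq {A B : Type*} [CommRing A] [CommRing B] (f : A →+* B)
    (u : LaurentSeries ℤ) :
    coeffMap f (coeffMap (Int.castRingHom A) u) = coeffMap (Int.castRingHom B) u := by
  rw [coeffMap_coeffMap]
  exact coeffMap_congr (RingHom.ext_int _ _) u

/-- a polynomial over `ZMod ℓ` with `ū` as a simple root (after substituting `j̄`). -/
theorem exists_simple_root_zmod (N : ℕ) [NeZero N] (ℓ : ℕ) [Fact ℓ.Prime] (hℓN : ¬ ℓ ∣ N)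
    (u : LaurentSeries ℤ)
    (hexp : Tower.expRing ℂ N (Fermat.Agent.S28.Eta.igusaMod N)
      = qExpand ℂ N (coeffEmb ℂ (coeffMap (Int.castRingHom ℚ) u))) :
    ∃ G : (ZMod ℓ)[X][X],
      eval (coeffMap (Int.castRingHom (ZMod ℓ)) u) (G.map (evS (ZMod ℓ) (jqModC (ZMod ℓ)))) = 0 ∧
        eval (coeffMap (Int.castRingHom (ZMod ℓ)) u)
          ((derivative G).map (evS (ZMod ℓ) (jqModC (ZMod ℓ)))) ≠ 0 := by
  obtain ⟨G, hG0, hG1⟩ := exists_simple_root_igusa N ℓ hℓN u hexp
  -- remove the substitution `q ↦ q ^ N`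
  rw [evJ_eq_comp, ← Polynomial.map_map] at hG0 hG1
  rw [eval_map, eval₂_at_apply] at hG0
  rw [derivative_map, eval_map, eval₂_at_apply, derivative_map] at hG1
  have hG0' : eval (coeffMap (Int.castRingHom (kap ℓ)) u)
      (G.map (evS (kap ℓ) (jqModC (kap ℓ)))) = 0 := by
    apply (qExpand (kap ℓ) N).injective
    rw [hG0, map_zero]
  have hG1' : eval (coeffMap (Int.castRingHom (kap ℓ)) u)
      ((derivative G).map (evS (kap ℓ) (jqModC (kap ℓ)))) ≠ 0 := by
    intro h
    apply hG1
    rw [h, map_zero]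
  -- rewrite the two series as base changes from `ZMod ℓ`
  rw [← coeffMap_intCast_eq (algebraMap (ZMod ℓ) (kap ℓ)) u,
    ← coeffMap_jqModC (algebraMap (ZMod ℓ) (kap ℓ))] at hG0' hG1'
  -- a coefficient of the derivative value which does not vanish
  obtain ⟨m, hm⟩ : ∃ m : ℤ, (eval (coeffMap (algebraMap (ZMod ℓ) (kap ℓ))
      (coeffMap (Int.castRingHom (ZMod ℓ)) u))
      ((derivative G).map (evS (kap ℓ) (coeffMap (algebraMap (ZMod ℓ) (kap ℓ))
        (jqModC (ZMod ℓ)))))).coeff m ≠ 0 := by
    by_contra hcon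
    push Not at hcon
    apply hG1'
    ext m
    rw [hcon m, HahnSeries.coeff_zero]
  obtain ⟨φ, hφ⟩ : ∃ φ : Module.Dual (ZMod ℓ) (kap ℓ), φ _ ≠ 0 := by
    by_contra hcon
    push Not at hcon
    exact hm ((Module.forall_dual_apply_eq_zero_iff (ZMod ℓ) _).1 hcon)
  refine ⟨mapA (mapAHom φ.toAddMonoidHom) G, ?_, ?_⟩
  · ext m
    rw [← descend_coeff, hG0', HahnSeries.coeff_zero, HahnSeries.coeff_zero, map_zero]
  · intro h
    apply hφ
    have h2 := descend_coeff φ (jqModC (ZMod ℓ)) (coeffMap (Int.castRingHom (ZMod ℓ)) u)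
      (derivative G) m
    rw [h2, ← derivative_mapA, h, HahnSeries.coeff_zero]

/-- the same over any field `k` of characteristic `ℓ`. -/
theorem exists_simple_root_field (N : ℕ) [NeZero N] (ℓ : ℕ) [Fact ℓ.Prime] (hℓN : ¬ ℓ ∣ N)
    (u : LaurentSeries ℤ)
    (hexp : Tower.expRing ℂ N (Fermat.Agent.S28.Eta.igusaMod N)
      = qExpand ℂ N (coeffEmb ℂ (coeffMap (Int.castRingHom ℚ) u)))
    (k : Type*) [Field k] [Algebra (ZMod ℓ) k] :
    ∃ G : k[X][X],
      eval (coeffMap (Int.castRingHom k) u) (G.map (evS k (jqModC k))) = 0 ∧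
        eval (coeffMap (Int.castRingHom k) u) ((derivative G).map (evS k (jqModC k))) ≠ 0 := by
  obtain ⟨G, hG0, hG1⟩ := exists_simple_root_zmod N ℓ hℓN u hexp
  have hinj : Function.Injective (coeffMap (algebraMap (ZMod ℓ) k)) :=
    (coeffMap (algebraMap (ZMod ℓ) k)).injective
  refine ⟨G.map (Polynomial.mapRingHom (algebraMap (ZMod ℓ) k)), ?_, ?_⟩
  · have h := coeffMap_eval_evS (algebraMap (ZMod ℓ) k) (jqModC (ZMod ℓ))
      (coeffMap (Int.castRingHom (ZMod ℓ)) u) G
    rw [hG0, map_zero, coeffMap_intCast_eq, coeffMap_jqModC] at h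
    exact h.symm
  · have h := coeffMap_eval_evS (algebraMap (ZMod ℓ) k) (jqModC (ZMod ℓ))
      (coeffMap (Int.castRingHom (ZMod ℓ)) u) (derivative G)
    rw [coeffMap_intCast_eq, coeffMap_jqModC] at h
    rw [derivative_map, ← h]
    intro h0
    exact hG1 (hinj (by rw [h0, map_zero]))

/-- **separability for `h = j`**: `ū` is separable over `k(j̄)`. -/
theorem isSeparable_igusa (N : ℕ) [NeZero N] (ℓ : ℕ) [Fact ℓ.Prime] (hℓN : ¬ ℓ ∣ N)
    (u : LaurentSeries ℤ)
    (hexp : Tower.expRing ℂ N (Fermat.Agent.S28.Eta.igusaMod N)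
      = qExpand ℂ N (coeffEmb ℂ (coeffMap (Int.castRingHom ℚ) u)))
    (k : Type*) [Field k] [Algebra (ZMod ℓ) k] :
    IsSeparable (IntermediateField.adjoin k {jqModC k}) (coeffMap (Int.castRingHom k) u) := by
  obtain ⟨G, hG0, hG1⟩ := exists_simple_root_field N ℓ hℓN u hexp k
  set E := IntermediateField.adjoin k {jqModC k} with hE
  let gen : E := ⟨jqModC k, IntermediateField.mem_adjoin_simple_self k (jqModC k)⟩
  let evE : k[X] →+* E := ((aeval gen : k[X] →ₐ[k] E) : k[X] →+* E)
  have hcomp : (algebraMap E (LaurentSeries k)).comp evE = evS k (jqModC k) := by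
    apply Polynomial.ringHom_ext
    · intro a
      rw [RingHom.comp_apply, evS_C]
      show algebraMap E (LaurentSeries k) (aeval gen (Polynomial.C a)) = _
      rw [aeval_C, ← IsScalarTower.algebraMap_apply, algebraMap_eq_C]
    · rw [RingHom.comp_apply, evS_X]
      show algebraMap E (LaurentSeries k) (aeval gen Polynomial.X) = _
      rw [aeval_X]
      rfl
  refine isSeparable_of_aeval_derivative_ne_zero (coeffMap (Int.castRingHom k) u) (G.map evE)
    ?_ ?_
  · rw [aeval_def, eval₂_eq_eval_map, Polynomial.map_map, hcomp]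
    exact hG0
  · rw [derivative_map, aeval_def, eval₂_eq_eval_map, Polynomial.map_map, hcomp]
    exact hG1

/-- **(I1) for `h = j`** over any field of characteristic `ℓ`: the base change of
`S28.MC.hmc_igusa`. -/
theorem polyIndep_igusa (N : ℕ) [NeZero N] (ℓ : ℕ) [Fact ℓ.Prime] (hℓN : ¬ ℓ ∣ N)
    (u : LaurentSeries ℤ)
    (hexp : Tower.expRing ℂ N (Fermat.Agent.S28.Eta.igusaMod N)
      = qExpand ℂ N (coeffEmb ℂ (coeffMap (Int.castRingHom ℚ) u)))
    (k : Type*) [Field k] [Algebra (ZMod ℓ) k] :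
    ∀ P : Fin (Nat.card (SL(2, ℤ) ⧸ Gamma0 N)) → k[X],
      ∑ i, aeval (jqModC k) (P i) * (coeffMap (Int.castRingHom k) u) ^ (i : ℕ) = 0 →
        ∀ i, P i = 0 := by
  intro P hP
  -- the bivariate polynomial
  set G : k[X][X] := ∑ i : Fin (Nat.card (SL(2, ℤ) ⧸ Gamma0 N)), monomial (i : ℕ) (P i) with hG
  have hGval : eval (coeffMap (Int.castRingHom k) u) (G.map (evS k (jqModC k))) = 0 := by
    rw [hG, Polynomial.map_sum, eval_finsetSum, ← hP]
    refine Finset.sum_congr rfl fun i _ => ?_
    rw [Polynomial.map_monomial, eval_monomial, evS_eq_aeval]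
  rw [← coeffMap_intCast_eq (algebraMap (ZMod ℓ) k) u,
    ← coeffMap_jqModC (algebraMap (ZMod ℓ) k)] at hGval
  have key : ∀ φ : Module.Dual (ZMod ℓ) k, ∀ i, mapA φ.toAddMonoidHom (P i) = 0 := by
    intro φ
    refine hmc_igusa N ℓ hℓN u hexp (fun i => mapA φ.toAddMonoidHom (P i)) ?_
    have h1 : mapA (mapAHom φ.toAddMonoidHom) G
        = ∑ i : Fin (Nat.card (SL(2, ℤ) ⧸ Gamma0 N)),
            monomial (i : ℕ) (mapA φ.toAddMonoidHom (P i)) := by
      have h2 : mapA (mapAHom φ.toAddMonoidHom) G = mapAHom (mapAHom φ.toAddMonoidHom) G := rfl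
      rw [h2, hG, map_sum]
      refine Finset.sum_congr rfl fun i _ => ?_
      rw [mapAHom_apply, mapA_monomial, mapAHom_apply]
    have h3 : eval (coeffMap (Int.castRingHom (ZMod ℓ)) u)
        ((mapA (mapAHom φ.toAddMonoidHom) G).map (evS (ZMod ℓ) (jqModC (ZMod ℓ)))) = 0 := by
      ext m
      rw [← descend_coeff, hGval, HahnSeries.coeff_zero, HahnSeries.coeff_zero, map_zero]
    rw [h1, Polynomial.map_sum, eval_finsetSum] at h3
    rw [← h3]
    refine Finset.sum_congr rfl fun i _ => ?_
    rw [Polynomial.map_monomial, eval_monomial, evS_eq_aeval]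
  intro i
  ext a
  rw [coeff_zero]
  refine (Module.forall_dual_apply_eq_zero_iff (ZMod ℓ) _).1 fun φ => ?_
  have := congrArg (fun p : (ZMod ℓ)[X] => p.coeff a) (key φ i)
  simpa using this

end Final

end Fermat.Agent.S18.H1Sep
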