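import Mathlib
import Fermat.Agent.S18_Hub
import Fermat.Agent.S24_Main
import Fermat.Agent.S28_MC
import Fermat.Agent.S28_Span
import Fermat.Agent.S28_Kernel
import Fermat.Agent.S18_Genus
import Fermat.Agent.S18_H1Sep
import Fermat.Agent.S18_H1Adj

/-!
# S18, WP-H1: the inputs (I1) and the Riemann–Roch corollaries

* `exists_genus`: for a function field `F/K` with a generator `x` unramified outside a finite
  set `S` (and `∞`): a genus `g` with `GenusFormula K F g` and the Riemann–Hurwitz formula.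
* `uZ M`: the integral `q`-expansion of the Igusa eta quotient of level `M`.
* `polyIndep_j`, `isSeparable_j`: `1, ū, …, ū ^ (ψ(M) - 1)` are independent over `k[j̄]` and `ū`
  is separable over `k(j̄)`, for every field `k` of characteristic `ℓ ∤ M`.
* `Haupt`: the hypotheses on an auxiliary Hauptmodul `h`; `Haupt.polyIndep`,
  `Haupt.isSeparable`, `Haupt.finrank_mul`, `Haupt.adjoin_eq`.
-/

set_option autoImplicit false

noncomputable section

open AlgebraicCurve ModularCurve CongruenceSubgroup Polynomial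
open Fermat.Agent.S24 Fermat.Agent.RR
open scoped MatrixGroups

namespace Fermat.Agent.S18.H1

/-! ## Part A: Riemann–Roch corollaries -/

section RR

variable {K F : Type*} [Field K] [IsAlgClosed K] [CharZero K] [Field F] [Algebra K F]

/-- genus, the Riemann–Roch formula in large degree and Riemann–Hurwitz for a generator `x`
unramified outside `S ∪ {∞}`. -/
theorem exists_genus {x : F} (hx : IsGenerator K x) (S : Finset K)
    (hS : ∀ x₀ : K, x₀ ∉ S →
      Nat.card (PlacesAt K x x₀) = Module.finrank (IntermediateField.adjoin K {x}) F) :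
    ∃ g : ℤ, GenusFormula K F g ∧
      2 * g - 2 = ∑ x₀ ∈ S, ((Module.finrank (IntermediateField.adjoin K {x}) F : ℤ)
          - Nat.card (PlacesAt K x x₀))
        - Module.finrank (IntermediateField.adjoin K {x}) F
        - Nat.card {v : Place K F | v.ord x < 0} :=
  Fermat.Agent.S18.Genus.exists_genus hx S hS

end RR

/-! ## Part B: the Igusa series and `h = j` -/

/-- polynomial form of "`1, θ, …, θ ^ (n - 1)` are linearly independent over `k[h]`". -/
def PolyIndep (k : Type*) {Ω : Type*} [CommRing k] [CommRing Ω] [Algebra k Ω] (h θ : Ω)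
    (n : ℕ) : Prop :=
  ∀ P : Fin n → k[X], ∑ i, aeval h (P i) * θ ^ (i : ℕ) = 0 → ∀ i, P i = 0

/-- `ψ(M) = [SL₂(ℤ) : Γ₀(M)]`. -/
abbrev psi (M : ℕ) : ℕ := Nat.card (SL(2, ℤ) ⧸ Gamma0 M)

/-- the integral `q`-expansion of the Igusa eta quotient of level `M`. -/
def uZ (M : ℕ) [NeZero M] : LaurentSeries ℤ :=
  (Fermat.Agent.S28.Eta.exists_expRing_igusaMod (N := M)).choose

/-- the defining property of `uZ M`: it is the expansion of the Igusa eta quotient. -/
theorem uZ_exp (M : ℕ) [NeZero M] :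
    Tower.expRing ℂ M (Fermat.Agent.S28.Eta.igusaMod M)
      = qExpand ℂ M (coeffEmb ℂ (coeffMap (Int.castRingHom ℚ) (uZ M))) :=
  (Fermat.Agent.S28.Eta.exists_expRing_igusaMod (N := M)).choose_spec.2

/-- `u ∈ ℚ(j(q^d) : d ∣ M)`. -/
theorem uZ_mem (M : ℕ) [NeZero M] :
    coeffMap (Int.castRingHom ℚ) (uZ M) ∈ modularFunctionFieldFull M :=
  Fermat.Agent.S18.H1Adj.igusa_mem M (uZ M) (uZ_exp M)

/-- rational spanning: every element of the level-`M` field is a `ℚ(j)`-combination of the
first `ψ(M)` powers of `u` (the S28 shape). -/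
theorem uZ_span (M : ℕ) [NeZero M] :
    ∀ x ∈ modularFunctionFieldFull M, ∃ (D : ℚ[X]) (P : Fin (psi M) → ℚ[X]), D ≠ 0 ∧
      x * aeval jq D = ∑ i, aeval jq (P i) * (coeffMap (Int.castRingHom ℚ) (uZ M)) ^ (i : ℕ) :=
  Fermat.Agent.S18.H1Adj.igusa_span M (uZ M) (uZ_exp M)

section CharZero

variable (K : Type) [Field K] [Algebra K ℂ] [Algebra ℚ K] [IsAlgClosed K] (M : ℕ) [NeZero M]

/-- `u` as an element of the level-`M` function field over `K`. -/
def uGen : Tower.FuncField K M :=
  ⟨coeffEmb K (coeffMap (Int.castRingHom ℚ) (uZ M)),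
    coeffEmb_mem_laurentBaseChange K (uZ_mem M)⟩

/-- `F_M = K(j, u)`. -/
theorem adjoin_j_u : IntermediateField.adjoin K {Tower.jGen K M, uGen K M} = ⊤ :=
  Fermat.Agent.S18.H1Adj.adjoin_j_igusa M (uZ M) K (uZ_exp M)

end CharZero

section CharL

variable (M : ℕ) [NeZero M] (ℓ : ℕ) [Fact ℓ.Prime] (k : Type*) [Field k] [Algebra (ZMod ℓ) k]

/-- **(I1) for `h = j`.** -/
theorem polyIndep_j (hℓM : ¬ ℓ ∣ M) :
    PolyIndep k (jqModC k) (coeffMap (Int.castRingHom k) (uZ M)) (psi M) :=
  Fermat.Agent.S18.H1Sep.polyIndep_igusa M ℓ hℓM (uZ M) (uZ_exp M) k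

/-- separability for `h = j`. -/
theorem isSeparable_j (hℓM : ¬ ℓ ∣ M) :
    IsSeparable (IntermediateField.adjoin k {jqModC k}) (coeffMap (Int.castRingHom k) (uZ M)) :=
  Fermat.Agent.S18.H1Sep.isSeparable_igusa M ℓ hℓM (uZ M) (uZ_exp M) k

end CharL

/-! ## Part C: an auxiliary Hauptmodul -/

/-- Hypotheses on an auxiliary Hauptmodul `h ∈ ℤ((q))` in the level-`M` field (WP-H3 supplies
them for `h₂`, `h₃`): `h = q⁻¹ + …` and `j · Q(h) = P(h)` with `P` monic of degree `d > deg Q`,
`P`, `Q` coprime over `ℚ`. -/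
structure Haupt (M : ℕ) (h : LaurentSeries ℤ) (P Q : ℤ[X]) (d : ℕ) : Prop where
  mem : coeffMap (Int.castRingHom ℚ) h ∈ modularFunctionFieldFull M
  coeff_neg_one : h.coeff (-1) = 1
  coeff_lt : ∀ i : ℤ, i < -1 → h.coeff i = 0
  rel : jqModC ℤ * aeval h Q = aeval h P
  monic : P.Monic
  natDegree_P : P.natDegree = d
  natDegree_Q : Q.natDegree < d
  coprime : IsCoprime (P.map (Int.castRingHom ℚ)) (Q.map (Int.castRingHom ℚ))

namespace Haupt

variable {M : ℕ} [NeZero M] {h : LaurentSeries ℤ} {P Q : ℤ[X]} {d : ℕ}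

section CharZero

variable (K : Type) [Field K] [Algebra K ℂ] [Algebra ℚ K] [IsAlgClosed K]

/-- `h` as an element of the level-`M` function field over `K`. -/
def gen (H : Haupt M h P Q d) : Tower.FuncField K M :=
  ⟨coeffEmb K (coeffMap (Int.castRingHom ℚ) h), coeffEmb_mem_laurentBaseChange K H.mem⟩

end CharZero

section CharL

variable (ℓ : ℕ) [Fact ℓ.Prime] (k : Type*) [Field k] [Algebra (ZMod ℓ) k]

end CharL

end Haupt

end Fermat.Agent.S18.H1
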