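import Mathlib

/-!
# S18 (WP-H1, Part C): the degree of `K(h)` over `K(P(h)/Q(h))`

For `h` transcendental over `K` and `j = P(h)/Q(h)` with `P`, `Q` coprime:
`[F : K(j)] = max (deg P) (deg Q) · [F : K(h)]` (from Mathlib's Lüroth file).
-/

set_option autoImplicit false

noncomputable section

open Polynomial IntermediateField

namespace Fermat.Agent.S18.HauptDeg

variable {K F : Type*} [Field K] [Field F] [Algebra K F]

/-- numerator and denominator of a reduced fraction have the degrees of `P` and `Q`. -/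
theorem natDegree_num_denom (P Q : K[X]) (hcop : IsCoprime P Q) (hP : P ≠ 0) (hQ : Q ≠ 0) :
    (algebraMap K[X] (RatFunc K) P / algebraMap K[X] (RatFunc K) Q).num.natDegree = P.natDegree ∧
    (algebraMap K[X] (RatFunc K) P / algebraMap K[X] (RatFunc K) Q).denom.natDegree
      = Q.natDegree := by
  set f : RatFunc K := algebraMap K[X] (RatFunc K) P / algebraMap K[X] (RatFunc K) Q with hf
  have hf0 : f ≠ 0 := by
    rw [hf]
    refine div_ne_zero ?_ ?_
    · exact (map_ne_zero_iff _ (IsFractionRing.injective K[X] (RatFunc K))).mpr hP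
    · exact (map_ne_zero_iff _ (IsFractionRing.injective K[X] (RatFunc K))).mpr hQ
  have hnum0 : f.num ≠ 0 := RatFunc.num_ne_zero hf0
  have hden0 : f.denom ≠ 0 := RatFunc.denom_ne_zero f
  have hcross : f.num * Q = P * f.denom := (RatFunc.num_mul_eq_mul_denom_iff hQ).mpr hf
  have h1 : f.num ∣ P := RatFunc.num_div_dvd P hQ
  have h2 : f.denom ∣ Q := RatFunc.denom_div_dvd P Q
  have h3 : P ∣ f.num := by
    have : P ∣ f.num * Q := ⟨f.denom, hcross⟩
    exact hcop.dvd_of_dvd_mul_right this
  have h4 : Q ∣ f.denom := by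
    have : Q ∣ P * f.denom := ⟨f.num, by rw [← hcross, mul_comm]⟩
    exact hcop.symm.dvd_of_dvd_mul_left this
  exact ⟨le_antisymm (natDegree_le_of_dvd h1 hP) (natDegree_le_of_dvd h3 hnum0),
    le_antisymm (natDegree_le_of_dvd h2 hQ) (natDegree_le_of_dvd h4 hden0)⟩

/-- **`[F : K(j)] = max (deg P) (deg Q) · [F : K(h)]`** for `j = P(h)/Q(h)`, `h` transcendental,
`P`, `Q` coprime. -/
theorem max_natDegree_mul_finrank {h j : F} (hh : Transcendental K h) (P Q : K[X])
    (hcop : IsCoprime P Q) (hP : P ≠ 0) (hQ : Q ≠ 0) (hrel : j * aeval h Q = aeval h P) :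
    max P.natDegree Q.natDegree * Module.finrank K⟮h⟯ F = Module.finrank K⟮j⟯ F := by
  have hinj : Function.Injective (aeval h : K[X] →ₐ[K] F) := transcendental_iff_injective.mp hh
  let φ : RatFunc K →ₐ[K] F := RatFunc.liftAlgHom (aeval h : K[X] →ₐ[K] F)
    (nonZeroDivisors_le_comap_nonZeroDivisors_of_injective _ hinj)
  set f : RatFunc K := algebraMap K[X] (RatFunc K) P / algebraMap K[X] (RatFunc K) Q with hf
  have hQh : aeval h Q ≠ 0 := fun h0 => hQ (hinj (by rw [h0, map_zero]))
  have hφf : φ f = j := by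
    rw [hf]
    show RatFunc.liftAlgHom _ _ _ = j
    rw [RatFunc.liftAlgHom_apply_div, ← hrel, mul_div_assoc, div_self hQh, mul_one]
  have hφX : φ RatFunc.X = h := by
    have := RatFunc.liftAlgHom_apply_div (aeval h : K[X] →ₐ[K] F)
      (nonZeroDivisors_le_comap_nonZeroDivisors_of_injective _ hinj) Polynomial.X 1
    rw [map_one, div_one, map_one, div_one, aeval_X, RatFunc.algebraMap_X] at this
    exact this
  have e1 : K⟮j⟯ = (K⟮f⟯).map φ := by
    rw [IntermediateField.adjoin_map, Set.image_singleton, hφf]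
  have e2 : K⟮h⟯ = (⊤ : IntermediateField K (RatFunc K)).map φ := by
    rw [← RatFunc.adjoin_X, IntermediateField.adjoin_map, Set.image_singleton, hφX]
  have hle : K⟮j⟯ ≤ K⟮h⟯ := by
    rw [e1, e2]
    exact IntermediateField.map_mono φ le_top
  have h3 := IntermediateField.relfinrank_mul_finrank_top hle
  rw [← h3, e1, e2, IntermediateField.relfinrank_map_map, IntermediateField.relfinrank_top_right,
    RatFunc.finrank_eq_max_natDegree, ← e2]
  obtain ⟨hn, hd⟩ := natDegree_num_denom P Q hcop hP hQ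
  rw [← hf] at hn hd
  rw [hn, hd]

end Fermat.Agent.S18.HauptDeg
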