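import Mathlib

/-!
# S18 (WP-H1, Part C): independence over an intermediate extension, by degree count

If `1, U, …, U ^ (ψ - 1)` are linearly independent over `E₀` and `Hb` is a root of a monic
polynomial of degree `d` over `E₀`, then `1, U, …, U ^ (n - 1)` are linearly independent over
`E₀(Hb)` whenever `n d = ψ`.
-/

set_option autoImplicit false

noncomputable section

open Polynomial IntermediateField

namespace Fermat.Agent.S18.HauptIndep

variable {E₀ Ω : Type*} [Field E₀] [Field Ω] [Algebra E₀ Ω]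

/-- the minimal polynomial of `U` has degree at least `ψ` if the first `ψ` powers are
independent. -/
theorem le_natDegree_minpoly (U : Ω) (ψ : ℕ)
    (hU : ∀ c : Fin ψ → E₀, ∑ i, c i • U ^ (i : ℕ) = 0 → ∀ i, c i = 0)
    (hint : IsIntegral E₀ U) : ψ ≤ (minpoly E₀ U).natDegree := by
  by_contra hlt
  rw [not_le] at hlt
  have h0 : ∑ i : Fin ψ, (minpoly E₀ U).coeff i • U ^ (i : ℕ) = 0 := by
    have h1 := Polynomial.aeval_eq_sum_range' hlt U
    rw [minpoly.aeval, Finset.sum_range] at h1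
    exact h1.symm
  have h2 := hU (fun i => (minpoly E₀ U).coeff i) h0 ⟨(minpoly E₀ U).natDegree, hlt⟩
  have h3 : (minpoly E₀ U).coeff (minpoly E₀ U).natDegree = 1 := (minpoly.monic hint).coeff_natDegree
  rw [h3] at h2
  exact one_ne_zero h2

/-- **Independence by degree count.** -/
theorem indep_of_tower (Hb U : Ω) (ψ n d : ℕ) (hd : 0 < d) (hnd : n * d = ψ)
    (hU : ∀ c : Fin ψ → E₀, ∑ i, c i • U ^ (i : ℕ) = 0 → ∀ i, c i = 0)
    (g : E₀[X]) (hg : g.Monic) (hgd : g.natDegree = d) (hroot : aeval Hb g = 0) :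
    ∀ c : Fin n → E₀⟮Hb⟯, ∑ i, (c i : Ω) * U ^ (i : ℕ) = 0 → ∀ i, c i = 0 := by
  intro c hc
  by_contra hne
  push Not at hne
  obtain ⟨i₀, hi₀⟩ := hne
  have hHbint : IsIntegral E₀ Hb := ⟨g, hg, hroot⟩
  have hd₀ : (minpoly E₀ Hb).natDegree ≤ d := by
    rw [← hgd]
    exact Polynomial.natDegree_le_natDegree (minpoly.min E₀ Hb hg hroot)
  -- the relation as a polynomial over `E₀(Hb)`
  set p : (E₀⟮Hb⟯)[X] := ∑ i : Fin n, Polynomial.C (c i) * Polynomial.X ^ (i : ℕ) with hp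
  have hpdeg : p.degree < n := Polynomial.degree_sum_fin_lt c
  have hpcoeff : p.coeff i₀ = c i₀ := by
    rw [hp, Polynomial.finsetSum_coeff, Finset.sum_eq_single i₀]
    · rw [Polynomial.coeff_C_mul_X_pow, if_pos rfl]
    · intro j _ hj
      rw [Polynomial.coeff_C_mul_X_pow, if_neg]
      exact fun h => hj (Fin.ext h.symm)
    · intro h
      exact absurd (Finset.mem_univ i₀) h
  have hp0 : p ≠ 0 := by
    intro h0
    rw [h0, Polynomial.coeff_zero] at hpcoeff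
    exact hi₀ hpcoeff.symm
  have hproot : aeval U p = 0 := by
    rw [hp, map_sum, ← hc]
    refine Finset.sum_congr rfl fun i _ => ?_
    rw [map_mul, map_pow, aeval_C, aeval_X]
    rfl
  have hUalg : IsAlgebraic (E₀⟮Hb⟯) U := ⟨p, hp0, hproot⟩
  have hUint : IsIntegral (E₀⟮Hb⟯) U := hUalg.isIntegral
  have hm₁ : (minpoly (E₀⟮Hb⟯) U).natDegree < n := by
    have h1 := minpoly.degree_le_of_ne_zero (E₀⟮Hb⟯) U hp0 hproot
    have h2 := lt_of_le_of_lt h1 hpdeg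
    exact (Polynomial.natDegree_lt_iff_degree_lt (minpoly.ne_zero hUint)).mpr h2
  -- the tower `E₀ ⊂ E₀(Hb) ⊂ E₀(Hb)(U)`
  have hfin1 : FiniteDimensional E₀ (E₀⟮Hb⟯) := IntermediateField.adjoin.finiteDimensional hHbint
  have hfin2 : FiniteDimensional (E₀⟮Hb⟯) ((E₀⟮Hb⟯)⟮U⟯) :=
    IntermediateField.adjoin.finiteDimensional hUint
  have hfin3 : FiniteDimensional E₀ ((E₀⟮Hb⟯)⟮U⟯) := Module.Finite.trans (E₀⟮Hb⟯) _
  have hr1 : Module.finrank E₀ (E₀⟮Hb⟯) = (minpoly E₀ Hb).natDegree :=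
    IntermediateField.adjoin.finrank hHbint
  have hr2 : Module.finrank (E₀⟮Hb⟯) ((E₀⟮Hb⟯)⟮U⟯) = (minpoly (E₀⟮Hb⟯) U).natDegree :=
    IntermediateField.adjoin.finrank hUint
  have hr3 := Module.finrank_mul_finrank E₀ (E₀⟮Hb⟯) ((E₀⟮Hb⟯)⟮U⟯)
  have htower : IsScalarTower E₀ ((E₀⟮Hb⟯)⟮U⟯) Ω := IsScalarTower.of_algebraMap_eq (fun x => by
    rw [IsScalarTower.algebraMap_apply E₀ (E₀⟮Hb⟯) ((E₀⟮Hb⟯)⟮U⟯),
      ← IsScalarTower.algebraMap_apply (E₀⟮Hb⟯) ((E₀⟮Hb⟯)⟮U⟯) Ω,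
      ← IsScalarTower.algebraMap_apply E₀ (E₀⟮Hb⟯) Ω])
  -- `U` as an element of the top field
  let U' : (E₀⟮Hb⟯)⟮U⟯ := IntermediateField.AdjoinSimple.gen (E₀⟮Hb⟯) U
  have hU'int : IsIntegral E₀ U' := IsIntegral.of_finite E₀ U'
  have hle1 : (minpoly E₀ U').natDegree ≤ Module.finrank E₀ ((E₀⟮Hb⟯)⟮U⟯) :=
    minpoly.natDegree_le U'
  have hmin : minpoly E₀ U = minpoly E₀ U' := by
    have := minpoly.algebraMap_eq (A := E₀) (B := (E₀⟮Hb⟯)⟮U⟯) (B' := Ω)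
      (algebraMap ((E₀⟮Hb⟯)⟮U⟯) Ω).injective U'
    rw [← this]
    rfl
  have hUint0 : IsIntegral E₀ U := by
    have := hU'int.map (IsScalarTower.toAlgHom E₀ ((E₀⟮Hb⟯)⟮U⟯) Ω)
    exact this
  have hle2 := le_natDegree_minpoly U ψ hU hUint0
  rw [hmin] at hle2
  have h5 : ψ ≤ (minpoly E₀ Hb).natDegree * (minpoly (E₀⟮Hb⟯) U).natDegree := by
    rw [← hr1, ← hr2, hr3]
    exact hle2.trans hle1
  have h6 : (minpoly E₀ Hb).natDegree * (minpoly (E₀⟮Hb⟯) U).natDegree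
      ≤ d * (minpoly (E₀⟮Hb⟯) U).natDegree := Nat.mul_le_mul_right _ hd₀
  have h7 : d * (minpoly (E₀⟮Hb⟯) U).natDegree < d * n := Nat.mul_lt_mul_of_pos_left hm₁ hd
  rw [← hnd, mul_comm n d] at h5
  omega

end Fermat.Agent.S18.HauptIndep
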