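import Mathlib
import Fermat.Agent.S18_H1
import Fermat.Agent.S18_HauptDeg
import Fermat.Agent.S18_HauptIndep
import Fermat.Agent.S18_HauptPQ

/-!
# S18, WP-H1 Part C: an auxiliary Hauptmodul

Consequences of the hypotheses `H1.Haupt M h P Q d`: `h` generates the level-`M` function
field with `[F_M : K(h)] · d = ψ(M)`, and in characteristic `ℓ ∤ M` the powers
`1, ū, …, ū ^ (n - 1)`, `n d = ψ(M)`, are independent over `k[h̄]`, `ū` is separable over
`k(h̄)` and `h̄` is transcendental.  The three instances `haupt_j`, `haupt_h2`, `haupt_h3`.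
-/

set_option autoImplicit false

noncomputable section

open AlgebraicCurve ModularCurve CongruenceSubgroup Polynomial
open Fermat.Agent.S24 Fermat.Agent.RR
open scoped MatrixGroups

namespace Fermat.Agent.S18.H1

/-- base change of `aeval` along `ℤ → R`. -/
theorem coeffMap_aeval_int (R : Type*) [CommRing R] (x : LaurentSeries ℤ) (p : ℤ[X]) :
    coeffMap (Int.castRingHom R) (aeval x p)
      = aeval (coeffMap (Int.castRingHom R) x) (p.map (Int.castRingHom R)) := by
  rw [aeval_def, aeval_def, Polynomial.hom_eval₂, Polynomial.eval₂_map]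
  congr 1
  exact RingHom.ext_int _ _

namespace Haupt

variable {M : ℕ} [NeZero M] {h : LaurentSeries ℤ} {P Q : ℤ[X]} {d : ℕ}

omit [NeZero M] in
/-- the relation over any commutative ring. -/
theorem rel_map (H : Haupt M h P Q d) (R : Type*) [CommRing R] :
    jqModC R * aeval (coeffMap (Int.castRingHom R) h) (Q.map (Int.castRingHom R))
      = aeval (coeffMap (Int.castRingHom R) h) (P.map (Int.castRingHom R)) := by
  have := congrArg (coeffMap (Int.castRingHom R)) H.rel
  rwa [map_mul, coeffMap_jqModC, coeffMap_aeval_int, coeffMap_aeval_int] at this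

omit [NeZero M] in
theorem monic_map (H : Haupt M h P Q d) (R : Type*) [CommRing R] :
    (P.map (Int.castRingHom R)).Monic := H.monic.map _

omit [NeZero M] in
theorem natDegree_map_P (H : Haupt M h P Q d) (R : Type*) [CommRing R] [Nontrivial R] :
    (P.map (Int.castRingHom R)).natDegree = d := by
  rw [H.monic.natDegree_map, H.natDegree_P]

omit [NeZero M] in
theorem natDegree_map_Q (H : Haupt M h P Q d) (R : Type*) [CommRing R] :
    (Q.map (Int.castRingHom R)).natDegree < d :=
  lt_of_le_of_lt (Polynomial.natDegree_map_le) H.natDegree_Q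

omit [NeZero M] in
/-- coprimality over any field of characteristic zero. -/
theorem coprime_map (H : Haupt M h P Q d) (K : Type*) [Field K] [Algebra ℚ K] :
    IsCoprime (P.map (Int.castRingHom K)) (Q.map (Int.castRingHom K)) := by
  have h1 := H.coprime.map (Polynomial.mapRingHom (algebraMap ℚ K))
  simp only [Polynomial.coe_mapRingHom, Polynomial.map_map] at h1
  have e : (algebraMap ℚ K).comp (Int.castRingHom ℚ) = Int.castRingHom K := RingHom.ext_int _ _
  rwa [e] at h1

omit [NeZero M] in
theorem map_Q_ne_zero (H : Haupt M h P Q d) (K : Type*) [Field K] [Algebra ℚ K] :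
    Q.map (Int.castRingHom K) ≠ 0 := by
  intro h0
  have hc := H.coprime_map K
  rw [h0, isCoprime_zero_right] at hc
  have h1 := Polynomial.natDegree_eq_zero_of_isUnit hc
  rw [H.natDegree_map_P K] at h1
  have := H.natDegree_Q
  omega

section CharZero

variable (K : Type) [Field K] [Algebra K ℂ] [Algebra ℚ K] [IsAlgClosed K]

theorem coe_gen (H : Haupt M h P Q d) :
    ((H.gen K : Tower.FuncField K M) : LaurentSeries K) = coeffMap (Int.castRingHom K) h := by
  show coeffEmb K (coeffMap (Int.castRingHom ℚ) h) = _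
  rw [coeffEmb, coeffMap_coeffMap]
  exact coeffMap_congr (RingHom.ext_int _ _) h

/-- the relation in `F_M`. -/
theorem gen_rel (H : Haupt M h P Q d) :
    Tower.jGen K M * aeval (H.gen K) (Q.map (Int.castRingHom K))
      = aeval (H.gen K) (P.map (Int.castRingHom K)) := by
  apply Subtype.ext
  have hj : ((Tower.jGen K M : Tower.FuncField K M) : LaurentSeries K) = jqModC K :=
    Fermat.Agent.S28.MC.coeffEmb_jq K
  rw [MulMemClass.coe_mul, ← IntermediateField.aeval_coe, ← IntermediateField.aeval_coe, hj,
    H.coe_gen K]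
  exact H.rel_map K

theorem transcendental_gen (H : Haupt M h P Q d) : Transcendental K (H.gen K) := by
  intro halg
  have hint : IsIntegral K (H.gen K) := halg.isIntegral
  have hmem : ∀ p : K[X], IsIntegral K (aeval (H.gen K) p) := by
    intro p
    have h1 : aeval (H.gen K) p ∈ Algebra.adjoin K {H.gen K} :=
      Polynomial.aeval_mem_adjoin_singleton K (H.gen K)
    have h2 : Algebra.adjoin K {H.gen K} ≤ integralClosure K (Tower.FuncField K M) :=
      Algebra.adjoin_le (Set.singleton_subset_iff.mpr hint)
    exact h2 h1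
  have hrel := H.gen_rel K
  by_cases hB : aeval (H.gen K) (Q.map (Int.castRingHom K)) = 0
  · rw [hB, mul_zero] at hrel
    obtain ⟨a, b, hab⟩ := H.coprime_map K
    have := congrArg (aeval (H.gen K)) hab
    rw [map_add, map_mul, map_mul, hB, ← hrel, mul_zero, mul_zero, add_zero, map_one] at this
    exact zero_ne_one this
  · have hj : Tower.jGen K M = aeval (H.gen K) (P.map (Int.castRingHom K)) *
        (aeval (H.gen K) (Q.map (Int.castRingHom K)))⁻¹ := by
      rw [← hrel, mul_assoc, mul_inv_cancel₀ hB, mul_one]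
    have hjint : IsIntegral K (Tower.jGen K M) := by
      rw [hj]
      exact (hmem _).mul (hmem _).inv
    exact Tower.transcendental_jGen K M hjint.isAlgebraic

/-- `[F_M : K(h)] · d = ψ(M)`. -/
theorem finrank_mul (H : Haupt M h P Q d) :
    Module.finrank (IntermediateField.adjoin K {H.gen K}) (Tower.FuncField K M) * d = psi M := by
  have key := HauptDeg.max_natDegree_mul_finrank (H.transcendental_gen K)
    (P.map (Int.castRingHom K)) (Q.map (Int.castRingHom K)) (H.coprime_map K)
    (H.monic_map K).ne_zero (H.map_Q_ne_zero K) (H.gen_rel K)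
  rw [H.natDegree_map_P K, max_eq_left (H.natDegree_map_Q K).le,
    Fermat.Agent.S28.Inv.finrank_funcField K M] at key
  rw [mul_comm]
  exact key

/-- `h` is a generator of `F_M / K`. -/
theorem isGenerator (H : Haupt M h P Q d) : IsGenerator K (H.gen K) := by
  refine ⟨H.transcendental_gen K, ?_⟩
  have h1 := H.finrank_mul K
  have hpos : 0 < psi M := Nat.pos_of_ne_zero (Subgroup.FiniteIndex.index_ne_zero (H := Gamma0 M))
  have h2 : 0 < Module.finrank (IntermediateField.adjoin K {H.gen K}) (Tower.FuncField K M) := by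
    by_contra h0
    have h3 : Module.finrank (IntermediateField.adjoin K {H.gen K}) (Tower.FuncField K M) = 0 := by
      omega
    rw [h3, zero_mul] at h1
    omega
  exact Module.finite_of_finrank_pos h2

/-- `F_M = K(h, u)`. -/
theorem adjoin_eq (H : Haupt M h P Q d) :
    IntermediateField.adjoin K {H.gen K, uGen K M} = ⊤ := by
  rw [eq_top_iff, ← adjoin_j_u K M, IntermediateField.adjoin_le_iff]
  have hg : H.gen K ∈ IntermediateField.adjoin K {H.gen K, uGen K M} :=
    IntermediateField.subset_adjoin K _ (by simp)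
  have hu : uGen K M ∈ IntermediateField.adjoin K {H.gen K, uGen K M} :=
    IntermediateField.subset_adjoin K _ (by simp)
  have hmem : ∀ p : K[X], aeval (H.gen K) p ∈ IntermediateField.adjoin K {H.gen K, uGen K M} := by
    intro p
    have := IntermediateField.aeval_coe (IntermediateField.adjoin K {H.gen K, uGen K M})
      (⟨H.gen K, hg⟩ : IntermediateField.adjoin K {H.gen K, uGen K M}) p
    rw [this]
    exact SetLike.coe_mem _
  have hrel := H.gen_rel K
  have hB : aeval (H.gen K) (Q.map (Int.castRingHom K)) ≠ 0 := by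
    intro h0
    exact H.map_Q_ne_zero K
      ((transcendental_iff_injective.mp (H.transcendental_gen K)) (by rw [h0, map_zero]))
  have hj : Tower.jGen K M = aeval (H.gen K) (P.map (Int.castRingHom K)) *
      (aeval (H.gen K) (Q.map (Int.castRingHom K)))⁻¹ := by
    rw [← hrel, mul_assoc, mul_inv_cancel₀ hB, mul_one]
  rintro x (rfl | rfl)
  · rw [hj]
    exact mul_mem (hmem _) (inv_mem (hmem _))
  · exact hu

end CharZero

section Shape

omit [NeZero M] in
/-- the shape `q⁻¹ (1 + …)` of the reductions. -/
theorem exists_shape (H : Haupt M h P Q d) (R : Type*) [CommRing R] :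
    ∃ J : PowerSeries R, PowerSeries.constantCoeff J = 1 ∧
      coeffMap (Int.castRingHom R) h
        = HahnSeries.single (-1 : ℤ) (1 : R) * HahnSeries.ofPowerSeries ℤ R J := by
  refine ⟨PowerSeries.mk fun n => (coeffMap (Int.castRingHom R) h).coeff ((n : ℤ) - 1), ?_, ?_⟩
  · rw [← PowerSeries.coeff_zero_eq_constantCoeff, PowerSeries.coeff_mk, coeffMap_coeff]
    have : ((0 : ℕ) : ℤ) - 1 = -1 := by norm_num
    rw [this, H.coeff_neg_one, map_one]
  · ext k
    rw [HahnSeries.coeff_single_mul, one_mul]
    rcases lt_or_ge (k - -1) 0 with hk | hk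
    · rw [ofPowerSeries_coeff_of_neg _ hk, coeffMap_coeff, H.coeff_lt k (by omega), map_zero]
    · obtain ⟨m, hm⟩ := Int.eq_ofNat_of_zero_le hk
      rw [hm, HahnSeries.ofPowerSeries_apply_coeff, PowerSeries.coeff_mk]
      congr 1
      omega

end Shape

section CharL

variable (ℓ : ℕ) [Fact ℓ.Prime] (k : Type*) [Field k] [Algebra (ZMod ℓ) k]

/-- `h̄` is transcendental over `k`. -/
theorem transcendental_bar (H : Haupt M h P Q d) :
    Transcendental k (coeffMap (Int.castRingHom k) h) := by
  obtain ⟨J, hJ, hshape⟩ := H.exists_shape k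
  rw [transcendental_iff]
  intro p hp
  have e1 : HahnSeries.single (-((1 : ℕ) : ℤ)) (1 : k) * HahnSeries.ofPowerSeries ℤ k J
      = coeffMap (Int.castRingHom k) h := by
    rw [hshape, Nat.cast_one]
  have key := HauptPoly.eq_zero_of_coeff_nonpos (K := k) 1 1 one_pos one_pos J 1 hJ
    (by simp) 1 (fun _ => p) (fun i hi => by omega)
  rw [e1] at key
  refine key (fun m _ => ?_) 0 one_pos
  rw [Finset.sum_range_one, pow_zero, mul_one, hp, HahnSeries.coeff_zero]

omit [NeZero M] in
theorem map_Q_ne_zero_bar (H : Haupt M h P Q d) (hM : NeZero M) :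
    Q.map (Int.castRingHom k) ≠ 0 := by
  intro h0
  have hrel := H.rel_map k
  rw [h0, map_zero, mul_zero] at hrel
  have h1 := (transcendental_iff.mp (H.transcendental_bar k)) _ hrel.symm
  exact (H.monic_map k).ne_zero h1

omit [NeZero M] in
/-- `j̄ ∈ k(h̄)`. -/
theorem jq_mem_adjoin_bar (H : Haupt M h P Q d) (hM : NeZero M) :
    jqModC k ∈ IntermediateField.adjoin k {coeffMap (Int.castRingHom k) h} := by
  have hB : aeval (coeffMap (Int.castRingHom k) h) (Q.map (Int.castRingHom k)) ≠ 0 := by
    intro h0
    exact H.map_Q_ne_zero_bar k hM ((transcendental_iff.mp (H.transcendental_bar k)) _ h0)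
  have hmem : ∀ p : k[X], aeval (coeffMap (Int.castRingHom k) h) p
      ∈ IntermediateField.adjoin k {coeffMap (Int.castRingHom k) h} := by
    intro p
    exact IntermediateField.algebra_adjoin_le_adjoin k _
      (Polynomial.aeval_mem_adjoin_singleton k _)
  have hj : jqModC k = aeval (coeffMap (Int.castRingHom k) h) (P.map (Int.castRingHom k)) *
      (aeval (coeffMap (Int.castRingHom k) h) (Q.map (Int.castRingHom k)))⁻¹ := by
    rw [← H.rel_map k, mul_assoc, mul_inv_cancel₀ hB, mul_one]
  rw [hj]
  exact mul_mem (hmem _) (inv_mem (hmem _))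

/-- **(I1) for `h`**: `1, ū, …, ū ^ (n - 1)` are independent over `k[h̄]`, `n = ψ(M) / d`. -/
theorem polyIndep (H : Haupt M h P Q d) (hℓM : ¬ ℓ ∣ M) (n : ℕ) (hn : n * d = psi M) :
    PolyIndep k (coeffMap (Int.castRingHom k) h) (coeffMap (Int.castRingHom k) (uZ M)) n := by
  have hJU := polyIndep_j M ℓ k hℓM
  set J := jqModC k with hJ
  set U := coeffMap (Int.castRingHom k) (uZ M) with hU
  set Hb := coeffMap (Int.castRingHom k) h with hHb
  have hd : 0 < d := lt_of_le_of_lt (Nat.zero_le _) H.natDegree_Q
  -- independence of the powers of `U` over `k(J)`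
  have hUind : ∀ c : Fin (psi M) → IntermediateField.adjoin k {J},
      ∑ i, c i • U ^ (i : ℕ) = 0 → ∀ i, c i = 0 := by
    intro c hc
    obtain ⟨D, P', hD, -, h3, h4⟩ :=
      Fermat.Agent.S28.Descent.exists_poly_relation J c (fun i => U ^ (i : ℕ))
    rw [hc, zero_mul] at h3
    have h5 := hJU P' h3.symm
    intro i
    have h6 := h4 i
    rw [h5 i, map_zero] at h6
    have h7 : (c i : LaurentSeries k) = 0 := by
      rcases mul_eq_zero.mp h6 with h | h
      · exact h
      · exact absurd h hD
    exact Subtype.ext h7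
  -- the monic equation of `Hb` over `k(J)`
  let Jel : IntermediateField.adjoin k {J} := ⟨J, IntermediateField.mem_adjoin_simple_self k J⟩
  set g : (IntermediateField.adjoin k {J})[X] :=
    (P.map (Int.castRingHom k)).map (algebraMap k (IntermediateField.adjoin k {J}))
      - Polynomial.C Jel *
        (Q.map (Int.castRingHom k)).map (algebraMap k (IntermediateField.adjoin k {J})) with hg
  have hPm : ((P.map (Int.castRingHom k)).map
      (algebraMap k (IntermediateField.adjoin k {J}))).Monic := (H.monic_map k).map _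
  have hPd : ((P.map (Int.castRingHom k)).map
      (algebraMap k (IntermediateField.adjoin k {J}))).natDegree = d := by
    rw [(H.monic_map k).natDegree_map, H.natDegree_map_P k]
  have hQd : (Polynomial.C Jel * (Q.map (Int.castRingHom k)).map
      (algebraMap k (IntermediateField.adjoin k {J}))).natDegree < d :=
    lt_of_le_of_lt ((Polynomial.natDegree_C_mul_le _ _).trans Polynomial.natDegree_map_le)
      (H.natDegree_map_Q k)
  have hgm : g.Monic := by
    rw [hg]
    refine hPm.sub_of_left (Polynomial.degree_lt_degree ?_)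
    rw [hPd]
    exact hQd
  have hgd : g.natDegree = d := by
    rw [hg, Polynomial.natDegree_sub_eq_left_of_natDegree_lt (by rw [hPd]; exact hQd), hPd]
  have hroot : aeval Hb g = 0 := by
    rw [hg, map_sub, map_mul, aeval_C, Polynomial.aeval_map_algebraMap,
      Polynomial.aeval_map_algebraMap]
    have h1 := H.rel_map k
    rw [← h1]
    exact sub_self _
  have key := HauptIndep.indep_of_tower Hb U (psi M) n d hd hn hUind g hgm hgd hroot
  intro Pp hPp
  have hmem : ∀ i, aeval Hb (Pp i) ∈ IntermediateField.adjoin (IntermediateField.adjoin k {J}) {Hb} := by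
    intro i
    rw [← Polynomial.aeval_map_algebraMap (IntermediateField.adjoin k {J})]
    exact IntermediateField.algebra_adjoin_le_adjoin _ _
      (Polynomial.aeval_mem_adjoin_singleton _ _)
  have h8 := key (fun i => ⟨aeval Hb (Pp i), hmem i⟩) hPp
  intro i
  have h9 := congrArg Subtype.val (h8 i)
  exact (transcendental_iff.mp (H.transcendental_bar k)) _ h9

/-- separability over `k(h̄)`. -/
theorem isSeparable (H : Haupt M h P Q d) (hℓM : ¬ ℓ ∣ M) :
    IsSeparable (IntermediateField.adjoin k {coeffMap (Int.castRingHom k) h})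
      (coeffMap (Int.castRingHom k) (uZ M)) := by
  have hsep := isSeparable_j M ℓ k hℓM
  have hle : IntermediateField.adjoin k {jqModC k}
      ≤ IntermediateField.adjoin k {coeffMap (Int.castRingHom k) h} := by
    rw [IntermediateField.adjoin_simple_le_iff]
    exact H.jq_mem_adjoin_bar k inferInstance
  letI : Algebra (IntermediateField.adjoin k {jqModC k})
      (IntermediateField.adjoin k {coeffMap (Int.castRingHom k) h}) :=
    (IntermediateField.inclusion hle).toRingHom.toAlgebra
  haveI : IsScalarTower (IntermediateField.adjoin k {jqModC k})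
      (IntermediateField.adjoin k {coeffMap (Int.castRingHom k) h}) (LaurentSeries k) :=
    IsScalarTower.of_algebraMap_eq (fun x => rfl)
  exact IsSeparable.tower_top _ hsep

end CharL

end Haupt

/-! ### the three instances -/

/-- `j` itself on every level (`P = X`, `Q = 1`, `d = 1`). -/
theorem haupt_j (M : ℕ) [NeZero M] : Haupt M (jqModC ℤ) X 1 1 := by
  refine ⟨?_, ModularCurve.coeff_jqModC_neg_one ℤ, fun i hi => coeff_jqModC_of_lt ℤ hi, ?_,
    monic_X, natDegree_X, ?_, ?_⟩
  · rw [coeffMap_jqModC]
    exact jqModC_mem_full ℚ M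
  · simp
  · simp
  · rw [Polynomial.map_one]
    exact isCoprime_one_right

/-- `h₂` on every level divisible by 2. -/
theorem haupt_h2 (M : ℕ) [NeZero M] (hM : 2 ∣ M) :
    Haupt M Fermat.Agent.S18.Haupt.h2Z Fermat.Agent.S18.Haupt.polyP2
      Fermat.Agent.S18.Haupt.polyQ2 3 :=
  ⟨full_degeneracy_le hM Fermat.Agent.S18.Haupt.h2_mem, Fermat.Agent.S18.Haupt.h2Z_coeff_neg_one,
    Fermat.Agent.S18.Haupt.h2Z_coeff_lt, Fermat.Agent.S18.Haupt.h2Z_aeval_rel,
    Fermat.Agent.S18.Haupt.polyP2_monic, Fermat.Agent.S18.Haupt.polyP2_natDegree,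
    by rw [Fermat.Agent.S18.Haupt.polyQ2_natDegree]; norm_num,
    Fermat.Agent.S18.Haupt.polyP2_polyQ2_coprime⟩

/-- `h₃` on every level divisible by 3. -/
theorem haupt_h3 (M : ℕ) [NeZero M] (hM : 3 ∣ M) :
    Haupt M Fermat.Agent.S18.Haupt.h3Z Fermat.Agent.S18.Haupt.polyP3
      Fermat.Agent.S18.Haupt.polyQ3 4 :=
  ⟨full_degeneracy_le hM Fermat.Agent.S18.Haupt.h3_mem, Fermat.Agent.S18.Haupt.h3Z_coeff_neg_one,
    Fermat.Agent.S18.Haupt.h3Z_coeff_lt, Fermat.Agent.S18.Haupt.h3Z_aeval_rel,
    Fermat.Agent.S18.Haupt.polyP3_monic, Fermat.Agent.S18.Haupt.polyP3_natDegree,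
    by rw [Fermat.Agent.S18.Haupt.polyQ3_natDegree]; norm_num,
    Fermat.Agent.S18.Haupt.polyP3_polyQ3_coprime⟩

end Fermat.Agent.S18.H1
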