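import Mathlib
import Fermat.Agent.S18_GaussSeries
import Fermat.Agent.S18_GaussSep
import Fermat.Agent.S18_ValRing
import Fermat.Agent.S18_H1C

/-!
# S18 (C1): the Gauss datum of the level-`M` function field for a Hauptmodul

`Gauss.exists_datum`: for `H : H1.Haupt M hZ P Q d` and a valuation subring `A` of `ℚ̄` over
`ℓ ∤ M`, a `Gauss.Datum A (modularFunctionFieldBar M) n` with `n · d = ψ(M)`, generator `hZ`
and primitive element the Igusa series `uZ M`.
-/

set_option autoImplicit false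

noncomputable section

open ModularCurve Polynomial

namespace Fermat.Agent.S18.Gauss

theorem coeffEmb_intSeries (K : Type*) [Field K] [Algebra ℚ K] (x : LaurentSeries ℤ) :
    coeffEmb K (coeffMap (Int.castRingHom ℚ) x) = coeffMap (Int.castRingHom K) x := by
  rw [coeffEmb, coeffMap_coeffMap]
  exact coeffMap_congr (RingHom.ext_int _ _) x

set_option maxHeartbeats 1000000 in
theorem exists_datum (M : ℕ) [NeZero M] (ℓ : ℕ) [Fact ℓ.Prime] (hℓM : ¬ ℓ ∣ M)
    (A : ValuationSubring (AlgebraicClosure ℚ)) (hA : A.LiesOverPrime ℓ)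
    {hZ : LaurentSeries ℤ} {P Q : ℤ[X]} {d : ℕ} (H : H1.Haupt M hZ P Q d) :
    ∃ (n : ℕ) (D : Datum A (modularFunctionFieldBar M) n), 0 < n ∧ n * d = H1.psi M ∧
      D.hA = coeffMap (Int.castRingHom A) hZ ∧
      D.θA = coeffMap (Int.castRingHom A) (H1.uZ M) := by
  haveI : Algebra.IsAlgebraic ℚ (AlgebraicClosure ℚ) := AlgebraicClosure.isAlgebraic ℚ
  letI : Algebra (AlgebraicClosure ℚ) ℂ :=
    (IsAlgClosed.lift : AlgebraicClosure ℚ →ₐ[ℚ] ℂ).toRingHom.toAlgebra
  haveI : CharP (IsLocalRing.ResidueField A) ℓ := ValRing.charP_residueField A hA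
  letI : Algebra (ZMod ℓ) (IsLocalRing.ResidueField A) := ZMod.algebra _ ℓ
  have hgenr := H.isGenerator (AlgebraicClosure ℚ)
  haveI : FiniteDimensional (IntermediateField.adjoin (AlgebraicClosure ℚ)
      {H.gen (AlgebraicClosure ℚ)}) (Fermat.Agent.S24.Tower.FuncField (AlgebraicClosure ℚ) M) :=
    hgenr.2
  have hmul := H.finrank_mul (AlgebraicClosure ℚ)
  have hn : Module.finrank (IntermediateField.adjoin (AlgebraicClosure ℚ)
      {H.gen (AlgebraicClosure ℚ)})
      (Fermat.Agent.S24.Tower.FuncField (AlgebraicClosure ℚ) M) ≠ 0 :=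
    (Module.finrank_pos).ne'
  have hh : coeffMap (Int.castRingHom (AlgebraicClosure ℚ)) hZ ∈ modularFunctionFieldBar M := by
    rw [← coeffEmb_intSeries]
    exact coeffEmb_mem_laurentBaseChange _ H.mem
  have hθ : coeffMap (Int.castRingHom (AlgebraicClosure ℚ)) (H1.uZ M)
      ∈ modularFunctionFieldBar M := by
    rw [← coeffEmb_intSeries]
    exact coeffEmb_mem_laurentBaseChange _ (H1.uZ_mem M)
  have e1 : (⟨coeffMap (Int.castRingHom (AlgebraicClosure ℚ)) hZ, hh⟩ :
      modularFunctionFieldBar M) = H.gen (AlgebraicClosure ℚ) :=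
    Subtype.ext (coeffEmb_intSeries _ hZ).symm
  have e2 : (⟨coeffMap (Int.castRingHom (AlgebraicClosure ℚ)) (H1.uZ M), hθ⟩ :
      modularFunctionFieldBar M) = H1.uGen (AlgebraicClosure ℚ) M :=
    Subtype.ext (coeffEmb_intSeries _ (H1.uZ M)).symm
  refine ⟨_, Datum.ofSeries A (modularFunctionFieldBar M) hZ (H1.uZ M) _ hn hh hθ ?_ ?_
    (H.transcendental_bar (IsLocalRing.ResidueField A))
    (H.polyIndep ℓ (IsLocalRing.ResidueField A) hℓM _ hmul), Nat.pos_of_ne_zero hn, hmul,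
    rfl, rfl⟩
  · rw [e1, e2]
    exact H.adjoin_eq (AlgebraicClosure ℚ)
  · rw [e1]

/-- the generator of a datum built on `hZ` is helper5's `H.gen`. -/
theorem Datum.h_eq_gen {M : ℕ} [NeZero M] {A : ValuationSubring (AlgebraicClosure ℚ)} {n : ℕ}
    (D : Datum A (modularFunctionFieldBar M) n) {hZ : LaurentSeries ℤ} {P Q : ℤ[X]} {d : ℕ}
    (H : H1.Haupt M hZ P Q d) (hh : D.hA = coeffMap (Int.castRingHom A) hZ) :
    D.h = H.gen (AlgebraicClosure ℚ) := by
  apply Subtype.ext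
  show emb A D.hA = coeffEmb (AlgebraicClosure ℚ) (coeffMap (Int.castRingHom ℚ) hZ)
  rw [hh, emb_intSeries, coeffEmb_intSeries]

/-- the primitive element of a datum built on the Igusa series is `uGen`. -/
theorem Datum.θ_eq_uGen {M : ℕ} [NeZero M] {A : ValuationSubring (AlgebraicClosure ℚ)} {n : ℕ}
    (D : Datum A (modularFunctionFieldBar M) n)
    (hθ : D.θA = coeffMap (Int.castRingHom A) (H1.uZ M)) :
    D.θ = H1.uGen (AlgebraicClosure ℚ) M := by
  apply Subtype.ext
  show emb A D.θA = coeffEmb (AlgebraicClosure ℚ) (coeffMap (Int.castRingHom ℚ) (H1.uZ M))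
  rw [hθ, emb_intSeries, coeffEmb_intSeries]

/-- the datum is a generator datum: `IsGenerator L D.h`. -/
theorem Datum.isGenerator_of_haupt {M : ℕ} [NeZero M]
    {A : ValuationSubring (AlgebraicClosure ℚ)} {n : ℕ}
    (D : Datum A (modularFunctionFieldBar M) n) {hZ : LaurentSeries ℤ} {P Q : ℤ[X]} {d : ℕ}
    (H : H1.Haupt M hZ P Q d) (hh : D.hA = coeffMap (Int.castRingHom A) hZ) :
    Fermat.Agent.S24.IsGenerator (AlgebraicClosure ℚ) D.h := by
  haveI : Algebra.IsAlgebraic ℚ (AlgebraicClosure ℚ) := AlgebraicClosure.isAlgebraic ℚ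
  letI : Algebra (AlgebraicClosure ℚ) ℂ :=
    (IsAlgClosed.lift : AlgebraicClosure ℚ →ₐ[ℚ] ℂ).toRingHom.toAlgebra
  rw [D.h_eq_gen H hh]
  exact H.isGenerator (AlgebraicClosure ℚ)

/-- the separability hypothesis of `Datum.isSeparable_κ` for a Hauptmodul datum. -/
theorem Datum.isSeparable_of_haupt {M : ℕ} [NeZero M] (ℓ : ℕ) [Fact ℓ.Prime] (hℓM : ¬ ℓ ∣ M)
    {A : ValuationSubring (AlgebraicClosure ℚ)} (hA : A.LiesOverPrime ℓ) {n : ℕ}
    (D : Datum A (modularFunctionFieldBar M) n) {hZ : LaurentSeries ℤ} {P Q : ℤ[X]} {d : ℕ}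
    (H : H1.Haupt M hZ P Q d) (hh : D.hA = coeffMap (Int.castRingHom A) hZ)
    (hθ : D.θA = coeffMap (Int.castRingHom A) (H1.uZ M)) :
    Algebra.IsSeparable
      (IntermediateField.adjoin (IsLocalRing.ResidueField A) {D.goodVal.hbar}) D.goodVal.κ := by
  haveI : CharP (IsLocalRing.ResidueField A) ℓ := ValRing.charP_residueField A hA
  letI : Algebra (ZMod ℓ) (IsLocalRing.ResidueField A) := ZMod.algebra _ ℓ
  apply D.isSeparable_κ
  rw [hh, hθ, red_intSeries, red_intSeries]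
  exact H.isSeparable ℓ (IsLocalRing.ResidueField A) hℓM

end Fermat.Agent.S18.Gauss
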