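import Mathlib
import Fermat.Agent.S18_Hub

/-!
# S18, WP-E1: definitions

* `ChartVal G x Kx Kbar n`: what the chart argument needs from the Gauss valuation.
* `LocalBasis G x Kbar e s`: a family `e` of `n` integral elements of `G.V` whose reductions are
  independent and which generates the integral closure of `L[x]` after inverting
  `s(x)`, `s ≡ 1` modulo the maximal ideal.
-/

set_option autoImplicit false

noncomputable section

open AlgebraicCurve Fermat.Agent.S24 Polynomial

namespace Fermat.Agent.S18.E1

variable {L F : Type*} [Field L] [Field F] [Algebra L F]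

/-- What the chart argument needs from the Gauss valuation `G.V` for the coordinate `x`. -/
structure ChartVal {O : ValuationSubring L} {h : F} (G : GoodVal O h) (x : F)
    (Kx : IntermediateField L F)
    (Kbar : IntermediateField (IsLocalRing.ResidueField O) G.κ) (n : ℕ) : Prop where
  Kx_eq : Kx = IntermediateField.adjoin L {x}
  x_mem : x ∈ G.V
  x_transcendental : Transcendental L x
  Kbar_eq : Kbar = IntermediateField.adjoin (IsLocalRing.ResidueField O) {G.ρ ⟨x, x_mem⟩}
  xbar_transcendental : Transcendental (IsLocalRing.ResidueField O) (G.ρ ⟨x, x_mem⟩)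
  finrank_eq : Module.finrank Kx F = n
  finrank_bar : Module.finrank Kbar G.κ = n
  sep : Algebra.IsSeparable Kbar G.κ
  /-- Gauss: a polynomial in `x` lying in `V` has coefficients in `O`. -/
  gauss : ∀ p : L[X], aeval x p ∈ G.V → ∀ i, p.coeff i ∈ O
  /-- the reduction of `V ∩ L(x)` lies in `k(x̄)`. -/
  res_mem : ∀ (c : Kx) (hc : (c : F) ∈ G.V), G.ρ ⟨c, hc⟩ ∈ Kbar
  /-- the trace commutes with reduction. -/
  trace : ∀ y : G.V, ∃ ht : ((Algebra.trace Kx F (y : F) : Kx) : F) ∈ G.V,
    G.ρ ⟨_, ht⟩ = ((Algebra.trace Kbar G.κ (G.ρ y) : Kbar) : G.κ)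

/-- A local integral basis on the closed unit disc of the chart `x`. -/
structure LocalBasis {O : ValuationSubring L} {h : F} (G : GoodVal O h) (x : F)
    (Kbar : IntermediateField (IsLocalRing.ResidueField O) G.κ) {n : ℕ}
    (e : Fin n → F) (s : Polynomial O) : Prop where
  s_res : s.map (IsLocalRing.residue O) = 1
  e_mem : ∀ i, e i ∈ G.V
  e_int : ∀ i, IsIntegral (Algebra.adjoin L {x}) (e i)
  span : ∀ y : F, IsIntegral (Algebra.adjoin L {x}) y →
    ∃ p : Fin n → L[X], aeval x (s.map (algebraMap O L)) * y = ∑ i, aeval x (p i) * e i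
  li_bar : LinearIndependent Kbar (fun i => G.ρ ⟨e i, e_mem i⟩)

end Fermat.Agent.S18.E1
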