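import Mathlib
import Fermat.Agent.S18_E1Defs

/-!
# S18, WP-E1: the abstract core, part 1 (coordinates with respect to a local basis)
-/

set_option autoImplicit false

noncomputable section

open AlgebraicCurve Fermat.Agent.S24 Fermat.Agent.S24.Places Polynomial

namespace Fermat.Agent.S18.E1

section Scale

variable {F : Type*} [Field F]

/-- In a finite family of elements of a valued field, not all zero, one element divides all
the others in the valuation ring. -/
theorem exists_scale (V : ValuationSubring F) {n : ℕ} (c : Fin n → F) (hc : c ≠ 0) :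
    ∃ i₀, c i₀ ≠ 0 ∧ ∀ i, c i / c i₀ ∈ V := by
  obtain ⟨j, hj⟩ : ∃ j, c j ≠ 0 := by
    by_contra hcon
    push Not at hcon
    exact hc (funext hcon)
  obtain ⟨i₀, -, hi₀⟩ := Finset.exists_max_image Finset.univ (fun i => V.valuation (c i))
    ⟨j, Finset.mem_univ j⟩
  have h0 : c i₀ ≠ 0 := by
    intro h
    have h1 := hi₀ j (Finset.mem_univ j)
    rw [h, map_zero] at h1
    exact hj ((map_eq_zero _).1 (le_antisymm h1 zero_le))
  refine ⟨i₀, h0, fun i => ?_⟩
  rw [← ValuationSubring.valuation_le_one_iff, map_div₀]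
  exact div_le_one_of_le₀ (hi₀ i (Finset.mem_univ i)) zero_le

/-- an element of a valuation ring whose inverse is not in the ring reduces to zero. -/
theorem residue_eq_zero_of_inv_notMem (V : ValuationSubring F) (a : F) (ha : a ∈ V)
    (h : a⁻¹ ∉ V) : IsLocalRing.residue V ⟨a, ha⟩ = 0 := by
  rw [IsLocalRing.residue_eq_zero_iff, IsLocalRing.mem_maximalIdeal, mem_nonunits_iff]
  intro hu
  obtain ⟨b, hb⟩ := hu.exists_right_inv
  apply h
  have h1 : a * (b : F) = 1 := by
    have := congrArg Subtype.val hb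
    simpa using this
  have h2 : a⁻¹ = (b : F) := by
    have ha0 : a ≠ 0 := by
      rintro rfl
      simp at h1
    field_simp
    exact h1.symm
  rw [h2]
  exact b.2

end Scale

variable {L F : Type*} [Field L] [Field F] [Algebra L F]
variable {O : ValuationSubring L} {h : F} {G : GoodVal O h} {x : F}
  {Kx : IntermediateField L F} {Kbar : IntermediateField (IsLocalRing.ResidueField O) G.κ}
  {n : ℕ}

section EvalV

/-- evaluation of a polynomial with coefficients in `O` at an element of `V`. -/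
def evalV (G : GoodVal O h) (a : G.V) (P : Polynomial O) : G.V := Polynomial.eval₂ G.incl a P

theorem coe_evalV (a : G.V) (P : Polynomial O) :
    ((evalV G a P : G.V) : F) = aeval (a : F) (P.map (algebraMap O L)) := by
  unfold evalV
  have h1 : ((Polynomial.eval₂ G.incl a P : G.V) : F)
      = G.V.subtype (Polynomial.eval₂ G.incl a P) := rfl
  rw [h1, Polynomial.hom_eval₂, Polynomial.aeval_def, Polynomial.eval₂_map]
  rfl

theorem algebraMap_residue (c : O) :
    algebraMap (IsLocalRing.ResidueField O) G.κ (IsLocalRing.residue O c)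
      = G.ρ (G.incl c) := rfl

theorem rho_evalV (a : G.V) (P : Polynomial O) :
    G.ρ (evalV G a P) = aeval (G.ρ a) (P.map (IsLocalRing.residue O)) := by
  unfold evalV
  rw [Polynomial.hom_eval₂, Polynomial.aeval_def, Polynomial.eval₂_map]
  rfl

theorem evalV_mem (hx : x ∈ G.V) (P : Polynomial O) :
    aeval x (P.map (algebraMap O L)) ∈ G.V := by
  have := coe_evalV (G := G) ⟨x, hx⟩ P
  rw [← this]
  exact Subtype.property _

theorem rho_aeval (hx : x ∈ G.V) (P : Polynomial O) :
    G.ρ ⟨aeval x (P.map (algebraMap O L)), evalV_mem hx P⟩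
      = aeval (G.ρ ⟨x, hx⟩) (P.map (IsLocalRing.residue O)) := by
  rw [← rho_evalV]
  congr 1
  apply Subtype.ext
  rw [coe_evalV]

/-- a polynomial over `L` with coefficients in `O` comes from `O[X]`. -/
theorem exists_map_eq (q : L[X]) (hq : ∀ i, q.coeff i ∈ O) :
    ∃ P : Polynomial O, P.map (algebraMap O L) = q := by
  have : q ∈ Polynomial.lifts (algebraMap O L) := by
    rw [Polynomial.lifts_iff_coeff_lifts]
    intro i
    exact ⟨⟨q.coeff i, hq i⟩, rfl⟩
  exact (Polynomial.mem_lifts q).1 this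

end EvalV

/-- the reduction of a local basis. -/
def LocalBasis.ebar {e : Fin n → F} {s : Polynomial O} (hLB : LocalBasis G x Kbar e s) :
    Fin n → G.κ := fun i => G.ρ ⟨e i, hLB.e_mem i⟩

/-- Key lemma: a `K(x)`-combination of the `e i` lying in the maximal ideal, with coefficients
in `V`, has all coefficients in the maximal ideal. -/
theorem LocalBasis.rho_coeff_eq_zero (hC : ChartVal G x Kx Kbar n) {e : Fin n → F}
    {s : Polynomial O} (hLB : LocalBasis G x Kbar e s) (d : Fin n → Kx)
    (hd : ∀ i, (d i : F) ∈ G.V) (hsum : ∑ i, (d i : F) * e i ∈ G.V)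
    (h0 : G.ρ ⟨_, hsum⟩ = 0) (i : Fin n) : G.ρ ⟨(d i : F), hd i⟩ = 0 := by
  have h1 : (⟨∑ i, (d i : F) * e i, hsum⟩ : G.V)
      = ∑ i, (⟨(d i : F), hd i⟩ : G.V) * ⟨e i, hLB.e_mem i⟩ := by
    apply Subtype.ext
    simp
  rw [h1, map_sum] at h0
  simp only [map_mul] at h0
  have h2 : ∑ i, (⟨G.ρ ⟨(d i : F), hd i⟩, hC.res_mem (d i) (hd i)⟩ : Kbar) •
      (fun i => G.ρ ⟨e i, hLB.e_mem i⟩) i = 0 := by
    rw [← h0]
    exact Finset.sum_congr rfl fun i _ => rfl
  have h3 := (Fintype.linearIndependent_iff.1 hLB.li_bar) _ h2 i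
  exact congrArg Subtype.val h3

/-- the local basis is linearly independent over `K(x)`. -/
theorem LocalBasis.linearIndependent (hC : ChartVal G x Kx Kbar n) {e : Fin n → F}
    {s : Polynomial O} (hLB : LocalBasis G x Kbar e s) : LinearIndependent Kx e := by
  rw [Fintype.linearIndependent_iff]
  intro c hc
  by_contra hcon
  push Not at hcon
  have hc0 : (fun i => (c i : F)) ≠ 0 := by
    obtain ⟨j, hj⟩ := hcon
    intro h
    exact hj (Subtype.ext (congrFun h j))
  obtain ⟨i₀, hi₀, hdiv⟩ := exists_scale G.V (fun i => (c i : F)) hc0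
  have hi₀' : c i₀ ≠ 0 := fun h => hi₀ (by simp [h])
  have hsum : ∑ i, ((c i / c i₀ : Kx) : F) * e i = 0 := by
    have h1 : ∑ i, ((c i / c i₀ : Kx) : F) * e i = (c i₀ : F)⁻¹ * ∑ i, c i • e i := by
      rw [Finset.mul_sum]
      refine Finset.sum_congr rfl fun i _ => ?_
      rw [Algebra.smul_def]
      push_cast
      simp only [IntermediateField.algebraMap_apply]
      ring
    rw [h1, hc, mul_zero]
  have hmem : ∑ i, ((c i / c i₀ : Kx) : F) * e i ∈ G.V := by
    rw [hsum]; exact zero_mem _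
  have hd : ∀ i, ((c i / c i₀ : Kx) : F) ∈ G.V := by
    intro i
    have := hdiv i
    push_cast
    exact this
  have h0 : G.ρ ⟨_, hmem⟩ = 0 := by
    have : (⟨_, hmem⟩ : G.V) = 0 := Subtype.ext hsum
    rw [this, map_zero]
  have h1 := hLB.rho_coeff_eq_zero hC (fun i => c i / c i₀) hd hmem h0 i₀
  have h2 : (⟨((c i₀ / c i₀ : Kx) : F), hd i₀⟩ : G.V) = 1 := by
    apply Subtype.ext
    simp [div_self hi₀']
  rw [h2, map_one] at h1
  exact one_ne_zero h1

/-- coordinates with respect to the local basis of elements of `V` lie in `V`. -/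
theorem LocalBasis.coeff_mem (hC : ChartVal G x Kx Kbar n) {e : Fin n → F}
    {s : Polynomial O} (hLB : LocalBasis G x Kbar e s) (d : Fin n → Kx)
    (hsum : ∑ i, (d i : F) * e i ∈ G.V) (i : Fin n) : (d i : F) ∈ G.V := by
  by_contra hcon
  have hc0 : (fun i => (d i : F)) ≠ 0 := by
    intro h
    apply hcon
    rw [congrFun h i]
    exact zero_mem _
  obtain ⟨i₀, hi₀, hdiv⟩ := exists_scale G.V (fun i => (d i : F)) hc0
  have hi₀' : d i₀ ≠ 0 := fun h => hi₀ (by simp [h])
  have hnot : (d i₀ : F) ∉ G.V := by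
    intro hmem
    apply hcon
    have h1 : (d i : F) = (d i : F) / (d i₀ : F) * (d i₀ : F) := by
      field_simp
    rw [h1]
    exact mul_mem (hdiv i) hmem
  have hinv : ((d i₀ : F))⁻¹ ∈ G.V := (G.V.mem_or_inv_mem _).resolve_left hnot
  have hinv0 : G.ρ ⟨_, hinv⟩ = 0 := by
    apply residue_eq_zero_of_inv_notMem
    rw [inv_inv]
    exact hnot
  have hsum' : ∑ i, ((d i / d i₀ : Kx) : F) * e i = (d i₀ : F)⁻¹ * ∑ i, (d i : F) * e i := by
    rw [Finset.mul_sum]
    refine Finset.sum_congr rfl fun i _ => ?_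
    push_cast
    ring
  have hmem : ∑ i, ((d i / d i₀ : Kx) : F) * e i ∈ G.V := by
    rw [hsum']; exact mul_mem hinv hsum
  have hd : ∀ i, ((d i / d i₀ : Kx) : F) ∈ G.V := by
    intro i
    have := hdiv i
    push_cast
    exact this
  have h0 : G.ρ ⟨_, hmem⟩ = 0 := by
    have : (⟨_, hmem⟩ : G.V) = ⟨_, hinv⟩ * ⟨_, hsum⟩ := Subtype.ext hsum'
    rw [this, map_mul, hinv0, zero_mul]
  have h1 := hLB.rho_coeff_eq_zero hC (fun i => d i / d i₀) hd hmem h0 i₀
  have h2 : (⟨((d i₀ / d i₀ : Kx) : F), hd i₀⟩ : G.V) = 1 := by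
    apply Subtype.ext
    simp [div_self hi₀']
  rw [h2, map_one] at h1
  exact one_ne_zero h1

/-- coordinates of an integral element of `V` with respect to the local basis: polynomials with
coefficients in `O`; and the reduction of the identity. -/
theorem LocalBasis.exists_coord (hC : ChartVal G x Kx Kbar n) {e : Fin n → F}
    {s : Polynomial O} (hLB : LocalBasis G x Kbar e s) (y : F) (hyV : y ∈ G.V)
    (hy : IsIntegral (Algebra.adjoin L {x}) y) :
    ∃ p : Fin n → Polynomial O,
      aeval x (s.map (algebraMap O L)) * y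
        = ∑ i, aeval x ((p i).map (algebraMap O L)) * e i ∧
      G.ρ ⟨y, hyV⟩ = ∑ i, aeval (G.ρ ⟨x, hC.x_mem⟩) ((p i).map (IsLocalRing.residue O))
        * hLB.ebar i := by
  obtain ⟨q, hq⟩ := hLB.span y hy
  have hxK : x ∈ Kx := by
    rw [hC.Kx_eq]; exact IntermediateField.mem_adjoin_simple_self L x
  let d : Fin n → Kx := fun i => aeval (⟨x, hxK⟩ : Kx) (q i)
  have hd : ∀ i, (d i : F) = aeval x (q i) := fun i => by
    simp only [d]
    rw [← IntermediateField.aeval_coe]
  have hsV : aeval x (s.map (algebraMap O L)) * y ∈ G.V :=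
    mul_mem (evalV_mem hC.x_mem s) hyV
  have hsum : ∑ i, (d i : F) * e i ∈ G.V := by
    simp only [hd]; rw [← hq]; exact hsV
  have hdV : ∀ i, aeval x (q i) ∈ G.V := fun i => by
    rw [← hd]; exact hLB.coeff_mem hC d hsum i
  have hcoeff : ∀ i, ∃ P : Polynomial O, P.map (algebraMap O L) = q i :=
    fun i => exists_map_eq (q i) (hC.gauss (q i) (hdV i))
  choose p hp using hcoeff
  refine ⟨p, ?_, ?_⟩
  · rw [hq]; simp only [hp]
  · have h1 : evalV G ⟨x, hC.x_mem⟩ s * ⟨y, hyV⟩
        = ∑ i, evalV G ⟨x, hC.x_mem⟩ (p i) * ⟨e i, hLB.e_mem i⟩ := by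
      apply Subtype.ext
      simp only [MulMemClass.coe_mul, coe_evalV, AddSubmonoidClass.coe_finsetSum]
      rw [hq]; simp only [hp]
    have h2 := congrArg G.ρ h1
    rw [map_mul, rho_evalV, hLB.s_res, map_sum] at h2
    simp only [map_mul, rho_evalV] at h2
    rw [Polynomial.aeval_one, one_mul] at h2
    exact h2

open IntermediateField algebraAdjoinAdjoin in
/-- the trace of an integral element of `V` is a polynomial in `x` with coefficients in `O`,
and reduces to the trace of the reduction. -/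
theorem ChartVal.exists_trace_poly (hC : ChartVal G x Kx Kbar n) (hn : n ≠ 0) (y : F)
    (hyV : y ∈ G.V) (hy : IsIntegral (Algebra.adjoin L {x}) y) :
    ∃ P : Polynomial O,
      ((Algebra.trace Kx F y : Kx) : F) = aeval x (P.map (algebraMap O L)) ∧
      ((Algebra.trace Kbar G.κ (G.ρ ⟨y, hyV⟩) : Kbar) : G.κ)
        = aeval (G.ρ ⟨x, hC.x_mem⟩) (P.map (IsLocalRing.residue O)) := by
  obtain ⟨ht, hρ⟩ := hC.trace ⟨y, hyV⟩
  have hKx := hC.Kx_eq
  subst hKx
  haveI : FiniteDimensional (adjoin L {x}) F :=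
    Module.finite_of_finrank_pos (by rw [hC.finrank_eq]; omega)
  have hint : IsIntegral (Algebra.adjoin L {x}) (Algebra.trace (adjoin L {x}) F y) :=
    Algebra.isIntegral_trace hy
  haveI := isPrincipalIdealRing_adjoin hC.x_transcendental
  obtain ⟨r, hr⟩ := (IsIntegrallyClosed.isIntegral_iff (R := Algebra.adjoin L {x})
    (K := adjoin L {x})).1 hint
  have key : ∀ r0 : F, r0 ∈ Algebra.adjoin L {x} → ∃ q : L[X], aeval x q = r0 := by
    intro r0 h0
    rw [Algebra.adjoin_singleton_eq_range_aeval] at h0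
    exact h0
  obtain ⟨q, hq⟩ := key r.1 r.2
  have htq : ((Algebra.trace (adjoin L {x}) F y : adjoin L {x}) : F) = aeval x q := by
    rw [hq, ← hr]; rfl
  have hqV : aeval x q ∈ G.V := by rw [← htq]; exact ht
  obtain ⟨P, hP⟩ := exists_map_eq q (hC.gauss q hqV)
  refine ⟨P, by rw [hP, htq], ?_⟩
  rw [← hρ, ← rho_aeval hC.x_mem P]
  congr 1
  apply Subtype.ext
  simp only [hP, htq]

/-- the Gram determinant of the local basis is a polynomial in `x` with coefficients in `O`, and
its reduction is the Gram determinant of the reduced basis. -/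
theorem LocalBasis.exists_gram (hC : ChartVal G x Kx Kbar n) (hn : n ≠ 0) {e : Fin n → F}
    {s : Polynomial O} (hLB : LocalBasis G x Kbar e s) :
    ∃ D₀ : Polynomial O,
      algebraMap Kx F (Algebra.discr Kx e) = aeval x (D₀.map (algebraMap O L)) ∧
      algebraMap Kbar G.κ (Algebra.discr Kbar hLB.ebar)
        = aeval (G.ρ ⟨x, hC.x_mem⟩) (D₀.map (IsLocalRing.residue O)) := by
  have hex : ∀ i j, ∃ P : Polynomial O,
      ((Algebra.trace Kx F (e i * e j) : Kx) : F) = aeval x (P.map (algebraMap O L)) ∧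
      ((Algebra.trace Kbar G.κ (G.ρ ⟨e i * e j, mul_mem (hLB.e_mem i) (hLB.e_mem j)⟩) : Kbar)
        : G.κ) = aeval (G.ρ ⟨x, hC.x_mem⟩) (P.map (IsLocalRing.residue O)) :=
    fun i j => hC.exists_trace_poly hn _ _ ((hLB.e_int i).mul (hLB.e_int j))
  choose P hP1 hP2 using hex
  refine ⟨Matrix.det (Matrix.of P), ?_, ?_⟩
  · have h1 : aeval x ((Matrix.det (Matrix.of P)).map (algebraMap O L))
        = ((aeval x : L[X] →ₐ[L] F).toRingHom.comp (Polynomial.mapRingHom (algebraMap O L)))
          (Matrix.det (Matrix.of P)) := rfl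
    rw [h1, RingHom.map_det, Algebra.discr_def, RingHom.map_det]
    congr 1
    ext i j
    simp only [RingHom.mapMatrix_apply, Matrix.map_apply, Algebra.traceMatrix_apply,
      Matrix.of_apply, Algebra.traceForm_apply]
    exact hP1 i j
  · have h1 : aeval (G.ρ ⟨x, hC.x_mem⟩) ((Matrix.det (Matrix.of P)).map (IsLocalRing.residue O))
        = ((aeval (G.ρ ⟨x, hC.x_mem⟩) : (IsLocalRing.ResidueField O)[X] →ₐ[_] G.κ).toRingHom.comp
          (Polynomial.mapRingHom (IsLocalRing.residue O))) (Matrix.det (Matrix.of P)) := rfl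
    rw [h1, RingHom.map_det, Algebra.discr_def, RingHom.map_det]
    congr 1
    ext i j
    simp only [RingHom.mapMatrix_apply, Matrix.map_apply, Algebra.traceMatrix_apply,
      Matrix.of_apply, Algebra.traceForm_apply]
    have h2 : hLB.ebar i * hLB.ebar j
        = G.ρ ⟨e i * e j, mul_mem (hLB.e_mem i) (hLB.e_mem j)⟩ := by
      unfold LocalBasis.ebar
      rw [← map_mul]
      rfl
    rw [h2]
    exact hP2 i j

/-- the reduced Gram determinant is not zero (separability of the residue extension). -/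
theorem LocalBasis.gram_res_ne_zero (hC : ChartVal G x Kx Kbar n) (hn : n ≠ 0) {e : Fin n → F}
    {s : Polynomial O} (hLB : LocalBasis G x Kbar e s) (D₀ : Polynomial O)
    (hD₀ : algebraMap Kbar G.κ (Algebra.discr Kbar hLB.ebar)
        = aeval (G.ρ ⟨x, hC.x_mem⟩) (D₀.map (IsLocalRing.residue O))) :
    D₀.map (IsLocalRing.residue O) ≠ 0 := by
  intro h0
  rw [h0, map_zero] at hD₀
  haveI := hC.sep
  haveI : Nonempty (Fin n) := ⟨⟨0, Nat.pos_of_ne_zero hn⟩⟩
  haveI : FiniteDimensional Kbar G.κ :=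
    Module.finite_of_finrank_pos (by rw [hC.finrank_bar]; omega)
  let b : Module.Basis (Fin n) Kbar G.κ :=
    basisOfLinearIndependentOfCardEqFinrank hLB.li_bar (by simp [hC.finrank_bar])
  have hb : ⇑b = hLB.ebar := coe_basisOfLinearIndependentOfCardEqFinrank _ _
  have h1 := Algebra.discr_not_zero_of_basis Kbar b
  rw [hb] at h1
  exact h1 ((map_eq_zero_iff _ (algebraMap Kbar G.κ).injective).1 hD₀)

end Fermat.Agent.S18.E1
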