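/-
S18, WP-E2: the abstract discriminant bound over a discrete valuation ring.

For two orders `A ⊆ B` which are free of the same rank `n` over a DVR `V` with algebraically closed
residue field, `ord disc A + ord disc B ≥ 2 (n - σ)` as soon as `A` has at most `σ` maximal ideals.
-/
import Mathlib

set_option autoImplicit false

namespace Fermat.Agent.S18.Disc

open IsLocalRing TensorProduct

section detlemma

variable {V : Type*} [CommRing V] [IsDomain V] [IsDiscreteValuationRing V]
  {κ : Type*} [Field κ]
  {ι : Type*} [Fintype ι] [DecidableEq ι]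

/-- For a surjection `φ` of a DVR onto a field, `φ a = 0` iff the uniformizer divides `a`. -/
theorem map_eq_zero_iff_dvd (φ : V →+* κ) (hφ : Function.Surjective φ) (ϖ : V)
    (hϖ : Irreducible ϖ) (a : V) : φ a = 0 ↔ ϖ ∣ a := by
  have h1 : (RingHom.ker φ).IsMaximal := RingHom.ker_isMaximal_of_surjective φ hφ
  have h2 : RingHom.ker φ = maximalIdeal V := IsLocalRing.eq_maximalIdeal h1
  rw [← RingHom.mem_ker, h2, hϖ.maximalIdeal_eq, Ideal.mem_span_singleton]

/-- A square matrix over a DVR whose reduction kills a subspace of dimension `≥ c` has determinant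
divisible by `ϖ ^ c`. -/
theorem pow_dvd_det_of_le_finrank (φ : V →+* κ) (hφ : Function.Surjective φ) (ϖ : V)
    (hϖ : Irreducible ϖ) :
    ∀ (c : ℕ) (M : Matrix ι ι V) (W : Submodule κ (ι → κ)),
      (∀ w ∈ W, (M.map φ).mulVec w = 0) →
      c ≤ Module.finrank κ W → ϖ ^ c ∣ M.det := by
  intro c
  induction c with
  | zero => intro M W _ _; simp
  | succ c ih =>
    intro M W hW hc
    -- a nonzero vector of `W`
    have hWne : W ≠ ⊥ := by
      rintro rfl
      simp at hc
    obtain ⟨vb, hvbW, hvb0⟩ := Submodule.exists_mem_ne_zero_of_ne_bot hWne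
    obtain ⟨i₀, hi₀⟩ : ∃ i₀, vb i₀ ≠ 0 := by
      by_contra hcon
      push Not at hcon
      exact hvb0 (funext hcon)
    -- lift it
    have hsurj : ∀ i, ∃ a : V, φ a = vb i := fun i => hφ (vb i)
    choose v hv using hsurj
    have hunit : IsUnit (v i₀) := by
      by_contra hnu
      have h1 : v i₀ ∈ maximalIdeal V := (IsLocalRing.mem_maximalIdeal _).mpr hnu
      rw [hϖ.maximalIdeal_eq, Ideal.mem_span_singleton] at h1
      have h2 := (map_eq_zero_iff_dvd φ hφ ϖ hϖ (v i₀)).mpr h1
      rw [hv] at h2
      exact hi₀ h2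
    -- `M v` is divisible by `ϖ`
    have hdiv : ∀ r, ∃ u : V, (M.mulVec v) r = ϖ * u := by
      intro r
      have h1 : φ ((M.mulVec v) r) = ((M.map φ).mulVec vb) r := by
        simp only [Matrix.mulVec, dotProduct, map_sum, map_mul, Matrix.map_apply, hv]
      rw [hW vb hvbW] at h1
      have h2 : ϖ ∣ (M.mulVec v) r := by
        rw [← map_eq_zero_iff_dvd φ hφ ϖ hϖ]
        simpa using h1
      exact h2
    choose u hu using hdiv
    -- determinant identity
    have hdet : v i₀ * M.det = ϖ * (M.updateCol i₀ u).det := by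
      have h1 : (M.updateCol i₀ (M.mulVec v)).det = v i₀ * M.det := by
        rw [← Matrix.cramer_apply, Matrix.cramer_eq_adjugate_mulVec, Matrix.mulVec_mulVec,
          Matrix.adjugate_mul, Matrix.smul_mulVec, Matrix.one_mulVec]
        simp [mul_comm]
      have h2 : M.mulVec v = ϖ • u := by
        funext r
        rw [hu r]
        rfl
      rw [← h1, h2, Matrix.det_updateCol_smul]
    -- induction hypothesis on the hyperplane section of `W`
    have hW' : ∀ w ∈ W ⊓ LinearMap.ker (LinearMap.proj (R := κ) i₀ :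
        (ι → κ) →ₗ[κ] κ),
        ((M.updateCol i₀ u).map φ).mulVec w = 0 := by
      intro w hw
      have hw0 : w i₀ = 0 := by
        have := hw.2
        simpa using this
      rw [← hW w hw.1]
      funext r
      simp only [Matrix.mulVec, dotProduct, Matrix.map_apply]
      refine Finset.sum_congr rfl fun j _ => ?_
      by_cases hj : j = i₀
      · subst hj
        rw [hw0, mul_zero, mul_zero]
      · rw [Matrix.updateCol_ne hj]
    have hdim : c ≤ Module.finrank (κ)
        ↥(W ⊓ LinearMap.ker (LinearMap.proj (R := κ) i₀ :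
          (ι → κ) →ₗ[κ] κ)) := by
      generalize hH : LinearMap.ker (LinearMap.proj (R := κ) i₀ :
          (ι → κ) →ₗ[κ] κ) = H
      have h6 : Module.finrank (κ) (ι → κ) = Fintype.card ι := by
        simp
      have h1 := Submodule.finrank_sup_add_finrank_inf_eq W H
      have h2 : Module.finrank (κ) ↥(W ⊔ H) ≤ Fintype.card ι := by
        have := Submodule.finrank_le (W ⊔ H)
        rw [h6] at this
        exact this
      have h3 : Module.finrank (κ) ↥H + 1 ≥ Fintype.card ι := by
        have h4 := LinearMap.finrank_range_add_finrank_ker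
          (LinearMap.proj (R := κ) i₀ :
            (ι → κ) →ₗ[κ] κ)
        have h5 : Module.finrank (κ) ↥(LinearMap.range
            (LinearMap.proj (R := κ) i₀ :
            (ι → κ) →ₗ[κ] κ)) ≤ 1 := by
          have := Submodule.finrank_le (LinearMap.range
            (LinearMap.proj (R := κ) i₀ :
            (ι → κ) →ₗ[κ] κ))
          rw [Module.finrank_self] at this
          exact this
        rw [h6, hH] at h4
        omega
      omega
    have hih := ih (M.updateCol i₀ u) _ hW' hdim
    have h3 : ϖ ^ (c + 1) ∣ v i₀ * M.det := by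
      rw [hdet, pow_succ']
      exact mul_dvd_mul_left ϖ hih
    exact (hunit.dvd_mul_left).mp h3

end detlemma

section reduction

variable {V : Type*} [CommRing V] {κ : Type*} [Field κ] [Algebra V κ]
  {B : Type*} [CommRing B] [Algebra V B]
  {ι : Type*} [Fintype ι] [DecidableEq ι]

/-- The nilradical of a `κ`-algebra as a `κ`-subspace. -/
noncomputable def nilSub (κ C : Type*) [Field κ] [CommRing C] [Algebra κ C] : Submodule κ C :=
  (nilradical C).restrictScalars κ

theorem mem_nilSub {C : Type*} [CommRing C] [Algebra κ C] (x : C) :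
    x ∈ nilSub κ C ↔ IsNilpotent x := by
  rw [nilSub, Submodule.restrictScalars_mem, mem_nilradical]

theorem lmul_tmul_eq_baseChange (y : B) :
    Algebra.lmul κ (κ ⊗[V] B) (1 ⊗ₜ y) = (Algebra.lmul V B y).baseChange κ := by
  ext x
  simp

theorem algebraMap_trace_eq (bB : Module.Basis ι V B) (y : B) :
    algebraMap V κ (Algebra.trace V B y) = Algebra.trace κ (κ ⊗[V] B) (1 ⊗ₜ y) := by
  haveI := Module.Free.of_basis bB
  haveI := Module.Finite.of_basis bB
  rw [Algebra.trace_apply, Algebra.trace_apply, lmul_tmul_eq_baseChange,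
    LinearMap.trace_baseChange]

theorem traceMatrix_map_mulVec (bB : Module.Basis ι V B) (x : κ ⊗[V] B) (i : ι) :
    ((Algebra.traceMatrix V bB).map (algebraMap V κ)).mulVec
        ((Algebra.TensorProduct.basis κ bB).equivFun x) i
      = Algebra.trace κ (κ ⊗[V] B) ((1 ⊗ₜ bB i) * x) := by
  conv_rhs => rw [← (Algebra.TensorProduct.basis κ bB).sum_equivFun x]
  simp only [Matrix.mulVec, dotProduct, Matrix.map_apply, Algebra.traceMatrix_apply,
    Algebra.traceForm_apply, Finset.mul_sum, map_sum, mul_smul_comm, map_smul,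
    Algebra.TensorProduct.basis_apply, Algebra.TensorProduct.tmul_mul_tmul, mul_one]
  refine Finset.sum_congr rfl fun j _ => ?_
  rw [algebraMap_trace_eq bB, smul_eq_mul, mul_comm]

/-- Tame bound: the discriminant of a free `V`-algebra is divisible by `ϖ ^ ν`, `ν` the dimension of
the nilradical of the reduction. -/
theorem pow_finrank_nilSub_dvd_discr [IsDomain V] [IsDiscreteValuationRing V]
    (hκ : Function.Surjective (algebraMap V κ)) (ϖ : V) (hϖ : Irreducible ϖ)
    (bB : Module.Basis ι V B) :
    ϖ ^ Module.finrank κ (nilSub κ (κ ⊗[V] B)) ∣ Algebra.discr V bB := by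
  rw [Algebra.discr_def]
  refine pow_dvd_det_of_le_finrank (algebraMap V κ) hκ ϖ hϖ _ _
    ((nilSub κ (κ ⊗[V] B)).map (Algebra.TensorProduct.basis κ bB).equivFun.toLinearMap) ?_ ?_
  · rintro w ⟨x, hx, rfl⟩
    funext i
    have h1 := traceMatrix_map_mulVec (κ := κ) bB x i
    rw [LinearEquiv.coe_coe, h1]
    have hnil : IsNilpotent ((1 ⊗ₜ bB i : κ ⊗[V] B) * x) :=
      (Commute.all _ _).isNilpotent_mul_left ((mem_nilSub x).mp hx)
    exact (Algebra.isNilpotent_trace_of_isNilpotent hnil).eq_zero
  · rw [LinearEquiv.finrank_map_eq]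

end reduction

section index

variable {V : Type*} [CommRing V]
  {κ : Type*} [Field κ] [Algebra V κ]
  {A B : Type*} [CommRing A] [CommRing B] [Algebra V A] [Algebra V B]
  {ι : Type*} [Fintype ι] [DecidableEq ι]

/-- The reduction of an algebra homomorphism. -/
noncomputable def redMap (κ : Type*) [Field κ] [Algebra V κ] (f : A →ₐ[V] B) :
    κ ⊗[V] A →ₐ[κ] κ ⊗[V] B :=
  Algebra.TensorProduct.map (AlgHom.id κ κ) f

theorem redMap_toLinearMap (f : A →ₐ[V] B) :
    (redMap κ f).toLinearMap = f.toLinearMap.baseChange κ := by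
  ext x
  simp [redMap]

theorem finrank_nilSub_le (bA : Module.Basis ι V A) (bB : Module.Basis ι V B) (f : A →ₐ[V] B) :
    Module.finrank κ (nilSub κ (κ ⊗[V] A)) ≤
      Module.finrank κ (LinearMap.ker (redMap κ f).toLinearMap) +
        Module.finrank κ (nilSub κ (κ ⊗[V] B)) := by
  haveI : Module.Finite κ (κ ⊗[V] A) := Module.Finite.of_basis (Algebra.TensorProduct.basis κ bA)
  haveI : Module.Finite κ (κ ⊗[V] B) := Module.Finite.of_basis (Algebra.TensorProduct.basis κ bB)
  have h1 : nilSub κ (κ ⊗[V] A) ≤ (nilSub κ (κ ⊗[V] B)).comap (redMap κ f).toLinearMap := by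
    intro x hx
    rw [Submodule.mem_comap, mem_nilSub]
    exact ((mem_nilSub x).mp hx).map (redMap κ f)
  have h2 := Submodule.finrank_mono h1
  have h3 := LinearMap.finrank_range_add_finrank_ker
    ((redMap κ f).toLinearMap.domRestrict
      ((nilSub κ (κ ⊗[V] B)).comap (redMap κ f).toLinearMap))
  have h4 : Module.finrank κ (LinearMap.range ((redMap κ f).toLinearMap.domRestrict
      ((nilSub κ (κ ⊗[V] B)).comap (redMap κ f).toLinearMap))) ≤
      Module.finrank κ (nilSub κ (κ ⊗[V] B)) := by
    apply Submodule.finrank_mono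
    rintro _ ⟨x, rfl⟩
    exact x.2
  have h5 : Module.finrank κ (LinearMap.ker ((redMap κ f).toLinearMap.domRestrict
      ((nilSub κ (κ ⊗[V] B)).comap (redMap κ f).toLinearMap))) ≤
      Module.finrank κ (LinearMap.ker (redMap κ f).toLinearMap) := by
    apply LinearMap.finrank_le_finrank_of_injective
      (f := LinearMap.codRestrict (LinearMap.ker (redMap κ f).toLinearMap)
        (((nilSub κ (κ ⊗[V] B)).comap (redMap κ f).toLinearMap).subtype ∘ₗ
          (LinearMap.ker ((redMap κ f).toLinearMap.domRestrict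
            ((nilSub κ (κ ⊗[V] B)).comap (redMap κ f).toLinearMap))).subtype)
        (fun x => x.2))
    intro x y hxy
    have := congrArg Subtype.val hxy
    exact Subtype.ext (Subtype.ext this)
  omega

/-- Index bound: the determinant of `f` is divisible by `ϖ ^ (ν(Ā) - ν(B̄))`. -/
theorem pow_dvd_det_toMatrix [IsDomain V] [IsDiscreteValuationRing V]
    (hκ : Function.Surjective (algebraMap V κ)) (ϖ : V) (hϖ : Irreducible ϖ)
    (bA : Module.Basis ι V A) (bB : Module.Basis ι V B) (f : A →ₐ[V] B) :
    ϖ ^ (Module.finrank κ (nilSub κ (κ ⊗[V] A)) - Module.finrank κ (nilSub κ (κ ⊗[V] B))) ∣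
      (LinearMap.toMatrix bA bB f.toLinearMap).det := by
  refine pow_dvd_det_of_le_finrank (algebraMap V κ) hκ ϖ hϖ _ _
    ((LinearMap.ker (redMap κ f).toLinearMap).map
      (Algebra.TensorProduct.basis κ bA).equivFun.toLinearMap) ?_ ?_
  · rintro w ⟨x, hx, rfl⟩
    rw [← LinearMap.toMatrix_baseChange, ← redMap_toLinearMap]
    have h1 := LinearMap.toMatrix_mulVec_repr (Algebra.TensorProduct.basis κ bA)
      (Algebra.TensorProduct.basis κ bB) (redMap κ f).toLinearMap x
    have hx' : (redMap κ f).toLinearMap x = 0 := hx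
    rw [hx'] at h1
    simpa using h1
  · rw [LinearEquiv.finrank_map_eq]
    have := finrank_nilSub_le (κ := κ) bA bB f
    omega

end index

section discr

variable {V : Type*} [CommRing V] [IsDomain V]
  {A B : Type*} [CommRing A] [CommRing B] [Algebra V A] [Algebra V B]
  {ι : Type*} [Fintype ι] [DecidableEq ι]

theorem det_toMatrix_ne_zero (bA : Module.Basis ι V A) (bB : Module.Basis ι V B) (f : A →ₐ[V] B)
    (hf : Function.Injective f) : (LinearMap.toMatrix bA bB f.toLinearMap).det ≠ 0 := by
  intro h0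
  obtain ⟨v, hv0, hv⟩ := (Matrix.exists_mulVec_eq_zero_iff).mpr h0
  have h1 := LinearMap.toMatrix_mulVec_repr bA bB f.toLinearMap (bA.equivFun.symm v)
  have h2 : (⇑(bA.repr (bA.equivFun.symm v)) : ι → V) = v :=
    bA.equivFun.apply_symm_apply v
  rw [h2, hv] at h1
  have h3 : bB.repr (f.toLinearMap (bA.equivFun.symm v)) = 0 := by
    ext i
    have := congrFun h1 i
    simpa using this.symm
  have h4 : f (bA.equivFun.symm v) = 0 := by
    have := bB.repr.map_eq_zero_iff.mp h3
    simpa using this
  have h5 : bA.equivFun.symm v = 0 := hf (by rw [h4, map_zero])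
  exact hv0 ((LinearEquiv.map_eq_zero_iff _).mp h5)

theorem trace_map_eq (bA : Module.Basis ι V A) (bB : Module.Basis ι V B) (f : A →ₐ[V] B)
    (hf : Function.Injective f) (x : A) : Algebra.trace V B (f x) = Algebra.trace V A x := by
  rw [Algebra.trace_eq_matrix_trace bB, Algebra.trace_eq_matrix_trace bA]
  have hcomm : LinearMap.toMatrix bA bB f.toLinearMap * Algebra.leftMulMatrix bA x =
      Algebra.leftMulMatrix bB (f x) * LinearMap.toMatrix bA bB f.toLinearMap := by
    rw [Algebra.leftMulMatrix_apply, Algebra.leftMulMatrix_apply, ← LinearMap.toMatrix_comp,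
      ← LinearMap.toMatrix_comp]
    congr 1
    ext a
    simp
  have hdet := det_toMatrix_ne_zero bA bB f hf
  apply mul_left_cancel₀ hdet
  calc (LinearMap.toMatrix bA bB f.toLinearMap).det * Matrix.trace (Algebra.leftMulMatrix bB (f x))
      = Matrix.trace ((LinearMap.toMatrix bA bB f.toLinearMap *
          (LinearMap.toMatrix bA bB f.toLinearMap).adjugate) *
            Algebra.leftMulMatrix bB (f x)) := by
        rw [Matrix.mul_adjugate, Matrix.smul_mul, Matrix.one_mul, Matrix.trace_smul, smul_eq_mul]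
    _ = Matrix.trace ((LinearMap.toMatrix bA bB f.toLinearMap).adjugate *
          (Algebra.leftMulMatrix bB (f x) * LinearMap.toMatrix bA bB f.toLinearMap)) := by
        rw [Matrix.mul_assoc, Matrix.trace_mul_comm, Matrix.mul_assoc]
    _ = Matrix.trace ((LinearMap.toMatrix bA bB f.toLinearMap).adjugate *
          (LinearMap.toMatrix bA bB f.toLinearMap * Algebra.leftMulMatrix bA x)) := by
        rw [hcomm]
    _ = (LinearMap.toMatrix bA bB f.toLinearMap).det *
          Matrix.trace (Algebra.leftMulMatrix bA x) := by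
        rw [← Matrix.mul_assoc, Matrix.adjugate_mul, Matrix.smul_mul, Matrix.one_mul,
          Matrix.trace_smul, smul_eq_mul]

/-- Index formula for discriminants. -/
theorem discr_eq_det_sq_mul (bA : Module.Basis ι V A) (bB : Module.Basis ι V B) (f : A →ₐ[V] B)
    (hf : Function.Injective f) :
    Algebra.discr V bA =
      (LinearMap.toMatrix bA bB f.toLinearMap).det ^ 2 * Algebra.discr V bB := by
  have h1 : Algebra.discr V bA = Algebra.discr V (fun i => f (bA i)) := by
    rw [Algebra.discr_def, Algebra.discr_def]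
    congr 1
    ext i j
    rw [Algebra.traceMatrix_apply, Algebra.traceMatrix_apply, Algebra.traceForm_apply,
      Algebra.traceForm_apply, ← trace_map_eq bA bB f hf, map_mul]
  have h2 : (fun i => f (bA i)) =
      Matrix.vecMul (⇑bB) ((LinearMap.toMatrix bA bB f.toLinearMap).map (algebraMap V B)) := by
    funext j
    simp only [Matrix.vecMul, dotProduct, Matrix.map_apply]
    have h3 := bB.sum_repr (f (bA j))
    rw [← h3]
    refine Finset.sum_congr rfl fun i _ => ?_
    rw [LinearMap.toMatrix_apply, Algebra.smul_def, mul_comm]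
    rfl
  rw [h1, h2, Algebra.discr_of_matrix_vecMul]

end discr

section points

variable {κ : Type*} [Field κ] [IsAlgClosed κ]

/-- For a finite-dimensional commutative algebra over an algebraically closed field, the dimension
is at most the dimension of the nilradical plus the number of points. -/
theorem finrank_le_finrank_nilSub_add_card (C : Type*) [CommRing C] [Algebra κ C]
    [Module.Finite κ C] :
    Module.finrank κ C ≤ Module.finrank κ (nilSub κ C) + Nat.card (C →ₐ[κ] κ) := by
  haveI : Finite (C →ₐ[κ] κ) := Finite.algHom κ C κ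
  haveI := Fintype.ofFinite (C →ₐ[κ] κ)
  let ev : C →ₗ[κ] ((C →ₐ[κ] κ) → κ) := LinearMap.pi (fun χ => χ.toLinearMap)
  have hker : LinearMap.ker ev = nilSub κ C := by
    ext x
    rw [LinearMap.mem_ker, mem_nilSub]
    constructor
    · intro hx
      by_contra hnil
      have h1 : x ∉ nilradical C := by rwa [mem_nilradical]
      rw [nilradical_eq_sInf, Ideal.mem_sInf] at h1
      push Not at h1
      obtain ⟨p, hp, hxp⟩ := h1
      haveI : p.IsPrime := hp
      have hbij := IsAlgClosed.algebraMap_bijective_of_isIntegral (k := κ) (K := C ⧸ p)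
      let e : κ ≃ₐ[κ] (C ⧸ p) := AlgEquiv.ofBijective (Algebra.ofId κ (C ⧸ p)) hbij
      let χ : C →ₐ[κ] κ := (e.symm : (C ⧸ p) →ₐ[κ] κ).comp (Ideal.Quotient.mkₐ κ p)
      have h2 : χ x = 0 := congrFun hx χ
      have h3 : Ideal.Quotient.mk p x = 0 := by
        have h4 : e.symm (Ideal.Quotient.mk p x) = 0 := h2
        exact (EmbeddingLike.map_eq_zero_iff (f := e.symm)).mp h4
      exact hxp (Ideal.Quotient.eq_zero_iff_mem.mp h3)
    · intro hx
      funext χ
      have h1 : IsNilpotent (χ x) := hx.map χ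
      exact h1.eq_zero
  have h1 := LinearMap.finrank_range_add_finrank_ker ev
  have h2 : Module.finrank κ (LinearMap.range ev) ≤ Nat.card (C →ₐ[κ] κ) := by
    have h3 := Submodule.finrank_le (LinearMap.range ev)
    rw [Module.finrank_fintype_fun_eq_card, ← Nat.card_eq_fintype_card] at h3
    exact h3
  rw [hker] at h1
  omega

variable {V : Type*} [CommRing V] [Algebra V κ]
  {A : Type*} [CommRing A] [Algebra V A]
  {ι : Type*} [Fintype ι] [DecidableEq ι]

theorem card_algHom_tensor_le (bA : Module.Basis ι V A) :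
    Nat.card (κ ⊗[V] A →ₐ[κ] κ) ≤ Nat.card (A →ₐ[V] κ) := by
  haveI := Module.Free.of_basis bA
  haveI := Module.Finite.of_basis bA
  haveI : Finite (A →ₐ[V] κ) := Finite.algHom V A κ
  apply Nat.card_le_card_of_injective
    (fun χ : κ ⊗[V] A →ₐ[κ] κ => (χ.restrictScalars V).comp Algebra.TensorProduct.includeRight)
  intro χ₁ χ₂ h
  apply Algebra.TensorProduct.ext'
  intro a b
  have h1 : (a ⊗ₜ[V] b : κ ⊗[V] A) = a • ((1 : κ) ⊗ₜ[V] b) := by
    rw [TensorProduct.smul_tmul', smul_eq_mul, mul_one]
  have h2 : χ₁ ((1 : κ) ⊗ₜ[V] b) = χ₂ ((1 : κ) ⊗ₜ[V] b) := congrArg (fun ψ : A →ₐ[V] κ => ψ b) h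
  rw [h1, map_smul, map_smul, h2]

end points

section main

variable {V : Type*} [CommRing V] [IsDomain V] [IsDiscreteValuationRing V]
  {κ : Type*} [Field κ] [IsAlgClosed κ] [Algebra V κ]
  {A B : Type*} [CommRing A] [CommRing B] [Algebra V A] [Algebra V B]
  {ι : Type*} [Fintype ι] [DecidableEq ι]

/-- **WP-E2** (abstract discriminant bound).  `V` a DVR with uniformizer `ϖ`, `κ` an algebraically
closed field with a surjection `V → κ`, `A → B` an injective homomorphism of `V`-algebras which are
free of the same finite rank `n`.  If `A` has at most `σ` points with values in `κ`, then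
`ord disc A + ord disc B ≥ 2 (n - σ)`. -/
theorem discr_mul_discr_dvd_of_card_algHom (bA : Module.Basis ι V A) (bB : Module.Basis ι V B)
    (f : A →ₐ[V] B) (hf : Function.Injective f) (ϖ : V) (hϖ : Irreducible ϖ)
    (hκ : Function.Surjective (algebraMap V κ)) (σ : ℕ) (hσ : Nat.card (A →ₐ[V] κ) ≤ σ) :
    ϖ ^ (2 * (Fintype.card ι - σ)) ∣ Algebra.discr V bA * Algebra.discr V bB := by
  have h1 : ϖ ^ Module.finrank κ (nilSub κ (κ ⊗[V] B)) ∣ Algebra.discr V bB :=
    pow_finrank_nilSub_dvd_discr hκ ϖ hϖ bB
  have h2 : ϖ ^ (Module.finrank κ (nilSub κ (κ ⊗[V] A)) -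
      Module.finrank κ (nilSub κ (κ ⊗[V] B))) ∣ (LinearMap.toMatrix bA bB f.toLinearMap).det :=
    pow_dvd_det_toMatrix hκ ϖ hϖ bA bB f
  have h3 := discr_eq_det_sq_mul bA bB f hf
  haveI : Module.Finite κ (κ ⊗[V] A) := Module.Finite.of_basis (Algebra.TensorProduct.basis κ bA)
  have h4 := finrank_le_finrank_nilSub_add_card (κ := κ) (κ ⊗[V] A)
  have h5 := card_algHom_tensor_le (κ := κ) bA
  have h6 : Module.finrank κ (κ ⊗[V] A) = Fintype.card ι :=
    Module.finrank_eq_card_basis (Algebra.TensorProduct.basis κ bA)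
  have h7 : Fintype.card ι - σ ≤ Module.finrank κ (nilSub κ (κ ⊗[V] A)) := by omega
  have h8 : ϖ ^ Module.finrank κ (nilSub κ (κ ⊗[V] A)) ∣
      (LinearMap.toMatrix bA bB f.toLinearMap).det * Algebra.discr V bB := by
    have h9 : ϖ ^ ((Module.finrank κ (nilSub κ (κ ⊗[V] A)) -
        Module.finrank κ (nilSub κ (κ ⊗[V] B))) + Module.finrank κ (nilSub κ (κ ⊗[V] B))) ∣
        (LinearMap.toMatrix bA bB f.toLinearMap).det * Algebra.discr V bB := by
      rw [pow_add]
      exact mul_dvd_mul h2 h1
    exact (pow_dvd_pow ϖ (by omega)).trans h9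
  have h10 : Algebra.discr V bA * Algebra.discr V bB =
      ((LinearMap.toMatrix bA bB f.toLinearMap).det * Algebra.discr V bB) ^ 2 := by
    rw [h3]
    ring
  rw [h10, pow_mul']
  exact pow_dvd_pow_of_dvd ((pow_dvd_pow ϖ h7).trans h8) 2

end main

end Fermat.Agent.S18.Disc
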