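/-
S18, WP-E1, Lemma III (helper8): the fibre of a (possibly non-normal) chart ring over a point.

Field-generic.  `k` algebraically closed, `κ / k(x̄)` finite separable of degree `n`,
`ε : Fin n → κ` a `k(x̄)`-basis whose `k[x̄]`-span is a ring (structure constants `a`, `u` in
`k[X]`) with Gram determinant `Dε(x̄)`.  If the fibre of that ring over `x̄ = b` has at most `σ`
points, then `2 (n - σ) ≤ ord_b Dε + a_b`, where `a_b = discOrd k x̄ b` is the local discriminant
order of the integral closure.

Proof: localize `k[X]` at `(X - b)` (a DVR `V`), compare the `V`-spans of `ε` and of a chart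
basis (two `V`-orders of rank `n`), and apply the abstract discriminant bound of WP-E2.
-/
import Mathlib
import Fermat.Agent.S18_Charts
import Fermat.Agent.S18_Disc

set_option autoImplicit false
set_option linter.style.haveILetI false
set_option linter.unusedSectionVars false

noncomputable section

open Polynomial

namespace Fermat.Agent.S18.E1.Fibre

section General

/-- the multiplication matrix under a semilinear ring homomorphism matching two bases -/
theorem leftMulMatrix_map_of_basis {R S A M : Type*} [CommRing R] [CommRing S] [CommRing A]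
    [CommRing M] [Algebra R A] [Algebra S M] {ι : Type*} [Fintype ι] [DecidableEq ι]
    (φ : R →+* S) (g : A →+* M) (hg : ∀ (r : R) (a : A), g (r • a) = φ r • g a)
    (bA : Module.Basis ι R A) (bM : Module.Basis ι S M) (hb : ∀ i, g (bA i) = bM i) (a : A)
    (i j : ι) :
    Algebra.leftMulMatrix bM (g a) i j = φ (Algebra.leftMulMatrix bA a i j) := by
  rw [Algebra.leftMulMatrix_eq_repr_mul, Algebra.leftMulMatrix_eq_repr_mul]
  have h1 : g a * bM j = ∑ i', φ (bA.repr (a * bA j) i') • bM i' := by
    rw [← hb j, ← map_mul]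
    conv_lhs => rw [← bA.sum_repr (a * bA j)]
    rw [map_sum]
    refine Finset.sum_congr rfl fun i' _ => ?_
    rw [hg, hb]
  rw [h1, bM.repr_sum_self]

/-- the trace under a semilinear ring homomorphism matching two bases -/
theorem trace_map_of_basis {R S A M : Type*} [CommRing R] [CommRing S] [CommRing A]
    [CommRing M] [Algebra R A] [Algebra S M] {ι : Type*} [Fintype ι] [DecidableEq ι]
    (φ : R →+* S) (g : A →+* M) (hg : ∀ (r : R) (a : A), g (r • a) = φ r • g a)
    (bA : Module.Basis ι R A) (bM : Module.Basis ι S M) (hb : ∀ i, g (bA i) = bM i) (a : A) :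
    Algebra.trace S M (g a) = φ (Algebra.trace R A a) := by
  rw [Algebra.trace_eq_matrix_trace bA a, Algebra.trace_eq_matrix_trace bM (g a), Matrix.trace,
    Matrix.trace, map_sum]
  refine Finset.sum_congr rfl fun i _ => ?_
  rw [Matrix.diag_apply, Matrix.diag_apply]
  exact leftMulMatrix_map_of_basis φ g hg bA bM hb a i i

/-- the discriminant under a semilinear ring homomorphism matching two bases -/
theorem discr_map_of_basis {R S A M : Type*} [CommRing R] [CommRing S] [CommRing A]
    [CommRing M] [Algebra R A] [Algebra S M] {ι : Type*} [Fintype ι] [DecidableEq ι]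
    (φ : R →+* S) (g : A →+* M) (hg : ∀ (r : R) (a : A), g (r • a) = φ r • g a)
    (bA : Module.Basis ι R A) (bM : Module.Basis ι S M) (hb : ∀ i, g (bA i) = bM i) :
    Algebra.discr S bM = φ (Algebra.discr R bA) := by
  rw [Algebra.discr_def, Algebra.discr_def, RingHom.map_det]
  congr 1
  ext i j
  rw [RingHom.mapMatrix_apply, Matrix.map_apply, Algebra.traceMatrix_apply,
    Algebra.traceMatrix_apply, Algebra.traceForm_apply, Algebra.traceForm_apply,
    ← trace_map_of_basis φ g hg bA bM hb, g.map_mul, hb, hb]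

end General

section Abstract

variable {V : Type*} [CommRing V] {κ : Type*} [Field κ] [Algebra V κ]

/-- the `V`-span of a family closed under multiplication, as a subalgebra -/
def spanAlg {n : ℕ} (ε : Fin n → κ)
    (hmul : ∀ i j, ε i * ε j ∈ Submodule.span V (Set.range ε))
    (hone : (1 : κ) ∈ Submodule.span V (Set.range ε)) : Subalgebra V κ :=
  (Submodule.span V (Set.range ε)).toSubalgebra hone (by
    intro x y hx hy
    have h1 : x * y ∈ Submodule.span V (Set.range ε) * Submodule.span V (Set.range ε) :=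
      Submodule.mul_mem_mul hx hy
    rw [Submodule.span_mul_span] at h1
    refine Submodule.span_le.2 ?_ h1
    rintro _ ⟨_, ⟨i, rfl⟩, _, ⟨j, rfl⟩, rfl⟩
    exact hmul i j)

theorem mem_spanAlg {n : ℕ} (ε : Fin n → κ)
    (hmul : ∀ i j, ε i * ε j ∈ Submodule.span V (Set.range ε))
    (hone : (1 : κ) ∈ Submodule.span V (Set.range ε)) (x : κ) :
    x ∈ spanAlg ε hmul hone ↔ x ∈ Submodule.span V (Set.range ε) := Iff.rfl

/-- the span as a module is the span as an algebra -/
def spanAlgEquiv {n : ℕ} (ε : Fin n → κ)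
    (hmul : ∀ i j, ε i * ε j ∈ Submodule.span V (Set.range ε))
    (hone : (1 : κ) ∈ Submodule.span V (Set.range ε)) :
    ↥(Submodule.span V (Set.range ε)) ≃ₗ[V] ↥(spanAlg ε hmul hone) where
  toFun x := ⟨x.1, x.2⟩
  invFun x := ⟨x.1, x.2⟩
  map_add' _ _ := rfl
  map_smul' _ _ := rfl
  left_inv _ := rfl
  right_inv _ := rfl

/-- the basis of the span algebra -/
def spanAlgBasis {n : ℕ} (ε : Fin n → κ) (hli : LinearIndependent V ε)
    (hmul : ∀ i j, ε i * ε j ∈ Submodule.span V (Set.range ε))
    (hone : (1 : κ) ∈ Submodule.span V (Set.range ε)) :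
    Module.Basis (Fin n) V ↥(spanAlg ε hmul hone) :=
  (Module.Basis.span hli).map (spanAlgEquiv ε hmul hone)

theorem coe_spanAlgBasis {n : ℕ} (ε : Fin n → κ) (hli : LinearIndependent V ε)
    (hmul : ∀ i j, ε i * ε j ∈ Submodule.span V (Set.range ε))
    (hone : (1 : κ) ∈ Submodule.span V (Set.range ε)) (i : Fin n) :
    ((spanAlgBasis ε hli hmul hone i : ↥(spanAlg ε hmul hone)) : κ) = ε i := by
  rw [spanAlgBasis, Module.Basis.map_apply, Module.Basis.span_apply]
  rfl

/-- points of the span algebra = solutions of the structure equations -/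
theorem card_algHom_spanAlg {k' : Type*} [Field k'] [Algebra V k'] {n : ℕ} (ε : Fin n → κ)
    (hli : LinearIndependent V ε)
    (aV : Fin n → Fin n → Fin n → V) (uV : Fin n → V)
    (hmul : ∀ i j, ε i * ε j = ∑ l, aV i j l • ε l) (hone : (1 : κ) = ∑ l, uV l • ε l)
    (hmul' : ∀ i j, ε i * ε j ∈ Submodule.span V (Set.range ε))
    (hone' : (1 : κ) ∈ Submodule.span V (Set.range ε)) :
    Nat.card (↥(spanAlg ε hmul' hone') →ₐ[V] k') =
      Nat.card {θ : Fin n → k' // (∀ i j, θ i * θ j = ∑ l, algebraMap V k' (aV i j l) * θ l) ∧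
        ∑ l, algebraMap V k' (uV l) * θ l = 1} := by
  set A := spanAlg ε hmul' hone' with hA
  set bA := spanAlgBasis ε hli hmul' hone' with hbA
  have hmulA : ∀ i j, bA i * bA j = ∑ l, aV i j l • bA l := by
    intro i j
    apply Subtype.ext
    rw [MulMemClass.coe_mul, AddSubmonoidClass.coe_finsetSum, coe_spanAlgBasis,
      coe_spanAlgBasis, hmul]
    refine Finset.sum_congr rfl fun l _ => ?_
    rw [Subalgebra.coe_smul, coe_spanAlgBasis]
  have honeA : (1 : A) = ∑ l, uV l • bA l := by
    apply Subtype.ext
    rw [AddSubmonoidClass.coe_finsetSum, OneMemClass.coe_one, hone]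
    refine Finset.sum_congr rfl fun l _ => ?_
    rw [Subalgebra.coe_smul, coe_spanAlgBasis]
  refine Nat.card_eq_of_bijective
    (fun φ => ⟨fun i => φ (bA i), fun i j => ?_, ?_⟩) ⟨?_, ?_⟩
  · rw [← map_mul, hmulA, map_sum]
    refine Finset.sum_congr rfl fun l _ => ?_
    rw [map_smul, Algebra.smul_def]
  · have h1 := congrArg φ honeA
    rw [map_one, map_sum] at h1
    rw [h1]
    refine Finset.sum_congr rfl fun l _ => ?_
    rw [map_smul, Algebra.smul_def]
  · intro φ₁ φ₂ h12
    apply AlgHom.toLinearMap_injective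
    apply bA.ext
    intro i
    have := congrFun (Subtype.ext_iff.1 h12) i
    exact this
  · rintro ⟨θ, hθ1, hθ2⟩
    set φ₀ : ↥A →ₗ[V] k' := bA.constr ℕ θ with hφ₀
    have hφb : ∀ i, φ₀ (bA i) = θ i := fun i => bA.constr_basis ℕ θ i
    have hφ1 : φ₀ 1 = 1 := by
      rw [honeA, map_sum, ← hθ2]
      refine Finset.sum_congr rfl fun l _ => ?_
      rw [map_smul, hφb, Algebra.smul_def]
    have hB : (LinearMap.mul V ↥A).compr₂ φ₀ = (LinearMap.mul V k').compl₁₂ φ₀ φ₀ := by
      apply LinearMap.ext_basis bA bA
      intro i j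
      rw [LinearMap.compr₂_apply, LinearMap.mul_apply', LinearMap.compl₁₂_apply,
        LinearMap.mul_apply', hφb, hφb, hθ1, hmulA, map_sum]
      refine Finset.sum_congr rfl fun l _ => ?_
      rw [map_smul, hφb, Algebra.smul_def]
    have hφmul : ∀ x y, φ₀ (x * y) = φ₀ x * φ₀ y := fun x y => LinearMap.congr_fun₂ hB x y
    refine ⟨AlgHom.ofLinearMap φ₀ hφ1 hφmul, ?_⟩
    apply Subtype.ext
    funext i
    exact hφb i

/-- the discriminant of the span algebra -/
theorem discr_spanAlg {F : Type*} [Field F] [Algebra F κ] [Algebra V F] [IsScalarTower V F κ]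
    [FiniteDimensional F κ]
    (hinj : Function.Injective (algebraMap V κ)) {n : ℕ} (hn : Module.finrank F κ = n)
    (ε : Fin n → κ) (hε : LinearIndependent F ε) (hli : LinearIndependent V ε)
    (hmul' : ∀ i j, ε i * ε j ∈ Submodule.span V (Set.range ε))
    (hone' : (1 : κ) ∈ Submodule.span V (Set.range ε)) (dε : V)
    (hdε : algebraMap V κ dε = algebraMap F κ (Algebra.discr F ε)) :
    Algebra.discr V (spanAlgBasis ε hli hmul' hone') = dε := by
  classical
  set bF := basisOfLinearIndependentOfCardEqFinrank' ε hε (by rw [Fintype.card_fin, hn])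
    with hbF
  have hbFε : (⇑bF : Fin n → κ) = ε := coe_basisOfLinearIndependentOfCardEqFinrank' ε hε _
  have h1 : Algebra.discr F bF =
      algebraMap V F (Algebra.discr V (spanAlgBasis ε hli hmul' hone')) := by
    refine discr_map_of_basis (algebraMap V F) (spanAlg ε hmul' hone').val.toRingHom
      (fun r a => ?_) (spanAlgBasis ε hli hmul' hone') bF (fun i => ?_)
    · show ((r • a : ↥(spanAlg ε hmul' hone')) : κ) = algebraMap V F r • (a : κ)
      rw [Subalgebra.coe_smul, algebraMap_smul]
    · show ((spanAlgBasis ε hli hmul' hone' i : ↥(spanAlg ε hmul' hone')) : κ) = bF i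
      rw [coe_spanAlgBasis, hbFε]
  apply hinj
  rw [hdε, IsScalarTower.algebraMap_apply V F κ, ← h1, hbFε]

/-- **abstract form of Lemma III** -/
theorem pow_dvd_of_card_solutions [IsDomain V] [IsDiscreteValuationRing V]
    {k' : Type*} [Field k'] [IsAlgClosed k'] [Algebra V k']
    {F : Type*} [Field F] [Algebra F κ] [Algebra V F] [IsScalarTower V F κ]
    [FiniteDimensional F κ]
    (hinj : Function.Injective (algebraMap V κ)) {n : ℕ}
    (ε e : Fin n → κ) (hε : LinearIndependent F ε) (he : LinearIndependent F e)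
    (hn : Module.finrank F κ = n)
    (aV : Fin n → Fin n → Fin n → V) (uV : Fin n → V)
    (hmul : ∀ i j, ε i * ε j = ∑ l, aV i j l • ε l) (hone : (1 : κ) = ∑ l, uV l • ε l)
    (hmulB : ∀ i j, e i * e j ∈ Submodule.span V (Set.range e))
    (honeB : (1 : κ) ∈ Submodule.span V (Set.range e))
    (hAB : ∀ i, ε i ∈ Submodule.span V (Set.range e))
    (dε de : V) (hdε : algebraMap V κ dε = algebraMap F κ (Algebra.discr F ε))
    (hde : algebraMap V κ de = algebraMap F κ (Algebra.discr F e))
    (ϖ : V) (hϖ : Irreducible ϖ) (hk' : Function.Surjective (algebraMap V k')) (σ : ℕ)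
    (hσ : Nat.card {θ : Fin n → k' //
        (∀ i j, θ i * θ j = ∑ l, algebraMap V k' (aV i j l) * θ l) ∧
        ∑ l, algebraMap V k' (uV l) * θ l = 1} ≤ σ) :
    ϖ ^ (2 * (n - σ)) ∣ dε * de := by
  classical
  have hinjF : Function.Injective (algebraMap V F) := by
    intro x y hxy
    apply hinj
    rw [IsScalarTower.algebraMap_apply V F κ, IsScalarTower.algebraMap_apply V F κ, hxy]
  haveI : FaithfulSMul V F := (faithfulSMul_iff_algebraMap_injective V F).2 hinjF
  have hεV : LinearIndependent V ε := hε.restrict_scalars' V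
  have heV : LinearIndependent V e := he.restrict_scalars' V
  have hmulA : ∀ i j, ε i * ε j ∈ Submodule.span V (Set.range ε) := fun i j => by
    rw [hmul]
    exact Submodule.sum_mem _ fun l _ =>
      Submodule.smul_mem _ _ (Submodule.subset_span ⟨l, rfl⟩)
  have honeA : (1 : κ) ∈ Submodule.span V (Set.range ε) := by
    rw [hone]
    exact Submodule.sum_mem _ fun l _ =>
      Submodule.smul_mem _ _ (Submodule.subset_span ⟨l, rfl⟩)
  have hle : spanAlg ε hmulA honeA ≤ spanAlg e hmulB honeB := by
    intro x hx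
    rw [mem_spanAlg] at hx ⊢
    exact Submodule.span_le.2 (by rintro _ ⟨i, rfl⟩; exact hAB i) hx
  have hcard := card_algHom_spanAlg (k' := k') ε hεV aV uV hmul hone hmulA honeA
  have key := Disc.discr_mul_discr_dvd_of_card_algHom (κ := k')
    (spanAlgBasis ε hεV hmulA honeA) (spanAlgBasis e heV hmulB honeB)
    (Subalgebra.inclusion hle) (Subalgebra.inclusion_injective hle) ϖ hϖ hk' σ
    (by rw [hcard]; exact hσ)
  rw [discr_spanAlg hinj hn ε hε hεV hmulA honeA dε hdε,
    discr_spanAlg hinj hn e he heV hmulB honeB de hde, Fintype.card_fin] at key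
  exact key

end Abstract

section Concrete

variable {k : Type*} [Field k]

/-- the ideal `(X - b)` of `k[X]` -/
def idealAt (b : k) : Ideal k[X] := Ideal.span {X - C b}

instance idealAt_isPrime (b : k) : (idealAt b).IsPrime :=
  (Ideal.span_singleton_prime (X_sub_C_ne_zero b)).2 (prime_X_sub_C b)

theorem idealAt_ne_bot (b : k) : idealAt b ≠ ⊥ := by
  rw [idealAt, Ne, Ideal.span_singleton_eq_bot]
  exact X_sub_C_ne_zero b

theorem mem_idealAt_iff (b : k) (p : k[X]) : p ∈ idealAt b ↔ p.eval b = 0 := by
  rw [idealAt, Ideal.mem_span_singleton, dvd_iff_isRoot]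
  rfl

/-- the local ring of the line at `b` -/
abbrev localAt (b : k) : Type _ := Localization.AtPrime (idealAt b)

instance localAt_isDomain (b : k) : IsDomain (localAt b) :=
  IsLocalization.isDomain_of_local_atPrime inferInstance

instance localAt_isDVR (b : k) : IsDiscreteValuationRing (localAt b) :=
  IsLocalization.AtPrime.isDiscreteValuationRing_of_dedekind_domain k[X] (idealAt_ne_bot b) _

theorem algebraMap_localAt_injective (b : k) :
    Function.Injective (algebraMap k[X] (localAt b)) :=
  IsLocalization.injective _ (idealAt b).primeCompl_le_nonZeroDivisors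

/-- the uniformizer `X - b` -/
theorem irreducible_localAt (b : k) : Irreducible (algebraMap k[X] (localAt b) (X - C b)) := by
  rw [IsDiscreteValuationRing.irreducible_iff_uniformizer,
    ← IsLocalization.AtPrime.map_eq_maximalIdeal (idealAt b) (localAt b)]
  show Ideal.map (algebraMap k[X] (localAt b)) (Ideal.span {X - C b}) = _
  rw [Ideal.map_span, Set.image_singleton]

/-- evaluation at `b` -/
def evalAt (b : k) : localAt b →+* k :=
  IsLocalization.lift (M := (idealAt b).primeCompl) (g := Polynomial.evalRingHom b) (by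
    rintro ⟨y, hy⟩
    have : y.eval b ≠ 0 := fun h0 => hy ((mem_idealAt_iff b y).2 h0)
    exact isUnit_iff_ne_zero.2 this)

@[simp] theorem evalAt_algebraMap (b : k) (p : k[X]) :
    evalAt b (algebraMap k[X] (localAt b) p) = p.eval b := by
  rw [evalAt, IsLocalization.lift_eq]
  rfl

theorem evalAt_surjective (b : k) : Function.Surjective (evalAt b) := fun c =>
  ⟨algebraMap k[X] (localAt b) (C c), by rw [evalAt_algebraMap, eval_C]⟩

/-- divisibility by a power of the uniformizer in the local ring, for polynomials -/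
theorem le_rootMultiplicity_of_pow_dvd (b : k) (m : ℕ) (g : k[X]) (hg : g ≠ 0)
    (hdvd : algebraMap k[X] (localAt b) (X - C b) ^ m ∣ algebraMap k[X] (localAt b) g) :
    m ≤ g.rootMultiplicity b := by
  obtain ⟨c, hc⟩ := hdvd
  obtain ⟨⟨p, s⟩, hps⟩ := IsLocalization.surj (idealAt b).primeCompl c
  have h1 : algebraMap k[X] (localAt b) (g * (s : k[X])) =
      algebraMap k[X] (localAt b) ((X - C b) ^ m * p) := by
    rw [map_mul, map_mul, hc, map_pow, mul_assoc]
    congr 1
  have h2 := algebraMap_localAt_injective b h1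
  have hs : (s : k[X]).eval b ≠ 0 := fun h0 => s.2 ((mem_idealAt_iff b _).2 h0)
  have hs0 : (s : k[X]) ≠ 0 := fun h0 => hs (by rw [h0, eval_zero])
  have h3 : m ≤ (g * (s : k[X])).rootMultiplicity b := by
    rw [Polynomial.le_rootMultiplicity_iff (mul_ne_zero hg hs0), h2]
    exact Dvd.intro _ rfl
  rw [Polynomial.rootMultiplicity_mul (mul_ne_zero hg hs0),
    Polynomial.rootMultiplicity_eq_zero (p := (s : k[X])) hs, add_zero] at h3
  exact h3

variable {κ : Type*} [Field κ] [Algebra k κ]

/-- the embedding of the local ring into `k(x̄)` -/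
def toAdjoin (xb : κ) (hx : Transcendental k xb) (b : k) :
    localAt b →+* ↥(IntermediateField.adjoin k {xb}) :=
  IsLocalization.lift (M := (idealAt b).primeCompl)
    (g := ((aeval (IntermediateField.AdjoinSimple.gen k xb) :
      k[X] →ₐ[k] ↥(IntermediateField.adjoin k {xb})) : k[X] →+* _)) (by
    rintro ⟨y, hy⟩
    have hy0 : y ≠ 0 := fun h0 => hy (h0 ▸ (idealAt b).zero_mem)
    apply isUnit_iff_ne_zero.2
    intro h0
    have h1 := congrArg (algebraMap ↥(IntermediateField.adjoin k {xb}) κ) h0
    rw [RingHom.coe_coe, Charts.coe_aeval_gen, map_zero] at h1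
    exact hy0 ((transcendental_iff.mp hx) y h1))

theorem toAdjoin_algebraMap (xb : κ) (hx : Transcendental k xb) (b : k) (p : k[X]) :
    algebraMap ↥(IntermediateField.adjoin k {xb}) κ
      (toAdjoin xb hx b (algebraMap k[X] (localAt b) p)) = aeval xb p := by
  rw [toAdjoin, IsLocalization.lift_eq, RingHom.coe_coe, Charts.coe_aeval_gen]

theorem toAdjoin_injective (xb : κ) (hx : Transcendental k xb) (b : k) :
    Function.Injective (toAdjoin xb hx b) := by
  rw [toAdjoin, IsLocalization.lift_injective_iff]
  intro p q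
  rw [(algebraMap_localAt_injective b).eq_iff]
  constructor
  · rintro rfl; rfl
  · intro h
    have h1 := congrArg (algebraMap ↥(IntermediateField.adjoin k {xb}) κ) h
    rw [RingHom.coe_coe, Charts.coe_aeval_gen, Charts.coe_aeval_gen] at h1
    have h2 := (transcendental_iff.mp hx) (p - q) (by rw [map_sub, h1, sub_self])
    exact sub_eq_zero.mp h2

/-- a family whose `k[x̄]`-span is a ring consists of integral elements -/
theorem isIntegral_of_structure {n : ℕ} (xb : κ) (ε : Fin n → κ)
    (a : Fin n → Fin n → Fin n → k[X]) (u : Fin n → k[X])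
    (hmul : ∀ i j, ε i * ε j = ∑ l, aeval xb (a i j l) * ε l)
    (hone : (1 : κ) = ∑ l, aeval xb (u l) * ε l) (i : Fin n) :
    IsIntegral (Algebra.adjoin k {xb}) (ε i) := by
  have hmem : ∀ (p : k[X]) (y : κ),
      y ∈ Submodule.span (Algebra.adjoin k {xb}) (Set.range ε) →
      aeval xb p * y ∈ Submodule.span (Algebra.adjoin k {xb}) (Set.range ε) := by
    intro p y hy
    have : aeval xb p * y =
        (⟨aeval xb p, (Charts.mem_adjoin_iff xb _).2 ⟨p, rfl⟩⟩ : Algebra.adjoin k {xb}) • y :=
      rfl
    rw [this]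
    exact Submodule.smul_mem _ _ hy
  refine isIntegral_of_smul_mem_submodule
    (Submodule.span (Algebra.adjoin k {xb}) (Set.range ε)) ?_
    (Submodule.fg_span (Set.finite_range _)) (ε i) ?_
  · intro hbot
    have h1 : (1 : κ) ∈ Submodule.span (Algebra.adjoin k {xb}) (Set.range ε) := by
      rw [hone]
      exact Submodule.sum_mem _ fun l _ => hmem _ _ (Submodule.subset_span ⟨l, rfl⟩)
    rw [hbot, Submodule.mem_bot] at h1
    exact one_ne_zero h1
  · intro z hz
    induction hz using Submodule.span_induction with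
    | mem y hy =>
      obtain ⟨j, rfl⟩ := hy
      rw [smul_eq_mul, hmul]
      exact Submodule.sum_mem _ fun l _ => hmem _ _ (Submodule.subset_span ⟨l, rfl⟩)
    | zero => rw [smul_zero]; exact Submodule.zero_mem _
    | add y z _ _ hy hz => rw [smul_add]; exact Submodule.add_mem _ hy hz
    | smul r y _ hy =>
      rw [smul_comm]
      exact Submodule.smul_mem _ _ hy

end Concrete

end Fermat.Agent.S18.E1.Fibre

namespace Fermat.Agent.S18.E1

open Fibre

/-- **Lemma III.** -/
theorem fibre_bound {k κ : Type*} [Field k] [IsAlgClosed k] [Field κ] [Algebra k κ]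
    (xb : κ) (hx : Transcendental k xb)
    [FiniteDimensional (IntermediateField.adjoin k {xb}) κ]
    [Algebra.IsSeparable (IntermediateField.adjoin k {xb}) κ]
    (ε : Fin (Module.finrank (IntermediateField.adjoin k {xb}) κ) → κ)
    (hli : LinearIndependent (IntermediateField.adjoin k {xb}) ε)
    (a : Fin (Module.finrank (IntermediateField.adjoin k {xb}) κ) →
      Fin (Module.finrank (IntermediateField.adjoin k {xb}) κ) →
      Fin (Module.finrank (IntermediateField.adjoin k {xb}) κ) → k[X])
    (u : Fin (Module.finrank (IntermediateField.adjoin k {xb}) κ) → k[X])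
    (hmul : ∀ i j, ε i * ε j = ∑ l, aeval xb (a i j l) * ε l)
    (hone : (1 : κ) = ∑ l, aeval xb (u l) * ε l)
    (Dε : k[X])
    (hD : algebraMap (IntermediateField.adjoin k {xb}) κ
      (Algebra.discr (IntermediateField.adjoin k {xb}) ε) = aeval xb Dε)
    (b : k) (σ : ℕ)
    (hσ : Nat.card {θ : Fin (Module.finrank (IntermediateField.adjoin k {xb}) κ) → k //
        (∀ i j, θ i * θ j = ∑ l, (a i j l).eval b * θ l) ∧ ∑ l, (u l).eval b * θ l = 1} ≤ σ) :
    2 * (Module.finrank (IntermediateField.adjoin k {xb}) κ - σ)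
      ≤ Dε.rootMultiplicity b + Charts.discOrd k xb b := by
  classical
  obtain ⟨e, D, hc⟩ := Charts.exists_isChart_aux xb hx
  rw [← hc.rootMultiplicity_eq hx b]
  -- the algebra structures
  letI algVF : Algebra (localAt b) ↥(IntermediateField.adjoin k {xb}) :=
    (toAdjoin xb hx b).toAlgebra
  letI algVκ : Algebra (localAt b) κ :=
    ((algebraMap ↥(IntermediateField.adjoin k {xb}) κ).comp (toAdjoin xb hx b)).toAlgebra
  haveI tower : IsScalarTower (localAt b) ↥(IntermediateField.adjoin k {xb}) κ :=
    IsScalarTower.of_algebraMap_eq (fun _ => rfl)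
  letI algVk : Algebra (localAt b) k := (evalAt b).toAlgebra
  have hinj : Function.Injective (algebraMap (localAt b) κ) :=
    (algebraMap ↥(IntermediateField.adjoin k {xb}) κ).injective.comp (toAdjoin_injective xb hx b)
  have hsm : ∀ (p : k[X]) (y : κ), algebraMap k[X] (localAt b) p • y = aeval xb p * y := by
    intro p y
    rw [Algebra.smul_def]
    congr 1
    exact toAdjoin_algebraMap xb hx b p
  have hmap : ∀ p : k[X], algebraMap (localAt b) κ (algebraMap k[X] (localAt b) p) =
      aeval xb p := fun p => toAdjoin_algebraMap xb hx b p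
  have hspan : ∀ y : κ, IsIntegral (Algebra.adjoin k {xb}) y →
      y ∈ Submodule.span (localAt b) (Set.range e) := by
    intro y hy
    obtain ⟨p, rfl⟩ := (hc.mem_iff y).1 hy
    refine Submodule.sum_mem _ fun l _ => ?_
    rw [← hsm]
    exact Submodule.smul_mem _ _ (Submodule.subset_span ⟨l, rfl⟩)
  -- the discriminant of `ε` is nonzero
  have hDε0 : Dε ≠ 0 := by
    rintro rfl
    rw [map_zero] at hD
    have h1 : Algebra.discr (IntermediateField.adjoin k {xb}) ε = 0 :=
      (algebraMap ↥(IntermediateField.adjoin k {xb}) κ).injective (by rw [hD, map_zero])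
    have h2 := Algebra.discr_not_zero_of_basis (IntermediateField.adjoin k {xb})
      (basisOfLinearIndependentOfCardEqFinrank' ε hli (by rw [Fintype.card_fin]))
    rw [coe_basisOfLinearIndependentOfCardEqFinrank'] at h2
    exact h2 h1
  have hσ' : Nat.card {θ : Fin (Module.finrank (IntermediateField.adjoin k {xb}) κ) → k //
      (∀ i j, θ i * θ j = ∑ l, algebraMap (localAt b) k
        (algebraMap k[X] (localAt b) (a i j l)) * θ l) ∧
      ∑ l, algebraMap (localAt b) k (algebraMap k[X] (localAt b) (u l)) * θ l = 1} ≤ σ := by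
    have hev : ∀ p : k[X], algebraMap (localAt b) k (algebraMap k[X] (localAt b) p) =
        p.eval b := fun p => evalAt_algebraMap b p
    simp only [hev]
    exact hσ
  have key := pow_dvd_of_card_solutions (V := localAt b) (k' := k)
    (F := ↥(IntermediateField.adjoin k {xb})) hinj ε e hli hc.linearIndependent rfl
    (fun i j l => algebraMap k[X] (localAt b) (a i j l))
    (fun l => algebraMap k[X] (localAt b) (u l))
    (fun i j => by rw [hmul]; exact Finset.sum_congr rfl fun l _ => (hsm _ _).symm)
    (by rw [hone]; exact Finset.sum_congr rfl fun l _ => (hsm _ _).symm)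
    (fun i j => hspan _ ((hc.isIntegral i).mul (hc.isIntegral j)))
    (hspan _ isIntegral_one)
    (fun i => hspan _ (isIntegral_of_structure xb ε a u hmul hone i))
    (algebraMap k[X] (localAt b) Dε) (algebraMap k[X] (localAt b) D)
    (by rw [hmap, hD]) (by rw [hmap, hc.discr_eq])
    (algebraMap k[X] (localAt b) (X - C b)) (irreducible_localAt b) (evalAt_surjective b) σ hσ'
  rw [← map_mul] at key
  have h3 := le_rootMultiplicity_of_pow_dvd b _ (Dε * D) (mul_ne_zero hDε0 hc.D_ne_zero) key
  rw [Polynomial.rootMultiplicity_mul (mul_ne_zero hDε0 hc.D_ne_zero)] at h3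
  exact h3

end Fermat.Agent.S18.E1
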