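import Mathlib
import Fermat.Agent.S24_Places

/-!
# S18, WP-E1: the fibre ring `R / (x - b)` of the integral closure `R` of `K[x]`

Field-generic.  If `e` is a family of integral elements which generates `R` after inverting a
polynomial `s` with `s(b) ≠ 0` and is linearly independent over `K(x)`, then the classes of the
`e i` form a `K`-basis of `R / (x - b)`; relations `s(x) y = ∑ p_i(x) e_i` specialise to
`s(b) ȳ = ∑ p_i(b) ē_i`.  The `K`-points of the fibre ring inject into the places over `x = b`.
-/

set_option autoImplicit false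
set_option warn.classDefReducibility false

noncomputable section

open AlgebraicCurve Fermat.Agent.S24 Fermat.Agent.S24.Places Polynomial

namespace Fermat.Agent.S18.E1

section Fibre

variable {K F : Type*} [Field K] [Field F] [Algebra K F]

/-- `x` as an element of the integral closure of `K[x]`. -/
def xR (K : Type*) {F : Type*} [Field K] [Field F] [Algebra K F] (x : F) :
    integralClosure (Algebra.adjoin K {x}) F :=
  ⟨x, isIntegral_algebraMap (x := (⟨x, Algebra.self_mem_adjoin_singleton K x⟩ :
    Algebra.adjoin K {x}))⟩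

theorem coe_aeval_xR (x : F) (p : K[X]) :
    ((aeval (xR K x) p : integralClosure (Algebra.adjoin K {x}) F) : F) = aeval x p :=
  (Polynomial.aeval_algHom_apply
    (((integralClosure (Algebra.adjoin K {x}) F).val).restrictScalars K) (xR K x) p).symm

/-- the fibre ring `R / (x - b)`. -/
def Fib (K : Type*) {F : Type*} [Field K] [Field F] [Algebra K F] (x : F) (b : K) : Type _ :=
  integralClosure (Algebra.adjoin K {x}) F ⧸ Ideal.span {xi K x b}

/-- the ring structure of the fibre ring (deliberately not instance-reducible, so that all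
derived structures are computed from this single atom). -/
def Fib.commRing (x : F) (b : K) : CommRing (Fib K x b) :=
  Ideal.Quotient.commRing (Ideal.span {xi K x b})

instance (x : F) (b : K) : CommRing (Fib K x b) := Fib.commRing x b

/-- the algebra structure of the fibre ring. -/
def Fib.algebra (x : F) (b : K) : Algebra K (Fib K x b) :=
  Ideal.Quotient.algebra K

instance (x : F) (b : K) : Algebra K (Fib K x b) := Fib.algebra x b

/-- the class in the fibre ring. -/
def fibMk (K : Type*) {F : Type*} [Field K] [Field F] [Algebra K F] (x : F) (b : K) :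
    integralClosure (Algebra.adjoin K {x}) F →+* Fib K x b :=
  Ideal.Quotient.mk (Ideal.span {xi K x b})

theorem fibMk_surjective (x : F) (b : K) : Function.Surjective (fibMk K x b) :=
  Ideal.Quotient.mk_surjective

theorem fibMk_eq_zero_iff (x : F) (b : K) (t : integralClosure (Algebra.adjoin K {x}) F) :
    fibMk K x b t = 0 ↔ t ∈ Ideal.span {xi K x b} :=
  Ideal.Quotient.eq_zero_iff_mem

theorem fibMk_algebraMap (x : F) (b : K) (c : K) :
    fibMk K x b (algebraMap K _ c) = algebraMap K (Fib K x b) c := rfl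

theorem xR_sub (x : F) (b : K) :
    xR K x - algebraMap K (integralClosure (Algebra.adjoin K {x}) F) b = xi K x b :=
  Subtype.ext rfl

/-- in the fibre ring a polynomial in `x` is its value at `b`. -/
theorem fibMk_aeval (x : F) (b : K) (p : K[X]) :
    fibMk K x b (aeval (xR K x) p) = algebraMap K (Fib K x b) (p.eval b) := by
  obtain ⟨q, hq⟩ := X_sub_C_dvd_sub_C_eval (a := b) (p := p)
  have h0 : p = C (p.eval b) + (X - C b) * q := by rw [← hq]; ring
  have h1 : aeval (xR K x) p
      = algebraMap K _ (p.eval b) + xi K x b * aeval (xR K x) q := by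
    conv_lhs => rw [h0]
    rw [map_add, aeval_C, map_mul, map_sub, aeval_X, aeval_C, xR_sub]
  have h2 : fibMk K x b (xi K x b) = 0 :=
    (fibMk_eq_zero_iff x b _).2 (Ideal.mem_span_singleton_self _)
  rw [h1, map_add, map_mul, h2, zero_mul, add_zero, fibMk_algebraMap]

variable {n : ℕ} {x : F} {e : Fin n → F} (he : ∀ i, IsIntegral (Algebra.adjoin K {x}) (e i))

/-- the classes of the `e i` in the fibre ring. -/
def fibVec (b : K) (he : ∀ i, IsIntegral (Algebra.adjoin K {x}) (e i)) : Fin n → Fib K x b :=
  fun i => fibMk K x b ⟨e i, he i⟩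

/-- a relation `s(x) y = ∑ p_i(x) e_i` specialises to the fibre. -/
theorem fib_rel (b : K) (sL : K[X]) (y : F) (hy : IsIntegral (Algebra.adjoin K {x}) y)
    (p : Fin n → K[X]) (hyp : aeval x sL * y = ∑ i, aeval x (p i) * e i) :
    sL.eval b • fibMk K x b ⟨y, hy⟩ = ∑ i, (p i).eval b • fibVec b he i := by
  have h1 : aeval (xR K x) sL * (⟨y, hy⟩ : integralClosure (Algebra.adjoin K {x}) F)
      = ∑ i, aeval (xR K x) (p i) * ⟨e i, he i⟩ := by
    apply Subtype.ext
    simp only [MulMemClass.coe_mul, coe_aeval_xR, AddSubmonoidClass.coe_finsetSum]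
    exact hyp
  have h2 := congrArg (fibMk K x b) h1
  rw [map_mul, map_sum, fibMk_aeval] at h2
  simp only [map_mul, fibMk_aeval] at h2
  rw [Algebra.smul_def, h2]
  refine Finset.sum_congr rfl fun i _ => ?_
  rw [Algebra.smul_def]
  rfl

variable (b : K) (sL : K[X]) (hs : sL.eval b ≠ 0)
  (hspan : ∀ y : F, IsIntegral (Algebra.adjoin K {x}) y →
    ∃ p : Fin n → K[X], aeval x sL * y = ∑ i, aeval x (p i) * e i)

include hs hspan in
theorem fib_span : ⊤ ≤ Submodule.span K (Set.range (fibVec b he)) := by
  intro d _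
  obtain ⟨⟨y, hy⟩, rfl⟩ := fibMk_surjective x b d
  obtain ⟨p, hp⟩ := hspan y hy
  have h1 := fib_rel he b sL y hy p hp
  have h2 : fibMk K x b ⟨y, hy⟩ = (sL.eval b)⁻¹ • ∑ i, (p i).eval b • fibVec b he i := by
    rw [← h1, smul_smul, inv_mul_cancel₀ hs, one_smul]
  change fibMk K x b ⟨y, hy⟩ ∈ _
  rw [h2]
  refine Submodule.smul_mem _ _ (Submodule.sum_mem _ fun i _ => Submodule.smul_mem _ _ ?_)
  exact Submodule.subset_span ⟨i, rfl⟩

include hs hspan in
theorem fib_li (Kx : IntermediateField K F) (hxK : x ∈ Kx) (hx : Transcendental K x)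
    (hli : LinearIndependent Kx e) : LinearIndependent K (fibVec b he) := by
  refine Fintype.linearIndependent_iff.2 fun c hc => ?_
  have h1 : fibMk K x b (∑ i, c i • (⟨e i, he i⟩ : integralClosure (Algebra.adjoin K {x}) F))
      = 0 := by
    rw [map_sum, ← hc]
    refine Finset.sum_congr rfl fun i _ => ?_
    rw [Algebra.smul_def, map_mul, Algebra.smul_def, fibMk_algebraMap]
    rfl
  rw [fibMk_eq_zero_iff, Ideal.mem_span_singleton'] at h1
  obtain ⟨t, ht⟩ := h1
  obtain ⟨p, hp⟩ := hspan t t.2
  have ht' : (t : F) * (x - algebraMap K F b) = ∑ i, algebraMap K F (c i) * e i := by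
    have := congrArg (Subtype.val) ht
    simp only [MulMemClass.coe_mul, coe_xi, AddSubmonoidClass.coe_finsetSum] at this
    rw [this]
    refine Finset.sum_congr rfl fun i _ => ?_
    rw [Algebra.smul_def]
    rfl
  -- the coefficients `s(x) c_i - (x - b) p_i(x)` vanish
  have hsum : ∑ i, (aeval (⟨x, hxK⟩ : Kx) (sL * C (c i) - (X - C b) * p i) : Kx) • e i = 0 := by
    have h3 : ∀ i, (aeval (⟨x, hxK⟩ : Kx) (sL * C (c i) - (X - C b) * p i) : Kx) • e i
        = aeval x sL * (algebraMap K F (c i) * e i)
          - (x - algebraMap K F b) * (aeval x (p i) * e i) := by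
      intro i
      rw [Algebra.smul_def, IntermediateField.algebraMap_apply, ← IntermediateField.aeval_coe]
      simp only [map_sub, map_mul, aeval_C, aeval_X]
      ring
    simp only [h3]
    rw [Finset.sum_sub_distrib, ← Finset.mul_sum, ← Finset.mul_sum, ← ht', ← hp]
    ring
  have h4 := (Fintype.linearIndependent_iff.1 hli) _ hsum
  intro i
  have h5 : aeval x (sL * C (c i) - (X - C b) * p i) = 0 := by
    have := congrArg (Subtype.val) (h4 i)
    rw [← IntermediateField.aeval_coe] at this
    simpa using this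
  have h6 : sL * C (c i) - (X - C b) * p i = 0 := by
    by_contra hne
    exact hx ⟨_, hne, h5⟩
  have h7 := congrArg (Polynomial.eval b) h6
  simp only [eval_sub, eval_mul, eval_C, eval_X, sub_self, zero_mul, sub_zero, eval_zero] at h7
  exact (mul_eq_zero.1 h7).resolve_left hs

/-- the basis of the fibre ring given by a local basis. -/
def fibBasis (Kx : IntermediateField K F) (hxK : x ∈ Kx) (hx : Transcendental K x)
    (hli : LinearIndependent Kx e) : Module.Basis (Fin n) K (Fib K x b) :=
  Module.Basis.mk (fib_li he b sL hs hspan Kx hxK hx hli) (fib_span he b sL hs hspan)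

theorem coe_fibBasis (Kx : IntermediateField K F) (hxK : x ∈ Kx) (hx : Transcendental K x)
    (hli : LinearIndependent Kx e) :
    ⇑(fibBasis he b sL hs hspan Kx hxK hx hli) = fibVec b he :=
  Module.Basis.coe_mk _ _

end Fibre

section Points

variable {K F : Type*} [Field K] [IsAlgClosed K] [CharZero K] [Field F] [Algebra K F]

/-- the `K`-points of the fibre ring inject into the places over `x = b`. -/
theorem card_algHom_fib_le {x : F} (hx : IsGenerator K x) (b : K) :
    Nat.card (Fib K x b →ₐ[K] K) ≤ Nat.card (PlacesAt K x b) := by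
  haveI := isDedekindDomain_intRing hx
  haveI := isFractionRing_intRing hx
  haveI : Finite (PlacesAt K x b) := (finite_placesAt hx b).to_subtype
  have hmem : ∀ ψ : Fib K x b →ₐ[K] K,
      xi K x b ∈ RingHom.ker (ψ.toRingHom.comp (fibMk K x b)) := by
    intro ψ
    rw [RingHom.mem_ker, RingHom.comp_apply]
    have h2 : fibMk K x b (xi K x b) = 0 :=
      (fibMk_eq_zero_iff x b _).2 (Ideal.mem_span_singleton_self _)
    rw [h2, map_zero]
  have hne : ∀ ψ : Fib K x b →ₐ[K] K, RingHom.ker (ψ.toRingHom.comp (fibMk K x b)) ≠ ⊥ := by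
    intro ψ hbot
    have := hmem ψ
    rw [hbot, Ideal.mem_bot] at this
    exact xi_ne_zero hx.1 b this
  let f : (Fib K x b →ₐ[K] K) → PlacesAt K x b := fun ψ =>
    ⟨Place.ofHeightOneSpectrum (K := K) (F := F)
      ⟨RingHom.ker (ψ.toRingHom.comp (fibMk K x b)), RingHom.ker_isPrime _, hne ψ⟩,
      (mem_placesAt_ofHeightOneSpectrum_iff hx.1 b _).mpr (hmem ψ)⟩
  refine Nat.card_le_card_of_injective f ?_
  intro ψ ψ' hψ
  have h1 := congrArg Subtype.val hψ
  have h2 := ofHeightOneSpectrum_injective (K := K) (F := F) h1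
  have h3 : RingHom.ker (ψ.toRingHom.comp (fibMk K x b))
      = RingHom.ker (ψ'.toRingHom.comp (fibMk K x b)) :=
    congrArg IsDedekindDomain.HeightOneSpectrum.asIdeal h2
  apply AlgHom.ext
  intro d
  obtain ⟨y, rfl⟩ := fibMk_surjective x b d
  have hcomm : ∀ (φ : Fib K x b →ₐ[K] K) (c : K),
      φ (fibMk K x b (algebraMap K _ c)) = c := by
    intro φ c
    rw [fibMk_algebraMap, AlgHom.commutes]
    rfl
  have h4 : y - algebraMap K _ (ψ (fibMk K x b y))
      ∈ RingHom.ker (ψ.toRingHom.comp (fibMk K x b)) := by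
    rw [RingHom.mem_ker, RingHom.comp_apply, map_sub]
    change ψ (fibMk K x b y - fibMk K x b (algebraMap K _ (ψ (fibMk K x b y)))) = 0
    rw [map_sub, hcomm, sub_self]
  rw [h3, RingHom.mem_ker, RingHom.comp_apply, map_sub] at h4
  change ψ' (fibMk K x b y - fibMk K x b (algebraMap K _ (ψ (fibMk K x b y)))) = 0 at h4
  rw [map_sub, hcomm, sub_eq_zero] at h4
  exact h4.symm

end Points

end Fermat.Agent.S18.E1
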