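/-
S18 moonshot, WP-E1 slice (E1-G) (helper9): residue points of an algebra given by structure
constants in a valuation ring.

`D` a finite `L`-algebra with a basis `β` whose structure constants lie in the valuation
subring `O` of the algebraically closed field `L`: the number of solutions `θ` of the reduced
structure equations over the residue field is at most the number of `L`-points of `D`.
(The `O`-span `C` of `β` is a finite free `O`-algebra, apply `card_algHom_residue_le`.)
-/
import Fermat.Agent.S18_ValRing

set_option autoImplicit false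
set_option linter.style.haveILetI false

namespace Fermat.Agent.S18.ValRing

variable {L : Type*} [Field L]

/-- a linear map out of an algebra with a basis is multiplicative as soon as it is on the
basis vectors -/
theorem map_mul_of_basis {R A B ι : Type*} [CommSemiring R] [Semiring A] [Algebra R A]
    [CommSemiring B] [Algebra R B] (b : Module.Basis ι R A) (f : A →ₗ[R] B)
    (h : ∀ i j, f (b i * b j) = f (b i) * f (b j)) (x y : A) : f (x * y) = f x * f y := by
  have key : (LinearMap.mul R A).compr₂ f = (LinearMap.mul R B).compl₁₂ f f := by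
    apply LinearMap.ext_basis b b
    intro i j
    simp [h]
  have := LinearMap.congr_fun₂ key x y
  simpa using this

/-- **(E1-G)** -/
theorem card_points_le [IsAlgClosed L] (O : ValuationSubring L) {D : Type*} [CommRing D]
    [Algebra L D] {n : ℕ} (β : Module.Basis (Fin n) L D)
    (c : Fin n → Fin n → Fin n → O) (u : Fin n → O)
    (hmul : ∀ i j, β i * β j = ∑ l, ((c i j l : O) : L) • β l)
    (hone : (1 : D) = ∑ l, ((u l : O) : L) • β l) :
    Finite (D →ₐ[L] L) ∧
      Nat.card {θ : Fin n → IsLocalRing.ResidueField O //
        (∀ i j, θ i * θ j = ∑ l, IsLocalRing.residue O (c i j l) * θ l) ∧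
          ∑ l, IsLocalRing.residue O (u l) * θ l = 1} ≤ Nat.card (D →ₐ[L] L) := by
  classical
  haveI : Module.Free L D := Module.Free.of_basis β
  haveI : Module.Finite L D := Module.Finite.of_basis β
  haveI hfinD : Finite (D →ₐ[L] L) := Finite.algHom L D L
  refine ⟨hfinD, ?_⟩
  letI algOD : Algebra O D := Algebra.compHom D (algebraMap O L)
  haveI : IsScalarTower O L D := IsScalarTower.of_algebraMap_eq (fun a => rfl)
  have hsmul : ∀ (a : O) (d : D), a • d = ((a : O) : L) • d := fun a d => rfl
  -- the `O`-span of the basis
  set p : Submodule O D := Submodule.span O (Set.range β) with hp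
  have hβp : ∀ i, β i ∈ p := fun i => Submodule.subset_span ⟨i, rfl⟩
  have h_one : (1 : D) ∈ p := by
    rw [hone]
    refine Submodule.sum_mem _ (fun l _ => ?_)
    rw [← hsmul]
    exact Submodule.smul_mem _ _ (hβp l)
  have h_mul : ∀ x y, x ∈ p → y ∈ p → x * y ∈ p := by
    intro x y hx hy
    induction hx, hy using Submodule.span_induction₂ with
    | mem_mem x y hx hy =>
      obtain ⟨i, rfl⟩ := hx
      obtain ⟨j, rfl⟩ := hy
      rw [hmul]
      refine Submodule.sum_mem _ (fun l _ => ?_)
      rw [← hsmul]
      exact Submodule.smul_mem _ _ (hβp l)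
    | zero_left y hy => rw [zero_mul]; exact Submodule.zero_mem _
    | zero_right x hx => rw [mul_zero]; exact Submodule.zero_mem _
    | add_left x y z _ _ _ hx hy => rw [add_mul]; exact Submodule.add_mem _ hx hy
    | add_right x y z _ _ _ hx hy => rw [mul_add]; exact Submodule.add_mem _ hx hy
    | smul_left r x y _ _ h => rw [smul_mul_assoc]; exact Submodule.smul_mem _ _ h
    | smul_right r x y _ _ h => rw [mul_smul_comm]; exact Submodule.smul_mem _ _ h
  let C : Subalgebra O D := p.toSubalgebra h_one h_mul
  have hli : LinearIndependent O β := by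
    refine β.linearIndependent.restrict_scalars ?_
    intro a b hab
    apply Subtype.ext
    have h1 : ((a : O) : L) * 1 = ((b : O) : L) * 1 := hab
    simpa using h1
  let bp : Module.Basis (Fin n) O p := Module.Basis.span hli
  let eC : p ≃ₗ[O] C :=
    (LinearEquiv.ofEq _ _ (Submodule.toSubalgebra_toSubmodule p h_one h_mul).symm).trans
      (Subalgebra.toSubmoduleEquiv C)
  let bC : Module.Basis (Fin n) O C := bp.map eC
  have hbC : ∀ i, ((bC i : C) : D) = β i := by
    intro i
    show ((eC (bp i) : C) : D) = β i
    have h1 : ((bp i : p) : D) = β i := congrArg Subtype.val (Module.Basis.span_apply hli i)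
    rw [← h1]
    rfl
  haveI : Module.Free O C := Module.Free.of_basis bC
  haveI : Module.Finite O C := Module.Finite.of_basis bC
  obtain ⟨-, hcard⟩ := card_algHom_residue_le O C
  haveI : Finite (C →ₐ[O] L) := Finite.algHom O C L
  haveI : Finite (C →ₐ[O] IsLocalRing.ResidueField O) := Finite.algHom O C _
  -- the structure equations in `C`
  have hCone : (1 : C) = ∑ l, u l • bC l := by
    apply Subtype.ext
    have h1 : ((∑ l, u l • bC l : C) : D) = ∑ l, u l • ((bC l : C) : D) := by
      rw [← C.val_apply, map_sum]
      rfl
    rw [h1]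
    simp only [hbC, hsmul]
    exact hone
  have hCmul : ∀ i j, bC i * bC j = ∑ l, c i j l • bC l := by
    intro i j
    apply Subtype.ext
    have h1 : ((∑ l, c i j l • bC l : C) : D) = ∑ l, c i j l • ((bC l : C) : D) := by
      rw [← C.val_apply, map_sum]
      rfl
    rw [h1]
    simp only [hbC, hsmul]
    show ((bC i : C) : D) * ((bC j : C) : D) = _
    rw [hbC, hbC]
    exact hmul i j
  have hresmul : ∀ (a : O) (t : IsLocalRing.ResidueField O), a • t = IsLocalRing.residue O a * t :=
    fun a t => by rw [Algebra.smul_def]; rfl
  -- step 1: solutions inject into residue points of `C`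
  have h1 : Nat.card {θ : Fin n → IsLocalRing.ResidueField O //
        (∀ i j, θ i * θ j = ∑ l, IsLocalRing.residue O (c i j l) * θ l) ∧
          ∑ l, IsLocalRing.residue O (u l) * θ l = 1} ≤
      Nat.card (C →ₐ[O] IsLocalRing.ResidueField O) := by
    refine Nat.card_le_card_of_injective (fun θ =>
      AlgHom.ofLinearMap (bC.constr O θ.1) ?_ ?_) ?_
    · rw [hCone, map_sum]
      simp only [map_smul, Module.Basis.constr_basis, hresmul]
      exact θ.2.2
    · refine map_mul_of_basis bC _ ?_
      intro i j
      rw [hCmul, map_sum]
      simp only [map_smul, Module.Basis.constr_basis, hresmul]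
      exact (θ.2.1 i j).symm
    · intro θ θ' h
      apply Subtype.ext
      funext i
      have h2 := congrArg (fun f : C →ₐ[O] IsLocalRing.ResidueField O => f (bC i)) h
      simpa [AlgHom.ofLinearMap_apply, Module.Basis.constr_basis] using h2
  -- step 2: `O`-points of `C` inject into `L`-points of `D`
  have h2 : Nat.card (C →ₐ[O] L) ≤ Nat.card (D →ₐ[L] L) := by
    have hψsmul : ∀ (ψ : C →ₐ[O] L) (a : O) (x : C), ψ (a • x) = ((a : O) : L) * ψ x := by
      intro ψ a x
      rw [map_smul]
      rfl
    refine Nat.card_le_card_of_injective (fun ψ =>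
      AlgHom.ofLinearMap (β.constr L (fun i => ψ (bC i))) ?_ ?_) ?_
    · rw [hone, map_sum]
      simp only [map_smul, Module.Basis.constr_basis, smul_eq_mul]
      have h3 : ψ 1 = ∑ l, ((u l : O) : L) * ψ (bC l) := by
        conv_lhs => rw [hCone]
        rw [map_sum]
        exact Finset.sum_congr rfl (fun l _ => hψsmul ψ _ _)
      rw [← h3, map_one]
    · refine map_mul_of_basis β _ ?_
      intro i j
      rw [hmul, map_sum]
      simp only [map_smul, Module.Basis.constr_basis, smul_eq_mul]
      have h3 : ψ (bC i * bC j) = ∑ l, ((c i j l : O) : L) * ψ (bC l) := by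
        rw [hCmul, map_sum]
        exact Finset.sum_congr rfl (fun l _ => hψsmul ψ _ _)
      rw [← h3, map_mul]
    · intro ψ ψ' h
      have h4 : ∀ i, ψ (bC i) = ψ' (bC i) := by
        intro i
        have h5 := congrArg (fun f : D →ₐ[L] L => f (β i)) h
        simpa [AlgHom.ofLinearMap_apply, Module.Basis.constr_basis] using h5
      have h6 : (ψ : C →ₗ[O] L) = (ψ' : C →ₗ[O] L) := bC.ext (fun i => h4 i)
      ext x
      exact LinearMap.congr_fun h6 x
  exact h1.trans (hcard.trans h2)

end Fermat.Agent.S18.ValRing
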