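import Mathlib
import Fermat.Agent.S18_E1Core
import Fermat.Agent.S18_E1Quot
import Fermat.Agent.S18_E1Fibre
import Fermat.Agent.S18_Charts
import Fermat.Agent.S18_ValPoints

/-!
# S18, WP-E1: the local discriminant bound `[E]` on a chart

`E_chart`: for a chart `x` with a local basis (`LocalBasis`) and the Gauss-valuation facts
(`ChartVal`), and a point `b` of the closed unit disc such that no other branch point reduces to
the same residue,
`2 n ≤ 2 #(places over x = b) + a_{b̄}(special fibre) + a_b(generic fibre)`.
-/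

set_option autoImplicit false
set_option maxHeartbeats 400000

noncomputable section

open AlgebraicCurve Fermat.Agent.S24 Fermat.Agent.S24.Places Polynomial IntermediateField

namespace Fermat.Agent.S18.E1

/-- `fibre_bound` for a family indexed by `Fin n`. -/
theorem fibre_bound' {k κ : Type*} [Field k] [IsAlgClosed k] [Field κ] [Algebra k κ]
    (xb : κ) (hx : Transcendental k xb)
    [FiniteDimensional (IntermediateField.adjoin k {xb}) κ]
    [Algebra.IsSeparable (IntermediateField.adjoin k {xb}) κ] {n : ℕ}
    (hn : Module.finrank (IntermediateField.adjoin k {xb}) κ = n)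
    (ε : Fin n → κ)
    (hli : LinearIndependent (IntermediateField.adjoin k {xb}) ε)
    (a : Fin n → Fin n → Fin n → k[X]) (u : Fin n → k[X])
    (hmul : ∀ i j, ε i * ε j = ∑ l, aeval xb (a i j l) * ε l)
    (hone : (1 : κ) = ∑ l, aeval xb (u l) * ε l)
    (Dε : k[X])
    (hD : algebraMap (IntermediateField.adjoin k {xb}) κ
      (Algebra.discr (IntermediateField.adjoin k {xb}) ε) = aeval xb Dε)
    (b : k) (σ : ℕ)
    (hσ : Nat.card {θ : Fin n → k //
        (∀ i j, θ i * θ j = ∑ l, (a i j l).eval b * θ l) ∧ ∑ l, (u l).eval b * θ l = 1} ≤ σ) :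
    2 * (n - σ) ≤ Dε.rootMultiplicity b + Charts.discOrd k xb b := by
  subst hn
  exact fibre_bound xb hx ε hli a u hmul hone Dε hD b σ hσ

/-- `Charts.rootMultiplicity_eq_discOrd_of_local` for a family indexed by `Fin n`. -/
theorem rootMultiplicity_eq_discOrd_of_local' {K E : Type*} [Field K] [Field E] [Algebra K E]
    {h : E} (hh : Transcendental K h)
    [FiniteDimensional (IntermediateField.adjoin K {h}) E]
    [Algebra.IsSeparable (IntermediateField.adjoin K {h}) E] (b : K) {n : ℕ}
    (hn : Module.finrank (IntermediateField.adjoin K {h}) E = n)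
    (ε : Fin n → E)
    (hε : ∀ i, IsIntegral (Algebra.adjoin K {h}) (ε i)) (Dε : K[X])
    (hDε : algebraMap (IntermediateField.adjoin K {h}) E
      (Algebra.discr (IntermediateField.adjoin K {h}) ε) = aeval h Dε)
    (hloc : ∀ x : E, IsIntegral (Algebra.adjoin K {h}) x → ∃ s : K[X], s.eval b ≠ 0 ∧
      ∃ p : Fin n → K[X], aeval h s * x = ∑ i, aeval h (p i) * ε i) :
    Dε.rootMultiplicity b = Charts.discOrd K h b := by
  subst hn
  exact Charts.rootMultiplicity_eq_discOrd_of_local hh b ε hε Dε hDε hloc

variable {L F : Type*} [Field L] [Field F] [Algebra L F]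

theorem eval_map_coe {O : ValuationSubring L} (P : Polynomial O) (b : O) :
    (P.map (algebraMap O L)).eval (b : L) = ((P.eval b : O) : L) := by
  rw [Polynomial.eval_map]
  exact Polynomial.eval₂_at_apply (algebraMap O L) b

theorem eval_map_residue {O : ValuationSubring L} (P : Polynomial O) (b : O) :
    (P.map (IsLocalRing.residue O)).eval (IsLocalRing.residue O b)
      = IsLocalRing.residue O (P.eval b) := by
  rw [Polynomial.eval_map]
  exact Polynomial.eval₂_at_apply (IsLocalRing.residue O) b

variable {O : ValuationSubring L} {h : F} {G : GoodVal O h} {x : F}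
  {Kbar : IntermediateField (IsLocalRing.ResidueField O) G.κ} {n : ℕ}

theorem LocalBasis.eval_ne_zero {e : Fin n → F} {s : Polynomial O}
    (hLB : LocalBasis G x Kbar e s) (c : O) : (s.map (algebraMap O L)).eval (c : L) ≠ 0 := by
  intro h0
  rw [eval_map_coe] at h0
  have h1 : s.eval c = 0 := Subtype.ext h0
  have h2 := eval_map_residue s c
  rw [hLB.s_res, Polynomial.eval_one, h1, map_zero] at h2
  exact one_ne_zero h2

/-- generic fibre: the Gram determinant computes the local discriminant order on the disc. -/
theorem LocalBasis.rootMultiplicity_eq_discOrd [CharZero L]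
    (hC : ChartVal G x (adjoin L {x}) Kbar n) (hn : 0 < n) {e : Fin n → F} {s : Polynomial O}
    (hLB : LocalBasis G x Kbar e s) (D₀ : Polynomial O)
    (hD₁ : algebraMap (adjoin L {x}) F (Algebra.discr (adjoin L {x}) e)
      = aeval x (D₀.map (algebraMap O L))) (c : O) :
    (D₀.map (algebraMap O L)).rootMultiplicity (c : L) = Charts.discOrd L x (c : L) := by
  haveI : FiniteDimensional (adjoin L {x}) F :=
    Module.finite_of_finrank_pos (by rw [hC.finrank_eq]; exact hn)
  haveI : CharZero (adjoin L {x}) :=
    charZero_of_injective_algebraMap (algebraMap L (adjoin L {x})).injective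
  refine rootMultiplicity_eq_discOrd_of_local' hC.x_transcendental (c : L) hC.finrank_eq e
    hLB.e_int _ hD₁ ?_
  intro y hy
  obtain ⟨p, hp⟩ := hLB.span y hy
  exact ⟨_, hLB.eval_ne_zero c, p, hp⟩

/-- roots of the reduction: if `b` is the only root of `D` in its residue disc, the order of
the reduction at `b̄` is the order of `D` at `b`. -/
theorem rootMultiplicity_residue_eq [IsAlgClosed L] (O : ValuationSubring L) (D₀ : Polynomial O)
    (hD₀ne : D₀.map (IsLocalRing.residue O) ≠ 0) (b : O)
    (hzero : ∀ c : O, c ≠ b → O.valuation ((c : L) - (b : L)) < 1 →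
      (D₀.map (algebraMap O L)).rootMultiplicity (c : L) = 0) :
    (D₀.map (IsLocalRing.residue O)).rootMultiplicity (IsLocalRing.residue O b)
      = (D₀.map (algebraMap O L)).rootMultiplicity (b : L) := by
  classical
  have hD₀L : D₀.map (algebraMap O L) ≠ 0 := by
    intro h0
    apply hD₀ne
    have h1 : D₀ = 0 := by
      apply Polynomial.map_injective (algebraMap O L) (Subtype.val_injective)
      rw [h0, Polynomial.map_zero]
    rw [h1, Polynomial.map_zero]
  rw [ValRing.rootMultiplicity_residue_eq_card O D₀ hD₀ne b, ← Polynomial.count_roots,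
    Multiset.count_eq_card_filter_eq]
  congr 1
  apply Multiset.filter_congr
  intro c hc
  constructor
  · intro hv
    by_contra hne
    have hcO : c ∈ O := by
      have h1 : c - (b : L) ∈ O := (O.valuation_le_one_iff _).1 hv.le
      have h2 := O.add_mem _ _ h1 b.2
      simpa using h2
    have h1 := hzero ⟨c, hcO⟩ (fun h => hne (by rw [← h])) hv
    have h3 : 0 < (D₀.map (algebraMap O L)).rootMultiplicity c :=
      (Polynomial.rootMultiplicity_pos hD₀L).2 (Polynomial.isRoot_of_mem_roots hc)
    have h4 : (D₀.map (algebraMap O L)).rootMultiplicity c = 0 := h1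
    omega
  · intro hbc
    rw [← hbc, sub_self, map_zero]
    exact zero_lt_one


/-- the solutions of the reduced structure equations at `b̄` are at most as many as the places
over `x = b`. -/
theorem LocalBasis.card_theta_le [IsAlgClosed L] [CharZero L]
    (hC : ChartVal G x (adjoin L {x}) Kbar n) (hn : 0 < n) {e : Fin n → F} {s : Polynomial O}
    (hLB : LocalBasis G x Kbar e s) (b : O)
    (a : Fin n → Fin n → Fin n → Polynomial O) (u : Fin n → Polynomial O)
    (ha1 : ∀ i j, aeval x (s.map (algebraMap O L)) * (e i * e j)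
        = ∑ l, aeval x ((a i j l).map (algebraMap O L)) * e l)
    (hu1 : aeval x (s.map (algebraMap O L)) * 1
        = ∑ l, aeval x ((u l).map (algebraMap O L)) * e l) :
    Nat.card {θ : Fin n → IsLocalRing.ResidueField O //
      (∀ i j, θ i * θ j = ∑ l, ((a i j l).map (IsLocalRing.residue O)).eval
        (IsLocalRing.residue O b) * θ l) ∧
      ∑ l, ((u l).map (IsLocalRing.residue O)).eval (IsLocalRing.residue O b) * θ l = 1}
        ≤ Nat.card (PlacesAt L x (b : L)) := by
  haveI : FiniteDimensional (adjoin L {x}) F :=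
    Module.finite_of_finrank_pos (by rw [hC.finrank_eq]; exact hn)
  have hgen : IsGenerator L x := ⟨hC.x_transcendental, inferInstance⟩
  -- the inverse of `s(b)`
  have hres_sb : IsLocalRing.residue O (s.eval b) = 1 := by
    rw [← eval_map_residue, hLB.s_res, Polynomial.eval_one]
  obtain ⟨sinv, hsinv⟩ : ∃ sinv : O, s.eval b * sinv = 1 := by
    have hu : IsUnit (s.eval b) := by
      by_contra hnu
      have : IsLocalRing.residue O (s.eval b) = 0 :=
        (IsLocalRing.residue_eq_zero_iff _).2 hnu
      rw [hres_sb] at this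
      exact one_ne_zero this
    exact hu.exists_right_inv
  have hres_sinv : IsLocalRing.residue O sinv = 1 := by
    have := congrArg (IsLocalRing.residue O) hsinv
    rw [map_mul, hres_sb, one_mul, map_one] at this
    exact this
  -- the fibre ring and its basis
  have hxK : x ∈ adjoin L {x} := mem_adjoin_simple_self L x
  have hli := hLB.linearIndependent hC
  let β : Module.Basis (Fin n) L (Fib L x (b : L)) :=
    fibBasis hLB.e_int (b : L) (s.map (algebraMap O L)) (hLB.eval_ne_zero b) hLB.span
      (adjoin L {x}) hxK hC.x_transcendental hli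
  have hβ : ∀ i, β i = fibVec (b : L) hLB.e_int i := fun i => by
    simp only [β]
    rw [coe_fibBasis]
  have key : ∀ (y : F) (hy : IsIntegral (Algebra.adjoin L {x}) y) (p : Fin n → Polynomial O),
      aeval x (s.map (algebraMap O L)) * y = ∑ l, aeval x ((p l).map (algebraMap O L)) * e l →
      fibMk L x (b : L) ⟨y, hy⟩ = ∑ l, (((p l).eval b * sinv : O) : L) • β l := by
    intro y hy p hp
    have h1 := fib_rel hLB.e_int (b : L) (s.map (algebraMap O L)) y hy
      (fun l => (p l).map (algebraMap O L)) hp
    have h2 : ((sinv : O) : L) * (s.map (algebraMap O L)).eval (b : L) = 1 := by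
      rw [eval_map_coe, mul_comm]
      have := congrArg Subtype.val hsinv
      simpa using this
    calc fibMk L x (b : L) ⟨y, hy⟩
        = (((sinv : O) : L) * (s.map (algebraMap O L)).eval (b : L))
            • fibMk L x (b : L) ⟨y, hy⟩ := by
          rw [h2, one_smul]
      _ = ((sinv : O) : L) • ∑ l, ((p l).map (algebraMap O L)).eval (b : L)
            • fibVec (b : L) hLB.e_int l := by
          rw [mul_smul, h1]
      _ = _ := by
          rw [Finset.smul_sum]
          refine Finset.sum_congr rfl fun l _ => ?_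
          rw [smul_smul, eval_map_coe, hβ]
          congr 1
          push_cast
          ring
  have hmulβ : ∀ i j, β i * β j = ∑ l, (((a i j l).eval b * sinv : O) : L) • β l := by
    intro i j
    have h1 : β i * β j
        = fibMk L x (b : L) ⟨e i * e j, (hLB.e_int i).mul (hLB.e_int j)⟩ := by
      rw [hβ, hβ]
      unfold fibVec
      rw [← map_mul]
      rfl
    rw [h1]
    exact key _ _ (a i j) (ha1 i j)
  have honeβ : (1 : Fib L x (b : L)) = ∑ l, (((u l).eval b * sinv : O) : L) • β l := by
    have h1 : (1 : Fib L x (b : L)) = fibMk L x (b : L) ⟨1, isIntegral_one⟩ := by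
      rw [← map_one (fibMk L x (b : L))]
      rfl
    rw [h1]
    exact key _ _ u hu1
  have hG := ValRing.card_points_le (D := Fib L x (b : L)) O β
    (fun i j l => (a i j l).eval b * sinv) (fun l => (u l).eval b * sinv) hmulβ honeβ
  obtain ⟨hfin, hcard⟩ := hG
  have h2 := card_algHom_fib_le hgen (b : L)
  refine le_trans ?_ h2
  simp only [eval_map_residue]
  simp only [map_mul, hres_sinv, mul_one] at hcard
  exact hcard

/-- **[E]** the local discriminant bound on a chart. -/
theorem E_chart [IsAlgClosed L] [CharZero L]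
    [IsAlgClosed (IsLocalRing.ResidueField O)]
    {Kx : IntermediateField L F}
    (hC : ChartVal G x Kx Kbar n) {e : Fin n → F} {s : Polynomial O}
    (hLB : LocalBasis G x Kbar e s) (b : O)
    (hunr : ∀ c : O, c ≠ b → O.valuation ((c : L) - (b : L)) < 1 →
      Charts.discOrd L x (c : L) = 0) :
    2 * n ≤ 2 * Nat.card (PlacesAt L x (b : L))
      + Charts.discOrd (IsLocalRing.ResidueField O) (G.ρ ⟨x, hC.x_mem⟩)
          (IsLocalRing.residue O b)
      + Charts.discOrd L x (b : L) := by
  rcases Nat.eq_zero_or_pos n with hn0 | hnpos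
  · omega
  have hn : n ≠ 0 := hnpos.ne'
  have hxV : x ∈ G.V := hC.x_mem
  obtain ⟨D₀, hD₁, hD₂⟩ := hLB.exists_gram hC hn
  have hD₀ne := hLB.gram_res_ne_zero hC hn D₀ hD₂
  have hKx := hC.Kx_eq
  have hKbar : Kbar = IntermediateField.adjoin (IsLocalRing.ResidueField O) {G.ρ ⟨x, hxV⟩} :=
    hC.Kbar_eq
  subst hKx
  subst hKbar
  have hxtr : Transcendental (IsLocalRing.ResidueField O) (G.ρ ⟨x, hxV⟩) :=
    hC.xbar_transcendental
  haveI : FiniteDimensional (adjoin (IsLocalRing.ResidueField O) {G.ρ ⟨x, hxV⟩}) G.κ :=
    Module.finite_of_finrank_pos (by rw [hC.finrank_bar]; exact hnpos)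
  haveI := hC.sep
  -- generic fibre
  have hL := fun c : O => hLB.rootMultiplicity_eq_discOrd hC hnpos D₀ hD₁ c
  have hroot : (D₀.map (IsLocalRing.residue O)).rootMultiplicity (IsLocalRing.residue O b)
      = Charts.discOrd L x (b : L) := by
    rw [← hL b]
    apply rootMultiplicity_residue_eq O D₀ hD₀ne b
    intro c hcb hv
    rw [hL c]
    exact hunr c hcb hv
  -- structure constants
  have hex : ∀ i j, ∃ p : Fin n → Polynomial O,
      aeval x (s.map (algebraMap O L)) * (e i * e j)
        = ∑ l, aeval x ((p l).map (algebraMap O L)) * e l ∧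
      G.ρ ⟨e i * e j, mul_mem (hLB.e_mem i) (hLB.e_mem j)⟩
        = ∑ l, aeval (G.ρ ⟨x, hxV⟩) ((p l).map (IsLocalRing.residue O)) * hLB.ebar l :=
    fun i j => hLB.exists_coord hC _ _ ((hLB.e_int i).mul (hLB.e_int j))
  choose a ha1 ha2 using hex
  obtain ⟨u, hu1, hu2⟩ := hLB.exists_coord hC 1 (one_mem _) isIntegral_one
  have hσ := hLB.card_theta_le hC hnpos b a u ha1 hu1
  -- special fibre
  have hmul' : ∀ i j, hLB.ebar i * hLB.ebar j
      = ∑ l, aeval (G.ρ ⟨x, hxV⟩) ((a i j l).map (IsLocalRing.residue O)) * hLB.ebar l := by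
    intro i j
    rw [← ha2 i j]
    unfold LocalBasis.ebar
    rw [← map_mul]
    rfl
  have hone' : (1 : G.κ)
      = ∑ l, aeval (G.ρ ⟨x, hxV⟩) ((u l).map (IsLocalRing.residue O)) * hLB.ebar l := by
    rw [← hu2]
    exact (map_one G.ρ).symm
  have h1 := fibre_bound' (G.ρ ⟨x, hxV⟩) hxtr hC.finrank_bar hLB.ebar hLB.li_bar
    (fun i j l => (a i j l).map (IsLocalRing.residue O))
    (fun l => (u l).map (IsLocalRing.residue O)) hmul' hone'
    (D₀.map (IsLocalRing.residue O)) hD₂ (IsLocalRing.residue O b) _ hσ
  rw [hroot] at h1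
  omega

end Fermat.Agent.S18.E1
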