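/-
S18, WP-B: lattices on the projective line and the `χ`-formula.

For a field `K`, a transcendental `h`, and two families `e`, `e'` related by a matrix in
`GL_n(K[h, h⁻¹])`, the space `(⊕ K[h] e_i) ∩ h^j (⊕ K[h⁻¹] e'_l)` has dimension `n (j + 1) + d` for
large `j`, where `det T = c h^d`.
-/
import Mathlib

set_option autoImplicit false

open Polynomial

namespace Fermat.Agent.S18.Lattice

section generic

/-- Rank–nullity for a subspace `W` that surjects onto the target of `π`. -/
theorem finrank_eq_add_of_sup_ker_eq_top {K M C : Type*} [Field K] [AddCommGroup M] [Module K M]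
    [AddCommGroup C] [Module K C] (π : M →ₗ[K] C) (hπ : Function.Surjective π)
    (W : Submodule K M) [FiniteDimensional K W] (hW : W ⊔ LinearMap.ker π = ⊤) :
    Module.finrank K W = Module.finrank K ↥(W ⊓ LinearMap.ker π) + Module.finrank K C := by
  have hsurj : Function.Surjective (π ∘ₗ W.subtype) := by
    intro y
    obtain ⟨x, rfl⟩ := hπ y
    have hx : x ∈ W ⊔ LinearMap.ker π := by rw [hW]; trivial
    obtain ⟨w, hw, k, hk, rfl⟩ := Submodule.mem_sup.mp hx
    refine ⟨⟨w, hw⟩, ?_⟩
    have hk' : π k = 0 := hk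
    simp [hk']
  have h1 := LinearMap.finrank_range_add_finrank_ker (π ∘ₗ W.subtype)
  have h2 : Module.finrank K (LinearMap.range (π ∘ₗ W.subtype)) = Module.finrank K C := by
    rw [LinearMap.range_eq_top.mpr hsurj, finrank_top]
  have h3 : Module.finrank K (LinearMap.ker (π ∘ₗ W.subtype)) =
      Module.finrank K ↥(W ⊓ LinearMap.ker π) := by
    rw [LinearMap.ker_comp, ← Submodule.map_comap_subtype]
    exact (Submodule.equivMapOfInjective W.subtype W.injective_subtype _).finrank_eq
  omega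

/-- For a linearly independent family, spans of images intersect in the span of the
intersection. -/
theorem span_image_inf_span_image {K M ι : Type*} [Field K] [AddCommGroup M] [Module K M]
    {v : ι → M} (hv : LinearIndependent K v) (s t : Set ι) :
    Submodule.span K (v '' s) ⊓ Submodule.span K (v '' t) = Submodule.span K (v '' (s ∩ t)) := by
  rw [Finsupp.span_image_eq_map_linearCombination, Finsupp.span_image_eq_map_linearCombination,
    Finsupp.span_image_eq_map_linearCombination, Finsupp.supported_inter,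
    Submodule.map_inf _ hv]

/-- The cokernel of a square polynomial matrix with nonzero determinant has dimension
`natDegree det`. -/
theorem finrank_quotient_range_mulVecLin {K : Type*} [Field K] {ι : Type*} [Fintype ι]
    [DecidableEq ι] (S : Matrix ι ι K[X]) (hS : S.det ≠ 0) :
    Module.Finite K ((ι → K[X]) ⧸ LinearMap.range S.mulVecLin) ∧
      Module.finrank K ((ι → K[X]) ⧸ LinearMap.range S.mulVecLin) = S.det.natDegree := by
  have hinj : Function.Injective S.mulVecLin := by
    rw [← LinearMap.ker_eq_bot, LinearMap.ker_eq_bot']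
    intro v hv
    by_contra hv0
    exact hS ((Matrix.exists_mulVec_eq_zero_iff).mp ⟨v, hv0, hv⟩)
  have hrank : Module.finrank K[X] (LinearMap.range S.mulVecLin) =
      Module.finrank K[X] (ι → K[X]) := LinearMap.finrank_range_of_inj hinj
  have ha : ∀ i, Submodule.smithNormalFormCoeffs (Pi.basisFun K[X] ι) hrank i ≠ 0 :=
    Submodule.smithNormalFormCoeffs_ne_zero (Pi.basisFun K[X] ι) hrank
  haveI : ∀ i, Module.Finite K (K[X] ⧸ Ideal.span
      ({Submodule.smithNormalFormCoeffs (Pi.basisFun K[X] ι) hrank i} : Set K[X])) :=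
    fun i => PowerBasis.finite (AdjoinRoot.powerBasis (ha i))
  have hfr := Submodule.finrank_quotient_eq_sum K (Pi.basisFun K[X] ι) hrank
  have hdeg : ∀ i, Module.finrank K (K[X] ⧸ Ideal.span
      ({Submodule.smithNormalFormCoeffs (Pi.basisFun K[X] ι) hrank i} : Set K[X])) =
      (Submodule.smithNormalFormCoeffs (Pi.basisFun K[X] ι) hrank i).natDegree :=
    fun i => (AdjoinRoot.powerBasis (ha i)).finrank.trans (AdjoinRoot.powerBasis_dim _)
  have hassoc : Associated S.det
      (∏ i, Submodule.smithNormalFormCoeffs (Pi.basisFun K[X] ι) hrank i) := by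
    have h1 : S.det = LinearMap.det (Matrix.toLin' S) := (LinearMap.det_toLin' S).symm
    have h2 : (∏ i, Submodule.smithNormalFormCoeffs (Pi.basisFun K[X] ι) hrank i) =
        LinearMap.det (Matrix.toLin (Submodule.smithNormalFormTopBasis (Pi.basisFun K[X] ι) hrank)
          (Submodule.smithNormalFormTopBasis (Pi.basisFun K[X] ι) hrank)
          (Matrix.diagonal (Submodule.smithNormalFormCoeffs (Pi.basisFun K[X] ι) hrank))) := by
      rw [LinearMap.det_toLin, Matrix.det_diagonal]
    rw [h1, h2]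
    refine LinearMap.associated_det_of_eq_comp
      ((LinearEquiv.ofInjective S.mulVecLin hinj).trans
        ((Submodule.smithNormalFormBotBasis (Pi.basisFun K[X] ι) hrank).equiv
          (Submodule.smithNormalFormTopBasis (Pi.basisFun K[X] ι) hrank) (Equiv.refl ι))) _ _ ?_
    intro x
    have key : (Matrix.toLin (Submodule.smithNormalFormTopBasis (Pi.basisFun K[X] ι) hrank)
        (Submodule.smithNormalFormTopBasis (Pi.basisFun K[X] ι) hrank)
        (Matrix.diagonal (Submodule.smithNormalFormCoeffs (Pi.basisFun K[X] ι) hrank))) ∘ₗ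
        ((Submodule.smithNormalFormBotBasis (Pi.basisFun K[X] ι) hrank).equiv
          (Submodule.smithNormalFormTopBasis (Pi.basisFun K[X] ι) hrank)
          (Equiv.refl ι)).toLinearMap = (LinearMap.range S.mulVecLin).subtype := by
      refine (Submodule.smithNormalFormBotBasis (Pi.basisFun K[X] ι) hrank).ext fun i => ?_
      rw [LinearMap.comp_apply, LinearEquiv.coe_coe, Module.Basis.equiv_apply, Equiv.refl_apply,
        Matrix.toLin_self, Submodule.subtype_apply, Submodule.smithNormalFormBotBasis_def]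
      simp [Matrix.diagonal_apply]
    have := congrArg (fun g => g (LinearEquiv.ofInjective S.mulVecLin hinj x)) key
    simp only [LinearMap.comp_apply, LinearEquiv.coe_coe, Submodule.subtype_apply,
      LinearEquiv.ofInjective_apply] at this
    rw [LinearEquiv.trans_apply, this]
    rfl
  refine ⟨?_, ?_⟩
  · exact Module.Finite.equiv
      (((LinearMap.range S.mulVecLin).quotientEquivPiSpan (Pi.basisFun K[X] ι)
        hrank).restrictScalars K).symm
  · rw [hfr]
    simp_rw [hdeg]
    rw [natDegree_eq_of_degree_eq (degree_eq_degree_of_associated hassoc),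
      natDegree_prod _ _ (fun i _ => ha i)]

end generic

section lin

variable {K F E : Type*} [Field K] [Field F] [Algebra K F] [AddCommGroup E] [Module K E]
  [Module F E] [IsScalarTower K F E]

/-- The `K[h]`-lattice spanned by `e` (as a `K`-subspace): all `∑ pᵢ(h) • eᵢ`. -/
def latZero (K : Type*) [Field K] [Algebra K F] [Module K E] (h : F) {ι : Type*} (e : ι → E) :
    Submodule K E :=
  Submodule.span K (Set.range fun p : ℕ × ι => (h ^ p.1) • e p.2)

/-- `h ^ j` times the `K[h⁻¹]`-lattice spanned by `e` (as a `K`-subspace):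
all `∑ h ^ j * pᵢ(h⁻¹) • eᵢ`. -/
def latInf (K : Type*) [Field K] [Algebra K F] [Module K E] (h : F) {ι : Type*} (e : ι → E)
    (j : ℤ) : Submodule K E :=
  Submodule.span K (Set.range fun p : ℕ × ι => (h ^ (j - (p.1 : ℤ))) • e p.2)

/-- The `K`-linear map `p ↦ ∑ i, μ (p i) • e i`. -/
noncomputable def lin {ι : Type*} [Fintype ι] (μ : K[X] →ₗ[K] F) (e : ι → E) :
    (ι → K[X]) →ₗ[K] E where
  toFun p := ∑ i, μ (p i) • e i
  map_add' p q := by simp [add_smul, Finset.sum_add_distrib]
  map_smul' c p := by simp [Finset.smul_sum, smul_assoc]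

theorem lin_apply {ι : Type*} [Fintype ι] (μ : K[X] →ₗ[K] F) (e : ι → E) (p : ι → K[X]) :
    lin μ e p = ∑ i, μ (p i) • e i := rfl

theorem range_lin {ι : Type*} [Fintype ι] (μ : K[X] →ₗ[K] F) (e : ι → E) :
    LinearMap.range (lin μ e) =
      Submodule.span K (Set.range fun p : ℕ × ι => μ (X ^ p.1) • e p.2) := by
  classical
  apply le_antisymm
  · rintro _ ⟨p, rfl⟩
    rw [lin_apply]
    refine Submodule.sum_mem _ fun i _ => ?_
    induction p i using Polynomial.induction_on' with
    | add q r hq hr =>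
      rw [map_add, add_smul]
      exact Submodule.add_mem _ hq hr
    | monomial n a =>
      have h1 : (monomial n a : K[X]) = a • X ^ n := by
        rw [← C_mul_X_pow_eq_monomial, smul_eq_C_mul]
      rw [h1, map_smul, smul_assoc]
      exact Submodule.smul_mem _ _ (Submodule.subset_span ⟨(n, i), rfl⟩)
  · rw [Submodule.span_le]
    rintro _ ⟨⟨n, i⟩, rfl⟩
    refine ⟨Pi.single i (X ^ n), ?_⟩
    rw [lin_apply, Finset.sum_eq_single i]
    · simp
    · intro j _ hj
      simp [Pi.single_eq_of_ne hj]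
    · simp

theorem lin_injective {ι : Type*} [Fintype ι] (μ : K[X] →ₗ[K] F) (hμ : Function.Injective μ)
    (e : ι → E) (he : LinearIndependent F e) : Function.Injective (lin μ e) := by
  rw [← LinearMap.ker_eq_bot, LinearMap.ker_eq_bot']
  intro p hp
  have h1 : ∑ i, μ (p i) • e i = 0 := hp
  have h2 := Fintype.linearIndependent_iff.mp he (fun i => μ (p i)) h1
  funext i
  exact hμ (by rw [h2 i, Pi.zero_apply, map_zero])

/-- The linear map `p ↦ h ^ j * p(h⁻¹)`. -/
noncomputable def muInf (K : Type*) [Field K] [Algebra K F] (h : F) (j : ℤ) : K[X] →ₗ[K] F :=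
  (LinearMap.mulLeft K (h ^ j)) ∘ₗ (aeval (R := K) h⁻¹).toLinearMap

theorem muInf_apply (h : F) (j : ℤ) (p : K[X]) : muInf K h j p = h ^ j * aeval h⁻¹ p := rfl

theorem muInf_X_pow (h : F) (hh : h ≠ 0) (j : ℤ) (t : ℕ) :
    muInf K h j (X ^ t) = h ^ (j - (t : ℤ)) := by
  rw [muInf_apply, map_pow, aeval_X, zpow_sub₀ hh, zpow_natCast, inv_pow, div_eq_mul_inv]

theorem latZero_eq_range {ι : Type*} [Fintype ι] (h : F) (e : ι → E) :
    latZero K h e = LinearMap.range (lin (aeval (R := K) h).toLinearMap e) := by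
  rw [range_lin, latZero]
  simp

theorem latInf_eq_range {ι : Type*} [Fintype ι] (h : F) (hh : h ≠ 0) (e : ι → E) (j : ℤ) :
    latInf K h e j = LinearMap.range (lin (muInf K h j) e) := by
  rw [range_lin, latInf]
  simp_rw [muInf_X_pow h hh]

theorem mem_latZero_iff {ι : Type*} [Fintype ι] (h : F) (e : ι → E) (x : E) :
    x ∈ latZero K h e ↔ ∃ p : ι → K[X], x = ∑ i, (aeval h (p i)) • e i := by
  rw [latZero_eq_range]
  constructor
  · rintro ⟨p, rfl⟩
    exact ⟨p, rfl⟩
  · rintro ⟨p, rfl⟩
    exact ⟨p, rfl⟩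

theorem mem_latInf_iff {ι : Type*} [Fintype ι] (h : F) (hh : h ≠ 0) (e : ι → E) (j : ℤ) (x : E) :
    x ∈ latInf K h e j ↔ ∃ p : ι → K[X], x = ∑ i, (h ^ j * aeval h⁻¹ (p i)) • e i := by
  rw [latInf_eq_range h hh]
  constructor
  · rintro ⟨p, rfl⟩
    exact ⟨p, rfl⟩
  · rintro ⟨p, rfl⟩
    exact ⟨p, rfl⟩

end lin

section basis

variable {K F E : Type*} [Field K] [Field F] [Algebra K F] [AddCommGroup E] [Module K E]
  [Module F E] [IsScalarTower K F E]

theorem ne_zero_of_transcendental (h : F) (hh : Transcendental K h) : h ≠ 0 := by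
  rintro rfl
  exact hh isAlgebraic_zero

theorem linearIndependent_zpow (h : F) (hh : Transcendental K h) :
    LinearIndependent K (fun z : ℤ => h ^ z) := by
  have hh0 : h ≠ 0 := ne_zero_of_transcendental h hh
  have hnat : LinearIndependent K (fun n : ℕ => h ^ n) := by
    have h1 : LinearIndependent K (fun n : ℕ => (X ^ n : K[X])) := by
      have h0 := (Polynomial.basisMonomials K).linearIndependent
      rw [Polynomial.coe_basisMonomials] at h0
      simpa [X_pow_eq_monomial] using h0
    have h2 := h1.map' (aeval (R := K) h).toLinearMap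
      (LinearMap.ker_eq_bot.mpr (transcendental_iff_injective.mp hh))
    simpa [Function.comp_def] using h2
  rw [linearIndependent_iff_finset_linearIndependent]
  intro s
  obtain ⟨N, hN⟩ : ∃ N : ℕ, ∀ z ∈ s, 0 ≤ z + N := by
    refine ⟨(s.sup fun z => z.natAbs), fun z hz => ?_⟩
    have h1 : z.natAbs ≤ s.sup fun z => z.natAbs := Finset.le_sup (f := fun z => z.natAbs) hz
    omega
  have h3 : LinearIndependent K (fun z : s => h ^ ((z : ℤ) + N).toNat) :=
    hnat.comp (fun z : s => ((z : ℤ) + N).toNat) (by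
      intro a b hab
      have ha := hN a a.2
      have hb := hN b b.2
      apply Subtype.ext
      have h4 : ((a : ℤ) + N).toNat = ((b : ℤ) + N).toNat := hab
      omega)
  have h4 := h3.map' (LinearMap.mulLeft K (h ^ (-(N : ℤ)))) (by
    rw [LinearMap.ker_eq_bot]
    intro x y hxy
    exact mul_left_cancel₀ (zpow_ne_zero _ hh0) hxy)
  have h5 : ((fun z : ℤ => h ^ z) ∘ (Subtype.val : s → ℤ)) =
      (⇑(LinearMap.mulLeft K (h ^ (-(N : ℤ)))) ∘ fun z : s => h ^ ((z : ℤ) + N).toNat) := by
    funext z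
    simp only [Function.comp_apply, LinearMap.mulLeft_apply]
    rw [← zpow_natCast, ← zpow_add₀ hh0, Int.toNat_of_nonneg (hN z z.2)]
    congr 1
    ring
  rw [h5]
  exact h4

theorem linearIndependent_zpow_smul {ι : Type*} (h : F) (hh : Transcendental K h) (e : ι → E)
    (he : LinearIndependent F e) :
    LinearIndependent K (fun p : ℤ × ι => h ^ p.1 • e p.2) :=
  linearIndependent_smul (linearIndependent_zpow h hh) he

theorem latZero_eq_span_image {ι : Type*} (h : F) (e : ι → E) :
    latZero K h e =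
      Submodule.span K ((fun p : ℤ × ι => h ^ p.1 • e p.2) '' {p | 0 ≤ p.1}) := by
  rw [latZero]
  congr 1
  ext x
  constructor
  · rintro ⟨⟨n, i⟩, rfl⟩
    exact ⟨((n : ℤ), i), by simp, by simp⟩
  · rintro ⟨⟨z, i⟩, hz, rfl⟩
    refine ⟨(z.toNat, i), ?_⟩
    have hz' : 0 ≤ z := hz
    simp only
    rw [← zpow_natCast, Int.toNat_of_nonneg hz']

theorem latInf_eq_span_image {ι : Type*} (h : F) (e : ι → E) (m : ℤ) :
    latInf K h e m =
      Submodule.span K ((fun p : ℤ × ι => h ^ p.1 • e p.2) '' {p | p.1 ≤ m}) := by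
  rw [latInf]
  congr 1
  ext x
  constructor
  · rintro ⟨⟨n, i⟩, rfl⟩
    exact ⟨(m - (n : ℤ), i), by simp, rfl⟩
  · rintro ⟨⟨z, i⟩, hz, rfl⟩
    refine ⟨((m - z).toNat, i), ?_⟩
    have hz' : z ≤ m := hz
    simp only
    rw [Int.toNat_of_nonneg (sub_nonneg.mpr hz'), sub_sub_cancel]

/-- (S0) the intersection of the two standard lattices of the same family. -/
theorem latZero_inf_latInf_self {ι : Type*} (h : F) (hh : Transcendental K h)
    (e : ι → E) (he : LinearIndependent F e) (m : ℤ) :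
    latZero K h e ⊓ latInf K h e m =
      Submodule.span K (Set.range fun p : Fin (m + 1).toNat × ι => h ^ (p.1 : ℕ) • e p.2) := by
  rw [latZero_eq_span_image, latInf_eq_span_image,
    span_image_inf_span_image (linearIndependent_zpow_smul h hh e he)]
  congr 1
  ext x
  constructor
  · rintro ⟨⟨z, i⟩, ⟨hz0, hzm⟩, rfl⟩
    have hz0' : 0 ≤ z := hz0
    have hzm' : z ≤ m := hzm
    refine ⟨(⟨z.toNat, by omega⟩, i), ?_⟩
    simp only
    rw [← zpow_natCast, Int.toNat_of_nonneg hz0']
  · rintro ⟨⟨a, i⟩, rfl⟩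
    have ha := a.2
    refine ⟨(((a : ℕ) : ℤ), i), ⟨?_, ?_⟩, by simp⟩
    · change (0 : ℤ) ≤ ((a : ℕ) : ℤ)
      omega
    · change ((a : ℕ) : ℤ) ≤ m
      omega

theorem finrank_latZero_inf_latInf_self {ι : Type*} [Fintype ι] (h : F)
    (hh : Transcendental K h) (e : ι → E) (he : LinearIndependent F e) (m : ℤ) :
    Module.finrank K ↥(latZero K h e ⊓ latInf K h e m) = (m + 1).toNat * Fintype.card ι := by
  rw [latZero_inf_latInf_self h hh e he m]
  have hli : LinearIndependent K
      (fun p : Fin (m + 1).toNat × ι => h ^ (p.1 : ℕ) • e p.2) := by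
    have h1 := (linearIndependent_zpow_smul h hh e he).comp
      (fun p : Fin (m + 1).toNat × ι => (((p.1 : ℕ) : ℤ), p.2)) (by
        rintro ⟨a, i⟩ ⟨b, j⟩ hab
        simp only [Prod.mk.injEq, Nat.cast_inj] at hab
        exact Prod.ext (Fin.ext hab.1) hab.2)
    simpa [Function.comp_def] using h1
  rw [finrank_span_eq_card hli, Fintype.card_prod, Fintype.card_fin]

theorem finite_latZero_inf_latInf_self {ι : Type*} [Finite ι] (h : F)
    (hh : Transcendental K h) (e : ι → E) (he : LinearIndependent F e) (m : ℤ) :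
    Module.Finite K ↥(latZero K h e ⊓ latInf K h e m) := by
  rw [latZero_inf_latInf_self h hh e he m]
  exact FiniteDimensional.span_of_finite K (Set.finite_range _)

end basis

section laurent

variable {K F : Type*} [Field K] [Field F] [Algebra K F]

/-- Every element of `K[h, h⁻¹]` is of the form `h ^ (-a) * p(h)`. -/
theorem exists_pow_mul_eq_aeval (h : F) (hh : h ≠ 0) (x : F)
    (hx : x ∈ Algebra.adjoin K {h, h⁻¹}) :
    ∃ (a : ℕ) (p : K[X]), h ^ a * x = aeval h p := by
  induction hx using Algebra.adjoin_induction with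
  | mem x hx =>
    rcases hx with rfl | rfl
    · exact ⟨0, X, by simp⟩
    · exact ⟨1, 1, by simp [hh]⟩
  | algebraMap r => exact ⟨0, C r, by simp⟩
  | add x y _ _ hx hy =>
    obtain ⟨a, p, hp⟩ := hx
    obtain ⟨b, q, hq⟩ := hy
    refine ⟨a + b, X ^ b * p + X ^ a * q, ?_⟩
    simp only [map_add, map_mul, map_pow, aeval_X, ← hp, ← hq]
    ring
  | mul x y _ _ hx hy =>
    obtain ⟨a, p, hp⟩ := hx
    obtain ⟨b, q, hq⟩ := hy
    refine ⟨a + b, p * q, ?_⟩
    rw [map_mul, ← hp, ← hq]
    ring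

/-- A matrix with entries in `K[s, s⁻¹]` becomes polynomial after multiplication by a power of
`s`. -/
theorem exists_matrix_poly {ι : Type*} [Fintype ι] (s : F) (hs : s ≠ 0) (T : Matrix ι ι F)
    (hT : ∀ i l, T i l ∈ Algebra.adjoin K {s, s⁻¹}) :
    ∃ (c : ℕ) (S : Matrix ι ι K[X]), ∀ i l, aeval s (S i l) = s ^ c * T i l := by
  choose a p hp using fun i l => exists_pow_mul_eq_aeval s hs (T i l) (hT i l)
  refine ⟨(Finset.univ : Finset (ι × ι)).sup (fun q => a q.1 q.2),
    fun i l => X ^ ((Finset.univ : Finset (ι × ι)).sup (fun q => a q.1 q.2) - a i l) * p i l,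
    fun i l => ?_⟩
  have hle : a i l ≤ (Finset.univ : Finset (ι × ι)).sup (fun q => a q.1 q.2) :=
    Finset.le_sup (f := fun q : ι × ι => a q.1 q.2) (Finset.mem_univ (i, l))
  rw [map_mul, map_pow, aeval_X, ← hp, ← mul_assoc, ← pow_add, Nat.sub_add_cancel hle]

theorem det_mem_subalgebra {ι : Type*} [Fintype ι] [DecidableEq ι] (A : Subalgebra K F)
    (T : Matrix ι ι F) (hT : ∀ i l, T i l ∈ A) : T.det ∈ A := by
  rw [Matrix.det_apply]
  refine Subalgebra.sum_mem _ fun σ _ => ?_
  rcases Int.units_eq_one_or (Equiv.Perm.sign σ) with h | h <;> rw [h]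
  · rw [one_smul]
    exact Subalgebra.prod_mem _ fun i _ => hT _ _
  · rw [Units.neg_smul, one_smul]
    exact Subalgebra.neg_mem _ (Subalgebra.prod_mem _ fun i _ => hT _ _)

/-- Units of `K[h, h⁻¹]` are monomials. -/
theorem exists_eq_algebraMap_mul_zpow (h : F) (hh : Transcendental K h) (x y : F)
    (hx : x ∈ Algebra.adjoin K {h, h⁻¹}) (hy : y ∈ Algebra.adjoin K {h, h⁻¹})
    (hxy : x * y = 1) :
    ∃ (c : K) (d : ℤ), c ≠ 0 ∧ x = algebraMap K F c * h ^ d := by
  have hh0 := ne_zero_of_transcendental h hh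
  obtain ⟨a, p, hp⟩ := exists_pow_mul_eq_aeval h hh0 x hx
  obtain ⟨b, q, hq⟩ := exists_pow_mul_eq_aeval h hh0 y hy
  have h1 : aeval h (p * q) = aeval h (X ^ (a + b) : K[X]) := by
    rw [map_mul, ← hp, ← hq, map_pow, aeval_X, pow_add]
    calc h ^ a * x * (h ^ b * y) = h ^ a * h ^ b * (x * y) := by ring
      _ = h ^ a * h ^ b := by rw [hxy, mul_one]
  have h2 : p * q = X ^ (a + b) := transcendental_iff_injective.mp hh h1
  have h3 : p ∣ X ^ (a + b) := ⟨q, h2.symm⟩
  obtain ⟨m, hm, hassoc⟩ := (dvd_prime_pow prime_X _).mp h3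
  obtain ⟨u, hu⟩ := hassoc.symm
  obtain ⟨c, hc, hcu⟩ := Polynomial.isUnit_iff.mp u.isUnit
  refine ⟨c, (m : ℤ) - a, hc.ne_zero, ?_⟩
  have h5 : h ^ a * x = h ^ m * algebraMap K F c := by
    rw [hp, ← hu, ← hcu, map_mul, map_pow, aeval_X, aeval_C]
  rw [zpow_sub₀ hh0, zpow_natCast, zpow_natCast]
  field_simp
  rw [mul_comm x, h5, mul_comm]

theorem natDegree_eq_of_aeval_eq (s : F) (hs : Transcendental K s) (P : K[X]) (c : K)
    (hc : c ≠ 0) (z : ℤ) (hP : aeval s P = algebraMap K F c * s ^ z) :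
    (P.natDegree : ℤ) = z := by
  have hs0 := ne_zero_of_transcendental s hs
  rcases le_or_gt 0 z with hz | hz
  · obtain ⟨m, rfl⟩ := Int.eq_ofNat_of_zero_le hz
    have h1 : aeval s P = aeval s (C c * X ^ m : K[X]) := by
      rw [hP, map_mul, aeval_C, map_pow, aeval_X, zpow_natCast]
    have h2 : P = C c * X ^ m := transcendental_iff_injective.mp hs h1
    rw [h2, natDegree_C_mul_X_pow _ _ hc]
  · exfalso
    obtain ⟨m, hm⟩ : ∃ m : ℕ, z = -((m : ℤ) + 1) := ⟨(-z - 1).toNat, by omega⟩
    have h1 : aeval s (P * X ^ (m + 1)) = aeval s (C c : K[X]) := by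
      rw [map_mul, hP, map_pow, aeval_X, aeval_C, hm, mul_assoc, ← zpow_natCast,
        ← zpow_add₀ hs0]
      simp
    have h2 : P * X ^ (m + 1) = C c := transcendental_iff_injective.mp hs h1
    have h3 := congrArg (fun q => coeff q 0) h2
    simp only [pow_succ, ← mul_assoc, coeff_mul_X_zero, coeff_C_zero] at h3
    exact hc h3.symm

end laurent

section main

variable {K F E : Type*} [Field K] [Field F] [Algebra K F] [AddCommGroup E] [Module K E]
  [Module F E] [IsScalarTower K F E]

theorem muInf_injective (h : F) (hh : Transcendental K h) (j : ℤ) :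
    Function.Injective (muInf K h j) := by
  have hh0 := ne_zero_of_transcendental h hh
  have hs : Transcendental K h⁻¹ := fun halg => hh (IsAlgebraic.inv_iff.mp halg)
  intro p q hpq
  rw [muInf_apply, muInf_apply] at hpq
  exact transcendental_iff_injective.mp hs (mul_left_cancel₀ (zpow_ne_zero _ hh0) hpq)

theorem muInf_smul_mem_latInf {ι : Type*} [Fintype ι] (h : F) (hh0 : h ≠ 0) (e : ι → E) (j : ℤ)
    (q : K[X]) (l : ι) : muInf K h j q • e l ∈ latInf K h e j := by
  classical
  rw [latInf_eq_range h hh0]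
  refine ⟨Pi.single l q, ?_⟩
  rw [lin_apply, Finset.sum_eq_single l]
  · simp
  · intro i _ hi
    simp [Pi.single_eq_of_ne hi]
  · simp

/-- (S1) change of family on the `∞`-lattices. -/
theorem lin_muInf_mulVec {ι : Type*} [Fintype ι] (h : F) (hh0 : h ≠ 0) (e e' : ι → E)
    (T : Matrix ι ι F) (he' : ∀ l, e' l = ∑ i, T i l • e i) (c₁ : ℕ) (S : Matrix ι ι K[X])
    (hS : ∀ i l, aeval h⁻¹ (S i l) = h⁻¹ ^ c₁ * T i l) (j : ℤ) (p : ι → K[X]) :
    lin (muInf K h (j + c₁)) e (S.mulVec p) = lin (muInf K h j) e' p := by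
  simp only [lin_apply, muInf_apply, he', Finset.smul_sum, smul_smul]
  rw [Finset.sum_comm]
  refine Finset.sum_congr rfl fun i _ => ?_
  rw [← Finset.sum_smul]
  congr 1
  simp only [Matrix.mulVec, dotProduct, map_sum, map_mul, hS, Finset.mul_sum]
  refine Finset.sum_congr rfl fun l _ => ?_
  have h1 : h ^ (j + (c₁ : ℤ)) * h⁻¹ ^ c₁ = h ^ j := by
    rw [zpow_add₀ hh0, zpow_natCast, mul_assoc, inv_pow, mul_inv_cancel₀ (pow_ne_zero _ hh0),
      mul_one]
  rw [← h1]
  ring

/-- (S2) for large `j` the two lattices generate everything. -/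
theorem latInf_le_sup {ι : Type*} [Fintype ι] [DecidableEq ι] (h : F) (hh0 : h ≠ 0)
    (e e' : ι → E) (T T' : Matrix ι ι F) (hTT' : T * T' = 1)
    (he' : ∀ l, e' l = ∑ i, T i l • e i) (c₂ : ℕ) (S' : Matrix ι ι K[X])
    (hS' : ∀ i l, aeval h⁻¹ (S' i l) = h⁻¹ ^ c₂ * T' i l) (j : ℤ) (hj : (c₂ : ℤ) ≤ j) (m : ℤ) :
    latInf K h e m ≤ latZero K h e ⊔ latInf K h e' j := by
  have hinv : ∀ i, e i = ∑ l, T' l i • e' l := by
    intro i
    simp only [he', Finset.smul_sum, smul_smul]
    rw [Finset.sum_comm]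
    have h1 : ∀ k, ∑ l, (T' l i * T k l) • e k = ((1 : Matrix ι ι F) k i) • e k := by
      intro k
      rw [← Finset.sum_smul, ← hTT', Matrix.mul_apply]
      congr 1
      exact Finset.sum_congr rfl fun l _ => mul_comm _ _
    simp_rw [h1]
    simp [Matrix.one_apply]
  rw [latInf, Submodule.span_le]
  rintro _ ⟨⟨t, i⟩, rfl⟩
  simp only
  rcases le_or_gt 0 (m - (t : ℤ)) with hz | hz
  · apply Submodule.mem_sup_left
    rw [latZero]
    refine Submodule.subset_span ⟨((m - (t : ℤ)).toNat, i), ?_⟩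
    simp only
    rw [← zpow_natCast, Int.toNat_of_nonneg hz]
  · apply Submodule.mem_sup_right
    rw [hinv i, Finset.smul_sum]
    refine Submodule.sum_mem _ fun l _ => ?_
    rw [smul_smul]
    have h1 : h ^ (m - (t : ℤ)) * T' l i =
        muInf K h j (X ^ (j - (m - (t : ℤ)) - c₂).toNat * S' l i) := by
      rw [muInf_apply, map_mul, map_pow, aeval_X, hS', ← zpow_natCast, ← zpow_natCast,
        Int.toNat_of_nonneg (by omega), inv_zpow', inv_zpow', ← mul_assoc, ← mul_assoc,
        ← zpow_add₀ hh0, ← zpow_add₀ hh0]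
      congr 2
      ring
    rw [h1]
    exact muInf_smul_mem_latInf h hh0 e' j _ l

/-- **(WP-B, χ)** Riemann–Roch for a rank-`n` lattice pair on `P¹`. -/
theorem finrank_latZero_inf_latInf {ι : Type*} [Fintype ι] [DecidableEq ι] (h : F)
    (hh : Transcendental K h) (e e' : ι → E) (he : LinearIndependent F e)
    (T T' : Matrix ι ι F) (hT : ∀ i l, T i l ∈ Algebra.adjoin K {h, h⁻¹})
    (hT' : ∀ i l, T' i l ∈ Algebra.adjoin K {h, h⁻¹}) (hTT' : T * T' = 1)
    (he' : ∀ l, e' l = ∑ i, T i l • e i) :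
    ∃ (c : K) (d : ℤ), c ≠ 0 ∧ T.det = algebraMap K F c * h ^ d ∧
      (∀ j : ℤ, Module.Finite K ↥(latZero K h e ⊓ latInf K h e' j)) ∧
      ∃ j₀ : ℤ, ∀ j : ℤ, j₀ ≤ j →
        (Module.finrank K ↥(latZero K h e ⊓ latInf K h e' j) : ℤ) =
          Fintype.card ι * (j + 1) + d := by
  have hh0 := ne_zero_of_transcendental h hh
  have hs : Transcendental K h⁻¹ := fun halg => hh (IsAlgebraic.inv_iff.mp halg)
  have hs0 : h⁻¹ ≠ 0 := inv_ne_zero hh0
  have hadj : Algebra.adjoin K {h, h⁻¹} = Algebra.adjoin K {h⁻¹, (h⁻¹)⁻¹} := by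
    rw [inv_inv, Set.pair_comm]
  -- the determinant of `T`
  have hdetT : T.det ∈ Algebra.adjoin K {h, h⁻¹} := det_mem_subalgebra _ T hT
  have hdetT' : T'.det ∈ Algebra.adjoin K {h, h⁻¹} := det_mem_subalgebra _ T' hT'
  have hdet1 : T.det * T'.det = 1 := by rw [← Matrix.det_mul, hTT', Matrix.det_one]
  obtain ⟨c, d, hc, hd⟩ := exists_eq_algebraMap_mul_zpow h hh _ _ hdetT hdetT' hdet1
  obtain ⟨c₁, S, hS⟩ := exists_matrix_poly (K := K) h⁻¹ hs0 T (fun i l => hadj ▸ hT i l)
  obtain ⟨c₂, S', hS'⟩ := exists_matrix_poly (K := K) h⁻¹ hs0 T' (fun i l => hadj ▸ hT' i l)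
  -- the determinant of `S`
  have hdetS : aeval h⁻¹ S.det =
      algebraMap K F c * h⁻¹ ^ (((Fintype.card ι * c₁ : ℕ) : ℤ) - d) := by
    have h1 : aeval h⁻¹ S.det = ((aeval (R := K) h⁻¹).mapMatrix S).det :=
      AlgHom.map_det _ _
    have h2 : (aeval (R := K) h⁻¹).mapMatrix S = (h⁻¹ ^ c₁) • T := by
      ext i l
      simp [hS]
    rw [h1, h2, Matrix.det_smul, hd, zpow_sub₀ hs0, zpow_natCast, pow_mul, inv_zpow' h d,
      zpow_neg, div_eq_mul_inv, inv_inv, inv_pow, inv_pow, inv_pow]
    ring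
  have hnatdeg : (S.det.natDegree : ℤ) = ((Fintype.card ι * c₁ : ℕ) : ℤ) - d :=
    natDegree_eq_of_aeval_eq h⁻¹ hs S.det c hc _ hdetS
  have hdetS0 : S.det ≠ 0 := by
    intro h0
    rw [h0, map_zero] at hdetS
    have h1 : algebraMap K F c ≠ 0 := by
      rw [Ne, map_eq_zero_iff _ (algebraMap K F).injective]
      exact hc
    exact mul_ne_zero h1 (zpow_ne_zero _ hs0) hdetS.symm
  obtain ⟨hfin, hfr⟩ := finrank_quotient_range_mulVecLin S hdetS0
  -- (S1)
  have hle : ∀ j : ℤ, latInf K h e' j ≤ latInf K h e (j + c₁) := by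
    intro j
    rw [latInf_eq_range h hh0, latInf_eq_range h hh0]
    rintro _ ⟨p, rfl⟩
    exact ⟨S.mulVec p, lin_muInf_mulVec h hh0 e e' T he' c₁ S hS j p⟩
  refine ⟨c, d, hc, hd, ?_, ?_⟩
  · intro j
    haveI := finite_latZero_inf_latInf_self h hh e he (j + c₁)
    exact Submodule.finiteDimensional_of_le (inf_le_inf_left _ (hle j))
  · refine ⟨max (c₂ : ℤ) 0, fun j hj => ?_⟩
    have hj1 : (c₂ : ℤ) ≤ j := le_trans (le_max_left _ _) hj
    have hj0 : (0 : ℤ) ≤ j := le_trans (le_max_right _ _) hj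
    have hΨ : Function.Injective (lin (muInf K h (j + c₁)) e) :=
      lin_injective _ (muInf_injective h hh _) e he
    -- the quotient map
    have hπ : Function.Surjective
        ((LinearMap.range S.mulVecLin).mkQ.restrictScalars K) :=
      (LinearMap.range S.mulVecLin).mkQ_surjective
    have hker : ∀ p : ι → K[X],
        p ∈ LinearMap.ker ((LinearMap.range S.mulVecLin).mkQ.restrictScalars K) ↔
          p ∈ LinearMap.range S.mulVecLin := by
      intro p
      rw [LinearMap.mem_ker, LinearMap.restrictScalars_apply, Submodule.mkQ_apply,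
        Submodule.Quotient.mk_eq_zero]
    -- `W`
    have hmapW : Submodule.map (lin (muInf K h (j + c₁)) e)
        ((latZero K h e).comap (lin (muInf K h (j + c₁)) e)) =
        latZero K h e ⊓ latInf K h e (j + c₁) := by
      rw [Submodule.map_comap_eq, ← latInf_eq_range h hh0, inf_comm]
    haveI hWfin : FiniteDimensional K ↥((latZero K h e).comap (lin (muInf K h (j + c₁)) e)) := by
      haveI : Module.Finite K ↥(Submodule.map (lin (muInf K h (j + c₁)) e)
          ((latZero K h e).comap (lin (muInf K h (j + c₁)) e))) := by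
        rw [hmapW]
        exact finite_latZero_inf_latInf_self h hh e he (j + c₁)
      exact Module.Finite.equiv (Submodule.equivMapOfInjective _ hΨ _).symm
    have hWrank : Module.finrank K ↥((latZero K h e).comap (lin (muInf K h (j + c₁)) e)) =
        (j + c₁ + 1).toNat * Fintype.card ι := by
      rw [(Submodule.equivMapOfInjective _ hΨ _).finrank_eq, hmapW,
        finrank_latZero_inf_latInf_self h hh e he]
    have hWsup : (latZero K h e).comap (lin (muInf K h (j + c₁)) e) ⊔
        LinearMap.ker ((LinearMap.range S.mulVecLin).mkQ.restrictScalars K) = ⊤ := by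
      rw [eq_top_iff]
      intro p _
      have h1 : lin (muInf K h (j + c₁)) e p ∈ latZero K h e ⊔ latInf K h e' j := by
        apply latInf_le_sup h hh0 e e' T T' hTT' he' c₂ S' hS' j hj1 (j + c₁)
        rw [latInf_eq_range h hh0]
        exact ⟨p, rfl⟩
      obtain ⟨q, hq, y, hy, hqy⟩ := Submodule.mem_sup.mp h1
      rw [latInf_eq_range h hh0] at hy
      obtain ⟨r, rfl⟩ := hy
      rw [← lin_muInf_mulVec h hh0 e e' T he' c₁ S hS j r] at hqy
      have h2 : p = (p - S.mulVec r) + S.mulVec r := by abel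
      rw [h2]
      refine Submodule.add_mem_sup ?_ ((hker _).mpr ⟨r, rfl⟩)
      rw [Submodule.mem_comap, map_sub, ← hqy, add_sub_cancel_right]
      exact hq
    have hmain := finrank_eq_add_of_sup_ker_eq_top
      ((LinearMap.range S.mulVecLin).mkQ.restrictScalars K) hπ
      ((latZero K h e).comap (lin (muInf K h (j + c₁)) e)) hWsup
    -- the intersection
    have hmapInf : Submodule.map (lin (muInf K h (j + c₁)) e)
        ((latZero K h e).comap (lin (muInf K h (j + c₁)) e) ⊓
          LinearMap.ker ((LinearMap.range S.mulVecLin).mkQ.restrictScalars K)) =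
        latZero K h e ⊓ latInf K h e' j := by
      ext x
      constructor
      · rintro ⟨p, ⟨hp1, hp2⟩, rfl⟩
        obtain ⟨r, rfl⟩ := (hker p).mp hp2
        refine ⟨hp1, ?_⟩
        rw [Matrix.mulVecLin_apply, lin_muInf_mulVec h hh0 e e' T he' c₁ S hS j r,
          latInf_eq_range h hh0]
        exact ⟨r, rfl⟩
      · rintro ⟨hx1, hx2⟩
        rw [latInf_eq_range h hh0] at hx2
        obtain ⟨r, rfl⟩ := hx2
        have hx3 : lin (muInf K h (j + c₁)) e (S.mulVec r) ∈ latZero K h e := by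
          rw [lin_muInf_mulVec h hh0 e e' T he' c₁ S hS j r]
          exact hx1
        exact ⟨S.mulVec r, ⟨hx3, (hker _).mpr ⟨r, rfl⟩⟩,
          lin_muInf_mulVec h hh0 e e' T he' c₁ S hS j r⟩
    have hInfrank : Module.finrank K ↥((latZero K h e).comap (lin (muInf K h (j + c₁)) e) ⊓
          LinearMap.ker ((LinearMap.range S.mulVecLin).mkQ.restrictScalars K)) =
        Module.finrank K ↥(latZero K h e ⊓ latInf K h e' j) := by
      rw [(Submodule.equivMapOfInjective _ hΨ _).finrank_eq, hmapInf]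
    rw [hWrank, hInfrank, hfr] at hmain
    have h3 : (((j + c₁ + 1).toNat : ℕ) : ℤ) = j + c₁ + 1 := Int.toNat_of_nonneg (by omega)
    have h4 : (((j + c₁ + 1).toNat * Fintype.card ι : ℕ) : ℤ) =
        (Module.finrank K ↥(latZero K h e ⊓ latInf K h e' j) : ℤ) + S.det.natDegree := by
      exact_mod_cast congrArg (Nat.cast : ℕ → ℤ) hmain
    rw [Nat.cast_mul, h3, hnatdeg] at h4
    push_cast at h4
    linarith

end main

end Fermat.Agent.S18.Lattice
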