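import Mathlib
import Fermat.Agent.S18_Hub
import Fermat.Agent.S18_Charts
import Fermat.Agent.S18_Lattice
import Fermat.Agent.S24_Places

set_option autoImplicit false
set_option linter.style.haveILetI false

noncomputable section

open Polynomial IntermediateField AlgebraicCurve Fermat.Agent.S24 Fermat.Agent.RR

namespace Fermat.Agent.S18.G2

open Fermat.Agent.S18.Charts

section Glue

variable {K E : Type*} [Field K] [Field E] [Algebra K E]

/-- the space `R₀ ∩ h^j R_∞`. -/
def sections (K : Type*) {E : Type*} [Field K] [Field E] [Algebra K E] (h : E) (j : ℤ) : Set E :=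
  {x | IsIntegral (Algebra.adjoin K {h}) x ∧ IsIntegral (Algebra.adjoin K {h⁻¹}) (x * h ^ (-j))}

/-- **WP-B + WP-C packaged**: the integer `d` of `E / K(h)`, with (Δ) and (χ). -/
theorem exists_d (h : E) (hh : Transcendental K h)
    [FiniteDimensional (IntermediateField.adjoin K {h}) E]
    [Algebra.IsSeparable (IntermediateField.adjoin K {h}) E] :
    ∃ d : ℤ,
      (∀ B : Finset K, (∑ b ∈ B, (discOrd K h b : ℤ)) + discOrd K h⁻¹ 0 ≤ -2 * d) ∧
      ∃ j₀ : ℤ, ∀ j : ℤ, j₀ ≤ j → ∃ W : Submodule K E, Module.Finite K W ∧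
        (W : Set E) = sections K h j ∧
        (Module.finrank K W : ℤ) =
          Module.finrank (IntermediateField.adjoin K {h}) E * (j + 1) + d := by
  classical
  have hh0 : h ≠ 0 := fun h0 => hh (h0 ▸ isAlgebraic_zero)
  obtain ⟨e, e', T, T', D₀, Di, hc, hc', hT, hT', hTT', he', -⟩ := exists_chartPair h hh
  set g := AdjoinSimple.gen K h with hg
  have hgE : algebraMap (IntermediateField.adjoin K {h}) E g = h := AdjoinSimple.algebraMap_gen K h
  have hg0 : g ≠ 0 := by
    intro h0
    apply hh0
    rw [← hgE, h0, map_zero]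
  have hgtr : Transcendental K g := by
    rw [← transcendental_algebraMap_iff (algebraMap (IntermediateField.adjoin K {h}) E).injective,
      hgE]
    exact hh
  obtain ⟨c, d, hc0, hdet, hfin, j₀, hj⟩ :=
    Lattice.finrank_latZero_inf_latInf (K := K) (F := IntermediateField.adjoin K {h}) (E := E) g
      hgtr e e' hc.linearIndependent T T' hT hT' hTT' he'
  refine ⟨d, fun B => sum_discOrd_le h hh hc hc' T he' c d hc0 hdet B, j₀, fun j hjj =>
    ⟨Lattice.latZero K g e ⊓ Lattice.latInf K g e' j, hfin j, ?_, ?_⟩⟩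
  · ext x
    simp only [Submodule.coe_inf, Set.mem_inter_iff, SetLike.mem_coe, sections, Set.mem_ofPred_eq]
    rw [Lattice.mem_latZero_iff, Lattice.mem_latInf_iff g hg0, hc.mem_iff, hc'.mem_iff]
    have e1 : ∀ p : K[X], ∀ y : E, aeval g p • y = aeval h p * y := by
      intro p y
      rw [Algebra.smul_def, coe_aeval_gen]
    have e2 : ∀ p : K[X], ∀ y : E, (g ^ j * aeval g⁻¹ p) • y = h ^ j * (aeval h⁻¹ p * y) := by
      intro p y
      rw [Algebra.smul_def, map_mul, map_zpow₀, hgE, coe_aeval_gen_inv, mul_assoc]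
    constructor
    · rintro ⟨⟨p, hp⟩, ⟨q, hq⟩⟩
      refine ⟨⟨p, ?_⟩, ⟨q, ?_⟩⟩
      · rw [hp]
        exact Finset.sum_congr rfl fun i _ => e1 _ _
      · rw [hq, Finset.sum_congr rfl fun i _ => e2 _ _, ← Finset.mul_sum, mul_comm, ← mul_assoc,
          ← zpow_add₀ hh0]
        simp
    · rintro ⟨⟨p, hp⟩, ⟨q, hq⟩⟩
      refine ⟨⟨p, ?_⟩, ⟨q, ?_⟩⟩
      · rw [hp]
        exact Finset.sum_congr rfl fun i _ => (e1 _ _).symm
      · rw [Finset.sum_congr rfl fun i _ => e2 _ _, ← Finset.mul_sum, ← hq, mul_comm, mul_assoc,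
          ← zpow_add₀ hh0]
        simp
  · have := hj j hjj
    rw [Fintype.card_fin] at this
    exact this

end Glue


section Assembly

variable {L F : Type*} [Field L] [Field F] [Algebra L F]

/-- the pole divisor of a generator. -/
theorem exists_poleDivisor [IsAlgClosed L] [CharZero L] {h : F} (hh : IsGenerator L h) :
    ∃ H : Divisor L F, (∀ v : Place L F, H v = max 0 (-(v.ord h))) ∧
      Divisor.degree H = Module.finrank (IntermediateField.adjoin L {h}) F := by
  classical
  have hfin := Places.finite_poles hh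
  let H : Divisor L F := Finsupp.onFinset hfin.toFinset (fun v => max 0 (-(v.ord h)))
    (fun v hv => by
      rw [Set.Finite.mem_toFinset]
      show v.ord h < 0
      by_contra hcon
      exact hv (max_eq_left (by omega)))
  refine ⟨H, fun v => rfl, ?_⟩
  have hdeg : Divisor.degree H = H.sum fun v n => n * (v.deg : ℤ) := by
    simp [Divisor.degree, Finsupp.liftAddHom_apply]
  rw [hdeg, Finsupp.onFinset_sum _ (fun v => by simp)]
  have h2 := Places.sum_ord_poles hh
  have h3 : ∀ v ∈ hfin.toFinset, max 0 (-(v.ord h)) * (v.deg : ℤ) = -(v.ord h) := by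
    intro v hv
    rw [Set.Finite.mem_toFinset] at hv
    have hv' : v.ord h < 0 := hv
    rw [Places.deg_eq_one hh, Nat.cast_one, mul_one, max_eq_right (by omega)]
  rw [Finset.sum_congr rfl h3, Finset.sum_neg_distrib, h2, neg_neg]

/-- over an algebraically closed field of characteristic zero, Riemann–Roch pins the integer
`d` down: `d = 1 - g - n`. -/
theorem d_eq_of_genusFormula [IsAlgClosed L] [CharZero L] {h : F} (hh : IsGenerator L h)
    (g : ℤ) (hg : GenusFormula L F g) (d : ℤ)
    (hd : ∃ j₀ : ℤ, ∀ j : ℤ, j₀ ≤ j → ∃ W : Submodule L F, Module.Finite L W ∧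
        (W : Set F) = sections L h j ∧
        (Module.finrank L W : ℤ) =
          Module.finrank (IntermediateField.adjoin L {h}) F * (j + 1) + d) :
    d = 1 - g - Module.finrank (IntermediateField.adjoin L {h}) F := by
  haveI := hh.2
  haveI : CharZero (IntermediateField.adjoin L {h}) :=
    charZero_of_injective_algebraMap (algebraMap L (IntermediateField.adjoin L {h})).injective
  obtain ⟨H, hH, hHdeg⟩ := exists_poleDivisor hh
  obtain ⟨d₀, hd₀⟩ := hg
  obtain ⟨j₀, hj₀⟩ := hd
  have hnpos : 0 < Module.finrank (IntermediateField.adjoin L {h}) F := Module.finrank_pos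
  set n : ℤ := (Module.finrank (IntermediateField.adjoin L {h}) F : ℤ) with hn
  have hn1 : 1 ≤ n := by rw [hn]; exact_mod_cast hnpos
  set j : ℤ := max j₀ (|d₀| + 1) with hj
  obtain ⟨W, -, hWset, hWdim⟩ := hj₀ j (le_max_left _ _)
  have hjpos : |d₀| + 1 ≤ j := le_max_right _ _
  have hdeg : Divisor.degree (j • H) = j * n := by
    rw [map_zsmul, hHdeg, smul_eq_mul]
  have hlt : d₀ < Divisor.degree (j • H) := by
    rw [hdeg]
    have h1 : d₀ ≤ |d₀| := le_abs_self d₀
    have h2 : 0 ≤ |d₀| := abs_nonneg d₀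
    nlinarith
  have h3 := hd₀ (j • H) hlt
  have hWeq : W = LSpace L F (j • H) := by
    apply SetLike.coe_injective
    rw [hWset]
    ext f
    exact (mem_LSpace_iff h hh.1 H hH j f).symm
  rw [← hWeq, hWdim, hdeg] at h3
  linarith

/-- **G2 assembly.**  From the local inequalities `[E]` on the charts (helper2), the
Riemann–Hurwitz count and the genus formula (helper5), and the structure of the residue
field (`κ / k(h̄)` finite separable of the same degree `n`), deduce `G.G2 g`. -/
theorem G2_of_charts [IsAlgClosed L] [CharZero L] {O : ValuationSubring L} {h : F}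
    (G : GoodVal O h) (hh : IsGenerator L h)
    (htr : Transcendental (IsLocalRing.ResidueField O) G.hbar)
    [FiniteDimensional (IntermediateField.adjoin (IsLocalRing.ResidueField O) {G.hbar}) G.κ]
    [Algebra.IsSeparable (IntermediateField.adjoin (IsLocalRing.ResidueField O) {G.hbar}) G.κ]
    (hn : Module.finrank (IntermediateField.adjoin (IsLocalRing.ResidueField O) {G.hbar}) G.κ
      = Module.finrank (IntermediateField.adjoin L {h}) F)
    (B : Finset O) (hB : Set.InjOn (IsLocalRing.residue O) (B : Set O))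
    (hE : ∀ b ∈ B, 2 * Module.finrank (IntermediateField.adjoin L {h}) F ≤
      2 * Nat.card (PlacesAt L h (b : L))
        + discOrd (IsLocalRing.ResidueField O) G.hbar (IsLocalRing.residue O b)
        + discOrd L h (b : L))
    (hEinf : 2 * Module.finrank (IntermediateField.adjoin L {h}) F ≤
      2 * Nat.card {v : Place L F | v.ord h < 0}
        + discOrd (IsLocalRing.ResidueField O) G.hbar⁻¹ 0 + discOrd L h⁻¹ 0)
    (g : ℤ) (hg : GenusFormula L F g)
    (hRH : 2 * g - 2 = ∑ b ∈ B, ((Module.finrank (IntermediateField.adjoin L {h}) F : ℤ)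
          - Nat.card (PlacesAt L h (b : L)))
        - Module.finrank (IntermediateField.adjoin L {h}) F
        - Nat.card {v : Place L F | v.ord h < 0}) :
    G.G2 g := by
  classical
  haveI := hh.2
  haveI : CharZero (IntermediateField.adjoin L {h}) :=
    charZero_of_injective_algebraMap (algebraMap L (IntermediateField.adjoin L {h})).injective
  obtain ⟨dL, hΔL, hχL⟩ := exists_d (K := L) h hh.1
  obtain ⟨dk, hΔk, j₀k, hχk⟩ := exists_d (K := IsLocalRing.ResidueField O) G.hbar htr
  have hdL := d_eq_of_genusFormula hh g hg dL hχL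
  set n : ℤ := (Module.finrank (IntermediateField.adjoin L {h}) F : ℤ) with hnn
  have key : dk ≤ 1 - g - n := by
    have h1 := hΔL (B.image (fun b : O => (b : L)))
    have h2 := hΔk (B.image (IsLocalRing.residue O))
    rw [Finset.sum_image (fun x _ y _ hxy => Subtype.ext hxy)] at h1
    rw [Finset.sum_image hB] at h2
    have h3 : ∑ b ∈ B, (2 * n) ≤ ∑ b ∈ B, (2 * (Nat.card (PlacesAt L h (b : L)) : ℤ)
        + (discOrd (IsLocalRing.ResidueField O) G.hbar (IsLocalRing.residue O b) : ℤ)
        + (discOrd L h (b : L) : ℤ)) := by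
      refine Finset.sum_le_sum fun b hb => ?_
      have := hE b hb
      rw [hnn]
      exact_mod_cast this
    have h4 : 2 * n ≤ 2 * (Nat.card {v : Place L F | v.ord h < 0} : ℤ)
        + (discOrd (IsLocalRing.ResidueField O) G.hbar⁻¹ 0 : ℤ) + (discOrd L h⁻¹ 0 : ℤ) := by
      rw [hnn]
      exact_mod_cast hEinf
    rw [Finset.sum_add_distrib, Finset.sum_add_distrib, Finset.sum_const, nsmul_eq_mul] at h3
    have h5 : ∑ x ∈ B, 2 * (Nat.card (PlacesAt L h (x : L)) : ℤ)
        = 2 * ∑ x ∈ B, (Nat.card (PlacesAt L h (x : L)) : ℤ) := by rw [Finset.mul_sum]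
    rw [h5] at h3
    rw [Finset.sum_sub_distrib, Finset.sum_const, nsmul_eq_mul] at hRH
    linarith
  obtain ⟨j₀, hj₀⟩ : ∃ j₀ : ℕ, j₀k ≤ (j₀ : ℤ) := ⟨j₀k.toNat, Int.self_le_toNat j₀k⟩
  refine ⟨j₀, fun j hj r s hs hli => ?_⟩
  obtain ⟨W, hWfin, hWset, hWdim⟩ := hχk (j : ℤ) (hj₀.trans (by exact_mod_cast hj))
  haveI := hWfin
  have hsW : ∀ i, s i ∈ W := by
    intro i
    have h1 : s i ∈ (W : Set G.κ) := by
      rw [hWset]
      obtain ⟨h2, h3⟩ := hs i
      refine ⟨h2, ?_⟩
      rw [zpow_neg, zpow_natCast, ← inv_pow]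
      exact h3
    exact h1
  have hli' : LinearIndependent (IsLocalRing.ResidueField O) (fun i => (⟨s i, hsW i⟩ : W)) := by
    apply LinearIndependent.of_comp W.subtype
    exact hli
  have hr := hli'.fintype_card_le_finrank
  rw [Fintype.card_fin] at hr
  have hr' : (r : ℤ) ≤ (Module.finrank (IsLocalRing.ResidueField O) W : ℤ) := by exact_mod_cast hr
  rw [hWdim, hn] at hr'
  have h5 : n * ((j : ℤ) + 1) + dk ≤ n * j + 1 - g := by linarith
  exact hr'.trans h5

end Assembly

end Fermat.Agent.S18.G2
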