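import Mathlib
import Fermat.Agent.S18_Charts
import Fermat.Agent.S24_Places

set_option autoImplicit false
set_option linter.style.haveILetI false
set_option linter.unusedSectionVars false

noncomputable section

open Polynomial IntermediateField AlgebraicCurve Fermat.Agent.S24

namespace Fermat.Agent.S18.Unram

open Fermat.Agent.S18.Charts

variable {K E : Type*} [Field K] [IsAlgClosed K] [Field E] [Algebra K E]

section Eval

variable {h : E} (hh : IsGenerator K h)

/-- the value of a regular function at a place (`K` algebraically closed). -/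
def evalAt (v : Place K E) : v.toValuationSubring →+* K :=
  ((RingEquiv.ofBijective (algebraMap K v.ResidueField)
    ⟨(algebraMap K v.ResidueField).injective, Places.residue_algebraMap_surjective hh v⟩).symm :
      v.ResidueField →+* K).comp (IsLocalRing.residue v.toValuationSubring)

theorem evalAt_algebraMap (v : Place K E) (a : K) :
    evalAt hh v (algebraMap K v.toValuationSubring a) = a := by
  unfold evalAt
  rw [RingHom.comp_apply]
  have h1 : IsLocalRing.residue v.toValuationSubring (algebraMap K v.toValuationSubring a)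
      = algebraMap K v.ResidueField a := rfl
  rw [h1]
  exact RingEquiv.symm_apply_apply _ a

theorem evalAt_eq_zero_iff (v : Place K E) (x : v.toValuationSubring) :
    evalAt hh v x = 0 ↔ x ∈ IsLocalRing.maximalIdeal v.toValuationSubring := by
  unfold evalAt
  rw [RingHom.comp_apply, ← IsLocalRing.residue_eq_zero_iff]
  exact map_eq_zero_iff _ (RingEquiv.injective _)

open Classical in
/-- the value at a place, extended by zero outside the valuation ring. -/
def ev (v : Place K E) (y : E) : K :=
  if hy : y ∈ v.toValuationSubring then evalAt hh v ⟨y, hy⟩ else 0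

theorem ev_of_mem (v : Place K E) {y : E} (hy : y ∈ v.toValuationSubring) :
    ev hh v y = evalAt hh v ⟨y, hy⟩ := dif_pos hy

theorem ev_add (v : Place K E) {y z : E} (hy : y ∈ v.toValuationSubring)
    (hz : z ∈ v.toValuationSubring) : ev hh v (y + z) = ev hh v y + ev hh v z := by
  rw [ev_of_mem hh v hy, ev_of_mem hh v hz, ev_of_mem hh v (add_mem hy hz), ← map_add]
  rfl

theorem ev_mul (v : Place K E) {y z : E} (hy : y ∈ v.toValuationSubring)
    (hz : z ∈ v.toValuationSubring) : ev hh v (y * z) = ev hh v y * ev hh v z := by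
  rw [ev_of_mem hh v hy, ev_of_mem hh v hz, ev_of_mem hh v (mul_mem hy hz), ← map_mul]
  rfl

theorem ev_algebraMap (v : Place K E) (a : K) : ev hh v (algebraMap K E a) = a := by
  rw [ev_of_mem hh v (v.algebraMap_mem' a)]
  exact evalAt_algebraMap hh v a

theorem ev_sum (v : Place K E) {ι : Type*} (s : Finset ι) (f : ι → E)
    (hf : ∀ i ∈ s, f i ∈ v.toValuationSubring) :
    ev hh v (∑ i ∈ s, f i) = ∑ i ∈ s, ev hh v (f i) := by
  classical
  induction s using Finset.induction_on with
  | empty =>
    simp only [Finset.sum_empty]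
    have := ev_algebraMap hh v 0
    simpa using this
  | insert a s ha ih =>
    rw [Finset.sum_insert ha, Finset.sum_insert ha,
      ev_add hh v (hf a (Finset.mem_insert_self a s))
        (sum_mem fun i hi => hf i (Finset.mem_insert_of_mem hi)),
      ih fun i hi => hf i (Finset.mem_insert_of_mem hi)]

theorem ev_eq_zero_iff (v : Place K E) {y : E} (hy : y ∈ v.toValuationSubring) (hy0 : y ≠ 0) :
    ev hh v y = 0 ↔ 0 < v.ord y := by
  rw [ev_of_mem hh v hy, evalAt_eq_zero_iff]
  constructor
  · intro hm
    exact Places.ord_pos_of_mem_maximalIdeal v hm (fun h0 => hy0 (congrArg Subtype.val h0))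
  · intro hpos
    obtain ⟨_, hm⟩ := Places.mem_maximalIdeal_of_ord_pos v hpos
    exact hm


theorem mem_of_mem_placesAt (v : Place K E) {c : K} (hv : v ∈ PlacesAt K h c) :
    h ∈ v.toValuationSubring := by
  have hsub : h - algebraMap K E c ∈ v.toValuationSubring :=
    Places.mem_of_ord_nonneg v (le_of_lt hv)
  have := add_mem hsub (v.algebraMap_mem' c)
  simpa using this

theorem ev_self (v : Place K E) {c : K} (hv : v ∈ PlacesAt K h c) : ev hh v h = c := by
  have hsub : h - algebraMap K E c ∈ v.toValuationSubring :=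
    Places.mem_of_ord_nonneg v (le_of_lt hv)
  have h1 : ev hh v (h - algebraMap K E c) = 0 := by
    rw [ev_of_mem hh v hsub, evalAt_eq_zero_iff]
    obtain ⟨_, hm⟩ := Places.mem_maximalIdeal_of_ord_pos v hv
    exact hm
  have h2 := ev_add hh v hsub (v.algebraMap_mem' c)
  rw [sub_add_cancel, h1, ev_algebraMap, zero_add] at h2
  exact h2

theorem ev_pow (v : Place K E) {c : K} (hv : v ∈ PlacesAt K h c) (n : ℕ) :
    h ^ n ∈ v.toValuationSubring ∧ ev hh v (h ^ n) = c ^ n := by
  have hmem := mem_of_mem_placesAt v hv
  induction n with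
  | zero =>
    simp only [pow_zero]
    refine ⟨one_mem _, ?_⟩
    have := ev_algebraMap hh v 1
    simpa using this
  | succ n ih =>
    rw [pow_succ, pow_succ]
    exact ⟨mul_mem ih.1 hmem, by rw [ev_mul hh v ih.1 hmem, ih.2, ev_self hh v hv]⟩

theorem ev_aeval (v : Place K E) {c : K} (hv : v ∈ PlacesAt K h c) (p : K[X]) :
    aeval h p ∈ v.toValuationSubring ∧ ev hh v (aeval h p) = p.eval c := by
  induction p using Polynomial.induction_on' with
  | add p q hp hq =>
    rw [map_add, eval_add]
    exact ⟨add_mem hp.1 hq.1, by rw [ev_add hh v hp.1 hq.1, hp.2, hq.2]⟩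
  | monomial n a =>
    rw [aeval_monomial, eval_monomial]
    have hpow := ev_pow hh v hv n
    exact ⟨mul_mem (v.algebraMap_mem' a) hpow.1, by
      rw [ev_mul hh v (v.algebraMap_mem' a) hpow.1, ev_algebraMap, hpow.2]⟩

end Eval

section Main

variable [CharZero K] {h : E}

/-- if the number of places over `c` is `[E : K(h)]`, all of them are unramified. -/
theorem ord_eq_one_of_card (hh : IsGenerator K h) (c : K)
    (hcard : Nat.card (PlacesAt K h c) = Module.finrank (IntermediateField.adjoin K {h}) E)
    (v : Place K E) (hv : v ∈ PlacesAt K h c) : v.ord (h - algebraMap K E c) = 1 := by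
  classical
  have hsum := Places.sum_ord_placesAt hh c
  rw [Nat.card_coe_set_eq, Set.ncard_eq_toFinset_card _ (Places.finite_placesAt hh c)] at hcard
  have h0 : ∑ w ∈ (Places.finite_placesAt hh c).toFinset,
      (w.ord (h - algebraMap K E c) - 1) = 0 := by
    rw [Finset.sum_sub_distrib, hsum, Finset.sum_const, ← hcard]; simp
  have hnn : ∀ w ∈ (Places.finite_placesAt hh c).toFinset,
      0 ≤ w.ord (h - algebraMap K E c) - 1 := by
    intro w hw
    have hw' : w ∈ PlacesAt K h c := (Set.Finite.mem_toFinset _).mp hw
    have : 0 < w.ord (h - algebraMap K E c) := hw'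
    omega
  have := (Finset.sum_eq_zero_iff_of_nonneg hnn).mp h0 v ((Set.Finite.mem_toFinset _).mpr hv)
  omega

theorem sub_ne_zero_of_transcendental (hh : Transcendental K h) (c : K) :
    h - algebraMap K E c ≠ 0 := by
  intro h0
  apply hh
  rw [sub_eq_zero.mp h0]
  exact isAlgebraic_algebraMap c

/-- an integral element vanishing at all the (unramified) points over `c` is divisible by
`h - c` in the integral closure. -/
theorem isIntegral_div (hh : IsGenerator K h) (c : K)
    (hord : ∀ v ∈ PlacesAt K h c, v.ord (h - algebraMap K E c) = 1)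
    (y : E) (hy : IsIntegral (Algebra.adjoin K {h}) y)
    (hev : ∀ v ∈ PlacesAt K h c, ev hh v y = 0) :
    IsIntegral (Algebra.adjoin K {h}) (y / (h - algebraMap K E c)) := by
  rcases eq_or_ne y 0 with rfl | hy0
  · rw [zero_div]; exact isIntegral_zero
  haveI := hh.2
  haveI : CharZero (IntermediateField.adjoin K {h}) :=
    charZero_of_injective_algebraMap (algebraMap K (IntermediateField.adjoin K {h})).injective
  have hsub0 := sub_ne_zero_of_transcendental hh.1 c
  apply isIntegral_of_forall_place h hh.1
  intro v hv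
  have hyv : y ∈ v.toValuationSubring := mem_of_isIntegral h v hv y hy
  rw [Places.mem_iff_ord_nonneg, div_eq_mul_inv, v.ord_mul hy0 (inv_ne_zero hsub0), v.ord_inv]
  by_cases hvc : v ∈ PlacesAt K h c
  · have h1 := hord v hvc
    have h2 : 0 < v.ord y := (ev_eq_zero_iff hh v hyv hy0).mp (hev v hvc)
    omega
  · have h1 : ¬ 0 < v.ord (h - algebraMap K E c) := hvc
    have h2 : 0 ≤ v.ord (h - algebraMap K E c) :=
      Places.ord_nonneg_of_mem v (sub_mem hv (v.algebraMap_mem' c))
    have h3 := Places.ord_nonneg_of_mem v hyv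
    omega

/-- the evaluation matrix of an integral basis at the points over an unramified value is
invertible. -/
theorem det_ev_ne_zero (hh : IsGenerator K h) (c : K)
    (hord : ∀ v ∈ PlacesAt K h c, v.ord (h - algebraMap K E c) = 1)
    {n : ℕ} {e : Fin n → E} {D : K[X]}
    (hc : IsChart K (IntermediateField.adjoin K {h}) h e D)
    (w : Fin n → Place K E) (hw : ∀ v, v ∈ PlacesAt K h c ↔ ∃ i, w i = v) :
    (Matrix.of fun i l => ev hh (w i) (e l)).det ≠ 0 := by
  classical
  intro hdet
  obtain ⟨a, ha0, ha⟩ := Matrix.exists_mulVec_eq_zero_iff.mpr hdet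
  have hwi : ∀ i, w i ∈ PlacesAt K h c := fun i => (hw _).mpr ⟨i, rfl⟩
  have hemem : ∀ i l, e l ∈ (w i).toValuationSubring := fun i l =>
    mem_of_isIntegral h (w i) (mem_of_mem_placesAt (w i) (hwi i)) (e l) (hc.isIntegral l)
  have hyint : IsIntegral (Algebra.adjoin K {h}) (∑ l, aeval h (C (a l)) * e l) :=
    (hc.mem_iff _).mpr ⟨fun l => C (a l), rfl⟩
  have hev : ∀ v ∈ PlacesAt K h c, ev hh v (∑ l, aeval h (C (a l)) * e l) = 0 := by
    intro v hv
    obtain ⟨i, rfl⟩ := (hw v).mp hv
    rw [ev_sum hh (w i) _ _ (fun l _ =>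
      mul_mem (ev_aeval hh (w i) (hwi i) _).1 (hemem i l))]
    have h1 := congrFun ha i
    simp only [Matrix.mulVec, dotProduct, Matrix.of_apply, Pi.zero_apply] at h1
    rw [← h1]
    refine Finset.sum_congr rfl fun l _ => ?_
    rw [ev_mul hh (w i) (ev_aeval hh (w i) (hwi i) _).1 (hemem i l),
      (ev_aeval hh (w i) (hwi i) _).2, eval_C, mul_comm]
  obtain ⟨p, hp⟩ := (hc.mem_iff _).mp (isIntegral_div hh c hord _ hyint hev)
  have hsub0 := sub_ne_zero_of_transcendental hh.1 c
  have hy2 : ∑ l, aeval h (C (a l)) * e l = ∑ l, aeval h ((X - C c) * p l) * e l := by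
    have h1 : ∑ l, aeval h (C (a l)) * e l = (h - algebraMap K E c) *
        ((∑ l, aeval h (C (a l)) * e l) / (h - algebraMap K E c)) := by
      field_simp
    rw [h1, hp, Finset.mul_sum]
    refine Finset.sum_congr rfl fun l _ => ?_
    simp only [map_mul, map_sub, aeval_X, aeval_C]
    ring
  have h3 := hc.coeff_unique hh.1 (mem_adjoin_simple_self K h) hy2
  apply ha0
  funext l
  have h4 := congrArg (eval c) (congrFun h3 l)
  simpa using h4

/-- structure constants of a chart and the discriminant as the determinant of the polynomial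
Gram matrix of the trace form. -/
theorem exists_structure (hh : Transcendental K h) {n : ℕ} {e : Fin n → E} {D : K[X]}
    (hc : IsChart K (IntermediateField.adjoin K {h}) h e D) :
    ∃ A : Fin n → Matrix (Fin n) (Fin n) K[X],
      (∀ a l, e a * e l = ∑ m, aeval h (A a m l) * e m) ∧
      D = (Matrix.of fun a b => Matrix.trace (A a * A b)).det := by
  classical
  have h1 : ∀ a, ∃ P : Matrix (Fin n) (Fin n) K[X],
      ∀ l, e a * e l = ∑ m, aeval h (P m l) * e m :=
    fun a => hc.exists_matrix (fun l => e a * e l)
      (fun l => (hc.isIntegral a).mul (hc.isIntegral l))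
  choose A hA using h1
  refine ⟨A, hA, ?_⟩
  let b : Module.Basis (Fin n) (IntermediateField.adjoin K {h}) E :=
    Module.Basis.mk hc.linearIndependent hc.span_eq_top.ge
  have hb : ∀ i, b i = e i := fun i => Module.Basis.mk_apply _ _ i
  let φ : K[X] →ₐ[K] (IntermediateField.adjoin K {h}) := aeval (AdjoinSimple.gen K h)
  have hφ : ∀ p, algebraMap (IntermediateField.adjoin K {h}) E (φ p) = aeval h p :=
    fun p => coe_aeval_gen h p
  have hL : ∀ a, Algebra.leftMulMatrix b (e a) = (A a).map φ := by
    intro a
    refine Matrix.ext fun m l => ?_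
    rw [Algebra.leftMulMatrix_eq_repr_mul, Matrix.map_apply, hb]
    have h2 : e a * e l = ∑ m, φ (A a m l) • b m := by
      rw [hA a l]
      refine Finset.sum_congr rfl fun m _ => ?_
      rw [hb, Algebra.smul_def, hφ]
    rw [h2, Module.Basis.repr_sum_self]
  have htr : ∀ a b', Algebra.trace (IntermediateField.adjoin K {h}) E (e a * e b')
      = φ (Matrix.trace (A a * A b')) := by
    intro a b'
    rw [Algebra.trace_eq_matrix_trace b, map_mul, hL, hL, AddMonoidHom.map_trace,
      Matrix.map_mul]
  have hdisc : Algebra.discr (IntermediateField.adjoin K {h}) e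
      = φ (Matrix.of fun a b' => Matrix.trace (A a * A b')).det := by
    rw [Algebra.discr_def, AlgHom.map_det]
    congr 1
    refine Matrix.ext fun a b' => ?_
    rw [Algebra.traceMatrix_apply, Algebra.traceForm_apply, htr]
    rfl
  have h5 := hc.discr_eq
  rw [hdisc, hφ] at h5
  exact ((transcendental_iff_injective.mp hh) h5).symm

/-- **unramified ⇒ trivial local discriminant**: if there are `[E : K(h)]` places over
`h = c`, then `discOrd K h c = 0`. -/
theorem discOrd_eq_zero_of_card (hh : IsGenerator K h) (c : K)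
    (hcard : Nat.card (PlacesAt K h c) = Module.finrank (IntermediateField.adjoin K {h}) E) :
    discOrd K h c = 0 := by
  classical
  haveI := hh.2
  haveI : CharZero (IntermediateField.adjoin K {h}) :=
    charZero_of_injective_algebraMap (algebraMap K (IntermediateField.adjoin K {h})).injective
  obtain ⟨e, D, hc⟩ := exists_isChart_aux h hh.1
  have hord := ord_eq_one_of_card hh c hcard
  haveI : Finite (PlacesAt K h c) := (Places.finite_placesAt hh c).to_subtype
  let σ : PlacesAt K h c ≃ Fin (Module.finrank (IntermediateField.adjoin K {h}) E) :=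
    Finite.equivFinOfCardEq hcard
  let w : Fin (Module.finrank (IntermediateField.adjoin K {h}) E) → Place K E :=
    fun i => (σ.symm i : Place K E)
  have hw : ∀ v, v ∈ PlacesAt K h c ↔ ∃ i, w i = v := by
    intro v
    constructor
    · intro hv
      exact ⟨σ ⟨v, hv⟩, by simp [w]⟩
    · rintro ⟨i, rfl⟩
      exact (σ.symm i).2
  have hwi : ∀ i, w i ∈ PlacesAt K h c := fun i => (hw _).mpr ⟨i, rfl⟩
  have hemem : ∀ i l, e l ∈ (w i).toValuationSubring := fun i l =>
    mem_of_isIntegral h (w i) (mem_of_mem_placesAt (w i) (hwi i)) (e l) (hc.isIntegral l)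
  obtain ⟨A, hA, hD⟩ := exists_structure hh.1 hc
  have hdet := det_ev_ne_zero hh c hord hc w hw
  set M : Matrix (Fin (Module.finrank (IntermediateField.adjoin K {h}) E))
      (Fin (Module.finrank (IntermediateField.adjoin K {h}) E)) K :=
    Matrix.of fun i l => ev hh (w i) (e l) with hM
  have hrel : ∀ a, Matrix.diagonal (fun i => M i a) * M = M * (A a).map (eval c) := by
    intro a
    refine Matrix.ext fun i l => ?_
    rw [Matrix.diagonal_mul, Matrix.mul_apply]
    have h1 := congrArg (ev hh (w i)) (hA a l)
    rw [ev_mul hh (w i) (hemem i a) (hemem i l), ev_sum hh (w i) _ _ (fun m _ =>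
      mul_mem (ev_aeval hh (w i) (hwi i) _).1 (hemem i m))] at h1
    rw [show M i a * M i l = ev hh (w i) (e a) * ev hh (w i) (e l) from rfl, h1]
    refine Finset.sum_congr rfl fun m _ => ?_
    rw [ev_mul hh (w i) (ev_aeval hh (w i) (hwi i) _).1 (hemem i m),
      (ev_aeval hh (w i) (hwi i) _).2, mul_comm]
    rfl
  have hunit : IsUnit M.det := isUnit_iff_ne_zero.mpr hdet
  have hgram : (Matrix.of fun a b' => Matrix.trace (A a * A b')).map (eval c)
      = M.transpose * M := by
    refine Matrix.ext fun a b' => ?_
    rw [Matrix.map_apply, Matrix.of_apply]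
    have h1 : eval c (Matrix.trace (A a * A b'))
        = Matrix.trace ((A a).map (eval c) * (A b').map (eval c)) := by
      have := AddMonoidHom.map_trace (evalRingHom c) (A a * A b')
      rw [coe_evalRingHom] at this
      rw [this]
      congr 1
      exact Matrix.map_mul (f := evalRingHom c)
    rw [h1]
    have h2 : Matrix.trace ((A a).map (eval c) * (A b').map (eval c))
        = Matrix.trace (M * (A a).map (eval c) * (A b').map (eval c) * M⁻¹) := by
      rw [Matrix.trace_mul_comm (M * (A a).map (eval c) * (A b').map (eval c)) M⁻¹,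
        ← Matrix.mul_assoc, ← Matrix.mul_assoc, Matrix.nonsing_inv_mul M hunit, Matrix.one_mul]
    rw [h2, ← hrel a, Matrix.mul_assoc (Matrix.diagonal _) M, ← hrel b', ← Matrix.mul_assoc,
      Matrix.mul_assoc _ M M⁻¹, Matrix.mul_nonsing_inv M hunit, Matrix.mul_one,
      Matrix.diagonal_mul_diagonal, Matrix.trace_diagonal, Matrix.mul_apply]
    refine Finset.sum_congr rfl fun i _ => ?_
    rw [Matrix.transpose_apply]
  have hDc : D.eval c = M.det * M.det := by
    rw [hD]
    have h1 := RingHom.map_det (evalRingHom c)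
      (Matrix.of fun a b' => Matrix.trace (A a * A b'))
    rw [coe_evalRingHom] at h1
    rw [h1]
    have h2 : (evalRingHom c).mapMatrix (Matrix.of fun a b' => Matrix.trace (A a * A b'))
        = (Matrix.of fun a b' => Matrix.trace (A a * A b')).map (eval c) := rfl
    rw [h2, hgram, Matrix.det_mul, Matrix.det_transpose]
  have hroot : ¬ D.IsRoot c := by
    rw [IsRoot.def, hDc]
    exact mul_ne_zero hdet hdet
  rw [← hc.rootMultiplicity_eq hh.1 c]
  exact rootMultiplicity_eq_zero hroot

end Main

end Fermat.Agent.S18.Unram
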