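import Mathlib
import Fermat.Agent.S18_Hub
import Fermat.Agent.S18_Charts
import Fermat.Agent.S18_G2
import Fermat.Agent.S18_Unram
import Fermat.Agent.S18_E1Defs
import Fermat.Agent.S24_Places

/-!
# S18: the G2 assembly from the chart inequalities in the shape of `E1.E_chart`

* `placesAt_inv`: the places over `h⁻¹ = c` are the places over `h = c⁻¹` (`c ≠ 0`).
* `hunr_fin`, `hunr_inf`: the unramifiedness hypotheses of `E1.E_chart` on the two charts
  (`x = h` at `b ∈ B`, `x = h⁻¹` at `0`) from "unramified outside `B`" and the injectivity of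
  the reduction on `B`.
* `G2_of_E`: `G.G2 g` from the conclusions of `E1.E_chart` at `B ∪ {∞}`, the two `ChartVal`s,
  the genus formula and Riemann–Hurwitz (in the shape of `H1.exists_genus`).
-/

set_option autoImplicit false
set_option linter.style.haveILetI false
set_option linter.unusedSectionVars false

noncomputable section

open Polynomial IntermediateField AlgebraicCurve Fermat.Agent.S24

namespace Fermat.Agent.S18.G2

open Fermat.Agent.S18.Charts

section PlacesInv

variable {K E : Type*} [Field K] [IsAlgClosed K] [Field E] [Algebra K E]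

theorem placesAt_subset_inv (h : E) (c : K) (hc : c ≠ 0) :
    PlacesAt K h c ⊆ PlacesAt K h⁻¹ c⁻¹ := by
  intro v hv
  have hv' : 0 < v.ord (h - algebraMap K E c) := hv
  have hc' : algebraMap K E c ≠ 0 := by rw [Ne, map_eq_zero]; exact hc
  have hh0 : h ≠ 0 := by
    rintro rfl
    have h1 : (0 : E) - algebraMap K E c = algebraMap K E (-c) := by rw [map_neg]; ring
    rw [h1, Places.ord_algebraMap] at hv'
    exact lt_irrefl _ hv'
  have hsub0 : h - algebraMap K E c ≠ 0 := by
    intro h0
    rw [h0, Place.ord_zero] at hv'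
    exact lt_irrefl _ hv'
  have hmem : h ∈ v.toValuationSubring := by
    have := add_mem (Places.mem_of_ord_nonneg v hv'.le) (v.algebraMap_mem' c)
    simpa using this
  have h1 : 0 ≤ v.ord h := Places.ord_nonneg_of_mem v hmem
  have h2 : ¬ 0 < v.ord h := by
    intro hpos
    have hv0 : v ∈ PlacesAt K h 0 := by
      change 0 < v.ord (h - algebraMap K E 0)
      rwa [map_zero, sub_zero]
    exact Set.disjoint_left.mp (Places.placesAt_disjoint (x := h) c 0 hc) hv hv0
  have hord : v.ord h = 0 := by omega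
  have hid : h⁻¹ - algebraMap K E c⁻¹
      = (h - algebraMap K E c) * (h⁻¹ * algebraMap K E (-c⁻¹)) := by
    rw [map_neg, map_inv₀]
    field_simp
    ring
  have hc2 : algebraMap K E (-c⁻¹) ≠ 0 := by
    rw [Ne, map_eq_zero]; exact neg_ne_zero.mpr (inv_ne_zero hc)
  change 0 < v.ord (h⁻¹ - algebraMap K E c⁻¹)
  rw [hid, v.ord_mul hsub0 (mul_ne_zero (inv_ne_zero hh0) hc2),
    v.ord_mul (inv_ne_zero hh0) hc2, v.ord_inv, hord, Places.ord_algebraMap]
  omega

/-- the places over `h⁻¹ = c` are the places over `h = c⁻¹`. -/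
theorem placesAt_inv (h : E) (c : K) (hc : c ≠ 0) :
    PlacesAt K h⁻¹ c = PlacesAt K h c⁻¹ := by
  apply Set.Subset.antisymm
  · have := placesAt_subset_inv (K := K) h⁻¹ c hc
    rwa [inv_inv] at this
  · have := placesAt_subset_inv (K := K) h c⁻¹ (inv_ne_zero hc)
    rwa [inv_inv] at this

end PlacesInv

variable {L F : Type*} [Field L] [Field F] [Algebra L F]

theorem isGenerator_inv [IsAlgClosed L] [CharZero L] {h : F} (hh : IsGenerator L h) :
    IsGenerator L h⁻¹ :=
  Places.isGenerator_of_transcendental hh (Places.transcendental_inv hh.1)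

/-- the unramifiedness hypothesis of `E1.E_chart` on the finite chart. -/
theorem hunr_fin [IsAlgClosed L] [CharZero L] {O : ValuationSubring L} {h : F}
    (hh : IsGenerator L h) (B : Finset O)
    (hB : Set.InjOn (IsLocalRing.residue O) (B : Set O))
    (hunr : ∀ c : L, (∀ b ∈ B, (b : L) ≠ c) →
      Nat.card (PlacesAt L h c) = Module.finrank (IntermediateField.adjoin L {h}) F)
    (b : O) (hb : b ∈ B) (c : O) (hcb : c ≠ b)
    (hv : O.valuation ((c : L) - (b : L)) < 1) : discOrd L h (c : L) = 0 := by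
  apply Unram.discOrd_eq_zero_of_card hh
  apply hunr
  intro b' hb' heq
  obtain rfl : b' = c := Subtype.ext heq
  apply hcb
  apply hB (Finset.mem_coe.mpr hb') (Finset.mem_coe.mpr hb)
  have h1 : b' - b ∈ IsLocalRing.maximalIdeal O :=
    (ValuationSubring.valuation_lt_one_iff O (b' - b)).mpr hv
  exact Ideal.Quotient.eq.mpr h1

/-- the unramifiedness hypothesis of `E1.E_chart` on the chart at infinity. -/
theorem hunr_inf [IsAlgClosed L] [CharZero L] {O : ValuationSubring L} {h : F}
    (hh : IsGenerator L h) (B : Finset O)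
    (hunr : ∀ c : L, (∀ b ∈ B, (b : L) ≠ c) →
      Nat.card (PlacesAt L h c) = Module.finrank (IntermediateField.adjoin L {h}) F)
    (c : O) (hc0 : c ≠ 0)
    (hv : O.valuation ((c : L) - ((0 : O) : L)) < 1) : discOrd L h⁻¹ (c : L) = 0 := by
  have hc0' : (c : L) ≠ 0 := fun h0 => hc0 (Subtype.ext h0)
  apply Unram.discOrd_eq_zero_of_card (isGenerator_inv hh)
  rw [placesAt_inv h (c : L) hc0', Places.finrank_adjoin_inv]
  apply hunr
  intro b' _ heq
  have h1 : c ∈ IsLocalRing.maximalIdeal O := by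
    apply (ValuationSubring.valuation_lt_one_iff O c).mpr
    simpa using hv
  have h2 : c * b' = 1 := by
    apply Subtype.ext
    push_cast
    rw [heq, mul_inv_cancel₀ hc0']
  exact (IsLocalRing.mem_maximalIdeal c).mp h1 (IsUnit.of_mul_eq_one b' h2)

/-- consequences of a `ChartVal` for the residue field. -/
theorem chartVal_bar {O : ValuationSubring L} {h : F} (G : GoodVal O h) {x : F}
    {Kx : IntermediateField L F} {Kbar : IntermediateField (IsLocalRing.ResidueField O) G.κ}
    {n : ℕ} (hC : E1.ChartVal G x Kx Kbar n) :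
    Module.finrank (IntermediateField.adjoin (IsLocalRing.ResidueField O)
        {G.ρ ⟨x, hC.x_mem⟩}) G.κ = n ∧
      Algebra.IsSeparable (IntermediateField.adjoin (IsLocalRing.ResidueField O)
        {G.ρ ⟨x, hC.x_mem⟩}) G.κ ∧
      Module.finrank (IntermediateField.adjoin L {x}) F = n := by
  obtain ⟨hKx, hxm, hxt, hKb, hxbt, hfr, hfrb, hsep, -, -, -⟩ := hC
  subst hKx
  subst hKb
  exact ⟨hfrb, hsep, hfr⟩

/-- **G2 from the chart inequalities** (`hE0`, `hEi` are the conclusions of `E1.E_chart` for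
`x = h`, `b ∈ B` and for `x = h⁻¹`, `b = 0`; `hRH` is Riemann–Hurwitz over `B`). -/
theorem G2_of_E [IsAlgClosed L] [CharZero L] {O : ValuationSubring L} {h : F}
    (G : GoodVal O h) (hh : IsGenerator L h)
    {K0 Ki : IntermediateField L F}
    {Kb0 Kbi : IntermediateField (IsLocalRing.ResidueField O) G.κ} {n : ℕ}
    (hC0 : E1.ChartVal G h K0 Kb0 n) (hCi : E1.ChartVal G h⁻¹ Ki Kbi n)
    (B : Finset O) (hB : Set.InjOn (IsLocalRing.residue O) (B : Set O))
    (hE0 : ∀ b ∈ B, 2 * n ≤ 2 * Nat.card (PlacesAt L h (b : L))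
        + discOrd (IsLocalRing.ResidueField O) (G.ρ ⟨h, hC0.x_mem⟩) (IsLocalRing.residue O b)
        + discOrd L h (b : L))
    (hEi : 2 * n ≤ 2 * Nat.card (PlacesAt L h⁻¹ ((0 : O) : L))
        + discOrd (IsLocalRing.ResidueField O) (G.ρ ⟨h⁻¹, hCi.x_mem⟩) (IsLocalRing.residue O 0)
        + discOrd L h⁻¹ ((0 : O) : L))
    (g : ℤ) (hg : GenusFormula L F g)
    (hRH : 2 * g - 2 = ∑ b ∈ B, ((Module.finrank (IntermediateField.adjoin L {h}) F : ℤ)
          - Nat.card (PlacesAt L h (b : L)))
        - Module.finrank (IntermediateField.adjoin L {h}) F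
        - Nat.card {v : Place L F | v.ord h < 0}) :
    G.G2 g := by
  classical
  haveI := hh.2
  obtain ⟨hfrb, hsep, hfr⟩ := chartVal_bar G hC0
  have hbar : G.ρ ⟨h, hC0.x_mem⟩ = G.hbar := rfl
  rw [hbar] at hfrb hsep
  have hnpos : 0 < n := by
    rw [← hfr]
    exact Module.finrank_pos
  haveI : FiniteDimensional
      (IntermediateField.adjoin (IsLocalRing.ResidueField O) {G.hbar}) G.κ :=
    Module.finite_of_finrank_pos (by rw [hfrb]; exact hnpos)
  haveI := hsep
  have hh0 : h ≠ 0 := by
    rintro rfl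
    exact hh.1 (isAlgebraic_zero)
  have hinvbar : G.ρ ⟨h⁻¹, hCi.x_mem⟩ = G.hbar⁻¹ := by
    apply eq_inv_of_mul_eq_one_left
    rw [GoodVal.hbar, ← map_mul]
    have : (⟨h⁻¹, hCi.x_mem⟩ : G.V) * ⟨h, G.h_mem⟩ = 1 :=
      Subtype.ext (inv_mul_cancel₀ hh0)
    rw [this, map_one]
  refine G2_of_charts G hh hC0.xbar_transcendental (hfrb.trans hfr.symm) B hB ?_ ?_ g hg hRH
  · intro b hb
    rw [hfr]
    exact hE0 b hb
  · rw [hfr]
    have h1 := hEi
    rw [hinvbar, map_zero, ZeroMemClass.coe_zero, Places.placesAt_inv_zero] at h1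
    exact h1

end Fermat.Agent.S18.G2
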