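import Mathlib
import Fermat.Agent.S18_Hub
import Fermat.Agent.S18_Charts
import Fermat.Agent.S18_G2
import Fermat.Agent.S18_G2E
import Fermat.Agent.S18_Unram
import Fermat.Agent.S18_E1Defs
import Fermat.Agent.S18_Genus
import Fermat.Agent.S24_Places

/-!
# S18: the genus and `G2` from the chart inequalities

`exists_G2`: from the two `ChartVal`s (charts `h` and `h⁻¹`), a finite branch set `B ⊂ O` on
which the reduction is injective, unramifiedness of `h` outside `B ∪ {∞}`, and the chart
inequalities `[E]` (hypotheses `hE0`, `hEi`: exactly the statement of `E1.E_chart` for `x = h`,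
`b ∈ B` and `x = h⁻¹`, `b = 0`, including its unramifiedness hypothesis), there is `g` with
`GenusFormula L F g` and `G.G2 g`.
-/

set_option autoImplicit false
set_option linter.style.haveILetI false
set_option linter.unusedSectionVars false

noncomputable section

open Polynomial IntermediateField AlgebraicCurve Fermat.Agent.S24

namespace Fermat.Agent.S18.G2

open Fermat.Agent.S18.Charts

variable {L F : Type*} [Field L] [Field F] [Algebra L F]

/-- **the genus and G2.** -/
theorem exists_G2 [IsAlgClosed L] [CharZero L] {O : ValuationSubring L} {h : F}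
    (G : GoodVal O h) (hh : IsGenerator L h)
    {K0 Ki : IntermediateField L F}
    {Kb0 Kbi : IntermediateField (IsLocalRing.ResidueField O) G.κ} {n : ℕ}
    (hC0 : E1.ChartVal G h K0 Kb0 n) (hCi : E1.ChartVal G h⁻¹ Ki Kbi n)
    (B : Finset O) (hB : Set.InjOn (IsLocalRing.residue O) (B : Set O))
    (hunr : ∀ c : L, (∀ b ∈ B, (b : L) ≠ c) →
      Nat.card (PlacesAt L h c) = Module.finrank (IntermediateField.adjoin L {h}) F)
    (hE0 : ∀ b ∈ B,
      (∀ c : O, c ≠ b → O.valuation ((c : L) - (b : L)) < 1 → discOrd L h (c : L) = 0) →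
      2 * n ≤ 2 * Nat.card (PlacesAt L h (b : L))
        + discOrd (IsLocalRing.ResidueField O) (G.ρ ⟨h, hC0.x_mem⟩) (IsLocalRing.residue O b)
        + discOrd L h (b : L))
    (hEi : (∀ c : O, c ≠ 0 → O.valuation ((c : L) - ((0 : O) : L)) < 1 →
        discOrd L h⁻¹ (c : L) = 0) →
      2 * n ≤ 2 * Nat.card (PlacesAt L h⁻¹ ((0 : O) : L))
        + discOrd (IsLocalRing.ResidueField O) (G.ρ ⟨h⁻¹, hCi.x_mem⟩) (IsLocalRing.residue O 0)
        + discOrd L h⁻¹ ((0 : O) : L)) :
    ∃ g : ℤ, GenusFormula L F g ∧ G.G2 g := by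
  classical
  have hS : ∀ x₀ : L, x₀ ∉ B.image (fun b : O => (b : L)) →
      Nat.card (PlacesAt L h x₀) = Module.finrank (IntermediateField.adjoin L {h}) F := by
    intro x₀ hx₀
    apply hunr
    intro b hb heq
    exact hx₀ (Finset.mem_image.mpr ⟨b, hb, heq⟩)
  obtain ⟨g, hg, hRH⟩ := Genus.exists_genus hh (B.image (fun b : O => (b : L))) hS
  refine ⟨g, hg, G2_of_E G hh hC0 hCi B hB
    (fun b hb => hE0 b hb (fun c hcb hv => hunr_fin hh B hB hunr b hb c hcb hv))
    (hEi (fun c hc0 hv => hunr_inf hh B hunr c hc0 hv)) g hg ?_⟩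
  rw [hRH, Finset.sum_image (fun x _ y _ hxy => Subtype.ext hxy)]

end Fermat.Agent.S18.G2
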