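import Mathlib

set_option autoImplicit false
set_option linter.style.haveILetI false
set_option linter.unusedSectionVars false

noncomputable section

open Polynomial

namespace Fermat.Agent.S18.D2

/-- Abstract "Gauss datum": a valuation subring `𝒪` of the function field `F ⊇ L(h) = K`
which is the Gauss extension on `K` and is free over `𝒪 ∩ K` on a `K`-basis of `F`. -/
structure GaussDatum (L : Type*) {F : Type*} [Field L] [Field F] [Algebra L F]
    (𝒪 : ValuationSubring F) (h : F) (K : IntermediateField L F) (n : ℕ) where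
  K_eq : K = IntermediateField.adjoin L {h}
  h_mem : h ∈ 𝒪
  hinv_mem : h⁻¹ ∈ 𝒪
  /-- Gauss: a polynomial in `h` with coefficients in `𝒪 ∩ L`, one of them a unit, is a unit. -/
  inv_aeval_mem : ∀ p : L[X], (∀ i, algebraMap L F (p.coeff i) ∈ 𝒪) →
    (∃ i, p.coeff i ≠ 0 ∧ (algebraMap L F (p.coeff i))⁻¹ ∈ 𝒪) → (Polynomial.aeval h p)⁻¹ ∈ 𝒪
  B : Module.Basis (Fin n) K F
  B_mem : ∀ i, B i ∈ 𝒪
  repr_mem : ∀ y ∈ 𝒪, ∀ i, ((B.repr y i : K) : F) ∈ 𝒪

variable {L F : Type*} [Field L] [Field F] [Algebra L F]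
  {𝒪 : ValuationSubring F} {h : F} {K : IntermediateField L F} {n : ℕ}

theorem aeval_mem_of_coeff_mem (𝒪 : ValuationSubring F) {h : F} (hh : h ∈ 𝒪) (p : L[X])
    (hp : ∀ i, algebraMap L F (p.coeff i) ∈ 𝒪) : Polynomial.aeval h p ∈ 𝒪 := by
  rw [Polynomial.aeval_eq_sum_range]
  refine sum_mem fun i _ => ?_
  rw [Algebra.smul_def]
  exact mul_mem (hp i) (pow_mem hh i)

/-- a nonzero polynomial is a constant times a primitive polynomial (w.r.t. `𝒪 ∩ L`) -/
theorem exists_primitive (𝒪 : ValuationSubring F) (p : L[X]) (hp : p ≠ 0) :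
    ∃ (c : L) (q : L[X]), c ≠ 0 ∧ p = C c * q ∧ (∀ i, algebraMap L F (q.coeff i) ∈ 𝒪) ∧
      ∃ i, q.coeff i = 1 := by
  classical
  have hne : p.support.Nonempty := Polynomial.support_nonempty.mpr hp
  obtain ⟨i₀, hi₀, hmax⟩ := Finset.exists_max_image p.support
    (fun i => 𝒪.valuation (algebraMap L F (p.coeff i))) hne
  have hc0 : p.coeff i₀ ≠ 0 := Polynomial.mem_support_iff.mp hi₀
  have hc0F : algebraMap L F (p.coeff i₀) ≠ 0 := by
    rwa [Ne, map_eq_zero]
  refine ⟨p.coeff i₀, C (p.coeff i₀)⁻¹ * p, hc0, ?_, ?_, i₀, ?_⟩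
  · rw [← mul_assoc, ← C_mul, mul_inv_cancel₀ hc0, C_1, one_mul]
  · intro i
    rw [coeff_C_mul, map_mul, map_inv₀]
    by_cases hi : i ∈ p.support
    · rw [← ValuationSubring.valuation_le_one_iff, map_mul, map_inv₀]
      have h1 := hmax i hi
      have hv0 : 𝒪.valuation (algebraMap L F (p.coeff i₀)) ≠ 0 := by
        rwa [Ne, map_eq_zero]
      rw [inv_mul_le_iff₀ (zero_lt_iff.mpr hv0), mul_one]
      exact h1
    · rw [Polynomial.notMem_support_iff.mp hi, map_zero, mul_zero]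
      exact 𝒪.zero_mem
  · rw [coeff_C_mul, inv_mul_cancel₀ hc0]

/-- Gauss lemma: `p(h) ∈ 𝒪` iff all coefficients are in `𝒪`. -/
theorem GaussDatum.aeval_mem_iff (G : GaussDatum L 𝒪 h K n) (hh : Transcendental L h)
    (p : L[X]) :
    Polynomial.aeval h p ∈ 𝒪 ↔ ∀ i, algebraMap L F (p.coeff i) ∈ 𝒪 := by
  refine ⟨fun hmem => ?_, aeval_mem_of_coeff_mem 𝒪 G.h_mem p⟩
  rcases eq_or_ne p 0 with rfl | hp
  · intro i; simp [𝒪.zero_mem]
  obtain ⟨c, q, hc, rfl, hq, i₁, hi₁⟩ := exists_primitive 𝒪 p hp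
  have hq0 : q ≠ 0 := by
    rintro rfl
    simp at hi₁
  have hunit : (Polynomial.aeval h q)⁻¹ ∈ 𝒪 :=
    G.inv_aeval_mem q hq ⟨i₁, by rw [hi₁]; exact one_ne_zero, by
      rw [hi₁, map_one, inv_one]; exact 𝒪.one_mem⟩
  have hne : Polynomial.aeval h q ≠ 0 := fun h0 =>
    hq0 ((transcendental_iff.mp hh) q h0)
  have hcmem : algebraMap L F c ∈ 𝒪 := by
    have : algebraMap L F c = Polynomial.aeval h (C c * q) * (Polynomial.aeval h q)⁻¹ := by
      rw [map_mul, Polynomial.aeval_C, mul_assoc, mul_inv_cancel₀ hne, mul_one]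
    rw [this]
    exact mul_mem hmem hunit
  intro i
  rw [coeff_C_mul, map_mul]
  exact mul_mem hcmem (hq i)

/-- a primitive polynomial in `h` is a unit of `𝒪` -/
theorem GaussDatum.aeval_primitive_unit (G : GaussDatum L 𝒪 h K n) (q : L[X])
    (hq : ∀ i, algebraMap L F (q.coeff i) ∈ 𝒪) (i₁ : ℕ) (hi₁ : q.coeff i₁ = 1) :
    (Polynomial.aeval h q)⁻¹ ∈ 𝒪 :=
  G.inv_aeval_mem q hq ⟨i₁, by rw [hi₁]; exact one_ne_zero, by
    rw [hi₁, map_one, inv_one]; exact 𝒪.one_mem⟩

theorem adjoin_inv' (x : F) :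
    IntermediateField.adjoin L {x⁻¹} = IntermediateField.adjoin L {x} := by
  apply le_antisymm
  · rw [IntermediateField.adjoin_simple_le_iff]
    exact inv_mem (IntermediateField.mem_adjoin_simple_self L x)
  · rw [IntermediateField.adjoin_simple_le_iff]
    have := inv_mem (IntermediateField.mem_adjoin_simple_self L x⁻¹)
    rwa [inv_inv] at this

/-- the datum for `h⁻¹` -/
def GaussDatum.inv (G : GaussDatum L 𝒪 h K n) : GaussDatum L 𝒪 h⁻¹ K n where
  K_eq := G.K_eq.trans (adjoin_inv' h).symm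
  h_mem := G.hinv_mem
  hinv_mem := by rw [inv_inv]; exact G.h_mem
  inv_aeval_mem := by
    intro p hp hu
    rcases eq_or_ne h 0 with h0 | h0
    · have := G.inv_aeval_mem p hp hu
      rwa [h0, inv_zero, ← h0]
    · letI : Invertible h⁻¹ := invertibleOfNonzero (inv_ne_zero h0)
      have hrev := Polynomial.eval₂_reverse_mul_pow (algebraMap L F) h⁻¹ p
      rw [invOf_eq_inv, inv_inv] at hrev
      have hrev' : Polynomial.aeval h⁻¹ p = Polynomial.aeval h p.reverse * h⁻¹ ^ p.natDegree := by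
        rw [Polynomial.aeval_def, Polynomial.aeval_def, hrev]
      rw [hrev', mul_inv, ← inv_pow, inv_inv]
      refine mul_mem (G.inv_aeval_mem p.reverse ?_ ?_) (pow_mem G.h_mem _)
      · intro i
        rw [Polynomial.coeff_reverse]
        exact hp _
      · obtain ⟨i, hi0, hi⟩ := hu
        have hile : i ≤ p.natDegree := Polynomial.le_natDegree_of_ne_zero hi0
        refine ⟨p.natDegree - i, ?_, ?_⟩
        · rw [Polynomial.coeff_reverse, Polynomial.revAt_le (Nat.sub_le _ _),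
            Nat.sub_sub_self hile]
          exact hi0
        · rw [Polynomial.coeff_reverse, Polynomial.revAt_le (Nat.sub_le _ _),
            Nat.sub_sub_self hile]
          exact hi
  B := G.B
  B_mem := G.B_mem
  repr_mem := G.repr_mem

end Fermat.Agent.S18.D2
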