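/-
S18 moonshot, WP-D2 (helper8): traces, norms and multiplication matrices for a Gauss datum.

For `y ∈ 𝒪` the matrix of multiplication by `y` in the basis `B` has entries in `𝒪 ∩ K`; if
`ρ₀ : 𝒪 ∩ K → E₀`, `ρ : 𝒪 → E` are compatible ring homomorphisms and `ρ (B i)` is an `E₀`-basis
of `E`, this matrix reduces to the matrix of multiplication by `ρ y`.  Hence trace, norm and
characteristic polynomial of `y` over `K` are integral and reduce to those of `ρ y` over `E₀`.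
-/
import Mathlib
import Fermat.Agent.S18_D2Defs

set_option autoImplicit false
set_option linter.style.haveILetI false
set_option linter.unusedSectionVars false

noncomputable section

open Polynomial

namespace Fermat.Agent.S18.D2

variable {L F : Type*} [Field L] [Field F] [Algebra L F]
  {𝒪 : ValuationSubring F} {h : F} {K : IntermediateField L F} {n : ℕ}

section Trace

/-- the matrix of multiplication by an element of `𝒪` in the basis `B` has entries in `𝒪 ∩ K` -/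
theorem GaussDatum.leftMulMatrix_mem (G : GaussDatum L 𝒪 h K n) {y : F} (hy : y ∈ 𝒪)
    (i j : Fin n) : Algebra.leftMulMatrix G.B y i j ∈ 𝒪.comap (algebraMap K F) := by
  rw [Algebra.leftMulMatrix_eq_repr_mul]
  exact G.repr_mem _ (𝒪.mul_mem _ _ hy (G.B_mem j)) i

/-- the trace of an element of `𝒪` lies in `𝒪 ∩ K` -/
theorem GaussDatum.trace_mem (G : GaussDatum L 𝒪 h K n) {y : F} (hy : y ∈ 𝒪) :
    Algebra.trace K F y ∈ 𝒪.comap (algebraMap K F) := by
  rw [Algebra.trace_eq_matrix_trace G.B y, Matrix.trace]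
  exact sum_mem fun i _ => G.leftMulMatrix_mem hy i i

/-- the norm of an element of `𝒪` lies in `𝒪 ∩ K` -/
theorem GaussDatum.norm_mem (G : GaussDatum L 𝒪 h K n) {y : F} (hy : y ∈ 𝒪) :
    Algebra.norm K y ∈ 𝒪.comap (algebraMap K F) := by
  rw [Algebra.norm_eq_matrix_det G.B y, Matrix.det_apply]
  refine sum_mem fun σ _ => ?_
  rw [Units.smul_def, zsmul_eq_mul]
  refine mul_mem (intCast_mem _ _) (prod_mem fun i _ => G.leftMulMatrix_mem hy _ _)

variable {E₀ E : Type*} [Field E₀] [Field E] [Algebra E₀ E]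

/-- REDUCTION of the multiplication matrix: if `ρ₀ : 𝒪 ∩ K → E₀` and `ρ : 𝒪 → E` are compatible
ring homomorphisms and the images `ρ (B i)` form an `E₀`-basis `b̄` of `E`, then the matrix of
multiplication by `ρ y` in `b̄` is the image under `ρ₀` of the matrix of `y` in `B`. -/
theorem GaussDatum.map_leftMulMatrix (G : GaussDatum L 𝒪 h K n)
    (ρ₀ : ↥(𝒪.comap (algebraMap K F)) →+* E₀) (ρ : ↥𝒪 →+* E)
    (hcomp : ∀ c : ↥(𝒪.comap (algebraMap K F)),
      algebraMap E₀ E (ρ₀ c) = ρ ⟨algebraMap K F (c : K), c.2⟩)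
    (b' : Module.Basis (Fin n) E₀ E) (hb' : ∀ i, b' i = ρ ⟨G.B i, G.B_mem i⟩)
    (y : ↥𝒪) (i j : Fin n) :
    ρ₀ ⟨Algebra.leftMulMatrix G.B (y : F) i j, G.leftMulMatrix_mem y.2 i j⟩ =
      Algebra.leftMulMatrix b' (ρ y) i j := by
  rw [Algebra.leftMulMatrix_eq_repr_mul b']
  have hsum : ρ y * b' j = ∑ i', (ρ₀ ⟨Algebra.leftMulMatrix G.B (y : F) i' j,
      G.leftMulMatrix_mem y.2 i' j⟩) • b' i' := by
    have h1 : (y : F) * G.B j = ∑ i', (Algebra.leftMulMatrix G.B (y : F) i' j) • G.B i' := by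
      conv_lhs => rw [← G.B.sum_repr ((y : F) * G.B j)]
      refine Finset.sum_congr rfl fun i' _ => ?_
      rw [Algebra.leftMulMatrix_eq_repr_mul]
    have h2 : y * ⟨G.B j, G.B_mem j⟩ = ∑ i', (⟨algebraMap K F (Algebra.leftMulMatrix G.B (y : F) i' j),
        G.leftMulMatrix_mem y.2 i' j⟩ : ↥𝒪) * ⟨G.B i', G.B_mem i'⟩ := by
      apply Subtype.ext
      rw [MulMemClass.coe_mul, h1, AddSubmonoidClass.coe_finsetSum]
      refine Finset.sum_congr rfl fun i' _ => ?_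
      rw [MulMemClass.coe_mul, Algebra.smul_def]
    rw [hb' j, ← map_mul, h2, map_sum]
    refine Finset.sum_congr rfl fun i' _ => ?_
    rw [map_mul, Algebra.smul_def, hcomp, hb' i']
  rw [hsum, b'.repr_sum_self]

/-- REDUCTION of the trace. -/
theorem GaussDatum.map_trace (G : GaussDatum L 𝒪 h K n)
    (ρ₀ : ↥(𝒪.comap (algebraMap K F)) →+* E₀) (ρ : ↥𝒪 →+* E)
    (hcomp : ∀ c : ↥(𝒪.comap (algebraMap K F)),
      algebraMap E₀ E (ρ₀ c) = ρ ⟨algebraMap K F (c : K), c.2⟩)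
    (b' : Module.Basis (Fin n) E₀ E) (hb' : ∀ i, b' i = ρ ⟨G.B i, G.B_mem i⟩)
    (y : ↥𝒪) :
    ρ₀ ⟨Algebra.trace K F (y : F), G.trace_mem y.2⟩ = Algebra.trace E₀ E (ρ y) := by
  rw [Algebra.trace_eq_matrix_trace b' (ρ y), Matrix.trace]
  have h1 : (⟨Algebra.trace K F (y : F), G.trace_mem y.2⟩ : ↥(𝒪.comap (algebraMap K F))) =
      ∑ i, ⟨Algebra.leftMulMatrix G.B (y : F) i i, G.leftMulMatrix_mem y.2 i i⟩ := by
    apply Subtype.ext
    rw [AddSubmonoidClass.coe_finsetSum]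
    show Algebra.trace K F (y : F) = ∑ i, Algebra.leftMulMatrix G.B (y : F) i i
    rw [Algebra.trace_eq_matrix_trace G.B (y : F), Matrix.trace]
    rfl
  rw [h1, map_sum]
  refine Finset.sum_congr rfl fun i _ => ?_
  rw [Matrix.diag_apply]
  exact G.map_leftMulMatrix ρ₀ ρ hcomp b' hb' y i i

/-- REDUCTION of the norm. -/
theorem GaussDatum.map_norm (G : GaussDatum L 𝒪 h K n)
    (ρ₀ : ↥(𝒪.comap (algebraMap K F)) →+* E₀) (ρ : ↥𝒪 →+* E)
    (hcomp : ∀ c : ↥(𝒪.comap (algebraMap K F)),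
      algebraMap E₀ E (ρ₀ c) = ρ ⟨algebraMap K F (c : K), c.2⟩)
    (b' : Module.Basis (Fin n) E₀ E) (hb' : ∀ i, b' i = ρ ⟨G.B i, G.B_mem i⟩)
    (y : ↥𝒪) :
    ρ₀ ⟨Algebra.norm K (y : F), G.norm_mem y.2⟩ = Algebra.norm E₀ (ρ y) := by
  rw [Algebra.norm_eq_matrix_det b' (ρ y)]
  have hM : Algebra.leftMulMatrix b' (ρ y) =
      (Matrix.of fun i j => (⟨Algebra.leftMulMatrix G.B (y : F) i j,
        G.leftMulMatrix_mem y.2 i j⟩ : ↥(𝒪.comap (algebraMap K F)))).map ρ₀ := by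
    ext i j
    rw [Matrix.map_apply, Matrix.of_apply]
    exact (G.map_leftMulMatrix ρ₀ ρ hcomp b' hb' y i j).symm
  rw [hM, ← RingHom.mapMatrix_apply, ← RingHom.map_det]
  congr 1
  apply Subtype.ext
  show Algebra.norm K (y : F) = (𝒪.comap (algebraMap K F)).subtype (Matrix.of fun i j =>
        (⟨Algebra.leftMulMatrix G.B (y : F) i j,
        G.leftMulMatrix_mem y.2 i j⟩ : ↥(𝒪.comap (algebraMap K F)))).det
  rw [Algebra.norm_eq_matrix_det G.B (y : F), RingHom.map_det]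
  congr 1

/-- the matrix of multiplication by `y ∈ 𝒪` in the basis `B`, with entries in `𝒪 ∩ K` -/
def GaussDatum.mulMatrix (G : GaussDatum L 𝒪 h K n) (y : ↥𝒪) :
    Matrix (Fin n) (Fin n) ↥(𝒪.comap (algebraMap K F)) :=
  Matrix.of fun i j => ⟨Algebra.leftMulMatrix G.B (y : F) i j, G.leftMulMatrix_mem y.2 i j⟩

theorem GaussDatum.mulMatrix_map_subtype (G : GaussDatum L 𝒪 h K n) (y : ↥𝒪) :
    (G.mulMatrix y).map (𝒪.comap (algebraMap K F)).subtype = Algebra.leftMulMatrix G.B (y : F) := by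
  ext i j
  rfl

/-- REDUCTION of the multiplication matrix, matrix form. -/
theorem GaussDatum.map_mulMatrix (G : GaussDatum L 𝒪 h K n)
    (ρ₀ : ↥(𝒪.comap (algebraMap K F)) →+* E₀) (ρ : ↥𝒪 →+* E)
    (hcomp : ∀ c : ↥(𝒪.comap (algebraMap K F)),
      algebraMap E₀ E (ρ₀ c) = ρ ⟨algebraMap K F (c : K), c.2⟩)
    (b' : Module.Basis (Fin n) E₀ E) (hb' : ∀ i, b' i = ρ ⟨G.B i, G.B_mem i⟩)
    (y : ↥𝒪) :
    (G.mulMatrix y).map ρ₀ = Algebra.leftMulMatrix b' (ρ y) := by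
  ext i j
  exact G.map_leftMulMatrix ρ₀ ρ hcomp b' hb' y i j

/-- REDUCTION of the characteristic polynomial. -/
theorem GaussDatum.map_charpoly (G : GaussDatum L 𝒪 h K n)
    (ρ₀ : ↥(𝒪.comap (algebraMap K F)) →+* E₀) (ρ : ↥𝒪 →+* E)
    (hcomp : ∀ c : ↥(𝒪.comap (algebraMap K F)),
      algebraMap E₀ E (ρ₀ c) = ρ ⟨algebraMap K F (c : K), c.2⟩)
    (b' : Module.Basis (Fin n) E₀ E) (hb' : ∀ i, b' i = ρ ⟨G.B i, G.B_mem i⟩)
    (y : ↥𝒪) :
    (G.mulMatrix y).charpoly.map ρ₀ = (Algebra.leftMulMatrix b' (ρ y)).charpoly := by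
  rw [← G.map_mulMatrix ρ₀ ρ hcomp b' hb' y, Matrix.charpoly_map]

/-- the characteristic polynomial of `y` over `K` comes from `𝒪 ∩ K` -/
theorem GaussDatum.charpoly_map_subtype (G : GaussDatum L 𝒪 h K n) (y : ↥𝒪) :
    (G.mulMatrix y).charpoly.map (𝒪.comap (algebraMap K F)).subtype =
      (Algebra.leftMulMatrix G.B (y : F)).charpoly := by
  rw [← G.mulMatrix_map_subtype y, Matrix.charpoly_map]

end Trace

end Fermat.Agent.S18.D2
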