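/-
S18 moonshot, WP-D2 (helper8): the residue field of a Gauss datum inside a `GoodVal`.

For `G : GoodVal O h` and a Gauss datum `D : GaussDatum L G.V x Kx n` with `x` transcendental:
* `transcendental_res`: `x̄ = G.ρ x` is transcendental over `k`;
* `res_mem`: the reduction of `V ∩ L(x)` lies in `k(x̄)`;
* `resK : V ∩ L(x) →+* k(x̄)` is surjective;
* `resBasis`: the reductions of the basis `D.B` form a `k(x̄)`-basis of `κ`;
* `res_trace`: the trace commutes with reduction.
-/
import Mathlib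
import Fermat.Agent.S18_Hub
import Fermat.Agent.S18_D2Defs
import Fermat.Agent.S18_D2Trace

set_option autoImplicit false
set_option linter.style.haveILetI false
set_option linter.unusedSectionVars false

noncomputable section

open Polynomial

namespace Fermat.Agent.S18.D2

variable {L F : Type*} [Field L] [Field F] [Algebra L F]
  {O : ValuationSubring L} {h : F}

/-- a polynomial with coefficients in `G.V ∩ L = O` comes from `O[X]` -/
theorem exists_lift_poly (G : GoodVal O h) (p : L[X])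
    (hp : ∀ i, algebraMap L F (p.coeff i) ∈ G.V) : ∃ P : O[X], P.map O.subtype = p := by
  have : p ∈ Polynomial.lifts O.subtype := by
    rw [Polynomial.lifts_iff_coeff_lifts]
    intro j
    exact ⟨⟨_, (G.mem_iff _).1 (hp j)⟩, rfl⟩
  exact (Polynomial.mem_lifts _).1 this

/-- the value in `F` of the evaluation in `G.V` -/
theorem coe_eval₂_incl (G : GoodVal O h) {x : F} (hxV : x ∈ G.V) (p : O[X]) :
    ((Polynomial.eval₂ G.incl ⟨x, hxV⟩ p : G.V) : F) =
      Polynomial.aeval x (p.map O.subtype) := by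
  have h1 := Polynomial.hom_eval₂ p G.incl G.V.subtype ⟨x, hxV⟩
  have h2 : (G.V.subtype).comp G.incl = (algebraMap L F).comp O.subtype := by
    ext c
    rfl
  rw [h2] at h1
  rw [Polynomial.aeval_def, Polynomial.eval₂_map]
  exact h1

/-- reduction of a polynomial in `x` with coefficients in `O` -/
theorem res_eval₂_incl (G : GoodVal O h) {x : F} (hxV : x ∈ G.V) (p : O[X]) :
    G.ρ (Polynomial.eval₂ G.incl ⟨x, hxV⟩ p) =
      Polynomial.aeval (G.ρ ⟨x, hxV⟩) (p.map (IsLocalRing.residue O)) := by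
  rw [Polynomial.hom_eval₂, Polynomial.aeval_def, Polynomial.eval₂_map]
  rfl

variable {x : F} {Kx : IntermediateField L F} {n : ℕ}

/-- a polynomial in `x` over `O` with nonzero reduction is a unit of `G.V` -/
theorem isUnit_eval₂_incl (G : GoodVal O h) (D : GaussDatum L G.V x Kx n)
    (hx : Transcendental L x) (p : O[X]) (hp : p.map (IsLocalRing.residue O) ≠ 0) :
    IsUnit (Polynomial.eval₂ G.incl ⟨x, D.h_mem⟩ p) := by
  obtain ⟨i, hi⟩ : ∃ i, (p.map (IsLocalRing.residue O)).coeff i ≠ 0 := by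
    by_contra hcon
    push Not at hcon
    exact hp (Polynomial.ext fun i => by rw [hcon i, Polynomial.coeff_zero])
  rw [Polynomial.coeff_map] at hi
  have hu : IsUnit (p.coeff i) := by
    by_contra hnu
    exact hi ((IsLocalRing.residue_eq_zero_iff _).2 hnu)
  obtain ⟨u, hu⟩ := hu
  have hinvL : ((p.coeff i : O) : L)⁻¹ = ((↑u⁻¹ : O) : L) := by
    apply inv_eq_of_mul_eq_one_right
    have : p.coeff i * (↑u⁻¹ : O) = 1 := by rw [← hu]; exact u.mul_inv
    have h2 := congrArg (Subtype.val) this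
    simpa using h2
  have hp0 : p.map O.subtype ≠ 0 := by
    intro h0
    have : (p.map O.subtype).coeff i = 0 := by rw [h0, Polynomial.coeff_zero]
    rw [Polynomial.coeff_map] at this
    have h3 : p.coeff i = 0 := Subtype.ext this
    rw [h3] at hi
    exact hi (map_zero _)
  have hne : Polynomial.aeval x (p.map O.subtype) ≠ 0 := fun h0 =>
    hp0 ((transcendental_iff.mp hx) _ h0)
  have hinv : (Polynomial.aeval x (p.map O.subtype))⁻¹ ∈ G.V := by
    refine D.inv_aeval_mem (p.map O.subtype) (fun j => ?_) ⟨i, ?_, ?_⟩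
    · rw [Polynomial.coeff_map]
      exact (G.mem_iff _).2 (p.coeff j).2
    · rw [Polynomial.coeff_map]
      intro h0
      have h3 : p.coeff i = 0 := Subtype.ext h0
      rw [h3] at hi
      exact hi (map_zero _)
    · rw [Polynomial.coeff_map, ← map_inv₀]
      refine (G.mem_iff _).2 ?_
      show ((p.coeff i : O) : L)⁻¹ ∈ O
      rw [hinvL]
      exact (↑u⁻¹ : O).2
  refine IsUnit.of_mul_eq_one (⟨_, hinv⟩ : G.V) (Subtype.ext ?_)
  rw [MulMemClass.coe_mul, coe_eval₂_incl]
  exact mul_inv_cancel₀ hne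

/-- the reduction of `x` is transcendental over the residue field of `O` -/
theorem transcendental_res (G : GoodVal O h) (D : GaussDatum L G.V x Kx n)
    (hx : Transcendental L x) :
    Transcendental (IsLocalRing.ResidueField O) (G.ρ ⟨x, D.h_mem⟩) := by
  rw [transcendental_iff]
  intro pbar hpbar
  by_contra hne
  obtain ⟨p, rfl⟩ := Polynomial.map_surjective (IsLocalRing.residue O)
    IsLocalRing.residue_surjective pbar
  have hu := isUnit_eval₂_incl G D hx p hne
  have hu' : IsUnit (G.ρ (Polynomial.eval₂ G.incl ⟨x, D.h_mem⟩ p)) := hu.map G.ρ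
  rw [res_eval₂_incl, hpbar] at hu'
  exact not_isUnit_zero hu'

/-- the reduction of `V ∩ L(x)` lies in `k(x̄)` -/
theorem res_mem (G : GoodVal O h) (D : GaussDatum L G.V x Kx n)
    (hx : Transcendental L x) (c : Kx) (hc : (c : F) ∈ G.V) :
    G.ρ ⟨c, hc⟩ ∈
      IntermediateField.adjoin (IsLocalRing.ResidueField O) {G.ρ ⟨x, D.h_mem⟩} := by
  have hcK : (c : F) ∈ IntermediateField.adjoin L {x} := by
    rw [← D.K_eq]; exact c.2
  obtain ⟨r, s, hrs⟩ := (IntermediateField.mem_adjoin_simple_iff L (c : F)).1 hcK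
  rcases eq_or_ne (Polynomial.aeval x s) 0 with hs0 | hs0
  · have hc0 : (⟨c, hc⟩ : G.V) = 0 := Subtype.ext (by rw [hrs, hs0, div_zero]; rfl)
    rw [hc0, map_zero]
    exact zero_mem _
  have hs : s ≠ 0 := by
    rintro rfl
    exact hs0 (map_zero _)
  obtain ⟨c₀, q, hc₀, hsq, hq, i₁, hi₁⟩ := exists_primitive G.V s hs
  have hq0 : q ≠ 0 := by
    rintro rfl
    simp at hi₁
  have hqne : Polynomial.aeval x q ≠ 0 := fun h0 => hq0 ((transcendental_iff.mp hx) _ h0)
  have hc₀F : algebraMap L F c₀ ≠ 0 := by rwa [Ne, map_eq_zero]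
  have hceq : (c : F) * Polynomial.aeval x q = Polynomial.aeval x (C c₀⁻¹ * r) := by
    rw [hrs, hsq, map_mul, map_mul, Polynomial.aeval_C, Polynomial.aeval_C, map_inv₀]
    field_simp
  have hp₁ : ∀ i, algebraMap L F ((C c₀⁻¹ * r).coeff i) ∈ G.V := by
    refine (D.aeval_mem_iff hx _).1 ?_
    rw [← hceq]
    exact G.V.mul_mem _ _ hc (aeval_mem_of_coeff_mem G.V D.h_mem q hq)
  obtain ⟨P, hP⟩ := exists_lift_poly G _ hp₁
  obtain ⟨Q, hQ⟩ := exists_lift_poly G q hq
  have hQbar : Q.map (IsLocalRing.residue O) ≠ 0 := by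
    intro h0
    have h1 : (Q.map (IsLocalRing.residue O)).coeff i₁ = 0 := by
      rw [h0, Polynomial.coeff_zero]
    have h2 : Q.coeff i₁ = 1 := by
      apply Subtype.ext
      have := congrArg (fun t => t.coeff i₁) hQ
      simp only [Polynomial.coeff_map] at this
      rw [hi₁] at this
      exact this
    rw [Polynomial.coeff_map, h2, map_one] at h1
    exact one_ne_zero h1
  have hmul : (⟨c, hc⟩ : G.V) * Polynomial.eval₂ G.incl ⟨x, D.h_mem⟩ Q =
      Polynomial.eval₂ G.incl ⟨x, D.h_mem⟩ P := by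
    apply Subtype.ext
    rw [MulMemClass.coe_mul, coe_eval₂_incl, coe_eval₂_incl, hP, hQ]
    exact hceq
  have hmul' := congrArg G.ρ hmul
  rw [map_mul, res_eval₂_incl, res_eval₂_incl] at hmul'
  have hne : Polynomial.aeval (G.ρ ⟨x, D.h_mem⟩) (Q.map (IsLocalRing.residue O)) ≠ 0 :=
    fun h0 => hQbar ((transcendental_iff.mp (transcendental_res G D hx)) _ h0)
  rw [IntermediateField.mem_adjoin_simple_iff]
  exact ⟨P.map (IsLocalRing.residue O), Q.map (IsLocalRing.residue O),
    eq_div_of_mul_eq hne hmul'⟩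

/-- the inclusion `V ∩ L(x) → V` -/
def comapIncl (V : ValuationSubring F) (Kx : IntermediateField L F) :
    ↥(V.comap (algebraMap Kx F)) →+* V :=
  ((algebraMap Kx F).comp (V.comap (algebraMap Kx F)).subtype).codRestrict V (fun c => c.2)

@[simp] theorem coe_comapIncl (V : ValuationSubring F) (Kx : IntermediateField L F)
    (c : ↥(V.comap (algebraMap Kx F))) :
    ((comapIncl V Kx c : V) : F) = ((c : Kx) : F) := rfl

/-- reduction `V ∩ L(x) → k(x̄)` -/
def resK (G : GoodVal O h) (D : GaussDatum L G.V x Kx n) (hx : Transcendental L x) :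
    ↥(G.V.comap (algebraMap Kx F)) →+*
      ↥(IntermediateField.adjoin (IsLocalRing.ResidueField O) {G.ρ ⟨x, D.h_mem⟩}) :=
  (G.ρ.comp (comapIncl G.V Kx)).codRestrict
    (IntermediateField.adjoin (IsLocalRing.ResidueField O) {G.ρ ⟨x, D.h_mem⟩})
    (fun c => res_mem G D hx (c : Kx) c.2)

theorem coe_resK (G : GoodVal O h) (D : GaussDatum L G.V x Kx n) (hx : Transcendental L x)
    (c : ↥(G.V.comap (algebraMap Kx F))) :
    ((resK G D hx c : ↥(IntermediateField.adjoin (IsLocalRing.ResidueField O)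
      {G.ρ ⟨x, D.h_mem⟩})) : G.κ) = G.ρ ⟨algebraMap Kx F (c : Kx), c.2⟩ := rfl

theorem resK_comp (G : GoodVal O h) (D : GaussDatum L G.V x Kx n) (hx : Transcendental L x)
    (c : ↥(G.V.comap (algebraMap Kx F))) :
    algebraMap ↥(IntermediateField.adjoin (IsLocalRing.ResidueField O) {G.ρ ⟨x, D.h_mem⟩}) G.κ
      (resK G D hx c) = G.ρ ⟨algebraMap Kx F (c : Kx), c.2⟩ := rfl

/-- `V ∩ L(x) → k(x̄)` is surjective -/
theorem resK_surjective (G : GoodVal O h) (D : GaussDatum L G.V x Kx n)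
    (hx : Transcendental L x) : Function.Surjective (resK G D hx) := by
  rintro ⟨a, ha⟩
  obtain ⟨rbar, sbar, hrs⟩ := (IntermediateField.mem_adjoin_simple_iff _ a).1 ha
  rcases eq_or_ne (Polynomial.aeval (G.ρ ⟨x, D.h_mem⟩) sbar) 0 with hs0 | hs0
  · refine ⟨0, ?_⟩
    rw [map_zero]
    apply Subtype.ext
    show (0 : G.κ) = a
    rw [hrs, hs0, div_zero]
  have hsbar : sbar ≠ 0 := by
    rintro rfl
    exact hs0 (map_zero _)
  obtain ⟨R, rfl⟩ := Polynomial.map_surjective (IsLocalRing.residue O)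
    IsLocalRing.residue_surjective rbar
  obtain ⟨S, rfl⟩ := Polynomial.map_surjective (IsLocalRing.residue O)
    IsLocalRing.residue_surjective sbar
  obtain ⟨u, hu⟩ := isUnit_eval₂_incl G D hx S hsbar
  -- the element `R(x) / S(x)` of `V ∩ L(x)`
  set w : G.V := Polynomial.eval₂ G.incl ⟨x, D.h_mem⟩ R * (↑u⁻¹ : G.V) with hw
  have hKmem' : (w : F) ∈ IntermediateField.adjoin L {x} := by
    rw [IntermediateField.mem_adjoin_simple_iff]
    refine ⟨R.map O.subtype, S.map O.subtype, ?_⟩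
    rw [hw, MulMemClass.coe_mul, coe_eval₂_incl, div_eq_mul_inv]
    congr 1
    apply eq_inv_of_mul_eq_one_left
    rw [← coe_eval₂_incl G D.h_mem S, ← hu, ← MulMemClass.coe_mul, Units.inv_mul]
    rfl
  have hKmem : (w : F) ∈ Kx := D.K_eq.ge hKmem'
  have hcV : (⟨(w : F), hKmem⟩ : Kx) ∈ G.V.comap (algebraMap Kx F) := w.2
  refine ⟨⟨⟨(w : F), hKmem⟩, hcV⟩, ?_⟩
  apply Subtype.ext
  rw [coe_resK]
  show G.ρ w = a
  rw [hrs, hw, map_mul, res_eval₂_incl, div_eq_mul_inv]
  congr 1
  apply eq_inv_of_mul_eq_one_left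
  rw [← res_eval₂_incl, ← hu, ← map_mul, Units.inv_mul, map_one]

/-- the reductions of the basis are linearly independent over `k(x̄)` -/
theorem linearIndependent_res (G : GoodVal O h) (D : GaussDatum L G.V x Kx n)
    (hx : Transcendental L x) :
    LinearIndependent
      ↥(IntermediateField.adjoin (IsLocalRing.ResidueField O) {G.ρ ⟨x, D.h_mem⟩})
      (fun i => G.ρ ⟨D.B i, D.B_mem i⟩) := by
  rw [Fintype.linearIndependent_iff]
  intro g hg
  choose c hc using fun i => resK_surjective G D hx (g i)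
  -- the lift of the relation
  set z : F := ∑ i, ((c i : Kx) : F) * D.B i with hz
  have hzV : z ∈ G.V := sum_mem fun i _ => G.V.mul_mem _ _ (c i).2 (D.B_mem i)
  have hzeq : (⟨z, hzV⟩ : G.V) = ∑ i, comapIncl G.V Kx (c i) * ⟨D.B i, D.B_mem i⟩ := by
    apply Subtype.ext
    rw [AddSubmonoidClass.coe_finsetSum]
    rfl
  have hρz : G.ρ ⟨z, hzV⟩ = 0 := by
    rw [hzeq, map_sum, ← hg]
    refine Finset.sum_congr rfl fun i _ => ?_
    rw [map_mul, ← hc i, Algebra.smul_def]
    rfl
  have hrepr : ∀ i, D.B.repr z i = (c i : Kx) := by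
    intro i
    have : z = ∑ i, (c i : Kx) • D.B i := by
      rw [hz]
      refine Finset.sum_congr rfl fun i _ => ?_
      rw [Algebra.smul_def]
      rfl
    rw [this, D.B.repr_sum_self]
  rcases eq_or_ne z 0 with hz0 | hz0
  · intro i
    have h1 := hrepr i
    rw [hz0, map_zero, Finsupp.zero_apply] at h1
    have h2 : c i = 0 := Subtype.ext h1.symm
    rw [← hc i, h2, map_zero]
  · obtain ⟨c₀, hc₀, hcz, hczinv⟩ := G.scale z hz0
    have hc₀F : algebraMap L F c₀ ≠ 0 := by rwa [Ne, map_eq_zero]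
    -- `c₀⁻¹` lies in the maximal ideal
    have hinvV : (algebraMap L F c₀)⁻¹ ∈ G.V := by
      have : (algebraMap L F c₀)⁻¹ = z * (algebraMap L F c₀ * z)⁻¹ := by
        field_simp
      rw [this]
      exact G.V.mul_mem _ _ hzV hczinv
    have hinvρ : G.ρ ⟨(algebraMap L F c₀)⁻¹, hinvV⟩ = 0 := by
      have : (⟨(algebraMap L F c₀)⁻¹, hinvV⟩ : G.V) =
          ⟨z, hzV⟩ * ⟨(algebraMap L F c₀ * z)⁻¹, hczinv⟩ := by
        apply Subtype.ext
        rw [MulMemClass.coe_mul]
        field_simp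
      rw [this, map_mul, hρz, zero_mul]
    intro i
    have hmem : ((D.B.repr (algebraMap L F c₀ * z) i : Kx) : F) ∈ G.V := D.repr_mem _ hcz i
    have hrepr2 : D.B.repr (algebraMap L F c₀ * z) i = algebraMap L Kx c₀ * (c i : Kx) := by
      have : algebraMap L F c₀ * z = (algebraMap L Kx c₀) • z := by
        rw [Algebra.smul_def]
        rfl
      rw [this, map_smul, Finsupp.smul_apply, hrepr i, smul_eq_mul]
    rw [hrepr2] at hmem
    have hci : comapIncl G.V Kx (c i) = ⟨(algebraMap L F c₀)⁻¹, hinvV⟩ *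
        ⟨((algebraMap L Kx c₀ * (c i : Kx) : Kx) : F), hmem⟩ := by
      apply Subtype.ext
      rw [MulMemClass.coe_mul, coe_comapIncl]
      show ((c i : Kx) : F) = (algebraMap L F c₀)⁻¹ * (algebraMap L F c₀ * ((c i : Kx) : F))
      field_simp
    apply Subtype.ext
    rw [← hc i, coe_resK]
    show G.ρ (comapIncl G.V Kx (c i)) = _
    rw [hci, map_mul, hinvρ, zero_mul]
    rfl

/-- the reductions of the basis span `κ` over `k(x̄)` -/
theorem span_res (G : GoodVal O h) (D : GaussDatum L G.V x Kx n)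
    (hx : Transcendental L x) :
    ⊤ ≤ Submodule.span
      ↥(IntermediateField.adjoin (IsLocalRing.ResidueField O) {G.ρ ⟨x, D.h_mem⟩})
      (Set.range fun i => G.ρ ⟨D.B i, D.B_mem i⟩) := by
  intro zbar _
  obtain ⟨y, rfl⟩ := IsLocalRing.residue_surjective zbar
  have hy : y = ∑ i, comapIncl G.V Kx ⟨D.B.repr (y : F) i, D.repr_mem _ y.2 i⟩ *
      ⟨D.B i, D.B_mem i⟩ := by
    apply Subtype.ext
    rw [AddSubmonoidClass.coe_finsetSum]
    conv_lhs => rw [← D.B.sum_repr (y : F)]
    refine Finset.sum_congr rfl fun i _ => ?_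
    rw [Algebra.smul_def]
    rfl
  have hy' : G.ρ y = ∑ i, resK G D hx ⟨D.B.repr (y : F) i, D.repr_mem _ y.2 i⟩ •
      G.ρ ⟨D.B i, D.B_mem i⟩ := by
    conv_lhs => rw [hy]
    rw [map_sum]
    refine Finset.sum_congr rfl fun i _ => ?_
    rw [map_mul, Algebra.smul_def]
    rfl
  show G.ρ y ∈ _
  rw [hy']
  exact Submodule.sum_mem _ fun i _ =>
    Submodule.smul_mem _ _ (Submodule.subset_span ⟨i, rfl⟩)

/-- the reductions of the basis `D.B` form a `k(x̄)`-basis of `κ` -/
def resBasis (G : GoodVal O h) (D : GaussDatum L G.V x Kx n) (hx : Transcendental L x) :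
    Module.Basis (Fin n)
      ↥(IntermediateField.adjoin (IsLocalRing.ResidueField O) {G.ρ ⟨x, D.h_mem⟩}) G.κ :=
  Module.Basis.mk (linearIndependent_res G D hx) (span_res G D hx)

theorem resBasis_apply (G : GoodVal O h) (D : GaussDatum L G.V x Kx n)
    (hx : Transcendental L x) (i : Fin n) :
    resBasis G D hx i = G.ρ ⟨D.B i, D.B_mem i⟩ := by
  rw [resBasis, Module.Basis.mk_apply]

/-- `[κ : k(x̄)] = n` -/
theorem finrank_res (G : GoodVal O h) (D : GaussDatum L G.V x Kx n)
    (hx : Transcendental L x) :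
    Module.finrank
      ↥(IntermediateField.adjoin (IsLocalRing.ResidueField O) {G.ρ ⟨x, D.h_mem⟩}) G.κ = n := by
  rw [Module.finrank_eq_card_basis (resBasis G D hx), Fintype.card_fin]

/-- `[F : L(x)] = n` -/
theorem GaussDatum.finrank_eq {𝒪 : ValuationSubring F} (D : GaussDatum L 𝒪 x Kx n) :
    Module.finrank Kx F = n := by
  rw [Module.finrank_eq_card_basis D.B, Fintype.card_fin]

/-- the trace commutes with reduction -/
theorem res_trace (G : GoodVal O h) (D : GaussDatum L G.V x Kx n)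
    (hx : Transcendental L x) (y : G.V) :
    ∃ ht : ((Algebra.trace Kx F (y : F) : Kx) : F) ∈ G.V,
      G.ρ ⟨_, ht⟩ = ((Algebra.trace
        ↥(IntermediateField.adjoin (IsLocalRing.ResidueField O) {G.ρ ⟨x, D.h_mem⟩}) G.κ
        (G.ρ y) : ↥(IntermediateField.adjoin (IsLocalRing.ResidueField O)
          {G.ρ ⟨x, D.h_mem⟩})) : G.κ) := by
  refine ⟨D.trace_mem y.2, ?_⟩
  have key := D.map_trace (resK G D hx) G.ρ (resK_comp G D hx) (resBasis G D hx)
    (resBasis_apply G D hx) y
  rw [← key]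
  rfl

/-- the norm commutes with reduction -/
theorem res_norm (G : GoodVal O h) (D : GaussDatum L G.V x Kx n)
    (hx : Transcendental L x) (y : G.V) :
    ∃ ht : ((Algebra.norm Kx (y : F) : Kx) : F) ∈ G.V,
      G.ρ ⟨_, ht⟩ = ((Algebra.norm
        ↥(IntermediateField.adjoin (IsLocalRing.ResidueField O) {G.ρ ⟨x, D.h_mem⟩})
        (G.ρ y) : ↥(IntermediateField.adjoin (IsLocalRing.ResidueField O)
          {G.ρ ⟨x, D.h_mem⟩})) : G.κ) := by
  refine ⟨D.norm_mem y.2, ?_⟩
  have key := D.map_norm (resK G D hx) G.ρ (resK_comp G D hx) (resBasis G D hx)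
    (resBasis_apply G D hx) y
  rw [← key]
  rfl

/-- Gauss: a polynomial in `x` lying in `V` has coefficients in `O` -/
theorem gauss_coeff_mem (G : GoodVal O h) (D : GaussDatum L G.V x Kx n)
    (hx : Transcendental L x) (p : L[X]) (hp : Polynomial.aeval x p ∈ G.V) (i : ℕ) :
    p.coeff i ∈ O :=
  (G.mem_iff _).1 ((D.aeval_mem_iff hx p).1 hp i)

end Fermat.Agent.S18.D2
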