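/-
S18 moonshot, WP-D2 (helper8): `E1.ChartVal` from a Gauss datum.
-/
import Mathlib
import Fermat.Agent.S18_E1Defs
import Fermat.Agent.S18_D2Res

set_option autoImplicit false
set_option linter.style.haveILetI false
set_option linter.unusedSectionVars false

noncomputable section

open Polynomial

namespace Fermat.Agent.S18.D2

variable {L F : Type*} [Field L] [Field F] [Algebra L F]
  {O : ValuationSubring L} {h : F} {x : F} {Kx : IntermediateField L F} {n : ℕ}

/-- the chart data of WP-E1 from a Gauss datum for the coordinate `x` (`x` transcendental,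
`κ / k(x̄)` separable). -/
theorem chartVal (G : GoodVal O h) (D : GaussDatum L G.V x Kx n) (hx : Transcendental L x)
    (hsep : Algebra.IsSeparable
      ↥(IntermediateField.adjoin (IsLocalRing.ResidueField O) {G.ρ ⟨x, D.h_mem⟩}) G.κ) :
    E1.ChartVal G x Kx
      (IntermediateField.adjoin (IsLocalRing.ResidueField O) {G.ρ ⟨x, D.h_mem⟩}) n where
  Kx_eq := D.K_eq
  x_mem := D.h_mem
  x_transcendental := hx
  Kbar_eq := rfl
  xbar_transcendental := transcendental_res G D hx
  finrank_eq := D.finrank_eq
  finrank_bar := finrank_res G D hx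
  sep := hsep
  gauss := gauss_coeff_mem G D hx
  res_mem := res_mem G D hx
  trace := res_trace G D hx

/-- variant with a named residue subfield -/
theorem chartVal' (G : GoodVal O h) (D : GaussDatum L G.V x Kx n) (hx : Transcendental L x)
    (Kbar : IntermediateField (IsLocalRing.ResidueField O) G.κ)
    (hKbar : Kbar = IntermediateField.adjoin (IsLocalRing.ResidueField O) {G.ρ ⟨x, D.h_mem⟩})
    (hsep : Algebra.IsSeparable Kbar G.κ) :
    E1.ChartVal G x Kx Kbar n := by
  subst hKbar
  exact chartVal G D hx hsep

end Fermat.Agent.S18.D2
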