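/-
S18 moonshot, WP-D2 (helper8): consequences of a Gauss datum.

* `isIntegral_adjoin_of_forall_place`: no poles at the places where `x` is regular ⇒ integral
  over `K[x]`.
* `GaussDatum.exists_monic_of_isIntegral` (TRANSFER): an element of `𝒪` integral over `L[h]` is a
  root of a monic polynomial with coefficients in `(𝒪 ∩ L)[h]`.
* `GaussDatum.exists_lattice_basis` (LATTICE LEMMA): a finite dimensional `L`-subspace `W` of `F`
  has an `L`-basis in `W ∩ 𝒪` spanning `W ∩ 𝒪` over `𝒪 ∩ L`.
-/
import Mathlib
import Fermat.Agent.S24_Places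
import Fermat.Agent.S18_ValRing
import Fermat.Agent.S18_D2Defs

set_option autoImplicit false
set_option linter.style.haveILetI false
set_option linter.unusedSectionVars false

noncomputable section

open AlgebraicCurve Polynomial IsDedekindDomain Fermat.Agent.S24 Fermat.Agent.S24.Places

namespace Fermat.Agent.S18.D2

section Places

variable {K F : Type*} [Field K] [IsAlgClosed K] [CharZero K] [Field F] [Algebra K F]

/-- an element without poles at the places where the generator `x` is regular is integral over
`K[x]` -/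
theorem isIntegral_adjoin_of_forall_place {x : F} (hx : IsGenerator K x) (y : F)
    (hy : ∀ v : Place K F, x ∈ v.toValuationSubring → y ∈ v.toValuationSubring) :
    IsIntegral (Algebra.adjoin K {x}) y := by
  haveI := isDedekindDomain_intRing hx
  haveI := isFractionRing_intRing hx
  have hval : ∀ w : HeightOneSpectrum (integralClosure (Algebra.adjoin K {x}) F),
      w.valuation F y ≤ 1 := by
    intro w
    rw [← mem_ofHeightOneSpectrum_iff (K := K) w y]
    apply hy
    rw [mem_ofHeightOneSpectrum_iff]
    have hxR : x ∈ integralClosure (Algebra.adjoin K {x}) F :=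
      (integralClosure (Algebra.adjoin K {x}) F).algebraMap_mem
        ⟨x, Algebra.self_mem_adjoin_singleton K x⟩
    exact w.valuation_le_one (⟨x, hxR⟩ : integralClosure (Algebra.adjoin K {x}) F)
  obtain ⟨r, hr⟩ := HeightOneSpectrum.mem_integers_of_valuation_le_one F y hval
  rw [← hr]
  exact r.2

end Places

variable {L F : Type*} [Field L] [Field F] [Algebra L F]
  {𝒪 : ValuationSubring F} {h : F} {K : IntermediateField L F} {n : ℕ}

section Transfer

open IntermediateField algebraAdjoinAdjoin

/-- the algebra structure of `F` over `𝒪 ∩ K` -/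
@[reducible] def comapAlgebra (𝒪 : ValuationSubring F) (K : IntermediateField L F) :
    Algebra ↥(𝒪.comap (algebraMap K F)) F :=
  ((algebraMap K F).comp (𝒪.comap (algebraMap K F)).subtype).toAlgebra

attribute [local instance] comapAlgebra

theorem comap_smul_def (𝒪 : ValuationSubring F) (K : IntermediateField L F)
    (a : ↥(𝒪.comap (algebraMap K F))) (z : F) : a • z = algebraMap K F (a : K) * z := rfl

theorem comap_isScalarTower (𝒪 : ValuationSubring F) (K : IntermediateField L F) :
    IsScalarTower ↥(𝒪.comap (algebraMap K F)) K F :=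
  IsScalarTower.of_algebraMap_eq (fun _ => rfl)

attribute [local instance] comap_isScalarTower

/-- an element of `𝒪` is integral over `𝒪 ∩ K` -/
theorem GaussDatum.isIntegral_comap (G : GaussDatum L 𝒪 h K n) {y : F} (hy : y ∈ 𝒪) :
    IsIntegral ↥(𝒪.comap (algebraMap K F)) y := by
  have hmem : ∀ z : F, z ∈ Submodule.span ↥(𝒪.comap (algebraMap K F)) (Set.range G.B) ↔
      z ∈ 𝒪 := by
    intro z
    constructor
    · intro hz
      induction hz using Submodule.span_induction with
      | mem x hx =>
        obtain ⟨i, rfl⟩ := hx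
        exact G.B_mem i
      | zero => exact 𝒪.zero_mem
      | add x y _ _ hx hy => exact 𝒪.add_mem _ _ hx hy
      | smul a x _ hx =>
        rw [comap_smul_def]
        exact 𝒪.mul_mem _ _ a.2 hx
    · intro hz
      rw [← G.B.sum_repr z]
      refine Submodule.sum_mem _ fun i _ => ?_
      have hc : G.B.repr z i ∈ 𝒪.comap (algebraMap K F) := G.repr_mem z hz i
      have : (G.B.repr z i) • G.B i =
          (⟨G.B.repr z i, hc⟩ : ↥(𝒪.comap (algebraMap K F))) • G.B i := by
        rw [comap_smul_def, Algebra.smul_def]
      rw [this]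
      exact Submodule.smul_mem _ _ (Submodule.subset_span ⟨i, rfl⟩)
  refine isIntegral_of_smul_mem_submodule
    (Submodule.span ↥(𝒪.comap (algebraMap K F)) (Set.range G.B)) ?_
    (Submodule.fg_span (Set.finite_range _)) y ?_
  · intro hbot
    have h1 : (1 : F) ∈ Submodule.span ↥(𝒪.comap (algebraMap K F)) (Set.range G.B) :=
      (hmem 1).mpr 𝒪.one_mem
    rw [hbot, Submodule.mem_bot] at h1
    exact one_ne_zero h1
  · intro z hz
    rw [hmem] at hz ⊢
    exact 𝒪.mul_mem _ _ hy hz

/-- TRANSFER (c), polynomial form: an element of `𝒪` integral over `L[h]` is a root of a monic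
polynomial whose coefficients are polynomials in `h` with coefficients in `𝒪 ∩ L`. -/
theorem GaussDatum.exists_monic_of_isIntegral (G : GaussDatum L 𝒪 h K n)
    (hh : Transcendental L h) {y : F} (hy : y ∈ 𝒪)
    (hint : IsIntegral (Algebra.adjoin L {h}) y) :
    ∃ P : (L[X])[X], P.Monic ∧ (∀ i j, algebraMap L F ((P.coeff i).coeff j) ∈ 𝒪) ∧
      Polynomial.eval₂ ((Polynomial.aeval h : L[X] →ₐ[L] F) : L[X] →+* F) y P = 0 := by
  have hKeq := G.K_eq
  subst hKeq
  haveI := isPrincipalIdealRing_adjoin hh
  have h1 : minpoly (IntermediateField.adjoin L {h}) y =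
      (minpoly (Algebra.adjoin L {h}) y).map
        (algebraMap (Algebra.adjoin L {h}) (IntermediateField.adjoin L {h})) :=
    minpoly.isIntegrallyClosed_eq_field_fractions' (IntermediateField.adjoin L {h}) hint
  have hintV := G.isIntegral_comap hy
  have h2 : minpoly (IntermediateField.adjoin L {h}) y =
      (minpoly ↥(𝒪.comap (algebraMap (IntermediateField.adjoin L {h}) F)) y).map
        (algebraMap ↥(𝒪.comap (algebraMap (IntermediateField.adjoin L {h}) F))
          (IntermediateField.adjoin L {h})) :=
    minpoly.isIntegrallyClosed_eq_field_fractions' (IntermediateField.adjoin L {h}) hintV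
  set e := Polynomial.algEquivOfTranscendental L h hh with he
  have hes : ∀ r : Algebra.adjoin L {h}, Polynomial.aeval h (e.symm r) = (r : F) := by
    intro r
    have := Polynomial.algEquivOfTranscendental_apply L h hh (e.symm r)
    rw [← he, AlgEquiv.apply_symm_apply] at this
    have h3 := congrArg Subtype.val this
    rw [h3, Polynomial.aeval_subalgebra_coe]
  refine ⟨(minpoly (Algebra.adjoin L {h}) y).map (e.symm : Algebra.adjoin L {h} →+* L[X]),
    (minpoly.monic hint).map _, ?_, ?_⟩
  · intro i j
    rw [Polynomial.coeff_map]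
    refine (G.aeval_mem_iff hh _).mp ?_ j
    rw [RingHom.coe_coe, hes]
    have hc := congrArg (fun q => q.coeff i) (h1.symm.trans h2)
    simp only [Polynomial.coeff_map] at hc
    have hc' := congrArg (algebraMap (IntermediateField.adjoin L {h}) F) hc
    have hL : algebraMap (IntermediateField.adjoin L {h}) F
        (algebraMap (Algebra.adjoin L {h}) (IntermediateField.adjoin L {h})
          ((minpoly (Algebra.adjoin L {h}) y).coeff i)) =
        (((minpoly (Algebra.adjoin L {h}) y).coeff i : Algebra.adjoin L {h}) : F) := rfl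
    rw [hL] at hc'
    rw [hc']
    exact ((minpoly ↥(𝒪.comap (algebraMap (IntermediateField.adjoin L {h}) F)) y).coeff i).2
  · rw [Polynomial.eval₂_map]
    have hcomp : ((Polynomial.aeval h : L[X] →ₐ[L] F) : L[X] →+* F).comp
        (e.symm : Algebra.adjoin L {h} →+* L[X]) = algebraMap (Algebra.adjoin L {h}) F := by
      ext r
      simp only [RingHom.comp_apply, RingHom.coe_coe]
      exact hes r
    rw [hcomp, ← Polynomial.aeval_def]
    exact minpoly.aeval _ _

end Transfer

section Lattice

open IntermediateField algebraAdjoinAdjoin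

/-- membership in `𝒪` read off from polynomial coordinates in the basis `B` -/
theorem GaussDatum.mem_iff_of_eq_sum (G : GaussDatum L 𝒪 h K n) (hh : Transcendental L h)
    (p : Fin n → L[X]) (z : F) (hz : z = ∑ i, Polynomial.aeval h (p i) * G.B i) :
    z ∈ 𝒪 ↔ ∀ i j, algebraMap L F ((p i).coeff j) ∈ 𝒪 := by
  constructor
  · intro hmem i
    have hKeq := G.K_eq
    subst hKeq
    set hK : IntermediateField.adjoin L {h} :=
      ⟨h, IntermediateField.mem_adjoin_simple_self L h⟩ with hhK
    have hk : ∀ i, algebraMap (IntermediateField.adjoin L {h}) F (Polynomial.aeval hK (p i)) =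
        Polynomial.aeval h (p i) := by
      intro i
      rw [← Polynomial.aeval_algebraMap_apply]
      rfl
    have hz' : z = ∑ i, (Polynomial.aeval hK (p i)) • G.B i := by
      rw [hz]
      refine Finset.sum_congr rfl fun i _ => ?_
      rw [Algebra.smul_def, hk]
    have hrepr : G.B.repr z i = Polynomial.aeval hK (p i) := by
      rw [hz', G.B.repr_sum_self]
    have := G.repr_mem z hmem i
    rw [hrepr] at this
    have h2 : Polynomial.aeval h (p i) ∈ 𝒪 := by
      rw [← hk]; exact this
    exact (G.aeval_mem_iff hh (p i)).mp h2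
  · intro hc
    rw [hz]
    refine sum_mem fun i _ => mul_mem ?_ (G.B_mem i)
    exact aeval_mem_of_coeff_mem 𝒪 G.h_mem (p i) (hc i)

/-- common denominators: finitely many elements of `K = L(h)` become polynomials in `h` after
multiplication by one unit of `𝒪` -/
theorem GaussDatum.exists_common_denom (G : GaussDatum L 𝒪 h K n) (hh : Transcendental L h)
    {ι : Type*} [Finite ι] (f : ι → K) :
    ∃ (u : F) (P : ι → L[X]), u ∈ 𝒪 ∧ u⁻¹ ∈ 𝒪 ∧ u ≠ 0 ∧
      ∀ i, u * (f i : F) = Polynomial.aeval h (P i) := by
  have hKeq := G.K_eq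
  subst hKeq
  obtain ⟨b, hb⟩ := IsLocalization.exist_integer_multiples_of_finite
    (nonZeroDivisors (Algebra.adjoin L {h})) f
  choose a ha using hb
  set e := Polynomial.algEquivOfTranscendental L h hh with he
  have hes : ∀ r : Algebra.adjoin L {h}, Polynomial.aeval h (e.symm r) = (r : F) := by
    intro r
    have := Polynomial.algEquivOfTranscendental_apply L h hh (e.symm r)
    rw [← he, AlgEquiv.apply_symm_apply] at this
    have h3 := congrArg Subtype.val this
    rw [h3, Polynomial.aeval_subalgebra_coe]
  have hb0 : (b : Algebra.adjoin L {h}) ≠ 0 := nonZeroDivisors.ne_zero b.2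
  have hpd : e.symm (b : Algebra.adjoin L {h}) ≠ 0 := by
    rwa [Ne, EmbeddingLike.map_eq_zero_iff]
  obtain ⟨c, q, hc, hcq, hq, i₁, hi₁⟩ := exists_primitive 𝒪 _ hpd
  have hq0 : q ≠ 0 := by
    rintro rfl
    simp at hi₁
  have hu0 : Polynomial.aeval h q ≠ 0 := fun h0 => hq0 ((transcendental_iff.mp hh) q h0)
  have hbF : ((b : Algebra.adjoin L {h}) : F) = algebraMap L F c * Polynomial.aeval h q := by
    rw [← hes, hcq, map_mul, Polynomial.aeval_C]
  have hcF : algebraMap L F c ≠ 0 := by rwa [Ne, map_eq_zero]
  refine ⟨Polynomial.aeval h q, fun i => C c⁻¹ * e.symm (a i),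
    aeval_mem_of_coeff_mem 𝒪 G.h_mem q hq, G.aeval_primitive_unit q hq i₁ hi₁, hu0, ?_⟩
  intro i
  have hai : ((a i : Algebra.adjoin L {h}) : F) =
      ((b : Algebra.adjoin L {h}) : F) * (f i : F) := by
    have h1 := congrArg (algebraMap (IntermediateField.adjoin L {h}) F) (ha i)
    rw [Algebra.smul_def, map_mul] at h1
    exact h1
  rw [map_mul, Polynomial.aeval_C, hes, hai, hbF, map_inv₀]
  field_simp

/-- LATTICE LEMMA (d): a finite dimensional `L`-subspace `W ⊆ F` has an `L`-basis consisting of
elements of `𝒪` such that `W ∩ 𝒪` is the `𝒪 ∩ L`-span of this basis. -/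
theorem GaussDatum.exists_lattice_basis (G : GaussDatum L 𝒪 h K n)
    (hh : Transcendental L h) (W : Submodule L F) [FiniteDimensional L W] :
    ∃ (r : ℕ) (y : Fin r → F), LinearIndependent L y ∧ Submodule.span L (Set.range y) = W ∧
      (∀ j, y j ∈ 𝒪) ∧
      ∀ w ∈ W, w ∈ 𝒪 → ∃ c : Fin r → L, (∀ j, algebraMap L F (c j) ∈ 𝒪) ∧
        w = ∑ j, c j • y j := by
  classical
  set r := Module.finrank L W with hr
  set w : Module.Basis (Fin r) L W := Module.finBasis L W with hw
  -- coordinates and common denominator
  obtain ⟨u, P, hu, hu', hu0, hP⟩ := G.exists_common_denom hh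
    (fun x : Fin r × Fin n => G.B.repr (w x.1 : F) x.2)
  have hw1 : ∀ j, u * (w j : F) = ∑ i, Polynomial.aeval h (P (j, i)) * G.B i := by
    intro j
    conv_lhs => rw [← G.B.sum_repr (w j : F)]
    rw [Finset.mul_sum]
    refine Finset.sum_congr rfl fun i _ => ?_
    rw [Algebra.smul_def, ← mul_assoc, ← hP (j, i)]
    rfl
  set N : ℕ := Finset.univ.sup (fun x : Fin r × Fin n => (P x).natDegree) with hN
  have hdeg : ∀ x, (P x).natDegree ≤ N := fun x =>
    Finset.le_sup (f := fun x : Fin r × Fin n => (P x).natDegree) (Finset.mem_univ x)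
  -- the polynomial coordinates of a combination
  set pa : (Fin r → L) → Fin n → L[X] := fun a i => ∑ j, C (a j) * P (j, i) with hpa
  have hpacoeff : ∀ a i e, (pa a i).coeff e = ∑ j, a j * (P (j, i)).coeff e := by
    intro a i e
    simp only [hpa, Polynomial.finsetSum_coeff, Polynomial.coeff_C_mul]
  have hpahigh : ∀ a i e, N < e → (pa a i).coeff e = 0 := by
    intro a i e he
    rw [hpacoeff]
    refine Finset.sum_eq_zero fun j _ => ?_
    rw [Polynomial.coeff_eq_zero_of_natDegree_lt (lt_of_le_of_lt (hdeg (j, i)) he), mul_zero]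
  set Ψ : (Fin r → L) →ₗ[L] F :=
    W.subtype ∘ₗ (w.equivFun.symm : (Fin r → L) →ₗ[L] W) with hΨ
  have hΨapp : ∀ a, Ψ a = ∑ j, a j • (w j : F) := by
    intro a
    simp only [hΨ, LinearMap.comp_apply, LinearEquiv.coe_coe, Module.Basis.equivFun_symm_apply,
      Submodule.subtype_apply, Submodule.coe_sum, Submodule.coe_smul]
  have hΨinj : Function.Injective Ψ := by
    rw [hΨ]
    exact (Submodule.injective_subtype W).comp w.equivFun.symm.injective
  have hΨW : ∀ a, Ψ a ∈ W := fun a => by
    simp only [hΨ, LinearMap.comp_apply, Submodule.subtype_apply]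
    exact Submodule.coe_mem _
  have hw2 : ∀ a, u * Ψ a = ∑ i, Polynomial.aeval h (pa a i) * G.B i := by
    intro a
    rw [hΨapp, Finset.mul_sum]
    simp only [hpa, map_sum, map_mul, Polynomial.aeval_C, Finset.sum_mul]
    rw [Finset.sum_comm]
    refine Finset.sum_congr rfl fun j _ => ?_
    rw [Algebra.smul_def, mul_left_comm, hw1 j, Finset.mul_sum]
    refine Finset.sum_congr rfl fun i _ => ?_
    ring
  -- the coordinate map
  set T : (Fin r → L) →ₗ[L] (Fin n × Fin (N + 1) → L) :=
    { toFun := fun a x => ∑ j, a j * (P (j, x.1)).coeff x.2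
      map_add' := by
        intro a b
        funext x
        simp only [Pi.add_apply, add_mul, Finset.sum_add_distrib]
      map_smul' := by
        intro c a
        funext x
        simp only [Pi.smul_apply, smul_eq_mul, RingHom.id_apply, Finset.mul_sum, mul_assoc] }
    with hT
  have hTapp : ∀ a (i : Fin n) (e : Fin (N + 1)), T a (i, e) = (pa a i).coeff e := by
    intro a i e
    rw [hpacoeff]
    rfl
  have hmem : ∀ a, Ψ a ∈ 𝒪 ↔ ∀ x, algebraMap L F (T a x) ∈ 𝒪 := by
    intro a
    have h1 : Ψ a ∈ 𝒪 ↔ u * Ψ a ∈ 𝒪 := by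
      constructor
      · intro hm; exact mul_mem hu hm
      · intro hm
        have : Ψ a = u⁻¹ * (u * Ψ a) := by
          rw [← mul_assoc, inv_mul_cancel₀ hu0, one_mul]
        rw [this]
        exact mul_mem hu' hm
    rw [h1, G.mem_iff_of_eq_sum hh (pa a) _ (hw2 a)]
    constructor
    · rintro hc ⟨i, e⟩
      rw [hTapp]
      exact hc i e
    · intro hc i e
      by_cases he : e < N + 1
      · have := hc (i, ⟨e, he⟩)
        rwa [hTapp] at this
      · rw [hpahigh a i e (by omega), map_zero]
        exact 𝒪.zero_mem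
  have hTinj : Function.Injective T := by
    rw [injective_iff_map_eq_zero]
    intro a ha
    apply hΨinj
    rw [map_zero]
    have hpa0 : ∀ i, pa a i = 0 := by
      intro i
      ext e
      rw [Polynomial.coeff_zero]
      by_cases he : e < N + 1
      · have := congrFun ha (i, ⟨e, he⟩)
        rwa [hTapp] at this
      · exact hpahigh a i e (by omega)
    have h0 : u * Ψ a = 0 := by
      rw [hw2]
      refine Finset.sum_eq_zero fun i _ => ?_
      rw [hpa0, map_zero, zero_mul]
    exact (mul_eq_zero.mp h0).resolve_left hu0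
  -- apply the pivot lemma
  obtain ⟨v, hvW, -, hvLI, hvspan, hvint⟩ :=
    ValRing.exists_integral_basis (𝒪.comap (algebraMap L F)) (LinearMap.range T)
  choose a ha using hvW
  have hTa : ∀ s x, algebraMap L F (T (a s) x) ∈ 𝒪 := by
    intro s x
    rw [ha s]
    exact (v s x).2
  refine ⟨_, fun s => Ψ (a s), ?_, ?_, fun s => (hmem (a s)).mpr (hTa s), ?_⟩
  · -- linear independence
    have hLIa : LinearIndependent L a := by
      have : LinearIndependent L (T ∘ a) := by
        have hfun : (T ∘ a) = fun i j => ((v i j : 𝒪.comap (algebraMap L F)) : L) := by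
          funext s
          exact ha s
        rw [hfun]
        exact hvLI
      exact LinearIndependent.of_comp T this
    exact hLIa.map' Ψ (LinearMap.ker_eq_bot.mpr hΨinj)
  · -- span
    apply le_antisymm
    · rw [Submodule.span_le]
      rintro _ ⟨s, rfl⟩
      exact hΨW (a s)
    · intro z hz
      set az : Fin r → L := w.equivFun ⟨z, hz⟩ with haz
      have hzΨ : Ψ az = z := by
        simp only [hΨ, LinearMap.comp_apply, LinearEquiv.coe_coe, haz,
          LinearEquiv.symm_apply_apply, Submodule.subtype_apply]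
      have hTz : T az ∈ Submodule.span L (Set.range fun i j =>
          ((v i j : 𝒪.comap (algebraMap L F)) : L)) := by
        rw [hvspan]; exact LinearMap.mem_range_self T az
      rw [← hzΨ]
      have hrange : (Set.range fun i j => ((v i j : 𝒪.comap (algebraMap L F)) : L)) =
          T '' (Set.range a) := by
        ext x
        constructor
        · rintro ⟨s, rfl⟩
          exact ⟨a s, ⟨s, rfl⟩, ha s⟩
        · rintro ⟨_, ⟨s, rfl⟩, rfl⟩
          exact ⟨s, (ha s).symm⟩
      rw [hrange, ← Submodule.map_span] at hTz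
      obtain ⟨a', ha', ha'z⟩ := hTz
      have : a' = az := hTinj ha'z
      rw [← this]
      have hmap : Ψ a' ∈ Submodule.map Ψ (Submodule.span L (Set.range a)) :=
        Submodule.mem_map_of_mem ha'
      rw [Submodule.map_span, ← Set.range_comp] at hmap
      exact hmap
  · -- integrality
    intro z hz hzO
    set az : Fin r → L := w.equivFun ⟨z, hz⟩ with haz
    have hzΨ : Ψ az = z := by
      simp only [hΨ, LinearMap.comp_apply, LinearEquiv.coe_coe, haz,
        LinearEquiv.symm_apply_apply, Submodule.subtype_apply]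
    have hTz : ∀ x, T az x ∈ 𝒪.comap (algebraMap L F) := by
      intro x
      exact (hmem az).mp (by rw [hzΨ]; exact hzO) x
    obtain ⟨c, hc⟩ := hvint (T az) (LinearMap.mem_range_self T az) hTz
    refine ⟨fun s => (c s : L), fun s => (c s).2, ?_⟩
    have haz' : az = ∑ s, (c s : L) • a s := by
      apply hTinj
      rw [hc, map_sum]
      funext x
      rw [Finset.sum_apply]
      refine Finset.sum_congr rfl fun s _ => ?_
      rw [map_smul, Pi.smul_apply, smul_eq_mul, ha s]
    rw [← hzΨ, haz', map_sum]
    refine Finset.sum_congr rfl fun s _ => ?_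
    rw [map_smul]

end Lattice

end Fermat.Agent.S18.D2
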