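/-
S18 moonshot, WP-D2 (helper8): the hub hypotheses `TransferZero`, `TransferInf`, `LatticeLemma`
from a Gauss datum for the valuation ring of a `GoodVal`.
-/
import Mathlib
import Fermat.Agent.S18_Hub
import Fermat.Agent.S18_D2

set_option autoImplicit false
set_option linter.style.haveILetI false
set_option linter.unusedSectionVars false

noncomputable section

open AlgebraicCurve Polynomial Fermat.Agent.S24 Fermat.Agent.S24.Places

namespace Fermat.Agent.S18.D2

variable {L F : Type*} [Field L] [Field F] [Algebra L F]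
  {O : ValuationSubring L} {h : F}

/-- TRANSFER, general chart: if `x` is a generator with a Gauss datum for `G.V`, then an element
of `G.V` without poles where `x` is regular reduces to an element integral over `k[x̄]`. -/
theorem transfer_core [IsAlgClosed L] [CharZero L] (G : GoodVal O h) {x : F}
    {K : IntermediateField L F} {n : ℕ} (D : GaussDatum L G.V x K n) (hx : IsGenerator L x)
    (y : G.V) (hy : ∀ P : Place L F, 0 ≤ P.ord x → 0 ≤ P.ord (y : F)) :
    IsIntegral (Algebra.adjoin (IsLocalRing.ResidueField O) {G.ρ ⟨x, D.h_mem⟩}) (G.ρ y) := by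
  have hint : IsIntegral (Algebra.adjoin L {x}) (y : F) :=
    isIntegral_adjoin_of_forall_place hx (y : F)
      (fun v hxv => mem_of_ord_nonneg v (hy v (ord_nonneg_of_mem v hxv)))
  obtain ⟨P, hPmonic, hPcoeff, hPeval⟩ := D.exists_monic_of_isIntegral hx.1 y.2 hint
  -- lift `P` to `(O[X])[X]`
  have hPlift : P ∈ Polynomial.lifts (Polynomial.mapRingHom O.subtype) := by
    rw [Polynomial.lifts_iff_coeff_lifts]
    intro i
    have : P.coeff i ∈ Polynomial.lifts O.subtype := by
      rw [Polynomial.lifts_iff_coeff_lifts]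
      intro j
      exact ⟨⟨_, (G.mem_iff _).1 (hPcoeff i j)⟩, rfl⟩
    obtain ⟨q, hq⟩ := (Polynomial.mem_lifts _).1 this
    exact ⟨q, hq⟩
  obtain ⟨Q, hQmap, -, hQmonic⟩ := Polynomial.lifts_and_degree_eq_and_monic hPlift hPmonic
  -- evaluation in `G.V`
  set φ' : O[X] →+* G.V := Polynomial.eval₂RingHom G.incl ⟨x, D.h_mem⟩ with hφ'
  have hcomp1 : (G.V.subtype).comp φ' =
      ((Polynomial.aeval x : L[X] →ₐ[L] F) : L[X] →+* F).comp
        (Polynomial.mapRingHom O.subtype) := by
    apply Polynomial.ringHom_ext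
    · intro c
      simp [hφ']
    · simp [hφ']
  have hev1 : Polynomial.eval₂ φ' y Q = 0 := by
    apply Subtype.ext
    have h1 := Polynomial.hom_eval₂ Q φ' G.V.subtype y
    rw [hcomp1] at h1
    have h2 : Polynomial.eval₂ (((Polynomial.aeval x : L[X] →ₐ[L] F) : L[X] →+* F).comp
        (Polynomial.mapRingHom O.subtype)) (y : F) Q =
        Polynomial.eval₂ ((Polynomial.aeval x : L[X] →ₐ[L] F) : L[X] →+* F) (y : F)
          (Q.map (Polynomial.mapRingHom O.subtype)) := (Polynomial.eval₂_map _ _ _).symm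
    rw [hQmap, hPeval] at h2
    have h3 : (G.V.subtype) (Polynomial.eval₂ φ' y Q) = 0 := by
      rw [h1]; exact h2
    simpa using h3
  -- reduce
  set xbar : G.κ := G.ρ ⟨x, D.h_mem⟩ with hxbar
  set S := Algebra.adjoin (IsLocalRing.ResidueField O) {xbar} with hS
  set ψ : O[X] →+* S := Polynomial.eval₂RingHom
    ((algebraMap (IsLocalRing.ResidueField O) S).comp (IsLocalRing.residue O))
    ⟨xbar, Algebra.self_mem_adjoin_singleton _ _⟩ with hψ
  have hcomp2 : G.ρ.comp φ' = (algebraMap S G.κ).comp ψ := by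
    apply Polynomial.ringHom_ext
    · intro c
      simp only [hφ', hψ, RingHom.comp_apply, Polynomial.coe_eval₂RingHom, Polynomial.eval₂_C]
      rw [← IsScalarTower.algebraMap_apply]
      rfl
    · simp only [hφ', hψ, RingHom.comp_apply, Polynomial.coe_eval₂RingHom, Polynomial.eval₂_X]
      rfl
  have hev2 : Polynomial.eval₂ (G.ρ.comp φ') (G.ρ y) Q = 0 := by
    rw [← Polynomial.hom_eval₂, hev1, map_zero]
  rw [hcomp2, ← Polynomial.eval₂_map] at hev2
  exact ⟨Q.map ψ, hQmonic.map ψ, hev2⟩

/-- the hub's `TransferZero` from a Gauss datum -/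
theorem transferZero [IsAlgClosed L] [CharZero L] (G : GoodVal O h)
    {K : IntermediateField L F} {n : ℕ} (D : GaussDatum L G.V h K n) (hh : IsGenerator L h) :
    G.TransferZero := by
  intro y hy
  exact transfer_core G D hh y hy

/-- the hub's `TransferInf` from a Gauss datum -/
theorem transferInf [IsAlgClosed L] [CharZero L] (G : GoodVal O h)
    {K : IntermediateField L F} {n : ℕ} (D : GaussDatum L G.V h K n) (hh : IsGenerator L h) :
    G.TransferInf := by
  intro y hy
  have hh0 : h ≠ 0 := by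
    rintro rfl
    exact hh.1 isAlgebraic_zero
  have hx : IsGenerator L h⁻¹ := isGenerator_of_transcendental hh (transcendental_inv hh.1)
  have key := transfer_core G D.inv hx y (fun P hP => hy P (by
    rw [Place.ord_inv] at hP
    omega))
  have hbar : G.ρ ⟨h⁻¹, D.inv.h_mem⟩ = G.hbar⁻¹ := by
    apply eq_inv_of_mul_eq_one_right
    rw [GoodVal.hbar, ← map_mul]
    have : (⟨h, G.h_mem⟩ : G.V) * ⟨h⁻¹, D.inv.h_mem⟩ = 1 :=
      Subtype.ext (mul_inv_cancel₀ hh0)
    rw [this, map_one]
  rw [hbar] at key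
  exact key

/-- the hub's `LatticeLemma` from a Gauss datum -/
theorem latticeLemma (G : GoodVal O h)
    {K : IntermediateField L F} {n : ℕ} (D : GaussDatum L G.V h K n) (hh : Transcendental L h) :
    G.LatticeLemma := by
  intro W hW
  haveI := hW
  obtain ⟨r, y, hli, hspan, hyV, hgen⟩ := D.exists_lattice_basis hh W
  subst hspan
  have hr : Module.finrank L ↥(Submodule.span L (Set.range y)) = r := by
    rw [finrank_span_eq_card hli, Fintype.card_fin]
  rw [hr]
  refine ⟨y, fun i => ⟨Submodule.subset_span ⟨i, rfl⟩, hyV i⟩, fun w hw hwV => ?_⟩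
  obtain ⟨c, hc, hsum⟩ := hgen w hw hwV
  exact ⟨c, fun i => (G.mem_iff _).1 (hc i), hsum⟩

end Fermat.Agent.S18.D2
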