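/-
S18, WP-D1, basis half (helper8): for a Gauss `Datum A F n` the powers `θ^i` (`i < n`) form a
basis of `F` over `L(h)`, the Gauss valuation ring is `V = ⊕ (V ∩ L(h)) θ^i`, and this is a
`D2.GaussDatum` (the input of WP-D2: transfer, lattice lemma, charts).
-/
import Mathlib
import Fermat.Agent.S18_GaussField
import Fermat.Agent.S18_D2Defs

set_option autoImplicit false
set_option linter.style.haveILetI false
set_option linter.unusedSectionVars false

noncomputable section

open ModularCurve Polynomial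

namespace Fermat.Agent.S18.GaussBasis

open Fermat.Agent.S18.Gauss

variable {L : Type*} [Field L] (A : ValuationSubring L)

/-- a polynomial with coefficients in `A` comes from `A[X]` -/
theorem exists_lift_poly (p : L[X]) (hp : ∀ i, p.coeff i ∈ A) :
    ∃ q : Polynomial A, q.map A.subtype = p := by
  have : p ∈ Polynomial.lifts A.subtype := by
    rw [Polynomial.lifts_iff_coeff_lifts]
    intro j
    exact ⟨⟨_, hp j⟩, rfl⟩
  exact (Polynomial.mem_lifts _).1 this

/-- joint primitive scaling of a finite family of polynomials -/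
theorem exists_primitive_family {n : ℕ} (p : Fin n → L[X]) (hp : ∃ i, p i ≠ 0) :
    ∃ (c : L) (q : Fin n → Polynomial A), c ≠ 0 ∧ (∀ i, p i = C c * (q i).map A.subtype) ∧
      ∃ i, (q i).map (IsLocalRing.residue A) ≠ 0 := by
  classical
  set s : Finset (Σ _ : Fin n, ℕ) := Finset.univ.sigma fun i => (p i).support with hs
  have hne : s.Nonempty := by
    obtain ⟨i, hi⟩ := hp
    obtain ⟨j, hj⟩ := Polynomial.support_nonempty.mpr hi
    exact ⟨⟨i, j⟩, by rw [hs, Finset.mem_sigma]; exact ⟨Finset.mem_univ _, hj⟩⟩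
  obtain ⟨⟨i₀, j₀⟩, hmem, hmax⟩ := Finset.exists_max_image s
    (fun x => A.valuation ((p x.1).coeff x.2)) hne
  rw [hs, Finset.mem_sigma] at hmem
  have hc0 : (p i₀).coeff j₀ ≠ 0 := Polynomial.mem_support_iff.mp hmem.2
  have hcoeff : ∀ i j, (C ((p i₀).coeff j₀)⁻¹ * p i).coeff j ∈ A := by
    intro i j
    rw [coeff_C_mul]
    by_cases hj : j ∈ (p i).support
    · rw [← ValuationSubring.valuation_le_one_iff, map_mul, map_inv₀]
      have h1 := hmax ⟨i, j⟩ (by rw [hs, Finset.mem_sigma]; exact ⟨Finset.mem_univ _, hj⟩)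
      have hv0 : A.valuation ((p i₀).coeff j₀) ≠ 0 := by rwa [Ne, map_eq_zero]
      rw [inv_mul_le_iff₀ (zero_lt_iff.mpr hv0), mul_one]
      exact h1
    · rw [Polynomial.notMem_support_iff.mp hj, mul_zero]
      exact A.zero_mem
  choose q hq using fun i => exists_lift_poly A _ (hcoeff i)
  refine ⟨(p i₀).coeff j₀, q, hc0, fun i => ?_, i₀, ?_⟩
  · rw [hq i, ← mul_assoc, ← C_mul, mul_inv_cancel₀ hc0, C_1, one_mul]
  · intro h0
    have h1 : ((q i₀).map (IsLocalRing.residue A)).coeff j₀ = 0 := by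
      rw [h0, Polynomial.coeff_zero]
    rw [Polynomial.coeff_map] at h1
    have h2 : ((q i₀).coeff j₀ : L) = 1 := by
      have := congrArg (fun t => t.coeff j₀) (hq i₀)
      simp only [Polynomial.coeff_map, coeff_C_mul] at this
      rw [inv_mul_cancel₀ hc0] at this
      exact this
    have h3 : (q i₀).coeff j₀ = 1 := Subtype.ext h2
    rw [h3, map_one] at h1
    exact one_ne_zero h1

section Datum

variable {A} {F : IntermediateField L (LaurentSeries L)} {n : ℕ} (D : Datum A F n)

theorem coe_aeval_h (p : L[X]) :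
    ((Polynomial.aeval D.h p : F) : LaurentSeries L) = Polynomial.aeval (emb A D.hA) p :=
  (Polynomial.aeval_algebraMap_apply (LaurentSeries L) D.h p).symm

theorem coe_aeval_h_map (q : Polynomial A) :
    ((Polynomial.aeval D.h (q.map A.subtype) : F) : LaurentSeries L) =
      emb A (evalA A q D.hA) := by
  rw [coe_aeval_h, emb_evalA]

/-- a polynomial over `A` with nonzero reduction, evaluated at `h`, has nonzero reduction -/
theorem red_evalA_ne_zero (q : Polynomial A) (hq : q.map (IsLocalRing.residue A) ≠ 0) :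
    red A (evalA A q D.hA) ≠ 0 := by
  rw [red_evalA]
  exact fun h0 => hq ((transcendental_iff.mp D.trans) _ h0)

/-- a family of polynomials over `A`, not all with zero reduction: the combination with the
powers of `θ` has nonzero reduction -/
theorem red_sum_ne_zero (q : Fin n → Polynomial A)
    (hq : ∃ i, (q i).map (IsLocalRing.residue A) ≠ 0) :
    red A (∑ i, evalA A (q i) D.hA * D.θA ^ (i : ℕ)) ≠ 0 := by
  intro h0
  rw [map_sum] at h0
  simp only [map_mul, map_pow, red_evalA] at h0
  obtain ⟨i, hi⟩ := hq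
  exact hi (D.indep _ h0 i)

theorem coe_sum (p : Fin n → L[X]) :
    ((∑ i, Polynomial.aeval D.h (p i) * D.θ ^ (i : ℕ) : F) : LaurentSeries L) =
      ∑ i, Polynomial.aeval (emb A D.hA) (p i) * emb A D.θA ^ (i : ℕ) := by
  rw [AddSubmonoidClass.coe_finsetSum]
  refine Finset.sum_congr rfl fun i _ => ?_
  rw [MulMemClass.coe_mul, SubmonoidClass.coe_pow, coe_aeval_h]
  rfl

theorem coe_sum_map (q : Fin n → Polynomial A) :
    ((∑ i, Polynomial.aeval D.h ((q i).map A.subtype) * D.θ ^ (i : ℕ) : F) : LaurentSeries L) =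
      emb A (∑ i, evalA A (q i) D.hA * D.θA ^ (i : ℕ)) := by
  rw [coe_sum, map_sum]
  refine Finset.sum_congr rfl fun i _ => ?_
  rw [map_mul, map_pow, emb_evalA]

/-- the powers of `θ` are independent over `L[h]` -/
theorem poly_indep (p : Fin n → L[X])
    (h : ∑ i, Polynomial.aeval D.h (p i) * D.θ ^ (i : ℕ) = 0) : ∀ i, p i = 0 := by
  by_contra hne
  push Not at hne
  obtain ⟨c, q, hc, hpq, hi₀⟩ := exists_primitive_family A p hne
  have hcne : algebraMap L (LaurentSeries L) c ≠ 0 := by rwa [Ne, map_eq_zero]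
  have h1 : algebraMap L (LaurentSeries L) c *
      emb A (∑ i, evalA A (q i) D.hA * D.θA ^ (i : ℕ)) = 0 := by
    have h2 : ((∑ i, Polynomial.aeval D.h (p i) * D.θ ^ (i : ℕ) : F) : LaurentSeries L) =
        ((0 : F) : LaurentSeries L) := congrArg _ h
    rw [coe_sum, ZeroMemClass.coe_zero] at h2
    rw [← coe_sum_map, coe_sum, Finset.mul_sum, ← h2]
    refine Finset.sum_congr rfl fun i _ => ?_
    rw [hpq i, map_mul, Polynomial.aeval_C, mul_assoc]
  have h3 : ∑ i, evalA A (q i) D.hA * D.θA ^ (i : ℕ) = 0 :=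
    emb_injective A (by rw [(mul_eq_zero.1 h1).resolve_left hcne, map_zero])
  exact red_sum_ne_zero D q hi₀ (by rw [h3, map_zero])

/-- a polynomial over `A` with nonzero reduction, evaluated at `h`, is a unit of `V` -/
theorem inv_aeval_map_mem (q : Polynomial A) (hq : q.map (IsLocalRing.residue A) ≠ 0) :
    (Polynomial.aeval D.h (q.map A.subtype))⁻¹ ∈ D.V := by
  rw [Datum.mem_V]
  show ((Polynomial.aeval D.h (q.map A.subtype) : F) : LaurentSeries L)⁻¹ ∈ gaussRing A
  rw [coe_aeval_h_map]
  exact inv_emb_mem_gaussRing A (red_evalA_ne_zero D q hq)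

theorem aeval_map_mem (q : Polynomial A) :
    Polynomial.aeval D.h (q.map A.subtype) ∈ D.V := by
  rw [Datum.mem_V, coe_aeval_h_map]
  exact emb_mem_gaussRing A _

open IntermediateField algebraAdjoinAdjoin in
/-- the powers of `θ` are linearly independent over `L(h)` -/
theorem linearIndependent_pow :
    LinearIndependent ↥(IntermediateField.adjoin L {D.h}) (fun i : Fin n => D.θ ^ (i : ℕ)) := by
  rw [← LinearIndependent.iff_fractionRing (Algebra.adjoin L {D.h})
    ↥(IntermediateField.adjoin L {D.h})]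
  rw [Fintype.linearIndependent_iff]
  intro g hg i
  have hex : ∀ i, ∃ p : L[X], Polynomial.aeval D.h p = (g i : F) := fun i => by
    have h1 : (g i : F) ∈ (Polynomial.aeval D.h : L[X] →ₐ[L] F).range := by
      rw [← Algebra.adjoin_singleton_eq_range_aeval]
      exact (g i).2
    exact h1
  choose p hp using hex
  have h0 := poly_indep D p (by
    rw [← hg]
    refine Finset.sum_congr rfl fun i _ => ?_
    rw [hp]
    rfl)
  apply Subtype.ext
  rw [← hp i, h0 i, map_zero]
  rfl

/-- the coordinates of an element of `F` in the powers of `θ` -/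
theorem exists_coord (y : F) : ∃ (d : L[X]) (p : Fin n → L[X]), d ≠ 0 ∧
    Polynomial.aeval D.h d * y = ∑ i, Polynomial.aeval D.h (p i) * D.θ ^ (i : ℕ) := by
  obtain ⟨d, p, hd, h⟩ := D.span y y.2
  refine ⟨d, p, hd, Subtype.ext ?_⟩
  rw [coe_sum, MulMemClass.coe_mul, coe_aeval_h]
  exact h

theorem aeval_h_ne_zero (d : L[X]) (hd : d ≠ 0) : Polynomial.aeval D.h d ≠ 0 :=
  fun h0 => hd ((transcendental_iff.mp D.transcendental_h) d h0)

/-- the element `p(h)/d(h)` of `L(h)` -/
def frac (p d : L[X]) : ↥(IntermediateField.adjoin L {D.h}) :=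
  ⟨Polynomial.aeval D.h p / Polynomial.aeval D.h d,
    (IntermediateField.mem_adjoin_simple_iff L _).2 ⟨p, d, rfl⟩⟩

theorem coe_frac (p d : L[X]) :
    ((frac D p d : ↥(IntermediateField.adjoin L {D.h})) : F) =
      Polynomial.aeval D.h p / Polynomial.aeval D.h d := rfl

theorem eq_sum_frac (y : F) (d : L[X]) (p : Fin n → L[X]) (hd : d ≠ 0)
    (h : Polynomial.aeval D.h d * y = ∑ i, Polynomial.aeval D.h (p i) * D.θ ^ (i : ℕ)) :
    y = ∑ i, frac D (p i) d • D.θ ^ (i : ℕ) := by
  have hne := aeval_h_ne_zero D d hd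
  have h1 : y = (Polynomial.aeval D.h d)⁻¹ *
      ∑ i, Polynomial.aeval D.h (p i) * D.θ ^ (i : ℕ) := by
    rw [← h, ← mul_assoc, inv_mul_cancel₀ hne, one_mul]
  rw [h1, Finset.mul_sum]
  refine Finset.sum_congr rfl fun i _ => ?_
  rw [IntermediateField.smul_def, coe_frac, smul_eq_mul]
  field_simp

theorem span_pow : ⊤ ≤ Submodule.span ↥(IntermediateField.adjoin L {D.h})
    (Set.range fun i : Fin n => D.θ ^ (i : ℕ)) := by
  intro y _
  obtain ⟨d, p, hd, h⟩ := exists_coord D y
  rw [eq_sum_frac D y d p hd h]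
  exact Submodule.sum_mem _ fun i _ =>
    Submodule.smul_mem _ _ (Submodule.subset_span ⟨i, rfl⟩)

/-- the basis `θ^i` of `F` over `L(h)`. -/
def basis : Module.Basis (Fin n) ↥(IntermediateField.adjoin L {D.h}) F :=
  Module.Basis.mk (linearIndependent_pow D) (span_pow D)

theorem basis_apply (i : Fin n) : basis D i = D.θ ^ (i : ℕ) := by
  rw [basis, Module.Basis.mk_apply]

theorem finrank_eq : Module.finrank ↥(IntermediateField.adjoin L {D.h}) F = n := by
  rw [Module.finrank_eq_card_basis (basis D), Fintype.card_fin]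

theorem basis_mem (i : Fin n) : basis D i ∈ D.V := by
  rw [basis_apply]
  exact pow_mem D.θ_mem_V _

theorem repr_eq_frac (y : F) (d : L[X]) (p : Fin n → L[X]) (hd : d ≠ 0)
    (h : Polynomial.aeval D.h d * y = ∑ i, Polynomial.aeval D.h (p i) * D.θ ^ (i : ℕ))
    (i : Fin n) : (basis D).repr y i = frac D (p i) d := by
  have h1 : y = ∑ i, frac D (p i) d • basis D i := by
    rw [eq_sum_frac D y d p hd h]
    exact Finset.sum_congr rfl fun i _ => by rw [basis_apply]
  conv_lhs => rw [h1]
  rw [(basis D).repr_sum_self]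

/-- `V = ⊕ (V ∩ L(h)) θ^i`. -/
theorem repr_mem (y : F) (hy : y ∈ D.V) (i : Fin n) :
    (((basis D).repr y i : ↥(IntermediateField.adjoin L {D.h})) : F) ∈ D.V := by
  rcases eq_or_ne y 0 with rfl | hy0
  · rw [map_zero, Finsupp.zero_apply, ZeroMemClass.coe_zero]
    exact D.V.zero_mem
  obtain ⟨d, p, hd, h⟩ := exists_coord D y
  rw [repr_eq_frac D y d p hd h i, coe_frac]
  have hne := aeval_h_ne_zero D d hd
  have hp : ∃ i, p i ≠ 0 := by
    by_contra hcon
    push Not at hcon
    have h0 : Polynomial.aeval D.h d * y = 0 := by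
      rw [h]
      exact Finset.sum_eq_zero fun i _ => by rw [hcon i, map_zero, zero_mul]
    rcases mul_eq_zero.1 h0 with h1 | h1
    · exact hne h1
    · exact hy0 h1
  obtain ⟨c, q, hc, hpq, hq⟩ := exists_primitive_family A p hp
  obtain ⟨c', q', hc', hdq', i', hq'⟩ :=
    exists_primitive_family A (fun _ : Fin 1 => d) ⟨0, hd⟩
  have hi' : i' = 0 := Subsingleton.elim _ _
  rw [hi'] at hq'
  have hdq : d = C c' * (q' 0).map A.subtype := hdq' 0
  have hcF : algebraMap L F c ≠ 0 := by rwa [Ne, map_eq_zero]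
  have hc'F : algebraMap L F c' ≠ 0 := by rwa [Ne, map_eq_zero]
  set N : F := ∑ i, Polynomial.aeval D.h ((q i).map A.subtype) * D.θ ^ (i : ℕ) with hN
  have hNred := red_sum_ne_zero D q hq
  have hNinv : N⁻¹ ∈ D.V := by
    rw [Datum.mem_V]
    show ((N : F) : LaurentSeries L)⁻¹ ∈ gaussRing A
    rw [hN, coe_sum_map]
    exact inv_emb_mem_gaussRing A hNred
  have hN0 : N ≠ 0 := by
    intro h0
    apply hNred
    have h1 : ((N : F) : LaurentSeries L) = 0 := by rw [h0]; rfl
    rw [hN, coe_sum_map] at h1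
    have h2 := emb_injective A (h1.trans (map_zero (emb A)).symm)
    rw [h2, map_zero]
  have hrel : algebraMap L F c' * (Polynomial.aeval D.h ((q' 0).map A.subtype) * y) =
      algebraMap L F c * N := by
    rw [hdq, map_mul, Polynomial.aeval_C] at h
    rw [← mul_assoc, h, hN, Finset.mul_sum]
    refine Finset.sum_congr rfl fun i _ => ?_
    rw [hpq i, map_mul, Polynomial.aeval_C, mul_assoc]
  have hcc : c'⁻¹ * c ∈ A := by
    rw [← D.algebraMap_mem_V_iff]
    have h1 : algebraMap L F (c'⁻¹ * c) =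
        Polynomial.aeval D.h ((q' 0).map A.subtype) * y * N⁻¹ := by
      rw [map_mul, map_inv₀, eq_mul_inv_iff_mul_eq₀ hN0, mul_assoc,
        inv_mul_eq_iff_eq_mul₀ hc'F, hrel]
    rw [h1]
    exact D.V.mul_mem _ _ (D.V.mul_mem _ _ (aeval_map_mem D _) hy) hNinv
  have hq'ne : Polynomial.aeval D.h ((q' 0).map A.subtype) ≠ 0 := by
    intro h0
    apply hne
    rw [hdq, map_mul, h0, mul_zero]
  have h2 : Polynomial.aeval D.h (p i) / Polynomial.aeval D.h d =
      algebraMap L F (c'⁻¹ * c) * Polynomial.aeval D.h ((q i).map A.subtype) *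
        (Polynomial.aeval D.h ((q' 0).map A.subtype))⁻¹ := by
    rw [hpq i, hdq, map_mul, map_mul, Polynomial.aeval_C, Polynomial.aeval_C, map_mul, map_inv₀]
    field_simp
  rw [h2]
  exact D.V.mul_mem _ _ (D.V.mul_mem _ _ ((D.algebraMap_mem_V_iff _).2 hcc) (aeval_map_mem D _))
    (inv_aeval_map_mem D _ hq')

/-- the `GaussDatum` of WP-D2 for the Gauss valuation ring -/
def gaussDatum : D2.GaussDatum L D.goodVal.V D.h (IntermediateField.adjoin L {D.h}) n where
  K_eq := rfl
  h_mem := D.h_mem_V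
  hinv_mem := D.hinv_mem_V
  inv_aeval_mem := fun p hp hu => D.inv_aeval_mem p
    (fun i => (D.algebraMap_mem_V_iff _).1 (hp i)) (by
      obtain ⟨i, h0, hi⟩ := hu
      refine ⟨i, h0, (D.algebraMap_mem_V_iff _).1 ?_⟩
      rw [map_inv₀]
      exact hi)
  B := basis D
  B_mem := basis_mem D
  repr_mem := repr_mem D

end Datum

end Fermat.Agent.S18.GaussBasis

namespace Fermat.Agent.S18.Gauss.Datum

variable {L : Type*} [Field L] {A : ValuationSubring L}
  {F : IntermediateField L (LaurentSeries L)} {n : ℕ} (D : Datum A F n)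

/-- the basis `θ^i` of `F` over `L(h)`. -/
def basis : Module.Basis (Fin n) ↥(IntermediateField.adjoin L {D.h}) F := GaussBasis.basis D

theorem basis_apply (i : Fin n) : D.basis i = D.θ ^ (i : ℕ) := GaussBasis.basis_apply D i

theorem finrank_eq : Module.finrank ↥(IntermediateField.adjoin L {D.h}) F = n :=
  GaussBasis.finrank_eq D

theorem basis_mem (i : Fin n) : D.basis i ∈ D.V := GaussBasis.basis_mem D i

/-- `V = ⊕ (V ∩ L(h)) θ^i`. -/
theorem repr_mem (y : F) (hy : y ∈ D.V) (i : Fin n) :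
    ((D.basis.repr y i : ↥(IntermediateField.adjoin L {D.h})) : F) ∈ D.V :=
  GaussBasis.repr_mem D y hy i

/-- the `GaussDatum` of WP-D2 for the Gauss valuation ring. -/
def gaussDatum : D2.GaussDatum L D.goodVal.V D.h (IntermediateField.adjoin L {D.h}) n :=
  GaussBasis.gaussDatum D

theorem gaussDatum_B : D.gaussDatum.B = D.basis := rfl

end Fermat.Agent.S18.Gauss.Datum
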