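/-
S18, glue (helper8): for a Gauss `Datum A F n` the hub hypotheses `TransferZero`, `TransferInf`,
`LatticeLemma` of `D.goodVal`, and the two `E1.ChartVal`s (charts `h` and `h⁻¹`).
-/
import Mathlib
import Fermat.Agent.S18_GaussBasis
import Fermat.Agent.S18_D2Hub
import Fermat.Agent.S18_D2Chart

set_option autoImplicit false
set_option linter.style.haveILetI false
set_option linter.unusedSectionVars false

noncomputable section

open ModularCurve Polynomial AlgebraicCurve Fermat.Agent.S24

namespace Fermat.Agent.S18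

/-- the reduction of `h⁻¹` is the inverse of `h̄` -/
theorem GoodVal.ρ_inv {L F : Type*} [Field L] [Field F] [Algebra L F] {O : ValuationSubring L}
    {h : F} (G : GoodVal O h) (hh0 : h ≠ 0) : G.ρ ⟨h⁻¹, G.hinv_mem⟩ = G.hbar⁻¹ := by
  apply eq_inv_of_mul_eq_one_right
  rw [GoodVal.hbar, ← map_mul]
  have : (⟨h, G.h_mem⟩ : G.V) * ⟨h⁻¹, G.hinv_mem⟩ = 1 := Subtype.ext (mul_inv_cancel₀ hh0)
  rw [this, map_one]

namespace Gauss.Datum

variable {L : Type*} [Field L] {A : ValuationSubring L}
  {F : IntermediateField L (LaurentSeries L)} {n : ℕ} (D : Datum A F n)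

/-- the hub's `TransferZero` for the Gauss valuation ring -/
theorem transferZero [IsAlgClosed L] [CharZero L] (hh : IsGenerator L D.h) :
    D.goodVal.TransferZero :=
  D2.transferZero D.goodVal D.gaussDatum hh

/-- the hub's `TransferInf` for the Gauss valuation ring -/
theorem transferInf [IsAlgClosed L] [CharZero L] (hh : IsGenerator L D.h) :
    D.goodVal.TransferInf :=
  D2.transferInf D.goodVal D.gaussDatum hh

/-- the hub's `LatticeLemma` for the Gauss valuation ring -/
theorem latticeLemma : D.goodVal.LatticeLemma :=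
  D2.latticeLemma D.goodVal D.gaussDatum D.transcendental_h

/-- the chart `x = h` -/
theorem chartVal_zero
    (hsep : Algebra.IsSeparable
      ↥(IntermediateField.adjoin (IsLocalRing.ResidueField A) {D.goodVal.hbar}) D.goodVal.κ) :
    E1.ChartVal D.goodVal D.h (IntermediateField.adjoin L {D.h})
      (IntermediateField.adjoin (IsLocalRing.ResidueField A) {D.goodVal.hbar}) n :=
  D2.chartVal D.goodVal D.gaussDatum D.transcendental_h hsep

/-- the chart `x = h⁻¹` -/
theorem chartVal_inf
    (hsep : Algebra.IsSeparable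
      ↥(IntermediateField.adjoin (IsLocalRing.ResidueField A) {D.goodVal.hbar}) D.goodVal.κ) :
    E1.ChartVal D.goodVal D.h⁻¹ (IntermediateField.adjoin L {D.h})
      (IntermediateField.adjoin (IsLocalRing.ResidueField A) {D.goodVal.hbar}) n := by
  have hh0 : D.h ≠ 0 := fun h0 => D.transcendental_h (h0 ▸ isAlgebraic_zero)
  have htr : Transcendental L D.h⁻¹ := by
    intro halg
    exact D.transcendental_h (by simpa using halg.inv)
  refine D2.chartVal' D.goodVal D.gaussDatum.inv htr _ ?_ hsep
  have h1 : D.goodVal.ρ ⟨D.h⁻¹, D.gaussDatum.inv.h_mem⟩ = D.goodVal.hbar⁻¹ :=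
    D.goodVal.ρ_inv hh0
  rw [h1, D2.adjoin_inv']

end Gauss.Datum

end Fermat.Agent.S18
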