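import Mathlib
import Fermat.Agent.RR_Main
import Fermat.Agent.S18_Hub

/-!
# S18 hub, part 1: the Riemann–Roch spaces `W(a,b) = L(-D' + a·(h)_∞ + b·(h)_0)`

Here `D' = div(u)/m`.  Everything is phrased by order conditions at places.
-/

set_option autoImplicit false

noncomputable section

open AlgebraicCurve Fermat.Agent.S24 Fermat.Agent.RR

namespace Fermat.Agent.S18.HubDiv

variable {L F : Type*} [Field L] [Field F] [Algebra L F]

theorem ord_pow' (v : Place L F) (f : F) (n : ℕ) : v.ord (f ^ n) = n * v.ord f := by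
  have := v.ord_zpow f n
  simpa using this

theorem ord_pow_div (v : Place L F) {y u : F} (hy : y ≠ 0) (hu : u ≠ 0) (n : ℕ) :
    v.ord (y ^ n / u) = n * v.ord y - v.ord u := by
  rw [div_eq_mul_inv, v.ord_mul (pow_ne_zero n hy) (inv_ne_zero hu), v.ord_inv, ord_pow']
  ring

/-- the lower bound function: `ord_P(u)/m + a·min(ord_P h, 0) - b·max(ord_P h, 0)`. -/
def bd (h : F) (m : ℕ) (u : F) (a b : ℕ) (P : Place L F) : ℤ :=
  P.ord u / m + a * min (P.ord h) 0 - b * max (P.ord h) 0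

variable (L) in
/-- `W(a,b)`. -/
def Wab (h : F) (m : ℕ) (u : F) (a b : ℕ) : Submodule L F where
  carrier := {x | x = 0 ∨ ∀ P : Place L F, bd h m u a b P ≤ P.ord x}
  zero_mem' := Or.inl rfl
  add_mem' := by
    rintro f g hf hg
    rcases eq_or_ne f 0 with rfl | hf0
    · simpa using hg
    rcases eq_or_ne g 0 with rfl | hg0
    · simpa using hf
    rcases eq_or_ne (f + g) 0 with h0 | h0
    · exact Or.inl h0
    refine Or.inr fun v => ?_
    have h1 := (hf.resolve_left hf0) v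
    have h2 := (hg.resolve_left hg0) v
    have h3 := ord_add_ge v hf0 hg0 h0
    rcases min_le_iff.mp h3 with h | h <;> omega
  smul_mem' := by
    rintro c f hf
    rcases eq_or_ne c 0 with rfl | hc
    · exact Or.inl (zero_smul _ _)
    rcases hf with rfl | hf
    · exact Or.inl (smul_zero _)
    · exact Or.inr fun v => by rw [ord_smul_const v hc]; exact hf v

variable {h : F} {m : ℕ} {u : F}

theorem mem_Wab {a b : ℕ} {x : F} :
    x ∈ Wab L h m u a b ↔ x = 0 ∨ ∀ P : Place L F, bd h m u a b P ≤ P.ord x := Iff.rfl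

theorem bd_mono {a a' b b' : ℕ} (ha : a ≤ a') (hb : b ≤ b') (P : Place L F) :
    bd h m u a' b' P ≤ bd h m u a b P := by
  unfold bd
  have h1 : (a : ℤ) ≤ a' := by exact_mod_cast ha
  have h2 : (b : ℤ) ≤ b' := by exact_mod_cast hb
  have h3 : min (P.ord h) 0 ≤ 0 := min_le_right _ _
  have h4 : 0 ≤ max (P.ord h) 0 := le_max_right _ _
  nlinarith [mul_nonneg (sub_nonneg.2 h1) (neg_nonneg.2 h3), mul_nonneg (sub_nonneg.2 h2) h4]

theorem Wab_mono {a a' b b' : ℕ} (ha : a ≤ a') (hb : b ≤ b') :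
    Wab L h m u a b ≤ Wab L h m u a' b' := by
  intro x hx
  rcases hx with rfl | hx
  · exact Or.inl rfl
  · exact Or.inr fun P => le_trans (bd_mono ha hb P) (hx P)

theorem Wab_inf_le {a a' b b' : ℕ} (_ha : a ≤ a') (_hb : b ≤ b') :
    Wab L h m u a' b ⊓ Wab L h m u a b' ≤ Wab L h m u a b := by
  rintro x ⟨hx1, hx2⟩
  rcases eq_or_ne x 0 with rfl | hx0
  · exact Or.inl rfl
  have h1 := hx1.resolve_left hx0
  have h2 := hx2.resolve_left hx0
  refine Or.inr fun P => ?_
  have e1 := h1 P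
  have e2 := h2 P
  unfold bd at e1 e2 ⊢
  rcases le_total 0 (P.ord h) with ho | ho
  · rw [min_eq_right ho, max_eq_left ho] at e1 e2 ⊢
    linarith
  · rw [min_eq_left ho, max_eq_right ho] at e1 e2 ⊢
    linarith

theorem mul_hinv_pow_mem (hh0 : h ≠ 0) {a b : ℕ} {y : F} (hy : y ∈ Wab L h m u (a + b) 0) :
    y * h⁻¹ ^ b ∈ Wab L h m u a b := by
  rcases eq_or_ne y 0 with rfl | hy0
  · simp
  have h1 := hy.resolve_left hy0
  refine Or.inr fun P => ?_
  have e1 := h1 P
  rw [P.ord_mul hy0 (pow_ne_zero _ (inv_ne_zero hh0)), ord_pow', P.ord_inv]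
  unfold bd at e1 ⊢
  push_cast at e1
  rcases le_total 0 (P.ord h) with ho | ho
  · rw [min_eq_right ho, max_eq_left ho] at e1 ⊢
    linarith
  · rw [min_eq_left ho, max_eq_right ho] at e1 ⊢
    linarith

theorem pow_succ_div_mem (hu : u ≠ 0) (hdiv : ∀ P : Place L F, (m : ℤ) ∣ P.ord u)
    {a b : ℕ} {x : F} (hx : x ∈ Wab L h m u a b) :
    x ^ (m + 1) / u ∈ Wab L h m u ((m + 1) * a) ((m + 1) * b) := by
  rcases eq_or_ne x 0 with rfl | hx0
  · simp
  have h1 := hx.resolve_left hx0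
  refine Or.inr fun P => ?_
  have e1 := h1 P
  rw [ord_pow_div P hx0 hu]
  unfold bd at e1 ⊢
  have hd : (m : ℤ) * (P.ord u / m) = P.ord u := Int.mul_ediv_cancel' (hdiv P)
  push_cast
  nlinarith [mul_le_mul_of_nonneg_left e1 (by positivity : (0 : ℤ) ≤ (m : ℤ) + 1)]

theorem ord_transfer_zero (hh0 : h ≠ 0) (hu : u ≠ 0) (hdiv : ∀ P : Place L F, (m : ℤ) ∣ P.ord u)
    {a b : ℕ} {x : F} (hx : x ∈ Wab L h m u a b) (P : Place L F) (hP : 0 ≤ P.ord h) :
    0 ≤ P.ord ((x * h ^ b) ^ m / u) := by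
  rcases eq_or_ne x 0 with rfl | hx0
  · rcases Nat.eq_zero_or_pos m with rfl | hm
    · simp only [zero_mul, pow_zero, one_div, P.ord_inv]
      have := hdiv P
      simp only [Nat.cast_zero, zero_dvd_iff] at this
      simp [this]
    · simp [zero_pow hm.ne']
  have h1 := hx.resolve_left hx0
  have e1 := h1 P
  rw [ord_pow_div P (mul_ne_zero hx0 (pow_ne_zero _ hh0)) hu, P.ord_mul hx0 (pow_ne_zero _ hh0),
    ord_pow']
  unfold bd at e1
  rw [min_eq_right hP, max_eq_left hP] at e1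
  have hd : (m : ℤ) * (P.ord u / m) = P.ord u := Int.mul_ediv_cancel' (hdiv P)
  nlinarith [mul_le_mul_of_nonneg_left e1 (by positivity : (0 : ℤ) ≤ (m : ℤ))]

theorem ord_transfer_inf (hh0 : h ≠ 0) (hu : u ≠ 0) (hdiv : ∀ P : Place L F, (m : ℤ) ∣ P.ord u)
    {a b : ℕ} {x : F} (hx : x ∈ Wab L h m u a b) (P : Place L F) (hP : P.ord h ≤ 0) :
    0 ≤ P.ord ((x * h⁻¹ ^ a) ^ m / u) := by
  rcases eq_or_ne x 0 with rfl | hx0
  · rcases Nat.eq_zero_or_pos m with rfl | hm
    · simp only [zero_mul, pow_zero, one_div, P.ord_inv]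
      have := hdiv P
      simp only [Nat.cast_zero, zero_dvd_iff] at this
      simp [this]
    · simp [zero_pow hm.ne']
  have h1 := hx.resolve_left hx0
  have e1 := h1 P
  have hhi : h⁻¹ ^ a ≠ 0 := pow_ne_zero _ (inv_ne_zero hh0)
  rw [ord_pow_div P (mul_ne_zero hx0 hhi) hu, P.ord_mul hx0 hhi, ord_pow', P.ord_inv]
  unfold bd at e1
  rw [min_eq_left hP, max_eq_right hP] at e1
  have hd : (m : ℤ) * (P.ord u / m) = P.ord u := Int.mul_ediv_cancel' (hdiv P)
  nlinarith [mul_le_mul_of_nonneg_left e1 (by positivity : (0 : ℤ) ≤ (m : ℤ))]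

section RR

variable [IsAlgClosed L] [CharZero L]

theorem exists_divisor_Wab (hh : IsGenerator L h) (hm : m ≠ 0) (hu : u ≠ 0)
    (hdiv : ∀ P : Place L F, (m : ℤ) ∣ P.ord u) (a b : ℕ) :
    ∃ E : Divisor L F,
      Divisor.degree E = (Module.finrank (IntermediateField.adjoin L {h}) F : ℤ) * (a + b) ∧
      Wab L h m u a b = LSpace L F E := by
  classical
  have hpr := Places.hasPrincipalDivisors hh
  have hh0 : h ≠ 0 := fun h0 => hh.1 (h0 ▸ (isAlgebraic_zero))
  obtain ⟨Du, hDu, hdegu⟩ := HasPrincipalDivisors.exists_divisor (K := L) u hu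
  obtain ⟨Dh, hDh, hdegh⟩ := HasPrincipalDivisors.exists_divisor (K := L) h hh0
  set D' : Divisor L F := Du.mapRange (fun z => z / (m : ℤ)) (by simp) with hD'
  set Hinf : Divisor L F := Dh.mapRange (fun z => max (-z) 0) (by simp) with hHinf
  set Hzero : Divisor L F := Dh.mapRange (fun z => max z 0) (by simp) with hHzero
  have hdeg1 : ∀ v : Place L F, v.deg = 1 := Places.deg_eq_one hh
  have hdegD' : Divisor.degree D' = 0 := by
    have h1 : (m : ℤ) • D' = Du := by
      ext P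
      rw [Finsupp.smul_apply, hD', Finsupp.mapRange_apply, hDu, smul_eq_mul]
      exact Int.mul_ediv_cancel' (hdiv P)
    have h2 := congrArg Divisor.degree h1
    rw [map_zsmul, hdegu, smul_eq_mul] at h2
    rcases mul_eq_zero.1 h2 with h3 | h3
    · exact absurd (by exact_mod_cast h3) hm
    · exact h3
  have hdegHinf : Divisor.degree Hinf = (Module.finrank (IntermediateField.adjoin L {h}) F : ℤ) := by
    rw [LCore.degree_eq_sum, Finsupp.sum]
    have hsupp : Hinf.support = (Places.finite_poles hh).toFinset := by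
      ext P
      rw [Finsupp.mem_support_iff, Set.Finite.mem_toFinset, hHinf, Finsupp.mapRange_apply, hDh]
      simp only [Set.mem_ofPred_eq]
      constructor
      · intro hne
        by_contra hcon
        exact hne (max_eq_right (by omega))
      · intro hlt
        rw [max_eq_left (by omega)]
        omega
    rw [hsupp]
    have := Places.sum_ord_poles hh
    have h2 : ∑ v ∈ (Places.finite_poles hh).toFinset, Hinf v * (v.deg : ℤ)
        = ∑ v ∈ (Places.finite_poles hh).toFinset, -(v.ord h) := by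
      refine Finset.sum_congr rfl fun v hv => ?_
      rw [Set.Finite.mem_toFinset] at hv
      simp only [Set.mem_ofPred_eq] at hv
      rw [hdeg1, hHinf, Finsupp.mapRange_apply, hDh, max_eq_left (by omega)]
      simp
    rw [h2, Finset.sum_neg_distrib, this, neg_neg]
  have hdegHzero : Divisor.degree Hzero = (Module.finrank (IntermediateField.adjoin L {h}) F : ℤ) := by
    have h1 : Hzero = Hinf + Dh := by
      ext P
      rw [Finsupp.add_apply, hHzero, hHinf, Finsupp.mapRange_apply, Finsupp.mapRange_apply]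
      rcases le_total 0 (Dh P) with h0 | h0
      · rw [max_eq_left h0, max_eq_right (by omega)]; ring
      · rw [max_eq_right h0, max_eq_left (by omega)]; ring
    rw [h1, map_add, hdegHinf, hdegh, add_zero]
  refine ⟨-D' + (a : ℤ) • Hinf + (b : ℤ) • Hzero, ?_, ?_⟩
  · rw [map_add, map_add, map_neg, map_zsmul, map_zsmul, hdegD', hdegHinf, hdegHzero]
    simp only [smul_eq_mul]
    ring
  · ext x
    rw [mem_Wab, mem_LSpace]
    refine or_congr Iff.rfl (forall_congr' fun P => ?_)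
    rw [Finsupp.add_apply, Finsupp.add_apply, Finsupp.neg_apply, Finsupp.smul_apply,
      Finsupp.smul_apply, hD', hHinf, hHzero, Finsupp.mapRange_apply, Finsupp.mapRange_apply,
      Finsupp.mapRange_apply, hDu, hDh]
    unfold bd
    simp only [smul_eq_mul]
    rcases le_total 0 (P.ord h) with h0 | h0
    · rw [max_eq_left h0, max_eq_right (by omega : -(P.ord h) ≤ 0), min_eq_right h0]
      constructor <;> intro hx <;> linarith
    · rw [max_eq_right h0, max_eq_left (by omega : 0 ≤ -(P.ord h)), min_eq_left h0]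
      constructor <;> intro hx <;> linarith

theorem finiteDimensional_Wab (hh : IsGenerator L h) (hm : m ≠ 0) (hu : u ≠ 0)
    (hdiv : ∀ P : Place L F, (m : ℤ) ∣ P.ord u) (a b : ℕ) :
    FiniteDimensional L (Wab L h m u a b) := by
  obtain ⟨E, -, hE⟩ := exists_divisor_Wab hh hm hu hdiv a b
  rw [hE]
  exact finiteDimensional_LSpace hh E

theorem finrank_Wab (hh : IsGenerator L h) (hm : m ≠ 0) (hu : u ≠ 0)
    (hdiv : ∀ P : Place L F, (m : ℤ) ∣ P.ord u) {g : ℤ} (hg : GenusFormula L F g) :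
    ∃ j₁ : ℕ, ∀ a b : ℕ, j₁ ≤ a + b →
      (Module.finrank L (Wab L h m u a b) : ℤ)
        = (Module.finrank (IntermediateField.adjoin L {h}) F : ℤ) * ((a : ℤ) + b) + 1 - g := by
  obtain ⟨d₀, hd⟩ := hg
  refine ⟨d₀.toNat + 1, fun a b hab => ?_⟩
  obtain ⟨E, hdeg, hE⟩ := exists_divisor_Wab hh hm hu hdiv a b
  have : FiniteDimensional (IntermediateField.adjoin L {h}) F := hh.2
  have hpos : 0 < Module.finrank (IntermediateField.adjoin L {h}) F := Module.finrank_pos
  rw [hE, hd E ?_, hdeg]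
  rw [hdeg]
  have h1 : (d₀ : ℤ) < (a : ℤ) + b := by
    have := Int.self_le_toNat d₀
    have h2 : ((d₀.toNat + 1 : ℕ) : ℤ) ≤ ((a + b : ℕ) : ℤ) := by exact_mod_cast hab
    push_cast at h2
    omega
  have h3 : (1 : ℤ) ≤ (Module.finrank (IntermediateField.adjoin L {h}) F : ℤ) := by
    exact_mod_cast hpos
  nlinarith

/-- a nonzero element of `W(0,0) = L(-D')` gives an `m`-th root of `u`. -/
theorem exists_root_of_mem (hh : IsGenerator L h) (hm : m ≠ 0) (hu : u ≠ 0)
    (hdiv : ∀ P : Place L F, (m : ℤ) ∣ P.ord u) {g : F} (hg : g ∈ Wab L h m u 0 0) (hg0 : g ≠ 0) :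
    ∃ t : F, t ^ m = u := by
  have h1 := hg.resolve_left hg0
  have hmem : g ^ m / u ∈ LSpace L F (0 : Divisor L F) := by
    refine Or.inr fun P => ?_
    have e1 := h1 P
    rw [ord_pow_div P hg0 hu]
    unfold bd at e1
    have hd : (m : ℤ) * (P.ord u / m) = P.ord u := Int.mul_ediv_cancel' (hdiv P)
    simp only [Nat.cast_zero, zero_mul, add_zero, sub_zero] at e1
    simp only [Finsupp.coe_zero, Pi.zero_apply, add_zero]
    nlinarith [mul_le_mul_of_nonneg_left e1 (by positivity : (0 : ℤ) ≤ (m : ℤ))]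
  obtain ⟨c, hc⟩ := (mem_LSpace_zero_iff hh _).1 hmem
  have hc0 : c ≠ 0 := by
    rintro rfl
    rw [map_zero] at hc
    exact (div_ne_zero (pow_ne_zero m hg0) hu) hc.symm
  obtain ⟨c₀, hc₀⟩ := IsAlgClosed.exists_pow_nat_eq c (Nat.pos_of_ne_zero hm)
  have hc₀0 : c₀ ≠ 0 := by
    rintro rfl
    rw [zero_pow hm] at hc₀
    exact hc0 hc₀.symm
  refine ⟨g / algebraMap L F c₀, ?_⟩
  rw [div_pow, ← map_pow, hc₀, hc]
  have hgm : g ^ m ≠ 0 := pow_ne_zero m hg0
  field_simp

end RR

end Fermat.Agent.S18.HubDiv
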