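import Mathlib
import Fermat.Agent.S18_HubDiv

/-!
# S18 hub, part 2: integral lattices `Λ(a,b) = W(a,b) ∩ V` and their reductions
-/

set_option autoImplicit false

noncomputable section

open AlgebraicCurve Fermat.Agent.S24 Fermat.Agent.RR Fermat.Agent.S18.HubDiv

namespace Fermat.Agent.S18.HubRed

variable {L F : Type*} [Field L] [Field F] [Algebra L F] {O : ValuationSubring L} {h : F}
  (G : GoodVal O h)

/-- the `O`-algebra structure on `V`. -/
instance algebraV : Algebra O G.V := G.incl.toAlgebra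

theorem smul_V_coe (c : O) (x : G.V) : ((c • x : G.V) : F) = algebraMap L F c * x := by
  rw [Algebra.smul_def]; rfl

theorem algebraMap_residue (c : O) :
    algebraMap (IsLocalRing.ResidueField O) G.κ (IsLocalRing.residue O c) = G.ρ (G.incl c) :=
  IsLocalRing.ResidueField.map_residue _ _

theorem smul_residue (c : O) (x : G.V) :
    (IsLocalRing.residue O c) • G.ρ x = G.ρ (c • x) := by
  rw [Algebra.smul_def, algebraMap_residue, Algebra.smul_def, map_mul]; rfl

theorem coe_sum_smul {r : ℕ} (c : Fin r → O) (y : Fin r → G.V) :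
    ((∑ i, c i • y i : G.V) : F) = ∑ i, ((c i : O) : L) • (y i : F) := by
  rw [← ValuationSubring.subtype_apply, map_sum]
  refine Finset.sum_congr rfl fun i _ => ?_
  rw [ValuationSubring.subtype_apply, smul_V_coe, Algebra.smul_def]

/-- every element can be scaled into `V` by a nonzero element of `O`. -/
theorem exists_scale (y : F) : ∃ e : O, e ≠ 0 ∧ algebraMap L F e * y ∈ G.V := by
  rcases eq_or_ne y 0 with rfl | hy
  · exact ⟨1, one_ne_zero, by simp [G.V.zero_mem]⟩
  obtain ⟨c, hc0, hc1, hc2⟩ := G.scale y hy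
  rcases O.mem_or_inv_mem c with hc | hc
  · exact ⟨⟨c, hc⟩, fun h0 => hc0 (congrArg Subtype.val h0), hc1⟩
  · refine ⟨1, one_ne_zero, ?_⟩
    have : y = algebraMap L F c⁻¹ * (algebraMap L F c * y) := by
      rw [← mul_assoc, ← map_mul, inv_mul_cancel₀ hc0, map_one, one_mul]
    simp only [OneMemClass.coe_one, map_one, one_mul]
    rw [this]
    exact G.V.mul_mem _ _ ((G.mem_iff _).2 hc) hc1

/-- an element of the maximal ideal of `V` is (an element of the maximal ideal of `O`) times
an element of `V`. -/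
theorem exists_factor (x : G.V) (hx0 : x ≠ 0) (hx : G.ρ x = 0) :
    ∃ (c : O) (x' : G.V), c ∈ IsLocalRing.maximalIdeal O ∧ c ≠ 0 ∧ x = c • x' := by
  have hxF : (x : F) ≠ 0 := fun h0 => hx0 (Subtype.ext h0)
  obtain ⟨e, he0, he1, he2⟩ := G.scale (x : F) hxF
  have heF : algebraMap L F e ≠ 0 := by rwa [Ne, map_eq_zero]
  have h1 : algebraMap L F e⁻¹ = (x : F) * (algebraMap L F e * x)⁻¹ := by
    rw [map_inv₀]; field_simp
  have hemem : e⁻¹ ∈ O := by
    rw [← G.mem_iff, h1]
    exact G.V.mul_mem _ _ x.2 he2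
  have hx'u : IsUnit (⟨_, he1⟩ : G.V) :=
    IsUnit.of_mul_eq_one (⟨_, he2⟩ : G.V) (Subtype.ext (by
      simp only [MulMemClass.mk_mul_mk, OneMemClass.coe_one]
      exact mul_inv_cancel₀ (mul_ne_zero heF hxF)))
  have hxe : x = (⟨e⁻¹, hemem⟩ : O) • (⟨_, he1⟩ : G.V) := by
    apply Subtype.ext
    rw [smul_V_coe]
    simp only
    rw [← mul_assoc, ← map_mul, inv_mul_cancel₀ he0, map_one, one_mul]
  refine ⟨⟨e⁻¹, hemem⟩, ⟨_, he1⟩, ?_, ?_, hxe⟩
  · rw [IsLocalRing.mem_maximalIdeal, mem_nonunits_iff]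
    intro hcu
    have hxu : IsUnit x := by
      rw [hxe, Algebra.smul_def]
      exact (hcu.map _).mul hx'u
    have := (IsLocalRing.residue_ne_zero_iff_isUnit x).2 hxu
    exact this hx
  · exact fun h0 => he0 (by simpa using congrArg Subtype.val h0)

/-- consequences of the lattice lemma: an `O`-basis of `W ∩ V` that is an `L`-basis of `W` and
reduces to a `k`-independent family. -/
theorem exists_good_basis (hLL : G.LatticeLemma) (W : Submodule L F) [FiniteDimensional L W] :
    ∃ y : Fin (Module.finrank L W) → G.V, (∀ i, (y i : F) ∈ W) ∧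
      (∀ x : G.V, (x : F) ∈ W → ∃ c : Fin (Module.finrank L W) → O, x = ∑ i, c i • y i) ∧
      LinearIndependent L (fun i => (y i : F)) ∧
      LinearIndependent (IsLocalRing.ResidueField O) (fun i => G.ρ (y i)) := by
  classical
  obtain ⟨y0, hy0, hsp⟩ := hLL W inferInstance
  set y : Fin (Module.finrank L W) → G.V := fun i => ⟨y0 i, (hy0 i).2⟩ with hy
  have hsp' : ∀ x : G.V, (x : F) ∈ W → ∃ c : Fin (Module.finrank L W) → O,
      x = ∑ i, c i • y i := by
    intro x hx
    obtain ⟨c, hc, hxc⟩ := hsp x hx x.2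
    refine ⟨fun i => ⟨c i, hc i⟩, Subtype.ext ?_⟩
    rw [coe_sum_smul, hxc]
  -- L-independence
  have hLind : LinearIndependent L (fun i => (y i : F)) := by
    have hspan : ⊤ ≤ Submodule.span L (Set.range fun i => (⟨y0 i, (hy0 i).1⟩ : W)) := by
      rintro ⟨w, hw⟩ -
      obtain ⟨e, he0, hew⟩ := exists_scale G w
      have heW : algebraMap L F e * w ∈ W := by
        rw [← Algebra.smul_def]; exact W.smul_mem _ hw
      obtain ⟨c, hc, hxc⟩ := hsp _ heW hew
      have he0' : ((e : O) : L) ≠ 0 := fun h0 => he0 (Subtype.ext h0)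
      have hw' : (⟨w, hw⟩ : W) = ((e : O) : L)⁻¹ • ∑ i, c i • (⟨y0 i, (hy0 i).1⟩ : W) := by
        apply Subtype.ext
        simp only [Submodule.coe_smul, Submodule.coe_sum]
        rw [← hxc, Algebra.smul_def, ← mul_assoc, ← map_mul, inv_mul_cancel₀ he0', map_one,
          one_mul]
      rw [hw']
      refine Submodule.smul_mem _ _ (Submodule.sum_mem _ fun i _ => Submodule.smul_mem _ _ ?_)
      exact Submodule.subset_span ⟨i, rfl⟩
    have hind := linearIndependent_of_top_le_span_of_card_eq_finrank hspan (by simp)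
    exact hind.map' W.subtype (Submodule.ker_subtype W)
  refine ⟨y, fun i => (hy0 i).1, hsp', hLind, ?_⟩
  rw [Fintype.linearIndependent_iff]
  intro gk hgk i
  choose c hc using fun i => IsLocalRing.residue_surjective (gk i)
  set x : G.V := ∑ i, c i • y i with hx
  have hρ : G.ρ x = 0 := by
    rw [hx, map_sum, ← hgk]
    refine Finset.sum_congr rfl fun i _ => ?_
    rw [← hc i, smul_residue]
  have hxW : (x : F) ∈ W := by
    rw [hx, coe_sum_smul]
    exact Submodule.sum_mem _ fun i _ => Submodule.smul_mem _ _ (hy0 i).1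
  by_cases hx0 : x = 0
  · have h1 : ∑ i, ((c i : O) : L) • (y i : F) = 0 := by
      rw [← coe_sum_smul, ← hx, hx0]; rfl
    have h2 := Fintype.linearIndependent_iff.1 hLind _ h1 i
    have h3 : c i = 0 := Subtype.ext h2
    rw [← hc i, h3, map_zero]
  · obtain ⟨e, x', he, he0, hxe⟩ := exists_factor G x hx0 hρ
    have he0' : ((e : O) : L) ≠ 0 := fun h0 => he0 (Subtype.ext h0)
    have hx'W : (x' : F) ∈ W := by
      have h1 : (x' : F) = ((e : O) : L)⁻¹ • (x : F) := by
        rw [hxe, smul_V_coe, Algebra.smul_def, ← mul_assoc, ← map_mul, inv_mul_cancel₀ he0',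
          map_one, one_mul]
      rw [h1]
      exact W.smul_mem _ hxW
    obtain ⟨d, hd⟩ := hsp' x' hx'W
    have h1 : ∑ i, (((c i : O) : L) - ((e : O) : L) * ((d i : O) : L)) • (y i : F) = 0 := by
      simp only [sub_smul, Finset.sum_sub_distrib]
      rw [← coe_sum_smul, ← hx, hxe, hd, smul_V_coe, coe_sum_smul,
        Finset.mul_sum, sub_eq_zero]
      refine Finset.sum_congr rfl fun i _ => ?_
      rw [Algebra.smul_def, Algebra.smul_def, map_mul, mul_assoc]
    have h2 := Fintype.linearIndependent_iff.1 hLind _ h1 i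
    have h3 : c i = e * d i := Subtype.ext (by simpa [sub_eq_zero] using h2)
    rw [← hc i, h3, map_mul]
    have : IsLocalRing.residue O e = 0 := (IsLocalRing.residue_eq_zero_iff e).2 he
    rw [this, zero_mul]

variable (m : ℕ) (u : F)

/-- `Λ(a,b) = W(a,b) ∩ V` as an `O`-submodule of `V`. -/
def Lam (a b : ℕ) : Submodule O G.V where
  carrier := {x | (x : F) ∈ Wab L h m u a b}
  zero_mem' := (Wab L h m u a b).zero_mem
  add_mem' := fun {x y} hx hy => (Wab L h m u a b).add_mem hx hy
  smul_mem' := fun c x hx => by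
    show ((c • x : G.V) : F) ∈ Wab L h m u a b
    rw [smul_V_coe, ← Algebra.smul_def]
    exact Submodule.smul_mem _ _ hx

theorem mem_Lam {a b : ℕ} {x : G.V} : x ∈ Lam G m u a b ↔ (x : F) ∈ Wab L h m u a b := Iff.rfl

theorem Lam_mono {a a' b b' : ℕ} (ha : a ≤ a') (hb : b ≤ b') :
    Lam G m u a b ≤ Lam G m u a' b' := fun _ hx => Wab_mono ha hb hx

/-- `R(a,b) = ρ(Λ(a,b))` as a `k`-subspace of `κ`. -/
def Rab (a b : ℕ) : Submodule (IsLocalRing.ResidueField O) G.κ where
  carrier := {s | ∃ x ∈ Lam G m u a b, G.ρ x = s}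
  zero_mem' := ⟨0, zero_mem _, map_zero _⟩
  add_mem' := by
    rintro _ _ ⟨x, hx, rfl⟩ ⟨y, hy, rfl⟩
    exact ⟨x + y, add_mem hx hy, map_add _ _ _⟩
  smul_mem' := by
    rintro c _ ⟨x, hx, rfl⟩
    obtain ⟨c', rfl⟩ := IsLocalRing.residue_surjective c
    exact ⟨c' • x, Submodule.smul_mem _ _ hx, (smul_residue G c' x).symm⟩

theorem mem_Rab {a b : ℕ} {s : G.κ} : s ∈ Rab G m u a b ↔ ∃ x ∈ Lam G m u a b, G.ρ x = s :=
  Iff.rfl

theorem Rab_mono {a a' b b' : ℕ} (ha : a ≤ a') (hb : b ≤ b') :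
    Rab G m u a b ≤ Rab G m u a' b' := by
  rintro _ ⟨x, hx, rfl⟩
  exact ⟨x, Lam_mono G m u ha hb hx, rfl⟩

/-- a good basis of `Λ(a,b)`. -/
theorem exists_basis_Lam (hLL : G.LatticeLemma) (a b : ℕ)
    [FiniteDimensional L (Wab L h m u a b)] :
    ∃ y : Fin (Module.finrank L (Wab L h m u a b)) → G.V,
      Lam G m u a b = Submodule.span O (Set.range y) ∧
      Rab G m u a b = Submodule.span (IsLocalRing.ResidueField O) (Set.range fun i => G.ρ (y i)) ∧
      LinearIndependent (IsLocalRing.ResidueField O) (fun i => G.ρ (y i)) := by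
  obtain ⟨y, hyW, hsp, -, hkind⟩ := exists_good_basis G hLL (Wab L h m u a b)
  have h1 : Lam G m u a b = Submodule.span O (Set.range y) := by
    apply le_antisymm
    · intro x hx
      obtain ⟨c, rfl⟩ := hsp x hx
      exact Submodule.sum_mem _ fun i _ => Submodule.smul_mem _ _ (Submodule.subset_span ⟨i, rfl⟩)
    · rw [Submodule.span_le]
      rintro _ ⟨i, rfl⟩
      exact hyW i
  refine ⟨y, h1, ?_, hkind⟩
  apply le_antisymm
  · rintro _ ⟨x, hx, rfl⟩
    obtain ⟨c, rfl⟩ := hsp x hx
    rw [map_sum]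
    refine Submodule.sum_mem _ fun i _ => ?_
    rw [← smul_residue]
    exact Submodule.smul_mem _ _ (Submodule.subset_span ⟨i, rfl⟩)
  · rw [Submodule.span_le]
    rintro _ ⟨i, rfl⟩
    exact ⟨y i, hyW i, rfl⟩

theorem finiteDimensional_Rab (hLL : G.LatticeLemma) (a b : ℕ)
    [FiniteDimensional L (Wab L h m u a b)] :
    FiniteDimensional (IsLocalRing.ResidueField O) (Rab G m u a b) := by
  obtain ⟨y, -, h2, -⟩ := exists_basis_Lam G m u hLL a b
  rw [h2]
  exact FiniteDimensional.span_of_finite _ (Set.finite_range _)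

theorem finrank_Rab (hLL : G.LatticeLemma) (a b : ℕ)
    [FiniteDimensional L (Wab L h m u a b)] :
    Module.finrank (IsLocalRing.ResidueField O) (Rab G m u a b)
      = Module.finrank L (Wab L h m u a b) := by
  obtain ⟨y, -, h2, h3⟩ := exists_basis_Lam G m u hLL a b
  rw [h2, finrank_span_eq_card h3]
  simp

theorem Lam_fg (hLL : G.LatticeLemma) (a b : ℕ)
    [FiniteDimensional L (Wab L h m u a b)] : (Lam G m u a b).FG := by
  obtain ⟨y, h1, -, -⟩ := exists_basis_Lam G m u hLL a b
  rw [h1]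
  exact Submodule.fg_span (Set.finite_range _)

end Fermat.Agent.S18.HubRed
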