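import Mathlib
import Fermat.Agent.S18_HubRed

/-!
# S18 hub, part 3: transfer, lifting, and the integral Čech decomposition
-/

set_option autoImplicit false

noncomputable section

open AlgebraicCurve Fermat.Agent.S24 Fermat.Agent.RR Fermat.Agent.S18.HubDiv
  Fermat.Agent.S18.HubRed

namespace Fermat.Agent.S18.HubLift

variable {L F : Type*} [Field L] [Field F] [Algebra L F] {O : ValuationSubring L} {h : F}
  (G : GoodVal O h)

/-- `h` as an element of `V`. -/
def hV : G.V := ⟨h, G.h_mem⟩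

/-- `h⁻¹` as an element of `V`. -/
def hinvV : G.V := ⟨h⁻¹, G.hinv_mem⟩

theorem hbar_eq : G.hbar = G.ρ (hV G) := rfl

theorem hbar_mul_rho_hinvV (hh0 : h ≠ 0) : G.hbar * G.ρ (hinvV G) = 1 := by
  have h1 : hV G * hinvV G = 1 := Subtype.ext (mul_inv_cancel₀ hh0)
  have h2 := congrArg G.ρ h1
  rwa [map_mul, map_one] at h2

theorem hbar_ne_zero (hh0 : h ≠ 0) : G.hbar ≠ 0 :=
  left_ne_zero_of_mul_eq_one (hbar_mul_rho_hinvV G hh0)

theorem rho_hinvV (hh0 : h ≠ 0) : G.ρ (hinvV G) = G.hbar⁻¹ :=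
  eq_inv_of_mul_eq_one_right (hbar_mul_rho_hinvV G hh0)

/-- `L̄(a,b)`: sections on the special fibre with poles of order `≤ a` at `h = ∞` and `≤ b` at
`h = 0`. -/
def Lbar2 (a b : ℕ) : Set G.κ :=
  {s | IsIntegral (Algebra.adjoin (IsLocalRing.ResidueField O) {G.hbar}) (s * G.hbar ^ b) ∧
    IsIntegral (Algebra.adjoin (IsLocalRing.ResidueField O) {G.hbar⁻¹}) (s * G.hbar⁻¹ ^ a)}

section

variable (hT0 : G.TransferZero) (hTI : G.TransferInf) (hh0 : h ≠ 0) {m : ℕ} (hm : m ≠ 0)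
  (u : G.V) (hu : G.ρ u = 1) (hdiv : ∀ P : Place L F, (m : ℤ) ∣ P.ord (u : F))

include hu in
theorem coe_u_ne_zero : (u : F) ≠ 0 := by
  intro h0
  have : u = 0 := Subtype.ext h0
  rw [this, map_zero] at hu
  exact zero_ne_one hu

include hT0 hTI hh0 hm hu hdiv in
/-- TRANSFER: reductions of `Λ(a,b)` lie in `L̄(a,b)`. -/
theorem Rab_subset_Lbar2 {a b : ℕ} {s : G.κ} (hs : s ∈ Rab G m (u : F) a b) :
    s ∈ Lbar2 G a b := by
  obtain ⟨x, hx, rfl⟩ := hs
  have huu : IsUnit u := by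
    have : IsLocalRing.residue G.V u ≠ 0 := by
      show G.ρ u ≠ 0
      rw [hu]; exact one_ne_zero
    exact (IsLocalRing.residue_ne_zero_iff_isUnit u).1 this
  obtain ⟨ui, hui⟩ := huu.exists_right_inv
  have hρui : G.ρ ui = 1 := by
    have := congrArg G.ρ hui
    rwa [map_mul, hu, one_mul, map_one] at this
  have hu0 : (u : F) ≠ 0 := coe_u_ne_zero G u hu
  have huiF : (ui : F) = (u : F)⁻¹ := eq_inv_of_mul_eq_one_right (congrArg Subtype.val hui)
  constructor
  · set y : G.V := (x * hV G ^ b) ^ m * ui with hy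
    have hyF : (y : F) = ((x : F) * h ^ b) ^ m / u := by
      rw [hy, div_eq_mul_inv, ← huiF]; rfl
    have h1 := hT0 y (fun P hP => by rw [hyF]; exact ord_transfer_zero hh0 hu0 hdiv hx P hP)
    have h2 : G.ρ y = (G.ρ x * G.hbar ^ b) ^ m := by
      rw [hy, map_mul, map_pow, map_mul, map_pow, hρui, mul_one, hbar_eq]
    rw [h2] at h1
    exact IsIntegral.of_pow (Nat.pos_of_ne_zero hm) h1
  · set y : G.V := (x * hinvV G ^ a) ^ m * ui with hy
    have hyF : (y : F) = ((x : F) * h⁻¹ ^ a) ^ m / u := by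
      rw [hy, div_eq_mul_inv, ← huiF]; rfl
    have h1 := hTI y (fun P hP => by rw [hyF]; exact ord_transfer_inf hh0 hu0 hdiv hx P hP)
    have h2 : G.ρ y = (G.ρ x * G.hbar⁻¹ ^ a) ^ m := by
      rw [hy, map_mul, map_pow, map_mul, map_pow, hρui, mul_one, rho_hinvV G hh0]
    rw [h2] at h1
    exact IsIntegral.of_pow (Nat.pos_of_ne_zero hm) h1

end

section Lifting

variable [IsAlgClosed L] [CharZero L] (hh : IsGenerator L h)
  (hT0 : G.TransferZero) (hTI : G.TransferInf) (hLL : G.LatticeLemma) {m : ℕ} (hm : m ≠ 0)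
  (u : G.V) (hu : G.ρ u = 1) (hdiv : ∀ P : Place L F, (m : ℤ) ∣ P.ord (u : F))
  {g : ℤ} (hgen : GenusFormula L F g) (hG2 : G.G2 g)

include hh in
theorem h_ne_zero : h ≠ 0 := fun h0 => hh.1 (h0 ▸ isAlgebraic_zero)

include hh hT0 hTI hLL hm hu hdiv hgen hG2 in
/-- LIFTING: for `a + b` large the dimension formula holds and `ρ(Λ(a,b)) = L̄(a,b)`. -/
theorem exists_lift_bound :
    ∃ J : ℕ, (∀ a b : ℕ, J ≤ a + b →
        (Module.finrank L (Wab L h m (u : F) a b) : ℤ)
          = (Module.finrank (IntermediateField.adjoin L {h}) F : ℤ) * ((a : ℤ) + b) + 1 - g) ∧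
      ∀ a b : ℕ, J ≤ a + b → ∀ s ∈ Lbar2 G a b, s ∈ Rab G m (u : F) a b := by
  have hh0 := h_ne_zero hh
  have hu0 : (u : F) ≠ 0 := coe_u_ne_zero G u hu
  obtain ⟨j₁, hj₁⟩ := finrank_Wab hh hm hu0 hdiv hgen
  obtain ⟨j₀, hj₀⟩ := hG2
  refine ⟨max j₀ j₁, fun a b hab => hj₁ a b (le_trans (le_max_right _ _) hab), ?_⟩
  intro a b hab s hs
  haveI := finiteDimensional_Wab hh hm hu0 hdiv (a + b) 0
  obtain ⟨y, h1, h2, h3⟩ := exists_basis_Lam G m (u : F) hLL (a + b) 0
  have hr := hj₁ (a + b) 0 (le_trans (le_max_right _ _) (by omega))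
  set s' : G.κ := s * G.hbar ^ b with hs'
  have hhb := hbar_ne_zero G hh0
  have hs'mem : s' ∈ G.Lbar (a + b) := by
    refine ⟨hs.1, ?_⟩
    have : s' * G.hbar⁻¹ ^ (a + b) = s * G.hbar⁻¹ ^ a := by
      rw [hs', pow_add, mul_assoc, ← mul_assoc (G.hbar ^ b), mul_comm (G.hbar ^ b),
        mul_assoc (G.hbar⁻¹ ^ a), ← mul_pow, mul_inv_cancel₀ hhb, one_pow, mul_one]
    rw [this]
    exact hs.2
  have hmem : s' ∈ Submodule.span (IsLocalRing.ResidueField O)
      (Set.range fun i => G.ρ (y i)) := by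
    by_contra hnot
    have hind : LinearIndependent (IsLocalRing.ResidueField O)
        (Fin.cons s' (fun i => G.ρ (y i)) :
          Fin (Module.finrank L (Wab L h m (u : F) (a + b) 0) + 1) → G.κ) :=
      linearIndependent_finCons.2 ⟨h3, hnot⟩
    have hle := hj₀ (a + b) (le_trans (le_max_left _ _) hab) _ _ ?_ hind
    · push_cast at hle hr
      linarith
    · intro i
      refine Fin.cases ?_ (fun i => ?_) i
      · simpa using hs'mem
      · simp only [Fin.cons_succ]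
        have hmem' : G.ρ (y i) ∈ Rab G m (u : F) (a + b) 0 := by
          rw [h2]; exact Submodule.subset_span ⟨i, rfl⟩
        have := Rab_subset_Lbar2 G hT0 hTI hh0 hm u hu hdiv hmem'
        exact ⟨by simpa [Lbar2] using this.1, this.2⟩
  rw [← h2] at hmem
  obtain ⟨x, hx, hxs⟩ := hmem
  refine ⟨x * hinvV G ^ b, ?_, ?_⟩
  · show ((x * hinvV G ^ b : G.V) : F) ∈ Wab L h m (u : F) a b
    exact mul_hinv_pow_mem hh0 hx
  · rw [map_mul, map_pow, rho_hinvV G hh0, hxs, hs', mul_assoc, ← mul_pow,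
      mul_inv_cancel₀ hhb, one_pow, mul_one]

end Lifting

section Cech

variable [IsAlgClosed L] [CharZero L] (hh : IsGenerator L h)
  (hT0 : G.TransferZero) (hTI : G.TransferInf) (hLL : G.LatticeLemma) {m : ℕ} (hm : m ≠ 0)
  (u : G.V) (hu : G.ρ u = 1) (hdiv : ∀ P : Place L F, (m : ℤ) ∣ P.ord (u : F))
  {g : ℤ} {J : ℕ}
  (hfr : ∀ a b : ℕ, J ≤ a + b →
    (Module.finrank L (Wab L h m (u : F) a b) : ℤ)
      = (Module.finrank (IntermediateField.adjoin L {h}) F : ℤ) * ((a : ℤ) + b) + 1 - g)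
  (hlift : ∀ a b : ℕ, J ≤ a + b → ∀ s ∈ Lbar2 G a b, s ∈ Rab G m (u : F) a b)

include hh hT0 hTI hLL hm hu hdiv hfr hlift in
/-- the special fibre version of the Čech decomposition. -/
theorem Rab_le_sup {a a' b b' : ℕ} (ha : a ≤ a') (hb : b ≤ b') (hJ : J ≤ a + b) :
    Rab G m (u : F) a' b' ≤ Rab G m (u : F) a' b ⊔ Rab G m (u : F) a b' := by
  have hh0 := h_ne_zero hh
  have hu0 : (u : F) ≠ 0 := coe_u_ne_zero G u hu
  haveI := finiteDimensional_Wab hh hm hu0 hdiv a b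
  haveI := finiteDimensional_Wab hh hm hu0 hdiv a' b
  haveI := finiteDimensional_Wab hh hm hu0 hdiv a b'
  haveI := finiteDimensional_Wab hh hm hu0 hdiv a' b'
  haveI := finiteDimensional_Rab G m (u : F) hLL a b
  haveI := finiteDimensional_Rab G m (u : F) hLL a' b
  haveI := finiteDimensional_Rab G m (u : F) hLL a b'
  haveI := finiteDimensional_Rab G m (u : F) hLL a' b'
  have hinf : Rab G m (u : F) a' b ⊓ Rab G m (u : F) a b' ≤ Rab G m (u : F) a b := by
    rintro s ⟨h1, h2⟩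
    have e1 := Rab_subset_Lbar2 G hT0 hTI hh0 hm u hu hdiv h1
    have e2 := Rab_subset_Lbar2 G hT0 hTI hh0 hm u hu hdiv h2
    exact hlift a b hJ s ⟨e1.1, e2.2⟩
  have hsup_le : Rab G m (u : F) a' b ⊔ Rab G m (u : F) a b' ≤ Rab G m (u : F) a' b' :=
    sup_le (Rab_mono G m (u : F) le_rfl hb) (Rab_mono G m (u : F) ha le_rfl)
  have key := Submodule.finrank_sup_add_finrank_inf_eq (Rab G m (u : F) a' b)
    (Rab G m (u : F) a b')
  have hmono := Submodule.finrank_mono hinf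
  have r0 := hfr a b hJ
  have r1 := hfr a' b (by omega)
  have r2 := hfr a b' (by omega)
  have r3 := hfr a' b' (by omega)
  rw [← finrank_Rab G m (u : F) hLL] at r0 r1 r2 r3
  have heq : Rab G m (u : F) a' b ⊔ Rab G m (u : F) a b' = Rab G m (u : F) a' b' := by
    refine Submodule.eq_of_le_of_finrank_le hsup_le ?_
    have key' : ((Module.finrank (IsLocalRing.ResidueField O)
        ↥(Rab G m (u : F) a' b ⊔ Rab G m (u : F) a b') : ℕ) : ℤ)
        + (Module.finrank (IsLocalRing.ResidueField O)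
          ↥(Rab G m (u : F) a' b ⊓ Rab G m (u : F) a b') : ℕ)
        = (Module.finrank (IsLocalRing.ResidueField O) ↥(Rab G m (u : F) a' b) : ℕ)
          + (Module.finrank (IsLocalRing.ResidueField O) ↥(Rab G m (u : F) a b') : ℕ) := by
      exact_mod_cast key
    have hmono' : ((Module.finrank (IsLocalRing.ResidueField O)
          ↥(Rab G m (u : F) a' b ⊓ Rab G m (u : F) a b') : ℕ) : ℤ)
        ≤ (Module.finrank (IsLocalRing.ResidueField O) ↥(Rab G m (u : F) a b) : ℕ) := by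
      exact_mod_cast hmono
    have : ((Module.finrank (IsLocalRing.ResidueField O) ↥(Rab G m (u : F) a' b') : ℕ) : ℤ)
        ≤ (Module.finrank (IsLocalRing.ResidueField O)
          ↥(Rab G m (u : F) a' b ⊔ Rab G m (u : F) a b') : ℕ) := by
      linarith
    exact_mod_cast this
  exact heq.ge

include hh hT0 hTI hLL hm hu hdiv hfr hlift in
/-- the integral Čech decomposition (Nakayama). -/
theorem Lam_le_sup {a a' b b' : ℕ} (ha : a ≤ a') (hb : b ≤ b') (hJ : J ≤ a + b) :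
    Lam G m (u : F) a' b' ≤ Lam G m (u : F) a' b ⊔ Lam G m (u : F) a b' := by
  have hu0 : (u : F) ≠ 0 := coe_u_ne_zero G u hu
  haveI := finiteDimensional_Wab hh hm hu0 hdiv a' b'
  obtain ⟨y, h1, h2, h3⟩ := exists_basis_Lam G m (u : F) hLL a' b'
  have hR := Rab_le_sup G hh hT0 hTI hLL hm u hu hdiv hfr hlift ha hb hJ
  refine Submodule.le_of_le_smul_of_le_jacobson_bot (I := IsLocalRing.maximalIdeal O)
    (Lam_fg G m (u : F) hLL a' b') (IsLocalRing.maximalIdeal_le_jacobson _) ?_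
  rw [h1, Submodule.span_le]
  rintro _ ⟨i, rfl⟩
  have hyi : y i ∈ Lam G m (u : F) a' b' := by
    rw [h1]; exact Submodule.subset_span ⟨i, rfl⟩
  have hρ : G.ρ (y i) ∈ Rab G m (u : F) a' b ⊔ Rab G m (u : F) a b' := hR ⟨y i, hyi, rfl⟩
  obtain ⟨_, ⟨p, hp, rfl⟩, _, ⟨q, hq, rfl⟩, hpq⟩ := Submodule.mem_sup.1 hρ
  set z : G.V := y i - p - q with hz
  have hzL : z ∈ Lam G m (u : F) a' b' :=
    sub_mem (sub_mem hyi (Lam_mono G m (u : F) le_rfl hb hp)) (Lam_mono G m (u : F) ha le_rfl hq)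
  have hzρ : G.ρ z = 0 := by
    rw [hz, map_sub, map_sub, ← hpq]; ring
  have hyz : y i = (p + q) + z := by rw [hz]; ring
  have hpqmem : p + q ∈ Lam G m (u : F) a' b ⊔ Lam G m (u : F) a b' :=
    Submodule.add_mem_sup hp hq
  rw [SetLike.mem_coe, hyz]
  by_cases hz0 : z = 0
  · rw [hz0, add_zero]
    exact Submodule.mem_sup_left hpqmem
  · obtain ⟨c, z', hc, hc0, hzc⟩ := exists_factor G z hz0 hzρ
    have hc0' : ((c : O) : L) ≠ 0 := fun h0 => hc0 (Subtype.ext h0)
    have hz'L : z' ∈ Lam G m (u : F) a' b' := by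
      show (z' : F) ∈ Wab L h m (u : F) a' b'
      have e1 : (z' : F) = ((c : O) : L)⁻¹ • (z : F) := by
        rw [hzc, smul_V_coe, Algebra.smul_def, ← mul_assoc, ← map_mul, inv_mul_cancel₀ hc0',
          map_one, one_mul]
      rw [e1]
      exact Submodule.smul_mem _ _ hzL
    refine Submodule.add_mem_sup hpqmem ?_
    rw [hzc, ← h1]
    exact Submodule.smul_mem_smul hc hz'L

end Cech

end Fermat.Agent.S18.HubLift
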