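import Mathlib
import Fermat.Agent.S18_HubLift

/-!
# S18 hub, part 4: bounded torsion of `H¹`, Newton iteration, and the main theorem (MT)
-/

set_option autoImplicit false

noncomputable section

open AlgebraicCurve Fermat.Agent.S24 Fermat.Agent.RR Fermat.Agent.S18.HubDiv
  Fermat.Agent.S18.HubRed Fermat.Agent.S18.HubLift

namespace Fermat.Agent.S18.HubMain

theorem one_add_pow_expand {R : Type*} [CommRing R] (x : R) (n : ℕ) :
    ∃ r : R, (1 + x) ^ n = 1 + n * x + x ^ 2 * r := by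
  induction n with
  | zero => exact ⟨0, by simp⟩
  | succ n ih =>
    obtain ⟨r, hr⟩ := ih
    exact ⟨n + r + r * x, by rw [pow_succ, hr]; push_cast; ring⟩

theorem newton_identity {R : Type*} [CommRing R] (m : ℕ) (μ ε : R) (hμ : (m : R) * μ = 1) :
    ∃ w : R, (1 + ε) * (1 - μ * ε) ^ m = 1 + ε ^ 2 * w := by
  obtain ⟨r, hr⟩ := one_add_pow_expand (-(μ * ε)) m
  refine ⟨-1 + (1 + ε) * μ ^ 2 * r, ?_⟩
  rw [sub_eq_add_neg, hr]
  linear_combination (-(ε + ε ^ 2)) * hμ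

variable {L F : Type*} [Field L] [Field F] [Algebra L F] {O : ValuationSubring L} {h : F}
  (G : GoodVal O h)

theorem rho_smul_of_mem (c : O) (hc : c ∈ IsLocalRing.maximalIdeal O) (x : G.V) :
    G.ρ (c • x) = 0 := by
  rw [← smul_residue, (IsLocalRing.residue_eq_zero_iff c).2 hc, zero_smul]

theorem exists_inv_natCast {m : ℕ} (hmk : ((m : ℕ) : IsLocalRing.ResidueField O) ≠ 0) :
    ∃ μ : O, ((m : ℕ) : O) * μ = 1 := by
  have : IsUnit ((m : ℕ) : O) := by
    rw [← IsLocalRing.residue_ne_zero_iff_isUnit]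
    rwa [map_natCast]
  exact this.exists_right_inv

section Newton

variable {m : ℕ} (hmk : ((m : ℕ) : IsLocalRing.ResidueField O) ≠ 0)
  (u : G.V) (hu : G.ρ u = 1) (hdiv : ∀ P : Place L F, (m : ℤ) ∣ P.ord (u : F))

include hmk hu hdiv in
theorem newton_step {a b : ℕ} (x : G.V) (hx : x ∈ Lam G m (u : F) a b) (hρ : G.ρ x = 1)
    (c : O) (hc : c ∈ IsLocalRing.maximalIdeal O) (w : G.V) (hxw : x ^ m = u * (1 + c • w)) :
    ∃ x' : G.V, x' ∈ Lam G m (u : F) ((m + 1) * a) ((m + 1) * b) ∧ G.ρ x' = 1 ∧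
      ∃ w' : G.V, x' ^ m = u * (1 + (c * c) • w') := by
  obtain ⟨μ, hμ⟩ := exists_inv_natCast hmk
  have hu0 : (u : F) ≠ 0 := coe_u_ne_zero G u hu
  set μV : G.V := algebraMap O G.V μ with hμV
  have hμV1 : ((m : ℕ) : G.V) * μV = 1 := by
    rw [hμV, ← map_natCast (algebraMap O G.V), ← map_mul, hμ, map_one]
  set ε : G.V := c • w with hε
  have hρε : G.ρ ε = 0 := rho_smul_of_mem G c hc w
  refine ⟨x * (1 - μV * ε), ?_, ?_, ?_⟩
  · -- membership
    show ((x * (1 - μV * ε) : G.V) : F) ∈ Wab L h m (u : F) ((m + 1) * a) ((m + 1) * b)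
    have h1 : ((x ^ m : G.V) : F) = ((u * (1 + c • w) : G.V) : F) := congrArg Subtype.val hxw
    have h2 : (x : F) ^ m = (u : F) * (1 + algebraMap L F c * (w : F)) := by
      rw [← smul_V_coe]; exact h1
    have h3 : ((x * (1 - μV * ε) : G.V) : F)
        = (x : F) * (1 - algebraMap L F μ * (algebraMap L F c * (w : F))) := by
      rw [← smul_V_coe]; rfl
    have h4 : algebraMap L F c * (w : F) = (x : F) ^ m / u - 1 := by
      rw [h2]; field_simp; ring
    have h5 : ((x * (1 - μV * ε) : G.V) : F)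
        = ((1 : L) + μ) • (x : F) - ((μ : O) : L) • ((x : F) ^ (m + 1) / u) := by
      rw [h3, h4, Algebra.smul_def, Algebra.smul_def, map_add, map_one]
      field_simp
      ring
    rw [h5]
    refine Submodule.sub_mem _ (Submodule.smul_mem _ _ ?_) (Submodule.smul_mem _ _ ?_)
    · exact Wab_mono (Nat.le_mul_of_pos_left a (Nat.succ_pos m))
        (Nat.le_mul_of_pos_left b (Nat.succ_pos m)) hx
    · exact pow_succ_div_mem hu0 hdiv hx
  · rw [map_mul, map_sub, map_mul, hρε, mul_zero, sub_zero, map_one, mul_one, hρ]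
  · obtain ⟨w₂, hw₂⟩ := newton_identity m μV ε hμV1
    refine ⟨w ^ 2 * w₂, ?_⟩
    rw [mul_pow, hxw, mul_assoc, hw₂, hε]
    congr 2
    rw [Algebra.smul_def, Algebra.smul_def, map_mul]
    ring

include hmk hu hdiv in
theorem newton (hO : Archimedean' O) {a b : ℕ} (x : G.V) (hx : x ∈ Lam G m (u : F) a b)
    (hρ : G.ρ x = 1) (e : O) (he : e ≠ 0) :
    ∃ (a' b' : ℕ) (x' : G.V), (a = 0 → a' = 0) ∧ (b = 0 → b' = 0) ∧
      x' ∈ Lam G m (u : F) a' b' ∧ G.ρ x' = 1 ∧ ∃ w : G.V, x' ^ m = u * (1 + e • w) := by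
  have huu : IsUnit u := by
    have : IsLocalRing.residue G.V u ≠ 0 := by
      show G.ρ u ≠ 0
      rw [hu]; exact one_ne_zero
    exact (IsLocalRing.residue_ne_zero_iff_isUnit u).1 this
  obtain ⟨ui, hui⟩ := huu.exists_right_inv
  have hρui : G.ρ ui = 1 := by
    have := congrArg G.ρ hui
    rwa [map_mul, hu, one_mul, map_one] at this
  set ε₀ : G.V := x ^ m * ui - 1 with hε₀
  have hx0 : x ^ m = u * (1 + ε₀) := by
    rw [hε₀]
    linear_combination (-(x ^ m)) * hui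
  by_cases hε : ε₀ = 0
  · refine ⟨a, b, x, fun h => h, fun h => h, hx, hρ, 0, ?_⟩
    rw [hx0, hε, smul_zero]
  have hρε₀ : G.ρ ε₀ = 0 := by
    rw [hε₀, map_sub, map_mul, map_pow, hρ, hρui, map_one]; ring
  obtain ⟨π, w₀, hπ, hπ0, hπw⟩ := exists_factor G ε₀ hε hρε₀
  have key : ∀ j : ℕ, ∃ (a' b' : ℕ) (x' : G.V), (a = 0 → a' = 0) ∧ (b = 0 → b' = 0) ∧
      x' ∈ Lam G m (u : F) a' b' ∧ G.ρ x' = 1 ∧ ∃ w : G.V, x' ^ m = u * (1 + π ^ (j + 1) • w) := by
    intro j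
    induction j with
    | zero =>
      refine ⟨a, b, x, fun h => h, fun h => h, hx, hρ, w₀, ?_⟩
      rw [hx0, hπw, zero_add, pow_one]
    | succ j ih =>
      obtain ⟨a', b', x', ha', hb', hx', hρ', w, hw⟩ := ih
      have hc : π ^ (j + 1) ∈ IsLocalRing.maximalIdeal O :=
        Ideal.pow_mem_of_mem _ hπ (j + 1) (Nat.succ_pos j)
      obtain ⟨x'', hx'', hρ'', w', hw'⟩ := newton_step G hmk u hu hdiv x' hx' hρ' _ hc w hw
      refine ⟨(m + 1) * a', (m + 1) * b', x'', fun h => by rw [ha' h, mul_zero],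
        fun h => by rw [hb' h, mul_zero], hx'', hρ'', π ^ j • w', ?_⟩
      rw [hw', smul_smul]
      congr 3
      ring
  have hπL : ((π : O) : L) ≠ 0 := fun h0 => hπ0 (Subtype.ext h0)
  have heL : ((e : O) : L) ≠ 0 := fun h0 => he (Subtype.ext h0)
  have hπinv : ((π : O) : L)⁻¹ ∉ O := by
    intro hmem
    have : IsUnit π := IsUnit.of_mul_eq_one (⟨_, hmem⟩ : O) (Subtype.ext (by
      simp only [OneMemClass.coe_one]
      exact mul_inv_cancel₀ hπL))
    exact hπ this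
  obtain ⟨N, hN⟩ := hO π e π.2 hπL hπinv e.2 heL
  obtain ⟨a', b', x', ha', hb', hx', hρ', w, hw⟩ := key N
  refine ⟨a', b', x', ha', hb', hx', hρ', (π * ⟨_, hN⟩) • w, ?_⟩
  rw [hw, smul_smul]
  congr 3
  apply Subtype.ext
  simp only [MulMemClass.coe_mul, SubmonoidClass.coe_pow]
  field_simp
  ring

end Newton

section Main

variable [IsAlgClosed L] [CharZero L] (hh : IsGenerator L h)
  (hT0 : G.TransferZero) (hTI : G.TransferInf) (hLL : G.LatticeLemma) {m : ℕ} (hm : m ≠ 0)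
  (u : G.V) (hu : G.ρ u = 1) (hdiv : ∀ P : Place L F, (m : ℤ) ∣ P.ord (u : F))
  {g : ℤ} {J : ℕ}
  (hfr : ∀ a b : ℕ, J ≤ a + b →
    (Module.finrank L (Wab L h m (u : F) a b) : ℤ)
      = (Module.finrank (IntermediateField.adjoin L {h}) F : ℤ) * ((a : ℤ) + b) + 1 - g)
  (hlift : ∀ a b : ℕ, J ≤ a + b → ∀ s ∈ Lbar2 G a b, s ∈ Rab G m (u : F) a b)

include hh hT0 hTI hLL hm hu hdiv hfr hlift in
/-- C1: the three-term decomposition. -/
theorem Lam_decomp {A B : ℕ} (hA : J ≤ A) (hB : J ≤ B) :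
    Lam G m (u : F) A B ≤ Lam G m (u : F) A 0 ⊔ (Lam G m (u : F) J J ⊔ Lam G m (u : F) 0 B) := by
  have h1 := Lam_le_sup G hh hT0 hTI hLL hm u hu hdiv hfr hlift (a := J) (a' := A) (b := 0)
    (b' := B) hA (Nat.zero_le _) (by omega)
  have h2 := Lam_le_sup G hh hT0 hTI hLL hm u hu hdiv hfr hlift (a := 0) (a' := J) (b := J)
    (b' := B) (Nat.zero_le _) hB (by omega)
  exact le_trans h1 (sup_le_sup_left h2 _)

include hh hLL hm hu hdiv in
/-- C2: bounded torsion. -/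
theorem exists_torsion_bound (J : ℕ) :
    ∃ d : O, d ≠ 0 ∧ ∀ l : G.V,
      (∃ c₁ : O, c₁ ≠ 0 ∧ c₁ • l ∈ Lam G m (u : F) J 0 ⊔ Lam G m (u : F) 0 J) →
        d • l ∈ Lam G m (u : F) J 0 ⊔ Lam G m (u : F) 0 J := by
  classical
  have hu0 : (u : F) ≠ 0 := coe_u_ne_zero G u hu
  haveI := finiteDimensional_Wab hh hm hu0 hdiv J 0
  haveI := finiteDimensional_Wab hh hm hu0 hdiv 0 J
  set S : Submodule L F := Wab L h m (u : F) J 0 ⊔ Wab L h m (u : F) 0 J with hS
  obtain ⟨z, hzS, hsp, -, -⟩ := exists_good_basis G hLL S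
  have hz : ∀ i, ∃ e : O, e ≠ 0 ∧
      e • z i ∈ Lam G m (u : F) J 0 ⊔ Lam G m (u : F) 0 J := by
    intro i
    obtain ⟨w, hw, w', hw', hww⟩ := Submodule.mem_sup.1 (hzS i)
    obtain ⟨e₁, he₁, hm₁⟩ := exists_scale G w
    obtain ⟨e₂, he₂, hm₂⟩ := exists_scale G w'
    refine ⟨e₁ * e₂, mul_ne_zero he₁ he₂, ?_⟩
    have hm₁' : algebraMap L F ((e₁ * e₂ : O) : L) * w ∈ G.V := by
      have : algebraMap L F ((e₁ * e₂ : O) : L) * w
          = algebraMap L F (e₂ : L) * (algebraMap L F (e₁ : L) * w) := by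
        rw [← mul_assoc, ← map_mul]; congr 2
        rw [MulMemClass.coe_mul, mul_comm]
      rw [this]
      exact G.V.mul_mem _ _ ((G.mem_iff _).2 e₂.2) hm₁
    have hm₂' : algebraMap L F ((e₁ * e₂ : O) : L) * w' ∈ G.V := by
      have : algebraMap L F ((e₁ * e₂ : O) : L) * w'
          = algebraMap L F (e₁ : L) * (algebraMap L F (e₂ : L) * w') := by
        rw [← mul_assoc, ← map_mul]; congr 2
      rw [this]
      exact G.V.mul_mem _ _ ((G.mem_iff _).2 e₁.2) hm₂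
    have hsum : (e₁ * e₂) • z i = (⟨_, hm₁'⟩ : G.V) + ⟨_, hm₂'⟩ := by
      apply Subtype.ext
      rw [smul_V_coe]
      simp only [AddMemClass.mk_add_mk]
      rw [← mul_add, hww]
    rw [hsum]
    refine Submodule.add_mem_sup ?_ ?_
    · show algebraMap L F ((e₁ * e₂ : O) : L) * w ∈ Wab L h m (u : F) J 0
      rw [← Algebra.smul_def]; exact Submodule.smul_mem _ _ hw
    · show algebraMap L F ((e₁ * e₂ : O) : L) * w' ∈ Wab L h m (u : F) 0 J
      rw [← Algebra.smul_def]; exact Submodule.smul_mem _ _ hw'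
  choose e he0 heN using hz
  refine ⟨∏ i, e i, Finset.prod_ne_zero_iff.2 fun i _ => he0 i, ?_⟩
  rintro l ⟨c₁, hc₁, hl⟩
  have hc₁L : ((c₁ : O) : L) ≠ 0 := fun h0 => hc₁ (Subtype.ext h0)
  have hlS : (l : F) ∈ S := by
    obtain ⟨p, hp, q, hq, hpq⟩ := Submodule.mem_sup.1 hl
    have e1 : (l : F) = ((c₁ : O) : L)⁻¹ • ((p : F) + (q : F)) := by
      have : ((c₁ • l : G.V) : F) = (p : F) + (q : F) := by rw [← hpq]; rfl
      rw [← this, smul_V_coe, Algebra.smul_def, ← mul_assoc, ← map_mul, inv_mul_cancel₀ hc₁L,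
        map_one, one_mul]
    rw [e1]
    exact Submodule.smul_mem _ _ (Submodule.add_mem_sup hp hq)
  obtain ⟨c, rfl⟩ := hsp l hlS
  rw [Finset.smul_sum]
  refine Submodule.sum_mem _ fun i _ => ?_
  rw [smul_comm, ← Finset.prod_erase_mul _ _ (Finset.mem_univ i), mul_smul]
  exact Submodule.smul_mem _ _ (Submodule.smul_mem _ _ (heN i))

end Main

theorem Lam_inf {m : ℕ} (u : F) {a a' b b' : ℕ} (ha : a ≤ a') (hb : b ≤ b') {x : G.V}
    (h1 : x ∈ Lam G m u a' b) (h2 : x ∈ Lam G m u a b') : x ∈ Lam G m u a b :=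
  Wab_inf_le ha hb ⟨h1, h2⟩

/-- **MT**: the hub theorem. -/
theorem main_theorem [IsAlgClosed L] [CharZero L] (hO : Archimedean' O)
    (hh : IsGenerator L h) (hT0 : G.TransferZero) (hTI : G.TransferInf)
    (hLL : G.LatticeLemma) (g : ℤ) (hg : GenusFormula L F g) (hG2 : G.G2 g) :
    MainStatement O h G := by
  intro m hmk u hu hdiv
  have hm : m ≠ 0 := by
    rintro rfl
    exact hmk (by simp)
  have hh0 := h_ne_zero hh
  have hu0 : (u : F) ≠ 0 := coe_u_ne_zero G u hu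
  obtain ⟨J, hfr, hlift⟩ := exists_lift_bound G hh hT0 hTI hLL hm u hu hdiv hg hG2
  obtain ⟨d, hd0, hd⟩ := exists_torsion_bound G hh hLL hm u hu hdiv J
  -- the initial lifts of `1`
  have hint1 : ∀ n : ℕ, IsIntegral (Algebra.adjoin (IsLocalRing.ResidueField O) {G.hbar})
      (G.hbar ^ n) := fun n =>
    IsIntegral.pow (isIntegral_algebraMap (x := (⟨G.hbar, Algebra.subset_adjoin
      (Set.mem_singleton _)⟩ : Algebra.adjoin (IsLocalRing.ResidueField O) {G.hbar}))) n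
  have hint2 : ∀ n : ℕ, IsIntegral (Algebra.adjoin (IsLocalRing.ResidueField O) {G.hbar⁻¹})
      (G.hbar⁻¹ ^ n) := fun n =>
    IsIntegral.pow (isIntegral_algebraMap (x := (⟨G.hbar⁻¹, Algebra.subset_adjoin
      (Set.mem_singleton _)⟩ : Algebra.adjoin (IsLocalRing.ResidueField O) {G.hbar⁻¹}))) n
  have h1mem0 : (1 : G.κ) ∈ Lbar2 G J 0 :=
    ⟨by rw [one_mul]; exact hint1 0, by rw [one_mul]; exact hint2 J⟩
  have h1memI : (1 : G.κ) ∈ Lbar2 G 0 J :=
    ⟨by rw [one_mul]; exact hint1 J, by rw [one_mul]; exact hint2 0⟩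
  obtain ⟨a₀, ha₀, hρa₀⟩ := hlift J 0 (by omega) 1 h1mem0
  obtain ⟨b₀, hb₀, hρb₀⟩ := hlift 0 J (by omega) 1 h1memI
  by_cases hroot : a₀ ^ m = u
  · exact ⟨(a₀ : F), congrArg Subtype.val hroot⟩
  -- a nonzero element of the maximal ideal
  have hne : a₀ ^ m - u ≠ 0 := sub_ne_zero.2 hroot
  have hρne : G.ρ (a₀ ^ m - u) = 0 := by
    rw [map_sub, map_pow, hρa₀, hu, one_pow, sub_self]
  obtain ⟨π, -, hπ, hπ0, -⟩ := exists_factor G _ hne hρne
  set E : O := d * π with hE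
  have hE0 : E ≠ 0 := mul_ne_zero hd0 hπ0
  have hEmem : E ∈ IsLocalRing.maximalIdeal O := Ideal.mul_mem_left _ _ hπ
  obtain ⟨A, A0, a, -, hA0, ha, hρa, wa, hwa⟩ :=
    newton G hmk u hu hdiv hO a₀ ha₀ hρa₀ E hE0
  obtain ⟨B0, B, b, hB0, -, hb, hρb, wb, hwb⟩ :=
    newton G hmk u hu hdiv hO b₀ hb₀ hρb₀ E hE0
  have hA0' : A0 = 0 := hA0 rfl
  have hB0' : B0 = 0 := hB0 rfl
  subst hA0' hB0'
  -- `a - b` is divisible by `E`
  set S : G.V := ∑ i ∈ Finset.range m, a ^ i * b ^ (m - 1 - i) with hS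
  have hgeom : S * (a - b) = a ^ m - b ^ m := geom_sum₂_mul a b m
  have hρS : G.ρ S = ((m : ℕ) : G.κ) := by
    rw [hS, map_sum]
    simp only [map_mul, map_pow, hρa, hρb, one_pow, mul_one]
    simp
  have hmκ : ((m : ℕ) : G.κ) ≠ 0 := by
    have h1 : ((m : ℕ) : G.κ) = algebraMap (IsLocalRing.ResidueField O) G.κ ((m : ℕ)) := by
      rw [map_natCast]
    rw [h1]
    intro h0
    exact hmk ((algebraMap (IsLocalRing.ResidueField O) G.κ).injective (by rw [h0, map_zero]))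
  have hSu : IsUnit S := by
    have : IsLocalRing.residue G.V S ≠ 0 := by
      show G.ρ S ≠ 0
      rw [hρS]; exact hmκ
    exact (IsLocalRing.residue_ne_zero_iff_isUnit S).1 this
  obtain ⟨Si, hSi⟩ := hSu.exists_right_inv
  set c : G.V := Si * u * (wa - wb) with hc
  have hab : a - b = E • c := by
    rw [Algebra.smul_def] at hwa hwb ⊢
    rw [hc]
    linear_combination (-(a - b)) * hSi + Si * hgeom + Si * hwa - Si * hwb
  have hEL : ((E : O) : L) ≠ 0 := fun h0 => hE0 (Subtype.ext h0)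
  -- enlarge the indices
  have ha' : a ∈ Lam G m (u : F) (max A J) 0 := Lam_mono G m (u : F) (le_max_left _ _) le_rfl ha
  have hb' : b ∈ Lam G m (u : F) 0 (max B J) := Lam_mono G m (u : F) le_rfl (le_max_left _ _) hb
  have hcmem : c ∈ Lam G m (u : F) (max A J) (max B J) := by
    show (c : F) ∈ Wab L h m (u : F) (max A J) (max B J)
    have e1 : (c : F) = ((E : O) : L)⁻¹ • ((a : F) - (b : F)) := by
      have : ((E • c : G.V) : F) = (a : F) - (b : F) := by rw [← hab]; rfl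
      rw [← this, smul_V_coe, Algebra.smul_def, ← mul_assoc, ← map_mul, inv_mul_cancel₀ hEL,
        map_one, one_mul]
    rw [e1]
    exact Submodule.smul_mem _ _ (Submodule.sub_mem _
      (Wab_mono le_rfl (Nat.zero_le _) ha') (Wab_mono (Nat.zero_le _) le_rfl hb'))
  obtain ⟨α, hα, r, hr, hαr⟩ := Submodule.mem_sup.1
    (Lam_decomp G hh hT0 hTI hLL hm u hu hdiv hfr hlift (le_max_right A J) (le_max_right B J)
      hcmem)
  obtain ⟨l, hl, β, hβ, hlβ⟩ := Submodule.mem_sup.1 hr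
  -- `E • l = α₁ - β₁`
  set α₁ : G.V := a - E • α with hα₁
  set β₁ : G.V := b + E • β with hβ₁
  have hα₁mem : α₁ ∈ Lam G m (u : F) (max A J) 0 := sub_mem ha' (Submodule.smul_mem _ _ hα)
  have hβ₁mem : β₁ ∈ Lam G m (u : F) 0 (max B J) := add_mem hb' (Submodule.smul_mem _ _ hβ)
  have hEl : E • l = α₁ - β₁ := by
    rw [hα₁, hβ₁]
    have : E • c = E • α + (E • l + E • β) := by rw [← hαr, ← hlβ, smul_add, smul_add]
    rw [← hab] at this
    linear_combination -this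
  have hlJ : E • l ∈ Lam G m (u : F) J (max B J) :=
    Submodule.smul_mem _ _ (Lam_mono G m (u : F) le_rfl (le_max_right _ _) hl)
  have hlJ' : E • l ∈ Lam G m (u : F) (max A J) J :=
    Submodule.smul_mem _ _ (Lam_mono G m (u : F) (le_max_right _ _) le_rfl hl)
  have hα₁J : α₁ ∈ Lam G m (u : F) J 0 := by
    refine Lam_inf G (u : F) (le_max_right A J) (Nat.zero_le (max B J)) hα₁mem ?_
    have : α₁ = E • l + β₁ := by rw [hEl]; ring
    rw [this]
    exact add_mem hlJ (Lam_mono G m (u : F) (Nat.zero_le _) le_rfl hβ₁mem)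
  have hβ₁J : β₁ ∈ Lam G m (u : F) 0 J := by
    refine Lam_inf G (u : F) (Nat.zero_le (max A J)) (le_max_right B J) ?_ hβ₁mem
    have : β₁ = α₁ - E • l := by rw [hEl]; ring
    rw [this]
    exact sub_mem (Lam_mono G m (u : F) le_rfl (Nat.zero_le _) hα₁mem) hlJ'
  have hElmem : E • l ∈ Lam G m (u : F) J 0 ⊔ Lam G m (u : F) 0 J := by
    rw [hEl, sub_eq_add_neg]
    exact Submodule.add_mem_sup hα₁J (neg_mem hβ₁J)
  obtain ⟨α₂, hα₂, β₂, hβ₂, hαβ₂⟩ := Submodule.mem_sup.1 (hd l ⟨E, hE0, hElmem⟩)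
  -- the global section
  set gV : G.V := a - E • α - π • α₂ with hgV
  have hgV' : gV = b + π • β₂ + E • β := by
    have e1 : E • l = π • α₂ + π • β₂ := by
      rw [← smul_add, hαβ₂, hE, mul_comm, mul_smul]
    rw [hgV]
    have e2 : E • l = a - E • α - (b + E • β) := hEl
    linear_combination e1 - e2
  have hg1 : gV ∈ Lam G m (u : F) (max A J) 0 :=
    sub_mem hα₁mem (Submodule.smul_mem _ _
      (Lam_mono G m (u : F) (le_max_right _ _) le_rfl hα₂))
  have hg2 : gV ∈ Lam G m (u : F) 0 (max B J) := by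
    rw [hgV']
    exact add_mem (add_mem hb' (Submodule.smul_mem _ _
      (Lam_mono G m (u : F) le_rfl (le_max_right _ _) hβ₂))) (Submodule.smul_mem _ _ hβ)
  have hg0 : gV ∈ Lam G m (u : F) 0 0 :=
    Lam_inf G (u : F) (Nat.zero_le _) (Nat.zero_le _) hg1 hg2
  have hρg : G.ρ gV = 1 := by
    rw [hgV, map_sub, map_sub, rho_smul_of_mem G E hEmem, rho_smul_of_mem G π hπ, hρa]
    ring
  have hgne : (gV : F) ≠ 0 := by
    intro h0
    have : gV = 0 := Subtype.ext h0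
    rw [this, map_zero] at hρg
    exact zero_ne_one hρg
  exact exists_root_of_mem hh hm hu0 hdiv hg0 hgne

end Fermat.Agent.S18.HubMain
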