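import Mathlib

/-!
# S18, Layer R3: descent of integrality to the rational model

* `repr_isIntegral`: Cramer's rule for the trace form (coordinates of an integral element in a
  basis of integral elements are integral up to the inverse discriminant).
* `descent_core`: abstract form (`Q ⊂ L` algebraic constants, `K ⊂ F`, `P → K`).
* `descent`: `L/ℚ` algebraic, `F₀ ⊂ F` a subfield containing `x`; an element `y` of
  `Frac (L·F₀)` integral over `L[x]` is an `L`-linear combination of elements of `F₀` integral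
  over `ℚ[x]`.
-/

set_option autoImplicit false
set_option linter.style.haveILetI false

noncomputable section

open Polynomial IntermediateField

namespace Fermat.Agent.S18.LayerR

/-- Cramer's rule for the trace form: the coordinates of an integral element in a basis of
integral elements are integral, up to the inverse of the discriminant. -/
theorem repr_isIntegral {P K E : Type*} [CommRing P] [Field K] [Field E] [Algebra P K]
    [Algebra K E] [Algebra P E] [IsScalarTower P K E] [FiniteDimensional K E]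
    {ι : Type*} [Fintype ι] [DecidableEq ι] (b : Module.Basis ι K E)
    (hb : ∀ i, IsIntegral P (b i)) (hdet : IsIntegral P (Algebra.discr K b)⁻¹)
    (hdet0 : Algebra.discr K b ≠ 0)
    (y : E) (hy : IsIntegral P y) (j : ι) : IsIntegral P (b.repr y j) := by
  classical
  have hTint : ∀ i k, IsIntegral P (Algebra.traceMatrix K b i k) := by
    intro i k
    rw [Algebra.traceMatrix_apply, Algebra.traceForm_apply]
    exact Algebra.isIntegral_trace ((hb i).mul (hb k))
  have htint : ∀ k, IsIntegral P (Algebra.trace K E (y * b k)) :=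
    fun k => Algebra.isIntegral_trace (hy.mul (hb k))
  have h1 : (Algebra.traceMatrix K b).mulVec (b.repr y)
      = fun k => Algebra.trace K E (y * b k) := by
    funext k
    rw [Matrix.mulVec, dotProduct]
    have hy' : y = ∑ i, b.repr y i • b i := (b.sum_repr y).symm
    conv_rhs => rw [hy', Finset.sum_mul, map_sum]
    refine Finset.sum_congr rfl fun i _ => ?_
    rw [smul_mul_assoc, map_smul, smul_eq_mul, Algebra.traceMatrix_apply,
      Algebra.traceForm_apply, mul_comm (b k) (b i), mul_comm]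
  have h2 : (Algebra.traceMatrix K b).det • (b.repr y : ι → K)
      = (Algebra.traceMatrix K b).adjugate.mulVec (fun k => Algebra.trace K E (y * b k)) := by
    rw [← h1, Matrix.mulVec_mulVec, Matrix.adjugate_mul, Matrix.smul_mulVec, Matrix.one_mulVec]
  have h3 : b.repr y j = (Algebra.discr K b)⁻¹ *
      ∑ k, (Algebra.traceMatrix K b).adjugate j k * Algebra.trace K E (y * b k) := by
    have h4 := congrFun h2 j
    rw [Pi.smul_apply, smul_eq_mul] at h4
    rw [show ∑ k, (Algebra.traceMatrix K b).adjugate j k * Algebra.trace K E (y * b k)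
      = (Algebra.traceMatrix K b).adjugate.mulVec (fun k => Algebra.trace K E (y * b k)) j
      from rfl, ← h4, Algebra.discr_def, ← mul_assoc,
      inv_mul_cancel₀ (by rw [← Algebra.discr_def]; exact hdet0), one_mul]
  rw [h3]
  refine hdet.mul (IsIntegral.sum _ fun k _ =>
    (?_ : IsIntegral P ((Algebra.traceMatrix K b).adjugate j k)).mul (htint k))
  rw [Matrix.adjugate_apply]
  apply IsIntegral.det
  intro i' k'
  rw [Matrix.updateRow_apply]
  split_ifs with h
  · rw [Pi.single_apply]
    split_ifs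
    · exact isIntegral_one
    · exact isIntegral_zero
  · exact hTint i' k'

/-- the abstract descent: `Q ⊂ L` algebraic (constants), `K ⊂ F` fields, `P → K` a ring of
"polynomials".  An element of `Frac (L·K)` integral over `P` is an `L`-combination of elements
of `K` integral over `P`. -/
theorem descent_core {Q P K F L : Type*} [Field Q] [CharZero Q] [CommRing P] [Field K] [Field F]
    [Field L] [Algebra Q P] [Algebra Q K] [Algebra Q F] [Algebra Q L] [Algebra P K] [Algebra K F]
    [Algebra P F] [Algebra L F] [IsScalarTower Q K F] [IsScalarTower Q L F] [IsScalarTower Q P K]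
    [IsScalarTower Q P F] [IsScalarTower P K F] [Algebra.IsAlgebraic Q L]
    (y : F) (hy : IsIntegral P y) (m : ℕ) (c c' : Fin m → L) (f f' : Fin m → K)
    (hw : ∑ i, algebraMap L F (c' i) * algebraMap K F (f' i) ≠ 0)
    (hyw : (∑ i, algebraMap L F (c' i) * algebraMap K F (f' i)) * y
      = ∑ i, algebraMap L F (c i) * algebraMap K F (f i)) :
    ∃ (d : ℕ) (γ : Fin d → L) (a : Fin d → K), (∀ j, IsIntegral P (a j)) ∧
      y = ∑ j, algebraMap L F (γ j) * algebraMap K F (a j) := by
  classical
  haveI : CharZero K := charZero_of_injective_algebraMap (algebraMap Q K).injective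
  -- the field of constants
  haveI hfinS : Finite ↥(Set.range c ∪ Set.range c') :=
    ((Set.finite_range c).union (Set.finite_range c')).to_subtype
  let E₀ : IntermediateField Q L := IntermediateField.adjoin Q (Set.range c ∪ Set.range c')
  haveI : FiniteDimensional Q E₀ :=
    IntermediateField.finiteDimensional_adjoin
      (fun z _ => (Algebra.IsAlgebraic.isAlgebraic z).isIntegral)
  let pbE := Field.powerBasisOfFiniteOfSeparable Q E₀
  let α : L := (pbE.gen : L)
  have hcE : ∀ z ∈ Set.range c ∪ Set.range c', ∃ q : Q[X], z = aeval α q := by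
    intro z hz
    obtain ⟨q, hq⟩ := pbE.exists_eq_aeval' ⟨z, IntermediateField.subset_adjoin Q _ hz⟩
    refine ⟨q, ?_⟩
    have h1 := congrArg (algebraMap E₀ L) hq
    rw [← Polynomial.aeval_algebraMap_apply] at h1
    exact h1
  have hq : ∀ i, ∃ q : Q[X], c i = aeval α q := fun i => hcE _ (Or.inl ⟨i, rfl⟩)
  have hq' : ∀ i, ∃ q : Q[X], c' i = aeval α q := fun i => hcE _ (Or.inr ⟨i, rfl⟩)
  choose q hq using hq
  choose q' hq' using hq'
  have hαQ : IsIntegral Q (algebraMap L F α) :=
    ((Algebra.IsAlgebraic.isAlgebraic α).isIntegral).algebraMap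
  have hαK : IsIntegral K (algebraMap L F α) := hαQ.tower_top
  have hαP : IsIntegral P (algebraMap L F α) := hαQ.tower_top
  have hαE : algebraMap L F α ∈ K⟮algebraMap L F α⟯ := mem_adjoin_simple_self K _
  have hconstE : ∀ p : Q[X], aeval (algebraMap L F α) p ∈ K⟮algebraMap L F α⟯ := by
    intro p
    rw [aeval_eq_sum_range]
    refine sum_mem fun i _ => ?_
    rw [Algebra.smul_def, IsScalarTower.algebraMap_apply Q K F]
    exact mul_mem (IntermediateField.algebraMap_mem _ _) (pow_mem hαE i)
  have hcF : ∀ i, algebraMap L F (c i) = aeval (algebraMap L F α) (q i) := fun i => by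
    rw [hq i, Polynomial.aeval_algebraMap_apply]
  have hcF' : ∀ i, algebraMap L F (c' i) = aeval (algebraMap L F α) (q' i) := fun i => by
    rw [hq' i, Polynomial.aeval_algebraMap_apply]
  have huE : ∑ i, algebraMap L F (c i) * algebraMap K F (f i) ∈ K⟮algebraMap L F α⟯ :=
    sum_mem fun i _ => mul_mem (by rw [hcF i]; exact hconstE _)
      (IntermediateField.algebraMap_mem _ _)
  have hwE : ∑ i, algebraMap L F (c' i) * algebraMap K F (f' i) ∈ K⟮algebraMap L F α⟯ :=
    sum_mem fun i _ => mul_mem (by rw [hcF' i]; exact hconstE _)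
      (IntermediateField.algebraMap_mem _ _)
  have hyE : y ∈ K⟮algebraMap L F α⟯ := by
    have h1 : y = (∑ i, algebraMap L F (c i) * algebraMap K F (f i)) /
        (∑ i, algebraMap L F (c' i) * algebraMap K F (f' i)) := by
      rw [eq_div_iff hw, mul_comm]
      exact hyw
    rw [h1]
    exact div_mem huE hwE
  let pb := IntermediateField.adjoin.powerBasis hαK
  haveI : FiniteDimensional K K⟮algebraMap L F α⟯ :=
    IntermediateField.adjoin.finiteDimensional hαK
  have hgenF : algebraMap K⟮algebraMap L F α⟯ F pb.gen = algebraMap L F α := rfl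
  haveI : IsScalarTower Q K⟮algebraMap L F α⟯ F := IsScalarTower.of_algebraMap_eq (fun _ => rfl)
  haveI : IsScalarTower P K⟮algebraMap L F α⟯ F := IsScalarTower.of_algebraMap_eq (fun _ => rfl)
  have hinj : Function.Injective (algebraMap K⟮algebraMap L F α⟯ F) :=
    (algebraMap K⟮algebraMap L F α⟯ F).injective
  have hgenQ : IsIntegral Q pb.gen :=
    (isIntegral_algebraMap_iff hinj).mp (by rw [hgenF]; exact hαQ)
  have hgenP : IsIntegral P pb.gen :=
    (isIntegral_algebraMap_iff hinj).mp (by rw [hgenF]; exact hαP)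
  have hbP : ∀ i, IsIntegral P (pb.basis i) := fun i => by
    rw [pb.basis_eq_pow]
    exact hgenP.pow _
  have hbQ : ∀ i, IsIntegral Q (pb.basis i) := fun i => by
    rw [pb.basis_eq_pow]
    exact hgenQ.pow _
  have hdiscQ : IsIntegral Q (Algebra.discr K pb.basis) := by
    rw [Algebra.discr_def]
    apply IsIntegral.det
    intro i k
    rw [Algebra.traceMatrix_apply, Algebra.traceForm_apply]
    exact Algebra.isIntegral_trace ((hbQ i).mul (hbQ k))
  have hdet : IsIntegral P (Algebra.discr K pb.basis)⁻¹ := (hdiscQ.inv).tower_top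
  have hdet0 : Algebra.discr K pb.basis ≠ 0 := Algebra.discr_not_zero_of_basis K pb.basis
  have hyP : IsIntegral P (⟨y, hyE⟩ : K⟮algebraMap L F α⟯) :=
    (isIntegral_algebraMap_iff hinj).mp hy
  refine ⟨pb.dim, fun j => α ^ (j : ℕ), fun j => pb.basis.repr ⟨y, hyE⟩ j,
    fun j => repr_isIntegral pb.basis hbP hdet hdet0 _ hyP j, ?_⟩
  have h1 := pb.basis.sum_repr (⟨y, hyE⟩ : K⟮algebraMap L F α⟯)
  have h2 := congrArg (algebraMap K⟮algebraMap L F α⟯ F) h1
  rw [map_sum] at h2
  rw [show algebraMap K⟮algebraMap L F α⟯ F ⟨y, hyE⟩ = y from rfl] at h2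
  refine h2.symm.trans ?_
  refine Finset.sum_congr rfl fun j _ => ?_
  rw [Algebra.smul_def, map_mul, ← IsScalarTower.algebraMap_apply K K⟮algebraMap L F α⟯ F,
    pb.basis_eq_pow, map_pow, hgenF, map_pow, mul_comm]

/-- **descent** (Layer R3): an element of `Frac (L·F₀)` integral over `L[x]` is an
`L`-combination of elements of `F₀` integral over `ℚ[x]` (`L/ℚ` algebraic, `x ∈ F₀`). -/
theorem descent {L F : Type*} [Field L] [Field F] [Algebra L F] [CharZero L] [CharZero F]
    [Algebra.IsAlgebraic ℚ L]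
    (F₀ : Subfield F) (x : F) (hx : x ∈ F₀) (y : F) (hy : IsIntegral (Algebra.adjoin L {x}) y)
    (hgen : ∃ (m : ℕ) (c c' : Fin m → L) (f f' : Fin m → F), (∀ i, f i ∈ F₀) ∧ (∀ i, f' i ∈ F₀) ∧
      ∑ i, algebraMap L F (c' i) * f' i ≠ 0 ∧
      (∑ i, algebraMap L F (c' i) * f' i) * y = ∑ i, algebraMap L F (c i) * f i) :
    ∃ (m : ℕ) (c : Fin m → L) (f : Fin m → F), (∀ i, f i ∈ F₀) ∧
      (∀ i, IsIntegral (Algebra.adjoin ℚ {x}) (f i)) ∧ y = ∑ i, algebraMap L F (c i) * f i := by
  obtain ⟨m, c, c', f, f', hf, hf', hw, hyw⟩ := hgen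
  letI algPK : Algebra ℚ[X] F₀ := (aeval (⟨x, hx⟩ : F₀) : ℚ[X] →ₐ[ℚ] F₀).toRingHom.toAlgebra
  letI algPF : Algebra ℚ[X] F := (aeval x : ℚ[X] →ₐ[ℚ] F).toRingHom.toAlgebra
  haveI t1 : IsScalarTower ℚ F₀ F := IsScalarTower.of_algebraMap_eq (fun q => by
    rw [eq_ratCast, eq_ratCast, map_ratCast])
  haveI t2 : IsScalarTower ℚ L F := IsScalarTower.of_algebraMap_eq (fun q => by
    rw [eq_ratCast, eq_ratCast, map_ratCast])
  have hPK : ∀ p : ℚ[X], algebraMap ℚ[X] F₀ p = aeval (⟨x, hx⟩ : F₀) p := fun _ => rfl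
  have hPF : ∀ p : ℚ[X], algebraMap ℚ[X] F p = aeval x p := fun _ => rfl
  haveI t3 : IsScalarTower ℚ ℚ[X] F₀ := IsScalarTower.of_algebraMap_eq (fun q => by
    rw [hPK, Polynomial.algebraMap_eq, aeval_C])
  haveI t4 : IsScalarTower ℚ ℚ[X] F := IsScalarTower.of_algebraMap_eq (fun q => by
    rw [hPF, Polynomial.algebraMap_eq, aeval_C])
  haveI t5 : IsScalarTower ℚ[X] F₀ F := IsScalarTower.of_algebraMap_eq (fun p => by
    rw [hPF, hPK, ← Polynomial.aeval_algebraMap_apply]
    rfl)
  -- `y` is integral over `ℚ[X]`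
  have hsub : ∀ z ∈ Algebra.adjoin L {x}, IsIntegral ℚ[X] z := by
    intro z hz
    induction hz using Algebra.adjoin_induction with
    | mem z hz =>
      rw [Set.mem_singleton_iff.mp hz]
      have h1 : x = algebraMap ℚ[X] F X := by rw [hPF, aeval_X]
      rw [h1]
      exact isIntegral_algebraMap
    | algebraMap c =>
      have h1 : IsIntegral ℚ (algebraMap L F c) :=
        ((Algebra.IsAlgebraic.isAlgebraic c).isIntegral).algebraMap
      exact h1.tower_top
    | add a b _ _ ha hb => exact ha.add hb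
    | mul a b _ _ ha hb => exact ha.mul hb
  have hyP : IsIntegral ℚ[X] y := by
    obtain ⟨p, hp, hpy⟩ := hy
    let φ : Algebra.adjoin L {x} →+* integralClosure ℚ[X] F :=
      { toFun := fun r => ⟨r.1, hsub r.1 r.2⟩
        map_one' := rfl
        map_mul' := fun _ _ => rfl
        map_zero' := rfl
        map_add' := fun _ _ => rfl }
    have hint : IsIntegral (integralClosure ℚ[X] F) y := by
      refine ⟨p.map φ, hp.map φ, ?_⟩
      rw [← hpy, Polynomial.eval₂_map]
      rfl
    exact isIntegral_trans y hint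
  have hw' : ∑ i, algebraMap L F (c' i) * algebraMap F₀ F ⟨f' i, hf' i⟩ ≠ 0 := hw
  have hyw' : (∑ i, algebraMap L F (c' i) * algebraMap F₀ F ⟨f' i, hf' i⟩) * y
      = ∑ i, algebraMap L F (c i) * algebraMap F₀ F ⟨f i, hf i⟩ := hyw
  obtain ⟨d, γ, a, ha, hya⟩ := descent_core (Q := ℚ) (P := ℚ[X]) (K := F₀) y hyP m c c'
    (fun i => ⟨f i, hf i⟩) (fun i => ⟨f' i, hf' i⟩) hw' hyw'
  refine ⟨d, γ, fun j => (a j : F), fun j => (a j).2, fun j => ?_, hya⟩
  obtain ⟨p, hp, hpa⟩ := ha j
  let ψ : ℚ[X] →+* Algebra.adjoin ℚ {x} :=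
    ((aeval x : ℚ[X] →ₐ[ℚ] F).codRestrict (Algebra.adjoin ℚ {x})
      (fun p => Polynomial.aeval_mem_adjoin_singleton ℚ x)).toRingHom
  refine ⟨p.map ψ, hp.map ψ, ?_⟩
  rw [Polynomial.eval₂_map]
  have h1 : (algebraMap (Algebra.adjoin ℚ {x}) F).comp ψ
      = (algebraMap F₀ F).comp (algebraMap ℚ[X] F₀) := by
    refine RingHom.ext fun p => ?_
    exact IsScalarTower.algebraMap_apply ℚ[X] F₀ F p
  rw [h1]
  change eval₂ ((algebraMap F₀ F).comp (algebraMap ℚ[X] F₀)) (algebraMap F₀ F (a j)) p = 0
  rw [← Polynomial.hom_eval₂, hpa, map_zero]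

end Fermat.Agent.S18.LayerR
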