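import Mathlib
import Fermat.Agent.S18_E1Defs

/-!
# S18, WP-E1, Layer N: a local basis from an integral model (Nakayama)

`Z ⊂ O` a local subring with principal maximal ideal `(ℓ)` (in the application `Z = ℤ_(ℓ)`),
`R ⊂ F` a `Z[x]`-subalgebra (in the application the integral closure of `ℤ_(ℓ)[x]` in the
rational model) which is a finitely generated `Z[x]`-module contained in `G.V`, integral over
`L[x]`, with `ker(ρ|R) = ℓR`, spanning the integral closure of `L[x]` over `L`, with reductions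
"linearly disjoint" from `k`, and of full rank.  Then there is a `LocalBasis`.
-/

set_option autoImplicit false

noncomputable section

open AlgebraicCurve Fermat.Agent.S24 Polynomial

namespace Fermat.Agent.S18.E1

/-- Nakayama's lemma for a submodule `P` with `P ⊆ N + ℓ P`. -/
theorem nakayama_module {A M : Type*} [CommRing A] [AddCommGroup M] [Module A M] (ℓ : A)
    (P N : Submodule A M) (hP : P.FG)
    (h : ∀ y ∈ P, ∃ n ∈ N, ∃ y' ∈ P, y = n + ℓ • y') :
    ∃ s : A, (∃ t, s - 1 = ℓ * t) ∧ ∀ y ∈ P, s • y ∈ N := by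
  have hQ : (P.map N.mkQ).FG := hP.map _
  have hle : P.map N.mkQ ≤ (Ideal.span {ℓ}) • P.map N.mkQ := by
    rintro _ ⟨y, hy, rfl⟩
    obtain ⟨n, hn, y', hy', rfl⟩ := h y hy
    have h1 : N.mkQ (n + ℓ • y') = ℓ • N.mkQ y' := by
      rw [map_add, map_smul]
      have : N.mkQ n = 0 := (Submodule.Quotient.mk_eq_zero N).2 hn
      rw [this, zero_add]
    rw [h1]
    exact Submodule.smul_mem_smul (Ideal.subset_span rfl) ⟨y', hy', rfl⟩
  obtain ⟨r, hr, hr0⟩ :=
    Submodule.exists_sub_one_mem_and_smul_eq_zero_of_fg_of_le_smul _ _ hQ hle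
  refine ⟨r, ?_, fun y hy => ?_⟩
  · obtain ⟨t, ht⟩ := Ideal.mem_span_singleton'.1 hr
    exact ⟨t, by rw [← ht, mul_comm]⟩
  · have h2 := hr0 (N.mkQ y) ⟨y, hy, rfl⟩
    rw [← map_smul] at h2
    exact (Submodule.Quotient.mk_eq_zero N).1 h2

/-- Nakayama's lemma for a subring `R` that is a finite module over the image of `φ`. -/
theorem nakayama_ring {A F : Type*} [CommRing A] [CommRing F] (φ : A →+* F) (ℓ : A)
    (R : Subring F) (hφR : ∀ a, φ a ∈ R)
    {m : ℕ} (g : Fin m → F) (hg : ∀ i, g i ∈ R)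
    (hgen : ∀ y ∈ R, ∃ a : Fin m → A, y = ∑ i, φ (a i) * g i)
    {n : ℕ} (e : Fin n → F)
    (hmod : ∀ y ∈ R, ∃ a : Fin n → A, ∃ y' ∈ R, y = ∑ i, φ (a i) * e i + φ ℓ * y') :
    ∃ s : A, (∃ t, s - 1 = ℓ * t) ∧
      ∀ y ∈ R, ∃ a : Fin n → A, φ s * y = ∑ i, φ (a i) * e i := by
  let _ : Algebra A F := φ.toAlgebra
  have hsmul : ∀ (a : A) (y : F), a • y = φ a * y := fun a y => Algebra.smul_def a y
  have hP : ∀ y, y ∈ Submodule.span A (Set.range g) ↔ y ∈ R := by
    intro y
    rw [Submodule.mem_span_range_iff_exists_fun]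
    constructor
    · rintro ⟨c, rfl⟩
      exact Subring.sum_mem _ fun i _ => by rw [hsmul]; exact R.mul_mem (hφR _) (hg i)
    · intro hy
      obtain ⟨a, rfl⟩ := hgen y hy
      exact ⟨a, by simp only [hsmul]⟩
  obtain ⟨s, hs, hsN⟩ := nakayama_module ℓ (Submodule.span A (Set.range g))
    (Submodule.span A (Set.range e)) (Submodule.fg_span (Set.finite_range g)) (by
      intro y hy
      obtain ⟨a, y', hy', rfl⟩ := hmod y ((hP y).1 hy)
      refine ⟨∑ i, φ (a i) * e i, ?_, y', (hP y').2 hy', by rw [hsmul]⟩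
      rw [Submodule.mem_span_range_iff_exists_fun]
      exact ⟨a, by simp only [hsmul]⟩)
  refine ⟨s, hs, fun y hy => ?_⟩
  have h1 := hsN y ((hP y).2 hy)
  rw [Submodule.mem_span_range_iff_exists_fun] at h1
  obtain ⟨c, hc⟩ := h1
  exact ⟨c, by rw [← hsmul, ← hc]; simp only [hsmul]⟩

/-- A finitely generated submodule of a field over a principal ideal domain mapping injectively
to it has a finite basis. -/
theorem exists_basis_of_pid {B κ : Type*} [CommRing B] [IsDomain B] [IsPrincipalIdealRing B]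
    [Field κ] (ψ : B →+* κ) (hψ : Function.Injective ψ) {m : ℕ} (g : Fin m → κ) :
    ∃ (r : ℕ) (eb : Fin r → κ), (∀ i, ∃ b : Fin m → B, eb i = ∑ j, ψ (b j) * g j) ∧
      (∀ b : Fin m → B, ∃ c : Fin r → B, ∑ j, ψ (b j) * g j = ∑ i, ψ (c i) * eb i) ∧
      (∀ c : Fin r → B, ∑ i, ψ (c i) * eb i = 0 → ∀ i, c i = 0) := by
  let _ : Algebra B κ := ψ.toAlgebra
  have hsmul : ∀ (a : B) (y : κ), a • y = ψ a * y := fun a y => Algebra.smul_def a y
  have : Module.IsTorsionFree B κ := by
    refine Module.IsTorsionFree.of_smul_eq_zero ?_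
    intro a y hay
    rw [hsmul, mul_eq_zero] at hay
    rcases hay with h | h
    · left
      exact hψ (by rw [h, map_zero])
    · exact Or.inr h
  let P : Submodule B κ := Submodule.span B (Set.range g)
  have : Module.Finite B P := Module.Finite.of_fg (Submodule.fg_span (Set.finite_range g))
  obtain ⟨r, b⟩ := Module.basisOfFiniteTypeTorsionFree' (R := B) (M := P)
  refine ⟨r, fun i => (b i : κ), ?_, ?_, ?_⟩
  · intro i
    have h1 : (b i : κ) ∈ Submodule.span B (Set.range g) := (b i).2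
    rw [Submodule.mem_span_range_iff_exists_fun] at h1
    obtain ⟨c, hc⟩ := h1
    refine ⟨c, ?_⟩
    show (b i : κ) = _
    rw [← hc]
    simp only [hsmul]
  · intro c
    have hmem : ∑ j, ψ (c j) * g j ∈ P := by
      show _ ∈ Submodule.span B (Set.range g)
      rw [Submodule.mem_span_range_iff_exists_fun]
      exact ⟨c, by simp only [hsmul]⟩
    refine ⟨fun i => b.repr ⟨_, hmem⟩ i, ?_⟩
    have h1 := congrArg Subtype.val (b.sum_repr ⟨_, hmem⟩)
    rw [AddSubmonoidClass.coe_finsetSum] at h1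
    show ∑ j, ψ (c j) * g j = ∑ i, ψ (b.repr ⟨_, hmem⟩ i) * (b i : κ)
    refine Eq.trans h1.symm (Finset.sum_congr rfl fun i _ => ?_)
    rw [← hsmul]
    rfl
  · intro c hc i
    have h1 : ∑ i, c i • b i = 0 := by
      apply Subtype.ext
      rw [AddSubmonoidClass.coe_finsetSum]
      refine Eq.trans (Finset.sum_congr rfl fun i _ => ?_) hc
      show ((c i • b i : P) : κ) = ψ (c i) * (b i : κ)
      rw [← hsmul]
      rfl
    exact Fintype.linearIndependent_iff.1 b.linearIndependent c h1 i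

variable {L F : Type*} [Field L] [Field F] [Algebra L F]

/-- **Layer N.** -/
theorem exists_localBasis {O : ValuationSubring L} {h : F} (G : GoodVal O h) {x : F}
    {Kx : IntermediateField L F} {Kbar : IntermediateField (IsLocalRing.ResidueField O) G.κ}
    {n : ℕ} (hC : ChartVal G x Kx Kbar n) (hn : 0 < n)
    (Z : Subring L) (hZO : ∀ c ∈ Z, c ∈ O) (ℓ : L) (hℓZ : ℓ ∈ Z)
    (hℓ : IsLocalRing.residue O ⟨ℓ, hZO ℓ hℓZ⟩ = 0)
    (hZker : ∀ c (hc : c ∈ Z), IsLocalRing.residue O ⟨c, hZO c hc⟩ = 0 → ∃ c' ∈ Z, c = ℓ * c')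
    (hZinv : ∀ c (hc : c ∈ Z), IsLocalRing.residue O ⟨c, hZO c hc⟩ ≠ 0 → c⁻¹ ∈ Z)
    (R : Subring F) (hRZ : ∀ c ∈ Z, algebraMap L F c ∈ R) (hRx : x ∈ R)
    (hRV : ∀ y ∈ R, y ∈ G.V)
    (hRint : ∀ y ∈ R, IsIntegral (Algebra.adjoin L {x}) y)
    (hfg : ∃ (m : ℕ) (g : Fin m → F), (∀ i, g i ∈ R) ∧ ∀ y ∈ R, ∃ p : Fin m → L[X],
      (∀ i j, (p i).coeff j ∈ Z) ∧ y = ∑ i, aeval x (p i) * g i)
    (hker : ∀ y (hy : y ∈ R), G.ρ ⟨y, hRV y hy⟩ = 0 → ∃ y' ∈ R, y = algebraMap L F ℓ * y')
    (hspan : ∀ y : F, IsIntegral (Algebra.adjoin L {x}) y →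
      ∃ (m : ℕ) (c : Fin m → L) (r : Fin m → F), (∀ i, r i ∈ R) ∧
        y = ∑ i, algebraMap L F (c i) * r i)
    (hdisj : ∀ (m : ℕ) (r : Fin m → F) (hr : ∀ i, r i ∈ R),
      (∀ p : Fin m → L[X], (∀ i j, (p i).coeff j ∈ Z) →
        ∀ hmem : ∑ i, aeval x (p i) * r i ∈ G.V, G.ρ ⟨_, hmem⟩ = 0 →
          ∀ i j, ∃ c' ∈ Z, (p i).coeff j = ℓ * c') →
      LinearIndependent Kbar (fun i => G.ρ ⟨r i, hRV _ (hr i)⟩))
    (hfull : ∃ (r : Fin n → F) (hr : ∀ i, r i ∈ R),
      LinearIndependent Kbar (fun i => G.ρ ⟨r i, hRV _ (hr i)⟩)) :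
    ∃ (e : Fin n → F) (s : Polynomial O), LocalBasis G x Kbar e s := by
  classical
  -- the inclusion `Z → O` and the residue field of `Z` as a subfield of `k`
  let ιZ : ↥Z →+* O :=
    { toFun := fun c => ⟨c, hZO c c.2⟩
      map_one' := rfl
      map_mul' := fun _ _ => rfl
      map_zero' := rfl
      map_add' := fun _ _ => rfl }
  let resZ : ↥Z →+* IsLocalRing.ResidueField O := (IsLocalRing.residue O).comp ιZ
  have hresZ : ∀ c : ↥Z, resZ c = IsLocalRing.residue O ⟨c, hZO c c.2⟩ := fun c => rfl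
  let k₀ : Subfield (IsLocalRing.ResidueField O) :=
    { resZ.range with
      inv_mem' := by
        rintro _ ⟨c, rfl⟩
        by_cases hc0 : resZ c = 0
        · rw [hc0, inv_zero]
          exact ⟨0, map_zero _⟩
        · have hcinv : (c : L)⁻¹ ∈ Z := hZinv c c.2 hc0
          refine ⟨⟨_, hcinv⟩, ?_⟩
          have hc1 : (c : L) ≠ 0 := by
            intro h0
            apply hc0
            have : c = 0 := Subtype.ext h0
            rw [this, map_zero]
          have h1 : resZ c * resZ ⟨_, hcinv⟩ = 1 := by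
            rw [← map_mul]
            have : c * ⟨_, hcinv⟩ = (1 : ↥Z) := Subtype.ext (by simp [hc1])
            rw [this, map_one]
          exact (eq_inv_of_mul_eq_one_right h1) }
  have hk₀ : ∀ y : IsLocalRing.ResidueField O, y ∈ k₀ ↔ ∃ c : ↥Z, resZ c = y := fun y => Iff.rfl
  let resZ' : ↥Z →+* ↥k₀ :=
    { toFun := fun c => ⟨resZ c, (hk₀ _).2 ⟨c, rfl⟩⟩
      map_one' := Subtype.ext (map_one resZ)
      map_mul' := fun a b => Subtype.ext (map_mul resZ a b)
      map_zero' := Subtype.ext (map_zero resZ)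
      map_add' := fun a b => Subtype.ext (map_add resZ a b) }
  have hresZ' : Function.Surjective resZ' := by
    rintro ⟨y, hy⟩
    obtain ⟨c, rfl⟩ := (hk₀ y).1 hy
    exact ⟨c, rfl⟩
  have hresZ'_coe : ∀ c : ↥Z, ((resZ' c : ↥k₀) : IsLocalRing.ResidueField O) = resZ c :=
    fun c => rfl
  -- the coordinate
  let xV : G.V := ⟨x, hC.x_mem⟩
  let xb : G.κ := G.ρ xV
  -- `Z[X] → V`, `Z[X] → F`
  let φV : Polynomial ↥Z →+* G.V := Polynomial.eval₂RingHom (G.incl.comp ιZ) xV
  let φ : Polynomial ↥Z →+* F := G.V.subtype.comp φV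
  have hφVφ : ∀ a, ((φV a : G.V) : F) = φ a := fun a => rfl
  have hφC : ∀ c : ↥Z, φ (C c) = algebraMap L F (c : L) := by
    intro c
    show ((φV (C c) : G.V) : F) = _
    simp only [φV, Polynomial.coe_eval₂RingHom, Polynomial.eval₂_C]
    rfl
  have hφX : φ X = x := by
    show ((φV X : G.V) : F) = _
    simp only [φV, Polynomial.coe_eval₂RingHom, Polynomial.eval₂_X]
    rfl
  have hφ : ∀ q : Polynomial ↥Z, φ q = aeval x (q.map Z.subtype) := by
    have h1 : φ = (aeval x : L[X] →ₐ[L] F).toRingHom.comp (mapRingHom Z.subtype) := by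
      refine Polynomial.ringHom_ext (fun c => ?_) ?_
      · rw [hφC]
        simp
      · rw [hφX]
        simp
    intro q
    rw [h1]
    rfl
  have hφR : ∀ a, φ a ∈ R := by
    intro a
    induction a using Polynomial.induction_on with
    | C c => rw [hφC]; exact hRZ _ c.2
    | add p q hp hq => rw [map_add]; exact R.add_mem hp hq
    | monomial n c ih =>
      rw [pow_succ, ← mul_assoc, map_mul, hφX]
      exact R.mul_mem ih hRx
  have hlift : ∀ p : L[X], (∀ j, p.coeff j ∈ Z) → ∃ q : Polynomial ↥Z, q.map Z.subtype = p := by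
    intro p hp
    have h1 : p ∈ (mapRingHom Z.subtype).range :=
      (Polynomial.mem_map_range Z.subtype).2 (fun j => by
        rw [Subring.range_subtype]; exact hp j)
    exact h1
  -- `k₀[X] → κ`
  let ψ : Polynomial ↥k₀ →+* G.κ :=
    Polynomial.eval₂RingHom ((algebraMap (IsLocalRing.ResidueField O) G.κ).comp k₀.subtype) xb
  have hψ : ∀ b : Polynomial ↥k₀, ψ b = aeval xb (b.map k₀.subtype) := by
    intro b
    rw [Polynomial.aeval_def, Polynomial.eval₂_map]
    rfl
  have hψinj : Function.Injective ψ := by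
    rw [injective_iff_map_eq_zero]
    intro b hb
    rw [hψ] at hb
    have h1 := transcendental_iff.1 hC.xbar_transcendental _ hb
    exact (Polynomial.map_eq_zero_iff (Subtype.val_injective)).1 h1
  have hψK : ∀ b : Polynomial ↥k₀, ψ b ∈ Kbar := by
    intro b
    rw [hψ, hC.Kbar_eq]
    exact IntermediateField.algebra_adjoin_le_adjoin _ _
      (Polynomial.aeval_mem_adjoin_singleton _ _)
  have hcompat : ∀ a : Polynomial ↥Z, G.ρ (φV a) = ψ (a.map resZ') := by
    have h1 : G.ρ.comp φV = ψ.comp (mapRingHom resZ') := by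
      refine Polynomial.ringHom_ext (fun c => ?_) ?_
      · simp only [φV, ψ, RingHom.comp_apply, Polynomial.coe_eval₂RingHom, Polynomial.eval₂_C,
          Polynomial.coe_mapRingHom, Polynomial.map_C]
        rfl
      · simp only [φV, ψ, RingHom.comp_apply, Polynomial.coe_eval₂RingHom, Polynomial.eval₂_X,
          Polynomial.coe_mapRingHom, Polynomial.map_X]
        rfl
    intro a
    exact RingHom.congr_fun h1 a
  -- generators
  obtain ⟨m, g, hg, hgen⟩ := hfg
  have hgen' : ∀ y ∈ R, ∃ a : Fin m → Polynomial ↥Z, y = ∑ i, φ (a i) * g i := by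
    intro y hy
    obtain ⟨p, hp, rfl⟩ := hgen y hy
    choose q hq using fun i => hlift (p i) (hp i)
    exact ⟨q, Finset.sum_congr rfl fun i _ => by rw [hφ, hq]⟩
  let gV : Fin m → G.V := fun j => ⟨g j, hRV _ (hg j)⟩
  obtain ⟨r, eb, h1, h2, h3⟩ := exists_basis_of_pid ψ hψinj (fun j => G.ρ (gV j))
  -- reductions of elements of `R` in terms of `eb`
  have hρR : ∀ y (hy : y ∈ R), ∃ c : Fin r → Polynomial ↥k₀,
      G.ρ ⟨y, hRV y hy⟩ = ∑ i, ψ (c i) * eb i := by
    intro y hy
    obtain ⟨a, ha⟩ := hgen' y hy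
    have h4 : (⟨y, hRV y hy⟩ : G.V) = ∑ i, φV (a i) * gV i := by
      apply Subtype.ext
      rw [AddSubmonoidClass.coe_finsetSum]
      exact ha
    obtain ⟨c, hc⟩ := h2 (fun i => (a i).map resZ')
    refine ⟨c, ?_⟩
    rw [h4, map_sum, ← hc]
    exact Finset.sum_congr rfl fun i _ => by rw [map_mul, hcompat]
  -- lifts of the basis
  have hex : ∀ i : Fin r, ∃ eV : G.V, (eV : F) ∈ R ∧ G.ρ eV = eb i := by
    intro i
    obtain ⟨b, hb⟩ := h1 i
    choose a ha using fun j => Polynomial.map_surjective resZ' hresZ' (b j)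
    refine ⟨∑ j, φV (a j) * gV j, ?_, ?_⟩
    · rw [AddSubmonoidClass.coe_finsetSum]
      exact R.sum_mem fun j _ => R.mul_mem (hφR (a j)) (hg j)
    · rw [map_sum, hb]
      exact Finset.sum_congr rfl fun j _ => by rw [map_mul, hcompat, ha]
  choose eV heR heρ using hex
  -- independence over `Kbar`
  have hLI : LinearIndependent Kbar (fun i => G.ρ ⟨(eV i : F), hRV _ (heR i)⟩) := by
    refine hdisj r (fun i => (eV i : F)) heR ?_
    intro p hp hmem h0 i j
    choose q hq using fun i => hlift (p i) (hp i)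
    have h4 : (⟨_, hmem⟩ : G.V) = ∑ i, φV (q i) * eV i := by
      apply Subtype.ext
      rw [AddSubmonoidClass.coe_finsetSum]
      show ∑ i, aeval x (p i) * (eV i : F) = ∑ i, ((φV (q i) * eV i : G.V) : F)
      exact Finset.sum_congr rfl fun i _ => by
        rw [← hq i, ← hφ]
        rfl
    rw [h4, map_sum] at h0
    have h5 : ∑ i, ψ ((q i).map resZ') * eb i = 0 := by
      rw [← h0]
      exact Finset.sum_congr rfl fun i _ => by rw [map_mul, hcompat, heρ]
    have h6 := h3 _ h5 i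
    have h7' : resZ' ((q i).coeff j) = 0 := by
      have := congrArg (fun t => t.coeff j) h6
      simpa [Polynomial.coeff_map] using this
    have h7 : resZ ((q i).coeff j) = 0 := by
      rw [← hresZ'_coe, h7']
      rfl
    obtain ⟨c', hc', hcc⟩ := hZker _ ((q i).coeff j).2 h7
    refine ⟨c', hc', ?_⟩
    rw [← hq i, Polynomial.coeff_map]
    exact hcc
  -- `r = n`
  have hfin : Module.Finite Kbar G.κ :=
    Module.finite_of_finrank_pos (by rw [hC.finrank_bar]; exact hn)
  have hrn : r = n := by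
    apply le_antisymm
    · have := hLI.fintype_card_le_finrank
      rwa [Fintype.card_fin, hC.finrank_bar] at this
    · obtain ⟨r', hr', hLI'⟩ := hfull
      have hsub : Set.range (fun i => G.ρ ⟨r' i, hRV _ (hr' i)⟩) ⊆
          Submodule.span Kbar (Set.range eb) := by
        rintro _ ⟨i, rfl⟩
        obtain ⟨c, hc⟩ := hρR (r' i) (hr' i)
        show G.ρ ⟨r' i, hRV _ (hr' i)⟩ ∈ Submodule.span Kbar (Set.range eb)
        rw [hc]
        refine Submodule.sum_mem _ fun j _ => ?_
        have : ψ (c j) * eb j = (⟨ψ (c j), hψK _⟩ : Kbar) • eb j := rfl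
        rw [this]
        exact Submodule.smul_mem _ _ (Submodule.subset_span ⟨j, rfl⟩)
      have h4 := linearIndependent_le_span_aux' _ hLI' (Set.range eb) hsub
      have h5 := Fintype.card_range_le eb
      rw [Fintype.card_fin] at h4 h5
      exact h4.trans h5
  subst hrn
  -- Nakayama
  obtain ⟨s, ⟨t, hst⟩, hs⟩ := nakayama_ring φ (C (⟨ℓ, hℓZ⟩ : ↥Z)) R hφR g hg hgen'
    (fun i => (eV i : F)) (by
      intro y hy
      obtain ⟨c, hc⟩ := hρR y hy
      choose a ha using fun i => Polynomial.map_surjective resZ' hresZ' (c i)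
      have hz : y - ∑ i, φ (a i) * (eV i : F) ∈ R :=
        R.sub_mem hy (R.sum_mem fun i _ => R.mul_mem (hφR _) (heR i))
      have h4 : (⟨_, hRV _ hz⟩ : G.V) = ⟨y, hRV y hy⟩ - ∑ i, φV (a i) * eV i := by
        apply Subtype.ext
        rw [AddSubgroupClass.coe_sub, AddSubmonoidClass.coe_finsetSum]
        rfl
      have h5 : G.ρ ⟨_, hRV _ hz⟩ = 0 := by
        rw [h4, map_sub, hc, map_sum, sub_eq_zero]
        exact Finset.sum_congr rfl fun i _ => by rw [map_mul, hcompat, ha, heρ]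
      obtain ⟨y', hy', hyy⟩ := hker _ hz h5
      refine ⟨a, y', hy', ?_⟩
      rw [hφC, ← hyy]
      ring)
  refine ⟨fun i => (eV i : F), s.map ιZ, ?_, fun i => (eV i).2, fun i => hRint _ (heR i), ?_, hLI⟩
  · -- `s ≡ 1`
    have hs1 : s = C (⟨ℓ, hℓZ⟩ : ↥Z) * t + 1 := by rw [← hst]; ring
    rw [Polynomial.map_map, hs1, Polynomial.map_add, Polynomial.map_mul, Polynomial.map_C,
      Polynomial.map_one]
    have : ((IsLocalRing.residue O).comp ιZ) (⟨ℓ, hℓZ⟩ : ↥Z) = 0 := hℓ
    rw [this, map_zero, zero_mul, zero_add]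
  · -- spanning
    intro y hy
    obtain ⟨m', c, r', hr', rfl⟩ := hspan y hy
    choose a ha using fun i => hs (r' i) (hr' i)
    refine ⟨fun j => ∑ i, C (c i) * (a i j).map Z.subtype, ?_⟩
    have hsφ : aeval x ((s.map ιZ).map (algebraMap O L)) = φ s := by
      rw [Polynomial.map_map, hφ]
      rfl
    rw [hsφ, Finset.mul_sum]
    have h4 : ∀ i, φ s * (algebraMap L F (c i) * r' i)
        = ∑ j, algebraMap L F (c i) * φ (a i j) * (eV j : F) := by
      intro i
      rw [mul_left_comm, ha i, Finset.mul_sum]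
      exact Finset.sum_congr rfl fun j _ => by ring
    rw [Finset.sum_congr rfl fun i _ => h4 i, Finset.sum_comm]
    refine Finset.sum_congr rfl fun j _ => ?_
    rw [map_sum, Finset.sum_mul]
    refine Finset.sum_congr rfl fun i _ => ?_
    rw [map_mul, Polynomial.aeval_C, ← hφ]

end Fermat.Agent.S18.E1
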