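import Mathlib

/-!
# S18, Layer R, leaf (P1): clearing denominators in a monic equation over `ℚ[x]`

If `y` satisfies a monic equation over `ℚ[x]` whose coefficients have denominators in a
multiplicative set `P` of natural numbers, then for some `b` with `P b` the element `b * y`
satisfies a monic equation over `ℤ[x]`.
-/

set_option autoImplicit false

noncomputable section

open Polynomial

namespace Fermat.Agent.S18.LayerR

namespace Den

/-- the common denominator of all coefficients of all coefficients of `q`. -/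
def commonDen (q : Polynomial (Polynomial ℚ)) : ℕ :=
  ∏ i ∈ q.support, ∏ j ∈ (q.coeff i).support, ((q.coeff i).coeff j).den

theorem commonDen_prop (P : ℕ → Prop) (hP1 : P 1) (hPmul : ∀ a b, P a → P b → P (a * b))
    (q : Polynomial (Polynomial ℚ)) (hden : ∀ i j, P ((q.coeff i).coeff j).den) :
    P (commonDen q) := by
  unfold commonDen
  refine Finset.prod_induction _ P hPmul hP1 fun i _ => ?_
  exact Finset.prod_induction _ P hPmul hP1 fun j _ => hden i j

theorem den_dvd_commonDen (q : Polynomial (Polynomial ℚ)) (i j : ℕ)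
    (h : (q.coeff i).coeff j ≠ 0) : ((q.coeff i).coeff j).den ∣ commonDen q := by
  have hi : i ∈ q.support := by
    rw [mem_support_iff]
    intro h0
    exact h (by rw [h0, coeff_zero])
  have hj : j ∈ (q.coeff i).support := mem_support_iff.2 h
  unfold commonDen
  exact (Finset.dvd_prod_of_mem (fun j => ((q.coeff i).coeff j).den) hj).trans
    (Finset.dvd_prod_of_mem (fun i => ∏ j ∈ (q.coeff i).support, ((q.coeff i).coeff j).den) hi)

theorem commonDen_mul_coeff (q : Polynomial (Polynomial ℚ)) (i j : ℕ) :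
    ∃ m : ℤ, (m : ℚ) = (commonDen q : ℚ) * (q.coeff i).coeff j := by
  by_cases h : (q.coeff i).coeff j = 0
  · exact ⟨0, by rw [h]; simp⟩
  · obtain ⟨d, hd⟩ := den_dvd_commonDen q i j h
    refine ⟨(d : ℤ) * ((q.coeff i).coeff j).num, ?_⟩
    have h1 : (((q.coeff i).coeff j).den : ℚ) * (q.coeff i).coeff j
        = (((q.coeff i).coeff j).num : ℚ) := Rat.den_mul_eq_num _
    rw [hd]
    push_cast
    rw [← h1]
    ring

theorem C_commonDen_mul_coeff (q : Polynomial (Polynomial ℚ)) (i : ℕ) :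
    ∃ p : ℤ[X], p.map (Int.castRingHom ℚ) = C (commonDen q : ℚ) * q.coeff i := by
  have hmem : C (commonDen q : ℚ) * q.coeff i ∈ Polynomial.lifts (Int.castRingHom ℚ) := by
    rw [Polynomial.lifts_iff_coeff_lifts]
    intro j
    rw [coeff_C_mul]
    obtain ⟨m, hm⟩ := commonDen_mul_coeff q i j
    exact ⟨m, hm⟩
  exact (Polynomial.mem_lifts _).1 hmem

theorem scaleRoots_mem_lifts (q : Polynomial (Polynomial ℚ)) (hq : q.Monic) :
    scaleRoots q (C (commonDen q : ℚ)) ∈
      Polynomial.lifts (mapRingHom (Int.castRingHom ℚ)) := by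
  rw [Polynomial.lifts_iff_coeff_lifts]
  intro i
  rw [coeff_scaleRoots]
  rcases lt_trichotomy i q.natDegree with hi | hi | hi
  · obtain ⟨p, hp⟩ := C_commonDen_mul_coeff q i
    obtain ⟨k, hk⟩ : ∃ k, q.natDegree - i = k + 1 := ⟨q.natDegree - i - 1, by omega⟩
    refine ⟨p * C (commonDen q : ℤ) ^ k, ?_⟩
    rw [map_mul, map_pow, coe_mapRingHom, hp, map_C, hk, pow_succ]
    simp only [eq_intCast, Int.cast_natCast]
    ring
  · refine ⟨1, ?_⟩
    rw [hi, Nat.sub_self, pow_zero, mul_one, hq.coeff_natDegree, map_one]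
  · refine ⟨0, ?_⟩
    rw [coeff_eq_zero_of_natDegree_lt hi, zero_mul, map_zero]

end Den

/-- (P1) clearing denominators in a monic equation over `ℚ[x]`. -/
theorem exists_nat_mul_intOver {F : Type*} [Field F] [CharZero F] (x y : F)
    (P : ℕ → Prop) (hP1 : P 1) (hPmul : ∀ a b, P a → P b → P (a * b))
    (q : Polynomial (Polynomial ℚ)) (hq : q.Monic)
    (hqy : eval₂ ((aeval x : ℚ[X] →ₐ[ℚ] F) : ℚ[X] →+* F) y q = 0)
    (hden : ∀ i j, P ((q.coeff i).coeff j).den) :
    ∃ b : ℕ, P b ∧ ∃ q' : Polynomial (Polynomial ℤ), q'.Monic ∧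
      eval₂ ((aeval x : ℤ[X] →ₐ[ℤ] F) : ℤ[X] →+* F) ((b : F) * y) q' = 0 := by
  refine ⟨Den.commonDen q, Den.commonDen_prop P hP1 hPmul q hden, ?_⟩
  have hmonic : (scaleRoots q (C (Den.commonDen q : ℚ))).Monic :=
    (monic_scaleRoots_iff _).2 hq
  obtain ⟨q', hq'map, -, hq'monic⟩ :=
    Polynomial.lifts_and_natDegree_eq_and_monic (Den.scaleRoots_mem_lifts q hq) hmonic
  refine ⟨q', hq'monic, ?_⟩
  have hcomp : ((aeval x : ℤ[X] →ₐ[ℤ] F) : ℤ[X] →+* F)
      = ((aeval x : ℚ[X] →ₐ[ℚ] F) : ℚ[X] →+* F).comp (mapRingHom (Int.castRingHom ℚ)) := by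
    ext p
    · simp
    · simp
  rw [hcomp, ← eval₂_map, hq'map]
  have hb : ((aeval x : ℚ[X] →ₐ[ℚ] F) : ℚ[X] →+* F) (C (Den.commonDen q : ℚ))
      = (Den.commonDen q : F) := by
    simp
  rw [← hb, scaleRoots_eval₂_mul, hqy, mul_zero]

end Fermat.Agent.S18.LayerR
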