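import Mathlib

/-!
# S18, Layer R (P4): rational coordinates from linear disjointness
-/

set_option autoImplicit false
set_option linter.style.haveILetI false

noncomputable section

open Polynomial

namespace Fermat.Agent.S18.LayerR

/-- (P4) rational coordinates from linear disjointness. -/
theorem exists_rat_repr {L F : Type*} [Field L] [Field F] [Algebra L F] [CharZero L] [CharZero F]
    (F₀ : Subfield F) (x : F) (hx₀ : x ∈ F₀) (hx : Transcendental L x)
    (hLD : ∀ (ψ : L →ₗ[ℚ] ℚ) (ι : Type) [Fintype ι] (c : ι → L) (f : ι → F), (∀ i, f i ∈ F₀) →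
      ∑ i, algebraMap L F (c i) * f i = 0 →
      ∑ i, algebraMap L F (algebraMap ℚ L (ψ (c i))) * f i = 0)
    {n : ℕ} (r : Fin n → F) (hr₀ : ∀ i, r i ∈ F₀) (z : F) (hz : z ∈ F₀)
    (a : Fin n → F) (ha : ∀ i, a i ∈ IntermediateField.adjoin L {x}) (hza : z = ∑ i, a i * r i) :
    ∃ (D : ℚ[X]) (P : Fin n → ℚ[X]), aeval x D ≠ 0 ∧
      aeval x D * z = ∑ i, aeval x (P i) * r i := by
  classical
  haveI tQ : IsScalarTower ℚ L F := IsScalarTower.of_algebraMap_eq (fun q => by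
    rw [eq_ratCast, eq_ratCast, map_ratCast])
  -- Step 1: clear denominators over `L`
  have h1 : ∀ i, ∃ num den : L[X], aeval x den ≠ 0 ∧ a i * aeval x den = aeval x num := by
    intro i
    obtain ⟨r', s', hrs⟩ := (IntermediateField.mem_adjoin_simple_iff L (a i)).mp (ha i)
    by_cases hs : aeval x s' = 0
    · refine ⟨0, 1, by simp, ?_⟩
      rw [hrs, hs, div_zero]
      simp
    · exact ⟨r', s', hs, by rw [hrs, div_mul_cancel₀ _ hs]⟩
  choose num den hden hnum using h1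
  obtain ⟨D₀, hD₀⟩ : ∃ D₀ : L[X], D₀ = ∏ i, den i := ⟨_, rfl⟩
  obtain ⟨P₀, hP₀⟩ : ∃ P₀ : Fin n → L[X],
      P₀ = fun i => num i * ∏ k ∈ Finset.univ.erase i, den k := ⟨_, rfl⟩
  have hD₀x : aeval x D₀ ≠ 0 := by
    rw [hD₀, map_prod]
    exact Finset.prod_ne_zero_iff.mpr (fun i _ => hden i)
  have hD₀0 : D₀ ≠ 0 := fun h0 => hD₀x (by rw [h0, map_zero])
  have hrel : aeval x D₀ * z = ∑ i, aeval x (P₀ i) * r i := by
    rw [hza, Finset.mul_sum]
    refine Finset.sum_congr rfl fun i _ => ?_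
    rw [hP₀, map_mul, ← hnum i, hD₀, ← Finset.mul_prod_erase Finset.univ den (Finset.mem_univ i),
      map_mul]
    ring
  -- Step 2: a rational functional normalised at the leading coefficient
  have hlc : D₀.leadingCoeff ≠ 0 := leadingCoeff_ne_zero.mpr hD₀0
  obtain ⟨ψ, hψ⟩ : ∃ ψ : L →ₗ[ℚ] ℚ, ψ D₀.leadingCoeff = 1 := by
    have h2 : ¬ ∀ f : Module.Dual ℚ L, f D₀.leadingCoeff = 0 :=
      fun h => hlc ((Module.forall_dual_apply_eq_zero_iff ℚ _).mp h)
    obtain ⟨f, hf⟩ := not_forall.mp h2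
    refine ⟨(f D₀.leadingCoeff)⁻¹ • f, ?_⟩
    rw [LinearMap.smul_apply, smul_eq_mul, inv_mul_cancel₀ hf]
  -- Step 3: apply the functional coefficientwise
  obtain ⟨N, hN0, hN⟩ : ∃ N : ℕ, D₀.natDegree < N ∧ ∀ i, (P₀ i).natDegree < N := by
    refine ⟨D₀.natDegree + ∑ i, (P₀ i).natDegree + 1, by omega, fun i => ?_⟩
    have := Finset.single_le_sum (f := fun i => (P₀ i).natDegree) (fun _ _ => Nat.zero_le _)
      (Finset.mem_univ i)
    omega
  obtain ⟨Q, hQ⟩ : ∃ Q : Option (Fin n) → L[X], Q = fun o => o.elim D₀ (fun i => -P₀ i) :=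
    ⟨_, rfl⟩
  obtain ⟨g, hg⟩ : ∃ g : Option (Fin n) → F, g = fun o => o.elim z r := ⟨_, rfl⟩
  have hQN : ∀ o, (Q o).natDegree < N := by
    rintro (_ | i)
    · rw [hQ]; exact hN0
    · rw [hQ]
      show (-P₀ i).natDegree < N
      rw [natDegree_neg]
      exact hN i
  have hg₀ : ∀ o, g o ∈ F₀ := by
    rintro (_ | i)
    · rw [hg]; exact hz
    · rw [hg]; exact hr₀ i
  have hexp : ∀ p : L[X], p.natDegree < N →
      aeval x p = ∑ j : Fin N, algebraMap L F (p.coeff j) * x ^ (j : ℕ) := by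
    intro p hp
    rw [aeval_eq_sum_range' hp, ← Fin.sum_univ_eq_sum_range (fun j => p.coeff j • x ^ j) N]
    exact Finset.sum_congr rfl fun j _ => Algebra.smul_def _ _
  have hzero : ∑ o, aeval x (Q o) * g o = 0 := by
    rw [Fintype.sum_option, hQ, hg]
    show aeval x D₀ * z + ∑ i, aeval x (-P₀ i) * r i = 0
    rw [hrel]
    simp only [map_neg, neg_mul, Finset.sum_neg_distrib]
    ring
  have hsum0 : ∑ oj : Option (Fin n) × Fin N,
      algebraMap L F ((Q oj.1).coeff oj.2) * (x ^ (oj.2 : ℕ) * g oj.1) = 0 := by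
    rw [Fintype.sum_prod_type, ← hzero]
    refine Finset.sum_congr rfl fun o _ => ?_
    rw [hexp (Q o) (hQN o), Finset.sum_mul]
    refine Finset.sum_congr rfl fun j _ => ?_
    ring
  have h3 := hLD ψ (Option (Fin n) × Fin N) (fun oj => (Q oj.1).coeff oj.2)
    (fun oj => x ^ (oj.2 : ℕ) * g oj.1) (fun oj => mul_mem (pow_mem hx₀ _) (hg₀ oj.1)) hsum0
  obtain ⟨ψP, hψPdef⟩ : ∃ ψP : L[X] → ℚ[X],
      ψP = fun p => ∑ j : Fin N, monomial (j : ℕ) (ψ (p.coeff j)) := ⟨_, rfl⟩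
  have hψP : ∀ p : L[X], aeval x (ψP p)
      = ∑ j : Fin N, algebraMap L F (algebraMap ℚ L (ψ (p.coeff j))) * x ^ (j : ℕ) := by
    intro p
    rw [hψPdef, map_sum]
    refine Finset.sum_congr rfl fun j _ => ?_
    rw [aeval_monomial, IsScalarTower.algebraMap_apply ℚ L F]
  have h4 : ∑ o, aeval x (ψP (Q o)) * g o = 0 := by
    rw [← h3, Fintype.sum_prod_type]
    refine Finset.sum_congr rfl fun o _ => ?_
    rw [hψP, Finset.sum_mul]
    refine Finset.sum_congr rfl fun j _ => ?_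
    ring
  rw [Fintype.sum_option, hQ, hg] at h4
  have h4' : aeval x (ψP D₀) * z + ∑ i, aeval x (ψP (-P₀ i)) * r i = 0 := h4
  refine ⟨ψP D₀, fun i => -ψP (-P₀ i), ?_, ?_⟩
  · have hcoeff : (ψP D₀).coeff D₀.natDegree = 1 := by
      rw [hψPdef]
      show (∑ j : Fin N, monomial (j : ℕ) (ψ (D₀.coeff j))).coeff D₀.natDegree = 1
      rw [finsetSum_coeff, Finset.sum_eq_single (⟨D₀.natDegree, hN0⟩ : Fin N)]
      · rw [coeff_monomial, if_pos rfl]
        exact hψ
      · intro j _ hj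
        rw [coeff_monomial, if_neg]
        intro h
        exact hj (Fin.ext h)
      · intro h
        exact absurd (Finset.mem_univ _) h
    have hD : ψP D₀ ≠ 0 := fun h0 => by
      rw [h0, coeff_zero] at hcoeff
      exact zero_ne_one hcoeff
    have hxQ : Transcendental ℚ x := hx.restrictScalars (algebraMap ℚ L).injective
    exact fun h0 => hD ((transcendental_iff.mp hxQ) _ h0)
  · simp only [map_neg, neg_mul, Finset.sum_neg_distrib]
    linear_combination h4'

end Fermat.Agent.S18.LayerR
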