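/-
S18, Layer R, leaf (P2) (helper8): an element integral over `ℚ[x]` which stabilises a lattice
with coefficients in `ℚ(x) ∩ V` satisfies a monic equation over `ℚ[x]` with coefficients in `V`.

Proof: `ℚ[x]` and `V ∩ ℚ(x)` are integrally closed with fraction field `ℚ(x)`, so the minimal
polynomial over `ℚ(x)` is the minimal polynomial over either of them.
-/
import Mathlib

set_option autoImplicit false
set_option linter.style.haveILetI false
set_option linter.unusedSectionVars false

noncomputable section

open Polynomial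

namespace Fermat.Agent.S18.LayerR.Stable

variable {L F : Type*} [Field L] [Field F] [Algebra L F]

/-- the algebra structure of `F` over `𝒪 ∩ K` -/
@[reducible] def comapAlg (𝒪 : ValuationSubring F) (K : IntermediateField L F) :
    Algebra ↥(𝒪.comap (algebraMap K F)) F :=
  ((algebraMap K F).comp (𝒪.comap (algebraMap K F)).subtype).toAlgebra

attribute [local instance] comapAlg

theorem comapAlg_smul_def (𝒪 : ValuationSubring F) (K : IntermediateField L F)
    (a : ↥(𝒪.comap (algebraMap K F))) (z : F) : a • z = algebraMap K F (a : K) * z := rfl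

theorem comapAlg_isScalarTower (𝒪 : ValuationSubring F) (K : IntermediateField L F) :
    IsScalarTower ↥(𝒪.comap (algebraMap K F)) K F :=
  IsScalarTower.of_algebraMap_eq (fun _ => rfl)

attribute [local instance] comapAlg_isScalarTower

open IntermediateField algebraAdjoinAdjoin in
/-- general form of (P2): base field `L`, `x` transcendental, `y` integral over `L[x]` and
stabilising a finitely generated nonzero `(𝒪 ∩ L(x))`-module. -/
theorem exists_monic_of_stable (𝒪 : ValuationSubring F) (x : F) (hx : Transcendental L x)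
    (y : F) (hint : IsIntegral (Algebra.adjoin L {x}) y)
    {n : ℕ} (B : Fin n → F) (hB : ∃ i, B i ≠ 0)
    (hstab : ∀ j, ∃ c : Fin n → F, (∀ i, c i ∈ IntermediateField.adjoin L {x}) ∧
      (∀ i, c i ∈ 𝒪) ∧ y * B j = ∑ i, c i * B i) :
    ∃ q : Polynomial (Polynomial L), q.Monic ∧
      eval₂ ((aeval x : L[X] →ₐ[L] F) : L[X] →+* F) y q = 0 ∧
      ∀ i, aeval x (q.coeff i) ∈ 𝒪 := by
  haveI : IsIntegrallyClosed (Algebra.adjoin L {x}) :=
    IsIntegrallyClosed.of_equiv (Polynomial.algEquivOfTranscendental L x hx).toRingEquiv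
  -- `y` is integral over `𝒪 ∩ L(x)`
  have hintV : IsIntegral ↥(𝒪.comap (algebraMap (IntermediateField.adjoin L {x}) F)) y := by
    refine isIntegral_of_smul_mem_submodule
      (Submodule.span ↥(𝒪.comap (algebraMap (IntermediateField.adjoin L {x}) F)) (Set.range B))
      ?_ (Submodule.fg_span (Set.finite_range _)) y ?_
    · intro hbot
      obtain ⟨i, hi⟩ := hB
      have h1 : B i ∈ Submodule.span
          ↥(𝒪.comap (algebraMap (IntermediateField.adjoin L {x}) F)) (Set.range B) :=
        Submodule.subset_span ⟨i, rfl⟩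
      rw [hbot, Submodule.mem_bot] at h1
      exact hi h1
    · intro z hz
      induction hz using Submodule.span_induction with
      | mem z hz =>
        obtain ⟨j, rfl⟩ := hz
        obtain ⟨c, hcK, hcV, hc⟩ := hstab j
        rw [smul_eq_mul, hc]
        refine Submodule.sum_mem _ fun i _ => ?_
        have hmem : (⟨c i, hcK i⟩ : ↥(IntermediateField.adjoin L {x})) ∈
            𝒪.comap (algebraMap (IntermediateField.adjoin L {x}) F) := hcV i
        have : c i * B i = (⟨⟨c i, hcK i⟩, hmem⟩ :
            ↥(𝒪.comap (algebraMap (IntermediateField.adjoin L {x}) F))) • B i := rfl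
        rw [this]
        exact Submodule.smul_mem _ _ (Submodule.subset_span ⟨i, rfl⟩)
      | zero => rw [smul_zero]; exact Submodule.zero_mem _
      | add z w _ _ hz hw => rw [smul_add]; exact Submodule.add_mem _ hz hw
      | smul a z _ hz =>
        rw [smul_comm]
        exact Submodule.smul_mem _ _ hz
  have h1 : minpoly (IntermediateField.adjoin L {x}) y =
      (minpoly (Algebra.adjoin L {x}) y).map
        (algebraMap (Algebra.adjoin L {x}) (IntermediateField.adjoin L {x})) :=
    minpoly.isIntegrallyClosed_eq_field_fractions' (IntermediateField.adjoin L {x}) hint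
  have h2 : minpoly (IntermediateField.adjoin L {x}) y =
      (minpoly ↥(𝒪.comap (algebraMap (IntermediateField.adjoin L {x}) F)) y).map
        (algebraMap ↥(𝒪.comap (algebraMap (IntermediateField.adjoin L {x}) F))
          (IntermediateField.adjoin L {x})) :=
    minpoly.isIntegrallyClosed_eq_field_fractions' (IntermediateField.adjoin L {x}) hintV
  set e := Polynomial.algEquivOfTranscendental L x hx with he
  have hes : ∀ r : Algebra.adjoin L {x}, Polynomial.aeval x (e.symm r) = (r : F) := by
    intro r
    have := Polynomial.algEquivOfTranscendental_apply L x hx (e.symm r)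
    rw [← he, AlgEquiv.apply_symm_apply] at this
    have h3 := congrArg Subtype.val this
    rw [h3, Polynomial.aeval_subalgebra_coe]
  refine ⟨(minpoly (Algebra.adjoin L {x}) y).map (e.symm : Algebra.adjoin L {x} →+* L[X]),
    (minpoly.monic hint).map _, ?_, ?_⟩
  · rw [Polynomial.eval₂_map]
    have hcomp : ((Polynomial.aeval x : L[X] →ₐ[L] F) : L[X] →+* F).comp
        (e.symm : Algebra.adjoin L {x} →+* L[X]) = algebraMap (Algebra.adjoin L {x}) F := by
      ext r
      simp only [RingHom.comp_apply, RingHom.coe_coe]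
      exact hes r
    rw [hcomp, ← Polynomial.aeval_def]
    exact minpoly.aeval _ _
  · intro i
    rw [Polynomial.coeff_map, RingHom.coe_coe, hes]
    have hc := congrArg (fun q => q.coeff i) (h1.symm.trans h2)
    simp only [Polynomial.coeff_map] at hc
    have hc' := congrArg (algebraMap (IntermediateField.adjoin L {x}) F) hc
    have hL : algebraMap (IntermediateField.adjoin L {x}) F
        (algebraMap (Algebra.adjoin L {x}) (IntermediateField.adjoin L {x})
          ((minpoly (Algebra.adjoin L {x}) y).coeff i)) =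
        (((minpoly (Algebra.adjoin L {x}) y).coeff i : Algebra.adjoin L {x}) : F) := rfl
    rw [hL] at hc'
    rw [hc']
    exact ((minpoly ↥(𝒪.comap (algebraMap (IntermediateField.adjoin L {x}) F)) y).coeff i).2

/-- a monic equation over `L[x]` gives integrality over `Algebra.adjoin L {x}` -/
theorem isIntegral_adjoin_of_monic (x y : F) (q : Polynomial (Polynomial L)) (hq : q.Monic)
    (hqy : eval₂ ((aeval x : L[X] →ₐ[L] F) : L[X] →+* F) y q = 0) :
    IsIntegral (Algebra.adjoin L {x}) y := by
  set φ : L[X] →+* Algebra.adjoin L {x} :=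
    ((Polynomial.aeval (⟨x, Algebra.self_mem_adjoin_singleton L x⟩ : Algebra.adjoin L {x}) :
      L[X] →ₐ[L] Algebra.adjoin L {x}) : L[X] →+* Algebra.adjoin L {x}) with hφ
  have hcomp : (algebraMap (Algebra.adjoin L {x}) F).comp φ =
      ((aeval x : L[X] →ₐ[L] F) : L[X] →+* F) := by
    ext p
    · simp [hφ]
    · simp [hφ]
  refine ⟨q.map φ, hq.map φ, ?_⟩
  rw [Polynomial.eval₂_map, hcomp]
  exact hqy

end Fermat.Agent.S18.LayerR.Stable

namespace Fermat.Agent.S18.LayerR

/-- (P2) an element integral over `ℚ[x]` which stabilises a lattice with coefficients in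
`ℚ(x) ∩ V` satisfies a monic equation over `ℚ[x]` with coefficients in `V`. -/
theorem exists_monic_rat_of_stable {F : Type*} [Field F] [CharZero F] (V : ValuationSubring F)
    (x : F) (hx : Transcendental ℚ x) (y : F)
    (hy : ∃ q : Polynomial (Polynomial ℚ), q.Monic ∧
      eval₂ ((aeval x : ℚ[X] →ₐ[ℚ] F) : ℚ[X] →+* F) y q = 0)
    {n : ℕ} (B : Fin n → F) (hB : ∃ i, B i ≠ 0)
    (hstab : ∀ j, ∃ (D : ℚ[X]) (P : Fin n → ℚ[X]), aeval x D ≠ 0 ∧
      (∀ i, aeval x (P i) / aeval x D ∈ V) ∧
      y * B j = ∑ i, aeval x (P i) / aeval x D * B i) :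
    ∃ q : Polynomial (Polynomial ℚ), q.Monic ∧
      eval₂ ((aeval x : ℚ[X] →ₐ[ℚ] F) : ℚ[X] →+* F) y q = 0 ∧
      ∀ i, aeval x (q.coeff i) ∈ V := by
  obtain ⟨q, hq, hqy⟩ := hy
  refine Stable.exists_monic_of_stable V x hx y (Stable.isIntegral_adjoin_of_monic x y q hq hqy)
    B hB (fun j => ?_)
  obtain ⟨D, P, _, hPV, hP⟩ := hstab j
  exact ⟨fun i => aeval x (P i) / aeval x D,
    fun i => (IntermediateField.mem_adjoin_simple_iff ℚ _).2 ⟨P i, D, rfl⟩, hPV, hP⟩

end Fermat.Agent.S18.LayerR
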