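import Mathlib
import Fermat.Agent.S18_E1N
import Fermat.Agent.S18_Descent
import Fermat.Agent.S18_LRRat
import Fermat.Agent.S18_LRDen
import Fermat.Agent.S18_LRStable

/-!
# S18, WP-E1, Layer R: the integral model, abstractly

`F₀ ⊂ F` a "rational model" (a subfield linearly disjoint from `L` over `ℚ` which generates `F`
over `L`), `Z := ℚ ∩ O`, `R := {y ∈ F₀ | ∃ b prime to ℓ, b y integral over ℤ[x]}`.  We verify all
hypotheses of `E1.exists_localBasis` for `Z` and `R`.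
-/

set_option autoImplicit false
set_option linter.unusedSectionVars false
set_option linter.style.haveILetI false
set_option linter.unnecessarySimpa false

noncomputable section

open Polynomial

namespace Fermat.Agent.S18.LayerR

/-! ### Integrality over `A[x]` in explicit form -/

section IntOver

variable {A F : Type*} [CommRing A] [CommRing F] [Algebra A F]

/-- `y` is integral over `A[x]`. -/
def IntOver (A : Type*) {F : Type*} [CommRing A] [CommRing F] [Algebra A F] (x y : F) : Prop :=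
  ((aeval x : A[X] →ₐ[A] F) : A[X] →+* F).IsIntegralElem y

theorem IntOver.add {x y z : F} (h1 : IntOver A x y) (h2 : IntOver A x z) :
    IntOver A x (y + z) :=
  RingHom.IsIntegralElem.add _ h1 h2

theorem IntOver.mul {x y z : F} (h1 : IntOver A x y) (h2 : IntOver A x z) :
    IntOver A x (y * z) :=
  RingHom.IsIntegralElem.mul _ h1 h2

theorem IntOver.neg {x y : F} (h1 : IntOver A x y) : IntOver A x (-y) :=
  RingHom.IsIntegralElem.neg _ h1

theorem intOver_aeval (x : F) (p : A[X]) : IntOver A x (aeval x p) :=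
  RingHom.isIntegralElem_map _

theorem intOver_algebraMap (x : F) (a : A) : IntOver A x (algebraMap A F a) := by
  have := intOver_aeval x (C a : A[X])
  rwa [aeval_C] at this

theorem intOver_zero (x : F) : IntOver A x 0 := by
  have := intOver_aeval x (0 : A[X])
  rwa [map_zero] at this

theorem intOver_one (x : F) : IntOver A x 1 := by
  have := intOver_aeval x (1 : A[X])
  rwa [map_one] at this

theorem intOver_self (x : F) : IntOver A x x := by
  have := intOver_aeval x (X : A[X])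
  rwa [aeval_X] at this

/-- integrality over `A[x] = Algebra.adjoin A {x}` in terms of polynomials over `A[X]` -/
theorem intOver_iff_isIntegral [Nontrivial F] (x y : F) :
    IntOver A x y ↔ IsIntegral (Algebra.adjoin A {x}) y := by
  have hrange : Algebra.adjoin A {x} = (Polynomial.aeval x : Polynomial A →ₐ[A] F).range :=
    Algebra.adjoin_singleton_eq_range_aeval A x
  let π : Polynomial A →+* Algebra.adjoin A {x} :=
    ((Polynomial.aeval x : Polynomial A →ₐ[A] F) : Polynomial A →+* F).codRestrict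
      (Algebra.adjoin A {x}).toSubring (fun p => by
        show Polynomial.aeval x p ∈ Algebra.adjoin A {x}
        rw [hrange]
        exact ⟨p, rfl⟩)
  have hπsurj : Function.Surjective π := by
    rintro ⟨z, hz⟩
    rw [hrange] at hz
    obtain ⟨p, rfl⟩ := hz
    exact ⟨p, Subtype.ext rfl⟩
  have hcomp : (algebraMap (Algebra.adjoin A {x}) F).comp π =
      ((Polynomial.aeval x : Polynomial A →ₐ[A] F) : Polynomial A →+* F) := by
    ext p <;> rfl
  constructor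
  · rintro ⟨q, hqm, hq⟩
    refine ⟨q.map π, hqm.map π, ?_⟩
    rw [Polynomial.eval₂_map, hcomp]
    exact hq
  · rintro ⟨q, hqm, hq⟩
    have hlift : q ∈ Polynomial.lifts π := by
      rw [Polynomial.mem_lifts]
      exact Polynomial.map_surjective π hπsurj q
    obtain ⟨q', hq'map, -, hq'm⟩ := Polynomial.lifts_and_degree_eq_and_monic hlift hqm
    refine ⟨q', hq'm, ?_⟩
    rw [← hcomp, ← Polynomial.eval₂_map, hq'map]
    exact hq

/-- base change of the coefficient ring. -/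
theorem IntOver.base_change {A' : Type*} [CommRing A'] [Algebra A A'] [Algebra A' F]
    [IsScalarTower A A' F] {x y : F} (h : IntOver A x y) : IntOver A' x y := by
  obtain ⟨q, hqm, hq⟩ := h
  refine ⟨q.map (mapRingHom (algebraMap A A')), hqm.map _, ?_⟩
  rw [Polynomial.eval₂_map]
  have hcomp : ((aeval x : A'[X] →ₐ[A'] F) : A'[X] →+* F).comp (mapRingHom (algebraMap A A')) =
      ((aeval x : A[X] →ₐ[A] F) : A[X] →+* F) := by
    refine Polynomial.ringHom_ext (fun a => ?_) ?_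
    · simp [← IsScalarTower.algebraMap_apply]
    · simp
  rw [hcomp]
  exact hq

end IntOver

/-! ### The subring `ℚ ∩ O` -/

section RatSub

variable {L : Type*} [Field L] [CharZero L] (O : ValuationSubring L)

/-- `ℚ ∩ O`. -/
def ratSub : Subring L := (algebraMap ℚ L).range ⊓ O.toSubring

theorem mem_ratSub {c : L} : c ∈ ratSub O ↔ (∃ q : ℚ, (q : L) = c) ∧ c ∈ O := by
  unfold ratSub
  rw [Subring.mem_inf]
  constructor
  · rintro ⟨⟨q, rfl⟩, h2⟩
    exact ⟨⟨q, by simp⟩, h2⟩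
  · rintro ⟨⟨q, rfl⟩, h2⟩
    exact ⟨⟨q, by simp⟩, h2⟩

theorem ratSub_le {c : L} (hc : c ∈ ratSub O) : c ∈ O := ((mem_ratSub O).1 hc).2

theorem intCast_mem_ratSub (a : ℤ) : (a : L) ∈ ratSub O :=
  (mem_ratSub O).2 ⟨⟨a, by simp⟩, intCast_mem O a⟩

theorem natCast_mem_ratSub (a : ℕ) : (a : L) ∈ ratSub O :=
  (mem_ratSub O).2 ⟨⟨a, by simp⟩, natCast_mem O a⟩

variable {O} {ℓ : ℕ} (hℓp : ℓ.Prime) (hℓ : IsLocalRing.residue O (ℓ : O) = 0)

include hℓp hℓ

theorem residue_intCast_ne_zero {a : ℤ} (ha : ¬ (ℓ : ℤ) ∣ a) :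
    IsLocalRing.residue O (a : O) ≠ 0 := by
  have hirr : Irreducible (ℓ : ℤ) := (Nat.prime_iff_prime_int.mp hℓp).irreducible
  obtain ⟨u, v, huv⟩ := hirr.coprime_iff_not_dvd.mpr ha
  intro h0
  have h1 := congrArg (fun t : ℤ => IsLocalRing.residue O (t : O)) huv
  simp only [Int.cast_add, Int.cast_mul, Int.cast_natCast, map_add, map_mul, hℓ, h0, mul_zero,
    add_zero, Int.cast_one, map_one] at h1
  exact zero_ne_one h1

theorem int_dvd_of_residue_eq_zero {a : ℤ} (h : IsLocalRing.residue O (a : O) = 0) :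
    (ℓ : ℤ) ∣ a := by
  by_contra hc
  exact residue_intCast_ne_zero hℓp hℓ hc h

theorem intCast_inv_mem {a : ℤ} (ha : ¬ (ℓ : ℤ) ∣ a) : ((a : L))⁻¹ ∈ O := by
  have h1 := residue_intCast_ne_zero hℓp hℓ ha
  have h2 : IsUnit ((a : O)) := by
    by_contra hnu
    exact h1 ((IsLocalRing.residue_eq_zero_iff _).2 ((IsLocalRing.mem_maximalIdeal _).2 hnu))
  obtain ⟨u, hu⟩ := h2
  have h3 : ((u : O) : L) * (((u⁻¹ : Oˣ) : O) : L) = 1 := by
    rw [← MulMemClass.coe_mul, Units.mul_inv]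
    rfl
  have h4 : ((u : O) : L) = (a : L) := by rw [hu]; simp
  rw [h4] at h3
  rw [← eq_inv_of_mul_eq_one_right h3]
  exact (((u⁻¹ : Oˣ) : O)).2

theorem natCast_inv_mem {b : ℕ} (hb : b.Coprime ℓ) : ((b : L))⁻¹ ∈ O := by
  have h1 : ¬ (ℓ : ℤ) ∣ (b : ℤ) := by
    rw [Int.natCast_dvd_natCast]
    exact fun h => (Nat.Prime.coprime_iff_not_dvd hℓp).1 hb.symm h
  have := intCast_inv_mem hℓp hℓ h1
  simpa using this

theorem natCast_inv_not_mem : ((ℓ : L))⁻¹ ∉ O := by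
  intro h
  have h1 : (ℓ : O) * ⟨_, h⟩ = 1 := by
    apply Subtype.ext
    have : (ℓ : L) ≠ 0 := Nat.cast_ne_zero.2 hℓp.ne_zero
    simp [this]
  have h2 := congrArg (IsLocalRing.residue O) h1
  rw [map_mul, hℓ, zero_mul, map_one] at h2
  exact zero_ne_one h2

theorem den_coprime_of_mem (q : ℚ) (hq : (q : L) ∈ O) : q.den.Coprime ℓ := by
  by_contra hc
  have hdvd : ℓ ∣ q.den := by
    by_contra h
    exact hc ((Nat.Prime.coprime_iff_not_dvd hℓp).2 h).symm
  have hnum : ¬ (ℓ : ℤ) ∣ q.num := by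
    intro h
    have h1 : ℓ ∣ q.num.natAbs := Int.natCast_dvd.1 h
    have h2 := Nat.dvd_gcd h1 hdvd
    rw [q.reduced] at h2
    exact hℓp.one_lt.ne' (Nat.dvd_one.1 h2)
  have h3 := intCast_inv_mem hℓp hℓ hnum
  obtain ⟨m, hm⟩ := hdvd
  have hden0 : (q.den : L) ≠ 0 := Nat.cast_ne_zero.2 q.den_nz
  have hnum0 : (q.num : L) ≠ 0 := by
    intro h0
    have : q.num = 0 := by exact_mod_cast h0
    exact hnum (this ▸ dvd_zero _)
  have hℓ0 : (ℓ : L) ≠ 0 := Nat.cast_ne_zero.2 hℓp.ne_zero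
  have hm0 : (m : L) ≠ 0 := by
    intro h0
    apply hden0
    rw [hm, Nat.cast_mul, h0, mul_zero]
  have h4 : ((ℓ : L))⁻¹ = (m : L) * ((q : L) * ((q.num : L))⁻¹) := by
    rw [Rat.cast_def, hm, Nat.cast_mul]
    field_simp
  exact natCast_inv_not_mem hℓp hℓ (h4 ▸ O.mul_mem _ _ (natCast_mem O m) (O.mul_mem _ _ hq h3))

theorem ratCast_mem_of_den_coprime (q : ℚ) (h : q.den.Coprime ℓ) : (q : L) ∈ O := by
  rw [Rat.cast_def, div_eq_mul_inv]
  exact O.mul_mem _ _ (intCast_mem O _) (natCast_inv_mem hℓp hℓ h)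

theorem ratSub_ker (c : L) (hc : c ∈ ratSub O)
    (h0 : IsLocalRing.residue O ⟨c, ratSub_le O hc⟩ = 0) :
    ∃ c' ∈ ratSub O, c = (ℓ : L) * c' := by
  obtain ⟨⟨q, rfl⟩, hqO⟩ := (mem_ratSub O).1 hc
  have hden := den_coprime_of_mem hℓp hℓ q hqO
  have h1 : (q.den : O) * ⟨(q : L), hqO⟩ = (q.num : O) := by
    apply Subtype.ext
    have hden0 : (q.den : L) ≠ 0 := Nat.cast_ne_zero.2 q.den_nz
    simp only [MulMemClass.coe_mul, SubringClass.coe_natCast, SubringClass.coe_intCast]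
    rw [Rat.cast_def]
    field_simp
  have h2 : IsLocalRing.residue O (q.num : O) = 0 := by
    rw [← h1, map_mul, h0, mul_zero]
  obtain ⟨a', ha'⟩ := int_dvd_of_residue_eq_zero hℓp hℓ h2
  refine ⟨(a' : L) * ((q.den : L))⁻¹, ?_, ?_⟩
  · refine (mem_ratSub O).2 ⟨⟨(a' : ℚ) * ((q.den : ℚ))⁻¹, by simp⟩, ?_⟩
    exact O.mul_mem _ _ (intCast_mem O _) (natCast_inv_mem hℓp hℓ hden)
  · rw [Rat.cast_def, ha']
    push_cast
    ring

omit hℓp hℓ in
theorem ratSub_inv (c : L) (hc : c ∈ ratSub O)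
    (h0 : IsLocalRing.residue O ⟨c, ratSub_le O hc⟩ ≠ 0) : c⁻¹ ∈ ratSub O := by
  obtain ⟨⟨q, rfl⟩, hqO⟩ := (mem_ratSub O).1 hc
  refine (mem_ratSub O).2 ⟨⟨q⁻¹, by simp⟩, ?_⟩
  have h2 : IsUnit (⟨(q : L), hqO⟩ : O) := by
    by_contra hnu
    exact h0 ((IsLocalRing.residue_eq_zero_iff _).2 ((IsLocalRing.mem_maximalIdeal _).2 hnu))
  obtain ⟨u, hu⟩ := h2
  have h3 : ((u : O) : L) * (((u⁻¹ : Oˣ) : O) : L) = 1 := by
    rw [← MulMemClass.coe_mul, Units.mul_inv]
    rfl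
  have h4 : ((u : O) : L) = (q : L) := by rw [hu]
  rw [h4] at h3
  rw [← eq_inv_of_mul_eq_one_right h3]
  exact (((u⁻¹ : Oˣ) : O)).2

omit hℓp hℓ

end RatSub

/-! ### The model ring -/

section ModelRing

variable {F : Type*} [Field F]

/-- elements of `F₀` which become integral over `ℤ[x]` after multiplication by an integer prime
to `ℓ`. -/
def modelRing (F₀ : Subfield F) (x : F) (ℓ : ℕ) : Subring F where
  carrier := {y | y ∈ F₀ ∧ ∃ b : ℕ, b.Coprime ℓ ∧ IntOver ℤ x ((b : F) * y)}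
  zero_mem' := ⟨F₀.zero_mem, 1, Nat.coprime_one_left _, by
    rw [mul_zero]; exact intOver_zero x⟩
  one_mem' := ⟨F₀.one_mem, 1, Nat.coprime_one_left _, by
    rw [mul_one, Nat.cast_one]; exact intOver_one x⟩
  add_mem' := by
    rintro y z ⟨hy, b, hb, hby⟩ ⟨hz, c, hc, hcz⟩
    refine ⟨F₀.add_mem hy hz, b * c, Nat.Coprime.mul_left hb hc, ?_⟩
    have h1 : ((b * c : ℕ) : F) * (y + z) = (c : F) * ((b : F) * y) + (b : F) * ((c : F) * z) := by
      push_cast; ring
    rw [h1]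
    have hcI : IntOver ℤ x (c : F) := by
      have := intOver_algebraMap (A := ℤ) x (c : ℤ)
      simpa using this
    have hbI : IntOver ℤ x (b : F) := by
      have := intOver_algebraMap (A := ℤ) x (b : ℤ)
      simpa using this
    exact (hcI.mul hby).add (hbI.mul hcz)
  mul_mem' := by
    rintro y z ⟨hy, b, hb, hby⟩ ⟨hz, c, hc, hcz⟩
    refine ⟨F₀.mul_mem hy hz, b * c, Nat.Coprime.mul_left hb hc, ?_⟩
    have h1 : ((b * c : ℕ) : F) * (y * z) = ((b : F) * y) * ((c : F) * z) := by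
      push_cast; ring
    rw [h1]
    exact hby.mul hcz
  neg_mem' := by
    rintro y ⟨hy, b, hb, hby⟩
    refine ⟨F₀.neg_mem hy, b, hb, ?_⟩
    rw [mul_neg]
    exact hby.neg

theorem mem_modelRing {F₀ : Subfield F} {x : F} {ℓ : ℕ} {y : F} :
    y ∈ modelRing F₀ x ℓ ↔ y ∈ F₀ ∧ ∃ b : ℕ, b.Coprime ℓ ∧ IntOver ℤ x ((b : F) * y) :=
  Iff.rfl

theorem mem_modelRing_of_intOver {F₀ : Subfield F} {x : F} {ℓ : ℕ} {y : F} (hy : y ∈ F₀)
    (h : IntOver ℤ x y) : y ∈ modelRing F₀ x ℓ :=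
  ⟨hy, 1, Nat.coprime_one_left _, by rwa [Nat.cast_one, one_mul]⟩

end ModelRing

/-! ### Polynomials over `ℚ ∩ O` evaluated in `V` -/

section Gauss

open AlgebraicCurve Fermat.Agent.S24

variable {L F : Type*} [Field L] [Field F] [Algebra L F] [CharZero L] [CharZero F]
variable {O : ValuationSubring L} {h : F}

/-- the inclusion `ℚ ∩ O → O`. -/
def ZtoO (O : ValuationSubring L) : ↥(ratSub O) →+* O where
  toFun c := ⟨c, ratSub_le O c.2⟩
  map_one' := rfl
  map_mul' _ _ := rfl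
  map_zero' := rfl
  map_add' _ _ := rfl

/-- `(ℚ ∩ O)[X] → V`, `X ↦ x`. -/
def polyV (G : GoodVal O h) {x : F} (hxV : x ∈ G.V) : Polynomial ↥(ratSub O) →+* G.V :=
  Polynomial.eval₂RingHom (G.incl.comp (ZtoO O)) ⟨x, hxV⟩

variable (G : GoodVal O h) {x : F} (hxV : x ∈ G.V)

theorem coe_polyV (p : Polynomial ↥(ratSub O)) :
    ((polyV G hxV p : G.V) : F) = aeval x (p.map (ratSub O).subtype) := by
  have h1 : G.V.subtype.comp (polyV G hxV) =
      ((aeval x : L[X] →ₐ[L] F) : L[X] →+* F).comp (mapRingHom (ratSub O).subtype) := by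
    refine Polynomial.ringHom_ext (fun c => ?_) ?_
    · simp only [polyV, RingHom.comp_apply, Polynomial.coe_eval₂RingHom, Polynomial.eval₂_C,
        Polynomial.coe_mapRingHom, Polynomial.map_C]
      simp
      rfl
    · simp only [polyV, RingHom.comp_apply, Polynomial.coe_eval₂RingHom, Polynomial.eval₂_X,
        Polynomial.coe_mapRingHom, Polynomial.map_X]
      simp
  exact RingHom.congr_fun h1 p

theorem ρ_polyV (p : Polynomial ↥(ratSub O)) :
    G.ρ (polyV G hxV p) =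
      aeval (G.ρ ⟨x, hxV⟩) (p.map ((IsLocalRing.residue O).comp (ZtoO O))) := by
  have h1 : G.ρ.comp (polyV G hxV) =
      ((aeval (G.ρ ⟨x, hxV⟩) : (IsLocalRing.ResidueField O)[X] →ₐ[_] G.κ) :
        (IsLocalRing.ResidueField O)[X] →+* G.κ).comp
        (mapRingHom ((IsLocalRing.residue O).comp (ZtoO O))) := by
    refine Polynomial.ringHom_ext (fun c => ?_) ?_
    · simp only [polyV, RingHom.comp_apply, Polynomial.coe_eval₂RingHom, Polynomial.eval₂_C,
        Polynomial.coe_mapRingHom, Polynomial.map_C]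
      simp
      rfl
    · simp only [polyV, RingHom.comp_apply, Polynomial.coe_eval₂RingHom, Polynomial.eval₂_X,
        Polynomial.coe_mapRingHom, Polynomial.map_X]
      simp
  exact RingHom.congr_fun h1 p

omit [CharZero F] in
theorem exists_lift_rat (P : ℚ[X]) (hP : ∀ j, ((P.coeff j : ℚ) : L) ∈ O) :
    ∃ p : Polynomial ↥(ratSub O), p.map (ratSub O).subtype = P.map (algebraMap ℚ L) := by
  have h1 : P.map (algebraMap ℚ L) ∈ (mapRingHom (ratSub O).subtype).range :=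
    (Polynomial.mem_map_range (ratSub O).subtype).2 (fun j => by
      rw [Subring.range_subtype, Polynomial.coeff_map]
      exact (mem_ratSub O).2 ⟨⟨P.coeff j, rfl⟩, by simpa using hP j⟩)
  exact h1

theorem aeval_map_rat (x : F) (P : ℚ[X]) : aeval x (P.map (algebraMap ℚ L)) = aeval x P :=
  Polynomial.aeval_map_algebraMap L x P

include hxV in
theorem aeval_rat_mem (P : ℚ[X]) (hP : ∀ j, ((P.coeff j : ℚ) : L) ∈ O) : aeval x P ∈ G.V := by
  obtain ⟨p, hp⟩ := exists_lift_rat (O := O) P hP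
  rw [← aeval_map_rat (L := L), ← hp, ← coe_polyV G hxV]
  exact (polyV G hxV p).2

variable (hxtr : Transcendental (IsLocalRing.ResidueField O) (G.ρ ⟨x, hxV⟩))

include hxtr in
theorem residue_coeff_eq_zero (p : Polynomial ↥(ratSub O)) (h0 : G.ρ (polyV G hxV p) = 0)
    (j : ℕ) : IsLocalRing.residue O (ZtoO O (p.coeff j)) = 0 := by
  rw [ρ_polyV] at h0
  have h1 := transcendental_iff.1 hxtr _ h0
  have h2 := congrArg (fun t => t.coeff j) h1
  simpa [Polynomial.coeff_map] using h2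

omit [CharZero F] in
/-- scaling a nonzero rational polynomial so that it becomes primitive at `O`. -/
theorem exists_normalize (D : ℚ[X]) (hD : D ≠ 0) :
    ∃ c : ℚ, c ≠ 0 ∧ (∀ j, (((C c * D).coeff j : ℚ) : L) ∈ O) ∧ ∃ j, (C c * D).coeff j = 1 := by
  obtain ⟨j, hj, hmax⟩ := D.support.exists_max_image (fun i => O.valuation ((D.coeff i : ℚ) : L))
    (Polynomial.nonempty_support_iff.2 hD)
  have hj0 : D.coeff j ≠ 0 := Polynomial.mem_support_iff.1 hj
  have hj0' : ((D.coeff j : ℚ) : L) ≠ 0 := Rat.cast_ne_zero.2 hj0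
  refine ⟨(D.coeff j)⁻¹, inv_ne_zero hj0, fun i => ?_, j, ?_⟩
  · rw [Polynomial.coeff_C_mul]
    by_cases hi : D.coeff i = 0
    · rw [hi, mul_zero, Rat.cast_zero]
      exact O.zero_mem
    · have h1 := hmax i (Polynomial.mem_support_iff.2 hi)
      rw [← O.valuation_le_one_iff]
      push_cast
      rw [map_mul, map_inv₀]
      have hpos : 0 < O.valuation ((D.coeff j : ℚ) : L) :=
        zero_lt_iff.2 ((_root_.map_ne_zero _).2 hj0')
      rw [inv_mul_le_one₀ hpos]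
      exact h1
  · rw [Polynomial.coeff_C_mul, inv_mul_cancel₀ hj0]

variable {ℓ : ℕ} (hℓp : ℓ.Prime) (hℓ : IsLocalRing.residue O (ℓ : O) = 0)
variable (hgauss : ∀ p : L[X], aeval x p ∈ G.V → ∀ i, p.coeff i ∈ O)

include hxtr hℓp hℓ hgauss in
/-- Gauss on `ℚ(x)`: an element of `ℚ(x) ∩ 𝔪_V` is divisible by `ℓ` in `V`. -/
theorem inv_mul_mem_of_rat_quot (P D : ℚ[X]) (hD : aeval x D ≠ 0)
    (ha : aeval x P / aeval x D ∈ G.V) (h0 : G.ρ ⟨_, ha⟩ = 0) :
    ((ℓ : F))⁻¹ * (aeval x P / aeval x D) ∈ G.V := by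
  have hD0 : D ≠ 0 := by rintro rfl; exact hD (map_zero _)
  obtain ⟨c, hc0, hcO, j, hj⟩ := exists_normalize (O := O) D hD0
  obtain ⟨d', hd'⟩ := exists_lift_rat (O := O) (C c * D) hcO
  have hu : ((polyV G hxV d' : G.V) : F) = aeval x (C c * D) := by
    rw [coe_polyV, hd', aeval_map_rat]
  have hcF : ((c : ℚ) : F) ≠ 0 := Rat.cast_ne_zero.2 hc0
  have haC : ∀ Q : ℚ[X], aeval x (C c * Q) = (c : F) * aeval x Q := by
    intro Q
    rw [map_mul, aeval_C, eq_ratCast]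
  have hu0 : aeval x (C c * D) ≠ 0 := by
    rw [haC]
    exact mul_ne_zero hcF hD
  have hρu : G.ρ (polyV G hxV d') ≠ 0 := by
    intro h
    have h1 := residue_coeff_eq_zero G hxV hxtr d' h j
    have h2 : ((d'.coeff j : ↥(ratSub O)) : L) = 1 := by
      have := congrArg (fun t => t.coeff j) hd'
      simp only [Polynomial.coeff_map] at this
      rw [hj] at this
      simpa using this
    have h3 : ZtoO O (d'.coeff j) = 1 := Subtype.ext h2
    rw [h3, map_one] at h1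
    exact one_ne_zero h1
  have hunit : IsUnit (polyV G hxV d') := by
    by_contra hnu
    exact hρu ((IsLocalRing.residue_eq_zero_iff _).2 ((IsLocalRing.mem_maximalIdeal _).2 hnu))
  obtain ⟨u, hu'⟩ := hunit
  have hPeq : aeval x (C c * P) = (aeval x P / aeval x D) * aeval x (C c * D) := by
    rw [haC, haC]
    field_simp
  have hPV : aeval x (C c * P) ∈ G.V := by
    rw [hPeq, ← hu]
    exact G.V.mul_mem _ _ ha (polyV G hxV d').2
  have hcoefP : ∀ j, (((C c * P).coeff j : ℚ) : L) ∈ O := by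
    intro j
    have := hgauss ((C c * P).map (algebraMap ℚ L)) (by rwa [aeval_map_rat]) j
    simpa [Polynomial.coeff_map] using this
  obtain ⟨p', hp'⟩ := exists_lift_rat (O := O) (C c * P) hcoefP
  have hp'F : ((polyV G hxV p' : G.V) : F) = aeval x (C c * P) := by
    rw [coe_polyV, hp', aeval_map_rat]
  have hmul : polyV G hxV p' = ⟨_, ha⟩ * polyV G hxV d' := by
    apply Subtype.ext
    rw [hp'F]
    show _ = (aeval x P / aeval x D) * ((polyV G hxV d' : G.V) : F)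
    rw [hu, hPeq]
  have hρp : G.ρ (polyV G hxV p') = 0 := by rw [hmul, map_mul, h0, zero_mul]
  have hker : ∀ j, ∃ c' ∈ ratSub O, ((p'.coeff j : ↥(ratSub O)) : L) = (ℓ : L) * c' := fun j =>
    ratSub_ker hℓp hℓ _ (p'.coeff j).2 (residue_coeff_eq_zero G hxV hxtr p' hρp j)
  have hℓ0 : (ℓ : L) ≠ 0 := Nat.cast_ne_zero.2 hℓp.ne_zero
  have hP'' : aeval x (C ((ℓ : ℚ)⁻¹) * (C c * P)) ∈ G.V := by
    refine aeval_rat_mem G hxV _ (fun j => ?_)
    obtain ⟨c', hc', hcc⟩ := hker j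
    have h1 : ((p'.coeff j : ↥(ratSub O)) : L) = (((C c * P).coeff j : ℚ) : L) := by
      have := congrArg (fun t => t.coeff j) hp'
      simpa [Polynomial.coeff_map] using this
    rw [Polynomial.coeff_C_mul (p := C c * P)]
    push_cast
    rw [← h1, hcc, inv_mul_cancel_left₀ hℓ0]
    exact ratSub_le O hc'
  have hfinal : ((ℓ : F))⁻¹ * (aeval x P / aeval x D) =
      aeval x (C ((ℓ : ℚ)⁻¹) * (C c * P)) * (((u⁻¹ : (G.V)ˣ) : G.V) : F) := by
    have h1 : (((u⁻¹ : (G.V)ˣ) : G.V) : F) = (aeval x (C c * D))⁻¹ := by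
      have h2 : ((u : G.V) : F) * (((u⁻¹ : (G.V)ˣ) : G.V) : F) = 1 := by
        rw [← MulMemClass.coe_mul, Units.mul_inv]; rfl
      rw [hu', hu] at h2
      exact eq_inv_of_mul_eq_one_right h2
    have h3 : aeval x (C ((ℓ : ℚ)⁻¹) * (C c * P)) = ((ℓ : F))⁻¹ * aeval x (C c * P) := by
      rw [map_mul, aeval_C, eq_ratCast]
      push_cast
      rfl
    rw [h1, h3, hPeq]
    field_simp
  rw [hfinal]
  exact G.V.mul_mem _ _ hP'' (((u⁻¹ : (G.V)ˣ) : G.V)).2

end Gauss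

/-! ### Valuation independence and rational coordinates -/

section Coord

open AlgebraicCurve Fermat.Agent.S24

variable {L F : Type*} [Field L] [Field F] [Algebra L F] [CharZero L] [CharZero F]
variable {O : ValuationSubring L} {h : F} (G : GoodVal O h) {x : F}
variable {Kx : IntermediateField L F} {Kbar : IntermediateField (IsLocalRing.ResidueField O) G.κ}
variable {n : ℕ} (hC : E1.ChartVal G x Kx Kbar n)

include hC in
/-- if the reductions of `r` are independent over `Kbar`, a `Kx`-combination of `r` lying in `V`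
has all coefficients in `V`. -/
theorem coeff_mem_of_sum_mem {m : ℕ} (r : Fin m → F) (hrV : ∀ i, r i ∈ G.V)
    (hli : LinearIndependent Kbar (fun i => G.ρ ⟨r i, hrV i⟩))
    (a : Fin m → F) (ha : ∀ i, a i ∈ Kx) (hsum : ∑ i, a i * r i ∈ G.V) : ∀ i, a i ∈ G.V := by
  classical
  by_contra hcon
  push Not at hcon
  obtain ⟨i₀, hi₀⟩ := hcon
  obtain ⟨j, -, hj⟩ := Finset.univ.exists_max_image (fun i => G.V.valuation (a i))
    ⟨i₀, Finset.mem_univ _⟩
  have hvj : 1 < G.V.valuation (a j) := by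
    have h1 : ¬ G.V.valuation (a i₀) ≤ 1 := fun h => hi₀ ((G.V.valuation_le_one_iff _).1 h)
    exact lt_of_lt_of_le (not_le.1 h1) (hj i₀ (Finset.mem_univ _))
  have hpos : 0 < G.V.valuation (a j) := lt_trans zero_lt_one hvj
  have haj0 : a j ≠ 0 := by
    rintro h
    rw [h, map_zero] at hpos
    exact lt_irrefl _ hpos
  have hquot : ∀ i, a i / a j ∈ G.V := by
    intro i
    rw [← G.V.valuation_le_one_iff, map_div₀]
    exact (div_le_one₀ hpos).2 (hj i (Finset.mem_univ _))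
  have hquotK : ∀ i, a i / a j ∈ Kx := fun i => Kx.div_mem (ha i) (ha j)
  have hz : ∑ i, (a i / a j) * r i ∈ G.V :=
    G.V.toSubring.sum_mem fun i _ => G.V.mul_mem _ _ (hquot i) (hrV i)
  have hzeq : ∑ i, (a i / a j) * r i = (∑ i, a i * r i) / a j := by
    rw [Finset.sum_div]
    exact Finset.sum_congr rfl fun i _ => by ring
  have hzv : G.V.valuation (∑ i, (a i / a j) * r i) < 1 := by
    rw [hzeq, map_div₀]
    have h1 : G.V.valuation (∑ i, a i * r i) ≤ 1 := (G.V.valuation_le_one_iff _).2 hsum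
    exact (div_lt_one₀ hpos).2 (lt_of_le_of_lt h1 hvj)
  have hρz : G.ρ ⟨_, hz⟩ = 0 := by
    rw [IsLocalRing.residue_eq_zero_iff]
    exact (G.V.valuation_lt_one_iff _).2 hzv
  have hexp : G.ρ ⟨_, hz⟩ = ∑ i, (⟨G.ρ ⟨a i / a j, hquot i⟩,
      hC.res_mem ⟨_, hquotK i⟩ (hquot i)⟩ : Kbar) • G.ρ ⟨r i, hrV i⟩ := by
    have h1 : (⟨_, hz⟩ : G.V) = ∑ i, (⟨a i / a j, hquot i⟩ : G.V) * ⟨r i, hrV i⟩ := by
      apply Subtype.ext
      rw [AddSubmonoidClass.coe_finsetSum]
      rfl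
    rw [h1, map_sum]
    exact Finset.sum_congr rfl fun i _ => by rw [map_mul]; rfl
  rw [hexp] at hρz
  have h2 := Fintype.linearIndependent_iff.1 hli _ hρz j
  have h3 : G.ρ ⟨a j / a j, hquot j⟩ = 0 := congrArg Subtype.val h2
  have h4 : (⟨a j / a j, hquot j⟩ : G.V) = 1 := Subtype.ext (div_self haj0)
  rw [h4, map_one] at h3
  exact one_ne_zero h3

variable (hn : 0 < n) {ℓ : ℕ} (hℓp : ℓ.Prime) (hℓ : IsLocalRing.residue O (ℓ : O) = 0)

include hC hn hℓp hℓ in
/-- a family of `n` elements of `V` with independent reductions spans `F` over `Kx`. -/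
theorem exists_Kx_repr (r : Fin n → F) (hrV : ∀ i, r i ∈ G.V)
    (hli : LinearIndependent Kbar (fun i => G.ρ ⟨r i, hrV i⟩)) (y : F) :
    ∃ a : Fin n → F, (∀ i, a i ∈ Kx) ∧ y = ∑ i, a i * r i := by
  have hind : LinearIndependent Kx r := by
    rw [Fintype.linearIndependent_iff]
    intro c hc i₀
    by_contra hne
    have htV : ((ℓ : F))⁻¹ ∉ G.V := by
      intro hmem
      have h1 : algebraMap L F ((ℓ : L)⁻¹) ∈ G.V := by simpa using hmem
      exact natCast_inv_not_mem hℓp hℓ ((G.mem_iff _).1 h1)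
    have htK : ((ℓ : F))⁻¹ ∈ Kx := by
      have h1 : algebraMap L F ((ℓ : L)⁻¹) ∈ Kx := Kx.algebraMap_mem _
      simpa using h1
    have hci : (c i₀ : F) ≠ 0 := fun h => hne (Subtype.ext h)
    have h1 := coeff_mem_of_sum_mem G hC r hrV hli
      (fun i => ((ℓ : F))⁻¹ / (c i₀ : F) * (c i : F))
      (fun i => Kx.mul_mem (Kx.div_mem htK (c i₀).2) (c i).2) (by
        have h2 : ∑ i, ((ℓ : F))⁻¹ / (c i₀ : F) * (c i : F) * r i =
            ((ℓ : F))⁻¹ / (c i₀ : F) * ∑ i, c i • r i := by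
          rw [Finset.mul_sum]
          exact Finset.sum_congr rfl fun i _ => by rw [Algebra.smul_def, mul_assoc]; rfl
        rw [h2, hc, mul_zero]
        exact G.V.zero_mem) i₀
    apply htV
    have h3 : ((ℓ : F))⁻¹ / (c i₀ : F) * (c i₀ : F) = ((ℓ : F))⁻¹ := div_mul_cancel₀ _ hci
    rwa [h3] at h1
  have hfin : FiniteDimensional Kx F :=
    Module.finite_of_finrank_pos (by rw [hC.finrank_eq]; exact hn)
  have hspan := hind.span_eq_top_of_card_eq_finrank' (by rw [Fintype.card_fin, hC.finrank_eq])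
  have hy : y ∈ Submodule.span Kx (Set.range r) := by rw [hspan]; exact Submodule.mem_top
  obtain ⟨c, hc⟩ := (Submodule.mem_span_range_iff_exists_fun _).1 hy
  exact ⟨fun i => (c i : F), fun i => (c i).2, by
    rw [← hc]
    exact Finset.sum_congr rfl fun i _ => by rw [Algebra.smul_def]; rfl⟩

include hC in
theorem aeval_rat_mem_Kx (Q : ℚ[X]) : aeval x Q ∈ Kx := by
  rw [hC.Kx_eq, ← aeval_map_rat (L := L)]
  exact IntermediateField.algebra_adjoin_le_adjoin _ _
    (Polynomial.aeval_mem_adjoin_singleton _ _)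

variable (F₀ : Subfield F) (hx₀ : x ∈ F₀)
variable (hLD : ∀ (ψ : L →ₗ[ℚ] ℚ) (ι : Type) [Fintype ι] (c : ι → L) (f : ι → F),
    (∀ i, f i ∈ F₀) → ∑ i, algebraMap L F (c i) * f i = 0 →
      ∑ i, algebraMap L F (algebraMap ℚ L (ψ (c i))) * f i = 0)
variable (r : Fin n → F) (hrV : ∀ i, r i ∈ G.V) (hr₀ : ∀ i, r i ∈ F₀)
variable (hli : LinearIndependent Kbar (fun i => G.ρ ⟨r i, hrV i⟩))

include hC hn hℓp hℓ hx₀ hLD hr₀ hli in
/-- rational coordinates with respect to `r`, integral at `V` for elements of `V`. -/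
theorem exists_rat_repr_V (z : F) (hz : z ∈ F₀) :
    ∃ (D : ℚ[X]) (P : Fin n → ℚ[X]), aeval x D ≠ 0 ∧
      z = ∑ i, aeval x (P i) / aeval x D * r i ∧
      (z ∈ G.V → ∀ i, aeval x (P i) / aeval x D ∈ G.V) := by
  obtain ⟨a, ha, hza⟩ := exists_Kx_repr G hC hn hℓp hℓ r hrV hli z
  obtain ⟨D, P, hD, hDP⟩ := exists_rat_repr F₀ x hx₀ hC.x_transcendental hLD r hr₀ z hz a
    (fun i => hC.Kx_eq ▸ ha i) hza
  have hz' : z = ∑ i, aeval x (P i) / aeval x D * r i := by
    have h1 : ∑ i, aeval x (P i) / aeval x D * r i =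
        (aeval x D)⁻¹ * ∑ i, aeval x (P i) * r i := by
      rw [Finset.mul_sum]
      exact Finset.sum_congr rfl fun i _ => by ring
    rw [h1, ← hDP, inv_mul_cancel_left₀ hD]
  refine ⟨D, P, hD, hz', fun hzV => ?_⟩
  exact coeff_mem_of_sum_mem G hC r hrV hli _
    (fun i => Kx.div_mem (aeval_rat_mem_Kx G hC _) (aeval_rat_mem_Kx G hC _))
    (by rw [← hz']; exact hzV)

include hC hn hℓp hℓ hx₀ hLD hr₀ hli in
/-- **(M1)** `ℓ` is a uniformiser on `F₀ ∩ V`. -/
theorem inv_mul_mem_of_residue_eq_zero (z : F) (hz₀ : z ∈ F₀) (hzV : z ∈ G.V)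
    (h0 : G.ρ ⟨z, hzV⟩ = 0) : ((ℓ : F))⁻¹ * z ∈ G.V := by
  obtain ⟨D, P, hD, hzeq, hV⟩ := exists_rat_repr_V G hC hn hℓp hℓ F₀ hx₀ hLD r hrV hr₀ hli z hz₀
  have haV := hV hzV
  have hK : ∀ i, aeval x (P i) / aeval x D ∈ Kx := fun i =>
    Kx.div_mem (aeval_rat_mem_Kx G hC _) (aeval_rat_mem_Kx G hC _)
  have hρ : ∀ i, G.ρ ⟨_, haV i⟩ = 0 := by
    have h1 : (⟨z, hzV⟩ : G.V) = ∑ i, (⟨_, haV i⟩ : G.V) * ⟨r i, hrV i⟩ := by
      apply Subtype.ext
      rw [AddSubmonoidClass.coe_finsetSum]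
      exact hzeq
    rw [h1, map_sum] at h0
    have h2 : ∑ i, (⟨G.ρ ⟨_, haV i⟩, hC.res_mem ⟨_, hK i⟩ (haV i)⟩ : Kbar) •
        G.ρ ⟨r i, hrV i⟩ = 0 := by
      rw [← h0]
      exact Finset.sum_congr rfl fun i _ => by rw [map_mul]; rfl
    intro i
    exact congrArg Subtype.val (Fintype.linearIndependent_iff.1 hli _ h2 i)
  have h3 : ∀ i, ((ℓ : F))⁻¹ * (aeval x (P i) / aeval x D) ∈ G.V := fun i =>
    inv_mul_mem_of_rat_quot G hC.x_mem hC.xbar_transcendental hℓp hℓ hC.gauss (P i) D hD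
      (haV i) (hρ i)
  rw [hzeq, Finset.mul_sum]
  exact G.V.toSubring.sum_mem fun i _ => by
    rw [← mul_assoc]
    exact G.V.mul_mem _ _ (h3 i) (hrV i)

end Coord

/-! ### Finite generation of the integral closure of `ℤ[x]` -/

section Finite

variable {F₀ : Type*} [Field F₀] [CharZero F₀]

/-- transcendental over `ℚ` implies `aeval x : ℤ[X] → F₀` injective -/
theorem aeval_int_injective {x : F₀} (hx : Transcendental ℚ x) :
    Function.Injective (Polynomial.aeval x : Polynomial ℤ →ₐ[ℤ] F₀) := by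
  rw [injective_iff_map_eq_zero]
  intro p hp
  have h1 : Polynomial.aeval x (p.map (Int.castRingHom ℚ)) = 0 := by
    rw [Polynomial.aeval_def, Polynomial.eval₂_map]
    have h0 : (algebraMap ℚ F₀).comp (Int.castRingHom ℚ) = algebraMap ℤ F₀ := RingHom.ext_int _ _
    rw [h0, ← Polynomial.aeval_def]
    exact hp
  have h2 : p.map (Int.castRingHom ℚ) = 0 := by
    by_contra h
    exact hx ⟨_, h, h1⟩
  exact (Polynomial.map_eq_zero_iff (RingHom.injective_int (Int.castRingHom ℚ))).mp h2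

/-- values of rational polynomials are values of integer polynomials up to an integer factor -/
theorem exists_int_poly_of_rat_poly (x : F₀) (r : Polynomial ℚ) :
    ∃ (a : ℤ) (R : Polynomial ℤ), a ≠ 0 ∧ Polynomial.aeval x R = (a : F₀) * Polynomial.aeval x r := by
  obtain ⟨b, hbM, hb⟩ := IsLocalization.integerNormalization_spec (nonZeroDivisors ℤ) r
  refine ⟨b, IsLocalization.integerNormalization (nonZeroDivisors ℤ) r,
    nonZeroDivisors.ne_zero hbM, ?_⟩
  have h1 : Polynomial.aeval x (IsLocalization.integerNormalization (nonZeroDivisors ℤ) r) =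
      Polynomial.aeval x ((IsLocalization.integerNormalization (nonZeroDivisors ℤ) r).map
        (algebraMap ℤ ℚ)) := by
    rw [Polynomial.aeval_def, Polynomial.aeval_def, Polynomial.eval₂_map]
    congr 1
    exact RingHom.ext_int _ _
  rw [h1, hb, map_zsmul, zsmul_eq_mul]

/-- every element of `ℚ(x)` is a quotient of values of integer polynomials -/
theorem exists_int_quotient {x : F₀} (c : F₀) (hc : c ∈ IntermediateField.adjoin ℚ {x}) :
    ∃ P Q : Polynomial ℤ, c = Polynomial.aeval x P / Polynomial.aeval x Q := by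
  obtain ⟨r, s, rfl⟩ := (IntermediateField.mem_adjoin_simple_iff ℚ c).mp hc
  obtain ⟨a, R, ha, hR⟩ := exists_int_poly_of_rat_poly x r
  obtain ⟨b, S, hb, hS⟩ := exists_int_poly_of_rat_poly x s
  refine ⟨Polynomial.C b * R, Polynomial.C a * S, ?_⟩
  have ha' : (a : F₀) ≠ 0 := Int.cast_ne_zero.mpr ha
  have hb' : (b : F₀) ≠ 0 := Int.cast_ne_zero.mpr hb
  rw [map_mul, map_mul, Polynomial.aeval_C, Polynomial.aeval_C, hR, hS]
  simp only [eq_intCast]
  by_cases hs0 : Polynomial.aeval x s = 0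
  · simp [hs0]
  · field_simp

/-- **(R1)** the integral closure of `ℤ[x]` in a finite extension `F₀` of `ℚ(x)` is a finitely
generated `ℤ[x]`-module, and every element of `F₀` has a multiple in it. -/
theorem exists_finite_generators (x : F₀) (hx : Transcendental ℚ x)
    [FiniteDimensional (IntermediateField.adjoin ℚ {x}) F₀] :
    ∃ (m : ℕ) (r : Fin m → F₀), (∀ i, IntOver ℤ x (r i)) ∧
      (∀ y : F₀, IntOver ℤ x y →
        ∃ p : Fin m → Polynomial ℤ, y = ∑ i, Polynomial.aeval x (p i) * r i) ∧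
      (∀ y : F₀, ∃ d : Polynomial ℤ, d ≠ 0 ∧ IntOver ℤ x (Polynomial.aeval x d * y)) := by
  classical
  have hinj := aeval_int_injective hx
  letI algA : Algebra (Polynomial ℤ) F₀ :=
    ((Polynomial.aeval x : Polynomial ℤ →ₐ[ℤ] F₀) : Polynomial ℤ →+* F₀).toAlgebra
  have halg : ∀ p : Polynomial ℤ, algebraMap (Polynomial ℤ) F₀ p = Polynomial.aeval x p :=
    fun p => rfl
  have hinj' : Function.Injective (algebraMap (Polynomial ℤ) F₀) := hinj
  letI algK : Algebra (FractionRing (Polynomial ℤ)) F₀ :=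
    (IsFractionRing.lift (K := FractionRing (Polynomial ℤ)) hinj').toAlgebra
  haveI : IsScalarTower (Polynomial ℤ) (FractionRing (Polynomial ℤ)) F₀ :=
    IsScalarTower.of_algebraMap_eq (fun p => (IsFractionRing.lift_algebraMap hinj' p).symm)
  -- finiteness over the fraction field
  haveI hfin : FiniteDimensional (FractionRing (Polynomial ℤ)) F₀ := by
    obtain ⟨r, b, hb⟩ := Module.Finite.exists_fin (R := IntermediateField.adjoin ℚ {x}) (M := F₀)
    refine Module.Finite.of_fg_top ?_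
    refine ⟨Finset.univ.image b, ?_⟩
    rw [eq_top_iff]
    intro y _
    have hy : y ∈ Submodule.span (IntermediateField.adjoin ℚ {x}) (Set.range b) := by
      rw [hb]
      exact Submodule.mem_top
    obtain ⟨c, hc⟩ := (Submodule.mem_span_range_iff_exists_fun _).mp hy
    rw [← hc]
    refine Submodule.sum_mem _ (fun i _ => ?_)
    obtain ⟨P, Q, hPQ⟩ := exists_int_quotient ((c i : IntermediateField.adjoin ℚ {x}) : F₀) (c i).2
    have h1 : c i • b i =
        (algebraMap (Polynomial ℤ) (FractionRing (Polynomial ℤ)) P /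
          algebraMap (Polynomial ℤ) (FractionRing (Polynomial ℤ)) Q) • b i := by
      rw [Algebra.smul_def (_ / _ : FractionRing (Polynomial ℤ)), map_div₀,
        ← IsScalarTower.algebraMap_apply, ← IsScalarTower.algebraMap_apply, halg, halg, ← hPQ]
      rfl
    rw [h1]
    refine Submodule.smul_mem _ _ (Submodule.subset_span ?_)
    simp
  haveI : CharZero (FractionRing (Polynomial ℤ)) := inferInstance
  haveI : Algebra.IsSeparable (FractionRing (Polynomial ℤ)) F₀ := inferInstance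
  haveI : Module.Finite (Polynomial ℤ) (integralClosure (Polynomial ℤ) F₀) :=
    IsIntegralClosure.finite (Polynomial ℤ) (FractionRing (Polynomial ℤ)) F₀
      (integralClosure (Polynomial ℤ) F₀)
  obtain ⟨m, s, hs⟩ := Module.Finite.exists_fin (R := Polynomial ℤ)
    (M := integralClosure (Polynomial ℤ) F₀)
  have hint : ∀ y : F₀, IntOver ℤ x y ↔ IsIntegral (Polynomial ℤ) y := fun y => Iff.rfl
  refine ⟨m, fun i => (s i : F₀), fun i => (hint _).mpr (s i).2, ?_, ?_⟩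
  · intro y hy
    have hy' : y ∈ integralClosure (Polynomial ℤ) F₀ := (hint y).mp hy
    have hmem : (⟨y, hy'⟩ : integralClosure (Polynomial ℤ) F₀) ∈
        Submodule.span (Polynomial ℤ) (Set.range s) := by
      rw [hs]
      exact Submodule.mem_top
    obtain ⟨c, hc⟩ := (Submodule.mem_span_range_iff_exists_fun _).mp hmem
    refine ⟨c, ?_⟩
    have h1 := congrArg (fun z : integralClosure (Polynomial ℤ) F₀ => (z : F₀)) hc
    simp only [AddSubmonoidClass.coe_finsetSum] at h1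
    rw [← h1]
    refine Finset.sum_congr rfl (fun i _ => ?_)
    show ((c i • s i : integralClosure (Polynomial ℤ) F₀) : F₀) = _
    rw [Algebra.smul_def]
    rfl
  · intro y
    have h1 : IsAlgebraic (FractionRing (Polynomial ℤ)) y :=
      Algebra.IsAlgebraic.isAlgebraic y
    have h2 : IsAlgebraic (Polynomial ℤ) y :=
      (IsFractionRing.isAlgebraic_iff (Polynomial ℤ) (FractionRing (Polynomial ℤ)) F₀).mpr h1
    obtain ⟨d, hd0, hd⟩ := h2.exists_integral_multiple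
    refine ⟨d, hd0, (hint _).mpr ?_⟩
    rwa [Algebra.smul_def] at hd

end Finite

/-! ### The model: hypotheses of `E1.exists_localBasis` -/

section Model

open AlgebraicCurve Fermat.Agent.S24

variable {L F : Type*} [Field L] [Field F] [Algebra L F] [CharZero L] [CharZero F]
variable {O : ValuationSubring L} {h : F} (G : GoodVal O h) {x : F}
variable {Kx : IntermediateField L F} {Kbar : IntermediateField (IsLocalRing.ResidueField O) G.κ}
variable {n : ℕ} (hC : E1.ChartVal G x Kx Kbar n)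
variable (hn : 0 < n) {ℓ : ℕ} (hℓp : ℓ.Prime) (hℓ : IsLocalRing.residue O (ℓ : O) = 0)
variable (F₀ : Subfield F) (hx₀ : x ∈ F₀)
variable (hLD : ∀ (ψ : L →ₗ[ℚ] ℚ) (ι : Type) [Fintype ι] (c : ι → L) (f : ι → F),
    (∀ i, f i ∈ F₀) → ∑ i, algebraMap L F (c i) * f i = 0 →
      ∑ i, algebraMap L F (algebraMap ℚ L (ψ (c i))) * f i = 0)
variable (r : Fin n → F) (hrV : ∀ i, r i ∈ G.V) (hr₀ : ∀ i, r i ∈ F₀)
variable (hli : LinearIndependent Kbar (fun i => G.ρ ⟨r i, hrV i⟩))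

omit [CharZero L] [CharZero F] in
/-- elements integral over `ℤ[x]` lie in `V`. -/
theorem intOver_mem_V {x : F} (hxV : x ∈ G.V) {w : F} (hw : IntOver ℤ x w) : w ∈ G.V := by
  obtain ⟨q, hqm, hq⟩ := hw
  let φ : Polynomial ℤ →+* G.V := Polynomial.eval₂RingHom (Int.castRingHom G.V) ⟨x, hxV⟩
  have hcomp : (algebraMap G.V F).comp φ = ((aeval x : ℤ[X] →ₐ[ℤ] F) : ℤ[X] →+* F) := by
    refine Polynomial.ringHom_ext (fun a => ?_) ?_
    · simp [φ]
    · simp [φ]
  have h1 : IsIntegral G.V w := by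
    refine ⟨q.map φ, hqm.map φ, ?_⟩
    rw [Polynomial.eval₂_map, hcomp]
    exact hq
  obtain ⟨z, hz⟩ := IsIntegrallyClosed.isIntegral_iff.mp h1
  rw [← hz]
  exact z.2

include hℓp hℓ in
omit [CharZero F] in
theorem natCast_inv_mem_V {b : ℕ} (hb : b.Coprime ℓ) : ((b : F))⁻¹ ∈ G.V := by
  have h1 : algebraMap L F ((b : L)⁻¹) ∈ G.V := (G.mem_iff _).2 (natCast_inv_mem hℓp hℓ hb)
  simpa using h1

include hC hℓp hℓ in
omit [CharZero F] in
/-- `hRV`. -/
theorem modelRing_le_V (y : F) (hy : y ∈ modelRing F₀ x ℓ) : y ∈ G.V := by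
  obtain ⟨-, b, hb, hby⟩ := hy
  have h1 := intOver_mem_V G hC.x_mem hby
  have hb0 : (b : F) ≠ 0 := by
    have h2 := natCast_inv_mem_V G hℓp hℓ hb
    intro h0
    rw [h0, inv_zero] at h2
    have hb0L : (b : L) = 0 := by
      have : algebraMap L F (b : L) = 0 := by simpa using h0
      exact (map_eq_zero _).1 this
    have h3 : b = 0 := by exact_mod_cast hb0L
    rw [h3] at hb
    exact hℓp.one_lt.ne' ((Nat.coprime_zero_left ℓ).1 hb)
  have h2 : y = ((b : F))⁻¹ * ((b : F) * y) := by field_simp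
  rw [h2]
  exact G.V.mul_mem _ _ (natCast_inv_mem_V G hℓp hℓ hb) h1

omit [CharZero L] in
theorem coe_aeval_subfield_rat (x' : ↥F₀) (Q : ℚ[X]) :
    ((aeval x' Q : ↥F₀) : F) = aeval (x' : F) Q :=
  (Polynomial.aeval_algHom_apply (F₀.subtype.toRatAlgHom) x' Q).symm

omit [CharZero L] [CharZero F] in
theorem coe_aeval_subfield_int (x' : ↥F₀) (Q : ℤ[X]) :
    ((aeval x' Q : ↥F₀) : F) = aeval (x' : F) Q :=
  (Polynomial.aeval_algHom_apply (F₀.subtype.toIntAlgHom) x' Q).symm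

omit [CharZero L] [CharZero F] in
theorem intOver_subfield_iff (x' y' : ↥F₀) :
    IntOver ℤ (x' : F) (y' : F) ↔ IntOver ℤ x' y' := by
  have hcomp : F₀.subtype.comp ((aeval x' : ℤ[X] →ₐ[ℤ] ↥F₀) : ℤ[X] →+* ↥F₀) =
      ((aeval (x' : F) : ℤ[X] →ₐ[ℤ] F) : ℤ[X] →+* F) := by
    refine Polynomial.ringHom_ext (fun a => ?_) ?_ <;> simp
  constructor
  · rintro ⟨q, hqm, hq⟩
    refine ⟨q, hqm, ?_⟩
    apply F₀.subtype.injective
    rw [Polynomial.hom_eval₂, hcomp, map_zero]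
    exact hq
  · rintro ⟨q, hqm, hq⟩
    refine ⟨q, hqm, ?_⟩
    have h1 := Polynomial.hom_eval₂ q ((aeval x' : ℤ[X] →ₐ[ℤ] ↥F₀) : ℤ[X] →+* ↥F₀) F₀.subtype y'
    rw [hcomp, hq, map_zero] at h1
    exact h1.symm

include hℓp in
omit [CharZero L] in
theorem natCast_ne_zero_of_coprime {b : ℕ} (hb : b.Coprime ℓ) : (b : F) ≠ 0 := by
  intro h0
  have h3 : b = 0 := by exact_mod_cast h0
  rw [h3] at hb
  exact hℓp.one_lt.ne' ((Nat.coprime_zero_left ℓ).1 hb)

include hC hn hℓp hℓ hx₀ hLD hr₀ hli in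
/-- **(R2)** a rational element of `V` which is integral over `ℚ[x]` lies in the model ring. -/
theorem mem_modelRing_of_intOver_rat (y : F) (hy₀ : y ∈ F₀) (hyV : y ∈ G.V)
    (hint : IntOver ℚ x y) : y ∈ modelRing F₀ x ℓ := by
  have hxtrQ : Transcendental ℚ x := hC.x_transcendental.restrictScalars (algebraMap ℚ L).injective
  have hB : ∃ i, r i ≠ 0 := by
    refine ⟨⟨0, hn⟩, fun h0 => hli.ne_zero ⟨0, hn⟩ ?_⟩
    have : (⟨r ⟨0, hn⟩, hrV ⟨0, hn⟩⟩ : G.V) = 0 := Subtype.ext h0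
    show G.ρ ⟨r ⟨0, hn⟩, hrV ⟨0, hn⟩⟩ = 0
    rw [this, map_zero]
  obtain ⟨q, hqm, hq0, hqV⟩ := exists_monic_rat_of_stable G.V x hxtrQ y hint r hB (fun j => by
    obtain ⟨D, P, hD, hzeq, hV⟩ := exists_rat_repr_V G hC hn hℓp hℓ F₀ hx₀ hLD r hrV hr₀ hli
      (y * r j) (F₀.mul_mem hy₀ (hr₀ j))
    exact ⟨D, P, hD, hV (G.V.mul_mem _ _ hyV (hrV j)), hzeq⟩)
  have hden : ∀ i j, ((q.coeff i).coeff j).den.Coprime ℓ := fun i j => by
    have h1 := hC.gauss ((q.coeff i).map (algebraMap ℚ L)) (by rw [aeval_map_rat]; exact hqV i) j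
    rw [Polynomial.coeff_map, eq_ratCast] at h1
    exact den_coprime_of_mem hℓp hℓ _ h1
  obtain ⟨b, hb, q', hq'm, hq'0⟩ := exists_nat_mul_intOver x y (fun b => b.Coprime ℓ)
    (Nat.coprime_one_left _) (fun a b ha hb => Nat.Coprime.mul_left ha hb) q hqm hq0 hden
  exact ⟨hy₀, b, hb, q', hq'm, hq'0⟩

include hC hn hℓp hℓ hx₀ hLD hrV hr₀ hli in
/-- `F₀` is finite over `ℚ(x)`. -/
theorem finiteDimensional_model :
    FiniteDimensional (IntermediateField.adjoin ℚ {(⟨x, hx₀⟩ : ↥F₀)}) ↥F₀ := by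
  classical
  refine Module.Finite.of_fg_top ⟨Finset.univ.image (fun i => (⟨r i, hr₀ i⟩ : ↥F₀)), ?_⟩
  rw [eq_top_iff]
  rintro z -
  obtain ⟨D, P, hD, hzeq, -⟩ := exists_rat_repr_V G hC hn hℓp hℓ F₀ hx₀ hLD r hrV hr₀ hli
    (z : F) z.2
  have hz : z = ∑ i, (⟨aeval (⟨x, hx₀⟩ : ↥F₀) (P i) / aeval (⟨x, hx₀⟩ : ↥F₀) D,
      (IntermediateField.mem_adjoin_simple_iff ℚ _).2 ⟨P i, D, rfl⟩⟩ :
        IntermediateField.adjoin ℚ {(⟨x, hx₀⟩ : ↥F₀)}) • (⟨r i, hr₀ i⟩ : ↥F₀) := by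
    apply Subtype.ext
    rw [hzeq, AddSubmonoidClass.coe_finsetSum]
    refine Finset.sum_congr rfl fun i _ => ?_
    rw [Algebra.smul_def]
    show _ = ((aeval (⟨x, hx₀⟩ : ↥F₀) (P i) / aeval (⟨x, hx₀⟩ : ↥F₀) D : ↥F₀) : F) * r i
    rw [Subfield.coe_div, coe_aeval_subfield_rat, coe_aeval_subfield_rat]
  rw [hz]
  refine Submodule.sum_mem _ fun i _ => Submodule.smul_mem _ _ (Submodule.subset_span ?_)
  simp

include hC hn hℓp hℓ hx₀ hLD hrV hr₀ hli in
/-- `hfg`. -/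
theorem modelRing_fg :
    ∃ (m : ℕ) (g : Fin m → F), (∀ i, g i ∈ modelRing F₀ x ℓ) ∧
      (∀ y ∈ modelRing F₀ x ℓ, ∃ p : Fin m → L[X],
        (∀ i j, (p i).coeff j ∈ ratSub O) ∧ y = ∑ i, aeval x (p i) * g i) ∧
      (∀ y ∈ F₀, ∃ d : ℤ[X], d ≠ 0 ∧ IntOver ℤ x (aeval x d * y)) := by
  haveI := finiteDimensional_model G hC hn hℓp hℓ F₀ hx₀ hLD r hrV hr₀ hli
  have hxtrQ : Transcendental ℚ x := hC.x_transcendental.restrictScalars (algebraMap ℚ L).injective
  have hx'tr : Transcendental ℚ (⟨x, hx₀⟩ : ↥F₀) := by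
    rw [transcendental_iff]
    intro p hp
    refine transcendental_iff.1 hxtrQ p ?_
    have := congrArg (fun t : ↥F₀ => (t : F)) hp
    simpa [coe_aeval_subfield_rat] using this
  obtain ⟨m, g', hg', hgen', hmult⟩ := exists_finite_generators (⟨x, hx₀⟩ : ↥F₀) hx'tr
  refine ⟨m, fun i => (g' i : F), fun i => mem_modelRing_of_intOver (g' i).2
    ((intOver_subfield_iff F₀ ⟨x, hx₀⟩ (g' i)).2 (hg' i)), ?_, ?_⟩
  · rintro y ⟨hy₀, b, hb, hby⟩
    have h1 : IntOver ℤ (⟨x, hx₀⟩ : ↥F₀) (⟨(b : F) * y, F₀.mul_mem (natCast_mem F₀ b) hy₀⟩ : ↥F₀) :=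
      (intOver_subfield_iff F₀ ⟨x, hx₀⟩ ⟨_, _⟩).1 hby
    obtain ⟨p, hp⟩ := hgen' _ h1
    have hp' : (b : F) * y = ∑ i, aeval x (p i) * (g' i : F) := by
      have h2 := congrArg (fun t : ↥F₀ => (t : F)) hp
      simp only [AddSubmonoidClass.coe_finsetSum, MulMemClass.coe_mul,
        coe_aeval_subfield_int] at h2
      exact h2
    have hb0 : (b : F) ≠ 0 := natCast_ne_zero_of_coprime hℓp hb
    refine ⟨fun i => C ((b : L)⁻¹) * (p i).map (Int.castRingHom L), fun i j => ?_, ?_⟩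
    · rw [Polynomial.coeff_C_mul, Polynomial.coeff_map]
      refine (ratSub O).mul_mem ?_ (by simpa using intCast_mem_ratSub O ((p i).coeff j))
      exact (mem_ratSub O).2 ⟨⟨(b : ℚ)⁻¹, by simp⟩, natCast_inv_mem hℓp hℓ hb⟩
    · have h3 : ∀ i, aeval x (C ((b : L)⁻¹) * (p i).map (Int.castRingHom L)) =
          ((b : F))⁻¹ * aeval x (p i) := by
        intro i
        rw [map_mul, aeval_C]
        have h4 : aeval x ((p i).map (Int.castRingHom L)) = aeval x (p i) :=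
          Polynomial.aeval_map_algebraMap L x (p i)
        rw [h4]
        simp
      simp only [h3, mul_assoc]
      rw [← Finset.mul_sum, ← hp']
      field_simp
  · intro y hy₀
    obtain ⟨d, hd0, hd⟩ := hmult ⟨y, hy₀⟩
    refine ⟨d, hd0, ?_⟩
    have := (intOver_subfield_iff F₀ ⟨x, hx₀⟩ (aeval (⟨x, hx₀⟩ : ↥F₀) d * ⟨y, hy₀⟩)).2 hd
    simpa [coe_aeval_subfield_int] using this

include hC hn hℓp hℓ hx₀ hLD hr₀ hli in
/-- `hker`. -/
theorem modelRing_ker (y : F) (hy : y ∈ modelRing F₀ x ℓ) (hyV : y ∈ G.V)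
    (h0 : G.ρ ⟨y, hyV⟩ = 0) : ∃ y' ∈ modelRing F₀ x ℓ, y = algebraMap L F (ℓ : L) * y' := by
  have h1 := inv_mul_mem_of_residue_eq_zero G hC hn hℓp hℓ F₀ hx₀ hLD r hrV hr₀ hli y hy.1 hyV h0
  have hℓF : (ℓ : F) ≠ 0 := Nat.cast_ne_zero.2 hℓp.ne_zero
  refine ⟨((ℓ : F))⁻¹ * y, ?_, ?_⟩
  · refine mem_modelRing_of_intOver_rat G hC hn hℓp hℓ F₀ hx₀ hLD r hrV hr₀ hli _
      (F₀.mul_mem (F₀.inv_mem (natCast_mem F₀ ℓ)) hy.1) h1 ?_
    obtain ⟨-, b, hb, hby⟩ := hy
    have hb0 : (b : F) ≠ 0 := natCast_ne_zero_of_coprime hℓp hb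
    have h2 : IntOver ℚ x ((b : F) * y) := hby.base_change
    have h3 : IntOver ℚ x (algebraMap ℚ F (((ℓ : ℚ) * (b : ℚ))⁻¹)) := intOver_algebraMap x _
    have h4 : ((ℓ : F))⁻¹ * y = algebraMap ℚ F (((ℓ : ℚ) * (b : ℚ))⁻¹) * ((b : F) * y) := by
      rw [eq_ratCast]
      push_cast
      field_simp
    rw [h4]
    exact h3.mul h2
  · rw [map_natCast]
    field_simp

include hC hℓp hℓ hx₀ in
/-- `hspan`. -/
theorem modelRing_span [Algebra.IsAlgebraic ℚ L]
    (hgen : ∀ y : F, ∃ (m : ℕ) (c c' : Fin m → L) (f f' : Fin m → F), (∀ i, f i ∈ F₀) ∧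
      (∀ i, f' i ∈ F₀) ∧ ∑ i, algebraMap L F (c' i) * f' i ≠ 0 ∧
        (∑ i, algebraMap L F (c' i) * f' i) * y = ∑ i, algebraMap L F (c i) * f i)
    (y : F) (hy : IsIntegral (Algebra.adjoin L {x}) y) :
    ∃ (m : ℕ) (c : Fin m → L) (r : Fin m → F), (∀ i, r i ∈ modelRing F₀ x ℓ) ∧
      y = ∑ i, algebraMap L F (c i) * r i := by
  obtain ⟨m, c, f, hf₀, hfint, hyeq⟩ := descent F₀ x hx₀ y hy (hgen y)
  have h1 : ∀ i, ∃ b : ℕ, b ≠ 0 ∧ IntOver ℤ x ((b : F) * f i) := fun i => by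
    obtain ⟨q, hqm, hq0⟩ := (intOver_iff_isIntegral x (f i)).2 (hfint i)
    obtain ⟨b, hb, q', hq'm, hq'0⟩ := exists_nat_mul_intOver x (f i) (fun b => b ≠ 0) one_ne_zero
      (fun a b ha hb => mul_ne_zero ha hb) q hqm hq0 (fun i j => Rat.den_nz _)
    exact ⟨b, hb, q', hq'm, hq'0⟩
  choose b hb hbint using h1
  refine ⟨m, fun i => c i * ((b i : L))⁻¹, fun i => (b i : F) * f i, fun i =>
    mem_modelRing_of_intOver (F₀.mul_mem (natCast_mem F₀ _) (hf₀ i)) (hbint i), ?_⟩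
  rw [hyeq]
  refine Finset.sum_congr rfl fun i _ => ?_
  have hbF : (b i : F) ≠ 0 := Nat.cast_ne_zero.2 (hb i)
  rw [map_mul, map_inv₀, map_natCast]
  field_simp

include hℓp in
omit [CharZero F] in
/-- `hRint`. -/
theorem modelRing_isIntegral (y : F) (hy : y ∈ modelRing F₀ x ℓ) :
    IsIntegral (Algebra.adjoin L {x}) y := by
  obtain ⟨-, b, hb, hby⟩ := hy
  have hb0L : (b : L) ≠ 0 := by
    intro h0
    have h3 : b = 0 := by exact_mod_cast h0
    rw [h3] at hb
    exact hℓp.one_lt.ne' ((Nat.coprime_zero_left ℓ).1 hb)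
  have hb0 : (b : F) ≠ 0 := by
    have : algebraMap L F (b : L) ≠ 0 := (_root_.map_ne_zero _).2 hb0L
    simpa using this
  have h2 : IntOver L x ((b : F) * y) := hby.base_change
  have h3 : IntOver L x (algebraMap L F ((b : L)⁻¹)) := intOver_algebraMap x _
  have h4 : y = algebraMap L F ((b : L)⁻¹) * ((b : F) * y) := by
    rw [map_inv₀, map_natCast]
    field_simp
  rw [h4]
  exact (intOver_iff_isIntegral x _).1 (h3.mul h2)

include hℓp hℓ in
/-- `hRZ`. -/
theorem algebraMap_mem_modelRing (c : L) (hc : c ∈ ratSub O) :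
    algebraMap L F c ∈ modelRing F₀ x ℓ := by
  obtain ⟨⟨q, rfl⟩, hqO⟩ := (mem_ratSub O).1 hc
  have hden := den_coprime_of_mem hℓp hℓ q hqO
  refine ⟨?_, q.den, hden, ?_⟩
  · rw [map_ratCast]
    exact SubfieldClass.ratCast_mem F₀ q
  · have h1 : (q.den : F) * algebraMap L F (q : L) = algebraMap ℤ F q.num := by
      have hden0 : (q.den : F) ≠ 0 := Nat.cast_ne_zero.2 q.den_nz
      rw [map_ratCast, eq_intCast, Rat.cast_def]
      field_simp
    rw [h1]
    exact intOver_algebraMap x _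

include hC hn hℓp hℓ hx₀ hLD hr₀ hli in
/-- `hfull`: a family of `n` elements of the model ring with independent reductions. -/
theorem exists_full_family :
    ∃ (r' : Fin n → F), (∀ i, r' i ∈ modelRing F₀ x ℓ) ∧
      ∃ hV : ∀ i, r' i ∈ G.V, LinearIndependent Kbar (fun i => G.ρ ⟨r' i, hV i⟩) := by
  obtain ⟨-, -, -, -, hmult⟩ := modelRing_fg G hC hn hℓp hℓ F₀ hx₀ hLD r hrV hr₀ hli
  have hE : ∀ i, ∃ E : ℚ[X], (∀ j, ((E.coeff j : ℚ) : L) ∈ O) ∧ (∃ j, E.coeff j = 1) ∧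
      IntOver ℚ x (aeval x E * r i) := by
    intro i
    obtain ⟨d, hd0, hd⟩ := hmult (r i) (hr₀ i)
    have hD0 : d.map (Int.castRingHom ℚ) ≠ 0 :=
      (Polynomial.map_ne_zero_iff (RingHom.injective_int (Int.castRingHom ℚ))).2 hd0
    obtain ⟨c, hc0, hcO, hj⟩ := exists_normalize (O := O) _ hD0
    refine ⟨C c * d.map (Int.castRingHom ℚ), hcO, hj, ?_⟩
    have h0 : aeval x (d.map (Int.castRingHom ℚ)) = aeval x d :=
      Polynomial.aeval_map_algebraMap ℚ x d
    have h1 : aeval x (C c * d.map (Int.castRingHom ℚ)) * r i =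
        algebraMap ℚ F c * (aeval x d * r i) := by
      rw [map_mul, aeval_C, h0, mul_assoc]
    rw [h1]
    exact (intOver_algebraMap x c).mul hd.base_change
  choose E hEO hE1 hEint using hE
  have hEV : ∀ i, aeval x (E i) ∈ G.V := fun i => aeval_rat_mem G hC.x_mem (E i) (hEO i)
  have hE₀ : ∀ i, aeval x (E i) ∈ F₀ := fun i => by
    have := coe_aeval_subfield_rat F₀ ⟨x, hx₀⟩ (E i)
    rw [← this]
    exact (aeval (⟨x, hx₀⟩ : ↥F₀) (E i)).2
  have hρE : ∀ i, G.ρ ⟨_, hEV i⟩ ≠ 0 := by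
    intro i h0
    obtain ⟨e, he⟩ := exists_lift_rat (O := O) (E i) (hEO i)
    have h1 : polyV G hC.x_mem e = ⟨_, hEV i⟩ :=
      Subtype.ext (by rw [coe_polyV, he, aeval_map_rat])
    obtain ⟨j, hj⟩ := hE1 i
    have h2 := residue_coeff_eq_zero G hC.x_mem hC.xbar_transcendental e (by rw [h1]; exact h0) j
    have h3 : ((e.coeff j : ↥(ratSub O)) : L) = 1 := by
      have := congrArg (fun t => t.coeff j) he
      simp only [Polynomial.coeff_map] at this
      rw [hj] at this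
      simpa using this
    have h4 : ZtoO O (e.coeff j) = 1 := Subtype.ext h3
    rw [h4, map_one] at h2
    exact one_ne_zero h2
  refine ⟨fun i => aeval x (E i) * r i, fun i => ?_,
    fun i => G.V.mul_mem _ _ (hEV i) (hrV i), ?_⟩
  · exact mem_modelRing_of_intOver_rat G hC hn hℓp hℓ F₀ hx₀ hLD r hrV hr₀ hli _
      (F₀.mul_mem (hE₀ i) (hr₀ i)) (G.V.mul_mem _ _ (hEV i) (hrV i)) (hEint i)
  · have hK : ∀ i, G.ρ ⟨_, hEV i⟩ ∈ Kbar := fun i =>
      hC.res_mem ⟨_, aeval_rat_mem_Kx G hC (E i)⟩ (hEV i)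
    let w : Fin n → (↥Kbar)ˣ := fun i =>
      Units.mk0 ⟨_, hK i⟩ (fun h => hρE i (congrArg Subtype.val h))
    have h1 := hli.units_smul w
    convert h1 using 1
    funext i
    show G.ρ ⟨aeval x (E i) * r i, _⟩ = (w i) • G.ρ ⟨r i, hrV i⟩
    have h2 : (⟨aeval x (E i) * r i, G.V.mul_mem _ _ (hEV i) (hrV i)⟩ : G.V) =
        ⟨_, hEV i⟩ * ⟨r i, hrV i⟩ := rfl
    rw [h2, map_mul]
    rfl

end Model

/-- **Layer R, abstract form.**  A local basis from a rational model `F₀ ⊂ F`. -/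
theorem exists_localBasis_of_model {L F : Type*} [Field L] [Field F] [Algebra L F] [CharZero L]
    [Algebra.IsAlgebraic ℚ L]
    {O : ValuationSubring L} {h : F} (G : GoodVal O h) {x : F}
    {Kx : IntermediateField L F} {Kbar : IntermediateField (IsLocalRing.ResidueField O) G.κ}
    {n : ℕ} (hC : E1.ChartVal G x Kx Kbar n) (hn : 0 < n)
    (ℓ : ℕ) (hℓp : ℓ.Prime) (hℓ : IsLocalRing.residue O (ℓ : O) = 0)
    (F₀ : Subfield F) (hx₀ : x ∈ F₀)
    (hLD : ∀ (ψ : L →ₗ[ℚ] ℚ) (ι : Type) [Fintype ι] (c : ι → L) (f : ι → F), (∀ i, f i ∈ F₀) →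
      ∑ i, algebraMap L F (c i) * f i = 0 →
      ∑ i, algebraMap L F (algebraMap ℚ L (ψ (c i))) * f i = 0)
    (hgen : ∀ y : F, ∃ (m : ℕ) (c c' : Fin m → L) (f f' : Fin m → F), (∀ i, f i ∈ F₀) ∧
      (∀ i, f' i ∈ F₀) ∧ ∑ i, algebraMap L F (c' i) * f' i ≠ 0 ∧
        (∑ i, algebraMap L F (c' i) * f' i) * y = ∑ i, algebraMap L F (c i) * f i)
    (hdisj : ∀ (m : ℕ) (r : Fin m → F) (_ : ∀ i, r i ∈ F₀) (hrV : ∀ i, r i ∈ G.V),
      (∀ p : Fin m → ℤ[X], ∀ hmem : ∑ i, aeval x (p i) * r i ∈ G.V, G.ρ ⟨_, hmem⟩ = 0 →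
        ∀ i, C (ℓ : ℤ) ∣ p i) →
      LinearIndependent Kbar (fun i => G.ρ ⟨r i, hrV i⟩))
    (hfull : ∃ (r : Fin n → F) (hrV : ∀ i, r i ∈ G.V), (∀ i, r i ∈ F₀) ∧
      LinearIndependent Kbar (fun i => G.ρ ⟨r i, hrV i⟩)) :
    ∃ (e : Fin n → F) (s : Polynomial O), E1.LocalBasis G x Kbar e s := by
  haveI : CharZero F := charZero_of_injective_algebraMap (algebraMap L F).injective
  obtain ⟨r, hrV, hr₀, hli⟩ := hfull
  have hRV : ∀ y ∈ modelRing F₀ x ℓ, y ∈ G.V := modelRing_le_V G hC hℓp hℓ F₀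
  obtain ⟨m, g, hg, hgen', -⟩ := modelRing_fg G hC hn hℓp hℓ F₀ hx₀ hLD r hrV hr₀ hli
  obtain ⟨r', hr', hr'V, hli'⟩ := exists_full_family G hC hn hℓp hℓ F₀ hx₀ hLD r hrV hr₀ hli
  refine E1.exists_localBasis G hC hn (ratSub O) (fun c hc => ratSub_le O hc) (ℓ : L)
    (natCast_mem_ratSub O ℓ) ?_ (fun c hc h0 => ratSub_ker hℓp hℓ c hc h0)
    (fun c hc h0 => ratSub_inv c hc h0) (modelRing F₀ x ℓ)
    (algebraMap_mem_modelRing hℓp hℓ F₀) (mem_modelRing_of_intOver hx₀ (intOver_self x)) hRV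
    (modelRing_isIntegral hℓp F₀) ⟨m, g, hg, hgen'⟩
    (fun y hy h0 => modelRing_ker G hC hn hℓp hℓ F₀ hx₀ hLD r hrV hr₀ hli y hy (hRV y hy) h0)
    (modelRing_span G hC hℓp hℓ F₀ hx₀ hgen) ?_ ⟨r', hr', hli'⟩
  · exact hℓ
  · intro m r₁ hr₁ hprem
    refine hdisj m r₁ (fun i => (hr₁ i).1) (fun i => hRV _ (hr₁ i)) ?_
    intro p hmem h0 i
    have hae : ∀ i, aeval x ((p i).map (Int.castRingHom L)) = aeval x (p i) := fun i =>
      Polynomial.aeval_map_algebraMap L x (p i)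
    have hmem' : ∑ i, aeval x ((p i).map (Int.castRingHom L)) * r₁ i ∈ G.V := by
      simp only [hae]
      exact hmem
    have h0' : G.ρ ⟨_, hmem'⟩ = 0 := by
      have h1 : (⟨_, hmem'⟩ : G.V) = ⟨_, hmem⟩ := Subtype.ext (by simp only [hae])
      rw [h1]
      exact h0
    have h1 := hprem (fun i => (p i).map (Int.castRingHom L)) (fun i j => by
      rw [Polynomial.coeff_map]
      simpa using intCast_mem_ratSub O ((p i).coeff j)) hmem' h0' i
    rw [Polynomial.C_dvd_iff_dvd_coeff]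
    intro j
    obtain ⟨c', hc', hcc⟩ := h1 j
    rw [Polynomial.coeff_map] at hcc
    apply int_dvd_of_residue_eq_zero hℓp hℓ
    have h2 : (((p i).coeff j : ℤ) : O) = (ℓ : O) * ⟨c', ratSub_le O hc'⟩ :=
      Subtype.ext (by simpa using hcc)
    rw [h2, map_mul, hℓ, zero_mul]

end Fermat.Agent.S18.LayerR
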