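import Mathlib
import Fermat.Agent.S18_GaussField

/-!
# S18, Layer R: the model facts for the rational structure of the Gauss datum

For a Gauss datum `D : Gauss.Datum A F n` whose generators `h`, `θ` are integer series, let
`F₀ D = Subfield.closure {D.h, D.θ}` (the rational model).  We prove

* `hLD`: `F₀` and `L` are linearly disjoint over `ℚ` (functionals of `L/ℚ` apply coefficientwise);
* `hgen`: `F` is the field of fractions of `L · F₀`;
* `hdisj`: reductions of elements of `F₀ ∩ V` which are independent modulo `ℓ` over `ℤ[x]` are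
  linearly independent over `k(x̄)`;
* `hfull`: the reductions of `1, θ, …, θ^{n-1}` are linearly independent over `k(h̄)`.
-/

set_option autoImplicit false
set_option linter.unusedSectionVars false
set_option linter.style.haveILetI false

noncomputable section

open ModularCurve Polynomial

namespace Fermat.Agent.S18.Model

/-! ### coefficientwise functionals -/

section Proj

variable {k₀ k : Type*} [Field k₀] [Field k] [Algebra k₀ k]

/-- Coefficientwise application of a `k₀`-linear functional. -/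
def proj (π : k →ₗ[k₀] k₀) (z : LaurentSeries k) : LaurentSeries k₀ := z.map π

@[simp]
theorem proj_coeff (π : k →ₗ[k₀] k₀) (z : LaurentSeries k) (e : ℤ) :
    (proj π z).coeff e = π (z.coeff e) := rfl

@[simp]
theorem proj_zero (π : k →ₗ[k₀] k₀) : proj π (0 : LaurentSeries k) = 0 := by
  ext e; simp

theorem proj_add (π : k →ₗ[k₀] k₀) (z w : LaurentSeries k) :
    proj π (z + w) = proj π z + proj π w := by
  ext e; simp

theorem proj_sum {ι : Type*} (π : k →ₗ[k₀] k₀) (s : Finset ι) (z : ι → LaurentSeries k) :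
    proj π (∑ i ∈ s, z i) = ∑ i ∈ s, proj π (z i) := by
  classical
  induction s using Finset.induction_on with
  | empty => simp
  | insert a s ha ih => rw [Finset.sum_insert ha, Finset.sum_insert ha, proj_add, ih]

/-- `proj π (c · y) = π c · y` for a constant `c : k` and a series `y` over `k₀`. -/
theorem proj_algebraMap_mul (π : k →ₗ[k₀] k₀) (c : k) (y : LaurentSeries k₀) :
    proj π (algebraMap k (LaurentSeries k) c * coeffMap (algebraMap k₀ k) y)
      = algebraMap k₀ (LaurentSeries k₀) (π c) * y := by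
  ext e
  rw [proj_coeff, algebraMap_laurentSeries_eq_single, algebraMap_laurentSeries_eq_single,
    HahnSeries.coeff_single_zero_mul, HahnSeries.coeff_single_zero_mul, coeffMap_coeff,
    mul_comm, ← Algebra.smul_def, map_smul, smul_eq_mul, mul_comm]

/-- Coefficientwise projection of a polynomial. -/
def projPoly (π : k →ₗ[k₀] k₀) (P : k[X]) : k₀[X] :=
  ∑ j ∈ P.support, monomial j (π (P.coeff j))

@[simp]
theorem projPoly_coeff (π : k →ₗ[k₀] k₀) (P : k[X]) (m : ℕ) :
    (projPoly π P).coeff m = π (P.coeff m) := by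
  classical
  rw [projPoly, finsetSum_coeff]
  simp only [coeff_monomial]
  rw [Finset.sum_ite_eq' P.support m]
  split_ifs with h
  · rfl
  · rw [notMem_support_iff.mp h, map_zero]

theorem projPoly_add (π : k →ₗ[k₀] k₀) (P Q : k[X]) :
    projPoly π (P + Q) = projPoly π P + projPoly π Q := by
  ext m; simp

theorem projPoly_monomial (π : k →ₗ[k₀] k₀) (n : ℕ) (c : k) :
    projPoly π (monomial n c) = monomial n (π c) := by
  ext m
  rw [projPoly_coeff, coeff_monomial, coeff_monomial]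
  split_ifs <;> simp

theorem exists_projPoly_ne_zero {P : k[X]} (hP : P ≠ 0) :
    ∃ π : k →ₗ[k₀] k₀, projPoly π P ≠ 0 := by
  obtain ⟨m, hm⟩ : ∃ m, P.coeff m ≠ 0 := by
    by_contra hcon
    push Not at hcon
    exact hP (Polynomial.ext fun m => by rw [hcon m, coeff_zero])
  have : ¬ ∀ φ : Module.Dual k₀ k, φ (P.coeff m) = 0 := fun h =>
    hm ((Module.forall_dual_apply_eq_zero_iff k₀ (P.coeff m)).mp h)
  push Not at this
  obtain ⟨π, hπ⟩ := this
  refine ⟨π, fun h => hπ ?_⟩
  have := congrArg (fun Q : k₀[X] => Q.coeff m) h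
  simpa using this

/-- Projection of a polynomial expression in a series over `k₀`. -/
theorem proj_aeval_mul (π : k →ₗ[k₀] k₀) (y : LaurentSeries k₀) (P : k[X])
    (e : LaurentSeries k₀) :
    proj π (aeval (coeffMap (algebraMap k₀ k) y) P * coeffMap (algebraMap k₀ k) e)
      = aeval y (projPoly π P) * e := by
  induction P using Polynomial.induction_on' with
  | add p q hp hq =>
    rw [map_add, add_mul, proj_add, hp, hq, projPoly_add, map_add, add_mul]
  | monomial n c =>
    rw [projPoly_monomial, aeval_monomial, aeval_monomial, mul_assoc, ← map_pow, ← map_mul,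
      proj_algebraMap_mul, mul_assoc]

/-- polynomial independence over `k₀[ξ]` is preserved by extension of the coefficient field. -/
theorem polyIndep_coeffMap {ι : Type*} [Fintype ι] (ξ : LaurentSeries k₀)
    (ρ : ι → LaurentSeries k₀)
    (h : ∀ P : ι → k₀[X], ∑ i, aeval ξ (P i) * ρ i = 0 → ∀ i, P i = 0)
    (Q : ι → k[X])
    (hQ : ∑ i, aeval (coeffMap (algebraMap k₀ k) ξ) (Q i) * coeffMap (algebraMap k₀ k) (ρ i) = 0) :
    ∀ i, Q i = 0 := by
  intro i
  by_contra hne
  obtain ⟨π, hπ⟩ := exists_projPoly_ne_zero (k₀ := k₀) hne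
  have h1 := congrArg (proj π) hQ
  rw [proj_sum, proj_zero] at h1
  simp only [proj_aeval_mul] at h1
  exact hπ (h _ h1 i)

end Proj

/-! ### from polynomial independence to linear independence over `k(α)` -/

theorem linearIndependent_adjoin_of_polyIndep {k κ : Type*} [Field k] [Field κ] [Algebra k κ]
    {ι : Type*} [Fintype ι] (α : κ) (v : ι → κ)
    (h : ∀ P : ι → k[X], ∑ i, aeval α (P i) * v i = 0 → ∀ i, P i = 0) :
    LinearIndependent (IntermediateField.adjoin k {α}) v := by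
  classical
  rw [Fintype.linearIndependent_iff]
  intro g hg i
  have hrep : ∀ j, ∃ r s : k[X], aeval α s ≠ 0 ∧ (g j : κ) = aeval α r / aeval α s := by
    intro j
    obtain ⟨r, s, hrs⟩ := (IntermediateField.mem_adjoin_simple_iff k (g j : κ)).mp (g j).2
    by_cases hs : aeval α s = 0
    · refine ⟨0, 1, by simp, ?_⟩
      rw [hrs, hs, div_zero]; simp
    · exact ⟨r, s, hs, hrs⟩
  choose r s hs hrs using hrep
  have hg' : ∑ j, (g j : κ) * v j = 0 := by
    calc ∑ j, (g j : κ) * v j = ∑ j, g j • v j :=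
          Finset.sum_congr rfl (fun j _ => (Algebra.smul_def (g j) (v j)).symm)
      _ = 0 := hg
  have key : ∑ j, aeval α (r j * ∏ l ∈ Finset.univ.erase j, s l) * v j = 0 := by
    have h2 : (∏ l, aeval α (s l)) * ∑ j, (g j : κ) * v j = 0 := by
      rw [hg', mul_zero]
    rw [Finset.mul_sum] at h2
    rw [← h2]
    refine Finset.sum_congr rfl fun j _ => ?_
    rw [map_mul, map_prod, hrs j,
      ← Finset.mul_prod_erase Finset.univ (fun l => aeval α (s l)) (Finset.mem_univ j)]
    have hsj := hs j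
    field_simp
  have h3 := h _ key i
  have h4 : aeval α (r i) * ∏ l ∈ Finset.univ.erase i, aeval α (s l) = 0 := by
    rw [← map_prod, ← map_mul, h3, map_zero]
  have h5 : aeval α (r i) = 0 := by
    rcases mul_eq_zero.mp h4 with h | h
    · exact h
    · exact absurd h (Finset.prod_ne_zero_iff.mpr fun l _ => hs l)
  apply Subtype.ext
  rw [hrs i, h5, zero_div]; rfl

/-! ### integer series -/

section IntSeries

theorem exists_content_aux (ℓ : ℕ) (hℓ : ℓ.Prime) : ∀ (N : ℕ) (b : LaurentSeries ℤ) (i₀ : ℤ),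
    b.coeff i₀ ≠ 0 → (b.coeff i₀).natAbs ≤ N →
    ∃ (e : ℕ) (b₁ : LaurentSeries ℤ), b = HahnSeries.C ((ℓ : ℤ) ^ e) * b₁ ∧
      ∃ i, ¬ (ℓ : ℤ) ∣ b₁.coeff i := by
  intro N
  induction N with
  | zero =>
    intro b i₀ h0 hN
    exact absurd (Int.natAbs_eq_zero.mp (Nat.le_zero.mp hN)) h0
  | succ N ih =>
    intro b i₀ h0 hN
    by_cases hdiv : ∀ i, (ℓ : ℤ) ∣ b.coeff i
    · let b' : LaurentSeries ℤ := b.map (⟨fun x => x / (ℓ : ℤ), by simp⟩ : ZeroHom ℤ ℤ)
      have hb'c : ∀ i, b'.coeff i = b.coeff i / (ℓ : ℤ) := fun i => rfl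
      have hb' : b = HahnSeries.C ((ℓ : ℤ)) * b' := by
        ext i
        rw [HahnSeries.C_mul_eq_smul, HahnSeries.coeff_smul, hb'c, smul_eq_mul,
          Int.mul_ediv_cancel' (hdiv i)]
      have h0' : b'.coeff i₀ ≠ 0 := by
        rw [hb'c]
        intro h
        apply h0
        rw [← Int.mul_ediv_cancel' (hdiv i₀), h, mul_zero]
      have hN' : (b'.coeff i₀).natAbs ≤ N := by
        have h1 : (b.coeff i₀).natAbs = ℓ * (b'.coeff i₀).natAbs := by
          conv_lhs => rw [← Int.mul_ediv_cancel' (hdiv i₀)]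
          rw [Int.natAbs_mul, Int.natAbs_natCast, hb'c]
        have h2 : 0 < (b'.coeff i₀).natAbs := Int.natAbs_pos.mpr h0'
        have h3 : 2 ≤ ℓ := hℓ.two_le
        nlinarith
      obtain ⟨e, b₁, hb₁, hi⟩ := ih b' i₀ h0' hN'
      refine ⟨e + 1, b₁, ?_, hi⟩
      rw [hb', hb₁, ← mul_assoc, ← map_mul, pow_succ']
    · push Not at hdiv
      obtain ⟨i, hi⟩ := hdiv
      exact ⟨0, b, by simp, i, hi⟩

/-- the `ℓ`-content of a nonzero integer series. -/
theorem exists_content (ℓ : ℕ) (hℓ : ℓ.Prime) (b : LaurentSeries ℤ) (hb : b ≠ 0) :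
    ∃ (e : ℕ) (b₁ : LaurentSeries ℤ), b = HahnSeries.C ((ℓ : ℤ) ^ e) * b₁ ∧
      ∃ i, ¬ (ℓ : ℤ) ∣ b₁.coeff i := by
  obtain ⟨i₀, hi₀⟩ : ∃ i, b.coeff i ≠ 0 := by
    by_contra hcon
    push Not at hcon
    exact hb (HahnSeries.ext (funext hcon))
  exact exists_content_aux ℓ hℓ _ b i₀ hi₀ le_rfl

end IntSeries

/-! ### integer series in the Gauss ring -/

section IntGauss

variable {L : Type*} [Field L] [CharZero L] (A : ValuationSubring L)

/-- integer series as series over `A`. -/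
def intA : LaurentSeries ℤ →+* LaurentSeries A := coeffMap (Int.castRingHom A)

theorem emb_intA (z : LaurentSeries ℤ) :
    Gauss.emb A (intA A z) = coeffMap (Int.castRingHom L) z := by
  unfold Gauss.emb intA
  rw [coeffMap_coeffMap]
  exact coeffMap_congr (RingHom.ext_int _ _) z

theorem red_intA (z : LaurentSeries ℤ) :
    Gauss.red A (intA A z) = coeffMap (Int.castRingHom (IsLocalRing.ResidueField A)) z := by
  unfold Gauss.red intA
  rw [coeffMap_coeffMap]
  exact coeffMap_congr (RingHom.ext_int _ _) z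

theorem coeffMap_int_injective : Function.Injective (coeffMap (Int.castRingHom L)) := by
  intro a b h
  ext i
  have := congrArg (fun x : LaurentSeries L => x.coeff i) h
  simpa using this

theorem coeffMap_C {R S : Type*} [CommRing R] [CommRing S] (f : R →+* S) (r : R) :
    coeffMap f (HahnSeries.C r) = HahnSeries.C (f r) := by
  rw [HahnSeries.C_apply, coeffMap_single, HahnSeries.C_apply]

theorem intCast_residue_eq_zero (ℓ : ℕ) [Fact ℓ.Prime]
    [Algebra (ZMod ℓ) (IsLocalRing.ResidueField A)] : ((ℓ : ℤ) : IsLocalRing.ResidueField A) = 0 := by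
  have h : ((ℓ : ℤ) : IsLocalRing.ResidueField A)
      = algebraMap (ZMod ℓ) (IsLocalRing.ResidueField A) ((ℓ : ℤ) : ZMod ℓ) := by
    rw [map_intCast]
  rw [h]
  simp

theorem intCast_residue_ne_zero (ℓ : ℕ) [Fact ℓ.Prime]
    [Algebra (ZMod ℓ) (IsLocalRing.ResidueField A)] {c : ℤ} (hc : ¬ (ℓ : ℤ) ∣ c) :
    (c : IsLocalRing.ResidueField A) ≠ 0 := by
  intro h
  have h1 : algebraMap (ZMod ℓ) (IsLocalRing.ResidueField A) (c : ZMod ℓ) = 0 := by
    rw [map_intCast]; exact h
  have h2 : (c : ZMod ℓ) = 0 := (map_eq_zero _).mp h1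
  exact hc ((ZMod.intCast_zmod_eq_zero_iff_dvd c ℓ).mp h2)

theorem redZ_ne_zero (ℓ : ℕ) [Fact ℓ.Prime]
    [Algebra (ZMod ℓ) (IsLocalRing.ResidueField A)] {b : LaurentSeries ℤ}
    (h : ∃ i, ¬ (ℓ : ℤ) ∣ b.coeff i) :
    coeffMap (Int.castRingHom (IsLocalRing.ResidueField A)) b ≠ 0 := by
  obtain ⟨i, hi⟩ := h
  intro h0
  have := congrArg (fun x : LaurentSeries (IsLocalRing.ResidueField A) => x.coeff i) h0
  simp only [coeffMap_coeff, HahnSeries.coeff_zero] at this
  exact intCast_residue_ne_zero A ℓ hi this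

/-- an element of the Gauss ring which is a quotient of integer series is a quotient of integer
series with denominator of nonzero reduction. -/
theorem exists_int_rep (ℓ : ℕ) [Fact ℓ.Prime] [Algebra (ZMod ℓ) (IsLocalRing.ResidueField A)]
    (y : LaurentSeries L) (hy : y ∈ Gauss.gaussRing A)
    (a b : LaurentSeries ℤ) (hb : b ≠ 0)
    (hab : coeffMap (Int.castRingHom L) b * y = coeffMap (Int.castRingHom L) a) :
    ∃ a' b' : LaurentSeries ℤ,
      coeffMap (Int.castRingHom (IsLocalRing.ResidueField A)) b' ≠ 0 ∧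
      coeffMap (Int.castRingHom L) b' * y = coeffMap (Int.castRingHom L) a' := by
  by_cases ha : a = 0
  · have hy0 : y = 0 := by
      rw [ha, map_zero] at hab
      rcases mul_eq_zero.mp hab with h | h
      · exact absurd (coeffMap_int_injective (L := L) (by rw [h, map_zero])) hb
      · exact h
    exact ⟨0, 1, by rw [map_one]; exact one_ne_zero, by rw [hy0, mul_zero, map_zero]⟩
  obtain ⟨e, b₁, hbe, hbi⟩ := exists_content ℓ Fact.out b hb
  obtain ⟨f, a₁, haf, hai⟩ := exists_content ℓ Fact.out a ha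
  have hb₁ := redZ_ne_zero A ℓ hbi
  have ha₁ := redZ_ne_zero A ℓ hai
  have hℓL : ((ℓ : ℤ) : L) ≠ 0 := by exact_mod_cast (Fact.out : ℓ.Prime).ne_zero
  have hC : ∀ j : ℕ, coeffMap (Int.castRingHom L) (HahnSeries.C ((ℓ : ℤ) ^ j))
      = HahnSeries.C (((ℓ : ℤ) : L) ^ j) := by
    intro j
    rw [coeffMap_C]
    simp
  have hCne : ∀ j : ℕ, (HahnSeries.C (((ℓ : ℤ) : L) ^ j) : LaurentSeries L) ≠ 0 := by
    intro j
    rw [Ne, map_eq_zero]
    exact pow_ne_zero j hℓL
  have key : HahnSeries.C (((ℓ : ℤ) : L) ^ e) * (coeffMap (Int.castRingHom L) b₁ * y)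
      = HahnSeries.C (((ℓ : ℤ) : L) ^ f) * coeffMap (Int.castRingHom L) a₁ := by
    rw [← hC, ← hC, ← mul_assoc, ← map_mul, ← hbe, ← map_mul, ← haf]
    exact hab
  rcases le_or_gt e f with hef | hfe
  · refine ⟨HahnSeries.C ((ℓ : ℤ) ^ (f - e)) * a₁, b₁, hb₁, ?_⟩
    have h1 : (HahnSeries.C (((ℓ : ℤ) : L) ^ f) : LaurentSeries L)
        = HahnSeries.C (((ℓ : ℤ) : L) ^ e) * HahnSeries.C (((ℓ : ℤ) : L) ^ (f - e)) := by
      rw [← map_mul, ← pow_add, Nat.add_sub_cancel' hef]
    rw [h1, mul_assoc] at key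
    have h2 := mul_left_cancel₀ (hCne e) key
    rw [h2, map_mul, hC]
  · exfalso
    obtain ⟨s, t, hs, hst⟩ := hy
    have h1 : (HahnSeries.C (((ℓ : ℤ) : L) ^ e) : LaurentSeries L)
        = HahnSeries.C (((ℓ : ℤ) : L) ^ f) * HahnSeries.C (((ℓ : ℤ) : L) ^ (e - f)) := by
      rw [← map_mul, ← pow_add, Nat.add_sub_cancel' hfe.le]
    rw [h1, mul_assoc] at key
    have h2 := mul_left_cancel₀ (hCne f) key
    have hCA : Gauss.emb A (HahnSeries.C (((ℓ : ℤ) : A) ^ (e - f)))
        = HahnSeries.C (((ℓ : ℤ) : L) ^ (e - f)) := by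
      unfold Gauss.emb
      rw [coeffMap_C]
      simp
    have h3 : Gauss.emb A (s * intA A a₁)
        = Gauss.emb A (HahnSeries.C (((ℓ : ℤ) : A) ^ (e - f)) * intA A b₁ * t) := by
      rw [map_mul, map_mul, map_mul, emb_intA, emb_intA, ← hst, ← h2, hCA]
      ring
    have h4 := Gauss.emb_injective A h3
    have h5 := congrArg (Gauss.red A) h4
    rw [map_mul, map_mul, map_mul, red_intA, red_intA] at h5
    have h6 : Gauss.red A (HahnSeries.C (((ℓ : ℤ) : A) ^ (e - f))) = 0 := by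
      unfold Gauss.red
      rw [coeffMap_C]
      have : IsLocalRing.residue A (((ℓ : ℤ) : A) ^ (e - f)) = 0 := by
        rw [map_pow, map_intCast, intCast_residue_eq_zero A ℓ,
          zero_pow (Nat.sub_ne_zero_of_lt hfe)]
      rw [this, map_zero]
    rw [h6, zero_mul, zero_mul] at h5
    exact (mul_ne_zero hs ha₁) h5

end IntGauss

theorem map_aeval_int {R S : Type*} [CommRing R] [CommRing S] [Algebra ℤ R] (g : R →+* S)
    (x : R) (p : ℤ[X]) : g (aeval x p) = eval₂ (Int.castRingHom S) (g x) p := by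
  rw [aeval_def, Polynomial.hom_eval₂]
  congr 1
  exact RingHom.ext_int _ _

theorem map_aeval_map_int {k₀ S : Type*} [Field k₀] [CommRing S]
    (g : LaurentSeries k₀ →+* S) (ξ : LaurentSeries k₀) (p : ℤ[X]) :
    g (aeval ξ (p.map (Int.castRingHom k₀))) = eval₂ (Int.castRingHom S) (g ξ) p := by
  rw [aeval_def, Polynomial.eval₂_map, Polynomial.hom_eval₂]
  congr 1
  exact RingHom.ext_int _ _

/-! ### the rational model of a Gauss datum -/

section Model

variable {L : Type*} [Field L] [CharZero L] {A : ValuationSubring L}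
  {F : IntermediateField L (LaurentSeries L)} {n : ℕ} (D : Gauss.Datum A F n)

/-- the rational model: the subfield generated by `h` and `θ`. -/
def F₀ : Subfield F := Subfield.closure {D.h, D.θ}

theorem h_mem_F₀ : D.h ∈ F₀ D := Subfield.subset_closure (by simp)

theorem θ_mem_F₀ : D.θ ∈ F₀ D := Subfield.subset_closure (by simp)

variable (hZ θZ : LaurentSeries ℤ) (hh : D.hA = intA A hZ) (hθ : D.θA = intA A θZ)

include hh in
theorem coe_h_eq : (D.h : LaurentSeries L) = coeffMap (Int.castRingHom L) hZ := by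
  show Gauss.emb A D.hA = _
  rw [hh, emb_intA]

include hθ in
theorem coe_θ_eq : (D.θ : LaurentSeries L) = coeffMap (Int.castRingHom L) θZ := by
  show Gauss.emb A D.θA = _
  rw [hθ, emb_intA]

include hh hθ in
/-- elements of the rational model are quotients of integer series. -/
theorem mem_F₀_int (y : F) (hy : y ∈ F₀ D) :
    ∃ a b : LaurentSeries ℤ, b ≠ 0 ∧
      coeffMap (Int.castRingHom L) b * (y : LaurentSeries L) = coeffMap (Int.castRingHom L) a := by
  obtain ⟨u, hu, v, hv, rfl⟩ := Subfield.mem_closure_iff.mp hy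
  have hsub : Subring.closure ({D.h, D.θ} : Set F)
      ≤ (coeffMap (Int.castRingHom L)).range.comap (F.val : F →+* LaurentSeries L) := by
    rw [Subring.closure_le]
    rintro z (rfl | rfl)
    · exact ⟨hZ, (coe_h_eq D hZ hh).symm⟩
    · exact ⟨θZ, (coe_θ_eq D θZ hθ).symm⟩
  obtain ⟨a, ha⟩ := hsub hu
  obtain ⟨b, hb⟩ := hsub hv
  have ha' : coeffMap (Int.castRingHom L) a = (u : LaurentSeries L) := ha
  have hb' : coeffMap (Int.castRingHom L) b = (v : LaurentSeries L) := hb
  by_cases hb0 : b = 0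
  · refine ⟨0, 1, one_ne_zero, ?_⟩
    have hv0 : v = 0 := by
      apply Subtype.ext
      rw [← hb', hb0, map_zero]
      rfl
    rw [hv0, div_zero]
    simp
  · refine ⟨a, b, hb0, ?_⟩
    have hne : (v : LaurentSeries L) ≠ 0 := by
      rw [← hb']
      exact fun h => hb0 (coeffMap_int_injective (L := L) (by rw [h, map_zero]))
    have hdiv : ((u / v : F) : LaurentSeries L) = (u : LaurentSeries L) / (v : LaurentSeries L) :=
      rfl
    rw [hdiv, ha', hb', mul_div_cancel₀ _ hne]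

include hh hθ in
/-- elements of the rational model have rational coefficients. -/
theorem mem_F₀_rat (y : F) (hy : y ∈ F₀ D) :
    ∃ g : LaurentSeries ℚ, (y : LaurentSeries L) = coeffMap (algebraMap ℚ L) g := by
  have hint : ∀ z : LaurentSeries ℤ, coeffMap (Int.castRingHom L) z
      = coeffMap (algebraMap ℚ L) (coeffMap (Int.castRingHom ℚ) z) := by
    intro z
    rw [coeffMap_coeffMap]
    exact coeffMap_congr (RingHom.ext_int _ _) z
  have hsub : F₀ D ≤ (coeffMap (algebraMap ℚ L)).fieldRange.comap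
      (F.val : F →+* LaurentSeries L) := by
    unfold F₀
    rw [Subfield.closure_le]
    rintro z (rfl | rfl)
    · exact ⟨coeffMap (Int.castRingHom ℚ) hZ, by rw [← hint]; exact (coe_h_eq D hZ hh).symm⟩
    · exact ⟨coeffMap (Int.castRingHom ℚ) θZ, by rw [← hint]; exact (coe_θ_eq D θZ hθ).symm⟩
  obtain ⟨g, hg⟩ := hsub hy
  exact ⟨g, hg.symm⟩

include hh hθ in
/-- **(hLD)** the rational model is linearly disjoint from `L` over `ℚ`. -/
theorem hLD (ψ : L →ₗ[ℚ] ℚ) (ι : Type) [Fintype ι] (c : ι → L) (f : ι → F)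
    (hf : ∀ i, f i ∈ F₀ D) (h : ∑ i, algebraMap L F (c i) * f i = 0) :
    ∑ i, algebraMap L F (algebraMap ℚ L (ψ (c i))) * f i = 0 := by
  choose g hg using fun i => mem_F₀_rat D hZ θZ hh hθ (f i) (hf i)
  have h1 : ∑ i, algebraMap L (LaurentSeries L) (c i) * coeffMap (algebraMap ℚ L) (g i) = 0 := by
    have h0 := congrArg (F.val) h
    rw [map_sum, map_zero] at h0
    rw [← h0]
    refine Finset.sum_congr rfl fun i _ => ?_
    rw [map_mul, ← hg i]
    rfl
  have h2 := congrArg (proj ψ) h1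
  rw [proj_sum, proj_zero] at h2
  simp only [proj_algebraMap_mul] at h2
  have h3 := congrArg (coeffMap (algebraMap ℚ L)) h2
  rw [map_sum, map_zero] at h3
  have h4 : F.val (∑ i, algebraMap L F (algebraMap ℚ L (ψ (c i))) * f i) = 0 := by
    rw [map_sum, ← h3]
    refine Finset.sum_congr rfl fun i _ => ?_
    rw [map_mul, map_mul, ← hg i]
    congr 1
    rw [algebraMap_laurentSeries_eq_single, coeffMap_single]
    exact algebraMap_laurentSeries_eq_single L _
  exact Subtype.ext h4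

theorem mem_span_F₀ (q : L[X]) (i : ℕ) :
    aeval D.h q * D.θ ^ i ∈ Submodule.span L (F₀ D : Set F) := by
  rw [aeval_eq_sum_range, Finset.sum_mul]
  refine Submodule.sum_mem _ fun j _ => ?_
  rw [smul_mul_assoc]
  refine Submodule.smul_mem _ _ (Submodule.subset_span ?_)
  exact (F₀ D).mul_mem ((F₀ D).pow_mem (h_mem_F₀ D) j) ((F₀ D).pow_mem (θ_mem_F₀ D) i)

/-- **(hgen)** `F` is the field of fractions of `L · F₀`. -/
theorem hgen (y : F) :
    ∃ (m : ℕ) (c c' : Fin m → L) (f f' : Fin m → F), (∀ i, f i ∈ F₀ D) ∧ (∀ i, f' i ∈ F₀ D) ∧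
      ∑ i, algebraMap L F (c' i) * f' i ≠ 0 ∧
      (∑ i, algebraMap L F (c' i) * f' i) * y = ∑ i, algebraMap L F (c i) * f i := by
  obtain ⟨d, p, hd, h⟩ := D.span y y.2
  have hF : aeval D.h d * y = ∑ i, aeval D.h (p i) * D.θ ^ (i : ℕ) := by
    apply Subtype.ext
    have h1 : ((aeval D.h d * y : F) : LaurentSeries L)
        = aeval (Gauss.emb A D.hA) d * (y : LaurentSeries L) := by
      rw [← D.coe_aeval_h]; rfl
    have h2 : ((∑ i, aeval D.h (p i) * D.θ ^ (i : ℕ) : F) : LaurentSeries L)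
        = ∑ i, aeval (Gauss.emb A D.hA) (p i) * Gauss.emb A D.θA ^ (i : ℕ) := by
      show F.val (∑ i, aeval D.h (p i) * D.θ ^ (i : ℕ)) = _
      rw [map_sum]
      refine Finset.sum_congr rfl fun i _ => ?_
      rw [map_mul, map_pow]
      congr 1
      exact D.coe_aeval_h (p i)
    rw [h1, h2]
    exact h
  have h1 : aeval D.h d ∈ Submodule.span L (F₀ D : Set F) := by
    have := mem_span_F₀ D d 0
    rwa [pow_zero, mul_one] at this
  have h2 : aeval D.h d * y ∈ Submodule.span L (F₀ D : Set F) := by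
    rw [hF]
    exact Submodule.sum_mem _ fun i _ => mem_span_F₀ D (p i) i
  obtain ⟨m₁, c₁, g₁, e₁⟩ := Submodule.mem_span_set'.mp h1
  obtain ⟨m₂, c₂, g₂, e₂⟩ := Submodule.mem_span_set'.mp h2
  have hsum1 : ∑ i, algebraMap L F (Fin.append c₁ (fun _ : Fin m₂ => (0 : L)) i)
      * Fin.append (fun i => (g₁ i : F)) (fun _ : Fin m₂ => (0 : F)) i = aeval D.h d := by
    rw [Fin.sum_univ_add, ← e₁]
    simp [Algebra.smul_def]
  have hsum2 : ∑ i, algebraMap L F (Fin.append (fun _ : Fin m₁ => (0 : L)) c₂ i)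
      * Fin.append (fun _ : Fin m₁ => (0 : F)) (fun i => (g₂ i : F)) i = aeval D.h d * y := by
    rw [Fin.sum_univ_add, ← e₂]
    simp [Algebra.smul_def]
  refine ⟨m₁ + m₂, Fin.append (fun _ => 0) c₂, Fin.append c₁ (fun _ => 0),
    Fin.append (fun _ => 0) (fun i => (g₂ i : F)), Fin.append (fun i => (g₁ i : F)) (fun _ => 0),
    ?_, ?_, ?_, ?_⟩
  · intro i
    refine Fin.addCases (fun j => ?_) (fun j => ?_) i
    · rw [Fin.append_left]; exact (F₀ D).zero_mem
    · rw [Fin.append_right]; exact (g₂ j).2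
  · intro i
    refine Fin.addCases (fun j => ?_) (fun j => ?_) i
    · rw [Fin.append_left]; exact (g₁ j).2
    · rw [Fin.append_right]; exact (F₀ D).zero_mem
  · rw [hsum1]
    exact D.aeval_ne_zero d hd
  · rw [hsum1, hsum2]

theorem κemb_ρ_θ_pow (i : ℕ) (hmem : D.θ ^ i ∈ D.goodVal.V) :
    D.κemb (D.goodVal.ρ ⟨D.θ ^ i, hmem⟩) = Gauss.red A D.θA ^ i := by
  rw [D.κemb_ρ]
  have h1 : (⟨D.θ ^ i, hmem⟩ : D.goodVal.V) = ⟨D.θ, D.θ_mem_V⟩ ^ i := Subtype.ext rfl
  rw [h1, map_pow, D.rhoV_θ]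

theorem adjoin_inv_eq {k κ : Type*} [Field k] [Field κ] [Algebra k κ] (a : κ) :
    IntermediateField.adjoin k {a⁻¹} = IntermediateField.adjoin k {a} := by
  apply le_antisymm
  · rw [IntermediateField.adjoin_le_iff]
    rintro x rfl
    exact inv_mem (IntermediateField.mem_adjoin_simple_self k a)
  · rw [IntermediateField.adjoin_le_iff]
    intro x hx
    rw [Set.mem_singleton_iff.mp hx]
    have := inv_mem (IntermediateField.mem_adjoin_simple_self k a⁻¹)
    rwa [inv_inv] at this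

theorem ρ_hinv (hmem : D.h⁻¹ ∈ D.goodVal.V) :
    D.goodVal.ρ ⟨D.h⁻¹, hmem⟩ = D.goodVal.hbar⁻¹ := by
  have hh0 : D.h ≠ 0 := by
    intro h0
    exact Gauss.emb_ne_zero A D.red_hA_ne_zero (congrArg Subtype.val h0)
  have h1 : (⟨D.h⁻¹, hmem⟩ : D.goodVal.V) * ⟨D.h, D.goodVal.h_mem⟩ = 1 :=
    Subtype.ext (inv_mul_cancel₀ hh0)
  have h2 := congrArg D.goodVal.ρ h1
  rw [map_mul, map_one] at h2
  exact eq_inv_of_mul_eq_one_left h2

/-- **(hfull)** the reductions of `1, θ, …, θ^{n-1}` are independent over `k(x̄)`,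
`x ∈ {h, h⁻¹}`. -/
theorem hfull (x : F) (hx : x = D.h ∨ x = D.h⁻¹) (hxV : x ∈ D.goodVal.V)
    (Kbar : IntermediateField (IsLocalRing.ResidueField A) D.goodVal.κ)
    (hK : Kbar = IntermediateField.adjoin (IsLocalRing.ResidueField A)
      {D.goodVal.ρ ⟨x, hxV⟩}) :
    ∃ (r : Fin n → F) (hrV : ∀ i, r i ∈ D.goodVal.V), (∀ i, r i ∈ F₀ D) ∧
      LinearIndependent Kbar (fun i => D.goodVal.ρ ⟨r i, hrV i⟩) := by
  have hθV : ∀ i : Fin n, D.θ ^ (i : ℕ) ∈ D.goodVal.V :=
    fun i => D.goodVal.V.pow_mem D.θ_mem_V _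
  refine ⟨fun i => D.θ ^ (i : ℕ), hθV, fun i => (F₀ D).pow_mem (θ_mem_F₀ D) _, ?_⟩
  have hK' : Kbar = IntermediateField.adjoin (IsLocalRing.ResidueField A) {D.goodVal.hbar} := by
    rcases hx with rfl | rfl
    · exact hK
    · rw [hK, ρ_hinv D hxV, adjoin_inv_eq]
  subst hK'
  apply linearIndependent_adjoin_of_polyIndep
  intro P hP
  apply D.indep
  have h1 := congrArg D.κembAlg hP
  rw [map_sum, map_zero] at h1
  rw [← h1]
  refine Finset.sum_congr rfl fun i _ => ?_
  rw [map_mul, ← Polynomial.aeval_algHom_apply, D.κembAlg_apply, D.κembAlg_apply, D.κemb_hbar,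
    κemb_ρ_θ_pow]

include hh hθ in
/-- reductions of rational elements of `V` have coefficients in the prime field. -/
theorem rhoV_mem_prime (ℓ : ℕ) [Fact ℓ.Prime] [Algebra (ZMod ℓ) (IsLocalRing.ResidueField A)]
    (y : F) (hy₀ : y ∈ F₀ D) (hyV : y ∈ D.goodVal.V) :
    ∃ z : LaurentSeries (ZMod ℓ), D.rhoV ⟨y, hyV⟩
      = coeffMap (algebraMap (ZMod ℓ) (IsLocalRing.ResidueField A)) z := by
  obtain ⟨a, b, hb, hab⟩ := mem_F₀_int D hZ θZ hh hθ y hy₀
  obtain ⟨a', b', hb', hab'⟩ := exists_int_rep A ℓ (y : LaurentSeries L) hyV a b hb hab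
  have hredZ : ∀ z : LaurentSeries ℤ,
      coeffMap (Int.castRingHom (IsLocalRing.ResidueField A)) z
        = coeffMap (algebraMap (ZMod ℓ) (IsLocalRing.ResidueField A))
            (coeffMap (Int.castRingHom (ZMod ℓ)) z) := by
    intro z
    rw [coeffMap_coeffMap]
    exact coeffMap_congr (RingHom.ext_int _ _) z
  refine ⟨coeffMap (Int.castRingHom (ZMod ℓ)) a' / coeffMap (Int.castRingHom (ZMod ℓ)) b', ?_⟩
  rw [D.rhoV_eq ⟨y, hyV⟩ (intA A b') (intA A a') (by rw [red_intA]; exact hb')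
    (by rw [emb_intA, emb_intA]; exact hab'), red_intA, red_intA, map_div₀, ← hredZ, ← hredZ]

include hh hθ in
/-- **(hdisj)** rational elements of `V` whose reductions are independent over `𝔽_ℓ[x̄]` have
reductions independent over `k(x̄)`. -/
theorem hdisj (ℓ : ℕ) (hℓp : ℓ.Prime) (hℓ : IsLocalRing.residue A (ℓ : A) = 0)
    (x : F) (hx₀ : x ∈ F₀ D) (hxV : x ∈ D.goodVal.V)
    (Kbar : IntermediateField (IsLocalRing.ResidueField A) D.goodVal.κ)
    (hK : Kbar = IntermediateField.adjoin (IsLocalRing.ResidueField A)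
      {D.goodVal.ρ ⟨x, hxV⟩})
    (m : ℕ) (r : Fin m → F) (hr₀ : ∀ i, r i ∈ F₀ D) (hrV : ∀ i, r i ∈ D.goodVal.V)
    (H : ∀ p : Fin m → ℤ[X], ∀ hmem : ∑ i, aeval x (p i) * r i ∈ D.goodVal.V,
      D.goodVal.ρ ⟨_, hmem⟩ = 0 → ∀ i, C (ℓ : ℤ) ∣ p i) :
    LinearIndependent Kbar (fun i => D.goodVal.ρ ⟨r i, hrV i⟩) := by
  haveI : Fact ℓ.Prime := ⟨hℓp⟩
  haveI : CharP (IsLocalRing.ResidueField A) ℓ := by
    rw [CharP.charP_iff_prime_eq_zero hℓp, ← map_natCast (IsLocalRing.residue A)]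
    exact hℓ
  letI : Algebra (ZMod ℓ) (IsLocalRing.ResidueField A) := ZMod.algebra _ ℓ
  subst hK
  apply linearIndependent_adjoin_of_polyIndep
  intro Q hQ
  obtain ⟨ξ, hξ⟩ := rhoV_mem_prime D hZ θZ hh hθ ℓ x hx₀ hxV
  choose ρ' hρ' using fun i => rhoV_mem_prime D hZ θZ hh hθ ℓ (r i) (hr₀ i) (hrV i)
  have hQ' : ∑ i, aeval (coeffMap (algebraMap (ZMod ℓ) (IsLocalRing.ResidueField A)) ξ) (Q i)
      * coeffMap (algebraMap (ZMod ℓ) (IsLocalRing.ResidueField A)) (ρ' i) = 0 := by
    have h1 := congrArg D.κembAlg hQ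
    rw [map_sum, map_zero] at h1
    rw [← h1]
    refine Finset.sum_congr rfl fun i _ => ?_
    rw [map_mul, ← Polynomial.aeval_algHom_apply, D.κembAlg_apply, D.κembAlg_apply, D.κemb_ρ,
      D.κemb_ρ, hξ, hρ' i]
  refine polyIndep_coeffMap ξ ρ' ?_ Q hQ'
  intro P hP i
  have hsurj : ∀ j, ∃ p : ℤ[X], p.map (Int.castRingHom (ZMod ℓ)) = P j :=
    fun j => Polynomial.map_surjective _ (ZMod.intCast_surjective) (P j)
  choose p hp using hsurj
  let xV : D.goodVal.V := ⟨x, hxV⟩
  let rV : Fin m → D.goodVal.V := fun i => ⟨r i, hrV i⟩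
  have hcoe : ((∑ i, aeval xV (p i) * rV i : D.goodVal.V) : F) = ∑ i, aeval x (p i) * r i := by
    rw [AddSubmonoidClass.coe_finsetSum]
    refine Finset.sum_congr rfl fun i _ => ?_
    rw [MulMemClass.coe_mul]
    congr 1
    exact (Polynomial.aeval_algHom_apply (D.goodVal.V.subtype.toIntAlgHom) xV (p i)).symm
  have hmem : ∑ i, aeval x (p i) * r i ∈ D.goodVal.V := by
    rw [← hcoe]
    exact SetLike.coe_mem _
  have hρ0 : D.goodVal.ρ ⟨_, hmem⟩ = 0 := by
    apply D.κemb_injective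
    rw [D.κemb_ρ, map_zero]
    have h1 : (⟨_, hmem⟩ : D.goodVal.V) = ∑ i, aeval xV (p i) * rV i := Subtype.ext hcoe.symm
    rw [h1, map_sum]
    have h2 : ∀ i, D.rhoV (aeval xV (p i) * rV i)
        = coeffMap (algebraMap (ZMod ℓ) (IsLocalRing.ResidueField A)) (aeval ξ (P i) * ρ' i) := by
      intro i
      rw [map_mul, map_mul, ← hρ' i]
      congr 1
      have e1 : D.rhoV (aeval xV (p i))
          = eval₂ (Int.castRingHom _) (D.rhoV xV) (p i) := map_aeval_int D.rhoV xV (p i)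
      have e2 : coeffMap (algebraMap (ZMod ℓ) (IsLocalRing.ResidueField A)) (aeval ξ (P i))
          = eval₂ (Int.castRingHom _)
            (coeffMap (algebraMap (ZMod ℓ) (IsLocalRing.ResidueField A)) ξ) (p i) := by
        rw [← hp i]
        exact map_aeval_map_int _ ξ (p i)
      rw [e1, e2, hξ]
    simp only [h2]
    rw [← map_sum, hP, map_zero]
  obtain ⟨q, hq⟩ := H p hmem hρ0 i
  rw [← hp i, hq, Polynomial.map_mul, Polynomial.map_C]
  simp

end Model

end Fermat.Agent.S18.Model
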