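import Mathlib
import Fermat.Agent.S18_LayerR
import Fermat.Agent.S18_Model
import Fermat.Prelude.Def_FLTPrelim_Ramification
import Fermat.Prelude.Def_ModularCurve_ArithmeticGalois

/-!
# S18, Layer R for a Gauss datum with integer-series generators

The final Layer-R output (C4): for `D : Gauss.Datum A F n` whose generators `h`, `θ` are integer
series and a chart `x ∈ {h, h⁻¹}`, there is a `LocalBasis`.
-/

set_option autoImplicit false

noncomputable section

open ModularCurve Polynomial

namespace Fermat.Agent.S18.LayerR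

/-- Layer R for a Gauss datum over any valued field of characteristic zero, algebraic over `ℚ`. -/
theorem exists_localBasis_datum' {L : Type*} [Field L] [CharZero L] [Algebra.IsAlgebraic ℚ L]
    {A : ValuationSubring L} {F : IntermediateField L (LaurentSeries L)} {n : ℕ}
    (D : Gauss.Datum A F n) (hn : 0 < n) (ℓ : ℕ) (hℓp : ℓ.Prime)
    (hℓ : IsLocalRing.residue A (ℓ : A) = 0) (hZ θZ : LaurentSeries ℤ)
    (hh : D.hA = coeffMap (Int.castRingHom A) hZ) (hθ : D.θA = coeffMap (Int.castRingHom A) θZ)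
    {x : F} {Kx : IntermediateField L F}
    {Kbar : IntermediateField (IsLocalRing.ResidueField A) D.goodVal.κ}
    (hx : x = D.h ∨ x = D.h⁻¹) (hC : E1.ChartVal D.goodVal x Kx Kbar n) :
    ∃ (e : Fin n → F) (s : Polynomial A), E1.LocalBasis D.goodVal x Kbar e s := by
  have hx₀ : x ∈ Model.F₀ D := by
    rcases hx with rfl | rfl
    · exact Model.h_mem_F₀ D
    · exact (Model.F₀ D).inv_mem (Model.h_mem_F₀ D)
  exact exists_localBasis_of_model D.goodVal hC hn ℓ hℓp hℓ (Model.F₀ D) hx₀
    (Model.hLD D hZ θZ hh hθ) (Model.hgen D)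
    (fun m r hr₀ hrV H =>
      Model.hdisj D hZ θZ hh hθ ℓ hℓp hℓ x hx₀ hC.x_mem Kbar hC.Kbar_eq m r hr₀ hrV H)
    (Model.hfull D x hx hC.x_mem Kbar hC.Kbar_eq)

/-- **(C4)** Layer R for a Gauss datum on the modular function field of level `M` over `ℚ̄`. -/
theorem exists_localBasis_datum {ℓ : ℕ} [Fact ℓ.Prime]
    (A : ValuationSubring (AlgebraicClosure ℚ)) (hA : A.LiesOverPrime ℓ) {M n : ℕ}
    (D : Gauss.Datum A (modularFunctionFieldBar M) n) (hn : 0 < n) (hZ θZ : LaurentSeries ℤ)
    (hh : D.hA = coeffMap (Int.castRingHom A) hZ) (hθ : D.θA = coeffMap (Int.castRingHom A) θZ)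
    {x : modularFunctionFieldBar M}
    {Kx : IntermediateField (AlgebraicClosure ℚ) (modularFunctionFieldBar M)}
    {Kbar : IntermediateField (IsLocalRing.ResidueField A) D.goodVal.κ}
    (hx : x = D.h ∨ x = D.h⁻¹) (hC : E1.ChartVal D.goodVal x Kx Kbar n) :
    ∃ (e : Fin n → modularFunctionFieldBar M) (s : Polynomial A),
      E1.LocalBasis D.goodVal x Kbar e s := by
  have : Algebra.IsAlgebraic ℚ (AlgebraicClosure ℚ) := AlgebraicClosure.isAlgebraic ℚ
  have h1 : ((ℓ : ℕ) : A) ∈ IsLocalRing.maximalIdeal A := by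
    rw [A.valuation_lt_one_iff]
    have : (((ℓ : ℕ) : A) : AlgebraicClosure ℚ) = ((ℓ : ℕ) : AlgebraicClosure ℚ) := by
      push_cast
      rfl
    rw [this]
    exact hA
  have hℓ : IsLocalRing.residue A ((ℓ : ℕ) : A) = 0 :=
    (IsLocalRing.residue_eq_zero_iff _).mpr h1
  exact exists_localBasis_datum' D hn ℓ Fact.out hℓ hZ θZ hh hθ hx hC

end Fermat.Agent.S18.LayerR
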