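import Mathlib
import Fermat.Agent.S18_Datum
import Fermat.Agent.S18_GaussHub
import Fermat.Agent.S18_G2Final
import Fermat.Agent.S18_HubMain
import Fermat.Agent.S18_ValRing
import Fermat.Agent.S18_LayerRDatum
import Fermat.Agent.S18_E1Main
import Fermat.Agent.S18_Branch

/-!
# S18: the package at an auxiliary level

For a Hauptmodul `H : H1.Haupt M hZ P Q d` of level `M` prime to `ℓ`, a finite branch set `B`
in `A` which does not collide modulo the maximal ideal and outside of which `H.gen` is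
unramified, there is a Gauss datum `D` on `F_M` whose Gauss valuation satisfies the main
statement of the hub.  The three instances (`j`, `h₂`, `h₃`) follow.
-/

set_option autoImplicit false
set_option linter.style.haveILetI false

noncomputable section

open ModularCurve Polynomial AlgebraicCurve Fermat.Agent.S24

namespace Fermat.Agent.S18.Package

set_option maxHeartbeats 1000000 in
/-- the hub's main statement for the Gauss datum of a Hauptmodul of level `M`. -/
theorem package (M : ℕ) [NeZero M] (ℓ : ℕ) [Fact ℓ.Prime] (hℓM : ¬ ℓ ∣ M)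
    (A : ValuationSubring (AlgebraicClosure ℚ)) (hA : A.LiesOverPrime ℓ)
    {hZ : LaurentSeries ℤ} {P Q : ℤ[X]} {d : ℕ} (H : H1.Haupt M hZ P Q d)
    (B : Finset A) (hB : Set.InjOn (IsLocalRing.residue A) (B : Set A))
    (hunr : ∀ c : AlgebraicClosure ℚ, (∀ b ∈ B, (b : AlgebraicClosure ℚ) ≠ c) →
      Nat.card (PlacesAt (AlgebraicClosure ℚ) (H.gen (AlgebraicClosure ℚ)) c)
        = Module.finrank (IntermediateField.adjoin (AlgebraicClosure ℚ)
            {H.gen (AlgebraicClosure ℚ)}) (Tower.FuncField (AlgebraicClosure ℚ) M)) :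
    ∃ (n : ℕ) (D : Gauss.Datum A (modularFunctionFieldBar M) n),
      MainStatement A D.h D.goodVal := by
  haveI : IsAlgClosed (IsLocalRing.ResidueField A) := ValRing.isAlgClosed_residueField A
  obtain ⟨n, D, hn, hmul, hhA, hθA⟩ := Gauss.exists_datum M ℓ hℓM A hA H
  have hgen := D.isGenerator_of_haupt H hhA
  have hsep := Gauss.Datum.isSeparable_of_haupt ℓ hℓM hA D H hhA hθA
  have hC0 := D.chartVal_zero hsep
  have hCi := D.chartVal_inf hsep
  obtain ⟨e0, s0, hLB0⟩ :=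
    LayerR.exists_localBasis_datum A hA D hn hZ (H1.uZ M) hhA hθA (Or.inl rfl) hC0
  obtain ⟨ei, si, hLBi⟩ :=
    LayerR.exists_localBasis_datum A hA D hn hZ (H1.uZ M) hhA hθA (Or.inr rfl) hCi
  have hunr' : ∀ c : AlgebraicClosure ℚ, (∀ b ∈ B, (b : AlgebraicClosure ℚ) ≠ c) →
      Nat.card (PlacesAt (AlgebraicClosure ℚ) D.h c)
        = Module.finrank (IntermediateField.adjoin (AlgebraicClosure ℚ) {D.h})
            (modularFunctionFieldBar M) := by
    rw [D.h_eq_gen H hhA]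
    exact hunr
  obtain ⟨g, hg, hG2⟩ := G2.exists_G2 D.goodVal hgen hC0 hCi B hB hunr'
    (fun b _ hu => E1.E_chart hC0 hLB0 b hu) (fun hu => E1.E_chart hCi hLBi 0 hu)
  exact ⟨n, D, HubMain.main_theorem D.goodVal (ValRing.archimedean' A hA) hgen
    (D.transferZero hgen) (D.transferInf hgen) D.latticeLemma g hg hG2⟩

/-- the package for `j` on any level prime to `ℓ ≥ 5`. -/
theorem package_j (M : ℕ) [NeZero M] (ℓ : ℕ) [Fact ℓ.Prime] (hℓM : ¬ ℓ ∣ M)
    (A : ValuationSubring (AlgebraicClosure ℚ)) (hA : A.LiesOverPrime ℓ) (hℓ : 5 ≤ ℓ) :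
    ∃ (n : ℕ) (D : Gauss.Datum A (modularFunctionFieldBar M) n),
      MainStatement A D.h D.goodVal := by
  haveI : Algebra.IsAlgebraic ℚ (AlgebraicClosure ℚ) := AlgebraicClosure.isAlgebraic ℚ
  letI : Algebra (AlgebraicClosure ℚ) ℂ :=
    (IsAlgClosed.lift : AlgebraicClosure ℚ →ₐ[ℚ] ℂ).toRingHom.toAlgebra
  exact package M ℓ hℓM A hA (H1.haupt_j M) (Branch.branchJ A)
    (Branch.hB_j A ℓ (ValRing.charP_residueField A hA) hℓ)
    (Branch.hunr_j (AlgebraicClosure ℚ) M A _ ((H1.haupt_j M).gen_rel (AlgebraicClosure ℚ)))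

/-- the package for `h₂` on a level divisible by `2`, `ℓ = 3`. -/
theorem package_h2 (M : ℕ) [NeZero M] (ℓ : ℕ) [Fact ℓ.Prime] (hℓM : ¬ ℓ ∣ M)
    (A : ValuationSubring (AlgebraicClosure ℚ)) (hA : A.LiesOverPrime ℓ) (hℓ : ℓ = 3)
    (hM : 2 ∣ M) :
    ∃ (n : ℕ) (D : Gauss.Datum A (modularFunctionFieldBar M) n),
      MainStatement A D.h D.goodVal := by
  haveI : Algebra.IsAlgebraic ℚ (AlgebraicClosure ℚ) := AlgebraicClosure.isAlgebraic ℚ
  letI : Algebra (AlgebraicClosure ℚ) ℂ :=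
    (IsAlgClosed.lift : AlgebraicClosure ℚ →ₐ[ℚ] ℂ).toRingHom.toAlgebra
  exact package M ℓ hℓM A hA (H1.haupt_h2 M hM) (Branch.branch2 A)
    (Branch.hB_h2 A ℓ (ValRing.charP_residueField A hA) hℓ)
    (Branch.hunr_h2 (AlgebraicClosure ℚ) M A _ ((H1.haupt_h2 M hM).gen_rel (AlgebraicClosure ℚ)))

/-- the package for `h₃` on a level divisible by `3`, `ℓ = 2`. -/
theorem package_h3 (M : ℕ) [NeZero M] (ℓ : ℕ) [Fact ℓ.Prime] (hℓM : ¬ ℓ ∣ M)
    (A : ValuationSubring (AlgebraicClosure ℚ)) (hA : A.LiesOverPrime ℓ) (hℓ : ℓ = 2)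
    (hM : 3 ∣ M) :
    ∃ (n : ℕ) (D : Gauss.Datum A (modularFunctionFieldBar M) n),
      MainStatement A D.h D.goodVal := by
  haveI : Algebra.IsAlgebraic ℚ (AlgebraicClosure ℚ) := AlgebraicClosure.isAlgebraic ℚ
  letI : Algebra (AlgebraicClosure ℚ) ℂ :=
    (IsAlgClosed.lift : AlgebraicClosure ℚ →ₐ[ℚ] ℂ).toRingHom.toAlgebra
  exact package M ℓ hℓM A hA (H1.haupt_h3 M hM) (Branch.branch3 A)
    (Branch.hB_h3 A ℓ (ValRing.charP_residueField A hA) hℓ)
    (Branch.hunr_h3 (AlgebraicClosure ℚ) M A _ ((H1.haupt_h3 M hM).gen_rel (AlgebraicClosure ℚ)))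

end Fermat.Agent.S18.Package
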