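import Fermat.Statements.S18
import Fermat.Agent.S18_Package
import Fermat.Agent.S18_Outer

set_option autoImplicit false
set_option linter.style.haveILetI false
open ModularCurve

namespace Fermat.Agent.S18

theorem result (N : ℕ) [NeZero N] {ℓ : ℕ}
    [Fact ℓ.Prime] (hℓN : ¬ ℓ ∣ N) (A : ValuationSubring (AlgebraicClosure ℚ)) (hA : A.LiesOverPrime ℓ)
    (h : ModularCurve.ReductionInputsModL A N) (m : ℕ) (hm : ¬ ℓ ∣ m) (z : ModularCurve.JZero N)
    (hmz : m • z = 0) (hz : ModularCurve.reductionModL A N z = 0) :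
    z = 0 := by
  haveI : CharP (IsLocalRing.ResidueField A) ℓ := ValRing.charP_residueField A hA
  letI : Algebra (ZMod ℓ) (IsLocalRing.ResidueField A) := ZMod.algebra _ ℓ
  have hspan := H1.uZ_span N
  have hmc := H1.polyIndep_j N ℓ (ZMod ℓ) hℓN
  have hsep := H1.isSeparable_j N ℓ (IsLocalRing.ResidueField A) hℓN
  have hℓp : ℓ.Prime := Fact.out
  have hN0 : N ≠ 0 := NeZero.ne N
  by_cases h5 : 5 ≤ ℓ
  · -- `ℓ ≥ 5`: the `j`-line itself
    exact Outer.outer_same A N hA (H1.psi N) (H1.uZ N) hspan hmc hsep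
      (Package.package_j N ℓ hℓN A hA h5) h m hm z hmz hz
  · have h23 : ℓ = 2 ∨ ℓ = 3 := by
      have h2 := hℓp.two_le
      have hlt : ℓ < 5 := Nat.lt_of_not_le h5
      have h4 : ℓ ≠ 4 := by
        rintro rfl
        exact absurd hℓp (by norm_num)
      omega
    rcases h23 with h2 | h3
    · -- `ℓ = 2`: the Hauptmodul of level `3`
      by_cases hN3 : 3 ∣ N
      · exact Outer.outer_same A N hA (H1.psi N) (H1.uZ N) hspan hmc hsep
          (Package.package_h3 N ℓ hℓN A hA h2 hN3) h m hm z hmz hz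
      · haveI : Fact (Nat.Prime 3) := ⟨Nat.prime_three⟩
        haveI : NeZero (3 * N) := ⟨Nat.mul_ne_zero (by norm_num) hN0⟩
        have hℓ3N : ¬ ℓ ∣ 3 * N := by
          intro hd
          rcases (Nat.Prime.dvd_mul hℓp).mp hd with hd | hd
          · rw [h2] at hd
            exact absurd hd (by norm_num)
          · exact hℓN hd
        have hm2 : ¬ 2 ∣ m := by
          rw [← h2]
          exact hm
        exact Outer.outer_level A N 3 hN3 hA (H1.psi N) (H1.uZ N) hspan hmc hsep
          (Package.package_h3 (3 * N) ℓ hℓ3N A hA h2 (Dvd.intro N rfl)) h m hm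
          (Outer.coprime_three_add_one hm2) z hmz hz
    · -- `ℓ = 3`: the Hauptmodul of level `2`
      by_cases hN2 : 2 ∣ N
      · exact Outer.outer_same A N hA (H1.psi N) (H1.uZ N) hspan hmc hsep
          (Package.package_h2 N ℓ hℓN A hA h3 hN2) h m hm z hmz hz
      · haveI : Fact (Nat.Prime 2) := ⟨Nat.prime_two⟩
        haveI : NeZero (2 * N) := ⟨Nat.mul_ne_zero (by norm_num) hN0⟩
        have hℓ2N : ¬ ℓ ∣ 2 * N := by
          intro hd
          rcases (Nat.Prime.dvd_mul hℓp).mp hd with hd | hd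
          · rw [h3] at hd
            exact absurd hd (by norm_num)
          · exact hℓN hd
        have hm3 : ¬ 3 ∣ m := by
          rw [← h3]
          exact hm
        exact Outer.outer_level A N 2 hN2 hA (H1.psi N) (H1.uZ N) hspan hmc hsep
          (Package.package_h2 (2 * N) ℓ hℓ2N A hA h3 (Dvd.intro N rfl)) h m hm
          (Outer.coprime_two_add_one hm3) z hmz hz

end Fermat.Agent.S18
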