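import Mathlib
import Fermat.Agent.S18_Hub
import Fermat.Agent.S18_Charts
import Fermat.Agent.S18_E1Defs
import Fermat.Agent.S18_E1Fibre
import Fermat.Agent.S18_ValRing
import Fermat.Agent.S24_Places

/-!
# S18, WP-E1, assembly: the chart inequality `[E]` from the structure data of a local basis

`Asm.E_chart_of_data`: given a `ChartVal`, a `LocalBasis` `e, s`, structure constants
`a, u ∈ O[X]` (`s(x) e_i e_j = ∑ a_ijl(x) e_l`, `s(x) = ∑ u_l(x) e_l`), the discriminant
polynomial `D₀ ∈ O[X]` of `e` together with its reduction, and the fibre count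
(`#{residue solutions of the structure equations at b} ≤ #PlacesAt x b`), the chart inequality
`2 n ≤ 2 #PlacesAt x b + discOrd k x̄ b̄ + discOrd L x b` holds.
-/

set_option autoImplicit false
set_option linter.style.haveILetI false
set_option linter.unusedSectionVars false

noncomputable section

open Polynomial IntermediateField AlgebraicCurve Fermat.Agent.S24

namespace Fermat.Agent.S18.E1

open Fermat.Agent.S18.Charts

variable {L F : Type*} [Field L] [Field F] [Algebra L F]

namespace Asm

variable {O : ValuationSubring L} {h : F} (G : GoodVal O h)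

/-- evaluation of a polynomial over `O` at an element of `V`. -/
def evalV {x : F} (hx : x ∈ G.V) (p : Polynomial O) : G.V := p.eval₂ G.incl ⟨x, hx⟩

theorem coe_evalV {x : F} (hx : x ∈ G.V) (p : Polynomial O) :
    ((evalV G hx p : G.V) : F) = aeval x (p.map (algebraMap O L)) := by
  have h1 : G.V.subtype (p.eval₂ G.incl ⟨x, hx⟩)
      = p.eval₂ (G.V.subtype.comp G.incl) (G.V.subtype ⟨x, hx⟩) := Polynomial.hom_eval₂ _ _ _ _
  have h2 : (G.V.subtype.comp G.incl) = (algebraMap L F).comp (algebraMap O L) := by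
    ext c; rfl
  rw [aeval_def, eval₂_map, ← h2]
  exact h1

theorem aeval_map_mem {x : F} (hx : x ∈ G.V) (p : Polynomial O) :
    aeval x (p.map (algebraMap O L)) ∈ G.V := by
  rw [← coe_evalV G hx p]; exact (evalV G hx p).2

theorem ρ_evalV {x : F} (hx : x ∈ G.V) (p : Polynomial O) :
    G.ρ (evalV G hx p) = aeval (G.ρ ⟨x, hx⟩) (p.map (IsLocalRing.residue O)) := by
  have h1 : G.ρ (p.eval₂ G.incl ⟨x, hx⟩)
      = p.eval₂ (G.ρ.comp G.incl) (G.ρ ⟨x, hx⟩) := Polynomial.hom_eval₂ _ _ _ _
  have h2 : (algebraMap (IsLocalRing.ResidueField O) G.κ).comp (IsLocalRing.residue O)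
      = G.ρ.comp G.incl := IsLocalRing.ResidueField.map_comp_residue G.incl
  rw [aeval_def, eval₂_map, h2]
  exact h1

theorem ρ_aeval {x : F} (hx : x ∈ G.V) (p : Polynomial O) :
    G.ρ ⟨aeval x (p.map (algebraMap O L)), aeval_map_mem G hx p⟩
      = aeval (G.ρ ⟨x, hx⟩) (p.map (IsLocalRing.residue O)) := by
  rw [← ρ_evalV G hx p]
  congr 1
  exact Subtype.ext (coe_evalV G hx p).symm

/-- `Charts.rootMultiplicity_eq_discOrd_of_local` with a general index type `Fin n`. -/
theorem rootMultiplicity_local {K E : Type*} [Field K] [Field E] [Algebra K E] {h : E}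
    (hh : Transcendental K h)
    [FiniteDimensional (IntermediateField.adjoin K {h}) E]
    [Algebra.IsSeparable (IntermediateField.adjoin K {h}) E] (b : K) {n : ℕ}
    (hn : Module.finrank (IntermediateField.adjoin K {h}) E = n)
    (ε : Fin n → E)
    (hε : ∀ i, IsIntegral (Algebra.adjoin K {h}) (ε i)) (Dε : K[X])
    (hDε : algebraMap (IntermediateField.adjoin K {h}) E
      (Algebra.discr (IntermediateField.adjoin K {h}) ε) = aeval h Dε)
    (hloc : ∀ x : E, IsIntegral (Algebra.adjoin K {h}) x → ∃ s : K[X], s.eval b ≠ 0 ∧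
      ∃ p : Fin n → K[X], aeval h s * x = ∑ i, aeval h (p i) * ε i) :
    Dε.rootMultiplicity b = discOrd K h b := by
  subst hn
  exact rootMultiplicity_eq_discOrd_of_local hh b ε hε Dε hDε hloc

/-- `E1.fibre_bound` with a general index type `Fin n`. -/
theorem fibre_bound_fin {k κ : Type*} [Field k] [IsAlgClosed k] [Field κ] [Algebra k κ]
    (xb : κ) (hx : Transcendental k xb)
    [FiniteDimensional (IntermediateField.adjoin k {xb}) κ]
    [Algebra.IsSeparable (IntermediateField.adjoin k {xb}) κ] {n : ℕ}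
    (hn : Module.finrank (IntermediateField.adjoin k {xb}) κ = n)
    (ε : Fin n → κ)
    (hli : LinearIndependent (IntermediateField.adjoin k {xb}) ε)
    (a : Fin n → Fin n → Fin n → k[X]) (u : Fin n → k[X])
    (hmul : ∀ i j, ε i * ε j = ∑ l, aeval xb (a i j l) * ε l)
    (hone : (1 : κ) = ∑ l, aeval xb (u l) * ε l)
    (Dε : k[X])
    (hD : algebraMap (IntermediateField.adjoin k {xb}) κ
      (Algebra.discr (IntermediateField.adjoin k {xb}) ε) = aeval xb Dε)
    (b : k) (σ : ℕ)
    (hσ : Nat.card {θ : Fin n → k //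
        (∀ i j, θ i * θ j = ∑ l, (a i j l).eval b * θ l) ∧ ∑ l, (u l).eval b * θ l = 1} ≤ σ) :
    2 * (n - σ) ≤ Dε.rootMultiplicity b + discOrd k xb b := by
  subst hn
  exact fibre_bound xb hx ε hli a u hmul hone Dε hD b σ hσ

/-- **[E] on a chart, from the structure data.** -/
theorem E_chart_of_data [IsAlgClosed L] [CharZero L] {O : ValuationSubring L}
    [IsAlgClosed (IsLocalRing.ResidueField O)] {h : F}
    (G : GoodVal O h) {x : F} {Kx : IntermediateField L F}
    {Kbar : IntermediateField (IsLocalRing.ResidueField O) G.κ} {n : ℕ}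
    (hC : ChartVal G x Kx Kbar n) {e : Fin n → F} {s : Polynomial O}
    (hLB : LocalBasis G x Kbar e s) (b : O)
    (hunr : ∀ c : O, c ≠ b → O.valuation ((c : L) - (b : L)) < 1 → discOrd L x (c : L) = 0)
    (a : Fin n → Fin n → Fin n → Polynomial O) (u : Fin n → Polynomial O) (D₀ : Polynomial O)
    (hmul : ∀ i j, aeval x (s.map (algebraMap O L)) * (e i * e j)
      = ∑ l, aeval x ((a i j l).map (algebraMap O L)) * e l)
    (hone : aeval x (s.map (algebraMap O L)) = ∑ l, aeval x ((u l).map (algebraMap O L)) * e l)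
    (hdisc : algebraMap Kx F (Algebra.discr Kx e) = aeval x (D₀.map (algebraMap O L)))
    (hdiscbar : algebraMap Kbar G.κ (Algebra.discr Kbar (fun i => G.ρ ⟨e i, hLB.e_mem i⟩))
      = aeval (G.ρ ⟨x, hC.x_mem⟩) (D₀.map (IsLocalRing.residue O)))
    (hfib : Nat.card {θ : Fin n → IsLocalRing.ResidueField O //
        (∀ i j, θ i * θ j = ∑ l, ((a i j l).map (IsLocalRing.residue O)).eval
            (IsLocalRing.residue O b) * θ l) ∧
          ∑ l, ((u l).map (IsLocalRing.residue O)).eval (IsLocalRing.residue O b) * θ l = 1}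
      ≤ Nat.card (PlacesAt L x (b : L))) :
    2 * n ≤ 2 * Nat.card (PlacesAt L x (b : L))
      + discOrd (IsLocalRing.ResidueField O) (G.ρ ⟨x, hC.x_mem⟩) (IsLocalRing.residue O b)
      + discOrd L x (b : L) := by
  classical
  rcases Nat.eq_zero_or_pos n with hn0 | hnpos
  · subst hn0; simp
  have hxm : x ∈ G.V := hC.x_mem
  have hKx : Kx = IntermediateField.adjoin L {x} := hC.Kx_eq
  have hKb : Kbar = IntermediateField.adjoin (IsLocalRing.ResidueField O) {G.ρ ⟨x, hxm⟩} :=
    hC.Kbar_eq
  subst hKx
  subst hKb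
  have hfr : Module.finrank (IntermediateField.adjoin L {x}) F = n := hC.finrank_eq
  have hfrb : Module.finrank
      (IntermediateField.adjoin (IsLocalRing.ResidueField O) {G.ρ ⟨x, hxm⟩}) G.κ = n :=
    hC.finrank_bar
  haveI : FiniteDimensional (IntermediateField.adjoin L {x}) F :=
    Module.finite_of_finrank_pos (by rw [hfr]; exact hnpos)
  haveI : FiniteDimensional
      (IntermediateField.adjoin (IsLocalRing.ResidueField O) {G.ρ ⟨x, hxm⟩}) G.κ :=
    Module.finite_of_finrank_pos (by rw [hfrb]; exact hnpos)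
  haveI : Algebra.IsSeparable
      (IntermediateField.adjoin (IsLocalRing.ResidueField O) {G.ρ ⟨x, hxm⟩}) G.κ := hC.sep
  -- reductions of the structure equations
  have hs1 : G.ρ ⟨aeval x (s.map (algebraMap O L)), aeval_map_mem G hxm s⟩ = 1 := by
    rw [ρ_aeval G hxm, hLB.s_res, map_one]
  have hmul' : ∀ i j, G.ρ ⟨e i, hLB.e_mem i⟩ * G.ρ ⟨e j, hLB.e_mem j⟩
      = ∑ l, aeval (G.ρ ⟨x, hxm⟩) ((a i j l).map (IsLocalRing.residue O))
          * G.ρ ⟨e l, hLB.e_mem l⟩ := by
    intro i j
    have h1 : (⟨aeval x (s.map (algebraMap O L)), aeval_map_mem G hxm s⟩ : G.V)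
        * (⟨e i, hLB.e_mem i⟩ * ⟨e j, hLB.e_mem j⟩)
        = ∑ l, (⟨aeval x ((a i j l).map (algebraMap O L)), aeval_map_mem G hxm _⟩ : G.V)
          * ⟨e l, hLB.e_mem l⟩ := by
      apply Subtype.ext
      simp only [MulMemClass.coe_mul, AddSubmonoidClass.coe_finsetSum]
      exact hmul i j
    have h2 := congrArg G.ρ h1
    rw [map_mul, map_mul, hs1, one_mul, map_sum] at h2
    rw [h2]
    refine Finset.sum_congr rfl (fun l _ => ?_)
    rw [map_mul, ρ_aeval G hxm]
  have hone' : (1 : G.κ) = ∑ l, aeval (G.ρ ⟨x, hxm⟩) ((u l).map (IsLocalRing.residue O))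
          * G.ρ ⟨e l, hLB.e_mem l⟩ := by
    have h1 : (⟨aeval x (s.map (algebraMap O L)), aeval_map_mem G hxm s⟩ : G.V)
        = ∑ l, (⟨aeval x ((u l).map (algebraMap O L)), aeval_map_mem G hxm _⟩ : G.V)
          * ⟨e l, hLB.e_mem l⟩ := by
      apply Subtype.ext
      simp only [MulMemClass.coe_mul, AddSubmonoidClass.coe_finsetSum]
      exact hone
    have h2 := congrArg G.ρ h1
    rw [hs1, map_sum] at h2
    rw [h2]
    refine Finset.sum_congr rfl (fun l _ => ?_)
    rw [map_mul, ρ_aeval G hxm]
  -- Lemma III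
  have hIII := fibre_bound_fin (G.ρ ⟨x, hxm⟩) hC.xbar_transcendental hfrb
    (fun i => G.ρ ⟨e i, hLB.e_mem i⟩) hLB.li_bar
    (fun i j l => (a i j l).map (IsLocalRing.residue O))
    (fun l => (u l).map (IsLocalRing.residue O)) hmul' hone'
    (D₀.map (IsLocalRing.residue O)) hdiscbar (IsLocalRing.residue O b)
    (Nat.card (PlacesAt L x (b : L))) hfib
  -- the discriminant polynomial does not vanish modulo the maximal ideal
  have hDne : D₀.map (IsLocalRing.residue O) ≠ 0 := by
    intro h0
    rw [h0, map_zero] at hdiscbar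
    haveI : Nonempty (Fin n) := ⟨⟨0, hnpos⟩⟩
    have hne := Algebra.discr_not_zero_of_basis
      (IntermediateField.adjoin (IsLocalRing.ResidueField O) {G.ρ ⟨x, hxm⟩})
      (basisOfLinearIndependentOfCardEqFinrank hLB.li_bar (by rw [Fintype.card_fin, hfrb]))
    apply hne
    rw [coe_basisOfLinearIndependentOfCardEqFinrank]
    exact (map_eq_zero _).mp hdiscbar
  -- local discriminants on the closed unit disc
  have hloc : ∀ c : O, (D₀.map (algebraMap O L)).rootMultiplicity (c : L)
      = discOrd L x (c : L) := by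
    intro c
    refine rootMultiplicity_local hC.x_transcendental (c : L) hfr e hLB.e_int _ hdisc ?_
    intro y hy
    obtain ⟨p, hp⟩ := hLB.span y hy
    refine ⟨s.map (algebraMap O L), ?_, p, hp⟩
    have h1 : (s.map (algebraMap O L)).eval (c : L) = ((s.eval c : O) : L) := by
      rw [eval_map]
      exact Polynomial.eval₂_at_apply (algebraMap O L) c
    have h2 : IsLocalRing.residue O (s.eval c) = 1 := by
      have h3 := congrArg (Polynomial.eval (IsLocalRing.residue O c)) hLB.s_res
      rw [eval_map, Polynomial.eval₂_at_apply, eval_one] at h3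
      exact h3
    intro h0
    rw [h1] at h0
    have h3 : s.eval c = 0 := Subtype.ext h0
    rw [h3, map_zero] at h2
    exact zero_ne_one h2
  -- A2
  have hA2 := ValRing.rootMultiplicity_residue_eq_card O D₀ hDne b
  have hcount : Multiset.card ((D₀.map (algebraMap O L)).roots.filter
      (fun c => O.valuation (c - (b : L)) < 1))
      = (D₀.map (algebraMap O L)).rootMultiplicity (b : L) := by
    have hfil : (D₀.map (algebraMap O L)).roots.filter
        (fun c => O.valuation (c - (b : L)) < 1)
        = (D₀.map (algebraMap O L)).roots.filter (· = (b : L)) := by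
      apply Multiset.filter_congr
      intro c hc
      constructor
      · intro hv
        by_contra hcb
        have hcO : c ∈ O := by
          have h1 : c - (b : L) ∈ O := (O.valuation_le_one_iff _).mp hv.le
          have h2 := O.add_mem _ _ h1 b.2
          simpa using h2
        have h0 := hunr ⟨c, hcO⟩ (fun h => hcb (congrArg Subtype.val h)) hv
        have h1 := hloc ⟨c, hcO⟩
        rw [h0] at h1
        have h2 : 0 < (D₀.map (algebraMap O L)).rootMultiplicity c :=
          (Polynomial.rootMultiplicity_pos (ne_zero_of_mem_roots hc)).mpr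
            (isRoot_of_mem_roots hc)
        simp only at h1
        omega
      · rintro rfl
        simp
    rw [hfil, ← Polynomial.count_roots, Multiset.count, Multiset.countP_eq_card_filter]
    exact congrArg Multiset.card (Multiset.filter_congr (fun c _ => eq_comm))
  have hfin : (D₀.map (IsLocalRing.residue O)).rootMultiplicity (IsLocalRing.residue O b)
      = discOrd L x (b : L) := by
    rw [hA2, hcount, hloc b]
  rw [hfin] at hIII
  omega

end Asm

end Fermat.Agent.S18.E1
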