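import Mathlib
import Fermat.Agent.S18_E1Asm
import Fermat.Agent.S18_LayerR

/-!
# S18, WP-E1: the structure data of a local basis

* `Asm.exists_coord`: an element of `V` integral over `L[x]` has coordinates in `O[X]` in a
  local basis (after multiplication by `s(x)`).
* `Asm.exists_disc`: the discriminant of a local basis is `D₀(x)` with `D₀ ∈ O[X]`, and the
  discriminant of the reduced family is `D̄₀(x̄)`.
-/

set_option autoImplicit false
set_option linter.style.haveILetI false
set_option linter.unusedSectionVars false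

noncomputable section

open Polynomial IntermediateField AlgebraicCurve Fermat.Agent.S24

namespace Fermat.Agent.S18.E1

open Fermat.Agent.S18.Charts

variable {L F : Type*} [Field L] [Field F] [Algebra L F]

namespace Asm

/-- coordinates in `O[X]` of an integral element of `V` in a local basis. -/
theorem exists_coord [CharZero L] {O : ValuationSubring L} {h : F}
    (G : GoodVal O h) {x : F} {Kx : IntermediateField L F}
    {Kbar : IntermediateField (IsLocalRing.ResidueField O) G.κ} {n : ℕ}
    (hC : ChartVal G x Kx Kbar n) {e : Fin n → F} {s : Polynomial O}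
    (hLB : LocalBasis G x Kbar e s) (y : F) (hy : IsIntegral (Algebra.adjoin L {x}) y)
    (hyV : y ∈ G.V) :
    ∃ p : Fin n → Polynomial O, aeval x (s.map (algebraMap O L)) * y
      = ∑ i, aeval x ((p i).map (algebraMap O L)) * e i := by
  haveI : CharZero F := charZero_of_injective_algebraMap (algebraMap L F).injective
  obtain ⟨p, hp⟩ := hLB.span y hy
  have hsV := aeval_map_mem G hC.x_mem s
  have hsum : ∑ i, aeval x (p i) * e i ∈ G.V := by
    rw [← hp]; exact G.V.mul_mem _ _ hsV hyV
  have hKx : ∀ i, aeval x (p i) ∈ Kx := by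
    intro i; rw [hC.Kx_eq]; exact Charts.aeval_mem _ (mem_adjoin_simple_self L x) _
  have hcV := LayerR.coeff_mem_of_sum_mem G hC e hLB.e_mem hLB.li_bar
    (fun i => aeval x (p i)) hKx hsum
  have hcO : ∀ i j, (p i).coeff j ∈ O := fun i => hC.gauss (p i) (hcV i)
  have hlift : ∀ i, ∃ q : Polynomial O, q.map (algebraMap O L) = p i := by
    intro i
    have h1 : p i ∈ Polynomial.lifts (algebraMap O L) := by
      rw [Polynomial.lifts_iff_coeff_lifts]
      intro j
      exact ⟨⟨_, hcO i j⟩, rfl⟩
    exact (Polynomial.mem_lifts _).mp h1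
  choose q hq using hlift
  exact ⟨q, by simp only [hq]; exact hp⟩

open IntermediateField algebraAdjoinAdjoin in
/-- the discriminant of a local basis is a polynomial over `O` in `x`, with the expected
reduction. -/
theorem exists_disc [CharZero L] {O : ValuationSubring L} {h : F}
    (G : GoodVal O h) {x : F} {Kx : IntermediateField L F}
    {Kbar : IntermediateField (IsLocalRing.ResidueField O) G.κ} {n : ℕ}
    (hC : ChartVal G x Kx Kbar n) (hn : 0 < n) {e : Fin n → F} {s : Polynomial O}
    (hLB : LocalBasis G x Kbar e s) :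
    ∃ D₀ : Polynomial O,
      algebraMap Kx F (Algebra.discr Kx e) = aeval x (D₀.map (algebraMap O L)) ∧
      algebraMap Kbar G.κ (Algebra.discr Kbar (fun i => G.ρ ⟨e i, hLB.e_mem i⟩))
        = aeval (G.ρ ⟨x, hC.x_mem⟩) (D₀.map (IsLocalRing.residue O)) := by
  classical
  have hxm := hC.x_mem
  have hKx := hC.Kx_eq
  subst hKx
  -- the trace matrix in `V`
  have htr : ∀ i j, ∃ ht : ((Algebra.trace (IntermediateField.adjoin L {x}) F (e i * e j) :
        IntermediateField.adjoin L {x}) : F) ∈ G.V,
      G.ρ ⟨_, ht⟩ = ((Algebra.trace Kbar G.κ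
        (G.ρ ⟨e i, hLB.e_mem i⟩ * G.ρ ⟨e j, hLB.e_mem j⟩) : Kbar) : G.κ) := by
    intro i j
    obtain ⟨ht, h1⟩ := hC.trace (⟨e i, hLB.e_mem i⟩ * ⟨e j, hLB.e_mem j⟩)
    refine ⟨ht, ?_⟩
    rw [← map_mul]; exact h1
  choose ht hρt using htr
  let M : Matrix (Fin n) (Fin n) G.V := fun i j => ⟨_, ht i j⟩
  have hM1 : ((M.det : G.V) : F) = algebraMap (IntermediateField.adjoin L {x}) F
      (Algebra.discr (IntermediateField.adjoin L {x}) e) := by
    rw [Algebra.discr_def, RingHom.map_det]
    have h1 : ((M.det : G.V) : F) = G.V.subtype M.det := rfl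
    rw [h1, RingHom.map_det]
    congr 1
  have hM2 : G.ρ M.det = algebraMap Kbar G.κ
      (Algebra.discr Kbar (fun i => G.ρ ⟨e i, hLB.e_mem i⟩)) := by
    rw [Algebra.discr_def, RingHom.map_det, RingHom.map_det]
    congr 1
    ext i j
    simp only [RingHom.mapMatrix_apply, Matrix.map_apply, Algebra.traceMatrix_apply,
      Algebra.traceForm_apply, M]
    exact hρt i j
  -- integrality
  haveI : FiniteDimensional (IntermediateField.adjoin L {x}) F :=
    Module.finite_of_finrank_pos (by rw [hC.finrank_eq]; exact hn)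
  haveI := S24.Places.isPrincipalIdealRing_adjoin hC.x_transcendental
  have hdint : IsIntegral (Algebra.adjoin L {x})
      (Algebra.discr (IntermediateField.adjoin L {x}) e) :=
    Algebra.discr_isIntegral (IntermediateField.adjoin L {x}) hLB.e_int
  obtain ⟨a, ha⟩ := (IsIntegrallyClosed.isIntegral_iff (R := Algebra.adjoin L {x})
    (K := IntermediateField.adjoin L {x})).mp hdint
  obtain ⟨D, hD⟩ := (mem_adjoin_iff x (a : F)).mp a.2
  have hDeq : aeval x D = algebraMap (IntermediateField.adjoin L {x}) F
      (Algebra.discr (IntermediateField.adjoin L {x}) e) := by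
    rw [hD, ← ha]; rfl
  have hDV : aeval x D ∈ G.V := by rw [hDeq, ← hM1]; exact M.det.2
  have hcO := hC.gauss D hDV
  obtain ⟨D₀, hD₀⟩ : ∃ q : Polynomial O, q.map (algebraMap O L) = D := by
    have h1 : D ∈ Polynomial.lifts (algebraMap O L) := by
      rw [Polynomial.lifts_iff_coeff_lifts]
      intro j
      exact ⟨⟨_, hcO j⟩, rfl⟩
    exact (Polynomial.mem_lifts _).mp h1
  refine ⟨D₀, by rw [hD₀, hDeq], ?_⟩
  rw [← hM2, ← ρ_aeval G hxm D₀]
  congr 1
  apply Subtype.ext
  rw [hM1]
  show _ = aeval x (D₀.map (algebraMap O L))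
  rw [hD₀, hDeq]

end Asm

end Fermat.Agent.S18.E1
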