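import Mathlib
import Fermat.Agent.S18_HubMain
import Fermat.Agent.S18_GaussField
import Fermat.Agent.S18_Const
import Fermat.Agent.S18_ValRing
import Fermat.Agent.S18_Index
import Fermat.Agent.S18_LevelOrd

/-!
# S18: final assembly, part 1 (the core reduction)

`core`: Step 0 at level `N`, the hub statement at level `M` and the change of level give `z = 0`.

Implementation note: everything is phrased with series `w : LaurentSeries L` and membership
proofs, never comparing coercions from two different subfields (such comparisons make the kernel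
unfold the two subfields).
-/

set_option autoImplicit false

noncomputable section

open AlgebraicCurve ModularCurve

namespace Fermat.Agent.S18.Final

/-- the output of Step 0 (as produced by `Step0.step0`). -/
def Step0Out (A : ValuationSubring (AlgebraicClosure ℚ)) (N : ℕ) (m : ℕ) (z : JZero N) : Prop :=
  ∃ (u : modularFunctionFieldBar N) (a s : LaurentSeries A),
    u ≠ 0 ∧ coeffMap (IsLocalRing.residue A) s ≠ 0 ∧
    coeffMap (IsLocalRing.residue A) a = coeffMap (IsLocalRing.residue A) s ∧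
    coeffMap A.subtype s * (u : LaurentSeries (AlgebraicClosure ℚ)) = coeffMap A.subtype a ∧
    (∀ P : Place (AlgebraicClosure ℚ) (modularFunctionFieldBar N), (m : ℤ) ∣ P.ord u) ∧
    ((∃ t : modularFunctionFieldBar N, t ^ m = u) → z = 0)

/-- the output of Step 0 in series form. -/
def Step0Ser (A : ValuationSubring (AlgebraicClosure ℚ)) (N : ℕ) (m : ℕ) (z : JZero N) : Prop :=
  ∃ (w : LaurentSeries (AlgebraicClosure ℚ)) (hw : w ∈ modularFunctionFieldBar N)
    (a s : LaurentSeries A),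
    Gauss.red A s ≠ 0 ∧ Gauss.red A a = Gauss.red A s ∧ Gauss.emb A s * w = Gauss.emb A a ∧
    (∀ P : Place (AlgebraicClosure ℚ) (modularFunctionFieldBar N),
      (m : ℤ) ∣ P.ord (⟨w, hw⟩ : modularFunctionFieldBar N)) ∧
    ((∃ t ∈ modularFunctionFieldBar N, t ^ m = w) → z = 0)

theorem step0Ser_of_out {A : ValuationSubring (AlgebraicClosure ℚ)} {N : ℕ} {m : ℕ}
    {z : JZero N} (h : Step0Out A N m z) : Step0Ser A N m z := by
  obtain ⟨⟨w, hw⟩, a, s, -, hs, has, hsu, hdiv, himp⟩ := h
  refine ⟨w, hw, a, s, hs, has, hsu, hdiv, ?_⟩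
  rintro ⟨t, ht, htm⟩
  apply himp
  refine ⟨⟨t, ht⟩, Subtype.ext ?_⟩
  rw [IntermediateField.coe_pow]
  exact htm

/-- the core reduction. -/
theorem core (N : ℕ) (A : ValuationSubring (AlgebraicClosure ℚ))
    (M : ℕ) (hle : modularFunctionFieldBar N ≤ modularFunctionFieldBar M) (m : ℕ)
    (hord : ∀ (w : LaurentSeries (AlgebraicClosure ℚ)) (hw : w ∈ modularFunctionFieldBar N),
      (∀ P : Place (AlgebraicClosure ℚ) (modularFunctionFieldBar N),
        (m : ℤ) ∣ P.ord (⟨w, hw⟩ : modularFunctionFieldBar N)) →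
        ∀ P' : Place (AlgebraicClosure ℚ) (modularFunctionFieldBar M),
          (m : ℤ) ∣ P'.ord (⟨w, hle hw⟩ : modularFunctionFieldBar M))
    (hdesc : ∀ w : LaurentSeries (AlgebraicClosure ℚ), w ∈ modularFunctionFieldBar N →
      (∃ t ∈ modularFunctionFieldBar M, t ^ m = w) → ∃ s ∈ modularFunctionFieldBar N, s ^ m = w)
    {n : ℕ} (D : Gauss.Datum A (modularFunctionFieldBar M) n)
    (hMS : MainStatement A D.h D.goodVal)
    (hmk : ((m : ℕ) : IsLocalRing.ResidueField A) ≠ 0)
    (z : JZero N) (hstep : Step0Ser A N m z) : z = 0 := by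
  obtain ⟨w, hw, a, s, hs, has, hsu, hdiv, himp⟩ := hstep
  apply himp
  apply hdesc w hw
  have hmem : (⟨w, hle hw⟩ : modularFunctionFieldBar M) ∈ D.V :=
    Gauss.Datum.mem_V_of D ⟨w, hle hw⟩ s a hs hsu
  have hρ : D.goodVal.ρ ⟨⟨w, hle hw⟩, hmem⟩ = 1 :=
    Gauss.Datum.ρ_eq_one D ⟨w, hle hw⟩ s a hs hsu has
  have h1 := hMS m hmk
  have h2 := h1 ⟨⟨w, hle hw⟩, hmem⟩ hρ
  obtain ⟨t, ht⟩ := h2 (hord w hw hdiv)
  refine ⟨(t : LaurentSeries (AlgebraicClosure ℚ)), t.2, ?_⟩
  have ht' : ((t ^ m : modularFunctionFieldBar M) : LaurentSeries (AlgebraicClosure ℚ)) = w :=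
    congrArg Subtype.val ht
  rw [← ht', IntermediateField.coe_pow]

/-- the core reduction with `M = N`. -/
theorem core_same (N : ℕ) (A : ValuationSubring (AlgebraicClosure ℚ)) (m : ℕ)
    {n : ℕ} (D : Gauss.Datum A (modularFunctionFieldBar N) n)
    (hMS : MainStatement A D.h D.goodVal)
    (hmk : ((m : ℕ) : IsLocalRing.ResidueField A) ≠ 0)
    (z : JZero N) (hstep : Step0Ser A N m z) : z = 0 :=
  core N A N le_rfl m (fun _ _ hu P' => hu P') (fun _ _ h => h) D hMS hmk z hstep

/-- the core reduction with `M = p * N`, `p ∤ N` prime, `m` prime to `p + 1`. -/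
theorem core_mul (p : ℕ) [Fact p.Prime] (N : ℕ) [NeZero N] (hp : ¬ p ∣ N)
    (A : ValuationSubring (AlgebraicClosure ℚ)) (m : ℕ) (hm : Nat.Coprime m (p + 1))
    {n : ℕ} (D : Gauss.Datum A (modularFunctionFieldBar (p * N)) n)
    (hMS : MainStatement A D.h D.goodVal)
    (hmk : ((m : ℕ) : IsLocalRing.ResidueField A) ≠ 0)
    (z : JZero N) (hstep : Step0Ser A N m z) : z = 0 :=
  core N A (p * N) (Index.modularFunctionFieldBar_le_of_dvd (Dvd.intro_left p rfl)) m
    (fun w hw hu P' => Index.dvd_ord_level p N hp m ⟨w, hw⟩ hu P')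
    (fun w hw ht => Index.exists_pow_eq_level p N hp m hm w hw ht) D hMS hmk z hstep

end Fermat.Agent.S18.Final
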