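import Mathlib
import Fermat.Agent.S18_Outer
import Fermat.Agent.S18_H1

/-!
# S18: the final assembly modulo the hub package

`final_of_packages`: if for every auxiliary level `M` prime to `ℓ` (with `2 ∣ M` when `ℓ = 3` and
`3 ∣ M` when `ℓ = 2`) there is a Gauss datum `D` on `F_M` satisfying the hub's `MainStatement`,
then the reduction map of `J₀(N)` is injective on prime-to-`ℓ` torsion.
-/

set_option autoImplicit false
set_option linter.unusedSectionVars false
set_option linter.unusedVariables false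
set_option linter.style.haveILetI false

noncomputable section

open Polynomial AlgebraicCurve ModularCurve

namespace Fermat.Agent.S18.Outer

variable {ℓ : ℕ} [Fact ℓ.Prime] (A : ValuationSubring (AlgebraicClosure ℚ)) (N : ℕ) [NeZero N]

/-- case `M = N`, with the Step-0 inputs supplied by `H1`. -/
theorem final_same (hℓN : ¬ ℓ ∣ N) (hA : A.LiesOverPrime ℓ)
    (hpack : ∃ (n : ℕ) (D : Gauss.Datum A (modularFunctionFieldBar N) n),
      MainStatement A D.h D.goodVal)
    (h : ReductionInputsModL A N) (m : ℕ) (hm : ¬ ℓ ∣ m) (z : JZero N) (hmz : m • z = 0)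
    (hz : reductionModL A N z = 0) : z = 0 := by
  haveI : CharP (IsLocalRing.ResidueField A) ℓ := ValRing.charP_residueField A hA
  letI : Algebra (ZMod ℓ) (IsLocalRing.ResidueField A) := ZMod.algebra _ ℓ
  exact outer_same A N hA (H1.psi N) (H1.uZ N) (H1.uZ_span N)
    (H1.polyIndep_j N ℓ (ZMod ℓ) hℓN) (H1.isSeparable_j N ℓ (IsLocalRing.ResidueField A) hℓN)
    hpack h m hm z hmz hz

/-- case `M = p · N`, with the Step-0 inputs supplied by `H1`. -/
theorem final_level (p : ℕ) [Fact p.Prime] (hp : ¬ p ∣ N) (hℓN : ¬ ℓ ∣ N)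
    (hA : A.LiesOverPrime ℓ)
    (hpack : ∃ (n : ℕ) (D : Gauss.Datum A (modularFunctionFieldBar (p * N)) n),
      MainStatement A D.h D.goodVal)
    (h : ReductionInputsModL A N) (m : ℕ) (hm : ¬ ℓ ∣ m) (hcop : Nat.Coprime m (p + 1))
    (z : JZero N) (hmz : m • z = 0) (hz : reductionModL A N z = 0) : z = 0 := by
  haveI : CharP (IsLocalRing.ResidueField A) ℓ := ValRing.charP_residueField A hA
  letI : Algebra (ZMod ℓ) (IsLocalRing.ResidueField A) := ZMod.algebra _ ℓ
  exact outer_level A N p hp hA (H1.psi N) (H1.uZ N) (H1.uZ_span N)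
    (H1.polyIndep_j N ℓ (ZMod ℓ) hℓN) (H1.isSeparable_j N ℓ (IsLocalRing.ResidueField A) hℓN)
    hpack h m hm hcop z hmz hz

/-- **the final assembly modulo the hub package** at the auxiliary levels. -/
theorem final_of_packages (hℓN : ¬ ℓ ∣ N) (hA : A.LiesOverPrime ℓ)
    (hpack : ∀ (M : ℕ) [NeZero M], ¬ ℓ ∣ M → (ℓ = 3 → 2 ∣ M) → (ℓ = 2 → 3 ∣ M) →
      ∃ (n : ℕ) (D : Gauss.Datum A (modularFunctionFieldBar M) n), MainStatement A D.h D.goodVal)
    (h : ReductionInputsModL A N) (m : ℕ) (hm : ¬ ℓ ∣ m) (z : JZero N) (hmz : m • z = 0)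
    (hz : reductionModL A N z = 0) : z = 0 := by
  by_cases h3 : ℓ = 3
  · by_cases h2N : 2 ∣ N
    · exact final_same A N hℓN hA (hpack N hℓN (fun _ => h2N) (fun h2 => by omega)) h m hm z hmz hz
    · haveI : Fact (Nat.Prime 2) := ⟨Nat.prime_two⟩
      have hℓM : ¬ ℓ ∣ 2 * N := by
        rw [h3] at hℓN ⊢
        intro hd
        rcases (Nat.Prime.dvd_mul Nat.prime_three).mp hd with h' | h'
        · exact absurd (Nat.le_of_dvd (by norm_num) h') (by norm_num)
        · exact hℓN h'
      refine final_level A N 2 h2N hℓN hA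
        (hpack (2 * N) hℓM (fun _ => Dvd.intro N rfl) (fun h2 => by omega)) h m hm ?_ z hmz hz
      exact coprime_two_add_one (by rw [h3] at hm; exact hm)
  · by_cases h2 : ℓ = 2
    · by_cases h3N : 3 ∣ N
      · exact final_same A N hℓN hA (hpack N hℓN (fun h => absurd h h3) (fun _ => h3N)) h m hm z
          hmz hz
      · haveI : Fact (Nat.Prime 3) := ⟨Nat.prime_three⟩
        have hℓM : ¬ ℓ ∣ 3 * N := by
          rw [h2] at hℓN ⊢
          intro hd
          rcases (Nat.Prime.dvd_mul Nat.prime_two).mp hd with h' | h'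
          · exact absurd h' (by norm_num)
          · exact hℓN h'
        refine final_level A N 3 h3N hℓN hA
          (hpack (3 * N) hℓM (fun h => absurd h h3) (fun _ => Dvd.intro N rfl)) h m hm ?_ z hmz hz
        exact coprime_three_add_one (by rw [h2] at hm; exact hm)
    · exact final_same A N hℓN hA (hpack N hℓN (fun h => absurd h h3) (fun h => absurd h h2)) h m hm
        z hmz hz

end Fermat.Agent.S18.Outer
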