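import Mathlib
import Fermat.Agent.S18_Outer
import Fermat.Agent.S18_H1C

/-!
# S18: the top-level case analysis

`result_of_package`: the statement of S18 from the "package" (a Gauss datum with the main
statement of the hub) at every auxiliary level `M` prime to `ℓ` which carries a suitable
Hauptmodul: any `M` for `ℓ ≥ 5` (`h = j`), `2 ∣ M` for `ℓ = 3` (`h = h₂`), `3 ∣ M` for `ℓ = 2`
(`h = h₃`).  The level is `M = N` when possible and `M = 2N`, `M = 3N` otherwise.
-/

set_option autoImplicit false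

noncomputable section

open Polynomial AlgebraicCurve ModularCurve

namespace Fermat.Agent.S18.Top

variable {ℓ : ℕ} [Fact ℓ.Prime] (A : ValuationSubring (AlgebraicClosure ℚ))

/-- the Step-0 input `hsep` at level `N`. -/
theorem hsep_level (hA : A.LiesOverPrime ℓ) (N : ℕ) [NeZero N] (hℓN : ¬ ℓ ∣ N) :
    IsSeparable
      (IntermediateField.adjoin (IsLocalRing.ResidueField A)
        {jqModC (IsLocalRing.ResidueField A)})
      (coeffMap (Int.castRingHom (IsLocalRing.ResidueField A)) (H1.uZ N)) := by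
  have : CharP (IsLocalRing.ResidueField A) ℓ := ValRing.charP_residueField A hA
  let _ : Algebra (ZMod ℓ) (IsLocalRing.ResidueField A) := ZMod.algebra _ ℓ
  exact H1.isSeparable_j N ℓ (IsLocalRing.ResidueField A) hℓN

/-- **S18 from the package.** -/
theorem result_of_package (N : ℕ) [NeZero N] (hℓN : ¬ ℓ ∣ N) (hA : A.LiesOverPrime ℓ)
    (hpack : ∀ (M : ℕ) [NeZero M], ¬ ℓ ∣ M → (5 ≤ ℓ ∨ (ℓ = 3 ∧ 2 ∣ M) ∨ (ℓ = 2 ∧ 3 ∣ M)) →
      ∃ (n : ℕ) (D : Gauss.Datum A (modularFunctionFieldBar M) n),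
        MainStatement A D.h D.goodVal)
    (h : ReductionInputsModL A N) (m : ℕ) (hm : ¬ ℓ ∣ m) (z : JZero N) (hmz : m • z = 0)
    (hz : reductionModL A N z = 0) : z = 0 := by
  have hℓ : ℓ.Prime := Fact.out
  have hspan := H1.uZ_span N
  have hmc : ∀ P : Fin (H1.psi N) → (ZMod ℓ)[X],
      ∑ i, aeval (jqModC (ZMod ℓ)) (P i)
        * (coeffMap (Int.castRingHom (ZMod ℓ)) (H1.uZ N)) ^ (i : ℕ) = 0 → ∀ i, P i = 0 :=
    H1.polyIndep_j N ℓ (ZMod ℓ) hℓN
  have hsep := hsep_level A hA N hℓN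
  -- the case `M = N`
  have same : (5 ≤ ℓ ∨ (ℓ = 3 ∧ 2 ∣ N) ∨ (ℓ = 2 ∧ 3 ∣ N)) → z = 0 := fun hc =>
    Outer.outer_same A N hA (H1.psi N) (H1.uZ N) hspan hmc hsep (hpack N hℓN hc) h m hm z hmz hz
  by_cases h5 : 5 ≤ ℓ
  · exact same (Or.inl h5)
  · have h23 : ℓ = 2 ∨ ℓ = 3 := by
      have h2 := hℓ.two_le
      have h4 : ℓ ≠ 4 := by
        rintro rfl
        exact absurd hℓ (by decide)
      omega
    rcases h23 with rfl | rfl
    · -- `ℓ = 2`
      by_cases h3N : 3 ∣ N
      · exact same (Or.inr (Or.inr ⟨rfl, h3N⟩))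
      · have : Fact (Nat.Prime 3) := ⟨Nat.prime_three⟩
        have hM : ¬ 2 ∣ 3 * N := by
          rw [Nat.Prime.dvd_mul Nat.prime_two]
          rintro (h' | h')
          · exact absurd h' (by decide)
          · exact hℓN h'
        exact Outer.outer_level A N 3 h3N hA (H1.psi N) (H1.uZ N) hspan hmc hsep
          (hpack (3 * N) hM (Or.inr (Or.inr ⟨rfl, Dvd.intro N rfl⟩))) h m hm
          (Outer.coprime_three_add_one hm) z hmz hz
    · -- `ℓ = 3`
      by_cases h2N : 2 ∣ N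
      · exact same (Or.inr (Or.inl ⟨rfl, h2N⟩))
      · have : Fact (Nat.Prime 2) := ⟨Nat.prime_two⟩
        have hM : ¬ 3 ∣ 2 * N := by
          rw [Nat.Prime.dvd_mul Nat.prime_three]
          rintro (h' | h')
          · exact absurd h' (by decide)
          · exact hℓN h'
        exact Outer.outer_level A N 2 h2N hA (H1.psi N) (H1.uZ N) hspan hmc hsep
          (hpack (2 * N) hM (Or.inr (Or.inl ⟨rfl, Dvd.intro N rfl⟩))) h m hm
          (Outer.coprime_two_add_one hm) z hmz hz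

end Fermat.Agent.S18.Top
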