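import Mathlib
import Fermat.Agent.S24_Defs
import Fermat.Agent.RR_Defs
import Fermat.Agent.RR_IntVal
import Fermat.Agent.S24_Kaehler

/-!
# S20: valuation bookkeeping for regular differentials

`F/K` a function field with generator `x`, `W = div(dx)`, `ι : F → L` a `K`-embedding into a
field `L` carrying an integer valuation `w` (a point or a cusp of a covering curve).  For
`h ∈ L(W)`, i.e. `h dx` regular:

* `bound_at_zero`: if `w (x - x₀) > 0` then `w h + w (x - x₀) ≥ 1`;
* `bound_at_pole`: if `w x < 0` then `w h + w x ≥ 1`.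
-/

set_option autoImplicit false
set_option linter.unusedSectionVars false

noncomputable section

open AlgebraicCurve KaehlerDifferential Fermat.Agent.S24

namespace Fermat.Agent.S20.Bound

variable {K F L : Type*} [Field K] [IsAlgClosed K] [CharZero K] [Field F] [Algebra K F]
  [Field L] [Algebra K L]

/-- restriction of an integer valuation along a `K`-algebra embedding. -/
def comap (w : IntVal K L) (ι : F →ₐ[K] L) : IntVal K F where
  toFun f := w.toFun (ι f)
  map_mul' a b ha hb := by
    rw [map_mul]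
    exact w.map_mul' _ _ ((map_ne_zero ι).mpr ha) ((map_ne_zero ι).mpr hb)
  map_add' a b ha hb hab := by
    rw [map_add]
    exact w.map_add' _ _ ((map_ne_zero ι).mpr ha) ((map_ne_zero ι).mpr hb)
      (by rw [← map_add]; exact (map_ne_zero ι).mpr hab)
  map_algebraMap' c hc := by
    rw [AlgHom.commutes]
    exact w.map_algebraMap' c hc

@[simp] theorem comap_toFun (w : IntVal K L) (ι : F →ₐ[K] L) (f : F) :
    (comap w ι).toFun f = w.toFun (ι f) := rfl

/-- at a point over `x = x₀`: `w h + w (x - x₀) ≥ 1` for `h ∈ L(div dx)`. -/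
theorem bound_at_zero (w : IntVal K L) (ι : F →ₐ[K] L) {x : F} (hx : IsGenerator K x) (x₀ : K)
    (hpos : 0 < w.toFun (ι x - algebraMap K L x₀))
    (W : Divisor K F) (hW : ∀ v : Place K F, W v = v.ordDifferential (D K F x))
    {h : F} (hh : h ∈ RR.LSpace K F W) (hh0 : h ≠ 0) :
    1 ≤ w.toFun (ι h) + w.toFun (ι x - algebraMap K L x₀) := by
  have hne : x - algebraMap K F x₀ ≠ 0 := by
    intro h0
    apply hx.1
    rw [sub_eq_zero] at h0
    rw [h0]
    exact isAlgebraic_algebraMap x₀
  have hι : ι (x - algebraMap K F x₀) = ι x - algebraMap K L x₀ := by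
    rw [map_sub, AlgHom.commutes]
  obtain ⟨v, e, he, hv⟩ := RR.exists_place_of_intVal (comap w ι)
    ⟨x - algebraMap K F x₀, hne, by rw [comap_toFun, hι]; exact hpos.ne'⟩
  have h1 := hv _ hne
  rw [comap_toFun, hι] at h1
  have h2 := hv h hh0
  rw [comap_toFun] at h2
  have he' : (1 : ℤ) ≤ e := by exact_mod_cast he
  have hordpos : 0 < v.ord (x - algebraMap K F x₀) := by
    rw [h1] at hpos
    by_contra hcon
    rw [not_lt] at hcon
    nlinarith
  have h3 := Kaehler.ordDifferential_D_of_mem_placesAt hx v x x₀ hordpos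
  have h4 := (RR.mem_LSpace.mp hh).resolve_left hh0 v
  rw [hW v, h3] at h4
  rw [h1, h2]
  nlinarith

/-- at a pole of `x`: `w h + w x ≥ 1` for `h ∈ L(div dx)`. -/
theorem bound_at_pole (w : IntVal K L) (ι : F →ₐ[K] L) {x : F} (hx : IsGenerator K x)
    (hneg : w.toFun (ι x) < 0)
    (W : Divisor K F) (hW : ∀ v : Place K F, W v = v.ordDifferential (D K F x))
    {h : F} (hh : h ∈ RR.LSpace K F W) (hh0 : h ≠ 0) :
    1 ≤ w.toFun (ι h) + w.toFun (ι x) := by
  have hne : x ≠ 0 := by
    intro h0
    apply hx.1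
    rw [h0]
    exact isAlgebraic_zero
  obtain ⟨v, e, he, hv⟩ := RR.exists_place_of_intVal (comap w ι)
    ⟨x, hne, by rw [comap_toFun]; exact hneg.ne⟩
  have h1 := hv _ hne
  rw [comap_toFun] at h1
  have h2 := hv h hh0
  rw [comap_toFun] at h2
  have he' : (1 : ℤ) ≤ e := by exact_mod_cast he
  have hordneg : v.ord x < 0 := by
    rw [h1] at hneg
    by_contra hcon
    rw [not_lt] at hcon
    nlinarith
  have h3 := Kaehler.ordDifferential_D_of_ord_neg hx v x hordneg
  have h4 := (RR.mem_LSpace.mp hh).resolve_left hh0 v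
  rw [hW v, h3] at h4
  rw [h1, h2]
  nlinarith

end Fermat.Agent.S20.Bound
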