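import Mathlib
import Fermat.Agent.S24_LaurentDefs
import Fermat.Agent.S24_QLaurent

set_option autoImplicit false

/-!
# Leading terms of Laurent expansions at `i∞` and vanishing of quotients

* `tendsto_of_hasSum`: a function given by a convergent `q`-expansion tends to the constant term.
* `tendsto_leading`: `q ^ (-order) * f → leading coefficient`.
* `isZeroAtImInfty_of_mul_eq`: if `F * B = A` and the order of the expansion of `A` is larger
  than that of `B`, then `F → 0` at `i∞`.
-/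

noncomputable section

open UpperHalfPlane Filter Topology Function
open scoped Manifold MatrixGroups

namespace Fermat.Agent.S20.Cusp

open Fermat.Agent.S24

/-- a function given by a convergent `q`-expansion tends to the constant term at `i∞` -/
theorem tendsto_of_hasSum {f : ℍ → ℂ} {c : ℕ → ℂ} {h : ℝ} (hh : 0 < h)
    (hf : ∀ τ : ℍ, HasSum (fun m : ℕ => c m * Periodic.qParam h (τ : ℂ) ^ m) (f τ)) :
    Tendsto f atImInfty (𝓝 (c 0)) := by
  -- `g = (f - c 0) / q` has the shifted expansion, hence is bounded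
  set g : ℍ → ℂ := fun τ => (f τ - c 0) / Periodic.qParam h (τ : ℂ) with hg
  have hq0 : ∀ τ : ℍ, Periodic.qParam h (τ : ℂ) ≠ 0 := fun τ => Periodic.qParam_ne_zero _
  have hgsum : ∀ τ : ℍ, HasSum (fun m : ℕ => c (m + 1) • Periodic.qParam h (τ : ℂ) ^ m) (g τ) := by
    intro τ
    have h1 := (hasSum_nat_add_iff' 1).mpr (hf τ)
    simp only [Finset.range_one, Finset.sum_singleton, pow_zero, mul_one] at h1
    have h2 := h1.mul_right (Periodic.qParam h (τ : ℂ))⁻¹
    have hfun : (fun m : ℕ => c (m + 1) * Periodic.qParam h (τ : ℂ) ^ (m + 1)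
        * (Periodic.qParam h (τ : ℂ))⁻¹) = fun m : ℕ => c (m + 1) • Periodic.qParam h (τ : ℂ) ^ m := by
      funext m
      rw [pow_succ, smul_eq_mul]
      field_simp [hq0 τ]
    rw [hfun] at h2
    simpa only [hg, div_eq_mul_inv] using h2
  have hbdd : IsBoundedAtImInfty g := isBoundedAtImInfty_of_hasSum_qExpansion hh hgsum
  have hqt : Tendsto (fun τ : ℍ => Periodic.qParam h (τ : ℂ)) atImInfty (𝓝 0) :=
    qParam_tendsto_atImInfty hh
  have hfeq : f = fun τ : ℍ => c 0 + Periodic.qParam h (τ : ℂ) * g τ := by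
    funext τ
    rw [hg]
    field_simp [hq0 τ]
    ring
  have hprod : Tendsto (fun τ : ℍ => Periodic.qParam h (τ : ℂ) * g τ) atImInfty (𝓝 0) :=
    hqt.zero_mul_isBoundedUnder_le (Asymptotics.IsBigO.isBoundedUnder_le (c := (1 : ℝ)) hbdd)
  rw [hfeq]
  simpa using tendsto_const_nhds.add hprod

variable {N : ℕ} [NeZero N]

theorem tendsto_qN : Tendsto (fun τ : ℍ => qN N τ) atImInfty (𝓝 0) :=
  qParam_tendsto_atImInfty (Nat.cast_pos.mpr (NeZero.pos N))

/-- `q ^ (-order) * f` tends to the leading coefficient -/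
theorem tendsto_leading {f : ℍ → ℂ} {s : LaurentSeries ℂ} (hf : HasLaurentExp N f s)
    (hs : s ≠ 0) :
    Tendsto (fun τ => qN N τ ^ (-s.order) * f τ) atImInfty (𝓝 (s.coeff s.order)) := by
  obtain ⟨M, hM, hsum⟩ := hf
  have hlead : s.coeff s.order ≠ 0 := fun h => hs (HahnSeries.coeff_order_eq_zero.mp h)
  have hord : -(M : ℤ) ≤ s.order := by
    by_contra hcon
    exact hlead (hM _ (not_le.mp hcon))
  obtain ⟨k, hk⟩ : ∃ k : ℕ, (k : ℤ) = s.order + M := ⟨(s.order + M).toNat, by omega⟩
  set c : ℕ → ℂ := fun n => s.coeff ((n : ℤ) - M) with hc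
  have hc0 : ∀ n, n < k → c n = 0 := fun n hn =>
    HahnSeries.coeff_eq_zero_of_lt_order (by omega)
  have hpos : (0 : ℝ) < (N : ℝ) := Nat.cast_pos.mpr (NeZero.pos N)
  have key : ∀ τ : ℍ, HasSum (fun m : ℕ => c (m + k) * Periodic.qParam (N : ℝ) (τ : ℂ) ^ m)
      (qN N τ ^ (-s.order) * f τ) := by
    intro τ
    have hq : qN N τ ≠ 0 := QLaurent.qN_ne_zero N τ
    have h1 := (hasSum_nat_add_iff' k).mpr (hsum τ)
    have h0 : ∑ i ∈ Finset.range k, s.coeff ((i : ℤ) - M) * qN N τ ^ i = 0 :=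
      Finset.sum_eq_zero fun i hi => by
        have := hc0 i (Finset.mem_range.mp hi)
        simp only [hc] at this
        rw [this, zero_mul]
    rw [h0, sub_zero] at h1
    have h2 := h1.mul_left (qN N τ ^ k)⁻¹
    have hfun : (fun m : ℕ => (qN N τ ^ k)⁻¹ * (s.coeff (((m + k : ℕ) : ℤ) - M) * qN N τ ^ (m + k)))
        = fun m : ℕ => c (m + k) * Periodic.qParam (N : ℝ) (τ : ℂ) ^ m := by
      funext m
      have : qN N τ = Periodic.qParam (N : ℝ) (τ : ℂ) := rfl
      rw [pow_add, hc, ← this]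
      field_simp [hq]
    rw [hfun] at h2
    have hval : (qN N τ ^ k)⁻¹ * (qN N τ ^ M * f τ) = qN N τ ^ (-s.order) * f τ := by
      have h3 : -s.order = (M : ℤ) - k := by omega
      rw [h3, zpow_sub₀ hq, zpow_natCast, zpow_natCast]
      field_simp [hq]
    rwa [hval] at h2
  have := tendsto_of_hasSum hpos key
  have hck : c (0 + k) = s.coeff s.order := by
    simp only [hc]
    congr 1
    omega
  rwa [hck] at this

/-- if `F * B = A` and the expansion of `A` has larger order than that of `B`, then `F` tends to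
zero at `i∞` -/
theorem isZeroAtImInfty_of_mul_eq {F A B : ℍ → ℂ} {sA sB : LaurentSeries ℂ}
    (hA : HasLaurentExp N A sA) (hB : HasLaurentExp N B sB) (hB0 : sB ≠ 0)
    (hord : sA = 0 ∨ sB.order < sA.order) (hmul : ∀ τ, F τ * B τ = A τ) :
    IsZeroAtImInfty F := by
  have hBlead : sB.coeff sB.order ≠ 0 := fun h => hB0 (HahnSeries.coeff_order_eq_zero.mp h)
  have hBt := tendsto_leading hB hB0
  have hBne : ∀ᶠ τ in atImInfty, qN N τ ^ (-sB.order) * B τ ≠ 0 := hBt.eventually_ne hBlead
  rcases eq_or_ne sA 0 with hA0 | hA0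
  · -- `A = 0`
    have hAz : A = 0 := (QLaurent.HasLaurentExp.eq_zero_iff hA).mpr hA0
    have hFz : ∀ᶠ τ in atImInfty, F τ = 0 := by
      filter_upwards [hBne] with τ hτ
      have hBτ : B τ ≠ 0 := fun h => hτ (by rw [h, mul_zero])
      have := hmul τ
      rw [hAz, Pi.zero_apply] at this
      exact (mul_eq_zero.mp this).resolve_right hBτ
    exact (tendsto_congr' (hFz.mono fun τ h => h)).mpr tendsto_const_nhds
  · have hlt : sB.order < sA.order := hord.resolve_left hA0
    have hAt := tendsto_leading hA hA0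
    obtain ⟨d, hd⟩ : ∃ d : ℕ, (d : ℤ) + 1 = sA.order - sB.order :=
      ⟨(sA.order - sB.order - 1).toNat, by omega⟩
    -- `F = q ^ (d + 1) * (q^(-ordA) A) / (q^(-ordB) B)`
    have hFeq : ∀ᶠ τ in atImInfty, F τ = qN N τ ^ (d + 1) *
        ((qN N τ ^ (-sA.order) * A τ) / (qN N τ ^ (-sB.order) * B τ)) := by
      filter_upwards [hBne] with τ hτ
      have hq : qN N τ ≠ 0 := QLaurent.qN_ne_zero N τ
      have hBτ : B τ ≠ 0 := fun h => hτ (by rw [h, mul_zero])
      have hF : F τ = A τ / B τ := by rw [← hmul τ]; field_simp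
      have hz : qN N τ ^ (d + 1) * qN N τ ^ (-sA.order) = qN N τ ^ (-sB.order) := by
        rw [← zpow_natCast, ← zpow_add₀ hq]
        congr 1
        push_cast
        omega
      rw [hF, ← mul_div_assoc, ← mul_assoc, hz, mul_div_mul_left _ _ (zpow_ne_zero _ hq)]
    have hlim : Tendsto (fun τ : ℍ => qN N τ ^ (d + 1) *
        ((qN N τ ^ (-sA.order) * A τ) / (qN N τ ^ (-sB.order) * B τ))) atImInfty
        (𝓝 (0 ^ (d + 1) * (sA.coeff sA.order / sB.coeff sB.order))) :=
      ((tendsto_qN (N := N)).pow (d + 1)).mul (hAt.div hBt hBlead)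
    rw [zero_pow (Nat.succ_ne_zero d), zero_mul] at hlim
    exact (tendsto_congr' hFeq).mpr hlim

end Fermat.Agent.S20.Cusp
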