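import Mathlib
import Fermat.Agent.S24_LaurentDefs
import Fermat.Agent.S24_QLaurent
import Fermat.Agent.S20_Cusp

set_option autoImplicit false

/-!
# Vanishing at `i∞` of a quotient times a factor with a pole of bounded order

If `F * B = A * J`, where `A`, `B` have Laurent expansions in `q_N`, `q_N ^ m * J` is bounded at
`i∞` and `order B + m < order A`, then `F → 0` at `i∞`.
-/

noncomputable section

open UpperHalfPlane Filter Topology Function
open scoped Manifold MatrixGroups

namespace Fermat.Agent.S20.Cusp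

open Fermat.Agent.S24

variable {N : ℕ} [NeZero N]

theorem isZeroAtImInfty_of_mul_eq_mul {F A B J : ℍ → ℂ} {sA sB : LaurentSeries ℂ} (m : ℕ)
    (hA : HasLaurentExp N A sA) (hB : HasLaurentExp N B sB) (hB0 : sB ≠ 0)
    (hJ : IsBoundedAtImInfty (fun τ => qN N τ ^ m * J τ))
    (hord : sA = 0 ∨ sB.order + m < sA.order) (hmul : ∀ τ, F τ * B τ = A τ * J τ) :
    IsZeroAtImInfty F := by
  have hBlead : sB.coeff sB.order ≠ 0 := fun h => hB0 (HahnSeries.coeff_order_eq_zero.mp h)
  have hBt := tendsto_leading hB hB0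
  have hBne : ∀ᶠ τ in atImInfty, qN N τ ^ (-sB.order) * B τ ≠ 0 := hBt.eventually_ne hBlead
  rcases eq_or_ne sA 0 with hA0 | hA0
  · have hAz : A = 0 := (QLaurent.HasLaurentExp.eq_zero_iff hA).mpr hA0
    have hFz : ∀ᶠ τ in atImInfty, F τ = 0 := by
      filter_upwards [hBne] with τ hτ
      have hBτ : B τ ≠ 0 := fun h => hτ (by rw [h, mul_zero])
      have := hmul τ
      rw [hAz, Pi.zero_apply, zero_mul] at this
      exact (mul_eq_zero.mp this).resolve_right hBτ
    exact (tendsto_congr' (hFz.mono fun τ h => h)).mpr tendsto_const_nhds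
  · have hlt : sB.order + m < sA.order := hord.resolve_left hA0
    have hAt := tendsto_leading hA hA0
    obtain ⟨d, hd⟩ : ∃ d : ℕ, (d : ℤ) + 1 = sA.order - sB.order - m :=
      ⟨(sA.order - sB.order - m - 1).toNat, by omega⟩
    have hFeq : ∀ᶠ τ in atImInfty, F τ = qN N τ ^ (d + 1) *
        ((qN N τ ^ (-sA.order) * A τ) / (qN N τ ^ (-sB.order) * B τ)) * (qN N τ ^ m * J τ) := by
      filter_upwards [hBne] with τ hτ
      have hq : qN N τ ≠ 0 := QLaurent.qN_ne_zero N τ
      have hBτ : B τ ≠ 0 := fun h => hτ (by rw [h, mul_zero])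
      have hF : F τ = A τ * J τ / B τ := by rw [← hmul τ]; field_simp
      have hz : qN N τ ^ (d + 1) * qN N τ ^ (-sA.order) * qN N τ ^ m = qN N τ ^ (-sB.order) := by
        rw [← zpow_natCast, ← zpow_natCast, ← zpow_add₀ hq, ← zpow_add₀ hq]
        congr 1
        push_cast
        omega
      have hzB : qN N τ ^ (-sB.order) ≠ 0 := zpow_ne_zero _ hq
      rw [hF]
      field_simp
      rw [← hz]
      ring
    have h1 : Tendsto (fun τ : ℍ => qN N τ ^ (d + 1) *
        ((qN N τ ^ (-sA.order) * A τ) / (qN N τ ^ (-sB.order) * B τ))) atImInfty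
        (𝓝 (0 ^ (d + 1) * (sA.coeff sA.order / sB.coeff sB.order))) :=
      ((tendsto_qN (N := N)).pow (d + 1)).mul (hAt.div hBt hBlead)
    rw [zero_pow (Nat.succ_ne_zero d), zero_mul] at h1
    have h2 : Tendsto (fun τ : ℍ => qN N τ ^ (d + 1) *
        ((qN N τ ^ (-sA.order) * A τ) / (qN N τ ^ (-sB.order) * B τ)) * (qN N τ ^ m * J τ))
        atImInfty (𝓝 0) :=
      h1.zero_mul_isBoundedUnder_le (Asymptotics.IsBigO.isBoundedUnder_le (c := (1 : ℝ)) hJ)
    exact (tendsto_congr' hFeq).mpr h2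

end Fermat.Agent.S20.Cusp
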