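import Mathlib
import Fermat.Agent.S24_PointOrd

set_option autoImplicit false

/-!
# Division of holomorphic functions on the upper half plane

If `A, B : ℍ → ℂ` are holomorphic, `B ≢ 0`, and the vanishing order of `B` is at most that of `A`
at every point, then `A / B` extends to a holomorphic function `G` on `ℍ` with `G * B = A`.
-/

noncomputable section

open UpperHalfPlane Filter Topology
open scoped Manifold

namespace Fermat.Agent.S20.Ext

open Fermat.Agent.S24.PointOrd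

/-- local division of analytic functions -/
theorem exists_analyticAt_div {A B : ℂ → ℂ} {z₀ : ℂ} (hA : AnalyticAt ℂ A z₀)
    (hB : AnalyticAt ℂ B z₀) (hB0 : analyticOrderAt B z₀ ≠ ⊤)
    (h : analyticOrderAt B z₀ ≤ analyticOrderAt A z₀) :
    ∃ G : ℂ → ℂ, AnalyticAt ℂ G z₀ ∧ (∀ᶠ z in 𝓝 z₀, G z * B z = A z) ∧
      ∀ᶠ z in 𝓝[≠] z₀, B z ≠ 0 := by
  obtain ⟨n, hn⟩ := ENat.ne_top_iff_exists.mp hB0
  obtain ⟨B₁, hB₁, hB₁0, hBeq⟩ := (hB.analyticOrderAt_eq_natCast).mp hn.symm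
  rw [← hn] at h
  obtain ⟨A₂, hA₂, hAeq⟩ := (natCast_le_analyticOrderAt hA).mp h
  have hne : ∀ᶠ z in 𝓝 z₀, B₁ z ≠ 0 := hB₁.continuousAt.eventually_ne hB₁0
  refine ⟨fun z => A₂ z / B₁ z, hA₂.div hB₁ hB₁0, ?_, ?_⟩
  · filter_upwards [hne, hBeq, hAeq] with z h1 h2 h3
    rw [h2, h3]
    simp only [smul_eq_mul]
    field_simp
  · have h1 : ∀ᶠ z in 𝓝[≠] z₀, z ≠ z₀ := eventually_mem_nhdsWithin
    filter_upwards [h1, hne.filter_mono nhdsWithin_le_nhds, hBeq.filter_mono nhdsWithin_le_nhds]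
      with z hz h2 h3
    rw [h3]
    simp only [smul_eq_mul]
    exact mul_ne_zero (pow_ne_zero _ (sub_ne_zero.mpr hz)) h2

/-- global division on the upper half plane -/
theorem exists_mdiff_div {A B : ℍ → ℂ} (hA : MDiff A) (hB : MDiff B) (hB0 : B ≠ 0)
    (h : ∀ τ : ℍ, ordAt B τ ≤ ordAt A τ) :
    ∃ G : ℍ → ℂ, MDiff G ∧ ∀ τ, G τ * B τ = A τ := by
  have hloc : ∀ τ : ℍ, ∃ G : ℂ → ℂ, AnalyticAt ℂ G (τ : ℂ) ∧
      (∀ᶠ z in 𝓝 (τ : ℂ), G z * B (ofComplex z) = A (ofComplex z)) ∧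
      ∀ᶠ z in 𝓝[≠] (τ : ℂ), B (ofComplex z) ≠ 0 := fun τ =>
    exists_analyticAt_div (analyticAt_comp_ofComplex hA τ) (analyticAt_comp_ofComplex hB τ)
      (ordAt_ne_top hB hB0 τ) (h τ)
  choose Gl hGl hGeq hGne using hloc
  have hself : ∀ τ : ℍ, Gl τ (τ : ℂ) * B τ = A τ := by
    intro τ
    have := (hGeq τ).self_of_nhds
    rwa [ofComplex_apply] at this
  refine ⟨fun τ => Gl τ (τ : ℂ), ?_, hself⟩
  rw [UpperHalfPlane.mdifferentiable_iff]
  intro z hz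
  have hz' : 0 < z.im := hz
  set τ₀ : ℍ := ⟨z, hz'⟩ with hτ₀
  have hcoe : (τ₀ : ℂ) = z := rfl
  have hev : ((fun τ : ℍ => Gl τ (τ : ℂ)) ∘ ofComplex) =ᶠ[𝓝 z] Gl τ₀ := by
    have h1 : ∀ᶠ w in 𝓝 z, 0 < w.im := isOpen_upperHalfPlaneSet.mem_nhds hz'
    have h2 : ∀ᶠ w in 𝓝 z, Gl τ₀ w * B (ofComplex w) = A (ofComplex w) := hGeq τ₀
    have h3 : ∀ᶠ w in 𝓝 z, w ≠ z → B (ofComplex w) ≠ 0 := by
      have := hGne τ₀
      rw [hcoe, eventually_nhdsWithin_iff] at this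
      exact this
    filter_upwards [h1, h2, h3] with w hw1 hw2 hw3
    simp only [Function.comp_apply]
    by_cases hwz : w = z
    · subst hwz
      rw [ofComplex_apply_of_im_pos hz']
    · have hB' := hw3 hwz
      have h4 := hself (ofComplex w)
      have hcw : ((ofComplex w : ℍ) : ℂ) = w := by
        rw [ofComplex_apply_of_im_pos hw1]
      rw [hcw] at h4 ⊢
      exact mul_right_cancel₀ hB' (h4.trans hw2.symm)
  exact ((hGl τ₀).differentiableAt.congr_of_eventuallyEq hev).differentiableWithinAt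

end Fermat.Agent.S20.Ext
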