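import Mathlib
import Fermat.Agent.S24_Defs
import Fermat.Agent.S24_Kaehler
import Fermat.Agent.RR_Defs
import Fermat.Agent.RR_IntVal

/-!
# S20: valuation bounds for elements of `L(div(dx))`

Let `F/K` be a function field with generator `x`, `W = div(dx)`, and `ι : F → L` a `K`-algebra
homomorphism into a field `L` carrying an integer valued valuation `w`.  Then `w ∘ ι` is a
positive multiple of the order function of a place of `F`, and for `h ∈ L(W)`:

* `le_of_mem_LSpace_point`: if `w (ι x - x₀) = E > 0` then `w (ι h) ≥ 1 - E`;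
* `le_of_mem_LSpace_pole`: if `w (ι x) = -n < 0` then `w (ι h) ≥ n + 1`.
-/

set_option autoImplicit false

noncomputable section

open AlgebraicCurve KaehlerDifferential

namespace Fermat.Agent.S20.ValBound

open Fermat.Agent.S24 Fermat.Agent.RR

variable {K F L : Type*} [Field K] [Field F] [Algebra K F] [Field L] [Algebra K L]

/-- restriction of an integer valued valuation along a homomorphism of fields. -/
def comapIntVal (w : IntVal K L) (ι : F →ₐ[K] L) : IntVal K F where
  toFun f := w.toFun (ι f)
  map_mul' a b ha hb := by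
    rw [map_mul]
    exact w.map_mul' _ _ ((map_ne_zero ι).mpr ha) ((map_ne_zero ι).mpr hb)
  map_add' a b ha hb hab := by
    rw [map_add]
    exact w.map_add' _ _ ((map_ne_zero ι).mpr ha) ((map_ne_zero ι).mpr hb)
      (by rw [← map_add]; exact (map_ne_zero ι).mpr hab)
  map_algebraMap' c hc := by
    rw [AlgHom.commutes]
    exact w.map_algebraMap' c hc

@[simp] theorem comapIntVal_toFun (w : IntVal K L) (ι : F →ₐ[K] L) (f : F) :
    (comapIntVal w ι).toFun f = w.toFun (ι f) := rfl

variable [IsAlgClosed K] [CharZero K]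

/-- at a point over `x = x₀` where `w (x - x₀) = E`, elements of `L(div(dx))` have
`w ≥ 1 - E`. -/
theorem le_of_mem_LSpace_point (ι : F →ₐ[K] L) {x : F} (hx : IsGenerator K x)
    (W : Divisor K F) (hW : ∀ v : Place K F, W v = v.ordDifferential (D K F x))
    (w : IntVal K L) (x₀ : K) (E : ℤ) (hE : 0 < E)
    (hw : w.toFun (ι x - algebraMap K L x₀) = E)
    (h : F) (hh : h ∈ LSpace K F W) (h0 : h ≠ 0) : 1 - E ≤ w.toFun (ι h) := by
  have hxne : x - algebraMap K F x₀ ≠ 0 := by
    intro hzero
    apply hx.1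
    rw [sub_eq_zero.mp hzero]
    exact isAlgebraic_algebraMap x₀
  have hw' : (comapIntVal w ι).toFun (x - algebraMap K F x₀) = E := by
    rw [comapIntVal_toFun, map_sub, AlgHom.commutes, hw]
  obtain ⟨v, e, he, hv⟩ := exists_place_of_intVal (comapIntVal w ι)
    ⟨x - algebraMap K F x₀, hxne, by rw [hw']; exact hE.ne'⟩
  have h1 := hv _ hxne
  rw [hw'] at h1
  have he' : (0 : ℤ) < e := by exact_mod_cast he
  have hm : 0 < v.ord (x - algebraMap K F x₀) := by
    by_contra hcon
    push Not at hcon
    nlinarith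
  have hWv : W v = v.ord (x - algebraMap K F x₀) - 1 := by
    rw [hW v]
    exact Kaehler.ordDifferential_D_of_mem_placesAt hx v x x₀ hm
  have hh' : 0 ≤ v.ord h + W v := (hh.resolve_left h0) v
  have h2 := hv h h0
  rw [comapIntVal_toFun] at h2
  rw [h2]
  rw [hWv] at hh'
  nlinarith

/-- at a pole of `x` where `w x = -n`, elements of `L(div(dx))` have `w ≥ n + 1`. -/
theorem le_of_mem_LSpace_pole (ι : F →ₐ[K] L) {x : F} (hx : IsGenerator K x)
    (W : Divisor K F) (hW : ∀ v : Place K F, W v = v.ordDifferential (D K F x))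
    (w : IntVal K L) (n : ℤ) (hn : 0 < n) (hw : w.toFun (ι x) = -n)
    (h : F) (hh : h ∈ LSpace K F W) (h0 : h ≠ 0) : n + 1 ≤ w.toFun (ι h) := by
  have hxne : x ≠ 0 := by
    intro hzero
    apply hx.1
    rw [hzero]
    exact isAlgebraic_zero
  have hw' : (comapIntVal w ι).toFun x = -n := by
    rw [comapIntVal_toFun, hw]
  obtain ⟨v, e, he, hv⟩ := exists_place_of_intVal (comapIntVal w ι)
    ⟨x, hxne, by rw [hw']; omega⟩
  have h1 := hv _ hxne
  rw [hw'] at h1
  have he' : (0 : ℤ) < e := by exact_mod_cast he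
  have hm : v.ord x < 0 := by
    by_contra hcon
    push Not at hcon
    nlinarith
  have hWv : W v = v.ord x - 1 := by
    rw [hW v]
    exact Kaehler.ordDifferential_D_of_ord_neg hx v x hm
  have hh' : 0 ≤ v.ord h + W v := (hh.resolve_left h0) v
  have h2 := hv h h0
  rw [comapIntVal_toFun] at h2
  rw [h2]
  rw [hWv] at hh'
  nlinarith

end Fermat.Agent.S20.ValBound
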