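import Mathlib

set_option autoImplicit false

namespace Fermat.Agent.S22.Algebra

variable {V W : Type*} [AddCommGroup V] [Module ℂ V] [AddCommGroup W] [Module ℂ W]

/-- Abstract finiteness criterion ("pairs trick").

Let `G` be a set of endomorphisms of `V`.  Suppose there are an additive relation `P ⊆ V × W`
and a finitely generated `ℤ`-module `Λ` of functionals on `W` such that
* every `t ∈ G` has a lift `t'` to `W` that preserves `P` and (by precomposition) `Λ`;
* every `f : V` is related to some `U : W`;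
* if `(f, U) ∈ P` and all of `Λ` vanishes at `U`, then `f = 0`.
Then the `ℤ`-algebra generated by `G` is a finitely generated `ℤ`-module. -/
theorem moduleFinite_adjoin_of_lifts
    (P : AddSubgroup (V × W)) (Λ : Submodule ℤ (W →ₗ[ℂ] ℂ)) (hΛ : Λ.FG)
    (G : Set (Module.End ℂ V))
    (hG : ∀ t ∈ G, ∃ t' : Module.End ℂ W,
      (∀ ε ∈ Λ, ε ∘ₗ t' ∈ Λ) ∧ ∀ p ∈ P, (t p.1, t' p.2) ∈ P)
    (hex : ∀ f : V, ∃ U : W, (f, U) ∈ P)
    (hsep : ∀ p ∈ P, (∀ ε ∈ Λ, ε p.2 = 0) → p.1 = 0) :
    Module.Finite ℤ (Algebra.adjoin ℤ G) := by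
  classical
  -- the set of lifted pairs
  set G' : Set (Module.End ℂ V × Module.End ℂ W) :=
    {x | x.1 ∈ G ∧ (∀ ε ∈ Λ, ε ∘ₗ x.2 ∈ Λ) ∧ ∀ p ∈ P, (x.1 p.1, x.2 p.2) ∈ P} with hG'
  set A' : Subalgebra ℤ (Module.End ℂ V × Module.End ℂ W) := Algebra.adjoin ℤ G' with hA'
  have hA1 : ∀ x ∈ A', (∀ ε ∈ Λ, ε ∘ₗ x.2 ∈ Λ) ∧ ∀ p ∈ P, (x.1 p.1, x.2 p.2) ∈ P := by
    intro x hx
    induction hx using Algebra.adjoin_induction with
    | mem x hx => exact hx.2
    | algebraMap r =>
      refine ⟨fun ε hε => ?_, fun p hp => ?_⟩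
      · have : ε ∘ₗ (algebraMap ℤ (Module.End ℂ V × Module.End ℂ W) r).2 = r • ε := by
          ext U
          simp
        rw [this]
        exact Λ.smul_mem r hε
      · have : ((algebraMap ℤ (Module.End ℂ V × Module.End ℂ W) r).1 p.1,
            (algebraMap ℤ (Module.End ℂ V × Module.End ℂ W) r).2 p.2) = r • p := by
          ext <;> simp
        rw [this]
        exact P.zsmul_mem hp r
    | add x y _ _ hx hy =>
      refine ⟨fun ε hε => ?_, fun p hp => ?_⟩
      · have : ε ∘ₗ (x + y).2 = ε ∘ₗ x.2 + ε ∘ₗ y.2 := by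
          ext U
          simp
        rw [this]
        exact Λ.add_mem (hx.1 ε hε) (hy.1 ε hε)
      · have : ((x + y).1 p.1, (x + y).2 p.2) = (x.1 p.1, x.2 p.2) + (y.1 p.1, y.2 p.2) := by
          ext <;> simp
        rw [this]
        exact P.add_mem (hx.2 p hp) (hy.2 p hp)
    | mul x y _ _ hx hy =>
      refine ⟨fun ε hε => ?_, fun p hp => ?_⟩
      · have : ε ∘ₗ (x * y).2 = (ε ∘ₗ x.2) ∘ₗ y.2 := by
          ext U
          simp
        rw [this]
        exact hy.1 _ (hx.1 ε hε)
      · have := hx.2 _ (hy.2 p hp)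
        simpa using this
  -- finitely many generators of `Λ`
  obtain ⟨s, hs⟩ := hΛ
  have : Module.Finite ℤ Λ := Module.Finite.iff_fg.mpr ⟨s, hs⟩
  have hsΛ : ∀ e ∈ s, e ∈ Λ := fun e he => hs ▸ Submodule.subset_span he
  -- the evaluation map on generators
  let Ψ : A' →ₗ[ℤ] (s → Λ) :=
    { toFun := fun x e => ⟨(e : W →ₗ[ℂ] ℂ) ∘ₗ (x : Module.End ℂ V × Module.End ℂ W).2,
        (hA1 x x.2).1 _ (hsΛ e e.2)⟩
      map_add' := by
        intro x y
        funext e
        apply Subtype.ext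
        ext U
        simp
      map_smul' := by
        intro r x
        funext e
        apply Subtype.ext
        ext U
        simp }
  have hΨ : ∀ x : A', Ψ x = 0 → (x : Module.End ℂ V × Module.End ℂ W).1 = 0 := by
    intro x hx
    have h0 : ∀ ε ∈ Λ, ε ∘ₗ (x : Module.End ℂ V × Module.End ℂ W).2 = 0 := by
      intro ε hε
      rw [← hs] at hε
      induction hε using Submodule.span_induction with
      | mem e he =>
        have := congrFun hx ⟨e, he⟩
        exact congrArg Subtype.val this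
      | zero => simp
      | add a b _ _ ha hb => rw [LinearMap.add_comp, ha, hb, add_zero]
      | smul r a _ ha =>
        have : (r • a) ∘ₗ (x : Module.End ℂ V × Module.End ℂ W).2 =
            r • (a ∘ₗ (x : Module.End ℂ V × Module.End ℂ W).2) := by
          ext U
          simp
        rw [this, ha, smul_zero]
    ext f
    obtain ⟨U, hU⟩ := hex f
    have h1 := (hA1 x x.2).2 _ hU
    have h2 := hsep _ h1 (fun ε hε => by
      have := congrArg (fun φ : W →ₗ[ℂ] ℂ => φ U) (h0 ε hε)
      simpa using this)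
    simpa using h2
  -- the projection to the first factor
  let pr : A' →ₗ[ℤ] Algebra.adjoin ℤ G :=
    { toFun := fun x => ⟨(x : Module.End ℂ V × Module.End ℂ W).1, by
        have hx := x.2
        have : (x : Module.End ℂ V × Module.End ℂ W).1 ∈
            (Algebra.adjoin ℤ G').map (AlgHom.fst ℤ (Module.End ℂ V) (Module.End ℂ W)) :=
          ⟨x, hx, rfl⟩
        rw [AlgHom.map_adjoin] at this
        refine Algebra.adjoin_mono ?_ this
        rintro _ ⟨y, hy, rfl⟩
        exact hy.1⟩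
      map_add' := fun x y => rfl
      map_smul' := fun r x => rfl }
  have hpr : Function.Surjective pr := by
    rintro ⟨t, ht⟩
    have h1 : Algebra.adjoin ℤ G ≤
        (Algebra.adjoin ℤ G').map (AlgHom.fst ℤ (Module.End ℂ V) (Module.End ℂ W)) := by
      rw [AlgHom.map_adjoin]
      refine Algebra.adjoin_mono ?_
      intro t ht
      obtain ⟨t', ht1, ht2⟩ := hG t ht
      exact ⟨(t, t'), ⟨ht, ht1, ht2⟩, rfl⟩
    obtain ⟨x, hx, rfl⟩ := h1 ht
    exact ⟨⟨x, hx⟩, rfl⟩
  have hker : LinearMap.ker Ψ ≤ LinearMap.ker pr := by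
    intro x hx
    rw [LinearMap.mem_ker] at hx ⊢
    apply Subtype.ext
    exact hΨ x hx
  have : IsNoetherian ℤ (s → Λ) := isNoetherian_of_isNoetherianRing_of_finite ℤ _
  have : Module.Finite ℤ (LinearMap.range Ψ) := Module.IsNoetherian.finite ℤ _
  have : Module.Finite ℤ (A' ⧸ LinearMap.ker Ψ) :=
    Module.Finite.equiv (LinearMap.quotKerEquivRange Ψ).symm
  refine Module.Finite.of_surjective ((LinearMap.ker Ψ).liftQ pr hker) ?_
  intro y
  obtain ⟨x, rfl⟩ := hpr y
  exact ⟨Submodule.Quotient.mk x, by simp⟩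

end Fermat.Agent.S22.Algebra
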