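import Mathlib

/-!
# S23: exact division of power series over a subring of `ℂ`

Pure algebra used in the transport step: if `f * p2 = p1` in `ℂ⟦X⟧` with `p1, p2` defined over a
subring `A` and the leading coefficient of `p2` a unit of `A`, then `f` is defined over `A`,
and the quotient is compatible with every ring homomorphism `A →+* ℂ`.
-/

namespace Fermat.Agent.S23.PSDiv

open PowerSeries

theorem map_ne_zero_of_isUnit_coeff {A : Type*} [CommRing A] (φ : A →+* ℂ) (p : PowerSeries A)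
    (e : ℕ) (hu : IsUnit (p.coeff e)) : p.map φ ≠ 0 := by
  intro h
  have h1 : (p.map φ).coeff e = 0 := by rw [h]; simp
  rw [PowerSeries.coeff_map] at h1
  exact (hu.map φ).ne_zero h1

/-- Exact division: `f * p2 = p1` over `ℂ`, `p1, p2` defined over `A`, leading coefficient of
`p2` a unit of `A` ⟹ `f` is defined over `A`. -/
theorem exists_div {A : Type*} [CommRing A] (ι : A →+* ℂ) (hι : Function.Injective ι)
    (p1 p2 : PowerSeries A) (f : PowerSeries ℂ) (hf : f * p2.map ι = p1.map ι) (e : ℕ)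
    (he : ∀ i < e, p2.coeff i = 0) (hu : IsUnit (p2.coeff e)) :
    ∃ t : PowerSeries A, t.map ι = f ∧ t * p2 = p1 := by
  obtain ⟨q2, hq2⟩ : (X : PowerSeries A) ^ e ∣ p2 := PowerSeries.X_pow_dvd_iff.mpr he
  have hq2u : IsUnit q2 := by
    rw [PowerSeries.isUnit_iff_constantCoeff]
    have : p2.coeff e = q2.coeff 0 := by
      rw [hq2]
      have := PowerSeries.coeff_X_pow_mul q2 e 0
      rw [zero_add] at this
      exact this
    rw [← PowerSeries.coeff_zero_eq_constantCoeff_apply, ← this]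
    exact hu
  have key : p1.map ι = X ^ e * (f * q2.map ι) := by
    rw [← hf, hq2, RingHom.map_mul, RingHom.map_pow, PowerSeries.map_X]
    ring
  have hp1 : ∀ i < e, p1.coeff i = 0 := by
    intro i hi
    apply hι
    rw [map_zero, ← PowerSeries.coeff_map, key]
    exact (PowerSeries.X_pow_dvd_iff.mp (Dvd.intro _ rfl)) i hi
  obtain ⟨q1, hq1⟩ : (X : PowerSeries A) ^ e ∣ p1 := PowerSeries.X_pow_dvd_iff.mpr hp1
  obtain ⟨v, hv⟩ := hq2u
  refine ⟨q1 * ↑v⁻¹, ?_, ?_⟩
  swap
  · rw [hq2, hq1, ← hv]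
    calc q1 * ↑v⁻¹ * (X ^ e * ↑v) = X ^ e * q1 * (↑v⁻¹ * ↑v) := by ring
      _ = X ^ e * q1 := by rw [Units.inv_mul, mul_one]
  · have hmul : (q1 * ↑v⁻¹ : PowerSeries A) * p2 = p1 := by
      rw [hq2, hq1, ← hv]
      calc q1 * ↑v⁻¹ * (X ^ e * ↑v) = X ^ e * q1 * (↑v⁻¹ * ↑v) := by ring
        _ = X ^ e * q1 := by rw [Units.inv_mul, mul_one]
    have h2 : (PowerSeries.map ι (q1 * ↑v⁻¹)) * p2.map ι = f * p2.map ι := by
      rw [← map_mul, hmul, hf]
    exact mul_right_cancel₀ (map_ne_zero_of_isUnit_coeff ι p2 e hu) h2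

/-- Compatibility of the quotient with any ring homomorphism. -/
theorem map_eq_of_mul_eq {A : Type*} [CommRing A] (φ : A →+* ℂ) (t p1 p2 : PowerSeries A)
    (h : t * p2 = p1) (e : ℕ) (hu : IsUnit (p2.coeff e)) (g : PowerSeries ℂ)
    (hg : g * p2.map φ = p1.map φ) : g = t.map φ := by
  have h2 : g * p2.map φ = t.map φ * p2.map φ := by
    rw [hg, ← h, map_mul]
  exact mul_right_cancel₀ (map_ne_zero_of_isUnit_coeff φ p2 e hu) h2

/-- A nonzero power series has a first nonzero coefficient. -/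
theorem exists_order_unit (p : PowerSeries ℂ) (hp : p ≠ 0) :
    ∃ e, (∀ i < e, p.coeff i = 0) ∧ p.coeff e ≠ 0 := by
  classical
  have hex : ∃ n, p.coeff n ≠ 0 := by
    by_contra hcon
    exact hp (PowerSeries.ext fun n => by
      rw [map_zero]
      by_contra hn
      exact hcon ⟨n, hn⟩)
  refine ⟨Nat.find hex, fun i hi => ?_, Nat.find_spec hex⟩
  have := Nat.find_min hex hi
  simpa using this

/-- An element of a subalgebra of `ℂ` whose inverse lies in the subalgebra is a unit. -/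
theorem isUnit_of_inv_mem (A : Subalgebra ℚ ℂ) (a : A) (ha : (a : ℂ) ≠ 0)
    (h : (a : ℂ)⁻¹ ∈ A) : IsUnit a := by
  refine IsUnit.of_mul_eq_one (⟨(a : ℂ)⁻¹, h⟩ : A) ?_
  apply Subtype.ext
  simp [ha]

/-- Subalgebra version of `exists_div` with all hypotheses stated over `ℂ`. -/
theorem exists_div_subalgebra (A : Subalgebra ℚ ℂ) (p1 p2 : PowerSeries A) (f : PowerSeries ℂ)
    (hf : f * p2.map (algebraMap A ℂ) = p1.map (algebraMap A ℂ)) (e : ℕ)
    (he : ∀ i < e, (p2.map (algebraMap A ℂ)).coeff i = 0)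
    (hne : (p2.map (algebraMap A ℂ)).coeff e ≠ 0)
    (hinv : ((p2.map (algebraMap A ℂ)).coeff e)⁻¹ ∈ A) :
    ∃ t : PowerSeries A, t.map (algebraMap A ℂ) = f ∧ t * p2 = p1 ∧ IsUnit (p2.coeff e) := by
  have hinj : Function.Injective (algebraMap A ℂ) := Subtype.val_injective
  have he' : ∀ i < e, p2.coeff i = 0 := by
    intro i hi
    apply hinj
    rw [map_zero, ← PowerSeries.coeff_map]
    exact he i hi
  have hu : IsUnit (p2.coeff e) := by
    rw [PowerSeries.coeff_map] at hne hinv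
    exact isUnit_of_inv_mem A _ hne hinv
  obtain ⟨t, ht1, ht2⟩ := exists_div (algebraMap A ℂ) hinj p1 p2 f hf e he' hu
  exact ⟨t, ht1, ht2, hu⟩

end Fermat.Agent.S23.PSDiv
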