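import Mathlib

set_option autoImplicit false

/-!
# S24 (M5a): the projective line over `ZMod N` as an `SL(2, ℤ)`-set

* `Unimod N`: unimodular column vectors over `ZMod N`.
* `P1 N`: `Unimod N` modulo the scalar action of `(ZMod N)ˣ`.
* `SL(2, ℤ)` acts on both through reduction mod `N` and matrix-vector multiplication.
-/

open Matrix
open scoped MatrixGroups

namespace Fermat.Agent.S24.P1

/-- Reduction modulo `N` on `SL(2, ℤ)`. -/
abbrev red (N : ℕ) : SL(2, ℤ) →* SL(2, ZMod N) :=
  Matrix.SpecialLinearGroup.map (Int.castRingHom (ZMod N))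

/-- Unimodular column vectors over `ZMod N`. -/
def Unimod (N : ℕ) : Type := {v : Fin 2 → ZMod N // IsCoprime (v 0) (v 1)}

variable {N : ℕ}

namespace Unimod

@[ext] theorem ext {v w : Unimod N} (h0 : v.1 0 = w.1 0) (h1 : v.1 1 = w.1 1) : v = w := by
  apply Subtype.ext
  funext i
  fin_cases i
  · exact h0
  · exact h1

/-- The unimodular vector with entries `a`, `c`. -/
def mk (a c : ZMod N) (h : IsCoprime a c) : Unimod N := ⟨![a, c], by simpa using h⟩

@[simp] theorem mk_zero (a c : ZMod N) (h : IsCoprime a c) : (mk a c h).1 0 = a := rfl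

@[simp] theorem mk_one (a c : ZMod N) (h : IsCoprime a c) : (mk a c h).1 1 = c := rfl

/-- The first standard basis vector. -/
def e₁ : Unimod N := mk 1 0 isCoprime_one_left

instance : MulAction (ZMod N)ˣ (Unimod N) where
  smul u v := ⟨(u : ZMod N) • v.1, by
    have h := v.2
    simp only [Pi.smul_apply, smul_eq_mul]
    exact (isCoprime_mul_unit_left u.isUnit _ _).mpr h⟩
  one_smul v := Subtype.ext (by
    show ((1 : (ZMod N)ˣ) : ZMod N) • v.1 = v.1
    rw [Units.val_one, one_smul])
  mul_smul u u' v := Subtype.ext (by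
    show ((u * u' : (ZMod N)ˣ) : ZMod N) • v.1 = (u : ZMod N) • ((u' : ZMod N) • v.1)
    rw [Units.val_mul, mul_smul])

theorem units_smul_val (u : (ZMod N)ˣ) (v : Unimod N) : (u • v).1 = (u : ZMod N) • v.1 := rfl

@[simp] theorem units_smul_zero (u : (ZMod N)ˣ) (v : Unimod N) :
    (u • v).1 0 = (u : ZMod N) * v.1 0 := rfl

@[simp] theorem units_smul_one (u : (ZMod N)ˣ) (v : Unimod N) :
    (u • v).1 1 = (u : ZMod N) * v.1 1 := rfl

instance : MulAction SL(2, ℤ) (Unimod N) where
  smul g v := ⟨(red N g) • v.1, IsCoprime.mulVecSL v.2 (red N g)⟩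
  one_smul v := Subtype.ext (by
    show (red N 1) • v.1 = v.1
    rw [map_one, one_smul])
  mul_smul g g' v := Subtype.ext (by
    show (red N (g * g')) • v.1 = (red N g) • ((red N g') • v.1)
    rw [map_mul, mul_smul])

theorem sl_smul_val (g : SL(2, ℤ)) (v : Unimod N) : (g • v).1 = (red N g) • v.1 := rfl

theorem sl_smul_zero (g : SL(2, ℤ)) (v : Unimod N) :
    (g • v).1 0 = (g 0 0 : ZMod N) * v.1 0 + (g 0 1 : ZMod N) * v.1 1 := by
  show ((red N g).1 *ᵥ v.1) 0 = _
  simp [Matrix.mulVec, dotProduct, Fin.sum_univ_two]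

theorem sl_smul_one (g : SL(2, ℤ)) (v : Unimod N) :
    (g • v).1 1 = (g 1 0 : ZMod N) * v.1 0 + (g 1 1 : ZMod N) * v.1 1 := by
  show ((red N g).1 *ᵥ v.1) 1 = _
  simp [Matrix.mulVec, dotProduct, Fin.sum_univ_two]

instance : SMulCommClass SL(2, ℤ) (ZMod N)ˣ (Unimod N) where
  smul_comm g u v := by
    ext
    · simp only [sl_smul_zero, units_smul_zero, units_smul_one]; ring
    · simp only [sl_smul_one, units_smul_zero, units_smul_one]; ring

end Unimod

/-- The projective line over `ZMod N`: unimodular vectors up to units. -/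
def _root_.Fermat.Agent.S24.P1 (N : ℕ) : Type := MulAction.orbitRel.Quotient (ZMod N)ˣ (Unimod N)

/-- The class of a unimodular vector. -/
def mk (v : Unimod N) : P1 N := Quotient.mk'' v

theorem mk_surjective : Function.Surjective (mk : Unimod N → P1 N) := Quotient.mk''_surjective

theorem mk_eq_mk_iff {v w : Unimod N} : mk v = mk w ↔ ∃ u : (ZMod N)ˣ, u • w = v := by
  show (Quotient.mk'' v : Quotient (MulAction.orbitRel (ZMod N)ˣ (Unimod N))) = Quotient.mk'' w ↔ _
  rw [Quotient.eq'']
  exact Iff.rfl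

theorem mk_units_smul (u : (ZMod N)ˣ) (v : Unimod N) : mk (u • v) = mk v :=
  mk_eq_mk_iff.mpr ⟨u, rfl⟩

instance : MulAction SL(2, ℤ) (P1 N) where
  smul g := Quotient.map' (fun v => g • v) (by
    rintro v w ⟨u, rfl⟩
    exact ⟨u, (smul_comm g u w).symm⟩)
  one_smul x := by
    induction x using Quotient.inductionOn' with
    | h v => exact congrArg mk (one_smul _ v)
  mul_smul g g' x := by
    induction x using Quotient.inductionOn' with
    | h v => exact congrArg mk (mul_smul g g' v)

@[simp] theorem smul_mk (g : SL(2, ℤ)) (v : Unimod N) : g • mk v = mk (g • v) := rfl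

end Fermat.Agent.S24.P1
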