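import Mathlib

/-!
# S24, M5: primitive vectors modulo `N` (shared definitions)

`Prim N` is the set of primitive column vectors in `(ℤ/N)²`; the projective line `P¹(ℤ/N)` is
its quotient by the units (`projSetoid`), and the cusps of `Γ₀(N)` correspond to the quotient by
units and translations (`cuspSetoid`).
-/

set_option autoImplicit false

namespace Fermat.Agent.S24.P1

/-- A vector in `(ℤ/N)²` is primitive if its entries generate the unit ideal. -/
def IsPrim {N : ℕ} (v : ZMod N × ZMod N) : Prop := ∃ x y : ZMod N, x * v.1 + y * v.2 = 1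

/-- Primitive column vectors modulo `N`. -/
def Prim (N : ℕ) : Type := {v : ZMod N × ZMod N // IsPrim v}

theorem isPrim_unit_smul {N : ℕ} (u : (ZMod N)ˣ) {v : ZMod N × ZMod N} (hv : IsPrim v) :
    IsPrim ((u : ZMod N) * v.1, (u : ZMod N) * v.2) := by
  obtain ⟨x, y, h⟩ := hv
  refine ⟨x * (↑u⁻¹ : ZMod N), y * (↑u⁻¹ : ZMod N), ?_⟩
  have hu : (↑u⁻¹ : ZMod N) * (u : ZMod N) = 1 := Units.inv_mul u
  calc x * (↑u⁻¹ : ZMod N) * ((u : ZMod N) * v.1) + y * (↑u⁻¹ : ZMod N) * ((u : ZMod N) * v.2)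
      = ((↑u⁻¹ : ZMod N) * (u : ZMod N)) * (x * v.1 + y * v.2) := by ring
    _ = 1 := by rw [hu, h, mul_one]

theorem isPrim_translate {N : ℕ} (k : ZMod N) {v : ZMod N × ZMod N} (hv : IsPrim v) :
    IsPrim (v.1 + k * v.2, v.2) := by
  obtain ⟨x, y, h⟩ := hv
  exact ⟨x, y - x * k, by linear_combination h⟩

/-- Projective equivalence: scaling by units. -/
def projSetoid (N : ℕ) : Setoid (Prim N) where
  r v w := ∃ u : (ZMod N)ˣ, w.1 = ((u : ZMod N) * v.1.1, (u : ZMod N) * v.1.2)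
  iseqv := by
    refine ⟨fun v => ⟨1, by simp⟩, ?_, ?_⟩
    · rintro v w ⟨u, hu⟩
      refine ⟨u⁻¹, ?_⟩
      rw [hu]
      ext <;> simp
    · rintro v w z ⟨u, hu⟩ ⟨u', hu'⟩
      refine ⟨u' * u, ?_⟩
      rw [hu', hu]
      ext <;> simp [mul_assoc]

/-- Cusp equivalence: scaling by units and translations `(a, c) ↦ (a + k c, c)`. -/
def cuspSetoid (N : ℕ) : Setoid (Prim N) where
  r v w := ∃ (u : (ZMod N)ˣ) (k : ZMod N),
    w.1 = ((u : ZMod N) * (v.1.1 + k * v.1.2), (u : ZMod N) * v.1.2)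
  iseqv := by
    refine ⟨fun v => ⟨1, 0, by simp⟩, ?_, ?_⟩
    · rintro v w ⟨u, k, hu⟩
      refine ⟨u⁻¹, -k, ?_⟩
      rw [hu]
      have h1 : (↑u⁻¹ : ZMod N) * (u : ZMod N) = 1 := Units.inv_mul u
      ext
      · simp only
        linear_combination (-v.1.1) * h1
      · simp only
        linear_combination (-v.1.2) * h1
    · rintro v w z ⟨u, k, hu⟩ ⟨u', k', hu'⟩
      refine ⟨u' * u, k + k', ?_⟩
      rw [hu', hu]
      ext
      · simp only [Units.val_mul]
        ring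
      · simp only [Units.val_mul]
        ring

end Fermat.Agent.S24.P1
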