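import Mathlib
import Fermat.Prelude.Def_ModularCurve_IgusaScheme

set_option autoImplicit false

/-!
# S28, scheme part: integrality of the fibre of the Igusa scheme from three ring statements

The Igusa scheme is glued from `Spec` of the two chart algebras along `Spec` of the middle chart
algebra.  Its base change to a field `K` is therefore covered by the two open subschemes
`Spec (chartAlgFin ⊗ K)` and `Spec (chartAlgInf ⊗ K)`, which meet in the image of
`Spec (chartAlgMid ⊗ K)`.  If the first two tensor products are domains and the third is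
nontrivial, the base change is an integral scheme.
-/

open AlgebraicGeometry CategoryTheory CategoryTheory.Limits ModularCurve ModularCurve.IgusaScheme

noncomputable section

namespace Fermat.Agent.S28.Scheme

/-- A space covered by two irreducible open subsets with nonempty intersection is irreducible. -/
theorem irreducibleSpace_of_two_opens {X : Type*} [TopologicalSpace X] (U V : Set X)
    (hU : IsOpen U) (hV : IsOpen V) (hUi : IsIrreducible U) (hVi : IsIrreducible V)
    (hUV : (U ∩ V).Nonempty) (hcov : U ∪ V = Set.univ) : IrreducibleSpace X := by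
  obtain ⟨y, hyU, hyV⟩ := hUV
  have key : ∀ W : Set X, IsOpen W → W.Nonempty → (U ∩ (W ∩ V)).Nonempty := by
    rintro W hW ⟨x, hxW⟩
    have hx : x ∈ U ∪ V := by rw [hcov]; trivial
    rcases hx with hxU | hxV
    · exact hUi.2 W V hW hV ⟨x, hxU, hxW⟩ ⟨y, hyU, hyV⟩
    · obtain ⟨z, hzV, hzW, hzU⟩ := hVi.2 W U hW hU ⟨x, hxV, hxW⟩ ⟨y, hyV, hyU⟩
      exact ⟨z, hzU, hzW, hzV⟩
  refine { isPreirreducible_univ := ?_, toNonempty := ⟨y⟩ }
  rintro W₁ W₂ hW₁ hW₂ ⟨x₁, -, hx₁⟩ ⟨x₂, -, hx₂⟩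
  obtain ⟨z₁, hz₁U, hz₁W, -⟩ := key W₁ hW₁ ⟨x₁, hx₁⟩
  obtain ⟨z₂, hz₂U, hz₂W, -⟩ := key W₂ hW₂ ⟨x₂, hx₂⟩
  obtain ⟨z, -, hz⟩ := hUi.2 W₁ W₂ hW₁ hW₂ ⟨z₁, hz₁U, hz₁W⟩ ⟨z₂, hz₂U, hz₂W⟩
  exact ⟨z, trivial, hz⟩

variable (N : ℕ) [NeZero N] (ℓ : ℕ) [Fact ℓ.Prime]

set_option quotPrecheck false in
local notation "ℤℓ" => ↥(GaloisRep.ratLocalizedAt ℓ)

/-- the two charts of the Igusa scheme -/
def chartObj : Bool → Scheme.{0}
  | true => XFin N ℓ
  | false => XInf N ℓ

/-- the chart maps -/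
def chartMap : (b : Bool) → chartObj N ℓ b ⟶ ModularCurve.IgusaScheme N ℓ
  | true => ιFin N ℓ
  | false => ιInf N ℓ

instance (b : Bool) : IsOpenImmersion (chartMap N ℓ b) := by
  cases b
  · exact isOpenImmersion_ιInf N ℓ
  · exact isOpenImmersion_ιFin N ℓ

/-- the two charts form an open cover -/
def chartCover : (ModularCurve.IgusaScheme N ℓ).OpenCover :=
  Scheme.Cover.mkOfCovers Bool (chartObj N ℓ) (chartMap N ℓ) (by
    intro x
    rcases mem_range_ιFin_or_mem_range_ιInf N ℓ x with ⟨y, hy⟩ | ⟨y, hy⟩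
    · exact ⟨true, y, hy⟩
    · exact ⟨false, y, hy⟩) (fun b => inferInstanceAs (IsOpenImmersion (chartMap N ℓ b)))


variable (K : Type) [Field K] [Algebra ↥(GaloisRep.ratLocalizedAt ℓ) K]

/-- the base morphism `Spec K ⟶ Spec ℤ_(ℓ)` -/
abbrev baseMap : Spec (CommRingCat.of K) ⟶ Spec (CommRingCat.of ↥(GaloisRep.ratLocalizedAt ℓ)) :=
  Spec.map (CommRingCat.ofHom (algebraMap ↥(GaloisRep.ratLocalizedAt ℓ) K))

set_option maxHeartbeats 1000000 in
set_option synthInstance.maxHeartbeats 400000 in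
/-- the fibre of the finite chart -/
def isoFin : pullback (ιFin N ℓ ≫ igusaTo N ℓ) (baseMap ℓ K) ≅
    Spec (CommRingCat.of (TensorProduct ↥(GaloisRep.ratLocalizedAt ℓ) (chartAlgFin N ℓ) K)) :=
  pullback.congrHom (ιFin_igusaTo N ℓ) rfl ≪≫
    pullbackSpecIso ↥(GaloisRep.ratLocalizedAt ℓ) (chartAlgFin N ℓ) K

set_option maxHeartbeats 1000000 in
set_option synthInstance.maxHeartbeats 400000 in
/-- the fibre of the chart at infinity -/
def isoInf : pullback (ιInf N ℓ ≫ igusaTo N ℓ) (baseMap ℓ K) ≅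
    Spec (CommRingCat.of (TensorProduct ↥(GaloisRep.ratLocalizedAt ℓ) (chartAlgInf N ℓ) K)) :=
  pullback.congrHom (ιInf_igusaTo N ℓ) rfl ≪≫
    pullbackSpecIso ↥(GaloisRep.ratLocalizedAt ℓ) (chartAlgInf N ℓ) K

set_option maxHeartbeats 1000000 in
set_option synthInstance.maxHeartbeats 400000 in
theorem fFin_ιFin_igusaTo : fFin N ℓ ≫ ιFin N ℓ ≫ igusaTo N ℓ =
    Spec.map (CommRingCat.ofHom (algebraMap ↥(GaloisRep.ratLocalizedAt ℓ) (chartAlgMid N ℓ))) := by
  rw [ιFin_igusaTo, ← Spec.map_comp, ← CommRingCat.ofHom_comp]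
  congr 2

set_option maxHeartbeats 1000000 in
set_option synthInstance.maxHeartbeats 400000 in
/-- the fibre of the middle chart -/
def isoMid : pullback (fFin N ℓ ≫ ιFin N ℓ ≫ igusaTo N ℓ) (baseMap ℓ K) ≅
    Spec (CommRingCat.of (TensorProduct ↥(GaloisRep.ratLocalizedAt ℓ) (chartAlgMid N ℓ) K)) :=
  pullback.congrHom (fFin_ιFin_igusaTo N ℓ) rfl ≪≫
    pullbackSpecIso ↥(GaloisRep.ratLocalizedAt ℓ) (chartAlgMid N ℓ) K


/-- the cover of the fibre by the fibres of the two charts -/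
def fibreCover : (pullback (igusaTo N ℓ) (baseMap ℓ K)).OpenCover :=
  Scheme.Pullback.openCoverOfLeft (chartCover N ℓ) (igusaTo N ℓ) (baseMap ℓ K)

set_option maxHeartbeats 1000000 in
set_option synthInstance.maxHeartbeats 400000 in
/-- **Scheme part of S28.**  If the fibres of the two chart algebras are domains and the fibre
of the middle chart algebra is nontrivial, the fibre of the Igusa scheme is integral. -/
theorem isIntegral_pullback_of_isDomain
    (hFin : IsDomain (TensorProduct ↥(GaloisRep.ratLocalizedAt ℓ) (chartAlgFin N ℓ) K))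
    (hInf : IsDomain (TensorProduct ↥(GaloisRep.ratLocalizedAt ℓ) (chartAlgInf N ℓ) K))
    (hMid : Nontrivial (TensorProduct ↥(GaloisRep.ratLocalizedAt ℓ) (chartAlgMid N ℓ) K)) :
    IsIntegral (pullback (igusaTo N ℓ)
      (Spec.map (CommRingCat.ofHom (algebraMap ↥(GaloisRep.ratLocalizedAt ℓ) K)))) := by
  -- the two chart fibres are integral schemes
  have hIntFin : IsIntegral (Spec (CommRingCat.of
      (TensorProduct ↥(GaloisRep.ratLocalizedAt ℓ) (chartAlgFin N ℓ) K))) :=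
    (affine_isIntegral_iff _).mpr hFin
  have hIntInf : IsIntegral (Spec (CommRingCat.of
      (TensorProduct ↥(GaloisRep.ratLocalizedAt ℓ) (chartAlgInf N ℓ) K))) :=
    (affine_isIntegral_iff _).mpr hInf
  have hneFin : Nonempty ↥(pullback (ιFin N ℓ ≫ igusaTo N ℓ) (baseMap ℓ K)) := by
    obtain ⟨x⟩ := hIntFin.nonempty
    exact ⟨(isoFin N ℓ K).inv x⟩
  have hneInf : Nonempty ↥(pullback (ιInf N ℓ ≫ igusaTo N ℓ) (baseMap ℓ K)) := by
    obtain ⟨x⟩ := hIntInf.nonempty
    exact ⟨(isoInf N ℓ K).inv x⟩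
  have hI1 : IsIntegral (pullback (ιFin N ℓ ≫ igusaTo N ℓ) (baseMap ℓ K)) :=
    isIntegral_of_isOpenImmersion (isoFin N ℓ K).hom
  have hI2 : IsIntegral (pullback (ιInf N ℓ ≫ igusaTo N ℓ) (baseMap ℓ K)) :=
    isIntegral_of_isOpenImmersion (isoInf N ℓ K).hom
  have hIall : ∀ b : Bool, IsIntegral ((fibreCover N ℓ K).X b) := by
    intro b
    cases b
    · exact hI2
    · exact hI1
  -- reducedness
  have : IsReduced (pullback (igusaTo N ℓ) (baseMap ℓ K)) := by
    have : ∀ b : (fibreCover N ℓ K).I₀, IsReduced ((fibreCover N ℓ K).X b) := fun b =>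
      have := hIall b
      inferInstance
    exact IsReduced.of_openCover _ (fibreCover N ℓ K)
  -- irreducibility
  have : IrreducibleSpace ↥(pullback (igusaTo N ℓ) (baseMap ℓ K)) := by
    have hirr : ∀ b : Bool, IsIrreducible (Set.range ((fibreCover N ℓ K).f b)) := by
      intro b
      have := hIall b
      have : IrreducibleSpace ↥((fibreCover N ℓ K).X b) := irreducibleSpace_of_isIntegral _
      rw [← Set.image_univ]
      exact (IrreducibleSpace.isIrreducible_univ _).image _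
        ((fibreCover N ℓ K).f b).continuous.continuousOn
    have hopen : ∀ b : Bool, IsOpen (Set.range ((fibreCover N ℓ K).f b)) := by
      intro b
      have : IsOpenImmersion ((fibreCover N ℓ K).f b) := (fibreCover N ℓ K).map_prop b
      exact ((fibreCover N ℓ K).f b).isOpenEmbedding.isOpen_range
    refine irreducibleSpace_of_two_opens _ _ (hopen true) (hopen false) (hirr true) (hirr false)
      ?_ ?_
    · -- nonempty intersection through the middle chart
      obtain ⟨z⟩ : Nonempty ↥(pullback (fFin N ℓ ≫ ιFin N ℓ ≫ igusaTo N ℓ) (baseMap ℓ K)) := by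
        obtain ⟨x⟩ : Nonempty ↥(Spec (CommRingCat.of
            (TensorProduct ↥(GaloisRep.ratLocalizedAt ℓ) (chartAlgMid N ℓ) K))) :=
          inferInstanceAs (Nonempty (PrimeSpectrum
            (TensorProduct ↥(GaloisRep.ratLocalizedAt ℓ) (chartAlgMid N ℓ) K)))
        exact ⟨(isoMid N ℓ K).inv x⟩
      let a : pullback (fFin N ℓ ≫ ιFin N ℓ ≫ igusaTo N ℓ) (baseMap ℓ K) ⟶
          (fibreCover N ℓ K).X true :=
        pullback.map _ _ (ιFin N ℓ ≫ igusaTo N ℓ) (baseMap ℓ K) (fFin N ℓ) (𝟙 _) (𝟙 _)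
          (by rw [Category.comp_id]) (by rw [Category.comp_id, Category.id_comp])
      let b : pullback (fFin N ℓ ≫ ιFin N ℓ ≫ igusaTo N ℓ) (baseMap ℓ K) ⟶
          (fibreCover N ℓ K).X false :=
        pullback.map _ _ (ιInf N ℓ ≫ igusaTo N ℓ) (baseMap ℓ K) (fInf N ℓ) (𝟙 _) (𝟙 _)
          (by rw [Category.comp_id, ← Category.assoc, glue_condition, Category.assoc])
          (by rw [Category.comp_id, Category.id_comp])
      have hab : a ≫ (fibreCover N ℓ K).f true = b ≫ (fibreCover N ℓ K).f false := by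
        apply pullback.hom_ext
        · have h1 : (fibreCover N ℓ K).f true ≫ pullback.fst (igusaTo N ℓ) (baseMap ℓ K) =
              pullback.fst (ιFin N ℓ ≫ igusaTo N ℓ) (baseMap ℓ K) ≫ ιFin N ℓ :=
            pullback.lift_fst _ _ _
          have h2 : (fibreCover N ℓ K).f false ≫ pullback.fst (igusaTo N ℓ) (baseMap ℓ K) =
              pullback.fst (ιInf N ℓ ≫ igusaTo N ℓ) (baseMap ℓ K) ≫ ιInf N ℓ :=
            pullback.lift_fst _ _ _
          have h3 : a ≫ pullback.fst (ιFin N ℓ ≫ igusaTo N ℓ) (baseMap ℓ K) =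
              pullback.fst _ _ ≫ fFin N ℓ := pullback.lift_fst _ _ _
          have h4 : b ≫ pullback.fst (ιInf N ℓ ≫ igusaTo N ℓ) (baseMap ℓ K) =
              pullback.fst _ _ ≫ fInf N ℓ := pullback.lift_fst _ _ _
          calc (a ≫ (fibreCover N ℓ K).f true) ≫ pullback.fst (igusaTo N ℓ) (baseMap ℓ K)
              = a ≫ ((fibreCover N ℓ K).f true ≫ pullback.fst (igusaTo N ℓ) (baseMap ℓ K)) :=
                Category.assoc _ _ _
            _ = a ≫ (pullback.fst (ιFin N ℓ ≫ igusaTo N ℓ) (baseMap ℓ K) ≫ ιFin N ℓ) :=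
                congrArg (fun k => a ≫ k) h1
            _ = (a ≫ pullback.fst (ιFin N ℓ ≫ igusaTo N ℓ) (baseMap ℓ K)) ≫ ιFin N ℓ :=
                (Category.assoc _ _ _).symm
            _ = (pullback.fst _ _ ≫ fFin N ℓ) ≫ ιFin N ℓ := congrArg (fun k => k ≫ ιFin N ℓ) h3
            _ = pullback.fst _ _ ≫ (fFin N ℓ ≫ ιFin N ℓ) := Category.assoc _ _ _
            _ = pullback.fst _ _ ≫ (fInf N ℓ ≫ ιInf N ℓ) :=
                congrArg (fun k => pullback.fst _ _ ≫ k) (glue_condition N ℓ)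
            _ = (pullback.fst _ _ ≫ fInf N ℓ) ≫ ιInf N ℓ := (Category.assoc _ _ _).symm
            _ = (b ≫ pullback.fst (ιInf N ℓ ≫ igusaTo N ℓ) (baseMap ℓ K)) ≫ ιInf N ℓ :=
                (congrArg (fun k => k ≫ ιInf N ℓ) h4).symm
            _ = b ≫ (pullback.fst (ιInf N ℓ ≫ igusaTo N ℓ) (baseMap ℓ K) ≫ ιInf N ℓ) :=
                Category.assoc _ _ _
            _ = b ≫ ((fibreCover N ℓ K).f false ≫ pullback.fst (igusaTo N ℓ) (baseMap ℓ K)) :=
                (congrArg (fun k => b ≫ k) h2).symm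
            _ = (b ≫ (fibreCover N ℓ K).f false) ≫ pullback.fst (igusaTo N ℓ) (baseMap ℓ K) :=
                (Category.assoc _ _ _).symm
        · have h1 : (fibreCover N ℓ K).f true ≫ pullback.snd (igusaTo N ℓ) (baseMap ℓ K) =
              pullback.snd (ιFin N ℓ ≫ igusaTo N ℓ) (baseMap ℓ K) ≫ 𝟙 _ :=
            pullback.lift_snd _ _ _
          have h2 : (fibreCover N ℓ K).f false ≫ pullback.snd (igusaTo N ℓ) (baseMap ℓ K) =
              pullback.snd (ιInf N ℓ ≫ igusaTo N ℓ) (baseMap ℓ K) ≫ 𝟙 _ :=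
            pullback.lift_snd _ _ _
          have h3 : a ≫ pullback.snd (ιFin N ℓ ≫ igusaTo N ℓ) (baseMap ℓ K) =
              pullback.snd _ _ ≫ 𝟙 _ := pullback.lift_snd _ _ _
          have h4 : b ≫ pullback.snd (ιInf N ℓ ≫ igusaTo N ℓ) (baseMap ℓ K) =
              pullback.snd _ _ ≫ 𝟙 _ := pullback.lift_snd _ _ _
          calc (a ≫ (fibreCover N ℓ K).f true) ≫ pullback.snd (igusaTo N ℓ) (baseMap ℓ K)
              = a ≫ ((fibreCover N ℓ K).f true ≫ pullback.snd (igusaTo N ℓ) (baseMap ℓ K)) :=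
                Category.assoc _ _ _
            _ = a ≫ (pullback.snd (ιFin N ℓ ≫ igusaTo N ℓ) (baseMap ℓ K) ≫ 𝟙 _) :=
                congrArg (fun k => a ≫ k) h1
            _ = (a ≫ pullback.snd (ιFin N ℓ ≫ igusaTo N ℓ) (baseMap ℓ K)) ≫ 𝟙 _ :=
                (Category.assoc _ _ _).symm
            _ = (pullback.snd _ _ ≫ 𝟙 _) ≫ 𝟙 _ := congrArg (fun k => k ≫ 𝟙 _) h3
            _ = (b ≫ pullback.snd (ιInf N ℓ ≫ igusaTo N ℓ) (baseMap ℓ K)) ≫ 𝟙 _ :=
                (congrArg (fun k => k ≫ 𝟙 _) h4).symm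
            _ = b ≫ (pullback.snd (ιInf N ℓ ≫ igusaTo N ℓ) (baseMap ℓ K) ≫ 𝟙 _) :=
                Category.assoc _ _ _
            _ = b ≫ ((fibreCover N ℓ K).f false ≫ pullback.snd (igusaTo N ℓ) (baseMap ℓ K)) :=
                (congrArg (fun k => b ≫ k) h2).symm
            _ = (b ≫ (fibreCover N ℓ K).f false) ≫ pullback.snd (igusaTo N ℓ) (baseMap ℓ K) :=
                (Category.assoc _ _ _).symm
      refine ⟨(fibreCover N ℓ K).f true (a z), ⟨a z, rfl⟩, b z, ?_⟩
      have := congrArg (fun f => f z) hab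
      simpa using this.symm
    · ext x
      simp only [Set.mem_union, Set.mem_range, Set.mem_univ, iff_true]
      obtain ⟨i, y, hy⟩ := (fibreCover N ℓ K).exists_eq x
      cases i
      · exact Or.inr ⟨y, hy⟩
      · exact Or.inl ⟨y, hy⟩
  exact isIntegral_of_irreducibleSpace_of_isReduced _

end Fermat.Agent.S28.Scheme
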