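/-
S28 (Igusa), pure-algebra block: base change to characteristic `ℓ`.

If `A` is a `ℤ_(ℓ)`-algebra with a ring hom `ρ : A → 𝔽_ℓ((q))` whose kernel is `ℓ A`, then for
every field `K` of characteristic `ℓ` the ring `A ⊗[ℤ_(ℓ)] K` is a domain (it embeds in `K((q))`).
-/
import Mathlib
import Fermat.Prelude.Def_GaloisRep_Flat
import Fermat.Prelude.Def_ModularCurve_LaurentCoeff

set_option autoImplicit false

noncomputable section

namespace Fermat.Agent.S28Tensor

open TensorProduct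

/-- Ring homs out of `ℤ_(ℓ)` are unique. -/
theorem ratLocalizedAt_ringHom_ext (ℓ : ℕ) {R : Type*} [Ring R]
    (f g : ↥(GaloisRep.ratLocalizedAt ℓ) →+* R) : f = g := by
  ext ⟨x, hx⟩
  have hden : ((x.den : ℚ)) ∈ GaloisRep.ratLocalizedAt ℓ := by
    show ((x.den : ℚ)).den.Coprime ℓ
    simp
  have hnum : ((x.num : ℚ)) ∈ GaloisRep.ratLocalizedAt ℓ := by
    show ((x.num : ℚ)).den.Coprime ℓ
    simp
  have hinv : ((x.den : ℚ))⁻¹ ∈ GaloisRep.ratLocalizedAt ℓ := by
    show ((x.den : ℚ)⁻¹).den.Coprime ℓ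
    have : ((x.den : ℚ)⁻¹).den = x.den := by
      rw [Rat.inv_natCast_den]; simp [x.den_ne_zero]
    rw [this]; exact hx
  set d : ↥(GaloisRep.ratLocalizedAt ℓ) := ⟨(x.den : ℚ), hden⟩ with hd
  set di : ↥(GaloisRep.ratLocalizedAt ℓ) := ⟨(x.den : ℚ)⁻¹, hinv⟩ with hdi
  set n : ↥(GaloisRep.ratLocalizedAt ℓ) := ⟨(x.num : ℚ), hnum⟩ with hn
  have hdn : d = (x.den : ↥(GaloisRep.ratLocalizedAt ℓ)) := Subtype.ext (by simp [hd])
  have hnn : n = (x.num : ↥(GaloisRep.ratLocalizedAt ℓ)) := Subtype.ext (by simp [hn])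
  have h1 : di * d = 1 := Subtype.ext (by
    simp only [hd, hdi, Subring.coe_mul, Subring.coe_one]
    exact inv_mul_cancel₀ (by exact_mod_cast x.den_ne_zero))
  have h2 : (⟨x, hx⟩ : ↥(GaloisRep.ratLocalizedAt ℓ)) = n * di := Subtype.ext (by
    simp only [hn, hdi, Subring.coe_mul]
    rw [← div_eq_mul_inv, Rat.num_div_den])
  have hfd : f d = g d := by rw [hdn, map_natCast, map_natCast]
  have hfn : f n = g n := by rw [hnn, map_intCast, map_intCast]
  have hfdi : f di = g di := by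
    have e1 : f di * f d = 1 := by rw [← map_mul, h1, map_one]
    have e2 : g d * g di = 1 := by rw [← map_mul, mul_comm, h1, map_one]
    calc f di = f di * (g d * g di) := by rw [e2, mul_one]
      _ = (f di * f d) * g di := by rw [hfd, mul_assoc]
      _ = g di := by rw [e1, one_mul]
  rw [h2, map_mul, map_mul, hfn, hfdi]

/-- A ring hom out of a tensor product of commutative algebras, from a compatible pair of ring
homs (no algebra structure on the target needed). -/
theorem exists_ringHom_tmul {R A B L : Type*} [CommRing R] [CommRing A] [CommRing B] [CommRing L]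
    [Algebra R A] [Algebra R B] (f : A →+* L) (g : B →+* L)
    (h : f.comp (algebraMap R A) = g.comp (algebraMap R B)) :
    ∃ Φ : A ⊗[R] B →+* L, ∀ a b, Φ (a ⊗ₜ[R] b) = f a * g b := by
  let _ : Algebra R L := (g.comp (algebraMap R B)).toAlgebra
  let f' : A →ₐ[R] L :=
    { toRingHom := f
      commutes' := fun r => congrArg (fun φ : R →+* L => φ r) h }
  let g' : B →ₐ[R] L :=
    { toRingHom := g
      commutes' := fun r => rfl }
  refine ⟨(Algebra.TensorProduct.lift f' g' (fun x y => Commute.all _ _)).toRingHom, ?_⟩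
  intro a b
  simp [f', g']

/-- `ℤ_(ℓ)` as a type. -/
abbrev Zl (ℓ : ℕ) : Type := ↥(GaloisRep.ratLocalizedAt ℓ)

section Main

variable (ℓ : ℕ) [Fact ℓ.Prime]
variable {A : Type*} [CommRing A] [Algebra (Zl ℓ) A]
variable (K : Type*) [Field K] [CharP K ℓ] [Algebra (Zl ℓ) K]

/-- The comparison map `A ⊗[ℤ_(ℓ)] K → K((q))`, `a ⊗ c ↦ c • ρ(a)`. -/
theorem exists_tensorToLaurent (ρ : A →+* LaurentSeries (ZMod ℓ)) :
    ∃ Φ : A ⊗[(Zl ℓ)] K →+* LaurentSeries K, ∀ (a : A) (c : K),
      Φ (a ⊗ₜ[(Zl ℓ)] c) = ModularCurve.coeffMap (ZMod.castHom (dvd_refl ℓ) K) (ρ a)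
        * HahnSeries.C c :=
  exists_ringHom_tmul (R := Zl ℓ)
    ((ModularCurve.coeffMap (ZMod.castHom (dvd_refl ℓ) K)).comp ρ)
    (HahnSeries.C : K →+* LaurentSeries K)
    (ratLocalizedAt_ringHom_ext ℓ _ _)

/-- **Base change to characteristic `ℓ`.**  If `ρ : A → 𝔽_ℓ((q))` is a ring hom whose kernel
is contained in `ℓ A`, then `A ⊗[ℤ_(ℓ)] K → K((q))` is injective. -/
theorem exists_injective_tensorToLaurent (ρ : A →+* LaurentSeries (ZMod ℓ))
    (hρ : ∀ a : A, ρ a = 0 → ∃ a' : A, a = (ℓ : A) * a') :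
    ∃ Φ : A ⊗[(Zl ℓ)] K →+* LaurentSeries K, Function.Injective Φ ∧ ∀ (a : A) (c : K),
      Φ (a ⊗ₜ[(Zl ℓ)] c) = ModularCurve.coeffMap (ZMod.castHom (dvd_refl ℓ) K) (ρ a)
        * HahnSeries.C c := by
  obtain ⟨Φ, hΦ⟩ := exists_tensorToLaurent ℓ K ρ
  refine ⟨Φ, ?_, hΦ⟩
  let _ : Algebra (ZMod ℓ) K := ZMod.algebra K ℓ
  let b := Module.Basis.ofVectorSpace (ZMod ℓ) K
  have hcast : ∀ t : ZMod ℓ, algebraMap (ZMod ℓ) K t = ((t.val : ℕ) : K) := by
    intro t
    rw [ZMod.natCast_val]; rfl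
  -- every tensor is a finite sum of `a_i ⊗ b_i`
  have hrep : ∀ z : A ⊗[(Zl ℓ)] K, ∃ f : (Module.Basis.ofVectorSpaceIndex (ZMod ℓ) K) →₀ A,
      z = f.sum (fun i a => a ⊗ₜ[(Zl ℓ)] b i) := by
    intro z
    induction z using TensorProduct.induction_on with
    | zero => exact ⟨0, by simp⟩
    | tmul a c =>
      refine ⟨(b.repr c).mapRange (fun t => ((t.val : ℕ) : Zl ℓ) • a) (by simp), ?_⟩
      rw [Finsupp.sum_mapRange_index (by intro i; simp)]
      conv_lhs => rw [← b.linearCombination_repr c, Finsupp.linearCombination_apply,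
        Finsupp.sum, TensorProduct.tmul_sum]
      refine Finset.sum_congr rfl fun i _ => ?_
      have h1 : (b.repr c i) • b i = (((b.repr c i).val : ℕ) : Zl ℓ) • b i := by
        rw [Algebra.smul_def, Algebra.smul_def, hcast, map_natCast]
      rw [h1, TensorProduct.tmul_smul, TensorProduct.smul_tmul']
    | add x y hx hy =>
      obtain ⟨f, rfl⟩ := hx
      obtain ⟨g, rfl⟩ := hy
      exact ⟨f + g, (Finsupp.sum_add_index' (by simp) (by intros; simp [TensorProduct.add_tmul])).symm⟩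
  rw [injective_iff_map_eq_zero]
  intro z hz
  obtain ⟨f, rfl⟩ := hrep z
  have hcoef : ∀ (n : ℤ) (i), (ρ (f i)).coeff n = 0 := by
    intro n i
    have hlc : Finsupp.linearCombination (ZMod ℓ) b
        (f.mapRange (fun a => (ρ a).coeff n) (by simp)) = 0 := by
      rw [Finsupp.linearCombination_apply, Finsupp.sum_mapRange_index (by intro i; simp)]
      have h2 := congrArg (fun x : LaurentSeries K => x.coeff n) hz
      simp only [Finsupp.sum, map_sum, hΦ, HahnSeries.coeff_zero] at h2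
      rw [HahnSeries.coeff_sum] at h2
      rw [Finsupp.sum, ← h2]
      refine Finset.sum_congr rfl fun i _ => ?_
      rw [mul_comm, HahnSeries.C_mul_eq_smul, HahnSeries.coeff_smul, ModularCurve.coeffMap_coeff,
        Algebra.smul_def, smul_eq_mul, mul_comm]
      rfl
    have h3 := linearIndependent_iff.mp b.linearIndependent _ hlc
    have h4 := DFunLike.congr_fun h3 i
    simpa using h4
  rw [Finsupp.sum]
  refine Finset.sum_eq_zero fun i _ => ?_
  have hρi : ρ (f i) = 0 := HahnSeries.ext (funext fun n => hcoef n i)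
  obtain ⟨a', ha'⟩ := hρ _ hρi
  have h5 : f i = ((ℓ : ℕ) : Zl ℓ) • a' := by
    rw [ha', Algebra.smul_def, map_natCast]
  have h6 : ((ℓ : ℕ) : Zl ℓ) • b i = 0 := by
    rw [Algebra.smul_def, map_natCast, CharP.cast_eq_zero K ℓ, zero_mul]
  rw [h5, TensorProduct.smul_tmul, h6, TensorProduct.tmul_zero]

/-- **Base change to characteristic `ℓ` is a domain.** -/
theorem isDomain_tensor_of_ker (ρ : A →+* LaurentSeries (ZMod ℓ))
    (hρ : ∀ a : A, ρ a = 0 → ∃ a' : A, a = (ℓ : A) * a') :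
    IsDomain (A ⊗[(Zl ℓ)] K) := by
  obtain ⟨Φ, hinj, -⟩ := exists_injective_tensorToLaurent ℓ K ρ hρ
  exact hinj.isDomain Φ

end Main

end Fermat.Agent.S28Tensor
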