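-- Statement S28 (Igusa): for a prime ℓ not dividing N, the base change of the Igusa model of X₀(N)
-- over ℤ₍ℓ₎ to any field of characteristic ℓ is integral.
-- Assembly of: S28_Eta* (the eta quotient with integral expansion), S28_Span (it generates the
-- function field over ℚ(j)), S28_MC (its reduction mod ℓ has independent powers over 𝔽_ℓ(j)),
-- S28_Kernel (each chart algebra modulo ℓ embeds into Laurent series over 𝔽_ℓ), S28_Tensor (the
-- tensor product with a field of characteristic ℓ is a domain), S28_Scheme (gluing the charts).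
import Fermat.Statements.S28
import Fermat.Agent.S28_Scheme
import Fermat.Agent.S28_Tensor
import Fermat.Agent.S28_EtaMod
import Fermat.Agent.S28_Span
import Fermat.Agent.S28_MC
import Fermat.Agent.S28_Kernel

set_option autoImplicit false
open AlgebraicGeometry CategoryTheory CategoryTheory.Limits ModularCurve ModularCurve.IgusaScheme
noncomputable section
set_option autoImplicit false
open ModularCurve ModularCurve.IgusaScheme

namespace Fermat.Agent.S28

open UpperHalfPlane CongruenceSubgroup Polynomial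
open scoped MatrixGroups
open Fermat.Agent.S24

/-- each chart algebra of the Igusa model stays a domain after base change to a field of
characteristic `ℓ`. -/
theorem isDomain_chart (N : ℕ) [NeZero N] (ℓ : ℕ) [Fact ℓ.Prime] (hℓN : ¬ ℓ ∣ N)
    (K : Type) [Field K] [CharP K ℓ] [Algebra ↥(GaloisRep.ratLocalizedAt ℓ) K]
    (S : Set ↥(modularFunctionFieldFull N))
    (hS : S = {jFull N} ∨ S = {(jFull N)⁻¹} ∨ S = {jFull N, (jFull N)⁻¹}) :
    IsDomain (TensorProduct ↥(GaloisRep.ratLocalizedAt ℓ) (chartAlg N ℓ S) K) := by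
  obtain ⟨u, -, hexp⟩ := Eta.exists_expRing_igusaMod (N := N)
  have hmc := MC.hmc_igusa N ℓ hℓN u hexp
  obtain ⟨hu, hspan⟩ := Span.exists_span ℂ N (Eta.igusaMod N) Eta.igusaMod_smul_iff
    (coeffMap (Int.castRingHom ℚ) u) hexp
  obtain ⟨ρ, hρ⟩ := exists_chart_reduction N ℓ _ u hu hspan hmc S hS
  exact S28Tensor.isDomain_tensor_of_ker ℓ K ρ hρ

set_option maxHeartbeats 4000000 in
set_option synthInstance.maxHeartbeats 400000 in
theorem result
    (N : ℕ) [NeZero N] (ℓ : ℕ) [Fact ℓ.Prime] (hℓN : ¬ ℓ ∣ N)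
    (K : Type) [Field K] [CharP K ℓ] [Algebra ↥(GaloisRep.ratLocalizedAt ℓ) K] :
    IsIntegral ↑(pullback (igusaTo N ℓ)
      (Spec.map (CommRingCat.ofHom (algebraMap ↥(GaloisRep.ratLocalizedAt ℓ) K)))) := by
  have hFin := isDomain_chart N ℓ hℓN K {jFull N} (Or.inl rfl)
  have hInf := isDomain_chart N ℓ hℓN K {(jFull N)⁻¹} (Or.inr (Or.inl rfl))
  have hMid := isDomain_chart N ℓ hℓN K {jFull N, (jFull N)⁻¹} (Or.inr (Or.inr rfl))
  exact Scheme.isIntegral_pullback_of_isDomain N ℓ K hFin hInf
    (by have := hMid; infer_instance)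

end Fermat.Agent.S28
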