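import Mathlib
import Fermat.Agent.S28_EtaMod
import Fermat.Agent.S28_Prod
import Fermat.Agent.S28_Coeff

set_option autoImplicit false

noncomputable section

open UpperHalfPlane ModularCurve CongruenceSubgroup
open scoped MatrixGroups Manifold

namespace Fermat.Agent.S28.EtaGlue

open Fermat.Agent.S24 Fermat.Agent.S24.Tower Fermat.Agent.S28.Eta Fermat.Agent.S28.Coeff

variable {N : ℕ} [NeZero N]

/-- `Γ₀(N)`-invariance of the Igusa eta quotient, in the form used by `Prod.conj`. -/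
theorem igusaMod_inv : ∀ γ ∈ Gamma0 N, γ • igusaMod N = igusaMod N :=
  fun γ hγ => (igusaMod_smul_iff γ).mp hγ

/-- the family of conjugates. -/
def U (N : ℕ) [NeZero N] (c : SL(2, ℤ) ⧸ Gamma0 N) : LaurentSeries ℂ :=
  expRing ℂ N (Prod.conj (igusaMod N) igusaMod_inv c)

omit [NeZero N] in
theorem exists_rep_of_ne_one {c : SL(2, ℤ) ⧸ Gamma0 N}
    (hc : c ≠ ((1 : SL(2, ℤ)) : SL(2, ℤ) ⧸ Gamma0 N)) :
    ∃ γ : SL(2, ℤ), γ ∉ Gamma0 N ∧ c = (γ : SL(2, ℤ) ⧸ Gamma0 N) := by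
  induction c using QuotientGroup.induction_on with
  | H g =>
    refine ⟨g, fun hg => hc ?_, rfl⟩
    rw [QuotientGroup.eq]
    simpa using (Gamma0 N).inv_mem hg

section Red

variable (l : ℕ) [Fact l.Prime]

theorem inv_mem_Rl (hl : ¬ l ∣ N) : ((N : ℂ))⁻¹ ∈ Rl l := Coeff.natCast_inv_mem (l := l) hl

theorem zeta_mem_Rl : Complex.exp (2 * Real.pi * Complex.I / N) ∈ Rl l := by
  have h := Coeff.exp_mem (l := l) 1 N (NeZero.ne N)
  simpa using h

/-- the conjugates off the identity coset: integral, of positive order `N φ(N)`, with leading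
coefficient invertible in `Rl l`. -/
theorem U_of_ne_one (hl : ¬ l ∣ N) {c : SL(2, ℤ) ⧸ Gamma0 N}
    (hc : c ≠ ((1 : SL(2, ℤ)) : SL(2, ℤ) ⧸ Gamma0 N)) :
    U N c ∈ IntS (Rl l) ∧ ∃ k : ℤ, 0 < k ∧ (∀ i < k, (U N c).coeff i = 0) ∧
      ∃ v ∈ Rl l, (U N c).coeff k * v = 1 := by
  obtain ⟨γ, hγ, rfl⟩ := exists_rep_of_ne_one hc
  obtain ⟨C, p, hC, hC', hC0, hp0, hp, h⟩ :=
    exists_expRing_smul_igusaMod (R := Rl l) (N := N) (inv_mem_Rl l hl) (zeta_mem_Rl l) hγ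
  have hU : U N (γ : SL(2, ℤ) ⧸ Gamma0 N)
      = HahnSeries.single ((N : ℤ) * (N.totient : ℤ)) C * HahnSeries.ofPowerSeries ℤ ℂ p := by
    unfold U
    rw [Prod.conj_mk]
    exact h
  have hcoeff : ∀ i : ℤ, (U N (γ : SL(2, ℤ) ⧸ Gamma0 N)).coeff i
      = C * (HahnSeries.ofPowerSeries ℤ ℂ p).coeff (i - (N : ℤ) * (N.totient : ℤ)) := by
    intro i
    rw [hU, HahnSeries.coeff_single_mul]
  refine ⟨?_, (N : ℤ) * (N.totient : ℤ), order_pos, fun i hi => ?_, C⁻¹, hC', ?_⟩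
  · rw [mem_IntS]
    intro i
    rw [hcoeff]
    rcases lt_or_ge (i - (N : ℤ) * (N.totient : ℤ)) 0 with hneg | hpos
    · rw [ModularCurve.ofPowerSeries_coeff_of_neg _ hneg, mul_zero]
      exact Subring.zero_mem _
    · obtain ⟨n, hn⟩ := Int.eq_ofNat_of_zero_le hpos
      rw [hn, HahnSeries.ofPowerSeries_apply_coeff]
      exact Subring.mul_mem _ hC (hp n)
  · rw [hcoeff, ModularCurve.ofPowerSeries_coeff_of_neg _ (by omega), mul_zero]
  · rw [hcoeff, sub_self]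
    have h0 : (HahnSeries.ofPowerSeries ℤ ℂ p).coeff 0 = 1 := by
      have := HahnSeries.ofPowerSeries_apply_coeff (Γ := ℤ) p 0
      rw [Nat.cast_zero] at this
      rw [this, PowerSeries.coeff_zero_eq_constantCoeff, hp0]
    rw [h0, mul_one, mul_inv_cancel₀ hC0]

end Red

/-- the conjugate at the identity coset is the `q ↦ q ^ N` substitution of an integer series. -/
theorem exists_U_one : ∃ u : LaurentSeries ℤ,
    HasLaurentExp 1 (igusaT N) (coeffMap (Int.castRingHom ℂ) u) ∧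
    expRing ℂ N (igusaMod N) = qExpand ℂ N (coeffEmb ℂ (coeffMap (Int.castRingHom ℚ) u)) ∧
    U N ((1 : SL(2, ℤ)) : SL(2, ℤ) ⧸ Gamma0 N) = qExpand ℂ N (coeffMap (Int.castRingHom ℂ) u) := by
  obtain ⟨u, h1, h2⟩ := exists_expRing_igusaMod (N := N)
  refine ⟨u, h1, h2, ?_⟩
  unfold U
  rw [Prod.conj_one, h2]
  congr 1

end Fermat.Agent.S28.EtaGlue
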