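/-
S28 (Igusa): the abstract irreducibility lemma.

Let `κ` be a field, `J ∈ κ((q))` of negative order, and `χ ∈ κ[X][Y]` monic in `Y` such that
`χ(J, Y) = ∏ᵢ (Y - Uᵢ)` in `κ((q))[Y]`, where all `Uᵢ` but one (`U i₀`) are nonzero of positive
order.  Then `χ(J, Y)` is the minimal polynomial of `U i₀` over `κ(J)`:
`1, U i₀, …, (U i₀)^(n-1)` are linearly independent over `κ[J]`  (`n = deg χ`).

Proof: a complementary factor of the minimal polynomial has coefficients in `κ[J]` (Gauss), and
its constant term is, up to sign, a product of `Uᵢ`, `i ≠ i₀`: nonzero of positive order.  But a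
nonzero polynomial in `J` has order `≤ 0`.
-/
import Mathlib

set_option autoImplicit false

noncomputable section

namespace Fermat.Agent.S28.Irred

open Polynomial

variable {κ : Type*} [Field κ]

/-- the `q`-adic valuation on `κ((q))`. -/
abbrev val : AddValuation (LaurentSeries κ) (WithTop ℤ) := HahnSeries.addVal ℤ κ

/-- evaluation of polynomials at `J`. -/
abbrev ev (J : LaurentSeries κ) : κ[X] →+* LaurentSeries κ :=
  Polynomial.eval₂RingHom HahnSeries.C J

theorem val_C {a : κ} (ha : a ≠ 0) : val (HahnSeries.C a : LaurentSeries κ) = 0 := by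
  rw [val, HahnSeries.addVal_apply, HahnSeries.C_apply, HahnSeries.orderTop_single ha]
  rfl

theorem val_of_ne {x : LaurentSeries κ} (hx : x ≠ 0) : val x = (x.order : WithTop ℤ) :=
  HahnSeries.addVal_apply_of_ne hx

theorem val_ne_top {x : LaurentSeries κ} (hx : x ≠ 0) : val x ≠ ⊤ := by
  rw [val_of_ne hx]
  exact WithTop.coe_ne_top

theorem val_ev_le (J : LaurentSeries κ) (hJ : val J < 0) (c : κ[X]) :
    (c ≠ 0 → val (ev J c) ≤ 0) ∧ (c ≠ 0 → c.coeff 0 = 0 → val (ev J c) < 0) := by
  induction c using Polynomial.recOnHorner with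
  | M0 => exact ⟨fun h => absurd rfl h, fun h => absurd rfl h⟩
  | MC p a hp ha ih =>
    have hev : ev J (p + C a) = ev J p + HahnSeries.C a := by
      simp [ev]
    refine ⟨fun _ => ?_, fun _ h0 => ?_⟩
    · by_cases hp0 : p = 0
      · rw [hev, hp0, map_zero, zero_add, val_C ha]
      · have h1 := ih.2 hp0 hp
        rw [hev, AddValuation.map_add_eq_of_lt_left _ (by rwa [val_C ha])]
        exact h1.le
    · exfalso
      rw [coeff_add, hp, zero_add, coeff_C_zero] at h0
      exact ha h0
  | MX p hp ih =>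
    have hev : ev J (p * X) = ev J p * J := by
      simp [ev]
    have h1 := ih.1 hp
    have key : val (ev J (p * X)) < 0 := by
      rw [hev, AddValuation.map_mul]
      have hne1 : val (ev J p) ≠ ⊤ := fun h => by
        rw [h] at h1
        exact absurd h1 (by simp)
      have hne2 : val J ≠ ⊤ := fun h => by
        rw [h] at hJ
        exact absurd hJ (by simp)
      obtain ⟨a, ha⟩ := WithTop.ne_top_iff_exists.mp hne1
      obtain ⟨b, hb⟩ := WithTop.ne_top_iff_exists.mp hne2
      rw [← ha] at h1
      rw [← hb] at hJ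
      rw [← ha, ← hb, ← WithTop.coe_add]
      have h1' : a ≤ 0 := by exact_mod_cast h1
      have hJ' : b < 0 := by exact_mod_cast hJ
      exact_mod_cast (by omega : a + b < 0)
    exact ⟨fun _ => key.le, fun _ _ => key⟩

theorem ev_ne_zero (J : LaurentSeries κ) (hJ : val J < 0) {c : κ[X]} (hc : c ≠ 0) :
    ev J c ≠ 0 := by
  intro h
  have h1 := (val_ev_le J hJ c).1 hc
  rw [h, AddValuation.map_zero] at h1
  exact absurd h1 (by simp)

theorem ev_injective (J : LaurentSeries κ) (hJ : val J < 0) : Function.Injective (ev J) := by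
  rw [injective_iff_map_eq_zero]
  intro c hc
  by_contra hne
  exact ev_ne_zero J hJ hne hc

/-- products of elements of positive valuation. -/
theorem val_multiset_prod_pos (s : Multiset (LaurentSeries κ)) (hs : ∀ r ∈ s, 0 < val r) :
    0 ≤ val s.prod ∧ (s ≠ 0 → 0 < val s.prod) := by
  induction s using Multiset.induction_on with
  | empty =>
    refine ⟨?_, fun h => absurd rfl h⟩
    rw [Multiset.prod_zero, AddValuation.map_one]
  | cons a s ih =>
    have h1 := ih (fun r hr => hs r (Multiset.mem_cons_of_mem hr))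
    have ha := hs a (Multiset.mem_cons_self a s)
    have key : 0 < val (a ::ₘ s).prod := by
      rw [Multiset.prod_cons, AddValuation.map_mul]
      exact add_pos_of_pos_of_nonneg ha h1.1
    exact ⟨key.le, fun _ => key⟩

/-- **Abstract irreducibility.**  If `χ(J, Y) = ∏ᵢ (Y - Uᵢ)` with `J` of negative order and all
`Uᵢ`, `i ≠ i₀`, nonzero of positive order, then the powers `(U i₀)^k`, `k < n = #ι`, are linearly
independent over `κ[J]`. -/
theorem eq_zero_of_relation {ι : Type*} [Fintype ι] (J : LaurentSeries κ) (hJ : J.order < 0)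
    (χ : Polynomial (Polynomial κ)) (hχ : χ.Monic) (U : ι → LaurentSeries κ)
    (h : χ.map (Polynomial.eval₂RingHom HahnSeries.C J) = ∏ i, (X - C (U i)))
    (i₀ : ι) (hU : ∀ i, i ≠ i₀ → U i ≠ 0 ∧ 0 < (U i).order)
    (P : Fin (Fintype.card ι) → Polynomial κ)
    (hP : ∑ k, Polynomial.eval₂ HahnSeries.C J (P k) * U i₀ ^ (k : ℕ) = 0) : ∀ k, P k = 0 := by
  classical
  by_contra hne
  simp only [not_forall] at hne
  obtain ⟨k₀, hk₀⟩ := hne
  have hJ0 : J ≠ 0 := by
    rintro rfl
    rw [HahnSeries.order_zero] at hJ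
    exact lt_irrefl _ hJ
  have hJv : val J < 0 := by
    rw [val_of_ne hJ0]
    exact_mod_cast hJ
  have hinj : Function.Injective (ev J) := ev_injective J hJv
  -- the fraction field of `κ[X]`, mapped to `κ((q))` by `X ↦ J`
  let ε : FractionRing κ[X] →+* LaurentSeries κ := IsFractionRing.lift hinj
  let _ : Algebra (FractionRing κ[X]) (LaurentSeries κ) := ε.toAlgebra
  have hε : ∀ c : κ[X], ε (algebraMap κ[X] (FractionRing κ[X]) c) = ev J c :=
    fun c => IsFractionRing.lift_algebraMap hinj c
  have hεcomp : ε.comp (algebraMap κ[X] (FractionRing κ[X])) = ev J := RingHom.ext hε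
  set χ₀ : (FractionRing κ[X])[X] := χ.map (algebraMap κ[X] (FractionRing κ[X])) with hχ₀
  have hχ₀map : χ₀.map ε = ∏ i, (X - C (U i)) := by
    rw [hχ₀, Polynomial.map_map, hεcomp]
    exact h
  have hχ₀monic : χ₀.Monic := hχ.map _
  have hprodmonic : (∏ i, (X - C (U i)) : (LaurentSeries κ)[X]).Monic :=
    monic_prod_of_monic _ _ fun i _ => monic_X_sub_C _
  have hproddeg : (∏ i, (X - C (U i)) : (LaurentSeries κ)[X]).natDegree = Fintype.card ι := by
    rw [natDegree_prod_of_monic _ _ fun i _ => monic_X_sub_C _]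
    simp
  have hdeg : χ₀.natDegree = Fintype.card ι := by
    rw [← hχ₀monic.natDegree_map ε, hχ₀map, hproddeg]
  set u := U i₀ with hu
  have hroot : Polynomial.aeval u χ₀ = 0 := by
    rw [Polynomial.aeval_def, ← Polynomial.eval_map]
    show Polynomial.eval u (χ₀.map ε) = 0
    rw [hχ₀map, Polynomial.eval_prod]
    exact Finset.prod_eq_zero (Finset.mem_univ i₀) (by simp [hu])
  have hint : IsIntegral (FractionRing κ[X]) u := ⟨χ₀, hχ₀monic, hroot⟩
  -- the relation polynomial
  set Q : (FractionRing κ[X])[X] :=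
    ∑ k : Fin (Fintype.card ι), C (algebraMap κ[X] (FractionRing κ[X]) (P k)) * X ^ (k : ℕ) with hQ
  have hQcoeff : Q.coeff (k₀ : ℕ) = algebraMap κ[X] (FractionRing κ[X]) (P k₀) := by
    rw [hQ, Polynomial.finsetSum_coeff]
    rw [Finset.sum_eq_single k₀]
    · rw [Polynomial.coeff_C_mul_X_pow, if_pos rfl]
    · intro b _ hb
      rw [Polynomial.coeff_C_mul_X_pow, if_neg]
      intro hcon
      exact hb (Fin.ext hcon.symm)
    · intro hcon
      exact absurd (Finset.mem_univ k₀) hcon
  have hQ0 : Q ≠ 0 := by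
    intro hQz
    rw [hQz, Polynomial.coeff_zero] at hQcoeff
    exact hk₀ (IsFractionRing.injective κ[X] (FractionRing κ[X])
      (by rw [← hQcoeff, map_zero]))
  have hQroot : Polynomial.aeval u Q = 0 := by
    rw [hQ, map_sum]
    rw [← hP]
    refine Finset.sum_congr rfl fun k _ => ?_
    rw [map_mul, Polynomial.aeval_C, map_pow, Polynomial.aeval_X]
    congr 1
    exact hε (P k)
  have hQdeg : Q.degree < (Fintype.card ι : ℕ) := by
    rw [hQ]
    refine (Polynomial.degree_sum_le _ _).trans_lt ?_
    rw [Finset.sup_lt_iff (by exact WithBot.bot_lt_coe (Fintype.card ι))]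
    intro i _
    refine (Polynomial.degree_C_mul_X_pow_le (i : ℕ) _).trans_lt ?_
    exact_mod_cast i.2
  have hπmonic : (minpoly (FractionRing κ[X]) u).Monic := minpoly.monic hint
  have hπdeg : (minpoly (FractionRing κ[X]) u).natDegree < Fintype.card ι := by
    have h1 := minpoly.degree_le_of_ne_zero (FractionRing κ[X]) u hQ0 hQroot
    have h2 := h1.trans_lt hQdeg
    rw [Polynomial.degree_eq_natDegree hπmonic.ne_zero] at h2
    exact_mod_cast h2
  obtain ⟨π', hπ'⟩ : minpoly (FractionRing κ[X]) u ∣ χ₀ := minpoly.dvd _ u hroot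
  have hπ'monic : π'.Monic := hπmonic.of_mul_monic_left (hπ' ▸ hχ₀monic)
  have hπ'deg : 1 ≤ π'.natDegree := by
    have h1 := congrArg natDegree hπ'
    rw [hπmonic.natDegree_mul hπ'monic, hdeg] at h1
    omega
  obtain ⟨g, hg⟩ := IsIntegrallyClosed.eq_map_mul_C_of_dvd (FractionRing κ[X]) hχ (g := π')
    ⟨minpoly (FractionRing κ[X]) u, by rw [← hχ₀, hπ', mul_comm]⟩
  rw [hπ'monic.leadingCoeff, C_1, mul_one] at hg
  -- now work in `κ((q))[Y]`
  set A : (LaurentSeries κ)[X] := (minpoly (FractionRing κ[X]) u).map ε with hA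
  set G : (LaurentSeries κ)[X] := g.map (ev J) with hGdef
  have hG : π'.map ε = G := by
    rw [← hg, Polynomial.map_map, hεcomp]
  have hAG : A * G = ∏ i, (X - C (U i)) := by
    rw [← hG, hA, ← Polynomial.map_mul, ← hπ', hχ₀map]
  have hAmonic : A.Monic := hπmonic.map ε
  have hGmonic : G.Monic := by
    rw [← hG]
    exact hπ'monic.map ε
  have hroots_all : (∏ i, (X - C (U i)) : (LaurentSeries κ)[X]).roots
      = (Finset.univ : Finset ι).val.map U := by
    rw [Polynomial.roots_prod _ _ hprodmonic.ne_zero]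
    simp only [roots_X_sub_C]
    rw [Multiset.bind_singleton]
  have hsum : A.roots + G.roots = (Finset.univ : Finset ι).val.map U := by
    rw [← Polynomial.roots_mul (by rw [hAG]; exact hprodmonic.ne_zero), hAG, hroots_all]
  have huA : u ∈ A.roots := by
    rw [Polynomial.mem_roots hAmonic.ne_zero, Polynomial.IsRoot, hA, Polynomial.eval_map]
    exact minpoly.aeval (FractionRing κ[X]) u
  have hGle : G.roots ≤ ((Finset.univ : Finset ι).erase i₀).val.map U := by
    have h1 : G.roots = (Finset.univ : Finset ι).val.map U - A.roots := by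
      rw [← hsum, add_tsub_cancel_left]
    have h2 : ({u} : Multiset (LaurentSeries κ)) ≤ A.roots := Multiset.singleton_le.mpr huA
    rw [h1, Finset.erase_val, Multiset.map_erase_of_mem U _ (Finset.mem_univ_val i₀),
      ← Multiset.sub_singleton]
    exact tsub_le_tsub_left h2 _
  have hGroot : ∀ r ∈ G.roots, r ≠ 0 ∧ 0 < val r := by
    intro r hr
    obtain ⟨i, hi, rfl⟩ := Multiset.mem_map.mp (Multiset.mem_of_le hGle hr)
    have hi' : i ≠ i₀ := Finset.ne_of_mem_erase hi
    obtain ⟨h0, hord⟩ := hU i hi'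
    refine ⟨h0, ?_⟩
    rw [val_of_ne h0]
    exact_mod_cast hord
  have hdegAG : A.natDegree + G.natDegree = Fintype.card ι := by
    rw [← hAmonic.natDegree_mul hGmonic, hAG, hproddeg]
  have hcard : Multiset.card G.roots = G.natDegree := by
    have h1 := congrArg Multiset.card hsum
    rw [Multiset.card_add, Multiset.card_map] at h1
    have h1' : Multiset.card A.roots + Multiset.card G.roots = Fintype.card ι := by
      rw [h1]
      rfl
    have h2 := Polynomial.card_roots' A
    have h3 := Polynomial.card_roots' G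
    omega
  have hGeq : (G.roots.map fun a => X - C a).prod = G := by
    have h1 := Polynomial.C_leadingCoeff_mul_prod_multiset_X_sub_C hcard
    rwa [hGmonic.leadingCoeff, C_1, one_mul] at h1
  have hG0 : G.coeff 0 = (G.roots.map fun a => -a).prod := by
    rw [Polynomial.coeff_zero_eq_eval_zero]
    conv_lhs => rw [← hGeq]
    rw [Polynomial.eval_multiset_prod, Multiset.map_map]
    congr 1
    refine Multiset.map_congr rfl fun a _ => ?_
    simp
  have hGdeg : G.natDegree = π'.natDegree := by
    rw [← hG, hπ'monic.natDegree_map]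
  have hGne : G.roots ≠ 0 := by
    intro h0
    rw [h0, Multiset.card_zero] at hcard
    omega
  have hnegprop : ∀ r ∈ G.roots.map (fun a => -a), 0 < val r := by
    intro r hr
    obtain ⟨a, ha, rfl⟩ := Multiset.mem_map.mp hr
    rw [AddValuation.map_neg]
    exact (hGroot a ha).2
  have hpos : 0 < val (G.coeff 0) := by
    rw [hG0]
    refine (val_multiset_prod_pos _ hnegprop).2 ?_
    intro h0
    exact hGne (Multiset.map_eq_zero.mp h0)
  have hne0 : G.coeff 0 ≠ 0 := by
    rw [hG0]
    apply Multiset.prod_ne_zero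
    intro hmem
    obtain ⟨a, ha, ha0⟩ := Multiset.mem_map.mp hmem
    exact (hGroot a ha).1 (neg_eq_zero.mp ha0)
  have hc : G.coeff 0 = ev J (g.coeff 0) := by
    rw [hGdef, Polynomial.coeff_map]
  have hc0 : g.coeff 0 ≠ 0 := by
    intro h0
    apply hne0
    rw [hc, h0, map_zero]
  have hle := (val_ev_le J hJv (g.coeff 0)).1 hc0
  rw [← hc] at hle
  exact absurd hpos (not_lt.mpr hle)

end Fermat.Agent.S28.Irred
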