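/-
S28 (Igusa): the Möbius arithmetic behind the eta quotient
`t = ∏_{d ∣ N} (Δ((N/d)τ)/Δ(τ))^(μ(d)·N/d)`.

* `sum_moebius_mul_div` : `∑_{d ∣ N} μ(d)·(N/d) = φ(N)`;
* `sum_moebius_gcd_sq_eq_zero` : if `N ∤ c` then `∑_{d ∣ N} μ(d)·gcd(c, N/d)² = 0`.
-/
import Mathlib

set_option autoImplicit false

namespace Fermat.Agent.S28Moebius

open ArithmeticFunction

/-- `gcd(c, p^k) = gcd(c, p^(k-1))` when `p^k ∤ c`. -/
theorem gcd_prime_pow_pred {p k c : ℕ} (hp : p.Prime) (h : ¬ p ^ k ∣ c) :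
    Nat.gcd c (p ^ k) = Nat.gcd c (p ^ (k - 1)) := by
  have hk : k ≠ 0 := by
    rintro rfl
    exact h (by simp)
  apply Nat.dvd_antisymm
  · obtain ⟨i, hi, hi'⟩ := (Nat.dvd_prime_pow hp).mp (Nat.gcd_dvd_right c (p ^ k))
    have hik : i ≠ k := by
      rintro rfl
      exact h (hi' ▸ Nat.gcd_dvd_left c (p ^ i))
    have hi2 : i ≤ k - 1 := by omega
    apply Nat.dvd_gcd (Nat.gcd_dvd_left _ _)
    rw [hi']
    exact pow_dvd_pow p hi2
  · exact Nat.gcd_dvd_gcd_of_dvd_right c (pow_dvd_pow p (Nat.sub_le k 1))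

/-- the arithmetic function `n ↦ gcd(c, n)²` -/
noncomputable def gcdSq (c : ℕ) : ArithmeticFunction ℤ :=
  ⟨fun n => if n = 0 then 0 else ((Nat.gcd c n : ℕ) : ℤ) ^ 2, by simp⟩

theorem gcdSq_apply {c n : ℕ} (hn : n ≠ 0) : gcdSq c n = ((Nat.gcd c n : ℕ) : ℤ) ^ 2 := by
  simp [gcdSq, hn]

theorem gcdSq_isMultiplicative (c : ℕ) : (gcdSq c).IsMultiplicative := by
  rw [IsMultiplicative.iff_ne_zero]
  refine ⟨by simp [gcdSq], fun {m n} hm hn hmn => ?_⟩
  rw [gcdSq_apply (mul_ne_zero hm hn), gcdSq_apply hm, gcdSq_apply hn, Nat.Coprime.gcd_mul c hmn]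
  push_cast
  ring

theorem moebius_mul_gcdSq_prime_pow {p k c : ℕ} (hp : p.Prime) (hk : k ≠ 0) :
    (moebius * gcdSq c) (p ^ k)
      = ((Nat.gcd c (p ^ k) : ℕ) : ℤ) ^ 2 - ((Nat.gcd c (p ^ (k - 1)) : ℕ) : ℤ) ^ 2 := by
  rw [mul_apply, Nat.sum_divisorsAntidiagonal (f := fun a b => moebius a * gcdSq c b),
    Nat.divisors_prime_pow hp, Finset.sum_map]
  simp only [Function.Embedding.coeFn_mk]
  rw [Finset.sum_eq_add (0 : ℕ) 1 (by norm_num)]
  · have h1 : p ^ k / p ^ 1 = p ^ (k - 1) := Nat.pow_div (by omega) hp.pos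
    rw [pow_zero, Nat.div_one, h1, pow_one, moebius_apply_prime hp, moebius_apply_one,
      gcdSq_apply (pow_ne_zero _ hp.ne_zero), gcdSq_apply (pow_ne_zero _ hp.ne_zero)]
    ring
  · intro i _ hi
    have hi0 : i ≠ 0 := hi.1
    rw [moebius_apply_prime_pow hp hi0, if_neg hi.2, zero_mul]
  · intro h
    exact absurd (Finset.mem_range.mpr (Nat.succ_pos k)) h
  · intro h
    exact absurd (Finset.mem_range.mpr (by omega)) h

/-- **Möbius cancellation.**  If `N ∤ c` then `∑_{d ∣ N} μ(d)·gcd(c, N/d)² = 0`. -/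
theorem sum_moebius_gcd_sq_eq_zero {N c : ℕ} (hN : N ≠ 0) (h : ¬ N ∣ c) :
    ∑ d ∈ N.divisors, moebius d * ((Nat.gcd c (N / d) : ℕ) : ℤ) ^ 2 = 0 := by
  have hmult : (moebius * gcdSq c).IsMultiplicative :=
    isMultiplicative_moebius.mul (gcdSq_isMultiplicative c)
  have hval : (moebius * gcdSq c) N
      = ∑ d ∈ N.divisors, moebius d * ((Nat.gcd c (N / d) : ℕ) : ℤ) ^ 2 := by
    rw [mul_apply, Nat.sum_divisorsAntidiagonal (f := fun a b => moebius a * gcdSq c b)]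
    refine Finset.sum_congr rfl fun d hd => ?_
    have hd' := Nat.mem_divisors.mp hd
    have hNd : N / d ≠ 0 := by
      intro h0
      have := Nat.div_mul_cancel hd'.1
      rw [h0, zero_mul] at this
      exact hN this.symm
    rw [gcdSq_apply hNd]
  rw [← hval, hmult.multiplicative_factorization _ hN]
  -- a prime with `p ^ v_p(N) ∤ c`
  obtain ⟨p, hp, hpc⟩ : ∃ p : ℕ, p.Prime ∧ ¬ p ^ (N.factorization p) ∣ c := by
    by_contra hcon
    simp only [not_exists, not_and, not_not] at hcon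
    apply h
    rw [Nat.dvd_iff_prime_pow_dvd_dvd]
    intro p k hp hpk
    have hk : k ≤ N.factorization p := (hp.pow_dvd_iff_le_factorization hN).mp hpk
    exact (pow_dvd_pow p hk).trans (hcon p hp)
  have hk0 : N.factorization p ≠ 0 := by
    intro h0
    rw [h0, pow_zero] at hpc
    exact hpc (one_dvd c)
  have hmem : p ∈ N.factorization.support := Finsupp.mem_support_iff.mpr hk0
  rw [Finsupp.prod]
  refine Finset.prod_eq_zero hmem ?_
  rw [moebius_mul_gcdSq_prime_pow hp hk0, gcd_prime_pow_pred hp hpc, sub_self]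

/-- integer version of the Möbius cancellation -/
theorem sum_moebius_int_gcd_sq_eq_zero {N : ℕ} {c : ℤ} (hN : N ≠ 0) (h : ¬ (N : ℤ) ∣ c) :
    ∑ d ∈ N.divisors, moebius d * ((Int.gcd c ((N / d : ℕ) : ℤ) : ℕ) : ℤ) ^ 2 = 0 := by
  have h' : ¬ N ∣ c.natAbs := by
    intro hd
    exact h (Int.natCast_dvd.mpr hd)
  exact sum_moebius_gcd_sq_eq_zero hN h'

/-- `∑_{d ∣ N} μ(d)·(N/d) = φ(N)`. -/
theorem sum_moebius_mul_div {N : ℕ} (hN : N ≠ 0) :
    ∑ d ∈ N.divisors, moebius d * ((N / d : ℕ) : ℤ) = (Nat.totient N : ℤ) := by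
  have key := (sum_eq_iff_sum_mul_moebius_eq (R := ℤ) (f := fun n => (Nat.totient n : ℤ))
    (g := fun n => (n : ℤ))).mp (fun n _ => by
      have := Nat.sum_totient n
      exact_mod_cast this) N (Nat.pos_of_ne_zero hN)
  simp only [Int.cast_id] at key
  rw [Nat.sum_divisorsAntidiagonal (f := fun a b => moebius a * (b : ℤ))] at key
  exact key

end Fermat.Agent.S28Moebius
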