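import Mathlib
import Fermat.Agent.S24_Tower
import Fermat.Agent.S16_HeckeFam
import Fermat.Prelude.Def_ModularCurve_HeckeOperatorTotal

/-!
# S29, bridge (B): shared definitions

Admissible characters of `Γ₀(N)`, twisted weight-4 forms, Kummer functions in the function field
of `X₀(N)` over `ℂ`, the `p`-torsion `Jp N p` of `J₀(N)(ℚ̄)` as an `𝔽_p`-vector space with its
Hecke operators, base change of functions `ℚ̄ → ℂ`, and the norm along the degeneracy map `α`.
-/

set_option autoImplicit false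

noncomputable section

open UpperHalfPlane ModularCurve CongruenceSubgroup AlgebraicCurve
open scoped MatrixGroups Manifold ModularForm TensorProduct

namespace Fermat.Agent.S29

local notation "Qbar" => AlgebraicClosure ℚ

/-- the fixed embedding `ℚ̄ → ℂ`. -/
def embC : Qbar →+* ℂ :=
  haveI : Algebra.IsAlgebraic ℚ Qbar := AlgebraicClosure.isAlgebraic ℚ
  (IsAlgClosed.lift : Qbar →ₐ[ℚ] ℂ).toRingHom

/-- the function field of `X₀(N)` over `ℂ` (formal, inside `ℂ((q))`). -/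
abbrev FC (N : ℕ) [NeZero N] : Type := Fermat.Agent.S24.Tower.FuncField ℂ N

/-- admissible characters: they kill `±1`, parabolic and elliptic elements. -/
def IsAdm (N p : ℕ) (χ : Additive (Gamma0 N) →+ ZMod p) : Prop :=
  ∀ γ : Gamma0 N, ((γ : SL(2, ℤ)) 0 0 + (γ : SL(2, ℤ)) 1 1) ^ 2 ≤ 4 → χ (Additive.ofMul γ) = 0

theorem isAdm_zero (N p : ℕ) : IsAdm N p 0 := fun _ _ => rfl

theorem IsAdm.add {N p : ℕ} {χ χ' : Additive (Gamma0 N) →+ ZMod p} (h : IsAdm N p χ)
    (h' : IsAdm N p χ') : IsAdm N p (χ + χ') := fun γ hγ => by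
  rw [AddMonoidHom.add_apply, h γ hγ, h' γ hγ, add_zero]

/-- the additive character `ZMod p → μ_p ⊆ ℂ`. -/
def zch (p : ℕ) (x : ZMod p) : ℂ :=
  Complex.exp (2 * Real.pi * Complex.I * (x.val : ℂ) / p)

/-- `E` is a weight-4 form on `Γ₀(N)` with character `zch ∘ χ`: holomorphic on `ℍ`, bounded at
every cusp, not identically zero. -/
structure IsTwisted (N p : ℕ) (χ : Additive (Gamma0 N) →+ ZMod p) (E : ℍ → ℂ) : Prop where
  mdiff : MDiff E
  ne : ∃ τ, E τ ≠ 0
  slash : ∀ (γ : Gamma0 N) (τ : ℍ), E ((γ : SL(2, ℤ)) • τ)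
    = zch p (χ (Additive.ofMul γ))
      * ((((γ : SL(2, ℤ)) 1 0 : ℤ) : ℂ) * (τ : ℂ) + (((γ : SL(2, ℤ)) 1 1 : ℤ) : ℂ)) ^ 4 * E τ
  bdd : ∀ δ : SL(2, ℤ), IsBoundedAtImInfty (E ∣[(4 : ℤ)] δ)

/-- the comparison map from the formal function field to the field of modular functions. -/
def phiC (N : ℕ) [NeZero N] : FC N →ₐ[ℂ] Fermat.Agent.S24.Tower.ModField ℂ N :=
  (Fermat.Agent.S24.Tower.exists_funcFieldMap ℂ N).choose

theorem phiC_spec (N : ℕ) [NeZero N] (f : FC N) :
    Fermat.Agent.S24.Tower.expField ℂ N (phiC N f) = qExpand ℂ N (f : LaurentSeries ℂ) :=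
  (Fermat.Agent.S24.Tower.exists_funcFieldMap ℂ N).choose_spec f

/-- `h` is the modular function `W₁ / W₂` (pointwise, cross-multiplied). -/
def Realizes (N : ℕ) [NeZero N] (h : FC N) (W₁ W₂ : ℍ → ℂ) : Prop :=
  ∃ a b : Fermat.Agent.S24.Tower.modRing ℂ N, b ≠ 0 ∧
    phiC N h * algebraMap (Fermat.Agent.S24.Tower.modRing ℂ N)
        (Fermat.Agent.S24.Tower.ModField ℂ N) b
      = algebraMap (Fermat.Agent.S24.Tower.modRing ℂ N) (Fermat.Agent.S24.Tower.ModField ℂ N) a ∧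
    ∀ τ : ℍ, (a : ℍ → ℂ) τ * W₂ τ = (b : ℍ → ℂ) τ * W₁ τ

/-- all orders of `h` are divisible by `p`. -/
def IsPDiv (K F : Type*) [Field K] [Field F] [Algebra K F] (p : ℕ) (h : F) : Prop :=
  h ≠ 0 ∧ ∀ v : Place K F, (p : ℤ) ∣ v.ord h

/-- `h = c * y ^ p * h'`. -/
def KumRel (K F : Type*) [Field K] [Field F] [Algebra K F] (p : ℕ) (h h' : F) : Prop :=
  ∃ (c : K) (y : F), c ≠ 0 ∧ y ≠ 0 ∧ h = algebraMap K F c * y ^ p * h'

/-- `h` is a Kummer function of the character `χ`. -/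
def IsKum (N p : ℕ) [NeZero N] (χ : Additive (Gamma0 N) →+ ZMod p) (h : FC N) : Prop :=
  ∃ E₁ E₂ : ℍ → ℂ, IsTwisted N p χ E₁ ∧ IsTwisted N p 0 E₂ ∧
    Realizes N h (fun τ => E₁ τ ^ p) (fun τ => E₂ τ ^ p)

/-- the `p`-torsion of `J₀(N)(ℚ̄)`. -/
def Jp (N p : ℕ) [NeZero N] : AddSubgroup (JZero N) where
  carrier := {x | p • x = 0}
  zero_mem' := nsmul_zero p
  add_mem' := fun {x y} hx hy => by
    show p • (x + y) = 0
    rw [nsmul_add, show p • x = 0 from hx, show p • y = 0 from hy, add_zero]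
  neg_mem' := fun {x} hx => by
    show p • (-x) = 0
    rw [neg_nsmul, show p • x = 0 from hx, neg_zero]

theorem mem_Jp {N p : ℕ} [NeZero N] {x : JZero N} : x ∈ Jp N p ↔ p • x = 0 := Iff.rfl

instance instModuleJp (N p : ℕ) [NeZero N] : Module (ZMod p) (Jp N p) :=
  AddCommGroup.zmodModule (n := p) (fun x => Subtype.ext (by
    rw [AddSubgroup.coe_nsmul]
    exact x.2))

/-- the Hecke operator `T_ℓ` on `Jp N p` as an additive map. -/
def heckeJpAdd (N p ℓ : ℕ) [NeZero N] [NeZero ℓ] : Jp N p →+ Jp N p :=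
  ((heckeOperatorAlong Qbar N ℓ).comp (Jp N p).subtype).codRestrict (Jp N p) (fun x => by
    show p • (heckeOperatorAlong Qbar N ℓ (x : JZero N)) = 0
    rw [← map_nsmul, show p • (x : JZero N) = 0 from x.2, map_zero])

/-- the Hecke operator `T_ℓ` on `Jp N p`, `𝔽_p`-linear. -/
def heckeJp (N p ℓ : ℕ) [NeZero N] [NeZero ℓ] : Jp N p →ₗ[ZMod p] Jp N p :=
  (heckeJpAdd N p ℓ).toZModLinearMap p

theorem coe_heckeJp (N p ℓ : ℕ) [NeZero N] [NeZero ℓ] (x : Jp N p) :
    ((heckeJp N p ℓ x : Jp N p) : JZero N) = heckeOperatorAlong Qbar N ℓ (x : JZero N) := rfl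

/-- the norm along the degeneracy map `α : F_N → F_{Nℓ}`. -/
def normA (L : Type*) [Field L] [Algebra ℚ L] (N ℓ : ℕ) [NeZero N] [NeZero ℓ]
    (y : ↥(laurentBaseChange L (modularFunctionFieldFull (N * ℓ)))) :
    ↥(laurentBaseChange L (modularFunctionFieldFull N)) :=
  letI := algebraAlong (heckeAlphaBar L N ℓ)
  Algebra.norm (↥(laurentBaseChange L (modularFunctionFieldFull N))) y

/-- `ℂ` as a `ℚ̄`-algebra through `embC` (use `letI := algQC` where the S24 tower is needed at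
`K = ℚ̄`). -/
@[reducible] def algQC : Algebra Qbar ℂ := embC.toAlgebra

/-- coefficientwise base change `ℚ̄((q)) → ℂ((q))`. -/
def bcL : LaurentSeries Qbar →+* LaurentSeries ℂ := coeffMap embC

@[simp]
theorem bcL_coeff (x : LaurentSeries Qbar) (k : ℤ) : (bcL x).coeff k = embC (x.coeff k) :=
  coeffMap_coeff embC x k

theorem bcL_injective : Function.Injective bcL := by
  intro x y h
  ext k
  have := congrArg (fun z : LaurentSeries ℂ => z.coeff k) h
  simp only [bcL_coeff] at this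
  exact embC.injective this

theorem bcL_algebraMap (a : Qbar) :
    bcL (algebraMap Qbar (LaurentSeries Qbar) a) = algebraMap ℂ (LaurentSeries ℂ) (embC a) := by
  rw [algebraMap_laurentSeries_eq_single, algebraMap_laurentSeries_eq_single]
  exact coeffMap_single embC 0 a

theorem bcL_coeffEmb (z : LaurentSeries ℚ) : bcL (coeffEmb Qbar z) = coeffEmb ℂ z := by
  ext k
  rw [bcL_coeff, coeffEmb_coeff, coeffEmb_coeff]
  exact RingHom.congr_fun
    (RingHom.ext_rat (embC.comp (algebraMap ℚ Qbar)) (algebraMap ℚ ℂ)) (z.coeff k)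

theorem bcL_mem {F₀ : IntermediateField ℚ (LaurentSeries ℚ)} {x : LaurentSeries Qbar}
    (hx : x ∈ laurentBaseChange Qbar F₀) : bcL x ∈ laurentBaseChange ℂ F₀ := by
  rw [mem_laurentBaseChange_iff] at hx
  induction hx using Subfield.closure_induction with
  | mem y hy =>
      rcases hy with ⟨a, rfl⟩ | ⟨z, hz, rfl⟩
      · rw [bcL_algebraMap]
        exact (laurentBaseChange ℂ F₀).algebraMap_mem _
      · rw [bcL_coeffEmb]
        exact coeffEmb_mem_laurentBaseChange ℂ hz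
  | one => simp
  | add x y _ _ hx hy => simpa using add_mem hx hy
  | neg x _ hx => simpa using neg_mem hx
  | inv x _ hx => simpa using inv_mem hx
  | mul x y _ _ hx hy => simpa using mul_mem hx hy

/-- base change of functions `F_N(ℚ̄) → F_N(ℂ)`. -/
def bcF (N : ℕ) [NeZero N] : ↥(modularFunctionFieldBar N) →+* FC N where
  toFun x := ⟨bcL (x : LaurentSeries Qbar), bcL_mem x.2⟩
  map_one' := Subtype.ext (map_one bcL)
  map_mul' _ _ := Subtype.ext (map_mul bcL _ _)
  map_zero' := Subtype.ext (map_zero bcL)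
  map_add' _ _ := Subtype.ext (map_add bcL _ _)

@[simp]
theorem coe_bcF (N : ℕ) [NeZero N] (x : ↥(modularFunctionFieldBar N)) :
    ((bcF N x : FC N) : LaurentSeries ℂ) = bcL (x : LaurentSeries Qbar) := rfl

theorem bcF_injective (N : ℕ) [NeZero N] : Function.Injective (bcF N) := fun x y h =>
  Subtype.ext (bcL_injective (congrArg Subtype.val h))

theorem bcF_algebraMap (N : ℕ) [NeZero N] (a : Qbar) :
    bcF N (algebraMap Qbar (↥(modularFunctionFieldBar N)) a) = algebraMap ℂ (FC N) (embC a) :=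
  Subtype.ext (bcL_algebraMap a)

/-- the Hecke operator on a Hecke-stable space of characters, `𝔽_p`-linear. -/
def restrT {N p : ℕ} (𝒜 : Fermat.Agent.S16.LB.CosetFam N)
    (X : Submodule (ZMod p) (Additive (Gamma0 N) →+ ZMod p))
    (hX : ∀ χ ∈ X, 𝒜.tHom χ ∈ X) : X →ₗ[ZMod p] X :=
  (((𝒜.tEnd (ZMod p)).comp X.subtype.toAddMonoidHom).codRestrict X.toAddSubgroup
    (fun χ => hX χ χ.2)).toZModLinearMap p

theorem coe_restrT {N p : ℕ} (𝒜 : Fermat.Agent.S16.LB.CosetFam N)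
    (X : Submodule (ZMod p) (Additive (Gamma0 N) →+ ZMod p))
    (hX : ∀ χ ∈ X, 𝒜.tHom χ ∈ X) (χ : X) :
    ((restrT 𝒜 X hX χ : X) : Additive (Gamma0 N) →+ ZMod p) = 𝒜.tHom (χ : _) := rfl

end Fermat.Agent.S29
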