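import Mathlib
import Fermat.Agent.S24_Galois
import Fermat.Agent.S24_Places

/-!
# S29 (B3), algebra: every place of `F` is induced by a conjugate of a tower valuation

`Γ` acts on a field `L ⊇ F ⊇ K(x)` through a finite quotient, with `L^Γ = K(x)`, and `w` is an
integer valuation of `L` with `w (x - x₀) = E > 0`, invariant under `c ∈ Γ`.  Then every place
`v` of `F` over `x = x₀` is induced by a conjugate of `w`: there are `γ ∈ Γ` and `e ∣ E` with
`w (γ⁻¹ • f) = e * ord_v f` on `F`, and `γ c ^ (E / e) γ⁻¹` fixes `F`.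
-/

set_option autoImplicit false
set_option linter.unusedSectionVars false
set_option linter.unusedVariables false
set_option linter.style.haveILetI false

noncomputable section

open AlgebraicCurve IsDedekindDomain
open scoped Pointwise IntermediateField.algebraAdjoinAdjoin

namespace Fermat.Agent.S29.KumDivAlg

open Fermat.Agent.S24 Fermat.Agent.S24.Galois

section IntValBasics

variable {K L : Type*} [Field K] [Field L] [Algebra K L] (w : IntVal K L)

theorem intVal_inv {y : L} (hy : y ≠ 0) : w.toFun y⁻¹ = -w.toFun y := by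
  have h := w.map_mul' y y⁻¹ hy (inv_ne_zero hy)
  rw [mul_inv_cancel₀ hy, w_one] at h
  omega

theorem intVal_zpow {y : L} (hy : y ≠ 0) (n : ℤ) : w.toFun (y ^ n) = n * w.toFun y := by
  obtain ⟨k, rfl | rfl⟩ := n.eq_nat_or_neg
  · rw [zpow_natCast, w_pow w hy]
  · rw [zpow_neg, zpow_natCast, intVal_inv w (pow_ne_zero k hy), w_pow w hy]
    ring

/-- the conjugate of an integer valuation by a field automorphism given by a group action. -/
def conjVal {Γ : Type*} [Group Γ] [MulSemiringAction Γ L] [SMulCommClass Γ K L] (γ : Γ) :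
    IntVal K L where
  toFun y := w.toFun (γ⁻¹ • y)
  map_mul' a b ha hb := by
    rw [smul_mul']
    exact w.map_mul' _ _ (by rwa [Ne, smul_eq_zero_iff_eq]) (by rwa [Ne, smul_eq_zero_iff_eq])
  map_add' a b ha hb hab := by
    rw [smul_add]
    refine w.map_add' _ _ (by rwa [Ne, smul_eq_zero_iff_eq]) (by rwa [Ne, smul_eq_zero_iff_eq]) ?_
    rw [← smul_add]
    rwa [Ne, smul_eq_zero_iff_eq]
  map_algebraMap' k hk := by
    have h : γ⁻¹ • algebraMap K L k = algebraMap K L k := by
      rw [Algebra.algebraMap_eq_smul_one, smul_comm, smul_one]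
    rw [h]
    exact w.map_algebraMap' k hk

theorem conjVal_toFun {Γ : Type*} [Group Γ] [MulSemiringAction Γ L] [SMulCommClass Γ K L]
    (γ : Γ) (y : L) : (conjVal w γ).toFun y = w.toFun (γ⁻¹ • y) := rfl

end IntValBasics

section Cyclic

/-- residue fields of a finite extension over a point with residue field `k` are `k`. -/
theorem exists_sub_mem_of_integral
    {k A T : Type*} [Field k] [IsAlgClosed k] [CommRing A] [CommRing T]
    [Algebra k A] [Algebra A T] [Algebra k T] [IsScalarTower k A T] [Algebra.IsIntegral A T]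
    (p : Ideal A) [p.IsMaximal] (Q : Ideal T) [Q.IsPrime] [Q.LiesOver p]
    (hk : ∀ a : A, ∃ c : k, a - algebraMap k A c ∈ p) (t : T) :
    ∃ c : k, t - algebraMap k T c ∈ Q := by
  have hQmax : Q.IsMaximal := Ideal.IsMaximal.of_liesOver_isMaximal Q p
  let _ := Ideal.Quotient.field p
  let _ := Ideal.Quotient.field Q
  have h1 : ((Ideal.Quotient.mk p).comp (algebraMap k A)).IsIntegral := by
    apply RingHom.isIntegral_of_surjective
    intro z
    obtain ⟨a, rfl⟩ := Ideal.Quotient.mk_surjective z
    obtain ⟨c, hc⟩ := hk a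
    refine ⟨c, ?_⟩
    rw [RingHom.comp_apply, eq_comm]
    exact Ideal.Quotient.eq.mpr hc
  have h2 : (algebraMap (A ⧸ p) (T ⧸ Q)).IsIntegral := fun z =>
    Algebra.IsIntegral.isIntegral z
  have h3 := IsAlgClosed.ringHom_bijective_of_isIntegral _ (h1.trans _ _ h2)
  obtain ⟨c, hc⟩ := h3.2 (Ideal.Quotient.mk Q t)
  refine ⟨c, ?_⟩
  have hc' : Ideal.Quotient.mk Q (algebraMap k T c) = Ideal.Quotient.mk Q t := by
    rw [← hc, IsScalarTower.algebraMap_apply k A T]
    rfl
  exact Ideal.Quotient.eq.mp hc'.symm

/-- The decomposition group at a prime with residue field the (algebraically closed, characteristic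
zero) constant field has as many elements as the ramification index. -/
theorem card_stabilizer_eq_ramificationIdx
    {k A S : Type*} [Field k] [IsAlgClosed k] [CharZero k] [CommRing A] [CommRing S]
    [IsDomain A] [Algebra k A] [Algebra A S]
    [Module.Finite A S] [Module.Flat A S] [IsDedekindDomain S]
    {G : Type*} [Group G] [Finite G] [MulSemiringAction G S] [IsGaloisGroup G A S]
    (p : Ideal A) [p.IsMaximal] (P : Ideal S) [P.IsPrime] [P.LiesOver p]
    (hk : ∀ a : A, ∃ c : k, a - algebraMap k A c ∈ p) :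
    Nat.card (MulAction.stabilizer G P) = P.ramificationIdx A := by
  have hint : Algebra.IsIntegral A S := Algebra.IsIntegral.of_finite A S
  have hPmax : P.IsMaximal := Ideal.IsMaximal.of_liesOver_isMaximal P p
  have hchar : CharZero p.ResidueField :=
    charZero_of_injective_ringHom
      (f := (algebraMap A p.ResidueField).comp (algebraMap k A)) (RingHom.injective _)
  have hf : P.inertiaDeg A = 1 := by
    rw [Ideal.inertiaDeg_eq_of_isMaximal p P]
    let _ := Ideal.Quotient.field p
    let _ := Ideal.Quotient.field P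
    have h1 : ((Ideal.Quotient.mk p).comp (algebraMap k A)).IsIntegral := by
      apply RingHom.isIntegral_of_surjective
      intro z
      obtain ⟨a, rfl⟩ := Ideal.Quotient.mk_surjective z
      obtain ⟨c, hc⟩ := hk a
      refine ⟨c, ?_⟩
      rw [RingHom.comp_apply, eq_comm]
      exact Ideal.Quotient.eq.mpr hc
    have h2 : (algebraMap (A ⧸ p) (S ⧸ P)).IsIntegral := fun z =>
      Algebra.IsIntegral.isIntegral z
    have h3 := IsAlgClosed.ringHom_bijective_of_isIntegral _ (h1.trans _ _ h2)
    rw [finrank_eq_one_iff_of_nonzero' (1 : S ⧸ P) one_ne_zero]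
    intro w
    obtain ⟨c, hc⟩ := h3.2 w
    refine ⟨(Ideal.Quotient.mk p) (algebraMap k A c), ?_⟩
    rw [Algebra.smul_def, mul_one]
    exact hc
  rw [Ideal.card_stabilizer_eq (G := G) p P, Ideal.ramificationIdxIn_eq_ramificationIdx p P G,
    Ideal.inertiaDegIn_eq_inertiaDeg p P G, hf, mul_one]

/-- in a cyclic group `⟨g⟩`, the `[⟨g⟩ : ⟨g⟩ ⊓ H]`-th power of `g` lies in `H`. -/
theorem pow_mem_of_zpowers {G : Type*} [Group G] [Finite G] (g : G) (H : Subgroup G)
    (n e : ℕ) (hn : Nat.card (Subgroup.zpowers g) = n)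
    (he : Nat.card (H ⊓ Subgroup.zpowers g : Subgroup G) = e) :
    e ∣ n ∧ g ^ (n / e) ∈ H := by
  have hle : H ⊓ Subgroup.zpowers g ≤ Subgroup.zpowers g := inf_le_right
  have hdvd : e ∣ n := by
    rw [← hn, ← he]
    exact Subgroup.card_dvd_of_le hle
  refine ⟨hdvd, ?_⟩
  have hepos : 0 < e := by
    rw [← he]
    exact Nat.card_pos
  have hnpos : 0 < n := by
    rw [← hn]
    exact Nat.card_pos
  have hord : orderOf g = n := by rw [← hn, Nat.card_zpowers]
  -- every element of the intersection is a power of `g ^ (n / e)`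
  have hsub : H ⊓ Subgroup.zpowers g ≤ Subgroup.zpowers (g ^ (n / e)) := by
    intro k hk
    obtain ⟨i, rfl⟩ := Subgroup.mem_zpowers_iff.mp hk.2
    have h1 : (g ^ i) ^ e = 1 := by
      have h2 : (⟨g ^ i, hk⟩ : (H ⊓ Subgroup.zpowers g : Subgroup G)) ^ e = 1 := by
        rw [← he]
        exact pow_card_eq_one'
      exact congrArg Subtype.val h2
    rw [← zpow_natCast, ← zpow_mul, ← orderOf_dvd_iff_zpow_eq_one, hord] at h1
    obtain ⟨d, hd⟩ := hdvd
    have hd0 : 0 < d := by
      rcases Nat.eq_zero_or_pos d with h0 | h0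
      · rw [h0, mul_zero] at hd
        omega
      · exact h0
    have hne : n / e = d := by rw [hd, Nat.mul_div_cancel_left d hepos]
    have h3 : (d : ℤ) ∣ i := by
      rw [hd] at h1
      push_cast at h1
      have h4 : (e : ℤ) * d ∣ e * i := by rwa [mul_comm i (e : ℤ)] at h1
      exact (mul_dvd_mul_iff_left (by exact_mod_cast hepos.ne')).mp h4
    obtain ⟨j, rfl⟩ := h3
    rw [hne, Subgroup.mem_zpowers_iff]
    exact ⟨j, by rw [← zpow_natCast, ← zpow_mul]⟩
  have hcard : Nat.card (Subgroup.zpowers (g ^ (n / e))) = e := by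
    have h5 : n / e ∣ orderOf g := by
      rw [hord]
      exact Nat.div_dvd_of_dvd hdvd
    rw [Nat.card_zpowers, orderOf_pow_of_dvd (Nat.div_pos (Nat.le_of_dvd hnpos hdvd) hepos).ne'
      h5, hord, Nat.div_div_self hdvd hnpos.ne']
  have heq : H ⊓ Subgroup.zpowers g = Subgroup.zpowers (g ^ (n / e)) :=
    Subgroup.eq_of_le_of_card_ge hsub (by rw [hcard, he])
  have hmem : g ^ (n / e) ∈ H ⊓ Subgroup.zpowers g := by
    rw [heq]
    exact Subgroup.mem_zpowers _
  exact hmem.1

end Cyclic

section Val

variable {K L : Type*} [Field K] [Field L] [Algebra K L] (w : IntVal K L)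
variable {S : Type*} [CommRing S] [IsDedekindDomain S] [Algebra S L] [IsFractionRing S L]

/-- an integer valuation which is nonnegative on a Dedekind domain `S` and positive exactly on
the prime `P` is a multiple of the `P`-adic valuation. -/
theorem intVal_eq_mul_adic (P : HeightOneSpectrum S)
    (hS : ∀ b : S, algebraMap S L b ∈ valGE w 0)
    (hP : ∀ b : S, b ∈ P.asIdeal ↔ algebraMap S L b ∈ valGE w 1) :
    ∃ m : ℕ, 0 < m ∧ ∀ y : L, y ≠ 0 →
      w.toFun y = m * (-(WithZero.log (P.valuation L y))) := by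
  have hinj : Function.Injective (algebraMap S L) := IsFractionRing.injective S L
  -- elements of `S` outside `P` have valuation zero
  have hzero : ∀ b : S, b ∉ P.asIdeal → w.toFun (algebraMap S L b) = 0 := by
    intro b hb
    have hb0 : b ≠ 0 := fun h => hb (h ▸ P.asIdeal.zero_mem)
    have hbL : algebraMap S L b ≠ 0 := (map_ne_zero_iff _ hinj).mpr hb0
    have h1 := hS b
    have h2 := (hP b).not.mp hb
    rw [mem_valGE] at h1 h2
    push Not at h2
    rcases h1 with h1 | h1
    · exact absurd h1 hbL
    · have := h2.2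
      omega
  -- elements of `L` of adic valuation one have valuation zero
  have hunit : ∀ u : L, P.valuation L u = 1 → w.toFun u = 0 := by
    intro u hu
    have hu0 : u ≠ 0 := fun h => by rw [h, map_zero] at hu; exact zero_ne_one hu
    obtain ⟨n, d, hnd⟩ := P.exists_primeCompl_mul_eq_of_integer u hu.le
    have hd : (d : S) ∉ P.asIdeal := d.2
    have hd0 : (d : S) ≠ 0 := fun h => hd (h ▸ P.asIdeal.zero_mem)
    have hdL : algebraMap S L (d : S) ≠ 0 := (map_ne_zero_iff _ hinj).mpr hd0
    have hn : n ∉ P.asIdeal := by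
      intro hnP
      have h3 : P.valuation L (algebraMap S L n) < 1 :=
        (P.valuation_lt_one_iff_mem (K := L) n).mpr hnP
      rw [← hnd, map_mul, hu, one_mul] at h3
      exact hd ((P.valuation_lt_one_iff_mem (K := L) (d : S)).mp h3)
    have h1 := w.map_mul' u (algebraMap S L (d : S)) hu0 hdL
    rw [hnd, hzero n hn, hzero _ hd] at h1
    omega
  obtain ⟨ϖ, hϖ⟩ := P.intValuation_exists_uniformizer
  have hϖ0 : ϖ ≠ 0 := fun h => by
    rw [h, map_zero] at hϖ
    exact WithZero.exp_ne_zero.symm hϖ
  have hϖL : algebraMap S L ϖ ≠ 0 := (map_ne_zero_iff _ hinj).mpr hϖ0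
  have hϖval : P.valuation L (algebraMap S L ϖ) = WithZero.exp (-1 : ℤ) := by
    rw [P.valuation_of_algebraMap, hϖ]
  have hϖP : ϖ ∈ P.asIdeal := by
    rw [← P.intValuation_lt_one_iff_mem, hϖ, ← WithZero.exp_zero, WithZero.exp_lt_exp]
    norm_num
  have hm : 1 ≤ w.toFun (algebraMap S L ϖ) := by
    have h := (hP ϖ).mp hϖP
    rw [mem_valGE] at h
    rcases h with h | h
    · exact absurd h hϖL
    · exact h
  refine ⟨(w.toFun (algebraMap S L ϖ)).toNat, by omega, fun y hy => ?_⟩
  rw [Int.toNat_of_nonneg (by omega)]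
  set n : ℤ := -(WithZero.log (P.valuation L y)) with hn
  have hval : P.valuation L y = WithZero.exp (-n) := by
    rw [hn, neg_neg, WithZero.exp_log ((Valuation.ne_zero_iff _).mpr hy)]
  have hu : P.valuation L (y * algebraMap S L ϖ ^ (-n)) = 1 := by
    rw [map_mul, map_zpow₀, hϖval, hval, ← WithZero.exp_zsmul, ← WithZero.exp_add]
    simp
  have h0 := hunit _ hu
  rw [w.map_mul' _ _ hy (zpow_ne_zero _ hϖL), intVal_zpow w hϖL] at h0
  linarith

end Val

section Concrete

variable {K F L : Type*} [Field K] [IsAlgClosed K] [CharZero K] [Field F] [Algebra K F]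
  [Field L] [Algebra K L] [Algebra F L] [IsScalarTower K F L]

attribute [local instance] algTS

/-- the stabilizer of an ideal in a subgroup. -/
theorem card_stabilizer_subgroup {G S : Type*} [Group G] [CommRing S] [MulSemiringAction G S]
    (H' : Subgroup G) (P : Ideal S) :
    Nat.card (MulAction.stabilizer H' P)
      = Nat.card (H' ⊓ MulAction.stabilizer G P : Subgroup G) := by
  refine Nat.card_congr
    { toFun := fun h => ⟨(h.1 : G), h.1.2, h.2⟩
      invFun := fun g => ⟨⟨g.1, g.2.1⟩, g.2.2⟩
      left_inv := fun h => rfl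
      right_inv := fun g => rfl }

theorem exists_val_aux
    (x : F) (hx : Transcendental K x)
    [IsDedekindDomain (integralClosure (Algebra.adjoin K {x}) F)]
    [IsFractionRing (integralClosure (Algebra.adjoin K {x}) F) F]
    {G : Type*} [Group G] [Finite G] [MulSemiringAction G L]
    [hG : IsGaloisGroup G (IntermediateField.adjoin K {x}) L]
    (x₀ : K) (w : IntVal K L) (E : ℕ) (hE : 0 < E)
    (hw : w.toFun (algebraMap F L x - algebraMap K L x₀) = E)
    (c : G) (hc : ∀ y : L, y ≠ 0 → w.toFun (c • y) = w.toFun y)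
    (hord : (∀ n : ℕ, 0 < n → n < E → c ^ n ≠ 1) ∨
      (∀ g : G, g ∈ fixingSubgroup G (Set.range (algebraMap F L))))
    (Q : HeightOneSpectrum (integralClosure (Algebra.adjoin K {x}) F))
    (hQ : ∀ t : integralClosure (Algebra.adjoin K {x}) F,
      t ∈ Q.asIdeal ↔ algebraMap F L (t : F) ∈ valGE w 1) :
    ∃ e : ℕ, 0 < e ∧ e ∣ E ∧ c ^ (E / e) ∈ fixingSubgroup G (Set.range (algebraMap F L)) ∧
      ∀ f : F, f ≠ 0 →
        w.toFun (algebraMap F L f) = e * (-(WithZero.log (Q.valuation F f))) := by
  classical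
  -- instances
  have hfin : FiniteDimensional (IntermediateField.adjoin K {x}) L :=
    IsGaloisGroup.finiteDimensional G _ L
  have hcomm : SMulCommClass G (Algebra.adjoin K {x}) L := smulCommClass_adjoin x
  have hfrS := isFractionRing_S (K := K) (L := L) x
  have hdedS := isDedekindDomain_S (K := K) (L := L) x
  have hfinS := finite_S (K := K) (L := L) x
  have hflatS := flat_S (K := K) (L := L) x
  have hGS := isGaloisGroup_S (K := K) (L := L) x (G := G)
  have ht1 := isScalarTower_ATS (K := K) (L := L) x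
  have ht2 := isScalarTower_TSL (K := K) (L := L) x
  have hfaith := faithfulSMul_TS (K := K) (L := L) x
  have hintTS := isIntegral_TS (K := K) (L := L) x
  have hH'F : IsGaloisGroup (fixingSubgroup G (Set.range (algebraMap F L))) F L :=
    IsGaloisGroup.of_isScalarTower G (IntermediateField.adjoin K {x}) L F
  have hH'S := isGaloisGroup_TS (K := K) (L := L) x
    (fixingSubgroup G (Set.range (algebraMap F L)))
  -- the valuation prime
  have hA := algebraMap_adjoin_mem_valGE x x₀ w E hw
  have hS : ∀ b : integralClosure (Algebra.adjoin K {x}) L, (b : L) ∈ valGE w 0 := fun b =>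
    mem_valGE_zero_of_isIntegral w hA b.2
  have hP₀ : (valIdeal w (integralClosure (Algebra.adjoin K {x}) L) hS 1).IsPrime :=
    valIdeal_one_isPrime w _ hS
  -- the element `x - x₀`
  have hxne : x - algebraMap K F x₀ ≠ 0 := by
    intro h
    rw [sub_eq_zero] at h
    exact hx (h ▸ isAlgebraic_algebraMap x₀)
  have hsL : ((algebraMap (Algebra.adjoin K {x}) (integralClosure (Algebra.adjoin K {x}) L)
      (genA x - algebraMap K (Algebra.adjoin K {x}) x₀) :
        integralClosure (Algebra.adjoin K {x}) L) : L)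
      = algebraMap F L x - algebraMap K L x₀ := by
    rw [IsScalarTower.algebraMap_apply K F L, ← map_sub]
    rfl
  have hsne : algebraMap (Algebra.adjoin K {x}) (integralClosure (Algebra.adjoin K {x}) L)
      (genA x - algebraMap K (Algebra.adjoin K {x}) x₀) ≠ 0 := by
    intro h
    have h' := congrArg (Subtype.val) h
    rw [hsL, IsScalarTower.algebraMap_apply K F L, ← map_sub] at h'
    exact hxne ((algebraMap F L).injective (h'.trans (map_zero _).symm))
  have hsP₀ : algebraMap (Algebra.adjoin K {x}) (integralClosure (Algebra.adjoin K {x}) L)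
      (genA x - algebraMap K (Algebra.adjoin K {x}) x₀)
        ∈ valIdeal w (integralClosure (Algebra.adjoin K {x}) L) hS 1 := by
    right
    rw [hsL, hw]
    exact_mod_cast hE
  -- the prime below
  have hple : idealAt x x₀
      ≤ (valIdeal w (integralClosure (Algebra.adjoin K {x}) L) hS 1).under
        (Algebra.adjoin K {x}) := by
    unfold idealAt
    rw [Ideal.span_le, Set.singleton_subset_iff]
    exact hsP₀
  have hunder_ne : (valIdeal w (integralClosure (Algebra.adjoin K {x}) L) hS 1).under
      (Algebra.adjoin K {x}) ≠ ⊤ := Ideal.IsPrime.ne_top inferInstance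
  have hpne : idealAt x x₀ ≠ ⊤ := fun h => hunder_ne (top_le_iff.mp (h ▸ hple))
  have hpmax : (idealAt x x₀).IsMaximal := idealAt_isMaximal x x₀ hpne
  have hlies : (valIdeal w (integralClosure (Algebra.adjoin K {x}) L) hS 1).LiesOver
      (idealAt x x₀) := ⟨(eq_idealAt_of_le x x₀ _ hunder_ne hple).symm⟩
  have hsmap : algebraMap (Algebra.adjoin K {x}) (integralClosure (Algebra.adjoin K {x}) L)
      (genA x - algebraMap K (Algebra.adjoin K {x}) x₀)
        ∈ (idealAt x x₀).map
          (algebraMap (Algebra.adjoin K {x}) (integralClosure (Algebra.adjoin K {x}) L)) :=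
    Ideal.mem_map_of_mem _ (Ideal.subset_span rfl)
  have hpS : (idealAt x x₀).map
      (algebraMap (Algebra.adjoin K {x}) (integralClosure (Algebra.adjoin K {x}) L)) ≠ ⊥ := by
    intro h
    rw [h] at hsmap
    exact hsne hsmap
  have hP₀ne : valIdeal w (integralClosure (Algebra.adjoin K {x}) L) hS 1 ≠ ⊥ := by
    intro h
    rw [h] at hsP₀
    exact hsne hsP₀
  -- the adic valuation at the valuation prime
  obtain ⟨m, hm, hF1⟩ := intVal_eq_mul_adic (L := L) w
    (⟨valIdeal w (integralClosure (Algebra.adjoin K {x}) L) hS 1, hP₀, hP₀ne⟩ :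
      HeightOneSpectrum (integralClosure (Algebra.adjoin K {x}) L))
    (fun b => hS b) (fun b => Iff.rfl)
  -- ramification over `K[x]`: `E = m * e(P₀ | p)`
  have hmult : -(WithZero.log ((⟨valIdeal w (integralClosure (Algebra.adjoin K {x}) L) hS 1,
      hP₀, hP₀ne⟩ : HeightOneSpectrum (integralClosure (Algebra.adjoin K {x}) L)).valuation L
        (algebraMap F L x - algebraMap K L x₀)))
      = ((valIdeal w (integralClosure (Algebra.adjoin K {x}) L) hS 1).ramificationIdx
          (Algebra.adjoin K {x}) : ℤ) := by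
    rw [← hsL]
    have h1 := (⟨valIdeal w (integralClosure (Algebra.adjoin K {x}) L) hS 1,
      hP₀, hP₀ne⟩ : HeightOneSpectrum (integralClosure (Algebra.adjoin K {x}) L)).valuation_of_algebraMap
        (K := L) (algebraMap (Algebra.adjoin K {x}) (integralClosure (Algebra.adjoin K {x}) L)
          (genA x - algebraMap K (Algebra.adjoin K {x}) x₀))
    have h2 : ((algebraMap (Algebra.adjoin K {x}) (integralClosure (Algebra.adjoin K {x}) L)
        (genA x - algebraMap K (Algebra.adjoin K {x}) x₀) :
          integralClosure (Algebra.adjoin K {x}) L) : L)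
        = algebraMap (integralClosure (Algebra.adjoin K {x}) L) L
          (algebraMap (Algebra.adjoin K {x}) (integralClosure (Algebra.adjoin K {x}) L)
            (genA x - algebraMap K (Algebra.adjoin K {x}) x₀)) := rfl
    rw [h2, h1, HeightOneSpectrum.intValuation_eq_exp_neg_multiplicity _ hsne, WithZero.log_exp,
      neg_neg]
    congr 1
    rw [← Ideal.ramificationIdx'_eq_ramificationIdx' (idealAt x x₀) _ hpS,
      Ideal.IsDedekindDomain.ramificationIdx'_eq_multiplicity hpS hP₀]
    unfold idealAt
    rw [Ideal.map_span, Set.image_singleton]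
  have hEm : (E : ℤ) = m * ((valIdeal w (integralClosure (Algebra.adjoin K {x}) L) hS
      1).ramificationIdx (Algebra.adjoin K {x}) : ℤ) := by
    have hne : algebraMap F L x - algebraMap K L x₀ ≠ 0 := by
      rw [← hsL]
      intro h
      exact hsne (Subtype.ext h)
    rw [← hmult, ← hF1 _ hne, hw]
  -- the valuation prime lies over `Q`
  have hQlies : (valIdeal w (integralClosure (Algebra.adjoin K {x}) L) hS 1).LiesOver
      Q.asIdeal := ⟨by
    ext t
    exact hQ t⟩
  have hQp : Q.asIdeal.LiesOver (idealAt x x₀) :=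
    Ideal.LiesOver.tower_bot (valIdeal w (integralClosure (Algebra.adjoin K {x}) L) hS 1)
      Q.asIdeal (idealAt x x₀)
  have hQmax : Q.asIdeal.IsMaximal := Ideal.IsMaximal.of_liesOver_isMaximal Q.asIdeal
    (idealAt x x₀)
  have hkT : ∀ t : integralClosure (Algebra.adjoin K {x}) F,
      ∃ c : K, t - algebraMap K (integralClosure (Algebra.adjoin K {x}) F) c ∈ Q.asIdeal :=
    exists_sub_mem_of_integral (k := K) (idealAt x x₀) Q.asIdeal (exists_sub_mem_idealAt x x₀)
  -- the stabilizers
  have hcardG : Nat.card (MulAction.stabilizer G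
      (valIdeal w (integralClosure (Algebra.adjoin K {x}) L) hS 1))
      = (valIdeal w (integralClosure (Algebra.adjoin K {x}) L) hS 1).ramificationIdx
          (Algebra.adjoin K {x}) :=
    card_stabilizer_eq_ramificationIdx (k := K) (idealAt x x₀) _ (exists_sub_mem_idealAt x x₀)
  have hfinTS : Module.Finite (integralClosure (Algebra.adjoin K {x}) F)
      (integralClosure (Algebra.adjoin K {x}) L) :=
    Module.Finite.of_restrictScalars_finite (Algebra.adjoin K {x}) _ _
  have hcardH : Nat.card (MulAction.stabilizer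
      (fixingSubgroup G (Set.range (algebraMap F L)))
      (valIdeal w (integralClosure (Algebra.adjoin K {x}) L) hS 1))
      = (valIdeal w (integralClosure (Algebra.adjoin K {x}) L) hS 1).ramificationIdx
          (integralClosure (Algebra.adjoin K {x}) F) :=
    card_stabilizer_eq_ramificationIdx (k := K) Q.asIdeal _ hkT
  rw [card_stabilizer_subgroup] at hcardH
  have hdvd : (valIdeal w (integralClosure (Algebra.adjoin K {x}) L) hS 1).ramificationIdx
      (integralClosure (Algebra.adjoin K {x}) F)
      ∣ (valIdeal w (integralClosure (Algebra.adjoin K {x}) L) hS 1).ramificationIdx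
          (Algebra.adjoin K {x}) := by
    rw [← hcardG, ← hcardH]
    exact Subgroup.card_dvd_of_le inf_le_right
  have heQpos : 0 < (valIdeal w (integralClosure (Algebra.adjoin K {x}) L) hS 1).ramificationIdx
      (integralClosure (Algebra.adjoin K {x}) F) := by
    rw [← hcardH]
    exact Nat.card_pos
  have hE2 : E = m * (valIdeal w (integralClosure (Algebra.adjoin K {x}) L) hS
      1).ramificationIdx (Algebra.adjoin K {x}) := by
    exact_mod_cast hEm
  -- the power of `c`
  have hcpow : c ^ ((valIdeal w (integralClosure (Algebra.adjoin K {x}) L) hS 1).ramificationIdx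
      (Algebra.adjoin K {x})
      / (valIdeal w (integralClosure (Algebra.adjoin K {x}) L) hS 1).ramificationIdx
        (integralClosure (Algebra.adjoin K {x}) F))
      ∈ fixingSubgroup G (Set.range (algebraMap F L)) := by
    rcases hord with hord | hord
    · have hE' : ¬ (idealAt x x₀).map
          (algebraMap (Algebra.adjoin K {x}) (integralClosure (Algebra.adjoin K {x}) L))
            ≤ valIdeal w (integralClosure (Algebra.adjoin K {x}) L) hS 1 ^ (E + 1) := by
        intro hle
        have h1 := valIdeal_one_pow_le w _ hS (E + 1) (hle hsmap)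
        rcases h1 with h1 | h1
        · exact hsne (Subtype.ext h1)
        · rw [hsL, hw] at h1
          push_cast at h1
          omega
      have hσ : c • valIdeal w (integralClosure (Algebra.adjoin K {x}) L) hS 1
          = valIdeal w (integralClosure (Algebra.adjoin K {x}) L) hS 1 := by
        ext b
        rw [Ideal.mem_pointwise_smul_iff_inv_smul_mem]
        change (c⁻¹ • (b : L)) ∈ valGE w 1 ↔ (b : L) ∈ valGE w 1
        by_cases hb : (b : L) = 0
        · rw [hb, smul_zero]
        · have hb' : c⁻¹ • (b : L) ≠ 0 := by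
            rwa [Ne, smul_eq_zero_iff_eq]
          have hval : w.toFun (c⁻¹ • (b : L)) = w.toFun (b : L) := by
            have := hc _ hb'
            rw [smul_inv_smul] at this
            exact this.symm
          rw [mem_valGE, mem_valGE, hval]
          simp [hb, hb']
      have hstab := stabilizer_eq_zpowers (k := K) (idealAt x x₀)
        (valIdeal w (integralClosure (Algebra.adjoin K {x}) L) hS 1)
        (exists_sub_mem_idealAt x x₀) hpS E hE' c hσ hord
      rw [hstab] at hcardG hcardH
      exact (pow_mem_of_zpowers c _ _ _ hcardG hcardH).2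
    · exact hord _
  have hQS : Q.asIdeal.map (algebraMap (integralClosure (Algebra.adjoin K {x}) F)
      (integralClosure (Algebra.adjoin K {x}) L)) ≠ ⊥ :=
    Ideal.map_ne_bot_of_ne_bot Q.ne_bot
  refine ⟨m * (valIdeal w (integralClosure (Algebra.adjoin K {x}) L) hS 1).ramificationIdx
      (integralClosure (Algebra.adjoin K {x}) F), Nat.mul_pos hm heQpos, ?_, ?_, ?_⟩
  · rw [hE2]
    exact Nat.mul_dvd_mul_left m hdvd
  · rw [hE2, Nat.mul_div_mul_left _ _ hm]
    exact hcpow
  · intro f hf
    have hfL : algebraMap F L f ≠ 0 := (map_ne_zero_iff _ (algebraMap F L).injective).mpr hf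
    rw [hF1 _ hfL]
    haveI : (⟨valIdeal w (integralClosure (Algebra.adjoin K {x}) L) hS 1, hP₀, hP₀ne⟩ :
      HeightOneSpectrum (integralClosure (Algebra.adjoin K {x}) L)).asIdeal.LiesOver
        Q.asIdeal := hQlies
    have h2 := HeightOneSpectrum.valuation_liesOver L Q
      (⟨valIdeal w (integralClosure (Algebra.adjoin K {x}) L) hS 1, hP₀, hP₀ne⟩ :
        HeightOneSpectrum (integralClosure (Algebra.adjoin K {x}) L)) f
    rw [← h2, WithZero.log_pow, Ideal.ramificationIdx'_eq_ramificationIdx' Q.asIdeal _ hQS]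
    push_cast
    rw [nsmul_eq_mul]
    ring

theorem exists_conj_val_aux
    (x : F) (hx : Transcendental K x)
    [IsDedekindDomain (integralClosure (Algebra.adjoin K {x}) F)]
    [IsFractionRing (integralClosure (Algebra.adjoin K {x}) F) F]
    {G : Type*} [Group G] [Finite G] [MulSemiringAction G L] [SMulCommClass G K L]
    [hG : IsGaloisGroup G (IntermediateField.adjoin K {x}) L]
    (hxfix : ∀ g : G, g • algebraMap F L x = algebraMap F L x)
    (x₀ : K) (w : IntVal K L) (E : ℕ) (hE : 0 < E)
    (hw : w.toFun (algebraMap F L x - algebraMap K L x₀) = E)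
    (c : G) (hc : ∀ y : L, y ≠ 0 → w.toFun (c • y) = w.toFun y)
    (hord : (∀ n : ℕ, 0 < n → n < E → c ^ n ≠ 1) ∨
      (∀ g : G, g ∈ fixingSubgroup G (Set.range (algebraMap F L))))
    (Q : HeightOneSpectrum (integralClosure (Algebra.adjoin K {x}) F))
    (hQxi : Places.xi K x x₀ ∈ Q.asIdeal) :
    ∃ (g : G) (e : ℕ), 0 < e ∧ e ∣ E ∧
      g * c ^ (E / e) * g⁻¹ ∈ fixingSubgroup G (Set.range (algebraMap F L)) ∧
      ∀ f : F, f ≠ 0 →
        w.toFun (g⁻¹ • algebraMap F L f) = e * (-(WithZero.log (Q.valuation F f))) := by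
  classical
  -- instances
  have hfin : FiniteDimensional (IntermediateField.adjoin K {x}) L :=
    IsGaloisGroup.finiteDimensional G _ L
  have hcomm : SMulCommClass G (Algebra.adjoin K {x}) L := smulCommClass_adjoin x
  have hfrS := isFractionRing_S (K := K) (L := L) x
  have hdedS := isDedekindDomain_S (K := K) (L := L) x
  have hfinS := finite_S (K := K) (L := L) x
  have hflatS := flat_S (K := K) (L := L) x
  have hGS := isGaloisGroup_S (K := K) (L := L) x (G := G)
  have ht1 := isScalarTower_ATS (K := K) (L := L) x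
  have ht2 := isScalarTower_TSL (K := K) (L := L) x
  have hfaith := faithfulSMul_TS (K := K) (L := L) x
  have hintTS := isIntegral_TS (K := K) (L := L) x
  -- the valuation prime
  have hA := algebraMap_adjoin_mem_valGE x x₀ w E hw
  have hS : ∀ b : integralClosure (Algebra.adjoin K {x}) L, (b : L) ∈ valGE w 0 := fun b =>
    mem_valGE_zero_of_isIntegral w hA b.2
  have hP₀ : (valIdeal w (integralClosure (Algebra.adjoin K {x}) L) hS 1).IsPrime :=
    valIdeal_one_isPrime w _ hS
  have hsL : ((algebraMap (Algebra.adjoin K {x}) (integralClosure (Algebra.adjoin K {x}) L)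
      (genA x - algebraMap K (Algebra.adjoin K {x}) x₀) :
        integralClosure (Algebra.adjoin K {x}) L) : L)
      = algebraMap F L x - algebraMap K L x₀ := by
    rw [IsScalarTower.algebraMap_apply K F L, ← map_sub]
    rfl
  have hsP₀ : algebraMap (Algebra.adjoin K {x}) (integralClosure (Algebra.adjoin K {x}) L)
      (genA x - algebraMap K (Algebra.adjoin K {x}) x₀)
        ∈ valIdeal w (integralClosure (Algebra.adjoin K {x}) L) hS 1 := by
    right
    rw [hsL, hw]
    exact_mod_cast hE
  have hple : idealAt x x₀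
      ≤ (valIdeal w (integralClosure (Algebra.adjoin K {x}) L) hS 1).under
        (Algebra.adjoin K {x}) := by
    unfold idealAt
    rw [Ideal.span_le, Set.singleton_subset_iff]
    exact hsP₀
  have hunder_ne : (valIdeal w (integralClosure (Algebra.adjoin K {x}) L) hS 1).under
      (Algebra.adjoin K {x}) ≠ ⊤ := Ideal.IsPrime.ne_top inferInstance
  have hlies : (valIdeal w (integralClosure (Algebra.adjoin K {x}) L) hS 1).LiesOver
      (idealAt x x₀) := ⟨(eq_idealAt_of_le x x₀ _ hunder_ne hple).symm⟩
  -- `Q` lies over `x = x₀`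
  have hQle : idealAt x x₀ ≤ Q.asIdeal.under (Algebra.adjoin K {x}) := by
    unfold idealAt
    rw [Ideal.span_le, Set.singleton_subset_iff]
    exact hQxi
  have hQp : Q.asIdeal.LiesOver (idealAt x x₀) :=
    ⟨(eq_idealAt_of_le x x₀ _ (Ideal.IsPrime.ne_top inferInstance) hQle).symm⟩
  -- a prime of `S` over `Q`
  obtain ⟨⟨P, hP, hPQ⟩⟩ := (inferInstance : Nonempty (Q.asIdeal.primesOver
    (integralClosure (Algebra.adjoin K {x}) L)))
  have hPp : P.LiesOver (idealAt x x₀) := Ideal.LiesOver.trans P Q.asIdeal (idealAt x x₀)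
  obtain ⟨g, hg⟩ := Algebra.IsInvariant.exists_smul_of_under_eq (Algebra.adjoin K {x})
    (integralClosure (Algebra.adjoin K {x}) L) G
    (valIdeal w (integralClosure (Algebra.adjoin K {x}) L) hS 1) P
    ((Ideal.over_def _ (idealAt x x₀)).symm.trans (Ideal.over_def P (idealAt x x₀)))
  -- the conjugate valuation
  have hw' : (conjVal w g).toFun (algebraMap F L x - algebraMap K L x₀) = E := by
    rw [conjVal_toFun, smul_sub, hxfix, smul_algebraMap, hw]
  have hc' : ∀ y : L, y ≠ 0 → (conjVal w g).toFun ((g * c * g⁻¹) • y) = (conjVal w g).toFun y := by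
    intro y hy
    rw [conjVal_toFun, conjVal_toFun, ← mul_smul, ← mul_assoc, ← mul_assoc, inv_mul_cancel,
      one_mul, mul_smul]
    exact hc _ (by rwa [Ne, smul_eq_zero_iff_eq])
  have hord' : (∀ n : ℕ, 0 < n → n < E → (g * c * g⁻¹) ^ n ≠ 1) ∨
      (∀ g : G, g ∈ fixingSubgroup G (Set.range (algebraMap F L))) := by
    rcases hord with hord | hord
    · left
      intro n hn hnE h1
      rw [conj_pow, conj_eq_one_iff] at h1
      exact hord n hn hnE h1
    · exact Or.inr hord
  have hQ' : ∀ t : integralClosure (Algebra.adjoin K {x}) F,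
      t ∈ Q.asIdeal ↔ algebraMap F L (t : F) ∈ valGE (conjVal w g) 1 := by
    intro t
    rw [hPQ.over, Ideal.mem_comap, hg, Ideal.mem_pointwise_smul_iff_inv_smul_mem]
    change (g⁻¹ • algebraMap F L (t : F)) ∈ valGE w 1 ↔ _
    rw [mem_valGE, mem_valGE, conjVal_toFun, smul_eq_zero_iff_eq]
  obtain ⟨e, he, hdvd, hmem, hval⟩ := exists_val_aux x hx x₀ (conjVal w g) E hE hw'
    (g * c * g⁻¹) hc' hord' Q hQ'
  refine ⟨g, e, he, hdvd, ?_, fun f hf => ?_⟩
  · rw [← conj_pow]
    exact hmem
  · rw [← hval f hf, conjVal_toFun]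

end Concrete

section Main

variable {K F L Γ : Type*} [Field K] [IsAlgClosed K] [CharZero K] [Field F] [Algebra K F]
  [Field L] [Algebra K L] [Algebra F L] [IsScalarTower K F L]
  [Group Γ] [MulSemiringAction Γ L] [SMulCommClass Γ K L]

/-- **Every place over `x = x₀` is induced by a conjugate of the valuation `w`.** -/
theorem exists_conj_val (x : F) (hx : Transcendental K x)
    (hfix : ∀ y : L, (∀ γ : Γ, γ • y = y) → y ∈ IntermediateField.adjoin K {algebraMap F L x})
    (hxfix : ∀ γ : Γ, γ • algebraMap F L x = algebraMap F L x)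
    (hker : ∃ Γ₀ : Subgroup Γ, Γ₀.FiniteIndex ∧ ∀ γ ∈ Γ₀, ∀ y : L, γ • y = y)
    (H : Subgroup Γ)
    (hH : ∀ γ : Γ, γ ∈ H ↔ ∀ f : F, γ • algebraMap F L f = algebraMap F L f)
    (x₀ : K) (w : IntVal K L) (E : ℕ) (hE : 0 < E)
    (hw : w.toFun (algebraMap F L x - algebraMap K L x₀) = E)
    (c : Γ) (hc : ∀ y : L, y ≠ 0 → w.toFun (c • y) = w.toFun y)
    (hord : (∀ k : ℕ, 0 < k → k < E → ∃ y : L, c ^ k • y ≠ y) ∨ (∀ γ : Γ, γ ∈ H))
    (v : Place K F) (hv : v ∈ PlacesAt K x x₀) :
    ∃ (γ : Γ) (e : ℕ), 0 < e ∧ e ∣ E ∧ γ * c ^ (E / e) * γ⁻¹ ∈ H ∧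
      ∀ f : F, f ≠ 0 → w.toFun (γ⁻¹ • algebraMap F L f) = e * v.ord f := by
  have hfinG := finite_imageGroup (K := K) hker
  have hG := isGaloisGroup_imageGroup x hfix hxfix
  have hgen : IsGenerator K x := isGenerator_of_action x hx hfix hker
  haveI := Places.isDedekindDomain_intRing hgen
  haveI := Places.isFractionRing_intRing hgen
  obtain ⟨Q, hQv, hQxi⟩ := Places.exists_prime_of_mem_placesAt hx x₀ v hv
  have hord' : (∀ n : ℕ, 0 < n → n < E → (toImage K L Γ c) ^ n ≠ 1) ∨
      (∀ g : imageGroup K L Γ, g ∈ fixingSubgroup (imageGroup K L Γ)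
        (Set.range (algebraMap F L))) := by
    rcases hord with hord | hord
    · left
      intro n hn hnE h1
      obtain ⟨y, hy⟩ := hord n hn hnE
      apply hy
      have h2 : toImage K L Γ (c ^ n) = 1 := by rw [map_pow]; exact h1
      exact (toImage_eq_one_iff (c ^ n)).mp h2 y
    · right
      intro g
      obtain ⟨γ, rfl⟩ := toImage_surjective (K := K) (L := L) g
      have hγ : γ ∈ H := hord γ
      rw [comap_fixF (K := K) H hH, Subgroup.mem_comap] at hγ
      exact hγ
  obtain ⟨g, e, he, hdvd, hmem, hval⟩ := exists_conj_val_aux x hx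
    (G := imageGroup K L Γ) (fun g => by
      obtain ⟨γ, rfl⟩ := toImage_surjective (K := K) (L := L) g
      exact hxfix γ) x₀ w E hE hw (toImage K L Γ c) (fun y hy => hc y hy) hord' Q hQxi
  obtain ⟨γ, rfl⟩ := toImage_surjective (K := K) (L := L) g
  refine ⟨γ, e, he, hdvd, ?_, fun f hf => ?_⟩
  · rw [comap_fixF (K := K) H hH, Subgroup.mem_comap, map_mul, map_mul, map_pow, map_inv]
    exact hmem
  · have h1 := hval f hf
    rw [← map_inv] at h1
    rw [← hQv, Places.ord_ofHeightOneSpectrum]
    exact h1

end Main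

end Fermat.Agent.S29.KumDivAlg
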