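import Mathlib
import Fermat.Agent.S24_PointOrd
import Fermat.Agent.S24_QLaurent

/-!
# S29 (B3), local analysis

* `elliptic_zpow_eq`: two holomorphic functions on `ℍ` with the same automorphy factor under an
  elliptic element `γ` fixing `τ₀` have orders at `τ₀` which agree modulo the order of the
  rotation `γ`: `η ^ (2 n₁) = η ^ (2 n₂)` for `η = c τ₀ + d`.
* `exists_laurentExp_of_periodic`: a holomorphic function on `ℍ`, bounded at `i∞` and invariant
  under `τ ↦ τ + d` with `d ∣ N`, has an expansion in `q ^ (1 / N)` supported on the multiples of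
  `N / d`.
-/

set_option autoImplicit false

noncomputable section

open UpperHalfPlane Filter
open scoped MatrixGroups Manifold

namespace Fermat.Agent.S29.KumDivLoc

open Fermat.Agent.S24 Fermat.Agent.S24.PointOrd

/-- Two holomorphic functions with the same automorphy factor under an element `γ` fixing `τ₀`:
the derivative of `γ` at `τ₀` to the difference of the orders is `1`. -/
theorem elliptic_zpow_eq {G₁ G₂ : ℍ → ℂ} (h₁ : MDiff G₁) (h₂ : MDiff G₂)
    (hne₁ : G₁ ≠ 0) (hne₂ : G₂ ≠ 0) (γ : SL(2, ℤ)) (τ₀ : ℍ) (hγ : γ • τ₀ = τ₀)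
    (hrel : ∀ τ : ℍ, G₁ (γ • τ) * G₂ τ = G₂ (γ • τ) * G₁ τ) :
    (((γ 1 0 : ℤ) : ℂ) * (τ₀ : ℂ) + ((γ 1 1 : ℤ) : ℂ)) ^ (2 * (ordAt G₁ τ₀).toNat)
      = (((γ 1 0 : ℤ) : ℂ) * (τ₀ : ℂ) + ((γ 1 1 : ℤ) : ℂ)) ^ (2 * (ordAt G₂ τ₀).toNat) := by
  set a : ℂ := ((γ 0 0 : ℤ) : ℂ) with ha
  set b : ℂ := ((γ 0 1 : ℤ) : ℂ) with hb
  set c : ℂ := ((γ 1 0 : ℤ) : ℂ) with hc
  set d : ℂ := ((γ 1 1 : ℤ) : ℂ) with hd
  set m : ℂ → ℂ := fun z => (a * z + b) / (c * z + d) with hm
  have hdet : a * d - b * c = 1 := by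
    have h := γ.det_coe
    rw [Matrix.det_fin_two] at h
    have h' : ((γ 0 0 * γ 1 1 - γ 0 1 * γ 1 0 : ℤ) : ℂ) = 1 := by
      rw [h]; simp
    simp only [ha, hb, hc, hd]
    push_cast at h'
    linear_combination h'
  have hcoe : ∀ z : ℍ, ((γ • z : ℍ) : ℂ) = m z := by
    intro z
    rw [UpperHalfPlane.coe_specialLinearGroup_apply]
    simp [hm, ha, hb, hc, hd]
  have hden : ∀ z : ℍ, c * (z : ℂ) + d ≠ 0 := by
    intro z hz
    have h3 : ((γ • z : ℍ) : ℂ) = 0 := by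
      rw [hcoe z]
      simp only [hm]
      rw [hz, div_zero]
    have h4 := (γ • z).im_pos
    have h5 := congrArg Complex.im h3
    rw [UpperHalfPlane.coe_im, Complex.zero_im] at h5
    linarith
  set η : ℂ := c * (τ₀ : ℂ) + d with hη
  have hη0 : η ≠ 0 := hden τ₀
  have hmτ : m (τ₀ : ℂ) = (τ₀ : ℂ) := by rw [← hcoe τ₀, hγ]
  have hev : ∀ f : ℍ → ℂ, (fun z : ℂ => f (γ • ofComplex z)) =ᶠ[nhds (τ₀ : ℂ)]
      (fun w : ℂ => f (ofComplex w)) ∘ m := by
    intro f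
    filter_upwards [isOpen_upperHalfPlaneSet.mem_nhds τ₀.im_pos] with z hz
    have h1 : ofComplex z = ⟨z, hz⟩ := ofComplex_apply_of_im_pos hz
    simp only [Function.comp_apply]
    rw [h1]
    congr 1
    have h2 := hcoe ⟨z, hz⟩
    rw [show m z = ((γ • (⟨z, hz⟩ : ℍ) : ℍ) : ℂ) from h2.symm, ofComplex_apply]
  have hm_an : AnalyticAt ℂ m (τ₀ : ℂ) := by
    have hnum : AnalyticAt ℂ (fun z : ℂ => a * z + b) (τ₀ : ℂ) := by fun_prop
    have hdenom : AnalyticAt ℂ (fun z : ℂ => c * z + d) (τ₀ : ℂ) := by fun_prop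
    exact hnum.div hdenom (hden τ₀)
  -- the local factorisation of `m z - τ₀`
  set θ : ℂ → ℂ := fun z => ((c * z + d) * η)⁻¹ with hθ
  have hθ_an : AnalyticAt ℂ θ (τ₀ : ℂ) := by
    have hdenom : AnalyticAt ℂ (fun z : ℂ => (c * z + d) * η) (τ₀ : ℂ) := by fun_prop
    exact hdenom.inv (mul_ne_zero (hden τ₀) hη0)
  have hθ0 : θ (τ₀ : ℂ) = (η ^ 2)⁻¹ := by
    simp only [hθ, hη]
    rw [sq]
  have hθne : θ (τ₀ : ℂ) ≠ 0 := by
    rw [hθ0]
    exact inv_ne_zero (pow_ne_zero 2 hη0)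
  have hfac : (fun z : ℂ => m z - m (τ₀ : ℂ)) =ᶠ[nhdsWithin (τ₀ : ℂ) {(τ₀ : ℂ)}ᶜ]
      fun z => (z - (τ₀ : ℂ)) ^ (1 : ℤ) • θ z := by
    have hcont : ContinuousAt (fun z : ℂ => c * z + d) (τ₀ : ℂ) := by fun_prop
    have hne := hcont.eventually_ne (hden τ₀)
    filter_upwards [nhdsWithin_le_nhds hne] with z hz
    have h3 : a * (τ₀ : ℂ) + b = (τ₀ : ℂ) * η := by
      have h4 := hmτ
      simp only [hm] at h4
      rw [div_eq_iff (hden τ₀)] at h4
      exact h4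
    rw [hmτ]
    simp only [hm, hθ, zpow_one, smul_eq_mul]
    rw [← div_eq_mul_inv, eq_div_iff (mul_ne_zero hz hη0), sub_mul, ← mul_assoc,
      div_mul_cancel₀ _ hz]
    linear_combination (z - (τ₀ : ℂ)) * hdet + (a * z + b) * hη + (c * z + d) * h3
  have htc_m : meromorphicTrailingCoeffAt (fun z : ℂ => m z - m (τ₀ : ℂ)) (τ₀ : ℂ)
      = (η ^ 2)⁻¹ := by
    rw [hθ_an.meromorphicTrailingCoeffAt_of_ne_zero_of_eq_nhdsNE hθne hfac, hθ0]
  have hnc : ¬ EventuallyConst m (nhds (τ₀ : ℂ)) := by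
    intro hconst
    rw [eventuallyConst_iff_analyticOrderAt_sub_eq_top] at hconst
    have h5 : meromorphicOrderAt (fun z : ℂ => m z - m (τ₀ : ℂ)) (τ₀ : ℂ) = (1 : ℤ) := by
      have h4 : MeromorphicAt (fun z : ℂ => m z - m (τ₀ : ℂ)) (τ₀ : ℂ) := by
        rw [MeromorphicAt.meromorphicAt_congr hfac]
        fun_prop
      rw [meromorphicOrderAt_eq_int_iff h4]
      exact ⟨θ, hθ_an, hθne, hfac⟩
    have h6 : AnalyticAt ℂ (fun z : ℂ => m z - m (τ₀ : ℂ)) (τ₀ : ℂ) := by fun_prop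
    rw [h6.meromorphicOrderAt_eq, hconst] at h5
    simp at h5
  -- the two functions
  have key : ∀ G : ℍ → ℂ, MDiff G → G ≠ 0 →
      MeromorphicAt (fun z : ℂ => G (ofComplex z)) (τ₀ : ℂ) ∧
      meromorphicTrailingCoeffAt (fun z : ℂ => G (ofComplex z)) (τ₀ : ℂ) ≠ 0 ∧
      MeromorphicAt (fun z : ℂ => G (γ • ofComplex z)) (τ₀ : ℂ) ∧
      meromorphicTrailingCoeffAt (fun z : ℂ => G (γ • ofComplex z)) (τ₀ : ℂ)
        = ((η ^ 2)⁻¹) ^ (ordAt G τ₀).toNat
          * meromorphicTrailingCoeffAt (fun z : ℂ => G (ofComplex z)) (τ₀ : ℂ) := by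
    intro G hG hG0
    have han := analyticAt_comp_ofComplex hG τ₀
    have hmer : MeromorphicAt (fun z : ℂ => G (ofComplex z)) (τ₀ : ℂ) := han.meromorphicAt
    have hfin : ordAt G τ₀ ≠ ⊤ := ordAt_ne_top hG hG0 τ₀
    have hord : meromorphicOrderAt (fun z : ℂ => G (ofComplex z)) (τ₀ : ℂ)
        = (((ordAt G τ₀).toNat : ℤ) : WithTop ℤ) := by
      rw [han.meromorphicOrderAt_eq]
      have h7 : analyticOrderAt (fun z : ℂ => G (ofComplex z)) (τ₀ : ℂ)
          = ((ordAt G τ₀).toNat : ℕ∞) := (ENat.natCast_toNat hfin).symm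
      rw [h7]
      rfl
    have hne : meromorphicOrderAt (fun z : ℂ => G (ofComplex z)) (τ₀ : ℂ) ≠ ⊤ := by
      rw [hord]
      exact WithTop.coe_ne_top
    refine ⟨hmer, hmer.meromorphicTrailingCoeffAt_ne_zero hne, ?_, ?_⟩
    · have h8 : AnalyticAt ℂ ((fun w : ℂ => G (ofComplex w)) ∘ m) (τ₀ : ℂ) := by
        refine AnalyticAt.comp ?_ hm_an
        rw [hmτ]
        exact han
      exact (h8.congr (hev G).symm).meromorphicAt
    · rw [meromorphicTrailingCoeffAt_congr_nhdsNE (nhdsWithin_le_nhds (hev G))]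
      have hmer' : MeromorphicAt (fun z : ℂ => G (ofComplex z)) (m (τ₀ : ℂ)) := by
        rw [hmτ]
        exact hmer
      rw [hmer'.meromorphicTrailingCoeffAt_comp hm_an hnc, htc_m, hmτ, hord]
      simp
  obtain ⟨hm1, hn1, hm1', ht1⟩ := key G₁ h₁ hne₁
  obtain ⟨hm2, hn2, hm2', ht2⟩ := key G₂ h₂ hne₂
  have hprod : (fun z : ℂ => G₁ (γ • ofComplex z)) * (fun z : ℂ => G₂ (ofComplex z))
      = (fun z : ℂ => G₂ (γ • ofComplex z)) * (fun z : ℂ => G₁ (ofComplex z)) := by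
    funext z
    exact hrel (ofComplex z)
  have h9 : meromorphicTrailingCoeffAt
      ((fun z : ℂ => G₁ (γ • ofComplex z)) * (fun z : ℂ => G₂ (ofComplex z))) (τ₀ : ℂ)
      = meromorphicTrailingCoeffAt
      ((fun z : ℂ => G₂ (γ • ofComplex z)) * (fun z : ℂ => G₁ (ofComplex z))) (τ₀ : ℂ) := by
    rw [hprod]
  rw [hm1'.meromorphicTrailingCoeffAt_mul hm2, hm2'.meromorphicTrailingCoeffAt_mul hm1,
    ht1, ht2] at h9
  have h10 : ((η ^ 2)⁻¹) ^ (ordAt G₁ τ₀).toNat = ((η ^ 2)⁻¹) ^ (ordAt G₂ τ₀).toNat := by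
    have h11 : ((η ^ 2)⁻¹) ^ (ordAt G₁ τ₀).toNat
        * (meromorphicTrailingCoeffAt (fun z : ℂ => G₁ (ofComplex z)) (τ₀ : ℂ)
          * meromorphicTrailingCoeffAt (fun z : ℂ => G₂ (ofComplex z)) (τ₀ : ℂ))
        = ((η ^ 2)⁻¹) ^ (ordAt G₂ τ₀).toNat
        * (meromorphicTrailingCoeffAt (fun z : ℂ => G₁ (ofComplex z)) (τ₀ : ℂ)
          * meromorphicTrailingCoeffAt (fun z : ℂ => G₂ (ofComplex z)) (τ₀ : ℂ)) := by
      linear_combination h9
    exact mul_right_cancel₀ (mul_ne_zero hn1 hn2) h11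
  rw [inv_pow, inv_pow, inv_inj, ← pow_mul, ← pow_mul] at h10
  exact h10

/-- invariance under `T ^ N` gives periodicity of the function on `ℂ`. -/
theorem periodic_comp_ofComplex_of_T {g : ℍ → ℂ} (N : ℕ)
    (hper : ∀ τ : ℍ, g (ModularGroup.T ^ (N : ℤ) • τ) = g τ) :
    Function.Periodic (g ∘ ofComplex) ((N : ℝ) : ℂ) := by
  intro w
  by_cases hw : 0 < w.im
  · have hw' : 0 < (w + ((N : ℝ) : ℂ)).im := by simpa using hw
    simp only [Function.comp_apply, ofComplex_apply_of_im_pos hw', ofComplex_apply_of_im_pos hw]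
    rw [← hper ⟨w, hw⟩]
    congr 1
    apply UpperHalfPlane.ext
    rw [UpperHalfPlane.modular_T_zpow_smul]
    simp [add_comm]
  · have hw0 : w.im ≤ 0 := not_lt.mp hw
    have hw' : (w + ((N : ℝ) : ℂ)).im ≤ 0 := by simpa using hw0
    show g (ofComplex (w + ((N : ℝ) : ℂ))) = g (ofComplex w)
    rw [ofComplex_apply_of_im_nonpos hw', ofComplex_apply_of_im_nonpos hw0]

/-- a holomorphic function on `ℍ`, bounded at `i∞` and invariant under `T ^ d` with `d ∣ N`, has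
an expansion in `q ^ (1 / N)` whose support consists of multiples of `N / d`. -/
theorem exists_laurentExp_of_periodic (N : ℕ) [NeZero N] {g : ℍ → ℂ} (hg : MDiff g)
    (hbdd : IsBoundedAtImInfty g) (d : ℕ) (hd : d ∣ N)
    (hper : ∀ τ : ℍ, g (ModularGroup.T ^ (d : ℤ) • τ) = g τ) :
    ∃ s : LaurentSeries ℂ, HasLaurentExp N g s ∧ ∀ n : ℤ, s.coeff n ≠ 0 → (N : ℤ) ∣ d * n := by
  have hNpos : (0 : ℝ) < N := Nat.cast_pos.mpr (Nat.pos_of_ne_zero (NeZero.ne N))
  -- periodicity with period `N`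
  have hpow : ∀ (k : ℕ) (τ : ℍ), g ((ModularGroup.T ^ (d : ℤ)) ^ k • τ) = g τ := by
    intro k
    induction k with
    | zero => intro τ; rw [pow_zero, one_smul]
    | succ k ih => intro τ; rw [pow_succ, mul_smul, ih, hper]
  have hperN : ∀ τ : ℍ, g (ModularGroup.T ^ (N : ℤ) • τ) = g τ := by
    intro τ
    obtain ⟨e, he⟩ := hd
    have h1 : ModularGroup.T ^ (N : ℤ) = (ModularGroup.T ^ (d : ℤ)) ^ e := by
      rw [← zpow_natCast, ← zpow_mul, he]
      push_cast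
      rfl
    rw [h1, hpow]
  have hP := periodic_comp_ofComplex_of_T N hperN
  refine ⟨HahnSeries.ofPowerSeries ℤ ℂ (qExpansion (N : ℝ) g), ?_, ?_⟩
  · refine QLaurent.hasLaurentExp_of_hasSum (M := 0) (fun n hn => ?_) (fun τ => ?_)
    · rw [PowerSeries.coeff_coe, if_pos (by simpa using hn)]
    · have h := hasSum_qExpansion hNpos hP hg hbdd τ
      have hfun : (fun n : ℕ => (HahnSeries.ofPowerSeries ℤ ℂ (qExpansion (N : ℝ) g)).coeff
          ((n : ℤ) - (0 : ℕ)) * qN N τ ^ n)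
          = fun m : ℕ => (qExpansion (N : ℝ) g).coeff m • Function.Periodic.qParam (N : ℝ) τ ^ m := by
        funext n
        rw [Nat.cast_zero, sub_zero, HahnSeries.ofPowerSeries_apply_coeff, smul_eq_mul]
        rfl
      rw [hfun, pow_zero, one_mul]
      exact h
  · intro n hn
    have hexp : HasLaurentExp N g (HahnSeries.ofPowerSeries ℤ ℂ (qExpansion (N : ℝ) g)) := by
      refine QLaurent.hasLaurentExp_of_hasSum (M := 0) (fun n hn => ?_) (fun τ => ?_)
      · rw [PowerSeries.coeff_coe, if_pos (by simpa using hn)]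
      · have h := hasSum_qExpansion hNpos hP hg hbdd τ
        have hfun : (fun n : ℕ => (HahnSeries.ofPowerSeries ℤ ℂ (qExpansion (N : ℝ) g)).coeff
            ((n : ℤ) - (0 : ℕ)) * qN N τ ^ n)
            = fun m : ℕ => (qExpansion (N : ℝ) g).coeff m
              • Function.Periodic.qParam (N : ℝ) τ ^ m := by
          funext n
          rw [Nat.cast_zero, sub_zero, HahnSeries.ofPowerSeries_apply_coeff, smul_eq_mul]
          rfl
        rw [hfun, pow_zero, one_mul]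
        exact h
    have h := QLaurent.HasLaurentExp.comp_T_zpow hexp (d : ℤ)
    have hfun : (fun τ => g (ModularGroup.T ^ (d : ℤ) • τ)) = g := funext hper
    rw [hfun] at h
    have hu := QLaurent.HasLaurentExp.unique hexp h
    have hc := congrArg (fun x : LaurentSeries ℂ => x.coeff n) hu
    simp only [substSeries_coeff, Nat.cast_one, one_dvd, if_true, Int.ediv_one] at hc
    have hz : Complex.exp (2 * Real.pi * Complex.I * (d : ℤ) / N) ^ n = 1 := by
      have h3 : (HahnSeries.ofPowerSeries ℤ ℂ (qExpansion (N : ℝ) g)).coeff n * 1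
          = (HahnSeries.ofPowerSeries ℤ ℂ (qExpansion (N : ℝ) g)).coeff n
            * Complex.exp (2 * Real.pi * Complex.I * (d : ℤ) / N) ^ n := by
        rw [mul_one]; exact hc
      exact (mul_left_cancel₀ hn h3).symm
    rw [← Complex.exp_int_mul, Complex.exp_eq_one_iff] at hz
    obtain ⟨m, hm⟩ := hz
    have hN : (N : ℂ) ≠ 0 := Nat.cast_ne_zero.mpr (NeZero.ne N)
    have h2pi : (2 * Real.pi * Complex.I : ℂ) ≠ 0 := Complex.two_pi_I_ne_zero
    have h4 : (((d : ℤ) * n : ℤ) : ℂ) = ((m * N : ℤ) : ℂ) := by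
      push_cast
      field_simp at hm
      push_cast at hm
      linear_combination hm
    have h5 : (d : ℤ) * n = m * N := by exact_mod_cast h4
    exact ⟨m, by rw [h5, mul_comm]⟩

end Fermat.Agent.S29.KumDivLoc
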