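import Mathlib
import Fermat.Agent.S29_BDefs
import Fermat.Agent.S24_Main
import Fermat.Agent.S29_KumDivAlg
import Fermat.Agent.S29_KumDivLoc

/-!
# S29 (B3): the divisor of a Kummer function is divisible by `p`

`pdiv_of_isKum`: if `h ∈ FC N` is a Kummer function of an admissible character `χ`
(`h = E₁ ^ p / E₂ ^ p` with twisted weight-4 forms `E₁`, `E₂`), then `p ∣ ord_v h` at every place
`v` of the function field of `X₀(N)` over `ℂ`.

Every place is induced by a conjugate of a point valuation or of the cusp valuation of the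
modular tower (`KumDivAlg.exists_conj_val`), with ramification index `e` equal to the order of
the stabilizer in `Γ₀(N)`; the orders of `E₁ ∘ γ` and `E₂ ∘ γ` differ by a multiple of `e` because
`χ` kills elliptic and parabolic elements (`KumDivLoc`).
-/

set_option autoImplicit false
set_option linter.style.haveILetI false

noncomputable section

open UpperHalfPlane ModularCurve CongruenceSubgroup AlgebraicCurve
open scoped MatrixGroups Manifold ModularForm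

namespace Fermat.Agent.S29.KumDiv

open Fermat.Agent.S24 Fermat.Agent.S24.Tower Fermat.Agent.S24.PointOrd

variable (N : ℕ) [NeZero N]

/-- the algebra structure `FC N → ModField ℂ N` given by `phiC`. -/
@[reducible] def algPhi : Algebra (FC N) (ModField ℂ N) := (phiC N).toRingHom.toAlgebra

theorem isScalarTower_phi :
    letI := algPhi N
    IsScalarTower ℂ (FC N) (ModField ℂ N) :=
  letI := algPhi N
  IsScalarTower.of_algebraMap_eq (fun c => ((phiC N).commutes c).symm)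

/-- a point over `j = x₀`, a generator of its stabilizer, and the order of `j - x₀`. -/
theorem exists_point (x₀ : ℂ) :
    ∃ (τ₀ : ℍ) (c : SL(2, ℤ)) (E : ℕ), JAnalytic.jA τ₀ = x₀ ∧ c • τ₀ = τ₀ ∧
      analyticOrderAt (fun z : ℂ => JAnalytic.jA (ofComplex z) - JAnalytic.jA τ₀) (τ₀ : ℂ) = E ∧
      ((E = 1 ∧ c = 1) ∨ (E = 2 ∧ c = ModularGroup.S) ∨
        (E = 3 ∧ c = ModularGroup.S * ModularGroup.T)) := by
  by_cases h1728 : x₀ = 1728
  · obtain ⟨τ₀, hS, hj, hord⟩ := JAnalytic.exists_fixed_S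
    refine ⟨τ₀, ModularGroup.S, 2, by rw [hj, h1728], hS, ?_, Or.inr (Or.inl ⟨rfl, rfl⟩)⟩
    rw [hj, hord]
    rfl
  by_cases h0 : x₀ = 0
  · obtain ⟨τ₀, hST, hj, hord⟩ := JAnalytic.exists_fixed_ST
    refine ⟨τ₀, ModularGroup.S * ModularGroup.T, 3, by rw [hj, h0], hST, ?_,
      Or.inr (Or.inr ⟨rfl, rfl⟩)⟩
    rw [hj]
    simp only [sub_zero]
    rw [hord]
    rfl
  · obtain ⟨τ₀, hτ₀⟩ := JAnalytic.jA_surjective x₀
    refine ⟨τ₀, 1, 1, hτ₀, one_smul _ _, ?_, Or.inl ⟨rfl, rfl⟩⟩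
    rw [JAnalytic.analyticOrderAt_jA_sub τ₀ (by rw [hτ₀]; exact h0) (by rw [hτ₀]; exact h1728)]
    rfl

/-- the hypotheses of the Galois machinery for the tower over `ℂ`. -/
theorem tower_facts :
    letI := algPhi N
    Transcendental ℂ (jGen ℂ N) ∧
    algebraMap (FC N) (ModField ℂ N) (jGen ℂ N) = jField ℂ N ∧
    (∀ y : ModField ℂ N, (∀ γ : SL(2, ℤ), γ • y = y) →
      y ∈ IntermediateField.adjoin ℂ {algebraMap (FC N) (ModField ℂ N) (jGen ℂ N)}) ∧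
    (∀ γ : SL(2, ℤ), γ • algebraMap (FC N) (ModField ℂ N) (jGen ℂ N)
      = algebraMap (FC N) (ModField ℂ N) (jGen ℂ N)) ∧
    (∃ Γ₀ : Subgroup SL(2, ℤ), Γ₀.FiniteIndex ∧ ∀ γ ∈ Γ₀, ∀ y : ModField ℂ N, γ • y = y) ∧
    (∀ γ : SL(2, ℤ), γ ∈ Gamma0 N ↔
      ∀ f : FC N, γ • algebraMap (FC N) (ModField ℂ N) f = algebraMap (FC N) (ModField ℂ N) f) := by
  letI := algPhi N
  have hj : phiC N (jGen ℂ N) = jField ℂ N :=
    funcFieldMap_eq_jD (phiC N) (phiC_spec N) (jGen ℂ N) 1 (one_dvd N)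
      (by rw [qExpand_one_apply]; rfl)
  refine ⟨transcendental_jGen ℂ N, hj, ?_, ?_, ?_, ?_⟩
  · intro y hy
    show y ∈ IntermediateField.adjoin ℂ {phiC N (jGen ℂ N)}
    rw [hj]
    exact mem_adjoin_jField_of_invariant ℂ N y hy
  · intro γ
    show γ • phiC N (jGen ℂ N) = phiC N (jGen ℂ N)
    rw [hj, smul_jField]
  · exact ⟨Gamma N, inferInstance, fun γ hγ y => smul_field_eq_of_mem_Gamma hγ y⟩
  · intro γ
    exact funcFieldMap_smul_iff (phiC N) (phiC_spec N) γ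

/-- transport of the fraction `phiC f = a / b` by `γ⁻¹`. -/
theorem val_fraction (w : IntVal ℂ (ModField ℂ N)) (γ : SL(2, ℤ)) (f : FC N)
    (a b : modRing ℂ N) (ha : a ≠ 0) (hb : b ≠ 0)
    (hab : phiC N f * algebraMap (modRing ℂ N) (ModField ℂ N) b
      = algebraMap (modRing ℂ N) (ModField ℂ N) a) :
    γ⁻¹ • a ≠ 0 ∧ γ⁻¹ • b ≠ 0 ∧
    w.toFun (algebraMap (modRing ℂ N) (ModField ℂ N) (γ⁻¹ • a))
      - w.toFun (algebraMap (modRing ℂ N) (ModField ℂ N) (γ⁻¹ • b))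
      = w.toFun (γ⁻¹ • phiC N f) := by
  have hinj : Function.Injective (algebraMap (modRing ℂ N) (ModField ℂ N)) :=
    IsFractionRing.injective _ _
  have ha' : γ⁻¹ • a ≠ 0 := by rwa [Ne, smul_eq_zero_iff_eq]
  have hb' : γ⁻¹ • b ≠ 0 := by rwa [Ne, smul_eq_zero_iff_eq]
  have h2 : γ⁻¹ • phiC N f * algebraMap (modRing ℂ N) (ModField ℂ N) (γ⁻¹ • b)
      = algebraMap (modRing ℂ N) (ModField ℂ N) (γ⁻¹ • a) := by
    rw [← smul_algebraMap_field, ← smul_algebraMap_field, ← smul_mul', hab]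
  have hbL : algebraMap (modRing ℂ N) (ModField ℂ N) (γ⁻¹ • b) ≠ 0 :=
    (map_ne_zero_iff _ hinj).mpr hb'
  have haL : algebraMap (modRing ℂ N) (ModField ℂ N) (γ⁻¹ • a) ≠ 0 :=
    (map_ne_zero_iff _ hinj).mpr ha'
  have hfL : γ⁻¹ • phiC N f ≠ 0 := by
    intro h0
    rw [h0, zero_mul] at h2
    exact haL h2.symm
  have h3 := w.map_mul' _ _ hfL hbL
  rw [h2] at h3
  refine ⟨ha', hb', ?_⟩
  omega

/-- every place over a finite point of the `j`-line is induced by a conjugate of a point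
valuation, with ramification index the order of the stabilizer in `Γ₀(N)`. -/
theorem exists_point_datum (v : Place ℂ (FC N)) (x₀ : ℂ)
    (hv : v ∈ PlacesAt ℂ (jGen ℂ N) x₀) :
    ∃ (γ : SL(2, ℤ)) (τ₀ : ℍ) (e : ℕ), 0 < e ∧
      (e = 1 ∨ (e = 2 ∧ ModularGroup.S • τ₀ = τ₀ ∧ γ * ModularGroup.S * γ⁻¹ ∈ Gamma0 N) ∨
        (e = 3 ∧ (ModularGroup.S * ModularGroup.T) • τ₀ = τ₀ ∧
          γ * (ModularGroup.S * ModularGroup.T) * γ⁻¹ ∈ Gamma0 N)) ∧
      ∀ (f : FC N) (a b : modRing ℂ N), a ≠ 0 → b ≠ 0 →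
        phiC N f * algebraMap (modRing ℂ N) (ModField ℂ N) b
          = algebraMap (modRing ℂ N) (ModField ℂ N) a →
        ((ordAt (fun τ => (a : ℍ → ℂ) (γ • τ)) τ₀).toNat : ℤ)
          - ((ordAt (fun τ => (b : ℍ → ℂ) (γ • τ)) τ₀).toNat : ℤ) = e * v.ord f := by
  letI := algPhi N
  haveI := isScalarTower_phi N
  obtain ⟨hx, hj, hfix, hxfix, hker, hH⟩ := tower_facts N
  obtain ⟨τ₀, c, E, hτ₀, hcτ, hordj, hcase⟩ := exists_point x₀
  obtain ⟨w, hw, hinv⟩ := exists_intVal_point ℂ N τ₀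
  have hEpos : 0 < E := by
    rcases hcase with ⟨hE, -⟩ | ⟨hE, -⟩ | ⟨hE, -⟩ <;> omega
  -- the value at `j - x₀`
  have hwE : w.toFun (algebraMap (FC N) (ModField ℂ N) (jGen ℂ N)
      - algebraMap ℂ (ModField ℂ N) x₀) = E := by
    have hordE : ordAt ((jMod ℂ N - algebraMap ℂ (modRing ℂ N) x₀ : modRing ℂ N) : ℍ → ℂ) τ₀
        = E := by
      rw [val_coe_jMod_sub]
      have h1 : algebraMap ℂ ℂ x₀ = JAnalytic.jA τ₀ := by rw [hτ₀]; rfl
      rw [h1]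
      exact hordj
    have hne : jMod ℂ N - algebraMap ℂ (modRing ℂ N) x₀ ≠ 0 := by
      intro h0
      rw [h0] at hordE
      have htop : ordAt ((0 : modRing ℂ N) : ℍ → ℂ) τ₀ = ⊤ := by
        show analyticOrderAt (fun z : ℂ => (0 : ℂ)) (τ₀ : ℂ) = ⊤
        rw [analyticOrderAt_eq_top]
        exact Filter.Eventually.of_forall fun _ => rfl
      rw [htop] at hordE
      exact ENat.top_ne_natCast E hordE
    rw [hj, val_jField_sub_algebraMap, hw _ hne, hordE]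
    rfl
  -- the stabilizer acts faithfully enough
  have hord : (∀ k : ℕ, 0 < k → k < E → ∃ y : ModField ℂ N, c ^ k • y ≠ y) ∨
      (∀ γ : SL(2, ℤ), γ ∈ Gamma0 N) := by
    by_cases hN : N = 1
    · right
      intro γ
      rw [Gamma0_mem]
      haveI : Subsingleton (ZMod N) := by
        rw [hN]
        infer_instance
      exact Subsingleton.elim _ _
    · left
      intro k hk hkE
      have key : ∀ δ : SL(2, ℤ), δ ∉ Gamma0 N → ∃ y : ModField ℂ N, δ • y ≠ y := by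
        intro δ hδ
        rw [hH] at hδ
        push Not at hδ
        obtain ⟨f, hf⟩ := hδ
        exact ⟨_, hf⟩
      rcases hcase with ⟨hE, hc⟩ | ⟨hE, hc⟩ | ⟨hE, hc⟩
      · omega
      · have hk1 : k = 1 := by omega
        subst hk1
        rw [pow_one, hc]
        exact key _ (S_notMem_Gamma0 N hN)
      · have hk1 : k = 1 ∨ k = 2 := by omega
        rcases hk1 with rfl | rfl
        · rw [pow_one, hc]
          exact key _ (ST_notMem_Gamma0 N hN)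
        · rw [hc]
          exact key _ (ST_sq_notMem_Gamma0 N hN)
  obtain ⟨γ, e, he, hdvd, hmem, hval⟩ := KumDivAlg.exists_conj_val (jGen ℂ N) hx hfix hxfix
    hker (Gamma0 N) hH x₀ w E hEpos hwE c (hinv c hcτ) hord v hv
  refine ⟨γ, τ₀, e, he, ?_, ?_⟩
  · rcases hcase with ⟨hE, hc⟩ | ⟨hE, hc⟩ | ⟨hE, hc⟩
    · left
      rw [hE] at hdvd
      exact Nat.dvd_one.mp hdvd
    · rw [hE] at hdvd hmem
      rcases (Nat.dvd_prime Nat.prime_two).mp hdvd with h1 | h2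
      · exact Or.inl h1
      · right; left
        rw [h2, Nat.div_self (by norm_num), pow_one, hc] at hmem
        exact ⟨h2, hc ▸ hcτ, hmem⟩
    · rw [hE] at hdvd hmem
      rcases (Nat.dvd_prime Nat.prime_three).mp hdvd with h1 | h3
      · exact Or.inl h1
      · right; right
        rw [h3, Nat.div_self (by norm_num), pow_one, hc] at hmem
        exact ⟨h3, hc ▸ hcτ, hmem⟩
  · intro f a b ha hb hab
    obtain ⟨ha', hb', h3⟩ := val_fraction N w γ f a b ha hb hab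
    have hf : f ≠ 0 := by
      intro h0
      rw [h0, map_zero, zero_mul] at hab
      exact ha (IsFractionRing.injective (modRing ℂ N) (ModField ℂ N)
        (hab.symm.trans (map_zero _).symm))
    have h1 : w.toFun (γ⁻¹ • phiC N f) = e * v.ord f := hval f hf
    rw [hw _ ha', hw _ hb'] at h3
    have hfun : ∀ a : modRing ℂ N, ((γ⁻¹ • a : modRing ℂ N) : ℍ → ℂ)
        = fun τ => (a : ℍ → ℂ) (γ • τ) := by
      intro a
      funext τ
      rw [Tower.smul_apply, inv_inv]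
    rw [hfun, hfun] at h3
    rw [h3, h1]

/-- every pole of `j` is induced by a conjugate of the cusp valuation, with ramification index
`e = N / d`, where `γ T ^ d γ⁻¹ ∈ Γ₀(N)`. -/
theorem exists_cusp_datum (v : Place ℂ (FC N)) (hv : v.ord (jGen ℂ N) < 0) :
    ∃ (γ : SL(2, ℤ)) (e d : ℕ), 0 < e ∧ N = e * d ∧
      γ * ModularGroup.T ^ d * γ⁻¹ ∈ Gamma0 N ∧
      ∀ (f : FC N) (a b : modRing ℂ N), a ≠ 0 → b ≠ 0 →
        phiC N f * algebraMap (modRing ℂ N) (ModField ℂ N) b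
          = algebraMap (modRing ℂ N) (ModField ℂ N) a →
        (expRing ℂ N (γ⁻¹ • a)).order - (expRing ℂ N (γ⁻¹ • b)).order = e * v.ord f := by
  letI := algPhi N
  haveI := isScalarTower_phi N
  obtain ⟨hx, hj, hfix, hxfix, hker, hH⟩ := tower_facts N
  obtain ⟨w, hw, hwT⟩ := exists_intVal_cusp ℂ N
  have hNpos : 0 < N := Nat.pos_of_ne_zero (NeZero.ne N)
  have hv' : v ∈ PlacesAt ℂ (jGen ℂ N)⁻¹ 0 := by
    rw [Places.placesAt_inv_zero]
    exact hv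
  have hordj : (expRing ℂ N (jMod ℂ N)).order = -(N : ℤ) := by
    rw [expRing_jMod, JFormal.order_qExpand_jq]
  have hjne : jMod ℂ N ≠ 0 := by
    intro h0
    rw [h0, map_zero, HahnSeries.order_zero] at hordj
    have : (N : ℤ) ≠ 0 := Nat.cast_ne_zero.mpr (NeZero.ne N)
    omega
  have hj0 : jField ℂ N ≠ 0 := by
    rw [jField]
    exact (map_ne_zero_iff _ (IsFractionRing.injective (modRing ℂ N) (ModField ℂ N))).mpr hjne
  have hwE : w.toFun (algebraMap (FC N) (ModField ℂ N) (jGen ℂ N)⁻¹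
      - algebraMap ℂ (ModField ℂ N) 0) = N := by
    rw [map_zero, sub_zero, map_inv₀, hj, KumDivAlg.intVal_inv w hj0, jField, hw _ hjne, hordj,
      neg_neg]
  have hord : ∀ k : ℕ, 0 < k → k < N → ∃ y : ModField ℂ N, ModularGroup.T ^ k • y ≠ y := by
    intro k hk hkN
    by_contra hcon
    push Not at hcon
    have := Nat.le_of_dvd hk (dvd_of_T_pow_smul ℂ N k hcon)
    omega
  obtain ⟨γ, e, he, hdvd, hmem, hval⟩ := KumDivAlg.exists_conj_val (jGen ℂ N)⁻¹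
    (Places.transcendental_inv hx)
    (fun y hy => by
      rw [map_inv₀, adjoin_inv_eq]
      exact hfix y hy)
    (fun γ => by rw [map_inv₀, smul_inv'', hxfix])
    hker (Gamma0 N) hH 0 w N hNpos hwE ModularGroup.T hwT (Or.inl hord) v hv'
  refine ⟨γ, e, N / e, he, (Nat.mul_div_cancel' hdvd).symm, hmem, ?_⟩
  intro f a b ha hb hab
  obtain ⟨ha', hb', h3⟩ := val_fraction N w γ f a b ha hb hab
  have hf : f ≠ 0 := by
    intro h0
    rw [h0, map_zero, zero_mul] at hab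
    exact ha (IsFractionRing.injective (modRing ℂ N) (ModField ℂ N)
      (hab.symm.trans (map_zero _).symm))
  have h1 : w.toFun (γ⁻¹ • phiC N f) = e * v.ord f := hval f hf
  rw [hw _ ha', hw _ hb'] at h3
  rw [h3, h1]

/-! ### analytic lemmas -/

omit [NeZero N] in
/-- orders at a point of the two sides of `a * G₂ ^ p = b * G₁ ^ p`. -/
theorem ord_rel {a b G₁ G₂ : ℍ → ℂ} (ha : MDiff a) (hb : MDiff b) (h₁ : MDiff G₁)
    (h₂ : MDiff G₂) (ha0 : a ≠ 0) (hb0 : b ≠ 0) (h₁0 : G₁ ≠ 0) (h₂0 : G₂ ≠ 0) (p : ℕ)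
    (hrel : ∀ τ, a τ * G₂ τ ^ p = b τ * G₁ τ ^ p) (τ₀ : ℍ) :
    ((ordAt a τ₀).toNat : ℤ) - (ordAt b τ₀).toNat
      = p * (((ordAt G₁ τ₀).toNat : ℤ) - (ordAt G₂ τ₀).toNat) := by
  have hfun : (fun z : ℂ => a (ofComplex z)) * (fun z : ℂ => G₂ (ofComplex z)) ^ p
      = (fun z : ℂ => b (ofComplex z)) * (fun z : ℂ => G₁ (ofComplex z)) ^ p := by
    funext z
    exact hrel (ofComplex z)
  have h : analyticOrderAt
      ((fun z : ℂ => a (ofComplex z)) * (fun z : ℂ => G₂ (ofComplex z)) ^ p) (τ₀ : ℂ)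
      = analyticOrderAt
      ((fun z : ℂ => b (ofComplex z)) * (fun z : ℂ => G₁ (ofComplex z)) ^ p) (τ₀ : ℂ) := by
    rw [hfun]
  rw [analyticOrderAt_mul (analyticAt_comp_ofComplex ha τ₀)
      ((analyticAt_comp_ofComplex h₂ τ₀).pow p),
    analyticOrderAt_mul (analyticAt_comp_ofComplex hb τ₀)
      ((analyticAt_comp_ofComplex h₁ τ₀).pow p),
    analyticOrderAt_pow (analyticAt_comp_ofComplex h₂ τ₀),
    analyticOrderAt_pow (analyticAt_comp_ofComplex h₁ τ₀)] at h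
  have hA : analyticOrderAt (fun z : ℂ => a (ofComplex z)) (τ₀ : ℂ) = ((ordAt a τ₀).toNat : ℕ∞) :=
    (ENat.natCast_toNat (ordAt_ne_top ha ha0 τ₀)).symm
  have hB : analyticOrderAt (fun z : ℂ => b (ofComplex z)) (τ₀ : ℂ) = ((ordAt b τ₀).toNat : ℕ∞) :=
    (ENat.natCast_toNat (ordAt_ne_top hb hb0 τ₀)).symm
  have h1 : analyticOrderAt (fun z : ℂ => G₁ (ofComplex z)) (τ₀ : ℂ)
      = ((ordAt G₁ τ₀).toNat : ℕ∞) := (ENat.natCast_toNat (ordAt_ne_top h₁ h₁0 τ₀)).symm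
  have h2 : analyticOrderAt (fun z : ℂ => G₂ (ofComplex z)) (τ₀ : ℂ)
      = ((ordAt G₂ τ₀).toNat : ℕ∞) := (ENat.natCast_toNat (ordAt_ne_top h₂ h₂0 τ₀)).symm
  rw [hA, hB, h1, h2] at h
  have h' : (ordAt a τ₀).toNat + p * (ordAt G₂ τ₀).toNat
      = (ordAt b τ₀).toNat + p * (ordAt G₁ τ₀).toNat := by
    have h3 : (((ordAt a τ₀).toNat + p * (ordAt G₂ τ₀).toNat : ℕ) : ℕ∞)
        = (((ordAt b τ₀).toNat + p * (ordAt G₁ τ₀).toNat : ℕ) : ℕ∞) := by
      push_cast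
      simpa [nsmul_eq_mul] using h
    exact_mod_cast h3
  have h'' : (((ordAt a τ₀).toNat : ℤ)) + p * (ordAt G₂ τ₀).toNat
      = (ordAt b τ₀).toNat + p * (ordAt G₁ τ₀).toNat := by exact_mod_cast h'
  linarith

theorem hasLaurentExp_pow {g : ℍ → ℂ} {s : LaurentSeries ℂ} (hg : HasLaurentExp N g s)
    (n : ℕ) : HasLaurentExp N (g ^ n) (s ^ n) := by
  induction n with
  | zero =>
    have h := QLaurent.hasLaurentExp_const (N := N) (1 : ℂ)
    rw [map_one] at h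
    rw [pow_zero, pow_zero]
    exact h
  | succ n ih =>
    rw [pow_succ, pow_succ]
    exact QLaurent.HasLaurentExp.mul ih hg

/-- orders at `i∞` of the two sides of `a * g₂ ^ p = b * g₁ ^ p`. -/
theorem exp_rel {a b g₁ g₂ : ℍ → ℂ} {sa sb s₁ s₂ : LaurentSeries ℂ}
    (ha : HasLaurentExp N a sa) (hb : HasLaurentExp N b sb) (h₁ : HasLaurentExp N g₁ s₁)
    (h₂ : HasLaurentExp N g₂ s₂) (ha0 : sa ≠ 0) (hb0 : sb ≠ 0) (h₁0 : s₁ ≠ 0) (h₂0 : s₂ ≠ 0)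
    (p : ℕ) (hrel : ∀ τ, a τ * g₂ τ ^ p = b τ * g₁ τ ^ p) :
    sa.order - sb.order = p * (s₁.order - s₂.order) := by
  have hfun : a * g₂ ^ p = b * g₁ ^ p := funext hrel
  have hl := QLaurent.HasLaurentExp.mul ha (hasLaurentExp_pow N h₂ p)
  have hr := QLaurent.HasLaurentExp.mul hb (hasLaurentExp_pow N h₁ p)
  rw [hfun] at hl
  have hu := QLaurent.HasLaurentExp.unique hl hr
  have h := congrArg HahnSeries.order hu
  rw [HahnSeries.order_mul ha0 (pow_ne_zero p h₂0), HahnSeries.order_mul hb0 (pow_ne_zero p h₁0),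
    HahnSeries.order_pow, HahnSeries.order_pow] at h
  simp only [nsmul_eq_mul] at h
  linarith

/-- the trace is invariant under conjugation. -/
theorem trace_conj (γ c : SL(2, ℤ)) :
    (γ * c * γ⁻¹ : SL(2, ℤ)) 0 0 + (γ * c * γ⁻¹ : SL(2, ℤ)) 1 1 = c 0 0 + c 1 1 := by
  rw [← Matrix.trace_fin_two, ← Matrix.trace_fin_two, Matrix.SpecialLinearGroup.coe_mul,
    Matrix.SpecialLinearGroup.coe_mul, Matrix.trace_mul_comm, ← mul_assoc,
    ← Matrix.SpecialLinearGroup.coe_mul, inv_mul_cancel, Matrix.SpecialLinearGroup.coe_one,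
    one_mul]

/-- exponents with the same power of a primitive root of unity are congruent. -/
theorem dvd_sub_of_pow_eq {ζ : ℂ} {E : ℕ} (hE : 0 < E) (hζ : IsPrimitiveRoot ζ E) {n₁ n₂ : ℕ}
    (h : ζ ^ n₁ = ζ ^ n₂) : (E : ℤ) ∣ (n₁ : ℤ) - n₂ := by
  have hζ0 : ζ ≠ 0 := hζ.ne_zero hE.ne'
  rw [← hζ.zpow_eq_one_iff_dvd, zpow_sub₀ hζ0, zpow_natCast, zpow_natCast, h,
    div_self (pow_ne_zero _ hζ0)]

/-! ### twisted forms -/

omit [NeZero N] in
theorem zch_zero' (p : ℕ) : zch p 0 = 1 := by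
  simp [zch]

omit [NeZero N] in
theorem twisted_ne_zero {p : ℕ} {χ : Additive (Gamma0 N) →+ ZMod p} {E : ℍ → ℂ}
    (hE : IsTwisted N p χ E) : E ≠ 0 := by
  obtain ⟨τ, hτ⟩ := hE.ne
  intro h0
  exact hτ (by rw [h0]; rfl)

omit [NeZero N] in
/-- elements of `Γ₀(N)` of trace at most `2` in absolute value act on a twisted form of an
admissible character without character. -/
theorem twisted_smul {p : ℕ} {χ : Additive (Gamma0 N) →+ ZMod p} (hχ : IsAdm N p χ)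
    {E : ℍ → ℂ} (hE : IsTwisted N p χ E) (ε : SL(2, ℤ)) (hε : ε ∈ Gamma0 N)
    (htr : (ε 0 0 + ε 1 1) ^ 2 ≤ 4) (τ : ℍ) :
    E (ε • τ) = (((ε 1 0 : ℤ) : ℂ) * (τ : ℂ) + ((ε 1 1 : ℤ) : ℂ)) ^ 4 * E τ := by
  have h := hE.slash ⟨ε, hε⟩ τ
  rw [hχ ⟨ε, hε⟩ htr, zch_zero', one_mul] at h
  exact h

omit [NeZero N] in
/-- the two twisted forms have the same automorphy factor under an elliptic element of a
conjugate of `Γ₀(N)`. -/
theorem elliptic_case {p : ℕ} {χ : Additive (Gamma0 N) →+ ZMod p} (hχ : IsAdm N p χ)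
    {E₁ E₂ : ℍ → ℂ} (hE₁ : IsTwisted N p χ E₁) (hE₂ : IsTwisted N p 0 E₂) (γ c : SL(2, ℤ))
    (τ₀ : ℍ) (hcτ : c • τ₀ = τ₀) (hmem : γ * c * γ⁻¹ ∈ Gamma0 N)
    (htr : (c 0 0 + c 1 1) ^ 2 ≤ 4) :
    (((c 1 0 : ℤ) : ℂ) * (τ₀ : ℂ) + ((c 1 1 : ℤ) : ℂ))
        ^ (2 * (ordAt (fun τ => E₁ (γ • τ)) τ₀).toNat)
      = (((c 1 0 : ℤ) : ℂ) * (τ₀ : ℂ) + ((c 1 1 : ℤ) : ℂ))
        ^ (2 * (ordAt (fun τ => E₂ (γ • τ)) τ₀).toNat) := by
  have hγM := mdifferentiable_sl_smul γ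
  have htr' : ((γ * c * γ⁻¹ : SL(2, ℤ)) 0 0 + (γ * c * γ⁻¹ : SL(2, ℤ)) 1 1) ^ 2 ≤ 4 := by
    rw [trace_conj]
    exact htr
  have hεγ : ∀ τ : ℍ, γ • c • τ = (γ * c * γ⁻¹) • (γ • τ) := by
    intro τ
    rw [← mul_smul, ← mul_smul, inv_mul_cancel_right]
  have hne : ∀ {χ' : Additive (Gamma0 N) →+ ZMod p} {E : ℍ → ℂ}, IsTwisted N p χ' E →
      (fun τ => E (γ • τ)) ≠ 0 := by
    intro χ' E hE h0
    obtain ⟨τ, hτ⟩ := hE.ne
    apply hτ
    have := congrFun h0 (γ⁻¹ • τ)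
    simp only [smul_inv_smul] at this
    exact this
  refine KumDivLoc.elliptic_zpow_eq (G₁ := fun τ => E₁ (γ • τ)) (G₂ := fun τ => E₂ (γ • τ))
    (hE₁.mdiff.comp hγM) (hE₂.mdiff.comp hγM) (hne hE₁) (hne hE₂) c τ₀ hcτ (fun τ => ?_)
  show E₁ (γ • c • τ) * E₂ (γ • τ) = E₂ (γ • c • τ) * E₁ (γ • τ)
  rw [hεγ, twisted_smul N hχ hE₁ _ hmem htr', twisted_smul N (isAdm_zero N p) hE₂ _ hmem htr']
  ring

omit [NeZero N] in
/-- the order of the rotation at the fixed point of `S`. -/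
theorem dvd_of_S (τ₀ : ℍ) (hS : ModularGroup.S • τ₀ = τ₀) {n₁ n₂ : ℕ}
    (h : (((ModularGroup.S 1 0 : ℤ) : ℂ) * (τ₀ : ℂ) + ((ModularGroup.S 1 1 : ℤ) : ℂ)) ^ (2 * n₁)
      = (((ModularGroup.S 1 0 : ℤ) : ℂ) * (τ₀ : ℂ) + ((ModularGroup.S 1 1 : ℤ) : ℂ)) ^ (2 * n₂)) :
    ((2 : ℕ) : ℤ) ∣ (n₁ : ℤ) - n₂ := by
  have h10 : (ModularGroup.S 1 0 : ℤ) = 1 := by simp [ModularGroup.coe_S]
  have h11 : (ModularGroup.S 1 1 : ℤ) = 0 := by simp [ModularGroup.coe_S]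
  rw [h10, h11] at h
  simp only [Int.cast_one, one_mul, Int.cast_zero, add_zero] at h
  have hτ0 : (τ₀ : ℂ) ≠ 0 := τ₀.ne_zero
  have hsq : (τ₀ : ℂ) ^ 2 = -1 := by
    have h1 : ((ModularGroup.S • τ₀ : ℍ) : ℂ) = (τ₀ : ℂ) := by rw [hS]
    rw [UpperHalfPlane.modular_S_smul] at h1
    have h2 : (-(τ₀ : ℂ))⁻¹ = (τ₀ : ℂ) := h1
    have h3 : (-(τ₀ : ℂ)) * (-(τ₀ : ℂ))⁻¹ = 1 := mul_inv_cancel₀ (neg_ne_zero.mpr hτ0)
    rw [h2] at h3
    linear_combination -h3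
  rw [pow_mul, pow_mul, hsq] at h
  exact dvd_sub_of_pow_eq (by norm_num) (IsPrimitiveRoot.neg_one 0 (by norm_num)) h

omit [NeZero N] in
/-- the order of the rotation at the fixed point of `S T`. -/
theorem dvd_of_ST (τ₀ : ℍ) (hST : (ModularGroup.S * ModularGroup.T) • τ₀ = τ₀) {n₁ n₂ : ℕ}
    (h : ((((ModularGroup.S * ModularGroup.T : SL(2, ℤ)) 1 0 : ℤ) : ℂ) * (τ₀ : ℂ)
        + (((ModularGroup.S * ModularGroup.T : SL(2, ℤ)) 1 1 : ℤ) : ℂ)) ^ (2 * n₁)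
      = ((((ModularGroup.S * ModularGroup.T : SL(2, ℤ)) 1 0 : ℤ) : ℂ) * (τ₀ : ℂ)
        + (((ModularGroup.S * ModularGroup.T : SL(2, ℤ)) 1 1 : ℤ) : ℂ)) ^ (2 * n₂)) :
    ((3 : ℕ) : ℤ) ∣ (n₁ : ℤ) - n₂ := by
  have h10 : ((ModularGroup.S * ModularGroup.T : SL(2, ℤ)) 1 0 : ℤ) = 1 := by
    simp [ModularGroup.coe_S, ModularGroup.coe_T, Matrix.mul_apply, Fin.sum_univ_two]
  have h11 : ((ModularGroup.S * ModularGroup.T : SL(2, ℤ)) 1 1 : ℤ) = 1 := by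
    simp [ModularGroup.coe_S, ModularGroup.coe_T, Matrix.mul_apply, Fin.sum_univ_two]
  rw [h10, h11] at h
  simp only [Int.cast_one, one_mul] at h
  have hτ0 : (τ₀ : ℂ) ≠ 0 := τ₀.ne_zero
  -- `τ₀ ^ 2 + τ₀ + 1 = 0`
  have hquad : (τ₀ : ℂ) ^ 2 + (τ₀ : ℂ) + 1 = 0 := by
    have h1 : (((ModularGroup.S * ModularGroup.T) • τ₀ : ℍ) : ℂ) = (τ₀ : ℂ) := by rw [hST]
    rw [mul_smul, UpperHalfPlane.modular_S_smul, UpperHalfPlane.modular_T_smul] at h1
    have h2 : (-(((1 : ℝ) +ᵥ τ₀ : ℍ) : ℂ))⁻¹ = (τ₀ : ℂ) := h1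
    rw [UpperHalfPlane.coe_vadd] at h2
    have hne : -(((1 : ℝ) : ℂ) + (τ₀ : ℂ)) ≠ 0 := by
      intro h0
      rw [h0, inv_zero] at h2
      exact hτ0 h2.symm
    have h3 : (-(((1 : ℝ) : ℂ) + (τ₀ : ℂ))) * (-(((1 : ℝ) : ℂ) + (τ₀ : ℂ)))⁻¹ = 1 :=
      mul_inv_cancel₀ hne
    rw [h2] at h3
    push_cast at h3
    linear_combination -h3
  have hsq : ((τ₀ : ℂ) + 1) ^ 2 = (τ₀ : ℂ) := by linear_combination hquad
  have hcube : (τ₀ : ℂ) ^ 3 = 1 := by linear_combination ((τ₀ : ℂ) - 1) * hquad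
  have him : (τ₀ : ℂ).im ≠ 0 := τ₀.im_pos.ne'
  have hprim : IsPrimitiveRoot (τ₀ : ℂ) 3 := by
    refine IsPrimitiveRoot.mk_of_lt _ (by norm_num) hcube (fun l hl hl3 => ?_)
    have hl12 : l = 1 ∨ l = 2 := by omega
    rcases hl12 with rfl | rfl
    · intro h1
      rw [pow_one] at h1
      rw [h1] at him
      simp at him
    · intro h2
      have h3 : (τ₀ : ℂ) = -2 := by linear_combination hquad - h2
      rw [h3] at him
      simp at him
  rw [pow_mul, pow_mul, hsq] at h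
  exact dvd_sub_of_pow_eq (by norm_num) hprim h

omit [NeZero N] in
/-- a twisted form of an admissible character is slash-invariant under the elements of `Γ₀(N)` of
trace at most `2` in absolute value. -/
theorem slash_eq_self {p : ℕ} {χ : Additive (Gamma0 N) →+ ZMod p} (hχ : IsAdm N p χ)
    {E : ℍ → ℂ} (hE : IsTwisted N p χ E) (ε : SL(2, ℤ)) (hε : ε ∈ Gamma0 N)
    (htr : (ε 0 0 + ε 1 1) ^ 2 ≤ 4) : E ∣[(4 : ℤ)] ε = E := by
  funext τ
  have hd0 : denom ε τ ≠ 0 := denom_ne_zero ε τ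
  rw [ModularForm.SL_slash_apply, twisted_smul N hχ hE ε hε htr, ← ModularGroup.denom_apply,
    mul_comm, ← mul_assoc, zpow_neg, ← zpow_natCast (denom ε τ) 4]
  rw [show ((4 : ℕ) : ℤ) = 4 from rfl, inv_mul_cancel₀ (zpow_ne_zero 4 hd0), one_mul]

omit [NeZero N] in
theorem slash_T_apply (g : ℍ → ℂ) (A : SL(2, ℤ)) (n : ℤ) (hA : A = ModularGroup.T ^ n) (τ : ℍ) :
    (g ∣[(4 : ℤ)] A) τ = g (A • τ) := by
  have hden : denom A τ = 1 := by
    rw [ModularGroup.denom_apply, hA, ModularGroup.coe_T_zpow]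
    simp
  rw [ModularForm.SL_slash_apply, hden, one_zpow, mul_one]

/-- the expansion at `i∞` of a slash of a twisted form: it exists in `q ^ (1 / N)`, and its
order is divisible by the ramification index `e = N / d` when `γ T ^ d γ⁻¹ ∈ Γ₀(N)`. -/
theorem slash_facts {p : ℕ} {χ : Additive (Gamma0 N) →+ ZMod p} (hχ : IsAdm N p χ)
    {E : ℍ → ℂ} (hE : IsTwisted N p χ E) (γ : SL(2, ℤ)) (e d : ℕ) (hNed : N = e * d)
    (hmem : γ * ModularGroup.T ^ d * γ⁻¹ ∈ Gamma0 N) :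
    ∃ s : LaurentSeries ℂ, HasLaurentExp N (E ∣[(4 : ℤ)] γ) s ∧ s ≠ 0 ∧ (e : ℤ) ∣ s.order ∧
      ∀ τ : ℍ, E (γ • τ) = (E ∣[(4 : ℤ)] γ) τ * denom γ τ ^ 4 := by
  have hdpos : 0 < d := by
    rcases Nat.eq_zero_or_pos d with h0 | h0
    · rw [h0, mul_zero] at hNed
      exact absurd hNed (NeZero.ne N)
    · exact h0
  have hgM : MDiff (E ∣[(4 : ℤ)] γ) := hE.mdiff.slash 4 (γ : GL (Fin 2) ℝ)
  have hgb : IsBoundedAtImInfty (E ∣[(4 : ℤ)] γ) := hE.bdd γ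
  have hval : ∀ τ : ℍ, E (γ • τ) = (E ∣[(4 : ℤ)] γ) τ * denom γ τ ^ 4 := by
    intro τ
    have hd0 : denom γ τ ≠ 0 := denom_ne_zero γ τ
    rw [ModularForm.SL_slash_apply, mul_assoc, zpow_neg, ← zpow_natCast (denom γ τ) 4]
    rw [show ((4 : ℕ) : ℤ) = 4 from rfl, inv_mul_cancel₀ (zpow_ne_zero 4 hd0), mul_one]
  -- invariance under the parabolic element
  obtain ⟨A, hA⟩ : ∃ A : SL(2, ℤ), A = ModularGroup.T ^ (d : ℤ) := ⟨_, rfl⟩
  have hmemA : γ * A * γ⁻¹ ∈ Gamma0 N := by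
    rw [hA, zpow_natCast]
    exact hmem
  have htr : ((γ * A * γ⁻¹ : SL(2, ℤ)) 0 0 + (γ * A * γ⁻¹ : SL(2, ℤ)) 1 1) ^ 2 ≤ 4 := by
    rw [trace_conj, hA, ModularGroup.coe_T_zpow]
    simp
  have hslash : (E ∣[(4 : ℤ)] γ) ∣[(4 : ℤ)] A = E ∣[(4 : ℤ)] γ := by
    rw [← SlashAction.slash_mul]
    have h1 : γ * A = (γ * A * γ⁻¹) * γ := by
      rw [inv_mul_cancel_right]
    rw [h1, SlashAction.slash_mul, slash_eq_self N hχ hE _ hmemA htr]
  have hper : ∀ τ : ℍ, (E ∣[(4 : ℤ)] γ) (ModularGroup.T ^ (d : ℤ) • τ) = (E ∣[(4 : ℤ)] γ) τ := by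
    intro τ
    have h1 := congrFun hslash τ
    rw [slash_T_apply _ A d hA, hA] at h1
    exact h1
  obtain ⟨s, hs, hdiv⟩ := KumDivLoc.exists_laurentExp_of_periodic N hgM hgb d
    ⟨e, by rw [hNed, mul_comm]⟩ hper
  have hg0 : E ∣[(4 : ℤ)] γ ≠ 0 := by
    intro h0
    obtain ⟨τ, hτ⟩ := hE.ne
    apply hτ
    have h1 := hval (γ⁻¹ • τ)
    rw [smul_inv_smul, h0] at h1
    rw [h1]
    simp
  have hs0 : s ≠ 0 := fun h => hg0 ((QLaurent.HasLaurentExp.eq_zero_iff hs).mpr h)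
  refine ⟨s, hs, hs0, ?_, hval⟩
  have h2 := hdiv s.order (fun h0 => hs0 (HahnSeries.coeff_order_eq_zero.mp h0))
  rw [hNed] at h2
  push_cast at h2
  rw [mul_comm (e : ℤ) (d : ℤ)] at h2
  exact (mul_dvd_mul_iff_left (by exact_mod_cast hdpos.ne')).mp h2

/-- **(B3)** the divisor of a Kummer function is divisible by `p`. -/
theorem pdiv_of_isKum (N p : ℕ) [NeZero N] [Fact p.Prime]
    (χ : Additive (Gamma0 N) →+ ZMod p) (hχ : IsAdm N p χ) (h : FC N) (hk : IsKum N p χ h) :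
    IsPDiv ℂ (FC N) p h := by
  obtain ⟨E₁, E₂, hE₁, hE₂, a, b, hb, hab, hrel⟩ := hk
  simp only at hrel
  have hE₁0 : E₁ ≠ 0 := twisted_ne_zero N hE₁
  have hE₂0 : E₂ ≠ 0 := twisted_ne_zero N hE₂
  have hb0 : (b : ℍ → ℂ) ≠ 0 := val_coe_ne_zero_of_ne_zero hb
  -- `a ≠ 0`
  have ha : a ≠ 0 := by
    intro ha0
    have hfun : (b : ℍ → ℂ) * E₁ ^ p = 0 := by
      funext τ
      have := hrel τ
      rw [ha0] at this
      have h0 : ((0 : modRing ℂ N) : ℍ → ℂ) τ = 0 := rfl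
      rw [h0, zero_mul] at this
      exact this.symm
    have h1 : ordAt ((b : ℍ → ℂ) * E₁ ^ p) UpperHalfPlane.I = ⊤ := by
      rw [hfun]
      show analyticOrderAt (fun z : ℂ => (0 : ℂ)) _ = ⊤
      rw [analyticOrderAt_eq_top]
      exact Filter.Eventually.of_forall fun _ => rfl
    have h2 : ordAt ((b : ℍ → ℂ) * E₁ ^ p) UpperHalfPlane.I
        = ordAt (b : ℍ → ℂ) UpperHalfPlane.I + p • ordAt E₁ UpperHalfPlane.I := by
      show analyticOrderAt ((fun z : ℂ => (b : ℍ → ℂ) (ofComplex z))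
        * (fun z : ℂ => E₁ (ofComplex z)) ^ p) _ = _
      rw [analyticOrderAt_mul (analyticAt_comp_ofComplex b.2.1 _)
        ((analyticAt_comp_ofComplex hE₁.mdiff _).pow p),
        analyticOrderAt_pow (analyticAt_comp_ofComplex hE₁.mdiff _)]
      rfl
    rw [h2] at h1
    have h3 := ordAt_ne_top b.2.1 hb0 UpperHalfPlane.I
    have h4 := ordAt_ne_top hE₁.mdiff hE₁0 UpperHalfPlane.I
    rw [← ENat.natCast_toNat h3, ← ENat.natCast_toNat h4] at h1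
    have h5 : (((ordAt (b : ℍ → ℂ) UpperHalfPlane.I).toNat
        + p * (ordAt E₁ UpperHalfPlane.I).toNat : ℕ) : ℕ∞) = ⊤ := by
      push_cast
      simpa [nsmul_eq_mul] using h1
    exact ENat.natCast_ne_top _ h5
  have hh : h ≠ 0 := by
    intro h0
    rw [h0, map_zero, zero_mul] at hab
    exact ha (IsFractionRing.injective (modRing ℂ N) (ModField ℂ N)
      (hab.symm.trans (map_zero _).symm))
  refine ⟨hh, fun v => ?_⟩
  have hgen : IsGenerator ℂ (jGen ℂ N) := (modular_counts ℂ N).1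
  rcases Places.ord_neg_or_exists_center hgen v with hneg | ⟨x₀, hx₀⟩
  · -- a pole of `j`
    obtain ⟨γ, e, d, he, hNed, hmem, hval⟩ := exists_cusp_datum N v hneg
    have h1 := hval h a b ha hb hab
    obtain ⟨s₁, hs₁, hs₁0, hd₁, hv₁⟩ := slash_facts N hχ hE₁ γ e d hNed hmem
    obtain ⟨s₂, hs₂, hs₂0, hd₂, hv₂⟩ := slash_facts N (isAdm_zero N p) hE₂ γ e d hNed hmem
    have ha' : γ⁻¹ • a ≠ 0 := by rwa [Ne, smul_eq_zero_iff_eq]
    have hb' : γ⁻¹ • b ≠ 0 := by rwa [Ne, smul_eq_zero_iff_eq]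
    have hrel' : ∀ τ : ℍ, ((γ⁻¹ • a : modRing ℂ N) : ℍ → ℂ) τ * (E₂ ∣[(4 : ℤ)] γ) τ ^ p
        = ((γ⁻¹ • b : modRing ℂ N) : ℍ → ℂ) τ * (E₁ ∣[(4 : ℤ)] γ) τ ^ p := by
      intro τ
      have h0 := hrel (γ • τ)
      rw [Tower.smul_apply, Tower.smul_apply, inv_inv]
      rw [hv₁, hv₂, mul_pow, mul_pow, ← mul_assoc, ← mul_assoc] at h0
      exact mul_right_cancel₀ (pow_ne_zero p (pow_ne_zero 4 (denom_ne_zero γ τ))) h0
    have hca0 : cmap ℂ (expRing ℂ N (γ⁻¹ • a)) ≠ 0 :=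
      (map_ne_zero_iff _ (cmap_injective ℂ)).mpr
        ((map_ne_zero_iff _ (expRing_injective ℂ N)).mpr ha')
    have hcb0 : cmap ℂ (expRing ℂ N (γ⁻¹ • b)) ≠ 0 :=
      (map_ne_zero_iff _ (cmap_injective ℂ)).mpr
        ((map_ne_zero_iff _ (expRing_injective ℂ N)).mpr hb')
    have h2 := exp_rel N (hasLaurentExp_expRing (γ⁻¹ • a)) (hasLaurentExp_expRing (γ⁻¹ • b))
      hs₁ hs₂ hca0 hcb0 hs₁0 hs₂0 p hrel'
    have hca : (cmap ℂ (expRing ℂ N (γ⁻¹ • a))).order = (expRing ℂ N (γ⁻¹ • a)).order :=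
      val_order_eq_of_coeff_eq_zero_iff _ _ (fun k => by rw [coeffMap_coeff, map_eq_zero])
    have hcb : (cmap ℂ (expRing ℂ N (γ⁻¹ • b))).order = (expRing ℂ N (γ⁻¹ • b)).order :=
      val_order_eq_of_coeff_eq_zero_iff _ _ (fun k => by rw [coeffMap_coeff, map_eq_zero])
    obtain ⟨k₁, hk₁⟩ := hd₁
    obtain ⟨k₂, hk₂⟩ := hd₂
    refine ⟨k₁ - k₂, ?_⟩
    have h3 : (e : ℤ) * v.ord h = e * (p * (k₁ - k₂)) := by
      rw [← h1, ← hca, ← hcb, h2, hk₁, hk₂]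
      ring
    exact mul_left_cancel₀ (by exact_mod_cast he.ne') h3
  · -- a finite point of the `j`-line
    obtain ⟨γ, τ₀, e, he, hcase, hval⟩ := exists_point_datum N v x₀ hx₀
    have h1 := hval h a b ha hb hab
    have hγM := mdifferentiable_sl_smul γ
    have hne : ∀ {f : ℍ → ℂ}, f ≠ 0 → (fun τ => f (γ • τ)) ≠ 0 := by
      intro f hf h0
      apply hf
      funext τ
      have := congrFun h0 (γ⁻¹ • τ)
      simp only [smul_inv_smul] at this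
      exact this
    have ha0 : (a : ℍ → ℂ) ≠ 0 := val_coe_ne_zero_of_ne_zero ha
    have h2 := ord_rel (a := fun τ => (a : ℍ → ℂ) (γ • τ)) (b := fun τ => (b : ℍ → ℂ) (γ • τ))
      (G₁ := fun τ => E₁ (γ • τ)) (G₂ := fun τ => E₂ (γ • τ))
      (a.2.1.comp hγM) (b.2.1.comp hγM) (hE₁.mdiff.comp hγM)
      (hE₂.mdiff.comp hγM) (hne ha0) (hne hb0) (hne hE₁0) (hne hE₂0) p
      (fun τ => hrel (γ • τ)) τ₀
    have hdiv : (e : ℤ) ∣ ((ordAt (fun τ => E₁ (γ • τ)) τ₀).toNat : ℤ)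
        - (ordAt (fun τ => E₂ (γ • τ)) τ₀).toNat := by
      rcases hcase with h1e | ⟨h2e, hS, hmem⟩ | ⟨h3e, hST, hmem⟩
      · rw [h1e, Nat.cast_one]
        exact one_dvd _
      · rw [h2e]
        refine dvd_of_S τ₀ hS (elliptic_case N hχ hE₁ hE₂ γ _ τ₀ hS hmem ?_)
        simp [ModularGroup.coe_S]
      · rw [h3e]
        refine dvd_of_ST τ₀ hST (elliptic_case N hχ hE₁ hE₂ γ _ τ₀ hST hmem ?_)
        simp [ModularGroup.coe_S, ModularGroup.coe_T, Matrix.mul_apply, Fin.sum_univ_two]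
    obtain ⟨k, hk⟩ := hdiv
    refine ⟨k, ?_⟩
    have h3 : (e : ℤ) * v.ord h = e * (p * k) := by
      rw [← h1, h2, hk]
      ring
    exact mul_left_cancel₀ (by exact_mod_cast he.ne') h3

end Fermat.Agent.S29.KumDiv
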