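import Mathlib
import Fermat.Prelude.Def_ModularCurve_X0
import Fermat.Prelude.Def_ModularCurve_LaurentCoeff

/-!
# S37, (ES-a): formal series lemmas

* `rescale u`: the substitution `q ↦ u q` in a Laurent series (`u` a unit);
* `pow_char_eq`: in characteristic `ℓ`, `s ^ ℓ = (Φ s)(q ^ ℓ)`, `Φ` the coefficientwise Frobenius;
* `congruence`: the Kronecker congruence for a product `f(q^{Mℓ}) ∏_b f(ζ^b q^N)` over a
  valuation ring of residue characteristic `ℓ`.
-/

set_option autoImplicit false

noncomputable section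

open ModularCurve HahnSeries

namespace Fermat.Agent.S37.ESaSeries

section Rescale

variable {R : Type*} [CommRing R]

theorem rescale_aux (u : Rˣ) (s : LaurentSeries R) :
    BddBelow (Function.support (fun n : ℤ => ((u ^ n : Rˣ) : R) * s.coeff n)) := by
  refine HahnSeries.forallLTEqZero_supp_BddBelow _ s.order ?_
  intro n hn
  rw [HahnSeries.coeff_eq_zero_of_lt_order hn, mul_zero]

/-- the substitution `q ↦ u q`, as a function. -/
def rescaleFun (u : Rˣ) (s : LaurentSeries R) : LaurentSeries R :=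
  HahnSeries.ofSuppBddBelow (fun n : ℤ => ((u ^ n : Rˣ) : R) * s.coeff n) (rescale_aux u s)

theorem rescaleFun_coeff (u : Rˣ) (s : LaurentSeries R) (n : ℤ) :
    (rescaleFun u s).coeff n = ((u ^ n : Rˣ) : R) * s.coeff n := rfl

theorem rescaleFun_support (u : Rˣ) (s : LaurentSeries R) :
    (rescaleFun u s).support = s.support := by
  ext n
  rw [HahnSeries.mem_support, HahnSeries.mem_support, rescaleFun_coeff]
  exact (Units.mul_right_eq_zero (u ^ n)).not

/-- the substitution `q ↦ u q`, as a ring homomorphism. -/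
def rescale (u : Rˣ) : LaurentSeries R →+* LaurentSeries R where
  toFun := rescaleFun u
  map_one' := by
    ext n
    rw [rescaleFun_coeff, HahnSeries.coeff_one]
    split_ifs with h
    · subst h
      simp
    · simp
  map_zero' := by
    ext n
    rw [rescaleFun_coeff]
    simp
  map_add' x y := by
    ext n
    rw [HahnSeries.coeff_add, rescaleFun_coeff, rescaleFun_coeff, rescaleFun_coeff,
      HahnSeries.coeff_add, mul_add]
  map_mul' x y := by
    ext n
    rw [rescaleFun_coeff, HahnSeries.coeff_mul, HahnSeries.coeff_mul, Finset.mul_sum]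
    apply Finset.sum_congr
    · ext ij
      simp only [Finset.mem_antidiagonal, rescaleFun_support]
    · intro ij hij
      have h := (Finset.mem_antidiagonal.mp hij).2.2
      rw [rescaleFun_coeff, rescaleFun_coeff, ← h, zpow_add, Units.val_mul]
      ring

theorem rescale_coeff (u : Rˣ) (s : LaurentSeries R) (n : ℤ) :
    (rescale u s).coeff n = ((u ^ n : Rˣ) : R) * s.coeff n := rfl

theorem rescale_one (s : LaurentSeries R) : rescale (1 : Rˣ) s = s := by
  ext n
  rw [rescale_coeff, one_zpow, Units.val_one, one_mul]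

theorem rescale_single_zero (u : Rˣ) (c : R) :
    rescale u (HahnSeries.single 0 c) = HahnSeries.single 0 c := by
  ext n
  rw [rescale_coeff]
  rcases eq_or_ne n 0 with rfl | hn
  · simp
  · rw [HahnSeries.coeff_single_of_ne hn, mul_zero]

theorem coeffMap_rescale {S : Type*} [CommRing S] (f : R →+* S) (u : Rˣ) (s : LaurentSeries R) :
    coeffMap f (rescale u s) = rescale (Units.map (f : R →* S) u) (coeffMap f s) := by
  ext n
  rw [coeffMap_coeff, rescale_coeff, rescale_coeff, coeffMap_coeff, map_mul, ← map_zpow]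
  rfl

theorem coeffMap_qExpand {S : Type*} [CommRing S] (f : R →+* S) (n : ℕ) [NeZero n]
    (x : LaurentSeries R) : coeffMap f (qExpand R n x) = qExpand S n (coeffMap f x) := by
  ext k
  by_cases hk : (n : ℤ) ∣ k
  · obtain ⟨m, rfl⟩ := hk
    rw [coeffMap_coeff, qExpand_coeff_mul, qExpand_coeff_mul, coeffMap_coeff]
  · rw [coeffMap_coeff, qExpand_coeff_of_not_dvd n _ hk, qExpand_coeff_of_not_dvd n _ hk,
      map_zero]

theorem rescale_qExpand (u : Rˣ) (e : ℕ) [NeZero e] (s : LaurentSeries R) :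
    rescale u (qExpand R e s) = qExpand R e (rescale (u ^ e) s) := by
  ext k
  by_cases hk : (e : ℤ) ∣ k
  · obtain ⟨m, rfl⟩ := hk
    rw [rescale_coeff, qExpand_coeff_mul, qExpand_coeff_mul, rescale_coeff, ← zpow_natCast,
      ← zpow_mul]
  · rw [rescale_coeff, qExpand_coeff_of_not_dvd e _ hk, qExpand_coeff_of_not_dvd e _ hk,
      mul_zero]

theorem coeffMap_subtype_injective {K : Type*} [Field K] (A : ValuationSubring K) :
    Function.Injective (coeffMap A.subtype) := by
  intro x y h
  ext n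
  have := congrArg (fun s : LaurentSeries K => s.coeff n) h
  exact this

theorem exists_coeffMap_eq {K : Type*} [Field K] (A : ValuationSubring K) (g : LaurentSeries K)
    (h : ∀ n, g.coeff n ∈ A) : ∃ z : LaurentSeries A, coeffMap A.subtype z = g := by
  have hb : BddBelow (Function.support (fun n : ℤ => (⟨g.coeff n, h n⟩ : A))) := by
    refine HahnSeries.forallLTEqZero_supp_BddBelow _ g.order ?_
    intro n hn
    exact Subtype.ext (HahnSeries.coeff_eq_zero_of_lt_order hn)
  refine ⟨HahnSeries.ofSuppBddBelow _ hb, ?_⟩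
  ext n
  rfl

end Rescale

section Frobenius

variable {k : Type*} [Field k]

theorem powerSeries_pow_char (ℓ : ℕ) (hℓ : ℓ.Prime) [CharP k ℓ] (P : PowerSeries k) (n : ℕ) :
    PowerSeries.coeff n (P ^ ℓ) = if ℓ ∣ n then (PowerSeries.coeff (n / ℓ) P) ^ ℓ else 0 := by
  have := Fact.mk hℓ
  have h := MvPowerSeries.map_frobenius_expand (σ := Unit) (R := k) ℓ hℓ.ne_zero (f := P)
  have h2 : P ^ ℓ = PowerSeries.map (frobenius k ℓ) (PowerSeries.expand ℓ hℓ.ne_zero P) := h.symm
  rw [h2, PowerSeries.coeff_map, PowerSeries.coeff_expand]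
  split_ifs
  · rw [frobenius_def]
  · rw [map_zero]

/-- in characteristic `ℓ`: `s ^ ℓ = (Φ s)(q ^ ℓ)`. -/
theorem pow_char_eq (ℓ : ℕ) [NeZero ℓ] (hℓ : ℓ.Prime) [CharP k ℓ]
    (φ : k →+* k) (hφ : ∀ x, φ x = x ^ ℓ) (s : LaurentSeries k) :
    s ^ ℓ = qExpand k ℓ (coeffMap φ s) := by
  have := Fact.mk hℓ
  have : CharP (LaurentSeries k) ℓ :=
    charP_of_injective_algebraMap (algebraMap k (LaurentSeries k)).injective ℓ
  have key : frobenius (LaurentSeries k) ℓ = (qExpand k ℓ).comp (coeffMap φ) := by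
    apply IsLocalization.ringHom_ext (Submonoid.powers (PowerSeries.X : PowerSeries k))
    ext P : 1
    show (algebraMap (PowerSeries k) (LaurentSeries k) P) ^ ℓ
      = qExpand k ℓ (coeffMap φ (algebraMap (PowerSeries k) (LaurentSeries k) P))
    rw [LaurentSeries.coe_algebraMap, ← map_pow]
    ext m
    rw [PowerSeries.coeff_coe]
    by_cases hm : (ℓ : ℤ) ∣ m
    · obtain ⟨t, rfl⟩ := hm
      rw [qExpand_coeff_mul, coeffMap_coeff, PowerSeries.coeff_coe]
      have hℓpos : (0 : ℤ) < ℓ := by exact_mod_cast hℓ.pos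
      by_cases ht : t < 0
      · rw [if_pos ht, if_pos (mul_neg_of_pos_of_neg hℓpos ht), map_zero]
      · rw [if_neg ht, if_neg (by nlinarith), powerSeries_pow_char ℓ hℓ, hφ]
        have e1 : ((ℓ : ℤ) * t).natAbs = ℓ * t.natAbs := by
          rw [Int.natAbs_mul, Int.natAbs_natCast]
        rw [e1, if_pos (dvd_mul_right ℓ _), Nat.mul_div_cancel_left _ hℓ.pos]
    · rw [qExpand_coeff_of_not_dvd ℓ _ hm]
      split_ifs with h0
      · rfl
      · rw [powerSeries_pow_char ℓ hℓ, if_neg]
        intro hdvd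
        apply hm
        have : (m.natAbs : ℤ) = m := Int.natAbs_of_nonneg (not_lt.mp h0)
        rw [← this]
        exact Int.natCast_dvd_natCast.mpr hdvd
  have := congrArg (fun f : LaurentSeries k →+* LaurentSeries k => f s) key
  simpa [frobenius_def] using this

end Frobenius

section Congruence

variable {K : Type*} [Field K] (A : ValuationSubring K)

theorem mem_of_pow_eq_one (ζ : K) (n : ℕ) (hn : n ≠ 0) (h : ζ ^ n = 1) : ζ ∈ A := by
  rcases A.mem_or_inv_mem ζ with h1 | h1
  · exact h1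
  · have h2 : ζ ^ (n - 1) * ζ = 1 := by
      rw [← pow_succ, Nat.sub_add_cancel (Nat.pos_of_ne_zero hn), h]
    have h3 : ζ = (ζ⁻¹) ^ (n - 1) := by
      rw [inv_pow]
      exact eq_inv_of_mul_eq_one_right h2
    rw [h3]
    exact pow_mem h1 _

theorem charP_residueField (ℓ : ℕ) (hℓ : ℓ.Prime) (hA : (ℓ : K) ∈ A.nonunits) :
    CharP (IsLocalRing.ResidueField A) ℓ := by
  rw [CharP.charP_iff_prime_eq_zero hℓ]
  obtain ⟨ha, hmem⟩ := (ValuationSubring.mem_nonunits_iff_exists_mem_maximalIdeal).mp hA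
  have h1 : ((ℓ : ℕ) : IsLocalRing.ResidueField A) = IsLocalRing.residue A (ℓ : A) :=
    (map_natCast _ _).symm
  rw [h1, IsLocalRing.residue_eq_zero_iff]
  have h2 : ((ℓ : ℕ) : A) = ⟨(ℓ : K), ha⟩ := Subtype.ext (by simp)
  rw [h2]
  exact hmem

/-- **the Kronecker congruence**, in terms of series. -/
theorem congruence (N ℓ : ℕ) [NeZero N] [NeZero ℓ] (hℓ : ℓ.Prime) (hA : (ℓ : K) ∈ A.nonunits)
    (ζ : Kˣ) (hζ : ζ ^ ℓ = 1)
    (φ : IsLocalRing.ResidueField A →+* IsLocalRing.ResidueField A) (hφ : ∀ x, φ x = x ^ ℓ)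
    (y : LaurentSeries A) (g : LaurentSeries K)
    (hg : qExpand K (N * ℓ) g = qExpand K (N * ℓ * ℓ) (coeffMap A.subtype y)
      * ∏ b ∈ Finset.range ℓ, qExpand K N (rescale (ζ ^ b) (coeffMap A.subtype y))) :
    ∃ z : LaurentSeries A, coeffMap A.subtype z = g ∧
      ∀ w : LaurentSeries (IsLocalRing.ResidueField A),
        coeffMap φ w = coeffMap (IsLocalRing.residue A) y →
        coeffMap (IsLocalRing.residue A) z
          = coeffMap φ (coeffMap (IsLocalRing.residue A) y) * w ^ ℓ := by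
  have hζK : (ζ : K) ^ ℓ = 1 := by rw [← Units.val_pow_eq_pow_val, hζ, Units.val_one]
  have hζinv : ((ζ⁻¹ : Kˣ) : K) ^ ℓ = 1 := by
    rw [← Units.val_pow_eq_pow_val, inv_pow, hζ, inv_one, Units.val_one]
  have h1 : (ζ : K) ∈ A := mem_of_pow_eq_one A _ ℓ hℓ.ne_zero hζK
  have h2 : ((ζ⁻¹ : Kˣ) : K) ∈ A := mem_of_pow_eq_one A _ ℓ hℓ.ne_zero hζinv
  let ζA : Aˣ := ⟨⟨ζ, h1⟩, ⟨(ζ⁻¹ : Kˣ), h2⟩, Subtype.ext (by simp), Subtype.ext (by simp)⟩
  have hζA : Units.map (A.subtype : A →* K) ζA = ζ := Units.ext rfl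
  -- the integral product
  set Y : LaurentSeries A := qExpand A (N * ℓ * ℓ) y
    * ∏ b ∈ Finset.range ℓ, qExpand A N (rescale (ζA ^ b) y) with hY
  have hYK : coeffMap A.subtype Y = qExpand K (N * ℓ) g := by
    rw [hg, hY, map_mul, map_prod, coeffMap_qExpand]
    congr 1
    apply Finset.prod_congr rfl
    intro b _
    rw [coeffMap_qExpand, coeffMap_rescale, map_pow, hζA]
  -- integrality
  have hint : ∀ n, g.coeff n ∈ A := by
    intro n
    have h3 := congrArg (fun s : LaurentSeries K => s.coeff (((N * ℓ : ℕ) : ℤ) * n)) hYK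
    simp only [qExpand_coeff_mul, coeffMap_coeff] at h3
    rw [← h3]
    exact (Y.coeff _).2
  obtain ⟨z, hz⟩ := exists_coeffMap_eq A g hint
  refine ⟨z, hz, fun w hw => ?_⟩
  have hzY : qExpand A (N * ℓ) z = Y := by
    apply coeffMap_subtype_injective A
    rw [coeffMap_qExpand, hz, hYK]
  have hchar : CharP (IsLocalRing.ResidueField A) ℓ := charP_residueField A ℓ hℓ hA
  have hfact := Fact.mk hℓ
  -- `ζ` reduces to `1`
  have hζbar : Units.map (IsLocalRing.residue A : A →* IsLocalRing.ResidueField A) ζA = 1 := by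
    apply Units.ext
    have h4 : (ζA : A) ^ ℓ = 1 := Subtype.ext hζK
    have h5 : (IsLocalRing.residue A (ζA : A)) ^ ℓ = 1 := by
      rw [← map_pow, h4, map_one]
    apply frobenius_inj (IsLocalRing.ResidueField A) ℓ
    rw [frobenius_def, frobenius_def, Units.val_one, one_pow]
    exact h5
  apply qExpand_injective (R := IsLocalRing.ResidueField A) (N * ℓ)
  have e1 : qExpand (IsLocalRing.ResidueField A) (N * ℓ) (coeffMap (IsLocalRing.residue A) z)
      = coeffMap (IsLocalRing.residue A) Y := by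
    rw [← coeffMap_qExpand, hzY]
  have e2 : ∀ b ∈ Finset.range ℓ,
      coeffMap (IsLocalRing.residue A) (qExpand A N (rescale (ζA ^ b) y))
        = qExpand (IsLocalRing.ResidueField A) N (coeffMap (IsLocalRing.residue A) y) := by
    intro b _
    rw [coeffMap_qExpand, coeffMap_rescale, map_pow, hζbar, one_pow, rescale_one]
  have hL : coeffMap (IsLocalRing.residue A) Y
      = qExpand (IsLocalRing.ResidueField A) (N * ℓ * ℓ) (coeffMap (IsLocalRing.residue A) y)
        * (qExpand (IsLocalRing.ResidueField A) N (coeffMap (IsLocalRing.residue A) y)) ^ ℓ := by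
    rw [hY, map_mul, map_prod, coeffMap_qExpand, Finset.prod_congr rfl e2, Finset.prod_const,
      Finset.card_range]
  have hR : qExpand (IsLocalRing.ResidueField A) (N * ℓ)
      (coeffMap φ (coeffMap (IsLocalRing.residue A) y) * w ^ ℓ)
      = qExpand (IsLocalRing.ResidueField A) (N * ℓ)
          (coeffMap φ (coeffMap (IsLocalRing.residue A) y))
        * qExpand (IsLocalRing.ResidueField A) (N * ℓ * ℓ)
          (coeffMap (IsLocalRing.residue A) y) := by
    rw [map_mul, pow_char_eq ℓ hℓ φ hφ w, hw, qExpand_qExpand]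
  have hP : (qExpand (IsLocalRing.ResidueField A) N (coeffMap (IsLocalRing.residue A) y)) ^ ℓ
      = qExpand (IsLocalRing.ResidueField A) (N * ℓ)
          (coeffMap φ (coeffMap (IsLocalRing.residue A) y)) := by
    rw [← map_pow, pow_char_eq ℓ hℓ φ hφ, qExpand_qExpand]
  rw [e1, hL, hR, hP, mul_comm]

end Congruence

end Fermat.Agent.S37.ESaSeries

end
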