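import Mathlib
import Fermat.Agent.S24_Tower
import Fermat.Agent.S18_Index
import Fermat.Agent.S37_ESaSeries
import Fermat.Prelude.Def_ModularCurve_HeckeOperator

/-!
# S37, (ES-a): the conjugates of `f(q^ℓ)` over the function field of `X₀(N)`

Inside the field of modular functions of level `Γ(N ℓ)` (S24), the `ℓ + 1` conjugates of
`f(ℓ τ)` under `Γ₀(N)` are `f(ℓ τ)` and `f((τ + b) / ℓ)`, `b < ℓ`; hence the norm of `f(q^ℓ)` from
level `N ℓ` to level `N` has the expansion `f(q^{ℓ}) ∏_b f(ζ^b q^{1/ℓ})`.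
-/

set_option autoImplicit false
set_option linter.style.haveILetI false
set_option linter.unusedSectionVars false

noncomputable section

open UpperHalfPlane ModularCurve CongruenceSubgroup AlgebraicCurve
open scoped MatrixGroups Manifold

namespace Fermat.Agent.S37.ESaConj

open Fermat.Agent.S24 Fermat.Agent.S24.Tower Fermat.Agent.S37.ESaSeries

section Matrices

/-- `[[1, t], [N, N t + 1]] = [[1, 0], [N, 1]] * T ^ t`. -/
def gmat (N t : ℕ) : SL(2, ℤ) :=
  ⟨!![1, (t : ℤ); (N : ℤ), (N : ℤ) * t + 1], by rw [Matrix.det_fin_two_of]; ring⟩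

theorem gmat_mem (N t : ℕ) : gmat N t ∈ Gamma0 N := by
  rw [Gamma0_mem]
  simp [gmat]

/-- `[[ℓ, e u], [n', y]]`. -/
def dmat (ℓ e u n' y : ℕ) (h : (ℓ : ℤ) * y - (e : ℤ) * u * n' = 1) : SL(2, ℤ) :=
  ⟨!![(ℓ : ℤ), (e : ℤ) * u; (n' : ℤ), (y : ℤ)], by
    rw [Matrix.det_fin_two_of]; linear_combination h⟩

theorem matrix_identity (N ℓ e n' u y b : ℕ) (hN : N = e * n') (hy : N * u + 1 = ℓ * y)
    (h : (ℓ : ℤ) * y - (e : ℤ) * u * n' = 1) :
    !![((ℓ * e : ℕ) : ℤ), ((0 : ℕ) : ℤ); 0, ((1 : ℕ) : ℤ)]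
        * ((gmat N (b + u) : SL(2, ℤ)) : Matrix (Fin 2) (Fin 2) ℤ)
      = ((dmat ℓ e u n' y h : SL(2, ℤ)) : Matrix (Fin 2) (Fin 2) ℤ)
        * !![((e : ℕ) : ℤ), ((e * b : ℕ) : ℤ); 0, ((ℓ : ℕ) : ℤ)] := by
  have hN' : (N : ℤ) = (e : ℤ) * n' := by exact_mod_cast hN
  have hy' : (N : ℤ) * u + 1 = (ℓ : ℤ) * y := by exact_mod_cast hy
  ext i j
  fin_cases i <;> fin_cases j
  · simp [gmat, dmat, Matrix.mul_apply, Fin.sum_univ_two]
  · simp [gmat, dmat, Matrix.mul_apply, Fin.sum_univ_two]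
    ring
  · simp [gmat, dmat, Matrix.mul_apply, Fin.sum_univ_two]
    linear_combination hN'
  · simp [gmat, dmat, Matrix.mul_apply, Fin.sum_univ_two]
    linear_combination (b : ℤ) * hN' + hy'

end Matrices

section Generic

variable (K : Type) [Field K] [Algebra K ℂ] [Algebra ℚ K] [IsAlgClosed K]

/-- `Γ₀(N)` fixes `j (d τ)` for `d ∣ N`, at any level `M`. -/
theorem smul_jD_of_mem_Gamma0' (M : ℕ) [NeZero M] (N d : ℕ) (hd : d ∣ N) (hdM : d ∣ M)
    (γ : SL(2, ℤ)) (hγ : γ ∈ Gamma0 N) : γ • jD K M d hdM = jD K M d hdM := by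
  have hd0 : d ≠ 0 := ne_zero_of_dvd_ne_zero (NeZero.ne M) hdM
  obtain ⟨δ, hδ⟩ := Hermite.exists_mul_eq_of_mem_Gamma0 N d hd γ⁻¹ (inv_mem hγ)
  ext τ
  rw [Tower.smul_apply]
  show JAnalytic.jA (utGL d 0 1 hd0 one_ne_zero • γ⁻¹ • τ)
    = JAnalytic.jA (utGL d 0 1 hd0 one_ne_zero • τ)
  rw [utGL_mul_sl d 0 1 d 0 1 hd0 one_ne_zero hd0 one_ne_zero γ⁻¹ δ (by simpa using hδ),
    JAnalytic.jA_smul]

theorem substSeries_eq_rescale (m : ℕ) [NeZero m] (c : Kˣ) (s : LaurentSeries K) :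
    substSeries m (c : K) s = qExpand K m (rescale c s) := by
  ext k
  rw [substSeries_coeff]
  by_cases hk : (m : ℤ) ∣ k
  · obtain ⟨t, rfl⟩ := hk
    have hm : (m : ℤ) ≠ 0 := by exact_mod_cast NeZero.ne m
    rw [if_pos (dvd_mul_right _ _), Int.mul_ediv_cancel_left _ hm, qExpand_coeff_mul,
      rescale_coeff, Units.val_zpow_eq_zpow_val, mul_comm]
  · rw [if_neg hk, qExpand_coeff_of_not_dvd m _ hk]

variable (N ℓ : ℕ) [NeZero N] [NeZero ℓ]

/-- the conjugate of `j (ℓ e τ)` by `gmat` is `j ((e τ + e b) / ℓ)`. -/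
theorem smul_jD_gmat (e n' u y b : ℕ) (hN : N = e * n') (hy : N * u + 1 = ℓ * y)
    (hd : ℓ * e ∣ N * ℓ) (he0 : e ≠ 0) (τ : ℍ) :
    (((gmat N (b + u))⁻¹ • jD K (N * ℓ) (ℓ * e) hd : modRing K (N * ℓ)) : ℍ → ℂ) τ
      = genFun e (e * b) ℓ he0 (NeZero.ne ℓ) τ := by
  have h : (ℓ : ℤ) * y - (e : ℤ) * u * n' = 1 := by
    have hN' : (N : ℤ) = (e : ℤ) * n' := by exact_mod_cast hN
    have hy' : (N : ℤ) * u + 1 = (ℓ : ℤ) * y := by exact_mod_cast hy
    linear_combination (u : ℤ) * hN' - hy'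
  rw [Tower.smul_apply, inv_inv]
  show JAnalytic.jA (utGL (ℓ * e) 0 1 (mul_ne_zero (NeZero.ne ℓ) he0) one_ne_zero
      • gmat N (b + u) • τ)
    = JAnalytic.jA (utGL e (e * b) ℓ he0 (NeZero.ne ℓ) • τ)
  rw [utGL_mul_sl (ℓ * e) 0 1 e (e * b) ℓ (mul_ne_zero (NeZero.ne ℓ) he0) one_ne_zero he0
    (NeZero.ne ℓ) (gmat N (b + u)) (dmat ℓ e u n' y h) (matrix_identity N ℓ e n' u y b hN hy h),
    JAnalytic.jA_smul]

/-- the expansion of `j ((e τ + e b) / ℓ)` at level `N ℓ`. -/
theorem expRing_genFun (ζ : Kˣ)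
    (hζ : algebraMap K ℂ (ζ : K) = Complex.exp (2 * Real.pi * Complex.I / ℓ))
    (e b : ℕ) (he0 : e ≠ 0) (f : modRing K (N * ℓ))
    (hf : (f : ℍ → ℂ) = genFun e (e * b) ℓ he0 (NeZero.ne ℓ)) :
    expRing K (N * ℓ) f = substSeries (e * N) ((ζ ^ (e * b) : Kˣ) : K) (coeffEmb K jq) := by
  obtain ⟨c, hc1, hc⟩ := hasLaurentExp_genFun K (N * ℓ) e (e * b) ℓ he0 (NeZero.ne ℓ)
    (dvd_mul_left ℓ N)
  have hcζ : c = ((ζ ^ (e * b) : Kˣ) : K) := by
    apply (algebraMap K ℂ).injective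
    rw [hc1, Units.val_pow_eq_pow_val, map_pow, hζ, ← Complex.exp_nat_mul]
    congr 1
    have : (ℓ : ℂ) ≠ 0 := Nat.cast_ne_zero.mpr (NeZero.ne ℓ)
    field_simp
  have hdiv : N * ℓ / ℓ = N := Nat.mul_div_cancel _ (Nat.pos_of_ne_zero (NeZero.ne ℓ))
  rw [hdiv, hcζ] at hc
  apply expRing_eq_of
  rw [hf]
  exact hc

/-- `f ↦ f(ζ^b q^N)` on the generators. -/
theorem theta_gen (ζ : Kˣ) (e b : ℕ) [NeZero e] :
    qExpand K N (rescale (ζ ^ b) (coeffEmb K (qExpand ℚ e jq)))
      = substSeries (e * N) ((ζ ^ (e * b) : Kˣ) : K) (coeffEmb K jq) := by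
  rw [JFormal.coeffEmb_qExpand, rescale_qExpand, qExpand_qExpand, substSeries_eq_rescale,
    ← pow_mul, mul_comm b e]
  exact qExpand_congr (mul_comm N e) _

/-- the substitution `f ↦ f(ζ^b q^N)` as an algebra homomorphism. -/
def thetaAlg (c : Kˣ) : LaurentSeries K →ₐ[K] LaurentSeries K :=
  { (qExpand K N).comp (rescale c) with
    commutes' := fun a => by
      show qExpand K N (rescale c (algebraMap K (LaurentSeries K) a))
        = algebraMap K (LaurentSeries K) a
      rw [algebraMap_laurentSeries_eq_single, rescale_single_zero, qExpand_single, mul_zero] }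

theorem thetaAlg_apply (c : Kˣ) (s : LaurentSeries K) :
    thetaAlg K N c s = qExpand K N (rescale c s) := rfl

variable {K N ℓ}

/-- `Γ₀(N)` fixes the image of the function field of level `N`. -/
theorem smul_funcFieldMap_alpha (φ : FuncField K (N * ℓ) →ₐ[K] ModField K (N * ℓ))
    (hφ : ∀ f : FuncField K (N * ℓ),
      expField K (N * ℓ) (φ f) = qExpand K (N * ℓ) (f : LaurentSeries K))
    (γ : SL(2, ℤ)) (hγ : γ ∈ Gamma0 N) (c : FuncField K N) :
    γ • φ (heckeAlphaBar K N ℓ c) = φ (heckeAlphaBar K N ℓ c) := by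
  have key : (MulSemiringAction.toAlgHom K (ModField K (N * ℓ)) γ).comp
      (φ.comp (heckeAlphaBar K N ℓ)) = φ.comp (heckeAlphaBar K N ℓ) := by
    apply TowerMap.algHom_ext_full K N
    rintro f ⟨d, hd0, hd, hf⟩
    have hf' : ((heckeAlphaBar K N ℓ f : FuncField K (N * ℓ)) : LaurentSeries K)
        = coeffEmb K (qExpand ℚ d jq) := by
      rw [coe_heckeAlphaBar, hf]
    have h1 := funcFieldMap_eq_jD φ hφ (heckeAlphaBar K N ℓ f) d (hd.trans (dvd_mul_right N ℓ))
      hf'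
    show γ • φ (heckeAlphaBar K N ℓ f) = φ (heckeAlphaBar K N ℓ f)
    rw [h1, smul_algebraMap_field, smul_jD_of_mem_Gamma0' K (N * ℓ) N d hd _ γ hγ]
  exact congrArg (fun ψ : FuncField K N →ₐ[K] ModField K (N * ℓ) => ψ c) key

/-- the expansion of the conjugate by `gmat` of `f(ℓ τ)` is `f(ζ^b q^N)`. -/
theorem expField_conj (φ : FuncField K (N * ℓ) →ₐ[K] ModField K (N * ℓ))
    (hφ : ∀ f : FuncField K (N * ℓ),
      expField K (N * ℓ) (φ f) = qExpand K (N * ℓ) (f : LaurentSeries K))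
    (u y : ℕ) (hy : N * u + 1 = ℓ * y) (ζ : Kˣ)
    (hζ : algebraMap K ℂ (ζ : K) = Complex.exp (2 * Real.pi * Complex.I / ℓ))
    (b : ℕ) (f : FuncField K N) :
    expField K (N * ℓ) ((gmat N (b + u))⁻¹ • φ (heckeBetaBar K N ℓ f))
      = qExpand K N (rescale (ζ ^ b) (f : LaurentSeries K)) := by
  have key : (expField K (N * ℓ)).comp
      ((MulSemiringAction.toAlgHom K (ModField K (N * ℓ)) (gmat N (b + u))⁻¹).comp
        (φ.comp (heckeBetaBar K N ℓ)))
      = (thetaAlg K N (ζ ^ b)).comp (IntermediateField.val _) := by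
    apply TowerMap.algHom_ext_full K N
    rintro f ⟨e, he0, he, hf⟩
    haveI := he0
    obtain ⟨n', hn'⟩ := he
    have hd : ℓ * e ∣ N * ℓ := ⟨n', by rw [hn']; ring⟩
    have hβ : ((heckeBetaBar K N ℓ f : FuncField K (N * ℓ)) : LaurentSeries K)
        = coeffEmb K (qExpand ℚ (ℓ * e) jq) := by
      rw [coe_heckeBetaBar, hf, ← JFormal.coeffEmb_qExpand, qExpand_qExpand]
    have h1 := funcFieldMap_eq_jD φ hφ (heckeBetaBar K N ℓ f) (ℓ * e) hd hβ
    show expField K (N * ℓ) ((gmat N (b + u))⁻¹ • φ (heckeBetaBar K N ℓ f))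
      = qExpand K N (rescale (ζ ^ b) (f : LaurentSeries K))
    rw [h1, smul_algebraMap_field, expField_algebraMap, hf, theta_gen K N ζ e b]
    exact expRing_genFun K N ℓ ζ hζ e b (NeZero.ne e) _
      (funext fun τ => smul_jD_gmat K N ℓ e n' u y b hn' hy hd (NeZero.ne e) τ)
  exact congrArg (fun ψ : FuncField K N →ₐ[K] LaurentSeries K => ψ f) key

end Generic

section Norm

/-- the norm is the product over any family of `[L : F]` distinct embeddings. -/
theorem norm_eq_prod_of_injective {F L E : Type*} [Field F] [Field L] [Field E] [Algebra F L]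
    [Algebra F E] [FiniteDimensional F L] [Algebra.IsSeparable F L] {ι : Type*} [Fintype ι]
    (σ : ι → L →ₐ[F] E) (hσ : Function.Injective σ)
    (hcard : Fintype.card ι = Module.finrank F L) (x : L) :
    algebraMap F E (Algebra.norm F x) = ∏ i, σ i x := by
  let Ω := AlgebraicClosure E
  have h1 := Algebra.norm_eq_prod_embeddings (K := F) (L := L) Ω x
  let τ : ι → (L →ₐ[F] Ω) := fun i => (IsScalarTower.toAlgHom F E Ω).comp (σ i)
  have hτ : Function.Injective τ := by
    intro i j hij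
    apply hσ
    ext z
    have := congrArg (fun s : L →ₐ[F] Ω => s z) hij
    exact (algebraMap E Ω).injective this
  have hbij : Function.Bijective τ := by
    rw [Fintype.bijective_iff_injective_and_card]
    exact ⟨hτ, by rw [hcard, AlgHom.card]⟩
  have h2 : ∏ s : L →ₐ[F] Ω, s x = ∏ i, τ i x := (hbij.prod_comp (fun s => s x)).symm
  apply (algebraMap E Ω).injective
  rw [← IsScalarTower.algebraMap_apply, h1, h2, map_prod]
  rfl

variable (K : Type) [Field K] [Algebra K ℂ] [Algebra ℚ K] [IsAlgClosed K]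
variable (N ℓ : ℕ) [NeZero N] [NeZero ℓ]

/-- `[F_{Nℓ} : F_N] = ℓ + 1`, for the algebra structure along `heckeAlphaBar`. -/
theorem finrank_alpha_gen (hℓ : ℓ.Prime) (hN : ¬ ℓ ∣ N) :
    letI := algebraAlong (heckeAlphaBar K N ℓ)
    Module.finrank (FuncField K N) (FuncField K (N * ℓ)) = ℓ + 1 := by
  letI := algebraAlong (heckeAlphaBar K N ℓ)
  haveI := Fact.mk hℓ
  have hle : laurentBaseChange K (modularFunctionFieldFull N)
      ≤ laurentBaseChange K (modularFunctionFieldFull (N * ℓ)) :=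
    S18.Index.bar_le_of_dvd K (dvd_mul_right N ℓ)
  have h1 := S18.Index.relfinrank_level K ℓ N hN
  rw [mul_comm ℓ N, IntermediateField.relfinrank_eq_finrank_of_le hle] at h1
  rw [← h1]
  let e : ↥(IntermediateField.extendScalars hle) ≃ₗ[FuncField K N] FuncField K (N * ℓ) :=
    { toFun := fun x => ⟨x.1, (IntermediateField.mem_extendScalars hle).mp x.2⟩
      invFun := fun x => ⟨x.1, (IntermediateField.mem_extendScalars hle).mpr x.2⟩
      map_add' := fun x y => rfl
      map_smul' := fun c x => rfl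
      left_inv := fun x => rfl
      right_inv := fun x => rfl }
  exact e.symm.finrank_eq

/-- **the norm of `f(q^ℓ)`** from level `N ℓ` to level `N`, as a series identity. -/
theorem qExpand_norm (hℓ : ℓ.Prime) (hN : ¬ ℓ ∣ N) (ζ : Kˣ)
    (hζ : algebraMap K ℂ (ζ : K) = Complex.exp (2 * Real.pi * Complex.I / ℓ))
    (f : FuncField K N) :
    qExpand K (N * ℓ)
        (((letI := algebraAlong (heckeAlphaBar K N ℓ)
          Algebra.norm (FuncField K N) (heckeBetaBar K N ℓ f)) : FuncField K N) :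
            LaurentSeries K)
      = qExpand K (N * ℓ) (qExpand K ℓ (f : LaurentSeries K))
        * ∏ b ∈ Finset.range ℓ, qExpand K N (rescale (ζ ^ b) (f : LaurentSeries K)) := by
  letI := algebraAlong (heckeAlphaBar K N ℓ)
  obtain ⟨φ, hφ⟩ := exists_funcFieldMap K (N * ℓ)
  -- the auxiliary integers
  obtain ⟨u, y, hy⟩ : ∃ u y : ℕ, N * u + 1 = ℓ * y := by
    haveI := Fact.mk hℓ
    have hN' : (N : ZMod ℓ) ≠ 0 := by
      rw [Ne, ZMod.natCast_eq_zero_iff]
      exact hN
    have hdvd : ℓ ∣ N * (-(N : ZMod ℓ)⁻¹).val + 1 := by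
      rw [← ZMod.natCast_eq_zero_iff]
      push_cast
      rw [ZMod.natCast_zmod_val]
      field_simp
      ring
    obtain ⟨y, hy⟩ := hdvd
    exact ⟨_, y, hy⟩
  let γ : Option (Fin ℓ) → SL(2, ℤ) := fun i => i.elim 1 (fun b => (gmat N ((b : ℕ) + u))⁻¹)
  have hγ : ∀ i, γ i ∈ Gamma0 N := by
    intro i
    cases i with
    | none => exact one_mem _
    | some b => exact inv_mem (gmat_mem N _)
  letI : Algebra (FuncField K N) (ModField K (N * ℓ)) :=
    (φ.toRingHom.comp (heckeAlphaBar K N ℓ).toRingHom).toAlgebra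
  let σ : Option (Fin ℓ) → (FuncField K (N * ℓ) →ₐ[FuncField K N] ModField K (N * ℓ)) :=
    fun i =>
    { (MulSemiringAction.toRingHom SL(2, ℤ) (ModField K (N * ℓ)) (γ i)).comp φ.toRingHom with
      commutes' := fun c => smul_funcFieldMap_alpha φ hφ (γ i) (hγ i) c }
  -- expansions
  let Θ : Option (Fin ℓ) → LaurentSeries K → LaurentSeries K := fun i s =>
    i.elim (qExpand K (N * ℓ) (qExpand K ℓ s)) (fun b => qExpand K N (rescale (ζ ^ (b : ℕ)) s))
  have hexp : ∀ i (g : FuncField K N),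
      expField K (N * ℓ) (σ i (heckeBetaBar K N ℓ g)) = Θ i (g : LaurentSeries K) := by
    intro i g
    cases i with
    | none =>
      show expField K (N * ℓ) ((1 : SL(2, ℤ)) • φ (heckeBetaBar K N ℓ g)) = _
      rw [one_smul, hφ, coe_heckeBetaBar]
      rfl
    | some b => exact expField_conj φ hφ u y hy ζ hζ b g
  -- distinctness
  have hprim : IsPrimitiveRoot (ζ : K) ℓ := by
    refine IsPrimitiveRoot.of_map_of_injective (f := algebraMap K ℂ) ?_
      (algebraMap K ℂ).injective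
    rw [hζ]
    exact Complex.isPrimitiveRoot_exp ℓ (NeZero.ne ℓ)
  have hJ : ((jGen K N : FuncField K N) : LaurentSeries K) = coeffEmb K jq := rfl
  have hcoeff_none : (Θ none (coeffEmb K jq)).coeff (-(N : ℤ)) = 0 := by
    show (qExpand K (N * ℓ) (qExpand K ℓ (coeffEmb K jq))).coeff (-(N : ℤ)) = 0
    apply qExpand_coeff_of_not_dvd
    rintro ⟨c, hc⟩
    have hN0 : (N : ℤ) ≠ 0 := by exact_mod_cast NeZero.ne N
    have h1 : (ℓ : ℤ) * c = -1 := by
      apply mul_left_cancel₀ hN0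
      push_cast at hc
      linarith
    have h2 : (ℓ : ℤ) ∣ 1 := ⟨-c, by linarith⟩
    have h3 : ℓ ∣ 1 := by exact_mod_cast h2
    exact hℓ.one_lt.ne' (Nat.dvd_one.mp h3)
  have hcoeff_some : ∀ b : Fin ℓ,
      (Θ (some b) (coeffEmb K jq)).coeff (-(N : ℤ)) = (((ζ ^ (b : ℕ))⁻¹ : Kˣ) : K) := by
    intro b
    show (qExpand K N (rescale (ζ ^ (b : ℕ)) (coeffEmb K jq))).coeff (-(N : ℤ)) = _
    have e1 : (-(N : ℤ)) = (N : ℤ) * (-1) := by ring
    rw [e1, qExpand_coeff_mul, rescale_coeff, coeffEmb_coeff, coeff_jq_neg_one, map_one, mul_one,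
      zpow_neg_one]
  have hinj : Function.Injective σ := by
    intro i i' h
    have h1 : Θ i (coeffEmb K jq) = Θ i' (coeffEmb K jq) := by
      rw [← hJ, ← hexp i, ← hexp i', h]
    have h2 := congrArg (fun s : LaurentSeries K => s.coeff (-(N : ℤ))) h1
    cases i with
    | none =>
      cases i' with
      | none => rfl
      | some b' =>
        exfalso
        simp only [hcoeff_none, hcoeff_some] at h2
        exact (Units.ne_zero _) h2.symm
    | some b =>
      cases i' with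
      | none =>
        exfalso
        simp only [hcoeff_none, hcoeff_some] at h2
        exact (Units.ne_zero _) h2
      | some b' =>
        simp only [hcoeff_some] at h2
        have h3 : (ζ ^ (b : ℕ)) = (ζ ^ (b' : ℕ)) := inv_injective (Units.ext h2)
        have h4 : (ζ : K) ^ (b : ℕ) = (ζ : K) ^ (b' : ℕ) := by
          rw [← Units.val_pow_eq_pow_val, ← Units.val_pow_eq_pow_val, h3]
        have h5 := hprim.pow_inj b.2 b'.2 h4
        exact congrArg some (Fin.ext h5)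
  -- the norm
  have hfin := finrank_alpha_gen K N ℓ hℓ hN
  haveI : FiniteDimensional (FuncField K N) (FuncField K (N * ℓ)) :=
    Module.finite_of_finrank_pos (by rw [hfin]; omega)
  haveI : CharZero K := algebraRat.charZero K
  haveI : CharZero (FuncField K N) :=
    charZero_of_injective_algebraMap (algebraMap K (FuncField K N)).injective
  have hcard : Fintype.card (Option (Fin ℓ))
      = Module.finrank (FuncField K N) (FuncField K (N * ℓ)) := by
    rw [hfin, Fintype.card_option, Fintype.card_fin]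
  have hnorm := norm_eq_prod_of_injective σ hinj hcard (heckeBetaBar K N ℓ f)
  have h2 := congrArg (expField K (N * ℓ)) hnorm
  rw [map_prod] at h2
  have h3 : expField K (N * ℓ) (algebraMap (FuncField K N) (ModField K (N * ℓ))
        (Algebra.norm (FuncField K N) (heckeBetaBar K N ℓ f)))
      = qExpand K (N * ℓ)
        ((Algebra.norm (FuncField K N) (heckeBetaBar K N ℓ f) : FuncField K N) :
          LaurentSeries K) := by
    show expField K (N * ℓ) (φ (heckeAlphaBar K N ℓ _)) = _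
    rw [hφ, coe_heckeAlphaBar]
  rw [h3] at h2
  rw [h2, Fintype.prod_option]
  congr 1
  · exact hexp none f
  · rw [← Fin.prod_univ_eq_prod_range
      (fun b => qExpand K N (rescale (ζ ^ b) (f : LaurentSeries K))) ℓ]
    exact Finset.prod_congr rfl (fun b _ => hexp (some b) f)

end Norm

end Fermat.Agent.S37.ESaConj

end
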