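import Mathlib
import Fermat.Agent.S24_Tower
import Fermat.Agent.S37_ESaConj
import Fermat.Agent.S16_HeckeFam
import Fermat.Agent.S29_BDefs

/-!
# S29 (B5a): the norm along `α` of `β h` is the product of the translates

Inside the field of modular functions of level `Γ(N ℓ)` the norm of `h(ℓ τ)` from the function
field of `X₀(N ℓ)` to that of `X₀(N)` is the product of the `ℓ + 1` translates `h ∘ A_i`, `A_i` the
representatives of the Hecke operator `T_ℓ`.  Here this is proved as a statement about functions on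
the upper half plane: if `h` is the quotient `W₁ / W₂` of two holomorphic functions, then the norm
is the quotient of `∏ W₁ ∘ A_i` by `∏ W₂ ∘ A_i`.
-/

set_option autoImplicit false
set_option linter.style.haveILetI false
set_option linter.unusedSectionVars false

noncomputable section

open UpperHalfPlane ModularCurve CongruenceSubgroup AlgebraicCurve
open scoped MatrixGroups Manifold

namespace Fermat.Agent.S29.KumNorm

open Fermat.Agent.S24 Fermat.Agent.S24.Tower Fermat.Agent.S37.ESaConj Fermat.Agent.S37.ESaSeries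

/-! ### cancellation of a holomorphic factor -/

/-- a holomorphic function on `ℍ` vanishing on a neighbourhood of a point vanishes. -/
theorem eq_zero_of_eventually {D : ℍ → ℂ} (hD : MDiff D) (τ₀ : ℍ)
    (h : ∀ᶠ z in nhds (τ₀ : ℂ), D (ofComplex z) = 0) : ∀ τ, D τ = 0 := by
  have hdiff := UpperHalfPlane.mdifferentiable_iff.mp hD
  have hopen : IsOpen {z : ℂ | 0 < z.im} := isOpen_lt continuous_const Complex.continuous_im
  have han : AnalyticOnNhd ℂ (D ∘ ofComplex) {z : ℂ | 0 < z.im} := hdiff.analyticOnNhd hopen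
  have hconv : Convex ℝ {z : ℂ | 0 < z.im} := by
    have : {z : ℂ | 0 < z.im} = Complex.imCLM ⁻¹' (Set.Ioi 0) := rfl
    rw [this]
    exact (convex_Ioi 0).is_linear_preimage Complex.imCLM.isLinear
  have hpre : IsPreconnected {z : ℂ | 0 < z.im} := hconv.isPreconnected
  have h0 := han.eqOn_zero_of_preconnected_of_eventuallyEq_zero hpre
    (show (τ₀ : ℂ) ∈ {z : ℂ | 0 < z.im} from τ₀.im_pos) h
  intro τ
  have h1 := h0 (show (τ : ℂ) ∈ {z : ℂ | 0 < z.im} from τ.im_pos)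
  simpa [Function.comp, ofComplex_apply] using h1

/-- cancellation: `D g = 0` with `D` holomorphic, not identically zero, forces `g = 0`. -/
theorem cancel_mdiff {D g : ℍ → ℂ} (hD : MDiff D) (hg : MDiff g) (hne : ∃ τ, D τ ≠ 0)
    (h : ∀ τ, D τ * g τ = 0) : ∀ τ, g τ = 0 := by
  by_contra hcon
  push_neg at hcon
  obtain ⟨τ₀, hτ₀⟩ := hcon
  obtain ⟨τ₁, hτ₁⟩ := hne
  apply hτ₁
  refine eq_zero_of_eventually hD τ₀ ?_ τ₁
  have hdiff := UpperHalfPlane.mdifferentiable_iff.mp hg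
  have hopen : IsOpen {z : ℂ | 0 < z.im} := isOpen_lt continuous_const Complex.continuous_im
  have hmem : {z : ℂ | 0 < z.im} ∈ nhds (τ₀ : ℂ) := hopen.mem_nhds τ₀.im_pos
  have hcont : ContinuousAt (g ∘ ofComplex) (τ₀ : ℂ) :=
    (hdiff.continuousOn).continuousAt hmem
  have hne0 : (g ∘ ofComplex) (τ₀ : ℂ) ≠ 0 := by
    simpa [Function.comp, ofComplex_apply] using hτ₀
  have hev := hcont.eventually_ne hne0
  filter_upwards [hev] with z hz
  have := h (ofComplex z)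
  rcases mul_eq_zero.mp this with h1 | h1
  · exact h1
  · exact absurd h1 hz

/-! ### substitution `τ ↦ (a τ + b) / d` for functions of level `N₀` -/

theorem coe_utGL_smul (a b d : ℕ) (ha : a ≠ 0) (hd : d ≠ 0) (τ : ℍ) :
    ((utGL a b d ha hd • τ : ℍ) : ℂ) = ((a : ℂ) * τ + b) / d := by
  have hdet : 0 < ((utGL a b d ha hd).det : ℝ) := det_utGL_pos a b d ha hd
  rw [UpperHalfPlane.coe_smul_of_det_pos hdet]
  simp [UpperHalfPlane.num, UpperHalfPlane.denom, utGL, ModularForm.val_upperTriangularGL]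

theorem qN_utGL_smul' (N₀ M : ℕ) [NeZero N₀] [NeZero M] (a b d : ℕ) (ha : a ≠ 0) (hd : d ≠ 0)
    (hdM : d * N₀ ∣ M) (τ : ℍ) :
    qN N₀ (utGL a b d ha hd • τ) =
      Complex.exp (2 * Real.pi * Complex.I * b / (d * N₀)) * qN M τ ^ (a * (M / (d * N₀))) := by
  simp only [qN, Function.Periodic.qParam]
  rw [coe_utGL_smul, ← Complex.exp_nat_mul, ← Complex.exp_add]
  congr 1
  obtain ⟨e, he⟩ := hdM
  have hM0 : M ≠ 0 := NeZero.ne M
  have hN0 : N₀ ≠ 0 := NeZero.ne N₀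
  have he0 : e ≠ 0 := by
    rintro rfl
    exact hM0 (by simpa using he)
  have hdiv : M / (d * N₀) = e := by
    rw [he]
    exact Nat.mul_div_cancel_left e (Nat.pos_of_ne_zero (mul_ne_zero hd hN0))
  rw [hdiv]
  have hd' : (d : ℂ) ≠ 0 := Nat.cast_ne_zero.mpr hd
  have he' : (e : ℂ) ≠ 0 := Nat.cast_ne_zero.mpr he0
  have hN' : (N₀ : ℂ) ≠ 0 := Nat.cast_ne_zero.mpr hN0
  have hMc : ((M : ℝ) : ℂ) = (d : ℂ) * N₀ * e := by
    rw [he]
    push_cast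
    ring
  rw [hMc]
  push_cast
  field_simp
  ring

/-- substitution `τ ↦ (a τ + b) / d`: from period `N₀` to period `M` when `d N₀ ∣ M`. -/
theorem hasLaurentExp_comp_utGL (N₀ M : ℕ) [NeZero N₀] [NeZero M] {φ : ℍ → ℂ}
    {s : LaurentSeries ℂ} (hφ : HasLaurentExp N₀ φ s)
    (a b d : ℕ) (ha : a ≠ 0) (hd : d ≠ 0) (hdM : d * N₀ ∣ M) :
    HasLaurentExp M (fun τ => φ (utGL a b d ha hd • τ))
      (substSeries (a * (M / (d * N₀))) (Complex.exp (2 * Real.pi * Complex.I * b / (d * N₀))) s) := by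
  obtain ⟨M₀, hM, hsum⟩ := hφ
  set c := Complex.exp (2 * Real.pi * Complex.I * b / (d * N₀)) with hc
  set m := a * (M / (d * N₀)) with hm
  have hc0 : c ≠ 0 := Complex.exp_ne_zero _
  have hm0 : m ≠ 0 := mul_ne_zero ha
    (Nat.div_pos (Nat.le_of_dvd (NeZero.pos M) hdM)
      (Nat.pos_of_ne_zero (mul_ne_zero hd (NeZero.ne N₀)))).ne'
  have hmZ : (0 : ℤ) < (m : ℤ) := by exact_mod_cast Nat.pos_of_ne_zero hm0
  refine ⟨m * M₀, fun n hn => ?_, fun τ => ?_⟩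
  · rw [substSeries_coeff]
    split_ifs with hdvd
    · obtain ⟨l, rfl⟩ := hdvd
      rw [Int.mul_ediv_cancel_left _ hmZ.ne']
      have hl : l < -(M₀ : ℤ) := by
        push_cast at hn
        nlinarith
      rw [hM l hl, zero_mul]
    · rfl
  · set q := qN M τ with hq
    set τ' := utGL a b d ha hd • τ with hτ'
    have h1 := (hsum τ').mul_left (c ^ (-(M₀ : ℤ)))
    rw [hτ', qN_utGL_smul' N₀ M a b d ha hd hdM τ, ← hc, ← hm, ← hq, ← hτ'] at h1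
    have hinj : Function.Injective (fun l : ℕ => m * l) := fun x y h =>
      Nat.eq_of_mul_eq_mul_left (Nat.pos_of_ne_zero hm0) h
    set G : ℕ → ℂ := fun n => (substSeries m c s).coeff ((n : ℤ) - (m * M₀ : ℕ)) * q ^ n with hG
    have hG0 : ∀ n ∉ Set.range (fun l : ℕ => m * l), G n = 0 := by
      intro n hn
      simp only [hG]
      rw [substSeries_coeff, if_neg, zero_mul]
      intro hdvd
      apply hn
      have h3 : (m : ℤ) ∣ (n : ℤ) := by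
        have h2 : (m : ℤ) ∣ ((m * M₀ : ℕ) : ℤ) := ⟨M₀, by push_cast; ring⟩
        have := dvd_add hdvd h2
        simpa using this
      obtain ⟨l, hl⟩ := Int.natCast_dvd_natCast.mp h3
      exact ⟨l, hl.symm⟩
    have hGm : (G ∘ fun l : ℕ => m * l) =
        fun l : ℕ => c ^ (-(M₀ : ℤ)) * (s.coeff ((l : ℤ) - M₀) * (c * q ^ m) ^ l) := by
      funext l
      simp only [Function.comp_apply, hG]
      have hdiv : (((m * l : ℕ) : ℤ) - ((m * M₀ : ℕ) : ℤ)) = (m : ℤ) * ((l : ℤ) - M₀) := by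
        push_cast; ring
      rw [substSeries_coeff, hdiv, if_pos (Dvd.intro _ rfl), Int.mul_ediv_cancel_left _ hmZ.ne',
        zpow_sub₀ hc0, zpow_natCast, zpow_natCast, zpow_neg, zpow_natCast, mul_pow, ← pow_mul]
      field_simp
    have h2 : HasSum G (c ^ (-(M₀ : ℤ)) * ((c * q ^ m) ^ M₀ * φ τ')) := by
      rw [← hinj.hasSum_iff hG0, hGm]
      exact h1
    have hval : c ^ (-(M₀ : ℤ)) * ((c * q ^ m) ^ M₀ * φ τ') = q ^ (m * M₀) * φ τ' := by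
      rw [zpow_neg, zpow_natCast, mul_pow, ← pow_mul]
      field_simp
    rw [hval] at h2
    exact h2

/-- `Γ(N₀ D)` moves the coset `A` of determinant `D` by an element of `Γ(N₀)`. -/
theorem exists_mul_eq_of_mem_Gamma_mul (N₀ : ℕ) (A : Matrix (Fin 2) (Fin 2) ℤ) (D : ℕ)
    (hA : 0 < A.det) (hD : A.det = D) (γ : SL(2, ℤ)) (hγ : γ ∈ Gamma (N₀ * D)) :
    ∃ δ : SL(2, ℤ), δ ∈ Gamma N₀ ∧
      A * (γ : Matrix (Fin 2) (Fin 2) ℤ) = (δ : Matrix (Fin 2) (Fin 2) ℤ) * A := by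
  obtain ⟨h00, h01, h10, h11⟩ := Gamma_mem.mp hγ
  have d00 : ((N₀ * D : ℕ) : ℤ) ∣ γ 0 0 - 1 := by
    rw [← ZMod.intCast_zmod_eq_zero_iff_dvd]; push_cast; rw [h00]; ring
  have d01 : ((N₀ * D : ℕ) : ℤ) ∣ γ 0 1 := by
    rw [← ZMod.intCast_zmod_eq_zero_iff_dvd]; exact h01
  have d10 : ((N₀ * D : ℕ) : ℤ) ∣ γ 1 0 := by
    rw [← ZMod.intCast_zmod_eq_zero_iff_dvd]; exact h10
  have d11 : ((N₀ * D : ℕ) : ℤ) ∣ γ 1 1 - 1 := by
    rw [← ZMod.intCast_zmod_eq_zero_iff_dvd]; push_cast; rw [h11]; ring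
  obtain ⟨m00, e00⟩ := d00
  obtain ⟨m01, e01⟩ := d01
  obtain ⟨m10, e10⟩ := d10
  obtain ⟨m11, e11⟩ := d11
  push_cast at e00 e01 e10 e11
  set M : Matrix (Fin 2) (Fin 2) ℤ := !![m00, m01; m10, m11] with hM
  have hγeq : (γ : Matrix (Fin 2) (Fin 2) ℤ) = 1 + ((N₀ : ℤ) * (D : ℤ)) • M := by
    ext i j
    fin_cases i <;> fin_cases j
    · simp [hM]; linarith
    · simp [hM]; linarith
    · simp [hM]; linarith
    · simp [hM]; linarith
  set δm : Matrix (Fin 2) (Fin 2) ℤ := 1 + (N₀ : ℤ) • (A * M * A.adjugate) with hδm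
  have key : A * (γ : Matrix (Fin 2) (Fin 2) ℤ) = δm * A := by
    rw [hγeq, hδm, add_mul, one_mul, Matrix.smul_mul, Matrix.mul_assoc, Matrix.adjugate_mul,
      Matrix.mul_smul, mul_one, smul_smul, mul_add, mul_one, Matrix.mul_smul, hD]
  have hdet : δm.det = 1 := by
    have h1 := congrArg Matrix.det key
    rw [Matrix.det_mul, Matrix.det_mul, γ.det_coe, mul_one] at h1
    have h2 : A.det * 1 = A.det * δm.det := by rw [mul_one, mul_comm]; exact h1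
    exact (mul_left_cancel₀ hA.ne' h2).symm
  refine ⟨⟨δm, hdet⟩, ?_, key⟩
  rw [Gamma_mem]
  have hent : ∀ i j, ((δm i j : ℤ) : ZMod N₀) = ((1 : Matrix (Fin 2) (Fin 2) ℤ) i j : ZMod N₀) := by
    intro i j
    rw [hδm, Matrix.add_apply, Matrix.smul_apply, smul_eq_mul]
    push_cast
    simp
  refine ⟨?_, ?_, ?_, ?_⟩
  · simpa using hent 0 0
  · simpa using hent 0 1
  · simpa using hent 1 0
  · simpa using hent 1 1

theorem gamma_of_dvd {N' M : ℕ} (h : N' ∣ M) {γ : SL(2, ℤ)} (hγ : γ ∈ Gamma M) : γ ∈ Gamma N' := by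
  rw [Gamma_mem] at hγ ⊢
  obtain ⟨h00, h01, h10, h11⟩ := hγ
  have key : ∀ (x c : ℤ), ((x : ℤ) : ZMod M) = ((c : ℤ) : ZMod M) →
      ((x : ℤ) : ZMod N') = ((c : ℤ) : ZMod N') := by
    intro x c hx
    have := congrArg (ZMod.castHom h (ZMod N')) hx
    simpa using this
  refine ⟨?_, ?_, ?_, ?_⟩
  · simpa using key _ 1 (by simpa using h00)
  · simpa using key _ 0 (by simpa using h01)
  · simpa using key _ 0 (by simpa using h10)
  · simpa using key _ 1 (by simpa using h11)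

theorem cmap_self (x : LaurentSeries ℂ) : cmap ℂ x = x := by
  show coeffMap (algebraMap ℂ ℂ) x = x
  rw [Algebra.algebraMap_self, coeffMap_id]

/-- composing a modular function of level `N₀` with `τ ↦ (a τ + b) / d` gives a modular function
of level `M` when `N₀ a d ∣ M`. -/
theorem isModFun_comp_utGL (N₀ M : ℕ) [NeZero N₀] [NeZero M] {f : ℍ → ℂ} (hf : IsModFun ℂ N₀ f)
    (a b d : ℕ) (ha : a ≠ 0) (hd : d ≠ 0) (hM : N₀ * (a * d) ∣ M) :
    IsModFun ℂ M (fun τ => f (utGL a b d ha hd • τ)) := by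
  have hdet : (!![(a : ℤ), b; 0, d] : Matrix (Fin 2) (Fin 2) ℤ).det = a * d := by
    simp [Matrix.det_fin_two]
  have hpos : (0 : ℤ) < (a : ℤ) * d := by positivity
  refine ⟨hf.1.comp (mdifferentiable_smul (det_utGL_pos a b d ha hd)),
    fun γ hγ τ => ?_, fun γ => ?_⟩
  · have hγ' : γ ∈ Gamma (N₀ * (a * d)) := gamma_of_dvd hM hγ
    obtain ⟨δ, hδ, hmul⟩ := exists_mul_eq_of_mem_Gamma_mul N₀ !![(a : ℤ), b; 0, d] (a * d)
      (by rw [hdet]; exact hpos) (by rw [hdet]; push_cast; ring) γ hγ'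
    show f (utGL a b d ha hd • γ • τ) = f (utGL a b d ha hd • τ)
    rw [utGL_mul_sl a b d a b d ha hd ha hd γ δ hmul, hf.2.1 δ hδ]
  · obtain ⟨δ, a', b', d', ha', hd', -, hdet', hδ⟩ := Hermite.exists_hermite
      (!![(a : ℤ), b; 0, d] * (γ : Matrix (Fin 2) (Fin 2) ℤ)) (by
        rw [Matrix.det_mul, hdet, Matrix.SpecialLinearGroup.det_coe, mul_one]; exact hpos)
    rw [Matrix.det_mul, hdet, Matrix.SpecialLinearGroup.det_coe, mul_one] at hdet'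
    have had : a' * d' = a * d := by exact_mod_cast hdet'
    have hd'M : d' * N₀ ∣ M := by
      refine Dvd.dvd.trans ?_ hM
      rw [← had]
      exact ⟨a', by ring⟩
    obtain ⟨s, hs⟩ := hf.2.2 δ
    rw [cmap_self] at hs
    have h := hasLaurentExp_comp_utGL N₀ M hs a' b' d' ha'.ne' hd'.ne' hd'M
    refine ⟨substSeries (a' * (M / (d' * N₀)))
      (Complex.exp (2 * Real.pi * Complex.I * b' / (d' * N₀))) s, ?_⟩
    rw [cmap_self]
    have hfun : (fun τ => (fun τ => f (utGL a b d ha hd • τ)) (γ • τ))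
        = fun τ => (fun τ => f (δ • τ)) (utGL a' b' d' ha'.ne' hd'.ne' • τ) := by
      funext τ
      show f (utGL a b d ha hd • γ • τ) = f (δ • utGL a' b' d' ha'.ne' hd'.ne' • τ)
      rw [utGL_mul_sl a b d a' b' d' ha hd ha'.ne' hd'.ne' γ δ hδ]
    rw [hfun]
    exact h

/-! ### the pullback along `τ ↦ (a τ + b) / d` -/

/-- the pullback `f ↦ f ∘ ((a τ + b) / d)` from level `N₀` to level `M`. -/
def pullRing (N₀ M : ℕ) [NeZero N₀] [NeZero M] (a b d : ℕ) (ha : a ≠ 0) (hd : d ≠ 0)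
    (hM : N₀ * (a * d) ∣ M) : modRing ℂ N₀ →ₐ[ℂ] modRing ℂ M where
  toFun f := ⟨fun τ => (f : ℍ → ℂ) (utGL a b d ha hd • τ),
    isModFun_comp_utGL N₀ M f.2 a b d ha hd hM⟩
  map_one' := rfl
  map_mul' _ _ := rfl
  map_zero' := rfl
  map_add' _ _ := rfl
  commutes' _ := rfl

theorem pullRing_apply (N₀ M : ℕ) [NeZero N₀] [NeZero M] (a b d : ℕ) (ha : a ≠ 0) (hd : d ≠ 0)
    (hM : N₀ * (a * d) ∣ M) (f : modRing ℂ N₀) (τ : ℍ) :
    ((pullRing N₀ M a b d ha hd hM f : modRing ℂ M) : ℍ → ℂ) τ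
      = (f : ℍ → ℂ) (utGL a b d ha hd • τ) := rfl

theorem pullRing_injective (N₀ M : ℕ) [NeZero N₀] [NeZero M] (a b d : ℕ) (ha : a ≠ 0)
    (hd : d ≠ 0) (hM : N₀ * (a * d) ∣ M) :
    Function.Injective (pullRing N₀ M a b d ha hd hM) := by
  rw [injective_iff_map_eq_zero]
  intro f hf
  apply Subtype.ext
  funext τ
  have h1 := congrArg (fun g : modRing ℂ M => (g : ℍ → ℂ) ((utGL a b d ha hd)⁻¹ • τ)) hf
  simp only [pullRing_apply, smul_inv_smul] at h1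
  exact h1

/-- the pullback on the fields of modular functions. -/
def pullField (N₀ M : ℕ) [NeZero N₀] [NeZero M] (a b d : ℕ) (ha : a ≠ 0) (hd : d ≠ 0)
    (hM : N₀ * (a * d) ∣ M) : ModField ℂ N₀ →ₐ[ℂ] ModField ℂ M :=
  IsFractionRing.liftAlgHom
    (g := (IsScalarTower.toAlgHom ℂ (modRing ℂ M) (ModField ℂ M)).comp
      (pullRing N₀ M a b d ha hd hM))
    ((IsFractionRing.injective (modRing ℂ M) (ModField ℂ M)).comp
      (pullRing_injective N₀ M a b d ha hd hM))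

theorem pullField_algebraMap (N₀ M : ℕ) [NeZero N₀] [NeZero M] (a b d : ℕ) (ha : a ≠ 0)
    (hd : d ≠ 0) (hM : N₀ * (a * d) ∣ M) (f : modRing ℂ N₀) :
    pullField N₀ M a b d ha hd hM (algebraMap (modRing ℂ N₀) (ModField ℂ N₀) f)
      = algebraMap (modRing ℂ M) (ModField ℂ M) (pullRing N₀ M a b d ha hd hM f) := by
  rw [pullField, IsFractionRing.liftAlgHom_apply]
  exact IsFractionRing.lift_algebraMap _ _

/-! ### compositions of the substitutions -/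

theorem utGL_one_smul' (τ : ℍ) : utGL 1 0 1 one_ne_zero one_ne_zero • τ = τ := by
  apply UpperHalfPlane.ext
  rw [coe_utGL_smul]
  simp

theorem utGL_diag_diag_smul (d ℓ : ℕ) (hd : d ≠ 0) (hℓ : ℓ ≠ 0) (τ : ℍ) :
    utGL d 0 1 hd one_ne_zero • (utGL ℓ 0 1 hℓ one_ne_zero • τ)
      = utGL (ℓ * d) 0 1 (mul_ne_zero hℓ hd) one_ne_zero • τ := by
  apply UpperHalfPlane.ext
  rw [coe_utGL_smul, coe_utGL_smul, coe_utGL_smul]
  push_cast
  ring

theorem utGL_diag_ut_smul (e b ℓ : ℕ) (he : e ≠ 0) (hℓ : ℓ ≠ 0) (τ : ℍ) :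
    utGL e 0 1 he one_ne_zero • (utGL 1 b ℓ one_ne_zero hℓ • τ)
      = utGL e (e * b) ℓ he hℓ • τ := by
  apply UpperHalfPlane.ext
  rw [coe_utGL_smul, coe_utGL_smul, coe_utGL_smul]
  have hℓ' : (ℓ : ℂ) ≠ 0 := Nat.cast_ne_zero.mpr hℓ
  push_cast
  field_simp
  ring

/-! ### the comparison maps and the pullbacks -/

theorem jD_apply (N : ℕ) [NeZero N] (d : ℕ) (hd : d ∣ N) (τ : ℍ) :
    (jD ℂ N d hd : ℍ → ℂ) τ
      = JAnalytic.jA (utGL d 0 1 (ne_zero_of_dvd_ne_zero (NeZero.ne N) hd) one_ne_zero • τ) :=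
  rfl

section Conj

variable {N ℓ : ℕ} [NeZero N] [NeZero ℓ]

theorem hdvd_one : N * (1 * 1) ∣ N * ℓ := ⟨ℓ, by ring⟩

theorem hdvd_diag : N * (ℓ * 1) ∣ N * ℓ := ⟨1, by ring⟩

theorem hdvd_ut : N * (1 * ℓ) ∣ N * ℓ := ⟨1, by ring⟩

/-- `φ_{Nℓ} ∘ α` is the pullback along the identity. -/
theorem phi_alpha (φN : FuncField ℂ N →ₐ[ℂ] ModField ℂ N)
    (hφN : ∀ f : FuncField ℂ N, expField ℂ N (φN f) = qExpand ℂ N (f : LaurentSeries ℂ))
    (φM : FuncField ℂ (N * ℓ) →ₐ[ℂ] ModField ℂ (N * ℓ))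
    (hφM : ∀ f : FuncField ℂ (N * ℓ),
      expField ℂ (N * ℓ) (φM f) = qExpand ℂ (N * ℓ) (f : LaurentSeries ℂ))
    (x : FuncField ℂ N) :
    φM (heckeAlphaBar ℂ N ℓ x)
      = pullField N (N * ℓ) 1 0 1 one_ne_zero one_ne_zero hdvd_one (φN x) := by
  have key : φM.comp (heckeAlphaBar ℂ N ℓ)
      = (pullField N (N * ℓ) 1 0 1 one_ne_zero one_ne_zero hdvd_one).comp φN := by
    apply TowerMap.algHom_ext_full ℂ N
    rintro f ⟨d, hd0, hd, hf⟩
    haveI := hd0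
    have hf' : ((heckeAlphaBar ℂ N ℓ f : FuncField ℂ (N * ℓ)) : LaurentSeries ℂ)
        = coeffEmb ℂ (qExpand ℚ d jq) := by
      rw [coe_heckeAlphaBar, hf]
    have h1 := funcFieldMap_eq_jD φM hφM (heckeAlphaBar ℂ N ℓ f) d
      (hd.trans (dvd_mul_right N ℓ)) hf'
    have h2 := funcFieldMap_eq_jD φN hφN f d hd hf
    show φM (heckeAlphaBar ℂ N ℓ f)
      = pullField N (N * ℓ) 1 0 1 one_ne_zero one_ne_zero hdvd_one (φN f)
    rw [h1, h2, pullField_algebraMap]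
    refine congrArg (algebraMap (modRing ℂ (N * ℓ)) (ModField ℂ (N * ℓ)))
      (Subtype.ext (funext fun τ => ?_))
    rw [pullRing_apply, jD_apply, jD_apply, utGL_one_smul']
  exact congrArg (fun ψ : FuncField ℂ N →ₐ[ℂ] ModField ℂ (N * ℓ) => ψ x) key

/-- `φ_{Nℓ} ∘ β` is the pullback along `τ ↦ ℓ τ`. -/
theorem phi_beta (φN : FuncField ℂ N →ₐ[ℂ] ModField ℂ N)
    (hφN : ∀ f : FuncField ℂ N, expField ℂ N (φN f) = qExpand ℂ N (f : LaurentSeries ℂ))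
    (φM : FuncField ℂ (N * ℓ) →ₐ[ℂ] ModField ℂ (N * ℓ))
    (hφM : ∀ f : FuncField ℂ (N * ℓ),
      expField ℂ (N * ℓ) (φM f) = qExpand ℂ (N * ℓ) (f : LaurentSeries ℂ))
    (x : FuncField ℂ N) :
    φM (heckeBetaBar ℂ N ℓ x)
      = pullField N (N * ℓ) ℓ 0 1 (NeZero.ne ℓ) one_ne_zero hdvd_diag (φN x) := by
  have key : φM.comp (heckeBetaBar ℂ N ℓ)
      = (pullField N (N * ℓ) ℓ 0 1 (NeZero.ne ℓ) one_ne_zero hdvd_diag).comp φN := by
    apply TowerMap.algHom_ext_full ℂ N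
    rintro f ⟨d, hd0, hd, hf⟩
    haveI := hd0
    obtain ⟨n', hn'⟩ := hd
    have hd' : ℓ * d ∣ N * ℓ := ⟨n', by rw [hn']; ring⟩
    have hβ : ((heckeBetaBar ℂ N ℓ f : FuncField ℂ (N * ℓ)) : LaurentSeries ℂ)
        = coeffEmb ℂ (qExpand ℚ (ℓ * d) jq) := by
      rw [coe_heckeBetaBar, hf, ← JFormal.coeffEmb_qExpand, qExpand_qExpand]
    have h1 := funcFieldMap_eq_jD φM hφM (heckeBetaBar ℂ N ℓ f) (ℓ * d) hd' hβ
    have h2 := funcFieldMap_eq_jD φN hφN f d ⟨n', hn'⟩ hf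
    show φM (heckeBetaBar ℂ N ℓ f)
      = pullField N (N * ℓ) ℓ 0 1 (NeZero.ne ℓ) one_ne_zero hdvd_diag (φN f)
    rw [h1, h2, pullField_algebraMap]
    refine congrArg (algebraMap (modRing ℂ (N * ℓ)) (ModField ℂ (N * ℓ)))
      (Subtype.ext (funext fun τ => ?_))
    rw [pullRing_apply, jD_apply, jD_apply, utGL_diag_diag_smul d ℓ (NeZero.ne d) (NeZero.ne ℓ)]
  exact congrArg (fun ψ : FuncField ℂ N →ₐ[ℂ] ModField ℂ (N * ℓ) => ψ x) key

/-- the conjugate of `φ_{Nℓ} (β x)` by `gmat` is the pullback along `τ ↦ (τ + b) / ℓ`. -/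
theorem phi_conj (φN : FuncField ℂ N →ₐ[ℂ] ModField ℂ N)
    (hφN : ∀ f : FuncField ℂ N, expField ℂ N (φN f) = qExpand ℂ N (f : LaurentSeries ℂ))
    (φM : FuncField ℂ (N * ℓ) →ₐ[ℂ] ModField ℂ (N * ℓ))
    (hφM : ∀ f : FuncField ℂ (N * ℓ),
      expField ℂ (N * ℓ) (φM f) = qExpand ℂ (N * ℓ) (f : LaurentSeries ℂ))
    (u y : ℕ) (hy : N * u + 1 = ℓ * y) (b : ℕ) (x : FuncField ℂ N) :
    (gmat N (b + u))⁻¹ • φM (heckeBetaBar ℂ N ℓ x)
      = pullField N (N * ℓ) 1 b ℓ one_ne_zero (NeZero.ne ℓ) hdvd_ut (φN x) := by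
  have key : (MulSemiringAction.toAlgHom ℂ (ModField ℂ (N * ℓ)) (gmat N (b + u))⁻¹).comp
        (φM.comp (heckeBetaBar ℂ N ℓ))
      = (pullField N (N * ℓ) 1 b ℓ one_ne_zero (NeZero.ne ℓ) hdvd_ut).comp φN := by
    apply TowerMap.algHom_ext_full ℂ N
    rintro f ⟨e, he0, he, hf⟩
    haveI := he0
    obtain ⟨n', hn'⟩ := he
    have hd : ℓ * e ∣ N * ℓ := ⟨n', by rw [hn']; ring⟩
    have hβ : ((heckeBetaBar ℂ N ℓ f : FuncField ℂ (N * ℓ)) : LaurentSeries ℂ)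
        = coeffEmb ℂ (qExpand ℚ (ℓ * e) jq) := by
      rw [coe_heckeBetaBar, hf, ← JFormal.coeffEmb_qExpand, qExpand_qExpand]
    have h1 := funcFieldMap_eq_jD φM hφM (heckeBetaBar ℂ N ℓ f) (ℓ * e) hd hβ
    have h2 := funcFieldMap_eq_jD φN hφN f e ⟨n', hn'⟩ hf
    show (gmat N (b + u))⁻¹ • φM (heckeBetaBar ℂ N ℓ f)
      = pullField N (N * ℓ) 1 b ℓ one_ne_zero (NeZero.ne ℓ) hdvd_ut (φN f)
    rw [h1, h2, pullField_algebraMap, smul_algebraMap_field]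
    refine congrArg (algebraMap (modRing ℂ (N * ℓ)) (ModField ℂ (N * ℓ)))
      (Subtype.ext (funext fun τ => ?_))
    rw [smul_jD_gmat ℂ N ℓ e n' u y b hn' hy hd (NeZero.ne e) τ, pullRing_apply, jD_apply,
      utGL_diag_ut_smul e b ℓ (NeZero.ne e) (NeZero.ne ℓ)]
    rfl
  exact congrArg (fun ψ : FuncField ℂ N →ₐ[ℂ] ModField ℂ (N * ℓ) => ψ x) key

end Conj

/-! ### the norm as a product of conjugates -/

section Norm

variable (N ℓ : ℕ) [NeZero N] [NeZero ℓ]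

theorem exists_uy (hℓ : ℓ.Prime) (hN : ¬ ℓ ∣ N) : ∃ u y : ℕ, N * u + 1 = ℓ * y := by
  haveI := Fact.mk hℓ
  have hN' : (N : ZMod ℓ) ≠ 0 := by
    rw [Ne, ZMod.natCast_eq_zero_iff]
    exact hN
  have hdvd : ℓ ∣ N * (-(N : ZMod ℓ)⁻¹).val + 1 := by
    rw [← ZMod.natCast_eq_zero_iff]
    push_cast
    rw [ZMod.natCast_zmod_val]
    field_simp
    ring
  obtain ⟨y, hy⟩ := hdvd
  exact ⟨_, y, hy⟩

/-- the image in the field of modular functions of level `N ℓ` of the norm of `β f` is the product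
of the `ℓ + 1` conjugates. -/
theorem phi_norm (hℓ : ℓ.Prime) (hN : ¬ ℓ ∣ N)
    (φ : FuncField ℂ (N * ℓ) →ₐ[ℂ] ModField ℂ (N * ℓ))
    (hφ : ∀ f : FuncField ℂ (N * ℓ),
      expField ℂ (N * ℓ) (φ f) = qExpand ℂ (N * ℓ) (f : LaurentSeries ℂ))
    (u y : ℕ) (hy : N * u + 1 = ℓ * y) (f : FuncField ℂ N) :
    φ (heckeAlphaBar ℂ N ℓ
        (letI := algebraAlong (heckeAlphaBar ℂ N ℓ)
         Algebra.norm (FuncField ℂ N) (heckeBetaBar ℂ N ℓ f)))
      = φ (heckeBetaBar ℂ N ℓ f)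
        * ∏ b : Fin ℓ, (gmat N ((b : ℕ) + u))⁻¹ • φ (heckeBetaBar ℂ N ℓ f) := by
  letI := algebraAlong (heckeAlphaBar ℂ N ℓ)
  let ζ : ℂˣ := Units.mk0 (Complex.exp (2 * Real.pi * Complex.I / ℓ)) (Complex.exp_ne_zero _)
  have hζ : algebraMap ℂ ℂ (ζ : ℂ) = Complex.exp (2 * Real.pi * Complex.I / ℓ) := rfl
  let γ : Option (Fin ℓ) → SL(2, ℤ) := fun i => i.elim 1 (fun b => (gmat N ((b : ℕ) + u))⁻¹)
  have hγ : ∀ i, γ i ∈ Gamma0 N := by
    intro i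
    cases i with
    | none => exact one_mem _
    | some b => exact inv_mem (gmat_mem N _)
  letI : Algebra (FuncField ℂ N) (ModField ℂ (N * ℓ)) :=
    (φ.toRingHom.comp (heckeAlphaBar ℂ N ℓ).toRingHom).toAlgebra
  let σ : Option (Fin ℓ) → (FuncField ℂ (N * ℓ) →ₐ[FuncField ℂ N] ModField ℂ (N * ℓ)) :=
    fun i =>
    { (MulSemiringAction.toRingHom SL(2, ℤ) (ModField ℂ (N * ℓ)) (γ i)).comp φ.toRingHom with
      commutes' := fun c => smul_funcFieldMap_alpha φ hφ (γ i) (hγ i) c }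
  -- expansions
  let Θ : Option (Fin ℓ) → LaurentSeries ℂ → LaurentSeries ℂ := fun i s =>
    i.elim (qExpand ℂ (N * ℓ) (qExpand ℂ ℓ s)) (fun b => qExpand ℂ N (rescale (ζ ^ (b : ℕ)) s))
  have hexp : ∀ i (g : FuncField ℂ N),
      expField ℂ (N * ℓ) (σ i (heckeBetaBar ℂ N ℓ g)) = Θ i (g : LaurentSeries ℂ) := by
    intro i g
    cases i with
    | none =>
      show expField ℂ (N * ℓ) ((1 : SL(2, ℤ)) • φ (heckeBetaBar ℂ N ℓ g)) = _
      rw [one_smul, hφ, coe_heckeBetaBar]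
      rfl
    | some b => exact expField_conj φ hφ u y hy ζ hζ b g
  -- distinctness
  have hprim : IsPrimitiveRoot (ζ : ℂ) ℓ := Complex.isPrimitiveRoot_exp ℓ (NeZero.ne ℓ)
  have hJ : ((jGen ℂ N : FuncField ℂ N) : LaurentSeries ℂ) = coeffEmb ℂ jq := rfl
  have hcoeff_none : (Θ none (coeffEmb ℂ jq)).coeff (-(N : ℤ)) = 0 := by
    show (qExpand ℂ (N * ℓ) (qExpand ℂ ℓ (coeffEmb ℂ jq))).coeff (-(N : ℤ)) = 0
    apply qExpand_coeff_of_not_dvd
    rintro ⟨c, hc⟩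
    have hN0 : (N : ℤ) ≠ 0 := by exact_mod_cast NeZero.ne N
    have h1 : (ℓ : ℤ) * c = -1 := by
      apply mul_left_cancel₀ hN0
      push_cast at hc
      linarith
    have h2 : (ℓ : ℤ) ∣ 1 := ⟨-c, by linarith⟩
    have h3 : ℓ ∣ 1 := by exact_mod_cast h2
    exact hℓ.one_lt.ne' (Nat.dvd_one.mp h3)
  have hcoeff_some : ∀ b : Fin ℓ,
      (Θ (some b) (coeffEmb ℂ jq)).coeff (-(N : ℤ)) = (((ζ ^ (b : ℕ))⁻¹ : ℂˣ) : ℂ) := by
    intro b
    show (qExpand ℂ N (rescale (ζ ^ (b : ℕ)) (coeffEmb ℂ jq))).coeff (-(N : ℤ)) = _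
    have e1 : (-(N : ℤ)) = (N : ℤ) * (-1) := by ring
    rw [e1, qExpand_coeff_mul, rescale_coeff, coeffEmb_coeff, coeff_jq_neg_one, map_one, mul_one,
      zpow_neg_one]
  have hinj : Function.Injective σ := by
    intro i i' h
    have h1 : Θ i (coeffEmb ℂ jq) = Θ i' (coeffEmb ℂ jq) := by
      rw [← hJ, ← hexp i, ← hexp i', h]
    have h2 := congrArg (fun s : LaurentSeries ℂ => s.coeff (-(N : ℤ))) h1
    cases i with
    | none =>
      cases i' with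
      | none => rfl
      | some b' =>
        exfalso
        simp only [hcoeff_none, hcoeff_some] at h2
        exact (Units.ne_zero _) h2.symm
    | some b =>
      cases i' with
      | none =>
        exfalso
        simp only [hcoeff_none, hcoeff_some] at h2
        exact (Units.ne_zero _) h2
      | some b' =>
        simp only [hcoeff_some] at h2
        have h3 : (ζ ^ (b : ℕ)) = (ζ ^ (b' : ℕ)) := inv_injective (Units.ext h2)
        have h4 : (ζ : ℂ) ^ (b : ℕ) = (ζ : ℂ) ^ (b' : ℕ) := by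
          rw [← Units.val_pow_eq_pow_val, ← Units.val_pow_eq_pow_val, h3]
        have h5 := hprim.pow_inj b.2 b'.2 h4
        exact congrArg some (Fin.ext h5)
  -- the norm
  have hfin := finrank_alpha_gen ℂ N ℓ hℓ hN
  haveI : FiniteDimensional (FuncField ℂ N) (FuncField ℂ (N * ℓ)) :=
    Module.finite_of_finrank_pos (by rw [hfin]; omega)
  haveI : CharZero (FuncField ℂ N) :=
    charZero_of_injective_algebraMap (algebraMap ℂ (FuncField ℂ N)).injective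
  have hcard : Fintype.card (Option (Fin ℓ))
      = Module.finrank (FuncField ℂ N) (FuncField ℂ (N * ℓ)) := by
    rw [hfin, Fintype.card_option, Fintype.card_fin]
  have hnorm := norm_eq_prod_of_injective σ hinj hcard (heckeBetaBar ℂ N ℓ f)
  have h3 : algebraMap (FuncField ℂ N) (ModField ℂ (N * ℓ))
        (Algebra.norm (FuncField ℂ N) (heckeBetaBar ℂ N ℓ f))
      = φ (heckeAlphaBar ℂ N ℓ (Algebra.norm (FuncField ℂ N) (heckeBetaBar ℂ N ℓ f))) := rfl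
  rw [← h3, hnorm, Fintype.prod_option]
  have h4 : σ none (heckeBetaBar ℂ N ℓ f) = φ (heckeBetaBar ℂ N ℓ f) := by
    show (1 : SL(2, ℤ)) • φ (heckeBetaBar ℂ N ℓ f) = _
    rw [one_smul]
  rw [h4]
  rfl

end Norm

/-! ### products of holomorphic functions -/

theorem mdiff_prod {ι : Type*} (s : Finset ι) (F : ι → ℍ → ℂ) (h : ∀ i ∈ s, MDiff (F i)) :
    MDiff (fun τ => ∏ i ∈ s, F i τ) := by
  classical
  induction s using Finset.induction_on with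
  | empty =>
    simp only [Finset.prod_empty]
    exact mdifferentiable_const
  | insert i s hi ih =>
    have h1 : MDiff (F i) := h i (Finset.mem_insert_self i s)
    have h2 : MDiff (fun τ => ∏ j ∈ s, F j τ) := ih (fun j hj => h j (Finset.mem_insert_of_mem hj))
    have h3 : (fun τ => ∏ j ∈ insert i s, F j τ) = F i * fun τ => ∏ j ∈ s, F j τ := by
      funext τ
      rw [Finset.prod_insert hi]
      rfl
    rw [h3]
    exact h1.mul h2

theorem mdiff_comp_utGL {W : ℍ → ℂ} (hW : MDiff W) (a b d : ℕ) (ha : a ≠ 0) (hd : d ≠ 0) :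
    MDiff (fun τ => W (utGL a b d ha hd • τ)) :=
  hW.comp (mdifferentiable_smul (det_utGL_pos a b d ha hd))

/-! ### the Hecke representatives -/

theorem heckeDiagMatrix_eq_utGL (ℓ : ℕ) (hℓ : ℓ ≠ 0) :
    ModularForm.heckeDiagMatrix ℓ = utGL ℓ 0 1 hℓ one_ne_zero := by
  apply Units.ext
  rw [ModularForm.val_heckeDiagMatrix hℓ]
  ext i j
  fin_cases i <;> fin_cases j <;> simp [utGL]

theorem heckeMatrix_eq_utGL (ℓ j : ℕ) (hℓ : ℓ ≠ 0) :
    ModularForm.heckeMatrix ℓ j = utGL 1 j ℓ one_ne_zero hℓ := by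
  apply Units.ext
  rw [ModularForm.val_heckeMatrix hℓ]
  ext i k
  fin_cases i <;> fin_cases k <;> simp [utGL]

theorem prod_zmod_val {M : Type*} [CommMonoid M] (ℓ : ℕ) [NeZero ℓ] (G : ℕ → M) :
    ∏ j : ZMod ℓ, G j.val = ∏ b : Fin ℓ, G (b : ℕ) := by
  cases ℓ with
  | zero => exact absurd rfl (NeZero.ne 0)
  | succ n => rfl

/-- the product over the Hecke representatives, in terms of the explicit matrices. -/
theorem prod_famT (N ℓ : ℕ) [NeZero N] [Fact ℓ.Prime] (hℓN : ¬ ℓ ∣ N) (W : ℍ → ℂ) (τ : ℍ) :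
    ∏ i : (S16.LB.famT N ℓ hℓN).ι, W ((S16.LB.famT N ℓ hℓN).A i • τ)
      = W (utGL ℓ 0 1 (NeZero.ne ℓ) one_ne_zero • τ)
        * ∏ b : Fin ℓ, W (utGL 1 (b : ℕ) ℓ one_ne_zero (NeZero.ne ℓ) • τ) := by
  have h0 : ∏ i : (S16.LB.famT N ℓ hℓN).ι, W ((S16.LB.famT N ℓ hℓN).A i • τ)
      = ∏ i : Option (ZMod ℓ), W ((i.elim (ModularForm.heckeDiagMatrix ℓ)
          (fun j => ModularForm.heckeMatrix ℓ j.val)) • τ) := rfl
  rw [h0, Fintype.prod_option]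
  simp only [Option.elim_none, Option.elim_some]
  rw [heckeDiagMatrix_eq_utGL ℓ (NeZero.ne ℓ)]
  congr 1
  rw [← prod_zmod_val ℓ (fun b => W (utGL 1 b ℓ one_ne_zero (NeZero.ne ℓ) • τ))]
  refine Finset.prod_congr rfl (fun j _ => ?_)
  rw [heckeMatrix_eq_utGL ℓ j.val (NeZero.ne ℓ)]

/-! ### the main statement -/

open Fermat.Agent.S29 in
/-- changing the pair of functions realizing `h` to a proportional pair. -/
theorem realizes_congr (N : ℕ) [NeZero N] (h : FC N) (W₁ W₂ V₁ V₂ : ℍ → ℂ)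
    (hW₂ : MDiff W₂) (hV₁ : MDiff V₁) (hV₂ : MDiff V₂) (hne : ∃ τ, W₂ τ ≠ 0)
    (hprop : ∀ τ, W₁ τ * V₂ τ = W₂ τ * V₁ τ) (hr : Realizes N h W₁ W₂) :
    Realizes N h V₁ V₂ := by
  obtain ⟨a, b, hb, hab, hW⟩ := hr
  refine ⟨a, b, hb, hab, ?_⟩
  have hzero : ∀ τ, W₂ τ * ((a : ℍ → ℂ) τ * V₂ τ - (b : ℍ → ℂ) τ * V₁ τ) = 0 := by
    intro τ
    linear_combination (V₂ τ) * hW τ + ((b : ℍ → ℂ) τ) * hprop τ
  have hg : MDiff (fun τ => (a : ℍ → ℂ) τ * V₂ τ - (b : ℍ → ℂ) τ * V₁ τ) :=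
    (a.2.1.mul hV₂).sub (b.2.1.mul hV₁)
  have := cancel_mdiff hW₂ hg hne hzero
  intro τ
  exact sub_eq_zero.mp (this τ)

open Fermat.Agent.S29 in
/-- **the norm along `α` of `β h` is the product of the translates of `h`** by the Hecke
representatives. -/
theorem norm_realizes (N ℓ : ℕ) [NeZero N] [Fact ℓ.Prime] (hℓN : ¬ ℓ ∣ N) (h : FC N)
    (W₁ W₂ : ℍ → ℂ) (hW₁ : MDiff W₁) (hW₂ : MDiff W₂) (hr : Realizes N h W₁ W₂) :
    Realizes N (normA ℂ N ℓ (heckeBetaBar ℂ N ℓ h))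
      (fun τ => ∏ i : (S16.LB.famT N ℓ hℓN).ι, W₁ ((S16.LB.famT N ℓ hℓN).A i • τ))
      (fun τ => ∏ i : (S16.LB.famT N ℓ hℓN).ι, W₂ ((S16.LB.famT N ℓ hℓN).A i • τ)) := by
  have hℓ : ℓ.Prime := Fact.out
  have hℓ0 : ℓ ≠ 0 := NeZero.ne ℓ
  obtain ⟨a, b, hb, hab, hW⟩ := hr
  set X : FC N := normA ℂ N ℓ (heckeBetaBar ℂ N ℓ h) with hX
  obtain ⟨aX, bX, hbX, habX⟩ := exists_fraction (phiC N X)
  refine ⟨aX, bX, hbX, habX, ?_⟩
  obtain ⟨φM, hφM⟩ := exists_funcFieldMap ℂ (N * ℓ)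
  have hφN := phiC_spec N
  obtain ⟨u, y, hy⟩ := exists_uy N ℓ hℓ hℓN
  -- the three kinds of pullbacks
  set R1 := pullRing N (N * ℓ) 1 0 1 one_ne_zero one_ne_zero hdvd_one with hR1
  set RD := pullRing N (N * ℓ) ℓ 0 1 hℓ0 one_ne_zero hdvd_diag with hRD
  set RU : Fin ℓ → (modRing ℂ N →ₐ[ℂ] modRing ℂ (N * ℓ)) :=
    fun c => pullRing N (N * ℓ) 1 (c : ℕ) ℓ one_ne_zero hℓ0 hdvd_ut with hRU
  set P1 := pullField N (N * ℓ) 1 0 1 one_ne_zero one_ne_zero hdvd_one with hP1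
  set PD := pullField N (N * ℓ) ℓ 0 1 hℓ0 one_ne_zero hdvd_diag with hPD
  set PU : Fin ℓ → (ModField ℂ N →ₐ[ℂ] ModField ℂ (N * ℓ)) :=
    fun c => pullField N (N * ℓ) 1 (c : ℕ) ℓ one_ne_zero hℓ0 hdvd_ut with hPU
  let am := algebraMap (modRing ℂ (N * ℓ)) (ModField ℂ (N * ℓ))
  have e1 : φM (heckeAlphaBar ℂ N ℓ X) = P1 (phiC N X) := phi_alpha (phiC N) hφN φM hφM X
  have e2 : φM (heckeAlphaBar ℂ N ℓ X) = PD (phiC N h) * ∏ c : Fin ℓ, PU c (phiC N h) := by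
    have h1 := phi_norm N ℓ hℓ hℓN φM hφM u y hy h
    have h2 : φM (heckeAlphaBar ℂ N ℓ X) = φM (heckeBetaBar ℂ N ℓ h)
        * ∏ b : Fin ℓ, (gmat N ((b : ℕ) + u))⁻¹ • φM (heckeBetaBar ℂ N ℓ h) := h1
    rw [h2, phi_beta (phiC N) hφN φM hφM h]
    refine congrArg (fun z => PD (phiC N h) * z) (Finset.prod_congr rfl (fun c _ => ?_))
    rw [← phi_beta (phiC N) hφN φM hφM h]
    exact phi_conj (phiC N) hφN φM hφM u y hy (c : ℕ) h
  -- the fraction relations at level `N ℓ`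
  have r1 : P1 (phiC N X) * am (R1 bX) = am (R1 aX) := by
    rw [hP1, hR1, ← pullField_algebraMap, ← pullField_algebraMap, ← map_mul, habX]
  have rD : PD (phiC N h) * am (RD b) = am (RD a) := by
    rw [hPD, hRD, ← pullField_algebraMap, ← pullField_algebraMap, ← map_mul, hab]
  have rU : ∀ c : Fin ℓ, PU c (phiC N h) * am (RU c b) = am (RU c a) := by
    intro c
    rw [hPU, hRU]
    simp only
    rw [← pullField_algebraMap, ← pullField_algebraMap, ← map_mul, hab]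
  set astar : modRing ℂ (N * ℓ) := RD a * ∏ c : Fin ℓ, RU c a with hastar
  set bstar : modRing ℂ (N * ℓ) := RD b * ∏ c : Fin ℓ, RU c b with hbstar
  have rstar : φM (heckeAlphaBar ℂ N ℓ X) * am bstar = am astar := by
    rw [e2, hbstar, hastar, map_mul, map_mul, map_prod, map_prod, ← rD]
    rw [← Finset.prod_congr rfl (fun c _ => rU c), Finset.prod_mul_distrib]
    ring
  have hcross : am (R1 aX * bstar) = am (R1 bX * astar) := by
    rw [map_mul am (R1 aX) bstar, map_mul am (R1 bX) astar, ← r1, ← rstar, e1]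
    ring
  have hcross' : R1 aX * bstar = R1 bX * astar :=
    IsFractionRing.injective (modRing ℂ (N * ℓ)) (ModField ℂ (N * ℓ)) hcross
  -- pointwise values
  have hval1 : ∀ (g : modRing ℂ N) (τ : ℍ), ((R1 g : modRing ℂ (N * ℓ)) : ℍ → ℂ) τ
      = (g : ℍ → ℂ) τ := by
    intro g τ
    rw [hR1, pullRing_apply, utGL_one_smul']
  have hprodval : ∀ (g : modRing ℂ N) (τ : ℍ),
      ((RD g * ∏ c : Fin ℓ, RU c g : modRing ℂ (N * ℓ)) : ℍ → ℂ) τ
        = (g : ℍ → ℂ) (utGL ℓ 0 1 hℓ0 one_ne_zero • τ)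
          * ∏ c : Fin ℓ, (g : ℍ → ℂ) (utGL 1 (c : ℕ) ℓ one_ne_zero hℓ0 • τ) := by
    intro g τ
    rw [Subalgebra.coe_mul, Pi.mul_apply, hRD, pullRing_apply]
    congr 1
    rw [SubmonoidClass.coe_finset_prod, Finset.prod_apply]
    rfl
  have hpt : ∀ τ, (aX : ℍ → ℂ) τ * (bstar : ℍ → ℂ) τ = (bX : ℍ → ℂ) τ * (astar : ℍ → ℂ) τ := by
    intro τ
    have h1 := congrArg (fun g : modRing ℂ (N * ℓ) => (g : ℍ → ℂ) τ) hcross'
    simp only [Subalgebra.coe_mul, Pi.mul_apply, hval1] at h1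
    exact h1
  -- the products of the `W`
  set Q₁ : ℍ → ℂ := fun τ => W₁ (utGL ℓ 0 1 hℓ0 one_ne_zero • τ)
    * ∏ c : Fin ℓ, W₁ (utGL 1 (c : ℕ) ℓ one_ne_zero hℓ0 • τ) with hQ₁
  set Q₂ : ℍ → ℂ := fun τ => W₂ (utGL ℓ 0 1 hℓ0 one_ne_zero • τ)
    * ∏ c : Fin ℓ, W₂ (utGL 1 (c : ℕ) ℓ one_ne_zero hℓ0 • τ) with hQ₂
  have hQ : ∀ τ, (astar : ℍ → ℂ) τ * Q₂ τ = (bstar : ℍ → ℂ) τ * Q₁ τ := by
    intro τ
    rw [hastar, hbstar, hprodval a τ, hprodval b τ, hQ₁, hQ₂]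
    simp only
    have h1 := hW (utGL ℓ 0 1 hℓ0 one_ne_zero • τ)
    have h2 : ∏ c : Fin ℓ, ((a : ℍ → ℂ) (utGL 1 (c : ℕ) ℓ one_ne_zero hℓ0 • τ)
          * W₂ (utGL 1 (c : ℕ) ℓ one_ne_zero hℓ0 • τ))
        = ∏ c : Fin ℓ, ((b : ℍ → ℂ) (utGL 1 (c : ℕ) ℓ one_ne_zero hℓ0 • τ)
          * W₁ (utGL 1 (c : ℕ) ℓ one_ne_zero hℓ0 • τ)) :=
      Finset.prod_congr rfl (fun c _ => hW _)
    rw [Finset.prod_mul_distrib, Finset.prod_mul_distrib] at h2
    linear_combination (∏ c : Fin ℓ, (a : ℍ → ℂ) (utGL 1 (c : ℕ) ℓ one_ne_zero hℓ0 • τ))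
        * (∏ c : Fin ℓ, W₂ (utGL 1 (c : ℕ) ℓ one_ne_zero hℓ0 • τ)) * h1
      + (b : ℍ → ℂ) (utGL ℓ 0 1 hℓ0 one_ne_zero • τ)
        * W₁ (utGL ℓ 0 1 hℓ0 one_ne_zero • τ) * h2
  have hQ₁m : MDiff Q₁ := by
    rw [hQ₁]
    exact (mdiff_comp_utGL hW₁ ℓ 0 1 hℓ0 one_ne_zero).mul
      (mdiff_prod Finset.univ (fun (c : Fin ℓ) τ => W₁ (utGL 1 (c : ℕ) ℓ one_ne_zero hℓ0 • τ))
        (fun c _ => mdiff_comp_utGL hW₁ 1 (c : ℕ) ℓ one_ne_zero hℓ0))
  have hQ₂m : MDiff Q₂ := by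
    rw [hQ₂]
    exact (mdiff_comp_utGL hW₂ ℓ 0 1 hℓ0 one_ne_zero).mul
      (mdiff_prod Finset.univ (fun (c : Fin ℓ) τ => W₂ (utGL 1 (c : ℕ) ℓ one_ne_zero hℓ0 • τ))
        (fun c _ => mdiff_comp_utGL hW₂ 1 (c : ℕ) ℓ one_ne_zero hℓ0))
  -- `bstar` is not identically zero
  have hbstar0 : bstar ≠ 0 := by
    rw [hbstar]
    refine mul_ne_zero ?_ (Finset.prod_ne_zero_iff.mpr (fun c _ => ?_))
    · rw [hRD]
      exact (map_ne_zero_iff _ (pullRing_injective N (N * ℓ) ℓ 0 1 hℓ0 one_ne_zero hdvd_diag)).mpr hb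
    · rw [hRU]
      exact (map_ne_zero_iff _
        (pullRing_injective N (N * ℓ) 1 (c : ℕ) ℓ one_ne_zero hℓ0 hdvd_ut)).mpr hb
  have hbstar_ne : ∃ τ, (bstar : ℍ → ℂ) τ ≠ 0 := by
    by_contra hcon
    push_neg at hcon
    exact hbstar0 (Subtype.ext (funext hcon))
  -- cancellation
  have hzero : ∀ τ, (bstar : ℍ → ℂ) τ
      * ((aX : ℍ → ℂ) τ * Q₂ τ - (bX : ℍ → ℂ) τ * Q₁ τ) = 0 := by
    intro τ
    linear_combination (Q₂ τ) * hpt τ + ((bX : ℍ → ℂ) τ) * hQ τ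
  have hg : MDiff (fun τ => (aX : ℍ → ℂ) τ * Q₂ τ - (bX : ℍ → ℂ) τ * Q₁ τ) :=
    (aX.2.1.mul hQ₂m).sub (bX.2.1.mul hQ₁m)
  have hfin := cancel_mdiff bstar.2.1 hg hbstar_ne hzero
  intro τ
  beta_reduce
  rw [prod_famT N ℓ hℓN W₁ τ, prod_famT N ℓ hℓN W₂ τ]
  exact sub_eq_zero.mp (hfin τ)

end Fermat.Agent.S29.KumNorm
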