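import Fermat.Agent.S29_BDefs

/-!
# S29, bridge (B): shared definitions, part 2

`IsLevelForm` (holomorphic forms of weight `k` on `Γ(N)`, bounded at every cusp, as a predicate on
functions) and the Galois action on `Jp N p` as `𝔽_p`-linear maps.
-/

set_option autoImplicit false

noncomputable section

open UpperHalfPlane ModularCurve CongruenceSubgroup AlgebraicCurve
open scoped MatrixGroups Manifold ModularForm

namespace Fermat.Agent.S29

local notation "Qbar" => AlgebraicClosure ℚ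

/-- `W` is a holomorphic form of weight `k` on `Γ(N)`, bounded at every cusp (explicit automorphy
factor `(c τ + d) ^ k`, as in `IsTwisted.slash`). -/
structure IsLevelForm (N k : ℕ) (W : ℍ → ℂ) : Prop where
  mdiff : MDiff W
  slash : ∀ γ ∈ Gamma N, ∀ τ : ℍ, W (γ • τ)
    = (((γ 1 0 : ℤ) : ℂ) * (τ : ℂ) + ((γ 1 1 : ℤ) : ℂ)) ^ k * W τ
  bdd : ∀ δ : SL(2, ℤ), IsBoundedAtImInfty (W ∣[(k : ℤ)] δ)

/-- the action of `σ ∈ G_ℚ` on `Jp N p` as an additive map. -/
def galJpAdd (N p : ℕ) [NeZero N] (σ : Qbar ≃ₐ[ℚ] Qbar) : Jp N p →+ Jp N p :=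
  ((DistribMulAction.toAddMonoidHom (JZero N) σ).comp (Jp N p).subtype).codRestrict (Jp N p)
    (fun x => by
      show p • (DistribMulAction.toAddMonoidHom (JZero N) σ (x : JZero N)) = 0
      rw [← map_nsmul, show p • (x : JZero N) = 0 from x.2, map_zero])

/-- the action of `σ ∈ G_ℚ` on `Jp N p`, `𝔽_p`-linear. -/
def galJp (N p : ℕ) [NeZero N] (σ : Qbar ≃ₐ[ℚ] Qbar) : Jp N p →ₗ[ZMod p] Jp N p :=
  (galJpAdd N p σ).toZModLinearMap p

theorem coe_galJp (N p : ℕ) [NeZero N] (σ : Qbar ≃ₐ[ℚ] Qbar) (x : Jp N p) :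
    ((galJp N p σ x : Jp N p) : JZero N) = σ • (x : JZero N) := rfl

theorem galJp_one (N p : ℕ) [NeZero N] : galJp N p 1 = LinearMap.id := by
  refine LinearMap.ext fun x => Subtype.ext ?_
  rw [coe_galJp, one_smul]
  rfl

theorem galJp_mul (N p : ℕ) [NeZero N] (σ τ : Qbar ≃ₐ[ℚ] Qbar) :
    galJp N p (σ * τ) = (galJp N p σ).comp (galJp N p τ) := by
  refine LinearMap.ext fun x => Subtype.ext ?_
  rw [coe_galJp, mul_smul]
  rfl

end Fermat.Agent.S29
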