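import Mathlib
import Fermat.Agent.S24_Places
import Fermat.Agent.RR_LSpaceCore
import Fermat.Agent.S18_Charts

/-!
# S37 (RI-curve): divisors on a function field with a separating generator, any characteristic

`κ/k` a function field of one variable over an algebraically closed field `k` (any
characteristic), with a generator `x` such that `κ/k(x)` is finite separable.  Then

* `hasPrincipalDivisors` : principal divisors exist and have degree zero;
* `deg_eq_one`, `resConst`, `nonempty_place` : the residue fields are `k`, there is a place;
* `exists_poleDivisor` : the pole divisor of `x` has degree `[κ : k(x)]`;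
* `const_of_ord_eq_zero` : a function without zeros and poles is a constant.

The characteristic-zero versions are in `S24_Places`; the proofs here replace `CharZero` by the
separability of `κ/k(x)`.  For a general transcendental `f` (which need not be separating in
characteristic `p`) the degree of `div f` is obtained from the dichotomy "`f` or `f·x` is
separating", proved with derivations.
-/

set_option autoImplicit false
set_option linter.style.haveILetI false
set_option linter.unusedSectionVars false
set_option linter.deprecated false

noncomputable section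

open AlgebraicCurve Polynomial IsDedekindDomain

namespace Fermat.Agent.S37.CurveP

open Fermat.Agent.S24

section Rings

variable {K F : Type*} [Field K] [Field F] [Algebra K F] {x : F}

open IntermediateField algebraAdjoinAdjoin in
theorem isDedekindDomain_intRing (hx : IsGenerator K x)
    [Algebra.IsSeparable (IntermediateField.adjoin K {x}) F] :
    IsDedekindDomain (integralClosure (Algebra.adjoin K {x}) F) := by
  haveI := Places.isPrincipalIdealRing_adjoin hx.1
  haveI := hx.2
  exact integralClosure.isDedekindDomain (Algebra.adjoin K {x}) (IntermediateField.adjoin K {x}) F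

open IntermediateField algebraAdjoinAdjoin in
theorem finite_intRing (hx : IsGenerator K x)
    [Algebra.IsSeparable (IntermediateField.adjoin K {x}) F] :
    Module.Finite (Algebra.adjoin K {x}) (integralClosure (Algebra.adjoin K {x}) F) := by
  haveI := Places.isPrincipalIdealRing_adjoin hx.1
  haveI := hx.2
  exact IsIntegralClosure.finite (Algebra.adjoin K {x}) (IntermediateField.adjoin K {x}) F _

/-- transport of separability along an equality of intermediate fields -/
theorem isSeparable_of_eq {E₁ E₂ : IntermediateField K F} (h : E₁ = E₂)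
    [Algebra.IsSeparable E₁ F] : Algebra.IsSeparable E₂ F := by
  subst h; infer_instance

theorem isSeparable_adjoin_inv (x : F) [Algebra.IsSeparable (IntermediateField.adjoin K {x}) F] :
    Algebra.IsSeparable (IntermediateField.adjoin K {x⁻¹}) F :=
  isSeparable_of_eq (S18.Charts.adjoin_inv' x).symm

theorem finrank_adjoin_inv (x : F) :
    Module.finrank (IntermediateField.adjoin K {x⁻¹}) F
      = Module.finrank (IntermediateField.adjoin K {x}) F := by
  have key : ∀ E₁ E₂ : IntermediateField K F, E₁ = E₂ →
      Module.finrank E₁ F = Module.finrank E₂ F := by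
    rintro _ _ rfl; rfl
  exact key _ _ (S18.Charts.adjoin_inv' x)

theorem placesAt_inv_zero (x : F) : PlacesAt K x⁻¹ 0 = {v : Place K F | v.ord x < 0} := by
  ext v
  simp only [PlacesAt, Set.mem_setOf_eq, map_zero, sub_zero, Place.ord_inv]
  omega

end Rings

section Sum

variable {K F : Type*} [Field K] [IsAlgClosed K] [Field F] [Algebra K F] {x : F}

open IntermediateField algebraAdjoinAdjoin in
/-- the fundamental identity over a finite point -/
theorem sum_ord_placesAt_aux (hx : IsGenerator K x)
    [Algebra.IsSeparable (IntermediateField.adjoin K {x}) F] (x₀ : K)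
    (hfin : (PlacesAt K x x₀).Finite) :
    ∑ v ∈ hfin.toFinset, v.ord (x - algebraMap K F x₀)
      = (Module.finrank (IntermediateField.adjoin K {x}) F : ℤ) := by
  classical
  haveI := Places.isPrincipalIdealRing_adjoin hx.1
  haveI := isDedekindDomain_intRing hx
  haveI := Places.isFractionRing_intRing hx
  haveI := finite_intRing hx
  haveI := hx.2
  set p : Ideal (Algebra.adjoin K {x}) := Ideal.span {Places.xiR K x x₀} with hp
  have hp0 : p ≠ ⊥ := by
    rw [hp, Ne, Ideal.span_singleton_eq_bot]; exact Places.xiR_ne_zero hx.1 x₀
  haveI hpmax : p.IsMaximal :=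
    PrincipalIdealRing.isMaximal_of_irreducible (Places.irreducible_xiR hx.1 x₀)
  have hmap : p.map (algebraMap (Algebra.adjoin K {x}) (integralClosure (Algebra.adjoin K {x}) F))
      = Ideal.span {Places.xi K x x₀} := by
    rw [hp, Ideal.map_span, Set.image_singleton]; rfl
  have hmap0 : p.map (algebraMap (Algebra.adjoin K {x})
      (integralClosure (Algebra.adjoin K {x}) F)) ≠ ⊥ := by
    rw [hmap, Ne, Ideal.span_singleton_eq_bot]; exact Places.xi_ne_zero hx.1 x₀
  have hsum := Ideal.sum_ramification_inertia (R := Algebra.adjoin K {x})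
    (S := integralClosure (Algebra.adjoin K {x}) F) (IntermediateField.adjoin K {x}) F (p := p) hp0
  rw [← hsum, Nat.cast_sum]
  symm
  -- properties of the primes over `p`
  have hprop : ∀ P ∈ IsDedekindDomain.primesOverFinset p
      (integralClosure (Algebra.adjoin K {x}) F), P.IsPrime ∧ P.LiesOver p ∧ P ≠ ⊥ ∧
        Places.xi K x x₀ ∈ P := by
    intro P hP
    have hP' := (IsDedekindDomain.mem_primesOverFinset_iff hp0 _).mp hP
    obtain ⟨hprime, hlies⟩ := hP'
    have hxi : Places.xi K x x₀ ∈ P := by
      have h1 : Places.xiR K x x₀ ∈ p := Ideal.subset_span rfl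
      rw [hlies.over] at h1
      exact h1
    exact ⟨hprime, hlies, fun h => Places.xi_ne_zero hx.1 x₀ (by rw [h] at hxi; exact hxi), hxi⟩
  refine Finset.sum_bij
    (fun P hP => Place.ofHeightOneSpectrum (K := K) (F := F)
      ⟨P, (hprop P hP).1, (hprop P hP).2.2.1⟩) ?_ ?_ ?_ ?_
  · intro P hP
    rw [Set.Finite.mem_toFinset]
    exact (Places.mem_placesAt_ofHeightOneSpectrum_iff hx.1 x₀ _).mpr (hprop P hP).2.2.2
  · intro P hP Q hQ h
    exact congrArg HeightOneSpectrum.asIdeal
      (Places.ofHeightOneSpectrum_injective (K := K) (F := F) h)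
  · intro v hv
    rw [Set.Finite.mem_toFinset] at hv
    obtain ⟨w, hw, hmem⟩ := Places.exists_prime_of_mem_placesAt hx.1 x₀ v hv
    have hlies : w.asIdeal.LiesOver p := by
      constructor
      have hle : p ≤ w.asIdeal.under (Algebra.adjoin K {x}) := by
        rw [hp, Ideal.span_le, Set.singleton_subset_iff]
        exact hmem
      exact hpmax.eq_of_le (Ideal.IsPrime.under _ _).ne_top hle
    have hmemP : w.asIdeal ∈ IsDedekindDomain.primesOverFinset p
        (integralClosure (Algebra.adjoin K {x}) F) :=
      (IsDedekindDomain.mem_primesOverFinset_iff hp0 _).mpr ⟨w.isPrime, hlies⟩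
    exact ⟨w.asIdeal, hmemP, hw⟩
  · intro P hP
    obtain ⟨hprime, hlies, hne, hxi⟩ := hprop P hP
    haveI := hprime
    haveI := hlies
    rw [Places.inertiaDeg_eq_one hx p P hne, mul_one,
      Ideal.IsDedekindDomain.ramificationIdx'_eq_multiplicity hmap0 hprime, hmap,
      ← Places.ord_ofHeightOneSpectrum_algebraMap (K := K) (F := F) ⟨P, hprime, hne⟩
        (Places.xi_ne_zero hx.1 x₀),
      Places.algebraMap_xi]

theorem finite_placesAt (hx : IsGenerator K x)
    [Algebra.IsSeparable (IntermediateField.adjoin K {x}) F] (x₀ : K) :
    (PlacesAt K x x₀).Finite := by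
  haveI := isDedekindDomain_intRing hx
  haveI := Places.isFractionRing_intRing hx
  exact Places.finite_placesAt_aux hx.1 x₀

/-- fundamental identity `∑ e_v = [F : K(x)]` over a finite point. -/
theorem sum_ord_placesAt (hx : IsGenerator K x)
    [Algebra.IsSeparable (IntermediateField.adjoin K {x}) F] (x₀ : K) :
    ∑ v ∈ (finite_placesAt hx x₀).toFinset, v.ord (x - algebraMap K F x₀)
      = (Module.finrank (IntermediateField.adjoin K {x}) F : ℤ) :=
  sum_ord_placesAt_aux hx x₀ (finite_placesAt hx x₀)

theorem finite_poles (hx : IsGenerator K x)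
    [Algebra.IsSeparable (IntermediateField.adjoin K {x}) F] :
    {v : Place K F | v.ord x < 0}.Finite := by
  haveI := isSeparable_adjoin_inv (K := K) x
  have h := finite_placesAt
    (Places.isGenerator_of_transcendental hx (S18.Charts.transcendental_inv' hx.1)) (0 : K)
  rwa [placesAt_inv_zero] at h

/-- fundamental identity over the point at infinity. -/
theorem sum_ord_poles (hx : IsGenerator K x)
    [Algebra.IsSeparable (IntermediateField.adjoin K {x}) F] :
    ∑ v ∈ (finite_poles hx).toFinset, v.ord x
      = -(Module.finrank (IntermediateField.adjoin K {x}) F : ℤ) := by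
  haveI := isSeparable_adjoin_inv (K := K) x
  have hx' := Places.isGenerator_of_transcendental hx (S18.Charts.transcendental_inv' hx.1)
  have h := sum_ord_placesAt hx' (0 : K)
  have hset : (finite_placesAt hx' (0 : K)).toFinset = (finite_poles hx).toFinset := by
    ext v
    rw [Set.Finite.mem_toFinset, Set.Finite.mem_toFinset, placesAt_inv_zero]
  rw [hset, finrank_adjoin_inv] at h
  simp only [map_zero, sub_zero, Place.ord_inv, Finset.sum_neg_distrib] at h
  omega

/-- the divisor of a separating generator exists and has degree zero -/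
theorem exists_divisor_of_sepGen {f : F} (hf' : IsGenerator K f)
    [Algebra.IsSeparable (IntermediateField.adjoin K {f}) F] :
    ∃ D : Divisor K F, (∀ v : Place K F, D v = v.ord f) ∧ Divisor.degree D = 0 := by
  classical
  have hZmem : ∀ v, v ∈ (finite_placesAt hf' (0 : K)).toFinset ↔ 0 < v.ord f := by
    intro v
    rw [Set.Finite.mem_toFinset]
    simp [PlacesAt]
  have hPmem : ∀ v, v ∈ (finite_poles hf').toFinset ↔ v.ord f < 0 := by
    intro v
    rw [Set.Finite.mem_toFinset]
    rfl
  have hdisj : Disjoint (finite_placesAt hf' (0 : K)).toFinset (finite_poles hf').toFinset := by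
    rw [Finset.disjoint_left]
    intro v h1 h2
    rw [hZmem] at h1
    rw [hPmem] at h2
    omega
  refine ⟨Finsupp.onFinset
    ((finite_placesAt hf' (0 : K)).toFinset ∪ (finite_poles hf').toFinset)
    (fun v => v.ord f) (fun v hv => ?_), fun v => rfl, ?_⟩
  · rw [Finset.mem_union, hZmem, hPmem]
    omega
  · have hdeg : ∀ D : Divisor K F, Divisor.degree D = D.sum fun v n => n * (v.deg : ℤ) := by
      intro D
      simp [Divisor.degree, Finsupp.liftAddHom_apply]
    rw [hdeg, Finsupp.onFinset_sum _ (fun v => by simp), Finset.sum_union hdisj]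
    have h1 := sum_ord_placesAt hf' (0 : K)
    have h2 := sum_ord_poles hf'
    simp only [map_zero, sub_zero] at h1
    simp only [Places.deg_eq_one hf', Nat.cast_one, mul_one]
    rw [h1, h2]
    ring

end Sum

section Deriv

variable {K F : Type*} [Field K] [Field F] [Algebra K F]

/-- a `K`-derivation of `F` killing `x` vanishes when `F/K(x)` is separable. -/
theorem derivation_eq_zero_of_isSeparable {x : F}
    [Algebra.IsSeparable (IntermediateField.adjoin K {x}) F]
    (D : Derivation K F F) (hDx : D x = 0) : D = 0 := by
  have hker : ∀ a ∈ IntermediateField.adjoin K {x}, D a = 0 := by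
    intro a ha
    induction ha using IntermediateField.adjoin_induction with
    | mem a ha => rw [Set.mem_singleton_iff.mp ha]; exact hDx
    | algebraMap c => exact D.map_algebraMap c
    | add a b _ _ ha hb => rw [map_add, ha, hb, add_zero]
    | inv a _ ha => rw [Derivation.leibniz_inv, ha, smul_zero]
    | mul a b _ _ ha hb => rw [Derivation.leibniz, ha, hb, smul_zero, smul_zero, add_zero]
  let D' : Derivation (IntermediateField.adjoin K {x}) F F :=
    { toFun := D
      map_add' := fun a b => map_add D a b
      map_smul' := fun c a => by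
        show D (c • a) = c • D a
        have hc : D ((algebraMap (IntermediateField.adjoin K {x}) F) c) = 0 := hker _ c.2
        rw [Algebra.smul_def, Derivation.leibniz, hc, smul_zero, add_zero,
          Algebra.smul_def]
        rfl
      map_one_eq_zero' := D.map_one_eq_zero
      leibniz' := fun a b => D.leibniz a b }
  ext a
  have hsep : (minpoly (IntermediateField.adjoin K {x}) a).Separable :=
    Algebra.IsSeparable.isSeparable (IntermediateField.adjoin K {x}) a
  have h1 := D'.map_aeval (minpoly (IntermediateField.adjoin K {x}) a) a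
  rw [minpoly.aeval, map_zero] at h1
  have h2 : aeval a (derivative (minpoly (IntermediateField.adjoin K {x}) a)) ≠ 0 :=
    hsep.aeval_derivative_ne_zero (minpoly.aeval _ a)
  have h3 : D' a = 0 := by
    rcases smul_eq_zero.mp h1.symm with h | h
    · exact absurd h h2
    · exact h
  exact h3

/-- if `F/K(g)` is finite and not separable there is a nonzero `K`-derivation killing `g`. -/
theorem exists_derivation_of_not_isSeparable {g : F}
    [FiniteDimensional (IntermediateField.adjoin K {g}) F]
    (hns : ¬ Algebra.IsSeparable (IntermediateField.adjoin K {g}) F) :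
    ∃ D : Derivation K F F, D ≠ 0 ∧ D g = 0 := by
  have hnu : ¬ Algebra.FormallyUnramified (IntermediateField.adjoin K {g}) F := fun h =>
    hns (Algebra.FormallyUnramified.isSeparable (IntermediateField.adjoin K {g}) F)
  have hΩ : ¬ Subsingleton (Ω[F⁄(IntermediateField.adjoin K {g})]) := fun h => hnu ⟨h⟩
  rw [not_subsingleton_iff_nontrivial] at hΩ
  obtain ⟨ω, hω⟩ := exists_ne (0 : Ω[F⁄(IntermediateField.adjoin K {g})])
  have hφ : ∃ φ : Module.Dual F (Ω[F⁄(IntermediateField.adjoin K {g})]), φ ω ≠ 0 := by
    by_contra hcon
    push_neg at hcon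
    exact hω ((Module.forall_dual_apply_eq_zero_iff F ω).mp hcon)
  obtain ⟨φ, hφ⟩ := hφ
  let D' : Derivation (IntermediateField.adjoin K {g}) F F :=
    KaehlerDifferential.linearMapEquivDerivation (IntermediateField.adjoin K {g}) F φ
  have hD' : D' ≠ 0 := by
    intro h
    have : φ = 0 := by
      apply (KaehlerDifferential.linearMapEquivDerivation (IntermediateField.adjoin K {g}) F).injective
      rw [map_zero]
      exact h
    rw [this] at hφ
    exact hφ rfl
  refine ⟨D'.restrictScalars K, ?_, ?_⟩
  · intro h
    apply hD'
    ext a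
    have := congrArg (fun D : Derivation K F F => D a) h
    exact this
  · have : D' (algebraMap (IntermediateField.adjoin K {g}) F
        ⟨g, IntermediateField.mem_adjoin_simple_self K g⟩) = 0 := D'.map_algebraMap _
    exact this

/-- for a separating `x` and `f ≠ 0`: `f` or `f * x` is separating. -/
theorem isSeparable_or_isSeparable_mul {x f : F}
    [Algebra.IsSeparable (IntermediateField.adjoin K {x}) F]
    [FiniteDimensional (IntermediateField.adjoin K {f}) F]
    [FiniteDimensional (IntermediateField.adjoin K {f * x}) F] (hf : f ≠ 0) :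
    Algebra.IsSeparable (IntermediateField.adjoin K {f}) F ∨
      Algebra.IsSeparable (IntermediateField.adjoin K {f * x}) F := by
  by_contra hcon
  push_neg at hcon
  obtain ⟨D1, hD1, hD1f⟩ := exists_derivation_of_not_isSeparable hcon.1
  obtain ⟨D2, hD2, hD2fx⟩ := exists_derivation_of_not_isSeparable hcon.2
  have h1x : D1 x ≠ 0 := fun h => hD1 (derivation_eq_zero_of_isSeparable D1 h)
  have h2x : D2 x ≠ 0 := fun h => hD2 (derivation_eq_zero_of_isSeparable D2 h)
  have h3 : (D1 x) • D2 - (D2 x) • D1 = 0 :=
    derivation_eq_zero_of_isSeparable (x := x) _ (by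
      simp only [Derivation.sub_apply, Derivation.smul_apply, smul_eq_mul]
      ring)
  have h4 := congrArg (fun D : Derivation K F F => D (f * x)) h3
  simp only [Derivation.sub_apply, Derivation.smul_apply, smul_eq_mul, hD2fx, mul_zero,
    zero_sub, Derivation.zero_apply, neg_eq_zero, mul_eq_zero] at h4
  rcases h4 with h4 | h4
  · exact h2x h4
  · rw [Derivation.leibniz, hD1f, smul_zero, add_zero, smul_eq_mul, mul_eq_zero] at h4
    rcases h4 with h4 | h4
    · exact hf h4
    · exact h1x h4

end Deriv

section Final

variable {K F : Type*} [Field K] [IsAlgClosed K] [Field F] [Algebra K F]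

/-- principal divisors exist and have degree zero (any characteristic, `x` separating). -/
theorem hasPrincipalDivisors {x : F} (hx : IsGenerator K x)
    [Algebra.IsSeparable (IntermediateField.adjoin K {x}) F] : HasPrincipalDivisors K F := by
  classical
  have hx0 : x ≠ 0 := fun h => hx.1 (by rw [h]; exact isAlgebraic_zero)
  refine ⟨fun f hf0 => ?_⟩
  by_cases hft : Transcendental K f
  · have hf' := Places.isGenerator_of_transcendental hx hft
    haveI := hf'.2
    by_cases hfx : Transcendental K (f * x)
    · have hfx' := Places.isGenerator_of_transcendental hx hfx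
      haveI := hfx'.2
      rcases isSeparable_or_isSeparable_mul (K := K) (x := x) hf0 with h | h
      · haveI := h
        exact exists_divisor_of_sepGen hf'
      · haveI := h
        obtain ⟨D1, hD1, hd1⟩ := exists_divisor_of_sepGen hfx'
        obtain ⟨D2, hD2, hd2⟩ := exists_divisor_of_sepGen hx
        refine ⟨D1 - D2, fun v => ?_, ?_⟩
        · rw [Finsupp.sub_apply, hD1, hD2, v.ord_mul hf0 hx0]
          ring
        · rw [map_sub, hd1, hd2, sub_zero]
    · obtain ⟨c, hc⟩ := Places.exists_algebraMap_eq_of_isAlgebraic (not_not.mp hfx)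
      obtain ⟨D2, hD2, hd2⟩ := exists_divisor_of_sepGen hx
      refine ⟨-D2, fun v => ?_, ?_⟩
      · have h0 : v.ord (f * x) = 0 := by rw [← hc, Places.ord_algebraMap]
        rw [v.ord_mul hf0 hx0] at h0
        rw [Finsupp.neg_apply, hD2]
        omega
      · rw [map_neg, hd2, neg_zero]
  · obtain ⟨c, rfl⟩ := Places.exists_algebraMap_eq_of_isAlgebraic (not_not.mp hft)
    exact ⟨0, fun v => by rw [Places.ord_algebraMap]; rfl, map_zero _⟩

/-- every place has degree one. -/
theorem deg_eq_one {x : F} (hx : IsGenerator K x) (v : Place K F) : v.deg = 1 :=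
  Places.deg_eq_one hx v

/-- the residue hypothesis of `RR_LSpaceCore`. -/
theorem resConst {x : F} (hx : IsGenerator K x) : RR.LCore.ResConst K F :=
  fun v a => Places.exists_sub_mem_maximalIdeal hx v a

/-- a function field has a place. -/
theorem nonempty_place {x : F} (hx : IsGenerator K x)
    [Algebra.IsSeparable (IntermediateField.adjoin K {x}) F] : Nonempty (Place K F) := by
  have := hx.2
  have hnpos : 0 < Module.finrank (IntermediateField.adjoin K {x}) F := Module.finrank_pos
  have hsum := sum_ord_poles hx
  by_contra hcon
  rw [not_nonempty_iff] at hcon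
  have : (finite_poles hx).toFinset = ∅ := Finset.eq_empty_of_isEmpty _
  rw [this, Finset.sum_empty] at hsum
  omega

/-- the pole divisor of the generator. -/
theorem exists_poleDivisor {x : F} (hx : IsGenerator K x)
    [Algebra.IsSeparable (IntermediateField.adjoin K {x}) F] :
    ∃ H : Divisor K F, (∀ v : Place K F, H v = max 0 (-(v.ord x))) ∧
      Divisor.degree H = (Module.finrank (IntermediateField.adjoin K {x}) F : ℤ) := by
  classical
  have hfin := finite_poles hx
  let H : Divisor K F := Finsupp.onFinset hfin.toFinset (fun v => max 0 (-(v.ord x)))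
    (fun v hv => by
      rw [Set.Finite.mem_toFinset]
      show v.ord x < 0
      by_contra hcon
      exact hv (max_eq_left (by omega)))
  refine ⟨H, fun v => rfl, ?_⟩
  have hdeg : Divisor.degree H = H.sum fun v n => n * (v.deg : ℤ) := by
    simp [Divisor.degree, Finsupp.liftAddHom_apply]
  rw [hdeg, Finsupp.onFinset_sum _ (fun v => by simp)]
  have h2 := sum_ord_poles hx
  have h3 : ∀ v ∈ hfin.toFinset, max 0 (-(v.ord x)) * (v.deg : ℤ) = -(v.ord x) := by
    intro v hv
    rw [Set.Finite.mem_toFinset] at hv
    have hv' : v.ord x < 0 := hv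
    rw [Places.deg_eq_one hx, Nat.cast_one, mul_one, max_eq_right (by omega)]
  rw [Finset.sum_congr rfl h3, Finset.sum_neg_distrib, h2, neg_neg]

/-- a function without zeros and poles is a constant. -/
theorem const_of_ord_eq_zero {x : F} (hx : IsGenerator K x)
    [Algebra.IsSeparable (IntermediateField.adjoin K {x}) F] (s : F)
    (hs : ∀ v : Place K F, v.ord s = 0) : ∃ c : K, s = algebraMap K F c := by
  haveI := hx.2
  have halg : IsAlgebraic K s :=
    S18.Charts.isAlgebraic_of_forall_ord_nonneg x hx.1 s (fun v => (hs v).ge)
  obtain ⟨c, hc⟩ := Places.exists_algebraMap_eq_of_isAlgebraic halg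
  exact ⟨c, hc.symm⟩

/-- a function without poles is a constant. -/
theorem const_of_ord_nonneg {x : F} (hx : IsGenerator K x)
    [Algebra.IsSeparable (IntermediateField.adjoin K {x}) F] (s : F)
    (hs : ∀ v : Place K F, 0 ≤ v.ord s) : ∃ c : K, s = algebraMap K F c := by
  haveI := hx.2
  have halg : IsAlgebraic K s :=
    S18.Charts.isAlgebraic_of_forall_ord_nonneg x hx.1 s hs
  obtain ⟨c, hc⟩ := Places.exists_algebraMap_eq_of_isAlgebraic halg
  exact ⟨c, hc.symm⟩

end Final

end Fermat.Agent.S37.CurveP
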