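import Mathlib
import Fermat.Prelude.Def_AlgebraicCurve_Correspondence
import Fermat.Agent.RR_PlaceExt

/-!
# S37, (H): the fundamental identity for a finite extension of function fields

For a finite extension `F'/F` of function fields over an algebraically closed field `K` of
characteristic zero (`F` has a generator `x`), the Prelude's `FundamentalIdentity K F F'` holds:
`∑_{w | v} e(w | v) * deg w = [F' : F] * deg v`.  This is `RR.PlaceExt.sum_ramification_fiber`
transported to the Prelude's `Place.restrict`, `Place.ramificationIndex`, `Place.fiber`.
-/

set_option autoImplicit false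
set_option linter.style.haveILetI false

noncomputable section

open AlgebraicCurve Fermat.Agent.S24

namespace Fermat.Agent.S37.FundId

section General

variable {K F F' : Type*} [Field K] [IsAlgClosed K] [CharZero K] [Field F] [Field F']
  [Algebra K F] [Algebra K F'] [Algebra F F'] [IsScalarTower K F F'] [FiniteDimensional F F']

/-- the sum of the ramification indices over a place is the degree of the extension -/
theorem sum_ramificationIndex [HasPrincipalDivisors K F'] {x : F} (hx : IsGenerator K x)
    (v : Place K F) :
    ∑ w ∈ v.fiber F', (w.ramificationIndex F : ℤ) = (Module.finrank F F' : ℤ) := by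
  classical
  obtain ⟨hfin, hsum⟩ := Fermat.Agent.RR.PlaceExt.sum_ramification_fiber (L := F') hx
    (fun w : Place K F' => w.restrict F) (fun w : Place K F' => w.ramificationIndex F)
    (fun w => ⟨w.ramificationIndex_pos (F := F), fun f _ => w.ord_restrict f⟩) v
  have hfib : v.fiber F' = hfin.toFinset := by
    ext w
    rw [Place.mem_fiber, Set.Finite.mem_toFinset, Set.mem_ofPred_eq]
  rw [hfib, ← hsum, Nat.cast_sum]

/-- all inertia degrees are one -/
theorem inertiaDeg_eq_one {x : F} (hx : IsGenerator K x) (w : Place K F') :
    w.inertiaDeg F = 1 := by
  have h := w.deg_restrict_mul_inertiaDeg (F := F)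
  rw [Places.deg_eq_one hx (w.restrict F),
    Places.deg_eq_one (Fermat.Agent.RR.isGenerator_algebraMap (L := F') hx) w, one_mul] at h
  exact h

/-- `∑ e f = n` in the Prelude's formalism -/
theorem sumRamificationInertia [HasPrincipalDivisors K F'] {x : F} (hx : IsGenerator K x) :
    SumRamificationInertia K F F' where
  sum_ramificationIndex_mul_inertiaDeg v := by
    rw [← sum_ramificationIndex hx v]
    refine Finset.sum_congr rfl fun w _ => ?_
    rw [inertiaDeg_eq_one hx w, Nat.cast_one, mul_one]

/-- the fundamental identity in the Prelude's formalism -/
theorem fundamentalIdentity [HasPrincipalDivisors K F'] {x : F} (hx : IsGenerator K x) :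
    FundamentalIdentity K F F' where
  sum_ramificationIndex_mul_deg v := by
    rw [Places.deg_eq_one hx v, Nat.cast_one, mul_one, ← sum_ramificationIndex hx v]
    refine Finset.sum_congr rfl fun w _ => ?_
    rw [Places.deg_eq_one (Fermat.Agent.RR.isGenerator_algebraMap (L := F') hx) w, Nat.cast_one,
      mul_one]

end General

section Along

variable {K F F' : Type*} [Field K] [IsAlgClosed K] [CharZero K] [Field F] [Field F']
  [Algebra K F] [Algebra K F']

/-- the fundamental identity along an embedding of function fields -/
theorem fundamentalIdentityAlong [HasPrincipalDivisors K F'] (φ : F →ₐ[K] F')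
    (hφ : φ.toRingHom.IsIntegral) (hfin : FiniteAlong K φ) {x : F} (hx : IsGenerator K x) :
    FundamentalIdentityAlong K φ hφ := by
  letI := algebraAlong φ
  haveI := isScalarTower_along φ
  haveI : FiniteDimensional F F' := hfin
  exact fundamentalIdentity hx

omit [IsAlgClosed K] [CharZero K] in
/-- an embedding of function fields is finite as soon as the image of some element generates -/
theorem finiteAlong_of_isGenerator (φ : F →ₐ[K] F') {x : F} (hx' : IsGenerator K (φ x)) :
    FiniteAlong K φ := by
  letI := algebraAlong φ
  haveI := isScalarTower_along φ
  show Module.Finite F F'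
  haveI : FiniteDimensional (IntermediateField.adjoin K {algebraMap F F' x}) F' := hx'.2
  letI : Algebra (IntermediateField.adjoin K {x})
      (IntermediateField.adjoin K {algebraMap F F' x}) :=
    (Fermat.Agent.RR.PlaceExt.adjoinMap (K := K) (L := F') x).toAlgebra
  haveI : IsScalarTower (IntermediateField.adjoin K {x})
      (IntermediateField.adjoin K {algebraMap F F' x}) F' :=
    IsScalarTower.of_algebraMap_eq (fun a => rfl)
  haveI : Module.Finite (IntermediateField.adjoin K {x})
      (IntermediateField.adjoin K {algebraMap F F' x}) :=
    Module.Finite.of_surjective (Algebra.linearMap (IntermediateField.adjoin K {x})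
      (IntermediateField.adjoin K {algebraMap F F' x}))
      (Fermat.Agent.RR.PlaceExt.adjoinMap_surjective (K := K) (L := F') x)
  haveI : Module.Finite (IntermediateField.adjoin K {x}) F' :=
    Module.Finite.trans (IntermediateField.adjoin K {algebraMap F F' x}) F'
  exact Module.Finite.of_restrictScalars_finite (IntermediateField.adjoin K {x}) F F'

end Along

end Fermat.Agent.S37.FundId
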