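import Mathlib
import Fermat.Prelude.Def_ModularCurve_ReductionModL
import Fermat.Agent.RR_Riemann
import Fermat.Agent.RR_IntVal
import Fermat.Agent.S24_Main

/-!
# S37 (G), part 1: rigidity and uniqueness of place reductions

* `rigid_general`: on a function field `F/K` (`K` algebraically closed of characteristic zero)
  an additive map `Div(F) → ℤ` which kills the principal divisors and is bounded on places kills
  every divisor of degree zero.  (For `n ≥ 1` the divisor `n • D + g' • P₀` is linearly
  equivalent to an effective divisor of degree `g'` by Riemann's inequality, so `n * δ D` is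
  bounded independently of `n`.)  This replaces the divisibility of `Pic⁰`.
* `rigid`, `rigid_div`: the same for the function field of `X₀(N)` over `ℚ̄`.
* `isPlaceReduction_unique`: a place reduction `r` in the sense of the prelude
  (`IsPlaceReductionAlong`) is unique.
-/

set_option autoImplicit false
set_option linter.style.haveILetI false
set_option linter.unusedSectionVars false

noncomputable section

open ModularCurve AlgebraicCurve HahnSeries

namespace Fermat.Agent.S37.Gal

/-! ## (R) rigidity -/

section General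

variable {K F : Type*} [Field K] [Field F] [Algebra K F]

/-- an additive map on divisors is determined by its values on places. -/
theorem hom_eq_sum (φ : Divisor K F →+ ℤ) (E : Divisor K F) :
    φ E = ∑ v ∈ E.support, E v * φ (Finsupp.single v 1) := by
  conv_lhs => rw [← Finsupp.sum_single E]
  rw [Finsupp.sum, map_sum]
  refine Finset.sum_congr rfl fun v _ => ?_
  have h : Finsupp.single v (E v) = E v • (Finsupp.single v 1 : Divisor K F) := by
    rw [Finsupp.smul_single, smul_eq_mul, mul_one]
  rw [h, map_zsmul, smul_eq_mul]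

/-- the bound on effective divisors. -/
theorem abs_le_of_effective (hdeg : ∀ v : Place K F, v.deg = 1) (δ : Divisor K F →+ ℤ) (C : ℤ)
    (hC : ∀ P : Place K F, |δ (Finsupp.single P 1)| ≤ C) (E : Divisor K F)
    (hE : ∀ v, 0 ≤ E v) : |δ E| ≤ C * Divisor.degree E := by
  have h1 := hom_eq_sum δ E
  have h2 := hom_eq_sum (Divisor.degree (K := K) (F := F)) E
  have h3 : Divisor.degree E = ∑ v ∈ E.support, E v := by
    rw [h2]
    refine Finset.sum_congr rfl fun v _ => ?_
    rw [Divisor.degree_single, hdeg]
    simp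
  rw [h1, h3, Finset.mul_sum]
  refine (Finset.abs_sum_le_sum_abs _ _).trans (Finset.sum_le_sum fun v _ => ?_)
  rw [abs_mul, abs_of_nonneg (hE v), mul_comm]
  exact mul_le_mul_of_nonneg_right (hC v) (hE v)

end General

/-- **Rigidity (general).** `K` algebraically closed of characteristic zero, `F/K` a function
field with a generator.  An additive map `Div(F) → ℤ` which kills principal divisors and is
bounded on places kills all divisors of degree zero. -/
theorem rigid_general {K F : Type*} [Field K] [IsAlgClosed K] [CharZero K] [Field F] [Algebra K F]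
    {x : F} (hx : Fermat.Agent.S24.IsGenerator K x)
    (δ : Divisor K F →+ ℤ) (C : ℤ)
    (hC : ∀ P : Place K F, |δ (Finsupp.single P 1)| ≤ C)
    (hprin : ∀ D ∈ Divisor.principal (K := K) (F := F), δ D = 0)
    (D : Divisor K F) (hD : D ∈ Divisor.degZero (K := K) (F := F)) : δ D = 0 := by
  classical
  obtain ⟨γ, hγ⟩ := Fermat.Agent.RR.exists_riemann_bound hx
  have hdeg := Fermat.Agent.S24.Places.deg_eq_one hx
  have hpr := Fermat.Agent.S24.Places.hasPrincipalDivisors hx
  obtain ⟨P₀⟩ := Fermat.Agent.RR.nonempty_place_of_isGenerator hx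
  set g' : ℕ := (γ + 1).toNat with hg'def
  have hg' : γ + 1 ≤ (g' : ℤ) := Int.self_le_toNat _
  have hC0 : 0 ≤ C := le_trans (abs_nonneg _) (hC P₀)
  have key : ∀ n : ℕ, |(n : ℤ) * δ D| ≤ 2 * C * g' := by
    intro n
    set D' : Divisor K F := n • D + g' • Finsupp.single P₀ 1 with hD'
    have hdegD' : Divisor.degree D' = g' := by
      rw [hD', map_add, map_nsmul, map_nsmul, Divisor.mem_degZero.mp hD, Divisor.degree_single,
        hdeg]
      simp
    have hfin : 0 < Module.finrank K (Fermat.Agent.RR.LSpace K F D') := by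
      have := hγ D'
      rw [hdegD'] at this
      omega
    obtain ⟨f, hf⟩ : ∃ f : Fermat.Agent.RR.LSpace K F D', f ≠ 0 := by
      haveI : Nontrivial (Fermat.Agent.RR.LSpace K F D') := Module.nontrivial_of_finrank_pos hfin
      exact exists_ne 0
    have hf0 : (f : F) ≠ 0 := fun h => hf (Subtype.ext h)
    have hfL := (Fermat.Agent.RR.mem_LSpace.mp f.2).resolve_left hf0
    obtain ⟨Df, hDf, hDf0⟩ := hpr.exists_divisor (f : F) hf0
    have hDfprin : Df ∈ Divisor.principal (K := K) (F := F) := ⟨f, hf0, hDf⟩
    set E : Divisor K F := Df + D' with hE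
    have hEeff : ∀ v, 0 ≤ E v := fun v => by
      rw [hE, Finsupp.add_apply, hDf v]
      exact hfL v
    have hEdeg : Divisor.degree E = g' := by rw [hE, map_add, hDf0, zero_add, hdegD']
    have hb := abs_le_of_effective hdeg δ C hC E hEeff
    rw [hEdeg] at hb
    have hδE : δ E = n * δ D + g' * δ (Finsupp.single P₀ 1) := by
      rw [hE, map_add, hprin Df hDfprin, zero_add, hD', map_add, map_nsmul, map_nsmul]
      simp
    have hb2 := hC P₀
    have e : (n : ℤ) * δ D = δ E - g' * δ (Finsupp.single P₀ 1) := by rw [hδE]; ring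
    rw [e]
    have hb3 : |(g' : ℤ) * δ (Finsupp.single P₀ 1)| ≤ g' * C := by
      rw [abs_mul, Nat.abs_cast]
      exact mul_le_mul_of_nonneg_left hb2 (Int.natCast_nonneg _)
    calc |δ E - g' * δ (Finsupp.single P₀ 1)|
        ≤ |δ E| + |(g' : ℤ) * δ (Finsupp.single P₀ 1)| := abs_sub _ _
      _ ≤ C * g' + g' * C := add_le_add hb hb3
      _ = 2 * C * g' := by ring
  by_contra hne
  have h1 : 1 ≤ |δ D| := Int.one_le_abs hne
  have hB : 0 ≤ 2 * C * (g' : ℤ) := by positivity
  have h2 := key (2 * C * g' + 1).toNat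
  have h3 : (((2 * C * g' + 1).toNat : ℕ) : ℤ) = 2 * C * g' + 1 := Int.toNat_of_nonneg (by omega)
  rw [h3, abs_mul, abs_of_nonneg (by omega : (0 : ℤ) ≤ 2 * C * g' + 1)] at h2
  nlinarith

/-- **Rigidity (general), divisor-valued form.** -/
theorem rigid_general_div {K F : Type*} [Field K] [IsAlgClosed K] [CharZero K] [Field F]
    [Algebra K F] {K' F' : Type*} [Field K'] [Field F'] [Algebra K' F']
    {x : F} (hx : Fermat.Agent.S24.IsGenerator K x)
    (δ : Divisor K F →+ Divisor K' F') (C : ℤ)
    (hC : ∀ (P : Place K F) (Q : Place K' F'), |δ (Finsupp.single P 1) Q| ≤ C)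
    (hprin : ∀ D ∈ Divisor.principal (K := K) (F := F), δ D = 0)
    (D : Divisor K F) (hD : D ∈ Divisor.degZero (K := K) (F := F)) : δ D = 0 := by
  ext Q
  rw [Finsupp.zero_apply]
  have h := rigid_general hx ((Finsupp.applyAddHom Q).comp δ) C (fun P => hC P Q)
    (fun E hE => by
      show δ E Q = 0
      rw [hprin E hE, Finsupp.zero_apply]) D hD
  exact h

/-- the `j`-function generates the function field of `X₀(N)` over `ℚ̄`. -/
theorem exists_isGenerator_bar (N : ℕ) [NeZero N] :
    ∃ x : modularFunctionFieldBar N, Fermat.Agent.S24.IsGenerator (AlgebraicClosure ℚ) x := by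
  haveI : Algebra.IsAlgebraic ℚ (AlgebraicClosure ℚ) := AlgebraicClosure.isAlgebraic ℚ
  letI : Algebra (AlgebraicClosure ℚ) ℂ :=
    (IsAlgClosed.lift : AlgebraicClosure ℚ →ₐ[ℚ] ℂ).toRingHom.toAlgebra
  exact ⟨_, (Fermat.Agent.S24.modular_counts (AlgebraicClosure ℚ) N).1⟩

/-- all places of `X₀(N)/ℚ̄` have degree one. -/
theorem deg_eq_one_bar (N : ℕ) [NeZero N]
    (P : Place (AlgebraicClosure ℚ) (modularFunctionFieldBar N)) : P.deg = 1 := by
  obtain ⟨x, hx⟩ := exists_isGenerator_bar N
  exact Fermat.Agent.S24.Places.deg_eq_one hx P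

/-- principal divisors exist on `X₀(N)/ℚ̄`. -/
theorem hasPrincipalDivisors_bar (N : ℕ) [NeZero N] :
    HasPrincipalDivisors (AlgebraicClosure ℚ) (modularFunctionFieldBar N) := by
  obtain ⟨x, hx⟩ := exists_isGenerator_bar N
  exact Fermat.Agent.S24.Places.hasPrincipalDivisors hx

/-- **Rigidity for `X₀(N)/ℚ̄`.** -/
theorem rigid (N : ℕ) [NeZero N]
    (δ : Divisor (AlgebraicClosure ℚ) (modularFunctionFieldBar N) →+ ℤ) (C : ℤ)
    (hC : ∀ P : Place (AlgebraicClosure ℚ) (modularFunctionFieldBar N),
      |δ (Finsupp.single P 1)| ≤ C)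
    (hprin : ∀ D ∈ Divisor.principal (K := AlgebraicClosure ℚ) (F := modularFunctionFieldBar N),
      δ D = 0)
    (D : Divisor (AlgebraicClosure ℚ) (modularFunctionFieldBar N))
    (hD : D ∈ Divisor.degZero (K := AlgebraicClosure ℚ) (F := modularFunctionFieldBar N)) :
    δ D = 0 := by
  obtain ⟨x, hx⟩ := exists_isGenerator_bar N
  exact rigid_general hx δ C hC hprin D hD

/-- **Rigidity for `X₀(N)/ℚ̄`, divisor-valued form (principal divisors).** -/
theorem rigid_div_principal (N : ℕ) [NeZero N]
    {K' F' : Type*} [Field K'] [Field F'] [Algebra K' F']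
    (δ : Divisor (AlgebraicClosure ℚ) (modularFunctionFieldBar N) →+ Divisor K' F') (C : ℤ)
    (hC : ∀ (P : Place (AlgebraicClosure ℚ) (modularFunctionFieldBar N)) (Q : Place K' F'),
      |δ (Finsupp.single P 1) Q| ≤ C)
    (hprin : ∀ D ∈ Divisor.principal (K := AlgebraicClosure ℚ) (F := modularFunctionFieldBar N),
      δ D = 0)
    (D : Divisor (AlgebraicClosure ℚ) (modularFunctionFieldBar N))
    (hD : D ∈ Divisor.degZero (K := AlgebraicClosure ℚ) (F := modularFunctionFieldBar N)) :
    δ D = 0 := by
  obtain ⟨x, hx⟩ := exists_isGenerator_bar N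
  exact rigid_general_div hx δ C hC hprin D hD

/-- an additive map killing the integral principal divisors kills all principal divisors. -/
theorem hom_principal_of_integral {N : ℕ} {A : ValuationSubring (AlgebraicClosure ℚ)}
    {k : Type*} [Field k] {π : A →+* k} {G : Type*} [AddCommGroup G]
    (hgen : PrincipalGeneratedByIntegral A π N)
    (δ : Divisor (AlgebraicClosure ℚ) (modularFunctionFieldBar N) →+ G)
    (hint : ∀ D ∈ integralPrincipalDivisors A π N, δ D = 0)
    (D : Divisor (AlgebraicClosure ℚ) (modularFunctionFieldBar N))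
    (hD : D ∈ Divisor.principal (K := AlgebraicClosure ℚ) (F := modularFunctionFieldBar N)) :
    δ D = 0 := by
  have hD' := hgen hD
  clear hD
  induction hD' using AddSubgroup.closure_induction with
  | mem E hE => exact hint E hE
  | zero => exact map_zero δ
  | add E E' _ _ hE hE' => rw [map_add, hE, hE', add_zero]
  | neg E _ hE => rw [map_neg, hE, neg_zero]

/-- **Rigidity, divisor-valued form**: an additive map `Div(X₀(N)/ℚ̄) → Div(F')` killing the
integral principal divisors (hence, by `hgen`, all principal divisors) and bounded on places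
kills all divisors of degree zero. -/
theorem rigid_div (N : ℕ) [NeZero N] {A : ValuationSubring (AlgebraicClosure ℚ)}
    {k : Type*} [Field k] {π : A →+* k}
    {K' F' : Type*} [Field K'] [Field F'] [Algebra K' F']
    (hgen : PrincipalGeneratedByIntegral A π N)
    (δ : Divisor (AlgebraicClosure ℚ) (modularFunctionFieldBar N) →+ Divisor K' F') (C : ℤ)
    (hC : ∀ (P : Place (AlgebraicClosure ℚ) (modularFunctionFieldBar N)) (Q : Place K' F'),
      |δ (Finsupp.single P 1) Q| ≤ C)
    (hint : ∀ D ∈ integralPrincipalDivisors A π N, δ D = 0)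
    (D : Divisor (AlgebraicClosure ℚ) (modularFunctionFieldBar N))
    (hD : D ∈ Divisor.degZero (K := AlgebraicClosure ℚ) (F := modularFunctionFieldBar N)) :
    δ D = 0 := by
  ext Q
  rw [Finsupp.zero_apply]
  have h := rigid N ((Finsupp.applyAddHom Q).comp δ) C (fun P => hC P Q)
    (fun E hE => by
      show δ E Q = 0
      rw [hom_principal_of_integral hgen δ hint E hE, Finsupp.zero_apply]) D hD
  exact h

/-! ## the place at infinity in characteristic `ℓ` -/

section QPlace

variable (k : Type*) [Field k] (N : ℕ)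

/-- the `q`-adic order on the function field of `X₀(N)/k`. -/
def qVal : Fermat.Agent.S24.IntVal k (modularFunctionFieldFullC k N) where
  toFun f := (f : LaurentSeries k).order
  map_mul' a b ha hb := by
    have ha' : (a : LaurentSeries k) ≠ 0 := fun h => ha (Subtype.ext h)
    have hb' : (b : LaurentSeries k) ≠ 0 := fun h => hb (Subtype.ext h)
    show ((a : LaurentSeries k) * (b : LaurentSeries k)).order = _
    exact HahnSeries.order_mul ha' hb'
  map_add' a b _ _ hab := by
    have hab' : (a : LaurentSeries k) + (b : LaurentSeries k) ≠ 0 := fun h => hab (Subtype.ext h)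
    show min _ _ ≤ ((a : LaurentSeries k) + (b : LaurentSeries k)).order
    exact HahnSeries.min_order_le_order_add hab'
  map_algebraMap' c hc := by
    show (algebraMap k (LaurentSeries k) c).order = 0
    rw [algebraMap_laurentSeries_eq_single]
    exact HahnSeries.order_single hc

/-- there is a place of `X₀(N)/k` at which `j` has a pole. -/
theorem exists_place_ord_j_ne_zero :
    ∃ Q : Place k (modularFunctionFieldFullC k N),
      Q.ord (⟨jqModC k, jqModC_mem_full k N⟩ : modularFunctionFieldFullC k N) ≠ 0 := by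
  have hj0 : jqModC k ≠ 0 := jqModC_ne_zero_of_nontrivial k
  have hj0' : (⟨jqModC k, jqModC_mem_full k N⟩ : modularFunctionFieldFullC k N) ≠ 0 :=
    fun h => hj0 (congrArg Subtype.val h)
  have hord : (jqModC k).order ≠ 0 := by
    have h1 : (jqModC k).coeff (-1) ≠ 0 := by
      rw [coeff_jqModC_neg_one]
      exact one_ne_zero
    have h2 := HahnSeries.order_le_of_coeff_ne_zero h1
    omega
  obtain ⟨Q, e, he, hQ⟩ := Fermat.Agent.RR.exists_place_of_intVal (qVal k N)
    ⟨_, hj0', hord⟩
  refine ⟨Q, fun h => hord ?_⟩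
  have := hQ _ hj0'
  rw [h, mul_zero] at this
  exact this

end QPlace

/-! ## (U) uniqueness of place reductions -/

/-- `j` with coefficients in `A`. -/
theorem coeffMap_subtype_jqModC_mem (N : ℕ) (A : ValuationSubring (AlgebraicClosure ℚ)) :
    coeffMap A.subtype (jqModC A) ∈ modularFunctionFieldBar N := by
  rw [coeffMap_jqModC]
  have h1 : jqModC (AlgebraicClosure ℚ) = coeffEmb (AlgebraicClosure ℚ) (jqModC ℚ) := by
    rw [coeffEmb, coeffMap_jqModC]
  rw [h1]
  exact coeffEmb_mem_laurentBaseChange (AlgebraicClosure ℚ) (jqModC_mem_full ℚ N)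

/-- **(U)** the place reduction is unique (no divisibility of `Pic⁰` needed). -/
theorem isPlaceReduction_unique {N : ℕ} [NeZero N] {A : ValuationSubring (AlgebraicClosure ℚ)}
    {k : Type*} [Field k] {π : A →+* k}
    {r₁ r₂ : Place (AlgebraicClosure ℚ) (modularFunctionFieldBar N) →
      Place k (modularFunctionFieldFullC k N)}
    (h₁ : IsPlaceReductionAlong A π N r₁) (h₂ : IsPlaceReductionAlong A π N r₂)
    (hgen : PrincipalGeneratedByIntegral A π N) : r₁ = r₂ := by
  classical
  set δ : Divisor (AlgebraicClosure ℚ) (modularFunctionFieldBar N) →+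
      Divisor k (modularFunctionFieldFullC k N) :=
    Finsupp.mapDomain.addMonoidHom r₁ - Finsupp.mapDomain.addMonoidHom r₂ with hδ
  have hδapp : ∀ D, δ D = Finsupp.mapDomain r₁ D - Finsupp.mapDomain r₂ D := fun D => rfl
  have hint : ∀ D ∈ integralPrincipalDivisors A π N, δ D = 0 := by
    intro D hD
    obtain ⟨y, hy, hyk, hne, hDy⟩ := hD
    rw [hδapp, sub_eq_zero]
    ext Q
    rw [h₁.2 y hy hyk hne D hDy Q, h₂.2 y hy hyk hne D hDy Q]
  have hC : ∀ (P : Place (AlgebraicClosure ℚ) (modularFunctionFieldBar N))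
      (Q : Place k (modularFunctionFieldFullC k N)), |δ (Finsupp.single P 1) Q| ≤ 2 := by
    intro P Q
    rw [hδapp, Finsupp.mapDomain_single, Finsupp.mapDomain_single, Finsupp.sub_apply,
      Finsupp.single_apply, Finsupp.single_apply]
    split_ifs <;> simp
  have hδdeg0 : ∀ D ∈ Divisor.degZero (K := AlgebraicClosure ℚ) (F := modularFunctionFieldBar N),
      δ D = 0 := fun D hD => rigid_div N hgen δ 2 hC hint D hD
  have hdeg := deg_eq_one_bar N
  have hconst : ∀ P Q : Place (AlgebraicClosure ℚ) (modularFunctionFieldBar N),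
      Finsupp.single (r₁ P) (1 : ℤ) - Finsupp.single (r₂ P) 1 =
        Finsupp.single (r₁ Q) 1 - Finsupp.single (r₂ Q) 1 := by
    intro P Q
    have hPQ : Finsupp.single P (1 : ℤ) - Finsupp.single Q 1 ∈
        Divisor.degZero (K := AlgebraicClosure ℚ) (F := modularFunctionFieldBar N) := by
      rw [Divisor.mem_degZero, map_sub, Divisor.degree_single, Divisor.degree_single, hdeg, hdeg,
        sub_self]
    have h := hδdeg0 _ hPQ
    rw [hδapp, Finsupp.mapDomain_sub, Finsupp.mapDomain_sub, Finsupp.mapDomain_single,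
      Finsupp.mapDomain_single, Finsupp.mapDomain_single, Finsupp.mapDomain_single,
      sub_eq_zero] at h
    exact sub_eq_sub_iff_sub_eq_sub.mpr h
  by_contra hne
  obtain ⟨P₀, hP₀⟩ : ∃ P₀, r₁ P₀ ≠ r₂ P₀ := by
    by_contra hall
    push Not at hall
    exact hne (funext hall)
  have hr₁const : ∀ Q, r₁ Q = r₁ P₀ := by
    intro Q
    have h := congrArg (fun E => E (r₁ P₀)) (hconst Q P₀)
    simp only [Finsupp.sub_apply, Finsupp.single_apply, if_neg (Ne.symm hP₀)] at h
    by_contra hQ
    rw [if_neg hQ] at h
    split_ifs at h <;> omega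
  -- the divisor of `j`
  have hjmem := coeffMap_subtype_jqModC_mem N A
  have hjk : coeffMap π (jqModC A) ∈ modularFunctionFieldFullC k N := by
    rw [coeffMap_jqModC]
    exact jqModC_mem_full k N
  have hjne : coeffMap π (jqModC A) ≠ 0 := by
    rw [coeffMap_jqModC]
    exact jqModC_ne_zero_of_nontrivial k
  have hj0 : (⟨coeffMap A.subtype (jqModC A), hjmem⟩ : modularFunctionFieldBar N) ≠ 0 := by
    intro h
    have h2 := congrArg Subtype.val h
    simp only [coeffMap_jqModC] at h2
    exact jqModC_ne_zero_of_nontrivial (AlgebraicClosure ℚ) h2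
  obtain ⟨Dj, hDj, hDj0⟩ := (hasPrincipalDivisors_bar N).exists_divisor _ hj0
  have hmapconst : ∀ D : Divisor (AlgebraicClosure ℚ) (modularFunctionFieldBar N),
      Finsupp.mapDomain r₁ D = Finsupp.single (r₁ P₀) (Divisor.degree D) := by
    intro D
    induction D using Finsupp.induction with
    | zero => simp
    | single_add P n D _ _ ih =>
      rw [Finsupp.mapDomain_add, ih, Finsupp.mapDomain_single, hr₁const P, map_add,
        Divisor.degree_single, hdeg, Nat.cast_one, mul_one, ← Finsupp.single_add]
  obtain ⟨Q, hQ⟩ := exists_place_ord_j_ne_zero k N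
  apply hQ
  have h := h₁.2 (jqModC A) hjmem hjk hjne Dj hDj Q
  rw [hmapconst Dj, hDj0, Finsupp.single_zero, Finsupp.zero_apply] at h
  have e : (⟨coeffMap π (jqModC A), hjk⟩ : modularFunctionFieldFullC k N)
      = ⟨jqModC k, jqModC_mem_full k N⟩ := Subtype.ext (coeffMap_jqModC π)
  rw [← e]
  exact h.symm

end Fermat.Agent.S37.Gal
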