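import Mathlib
import Fermat.Prelude.Def_ModularCurve_HeckeOperatorTotal
import Fermat.Agent.S24_PlacesBasic
import Fermat.Agent.S37_FundId
import Fermat.Agent.S37_Unique

/-!
# S37 (H): the Hecke inputs at level `(N, ℓ)` over `ℚ̄`

`HeckeInputsAlong (AlgebraicClosure ℚ) N ℓ` — the six facts which make the Prelude's Hecke
operator `heckeOperatorAlong` the genuine correspondence `α_* ∘ β^*` (instead of `0`):

* both degeneracy maps `α` (inclusion) and `β` (`q ↦ q^ℓ`) of `F_N` into `F_{Nℓ}` are integral
  and finite (`F_{Nℓ}` is a function field in one variable and the image of a transcendental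
  element is transcendental, hence again a generator);
* principal divisors exist at level `N ℓ`;
* the fundamental identity along `β` (`S37_FundId`);
* the norm formula along `α` (taken as a hypothesis here: `S37_NormFormula`).
-/

set_option autoImplicit false
set_option linter.style.haveILetI false

noncomputable section

open AlgebraicCurve ModularCurve Fermat.Agent.S24

namespace Fermat.Agent.S37.HeckeInputs

section General

variable {K F F' : Type*} [Field K] [Field F] [Field F'] [Algebra K F] [Algebra K F']

/-- an algebra map of fields preserves transcendence. -/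
theorem transcendental_algHom (φ : F →ₐ[K] F') {x : F} (hx : Transcendental K x) :
    Transcendental K (φ x) := fun h =>
  hx ((isAlgebraic_algHom_iff φ φ.toRingHom.injective).mp h)

/-- an embedding of function fields in one variable is finite. -/
theorem finiteAlong_of_generators (φ : F →ₐ[K] F') {x : F} (hx : IsGenerator K x) {x' : F'}
    (hx' : IsGenerator K x') : FiniteAlong K φ :=
  Fermat.Agent.S37.FundId.finiteAlong_of_isGenerator φ (x := x)
    (Places.isGenerator_of_transcendental hx' (transcendental_algHom φ hx.1))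

/-- a finite embedding is integral. -/
theorem isIntegral_of_finiteAlong (φ : F →ₐ[K] F') (hfin : FiniteAlong K φ) :
    φ.toRingHom.IsIntegral := by
  letI := algebraAlong φ
  haveI : Module.Finite F F' := hfin
  exact (Algebra.IsIntegral.of_finite F F').isIntegral

end General

local notation "Qbar" => AlgebraicClosure ℚ

variable (N ℓ : ℕ) [NeZero N] [NeZero ℓ]

/-- `F_{Nℓ}` is finite over `α(F_N)`. -/
theorem finiteAlong_alpha : FiniteAlong Qbar (heckeAlphaBar Qbar N ℓ) := by
  obtain ⟨x, hx⟩ := Fermat.Agent.S37.Gal.exists_isGenerator_bar N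
  obtain ⟨x', hx'⟩ := Fermat.Agent.S37.Gal.exists_isGenerator_bar (N * ℓ)
  exact finiteAlong_of_generators _ hx hx'

/-- `F_{Nℓ}` is finite over `β(F_N)`. -/
theorem finiteAlong_beta : FiniteAlong Qbar (heckeBetaBar Qbar N ℓ) := by
  obtain ⟨x, hx⟩ := Fermat.Agent.S37.Gal.exists_isGenerator_bar N
  obtain ⟨x', hx'⟩ := Fermat.Agent.S37.Gal.exists_isGenerator_bar (N * ℓ)
  exact finiteAlong_of_generators _ hx hx'

/-- `α` is integral. -/
theorem heckeAlphaBarIntegral : HeckeAlphaBarIntegral Qbar N ℓ :=
  isIntegral_of_finiteAlong _ (finiteAlong_alpha N ℓ)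

/-- `β` is integral. -/
theorem heckeBetaBarIntegral : HeckeBetaBarIntegral Qbar N ℓ :=
  isIntegral_of_finiteAlong _ (finiteAlong_beta N ℓ)

/-- principal divisors exist at level `N ℓ`. -/
theorem hasPrincipalDivisors_level :
    HasPrincipalDivisors Qbar (laurentBaseChange Qbar (modularFunctionFieldFull (N * ℓ))) :=
  Fermat.Agent.S37.Gal.hasPrincipalDivisors_bar (N * ℓ)

/-- the fundamental identity along `β`. -/
theorem fundamentalIdentityAlong_beta :
    haveI := hasPrincipalDivisors_level N ℓ
    FundamentalIdentityAlong Qbar (heckeBetaBar Qbar N ℓ) (heckeBetaBarIntegral N ℓ) := by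
  haveI := hasPrincipalDivisors_level N ℓ
  obtain ⟨x, hx⟩ := Fermat.Agent.S37.Gal.exists_isGenerator_bar N
  exact Fermat.Agent.S37.FundId.fundamentalIdentityAlong _ _ (finiteAlong_beta N ℓ) hx

/-- the fundamental identity along `α`. -/
theorem fundamentalIdentityAlong_alpha :
    haveI := hasPrincipalDivisors_level N ℓ
    FundamentalIdentityAlong Qbar (heckeAlphaBar Qbar N ℓ) (heckeAlphaBarIntegral N ℓ) := by
  haveI := hasPrincipalDivisors_level N ℓ
  obtain ⟨x, hx⟩ := Fermat.Agent.S37.Gal.exists_isGenerator_bar N
  exact Fermat.Agent.S37.FundId.fundamentalIdentityAlong _ _ (finiteAlong_alpha N ℓ) hx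

/-- **(H), modulo the norm formula along `α`.** -/
theorem heckeInputsAlong_of_normFormula
    (hNF : NormFormulaAlong Qbar (heckeAlphaBar Qbar N ℓ) (finiteAlong_alpha N ℓ)) :
    HeckeInputsAlong Qbar N ℓ :=
  ⟨heckeAlphaBarIntegral N ℓ, heckeBetaBarIntegral N ℓ, hasPrincipalDivisors_level N ℓ,
    finiteAlong_alpha N ℓ, fundamentalIdentityAlong_beta N ℓ, hNF⟩

end Fermat.Agent.S37.HeckeInputs
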