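import Mathlib
import Fermat.Prelude.Def_AlgebraicCurve_Correspondence
import Fermat.Agent.S24_Places
import Fermat.Agent.RR_PlaceExt
import Fermat.Agent.S37_FundId

/-!
# S37, (H): the norm formula for a finite extension of function fields

For a finite extension `F'/F` of function fields over an algebraically closed field `K` of
characteristic zero (`F` has a generator `x`), the Prelude's `Divisor.PushforwardNormFormula K F F'`
holds: `∑_{w | v} f(w | v) * ord_w f = ord_v (N_{F'/F} f)`.

Route: `R := O_v` (a discrete valuation ring), `S :=` the integral closure of `R` in `F'`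
(a Dedekind domain, finite over `R`); the places of `F'` over `v` are the primes of `S`; the ideal
norm of a prime of `S` is the maximal ideal of `R` (all residue degrees are one since `K` is
algebraically closed); hence `(N s) = m ^ (number of prime factors of (s))`.
-/

set_option autoImplicit false
set_option linter.style.haveILetI false
set_option linter.unusedSectionVars false

noncomputable section

open AlgebraicCurve IsDedekindDomain Fermat.Agent.S24

namespace Fermat.Agent.S37.NormFormula

section Core

variable {R S : Type*} [CommRing R] [IsDedekindDomain R] [CommRing S] [IsDedekindDomain S]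
  [Algebra R S] [Module.Finite R S] [Module.IsTorsionFree R S]

/-- if every nonzero prime of `S` has ideal norm `m`, the norm of an ideal is the power of `m`
given by the number of its prime factors -/
theorem relNorm_eq_pow_card (m : Ideal R)
    (h : ∀ Q : Ideal S, Q.IsPrime → Q ≠ ⊥ → Ideal.relNorm R Q = m) {I : Ideal S} (hI : I ≠ ⊥) :
    Ideal.relNorm R I = m ^ (UniqueFactorizationMonoid.normalizedFactors I).card := by
  classical
  conv_lhs => rw [← Ideal.prod_normalizedFactors_eq_self hI]
  rw [map_multiset_prod]
  have hrep : (UniqueFactorizationMonoid.normalizedFactors I).map (Ideal.relNorm R) =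
      Multiset.replicate (UniqueFactorizationMonoid.normalizedFactors I).card m := by
    rw [Multiset.eq_replicate]
    refine ⟨by simp, ?_⟩
    intro b hb
    obtain ⟨Q, hQ, rfl⟩ := Multiset.mem_map.mp hb
    have hprime := UniqueFactorizationMonoid.prime_of_normalized_factor Q hQ
    exact h Q (Ideal.isPrime_of_prime hprime) hprime.ne_zero
  rw [hrep, Multiset.prod_replicate]

/-- every nonzero prime of `S` lies over the maximal ideal of the local ring `R` -/
theorem under_eq_maximalIdeal [IsLocalRing R] (Q : Ideal S) [hQ : Q.IsPrime] (hQ0 : Q ≠ ⊥) :
    Q.under R = IsLocalRing.maximalIdeal R := by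
  haveI : Q.IsMaximal := hQ.isMaximal hQ0
  haveI : (Q.under R).IsMaximal := Ideal.isMaximal_comap_of_isIntegral_of_isMaximal Q
  exact IsLocalRing.eq_maximalIdeal inferInstance

/-- a prime of `S` with residue field equal to the image of `R` has ideal norm the maximal
ideal of `R` -/
theorem relNorm_prime_eq_maximalIdeal [IsLocalRing R] [PerfectField (FractionRing R)]
    (Q : Ideal S) [hQ : Q.IsPrime] (hQ0 : Q ≠ ⊥)
    (hsurj : ∀ t : S, ∃ r : R, t - algebraMap R S r ∈ Q) :
    Ideal.relNorm R Q = IsLocalRing.maximalIdeal R := by
  haveI : Q.IsMaximal := hQ.isMaximal hQ0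
  haveI : Q.LiesOver (IsLocalRing.maximalIdeal R) := ⟨(under_eq_maximalIdeal Q hQ0).symm⟩
  rw [Ideal.relNorm_eq_pow_of_isMaximal Q (IsLocalRing.maximalIdeal R),
    Ideal.inertiaDeg_eq_of_isMaximal (IsLocalRing.maximalIdeal R) Q]
  letI : Field (R ⧸ IsLocalRing.maximalIdeal R) := Ideal.Quotient.field _
  letI : Field (S ⧸ Q) := Ideal.Quotient.field Q
  have hbij : Function.Bijective (algebraMap (R ⧸ IsLocalRing.maximalIdeal R) (S ⧸ Q)) := by
    refine ⟨(algebraMap (R ⧸ IsLocalRing.maximalIdeal R) (S ⧸ Q)).injective, fun tbar => ?_⟩
    obtain ⟨t, rfl⟩ := Ideal.Quotient.mk_surjective tbar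
    obtain ⟨r, hr⟩ := hsurj t
    refine ⟨Ideal.Quotient.mk _ r, ?_⟩
    rw [Ideal.Quotient.algebraMap_mk_of_liesOver, eq_comm, Ideal.Quotient.eq]
    exact hr
  have h1 : Module.finrank (R ⧸ IsLocalRing.maximalIdeal R) (S ⧸ Q) = 1 := by
    rw [← Module.finrank_self (R ⧸ IsLocalRing.maximalIdeal R)]
    exact ((AlgEquiv.ofBijective (Algebra.ofId (R ⧸ IsLocalRing.maximalIdeal R) (S ⧸ Q))
      hbij).toLinearEquiv.finrank_eq).symm
  rw [h1, pow_one]

/-- a Dedekind domain finite over a discrete valuation ring has finitely many primes -/
theorem finite_heightOneSpectrum [IsLocalRing R] (hm : IsLocalRing.maximalIdeal R ≠ ⊥) :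
    Finite (HeightOneSpectrum S) := by
  have hinj : Function.Injective (algebraMap R S) := FaithfulSMul.algebraMap_injective R S
  have hI : (IsLocalRing.maximalIdeal R).map (algebraMap R S) ≠ 0 := by
    rw [Ideal.zero_eq_bot, Ne, Ideal.map_eq_bot_iff_of_injective hinj]
    exact hm
  have hfin := Ideal.finite_factors (R := S) hI
  rw [← Set.finite_univ_iff]
  refine hfin.subset fun P _ => ?_
  show P.asIdeal ∣ _
  rw [Ideal.dvd_iff_le, Ideal.map_le_iff_le_comap]
  exact (under_eq_maximalIdeal P.asIdeal P.ne_bot).ge

end Core

section Count

variable {K F' : Type*} [Field K] [Field F'] [Algebra K F']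
variable {S : Type*} [CommRing S] [IsDedekindDomain S] [Algebra S F'] [IsFractionRing S F']
  [Algebra K S] [IsScalarTower K S F']

/-- the orders of `s` at the places attached to the primes of `S` add up to the number of prime
factors of `(s)` -/
theorem sum_ord_eq_card [Fintype (HeightOneSpectrum S)] {s : S} (hs : s ≠ 0) :
    ∑ P : HeightOneSpectrum S,
        (Place.ofHeightOneSpectrum (K := K) (F := F') P).ord (algebraMap S F' s)
      = ((UniqueFactorizationMonoid.normalizedFactors (Ideal.span {s})).card : ℤ) := by
  classical
  have hI : Ideal.span {s} ≠ (⊥ : Ideal S) := by rwa [Ne, Ideal.span_singleton_eq_bot]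
  have h1 : ∀ P : HeightOneSpectrum S,
      (Place.ofHeightOneSpectrum (K := K) (F := F') P).ord (algebraMap S F' s)
      = ((UniqueFactorizationMonoid.normalizedFactors (Ideal.span {s})).count P.asIdeal : ℤ) := by
    intro P
    rw [Places.ord_ofHeightOneSpectrum_algebraMap (K := K) (F := F') P hs]
    congr 1
    apply multiplicity_eq_of_emultiplicity_eq_some
    rw [UniqueFactorizationMonoid.emultiplicity_eq_count_normalizedFactors P.irreducible hI,
      normalize_eq]
  simp_rw [h1]
  rw [← Nat.cast_sum]
  congr 1
  rw [← Finset.sum_image (s := Finset.univ) (g := fun P : HeightOneSpectrum S => P.asIdeal)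
    (f := fun Q => Multiset.count Q
      (UniqueFactorizationMonoid.normalizedFactors (Ideal.span {s})))]
  · apply Multiset.sum_count_eq_card
    intro Q hQ
    have hprime := UniqueFactorizationMonoid.prime_of_normalized_factor Q hQ
    rw [Finset.mem_image]
    exact ⟨⟨Q, Ideal.isPrime_of_prime hprime, hprime.ne_zero⟩, Finset.mem_univ _, rfl⟩
  · intro P _ P' _ h
    exact HeightOneSpectrum.ext h

end Count

section Local

variable {K F : Type*} [Field K] [Field F] [Algebra K F]

/-- the order at `v` of an element of the valuation ring is its multiplicity in the maximal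
ideal -/
theorem ord_coe_eq_multiplicity (v : Place K F) {r : v.toValuationSubring} (hr : r ≠ 0) :
    v.ord (r : F) =
      (multiplicity (IsLocalRing.maximalIdeal v.toValuationSubring) (Ideal.span {r}) : ℤ) := by
  have h := v.adicValuation_coe r
  rw [Place.ord, h, v.heightOneSpectrum.intValuation_eq_exp_neg_multiplicity hr,
    WithZero.log_exp, neg_neg]
  rfl

end Local

section Rings

variable {K F F' : Type*} [Field K] [CharZero K] [Field F] [Field F']
  [Algebra K F] [Algebra K F'] [Algebra F F'] [IsScalarTower K F F'] [FiniteDimensional F F']

theorem charZero_of_algebra (K : Type*) {F : Type*} [Field K] [CharZero K] [Field F]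
    [Algebra K F] : CharZero F :=
  charZero_of_injective_algebraMap (algebraMap K F).injective

theorem isSeparable_of_charZero (K : Type*) {F F' : Type*} [Field K] [CharZero K] [Field F]
    [Field F'] [Algebra K F] [Algebra F F'] [FiniteDimensional F F'] :
    Algebra.IsSeparable F F' := by
  haveI : CharZero F := charZero_of_algebra K
  infer_instance

variable (v : Place K F)

theorem perfectField_fractionRing : PerfectField (FractionRing v.toValuationSubring) := by
  haveI : CharZero v.toValuationSubring :=
    charZero_of_injective_algebraMap (algebraMap K v.toValuationSubring).injective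
  haveI : CharZero (FractionRing v.toValuationSubring) :=
    charZero_of_injective_algebraMap (IsFractionRing.injective v.toValuationSubring _)
  infer_instance

variable (F') in
theorem isDedekindDomain_intClosure :
    IsDedekindDomain (integralClosure v.toValuationSubring F') := by
  haveI : Algebra.IsSeparable F F' := isSeparable_of_charZero K
  exact integralClosure.isDedekindDomain v.toValuationSubring F F'

variable (F') in
theorem isFractionRing_intClosure :
    IsFractionRing (integralClosure v.toValuationSubring F') F' :=
  integralClosure.isFractionRing_of_finite_extension F F'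

variable (F') in
theorem finite_intClosure :
    Module.Finite v.toValuationSubring (integralClosure v.toValuationSubring F') := by
  haveI : Algebra.IsSeparable F F' := isSeparable_of_charZero K
  exact IsIntegralClosure.finite v.toValuationSubring F F' _

variable (F') in
/-- the `K`-algebra structure of the integral closure of `O_v` in `F'` -/
abbrev algebraIntClosure : Algebra K (integralClosure v.toValuationSubring F') :=
  ((algebraMap v.toValuationSubring (integralClosure v.toValuationSubring F')).comp
    (algebraMap K v.toValuationSubring)).toAlgebra

attribute [local instance] algebraIntClosure perfectField_fractionRing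
  isDedekindDomain_intClosure isFractionRing_intClosure finite_intClosure

variable (F') in
theorem isScalarTower_intClosure :
    IsScalarTower K (integralClosure v.toValuationSubring F') F' := by
  refine IsScalarTower.of_algebraMap_eq fun k => ?_
  rw [IsScalarTower.algebraMap_apply K F F']
  rfl

attribute [local instance] isScalarTower_intClosure

/-- the place of `F'` attached to a prime of the integral closure of `O_v` -/
abbrev placeOf (P : HeightOneSpectrum (integralClosure v.toValuationSubring F')) : Place K F' :=
  Place.ofHeightOneSpectrum (K := K) (F := F') P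

/-- the integral closure of `O_v` lies in the valuation ring of every place over `v` -/
theorem intClosure_mem (w : Place K F') (hw : w.restrict F = v)
    (t : integralClosure v.toValuationSubring F') : (t : F') ∈ w.toValuationSubring := by
  subst hw
  obtain ⟨p, hp, hpt⟩ := t.2
  have hint' : IsIntegral w.toValuationSubring (t : F') := by
    refine ⟨p.map (Place.restrictInclusion F w), hp.map _, ?_⟩
    rw [← hpt, Polynomial.eval₂_map]
    rfl
  obtain ⟨a, ha⟩ :=
    (IsIntegrallyClosed.isIntegral_iff (R := w.toValuationSubring) (K := F')).mp hint'
  rw [← ha]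
  exact a.2

/-- the place of a prime of the integral closure of `O_v` lies over `v` -/
theorem restrict_placeOf (P : HeightOneSpectrum (integralClosure v.toValuationSubring F')) :
    (placeOf v P).restrict F = v := by
  symm
  apply Place.ext
  refine ValuationSubring.eq_of_le_of_ne_top _ ?_ ((placeOf v P).restrict F).ne_top'
  intro f hf
  rw [Place.restrict_toValuationSubring, ValuationSubring.mem_comap,
    Place.ofHeightOneSpectrum_toValuationSubring, Valuation.mem_valuationSubring_iff]
  exact P.valuation_le_one
    (algebraMap v.toValuationSubring (integralClosure v.toValuationSubring F') ⟨f, hf⟩)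

/-- every place over `v` comes from a prime of the integral closure of `O_v` -/
theorem exists_placeOf_eq (w : Place K F') (hw : w.restrict F = v) :
    ∃ P : HeightOneSpectrum (integralClosure v.toValuationSubring F'), placeOf v P = w :=
  Places.exists_ofHeightOneSpectrum_eq (K := K) (F := F')
    (R := integralClosure v.toValuationSubring F') w (fun t => intClosure_mem v w hw t)

theorem placeOf_injective :
    Function.Injective (placeOf (F' := F') v) :=
  Places.ofHeightOneSpectrum_injective (K := K) (F := F')
    (R := integralClosure v.toValuationSubring F')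

end Rings

section Main

variable {K F F' : Type*} [Field K] [IsAlgClosed K] [CharZero K] [Field F] [Field F']
  [Algebra K F] [Algebra K F'] [Algebra F F'] [IsScalarTower K F F'] [FiniteDimensional F F']

attribute [local instance] algebraIntClosure perfectField_fractionRing
  isDedekindDomain_intClosure isFractionRing_intClosure finite_intClosure
  isScalarTower_intClosure

/-- the residue field of a prime of the integral closure of `O_v` is `K` -/
theorem exists_sub_mem_prime {x : F} (hx : IsGenerator K x) (v : Place K F)
    (Q : Ideal (integralClosure v.toValuationSubring F')) [hQ : Q.IsPrime] (hQ0 : Q ≠ ⊥)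
    (t : integralClosure v.toValuationSubring F') :
    ∃ r : v.toValuationSubring,
      t - algebraMap v.toValuationSubring (integralClosure v.toValuationSubring F') r ∈ Q := by
  set P : HeightOneSpectrum (integralClosure v.toValuationSubring F') := ⟨Q, hQ, hQ0⟩ with hP
  set w : Place K F' := placeOf v P with hw
  have htw : (t : F') ∈ w.toValuationSubring :=
    (Places.mem_ofHeightOneSpectrum_iff (K := K) P _).mpr (P.valuation_le_one t)
  have hx' : IsGenerator K (algebraMap F F' x) :=
    Fermat.Agent.RR.isGenerator_algebraMap (L := F') hx
  obtain ⟨c, hc⟩ := Places.exists_sub_mem_maximalIdeal hx' w ⟨(t : F'), htw⟩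
  refine ⟨algebraMap K v.toValuationSubring c, ?_⟩
  by_cases h0 : t - algebraMap v.toValuationSubring (integralClosure v.toValuationSubring F')
      (algebraMap K v.toValuationSubring c) = 0
  · rw [h0]; exact zero_mem _
  · have hcoe1 : ((t - algebraMap v.toValuationSubring (integralClosure v.toValuationSubring F')
        (algebraMap K v.toValuationSubring c) : integralClosure v.toValuationSubring F') : F')
        = (t : F') - algebraMap K F' c := by
      rw [IsScalarTower.algebraMap_apply K F F' c]
      rfl
    have hcoe2 : (((⟨(t : F'), htw⟩ : w.toValuationSubring) - algebraMap K w.toValuationSubring c :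
        w.toValuationSubring) : F') = (t : F') - algebraMap K F' c := rfl
    have hne : (⟨(t : F'), htw⟩ : w.toValuationSubring) - algebraMap K w.toValuationSubring c
        ≠ 0 := by
      intro h
      apply h0
      apply Subtype.ext
      rw [hcoe1, ← hcoe2, h]
      rfl
    have hpos := Places.ord_pos_of_mem_maximalIdeal w hc hne
    rw [hcoe2, ← hcoe1] at hpos
    exact (Places.ord_ofHeightOneSpectrum_pos_iff (K := K) (F := F') P h0).mp hpos

/-- the ideal norm of a prime of the integral closure of `O_v` is the maximal ideal of `O_v` -/
theorem relNorm_prime {x : F} (hx : IsGenerator K x) (v : Place K F)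
    (Q : Ideal (integralClosure v.toValuationSubring F')) (hQ : Q.IsPrime) (hQ0 : Q ≠ ⊥) :
    Ideal.relNorm v.toValuationSubring Q = IsLocalRing.maximalIdeal v.toValuationSubring :=
  relNorm_prime_eq_maximalIdeal Q hQ0 (exists_sub_mem_prime hx v Q hQ0)

/-- the norm formula for elements of the integral closure of `O_v` -/
theorem sum_ord_intClosure {x : F} (hx : IsGenerator K x) (v : Place K F)
    [Fintype (HeightOneSpectrum (integralClosure v.toValuationSubring F'))]
    {s : integralClosure v.toValuationSubring F'} (hs : s ≠ 0) :
    ∑ P : HeightOneSpectrum (integralClosure v.toValuationSubring F'),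
        (placeOf v P).ord (algebraMap (integralClosure v.toValuationSubring F') F' s)
      = v.ord (Algebra.norm F (algebraMap (integralClosure v.toValuationSubring F') F' s)) := by
  rw [sum_ord_eq_card (K := K) (F' := F') hs]
  have h2 : Algebra.norm F (algebraMap (integralClosure v.toValuationSubring F') F' s) =
      algebraMap v.toValuationSubring F
        (Algebra.intNorm v.toValuationSubring (integralClosure v.toValuationSubring F') s) :=
    (Algebra.algebraMap_intNorm (A := v.toValuationSubring) (K := F) (L := F') s).symm
  have hs' : algebraMap (integralClosure v.toValuationSubring F') F' s ≠ 0 :=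
    (map_ne_zero_iff _ (IsFractionRing.injective (integralClosure v.toValuationSubring F')
      F')).mpr hs
  have hn0 : Algebra.intNorm v.toValuationSubring (integralClosure v.toValuationSubring F') s
      ≠ 0 := by
    intro h
    rw [h, map_zero] at h2
    exact Algebra.norm_ne_zero_iff.mpr hs' h2
  have hprime : Prime (IsLocalRing.maximalIdeal v.toValuationSubring) :=
    Ideal.prime_of_isPrime (IsDiscreteValuationRing.not_a_field _) inferInstance
  have h3 := ord_coe_eq_multiplicity v hn0
  rw [← Ideal.relNorm_singleton,
    relNorm_eq_pow_card (IsLocalRing.maximalIdeal v.toValuationSubring)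
      (fun Q hQ hQ0 => relNorm_prime hx v Q hQ hQ0)
      (by rwa [Ne, Ideal.span_singleton_eq_bot]),
    multiplicity_pow_self_of_prime hprime] at h3
  rw [h2]
  exact h3.symm

/-- the norm formula, summed over the primes of the integral closure of `O_v` -/
theorem sum_ord_placeOf {x : F} (hx : IsGenerator K x) (v : Place K F)
    [Fintype (HeightOneSpectrum (integralClosure v.toValuationSubring F'))]
    {f : F'} (hf : f ≠ 0) :
    ∑ P : HeightOneSpectrum (integralClosure v.toValuationSubring F'), (placeOf v P).ord f
      = v.ord (Algebra.norm F f) := by
  obtain ⟨a, b, hb, rfl⟩ :=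
    IsFractionRing.div_surjective (A := integralClosure v.toValuationSubring F') f
  have hb0 : b ≠ 0 := nonZeroDivisors.ne_zero hb
  have hinj := IsFractionRing.injective (integralClosure v.toValuationSubring F') F'
  have hb' : algebraMap (integralClosure v.toValuationSubring F') F' b ≠ 0 :=
    (map_ne_zero_iff _ hinj).mpr hb0
  have ha' : algebraMap (integralClosure v.toValuationSubring F') F' a ≠ 0 := by
    intro h
    rw [h, zero_div] at hf
    exact hf rfl
  have ha0 : a ≠ 0 := (map_ne_zero_iff _ hinj).mp ha'
  have hna : Algebra.norm F (algebraMap (integralClosure v.toValuationSubring F') F' a) ≠ 0 :=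
    Algebra.norm_ne_zero_iff.mpr ha'
  have hnb : Algebra.norm F (algebraMap (integralClosure v.toValuationSubring F') F' b) ≠ 0 :=
    Algebra.norm_ne_zero_iff.mpr hb'
  have hmul : Algebra.norm F (algebraMap (integralClosure v.toValuationSubring F') F' a /
      algebraMap (integralClosure v.toValuationSubring F') F' b) *
      Algebra.norm F (algebraMap (integralClosure v.toValuationSubring F') F' b) =
      Algebra.norm F (algebraMap (integralClosure v.toValuationSubring F') F' a) := by
    rw [← map_mul, div_mul_cancel₀ _ hb']
  have hord := v.ord_mul (Algebra.norm_ne_zero_iff.mpr hf) hnb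
  rw [hmul, ← sum_ord_intClosure hx v ha0, ← sum_ord_intClosure hx v hb0] at hord
  rw [eq_sub_of_add_eq hord.symm, ← Finset.sum_sub_distrib]
  refine Finset.sum_congr rfl fun P _ => ?_
  rw [div_eq_mul_inv, (placeOf v P).ord_mul ha' (inv_ne_zero hb'), Place.ord_inv]
  ring

/-- **The norm formula** for a finite extension of function fields over an algebraically closed
field of characteristic zero. -/
theorem pushforwardNormFormula {x : F} (hx : IsGenerator K x) :
    Divisor.PushforwardNormFormula K F F' := by
  classical
  intro f hf D hD v
  haveI : Finite (HeightOneSpectrum (integralClosure v.toValuationSubring F')) :=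
    finite_heightOneSpectrum (R := v.toValuationSubring)
      (IsDiscreteValuationRing.not_a_field _)
  letI : Fintype (HeightOneSpectrum (integralClosure v.toValuationSubring F')) :=
    Fintype.ofFinite _
  rw [Divisor.pushforward_apply, ← sum_ord_placeOf hx v hf, ← Finset.sum_filter,
    ← Finset.sum_image (s := Finset.univ) (g := placeOf v) (f := fun w => w.ord f)
      (fun P _ P' _ h => placeOf_injective v h)]
  rw [← Finset.sum_subset (s₁ := D.support.filter (fun w => w.restrict F = v))
    (s₂ := Finset.univ.image (placeOf v))]
  · refine Finset.sum_congr rfl fun w _ => ?_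
    rw [hD w, FundId.inertiaDeg_eq_one hx w, Nat.cast_one, mul_one]
  · intro w hw
    rw [Finset.mem_filter] at hw
    obtain ⟨P, hP⟩ := exists_placeOf_eq v w hw.2
    exact Finset.mem_image.mpr ⟨P, Finset.mem_univ _, hP⟩
  · intro w hw hnot
    obtain ⟨P, -, rfl⟩ := Finset.mem_image.mp hw
    have hns : placeOf v P ∉ D.support := fun h =>
      hnot (Finset.mem_filter.mpr ⟨h, restrict_placeOf v P⟩)
    rw [Finsupp.notMem_support_iff, hD] at hns
    exact hns

/-- the norm formula in the form `∑_{w | v} ord_w f = ord_v (N f)` -/
theorem sum_ord_fiber [HasPrincipalDivisors K F'] {x : F} (hx : IsGenerator K x)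
    (v : Place K F) {f : F'} (hf : f ≠ 0) :
    ∑ w ∈ v.fiber F', w.ord f = v.ord (Algebra.norm F f) := by
  classical
  haveI : Finite (HeightOneSpectrum (integralClosure v.toValuationSubring F')) :=
    finite_heightOneSpectrum (R := v.toValuationSubring)
      (IsDiscreteValuationRing.not_a_field _)
  letI : Fintype (HeightOneSpectrum (integralClosure v.toValuationSubring F')) :=
    Fintype.ofFinite _
  rw [← sum_ord_placeOf hx v hf,
    ← Finset.sum_image (s := Finset.univ) (g := placeOf v) (f := fun w => w.ord f)
      (fun P _ P' _ h => placeOf_injective v h)]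
  refine Finset.sum_congr ?_ (fun _ _ => rfl)
  ext w
  rw [Place.mem_fiber, Finset.mem_image]
  constructor
  · intro hw
    obtain ⟨P, hP⟩ := exists_placeOf_eq v w hw
    exact ⟨P, Finset.mem_univ _, hP⟩
  · rintro ⟨P, -, rfl⟩
    exact restrict_placeOf v P

end Main

section Along

variable {K F F' : Type*} [Field K] [IsAlgClosed K] [CharZero K] [Field F] [Field F']
  [Algebra K F] [Algebra K F']

/-- the norm formula along an embedding of function fields -/
theorem normFormulaAlong (φ : F →ₐ[K] F') (hfin : FiniteAlong K φ) {x : F}
    (hx : IsGenerator K x) : NormFormulaAlong K φ hfin := by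
  letI := algebraAlong φ
  haveI := isScalarTower_along φ
  haveI : FiniteDimensional F F' := hfin
  exact pushforwardNormFormula hx

end Along

end Fermat.Agent.S37.NormFormula
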