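import Mathlib
import Fermat.Prelude.Def_ModularCurve_HeckeModule
import Fermat.Agent.S37_HeckeInputs
import Fermat.Agent.S37_NormFormula

/-!
# S37 (H), final: `HeckeInputsAlong (AlgebraicClosure ℚ) N ℓ`, unconditionally

So the Prelude's `heckeOperatorAlong (AlgebraicClosure ℚ) N ℓ` is the genuine correspondence
`heckePic0Bar` (`α_* ∘ β^*` on `Pic⁰`), for every `N` and `ℓ` (no primality / coprimality).
-/

set_option autoImplicit false
set_option linter.style.haveILetI false

noncomputable section

open AlgebraicCurve ModularCurve Fermat.Agent.S24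

namespace Fermat.Agent.S37.HeckeInputs

local notation "Qbar" => AlgebraicClosure ℚ

variable (N ℓ : ℕ) [NeZero N] [NeZero ℓ]

/-- the norm formula along `α`. -/
theorem normFormulaAlong_alpha :
    NormFormulaAlong Qbar (heckeAlphaBar Qbar N ℓ) (finiteAlong_alpha N ℓ) := by
  obtain ⟨x, hx⟩ := Fermat.Agent.S37.Gal.exists_isGenerator_bar N
  exact Fermat.Agent.S37.NormFormula.normFormulaAlong _ _ hx

/-- the norm formula along `β`. -/
theorem normFormulaAlong_beta :
    NormFormulaAlong Qbar (heckeBetaBar Qbar N ℓ) (finiteAlong_beta N ℓ) := by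
  obtain ⟨x, hx⟩ := Fermat.Agent.S37.Gal.exists_isGenerator_bar N
  exact Fermat.Agent.S37.NormFormula.normFormulaAlong _ _ hx

/-- **(H): the Hecke inputs hold at every level `(N, ℓ)` over `ℚ̄`.** -/
theorem heckeInputsAlong : HeckeInputsAlong Qbar N ℓ :=
  heckeInputsAlong_of_normFormula N ℓ (normFormulaAlong_alpha N ℓ)

/-- the Prelude's total Hecke operator is the correspondence `heckePic0Bar`. -/
theorem heckeOperatorAlong_eq_heckePic0Bar :
    haveI := hasPrincipalDivisors_level N ℓ
    heckeOperatorAlong Qbar N ℓ =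
      heckePic0Bar (heckeAlphaBarIntegral N ℓ) (heckeBetaBarIntegral N ℓ)
        (fundamentalIdentityAlong_beta N ℓ) (finiteAlong_alpha N ℓ) (normFormulaAlong_alpha N ℓ) := by
  haveI := hasPrincipalDivisors_level N ℓ
  exact heckeOperatorAlong_eq _ _ _ _ _

/-- the generator `T_ℓ` of the Hecke algebra acts on `J₀(N)` by `heckePic0Bar`. -/
theorem heckeOperatorBar_apply_eq (q : Nat.Primes) (x : JZero N) :
    haveI : NeZero (q : ℕ) := ⟨q.2.ne_zero⟩
    haveI := hasPrincipalDivisors_level N (q : ℕ)
    heckeOperatorBar N q x =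
      heckePic0Bar (heckeAlphaBarIntegral N q) (heckeBetaBarIntegral N q)
        (fundamentalIdentityAlong_beta N q) (finiteAlong_alpha N q) (normFormulaAlong_alpha N q) x := by
  haveI : NeZero (q : ℕ) := ⟨q.2.ne_zero⟩
  haveI := hasPrincipalDivisors_level N (q : ℕ)
  rw [heckeOperatorBar_apply, heckeOperatorAlong_eq_heckePic0Bar]

end Fermat.Agent.S37.HeckeInputs
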