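import Mathlib
import Fermat.Agent.S24_Tower
import Fermat.Agent.S18_Index
import Fermat.Prelude.Def_ModularCurve_HeckeOperator

/-!
# S37, work package (W): the Atkin–Lehner involution of `F_{Nℓ}`

For a prime `ℓ ∤ N` the function field `F_{Nℓ} = K(j(q^e) : e ∣ Nℓ)` has an automorphism `w`
which swaps `j(q^d)` and `j(q^{dℓ})` for `d ∣ N`; it exchanges the two degeneracy maps
`heckeAlphaBar` and `heckeBetaBar`.  It is constructed from the analytic identity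
`j(d W τ) = j(d ℓ τ)`, `j(d ℓ W τ) = j(d τ)` for `W τ = γ₀ (ℓ τ)` with a suitable `γ₀ ∈ SL₂(ℤ)`:
polynomial relations among the generators are stable under the swap.

Also: `[F_{Nℓ} : F_N] = ℓ + 1` along both degeneracy maps.
-/

set_option autoImplicit false
set_option linter.unusedSectionVars false
set_option linter.style.haveILetI false

noncomputable section

open UpperHalfPlane ModularCurve CongruenceSubgroup
open scoped MatrixGroups Manifold

namespace Fermat.Agent.S37.W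

open Fermat.Agent.S24 Fermat.Agent.S24.Tower

/-! ### the analytic swap -/

/-- the point `(a τ + b) / d`. -/
theorem coe_utGL_smul (a b d : ℕ) (ha : a ≠ 0) (hd : d ≠ 0) (τ : ℍ) :
    ((utGL a b d ha hd • τ : ℍ) : ℂ) = ((a : ℂ) * τ + b) / d := by
  have hdet : 0 < ((utGL a b d ha hd).det : ℝ) := det_utGL_pos a b d ha hd
  rw [UpperHalfPlane.coe_smul_of_det_pos hdet]
  simp [UpperHalfPlane.num, UpperHalfPlane.denom, utGL, ModularForm.val_upperTriangularGL]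

theorem utGL_smul_utGL_one (d ℓ : ℕ) (hd : d ≠ 0) (hℓ : ℓ ≠ 0) (τ : ℍ) :
    utGL d 0 1 hd one_ne_zero • (utGL ℓ 0 1 hℓ one_ne_zero • τ)
      = utGL (d * ℓ) 0 1 (mul_ne_zero hd hℓ) one_ne_zero • τ := by
  apply UpperHalfPlane.ext
  rw [coe_utGL_smul, coe_utGL_smul, coe_utGL_smul]
  push_cast
  ring

theorem utGL_smul_utGL_cancel (d ℓ : ℕ) (hd : d ≠ 0) (hℓ : ℓ ≠ 0) (τ : ℍ) :
    utGL d 0 ℓ hd hℓ • (utGL ℓ 0 1 hℓ one_ne_zero • τ) = utGL d 0 1 hd one_ne_zero • τ := by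
  apply UpperHalfPlane.ext
  rw [coe_utGL_smul, coe_utGL_smul, coe_utGL_smul]
  have : (ℓ : ℂ) ≠ 0 := Nat.cast_ne_zero.mpr hℓ
  push_cast
  field_simp
  ring

/-- the Atkin–Lehner substitution on `ℍ`: there is a map `W : ℍ → ℍ` with
`j (d (W τ)) = j (d ℓ τ)` and `j (d ℓ (W τ)) = j (d τ)` for all `d ∣ N`. -/
theorem exists_swap_point (N ℓ : ℕ) (hℓ0 : ℓ ≠ 0) (hcop : Nat.Coprime ℓ N) :
    ∃ W : ℍ → ℍ, ∀ (d : ℕ) (hd : d ≠ 0), d ∣ N → ∀ τ : ℍ,
      JAnalytic.jA (utGL d 0 1 hd one_ne_zero • W τ)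
        = JAnalytic.jA (utGL (d * ℓ) 0 1 (mul_ne_zero hd hℓ0) one_ne_zero • τ) ∧
      JAnalytic.jA (utGL (d * ℓ) 0 1 (mul_ne_zero hd hℓ0) one_ne_zero • W τ)
        = JAnalytic.jA (utGL d 0 1 hd one_ne_zero • τ) := by
  -- Bezout: `ℓ a + N b = 1`
  obtain ⟨a, b, hab⟩ : ∃ a b : ℤ, (ℓ : ℤ) * a + (N : ℤ) * b = 1 := by
    have h := Nat.gcd_eq_gcd_ab ℓ N
    rw [hcop.gcd_eq_one] at h
    exact ⟨Nat.gcdA ℓ N, Nat.gcdB ℓ N, by rw [← h]; rfl⟩
  let γ₀ : SL(2, ℤ) := ⟨!![a, -b; (N : ℤ), (ℓ : ℤ)], by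
    rw [Matrix.det_fin_two_of]; linarith⟩
  refine ⟨fun τ => γ₀ • (utGL ℓ 0 1 hℓ0 one_ne_zero • τ), fun d hd hdN τ => ?_⟩
  obtain ⟨c, hc⟩ := hdN
  have hc' : (N : ℤ) = (d : ℤ) * c := by exact_mod_cast hc
  constructor
  · -- `[[d,0],[0,1]] γ₀ = δ [[d,0],[0,1]]`
    let δ : SL(2, ℤ) := ⟨!![a, -((d : ℤ) * b); (c : ℤ), (ℓ : ℤ)], by
      rw [Matrix.det_fin_two_of]; rw [hc'] at hab; linarith⟩
    have h : !![((d : ℕ) : ℤ), ((0 : ℕ) : ℤ); 0, ((1 : ℕ) : ℤ)]
          * (γ₀ : Matrix (Fin 2) (Fin 2) ℤ)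
        = (δ : Matrix (Fin 2) (Fin 2) ℤ) * !![((d : ℕ) : ℤ), ((0 : ℕ) : ℤ); 0, ((1 : ℕ) : ℤ)] := by
      show !![((d : ℕ) : ℤ), ((0 : ℕ) : ℤ); 0, ((1 : ℕ) : ℤ)] * !![a, -b; (N : ℤ), (ℓ : ℤ)]
        = !![a, -((d : ℤ) * b); (c : ℤ), (ℓ : ℤ)]
          * !![((d : ℕ) : ℤ), ((0 : ℕ) : ℤ); 0, ((1 : ℕ) : ℤ)]
      rw [Matrix.mul_fin_two, Matrix.mul_fin_two, hc']
      congr 1
      simp only [Nat.cast_zero, Nat.cast_one]
      ext i j
      fin_cases i <;> fin_cases j <;> simp <;> ring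
    show JAnalytic.jA (utGL d 0 1 hd one_ne_zero • γ₀ • (utGL ℓ 0 1 hℓ0 one_ne_zero • τ)) = _
    rw [utGL_mul_sl d 0 1 d 0 1 hd one_ne_zero hd one_ne_zero γ₀ δ h, JAnalytic.jA_smul,
      utGL_smul_utGL_one]
  · -- `[[dℓ,0],[0,1]] γ₀ = δ [[d,0],[0,ℓ]]`
    let δ : SL(2, ℤ) := ⟨!![(ℓ : ℤ) * a, -((d : ℤ) * b); (c : ℤ), 1], by
      rw [Matrix.det_fin_two_of]; rw [hc'] at hab; linarith⟩
    have h : !![((d * ℓ : ℕ) : ℤ), ((0 : ℕ) : ℤ); 0, ((1 : ℕ) : ℤ)]
          * (γ₀ : Matrix (Fin 2) (Fin 2) ℤ)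
        = (δ : Matrix (Fin 2) (Fin 2) ℤ) * !![((d : ℕ) : ℤ), ((0 : ℕ) : ℤ); 0, ((ℓ : ℕ) : ℤ)] := by
      show !![((d * ℓ : ℕ) : ℤ), ((0 : ℕ) : ℤ); 0, ((1 : ℕ) : ℤ)] * !![a, -b; (N : ℤ), (ℓ : ℤ)]
        = !![(ℓ : ℤ) * a, -((d : ℤ) * b); (c : ℤ), 1]
          * !![((d : ℕ) : ℤ), ((0 : ℕ) : ℤ); 0, ((ℓ : ℕ) : ℤ)]
      rw [Matrix.mul_fin_two, Matrix.mul_fin_two, hc']
      simp only [Nat.cast_zero, Nat.cast_one, Nat.cast_mul]
      ext i j
      fin_cases i <;> fin_cases j <;> simp <;> ring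
    show JAnalytic.jA (utGL (d * ℓ) 0 1 (mul_ne_zero hd hℓ0) one_ne_zero
      • γ₀ • (utGL ℓ 0 1 hℓ0 one_ne_zero • τ)) = _
    rw [utGL_mul_sl (d * ℓ) 0 1 d 0 ℓ (mul_ne_zero hd hℓ0) one_ne_zero hd hℓ0 γ₀ δ h,
      JAnalytic.jA_smul, utGL_smul_utGL_cancel]

/-! ### an algebraic lemma: swapping generators -/

/-- if the polynomial relations among a generating family `g` of a field extension `F / K` are
stable under an involution `s` of the index set, there is a `K`-endomorphism of `F` with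
`g i ↦ g (s i)`. -/
theorem exists_algHom_of_relations {K F : Type*} [Field K] [Field F] [Algebra K F] {ι : Type*}
    (g : ι → F) (s : ι → ι) (hs : ∀ i, s (s i) = i)
    (hrel : ∀ P : MvPolynomial ι K, MvPolynomial.aeval g P = 0 →
      MvPolynomial.aeval g (MvPolynomial.rename s P) = 0)
    (hgen : ∀ f : F, ∃ r t : MvPolynomial ι K,
      f = MvPolynomial.aeval g r / MvPolynomial.aeval g t) :
    ∃ w : F →ₐ[K] F, ∀ i, w (g i) = g (s i) := by
  classical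
  let π : MvPolynomial ι K →ₐ[K] F := MvPolynomial.aeval g
  let I : Ideal (MvPolynomial ι K) := RingHom.ker π.toRingHom
  let πb : (MvPolynomial ι K ⧸ I) →ₐ[K] F := Ideal.Quotient.liftₐ I π (fun a ha => ha)
  have hπb : Function.Injective πb := by
    rw [injective_iff_map_eq_zero]
    intro b hb
    obtain ⟨P, rfl⟩ := Ideal.Quotient.mk_surjective b
    exact Ideal.Quotient.eq_zero_iff_mem.mpr hb
  letI : Algebra (MvPolynomial ι K ⧸ I) F := πb.toRingHom.toAlgebra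
  haveI : IsScalarTower K (MvPolynomial ι K ⧸ I) F :=
    IsScalarTower.of_algebraMap_eq (fun c => (πb.commutes c).symm)
  haveI : FaithfulSMul (MvPolynomial ι K ⧸ I) F :=
    (faithfulSMul_iff_algebraMap_injective _ _).mpr hπb
  haveI : IsFractionRing (MvPolynomial ι K ⧸ I) F := IsFractionRing.of_field _ _ (fun z => by
    obtain ⟨r, t, rfl⟩ := hgen z
    exact ⟨Ideal.Quotient.mk I r, Ideal.Quotient.mk I t, rfl⟩)
  let w₀ : (MvPolynomial ι K ⧸ I) →ₐ[K] F :=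
    Ideal.Quotient.liftₐ I (π.comp (MvPolynomial.rename s)) (fun a ha => hrel a ha)
  have hw₀ : Function.Injective w₀ := by
    rw [injective_iff_map_eq_zero]
    intro b hb
    obtain ⟨P, rfl⟩ := Ideal.Quotient.mk_surjective b
    have h1 : MvPolynomial.aeval g (MvPolynomial.rename s P) = 0 := hb
    have h2 := hrel _ h1
    rw [MvPolynomial.rename_rename, (funext hs : s ∘ s = id), MvPolynomial.rename_id_apply]
      at h2
    exact Ideal.Quotient.eq_zero_iff_mem.mpr h2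
  refine ⟨IsFractionRing.liftAlgHom hw₀, fun i => ?_⟩
  have h1 : g i = algebraMap (MvPolynomial ι K ⧸ I) F (Ideal.Quotient.mk I (MvPolynomial.X i)) := by
    show g i = MvPolynomial.aeval g (MvPolynomial.X i)
    rw [MvPolynomial.aeval_X]
  rw [h1, IsFractionRing.liftAlgHom_apply, IsFractionRing.lift_algebraMap]
  show MvPolynomial.aeval g (MvPolynomial.rename s (MvPolynomial.X i)) = _
  rw [MvPolynomial.rename_X, MvPolynomial.aeval_X]

/-! ### generators of `F_{Nℓ}` -/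

section Generators

variable (K : Type) [Field K] [Algebra K ℂ] [Algebra ℚ K] [IsAlgClosed K]
variable (N ℓ : ℕ) [NeZero N] [NeZero ℓ]

/-- index type of the generators: `(d, false) ↦ j (q ^ d)`, `(d, true) ↦ j (q ^ (d ℓ))`. -/
abbrev Idx : Type := {d : ℕ // d ∣ N} × Bool

/-- the level of a generator. -/
def lev (i : Idx N) : ℕ := if i.2 then i.1.1 * ℓ else i.1.1

/-- the swap of the index set. -/
def sw (i : Idx N) : Idx N := (i.1, !i.2)

theorem sw_sw (i : Idx N) : sw N (sw N i) = i := by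
  rcases i with ⟨d, b⟩
  simp [sw]

theorem lev_false (d : {d : ℕ // d ∣ N}) : lev N ℓ (d, false) = d.1 := rfl

theorem lev_true (d : {d : ℕ // d ∣ N}) : lev N ℓ (d, true) = d.1 * ℓ := rfl

theorem lev_dvd (i : Idx N) : lev N ℓ i ∣ N * ℓ := by
  rcases i with ⟨d, b⟩
  cases b
  · exact d.2.trans (dvd_mul_right N ℓ)
  · exact mul_dvd_mul_right d.2 ℓ

theorem lev_ne_zero (i : Idx N) : lev N ℓ i ≠ 0 :=
  ne_zero_of_dvd_ne_zero (mul_ne_zero (NeZero.ne N) (NeZero.ne ℓ)) (lev_dvd N ℓ i)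

instance instNeZeroLev (i : Idx N) : NeZero (lev N ℓ i) := ⟨lev_ne_zero N ℓ i⟩

/-- every divisor of `N ℓ` is the level of a generator. -/
theorem exists_lev_eq (hℓ : ℓ.Prime) {e : ℕ} (he : e ∣ N * ℓ) : ∃ i : Idx N, lev N ℓ i = e := by
  by_cases h : ℓ ∣ e
  · obtain ⟨d, rfl⟩ := h
    have hd : d ∣ N := by
      rw [mul_comm N ℓ] at he
      exact (Nat.mul_dvd_mul_iff_left hℓ.pos).mp he
    exact ⟨(⟨d, hd⟩, true), by rw [lev_true, mul_comm]⟩
  · have hcop : Nat.Coprime e ℓ := ((Nat.Prime.coprime_iff_not_dvd hℓ).mpr h).symm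
    exact ⟨(⟨e, hcop.dvd_of_dvd_mul_right he⟩, false), rfl⟩

/-- the formal generator, as a Laurent series. -/
def genL (i : Idx N) : LaurentSeries K := coeffEmb K (qExpand ℚ (lev N ℓ i) jq)

theorem genL_mem (i : Idx N) :
    genL K N ℓ i ∈ laurentBaseChange K (modularFunctionFieldFull (N * ℓ)) :=
  coeffEmb_mem_laurentBaseChange K (jqd_mem_full (N * ℓ) (lev_dvd N ℓ i))

/-- the formal generator, as an element of the function field. -/
def genF (i : Idx N) : ↥(laurentBaseChange K (modularFunctionFieldFull (N * ℓ))) :=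
  ⟨genL K N ℓ i, genL_mem K N ℓ i⟩

theorem coe_genF (i : Idx N) : ((genF K N ℓ i : ↥(laurentBaseChange K (modularFunctionFieldFull (N * ℓ))))
    : LaurentSeries K) = genL K N ℓ i := rfl

/-- the analytic generator. -/
def genA (i : Idx N) : modRing K (N * ℓ) := jD K (N * ℓ) (lev N ℓ i) (lev_dvd N ℓ i)

theorem genA_apply (i : Idx N) (τ : ℍ) :
    (genA K N ℓ i : ℍ → ℂ) τ
      = JAnalytic.jA (utGL (lev N ℓ i) 0 1 (lev_ne_zero N ℓ i) one_ne_zero • τ) := rfl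

/-- an element of the function field with expansion `j (q ^ e)`, `e ∣ N ℓ`, is a generator. -/
theorem exists_eq_genF (hℓ : ℓ.Prime) (f : ↥(laurentBaseChange K (modularFunctionFieldFull (N * ℓ))))
    (hf : ∃ (e : ℕ) (_ : NeZero e), e ∣ N * ℓ ∧ (f : LaurentSeries K) = coeffEmb K (qExpand ℚ e jq)) :
    ∃ i : Idx N, f = genF K N ℓ i := by
  obtain ⟨e, he0, he, hfe⟩ := hf
  obtain ⟨i, hi⟩ := exists_lev_eq N ℓ hℓ he
  refine ⟨i, Subtype.ext ?_⟩
  rw [hfe, coe_genF, genL]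
  congr 1
  exact (qExpand_congr hi jq).symm

/-- the formal generators generate the function field. -/
theorem exists_div_genF (hℓ : ℓ.Prime) (f : ↥(laurentBaseChange K (modularFunctionFieldFull (N * ℓ)))) :
    ∃ r t : MvPolynomial (Idx N) K,
      f = MvPolynomial.aeval (genF K N ℓ) r / MvPolynomial.aeval (genF K N ℓ) t := by
  have hmem : (f : LaurentSeries K) ∈ IntermediateField.adjoin K (Set.range (genL K N ℓ)) := by
    have h1 : (f : LaurentSeries K) ∈ IntermediateField.adjoin K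
        {x | ∃ (d : ℕ) (_ : NeZero d), d ∣ N * ℓ ∧ x = coeffEmb K (qExpand ℚ d jq)} := by
      rw [← TowerMap.laurentBaseChange_full_eq]
      exact f.2
    refine IntermediateField.adjoin.mono K _ _ ?_ h1
    rintro x ⟨e, he0, he, rfl⟩
    obtain ⟨i, hi⟩ := exists_lev_eq N ℓ hℓ he
    exact ⟨i, congrArg (coeffEmb K) (qExpand_congr hi jq)⟩
  rw [IntermediateField.mem_adjoin_range_iff] at hmem
  obtain ⟨r, t, hrt⟩ := hmem
  refine ⟨r, t, Subtype.ext ?_⟩
  have hval : ∀ P : MvPolynomial (Idx N) K,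
      ((MvPolynomial.aeval (genF K N ℓ) P : ↥(laurentBaseChange K (modularFunctionFieldFull (N * ℓ))))
        : LaurentSeries K) = MvPolynomial.aeval (genL K N ℓ) P := fun P =>
    MvPolynomial.comp_aeval_apply (genF K N ℓ)
      (IntermediateField.val (laurentBaseChange K (modularFunctionFieldFull (N * ℓ)))) P
  rw [hrt]
  show _ = ((MvPolynomial.aeval (genF K N ℓ) r : ↥(laurentBaseChange K (modularFunctionFieldFull (N * ℓ))))
        : LaurentSeries K) / ((MvPolynomial.aeval (genF K N ℓ) t : ↥(laurentBaseChange K (modularFunctionFieldFull (N * ℓ))))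
        : LaurentSeries K)
  rw [hval, hval]

/-- formal relations are analytic relations. -/
theorem aeval_genF_eq_zero_iff (P : MvPolynomial (Idx N) K) :
    MvPolynomial.aeval (genF K N ℓ) P = 0 ↔ MvPolynomial.aeval (genA K N ℓ) P = 0 := by
  have h1 : ((qExpandAlgHomC K (N * ℓ)).comp
        (IntermediateField.val (laurentBaseChange K (modularFunctionFieldFull (N * ℓ)))))
        (MvPolynomial.aeval (genF K N ℓ) P)
      = expRing K (N * ℓ) (MvPolynomial.aeval (genA K N ℓ) P) := by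
    rw [MvPolynomial.comp_aeval_apply, MvPolynomial.comp_aeval_apply]
    congr 2
    funext i
    exact (expRing_jD K (N * ℓ) (lev N ℓ i) (lev_dvd N ℓ i)).symm
  constructor
  · intro h
    apply expRing_injective K (N * ℓ)
    rw [← h1, h, map_zero, map_zero]
  · intro h
    rw [h, map_zero] at h1
    exact (injective_iff_map_eq_zero _).mp (RingHom.injective
      ((qExpandAlgHomC K (N * ℓ)).comp
        (IntermediateField.val (laurentBaseChange K (modularFunctionFieldFull (N * ℓ))))).toRingHom)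
      _ h1

/-- analytic relations are stable under the swap. -/
theorem aeval_genA_rename (W : ℍ → ℍ)
    (hW : ∀ (i : Idx N) (τ : ℍ), (genA K N ℓ i : ℍ → ℂ) (W τ) = (genA K N ℓ (sw N i) : ℍ → ℂ) τ)
    (P : MvPolynomial (Idx N) K) (hP : MvPolynomial.aeval (genA K N ℓ) P = 0) :
    MvPolynomial.aeval (genA K N ℓ) (MvPolynomial.rename (sw N) P) = 0 := by
  let ev : ℍ → (modRing K (N * ℓ) →ₐ[K] ℂ) := fun τ =>
    (Pi.evalAlgHom K (fun _ : ℍ => ℂ) τ).comp (modRing K (N * ℓ)).val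
  have hev : ∀ (τ : ℍ) (f : modRing K (N * ℓ)), ev τ f = (f : ℍ → ℂ) τ := fun τ f => rfl
  apply Subtype.ext
  funext τ
  show ev τ (MvPolynomial.aeval (genA K N ℓ) (MvPolynomial.rename (sw N) P)) = 0
  rw [MvPolynomial.aeval_rename, MvPolynomial.comp_aeval_apply]
  have h2 : (fun i => ev τ ((genA K N ℓ ∘ sw N) i)) = fun i => ev (W τ) (genA K N ℓ i) := by
    funext i
    rw [hev, hev]
    exact (hW i τ).symm
  rw [h2, ← MvPolynomial.comp_aeval_apply, hP, map_zero]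

end Generators

/-! ### the involution -/

section Main

variable (K : Type) [Field K] [Algebra K ℂ] [Algebra ℚ K] [IsAlgClosed K]
variable (N ℓ : ℕ) [NeZero N] [NeZero ℓ]

/-- the endomorphism swapping the generators. -/
theorem exists_swapHom (hℓ : ℓ.Prime) (hℓN : ¬ ℓ ∣ N) :
    ∃ w : ↥(laurentBaseChange K (modularFunctionFieldFull (N * ℓ))) →ₐ[K]
        ↥(laurentBaseChange K (modularFunctionFieldFull (N * ℓ))),
      ∀ i : Idx N, w (genF K N ℓ i) = genF K N ℓ (sw N i) := by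
  obtain ⟨W, hW⟩ := exists_swap_point N ℓ (NeZero.ne ℓ) ((Nat.Prime.coprime_iff_not_dvd hℓ).mpr hℓN)
  have hW' : ∀ (i : Idx N) (τ : ℍ),
      (genA K N ℓ i : ℍ → ℂ) (W τ) = (genA K N ℓ (sw N i) : ℍ → ℂ) τ := by
    rintro ⟨d, b⟩ τ
    have hd0 : d.1 ≠ 0 := ne_zero_of_dvd_ne_zero (NeZero.ne N) d.2
    have h := hW d.1 hd0 d.2 τ
    cases b
    · exact h.1
    · exact h.2
  refine exists_algHom_of_relations (genF K N ℓ) (sw N) (sw_sw N) (fun P hP => ?_)
    (exists_div_genF K N ℓ hℓ)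
  rw [aeval_genF_eq_zero_iff] at hP ⊢
  exact aeval_genA_rename K N ℓ W hW' P hP

/-- **Atkin–Lehner involution**, for an algebraically closed coefficient field inside `ℂ`: an
automorphism `w` of `F_{Nℓ}` with `w ∘ α = β`, `w ∘ β = α`, `w ∘ w = id`. -/
theorem exists_atkinLehner_gen (hℓ : ℓ.Prime) (hℓN : ¬ ℓ ∣ N) :
    ∃ w : ↥(laurentBaseChange K (modularFunctionFieldFull (N * ℓ))) ≃ₐ[K]
        ↥(laurentBaseChange K (modularFunctionFieldFull (N * ℓ))),
      (w : ↥(laurentBaseChange K (modularFunctionFieldFull (N * ℓ))) →ₐ[K]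
          ↥(laurentBaseChange K (modularFunctionFieldFull (N * ℓ)))).comp (heckeAlphaBar K N ℓ)
        = heckeBetaBar K N ℓ ∧
      (w : ↥(laurentBaseChange K (modularFunctionFieldFull (N * ℓ))) →ₐ[K]
          ↥(laurentBaseChange K (modularFunctionFieldFull (N * ℓ)))).comp (heckeBetaBar K N ℓ)
        = heckeAlphaBar K N ℓ ∧
      (w : ↥(laurentBaseChange K (modularFunctionFieldFull (N * ℓ))) →ₐ[K]
          ↥(laurentBaseChange K (modularFunctionFieldFull (N * ℓ)))).comp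
        (w : ↥(laurentBaseChange K (modularFunctionFieldFull (N * ℓ))) →ₐ[K]
          ↥(laurentBaseChange K (modularFunctionFieldFull (N * ℓ)))) = AlgHom.id K _ := by
  obtain ⟨w, hw⟩ := exists_swapHom K N ℓ hℓ hℓN
  have hww : w.comp w = AlgHom.id K _ := by
    apply TowerMap.algHom_ext_full K (N * ℓ)
    intro f hf
    obtain ⟨i, rfl⟩ := exists_eq_genF K N ℓ hℓ f hf
    show w (w (genF K N ℓ i)) = genF K N ℓ i
    rw [hw, hw, sw_sw]
  -- the generators of `F_N` under `α` and `β`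
  have hα : ∀ (d : {d : ℕ // d ∣ N}) (f : ↥(laurentBaseChange K (modularFunctionFieldFull N)))
      (_ : NeZero d.1), (f : LaurentSeries K) = coeffEmb K (qExpand ℚ d.1 jq) →
      heckeAlphaBar K N ℓ f = genF K N ℓ (d, false) := by
    intro d f _ hf
    apply Subtype.ext
    rw [coe_heckeAlphaBar, hf, coe_genF]
    rfl
  have hβ : ∀ (d : {d : ℕ // d ∣ N}) (f : ↥(laurentBaseChange K (modularFunctionFieldFull N)))
      (_ : NeZero d.1), (f : LaurentSeries K) = coeffEmb K (qExpand ℚ d.1 jq) →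
      heckeBetaBar K N ℓ f = genF K N ℓ (d, true) := by
    intro d f _ hf
    apply Subtype.ext
    rw [coe_heckeBetaBar, hf, coe_genF, genL, ← JFormal.coeffEmb_qExpand, qExpand_qExpand]
    congr 1
    exact qExpand_congr (by rw [lev_true, mul_comm]) jq
  have h1 : w.comp (heckeAlphaBar K N ℓ) = heckeBetaBar K N ℓ := by
    apply TowerMap.algHom_ext_full K N
    rintro f ⟨d, hd0, hd, hf⟩
    show w (heckeAlphaBar K N ℓ f) = heckeBetaBar K N ℓ f
    rw [hα ⟨d, hd⟩ f hd0 hf, hβ ⟨d, hd⟩ f hd0 hf, hw]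
    rfl
  have h2 : w.comp (heckeBetaBar K N ℓ) = heckeAlphaBar K N ℓ := by
    apply TowerMap.algHom_ext_full K N
    rintro f ⟨d, hd0, hd, hf⟩
    show w (heckeBetaBar K N ℓ f) = heckeAlphaBar K N ℓ f
    rw [hα ⟨d, hd⟩ f hd0 hf, hβ ⟨d, hd⟩ f hd0 hf, hw]
    rfl
  exact ⟨AlgEquiv.ofAlgHom w w hww hww, h1, h2, hww⟩

end Main

/-! ### degrees -/

section Degree

/-- the degree of an inclusion of intermediate fields, with the algebra structure given by the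
inclusion homomorphism. -/
theorem finrank_inclusion {F E : Type*} [Field F] [Field E] [Algebra F E]
    {A B : IntermediateField F E} (h : A ≤ B) :
    letI := (IntermediateField.inclusion h).toRingHom.toAlgebra
    Module.finrank A B = A.relfinrank B := by
  rw [IntermediateField.relfinrank_eq_finrank_of_le h]
  letI := (IntermediateField.inclusion h).toRingHom.toAlgebra
  refine LinearEquiv.finrank_eq ?_
  exact
    { toFun := fun x => ⟨x.1, (IntermediateField.mem_extendScalars h).mpr x.2⟩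
      invFun := fun x => ⟨x.1, (IntermediateField.mem_extendScalars h).mp x.2⟩
      map_add' := fun _ _ => rfl
      map_smul' := fun _ _ => rfl
      left_inv := fun _ => rfl
      right_inv := fun _ => rfl }

variable (K : Type) [Field K] [Algebra K ℂ] [Algebra ℚ K] [IsAlgClosed K]
variable (N ℓ : ℕ) [NeZero N] [NeZero ℓ]

/-- `[F_{Nℓ} : F_N] = ℓ + 1` in relative form. -/
theorem relfinrank_level_gen (hℓ : ℓ.Prime) (hℓN : ¬ ℓ ∣ N) :
    (laurentBaseChange K (modularFunctionFieldFull N)).relfinrank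
      (laurentBaseChange K (modularFunctionFieldFull (N * ℓ))) = ℓ + 1 := by
  haveI : Fact ℓ.Prime := ⟨hℓ⟩
  rw [Nat.mul_comm]
  exact Fermat.Agent.S18.Index.relfinrank_level K ℓ N hℓN

/-- `[F_{Nℓ} : α(F_N)] = ℓ + 1`. -/
theorem finrankAlong_alpha_gen (hℓ : ℓ.Prime) (hℓN : ¬ ℓ ∣ N) :
    AlgebraicCurve.finrankAlong K (heckeAlphaBar K N ℓ) = ℓ + 1 := by
  rw [← relfinrank_level_gen K N ℓ hℓ hℓN]
  exact finrank_inclusion (Fermat.Agent.S18.Index.bar_le_of_dvd K (dvd_mul_right N ℓ))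

/-- `[F_{Nℓ} : β(F_N)] = ℓ + 1`. -/
theorem finrankAlong_beta_gen (hℓ : ℓ.Prime) (hℓN : ¬ ℓ ∣ N) :
    AlgebraicCurve.finrankAlong K (heckeBetaBar K N ℓ) = ℓ + 1 := by
  rw [← finrankAlong_alpha_gen K N ℓ hℓ hℓN]
  obtain ⟨w, h1, -, -⟩ := exists_atkinLehner_gen K N ℓ hℓ hℓN
  symm
  refine @Algebra.finrank_eq_of_equiv_equiv _ _ _ _ (AlgebraicCurve.algebraAlong (heckeAlphaBar K N ℓ))
    _ _ _ _ (AlgebraicCurve.algebraAlong (heckeBetaBar K N ℓ)) (RingEquiv.refl _) w.toRingEquiv ?_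
  refine RingHom.ext (fun f => ?_)
  exact (AlgHom.congr_fun h1 f).symm

/-- `F_{Nℓ}` is finite over `α(F_N)`. -/
theorem finiteAlong_alpha_gen (hℓ : ℓ.Prime) (hℓN : ¬ ℓ ∣ N) :
    AlgebraicCurve.FiniteAlong K (heckeAlphaBar K N ℓ) := by
  letI := AlgebraicCurve.algebraAlong (heckeAlphaBar K N ℓ)
  have h : Module.finrank ↥(laurentBaseChange K (modularFunctionFieldFull N))
      ↥(laurentBaseChange K (modularFunctionFieldFull (N * ℓ))) = ℓ + 1 :=
    finrankAlong_alpha_gen K N ℓ hℓ hℓN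
  exact FiniteDimensional.of_finrank_pos (by rw [h]; exact Nat.succ_pos ℓ)

/-- `F_{Nℓ}` is finite over `β(F_N)`. -/
theorem finiteAlong_beta_gen (hℓ : ℓ.Prime) (hℓN : ¬ ℓ ∣ N) :
    AlgebraicCurve.FiniteAlong K (heckeBetaBar K N ℓ) := by
  letI := AlgebraicCurve.algebraAlong (heckeBetaBar K N ℓ)
  have h : Module.finrank ↥(laurentBaseChange K (modularFunctionFieldFull N))
      ↥(laurentBaseChange K (modularFunctionFieldFull (N * ℓ))) = ℓ + 1 :=
    finrankAlong_beta_gen K N ℓ hℓ hℓN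
  exact FiniteDimensional.of_finrank_pos (by rw [h]; exact Nat.succ_pos ℓ)

/-- `α` is integral. -/
theorem heckeAlphaBarIntegral_gen (hℓ : ℓ.Prime) (hℓN : ¬ ℓ ∣ N) : HeckeAlphaBarIntegral K N ℓ := by
  letI := AlgebraicCurve.algebraAlong (heckeAlphaBar K N ℓ)
  haveI : Module.Finite ↥(laurentBaseChange K (modularFunctionFieldFull N))
      ↥(laurentBaseChange K (modularFunctionFieldFull (N * ℓ))) := finiteAlong_alpha_gen K N ℓ hℓ hℓN
  exact fun x => Algebra.IsIntegral.isIntegral x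

/-- `β` is integral. -/
theorem heckeBetaBarIntegral_gen (hℓ : ℓ.Prime) (hℓN : ¬ ℓ ∣ N) : HeckeBetaBarIntegral K N ℓ := by
  letI := AlgebraicCurve.algebraAlong (heckeBetaBar K N ℓ)
  haveI : Module.Finite ↥(laurentBaseChange K (modularFunctionFieldFull N))
      ↥(laurentBaseChange K (modularFunctionFieldFull (N * ℓ))) := finiteAlong_beta_gen K N ℓ hℓ hℓN
  exact fun x => Algebra.IsIntegral.isIntegral x

end Degree

/-! ### the statements over `ℚ̄` -/

section Bar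

variable (N ℓ : ℕ) [NeZero N] [NeZero ℓ]

/-- **Atkin–Lehner involution** of the function field of `X₀(N ℓ)` over `ℚ̄`: an automorphism `w`
with `w ∘ α = β`, `w ∘ β = α` and `w ∘ w = id`. -/
theorem exists_atkinLehner (hℓ : ℓ.Prime) (hℓN : ¬ ℓ ∣ N) :
    ∃ w : modularFunctionFieldBar (N * ℓ) ≃ₐ[AlgebraicClosure ℚ] modularFunctionFieldBar (N * ℓ),
      (∀ f : modularFunctionFieldBar N,
        w (heckeAlphaBar (AlgebraicClosure ℚ) N ℓ f) = heckeBetaBar (AlgebraicClosure ℚ) N ℓ f) ∧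
      (∀ f : modularFunctionFieldBar N,
        w (heckeBetaBar (AlgebraicClosure ℚ) N ℓ f) = heckeAlphaBar (AlgebraicClosure ℚ) N ℓ f) ∧
      (∀ g : modularFunctionFieldBar (N * ℓ), w (w g) = g) := by
  haveI : Algebra.IsAlgebraic ℚ (AlgebraicClosure ℚ) := AlgebraicClosure.isAlgebraic ℚ
  letI : Algebra (AlgebraicClosure ℚ) ℂ :=
    (IsAlgClosed.lift : AlgebraicClosure ℚ →ₐ[ℚ] ℂ).toRingHom.toAlgebra
  obtain ⟨w, h1, h2, h3⟩ := exists_atkinLehner_gen (AlgebraicClosure ℚ) N ℓ hℓ hℓN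
  exact ⟨w, fun f => AlgHom.congr_fun h1 f, fun f => AlgHom.congr_fun h2 f,
    fun g => AlgHom.congr_fun h3 g⟩

/-- `[F_{Nℓ} : F_N] = ℓ + 1` over `ℚ̄`, in relative form. -/
theorem relfinrank_level (hℓ : ℓ.Prime) (hℓN : ¬ ℓ ∣ N) :
    (modularFunctionFieldBar N).relfinrank (modularFunctionFieldBar (N * ℓ)) = ℓ + 1 := by
  haveI : Algebra.IsAlgebraic ℚ (AlgebraicClosure ℚ) := AlgebraicClosure.isAlgebraic ℚ
  letI : Algebra (AlgebraicClosure ℚ) ℂ :=
    (IsAlgClosed.lift : AlgebraicClosure ℚ →ₐ[ℚ] ℂ).toRingHom.toAlgebra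
  exact relfinrank_level_gen (AlgebraicClosure ℚ) N ℓ hℓ hℓN

/-- `[F_{Nℓ} : α(F_N)] = ℓ + 1` over `ℚ̄`. -/
theorem finrankAlong_alpha (hℓ : ℓ.Prime) (hℓN : ¬ ℓ ∣ N) :
    AlgebraicCurve.finrankAlong (AlgebraicClosure ℚ) (heckeAlphaBar (AlgebraicClosure ℚ) N ℓ)
      = ℓ + 1 := by
  haveI : Algebra.IsAlgebraic ℚ (AlgebraicClosure ℚ) := AlgebraicClosure.isAlgebraic ℚ
  letI : Algebra (AlgebraicClosure ℚ) ℂ :=
    (IsAlgClosed.lift : AlgebraicClosure ℚ →ₐ[ℚ] ℂ).toRingHom.toAlgebra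
  exact finrankAlong_alpha_gen (AlgebraicClosure ℚ) N ℓ hℓ hℓN

/-- `[F_{Nℓ} : β(F_N)] = ℓ + 1` over `ℚ̄`. -/
theorem finrankAlong_beta (hℓ : ℓ.Prime) (hℓN : ¬ ℓ ∣ N) :
    AlgebraicCurve.finrankAlong (AlgebraicClosure ℚ) (heckeBetaBar (AlgebraicClosure ℚ) N ℓ)
      = ℓ + 1 := by
  haveI : Algebra.IsAlgebraic ℚ (AlgebraicClosure ℚ) := AlgebraicClosure.isAlgebraic ℚ
  letI : Algebra (AlgebraicClosure ℚ) ℂ :=
    (IsAlgClosed.lift : AlgebraicClosure ℚ →ₐ[ℚ] ℂ).toRingHom.toAlgebra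
  exact finrankAlong_beta_gen (AlgebraicClosure ℚ) N ℓ hℓ hℓN

/-- the same with the algebra structure written out. -/
theorem finrank_alpha (hℓ : ℓ.Prime) (hℓN : ¬ ℓ ∣ N) :
    letI := (heckeAlphaBar (AlgebraicClosure ℚ) N ℓ).toRingHom.toAlgebra
    Module.finrank (modularFunctionFieldBar N) (modularFunctionFieldBar (N * ℓ)) = ℓ + 1 :=
  finrankAlong_alpha N ℓ hℓ hℓN

/-- the same with the algebra structure written out. -/
theorem finrank_beta (hℓ : ℓ.Prime) (hℓN : ¬ ℓ ∣ N) :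
    letI := (heckeBetaBar (AlgebraicClosure ℚ) N ℓ).toRingHom.toAlgebra
    Module.finrank (modularFunctionFieldBar N) (modularFunctionFieldBar (N * ℓ)) = ℓ + 1 :=
  finrankAlong_beta N ℓ hℓ hℓN

theorem finiteAlong_alpha (hℓ : ℓ.Prime) (hℓN : ¬ ℓ ∣ N) :
    AlgebraicCurve.FiniteAlong (AlgebraicClosure ℚ) (heckeAlphaBar (AlgebraicClosure ℚ) N ℓ) := by
  haveI : Algebra.IsAlgebraic ℚ (AlgebraicClosure ℚ) := AlgebraicClosure.isAlgebraic ℚ
  letI : Algebra (AlgebraicClosure ℚ) ℂ :=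
    (IsAlgClosed.lift : AlgebraicClosure ℚ →ₐ[ℚ] ℂ).toRingHom.toAlgebra
  exact finiteAlong_alpha_gen (AlgebraicClosure ℚ) N ℓ hℓ hℓN

theorem finiteAlong_beta (hℓ : ℓ.Prime) (hℓN : ¬ ℓ ∣ N) :
    AlgebraicCurve.FiniteAlong (AlgebraicClosure ℚ) (heckeBetaBar (AlgebraicClosure ℚ) N ℓ) := by
  haveI : Algebra.IsAlgebraic ℚ (AlgebraicClosure ℚ) := AlgebraicClosure.isAlgebraic ℚ
  letI : Algebra (AlgebraicClosure ℚ) ℂ :=
    (IsAlgClosed.lift : AlgebraicClosure ℚ →ₐ[ℚ] ℂ).toRingHom.toAlgebra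
  exact finiteAlong_beta_gen (AlgebraicClosure ℚ) N ℓ hℓ hℓN

theorem heckeAlphaBarIntegral (hℓ : ℓ.Prime) (hℓN : ¬ ℓ ∣ N) :
    HeckeAlphaBarIntegral (AlgebraicClosure ℚ) N ℓ := by
  haveI : Algebra.IsAlgebraic ℚ (AlgebraicClosure ℚ) := AlgebraicClosure.isAlgebraic ℚ
  letI : Algebra (AlgebraicClosure ℚ) ℂ :=
    (IsAlgClosed.lift : AlgebraicClosure ℚ →ₐ[ℚ] ℂ).toRingHom.toAlgebra
  exact heckeAlphaBarIntegral_gen (AlgebraicClosure ℚ) N ℓ hℓ hℓN

theorem heckeBetaBarIntegral (hℓ : ℓ.Prime) (hℓN : ¬ ℓ ∣ N) :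
    HeckeBetaBarIntegral (AlgebraicClosure ℚ) N ℓ := by
  haveI : Algebra.IsAlgebraic ℚ (AlgebraicClosure ℚ) := AlgebraicClosure.isAlgebraic ℚ
  letI : Algebra (AlgebraicClosure ℚ) ℂ :=
    (IsAlgClosed.lift : AlgebraicClosure ℚ →ₐ[ℚ] ℂ).toRingHom.toAlgebra
  exact heckeBetaBarIntegral_gen (AlgebraicClosure ℚ) N ℓ hℓ hℓN

end Bar

end Fermat.Agent.S37.W
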