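import Mathlib
import Fermat.Prelude.Def_AlgebraicCurve_Correspondence
import Fermat.Agent.S37_FundId

/-!
# S37, (H): `π_* ∘ π^* = deg π`

For a finite extension `F'/F` of function fields with `∑ e f = n`
(`SumRamificationInertia K F F'`), pushing forward the pullback of a divisor multiplies it by
`[F' : F]`; the same on `Pic⁰`, and along an embedding `φ : F →ₐ[K] F'`.
-/

set_option autoImplicit false
set_option linter.style.haveILetI false

noncomputable section

open AlgebraicCurve Fermat.Agent.S24

namespace Fermat.Agent.S37.PushPull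

section General

variable {K F F' : Type*} [Field K] [Field F] [Field F']
  [Algebra K F] [Algebra K F'] [Algebra F F'] [IsScalarTower K F F']
  [Algebra.IsIntegral F F'] [HasPrincipalDivisors K F']

theorem pushforward_pullback_single [SumRamificationInertia K F F'] (v : Place K F) (n : ℤ) :
    Divisor.pushforward F (Divisor.pullback F' (Finsupp.single v n))
      = Module.finrank F F' • Finsupp.single v n := by
  classical
  rw [Divisor.pullback_single, map_sum]
  have h : ∀ w ∈ v.fiber F',
      Divisor.pushforward F (Finsupp.single w (n * (w.ramificationIndex F : ℤ)))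
        = Finsupp.single v (n * ((w.ramificationIndex F : ℤ) * (w.inertiaDeg F : ℤ))) := by
    intro w hw
    rw [Divisor.pushforward_single, Place.mem_fiber.mp hw, mul_assoc]
  rw [Finset.sum_congr rfl h, ← Finsupp.single_finsetSum, ← Finset.mul_sum,
    SumRamificationInertia.sum_ramificationIndex_mul_inertiaDeg (K := K) (F := F) (F' := F') v,
    Finsupp.smul_single, nsmul_eq_mul, mul_comm]

/-- `π_* π^* D = [F' : F] • D` on divisors -/
theorem pushforward_pullback [SumRamificationInertia K F F'] (D : Divisor K F) :
    Divisor.pushforward F (Divisor.pullback F' D) = Module.finrank F F' • D := by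
  induction D using Finsupp.induction with
  | zero => simp
  | single_add v n D _ _ ih =>
    rw [map_add, map_add, ih, pushforward_pullback_single, smul_add]

/-- `π_* π^* = [F' : F]` on `Pic⁰` -/
theorem pushforwardHom_pullbackHom [SumRamificationInertia K F F'] [Module.Finite F F']
    (H : Divisor.PushforwardNormFormula K F F') (x : Pic0 K F) :
    Pic0.pushforwardHom K F F' H (Pic0.pullbackHom F' x) = Module.finrank F F' • x := by
  obtain ⟨D, rfl⟩ := Pic0.mk_surjective x
  rw [Pic0.pullbackHom_mk, Pic0.pushforwardHom_mk]
  have h : Pic0.pushforwardDegZeroHom F (Pic0.pullbackDegZeroHom F' D)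
      = Module.finrank F F' • D := by
    apply Subtype.ext
    rw [Pic0.coe_pushforwardDegZeroHom, Pic0.coe_pullbackDegZeroHom, pushforward_pullback,
      AddSubgroupClass.coe_nsmul]
  rw [h]
  rfl

end General

section Along

variable {K F F' : Type*} [Field K] [Field F] [Field F'] [Algebra K F] [Algebra K F']
  [HasPrincipalDivisors K F']

/-- `∑ e f = n` along an embedding -/
def SumRamificationInertiaAlong (φ : F →ₐ[K] F') (hφ : φ.toRingHom.IsIntegral) : Prop :=
  letI := algebraAlong φ
  haveI := isScalarTower_along φ
  haveI := isIntegral_along φ hφ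
  SumRamificationInertia K F F'

theorem SumRamificationInertiaAlong.fundamentalIdentityAlong {φ : F →ₐ[K] F'}
    {hφ : φ.toRingHom.IsIntegral} (h : SumRamificationInertiaAlong φ hφ) :
    FundamentalIdentityAlong K φ hφ := by
  letI := algebraAlong φ
  haveI := isScalarTower_along φ
  haveI := isIntegral_along φ hφ
  haveI : SumRamificationInertia K F F' := h
  show FundamentalIdentity K F F'
  infer_instance

/-- `π_* π^* D = deg π • D` along an embedding -/
theorem pushforwardAlong_pullbackAlong (φ : F →ₐ[K] F') (hφ : φ.toRingHom.IsIntegral)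
    (h : SumRamificationInertiaAlong φ hφ) (D : Divisor K F) :
    Divisor.pushforwardAlong φ hφ (Divisor.pullbackAlong φ hφ D) = finrankAlong K φ • D := by
  letI := algebraAlong φ
  haveI := isScalarTower_along φ
  haveI := isIntegral_along φ hφ
  haveI : SumRamificationInertia K F F' := h
  exact pushforward_pullback D

/-- the pullback on `Pic⁰` along an embedding -/
def pullbackPic0Along (φ : F →ₐ[K] F') (hφ : φ.toRingHom.IsIntegral)
    (hFI : FundamentalIdentityAlong K φ hφ) : Pic0 K F →+ Pic0 K F' :=
  letI := algebraAlong φ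
  haveI := isScalarTower_along φ
  haveI := isIntegral_along φ hφ
  haveI : FundamentalIdentity K F F' := hFI
  Pic0.pullbackHom F'

/-- the pushforward on `Pic⁰` along an embedding -/
def pushforwardPic0Along (φ : F →ₐ[K] F') (hφ : φ.toRingHom.IsIntegral)
    (hfin : FiniteAlong K φ) (hN : NormFormulaAlong K φ hfin) : Pic0 K F' →+ Pic0 K F :=
  letI := algebraAlong φ
  haveI := isScalarTower_along φ
  haveI := isIntegral_along φ hφ
  haveI : Module.Finite F F' := hfin
  Pic0.pushforwardHom K F F' hN

theorem pullbackPic0Along_mk (φ : F →ₐ[K] F') (hφ : φ.toRingHom.IsIntegral)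
    (hFI : FundamentalIdentityAlong K φ hφ) (D : Divisor.degZero (K := K) (F := F)) :
    pullbackPic0Along φ hφ hFI (Pic0.mk D)
      = Pic0.mk ⟨Divisor.pullbackAlong φ hφ (D : Divisor K F),
          Divisor.pullbackAlong_mem_degZero φ hφ hFI D.2⟩ :=
  rfl

omit [HasPrincipalDivisors K F'] in
theorem pushforwardPic0Along_mk (φ : F →ₐ[K] F') (hφ : φ.toRingHom.IsIntegral)
    (hfin : FiniteAlong K φ) (hN : NormFormulaAlong K φ hfin)
    (D : Divisor.degZero (K := K) (F := F')) :
    pushforwardPic0Along φ hφ hfin hN (Pic0.mk D)
      = Pic0.mk ⟨Divisor.pushforwardAlong φ hφ (D : Divisor K F'),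
          Divisor.pushforwardAlong_mem_degZero φ hφ D.2⟩ :=
  rfl

/-- `π_* π^* = deg π` on `Pic⁰`, along an embedding -/
theorem pushforwardPic0Along_pullbackPic0Along (φ : F →ₐ[K] F')
    (hφ : φ.toRingHom.IsIntegral) (h : SumRamificationInertiaAlong φ hφ)
    (hFI : FundamentalIdentityAlong K φ hφ)
    (hfin : FiniteAlong K φ) (hN : NormFormulaAlong K φ hfin) (x : Pic0 K F) :
    pushforwardPic0Along φ hφ hfin hN (pullbackPic0Along φ hφ hFI x) = finrankAlong K φ • x := by
  letI := algebraAlong φ
  haveI := isScalarTower_along φ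
  haveI := isIntegral_along φ hφ
  haveI : SumRamificationInertia K F F' := h
  haveI : Module.Finite F F' := hfin
  exact pushforwardHom_pullbackHom hN x

/-- injectivity of `π^*` on torsion prime to the degree -/
theorem pullbackPic0Along_eq_zero (φ : F →ₐ[K] F')
    (hφ : φ.toRingHom.IsIntegral) (h : SumRamificationInertiaAlong φ hφ)
    (hFI : FundamentalIdentityAlong K φ hφ)
    (hfin : FiniteAlong K φ) (hN : NormFormulaAlong K φ hfin) {x : Pic0 K F} {m : ℕ}
    (hm : m • x = 0) (hcop : Nat.Coprime m (finrankAlong K φ))
    (hx : pullbackPic0Along φ hφ hFI x = 0) : x = 0 := by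
  have h1 : finrankAlong K φ • x = 0 := by
    rw [← pushforwardPic0Along_pullbackPic0Along φ hφ h hFI hfin hN x, hx, map_zero]
  have h2 : addOrderOf x ∣ Nat.gcd m (finrankAlong K φ) :=
    Nat.dvd_gcd (addOrderOf_dvd_of_nsmul_eq_zero hm) (addOrderOf_dvd_of_nsmul_eq_zero h1)
  rw [Nat.Coprime.gcd_eq_one hcop, Nat.dvd_one] at h2
  exact AddMonoid.addOrderOf_eq_one_iff.mp h2

end Along

section AlgClosed

variable {K F F' : Type*} [Field K] [IsAlgClosed K] [CharZero K] [Field F] [Field F']
  [Algebra K F] [Algebra K F'] [HasPrincipalDivisors K F']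

/-- `∑ e f = n` along an embedding of function fields over an algebraically closed field -/
theorem sumRamificationInertiaAlong (φ : F →ₐ[K] F') (hφ : φ.toRingHom.IsIntegral)
    (hfin : FiniteAlong K φ) {x : F} (hx : IsGenerator K x) :
    SumRamificationInertiaAlong φ hφ := by
  letI := algebraAlong φ
  haveI := isScalarTower_along φ
  haveI : FiniteDimensional F F' := hfin
  exact Fermat.Agent.S37.FundId.sumRamificationInertia hx

end AlgClosed

end Fermat.Agent.S37.PushPull
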