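import Mathlib
import Fermat.Agent.S18_Index
import Fermat.Agent.S37_PushPull
import Fermat.Agent.S37_NormFormula
import Fermat.Agent.S37_Unique
import Fermat.Agent.S37_HeckeInputs
import Fermat.Agent.S37_AtkinLehner

/-!
# S37: the level inclusion `F_N ⊆ F_M` (`N ∣ M`) and the pullback `π^* : JZero N → JZero M`

* `incl h : F_N →ₐ[ℚ̄] F_M`, the inclusion of function fields (definitionally
  `heckeAlphaBar ℚ̄ N t` when `M = N * t`); it is finite, integral, satisfies the fundamental
  identity and the norm formula;
* `piStar h : JZero N →+ JZero M`, the pullback on `Pic⁰`;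
* `piStar_inj_of_coprime`: `π^*` is injective on torsion of order prime to `[F_M : F_N]`;
* divisor-level facts about `Divisor.pullbackAlong (incl h)`: principal divisors, effectivity,
  boundedness.
-/

set_option autoImplicit false
set_option linter.style.haveILetI false
set_option linter.unusedSectionVars false

noncomputable section

open ModularCurve AlgebraicCurve HahnSeries

namespace Fermat.Agent.S37.Level

local notation "Qbar" => AlgebraicClosure ℚ

/-- principal divisors exist on `X₀(M)/ℚ̄` (instance form of `Gal.hasPrincipalDivisors_bar`). -/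
instance instHasPrincipalDivisorsBar (M : ℕ) [NeZero M] :
    HasPrincipalDivisors Qbar (modularFunctionFieldBar M) :=
  Fermat.Agent.S37.Gal.hasPrincipalDivisors_bar M

/-- the inclusion `F_N ⊆ F_M` for `N ∣ M`. -/
def incl {N M : ℕ} (h : N ∣ M) :
    modularFunctionFieldBar N →ₐ[Qbar] modularFunctionFieldBar M :=
  IntermediateField.inclusion (Fermat.Agent.S18.Index.modularFunctionFieldBar_le_of_dvd h)

@[simp]
theorem coe_incl {N M : ℕ} (h : N ∣ M) (x : modularFunctionFieldBar N) :
    ((incl h x : modularFunctionFieldBar M) : LaurentSeries Qbar) = (x : LaurentSeries Qbar) :=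
  IntermediateField.coe_inclusion _ x

/-- for `M = N * t` the inclusion is the degeneracy map `α`. -/
theorem incl_mul_eq_heckeAlphaBar (N t : ℕ) [NeZero N] [NeZero t] :
    incl (dvd_mul_right N t) = heckeAlphaBar Qbar N t :=
  (heckeAlphaBar_eq_inclusion N t
    (Fermat.Agent.S18.Index.modularFunctionFieldBar_le_of_dvd (dvd_mul_right N t))).symm

variable {N M : ℕ} [NeZero N] [NeZero M] (h : N ∣ M)

/-- `F_M` is finite over `F_N`. -/
theorem finiteAlong_incl : FiniteAlong Qbar (incl h) := by
  obtain ⟨x, hx⟩ := Fermat.Agent.S37.Gal.exists_isGenerator_bar N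
  obtain ⟨x', hx'⟩ := Fermat.Agent.S37.Gal.exists_isGenerator_bar M
  exact Fermat.Agent.S37.HeckeInputs.finiteAlong_of_generators _ hx hx'

/-- the inclusion is integral. -/
theorem incl_isIntegral : (incl h).toRingHom.IsIntegral :=
  Fermat.Agent.S37.HeckeInputs.isIntegral_of_finiteAlong _ (finiteAlong_incl h)

/-- `∑ e f = n` along the inclusion. -/
theorem sumRamificationInertiaAlong_incl :
    Fermat.Agent.S37.PushPull.SumRamificationInertiaAlong (incl h) (incl_isIntegral h) := by
  obtain ⟨x, hx⟩ := Fermat.Agent.S37.Gal.exists_isGenerator_bar N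
  exact Fermat.Agent.S37.PushPull.sumRamificationInertiaAlong (incl h) (incl_isIntegral h)
    (finiteAlong_incl h) hx

/-- the fundamental identity along the inclusion. -/
theorem fundId_incl : FundamentalIdentityAlong Qbar (incl h) (incl_isIntegral h) :=
  (sumRamificationInertiaAlong_incl h).fundamentalIdentityAlong

/-- the norm formula along the inclusion. -/
theorem normFormula_incl : NormFormulaAlong Qbar (incl h) (finiteAlong_incl h) := by
  obtain ⟨x, hx⟩ := Fermat.Agent.S37.Gal.exists_isGenerator_bar N
  exact Fermat.Agent.S37.NormFormula.normFormulaAlong (incl h) (finiteAlong_incl h) hx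

/-- the degree of the inclusion. -/
theorem finrankAlong_incl :
    finrankAlong Qbar (incl h)
      = (modularFunctionFieldBar N).relfinrank (modularFunctionFieldBar M) :=
  Fermat.Agent.S37.W.finrank_inclusion
    (Fermat.Agent.S18.Index.modularFunctionFieldBar_le_of_dvd h)

/-- the degree of the inclusion is positive. -/
theorem finrankAlong_incl_pos : 0 < finrankAlong Qbar (incl h) := by
  letI := algebraAlong (incl h)
  haveI : Module.Finite (modularFunctionFieldBar N) (modularFunctionFieldBar M) :=
    finiteAlong_incl h
  exact Module.finrank_pos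

/-- **the pullback `π^* : JZero N → JZero M`.** -/
def piStar : JZero N →+ JZero M :=
  Fermat.Agent.S37.PushPull.pullbackPic0Along (incl h) (incl_isIntegral h) (fundId_incl h)

theorem piStar_mk (D : Divisor.degZero (K := Qbar) (F := modularFunctionFieldBar N)) :
    piStar h (Pic0.mk D)
      = Pic0.mk ⟨Divisor.pullbackAlong (incl h) (incl_isIntegral h)
            (D : Divisor Qbar (modularFunctionFieldBar N)),
          Divisor.pullbackAlong_mem_degZero (incl h) (incl_isIntegral h) (fundId_incl h) D.2⟩ :=
  Fermat.Agent.S37.PushPull.pullbackPic0Along_mk (incl h) (incl_isIntegral h) (fundId_incl h) D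

/-- **`π^*` is injective on torsion of order prime to the degree.** -/
theorem piStar_inj_of_coprime (m : ℕ)
    (hm : Nat.Coprime m
      ((modularFunctionFieldBar N).relfinrank (modularFunctionFieldBar M)))
    (x : JZero N) (hmx : m • x = 0) (hx : piStar h x = 0) : x = 0 := by
  refine Fermat.Agent.S37.PushPull.pullbackPic0Along_eq_zero (incl h) (incl_isIntegral h)
    (sumRamificationInertiaAlong_incl h) (fundId_incl h) (finiteAlong_incl h)
    (normFormula_incl h) hmx ?_ hx
  rw [finrankAlong_incl]
  exact hm

/-! ### divisor-level facts -/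

/-- the pullback of the divisor of `y ∈ F_N` is the divisor of `y ∈ F_M`. -/
theorem pullbackAlong_incl_apply_eq_ord {y : modularFunctionFieldBar N}
    {D : Divisor Qbar (modularFunctionFieldBar N)} (hD : ∀ v, D v = v.ord y)
    (w : Place Qbar (modularFunctionFieldBar M)) :
    Divisor.pullbackAlong (incl h) (incl_isIntegral h) D w = w.ord (incl h y) := by
  rw [Divisor.pullbackAlong_apply, hD, ← Place.ord_restrictAlong]

/-- the pullback of an effective divisor is effective. -/
theorem pullbackAlong_incl_nonneg {D : Divisor Qbar (modularFunctionFieldBar N)}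
    (hD : ∀ v, 0 ≤ D v) (w : Place Qbar (modularFunctionFieldBar M)) :
    0 ≤ Divisor.pullbackAlong (incl h) (incl_isIntegral h) D w := by
  rw [Divisor.pullbackAlong_apply]
  exact mul_nonneg (Int.natCast_nonneg _) (hD _)

/-- the degree of the pullback. -/
theorem degree_pullbackAlong_incl (D : Divisor Qbar (modularFunctionFieldBar N)) :
    Divisor.degree (Divisor.pullbackAlong (incl h) (incl_isIntegral h) D)
      = (finrankAlong Qbar (incl h) : ℤ) * Divisor.degree D :=
  Divisor.degree_pullbackAlong (incl h) (incl_isIntegral h) (fundId_incl h) D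

end Fermat.Agent.S37.Level
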