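import Mathlib
import Fermat.Agent.S29_BDefs
import Fermat.Agent.S16_Periods
import Fermat.Agent.S21_PeriodInj
import Fermat.Agent.S22_Small
import Fermat.Agent.S49_QCoeff
import Fermat.Prelude.Def_FLTPrelim_ModularRep

/-!
# S29, bridge (B8): the period lattice and an eigencharacter mod `p`

For a normalised eigenform `g` of level `N`, the period lattice `Λ = periodMap N g (Γ₀(N)) ⊆ ℂ` is
a nonzero finitely generated group stable under the eigenvalues `a_ℓ` (`ℓ ∤ N`); hence the `a_ℓ`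
are integral, and (Nakayama) for every `φ : ℤ̄ → k₀` there is a Hecke-stable `𝔽_p`-space `X` of
admissible characters `Γ₀(N) → 𝔽_p` and a nonzero `c ∈ k₀ ⊗ X` with `T_ℓ c = φ(a_ℓ) c`.
-/

set_option autoImplicit false
set_option linter.style.haveILetI false

noncomputable section

open UpperHalfPlane ModularCurve CongruenceSubgroup ModularCurve.Period ModularFormClass
open scoped MatrixGroups ModularForm TensorProduct

namespace Fermat.Agent.S29.Period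

local notation "Zbar" => integralClosure ℤ ℂ

/-! ### algebra: a semilinear functional on a lattice -/

/-- the kernel of a ring homomorphism from `ℤ̄` to a field of characteristic `p` is maximal. -/
theorem ker_isMaximal {k : Type} [Field k] (p : ℕ) [Fact p.Prime] [CharP k p]
    (φ : Zbar →+* k) : (RingHom.ker φ).IsMaximal := by
  have hp : p.Prime := Fact.out
  have hker : (RingHom.ker φ).IsPrime := RingHom.ker_isPrime φ
  have hcomap : ((RingHom.ker φ).comap (algebraMap ℤ Zbar)).IsMaximal := by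
    have hprime : ((RingHom.ker φ).comap (algebraMap ℤ Zbar)).IsPrime := Ideal.comap_isPrime _ _
    refine hprime.isMaximal ?_
    intro h0
    have hmem : (p : ℤ) ∈ (RingHom.ker φ).comap (algebraMap ℤ Zbar) := by
      rw [Ideal.mem_comap, RingHom.mem_ker, map_natCast, map_natCast]
      exact CharP.cast_eq_zero k p
    rw [h0, Ideal.mem_bot] at hmem
    exact hp.ne_zero (by exact_mod_cast hmem)
  exact Ideal.isMaximal_of_isIntegral_of_isMaximal_comap (R := ℤ) (RingHom.ker φ) hcomap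

/-- a multiplier of a nonzero finitely generated subgroup of `ℂ` is integral. -/
theorem isIntegral_of_mul_mem (Λ : AddSubgroup ℂ) (hfg : Λ.FG) (hne : ∃ x ∈ Λ, x ≠ 0) (a : ℂ)
    (ha : ∀ x ∈ Λ, a * x ∈ Λ) : IsIntegral ℤ a := by
  refine isIntegral_of_smul_mem_submodule (R := ℤ) (A := ℂ) (M := ℂ) (AddSubgroup.toIntSubmodule Λ)
    ?_ ?_ a ?_
  · obtain ⟨x, hx, hx0⟩ := hne
    intro hbot
    have : x ∈ AddSubgroup.toIntSubmodule Λ := hx
    rw [hbot, Submodule.mem_bot] at this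
    exact hx0 this
  · rw [Submodule.fg_iff_addSubgroup_fg]
    exact hfg
  · intro n hn
    exact ha n hn

/-- a module `M` with `𝔪 M ≠ M` (`𝔪` maximal) has a nonzero `R`-linear map to `R ⧸ 𝔪`. -/
theorem exists_functional {R : Type*} [CommRing R] (𝔪 : Ideal R) [h𝔪 : 𝔪.IsMaximal]
    (M : Type*) [AddCommGroup M] [Module R M] (h : (𝔪 • ⊤ : Submodule R M) ≠ ⊤) :
    ∃ f : M →+ (R ⧸ 𝔪), (∃ m, f m ≠ 0) ∧
      ∀ (r : R) (m : M), f (r • m) = Ideal.Quotient.mk 𝔪 r * f m := by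
  classical
  letI : Field (R ⧸ 𝔪) := Ideal.Quotient.field 𝔪
  have hnt : Nontrivial (M ⧸ (𝔪 • ⊤ : Submodule R M)) :=
    Submodule.Quotient.nontrivial_iff.mpr h
  obtain ⟨v, hv⟩ := exists_ne (0 : M ⧸ (𝔪 • ⊤ : Submodule R M))
  obtain ⟨f, hf⟩ : ∃ f : (M ⧸ (𝔪 • ⊤ : Submodule R M)) →ₗ[R ⧸ 𝔪] (R ⧸ 𝔪), f v ≠ 0 := by
    by_contra hcon
    have hcon' : ∀ f : Module.Dual (R ⧸ 𝔪) (M ⧸ (𝔪 • ⊤ : Submodule R M)), f v = 0 := by
      intro f
      by_contra hfv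
      exact hcon ⟨f, hfv⟩
    exact hv ((Module.forall_dual_apply_eq_zero_iff (R ⧸ 𝔪) v).mp hcon')
  obtain ⟨m, rfl⟩ := Submodule.Quotient.mk_surjective _ v
  refine ⟨AddMonoidHom.mk' (fun m => f (Submodule.Quotient.mk m)) (fun x y => ?_), ⟨m, hf⟩, ?_⟩
  · rw [Submodule.Quotient.mk_add, map_add]
  · intro r m
    show f (Submodule.Quotient.mk (r • m)) = Ideal.Quotient.mk 𝔪 r * f (Submodule.Quotient.mk m)
    rw [← Module.Quotient.mk_smul_mk, map_smul, smul_eq_mul]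

/-- **Nakayama**: a nonzero finitely generated subgroup `Λ ⊆ ℂ` carries a nonzero additive map to
`k₀` which is `φ`-semilinear with respect to all integral multipliers of `Λ`. -/
theorem exists_semilinear (Λ : AddSubgroup ℂ) (hfg : Λ.FG) (hne : ∃ x ∈ Λ, x ≠ 0)
    (p : ℕ) [Fact p.Prime] (k₀ : Type) [Field k₀] [CharP k₀ p] (φ : Zbar →+* k₀) :
    ∃ μ : Λ →+ k₀, (∃ x, μ x ≠ 0) ∧
      ∀ (a : Zbar) (x : Λ) (hax : (a : ℂ) * (x : ℂ) ∈ Λ),
        μ ⟨(a : ℂ) * (x : ℂ), hax⟩ = φ a * μ x := by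
  classical
  have hmax : (RingHom.ker φ).IsMaximal := ker_isMaximal p φ
  -- the `ℤ̄`-span of `Λ`
  let M : Submodule Zbar ℂ := Submodule.span Zbar (Λ : Set ℂ)
  have hMfg : M.FG := by
    obtain ⟨s, hs⟩ := hfg
    refine ⟨s, le_antisymm (Submodule.span_mono ?_) ?_⟩
    · rw [← hs]
      exact AddSubgroup.subset_closure
    · rw [Submodule.span_le]
      have hle : AddSubgroup.closure (s : Set ℂ)
          ≤ (Submodule.span Zbar (s : Set ℂ)).toAddSubgroup :=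
        (AddSubgroup.closure_le _).mpr Submodule.subset_span
      intro x hx
      have hx' : x ∈ AddSubgroup.closure (s : Set ℂ) := by rw [hs]; exact hx
      exact hle hx'
  have hfin : Module.Finite Zbar M := Module.Finite.of_fg hMfg
  have hproper : ((RingHom.ker φ) • ⊤ : Submodule Zbar M) ≠ ⊤ := by
    intro htop
    obtain ⟨r, hr, hr0⟩ := Submodule.exists_sub_one_mem_and_smul_eq_zero_of_fg_of_le_smul
      (RingHom.ker φ) (⊤ : Submodule Zbar M) Module.Finite.fg_top (by rw [htop])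
    obtain ⟨x, hx, hx0⟩ := hne
    have h1 := hr0 ⟨x, Submodule.subset_span hx⟩ trivial
    have h2 : (r : ℂ) * x = 0 := congrArg Subtype.val h1
    have h3 : r = 0 := by
      rcases mul_eq_zero.mp h2 with h | h
      · exact Subtype.ext h
      · exact absurd h hx0
    rw [h3, zero_sub] at hr
    have h4 : (1 : Zbar) ∈ RingHom.ker φ := by simpa using neg_mem hr
    exact hmax.ne_top ((Ideal.eq_top_iff_one _).mpr h4)
  obtain ⟨f, ⟨m₀, hm₀⟩, hf⟩ := exists_functional (RingHom.ker φ) M hproper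
  -- the semilinear functional on `M`
  let μ' : M → k₀ := fun m => RingHom.kerLift φ (f m)
  have hμ'add : ∀ m m' : M, μ' (m + m') = μ' m + μ' m' := by
    intro m m'
    show RingHom.kerLift φ (f (m + m')) = _
    rw [map_add, map_add]
  have hμ'smul : ∀ (r : Zbar) (m : M), μ' (r • m) = φ r * μ' m := by
    intro r m
    show RingHom.kerLift φ (f (r • m)) = _
    rw [hf, map_mul, RingHom.kerLift_mk]
  have hμ'zero : μ' 0 = 0 := by
    show RingHom.kerLift φ (f 0) = _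
    rw [map_zero, map_zero]
  let incl : Λ → M := fun x => ⟨(x : ℂ), Submodule.subset_span x.2⟩
  refine ⟨AddMonoidHom.mk' (fun x => μ' (incl x)) (fun x y => ?_), ?_, ?_⟩
  · have : incl (x + y) = incl x + incl y := rfl
    rw [this, hμ'add]
  · by_contra hcon
    have hcon' : ∀ x : Λ, μ' (incl x) = 0 := by
      intro x
      by_contra hx
      exact hcon ⟨x, hx⟩
    have hall : ∀ (m : ℂ) (hm : m ∈ M), μ' ⟨m, hm⟩ = 0 := by
      intro m hm
      induction hm using Submodule.span_induction with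
      | mem y hy => exact hcon' ⟨y, hy⟩
      | zero => exact hμ'zero
      | add y z hy hz ihy ihz =>
          have : (⟨y + z, add_mem hy hz⟩ : M) = ⟨y, hy⟩ + ⟨z, hz⟩ := rfl
          rw [this, hμ'add, ihy, ihz, add_zero]
      | smul r y hy ihy =>
          have : (⟨r • y, Submodule.smul_mem _ r hy⟩ : M) = r • ⟨y, hy⟩ := rfl
          rw [this, hμ'smul, ihy, mul_zero]
    apply hm₀
    have := hall m₀.1 m₀.2
    exact (RingHom.kerLift_injective φ) (by rw [map_zero]; exact this)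
  · intro a x hax
    show μ' (incl ⟨(a : ℂ) * (x : ℂ), hax⟩) = φ a * μ' (incl x)
    have : incl ⟨(a : ℂ) * (x : ℂ), hax⟩ = a • incl x := rfl
    rw [this, hμ'smul]

/-! ### the eigen-relation -/

theorem qCoeff_eigen {N : ℕ} {g : CuspForm (Gamma0 N) 2} (hg : g.IsNormalizedEigenform)
    {ℓ : ℕ} (hℓ : ℓ.Prime) (hℓN : ¬ ℓ ∣ N) (n : ℕ) :
    qCoeff g (n * ℓ) + (if ℓ ∣ n then (ℓ : ℂ) * qCoeff g (n / ℓ) else 0)
      = qCoeff g ℓ * qCoeff g n := by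
  rcases Nat.eq_zero_or_pos n with hn | hn
  · subst hn
    simp [Fermat.Agent.S49.qCoeff_zero_idx]
  obtain ⟨r, m, hm, rfl⟩ := Nat.exists_eq_pow_mul_and_not_dvd hn.ne' ℓ hℓ.ne_one
  have hcop : Nat.Coprime ℓ m := (Nat.Prime.coprime_iff_not_dvd hℓ).mpr hm
  rcases r with _ | s
  · rw [pow_zero, one_mul, if_neg hm, add_zero, hg.qCoeff_mul_of_coprime m ℓ hcop.symm]
    ring
  · have hdvd : ℓ ∣ ℓ ^ (s + 1) * m := Dvd.dvd.mul_right (dvd_pow_self ℓ (Nat.succ_ne_zero s)) m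
    have h1 : ℓ ^ (s + 1) * m * ℓ = ℓ ^ (s + 2) * m := by ring
    have h2 : ℓ ^ (s + 1) * m / ℓ = ℓ ^ s * m := by
      have : ℓ ^ (s + 1) * m = ℓ * (ℓ ^ s * m) := by ring
      rw [this, Nat.mul_div_cancel_left _ hℓ.pos]
    rw [if_pos hdvd, h1, h2, hg.qCoeff_mul_of_coprime _ _ (Nat.Coprime.pow_left (s + 2) hcop),
      hg.qCoeff_mul_of_coprime _ _ (Nat.Coprime.pow_left (s + 1) hcop),
      hg.qCoeff_mul_of_coprime _ _ (Nat.Coprime.pow_left s hcop),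
      hg.qCoeff_prime_pow_of_not_dvd ℓ s hℓ hℓN]
    ring

theorem heckeTLin_eq {N : ℕ} {g : CuspForm (Gamma0 N) 2} (hg : g.IsNormalizedEigenform)
    {ℓ : ℕ} (hℓ : ℓ.Prime) (hℓN : ¬ ℓ ∣ N) :
    CuspForm.heckeTLin 2 hℓ hℓN g = qCoeff g ℓ • g := by
  apply sub_eq_zero.mp
  apply Fermat.Agent.S49.eq_zero_of_qCoeff
  intro n
  rw [Fermat.Agent.S49.qCoeff_sub', Fermat.Agent.S49.qCoeff_smul',
    Fermat.Agent.S49.qCoeff_heckeTLin hℓ hℓN, qCoeff_eigen hg hℓ hℓN, sub_self]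

/-- the period map of a normalised eigenform is an eigenvector of the Hecke operators on
`Hom(Γ₀(N), ℂ)`. -/
theorem tHom_periodMap {N : ℕ} [NeZero N] {g : CuspForm (Gamma0 N) 2}
    (hg : g.IsNormalizedEigenform) (ℓ : ℕ) [hℓ : Fact ℓ.Prime] (hℓN : ¬ ℓ ∣ N) :
    (Fermat.Agent.S16.LB.famT N ℓ hℓN).tHom (periodMap N g) = qCoeff g ℓ • periodMap N g := by
  have h1 := Fermat.Agent.S16.LB.periodMap_hecke (Fermat.Agent.S16.LB.famT N ℓ hℓN) g
    (CuspForm.heckeTLin 2 hℓ.out hℓN g) (by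
      rw [CuspForm.coe_heckeTLin_apply]
      exact Fermat.Agent.S16.LB.heckeT_eq_sum_famT N ℓ hℓN 2 g)
  rw [heckeTLin_eq hg hℓ.out hℓN, Fermat.Agent.S21.periodMap_smul] at h1
  exact h1.symm

/-- the period map of a nonzero form is nonzero. -/
theorem periodMap_ne_zero {N : ℕ} [NeZero N] {g : CuspForm (Gamma0 N) 2} (hg : g ≠ 0) :
    periodMap N g ≠ 0 := by
  intro h0
  apply hg
  have h1 : periodHomPair N (g, 0) = 0 := by
    refine AddMonoidHom.ext fun γ' => ?_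
    obtain ⟨γ, rfl⟩ : ∃ γ : Gamma0 N, Additive.ofMul γ = γ' := ⟨Additive.toMul γ', rfl⟩
    rw [Fermat.Agent.S21.periodHomPair_apply_apply, h0]
    have h2 : periodMap N (0 : CuspForm (Gamma0 N) 2) = 0 :=
      (Fermat.Agent.S21.periodMapL N).map_zero
    rw [h2]
    simp
  have h3 := Fermat.Agent.S21.periodHomPair_injective N (h1.trans (map_zero _).symm)
  exact congrArg Prod.fst h3

/-! ### elliptic elements -/

theorem exists_fixed_aux (a b c d : ℤ) (hdet : a * d - b * c = 1) (ht : (a + d) ^ 2 < 4)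
    (hc : 0 < c) :
    ∃ z : ℍ, (a : ℂ) * (z : ℂ) + b = (z : ℂ) * ((c : ℂ) * (z : ℂ) + d) := by
  have hs : (0 : ℝ) < 4 - ((a : ℝ) + d) ^ 2 := by
    have : ((a + d) ^ 2 : ℤ) < 4 := ht
    have h' : (((a + d) ^ 2 : ℤ) : ℝ) < 4 := by exact_mod_cast this
    push_cast at h'
    linarith
  have hcR : (0 : ℝ) < c := by exact_mod_cast hc
  set s : ℝ := Real.sqrt (4 - ((a : ℝ) + d) ^ 2) with hsdef
  have hspos : 0 < s := Real.sqrt_pos.mpr hs
  have hsq : s ^ 2 = 4 - ((a : ℝ) + d) ^ 2 := Real.sq_sqrt hs.le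
  have hdetC : (a : ℂ) * d - b * c = 1 := by exact_mod_cast hdet
  have hcC : (c : ℂ) ≠ 0 := by exact_mod_cast hc.ne'
  have hsqC : (s : ℂ) ^ 2 = 4 - ((a : ℂ) + d) ^ 2 := by exact_mod_cast hsq
  refine ⟨⟨(((a : ℂ) - d) + Complex.I * s) / (2 * c), ?_⟩, ?_⟩
  · have him : ((((a : ℂ) - d) + Complex.I * s) / (2 * c)).im = s / (2 * c) := by
      have h2c : (2 * (c : ℂ)) = ((2 * (c : ℝ) : ℝ) : ℂ) := by push_cast; ring
      rw [h2c, Complex.div_ofReal_im]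
      simp
    rw [him]
    positivity
  · show (a : ℂ) * ((((a : ℂ) - d) + Complex.I * s) / (2 * c)) + b
      = ((((a : ℂ) - d) + Complex.I * s) / (2 * c))
        * ((c : ℂ) * ((((a : ℂ) - d) + Complex.I * s) / (2 * c)) + d)
    field_simp
    have hI : Complex.I ^ 2 = -1 := Complex.I_sq
    linear_combination (1 : ℂ) * hsqC + (-4 : ℂ) * hdetC + (-(s : ℂ) ^ 2) * hI

/-- an element of `SL₂(ℤ)` with `trace² < 4` has a fixed point in `ℍ`. -/
theorem exists_fixed (γ : SL(2, ℤ)) (ht : (γ 0 0 + γ 1 1) ^ 2 < 4) : ∃ z : ℍ, γ • z = z := by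
  have hdet : γ 0 0 * γ 1 1 - γ 0 1 * γ 1 0 = 1 := by
    have := γ.det_coe
    rw [Matrix.det_fin_two] at this
    exact this
  have hc0 : γ 1 0 ≠ 0 := by
    intro h0
    rw [h0, mul_zero, sub_zero] at hdet
    rcases Int.eq_one_or_neg_one_of_mul_eq_one' hdet with ⟨h1, h2⟩ | ⟨h1, h2⟩
    · rw [h1, h2] at ht
      norm_num at ht
    · rw [h1, h2] at ht
      norm_num at ht
  have key : ∀ δ : SL(2, ℤ), (δ 0 0 + δ 1 1) ^ 2 < 4 → 0 < δ 1 0 → ∃ z : ℍ, δ • z = z := by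
    intro δ htδ hcδ
    have hdetδ : δ 0 0 * δ 1 1 - δ 0 1 * δ 1 0 = 1 := by
      have := δ.det_coe
      rw [Matrix.det_fin_two] at this
      exact this
    obtain ⟨z, hz⟩ := exists_fixed_aux _ _ _ _ hdetδ htδ hcδ
    refine ⟨z, UpperHalfPlane.ext ?_⟩
    rw [Fermat.Agent.S21.coe_smul_eq]
    have hden : ((δ 1 0 : ℤ) : ℂ) * (z : ℂ) + ((δ 1 1 : ℤ) : ℂ) ≠ 0 := by
      have := UpperHalfPlane.denom_ne_zero (δ : GL (Fin 2) ℝ) z
      rwa [Fermat.Agent.S21.denom_eq] at this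
    rw [div_eq_iff hden]
    exact hz
  rcases lt_or_gt_of_ne hc0 with hneg | hpos
  · -- use the inverse
    have hinv : (γ⁻¹ 0 0 + γ⁻¹ 1 1) ^ 2 < 4 ∧ 0 < γ⁻¹ 1 0 := by
      rw [Matrix.SpecialLinearGroup.SL2_inv_expl γ]
      simp only [Matrix.cons_val_zero, Matrix.cons_val_one,
        Matrix.cons_val', Matrix.cons_val_fin_one]
      refine ⟨?_, by linarith⟩
      have : (γ 1 1 + γ 0 0) ^ 2 = (γ 0 0 + γ 1 1) ^ 2 := by ring
      rw [this]
      exact ht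
    obtain ⟨z, hz⟩ := key γ⁻¹ hinv.1 hinv.2
    refine ⟨z, ?_⟩
    have := congrArg (fun w => γ • w) hz
    simp only [smul_inv_smul] at this
    exact this.symm
  · exact key γ ht hpos

/-- the period map kills elements with `trace² ≤ 4`. -/
theorem periodMap_eq_zero_of_trace {N : ℕ} [NeZero N] (f : CuspForm (Gamma0 N) 2) (γ : Gamma0 N)
    (ht : ((γ : SL(2, ℤ)) 0 0 + (γ : SL(2, ℤ)) 1 1) ^ 2 ≤ 4) :
    periodMap N f (Additive.ofMul γ) = 0 := by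
  rcases lt_or_eq_of_le ht with hlt | heq
  · obtain ⟨z, hz⟩ := exists_fixed (γ : SL(2, ℤ)) hlt
    obtain ⟨F, hF⟩ := Fermat.Agent.S21.exists_hasEquivariantPrimitive N f
    rw [Fermat.Agent.S21.periodMap_apply hF γ z, hz, sub_self]
  · have h := Fermat.Agent.S21.periodMap_mem_parabolicHoms N f
    rw [mem_parabolicHoms_iff] at h
    refine h γ ?_
    rw [Matrix.trace_fin_two]
    exact heq

/-! ### characters through a lattice -/

section Core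

variable {N : ℕ} (p : ℕ) (Λ : AddSubgroup ℂ) {ι : Type} [Fintype ι]
  (b : Module.Basis ι ℤ Λ) (PΛ : Additive (Gamma0 N) →+ Λ)

/-- the characters `γ ↦ (j-th coordinate of PΛ γ) mod p`. -/
def chi (j : ι) : Additive (Gamma0 N) →+ ZMod p :=
  ((Int.castAddHom (ZMod p)).comp (b.coord j).toAddMonoidHom).comp PΛ

omit [Fintype ι] in
theorem chi_apply (j : ι) (γ : Additive (Gamma0 N)) :
    chi p Λ b PΛ j γ = ((b.repr (PΛ γ) j : ℤ) : ZMod p) := rfl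

theorem comp_eq_sum (g' : Λ →+ ZMod p) :
    g'.comp PΛ = ∑ j, g' (b j) • chi p Λ b PΛ j := by
  refine AddMonoidHom.ext fun γ => ?_
  rw [AddMonoidHom.comp_apply, AddMonoidHom.finsetSum_apply]
  simp only [AddMonoidHom.smul_apply, chi_apply, smul_eq_mul]
  conv_lhs => rw [← b.sum_repr (PΛ γ)]
  rw [map_sum]
  refine Finset.sum_congr rfl fun j _ => ?_
  rw [map_zsmul, zsmul_eq_mul, mul_comm]

theorem sum_repr_smul {k₀ : Type} [Field k₀] [Algebra (ZMod p) k₀] (ν : Λ →+ k₀) (x : Λ) :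
    ∑ j, ((b.repr x j : ℤ) : ZMod p) • ν (b j) = ν x := by
  conv_rhs => rw [← b.sum_repr x]
  rw [map_sum]
  refine Finset.sum_congr rfl fun j _ => ?_
  rw [map_zsmul, Algebra.smul_def, map_intCast, zsmul_eq_mul]

include b in
theorem core [NeZero N] (k₀ : Type) [Field k₀] [Algebra (ZMod p) k₀]
    (hsurj : Function.Surjective PΛ)
    (hadm : ∀ γ : Gamma0 N, ((γ : SL(2, ℤ)) 0 0 + (γ : SL(2, ℤ)) 1 1) ^ 2 ≤ 4 →
      PΛ (Additive.ofMul γ) = 0)
    (μ : Λ →+ k₀) (hμ0 : ∃ x, μ x ≠ 0) :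
    ∃ X : Submodule (ZMod p) (Additive (Gamma0 N) →+ ZMod p),
      (∀ χ ∈ X, IsAdm N p χ) ∧
      (∀ (𝒜 : Fermat.Agent.S16.LB.CosetFam N) (m : Λ →+ Λ), 𝒜.tHom PΛ = m.comp PΛ →
        ∀ χ ∈ X, 𝒜.tHom χ ∈ X) ∧
      ∃ c : k₀ ⊗[ZMod p] X, c ≠ 0 ∧
        ∀ (𝒜 : Fermat.Agent.S16.LB.CosetFam N) (m : Λ →+ Λ) (e : k₀)
          (_ : 𝒜.tHom PΛ = m.comp PΛ) (hX : ∀ χ ∈ X, 𝒜.tHom χ ∈ X),
          (∀ x, μ (m x) = e * μ x) → (restrT 𝒜 X hX).baseChange k₀ c = e • c := by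
  classical
  let X : Submodule (ZMod p) (Additive (Gamma0 N) →+ ZMod p) :=
    Submodule.span (ZMod p) (Set.range (chi p Λ b PΛ))
  have hχX : ∀ j, chi p Λ b PΛ j ∈ X := fun j => Submodule.subset_span ⟨j, rfl⟩
  have hfac : ∀ g' : Λ →+ ZMod p, g'.comp PΛ ∈ X := by
    intro g'
    rw [comp_eq_sum p Λ b PΛ g']
    exact Submodule.sum_mem _ (fun j _ => Submodule.smul_mem _ _ (hχX j))
  have hXfac : ∀ χ' ∈ X, ∃ g' : Λ →+ ZMod p, χ' = g'.comp PΛ := by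
    intro χ' hχ'
    induction hχ' using Submodule.span_induction with
    | mem y hy =>
        obtain ⟨j, rfl⟩ := hy
        exact ⟨_, rfl⟩
    | zero => exact ⟨0, (AddMonoidHom.zero_comp PΛ).symm⟩
    | add y z _ _ hy hz =>
        obtain ⟨g1, rfl⟩ := hy
        obtain ⟨g2, rfl⟩ := hz
        exact ⟨g1 + g2, (AddMonoidHom.add_comp g1 g2 PΛ).symm⟩
    | smul r y _ hy =>
        obtain ⟨g1, rfl⟩ := hy
        exact ⟨r • g1, rfl⟩
  have hstab : ∀ (𝒜 : Fermat.Agent.S16.LB.CosetFam N) (m : Λ →+ Λ), 𝒜.tHom PΛ = m.comp PΛ →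
      ∀ χ ∈ X, 𝒜.tHom χ ∈ X := by
    intro 𝒜 m hm χ' hχ'
    obtain ⟨g', rfl⟩ := hXfac χ' hχ'
    rw [Fermat.Agent.S16.LB.CosetFam.tHom_comp, hm, ← AddMonoidHom.comp_assoc]
    exact hfac _
  refine ⟨X, ?_, hstab, ?_⟩
  · intro χ' hχ' γ hγ
    obtain ⟨g', rfl⟩ := hXfac χ' hχ'
    rw [AddMonoidHom.comp_apply, hadm γ hγ, map_zero]
  let xs : ι → X := fun j => ⟨chi p Λ b PΛ j, hχX j⟩
  refine ⟨∑ j, μ (b j) ⊗ₜ[ZMod p] xs j, ?_, ?_⟩
  · intro hc0
    obtain ⟨x₀, hx₀⟩ := hμ0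
    obtain ⟨γ, rfl⟩ := hsurj x₀
    let ev : X →ₗ[ZMod p] ZMod p :=
      { toFun := fun χ' => (χ' : Additive (Gamma0 N) →+ ZMod p) γ
        map_add' := fun _ _ => rfl
        map_smul' := fun _ _ => rfl }
    have h1 := congrArg (fun t => (TensorProduct.rid (ZMod p) k₀) (LinearMap.lTensor k₀ ev t)) hc0
    simp only [map_sum, LinearMap.lTensor_tmul, TensorProduct.rid_tmul, map_zero] at h1
    apply hx₀
    rw [← sum_repr_smul p Λ b μ (PΛ γ), ← h1]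
    rfl
  · intro 𝒜 m e hm hX hμm
    have hT : ∀ j, restrT 𝒜 X hX (xs j)
        = ∑ i, ((b.repr (m (b i)) j : ℤ) : ZMod p) • xs i := by
      intro j
      apply Subtype.ext
      rw [coe_restrT, Submodule.coe_sum]
      simp only [Submodule.coe_smul]
      show 𝒜.tHom (((Int.castAddHom (ZMod p)).comp (b.coord j).toAddMonoidHom).comp PΛ) = _
      rw [Fermat.Agent.S16.LB.CosetFam.tHom_comp, hm, ← AddMonoidHom.comp_assoc,
        comp_eq_sum p Λ b PΛ]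
      rfl
    rw [map_sum]
    simp only [LinearMap.baseChange_tmul, hT, TensorProduct.tmul_sum]
    simp only [← TensorProduct.smul_tmul]
    rw [Finset.sum_comm]
    simp only [← TensorProduct.sum_tmul, sum_repr_smul p Λ b μ, hμm]
    rw [Finset.smul_sum]
    refine Finset.sum_congr rfl fun i _ => ?_
    rw [TensorProduct.smul_tmul', smul_eq_mul]

end Core

/-! ### the main statement -/

/-- **(B8)**: integrality of the eigenvalues, and an eigenvector of the Hecke operators in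
`k₀ ⊗ X` for a Hecke-stable `𝔽_p`-space `X` of admissible characters of `Γ₀(N)`. -/
theorem exists_eigenchar (N : ℕ) [NeZero N] (g : CuspForm (Gamma0 N) 2)
    (hg : g.IsNormalizedEigenform) (p : ℕ) [Fact p.Prime] (k₀ : Type) [Field k₀] [CharP k₀ p]
    [Algebra (ZMod p) k₀] (φ : Zbar →+* k₀) :
    ∃ a : ℕ → Zbar,
      (∀ ℓ : ℕ, ℓ.Prime → ¬ ℓ ∣ N → ((a ℓ : Zbar) : ℂ) = qCoeff g ℓ) ∧
      ∃ (X : Submodule (ZMod p) (Additive (Gamma0 N) →+ ZMod p))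
        (_ : ∀ χ ∈ X, IsAdm N p χ)
        (hX : ∀ (ℓ : ℕ) [Fact ℓ.Prime] (hℓN : ¬ ℓ ∣ N), ∀ χ ∈ X,
          (Fermat.Agent.S16.LB.famT N ℓ hℓN).tHom χ ∈ X),
        ∃ c : k₀ ⊗[ZMod p] X, c ≠ 0 ∧
          ∀ (ℓ : ℕ) [Fact ℓ.Prime] (hℓN : ¬ ℓ ∣ N),
            (restrT (Fermat.Agent.S16.LB.famT N ℓ hℓN) X (hX ℓ hℓN)).baseChange k₀ c
              = φ (a ℓ) • c := by
  classical
  let Λ : AddSubgroup ℂ := (periodMap N g).range
  have hΛfg : Λ.FG := by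
    haveI : Group.FG (Gamma0 N) := Fermat.Agent.S22.Small.gamma0_fg N
    haveI : AddGroup.FG (Additive (Gamma0 N)) := GroupFG.iff_add_fg.mp inferInstance
    exact (AddGroup.fg_iff_addSubgroup_fg _).mp (AddGroup.fg_range (periodMap N g))
  have hΛne : ∃ x ∈ Λ, x ≠ 0 := by
    by_contra hcon
    apply periodMap_ne_zero hg.ne_zero
    refine AddMonoidHom.ext fun γ => ?_
    by_contra hγ
    exact hcon ⟨periodMap N g γ, ⟨γ, rfl⟩, hγ⟩
  have hmul : ∀ (ℓ : ℕ) [Fact ℓ.Prime] (_ : ¬ ℓ ∣ N), ∀ x ∈ Λ, qCoeff g ℓ * x ∈ Λ := by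
    intro ℓ _ hℓN x hx
    obtain ⟨γ, rfl⟩ := hx
    have h1 := congrArg (fun ψ : Additive (Gamma0 N) →+ ℂ => ψ γ) (tHom_periodMap hg ℓ hℓN)
    simp only [AddMonoidHom.smul_apply, smul_eq_mul] at h1
    rw [← h1]
    show ∑ i, periodMap N g (Additive.ofMul
      ((Fermat.Agent.S16.LB.famT N ℓ hℓN).kap (Additive.toMul γ) i)) ∈ Λ
    exact sum_mem (fun i _ => ⟨_, rfl⟩)
  have hint : ∀ ℓ : ℕ, ℓ.Prime → ¬ ℓ ∣ N → IsIntegral ℤ (qCoeff g ℓ) := fun ℓ hℓ hℓN =>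
    haveI : Fact ℓ.Prime := ⟨hℓ⟩
    isIntegral_of_mul_mem Λ hΛfg hΛne _ (hmul ℓ hℓN)
  let a : ℕ → Zbar := fun ℓ => if h : IsIntegral ℤ (qCoeff g ℓ) then ⟨qCoeff g ℓ, h⟩ else 0
  have ha : ∀ ℓ : ℕ, ℓ.Prime → ¬ ℓ ∣ N → ((a ℓ : Zbar) : ℂ) = qCoeff g ℓ := by
    intro ℓ hℓ hℓN
    show ((if h : IsIntegral ℤ (qCoeff g ℓ) then (⟨qCoeff g ℓ, h⟩ : Zbar) else 0 : Zbar) : ℂ) = _
    rw [dif_pos (hint ℓ hℓ hℓN)]
  obtain ⟨μ, hμ0, hμ⟩ := exists_semilinear Λ hΛfg hΛne p k₀ φ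
  haveI : Module.Finite ℤ Λ := Module.Finite.iff_addGroup_fg.mpr
    ((AddGroup.fg_iff_addSubgroup_fg _).mpr hΛfg)
  haveI : Module.Free ℤ Λ := inferInstance
  let b := Module.Free.chooseBasis ℤ Λ
  let PΛ : Additive (Gamma0 N) →+ Λ := (periodMap N g).rangeRestrict
  have hsurj : Function.Surjective PΛ := (periodMap N g).rangeRestrict_surjective
  have hadm : ∀ γ : Gamma0 N, ((γ : SL(2, ℤ)) 0 0 + (γ : SL(2, ℤ)) 1 1) ^ 2 ≤ 4 →
      PΛ (Additive.ofMul γ) = 0 := fun γ hγ =>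
    Subtype.ext (periodMap_eq_zero_of_trace g γ hγ)
  obtain ⟨X, hXadm, hstab, c, hc0, hc⟩ := core p Λ b PΛ k₀ hsurj hadm μ hμ0
  -- multiplication by `a_ℓ` on `Λ`
  let mul : ∀ (ℓ : ℕ) [Fact ℓ.Prime] (_ : ¬ ℓ ∣ N), Λ →+ Λ := fun ℓ _ hℓN =>
    AddMonoidHom.mk' (fun x => ⟨qCoeff g ℓ * (x : ℂ), hmul ℓ hℓN x x.2⟩)
      (fun x y => Subtype.ext (by
        show qCoeff g ℓ * ((x : ℂ) + (y : ℂ)) = qCoeff g ℓ * (x : ℂ) + qCoeff g ℓ * (y : ℂ)
        ring))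
  have hmulT : ∀ (ℓ : ℕ) [Fact ℓ.Prime] (hℓN : ¬ ℓ ∣ N),
      (Fermat.Agent.S16.LB.famT N ℓ hℓN).tHom PΛ = (mul ℓ hℓN).comp PΛ := by
    intro ℓ _ hℓN
    refine AddMonoidHom.ext fun γ => Subtype.ext ?_
    have h1 := congrArg (fun ψ : Additive (Gamma0 N) →+ ℂ => ψ γ) (tHom_periodMap hg ℓ hℓN)
    simp only [AddMonoidHom.smul_apply, smul_eq_mul] at h1
    show ((∑ i, PΛ (Additive.ofMul
      ((Fermat.Agent.S16.LB.famT N ℓ hℓN).kap (Additive.toMul γ) i)) : Λ) : ℂ)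
        = qCoeff g ℓ * periodMap N g γ
    rw [← h1, AddSubgroup.val_finsetSum]
    rfl
  have hX : ∀ (ℓ : ℕ) [Fact ℓ.Prime] (hℓN : ¬ ℓ ∣ N), ∀ χ ∈ X,
      (Fermat.Agent.S16.LB.famT N ℓ hℓN).tHom χ ∈ X := fun ℓ _ hℓN =>
    hstab _ (mul ℓ hℓN) (hmulT ℓ hℓN)
  refine ⟨a, ha, X, hXadm, hX, c, hc0, ?_⟩
  intro ℓ hℓ hℓN
  refine hc _ (mul ℓ hℓN) (φ (a ℓ)) (hmulT ℓ hℓN) (hX ℓ hℓN) ?_
  intro x
  have hax : ((a ℓ : Zbar) : ℂ) * (x : ℂ) ∈ Λ := by
    rw [ha ℓ hℓ.out hℓN]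
    exact hmul ℓ hℓN x x.2
  have h1 : mul ℓ hℓN x = ⟨((a ℓ : Zbar) : ℂ) * (x : ℂ), hax⟩ :=
    Subtype.ext (by
      show qCoeff g ℓ * (x : ℂ) = ((a ℓ : Zbar) : ℂ) * (x : ℂ)
      rw [ha ℓ hℓ.out hℓN])
  rw [h1]
  exact hμ (a ℓ) x hax

end Fermat.Agent.S29.Period
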