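import Mathlib
import Fermat.Agent.S29_BDefs
import Fermat.Agent.S29_KumPic
import Fermat.Agent.S29_Period

/-!
# S29, bridge (B9), core: from the Kummer packages to an eigenvector in `k₀ ⊗ J₀(N)[p]`

`Inputs N p` collects the statements of the packages B2–B6 (Kummer functions of admissible
characters over `ℂ`, their divisibility, independence, additivity, injectivity, Hecke
compatibility, and descent to `ℚ̄`).  From them: the Kummer class map
`κ : X → J₀(N)(ℚ̄)[p]` on any `𝔽_p`-space `X` of admissible characters is `𝔽_p`-linear, injective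
and Hecke equivariant; combined with the eigencharacter of `S29_Period`, this gives a nonzero
eigenvector of the `T_ℓ` in `k₀ ⊗ J₀(N)[p]` with eigenvalues `φ(a_ℓ)`.
-/

set_option autoImplicit false
set_option linter.style.haveILetI false

noncomputable section

open UpperHalfPlane ModularCurve CongruenceSubgroup AlgebraicCurve
open scoped MatrixGroups ModularForm TensorProduct

namespace Fermat.Agent.S29.Bridge

local notation "Qbar" => AlgebraicClosure ℚ
local notation "Zbar" => integralClosure ℤ ℂ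

/-! ### the relation `KumRel` -/

section Generic

variable {K F : Type*} [Field K] [Field F] [Algebra K F] {p : ℕ}

theorem kumRel_refl (h : F) : KumRel K F p h h :=
  ⟨1, 1, one_ne_zero, one_ne_zero, by rw [map_one, one_pow, one_mul, one_mul]⟩

theorem kumRel_symm {h h' : F} (H : KumRel K F p h h') : KumRel K F p h' h := by
  obtain ⟨c, y, hc, hy, rfl⟩ := H
  refine ⟨c⁻¹, y⁻¹, inv_ne_zero hc, inv_ne_zero hy, ?_⟩
  have h1 : algebraMap K F c ≠ 0 := (map_ne_zero _).mpr hc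
  have h2 : y ^ p ≠ 0 := pow_ne_zero p hy
  rw [map_inv₀, inv_pow]
  field_simp

theorem kumRel_trans {h h' h'' : F} (H : KumRel K F p h h') (H' : KumRel K F p h' h'') :
    KumRel K F p h h'' := by
  obtain ⟨c, y, hc, hy, rfl⟩ := H
  obtain ⟨c', y', hc', hy', rfl⟩ := H'
  exact ⟨c * c', y * y', mul_ne_zero hc hc', mul_ne_zero hy hy', by
    rw [map_mul, mul_pow]
    ring⟩

theorem kumRel_mul {h₁ h₁' h₂ h₂' : F} (H₁ : KumRel K F p h₁ h₁') (H₂ : KumRel K F p h₂ h₂') :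
    KumRel K F p (h₁ * h₂) (h₁' * h₂') := by
  obtain ⟨c, y, hc, hy, rfl⟩ := H₁
  obtain ⟨c', y', hc', hy', rfl⟩ := H₂
  exact ⟨c * c', y * y', mul_ne_zero hc hc', mul_ne_zero hy hy', by
    rw [map_mul, mul_pow]
    ring⟩

/-- `KumRel` is preserved by `N_α ∘ β` for `K`-embeddings `α, β : F → F'`. -/
theorem norm_kumRel {F' : Type*} [Field F'] [Algebra K F'] (α β : F →ₐ[K] F') (p : ℕ) {h h' : F}
    (H : KumRel K F p h h') :
    letI := algebraAlong α
    KumRel K F p (Algebra.norm F (β h)) (Algebra.norm F (β h')) := by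
  classical
  letI := algebraAlong α
  obtain ⟨c, y, hc, hy, rfl⟩ := H
  have hconst : Algebra.norm F (β (algebraMap K F c))
      = algebraMap K F (c ^ Module.finrank F F') := by
    have h1 : β (algebraMap K F c) = algebraMap F F' (algebraMap K F c) := by
      rw [AlgHom.commutes]
      exact (α.commutes c).symm
    rw [h1, map_pow]
    exact Algebra.norm_algebraMap _
  have hne : Algebra.norm F (β y) ≠ 0 := by
    have hβ0 : β y ≠ 0 := (map_ne_zero _).mpr hy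
    by_cases hfin : Module.Finite F F'
    · exact Algebra.norm_ne_zero_iff.mpr hβ0
    · rw [Algebra.norm_eq_one_of_not_module_finite hfin]
      exact one_ne_zero
  refine ⟨c ^ Module.finrank F F', Algebra.norm F (β y), pow_ne_zero _ hc, hne, ?_⟩
  have e1 : Algebra.norm F (β (algebraMap K F c * y ^ p * h'))
      = Algebra.norm F (β (algebraMap K F c)) * Algebra.norm F (β y) ^ p
        * Algebra.norm F (β h') := by
    simp only [map_mul, map_pow]
  rw [e1, hconst]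

end Generic

section Generic2

variable {R : Type*} [CommRing R] {A V W : Type*} [CommRing A] [Algebra R A] [AddCommGroup V]
  [Module R V] [AddCommGroup W] [Module R W]

/-- base change along a flat extension preserves injectivity. -/
theorem baseChange_injective [Module.Flat R A] (κ : V →ₗ[R] W) (hκ : Function.Injective κ) :
    Function.Injective (κ.baseChange A) := by
  have h1 : Function.Injective (κ.lTensor A) :=
    Module.Flat.lTensor_preserves_injective_linearMap κ hκ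
  intro x y hxy
  exact h1 hxy

/-- transport of eigenvectors along an intertwining map. -/
theorem eigen_transport (κ : V →ₗ[R] W) (T : V →ₗ[R] V) (T' : W →ₗ[R] W)
    (h : ∀ x, κ (T x) = T' (κ x)) (c : A ⊗[R] V) (e : A) (hc : T.baseChange A c = e • c) :
    T'.baseChange A (κ.baseChange A c) = e • κ.baseChange A c := by
  have h1 : T' ∘ₗ κ = κ ∘ₗ T := LinearMap.ext (fun x => (h x).symm)
  have e1 : (T' ∘ₗ κ).baseChange A c = T'.baseChange A (κ.baseChange A c) := by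
    rw [LinearMap.baseChange_comp]
    rfl
  have e2 : (κ ∘ₗ T).baseChange A c = κ.baseChange A (T.baseChange A c) := by
    rw [LinearMap.baseChange_comp]
    rfl
  rw [← e1, h1, e2, hc, map_smul]

end Generic2

/-- `KumRel` is preserved by `N_α ∘ β`. -/
theorem normA_kumRel (L : Type*) [Field L] [Algebra ℚ L] (N ℓ : ℕ) [NeZero N] [NeZero ℓ] (p : ℕ)
    {h h' : ↥(laurentBaseChange L (modularFunctionFieldFull N))}
    (H : KumRel L (↥(laurentBaseChange L (modularFunctionFieldFull N))) p h h') :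
    KumRel L (↥(laurentBaseChange L (modularFunctionFieldFull N))) p
      (normA L N ℓ (heckeBetaBar L N ℓ h)) (normA L N ℓ (heckeBetaBar L N ℓ h')) :=
  norm_kumRel (heckeAlphaBar L N ℓ) (heckeBetaBar L N ℓ) p H

variable {N p : ℕ} [NeZero N] [Fact p.Prime]

omit [Fact p.Prime] in
/-- `KumRel` is preserved by base change `ℚ̄ → ℂ`. -/
theorem kumRel_bcF {h h' : ↥(modularFunctionFieldBar N)}
    (H : KumRel Qbar (↥(modularFunctionFieldBar N)) p h h') :
    KumRel ℂ (FC N) p (bcF N h) (bcF N h') := by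
  obtain ⟨c, y, hc, hy, rfl⟩ := H
  refine ⟨embC c, bcF N y, (map_ne_zero embC).mpr hc, (map_ne_zero (bcF N)).mpr hy, ?_⟩
  rw [map_mul, map_mul, map_pow, bcF_algebraMap]

/-! ### the inputs -/

variable (N p) in
/-- the statements of the packages B2–B6. -/
structure Inputs : Prop where
  exists_kum : ∀ χ : Additive (Gamma0 N) →+ ZMod p, IsAdm N p χ → ∃ h : FC N, IsKum N p χ h
  pdiv : ∀ (χ : Additive (Gamma0 N) →+ ZMod p) (h : FC N), IsAdm N p χ → IsKum N p χ h →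
    IsPDiv ℂ (FC N) p h
  kum_rel : ∀ (χ : Additive (Gamma0 N) →+ ZMod p) (h h' : FC N), IsKum N p χ h →
    IsKum N p χ h' → KumRel ℂ (FC N) p h h'
  kum_add : ∀ (χ χ' : Additive (Gamma0 N) →+ ZMod p) (h h' h'' : FC N), IsKum N p χ h →
    IsKum N p χ' h' → IsKum N p (χ + χ') h'' → KumRel ℂ (FC N) p h'' (h * h')
  kum_inj : ∀ (χ : Additive (Gamma0 N) →+ ZMod p) (h : FC N), IsAdm N p χ → IsKum N p χ h →
    KumRel ℂ (FC N) p h 1 → χ = 0
  kum_hecke : ∀ (ℓ : ℕ) [Fact ℓ.Prime] [NeZero ℓ] (hℓN : ¬ ℓ ∣ N)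
    (χ : Additive (Gamma0 N) →+ ZMod p), IsAdm N p χ →
    IsAdm N p ((Fermat.Agent.S16.LB.famT N ℓ hℓN).tHom χ) → ∀ h h' : FC N, IsKum N p χ h →
    IsKum N p ((Fermat.Agent.S16.LB.famT N ℓ hℓN).tHom χ) h' →
    KumRel ℂ (FC N) p (normA ℂ N ℓ (heckeBetaBar ℂ N ℓ h)) h'
  descent : ∀ h : FC N, IsPDiv ℂ (FC N) p h → ∃ h₀ : ↥(modularFunctionFieldBar N),
    IsPDiv Qbar (↥(modularFunctionFieldBar N)) p h₀ ∧ KumRel ℂ (FC N) p h (bcF N h₀)
  descent_inj : ∀ h₀ : ↥(modularFunctionFieldBar N), h₀ ≠ 0 →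
    KumRel ℂ (FC N) p (bcF N h₀) 1 → KumRel Qbar (↥(modularFunctionFieldBar N)) p h₀ 1
  bcF_norm : ∀ (ℓ : ℕ) [NeZero ℓ] (y : ↥(modularFunctionFieldBar N)),
    bcF N (normA Qbar N ℓ (heckeBetaBar Qbar N ℓ y)) = normA ℂ N ℓ (heckeBetaBar ℂ N ℓ (bcF N y))

/-- two functions over `ℚ̄` which are Kummer-equivalent over `ℂ` have the same class. -/
theorem classOf_eq_of_bcF (I : Inputs N p) {h₀ h₁ : ↥(modularFunctionFieldBar N)}
    (hh₀ : IsPDiv Qbar (↥(modularFunctionFieldBar N)) p h₀)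
    (hh₁ : IsPDiv Qbar (↥(modularFunctionFieldBar N)) p h₁)
    (H : KumRel ℂ (FC N) p (bcF N h₀) (bcF N h₁)) :
    KumPic.classOf N p h₀ hh₀ = KumPic.classOf N p h₁ hh₁ := by
  apply KumPic.classOf_eq_of_kumRel
  have hb : bcF N h₁ ≠ 0 := (map_ne_zero (bcF N)).mpr hh₁.1
  have h1 : KumRel ℂ (FC N) p (bcF N (h₀ / h₁)) 1 := by
    obtain ⟨c, y, hc, hy, e⟩ := H
    refine ⟨c, y, hc, hy, ?_⟩
    rw [map_div₀, e, mul_one]
    field_simp
  obtain ⟨c, y, hc, hy, e⟩ := I.descent_inj (h₀ / h₁) (div_ne_zero hh₀.1 hh₁.1) h1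
  refine ⟨c, y, hc, hy, ?_⟩
  rw [mul_one] at e
  rw [← e]
  have := hh₁.1
  field_simp

/-! ### Kummer classes -/

variable (N p) in
/-- `x` is the Kummer class of `χ`. -/
def IsClass (χ : Additive (Gamma0 N) →+ ZMod p) (x : Jp N p) : Prop :=
  ∃ (h : FC N) (h₀ : ↥(modularFunctionFieldBar N))
    (hh₀ : IsPDiv Qbar (↥(modularFunctionFieldBar N)) p h₀),
    IsKum N p χ h ∧ KumRel ℂ (FC N) p h (bcF N h₀) ∧ x = KumPic.classOf N p h₀ hh₀

theorem exists_isClass (I : Inputs N p) {χ : Additive (Gamma0 N) →+ ZMod p}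
    (hχ : IsAdm N p χ) : ∃ x, IsClass N p χ x := by
  obtain ⟨h, hk⟩ := I.exists_kum χ hχ
  obtain ⟨h₀, hh₀, hrel⟩ := I.descent h (I.pdiv χ h hχ hk)
  exact ⟨_, h, h₀, hh₀, hk, hrel, rfl⟩

theorem isClass_unique (I : Inputs N p) {χ : Additive (Gamma0 N) →+ ZMod p} {x x' : Jp N p}
    (hx : IsClass N p χ x) (hx' : IsClass N p χ x') : x = x' := by
  obtain ⟨h, h₀, hh₀, hk, hrel, rfl⟩ := hx
  obtain ⟨h', h₀', hh₀', hk', hrel', rfl⟩ := hx'
  apply classOf_eq_of_bcF I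
  exact kumRel_trans (kumRel_symm hrel) (kumRel_trans (I.kum_rel χ h h' hk hk') hrel')

theorem isClass_add (I : Inputs N p) {χ χ' : Additive (Gamma0 N) →+ ZMod p} {x x' x'' : Jp N p}
    (hx : IsClass N p χ x) (hx' : IsClass N p χ' x') (hx'' : IsClass N p (χ + χ') x'') :
    x'' = x + x' := by
  obtain ⟨h, h₀, hh₀, hk, hrel, rfl⟩ := hx
  obtain ⟨h', h₀', hh₀', hk', hrel', rfl⟩ := hx'
  obtain ⟨h'', h₀'', hh₀'', hk'', hrel'', rfl⟩ := hx''
  rw [← KumPic.classOf_mul hh₀ hh₀']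
  apply classOf_eq_of_bcF I
  rw [map_mul]
  exact kumRel_trans (kumRel_symm hrel'')
    (kumRel_trans (I.kum_add χ χ' h h' h'' hk hk' hk'') (kumRel_mul hrel hrel'))

theorem isClass_zero (I : Inputs N p) {χ : Additive (Gamma0 N) →+ ZMod p} (hχ : IsAdm N p χ)
    (hx : IsClass N p χ 0) : χ = 0 := by
  obtain ⟨h, h₀, hh₀, hk, hrel, e⟩ := hx
  have h1 : KumRel Qbar (↥(modularFunctionFieldBar N)) p h₀ 1 :=
    (KumPic.classOf_eq_zero_iff hh₀).mp e.symm
  have h2 : KumRel ℂ (FC N) p (bcF N h₀) 1 := by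
    have := kumRel_bcF h1
    rwa [map_one] at this
  exact I.kum_inj χ h hχ hk (kumRel_trans hrel h2)

theorem isClass_hecke (I : Inputs N p) (ℓ : ℕ) [Fact ℓ.Prime] [NeZero ℓ] (hℓN : ¬ ℓ ∣ N)
    {χ : Additive (Gamma0 N) →+ ZMod p} (hχ : IsAdm N p χ)
    (hχ' : IsAdm N p ((Fermat.Agent.S16.LB.famT N ℓ hℓN).tHom χ)) {x x' : Jp N p}
    (hx : IsClass N p χ x)
    (hx' : IsClass N p ((Fermat.Agent.S16.LB.famT N ℓ hℓN).tHom χ) x') :
    heckeJp N p ℓ x = x' := by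
  obtain ⟨h, h₀, hh₀, hk, hrel, rfl⟩ := hx
  obtain ⟨h', h₀', hh₀', hk', hrel', rfl⟩ := hx'
  rw [KumPic.hecke_classOf ℓ hh₀]
  apply classOf_eq_of_bcF I
  rw [I.bcF_norm ℓ h₀]
  exact kumRel_trans (normA_kumRel ℂ N ℓ p (kumRel_symm hrel))
    (kumRel_trans (I.kum_hecke ℓ hℓN χ hχ hχ' h h' hk hk') hrel')

/-- **the Kummer class map** on a space of admissible characters: `𝔽_p`-linear, injective and
Hecke equivariant. -/
theorem exists_kappa (I : Inputs N p) (X : Submodule (ZMod p) (Additive (Gamma0 N) →+ ZMod p))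
    (hXadm : ∀ χ ∈ X, IsAdm N p χ) :
    ∃ κ : X →ₗ[ZMod p] Jp N p, Function.Injective κ ∧
      ∀ (ℓ : ℕ) [Fact ℓ.Prime] [NeZero ℓ] (hℓN : ¬ ℓ ∣ N)
        (hX : ∀ χ ∈ X, (Fermat.Agent.S16.LB.famT N ℓ hℓN).tHom χ ∈ X) (χ : X),
        κ (restrT (Fermat.Agent.S16.LB.famT N ℓ hℓN) X hX χ) = heckeJp N p ℓ (κ χ) := by
  classical
  let κ0 : X → Jp N p := fun χ => (exists_isClass I (hXadm χ χ.2)).choose
  have hκ0 : ∀ χ : X, IsClass N p (χ : Additive (Gamma0 N) →+ ZMod p) (κ0 χ) := fun χ =>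
    (exists_isClass I (hXadm χ χ.2)).choose_spec
  let κa : X →+ Jp N p := AddMonoidHom.mk' κ0 (fun χ χ' =>
    isClass_add I (hκ0 χ) (hκ0 χ') (hκ0 (χ + χ')))
  refine ⟨κa.toZModLinearMap p, ?_, ?_⟩
  · show Function.Injective κa
    rw [injective_iff_map_eq_zero]
    intro χ hχ0
    have h1 : IsClass N p (χ : Additive (Gamma0 N) →+ ZMod p) 0 := by
      have := hκ0 χ
      have e : κ0 χ = 0 := hχ0
      rwa [e] at this
    exact Subtype.ext (isClass_zero I (hXadm χ χ.2) h1)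
  · intro ℓ _ _ hℓN hX χ
    show κ0 (restrT (Fermat.Agent.S16.LB.famT N ℓ hℓN) X hX χ) = heckeJp N p ℓ (κ0 χ)
    have h1 := hκ0 (restrT (Fermat.Agent.S16.LB.famT N ℓ hℓN) X hX χ)
    rw [coe_restrT] at h1
    exact (isClass_hecke I ℓ hℓN (hXadm χ χ.2) (hXadm _ (hX χ χ.2)) (hκ0 χ) h1).symm

/-- **(B9), conditional on the inputs**: a nonzero eigenvector of the Hecke operators in
`k₀ ⊗ J₀(N)(ℚ̄)[p]` with eigenvalues `φ(a_ℓ)`. -/
theorem exists_eigenvector_of (N : ℕ) [NeZero N] (g : CuspForm (Gamma0 N) 2)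
    (hg : g.IsNormalizedEigenform) (p : ℕ) [Fact p.Prime] (I : Inputs N p) (k₀ : Type) [Field k₀]
    [CharP k₀ p] [Algebra (ZMod p) k₀] (φ : Zbar →+* k₀) :
    ∃ a : ℕ → Zbar,
      (∀ ℓ : ℕ, ℓ.Prime → ¬ ℓ ∣ N → ((a ℓ : Zbar) : ℂ) = ModularFormClass.qCoeff g ℓ) ∧
      ∃ v : k₀ ⊗[ZMod p] (Jp N p), v ≠ 0 ∧
        ∀ (ℓ : ℕ) [NeZero ℓ], ℓ.Prime → ¬ ℓ ∣ N →
          (heckeJp N p ℓ).baseChange k₀ v = φ (a ℓ) • v := by
  obtain ⟨a, ha, X, hXadm, hX, c, hc0, hc⟩ := Period.exists_eigenchar N g hg p k₀ φ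
  obtain ⟨κ, hκinj, hκT⟩ := exists_kappa I X hXadm
  refine ⟨a, ha, κ.baseChange k₀ c, ?_, ?_⟩
  · intro h0
    apply hc0
    have hinj : Function.Injective (κ.baseChange k₀) := baseChange_injective κ hκinj
    exact hinj (h0.trans (map_zero _).symm)
  · intro ℓ _ hℓ hℓN
    haveI : Fact ℓ.Prime := ⟨hℓ⟩
    exact eigen_transport κ (restrT (Fermat.Agent.S16.LB.famT N ℓ hℓN) X (hX ℓ hℓN))
      (heckeJp N p ℓ) (hκT ℓ hℓN (hX ℓ hℓN)) c (φ (a ℓ)) (hc ℓ hℓN)

end Fermat.Agent.S29.Bridge
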