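import Mathlib

/-!
# S29 (descent): existence of derivations

`K ⊆ L` fields of characteristic zero.  For `x : L` transcendental over `K` there is a
`K`-derivation `δ` of `L` with `δ x = 1`.  Consequently an element of `L` killed by every
`K`-derivation of `L` is algebraic over `K`.
-/

set_option autoImplicit false
set_option linter.style.haveILetI false

noncomputable section

open TensorProduct

namespace Fermat.Agent.S29.Deriv

variable {K L : Type*} [Field K] [Field L] [Algebra K L] [CharZero K]

open scoped IntermediateField.algebraAdjoinAdjoin in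
/-- For `x` transcendental over `K` there is a `K`-derivation of `L` with `δ x = 1`. -/
theorem exists_derivation_eq_one {x : L} (hx : Transcendental K x) :
    ∃ δ : Derivation K L L, δ x = 1 := by
  classical
  have hs : AlgebraicIndepOn K id ({x} : Set L) := by
    rw [AlgebraicIndepOn]
    exact (algebraicIndependent_singleton_iff (⟨x, rfl⟩ : ({x} : Set L))).mpr hx
  obtain ⟨t, hst, ht⟩ := exists_isTranscendenceBasis_superset hs
  have hxt : x ∈ t := hst rfl
  set v : t → L := Subtype.val with hv
  have hrange : Set.range v = t := Subtype.range_coe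
  let A := Algebra.adjoin K (Set.range v)
  let E := IntermediateField.adjoin K (Set.range v)
  let e : MvPolynomial t K ≃ₐ[K] A := ht.1.aevalEquiv
  let i₀ : t := ⟨x, hxt⟩
  have hxA : x ∈ A := Algebra.subset_adjoin ⟨i₀, rfl⟩
  -- the derivation `∂/∂x` on `A`
  let dA : Derivation K A A :=
    { toLinearMap := e.toLinearMap ∘ₗ (MvPolynomial.pderiv i₀).toLinearMap ∘ₗ e.symm.toLinearMap
      map_one_eq_zero' := by
        simp
      leibniz' := by
        intro a b
        simp only [LinearMap.coe_comp, Function.comp_apply, AlgEquiv.toLinearMap_apply,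
          Derivation.coeFn_coe, map_mul, Derivation.leibniz, map_add, smul_eq_mul,
          AlgEquiv.apply_symm_apply] }
  let dAL : Derivation K A L := (Algebra.linearMap A L).compDer dA
  have hdAL : dAL ⟨x, hxA⟩ = 1 := by
    have h1 : e.symm ⟨x, hxA⟩ = MvPolynomial.X i₀ := by
      rw [AlgEquiv.symm_apply_eq]
      apply Subtype.ext
      simp [e, AlgebraicIndependent.aevalEquiv, i₀, v]
    show algebraMap A L (e (MvPolynomial.pderiv i₀ (e.symm ⟨x, hxA⟩))) = 1
    rw [h1, MvPolynomial.pderiv_X_self, map_one, map_one]
  -- `L` is formally étale over `A`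
  haveI : Algebra.IsAlgebraic E L := ht.isAlgebraic_field
  haveI : Algebra.FormallyEtale E L := Algebra.FormallyEtale.of_isSeparable E L
  haveI : Algebra.FormallyEtale A E := Algebra.FormallyEtale.of_isLocalization (nonZeroDivisors A)
  haveI : IsScalarTower A E L := IsScalarTower.of_algebraMap_eq (fun _ => rfl)
  haveI : Algebra.FormallyEtale A L := Algebra.FormallyEtale.comp A E L
  let φ : Ω[L⁄K] →ₗ[L] L :=
    (LinearMap.liftBaseChange L dAL.liftKaehlerDifferential) ∘ₗ
      (KaehlerDifferential.tensorKaehlerEquivOfFormallyEtale K A L).symm.toLinearMap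
  refine ⟨KaehlerDifferential.linearMapEquivDerivation K L φ, ?_⟩
  have hx' : x = algebraMap A L ⟨x, hxA⟩ := rfl
  show φ (KaehlerDifferential.D K L x) = 1
  rw [hx']
  show (LinearMap.liftBaseChange L dAL.liftKaehlerDifferential)
    ((KaehlerDifferential.tensorKaehlerEquivOfFormallyEtale K A L).symm
      (KaehlerDifferential.D K L (algebraMap A L ⟨x, hxA⟩))) = 1
  rw [KaehlerDifferential.tensorKaehlerEquivOfFormallyEtale_symm_D_algebraMap,
    LinearMap.liftBaseChange_tmul, one_smul, Derivation.liftKaehlerDifferential_comp_D, hdAL]

/-- An element of `L` killed by every `K`-derivation of `L` is algebraic over `K`. -/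
theorem isAlgebraic_of_forall_derivation_eq_zero {x : L}
    (h : ∀ δ : Derivation K L L, δ x = 0) : IsAlgebraic K x := by
  by_contra hx
  obtain ⟨δ, hδ⟩ := exists_derivation_eq_one (K := K) (x := x) hx
  rw [h δ] at hδ
  exact zero_ne_one hδ

/-- If moreover `K` is algebraically closed, such an element lies in `K`. -/
theorem mem_range_of_forall_derivation_eq_zero [IsAlgClosed K] {x : L}
    (h : ∀ δ : Derivation K L L, δ x = 0) : ∃ c : K, algebraMap K L c = x := by
  have hint : IsIntegral K x := (isAlgebraic_of_forall_derivation_eq_zero h).isIntegral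
  have hdeg := IsAlgClosed.degree_eq_one_of_irreducible K (minpoly.irreducible hint)
  exact (minpoly.degree_eq_one_iff).mp hdeg

end Fermat.Agent.S29.Deriv
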