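import Mathlib
import Fermat.Agent.S29_BDefs
import Fermat.Agent.S29_Deriv

/-!
# S29, descent `ℂ → ℚ̄` of Kummer functions: the derivation machinery

For a `ℚ̄`-derivation `δ` of `ℂ` we let `δ` act coefficientwise on Laurent series (`dL δ`); this is
a derivation of `ℂ((q))` which preserves the function field `FC N` of `X₀(N)` over `ℂ` (`dhat δ`)
and kills the functions defined over `ℚ̄`.  Conversely a function killed by all `dhat δ` is defined
over `ℚ̄` (`exists_bcF_eq`).  As a first application: a function defined over `ℚ̄` which is a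
constant times a `p`-th power over `ℂ` is already one over `ℚ̄` (`descent_inj`).
-/

set_option autoImplicit false

noncomputable section

open ModularCurve AlgebraicCurve

namespace Fermat.Agent.S29.DescDer

open Fermat.Agent.S29

local notation "Qbar" => AlgebraicClosure ℚ

attribute [local instance] algQC

/-- coefficientwise application of an additive map to a Laurent series. -/
def mapL {R S : Type*} [AddCommGroup R] [AddCommGroup S] (f : R →+ S) :
    LaurentSeries R →+ LaurentSeries S where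
  toFun x := x.map f
  map_zero' := by ext k; simp
  map_add' x y := by ext k; simp

@[simp]
theorem mapL_coeff {R S : Type*} [AddCommGroup R] [AddCommGroup S] (f : R →+ S)
    (x : LaurentSeries R) (k : ℤ) : (mapL f x).coeff k = f (x.coeff k) := rfl

/-- a `ℚ̄`-derivation of `ℂ` acting coefficientwise on `ℂ((q))`. -/
def dL (δ : Derivation Qbar ℂ ℂ) : LaurentSeries ℂ →+ LaurentSeries ℂ :=
  mapL (δ : ℂ →ₗ[Qbar] ℂ).toAddMonoidHom

@[simp]
theorem dL_coeff (δ : Derivation Qbar ℂ ℂ) (x : LaurentSeries ℂ) (k : ℤ) :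
    (dL δ x).coeff k = δ (x.coeff k) := rfl

theorem support_dL_subset (δ : Derivation Qbar ℂ ℂ) (x : LaurentSeries ℂ) :
    (dL δ x).support ⊆ x.support := by
  intro k hk
  rw [HahnSeries.mem_support] at hk ⊢
  intro h0
  apply hk
  rw [dL_coeff, h0, map_zero]

/-- Leibniz rule. -/
theorem dL_mul (δ : Derivation Qbar ℂ ℂ) (x y : LaurentSeries ℂ) :
    dL δ (x * y) = dL δ x * y + x * dL δ y := by
  ext a
  rw [HahnSeries.coeff_add, HahnSeries.coeff_mul_left' x.isPWO_support (support_dL_subset δ x),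
    HahnSeries.coeff_mul_right' y.isPWO_support (support_dL_subset δ y),
    ← Finset.sum_add_distrib, dL_coeff, HahnSeries.coeff_mul, map_sum]
  refine Finset.sum_congr rfl fun ij _ => ?_
  rw [Derivation.leibniz, dL_coeff, dL_coeff, smul_eq_mul, smul_eq_mul]
  ring

theorem dL_one (δ : Derivation Qbar ℂ ℂ) : dL δ 1 = 0 := by
  ext k
  rw [dL_coeff, HahnSeries.coeff_one, HahnSeries.coeff_zero]
  split_ifs
  · exact δ.map_one_eq_zero
  · exact map_zero δ

theorem dL_algebraMap (δ : Derivation Qbar ℂ ℂ) (c : ℂ) :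
    dL δ (algebraMap ℂ (LaurentSeries ℂ) c) = algebraMap ℂ (LaurentSeries ℂ) (δ c) := by
  rw [algebraMap_laurentSeries_eq_single, algebraMap_laurentSeries_eq_single]
  ext k
  rw [dL_coeff]
  rcases eq_or_ne k 0 with rfl | hk
  · rw [HahnSeries.coeff_single_same, HahnSeries.coeff_single_same]
  · rw [HahnSeries.coeff_single_of_ne hk, HahnSeries.coeff_single_of_ne hk, map_zero]

/-- coefficients of a constant times a series. -/
theorem coeff_algebraMap_mul {L : Type*} [Field L] (c : L) (x : LaurentSeries L) (k : ℤ) :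
    (algebraMap L (LaurentSeries L) c * x).coeff k = c * x.coeff k := by
  rw [algebraMap_laurentSeries_eq_single, HahnSeries.single_zero_mul_eq_smul,
    HahnSeries.coeff_smul, smul_eq_mul]

theorem dL_bcL (δ : Derivation Qbar ℂ ℂ) (y : LaurentSeries Qbar) : dL δ (bcL y) = 0 := by
  ext k
  rw [dL_coeff, bcL_coeff, HahnSeries.coeff_zero]
  exact δ.map_algebraMap (y.coeff k)

theorem dL_coeffEmb (δ : Derivation Qbar ℂ ℂ) (z : LaurentSeries ℚ) :
    dL δ (coeffEmb ℂ z) = 0 := by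
  rw [← bcL_coeffEmb, dL_bcL]

theorem dL_inv (δ : Derivation Qbar ℂ ℂ) (x : LaurentSeries ℂ) :
    dL δ x⁻¹ = -(dL δ x * x⁻¹ * x⁻¹) := by
  rcases eq_or_ne x 0 with rfl | hx
  · simp
  have h := dL_mul δ x x⁻¹
  rw [mul_inv_cancel₀ hx, dL_one] at h
  have h2 : x * dL δ x⁻¹ = -(dL δ x * x⁻¹) := by
    rw [eq_neg_iff_add_eq_zero, add_comm]
    exact h.symm
  calc dL δ x⁻¹ = x⁻¹ * (x * dL δ x⁻¹) := by rw [← mul_assoc, inv_mul_cancel₀ hx, one_mul]
    _ = -(dL δ x * x⁻¹ * x⁻¹) := by rw [h2]; ring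

theorem dL_mem {F₀ : IntermediateField ℚ (LaurentSeries ℚ)} (δ : Derivation Qbar ℂ ℂ)
    {x : LaurentSeries ℂ} (hx : x ∈ laurentBaseChange ℂ F₀) :
    dL δ x ∈ laurentBaseChange ℂ F₀ := by
  have hx' := hx
  rw [mem_laurentBaseChange_iff] at hx'
  induction hx' using Subfield.closure_induction with
  | mem y hy =>
      rcases hy with ⟨a, rfl⟩ | ⟨z, hz, rfl⟩
      · rw [dL_algebraMap]
        exact (laurentBaseChange ℂ F₀).algebraMap_mem _
      · rw [dL_coeffEmb]
        exact zero_mem _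
  | one => rw [dL_one]; exact zero_mem _
  | add x y hx1 hy1 hx2 hy2 =>
      rw [map_add]
      exact add_mem (hx2 (mem_laurentBaseChange_iff.mpr hx1))
        (hy2 (mem_laurentBaseChange_iff.mpr hy1))
  | neg x hx1 hx2 =>
      rw [map_neg]
      exact neg_mem (hx2 (mem_laurentBaseChange_iff.mpr hx1))
  | inv x hx1 hx2 =>
      have hxm : x ∈ laurentBaseChange ℂ F₀ := mem_laurentBaseChange_iff.mpr hx1
      rw [dL_inv]
      exact neg_mem (mul_mem (mul_mem (hx2 hxm) (inv_mem hxm)) (inv_mem hxm))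
  | mul x y hx1 hy1 hx2 hy2 =>
      have hxm : x ∈ laurentBaseChange ℂ F₀ := mem_laurentBaseChange_iff.mpr hx1
      have hym : y ∈ laurentBaseChange ℂ F₀ := mem_laurentBaseChange_iff.mpr hy1
      rw [dL_mul]
      exact add_mem (mul_mem (hx2 hxm) hym) (mul_mem hxm (hy2 hym))

/-- a function killed by every `ℚ̄`-derivation has all its coefficients in `ℚ̄`. -/
theorem exists_bcL_eq (x : LaurentSeries ℂ) (h : ∀ δ : Derivation Qbar ℂ ℂ, dL δ x = 0) :
    ∃ y : LaurentSeries Qbar, bcL y = x := by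
  have hc : ∀ k : ℤ, ∃ c : Qbar, embC c = x.coeff k := by
    intro k
    have hk : ∀ δ : Derivation Qbar ℂ ℂ, δ (x.coeff k) = 0 := by
      intro δ
      have := congrArg (fun z : LaurentSeries ℂ => z.coeff k) (h δ)
      simpa using this
    exact Fermat.Agent.S29.Deriv.mem_range_of_forall_derivation_eq_zero (K := Qbar) (L := ℂ) hk
  choose c hc using hc
  refine ⟨⟨c, ?_⟩, ?_⟩
  · refine x.isPWO_support.mono ?_
    intro k hk
    rw [Function.mem_support] at hk
    rw [HahnSeries.mem_support, ← hc k]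
    intro h0
    exact hk (embC.injective (h0.trans (map_zero embC).symm))
  · ext k
    rw [bcL_coeff]
    exact hc k

/-! ### Linear disjointness -/

/-- coefficientwise application of a `ℚ̄`-linear functional on `ℂ`. -/
def lamL (lam : ℂ →ₗ[Qbar] Qbar) : LaurentSeries ℂ →+ LaurentSeries Qbar :=
  mapL lam.toAddMonoidHom

@[simp]
theorem lamL_coeff (lam : ℂ →ₗ[Qbar] Qbar) (x : LaurentSeries ℂ) (k : ℤ) :
    (lamL lam x).coeff k = lam (x.coeff k) := rfl

theorem lamL_smul_bcL (lam : ℂ →ₗ[Qbar] Qbar) (e : ℂ) (z : LaurentSeries Qbar) :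
    lamL lam (algebraMap ℂ (LaurentSeries ℂ) e * bcL z)
      = algebraMap Qbar (LaurentSeries Qbar) (lam e) * z := by
  ext k
  rw [lamL_coeff, coeff_algebraMap_mul, coeff_algebraMap_mul, bcL_coeff]
  have h : e * embC (z.coeff k) = (z.coeff k) • e := by
    rw [Algebra.smul_def, mul_comm]
    rfl
  rw [h, map_smul, smul_eq_mul, mul_comm]

/-- every element of the `ℂ`-algebra generated by the rational functions is a finite sum
`∑ eᵢ · bcL Bᵢ` with `Bᵢ` in the function field over `ℚ̄`. -/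
theorem exists_sum_of_mem_adjoin {F₀ : IntermediateField ℚ (LaurentSeries ℚ)} (u : LaurentSeries ℂ)
    (hu : u ∈ Algebra.adjoin ℂ (⇑(coeffEmb ℂ) '' (F₀ : Set (LaurentSeries ℚ)))) :
    ∃ (ι : Type) (_ : Fintype ι) (e : ι → ℂ) (B : ι → LaurentSeries Qbar),
      (∀ i, B i ∈ laurentBaseChange Qbar F₀) ∧
      u = ∑ i, algebraMap ℂ (LaurentSeries ℂ) (e i) * bcL (B i) := by
  induction hu using Algebra.adjoin_induction with
  | mem v hv =>
      obtain ⟨b, hb, rfl⟩ := hv
      refine ⟨Unit, inferInstance, fun _ => 1, fun _ => coeffEmb Qbar b,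
        fun _ => coeffEmb_mem_laurentBaseChange Qbar hb, ?_⟩
      rw [Fintype.sum_unique, map_one, one_mul, bcL_coeffEmb]
  | algebraMap c =>
      refine ⟨Unit, inferInstance, fun _ => c, fun _ => 1, fun _ => one_mem _, ?_⟩
      rw [Fintype.sum_unique, map_one, mul_one]
  | add v w _ _ hv hw =>
      obtain ⟨ι, _, e, B, hB, rfl⟩ := hv
      obtain ⟨κ, _, e', B', hB', rfl⟩ := hw
      refine ⟨ι ⊕ κ, inferInstance, Sum.elim e e', Sum.elim B B', ?_, ?_⟩
      · rintro (i | j)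
        · exact hB i
        · exact hB' j
      · rw [Fintype.sum_sum_type]
        rfl
  | mul v w _ _ hv hw =>
      obtain ⟨ι, _, e, B, hB, rfl⟩ := hv
      obtain ⟨κ, _, e', B', hB', rfl⟩ := hw
      refine ⟨ι × κ, inferInstance, fun ij => e ij.1 * e' ij.2, fun ij => B ij.1 * B' ij.2,
        fun ij => mul_mem (hB ij.1) (hB' ij.2), ?_⟩
      rw [Fintype.sum_prod_type, Finset.sum_mul_sum]
      refine Finset.sum_congr rfl fun i _ => Finset.sum_congr rfl fun j _ => ?_
      rw [map_mul, map_mul]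
      ring

theorem lamL_key {F₀ : IntermediateField ℚ (LaurentSeries ℚ)} (u : LaurentSeries ℂ)
    (hu : u ∈ Algebra.adjoin ℂ (⇑(coeffEmb ℂ) '' (F₀ : Set (LaurentSeries ℚ))))
    (lam : ℂ →ₗ[Qbar] Qbar) : lamL lam u ∈ laurentBaseChange Qbar F₀ ∧
      ∀ z : LaurentSeries Qbar, lamL lam (u * bcL z) = lamL lam u * z := by
  obtain ⟨ι, _, e, B, hB, rfl⟩ := exists_sum_of_mem_adjoin u hu
  have h1 : lamL lam (∑ i, algebraMap ℂ (LaurentSeries ℂ) (e i) * bcL (B i))
      = ∑ i, algebraMap Qbar (LaurentSeries Qbar) (lam (e i)) * B i := by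
    rw [map_sum]
    exact Finset.sum_congr rfl fun i _ => lamL_smul_bcL lam (e i) (B i)
  refine ⟨?_, fun z => ?_⟩
  · rw [h1]
    exact sum_mem fun i _ => mul_mem ((laurentBaseChange Qbar F₀).algebraMap_mem _) (hB i)
  · rw [h1, Finset.sum_mul, Finset.sum_mul, map_sum]
    refine Finset.sum_congr rfl fun i _ => ?_
    rw [mul_assoc, ← map_mul, lamL_smul_bcL, mul_assoc]

/-- **Linear disjointness**: a Laurent series over `ℚ̄` whose base change lies in the function
field over `ℂ` lies in the function field over `ℚ̄`. -/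
theorem mem_of_bcL_mem {F₀ : IntermediateField ℚ (LaurentSeries ℚ)} (y : LaurentSeries Qbar)
    (h : bcL y ∈ laurentBaseChange ℂ F₀) : y ∈ laurentBaseChange Qbar F₀ := by
  rw [laurentBaseChange, IntermediateField.mem_adjoin_iff_div] at h
  obtain ⟨r, hr, t, ht, hrt⟩ := h
  rcases eq_or_ne t 0 with ht0 | ht0
  · have h1 : bcL y = 0 := by rw [hrt, ht0, div_zero]
    have h2 : y = 0 := bcL_injective (h1.trans (map_zero bcL).symm)
    rw [h2]
    exact zero_mem _
  have hmul : t * bcL y = r := by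
    rw [hrt]
    field_simp
  obtain ⟨k, hk⟩ : ∃ k : ℤ, t.coeff k ≠ 0 := by
    by_contra hcon
    rw [not_exists] at hcon
    exact ht0 (HahnSeries.ext (funext fun k => not_not.mp (hcon k)))
  obtain ⟨lam, hlam⟩ : ∃ lam : ℂ →ₗ[Qbar] Qbar, lam (t.coeff k) ≠ 0 := by
    by_contra hcon
    rw [not_exists] at hcon
    exact hk ((Module.forall_dual_apply_eq_zero_iff Qbar (t.coeff k)).mp
      (fun lam => not_not.mp (hcon lam)))
  have hT := lamL_key t ht lam
  have hR := lamL_key r hr lam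
  have hT0 : lamL lam t ≠ 0 := by
    intro h0
    apply hlam
    have := congrArg (fun z : LaurentSeries Qbar => z.coeff k) h0
    simpa using this
  have hy : y = lamL lam r / lamL lam t := by
    rw [eq_div_iff hT0, mul_comm, ← hT.2 y, hmul]
  rw [hy]
  exact div_mem hR.1 hT.1

/-! ### The derivation on the function field -/

/-- the derivation `δ` acting on the function field of `X₀(N)` over `ℂ`. -/
def dhat {N : ℕ} [NeZero N] (δ : Derivation Qbar ℂ ℂ) : FC N →+ FC N where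
  toFun f := ⟨dL δ (f : LaurentSeries ℂ), dL_mem δ f.2⟩
  map_zero' := Subtype.ext (map_zero _)
  map_add' _ _ := Subtype.ext (map_add _ _ _)

@[simp]
theorem coe_dhat {N : ℕ} [NeZero N] (δ : Derivation Qbar ℂ ℂ) (f : FC N) :
    ((dhat δ f : FC N) : LaurentSeries ℂ) = dL δ (f : LaurentSeries ℂ) := rfl

theorem dhat_mul {N : ℕ} [NeZero N] (δ : Derivation Qbar ℂ ℂ) (f g : FC N) :
    dhat δ (f * g) = dhat δ f * g + f * dhat δ g :=
  Subtype.ext (dL_mul δ _ _)

theorem dhat_one {N : ℕ} [NeZero N] (δ : Derivation Qbar ℂ ℂ) : dhat δ (1 : FC N) = 0 :=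
  Subtype.ext (dL_one δ)

theorem dhat_algebraMap {N : ℕ} [NeZero N] (δ : Derivation Qbar ℂ ℂ) (c : ℂ) :
    dhat δ (algebraMap ℂ (FC N) c) = algebraMap ℂ (FC N) (δ c) :=
  Subtype.ext (dL_algebraMap δ c)

theorem dhat_bcF {N : ℕ} [NeZero N] (δ : Derivation Qbar ℂ ℂ) (y : ↥(modularFunctionFieldBar N)) :
    dhat δ (bcF N y) = 0 :=
  Subtype.ext (dL_bcL δ _)

theorem dhat_inv {N : ℕ} [NeZero N] (δ : Derivation Qbar ℂ ℂ) (f : FC N) :
    dhat δ f⁻¹ = -(dhat δ f * f⁻¹ * f⁻¹) :=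
  Subtype.ext (dL_inv δ _)

theorem dhat_pow {N : ℕ} [NeZero N] (δ : Derivation Qbar ℂ ℂ) (f : FC N) (n : ℕ) :
    dhat δ (f ^ (n + 1)) = ((n + 1 : ℕ) : FC N) * f ^ n * dhat δ f := by
  induction n with
  | zero => simp
  | succ n ih =>
      rw [pow_succ, dhat_mul, ih]
      push_cast
      ring

theorem coeff_dhat {N : ℕ} [NeZero N] (δ : Derivation Qbar ℂ ℂ) (f : FC N) (k : ℤ) :
    ((dhat δ f : FC N) : LaurentSeries ℂ).coeff k = δ ((f : LaurentSeries ℂ).coeff k) := rfl

/-- a function killed by all the derivations `dhat δ` is defined over `ℚ̄`. -/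
theorem exists_bcF_eq {N : ℕ} [NeZero N] (f : FC N)
    (h : ∀ δ : Derivation Qbar ℂ ℂ, dhat δ f = 0) :
    ∃ y : ↥(modularFunctionFieldBar N), bcF N y = f := by
  obtain ⟨y, hy⟩ := exists_bcL_eq (f : LaurentSeries ℂ)
    (fun δ => congrArg Subtype.val (h δ))
  have hmem : y ∈ laurentBaseChange Qbar (modularFunctionFieldFull N) := by
    apply mem_of_bcL_mem
    rw [hy]
    exact f.2
  exact ⟨⟨y, hmem⟩, Subtype.ext hy⟩

theorem exists_coeff_ne_zero {N : ℕ} [NeZero N] (y : FC N) (hy : y ≠ 0) :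
    ∃ k : ℤ, (y : LaurentSeries ℂ).coeff k ≠ 0 := by
  by_contra hcon
  rw [not_exists] at hcon
  exact hy (Subtype.ext (HahnSeries.ext (funext fun k => not_not.mp (hcon k))))

theorem coe_algebraMap_mul {N : ℕ} [NeZero N] (c : ℂ) (y : FC N) (k : ℤ) :
    ((algebraMap ℂ (FC N) c * y : FC N) : LaurentSeries ℂ).coeff k
      = c * (y : LaurentSeries ℂ).coeff k :=
  coeff_algebraMap_mul c (y : LaurentSeries ℂ) k

/-- a function with a coefficient equal to `1` which is an eigenvector of `dhat δ` with constant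
eigenvalue is killed by `dhat δ`. -/
theorem dhat_eq_zero_of_eq_mul {N : ℕ} [NeZero N] (δ : Derivation Qbar ℂ ℂ) (y : FC N) (k : ℤ)
    (hk : (y : LaurentSeries ℂ).coeff k = 1) (κ : ℂ)
    (h : dhat δ y = algebraMap ℂ (FC N) κ * y) : dhat δ y = 0 := by
  have h3 : ((dhat δ y : FC N) : LaurentSeries ℂ).coeff k
      = ((algebraMap ℂ (FC N) κ * y : FC N) : LaurentSeries ℂ).coeff k := by rw [h]
  rw [coeff_dhat, hk, δ.map_one_eq_zero, coe_algebraMap_mul, hk, mul_one] at h3
  rw [h, ← h3, map_zero, zero_mul]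

/-- **Injectivity of the descent**: a function defined over `ℚ̄` which is a constant times a
`p`-th power over `ℂ` is already a constant times a `p`-th power over `ℚ̄`. -/
theorem descent_inj (N p : ℕ) [NeZero N] [Fact p.Prime] (h₀ : ↥(modularFunctionFieldBar N))
    (hh : h₀ ≠ 0) :
    KumRel ℂ (FC N) p (bcF N h₀) 1 → KumRel Qbar ↥(modularFunctionFieldBar N) p h₀ 1 := by
  rintro ⟨c, y, hc, hy, e⟩
  rw [mul_one] at e
  obtain ⟨k, hk⟩ := exists_coeff_ne_zero y hy
  obtain ⟨b, hb⟩ : ∃ b : ℂ, b = (y : LaurentSeries ℂ).coeff k := ⟨_, rfl⟩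
  rw [← hb] at hk
  obtain ⟨y', hy'⟩ : ∃ y' : FC N, y' = algebraMap ℂ (FC N) b⁻¹ * y := ⟨_, rfl⟩
  obtain ⟨c', hc'⟩ : ∃ c' : ℂ, c' = c * b ^ p := ⟨_, rfl⟩
  have hbF : algebraMap ℂ (FC N) b ≠ 0 := fun h0 =>
    hk ((algebraMap ℂ (FC N)).injective (h0.trans (map_zero _).symm))
  have hy'0 : y' ≠ 0 := by
    rw [hy', map_inv₀]
    exact mul_ne_zero (inv_ne_zero hbF) hy
  have hc'0 : c' ≠ 0 := by
    rw [hc']
    exact mul_ne_zero hc (pow_ne_zero _ hk)
  have hc'F : algebraMap ℂ (FC N) c' ≠ 0 := fun h0 =>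
    hc'0 ((algebraMap ℂ (FC N)).injective (h0.trans (map_zero _).symm))
  have e' : bcF N h₀ = algebraMap ℂ (FC N) c' * y' ^ p := by
    rw [e, hy', hc', map_mul, map_pow, map_inv₀, mul_pow, inv_pow]
    field_simp
  have hcoef : (y' : LaurentSeries ℂ).coeff k = 1 := by
    rw [hy', coe_algebraMap_mul, ← hb]
    exact inv_mul_cancel₀ hk
  have hkill : ∀ δ : Derivation Qbar ℂ ℂ, dhat δ y' = 0 := by
    intro δ
    have h1 : dhat δ (algebraMap ℂ (FC N) c' * y' ^ p) = 0 := by rw [← e', dhat_bcF]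
    obtain ⟨n, hn⟩ : ∃ n, p = n + 1 :=
      ⟨p - 1, (Nat.succ_pred_eq_of_pos (Fact.out : p.Prime).pos).symm⟩
    rw [hn, dhat_mul, dhat_algebraMap, dhat_pow] at h1
    have hn0 : ((n + 1 : ℕ) : FC N) ≠ 0 := Nat.cast_ne_zero.mpr (Nat.succ_ne_zero n)
    have hn0' : ((n + 1 : ℕ) : ℂ) ≠ 0 := Nat.cast_ne_zero.mpr (Nat.succ_ne_zero n)
    have hyn : y' ^ n ≠ 0 := pow_ne_zero _ hy'0
    refine dhat_eq_zero_of_eq_mul δ y' k hcoef (-(δ c') / (c' * ((n + 1 : ℕ) : ℂ))) ?_
    have hcast : algebraMap ℂ (FC N) (((n + 1 : ℕ) : ℂ)) = ((n + 1 : ℕ) : FC N) := map_natCast _ _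
    rw [map_div₀, map_neg, map_mul, hcast]
    rw [eq_comm, div_mul_eq_mul_div, div_eq_iff (mul_ne_zero hc'F hn0)]
    have h5 : y' ^ n * (algebraMap ℂ (FC N) (δ c') * y' +
        algebraMap ℂ (FC N) c' * ((n + 1 : ℕ) : FC N) * dhat δ y') = 0 := by
      rw [← h1]
      ring
    have h6 := (mul_eq_zero.mp h5).resolve_left hyn
    linear_combination (-1 : FC N) * h6
  obtain ⟨y₁, hy₁⟩ := exists_bcF_eq y' hkill
  have hy₁0 : y₁ ≠ 0 := by
    rintro rfl
    exact hy'0 (by rw [← hy₁, map_zero])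
  obtain ⟨u, hu⟩ : ∃ u : ↥(modularFunctionFieldBar N), u = h₀ / y₁ ^ p := ⟨_, rfl⟩
  have hu1 : bcF N u = algebraMap ℂ (FC N) c' := by
    rw [hu, map_div₀, map_pow, hy₁, e']
    field_simp
  have hu2 : u = algebraMap Qbar ↥(modularFunctionFieldBar N)
      ((u : LaurentSeries Qbar).coeff 0) := by
    apply Subtype.ext
    ext j
    have h7 : ((bcF N u : FC N) : LaurentSeries ℂ).coeff j
        = ((algebraMap ℂ (FC N) c' : FC N) : LaurentSeries ℂ).coeff j := by rw [hu1]
    rw [coe_bcF, bcL_coeff] at h7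
    have h8 : ((algebraMap ℂ (FC N) c' : FC N) : LaurentSeries ℂ)
        = HahnSeries.single 0 c' := algebraMap_laurentSeries_eq_single ℂ c'
    rw [h8] at h7
    show (u : LaurentSeries Qbar).coeff j
      = (algebraMap Qbar (LaurentSeries Qbar) ((u : LaurentSeries Qbar).coeff 0)).coeff j
    rw [algebraMap_laurentSeries_eq_single]
    rcases eq_or_ne j 0 with rfl | hj
    · rw [HahnSeries.coeff_single_same]
    · rw [HahnSeries.coeff_single_of_ne hj] at h7 ⊢
      exact embC.injective (h7.trans (map_zero _).symm)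
  have hu0 : u ≠ 0 := by
    rw [hu]
    exact div_ne_zero hh (pow_ne_zero _ hy₁0)
  refine ⟨(u : LaurentSeries Qbar).coeff 0, y₁, ?_, hy₁0, ?_⟩
  · intro h0
    rw [h0, map_zero] at hu2
    exact hu0 hu2
  · rw [mul_one, ← hu2, hu]
    field_simp

end Fermat.Agent.S29.DescDer
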