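import Mathlib
import Fermat.Agent.S29_BDefs
import Fermat.Agent.S37_AtkinLehner
import Fermat.Prelude.Thm_ModularCurve_coeffMap_qExpand

/-!
# S29, bridge (B), package B6(e): base change `ℚ̄ → ℂ` commutes with the norm along `α`

For a prime `ℓ ∤ N`, a `ℚ̄`-basis of `F_{Nℓ}` over `α(F_N)` stays a basis over `ℂ` (it spans a
subfield containing `ℂ` and the generators, and the degrees agree: both are `ℓ + 1`), hence the
norms along `α` correspond under `bcF`.
-/

set_option autoImplicit false

noncomputable section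

open ModularCurve AlgebraicCurve

namespace Fermat.Agent.S29.DescNorm

local notation "Qbar" => AlgebraicClosure ℚ

/-! ### abstract linear algebra -/

/-- norms correspond when a basis is mapped to a basis. -/
theorem norm_map_of_basis {A B A' B' : Type*} [Field A] [Field B] [Field A'] [Field B']
    [Algebra A B] [Algebra A' B'] (f : A →+* A') (g : B →+* B')
    (hfg : ∀ a, g (algebraMap A B a) = algebraMap A' B' (f a))
    {ι : Type*} [Fintype ι] [DecidableEq ι] (b : Module.Basis ι A B) (b' : Module.Basis ι A' B')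
    (hb : ∀ i, b' i = g (b i)) (x : B) :
    f (Algebra.norm A x) = Algebra.norm A' (g x) := by
  rw [Algebra.norm_eq_matrix_det b, Algebra.norm_eq_matrix_det b', RingHom.map_det]
  congr 1
  ext i j
  rw [RingHom.mapMatrix_apply, Matrix.map_apply, Algebra.leftMulMatrix_eq_repr_mul,
    Algebra.leftMulMatrix_eq_repr_mul]
  have h1 : g x * b' j = ∑ k, f (b.repr (x * b j) k) • b' k := by
    rw [hb j, ← map_mul]
    conv_lhs => rw [← b.sum_repr (x * b j)]
    rw [map_sum]
    refine Finset.sum_congr rfl fun k _ => ?_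
    rw [Algebra.smul_def, map_mul, hfg, hb k, Algebra.smul_def]
  rw [h1, b'.repr_sum_self]

/-- if the images of a basis generate the target as a field, they form a basis (equal degrees). -/
theorem exists_basis_map {A B A' B' : Type*} [Field A] [Field B] [Field A'] [Field B']
    [Algebra A B] [Algebra A' B'] [FiniteDimensional A B] [FiniteDimensional A' B']
    (f : A →+* A') (g : B →+* B')
    (hfg : ∀ a, g (algebraMap A B a) = algebraMap A' B' (f a))
    (hfin : Module.finrank A' B' = Module.finrank A B)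
    (hgen : ∀ S : Subalgebra A' B', (∀ x, g x ∈ S) → (∀ y ∈ S, y⁻¹ ∈ S) → S = ⊤) :
    ∃ (b : Module.Basis (Fin (Module.finrank A B)) A B)
      (b' : Module.Basis (Fin (Module.finrank A B)) A' B'), ∀ i, b' i = g (b i) := by
  classical
  let b : Module.Basis (Fin (Module.finrank A B)) A B := Module.finBasis A B
  let c : Fin (Module.finrank A B) → B' := fun i => g (b i)
  let V : Submodule A' B' := Submodule.span A' (Set.range c)
  have hgV : ∀ x : B, g x ∈ V := by
    intro x
    rw [← b.sum_repr x, map_sum]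
    refine Submodule.sum_mem _ fun k _ => ?_
    rw [Algebra.smul_def, map_mul, hfg, ← Algebra.smul_def]
    exact Submodule.smul_mem _ _ (Submodule.subset_span ⟨k, rfl⟩)
  have hone : (1 : B') ∈ V := by
    have := hgV 1
    rwa [map_one] at this
  have hmul : ∀ u w : B', u ∈ V → w ∈ V → u * w ∈ V := by
    intro u w hu hw
    have h1 : V * V ≤ V := by
      rw [Submodule.span_mul_span, Submodule.span_le]
      rintro _ ⟨_, ⟨i, rfl⟩, _, ⟨j, rfl⟩, rfl⟩
      show g (b i) * g (b j) ∈ V
      rw [← map_mul]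
      exact hgV _
    exact h1 (Submodule.mul_mem_mul hu hw)
  let S : Subalgebra A' B' := V.toSubalgebra hone hmul
  have hS : S = ⊤ := by
    refine hgen S (fun x => hgV x) (fun y hy => ?_)
    have halg : IsAlgebraic A' ((⟨y, hy⟩ : S) : B') := Algebra.IsAlgebraic.isAlgebraic y
    exact S.inv_mem_of_algebraic (x := ⟨y, hy⟩) halg
  have htop : ⊤ ≤ Submodule.span A' (Set.range c) := by
    intro y _
    have : y ∈ S := by rw [hS]; exact Algebra.mem_top
    exact this
  refine ⟨b, basisOfTopLeSpanOfCardEqFinrank c htop (by rw [Fintype.card_fin, hfin]), fun i => ?_⟩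
  rw [coe_basisOfTopLeSpanOfCardEqFinrank]

/-! ### the modular function fields -/

variable (N ℓ : ℕ) [NeZero N] [NeZero ℓ]

/-- base change commutes with `α`. -/
theorem bcF_alpha (a : ↥(modularFunctionFieldBar N)) :
    bcF (N * ℓ) (heckeAlphaBar Qbar N ℓ a) = heckeAlphaBar ℂ N ℓ (bcF N a) := by
  apply Subtype.ext
  rw [coe_bcF, coe_heckeAlphaBar, coe_heckeAlphaBar, coe_bcF]

/-- base change commutes with `β`. -/
theorem bcF_beta (y : ↥(modularFunctionFieldBar N)) :
    bcF (N * ℓ) (heckeBetaBar Qbar N ℓ y) = heckeBetaBar ℂ N ℓ (bcF N y) := by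
  apply Subtype.ext
  show bcL (qExpand Qbar ℓ (y : LaurentSeries Qbar)) = qExpand ℂ ℓ (bcL (y : LaurentSeries Qbar))
  exact coeffMap_qExpand embC ℓ _

/-- induction principle: `F_M(ℂ)` is generated as a field by `ℂ` and the base change of
`F_M(ℚ̄)`. -/
theorem fc_induction (M : ℕ) [NeZero M]
    (P : ↥(laurentBaseChange ℂ (modularFunctionFieldFull M)) → Prop)
    (halg : ∀ a : ℂ, P (algebraMap ℂ _ a))
    (hbc : ∀ x : ↥(modularFunctionFieldBar M), P (bcF M x))
    (hadd : ∀ u w, P u → P w → P (u + w)) (hneg : ∀ u, P u → P (-u))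
    (hmul : ∀ u w, P u → P w → P (u * w)) (hinv : ∀ u, P u → P u⁻¹) :
    ∀ y, P y := by
  have key : ∀ y : LaurentSeries ℂ,
      y ∈ laurentBaseChange ℂ (modularFunctionFieldFull M) →
      ∃ h : y ∈ laurentBaseChange ℂ (modularFunctionFieldFull M),
        P (⟨y, h⟩ : ↥(laurentBaseChange ℂ (modularFunctionFieldFull M))) := by
    intro y hy'
    rw [mem_laurentBaseChange_iff] at hy'
    induction hy' using Subfield.closure_induction with
    | mem z hz =>
        rcases hz with ⟨a, rfl⟩ | ⟨z, hz, rfl⟩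
        · exact ⟨(laurentBaseChange ℂ (modularFunctionFieldFull M)).algebraMap_mem a, halg a⟩
        · have hz' : coeffEmb Qbar z ∈ modularFunctionFieldBar M :=
            coeffEmb_mem_laurentBaseChange Qbar hz
          have h1 := hbc ⟨coeffEmb Qbar z, hz'⟩
          refine ⟨coeffEmb_mem_laurentBaseChange ℂ hz, ?_⟩
          have h2 : bcF M ⟨coeffEmb Qbar z, hz'⟩
              = ⟨coeffEmb ℂ z, coeffEmb_mem_laurentBaseChange ℂ hz⟩ :=
            Subtype.ext (bcL_coeffEmb z)
          rw [h2] at h1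
          exact h1
    | one =>
        refine ⟨one_mem _, ?_⟩
        have h1 := halg 1
        rw [map_one] at h1
        have e : (⟨1, one_mem _⟩ : ↥(laurentBaseChange ℂ (modularFunctionFieldFull M))) = 1 :=
          Subtype.ext (by rw [IntermediateField.coe_one])
        rw [e]
        exact h1
    | add u w _ _ hu hw =>
        obtain ⟨hu1, hu2⟩ := hu
        obtain ⟨hw1, hw2⟩ := hw
        refine ⟨add_mem hu1 hw1, ?_⟩
        have e : (⟨u + w, add_mem hu1 hw1⟩ :
            ↥(laurentBaseChange ℂ (modularFunctionFieldFull M))) = ⟨u, hu1⟩ + ⟨w, hw1⟩ :=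
          Subtype.ext (by rw [IntermediateField.coe_add])
        rw [e]
        exact hadd _ _ hu2 hw2
    | neg u _ hu =>
        obtain ⟨hu1, hu2⟩ := hu
        refine ⟨neg_mem hu1, ?_⟩
        have e : (⟨-u, neg_mem hu1⟩ :
            ↥(laurentBaseChange ℂ (modularFunctionFieldFull M))) = -⟨u, hu1⟩ :=
          Subtype.ext (by rw [IntermediateField.coe_neg])
        rw [e]
        exact hneg _ hu2
    | inv u _ hu =>
        obtain ⟨hu1, hu2⟩ := hu
        refine ⟨inv_mem hu1, ?_⟩
        have e : (⟨u⁻¹, inv_mem hu1⟩ :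
            ↥(laurentBaseChange ℂ (modularFunctionFieldFull M))) = (⟨u, hu1⟩)⁻¹ :=
          Subtype.ext (by rw [IntermediateField.coe_inv])
        rw [e]
        exact hinv _ hu2
    | mul u w _ _ hu hw =>
        obtain ⟨hu1, hu2⟩ := hu
        obtain ⟨hw1, hw2⟩ := hw
        refine ⟨mul_mem hu1 hw1, ?_⟩
        have e : (⟨u * w, mul_mem hu1 hw1⟩ :
            ↥(laurentBaseChange ℂ (modularFunctionFieldFull M))) = ⟨u, hu1⟩ * ⟨w, hw1⟩ :=
          Subtype.ext (by rw [IntermediateField.coe_mul])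
        rw [e]
        exact hmul _ _ hu2 hw2
  intro y
  obtain ⟨h1, h2⟩ := key (y : LaurentSeries ℂ) y.2
  exact h2

/-- **base change commutes with the norm along `α`** (prime `ℓ ∤ N`). -/
theorem bcF_normA (hℓ : ℓ.Prime) (hℓN : ¬ ℓ ∣ N) (x : ↥(modularFunctionFieldBar (N * ℓ))) :
    bcF N (normA Qbar N ℓ x) = normA ℂ N ℓ (bcF (N * ℓ) x) := by
  classical
  letI iQ := algebraAlong (heckeAlphaBar Qbar N ℓ)
  letI iC := algebraAlong (heckeAlphaBar ℂ N ℓ)
  have hdQ : Module.finrank (↥(laurentBaseChange Qbar (modularFunctionFieldFull N)))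
      (↥(laurentBaseChange Qbar (modularFunctionFieldFull (N * ℓ)))) = ℓ + 1 :=
    Fermat.Agent.S37.W.finrankAlong_alpha N ℓ hℓ hℓN
  have hdC : Module.finrank (↥(laurentBaseChange ℂ (modularFunctionFieldFull N)))
      (↥(laurentBaseChange ℂ (modularFunctionFieldFull (N * ℓ)))) = ℓ + 1 :=
    Fermat.Agent.S37.W.finrankAlong_alpha_gen ℂ N ℓ hℓ hℓN
  haveI : FiniteDimensional (↥(laurentBaseChange Qbar (modularFunctionFieldFull N)))
      (↥(laurentBaseChange Qbar (modularFunctionFieldFull (N * ℓ)))) :=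
    FiniteDimensional.of_finrank_pos (by rw [hdQ]; exact Nat.succ_pos ℓ)
  haveI : FiniteDimensional (↥(laurentBaseChange ℂ (modularFunctionFieldFull N)))
      (↥(laurentBaseChange ℂ (modularFunctionFieldFull (N * ℓ)))) :=
    FiniteDimensional.of_finrank_pos (by rw [hdC]; exact Nat.succ_pos ℓ)
  have hfg : ∀ a : ↥(laurentBaseChange Qbar (modularFunctionFieldFull N)),
      bcF (N * ℓ) (algebraMap _ (↥(laurentBaseChange Qbar (modularFunctionFieldFull (N * ℓ)))) a)
        = algebraMap (↥(laurentBaseChange ℂ (modularFunctionFieldFull N)))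
            (↥(laurentBaseChange ℂ (modularFunctionFieldFull (N * ℓ)))) (bcF N a) :=
    fun a => bcF_alpha N ℓ a
  have hgen : ∀ S : Subalgebra (↥(laurentBaseChange ℂ (modularFunctionFieldFull N)))
      (↥(laurentBaseChange ℂ (modularFunctionFieldFull (N * ℓ)))),
      (∀ x, bcF (N * ℓ) x ∈ S) → (∀ y ∈ S, y⁻¹ ∈ S) → S = ⊤ := by
    intro S hS hinv
    rw [eq_top_iff]
    intro y _
    refine fc_induction (N * ℓ) (fun y => y ∈ S) (fun a => ?_) hS
      (fun u w hu hw => S.add_mem hu hw) (fun u hu => S.neg_mem hu)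
      (fun u w hu hw => S.mul_mem hu hw) hinv y
    have h1 := S.algebraMap_mem
      (algebraMap ℂ (↥(laurentBaseChange ℂ (modularFunctionFieldFull N))) a)
    have h2 : algebraMap (↥(laurentBaseChange ℂ (modularFunctionFieldFull N)))
        (↥(laurentBaseChange ℂ (modularFunctionFieldFull (N * ℓ))))
        (algebraMap ℂ (↥(laurentBaseChange ℂ (modularFunctionFieldFull N))) a)
        = algebraMap ℂ (↥(laurentBaseChange ℂ (modularFunctionFieldFull (N * ℓ)))) a :=
      (heckeAlphaBar ℂ N ℓ).commutes a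
    rw [h2] at h1
    exact h1
  obtain ⟨b, b', hbb'⟩ := exists_basis_map (bcF N) (bcF (N * ℓ)) hfg (by rw [hdC, hdQ]) hgen
  exact norm_map_of_basis (bcF N) (bcF (N * ℓ)) hfg b b' hbb' x

/-- **B6(e).** -/
theorem bcF_norm (hℓ : ℓ.Prime) (hℓN : ¬ ℓ ∣ N) (y : ↥(modularFunctionFieldBar N)) :
    bcF N (normA Qbar N ℓ (heckeBetaBar Qbar N ℓ y))
      = normA ℂ N ℓ (heckeBetaBar ℂ N ℓ (bcF N y)) := by
  rw [bcF_normA N ℓ hℓ hℓN, bcF_beta]

end Fermat.Agent.S29.DescNorm
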