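import Mathlib
import Fermat.Agent.S29_DescDer
import Fermat.Agent.S24_Main
import Fermat.Agent.RR_PlaceExt
import Fermat.Agent.RR_Main

/-!
# S29, descent `ℂ → ℚ̄`: places of the function field over `ℚ̄` extend (unramified) to `ℂ`

`exists_place_above`: for every place `v` of the function field of `X₀(N)` over `ℚ̄` there is a
place `w` of the function field over `ℂ` with `w.ord (bcF g) = v.ord g` for all `g`.

Proof: take a function `t` over `ℚ̄` whose only zero is `v`; a zero `w` of `bcF t` restricts to a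
positive multiple `e · v.ord` of `v`.  A Gauss-lemma type induction (subtracting residues) shows
that `e` divides the order at `w` of every element of the `ℂ`-span of the functions defined over
`ℚ̄`, hence of every function; so `e = 1`.
-/

set_option autoImplicit false

noncomputable section

open ModularCurve AlgebraicCurve

namespace Fermat.Agent.S29.DescPlace

open Fermat.Agent.S29 Fermat.Agent.S29.DescDer Fermat.Agent.S24 Fermat.Agent

local notation "Qbar" => AlgebraicClosure ℚ

attribute [local instance] algQC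

theorem isGenerator_bar (N : ℕ) [NeZero N] :
    IsGenerator Qbar (Tower.jGen Qbar N) := (modular_counts Qbar N).1

theorem isGenerator_C (N : ℕ) [NeZero N] :
    IsGenerator ℂ (Tower.jGen ℂ N) := (modular_counts ℂ N).1

section General

variable {K F : Type*} [Field K] [Field F] [Algebra K F]

theorem pos_add (w : Place K F) {f g : F} (hf : f = 0 ∨ 0 < w.ord f)
    (hg : g = 0 ∨ 0 < w.ord g) : f + g = 0 ∨ 0 < w.ord (f + g) := by
  rcases eq_or_ne f 0 with rfl | hf0
  · rw [zero_add]; exact hg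
  rcases eq_or_ne g 0 with rfl | hg0
  · rw [add_zero]; exact hf
  rcases eq_or_ne (f + g) 0 with h | h
  · exact Or.inl h
  · right
    have h0 := Places.min_ord_le_ord_add w hf0 hg0 h
    have h1 := hf.resolve_left hf0
    have h2 := hg.resolve_left hg0
    exact lt_of_lt_of_le (lt_min h1 h2) h0

theorem pos_sum (w : Place K F) {ι : Type*} (s : Finset ι) (f : ι → F)
    (h : ∀ i ∈ s, f i = 0 ∨ 0 < w.ord (f i)) :
    (∑ i ∈ s, f i) = 0 ∨ 0 < w.ord (∑ i ∈ s, f i) := by
  classical
  induction s using Finset.induction_on with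
  | empty => left; simp
  | insert a s ha ih =>
      rw [Finset.sum_insert ha]
      exact pos_add w (h a (Finset.mem_insert_self a s))
        (ih fun i hi => h i (Finset.mem_insert_of_mem hi))

theorem ord_neg' (w : Place K F) (y : F) : w.ord (-y) = w.ord y := by
  rcases eq_or_ne y 0 with rfl | hy0
  · rw [neg_zero]
  have h1 : (-1 : F) = algebraMap K F (-1) := by rw [map_neg, map_one]
  rw [← neg_one_mul, w.ord_mul (neg_ne_zero.mpr one_ne_zero) hy0, h1, Places.ord_algebraMap,
    zero_add]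

theorem ord_const_add (w : Place K F) (c : K) (hc : c ≠ 0) {y : F}
    (hy : y = 0 ∨ 0 < w.ord y) : w.ord (algebraMap K F c + y) = 0 := by
  rcases eq_or_ne y 0 with rfl | hy0
  · rw [add_zero]; exact Places.ord_algebraMap w c
  have hy1 := hy.resolve_left hy0
  have hc0 : algebraMap K F c ≠ 0 := (map_ne_zero _).mpr hc
  have hsum : algebraMap K F c + y ≠ 0 := by
    intro h
    have h' : y = -algebraMap K F c := by
      rw [eq_neg_iff_add_eq_zero, add_comm]; exact h
    rw [h', ord_neg', Places.ord_algebraMap] at hy1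
    exact lt_irrefl _ hy1
  have h1 := Places.min_ord_le_ord_add w hc0 hy0 hsum
  rw [Places.ord_algebraMap] at h1
  have h2 := Places.min_ord_le_ord_add w hsum (neg_ne_zero.mpr hy0)
    (by rw [add_neg_cancel_right]; exact hc0)
  rw [add_neg_cancel_right, Places.ord_algebraMap, ord_neg'] at h2
  rcases min_le_iff.mp h2 with h3 | h3
  · rcases le_min_iff.mp (le_of_eq (min_eq_left (le_of_lt hy1)).symm) with ⟨_, _⟩
    have h4 : (0 : ℤ) ≤ w.ord (algebraMap K F c + y) := by
      rw [min_eq_left (le_of_lt hy1)] at h1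
      exact h1
    exact le_antisymm h3 h4
  · exact absurd hy1 (not_lt.mpr h3)

end General

/-- a function over `ℚ̄` whose base change is constant is constant. -/
theorem eq_algebraMap_of_bcF_eq {N : ℕ} [NeZero N] (u : ↥(modularFunctionFieldBar N)) (c' : ℂ)
    (hu1 : bcF N u = algebraMap ℂ (FC N) c') :
    ∃ a : Qbar, u = algebraMap Qbar ↥(modularFunctionFieldBar N) a := by
  refine ⟨(u : LaurentSeries Qbar).coeff 0, ?_⟩
  apply Subtype.ext
  ext j
  have h7 : ((bcF N u : FC N) : LaurentSeries ℂ).coeff j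
      = ((algebraMap ℂ (FC N) c' : FC N) : LaurentSeries ℂ).coeff j := by rw [hu1]
  rw [coe_bcF, bcL_coeff] at h7
  have h8 : ((algebraMap ℂ (FC N) c' : FC N) : LaurentSeries ℂ)
      = HahnSeries.single 0 c' := algebraMap_laurentSeries_eq_single ℂ c'
  rw [h8] at h7
  show (u : LaurentSeries Qbar).coeff j
    = (algebraMap Qbar (LaurentSeries Qbar) ((u : LaurentSeries Qbar).coeff 0)).coeff j
  rw [algebraMap_laurentSeries_eq_single]
  rcases eq_or_ne j 0 with rfl | hj
  · rw [HahnSeries.coeff_single_same]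
  · rw [HahnSeries.coeff_single_of_ne hj] at h7 ⊢
    exact embC.injective (h7.trans (map_zero _).symm)

/-- every place over `ℚ̄` lies under a place over `ℂ`, a priori with a ramification index. -/
theorem exists_restrict_eq (N : ℕ) [NeZero N] (v : Place Qbar ↥(modularFunctionFieldBar N)) :
    ∃ (w : Place ℂ (FC N)) (e : ℕ), 0 < e ∧
      ∀ g : ↥(modularFunctionFieldBar N), g ≠ 0 → w.ord (bcF N g) = e * v.ord g := by
  obtain ⟨t, ht, honly⟩ := RR.PlaceExt.exists_only_zero (isGenerator_bar N) v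
  have ht0 : t ≠ 0 := by
    rintro rfl
    rw [Place.ord_zero] at ht
    exact lt_irrefl _ ht
  obtain ⟨w, hw⟩ : ∃ w : Place ℂ (FC N), 0 < w.ord (bcF N t) := by
    by_contra hcon
    rw [not_exists] at hcon
    have hmem : (bcF N t)⁻¹ ∈ RR.LSpace ℂ (FC N) 0 := by
      right
      intro w
      rw [w.ord_inv, Finsupp.zero_apply, add_zero]
      have := hcon w
      omega
    obtain ⟨c, hc⟩ := (RR.mem_LSpace_zero_iff (isGenerator_C N) _).mp hmem
    have h2 : bcF N t = algebraMap ℂ (FC N) c⁻¹ := by rw [map_inv₀, hc, inv_inv]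
    obtain ⟨a, ha⟩ := eq_algebraMap_of_bcF_eq t c⁻¹ h2
    rw [ha, Places.ord_algebraMap] at ht
    exact lt_irrefl _ ht
  have hne : ∀ {g : ↥(modularFunctionFieldBar N)}, g ≠ 0 → bcF N g ≠ 0 := fun hg =>
    (map_ne_zero _).mpr hg
  let W : IntVal Qbar ↥(modularFunctionFieldBar N) :=
    { toFun := fun g => w.ord (bcF N g)
      map_mul' := fun a b ha hb => by
        show w.ord (bcF N (a * b)) = _
        rw [map_mul, w.ord_mul (hne ha) (hne hb)]
      map_add' := fun a b ha hb hab => by
        show min (w.ord (bcF N a)) (w.ord (bcF N b)) ≤ w.ord (bcF N (a + b))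
        rw [map_add]
        exact Places.min_ord_le_ord_add w (hne ha) (hne hb) (by rw [← map_add]; exact hne hab)
      map_algebraMap' := fun c _ => by
        show w.ord (bcF N (algebraMap Qbar _ c)) = 0
        rw [bcF_algebraMap]
        exact Places.ord_algebraMap w _ }
  obtain ⟨v', e, he, hv'⟩ := RR.exists_place_of_intVal W ⟨t, ht0, ne_of_gt hw⟩
  have hvv : v' = v := by
    by_contra hne'
    have h1 := honly v' hne'
    have h2 : w.ord (bcF N t) = e * v'.ord t := hv' t ht0
    have h3 : (0 : ℤ) < e * v'.ord t := by rw [← h2]; exact hw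
    have h4 : (e : ℤ) * v'.ord t ≤ 0 :=
      mul_nonpos_of_nonneg_of_nonpos (by positivity) h1
    exact absurd h3 (not_lt.mpr h4)
  subst hvv
  exact ⟨w, e, he, hv'⟩

/-- **Gauss lemma**: `e` divides the order at `w` of every `ℂ`-combination of functions defined
over `ℚ̄`. -/
theorem dvd_ord_sum {N : ℕ} [NeZero N] (v : Place Qbar ↥(modularFunctionFieldBar N))
    (w : Place ℂ (FC N)) (e : ℕ) (he : 0 < e)
    (hwe : ∀ g : ↥(modularFunctionFieldBar N), g ≠ 0 → w.ord (bcF N g) = e * v.ord g) :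
    ∀ (n : ℕ) (ι : Type) (s : Finset ι) (c : ι → ℂ) (B : ι → ↥(modularFunctionFieldBar N)),
      s.card = n →
      (∑ i ∈ s, algebraMap ℂ (FC N) (c i) * bcF N (B i)) ≠ 0 →
      (e : ℤ) ∣ w.ord (∑ i ∈ s, algebraMap ℂ (FC N) (c i) * bcF N (B i)) := by
  intro n
  induction n using Nat.strong_induction_on with
  | _ n ih =>
  intro ι s c B hcard hne
  classical
  by_cases hz : ∃ i ∈ s, B i = 0
  · obtain ⟨i, hi, hBi⟩ := hz
    have hsum : ∑ j ∈ s, algebraMap ℂ (FC N) (c j) * bcF N (B j)
        = ∑ j ∈ s.erase i, algebraMap ℂ (FC N) (c j) * bcF N (B j) := by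
      rw [← Finset.add_sum_erase s _ hi, hBi, map_zero, mul_zero, zero_add]
    rw [hsum] at hne ⊢
    have hlt : (s.erase i).card < n := by
      rw [Finset.card_erase_of_mem hi, hcard]
      have := Finset.card_pos.mpr ⟨i, hi⟩
      omega
    exact ih _ hlt ι (s.erase i) c B rfl hne
  have hz' : ∀ i ∈ s, B i ≠ 0 := fun i hi h0 => hz ⟨i, hi, h0⟩
  have hs : s.Nonempty := by
    rw [Finset.nonempty_iff_ne_empty]
    rintro rfl
    exact hne Finset.sum_empty
  obtain ⟨i₁, hi₁, hmin⟩ := Finset.exists_min_image s (fun i => v.ord (B i)) hs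
  have hB1 : B i₁ ≠ 0 := hz' i₁ hi₁
  have hbc1 : bcF N (B i₁) ≠ 0 := (map_ne_zero _).mpr hB1
  have hres : ∀ i, ∃ r : Qbar, i ∈ s →
      (B i / B i₁ - algebraMap Qbar ↥(modularFunctionFieldBar N) r = 0 ∨
        0 < v.ord (B i / B i₁ - algebraMap Qbar ↥(modularFunctionFieldBar N) r)) := by
    intro i
    by_cases hi : i ∈ s
    · have hmem : B i / B i₁ ∈ v.toValuationSubring := by
        apply Places.mem_of_ord_nonneg
        rw [div_eq_mul_inv, v.ord_mul (hz' i hi) (inv_ne_zero hB1), v.ord_inv]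
        have := hmin i hi
        omega
      obtain ⟨r, hr⟩ := Places.exists_sub_mem_maximalIdeal (isGenerator_bar N) v
        ⟨B i / B i₁, hmem⟩
      refine ⟨r, fun _ => ?_⟩
      by_cases h0 : B i / B i₁ - algebraMap Qbar ↥(modularFunctionFieldBar N) r = 0
      · exact Or.inl h0
      · right
        have hne0 : (⟨B i / B i₁, hmem⟩ - algebraMap Qbar v.toValuationSubring r :
            v.toValuationSubring) ≠ 0 := by
          intro h
          apply h0
          have h' := congrArg (Subtype.val) h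
          rw [v.toValuationSubring.coe_sub, v.coe_algebraMap] at h'
          exact h'
        have h9 := Places.ord_pos_of_mem_maximalIdeal v hr hne0
        rw [v.toValuationSubring.coe_sub, v.coe_algebraMap] at h9
        exact h9
    · exact ⟨0, fun h => absurd h hi⟩
  choose r hr using hres
  obtain ⟨B'', hB''⟩ : ∃ B'' : ι → ↥(modularFunctionFieldBar N), ∀ i,
      B'' i = B i / B i₁ - algebraMap Qbar ↥(modularFunctionFieldBar N) (r i) := ⟨_, fun _ => rfl⟩
  have hB''1 : B'' i₁ = 0 := by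
    have h := hr i₁ hi₁
    rw [div_self hB1] at h
    rcases h with h | h
    · rw [hB'', div_self hB1]; exact h
    · exfalso
      have h' : (1 : ↥(modularFunctionFieldBar N)) - algebraMap Qbar _ (r i₁)
          = algebraMap Qbar _ (1 - r i₁) := by rw [map_sub, map_one]
      rw [h', Places.ord_algebraMap] at h
      exact lt_irrefl _ h
  obtain ⟨s₀, hs₀⟩ : ∃ s₀ : ℂ, s₀ = ∑ i ∈ s, c i * embC (r i) := ⟨_, rfl⟩
  obtain ⟨u', hu'def⟩ : ∃ u' : FC N, u' = algebraMap ℂ (FC N) s₀
      + ∑ i ∈ s, algebraMap ℂ (FC N) (c i) * bcF N (B'' i) := ⟨_, rfl⟩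
  have hu' : ∑ i ∈ s, algebraMap ℂ (FC N) (c i) * bcF N (B i) = bcF N (B i₁) * u' := by
    rw [hu'def, hs₀, map_sum, ← Finset.sum_add_distrib, Finset.mul_sum]
    refine Finset.sum_congr rfl fun i _ => ?_
    rw [hB'', map_sub, map_div₀, bcF_algebraMap, map_mul]
    field_simp
    ring
  have hu'0 : u' ≠ 0 := by
    rintro h
    rw [hu', h, mul_zero] at hne
    exact hne rfl
  rw [hu', w.ord_mul hbc1 hu'0, hwe _ hB1]
  refine dvd_add (Dvd.intro _ rfl) ?_
  by_cases hs0 : s₀ = 0
  · have hsum2 : u' = ∑ i ∈ s.erase i₁, algebraMap ℂ (FC N) (c i) * bcF N (B'' i) := by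
      rw [hu'def, hs0, map_zero, zero_add, ← Finset.add_sum_erase s _ hi₁, hB''1, map_zero,
        mul_zero, zero_add]
    rw [hsum2] at hu'0 ⊢
    have hlt : (s.erase i₁).card < n := by
      rw [Finset.card_erase_of_mem hi₁, hcard]
      have := Finset.card_pos.mpr ⟨i₁, hi₁⟩
      omega
    exact ih _ hlt ι (s.erase i₁) c B'' rfl hu'0
  · have hy : (∑ i ∈ s, algebraMap ℂ (FC N) (c i) * bcF N (B'' i)) = 0 ∨
        0 < w.ord (∑ i ∈ s, algebraMap ℂ (FC N) (c i) * bcF N (B'' i)) := by
      apply pos_sum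
      intro i hi
      rcases eq_or_ne (c i) 0 with hc0 | hc0
      · left; rw [hc0, map_zero, zero_mul]
      rcases eq_or_ne (B'' i) 0 with hB0 | hB0
      · left; rw [hB0, map_zero, mul_zero]
      right
      have hpos : 0 < v.ord (B'' i) := by
        rcases hr i hi with h | h
        · exact absurd ((hB'' i).trans h) hB0
        · rw [hB'' i]; exact h
      rw [w.ord_mul ((map_ne_zero _).mpr hc0) ((map_ne_zero _).mpr hB0), Places.ord_algebraMap,
        zero_add, hwe _ hB0]
      positivity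
    rw [hu'def, ord_const_add w s₀ hs0 hy]
    exact dvd_zero _

/-- elements of the `ℂ`-algebra generated by the rational functions, as sums in `FC N`. -/
theorem exists_sum_FC {N : ℕ} [NeZero N] (u : LaurentSeries ℂ)
    (hu : u ∈ Algebra.adjoin ℂ
      (⇑(coeffEmb ℂ) '' ((modularFunctionFieldFull N : IntermediateField ℚ (LaurentSeries ℚ)) :
        Set (LaurentSeries ℚ)))) :
    ∃ (ι : Type) (s : Finset ι) (c : ι → ℂ) (B : ι → ↥(modularFunctionFieldBar N)),
      u = ((∑ i ∈ s, algebraMap ℂ (FC N) (c i) * bcF N (B i) : FC N) : LaurentSeries ℂ) := by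
  obtain ⟨ι, _, e, B, hB, rfl⟩ := exists_sum_of_mem_adjoin u hu
  refine ⟨ι, Finset.univ, e, fun i => ⟨B i, hB i⟩, ?_⟩
  rw [AddSubmonoidClass.coe_finset_sum]
  rfl

/-- **Places of the function field over `ℚ̄` extend, unramified, to the function field over
`ℂ`.** -/
theorem exists_place_above (N : ℕ) [NeZero N] (v : Place Qbar ↥(modularFunctionFieldBar N)) :
    ∃ w : Place ℂ (FC N), ∀ g, w.ord (bcF N g) = v.ord g := by
  obtain ⟨w, e, he, hwe⟩ := exists_restrict_eq N v
  obtain ⟨π, hπ0, hπ⟩ := RR.Main.exists_ord_eq w 1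
  have hmem : (π : LaurentSeries ℂ) ∈ IntermediateField.adjoin ℂ
      (⇑(coeffEmb ℂ) '' ((modularFunctionFieldFull N : IntermediateField ℚ (LaurentSeries ℚ)) :
        Set (LaurentSeries ℚ))) := π.2
  rw [IntermediateField.mem_adjoin_iff_div] at hmem
  obtain ⟨r, hr, s, hs, hrs⟩ := hmem
  obtain ⟨ι, S, c, B, hrB⟩ := exists_sum_FC r hr
  obtain ⟨κ, T, d, C, hsC⟩ := exists_sum_FC s hs
  obtain ⟨R, hR⟩ : ∃ R : FC N, R = ∑ i ∈ S, algebraMap ℂ (FC N) (c i) * bcF N (B i) := ⟨_, rfl⟩
  obtain ⟨Sx, hSx⟩ : ∃ Sx : FC N, Sx = ∑ i ∈ T, algebraMap ℂ (FC N) (d i) * bcF N (C i) :=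
    ⟨_, rfl⟩
  have hπeq : π = R / Sx := by
    apply Subtype.ext
    rw [hrs, hrB, hsC, hR, hSx]
    rfl
  have hR0 : R ≠ 0 := by
    rintro h
    rw [hπeq, h, zero_div] at hπ0
    exact hπ0 rfl
  have hS0 : Sx ≠ 0 := by
    rintro h
    rw [hπeq, h, div_zero] at hπ0
    exact hπ0 rfl
  have h1 : (e : ℤ) ∣ w.ord R := by
    rw [hR]
    rw [hR] at hR0
    exact dvd_ord_sum v w e he hwe _ ι S c B rfl hR0
  have h2 : (e : ℤ) ∣ w.ord Sx := by
    rw [hSx]
    rw [hSx] at hS0
    exact dvd_ord_sum v w e he hwe _ κ T d C rfl hS0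
  have h3 : w.ord π = w.ord R - w.ord Sx := by
    rw [hπeq, div_eq_mul_inv, w.ord_mul hR0 (inv_ne_zero hS0), w.ord_inv]
    ring
  have h4 : (e : ℤ) ∣ 1 := by
    rw [← hπ, h3]
    exact dvd_sub h1 h2
  have he1 : e = 1 := by
    have h5 := Int.eq_one_of_dvd_one (by positivity) h4
    exact_mod_cast h5
  refine ⟨w, fun g => ?_⟩
  rcases eq_or_ne g 0 with rfl | hg
  · rw [map_zero, Place.ord_zero, Place.ord_zero]
  · rw [hwe g hg, he1, Nat.cast_one, one_mul]

end Fermat.Agent.S29.DescPlace
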