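import Mathlib
import Fermat.Agent.S24_Main

/-!
# S29, descent (B6b): derivations preserve the valuation rings

Let `F/K` be a function field with generator `x` over an algebraically closed field `K` of
characteristic zero, and let `D : F → F` be additive, Leibniz, with `D K ⊆ K` and `D x = 0`
(e.g. a derivation of the constants acting coefficientwise).  If `v` is a place with centre
`x = c` and either `D c = 0` or `v` is unramified over `x = c`, then `D` preserves the valuation
ring of `v`.
-/

set_option autoImplicit false

noncomputable section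

open AlgebraicCurve IsDedekindDomain

namespace Fermat.Agent.S29.DescStab

open Fermat.Agent.S24

/-- an additive Leibniz map of `F` preserving the constants `K`. -/
structure IsDer (K : Type*) {F : Type*} [Field K] [Field F] [Algebra K F] (D : F → F) :
    Prop where
  map_add : ∀ f g : F, D (f + g) = D f + D g
  map_mul : ∀ f g : F, D (f * g) = f * D g + g * D f
  map_const : ∀ c : K, ∃ c' : K, D (algebraMap K F c) = algebraMap K F c'

namespace IsDer

variable {K F : Type*} [Field K] [Field F] [Algebra K F] {D : F → F}

theorem map_zero (hD : IsDer K D) : D 0 = 0 := by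
  have h := hD.map_add 0 0
  rw [add_zero] at h
  exact left_eq_add.mp h

theorem map_one (hD : IsDer K D) : D 1 = 0 := by
  have h := hD.map_mul 1 1
  rw [mul_one, one_mul] at h
  exact left_eq_add.mp h

theorem map_pow_succ (hD : IsDer K D) (a : F) (n : ℕ) :
    D (a ^ (n + 1)) = ((n + 1 : ℕ) : F) * a ^ n * D a := by
  induction n with
  | zero => simp
  | succ n ih =>
    rw [pow_succ, hD.map_mul, ih]
    push_cast
    ring

theorem map_inv (hD : IsDer K D) {a : F} (ha : D a = 0) : D a⁻¹ = 0 := by
  rcases eq_or_ne a 0 with rfl | h0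
  · rw [inv_zero]
    exact hD.map_zero
  · have h := hD.map_mul a a⁻¹
    rw [mul_inv_cancel₀ h0, hD.map_one, ha, mul_zero, add_zero] at h
    exact (mul_eq_zero.mp h.symm).resolve_left h0

theorem map_natCast (hD : IsDer K D) (n : ℕ) : D (algebraMap K F (n : K)) = 0 := by
  induction n with
  | zero =>
    rw [Nat.cast_zero, _root_.map_zero]
    exact hD.map_zero
  | succ n ih =>
    rw [Nat.cast_succ, _root_.map_add, _root_.map_one, hD.map_add, ih, hD.map_one, add_zero]

end IsDer

section General

variable {K F : Type*} [Field K] [IsAlgClosed K] [CharZero K] [Field F] [Algebra K F]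

/-- **Stability of a valuation ring under a derivation.** -/
theorem stab_of_center {D : F → F} (hD : IsDer K D) {x : F} (hx : IsGenerator K x)
    (hDx : D x = 0) (v : Place K F) (c : K) (hc : 0 < v.ord (x - algebraMap K F c))
    (h : D (algebraMap K F c) = 0 ∨ v.ord (x - algebraMap K F c) = 1)
    (f : F) (hf : f ∈ v.toValuationSubring) : D f ∈ v.toValuationSubring := by
  classical
  -- a uniformizer
  obtain ⟨ϖ, hϖ⟩ := IsDiscreteValuationRing.exists_irreducible v.toValuationSubring
  have hπ0 : (ϖ : F) ≠ 0 := fun h0 => hϖ.ne_zero (Subtype.ext h0)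
  have hπO : (ϖ : F) ∈ v.toValuationSubring := ϖ.2
  have hπord : v.ord (ϖ : F) = 1 := v.ord_coe_irreducible hϖ
  have hpowO : ∀ M : ℕ, (ϖ : F) ^ M ∈ v.toValuationSubring := fun M => pow_mem hπO M
  -- `x` lies in the valuation ring
  have hxO : x ∈ v.toValuationSubring := by
    have h1 : x - algebraMap K F c ∈ v.toValuationSubring := Places.mem_of_ord_nonneg v hc.le
    have := add_mem h1 (v.algebraMap_mem' c)
    simpa using this
  have hconst : ∀ a : K, D (algebraMap K F a) ∈ v.toValuationSubring := fun a => by
    obtain ⟨a', ha'⟩ := hD.map_const a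
    rw [ha']
    exact v.algebraMap_mem' a'
  -- `D` maps `K[x]` into the valuation ring
  have hR0 : ∀ y ∈ Algebra.adjoin K {x}, y ∈ v.toValuationSubring ∧ D y ∈ v.toValuationSubring := by
    intro y hy
    induction hy using Algebra.adjoin_induction with
    | mem y hy =>
      rw [Set.mem_singleton_iff.mp hy, hDx]
      exact ⟨hxO, zero_mem _⟩
    | algebraMap a => exact ⟨v.algebraMap_mem' a, hconst a⟩
    | add a b _ _ ha hb =>
      rw [hD.map_add]
      exact ⟨add_mem ha.1 hb.1, add_mem ha.2 hb.2⟩
    | mul a b _ _ ha hb =>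
      rw [hD.map_mul]
      exact ⟨mul_mem ha.1 hb.1, add_mem (mul_mem ha.1 hb.2) (mul_mem hb.1 ha.2)⟩
  -- the Dedekind domain
  have := Places.isDedekindDomain_intRing hx
  have := Places.isFractionRing_intRing hx
  have := Places.finite_intRing hx
  have hRO : ∀ t : integralClosure (Algebra.adjoin K {x}) F, (t : F) ∈ v.toValuationSubring :=
    Places.intRing_mem v hxO
  -- every element has bounded pole order
  have hbound : ∀ y : F, ∃ M : ℕ, (ϖ : F) ^ M * y ∈ v.toValuationSubring := by
    intro y
    rcases eq_or_ne y 0 with rfl | hy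
    · exact ⟨0, by rw [mul_zero]; exact zero_mem _⟩
    · refine ⟨(-(v.ord y)).toNat, Places.mem_of_ord_nonneg v ?_⟩
      rw [v.ord_mul (pow_ne_zero _ hπ0) hy, ← zpow_natCast, v.ord_zpow, hπord, mul_one]
      have := Int.self_le_toNat (-(v.ord y))
      omega
  have hmono : ∀ (y : F) (M M' : ℕ), M ≤ M' → (ϖ : F) ^ M * y ∈ v.toValuationSubring →
      (ϖ : F) ^ M' * y ∈ v.toValuationSubring := by
    intro y M M' hMM hy
    obtain ⟨k, rfl⟩ := Nat.exists_eq_add_of_le hMM
    rw [pow_add, mul_comm ((ϖ : F) ^ M), mul_assoc]
    exact mul_mem (hpowO k) hy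
  -- Step 1: a uniform bound on the valuation ring
  have step1 : ∃ M : ℕ, ∀ g ∈ v.toValuationSubring, (ϖ : F) ^ M * D g ∈ v.toValuationSubring := by
    obtain ⟨s, hs⟩ := (Module.Finite.fg_top :
      (⊤ : Submodule (Algebra.adjoin K {x}) (integralClosure (Algebra.adjoin K {x}) F)).FG)
    choose Mb hMb using fun b : integralClosure (Algebra.adjoin K {x}) F => hbound (D (b : F))
    set M : ℕ := s.sup Mb with hM
    have hgen : ∀ b ∈ s, (ϖ : F) ^ M * D ((b : integralClosure (Algebra.adjoin K {x}) F) : F)
        ∈ v.toValuationSubring := fun b hb =>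
      hmono _ _ _ (Finset.le_sup hb) (hMb b)
    have hR : ∀ a : integralClosure (Algebra.adjoin K {x}) F,
        (ϖ : F) ^ M * D (a : F) ∈ v.toValuationSubring := by
      intro a
      have ha : a ∈ Submodule.span (Algebra.adjoin K {x}) (s : Set _) := by
        rw [hs]
        exact Submodule.mem_top
      induction ha using Submodule.span_induction with
      | mem b hb => exact hgen b hb
      | zero =>
        show (ϖ : F) ^ M * D 0 ∈ _
        rw [hD.map_zero, mul_zero]
        exact zero_mem _
      | add a b _ _ ha hb =>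
        show (ϖ : F) ^ M * D ((a : F) + (b : F)) ∈ _
        rw [hD.map_add, mul_add]
        exact add_mem ha hb
      | smul r a _ ha =>
        show (ϖ : F) ^ M * D ((r : F) * (a : F)) ∈ _
        rw [hD.map_mul, mul_add]
        have h1 : (ϖ : F) ^ M * ((r : F) * D (a : F)) = (r : F) * ((ϖ : F) ^ M * D (a : F)) := by
          ring
        have h2 : (ϖ : F) ^ M * ((a : F) * D (r : F)) = (a : F) * ((ϖ : F) ^ M * D (r : F)) := by
          ring
        rw [h1, h2]
        exact add_mem (mul_mem (hR0 _ r.2).1 ha)
          (mul_mem (hRO a) (mul_mem (hpowO M) (hR0 _ r.2).2))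
    refine ⟨M, fun g hg => ?_⟩
    obtain ⟨w, hw⟩ := Places.exists_ofHeightOneSpectrum_eq (K := K) (F := F)
      (R := integralClosure (Algebra.adjoin K {x}) F) v (fun t => hRO t)
    have hle : w.valuation F g ≤ 1 := by
      rw [← Places.mem_ofHeightOneSpectrum_iff (K := K), hw]
      exact hg
    obtain ⟨n, d, hnd⟩ := w.exists_primeCompl_mul_eq_of_integer g hle
    have hd0 : (d : integralClosure (Algebra.adjoin K {x}) F) ≠ 0 := by
      intro h0
      exact d.2 (by rw [h0]; exact zero_mem _)
    have hdF : ((d : integralClosure (Algebra.adjoin K {x}) F) : F) ≠ 0 := fun h0 =>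
      hd0 (Subtype.ext h0)
    have hdord : v.ord ((d : integralClosure (Algebra.adjoin K {x}) F) : F) = 0 := by
      have h1 := Places.ord_nonneg_of_mem v (hRO d)
      have h2 : ¬ 0 < v.ord ((d : integralClosure (Algebra.adjoin K {x}) F) : F) := by
        intro hpos
        apply d.2
        rw [← hw] at hpos
        exact (Places.ord_ofHeightOneSpectrum_pos_iff (K := K) (F := F) w hd0).mp hpos
      omega
    have hdinv : ((d : integralClosure (Algebra.adjoin K {x}) F) : F)⁻¹ ∈ v.toValuationSubring := by
      apply Places.mem_of_ord_nonneg v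
      rw [v.ord_inv, hdord]
      simp
    have hnd' : g * ((d : integralClosure (Algebra.adjoin K {x}) F) : F) = (n : F) := hnd
    have hDn := congrArg D hnd'
    rw [hD.map_mul] at hDn
    have hDg : (ϖ : F) ^ M * D g
        = ((d : integralClosure (Algebra.adjoin K {x}) F) : F)⁻¹
          * ((ϖ : F) ^ M * D (n : F)
            - g * ((ϖ : F) ^ M * D ((d : integralClosure (Algebra.adjoin K {x}) F) : F))) := by
      rw [← hDn]
      field_simp
      ring
    rw [hDg]
    exact mul_mem hdinv (sub_mem (hR n) (mul_mem hg (hR d)))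
  -- Step 2: the bound improves by one
  have step2 : ∀ M : ℕ,
      (∀ g ∈ v.toValuationSubring, (ϖ : F) ^ (M + 1) * D g ∈ v.toValuationSubring) →
      ∀ g ∈ v.toValuationSubring, (ϖ : F) ^ M * D g ∈ v.toValuationSubring := by
    intro M hM
    -- the derivative of the uniformizer
    have hDπ : (ϖ : F) ^ M * D (ϖ : F) ∈ v.toValuationSubring := by
      set t : F := x - algebraMap K F c with ht
      have ht0 : t ≠ 0 := by
        intro h0
        rw [h0, Place.ord_zero] at hc
        exact lt_irrefl _ hc
      obtain ⟨u, hu⟩ := v.exists_unit_mul_zpow ht0 hϖ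
      obtain ⟨e, he⟩ : ∃ e : ℕ, v.ord t = (e : ℤ) + 1 := ⟨(v.ord t - 1).toNat, by
        have := Int.toNat_of_nonneg (show 0 ≤ v.ord t - 1 by omega)
        omega⟩
      rw [he, show ((e : ℤ) + 1) = ((e + 1 : ℕ) : ℤ) by push_cast; rfl, zpow_natCast] at hu
      have huO : ((u : v.toValuationSubring) : F) ∈ v.toValuationSubring := (u : v.toValuationSubring).2
      have hu0 : ((u : v.toValuationSubring) : F) ≠ 0 := by
        intro h0
        exact (u.ne_zero) (Subtype.ext h0)
      have huinv : ((u : v.toValuationSubring) : F)⁻¹ ∈ v.toValuationSubring := by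
        have : ((u⁻¹ : v.toValuationSubringˣ) : F) = ((u : v.toValuationSubring) : F)⁻¹ := by
          apply eq_inv_of_mul_eq_one_left
          rw [← MulMemClass.coe_mul, Units.inv_mul]
          rfl
        rw [← this]
        exact ((u⁻¹ : v.toValuationSubringˣ) : v.toValuationSubring).2
      -- `D t = - D c`
      obtain ⟨c', hc'⟩ := hD.map_const c
      have hDt : D t = -algebraMap K F c' := by
        have h1 : x = t + algebraMap K F c := by rw [ht]; ring
        have h2 := congrArg D h1
        rw [hDx, hD.map_add, hc'] at h2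
        exact eq_neg_of_add_eq_zero_left h2.symm
      have hDt2 := congrArg D hu
      rw [hDt, hD.map_mul, hD.map_pow_succ] at hDt2
      have hDu := hM _ huO
      have heF : ((e + 1 : ℕ) : F) = algebraMap K F ((e + 1 : ℕ) : K) := by
        rw [map_natCast]
      have he0 : ((e + 1 : ℕ) : F) ≠ 0 := by
        rw [heF]
        exact (map_ne_zero _).mpr (Nat.cast_ne_zero.mpr (Nat.succ_ne_zero e))
      have heinv : ((e + 1 : ℕ) : F)⁻¹ ∈ v.toValuationSubring := by
        rw [heF, ← map_inv₀]
        exact v.algebraMap_mem' _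
      rcases h with h | h
      · -- `D c = 0`
        rw [hc'] at h
        rw [h, neg_zero] at hDt2
        have key : (ϖ : F) ^ M * D (ϖ : F)
            = -(((e + 1 : ℕ) : F)⁻¹ * ((u : v.toValuationSubring) : F)⁻¹
              * ((ϖ : F) ^ (M + 1) * D ((u : v.toValuationSubring) : F))) := by
          have hπe : (ϖ : F) ^ e ≠ 0 := pow_ne_zero _ hπ0
          have h3 : ((u : v.toValuationSubring) : F) * (((e + 1 : ℕ) : F) * D (ϖ : F))
              = -((ϖ : F) * D ((u : v.toValuationSubring) : F)) := by
            apply mul_left_cancel₀ hπe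
            linear_combination -hDt2
          field_simp
          linear_combination (ϖ : F) ^ M * h3
        rw [key]
        exact neg_mem (mul_mem (mul_mem heinv huinv) hDu)
      · -- unramified
        have he1 : e = 0 := by
          rw [he] at h
          omega
        subst he1
        simp only [zero_add, pow_zero, Nat.cast_one, one_mul, pow_one] at hDt2
        have key : (ϖ : F) ^ M * D (ϖ : F)
            = -(((u : v.toValuationSubring) : F)⁻¹
              * ((ϖ : F) ^ M * algebraMap K F c'
                + (ϖ : F) ^ (M + 1) * D ((u : v.toValuationSubring) : F))) := by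
          field_simp
          linear_combination -(ϖ : F) ^ M * hDt2
        rw [key]
        exact neg_mem (mul_mem huinv (add_mem (mul_mem (hpowO M) (v.algebraMap_mem' c')) hDu))
    intro g hg
    obtain ⟨a, ha⟩ := Places.exists_sub_mem_maximalIdeal hx v ⟨g, hg⟩
    rw [hϖ.maximalIdeal_eq, Ideal.mem_span_singleton'] at ha
    obtain ⟨g', hg'⟩ := ha
    have hgeq : g = algebraMap K F a + (g' : F) * (ϖ : F) := by
      have := congrArg Subtype.val hg'
      simp only [MulMemClass.coe_mul, AddSubgroupClass.coe_sub] at this
      have h2 : ((algebraMap K v.toValuationSubring a : v.toValuationSubring) : F)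
          = algebraMap K F a := rfl
      rw [h2] at this
      linear_combination -this
    obtain ⟨a', ha'⟩ := hD.map_const a
    have hDg : (ϖ : F) ^ M * D g = (ϖ : F) ^ M * algebraMap K F a'
        + (g' : F) * ((ϖ : F) ^ M * D (ϖ : F)) + (ϖ : F) ^ (M + 1) * D (g' : F) := by
      rw [hgeq, hD.map_add, hD.map_mul, ha']
      ring
    rw [hDg]
    exact add_mem (add_mem (mul_mem (hpowO M) (v.algebraMap_mem' a')) (mul_mem g'.2 hDπ))
      (hM _ g'.2)
  obtain ⟨M, hM⟩ := step1
  have hP0 : ∀ g ∈ v.toValuationSubring, (ϖ : F) ^ 0 * D g ∈ v.toValuationSubring := by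
    induction M with
    | zero => exact hM
    | succ n ih => exact ih (step2 n hM)
  have := hP0 f hf
  rwa [pow_zero, one_mul] at this

/-- the same at every place, given that the places over the points moved by `D` are
unramified. -/
theorem stab_of_generator {D : F → F} (hD : IsDer K D) {x : F} (hx : IsGenerator K x)
    (hDx : D x = 0)
    (hram : ∀ (v : Place K F) (c : K), v ∈ PlacesAt K x c → D (algebraMap K F c) ≠ 0 →
      v.ord (x - algebraMap K F c) = 1)
    (v : Place K F) (f : F) (hf : f ∈ v.toValuationSubring) : D f ∈ v.toValuationSubring := by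
  rcases Places.ord_neg_or_exists_center hx v with hneg | ⟨c, hc⟩
  · have hx' : IsGenerator K x⁻¹ :=
      Places.isGenerator_of_transcendental hx (Places.transcendental_inv hx.1)
    have hDx' : D x⁻¹ = 0 := hD.map_inv hDx
    have hc0 : 0 < v.ord (x⁻¹ - algebraMap K F 0) := by
      rw [_root_.map_zero, sub_zero, v.ord_inv]
      omega
    refine stab_of_center hD hx' hDx' v 0 hc0 (Or.inl ?_) f hf
    rw [_root_.map_zero]
    exact hD.map_zero
  · by_cases h0 : D (algebraMap K F c) = 0
    · exact stab_of_center hD hx hDx v c hc (Or.inl h0) f hf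
    · exact stab_of_center hD hx hDx v c hc (Or.inr (hram v c hc h0)) f hf

end General

section Modular

variable (N : ℕ) [NeZero N]

/-- **(B6b)** on the function field of `X₀(N)` over `ℂ`, an additive Leibniz map preserving the
constants and killing `j` preserves every valuation ring. -/
theorem mem_of_isDer {D : Tower.FuncField ℂ N → Tower.FuncField ℂ N} (hD : IsDer ℂ D)
    (hj : D (Tower.jGen ℂ N) = 0) (v : Place ℂ (Tower.FuncField ℂ N))
    (f : Tower.FuncField ℂ N) (hf : f ∈ v.toValuationSubring) : D f ∈ v.toValuationSubring := by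
  classical
  have hx := (modular_counts ℂ N).1
  refine stab_of_generator hD hx hj (fun w c hw hc => ?_) v f hf
  have hc0 : c ≠ 0 := by
    rintro rfl
    apply hc
    rw [_root_.map_zero]
    exact hD.map_zero
  have hc1 : c ≠ 1728 := by
    rintro rfl
    apply hc
    have := hD.map_natCast 1728
    rwa [Nat.cast_ofNat] at this
  exact ord_eq_one_of_card hx c
    (natCard_placesAt_generic ℂ N c (by simp [hc0, hc1])) w hw

/-- the order form of `mem_of_isDer`. -/
theorem stab_of_isDer {D : Tower.FuncField ℂ N → Tower.FuncField ℂ N} (hD : IsDer ℂ D)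
    (hj : D (Tower.jGen ℂ N) = 0) (v : Place ℂ (Tower.FuncField ℂ N))
    (f : Tower.FuncField ℂ N) (hf : 0 ≤ v.ord f) : 0 ≤ v.ord (D f) :=
  Places.ord_nonneg_of_mem v (mem_of_isDer N hD hj v f (Places.mem_of_ord_nonneg v hf))

end Modular

end Fermat.Agent.S29.DescStab
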