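import Mathlib
import Fermat.Agent.RR_Main
import Fermat.Agent.RR_Riemann

/-!
# S29, descent (d1): the abstract reduced-representative argument

`exists_log_const`: `F/L` a function field over an algebraically closed field of characteristic
zero, `h ≠ 0` a function all of whose orders are divisible by `p` (`div h = p D`), `𝒟` a set of
Leibniz maps `F → F` preserving every valuation ring (`stab`) and killing a function `t₀` with a
pole at the place `v∞`.  Then there is `w₁ ≠ 0` such that `d (h w₁^p) = c_d · h w₁^p` with a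
constant `c_d` for every `d ∈ 𝒟`.

Proof: `m` minimal with `L(D + m v∞) ≠ 0` (Riemann's inequality, degree), `w₁` a nonzero element;
`f' = h w₁^p` has divisor `p (E' - m v∞)` with `E' ≥ 0`; `g = d f'/f'` is regular at `v∞`
(Lemma A: `d` kills a function with a pole there) and has at most simple poles, on `supp E'`
(Lemma B), so `g w₁ ∈ L(D + m v∞)`, and `g w₁ - c w₁ ∈ L(D + (m-1) v∞) = 0` for a constant `c`.
-/

set_option autoImplicit false

noncomputable section

open AlgebraicCurve Fermat.Agent.S24 Fermat.Agent.RR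

namespace Fermat.Agent.S29.DescentAbs

variable {L F : Type*} [Field L] [Field F] [Algebra L F]

theorem ord_pow_nat (v : Place L F) (f : F) (n : ℕ) : v.ord (f ^ n) = n * v.ord f := by
  rw [← zpow_natCast, v.ord_zpow]

/-- elements of prescribed order at a place. -/
theorem exists_ord_eq (v : Place L F) (n : ℤ) : ∃ u : F, u ≠ 0 ∧ v.ord u = n := by
  obtain ⟨π, hπ⟩ := IsDiscreteValuationRing.exists_irreducible v.toValuationSubring
  have hπ0 : (π : F) ≠ 0 := by
    simpa [ne_eq, ZeroMemClass.coe_eq_zero] using hπ.ne_zero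
  refine ⟨(π : F) ^ n, zpow_ne_zero n hπ0, ?_⟩
  rw [v.ord_zpow, v.ord_coe_irreducible hπ, mul_one]

/-- ultrametric inequality with zero cases -/
theorem ord_add_ge' (v : Place L F) {a b : F} {n : ℤ} (ha : a = 0 ∨ n ≤ v.ord a)
    (hb : b = 0 ∨ n ≤ v.ord b) : a + b = 0 ∨ n ≤ v.ord (a + b) := by
  by_cases h0 : a + b = 0
  · exact Or.inl h0
  right
  rcases eq_or_ne a 0 with rfl | ha0
  · rw [zero_add] at h0 ⊢
    exact hb.resolve_left h0
  rcases eq_or_ne b 0 with rfl | hb0
  · rw [add_zero]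
    exact ha.resolve_left ha0
  have h1 := ord_add_ge v ha0 hb0 h0
  have h2 := ha.resolve_left ha0
  have h3 := hb.resolve_left hb0
  rcases min_le_iff.mp h1 with h | h <;> omega

theorem ord_mul_ge' (v : Place L F) {a b : F} {m n : ℤ} (ha : a ≠ 0) (ham : m ≤ v.ord a)
    (hb : b = 0 ∨ n ≤ v.ord b) : a * b = 0 ∨ m + n ≤ v.ord (a * b) := by
  rcases eq_or_ne b 0 with rfl | hb0
  · left; rw [mul_zero]
  right
  rw [v.ord_mul ha hb0]
  have := hb.resolve_left hb0
  omega

section leibniz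

variable (d : F → F) (hmul : ∀ a b : F, d (a * b) = a * d b + b * d a)
include hmul

theorem d_zero : d 0 = 0 := by
  have := hmul 0 0
  simpa using this

theorem d_one : d 1 = 0 := by
  have := hmul 1 1
  rw [mul_one, one_mul] at this
  have h2 : d 1 + d 1 = d 1 + 0 := by rw [add_zero]; exact this.symm
  exact add_left_cancel h2

theorem d_pow (f : F) (n : ℕ) : d (f ^ (n + 1)) = ((n + 1 : ℕ) : F) * f ^ n * d f := by
  induction n with
  | zero => simp
  | succ n ih =>
    rw [pow_succ, hmul, ih]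
    push_cast
    ring

theorem d_mul_of_kill {a b : F} (hb : d b = 0) : d (a * b) = b * d a := by
  rw [hmul, hb, mul_zero, zero_add]

theorem d_pow_of_kill {b : F} (hb : d b = 0) (n : ℕ) : d (b ^ n) = 0 := by
  induction n with
  | zero => rw [pow_zero]; exact d_one d hmul
  | succ n ih => rw [pow_succ, hmul, hb, ih, mul_zero, mul_zero, add_zero]

theorem d_inv_of_kill {b : F} (hb : d b = 0) : d b⁻¹ = 0 := by
  rcases eq_or_ne b 0 with rfl | hb0
  · rw [inv_zero]; exact d_zero d hmul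
  have h1 := hmul b b⁻¹
  rw [mul_inv_cancel₀ hb0, d_one d hmul, hb, mul_zero, add_zero] at h1
  rcases mul_eq_zero.mp h1.symm with h | h
  · exact absurd h hb0
  · exact h

theorem d_zpow_of_kill {b : F} (hb : d b = 0) (k : ℤ) : d (b ^ k) = 0 := by
  cases k with
  | ofNat n => rw [Int.ofNat_eq_natCast, zpow_natCast]; exact d_pow_of_kill d hmul hb n
  | negSucc n =>
    rw [zpow_negSucc]
    exact d_inv_of_kill d hmul (d_pow_of_kill d hmul hb (n + 1))

/-- **Lemma A**: at a place where a `d`-constant has a pole, `d` does not lower the order. -/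
theorem ord_le_ord_d [CharZero L] (v : Place L F)
    (hstab : ∀ f : F, 0 ≤ v.ord f → d f = 0 ∨ 0 ≤ v.ord (d f))
    {t₀ : F} (hk : d t₀ = 0) (ht : v.ord t₀ < 0) {f : F} (hf : f ≠ 0) :
    d f = 0 ∨ v.ord f ≤ v.ord (d f) := by
  by_cases hdf : d f = 0
  · exact Or.inl hdf
  right
  have ht0 : t₀ ≠ 0 := by
    rintro rfl
    simp at ht
  obtain ⟨r, hr⟩ : ∃ r : ℕ, ((r + 1 : ℕ) : ℤ) = -v.ord t₀ := by
    refine ⟨(-v.ord t₀).toNat - 1, ?_⟩
    omega
  set k := v.ord f with hkdef
  have hU0 : f ^ (r + 1) * t₀ ^ k ≠ 0 := mul_ne_zero (pow_ne_zero _ hf) (zpow_ne_zero _ ht0)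
  have hordU : v.ord (f ^ (r + 1) * t₀ ^ k) = 0 := by
    rw [v.ord_mul (pow_ne_zero _ hf) (zpow_ne_zero _ ht0), ord_pow_nat, v.ord_zpow, ← hkdef]
    have : v.ord t₀ = -((r + 1 : ℕ) : ℤ) := by omega
    rw [this]
    ring
  have hdU : d (f ^ (r + 1) * t₀ ^ k) = t₀ ^ k * (((r + 1 : ℕ) : F) * f ^ r * d f) := by
    rw [d_mul_of_kill d hmul (d_zpow_of_kill d hmul hk k), d_pow d hmul]
  have hr0 : ((r + 1 : ℕ) : F) ≠ 0 := by
    have hinj : Function.Injective (algebraMap L F) := (algebraMap L F).injective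
    have : CharZero F := charZero_of_injective_algebraMap hinj
    exact Nat.cast_ne_zero.mpr (Nat.succ_ne_zero r)
  have hordr : v.ord ((r + 1 : ℕ) : F) = 0 := by
    have := ord_algebraMap v ((r + 1 : ℕ) : L)
    rwa [map_natCast] at this
  have hne : t₀ ^ k * (((r + 1 : ℕ) : F) * f ^ r * d f) ≠ 0 :=
    mul_ne_zero (zpow_ne_zero _ ht0) (mul_ne_zero (mul_ne_zero hr0 (pow_ne_zero _ hf)) hdf)
  rcases hstab _ hordU.ge with h | h
  · rw [hdU] at h
    exact absurd h hne
  · rw [hdU, v.ord_mul (zpow_ne_zero _ ht0) (mul_ne_zero (mul_ne_zero hr0 (pow_ne_zero _ hf)) hdf),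
      v.ord_mul (mul_ne_zero hr0 (pow_ne_zero _ hf)) hdf, v.ord_mul hr0 (pow_ne_zero _ hf),
      hordr, ord_pow_nat, v.ord_zpow, ← hkdef] at h
    have h2 : v.ord t₀ = -((r + 1 : ℕ) : ℤ) := by omega
    rw [h2] at h
    push_cast at h
    nlinarith

/-- **Lemma B**: `d` lowers nonnegative orders by at most one. -/
theorem sub_one_le_ord_d (v : Place L F)
    (hstab : ∀ f : F, 0 ≤ v.ord f → d f = 0 ∨ 0 ≤ v.ord (d f)) :
    ∀ (k : ℕ) (f : F), f ≠ 0 → v.ord f = k → d f = 0 ∨ (k : ℤ) - 1 ≤ v.ord (d f) := by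
  intro k
  induction k with
  | zero =>
    intro f _ hk
    rcases hstab f (by rw [hk]; simp) with h | h
    · exact Or.inl h
    · right; push_cast; omega
  | succ k ih =>
    intro f hf hk
    obtain ⟨t, ht0, ht⟩ := exists_ord_eq v 1
    have hf1 : f * t⁻¹ ≠ 0 := mul_ne_zero hf (inv_ne_zero ht0)
    have hord1 : v.ord (f * t⁻¹) = k := by
      rw [v.ord_mul hf (inv_ne_zero ht0), v.ord_inv, hk, ht]
      push_cast; ring
    have hfe : f = t * (f * t⁻¹) := by field_simp
    have hd : d f = t * d (f * t⁻¹) + (f * t⁻¹) * d t := by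
      conv_lhs => rw [hfe]
      rw [hmul]
    rw [hd]
    have hA : t * d (f * t⁻¹) = 0 ∨ (1 : ℤ) + ((k : ℤ) - 1) ≤ v.ord (t * d (f * t⁻¹)) :=
      ord_mul_ge' v ht0 ht.ge (ih _ hf1 hord1)
    have hB : (f * t⁻¹) * d t = 0 ∨ (k : ℤ) + 0 ≤ v.ord ((f * t⁻¹) * d t) :=
      ord_mul_ge' v hf1 hord1.ge (hstab t (by rw [ht]; norm_num))
    have := ord_add_ge' v (n := (k : ℤ))
      (hA.imp id (fun h => by omega)) (hB.imp id (fun h => by omega))
    rcases this with h | h
    · exact Or.inl h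
    · right; push_cast; omega

end leibniz

section main

variable [IsAlgClosed L] [CharZero L]

/-- **Abstract reduced-representative argument.**  `F/L` a function field, `h ≠ 0` with all orders
divisible by `p`, `𝒟` a set of Leibniz maps `F → F` preserving all valuation rings and killing a
function `t₀` with a pole at `v∞`.  Then there is `w₁ ≠ 0` such that every `d ∈ 𝒟` has
`h * w₁ ^ p` as an eigenvector with a constant eigenvalue. -/
theorem exists_log_const {x : F} (hx : IsGenerator L x) (p : ℕ) (hp : 0 < p) (h : F) (hh : h ≠ 0)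
    (hdiv : ∀ v : Place L F, (p : ℤ) ∣ v.ord h) (vinf : Place L F) (𝒟 : Set (F → F))
    (hmul : ∀ d ∈ 𝒟, ∀ a b : F, d (a * b) = a * d b + b * d a)
    (hstab : ∀ d ∈ 𝒟, ∀ (v : Place L F) (f : F), 0 ≤ v.ord f → d f = 0 ∨ 0 ≤ v.ord (d f))
    (t₀ : F) (ht₀ : vinf.ord t₀ < 0) (hkill : ∀ d ∈ 𝒟, d t₀ = 0) :
    ∃ w₁ : F, w₁ ≠ 0 ∧ ∀ d ∈ 𝒟, ∃ c : L, d (h * w₁ ^ p) = algebraMap L F c * (h * w₁ ^ p) := by
  classical
  have hpr := Places.hasPrincipalDivisors hx
  obtain ⟨Dh, hDh, hdegh⟩ := hpr.exists_divisor h hh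
  have hp0 : (p : ℤ) ≠ 0 := by exact_mod_cast hp.ne'
  -- `D = Dh / p`
  let D : Divisor L F := Finsupp.mapRange (fun n : ℤ => n / (p : ℤ)) (by simp) Dh
  have hD : ∀ v : Place L F, (p : ℤ) * D v = v.ord h := by
    intro v
    show (p : ℤ) * (Dh v / (p : ℤ)) = _
    rw [hDh v]
    exact Int.mul_ediv_cancel' (hdiv v)
  have hdegD : Divisor.degree D = 0 := by
    have h1 : (p : ℤ) • D = Dh := by
      ext v
      rw [Finsupp.smul_apply, smul_eq_mul, hD v, hDh v]
    have h2 : (p : ℤ) * Divisor.degree D = 0 := by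
      rw [← smul_eq_mul, ← map_zsmul, h1, hdegh]
    rcases mul_eq_zero.mp h2 with h | h
    · exact absurd h hp0
    · exact h
  let A : ℤ → Divisor L F := fun m => D + Finsupp.single vinf m
  have hdegA : ∀ m : ℤ, Divisor.degree (A m) = m := by
    intro m
    show Divisor.degree (D + Finsupp.single vinf m) = m
    rw [map_add, hdegD, Divisor.degree_single, Places.deg_eq_one hx]
    simp
  have hAv : ∀ m : ℤ, A m vinf = D vinf + m := by
    intro m
    show (D + Finsupp.single vinf m) vinf = _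
    rw [Finsupp.add_apply, Finsupp.single_eq_same]
  have hAo : ∀ (m : ℤ) (v : Place L F), v ≠ vinf → A m v = D v := by
    intro m v hv
    show (D + Finsupp.single vinf m) v = _
    rw [Finsupp.add_apply, Finsupp.single_apply, if_neg (Ne.symm hv), add_zero]
  -- the minimal `m`
  obtain ⟨γ, hγ⟩ := exists_riemann_bound hx
  have hex : ∃ m : ℤ, LSpace L F (A m) ≠ ⊥ := by
    refine ⟨γ + 1, fun hbot => ?_⟩
    have := hγ (A (γ + 1))
    rw [hdegA, hbot, finrank_bot] at this
    simp at this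
  have hbdd : ∃ b : ℤ, ∀ m : ℤ, LSpace L F (A m) ≠ ⊥ → b ≤ m := ⟨0, fun m hm => by
    by_contra hneg
    exact hm (LSpace_eq_bot_of_degree_neg hx (A m) (by rw [hdegA]; omega))⟩
  obtain ⟨m₀, hm₀, hleast⟩ := Int.exists_least_of_bdd hbdd hex
  have hbot : LSpace L F (A (m₀ - 1)) = ⊥ := by
    by_contra hne
    have := hleast _ hne
    omega
  obtain ⟨w₁, hw₁mem, hw₁0⟩ := Submodule.exists_mem_ne_zero_of_ne_bot hm₀
  have hw₁ : ∀ v : Place L F, 0 ≤ v.ord w₁ + A m₀ v := hw₁mem.resolve_left hw₁0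
  have hAsucc : A (m₀ - 1) + Finsupp.single vinf 1 = A m₀ := by
    show D + Finsupp.single vinf (m₀ - 1) + Finsupp.single vinf 1 = D + Finsupp.single vinf m₀
    rw [add_assoc, ← Finsupp.single_add]
    congr 2
    ring
  refine ⟨w₁, hw₁0, fun d hd => ?_⟩
  have hf'0 : h * w₁ ^ p ≠ 0 := mul_ne_zero hh (pow_ne_zero _ hw₁0)
  have hordf' : ∀ v : Place L F, v.ord (h * w₁ ^ p) = (p : ℤ) * (D v + v.ord w₁) := by
    intro v
    rw [v.ord_mul hh (pow_ne_zero _ hw₁0), ord_pow_nat, mul_add, hD v]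
  by_cases hdf : d (h * w₁ ^ p) = 0
  · exact ⟨0, by rw [hdf, map_zero, zero_mul]⟩
  have hg0 : d (h * w₁ ^ p) * (h * w₁ ^ p)⁻¹ ≠ 0 := mul_ne_zero hdf (inv_ne_zero hf'0)
  have hgw : d (h * w₁ ^ p) * (h * w₁ ^ p)⁻¹ * w₁ ∈
      LSpace L F (A (m₀ - 1) + Finsupp.single vinf 1) := by
    rw [hAsucc]
    right
    intro v
    rw [v.ord_mul hg0 hw₁0, v.ord_mul hdf (inv_ne_zero hf'0), v.ord_inv]
    have h2 := hw₁ v
    have h3 := hordf' v
    by_cases hv : v = vinf
    · have h1 := (ord_le_ord_d d (hmul d hd) v (hstab d hd v) (hkill d hd) (hv ▸ ht₀)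
        hf'0).resolve_left hdf
      omega
    · rw [hAo m₀ v hv] at h2 ⊢
      have he : 0 ≤ D v + v.ord w₁ := by omega
      rcases lt_or_eq_of_le he with hpos | hzero
      · have hnn : 0 ≤ v.ord (h * w₁ ^ p) := by
          rw [h3]
          positivity
        have hk : v.ord (h * w₁ ^ p) = ((v.ord (h * w₁ ^ p)).toNat : ℤ) :=
          (Int.toNat_of_nonneg hnn).symm
        have h4 := (sub_one_le_ord_d d (hmul d hd) v (hstab d hd v) _ _ hf'0 hk).resolve_left hdf
        rw [← hk] at h4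
        have h5 : D v + v.ord w₁ ≤ (p : ℤ) * (D v + v.ord w₁) := by
          have hp1 : (1 : ℤ) ≤ p := by exact_mod_cast hp
          nlinarith
        omega
      · have h5 : v.ord (h * w₁ ^ p) = 0 := by rw [h3, ← hzero, mul_zero]
        have h4 := (hstab d hd v _ h5.ge).resolve_left hdf
        omega
  have hw₁mem' : w₁ ∈ LSpace L F (A (m₀ - 1) + Finsupp.single vinf 1) := by
    rw [hAsucc]; exact hw₁mem
  have hw₁not : w₁ ∉ LSpace L F (A (m₀ - 1)) := by
    rw [hbot]
    exact fun h => hw₁0 ((Submodule.mem_bot L).mp h)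
  obtain ⟨c, hc⟩ := LCore.exists_sub_smul_mem (resConst_of_isGenerator hx) (A (m₀ - 1)) vinf
    hgw hw₁mem' hw₁not
  rw [hbot, Submodule.mem_bot, sub_eq_zero, Algebra.smul_def] at hc
  have hc' : d (h * w₁ ^ p) * (h * w₁ ^ p)⁻¹ = algebraMap L F c := mul_right_cancel₀ hw₁0 hc
  refine ⟨c, ?_⟩
  rw [← hc', mul_assoc, inv_mul_cancel₀ hf'0, mul_one]

end main

end Fermat.Agent.S29.DescentAbs
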