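import Mathlib
import Fermat.Agent.S29_DescDer
import Fermat.Agent.S29_DescStab
import Fermat.Agent.S29_DescentAbs

/-!
# S29, descent (d2): Kummer functions over `ℂ` descend to `ℚ̄`

`descent_of`: a function `h` on `X₀(N)` over `ℂ` all of whose orders are divisible by `p` is, up to
a constant and a `p`-th power, the base change of a function over `ℚ̄` with the same property —
given that every place of the function field over `ℚ̄` extends to a place over `ℂ` with the same
orders (`PlaceAbove`, package (c)).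

Proof: the abstract reduced-representative argument `DescentAbs.exists_log_const` applied to the
derivations `dhat δ` (`δ` a `ℚ̄`-derivation of `ℂ`; they preserve all valuation rings by
`DescStab.stab_of_isDer` and kill `j`) gives `w₁ ≠ 0` with `dhat δ (h w₁^p) = c_δ · h w₁^p`;
normalising one `q`-coefficient to `1` forces `dhat δ = 0` on it for all `δ`
(`DescDer.dhat_eq_zero_of_eq_mul`), hence it is defined over `ℚ̄` (`DescDer.exists_bcF_eq`).
-/

set_option autoImplicit false

noncomputable section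

open ModularCurve AlgebraicCurve

namespace Fermat.Agent.S29.Descent

open Fermat.Agent.S29 Fermat.Agent.S29.DescDer Fermat.Agent.S24

local notation "Qbar" => AlgebraicClosure ℚ

attribute [local instance] algQC

/-- the statement of package (c): every place over `ℚ̄` extends to a place over `ℂ`. -/
def PlaceAbove (N : ℕ) [NeZero N] : Prop :=
  ∀ v : Place Qbar ↥(modularFunctionFieldBar N),
    ∃ w : Place ℂ (FC N), ∀ g : ↥(modularFunctionFieldBar N), w.ord (bcF N g) = v.ord g

variable (N : ℕ) [NeZero N]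

theorem dhat_jGen (δ : Derivation Qbar ℂ ℂ) : dhat δ (Tower.jGen ℂ N) = 0 :=
  Subtype.ext (dL_coeffEmb δ jq)

theorem isDer_dhat (δ : Derivation Qbar ℂ ℂ) :
    DescStab.IsDer ℂ (fun f : FC N => dhat δ f) where
  map_add f g := map_add _ f g
  map_mul f g := by
    show dhat δ (f * g) = f * dhat δ g + g * dhat δ f
    rw [dhat_mul]
    ring
  map_const c := ⟨δ c, dhat_algebraMap δ c⟩

/-- a generator of a function field has a pole. -/
theorem exists_pole_of_isGenerator {K F : Type*} [Field K] [IsAlgClosed K] [CharZero K] [Field F]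
    [Algebra K F] {x : F} (hx : IsGenerator K x) : ∃ v : Place K F, v.ord x < 0 := by
  have h := Places.sum_ord_poles hx
  have : FiniteDimensional (IntermediateField.adjoin K {x}) F := hx.2
  have hpos : 0 < Module.finrank (IntermediateField.adjoin K {x}) F := Module.finrank_pos
  by_contra hne
  rw [not_exists] at hne
  have : (Places.finite_poles hx).toFinset = ∅ := by
    ext v
    simp only [Set.Finite.mem_toFinset, Finset.notMem_empty, iff_false]
    exact hne v
  rw [this, Finset.sum_empty] at h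
  omega

/-- **Descent**, given the extension of places (c). -/
theorem descent_of (p : ℕ) [Fact p.Prime] (hc : PlaceAbove N) (h : FC N)
    (hh : IsPDiv ℂ (FC N) p h) :
    ∃ h₀ : ↥(modularFunctionFieldBar N),
      IsPDiv Qbar ↥(modularFunctionFieldBar N) p h₀ ∧ KumRel ℂ (FC N) p h (bcF N h₀) := by
  have hp : p.Prime := Fact.out
  have hx : IsGenerator ℂ (Tower.jGen ℂ N) := (modular_counts ℂ N).1
  obtain ⟨vinf, hvinf⟩ := exists_pole_of_isGenerator hx
  obtain ⟨w₁, hw₁0, hw⟩ := DescentAbs.exists_log_const hx p hp.pos h hh.1 hh.2 vinf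
    (Set.range fun δ : Derivation Qbar ℂ ℂ => (fun f : FC N => dhat δ f))
    (by
      rintro d ⟨δ, rfl⟩ a b
      exact (isDer_dhat N δ).map_mul a b)
    (by
      rintro d ⟨δ, rfl⟩ v f hf
      exact Or.inr (DescStab.stab_of_isDer N (isDer_dhat N δ) (dhat_jGen N δ) v f hf))
    (Tower.jGen ℂ N) hvinf
    (by
      rintro d ⟨δ, rfl⟩
      exact dhat_jGen N δ)
  have hf'0 : h * w₁ ^ p ≠ 0 := mul_ne_zero hh.1 (pow_ne_zero _ hw₁0)
  obtain ⟨k, hk⟩ := exists_coeff_ne_zero (h * w₁ ^ p) hf'0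
  set a : ℂ := ((h * w₁ ^ p : FC N) : LaurentSeries ℂ).coeff k with ha
  have hk1 : ((algebraMap ℂ (FC N) a⁻¹ * (h * w₁ ^ p) : FC N) : LaurentSeries ℂ).coeff k = 1 := by
    rw [coe_algebraMap_mul, ← ha, inv_mul_cancel₀ hk]
  have hA : algebraMap ℂ (FC N) a * algebraMap ℂ (FC N) a⁻¹ = 1 := by
    rw [← map_mul, mul_inv_cancel₀ hk, map_one]
  have hkill : ∀ δ : Derivation Qbar ℂ ℂ,
      dhat δ (algebraMap ℂ (FC N) a⁻¹ * (h * w₁ ^ p)) = 0 := by
    intro δ
    obtain ⟨c, hc'⟩ := hw (fun f : FC N => dhat δ f) ⟨δ, rfl⟩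
    have hc2 : dhat δ (h * w₁ ^ p) = algebraMap ℂ (FC N) c * (h * w₁ ^ p) := hc'
    refine dhat_eq_zero_of_eq_mul δ _ k hk1 ((δ a⁻¹ + a⁻¹ * c) * a) ?_
    rw [dhat_mul, dhat_algebraMap, hc2, map_mul, map_add, map_mul]
    linear_combination (-(algebraMap ℂ (FC N) (δ a⁻¹) + algebraMap ℂ (FC N) a⁻¹ *
      algebraMap ℂ (FC N) c) * (h * w₁ ^ p)) * hA
  obtain ⟨h₀, hh₀⟩ := exists_bcF_eq _ hkill
  have hh₀0 : h₀ ≠ 0 := by
    rintro rfl
    rw [map_zero] at hh₀
    exact mul_ne_zero ((map_ne_zero _).mpr (inv_ne_zero hk)) hf'0 hh₀.symm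
  refine ⟨h₀, ⟨hh₀0, fun v => ?_⟩, a, w₁⁻¹, hk, inv_ne_zero hw₁0, ?_⟩
  · obtain ⟨w, hwv⟩ := hc v
    rw [← hwv h₀, hh₀, w.ord_mul ((map_ne_zero _).mpr (inv_ne_zero hk)) hf'0,
      RR.ord_algebraMap, zero_add, w.ord_mul hh.1 (pow_ne_zero _ hw₁0),
      DescentAbs.ord_pow_nat]
    exact dvd_add (hh.2 w) (dvd_mul_right _ _)
  · rw [hh₀, inv_pow]
    have e : (w₁ ^ p)⁻¹ * w₁ ^ p = 1 := inv_mul_cancel₀ (pow_ne_zero _ hw₁0)
    calc h = (algebraMap ℂ (FC N) a * algebraMap ℂ (FC N) a⁻¹) * h * ((w₁ ^ p)⁻¹ * w₁ ^ p) := by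
          rw [hA, e]; ring
      _ = _ := by ring

end Fermat.Agent.S29.Descent
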