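import Mathlib
import Fermat.Agent.S29_Descent
import Fermat.Agent.S29_DescPlace

/-!
# S29, package B6: `descent`, unconditionally

`descent`: a function on `X₀(N)` over `ℂ` all of whose orders are divisible by `p` is a constant
times a `p`-th power times the base change of a function over `ℚ̄` with the same property.
(`S29_Descent.descent_of` fed with `S29_DescPlace.exists_place_above`.)
-/

set_option autoImplicit false

noncomputable section

open ModularCurve AlgebraicCurve

namespace Fermat.Agent.S29.Descent

open Fermat.Agent.S29

local notation "Qbar" => AlgebraicClosure ℚ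

attribute [local instance] algQC

theorem placeAbove (N : ℕ) [NeZero N] : PlaceAbove N :=
  fun v => DescPlace.exists_place_above N v

/-- **B6 `descent`** (finding #130, verbatim). -/
theorem descent (N p : ℕ) [NeZero N] [Fact p.Prime] (h : FC N) (hh : IsPDiv ℂ (FC N) p h) :
    ∃ h₀ : ↥(modularFunctionFieldBar N),
      IsPDiv Qbar ↥(modularFunctionFieldBar N) p h₀ ∧ KumRel ℂ (FC N) p h (bcF N h₀) :=
  descent_of N p (placeAbove N) h hh

end Fermat.Agent.S29.Descent
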