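import Mathlib
import Fermat.Agent.S29_BDefs

/-!
# S29, bridge (B1): twisted Eisenstein series of weight 4

For an admissible character `χ : Γ₀(N) → ZMod p` (killing `±1`, parabolic and elliptic elements)
the series `E(τ) = ∑ ψ(c, d) (c τ + d)⁻⁴`, with `ψ(c, d) = zch (-χ γ)` when `(c, d)` is the
bottom row of `γ ∈ Γ₀(N)` and `0` otherwise, is a nonzero holomorphic weight-4 form on `Γ₀(N)`
with character `zch ∘ χ`, bounded at every cusp.
-/

set_option autoImplicit false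

noncomputable section

open UpperHalfPlane EisensteinSeries ModularForm CongruenceSubgroup Matrix
open scoped MatrixGroups Manifold

namespace Fermat.Agent.S29.Eis

section Part1


theorem zch_zero (p : ℕ) : zch p 0 = 1 := by
  simp [zch]

theorem zch_add (p : ℕ) [NeZero p] (x y : ZMod p) : zch p (x + y) = zch p x * zch p y := by
  have hp : (p : ℂ) ≠ 0 := Nat.cast_ne_zero.mpr (NeZero.ne p)
  unfold zch
  rw [← Complex.exp_add]
  have h := ZMod.val_add x y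
  have h2 : x.val + y.val = (x + y).val + p * ((x.val + y.val) / p) := by
    rw [h]
    exact (Nat.mod_add_div _ _).symm
  have h2' : ((x.val : ℂ) + (y.val : ℂ)) = ((x + y).val : ℂ) + p * (((x.val + y.val) / p : ℕ) : ℂ) := by
    exact_mod_cast h2
  have h3 : 2 * Real.pi * Complex.I * (x.val : ℂ) / p + 2 * Real.pi * Complex.I * (y.val : ℂ) / p
      = 2 * Real.pi * Complex.I * ((x + y).val : ℂ) / p
        + (((x.val + y.val) / p : ℕ) : ℂ) * (2 * Real.pi * Complex.I) := by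
    have e1 : 2 * Real.pi * Complex.I * (x.val : ℂ) / p + 2 * Real.pi * Complex.I * (y.val : ℂ) / p
        = 2 * Real.pi * Complex.I * ((x.val : ℂ) + (y.val : ℂ)) / p := by ring
    rw [e1, h2']
    field_simp
  rw [h3, Complex.exp_add, Complex.exp_nat_mul_two_pi_mul_I, mul_one]

theorem zch_neg (p : ℕ) [NeZero p] (x : ZMod p) : zch p (-x) * zch p x = 1 := by
  rw [← zch_add, neg_add_cancel, zch_zero]

theorem norm_zch (p : ℕ) (x : ZMod p) : ‖zch p x‖ = 1 := by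
  unfold zch
  have : 2 * Real.pi * Complex.I * (x.val : ℂ) / p = ((2 * Real.pi * x.val / p : ℝ) : ℂ) * Complex.I := by
    push_cast
    ring
  rw [this, Complex.norm_exp_ofReal_mul_I]

/-- right multiplication by a matrix of `SL(2, ℤ)` as a permutation of `ℤ²`. -/
def vmEquiv (A : SL(2, ℤ)) : (Fin 2 → ℤ) ≃ (Fin 2 → ℤ) where
  toFun v := v ᵥ* (A : Matrix (Fin 2) (Fin 2) ℤ)
  invFun v := v ᵥ* ((A⁻¹ : SL(2, ℤ)) : Matrix (Fin 2) (Fin 2) ℤ)
  left_inv v := by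
    simp_rw [vecMul_vecMul, ← Matrix.SpecialLinearGroup.coe_mul, mul_inv_cancel,
      Matrix.SpecialLinearGroup.coe_one, vecMul_one]
  right_inv v := by
    simp_rw [vecMul_vecMul, ← Matrix.SpecialLinearGroup.coe_mul, inv_mul_cancel,
      Matrix.SpecialLinearGroup.coe_one, vecMul_one]

theorem vmEquiv_apply (A : SL(2, ℤ)) (v : Fin 2 → ℤ) : vmEquiv A v = v ᵥ* (A : Matrix (Fin 2) (Fin 2) ℤ) := rfl

variable (N p : ℕ) (χ : Additive (Gamma0 N) →+ ZMod p)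

open Classical in
/-- the coefficient of the twisted Eisenstein series. -/
def coef (v : Fin 2 → ℤ) : ℂ :=
  if h : ∃ γ : Gamma0 N, (γ : SL(2, ℤ)) 1 = v then zch p (-(χ (Additive.ofMul h.choose))) else 0

theorem norm_coef_le (v : Fin 2 → ℤ) : ‖coef N p χ v‖ ≤ 1 := by
  unfold coef
  split_ifs with h
  · rw [norm_zch]
  · rw [norm_zero]
    exact zero_le_one

/-- two matrices with the same bottom row differ by a translation. -/
theorem trace_mul_inv_of_row_eq (A B : SL(2, ℤ)) (h : A 1 = B 1) :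
    ((A * B⁻¹ : SL(2, ℤ)) 0 0 + (A * B⁻¹ : SL(2, ℤ)) 1 1) = 2 := by
  have hA := A.det_coe
  have hB := B.det_coe
  rw [Matrix.det_fin_two] at hA hB
  have h0 : A 1 0 = B 1 0 := congrFun h 0
  have h1 : A 1 1 = B 1 1 := congrFun h 1
  rw [Matrix.SpecialLinearGroup.coe_mul, Matrix.SpecialLinearGroup.coe_inv, Matrix.adjugate_fin_two]
  simp only [Matrix.mul_apply, Fin.sum_univ_two, Matrix.of_apply, Matrix.cons_val_zero,
    Matrix.cons_val_one, Matrix.cons_val', Matrix.cons_val_fin_one]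
  rw [← h0, ← h1] at hB ⊢
  linarith

variable {N p χ}

theorem coef_of [NeZero p] (hχ : IsAdm N p χ) (γ : Gamma0 N) :
    coef N p χ ((γ : SL(2, ℤ)) 1) = zch p (-(χ (Additive.ofMul γ))) := by
  have h : ∃ γ' : Gamma0 N, (γ' : SL(2, ℤ)) 1 = (γ : SL(2, ℤ)) 1 := ⟨γ, rfl⟩
  unfold coef
  rw [dif_pos h]
  have htr := trace_mul_inv_of_row_eq (h.choose : SL(2, ℤ)) (γ : SL(2, ℤ)) h.choose_spec
  have h0 : χ (Additive.ofMul (h.choose * γ⁻¹)) = 0 := by
    apply hχ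
    rw [Subgroup.coe_mul, Subgroup.coe_inv, htr]
    norm_num
  rw [ofMul_mul, ofMul_inv, map_add, map_neg] at h0
  have : χ (Additive.ofMul h.choose) = χ (Additive.ofMul γ) := by
    rw [← sub_eq_zero, sub_eq_add_neg, h0]
  rw [this]

theorem coef_vecMul [NeZero p] (hχ : IsAdm N p χ) (γ : Gamma0 N) (v : Fin 2 → ℤ) :
    coef N p χ (v ᵥ* ((γ : SL(2, ℤ)) : Matrix (Fin 2) (Fin 2) ℤ)) = zch p (-(χ (Additive.ofMul γ))) * coef N p χ v := by
  by_cases h : ∃ γ' : Gamma0 N, (γ' : SL(2, ℤ)) 1 = v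
  · obtain ⟨γ', rfl⟩ := h
    have h1 : (γ' : SL(2, ℤ)) 1 ᵥ* ((γ : SL(2, ℤ)) : Matrix (Fin 2) (Fin 2) ℤ) = ((γ' * γ : Gamma0 N) : SL(2, ℤ)).1 1 := by
      rw [Subgroup.coe_mul, Matrix.SpecialLinearGroup.coe_mul, Matrix.mul_apply_eq_vecMul]
    rw [h1, coef_of hχ, coef_of hχ, ofMul_mul, map_add, neg_add, zch_add, mul_comm]
  · have h' : ¬ ∃ γ' : Gamma0 N, (γ' : SL(2, ℤ)) 1 = v ᵥ* ((γ : SL(2, ℤ)) : Matrix (Fin 2) (Fin 2) ℤ) := by
      rintro ⟨γ', hγ'⟩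
      apply h
      refine ⟨γ' * γ⁻¹, ?_⟩
      rw [Subgroup.coe_mul, Subgroup.coe_inv, Matrix.SpecialLinearGroup.coe_mul,
        Matrix.mul_apply_eq_vecMul, hγ', vecMul_vecMul, ← Matrix.SpecialLinearGroup.coe_mul,
        mul_inv_cancel, Matrix.SpecialLinearGroup.coe_one, vecMul_one]
    unfold coef
    rw [dif_neg h, dif_neg h', mul_zero]

theorem coef_eq_mul [NeZero p] (hχ : IsAdm N p χ) (γ : Gamma0 N) (v : Fin 2 → ℤ) :
    coef N p χ v = zch p (χ (Additive.ofMul γ)) * coef N p χ (v ᵥ* ((γ : SL(2, ℤ)) : Matrix (Fin 2) (Fin 2) ℤ)) := by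
  rw [coef_vecMul hχ, ← mul_assoc, mul_comm (zch p _), zch_neg, one_mul]

variable (N p χ)

/-- the twisted Eisenstein series of weight 4. -/
def eis (z : ℍ) : ℂ := ∑' v : Fin 2 → ℤ, coef N p χ v * eisSummand 4 v z

theorem summable_eis (z : ℍ) : Summable fun v : Fin 2 → ℤ => coef N p χ v * eisSummand 4 v z := by
  refine Summable.of_norm_bounded (summable_norm_eisSummand (k := 4) (by norm_num) z) (fun v => ?_)
  rw [norm_mul]
  calc ‖coef N p χ v‖ * ‖eisSummand 4 v z‖ ≤ 1 * ‖eisSummand 4 v z‖ :=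
        mul_le_mul_of_nonneg_right (norm_coef_le N p χ v) (norm_nonneg _)
    _ = ‖eisSummand 4 v z‖ := one_mul _

variable {N p χ}

theorem eis_smul_denom [NeZero p] (hχ : IsAdm N p χ) (γ : Gamma0 N) (z : ℍ) :
    eis N p χ ((γ : SL(2, ℤ)) • z)
      = zch p (χ (Additive.ofMul γ)) * UpperHalfPlane.denom ((γ : SL(2, ℤ)) : GL (Fin 2) ℝ) z ^ 4
        * eis N p χ z := by
  unfold eis
  have h1 : ∀ v : Fin 2 → ℤ, coef N p χ v * eisSummand 4 v ((γ : SL(2, ℤ)) • z)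
      = (zch p (χ (Additive.ofMul γ)) * UpperHalfPlane.denom ((γ : SL(2, ℤ)) : GL (Fin 2) ℝ) z ^ 4)
        * (coef N p χ (vmEquiv (γ : SL(2, ℤ)) v)
          * eisSummand 4 (vmEquiv (γ : SL(2, ℤ)) v) z) := by
    intro v
    rw [eisSummand_SL2_apply, vmEquiv_apply, coef_eq_mul hχ γ v]
    have : (UpperHalfPlane.denom ((γ : SL(2, ℤ)) : GL (Fin 2) ℝ) z) ^ (4 : ℤ)
        = UpperHalfPlane.denom ((γ : SL(2, ℤ)) : GL (Fin 2) ℝ) z ^ 4 := by
      norm_cast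
    rw [this]
    ring
  rw [tsum_congr h1, tsum_mul_left]
  congr 1
  exact (vmEquiv (γ : SL(2, ℤ))).tsum_eq (fun w => coef N p χ w * eisSummand 4 w z)


theorem eis_smul [NeZero p] (hχ : IsAdm N p χ) (γ : Gamma0 N) (z : ℍ) :
    eis N p χ ((γ : SL(2, ℤ)) • z)
      = zch p (χ (Additive.ofMul γ))
        * ((((γ : SL(2, ℤ)) 1 0 : ℤ) : ℂ) * (z : ℂ) + (((γ : SL(2, ℤ)) 1 1 : ℤ) : ℂ)) ^ 4
        * eis N p χ z := by
  rw [eis_smul_denom hχ, ModularGroup.denom_apply]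

end Part1

section Part2


open Filter Function Complex Set Finset Topology

variable (N p : ℕ) (χ : Additive (Gamma0 N) →+ ZMod p)

theorem norm_term_le {A B : ℝ} (hB : 0 < B) {z : ℍ} (hz : z ∈ verticalStrip A B)
    (v : Fin 2 → ℤ) :
    ‖coef N p χ v * eisSummand 4 v z‖ ≤ r ⟨⟨A, B⟩, hB⟩ ^ (-4 : ℝ) * ‖v‖ ^ (-4 : ℝ) := by
  rw [norm_mul]
  have h1 : ‖eisSummand 4 v z‖ ≤ r ⟨⟨A, B⟩, hB⟩ ^ (-4 : ℝ) * ‖v‖ ^ (-4 : ℝ) := by
    have := summand_bound_of_mem_verticalStrip (k := 4) (by norm_num) v hB hz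
    simpa only [eisSummand, norm_zpow, ← Real.rpow_intCast, Int.cast_neg, Int.cast_ofNat]
      using this
  calc ‖coef N p χ v‖ * ‖eisSummand 4 v z‖ ≤ 1 * ‖eisSummand 4 v z‖ :=
        mul_le_mul_of_nonneg_right (norm_coef_le N p χ v) (norm_nonneg _)
    _ ≤ _ := by rw [one_mul]; exact h1

theorem eis_tendstoLocallyUniformly :
    TendstoLocallyUniformly
      (fun (s : Finset (Fin 2 → ℤ)) ↦ (∑ x ∈ s, coef N p χ x * eisSummand 4 x ·))
      (eis N p χ ·) Filter.atTop := by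
  have p_sum : Summable fun x : Fin 2 → ℤ ↦ ‖x‖ ^ (-4 : ℝ) :=
    summable_one_div_norm_rpow (k := 4) (by norm_num)
  simp only [tendstoLocallyUniformly_iff_forall_isCompact, eis]
  intro K hK
  obtain ⟨A, B, hB, HABK⟩ := subset_verticalStrip_of_isCompact hK
  exact (tendstoUniformlyOn_tsum (hu := p_sum.mul_left <| r ⟨⟨A, B⟩, hB⟩ ^ (-4 : ℝ))
    (fun v z hz ↦ norm_term_le N p χ hB hz v)).mono HABK

theorem eis_tendstoLocallyUniformlyOn :
    TendstoLocallyUniformlyOn (fun (s : Finset (Fin 2 → ℤ)) ↦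
      ↑ₕ(fun (z : ℍ) ↦ ∑ x ∈ s, coef N p χ x * eisSummand 4 x z)) (↑ₕ(eis N p χ))
          Filter.atTop {z : ℂ | 0 < z.im} := by
  rw [← upperHalfPlaneSet, ← range_coe, ← image_univ]
  apply TendstoLocallyUniformlyOn.comp (s := ⊤) _ _ _ (OpenPartialHomeomorph.continuousOn_symm _)
  · simp only [Set.top_eq_univ, tendstoLocallyUniformlyOn_univ]
    apply eis_tendstoLocallyUniformly
  · simp only [IsOpenEmbedding.toOpenPartialHomeomorph_target, Set.top_eq_univ, mapsTo_range_iff,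
    Set.mem_univ, forall_const]

theorem eis_mdiff : MDiff (eis N p χ) := by
  intro τ
  suffices DifferentiableAt ℂ (↑ₕ(eis N p χ)) τ.1 by
    convert!
      MDifferentiableAt.comp τ (DifferentiableAt.mdifferentiableAt this) τ.mdifferentiable_coe
    exact funext fun z ↦ (comp_ofComplex (eis N p χ) z).symm
  refine DifferentiableOn.differentiableAt ?_ (isOpen_upperHalfPlaneSet.mem_nhds τ.2)
  exact (eis_tendstoLocallyUniformlyOn N p χ).differentiableOn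
    (Eventually.of_forall fun s ↦ DifferentiableOn.fun_sum
    fun x _ ↦ (eisSummand_extension_differentiableOn 4 x).const_mul (coef N p χ x))
    isOpen_upperHalfPlaneSet

theorem summable_norm_term (z : ℍ) :
    Summable fun v : Fin 2 → ℤ => ‖coef N p χ v * eisSummand 4 v z‖ := by
  refine Summable.of_nonneg_of_le (fun _ => norm_nonneg _) (fun v => ?_)
    (summable_norm_eisSummand (k := 4) (by norm_num) z)
  rw [norm_mul]
  calc ‖coef N p χ v‖ * ‖eisSummand 4 v z‖ ≤ 1 * ‖eisSummand 4 v z‖ :=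
        mul_le_mul_of_nonneg_right (norm_coef_le N p χ v) (norm_nonneg _)
    _ = ‖eisSummand 4 v z‖ := one_mul _

theorem norm_eis_le (z : ℍ) : ‖eis N p χ z‖ ≤ ∑' v : Fin 2 → ℤ, ‖eisSummand 4 v z‖ := by
  have hs := summable_norm_eisSummand (k := 4) (by norm_num) z
  have hs' := summable_norm_term N p χ z
  calc ‖eis N p χ z‖ ≤ ∑' v, ‖coef N p χ v * eisSummand 4 v z‖ := norm_tsum_le_tsum_norm hs'
    _ ≤ ∑' v, ‖eisSummand 4 v z‖ := by
        refine hs'.tsum_le_tsum (fun v => ?_) hs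
        rw [norm_mul]
        calc ‖coef N p χ v‖ * ‖eisSummand 4 v z‖ ≤ 1 * ‖eisSummand 4 v z‖ :=
              mul_le_mul_of_nonneg_right (norm_coef_le N p χ v) (norm_nonneg _)
          _ = ‖eisSummand 4 v z‖ := one_mul _

theorem tsum_norm_smul (A : SL(2, ℤ)) (z : ℍ) :
    ∑' v : Fin 2 → ℤ, ‖eisSummand 4 v (A • z)‖
      = ‖denom A z‖ ^ 4 * ∑' v : Fin 2 → ℤ, ‖eisSummand 4 v z‖ := by
  have h1 : ∀ v : Fin 2 → ℤ, ‖eisSummand 4 v (A • z)‖
      = ‖denom A z‖ ^ 4 * ‖eisSummand 4 (vmEquiv A v) z‖ := by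
    intro v
    rw [eisSummand_SL2_apply, norm_mul, norm_zpow, vmEquiv_apply]
    norm_cast
  rw [tsum_congr h1, tsum_mul_left]
  congr 1
  exact (vmEquiv A).tsum_eq (fun w => ‖eisSummand 4 w z‖)

theorem denom_T_zpow (n : ℤ) (z : ℍ) (A : SL(2, ℤ)) (hA : A = ModularGroup.T ^ n) :
    denom A z = 1 := by
  rw [ModularGroup.denom_apply, hA, ModularGroup.coe_T_zpow]
  simp

theorem eis_bdd (δ : SL(2, ℤ)) : IsBoundedAtImInfty (eis N p χ ∣[(4 : ℤ)] δ) := by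
  rw [UpperHalfPlane.isBoundedAtImInfty_iff]
  refine ⟨∑' (x : Fin 2 → ℤ), r ⟨⟨1, 2⟩, Nat.ofNat_pos⟩ ^ (-4 : ℝ) * ‖x‖ ^ (-4 : ℝ), 2, ?_⟩
  intro z hz
  obtain ⟨n, hn⟩ := ModularGroup_T_zpow_mem_verticalStrip z (N := 1) one_pos
  have hd : denom δ z ≠ 0 := denom_ne_zero δ z
  have hdn : 0 < ‖denom δ z‖ := norm_pos_iff.mpr hd
  have h1 : ‖(eis N p χ ∣[(4 : ℤ)] δ) z‖ ≤ ∑' v : Fin 2 → ℤ, ‖eisSummand 4 v z‖ := by
    rw [SL_slash_apply, norm_mul, norm_zpow]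
    have h2 := norm_eis_le N p χ (δ • z)
    rw [tsum_norm_smul] at h2
    have h3 : ‖denom δ z‖ ^ (-(4 : ℤ)) = (‖denom δ z‖ ^ 4)⁻¹ := by
      rw [_root_.zpow_neg]
      norm_cast
    rw [h3, ← div_eq_mul_inv, div_le_iff₀ (pow_pos hdn 4), mul_comm]
    exact h2
  have h3 : ∑' v : Fin 2 → ℤ, ‖eisSummand 4 v z‖
      = ∑' v : Fin 2 → ℤ, ‖eisSummand 4 v (ModularGroup.T ^ (((1 : ℕ) : ℤ) * n) • z)‖ := by
    rw [tsum_norm_smul, denom_T_zpow _ z _ rfl, norm_one, one_pow, one_mul]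
  rw [h3] at h1
  refine h1.trans ?_
  refine (summable_norm_eisSummand (k := 4) (by norm_num) _).tsum_le_tsum (fun x => ?_)
    ((summable_one_div_norm_rpow (k := 4) (by norm_num)).mul_left _)
  have hz' : ModularGroup.T ^ (((1 : ℕ) : ℤ) * n) • z ∈ verticalStrip ((1 : ℕ) : ℝ) 2 :=
    verticalStrip_anti_right _ hz hn
  have := summand_bound_of_mem_verticalStrip (k := 4) (by norm_num) x (B := 2) two_pos hz'
  simpa only [eisSummand, norm_zpow, ← Real.rpow_intCast, Int.cast_neg, Int.cast_ofNat,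
    Nat.cast_one] using this


end Part2

section Part3


variable (N p : ℕ) (χ : Additive (Gamma0 N) →+ ZMod p)

theorem neg_one_mem_Gamma0 : (-1 : SL(2, ℤ)) ∈ Gamma0 N := by
  rw [Gamma0_mem]
  simp

variable {N p χ}

theorem coef_zero_one [NeZero p] (hχ : IsAdm N p χ) : coef N p χ ![0, 1] = 1 := by
  have h := coef_of hχ (1 : Gamma0 N)
  have h1 : ((1 : Gamma0 N) : SL(2, ℤ)) 1 = ![0, 1] := by
    ext i
    fin_cases i <;> simp
  rw [h1] at h
  rw [h, ofMul_one, map_zero, neg_zero, zch_zero]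

theorem coef_zero_neg_one [NeZero p] (hχ : IsAdm N p χ) : coef N p χ ![0, -1] = 1 := by
  have h := coef_of hχ (⟨-1, neg_one_mem_Gamma0 N⟩ : Gamma0 N)
  have h1 : ((⟨-1, neg_one_mem_Gamma0 N⟩ : Gamma0 N) : SL(2, ℤ)) 1 = ![0, -1] := by
    ext i
    fin_cases i <;> simp
  rw [h1] at h
  have h0 : χ (Additive.ofMul (⟨-1, neg_one_mem_Gamma0 N⟩ : Gamma0 N)) = 0 := by
    apply hχ
    simp
  rw [h, h0, neg_zero, zch_zero]

variable (N p χ)

theorem coef_eq_zero_of_first_zero (v : Fin 2 → ℤ) (h0 : v 0 = 0) (h1 : v ≠ ![0, 1])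
    (h2 : v ≠ ![0, -1]) : coef N p χ v = 0 := by
  unfold coef
  rw [dif_neg]
  rintro ⟨γ, hγ⟩
  have hdet := (γ : SL(2, ℤ)).det_coe
  rw [Matrix.det_fin_two] at hdet
  have e0 : (γ : SL(2, ℤ)) 1 0 = 0 := by
    rw [← h0, ← hγ]
  have e1 : (γ : SL(2, ℤ)) 1 1 = v 1 := by
    rw [← hγ]
  rw [e0, mul_zero, sub_zero, e1] at hdet
  rcases Int.eq_one_or_neg_one_of_mul_eq_one' hdet with ⟨-, h⟩ | ⟨-, h⟩
  · apply h1
    ext i
    fin_cases i
    · simpa using h0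
    · simpa using h
  · apply h2
    ext i
    fin_cases i
    · simpa using h0
    · simpa using h

variable {N p χ}

theorem eis_ne [NeZero p] (hχ : IsAdm N p χ) : ∃ τ, eis N p χ τ ≠ 0 := by
  have hsum : Summable fun v : Fin 2 → ℤ => ‖v‖ ^ (-3 : ℝ) :=
    summable_one_div_norm_rpow (k := 3) (by norm_num)
  set S : ℝ := ∑' v : Fin 2 → ℤ, ‖v‖ ^ (-3 : ℝ) with hS
  have hS0 : 0 ≤ S := tsum_nonneg (fun v => Real.rpow_nonneg (norm_nonneg _) _)
  have hy : (0 : ℝ) < S + 1 := by linarith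
  let z : ℍ := ⟨⟨0, S + 1⟩, hy⟩
  refine ⟨z, ?_⟩
  have hzc : (z : ℂ) = ⟨0, S + 1⟩ := rfl
  -- the termwise bound
  have hterm : ∀ v : Fin 2 → ℤ, v ≠ ![0, 1] → v ≠ ![0, -1] →
      ‖coef N p χ v * eisSummand 4 v z‖ ≤ (S + 1)⁻¹ * ‖v‖ ^ (-3 : ℝ) := by
    intro v h1 h2
    have hrhs : 0 ≤ (S + 1)⁻¹ * ‖v‖ ^ (-3 : ℝ) :=
      mul_nonneg (inv_nonneg.mpr hy.le) (Real.rpow_nonneg (norm_nonneg _) _)
    by_cases h0 : v 0 = 0
    · rw [coef_eq_zero_of_first_zero N p χ v h0 h1 h2, zero_mul, norm_zero]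
      exact hrhs
    · have hv0 : (1 : ℝ) ≤ |(v 0 : ℝ)| := by
        have : (1 : ℤ) ≤ |v 0| := Int.one_le_abs h0
        exact_mod_cast this
      set w : ℂ := (v 0 : ℂ) * (z : ℂ) + v 1 with hw
      have hre : w.re = v 1 := by
        rw [hw, hzc]
        simp
      have him : w.im = v 0 * (S + 1) := by
        rw [hw, hzc]
        simp
      have hw1 : S + 1 ≤ ‖w‖ := by
        refine le_trans ?_ (Complex.abs_im_le_norm w)
        rw [him, abs_mul, abs_of_pos hy]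
        nlinarith
      have hw2 : ‖v‖ ≤ ‖w‖ := by
        rw [pi_norm_le_iff_of_nonneg (norm_nonneg w)]
        intro i
        fin_cases i
        · refine le_trans ?_ (Complex.abs_im_le_norm w)
          rw [him, abs_mul, abs_of_pos hy]
          show ‖(v 0 : ℤ)‖ ≤ _
          rw [Int.norm_eq_abs]
          nlinarith [abs_nonneg (v 0 : ℝ)]
        · refine le_trans ?_ (Complex.abs_re_le_norm w)
          rw [hre]
          show ‖(v 1 : ℤ)‖ ≤ _
          rw [Int.norm_eq_abs]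
      have hvne : v ≠ 0 := fun h => h0 (by rw [h]; rfl)
      have hvpos : 0 < ‖v‖ := norm_pos_iff.mpr hvne
      have e : ‖v‖ ^ (-3 : ℝ) = (‖v‖ ^ 3)⁻¹ := by
        rw [Real.rpow_neg (norm_nonneg v), ← Real.rpow_natCast]
        norm_num
      have hwpos : 0 < ‖w‖ := lt_of_lt_of_le hvpos hw2
      have hes : ‖eisSummand 4 v z‖ = (‖w‖ ^ 4)⁻¹ := by
        show ‖w ^ (-(4 : ℤ))‖ = _
        rw [norm_zpow, _root_.zpow_neg]
        norm_cast
      rw [norm_mul, hes, e, ← mul_inv]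
      calc ‖coef N p χ v‖ * (‖w‖ ^ 4)⁻¹ ≤ 1 * (‖w‖ ^ 4)⁻¹ :=
            mul_le_mul_of_nonneg_right (norm_coef_le N p χ v) (by positivity)
        _ = (‖w‖ ^ 4)⁻¹ := one_mul _
        _ ≤ ((S + 1) * ‖v‖ ^ 3)⁻¹ := by
            apply inv_anti₀ (by positivity)
            calc (S + 1) * ‖v‖ ^ 3 ≤ ‖w‖ * ‖w‖ ^ 3 :=
                  mul_le_mul hw1 (pow_le_pow_left₀ hvpos.le hw2 3) (by positivity) hwpos.le
              _ = ‖w‖ ^ 4 := by ring
  -- split off the two terms `(0, ±1)`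
  have hne : (![0, 1] : Fin 2 → ℤ) ≠ ![0, -1] := by
    intro h
    have := congrFun h 1
    simp at this
  have hsplit := (summable_eis N p χ z).sum_add_tsum_compl (s := {![0, 1], ![0, -1]})
  rw [Finset.sum_pair hne, coef_zero_one hχ, coef_zero_neg_one hχ] at hsplit
  have ht1 : eisSummand 4 ![0, 1] z = 1 := by
    simp [eisSummand]
  have ht2 : eisSummand 4 ![0, -1] z = 1 := by
    simp [eisSummand]
    norm_num
  rw [ht1, ht2] at hsplit
  set R : ℂ := ∑' x : ↥((({![0, 1], ![0, -1]} : Finset (Fin 2 → ℤ)) : Set (Fin 2 → ℤ))ᶜ),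
    coef N p χ x * eisSummand 4 x z with hR
  have hRle : ‖R‖ ≤ (S + 1)⁻¹ * S := by
    have hs1 : Summable fun x : ↥((({![0, 1], ![0, -1]} : Finset (Fin 2 → ℤ)) :
        Set (Fin 2 → ℤ))ᶜ) => ‖coef N p χ x * eisSummand 4 x z‖ :=
      (summable_norm_term N p χ z).subtype _
    have hs2 : Summable fun x : Fin 2 → ℤ => (S + 1)⁻¹ * ‖x‖ ^ (-3 : ℝ) := hsum.mul_left _
    calc ‖R‖ ≤ ∑' x : ↥((({![0, 1], ![0, -1]} : Finset (Fin 2 → ℤ)) : Set (Fin 2 → ℤ))ᶜ),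
          ‖coef N p χ x * eisSummand 4 x z‖ := norm_tsum_le_tsum_norm hs1
      _ ≤ ∑' x : ↥((({![0, 1], ![0, -1]} : Finset (Fin 2 → ℤ)) : Set (Fin 2 → ℤ))ᶜ),
          (S + 1)⁻¹ * ‖(x : Fin 2 → ℤ)‖ ^ (-3 : ℝ) := by
          refine hs1.tsum_le_tsum (fun x => ?_) (hs2.subtype _)
          have hx := x.2
          rw [Set.mem_compl_iff, Finset.mem_coe, Finset.mem_insert, Finset.mem_singleton,
            not_or] at hx
          exact hterm x hx.1 hx.2
      _ ≤ ∑' x : Fin 2 → ℤ, (S + 1)⁻¹ * ‖x‖ ^ (-3 : ℝ) :=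
          Summable.tsum_subtype_le (fun x : Fin 2 → ℤ => (S + 1)⁻¹ * ‖x‖ ^ (-3 : ℝ)) _
            (fun x => mul_nonneg (inv_nonneg.mpr hy.le) (Real.rpow_nonneg (norm_nonneg _) _)) hs2
      _ = (S + 1)⁻¹ * S := by rw [tsum_mul_left]
  have hlt : ‖R‖ < 1 := by
    refine lt_of_le_of_lt hRle ?_
    rw [inv_mul_lt_iff₀ hy]
    linarith
  intro h0
  have h0' : eis N p χ z = ∑' v : Fin 2 → ℤ, coef N p χ v * eisSummand 4 v z := rfl
  rw [h0'] at h0
  rw [h0] at hsplit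
  have hR2 : R = -2 := by
    linear_combination hsplit
  rw [hR2, norm_neg] at hlt
  norm_num at hlt

/-- **(B1)** the twisted weight-4 Eisenstein series of an admissible character. -/
theorem exists_twisted (N p : ℕ) [NeZero N] [Fact p.Prime] (χ : Additive (Gamma0 N) →+ ZMod p)
    (hχ : IsAdm N p χ) : ∃ E, IsTwisted N p χ E := by
  have : NeZero p := ⟨(Fact.out : p.Prime).ne_zero⟩
  exact ⟨eis N p χ, eis_mdiff N p χ, eis_ne hχ, fun γ τ => eis_smul hχ γ τ, eis_bdd N p χ⟩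


end Part3

end Fermat.Agent.S29.Eis
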