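import Mathlib
import Fermat.Agent.S29_BDefs2
import Fermat.Agent.S29_Eis
import Fermat.Agent.S24_Galois
import Fermat.Agent.S24_TowerVal
import Fermat.Agent.S23_Quotient

/-!
# S29, bridge (B2): modular functions from quotients of level forms

* `isModFun_div_discr`: for a holomorphic form `W` of weight `12 k` on `Γ(N)`, bounded at all
  cusps, `W / Δ ^ k` lies in the ring `modRing ℂ N` of the S24 tower.
* `exists_phiC_eq`: the `Γ₀(N)`-invariant elements of `ModField ℂ N` are the image of the formal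
  function field `FC N`.
* `exists_realizes`: a `Γ₀(N)`-invariant quotient `W₁ / W₂` of two such forms is (realized by) an
  element of `FC N`; closure lemmas for `Realizes`.
* `IsTw`: forms on `Γ₀(N)` with a multiplier; `exists_realizes_of_tw`: two of them with the same
  weight `4 K` and multiplier `(zch ∘ χ) ^ j` have a quotient in `FC N`; `exists_kum`.
-/

set_option autoImplicit false
set_option linter.style.haveILetI false
set_option linter.unusedVariables false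
set_option linter.unusedSectionVars false

noncomputable section

open UpperHalfPlane ModularCurve CongruenceSubgroup
open scoped MatrixGroups Manifold ModularForm

namespace Fermat.Agent.S29.KumFun

open Fermat.Agent.S24 Fermat.Agent.S24.Tower Fermat.Agent.S29

local notation "𝕢" => Function.Periodic.qParam

/-! ### Analysis: `W / Δ ^ k` is a modular function -/

/-- the explicit automorphy factor is Mathlib's `denom`. -/
theorem factor_eq_denom (γ : SL(2, ℤ)) (τ : ℍ) :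
    ((γ 1 0 : ℤ) : ℂ) * (τ : ℂ) + ((γ 1 1 : ℤ) : ℂ) = denom γ τ :=
  (ModularGroup.denom_apply γ τ).symm

theorem qN_pow_self (N : ℕ) [NeZero N] (τ : ℍ) : qN N τ ^ N = 𝕢 1 (τ : ℂ) := by
  unfold qN Function.Periodic.qParam
  rw [← Complex.exp_nat_mul]
  congr 1
  have hN : (N : ℂ) ≠ 0 := Nat.cast_ne_zero.mpr (NeZero.ne N)
  push_cast
  field_simp

theorem cmap_self (s : LaurentSeries ℂ) : cmap ℂ s = s := by
  ext k
  simp [cmap]

/-- periodicity in the form used by Mathlib's `q`-expansions. -/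
theorem periodic_of_T_pow (N : ℕ) [NeZero N] (V : ℍ → ℂ)
    (hper : ∀ τ : ℍ, V (ModularGroup.T ^ (N : ℤ) • τ) = V τ) :
    Function.Periodic (V ∘ ofComplex) (N : ℝ) := by
  intro w
  by_cases hw : 0 < w.im
  · have hw' : 0 < (w + (N : ℝ)).im := by simpa using hw
    simp only [Function.comp_apply]
    rw [ofComplex_apply_of_im_pos hw', ofComplex_apply_of_im_pos hw, ← hper ⟨w, hw⟩]
    congr 1
    apply UpperHalfPlane.ext
    rw [ModularGroup.coe_T_zpow_smul_eq]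
    simp
  · have hw0 : w.im ≤ 0 := not_lt.mp hw
    have hw' : (w + ((N : ℝ) : ℂ)).im ≤ 0 := by simpa using hw0
    rw [Function.comp_apply, Function.comp_apply, ofComplex_apply_of_im_nonpos hw',
      ofComplex_apply_of_im_nonpos hw0]

/-- a holomorphic, `N`-periodic function bounded at `i∞`, divided by `q_N ^ M`, has a Laurent
expansion in `q_N`. -/
theorem exists_hasLaurentExp (N : ℕ) [NeZero N] (U : ℍ → ℂ) (hU : MDiff U)
    (hb : IsBoundedAtImInfty U) (hper : ∀ τ : ℍ, U (ModularGroup.T ^ (N : ℤ) • τ) = U τ)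
    (M : ℕ) (f : ℍ → ℂ) (hf : ∀ τ, qN N τ ^ M * f τ = U τ) :
    ∃ s : LaurentSeries ℂ, HasLaurentExp N f s := by
  have hpos : (0 : ℝ) < (N : ℝ) := Nat.cast_pos.mpr (NeZero.pos N)
  have hsum := fun τ : ℍ => UpperHalfPlane.hasSum_qExpansion hpos (periodic_of_T_pow N U hper) hU hb τ
  set u : ℕ → ℂ := fun n => (UpperHalfPlane.qExpansion (N : ℝ) U).coeff n with hu
  have hbdd : BddBelow (Function.support
      (fun j : ℤ => if -(M : ℤ) ≤ j then u (j + M).toNat else 0)) := by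
    refine ⟨-(M : ℤ), fun j hj => ?_⟩
    by_contra hlt
    apply hj
    show (if -(M : ℤ) ≤ j then u (j + M).toNat else 0) = 0
    rw [if_neg hlt]
  refine ⟨HahnSeries.ofSuppBddBelow _ hbdd, M, fun n hn => ?_, fun τ => ?_⟩
  · show (if -(M : ℤ) ≤ n then u (n + M).toNat else 0) = 0
    rw [if_neg (not_le.mpr hn)]
  · rw [hf τ]
    have h := hsum τ
    convert h using 2 with n
    show (if -(M : ℤ) ≤ (n : ℤ) - M then u ((n : ℤ) - M + M).toNat else 0) * qN N τ ^ n = _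
    rw [if_pos (by omega)]
    have : ((n : ℤ) - M + M).toNat = n := by omega
    rw [this]
    rfl

/-- `W ∣ δ = W` for `δ ∈ Γ(N)`. -/
theorem slash_eq_of_mem_Gamma (N k : ℕ) {W : ℍ → ℂ} (hW : IsLevelForm N k W) {δ : SL(2, ℤ)}
    (hδ : δ ∈ Gamma N) : W ∣[(k : ℤ)] δ = W := by
  funext τ
  rw [ModularForm.SL_slash_apply, hW.slash δ hδ τ, factor_eq_denom, mul_comm, ← mul_assoc,
    zpow_neg, zpow_natCast, inv_mul_cancel₀ (pow_ne_zero _ (denom_ne_zero δ τ)), one_mul]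

theorem denom_T_zpow (n : ℤ) (τ : ℍ) :
    denom ((ModularGroup.T ^ n : SL(2, ℤ)) : GL (Fin 2) ℝ) τ = 1 := by
  have h := ModularGroup.coe_T_zpow n
  have h10 : (ModularGroup.T ^ n) 1 0 = 0 := by
    have := congrFun (congrFun h 1) 0
    simpa using this
  have h11 : (ModularGroup.T ^ n) 1 1 = 1 := by
    have := congrFun (congrFun h 1) 1
    simpa using this
  rw [ModularGroup.denom_apply, h10, h11]
  simp

/-- every slash of a level form is `N`-periodic. -/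
theorem slash_T_pow (N k : ℕ) [NeZero N] {W : ℍ → ℂ} (hW : IsLevelForm N k W) (γ : SL(2, ℤ))
    (τ : ℍ) : (W ∣[(k : ℤ)] γ) (ModularGroup.T ^ (N : ℤ) • τ) = (W ∣[(k : ℤ)] γ) τ := by
  have hT : ModularGroup.T ^ (N : ℤ) ∈ Gamma N := by
    have := ModularGroup_T_pow_mem_Gamma (N : ℤ) (N : ℤ) dvd_rfl
    simpa using this
  have hδ : γ * ModularGroup.T ^ (N : ℤ) * γ⁻¹ ∈ Gamma N := (Gamma_normal N).conj_mem _ hT γ
  have h1 : (W ∣[(k : ℤ)] γ) ∣[(k : ℤ)] (ModularGroup.T ^ (N : ℤ)) = W ∣[(k : ℤ)] γ := by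
    rw [← SlashAction.slash_mul]
    have : γ * ModularGroup.T ^ (N : ℤ) = (γ * ModularGroup.T ^ (N : ℤ) * γ⁻¹) * γ := by group
    rw [this, SlashAction.slash_mul, slash_eq_of_mem_Gamma N k hW hδ]
  have h2 := congrFun h1 τ
  rw [ModularForm.SL_slash_apply, denom_T_zpow, one_zpow, mul_one] at h2
  exact h2

/-- the function `τ ↦ eulerInv (q τ)`, i.e. `q / Δ`. -/
theorem discr_inv_eq (τ : ℍ) :
    (ModularForm.discriminant τ)⁻¹ = (𝕢 1 (τ : ℂ))⁻¹ * JAnalytic.eulerInv (𝕢 1 (τ : ℂ)) := by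
  rw [JAnalytic.discr_eq, JAnalytic.eulerInv, mul_inv]
  rfl

/-- **`W / Δ ^ k` is a modular function of level `Γ(N)`** for a holomorphic form `W` of weight
`12 k` on `Γ(N)` which is bounded at every cusp. -/
theorem isModFun_div_discr (N k : ℕ) [NeZero N] {W : ℍ → ℂ} (hW : IsLevelForm N (12 * k) W) :
    IsModFun ℂ N (fun τ => W τ / ModularForm.discriminant τ ^ k) := by
  have hΔ : ∀ τ : ℍ, ModularForm.discriminant τ ≠ 0 := ModularForm.discriminant_ne_zero
  refine ⟨?_, fun γ hγ τ => ?_, fun γ => ?_⟩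
  · -- holomorphic
    have h1 := UpperHalfPlane.mdifferentiable_iff.mp hW.mdiff
    have h2 := UpperHalfPlane.mdifferentiable_iff.mp JAnalytic.discr_mdiff
    rw [UpperHalfPlane.mdifferentiable_iff]
    have : DifferentiableOn ℂ
        (fun z => (W ∘ ofComplex) z / (ModularForm.discriminant ∘ ofComplex) z ^ k)
        {z | 0 < z.im} :=
      h1.div (h2.pow k) fun z _ => pow_ne_zero _ (hΔ _)
    exact this
  · -- invariance under Γ(N)
    show W (γ • τ) / ModularForm.discriminant (γ • τ) ^ k = W τ / ModularForm.discriminant τ ^ k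
    have hd : denom γ τ ≠ 0 := denom_ne_zero γ τ
    rw [hW.slash γ hγ τ, factor_eq_denom, JAnalytic.discr_smul, mul_pow,
      show (denom γ τ ^ (12 : ℤ)) ^ k = denom γ τ ^ (12 * k) by
        rw [← zpow_natCast, ← zpow_mul]; norm_cast]
    rw [mul_div_mul_left _ _ (pow_ne_zero _ hd)]
  · -- expansions at the cusps
    set V : ℍ → ℂ := W ∣[((12 * k : ℕ) : ℤ)] γ with hV
    set U : ℍ → ℂ := fun τ => V τ * JAnalytic.eulerInv (𝕢 1 (τ : ℂ)) ^ k with hUdef
    have hVm : MDiff V := MDifferentiable.slash hW.mdiff _ _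
    have hVb : IsBoundedAtImInfty V := hW.bdd γ
    have hQ := JAnalytic.isQReg_eulerInv
    have hUm : MDiff U := hVm.mul (hQ.pow k).2.1
    have hUb : IsBoundedAtImInfty U := Filter.BoundedAtFilter.mul hVb (hQ.pow k).2.2
    have hqper : ∀ τ : ℍ, 𝕢 1 ((ModularGroup.T ^ (N : ℤ) • τ : ℍ) : ℂ) = 𝕢 1 (τ : ℂ) := by
      intro τ
      rw [ModularGroup.coe_T_zpow_smul_eq]
      unfold Function.Periodic.qParam
      rw [Complex.ofReal_one, div_one, div_one, mul_add, Complex.exp_add]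
      have : Complex.exp (2 * Real.pi * Complex.I * ((N : ℤ) : ℂ)) = 1 := by
        rw [Complex.exp_eq_one_iff]
        exact ⟨N, by push_cast; ring⟩
      rw [this, mul_one]
    have hUper : ∀ τ : ℍ, U (ModularGroup.T ^ (N : ℤ) • τ) = U τ := by
      intro τ
      show V (ModularGroup.T ^ (N : ℤ) • τ) * _ = V τ * _
      rw [hqper τ, hV, slash_T_pow N (12 * k) hW γ τ]
    obtain ⟨s, hs⟩ := exists_hasLaurentExp N U hUm hUb hUper (N * k)
      (fun τ => W (γ • τ) / ModularForm.discriminant (γ • τ) ^ k) (fun τ => by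
        have hd : denom γ τ ≠ 0 := denom_ne_zero γ τ
        have hq : 𝕢 1 (τ : ℂ) ≠ 0 := Function.Periodic.qParam_ne_zero _
        show _ = V τ * JAnalytic.eulerInv (𝕢 1 (τ : ℂ)) ^ k
        rw [hV, ModularForm.SL_slash_apply, JAnalytic.discr_smul, mul_pow,
          show (denom γ τ ^ (12 : ℤ)) ^ k = denom γ τ ^ (((12 * k : ℕ) : ℤ)) by
            rw [← zpow_natCast, ← zpow_mul]; norm_cast,
          pow_mul, qN_pow_self, zpow_neg, div_eq_mul_inv, mul_inv, ← inv_pow (ModularForm.discriminant τ),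
          discr_inv_eq, mul_pow, inv_pow]
        field_simp)
    exact ⟨s, by rw [cmap_self]; exact hs⟩

/-! ### Galois descent: `Γ₀(N)`-invariant modular functions come from the formal function field -/

theorem phiC_jGen (N : ℕ) [NeZero N] : phiC N (jGen ℂ N) = jField ℂ N :=
  funcFieldMap_eq_jD (phiC N) (phiC_spec N) (jGen ℂ N) 1 (one_dvd N)
    (by rw [qExpand_one_apply]; rfl)

/-- **The fixed field of `Γ₀(N)` in `ModField ℂ N` is the image of `FC N`.** -/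
theorem exists_phiC_eq (N : ℕ) [NeZero N] (y : ModField ℂ N)
    (hy : ∀ γ ∈ Gamma0 N, γ • y = y) : ∃ h : FC N, phiC N h = y := by
  letI : Algebra (FC N) (ModField ℂ N) := (phiC N).toRingHom.toAlgebra
  haveI : IsScalarTower ℂ (FC N) (ModField ℂ N) :=
    IsScalarTower.of_algebraMap_eq (fun c => ((phiC N).commutes c).symm)
  have hj : algebraMap (FC N) (ModField ℂ N) (jGen ℂ N) = jField ℂ N := phiC_jGen N
  have hfix : ∀ z : ModField ℂ N, (∀ γ : SL(2, ℤ), γ • z = z) →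
      z ∈ IntermediateField.adjoin ℂ {algebraMap (FC N) (ModField ℂ N) (jGen ℂ N)} := by
    intro z hz
    rw [hj]
    exact mem_adjoin_jField_of_invariant ℂ N z hz
  have hxfix : ∀ γ : SL(2, ℤ), γ • algebraMap (FC N) (ModField ℂ N) (jGen ℂ N)
      = algebraMap (FC N) (ModField ℂ N) (jGen ℂ N) := by
    intro γ
    rw [hj, smul_jField]
  have hker : ∃ Γ₀ : Subgroup SL(2, ℤ), Γ₀.FiniteIndex ∧ ∀ γ ∈ Γ₀, ∀ z : ModField ℂ N, γ • z = z :=
    ⟨Gamma N, inferInstance, fun γ hγ z => smul_field_eq_of_mem_Gamma hγ z⟩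
  have := Galois.finite_imageGroup (K := ℂ) hker
  have hG := Galois.isGaloisGroup_imageGroup (K := ℂ) (F := FC N) (L := ModField ℂ N)
    (Γ := SL(2, ℤ)) (jGen ℂ N) hfix hxfix
  have hH' : IsGaloisGroup (Galois.fixF ℂ (FC N) (ModField ℂ N) SL(2, ℤ)) (FC N) (ModField ℂ N) :=
    IsGaloisGroup.of_isScalarTower (Galois.imageGroup ℂ (ModField ℂ N) SL(2, ℤ))
      (IntermediateField.adjoin ℂ {jGen ℂ N}) (ModField ℂ N) (FC N)
  have hinv : ∀ g : Galois.fixF ℂ (FC N) (ModField ℂ N) SL(2, ℤ), g • y = y := by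
    rintro ⟨g, hg⟩
    obtain ⟨γ, rfl⟩ := Galois.toImage_surjective g
    have hγ : γ ∈ Gamma0 N := by
      rw [funcFieldMap_smul_iff (phiC N) (phiC_spec N) γ]
      intro f
      exact (Galois.mem_fixF_iff _).mp hg f
    exact hy γ hγ
  obtain ⟨h, hh⟩ := hH'.isInvariant.isInvariant y hinv
  exact ⟨h, hh⟩

/-! ### `Realizes` -/

/-- elements of `modRing` are continuous functions. -/
theorem continuous_modRing (N : ℕ) [NeZero N] (a : modRing ℂ N) : Continuous (a : ℍ → ℂ) :=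
  a.2.1.continuous

theorem algebraMap_modRing_ne_zero (N : ℕ) [NeZero N] {b : modRing ℂ N} (hb : b ≠ 0) :
    algebraMap (modRing ℂ N) (ModField ℂ N) b ≠ 0 :=
  (map_ne_zero_iff _ (IsFractionRing.injective (modRing ℂ N) (ModField ℂ N))).mpr hb

/-- cancellation of a holomorphic factor (pointwise form). -/
theorem cancel_mdiff {D : ℍ → ℂ} (hD : MDiff D) (hne : ∃ τ, D τ ≠ 0) {a b : ℍ → ℂ}
    (ha : Continuous a) (hb : Continuous b) (h : ∀ τ, a τ * D τ = b τ * D τ) (τ : ℍ) :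
    a τ = b τ :=
  congrFun (Fermat.Agent.S23.Quotient.eq_of_mul_eq_mul hD hne ha hb h) τ

/-- **Existence**: a `Γ₀(N)`-invariant quotient of two level forms of weight `12 k` is realized
by an element of the formal function field. -/
theorem exists_realizes (N : ℕ) [NeZero N] (k : ℕ) (W₁ W₂ : ℍ → ℂ)
    (h₁ : IsLevelForm N (12 * k) W₁) (h₂ : IsLevelForm N (12 * k) W₂) (hne : ∃ τ, W₂ τ ≠ 0)
    (hinv : ∀ γ ∈ Gamma0 N, ∀ τ : ℍ, W₁ (γ • τ) * W₂ τ = W₁ τ * W₂ (γ • τ)) :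
    ∃ h : FC N, Realizes N h W₁ W₂ := by
  have hΔ : ∀ τ : ℍ, ModularForm.discriminant τ ≠ 0 := ModularForm.discriminant_ne_zero
  set a : modRing ℂ N := ⟨fun τ => W₁ τ / ModularForm.discriminant τ ^ k,
    isModFun_div_discr N k h₁⟩ with ha
  set b : modRing ℂ N := ⟨fun τ => W₂ τ / ModularForm.discriminant τ ^ k,
    isModFun_div_discr N k h₂⟩ with hb
  have hb0 : b ≠ 0 := by
    obtain ⟨τ₀, hτ₀⟩ := hne
    intro h0
    have := congrFun (congrArg Subtype.val h0) τ₀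
    have h' : W₂ τ₀ / ModularForm.discriminant τ₀ ^ k = 0 := this
    rw [div_eq_zero_iff] at h'
    rcases h' with h' | h'
    · exact hτ₀ h'
    · exact pow_ne_zero _ (hΔ τ₀) h'
  have hbF := algebraMap_modRing_ne_zero N hb0
  set y : ModField ℂ N := algebraMap (modRing ℂ N) (ModField ℂ N) a
    / algebraMap (modRing ℂ N) (ModField ℂ N) b with hy
  have hyinv : ∀ γ ∈ Gamma0 N, γ • y = y := by
    intro γ hγ
    have hγ' : γ⁻¹ ∈ Gamma0 N := inv_mem hγ
    have hcross : (γ • a) * b = a * (γ • b) := by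
      apply Subtype.ext
      funext τ
      show W₁ (γ⁻¹ • τ) / ModularForm.discriminant (γ⁻¹ • τ) ^ k
            * (W₂ τ / ModularForm.discriminant τ ^ k)
          = W₁ τ / ModularForm.discriminant τ ^ k
            * (W₂ (γ⁻¹ • τ) / ModularForm.discriminant (γ⁻¹ • τ) ^ k)
      have := hinv γ⁻¹ hγ' τ
      have h1 := pow_ne_zero k (hΔ τ)
      have h2 := pow_ne_zero k (hΔ (γ⁻¹ • τ))
      field_simp
      linear_combination this
    have hγbF : algebraMap (modRing ℂ N) (ModField ℂ N) (γ • b) ≠ 0 := by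
      rw [← smul_algebraMap_field]
      exact (smul_ne_zero_iff_ne γ).mpr hbF
    have key : ∀ A B : ModField ℂ N, γ • (A / B) = γ • A / γ • B := by
      intro A B
      rw [div_eq_mul_inv, smul_mul', smul_inv'', ← div_eq_mul_inv]
    rw [hy, key, smul_algebraMap_field, smul_algebraMap_field, div_eq_div_iff hγbF hbF,
      ← map_mul, ← map_mul, hcross]
  obtain ⟨h, hh⟩ := exists_phiC_eq N y hyinv
  refine ⟨h, a, b, hb0, ?_, fun τ => ?_⟩
  · rw [hh, hy, div_mul_cancel₀ _ hbF]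
  · show W₁ τ / ModularForm.discriminant τ ^ k * W₂ τ
      = W₂ τ / ModularForm.discriminant τ ^ k * W₁ τ
    ring

/-- **Uniqueness** (the denominator must be holomorphic and not identically zero). -/
theorem realizes_unique (N : ℕ) [NeZero N] {h h' : FC N} {W₁ W₂ : ℍ → ℂ}
    (hr : Realizes N h W₁ W₂) (hr' : Realizes N h' W₁ W₂) (hW₂ : MDiff W₂)
    (hne : ∃ τ, W₂ τ ≠ 0) : h = h' := by
  obtain ⟨a, b, hb0, hab, hpt⟩ := hr
  obtain ⟨a', b', hb0', hab', hpt'⟩ := hr'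
  have hbF := algebraMap_modRing_ne_zero N hb0
  have hbF' := algebraMap_modRing_ne_zero N hb0'
  have hcross : a * b' = a' * b := by
    apply Subtype.ext
    funext τ
    show (a : ℍ → ℂ) τ * (b' : ℍ → ℂ) τ = (a' : ℍ → ℂ) τ * (b : ℍ → ℂ) τ
    refine cancel_mdiff hW₂ hne
      (a := fun τ => (a : ℍ → ℂ) τ * (b' : ℍ → ℂ) τ)
      (b := fun τ => (a' : ℍ → ℂ) τ * (b : ℍ → ℂ) τ)
      ((continuous_modRing N a).mul (continuous_modRing N b'))
      ((continuous_modRing N a').mul (continuous_modRing N b)) (fun τ => ?_) τ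
    have e1 := hpt τ
    have e2 := hpt' τ
    linear_combination (b' : ℍ → ℂ) τ * e1 - (b : ℍ → ℂ) τ * e2
  apply (phiC N).toRingHom.injective
  show phiC N h = phiC N h'
  have e1 : phiC N h = algebraMap (modRing ℂ N) (ModField ℂ N) a
      / algebraMap (modRing ℂ N) (ModField ℂ N) b := by
    rw [eq_div_iff hbF, hab]
  have e2 : phiC N h' = algebraMap (modRing ℂ N) (ModField ℂ N) a'
      / algebraMap (modRing ℂ N) (ModField ℂ N) b' := by
    rw [eq_div_iff hbF', hab']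
  rw [e1, e2, div_eq_div_iff hbF hbF', ← map_mul, ← map_mul, hcross]

theorem realizes_one (N : ℕ) [NeZero N] (W : ℍ → ℂ) : Realizes N 1 W W :=
  ⟨1, 1, one_ne_zero, by rw [map_one, map_one, mul_one], fun τ => rfl⟩

theorem realizes_const (N : ℕ) [NeZero N] (c : ℂ) :
    Realizes N (algebraMap ℂ (FC N) c) (fun _ => c) (fun _ => 1) := by
  refine ⟨algebraMap ℂ (modRing ℂ N) c, 1, one_ne_zero, ?_, fun τ => ?_⟩
  · rw [map_one, mul_one, AlgHom.commutes, ← IsScalarTower.algebraMap_apply]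
  · show c * 1 = 1 * c
    ring

theorem realizes_mul (N : ℕ) [NeZero N] {h h' : FC N} {W₁ W₂ W₁' W₂' : ℍ → ℂ}
    (hr : Realizes N h W₁ W₂) (hr' : Realizes N h' W₁' W₂') :
    Realizes N (h * h') (fun τ => W₁ τ * W₁' τ) (fun τ => W₂ τ * W₂' τ) := by
  obtain ⟨a, b, hb0, hab, hpt⟩ := hr
  obtain ⟨a', b', hb0', hab', hpt'⟩ := hr'
  refine ⟨a * a', b * b', mul_ne_zero hb0 hb0', ?_, fun τ => ?_⟩
  · rw [map_mul, map_mul, map_mul, ← hab, ← hab']
    ring
  · show (a : ℍ → ℂ) τ * (a' : ℍ → ℂ) τ * (W₂ τ * W₂' τ)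
      = (b : ℍ → ℂ) τ * (b' : ℍ → ℂ) τ * (W₁ τ * W₁' τ)
    have e1 := hpt τ
    have e2 := hpt' τ
    linear_combination (a' : ℍ → ℂ) τ * W₂' τ * e1 + (b : ℍ → ℂ) τ * W₁ τ * e2

theorem realizes_pow (N : ℕ) [NeZero N] {h : FC N} {W₁ W₂ : ℍ → ℂ}
    (hr : Realizes N h W₁ W₂) (n : ℕ) :
    Realizes N (h ^ n) (fun τ => W₁ τ ^ n) (fun τ => W₂ τ ^ n) := by
  induction n with
  | zero =>
    simp only [pow_zero]
    exact realizes_one N _
  | succ n ih =>
    simp only [pow_succ]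
    exact realizes_mul N ih hr

theorem realizes_inv (N : ℕ) [NeZero N] {h : FC N} {W₁ W₂ : ℍ → ℂ}
    (hr : Realizes N h W₁ W₂) (hh : h ≠ 0) : Realizes N h⁻¹ W₂ W₁ := by
  obtain ⟨a, b, hb0, hab, hpt⟩ := hr
  have hbF := algebraMap_modRing_ne_zero N hb0
  have hφ : phiC N h ≠ 0 := (map_ne_zero_iff _ (phiC N).toRingHom.injective).mpr hh
  have ha0 : a ≠ 0 := by
    rintro rfl
    rw [map_zero] at hab
    exact mul_ne_zero hφ hbF hab
  refine ⟨b, a, ha0, ?_, fun τ => (hpt τ).symm⟩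
  rw [map_inv₀, ← hab]
  field_simp

/-- `Realizes` only depends on the quotient `W₁ / W₂` (cross-multiplied), for holomorphic data. -/
theorem realizes_congr (N : ℕ) [NeZero N] {h : FC N} {W₁ W₂ V₁ V₂ : ℍ → ℂ}
    (hr : Realizes N h W₁ W₂) (hW₂ : MDiff W₂) (hne : ∃ τ, W₂ τ ≠ 0)
    (hV₁ : Continuous V₁) (hV₂ : Continuous V₂)
    (hcross : ∀ τ, W₁ τ * V₂ τ = W₂ τ * V₁ τ) : Realizes N h V₁ V₂ := by
  obtain ⟨a, b, hb0, hab, hpt⟩ := hr
  refine ⟨a, b, hb0, hab, fun τ => ?_⟩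
  refine cancel_mdiff hW₂ hne
    (a := fun τ => (a : ℍ → ℂ) τ * V₂ τ) (b := fun τ => (b : ℍ → ℂ) τ * V₁ τ)
    ((continuous_modRing N a).mul hV₂) ((continuous_modRing N b).mul hV₁) (fun τ => ?_) τ
  have e1 := hpt τ
  have e2 := hcross τ
  linear_combination V₂ τ * e1 + (b : ℍ → ℂ) τ * e2

/-! ### Twisted forms of arbitrary weight -/

/-- a product of two holomorphic functions on `ℍ`, neither identically zero, is not identically
zero. -/
theorem exists_mul_ne_zero {f g : ℍ → ℂ} (hf : Continuous f) (hg : MDiff g)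
    (hf0 : ∃ τ, f τ ≠ 0) (hg0 : ∃ τ, g τ ≠ 0) : ∃ τ, f τ * g τ ≠ 0 := by
  by_contra hcon
  have hcon : ∀ τ, f τ * g τ = 0 := fun τ => by
    by_contra h
    exact hcon ⟨τ, h⟩
  obtain ⟨τ₀, hτ₀⟩ := hf0
  apply hτ₀
  exact cancel_mdiff hg hg0 (a := f) (b := fun _ => 0) hf continuous_const
    (fun τ => by rw [hcon τ, zero_mul]) τ₀

theorem exists_pow_ne_zero {f : ℍ → ℂ} (hf0 : ∃ τ, f τ ≠ 0) (n : ℕ) : ∃ τ, f τ ^ n ≠ 0 := by
  obtain ⟨τ₀, hτ₀⟩ := hf0
  exact ⟨τ₀, pow_ne_zero n hτ₀⟩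

/-- `W` is a holomorphic form of weight `k` on `Γ₀(N)` with multiplier `μ`, bounded at every
cusp. -/
structure IsTw (N k : ℕ) (μ : Gamma0 N → ℂ) (W : ℍ → ℂ) : Prop where
  mdiff : MDiff W
  slash : ∀ (γ : Gamma0 N) (τ : ℍ), W ((γ : SL(2, ℤ)) • τ)
    = μ γ * ((((γ : SL(2, ℤ)) 1 0 : ℤ) : ℂ) * (τ : ℂ) + (((γ : SL(2, ℤ)) 1 1 : ℤ) : ℂ)) ^ k * W τ
  bdd : ∀ δ : SL(2, ℤ), IsBoundedAtImInfty (W ∣[(k : ℤ)] δ)

theorem isTw_of_isTwisted {N p : ℕ} {χ : Additive (Gamma0 N) →+ ZMod p} {E : ℍ → ℂ}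
    (h : IsTwisted N p χ E) : IsTw N 4 (fun γ => zch p (χ (Additive.ofMul γ))) E :=
  ⟨h.mdiff, h.slash, h.bdd⟩

theorem IsTw.congr {N k k' : ℕ} {μ μ' : Gamma0 N → ℂ} {W W' : ℍ → ℂ} (h : IsTw N k μ W)
    (hk : k = k') (hμ : ∀ γ, μ γ = μ' γ) (hW : ∀ τ, W τ = W' τ) : IsTw N k' μ' W' := by
  subst hk
  obtain rfl : μ = μ' := funext hμ
  obtain rfl : W = W' := funext hW
  exact h

theorem IsTw.mul {N k k' : ℕ} {μ μ' : Gamma0 N → ℂ} {W W' : ℍ → ℂ} (h : IsTw N k μ W)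
    (h' : IsTw N k' μ' W') :
    IsTw N (k + k') (fun γ => μ γ * μ' γ) (fun τ => W τ * W' τ) := by
  refine ⟨h.mdiff.mul h'.mdiff, fun γ τ => ?_, fun δ => ?_⟩
  · show W ((γ : SL(2, ℤ)) • τ) * W' ((γ : SL(2, ℤ)) • τ) = _
    rw [h.slash γ τ, h'.slash γ τ, pow_add]
    ring
  · have : ((fun τ => W τ * W' τ) ∣[((k + k' : ℕ) : ℤ)] δ)
        = (W ∣[(k : ℤ)] δ) * (W' ∣[(k' : ℤ)] δ) := by
      rw [Nat.cast_add]
      exact ModularForm.mul_slash_SL2 (k : ℤ) (k' : ℤ) δ W W'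
    rw [this]
    exact Filter.BoundedAtFilter.mul (h.bdd δ) (h'.bdd δ)

theorem isTw_one (N : ℕ) : IsTw N 0 (fun _ => 1) (fun _ => 1) := by
  refine ⟨mdifferentiable_const, fun γ τ => by simp, fun δ => ?_⟩
  have : ((fun _ : ℍ => (1 : ℂ)) ∣[((0 : ℕ) : ℤ)] δ) = fun _ => 1 := by
    funext τ
    rw [ModularForm.SL_slash_apply]
    simp
  rw [this]
  exact Filter.const_boundedAtFilter _ _

theorem IsTw.pow {N k : ℕ} {μ : Gamma0 N → ℂ} {W : ℍ → ℂ} (h : IsTw N k μ W) (n : ℕ) :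
    IsTw N (k * n) (fun γ => μ γ ^ n) (fun τ => W τ ^ n) := by
  induction n with
  | zero => exact (isTw_one N).congr (by simp) (fun γ => by simp) (fun τ => by simp)
  | succ n ih =>
    exact (ih.mul h).congr (by ring) (fun γ => by rw [pow_succ]) (fun τ => by rw [pow_succ])

theorem IsTw.isLevelForm {N k : ℕ} {μ : Gamma0 N → ℂ} {W : ℍ → ℂ} (h : IsTw N k μ W)
    (hμ : ∀ γ, μ γ = 1) : IsLevelForm N k W := by
  refine ⟨h.mdiff, fun γ hγ τ => ?_, h.bdd⟩
  have hγ0 : γ ∈ Gamma0 N := by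
    rw [Gamma0_mem]
    rw [Gamma_mem] at hγ
    exact hγ.2.2.1
  have := h.slash ⟨γ, hγ0⟩ τ
  rw [hμ, one_mul] at this
  exact this

/-- existence for forms on `Γ₀(N)` with trivial multiplier. -/
theorem exists_realizes_tw (N : ℕ) [NeZero N] (k : ℕ) (W₁ W₂ : ℍ → ℂ)
    (h₁ : IsTw N (12 * k) (fun _ => 1) W₁) (h₂ : IsTw N (12 * k) (fun _ => 1) W₂)
    (hne : ∃ τ, W₂ τ ≠ 0) : ∃ h : FC N, Realizes N h W₁ W₂ :=
  exists_realizes N k W₁ W₂ (h₁.isLevelForm fun _ => rfl) (h₂.isLevelForm fun _ => rfl) hne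
    (fun γ hγ τ => by
      have e1 := h₁.slash ⟨γ, hγ⟩ τ
      have e2 := h₂.slash ⟨γ, hγ⟩ τ
      simp only at e1 e2
      rw [e1, e2]
      ring)

/-! ### the character `zch` -/

theorem zch_pow_self (p : ℕ) [NeZero p] (x : ZMod p) : zch p x ^ p = 1 := by
  unfold zch
  rw [← Complex.exp_nat_mul, Complex.exp_eq_one_iff]
  refine ⟨x.val, ?_⟩
  have hp : (p : ℂ) ≠ 0 := Nat.cast_ne_zero.mpr (NeZero.ne p)
  push_cast
  field_simp

theorem zch_eq_one_iff (p : ℕ) [NeZero p] (x : ZMod p) : zch p x = 1 ↔ x = 0 := by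
  constructor
  · intro h
    unfold zch at h
    rw [Complex.exp_eq_one_iff] at h
    obtain ⟨n, hn⟩ := h
    have hp : (p : ℂ) ≠ 0 := Nat.cast_ne_zero.mpr (NeZero.ne p)
    have hpi : (2 * Real.pi * Complex.I : ℂ) ≠ 0 := Complex.two_pi_I_ne_zero
    have h2 : ((x.val : ℤ) : ℂ) = ((n * p : ℤ) : ℂ) := by
      push_cast
      field_simp at hn
      linear_combination hn
    have h3 : (x.val : ℤ) = n * p := by exact_mod_cast h2
    have hlt : x.val < p := ZMod.val_lt x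
    have hdvd : (p : ℤ) ∣ (x.val : ℤ) := ⟨n, by rw [h3]; ring⟩
    have hdvd' : p ∣ x.val := by exact_mod_cast hdvd
    have hv : x.val = 0 := Nat.eq_zero_of_dvd_of_lt hdvd' hlt
    exact (ZMod.val_eq_zero x).mp hv
  · rintro rfl
    exact Eis.zch_zero p

/-! ### Quotients of twisted forms -/

/-- **Quotients of twisted forms**: two forms on `Γ₀(N)` of the same weight `4 K` and the same
multiplier `(zch ∘ χ) ^ j` have a quotient in the function field. -/
theorem exists_realizes_of_tw (N p : ℕ) [NeZero N] [NeZero p]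
    (χ : Additive (Gamma0 N) →+ ZMod p) (E E₀ : ℍ → ℂ) (hE : IsTwisted N p χ E)
    (hE₀ : IsTwisted N p 0 E₀) (K j : ℕ) (W₁ W₂ : ℍ → ℂ)
    (h₁ : IsTw N (4 * K) (fun γ => zch p (χ (Additive.ofMul γ)) ^ j) W₁)
    (h₂ : IsTw N (4 * K) (fun γ => zch p (χ (Additive.ofMul γ)) ^ j) W₂)
    (hne : ∃ τ, W₂ τ ≠ 0) : ∃ h : FC N, Realizes N h W₁ W₂ := by
  obtain ⟨m, k, hk⟩ : ∃ m k : ℕ, K + (p - 1) * j + m = 3 * k :=
    ⟨3 - (K + (p - 1) * j) % 3, (K + (p - 1) * j) / 3 + 1, by omega⟩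
  have hp1 : p - 1 + 1 = p := Nat.sub_add_cancel (NeZero.pos p)
  set X : ℍ → ℂ := fun τ => E τ ^ ((p - 1) * j) * E₀ τ ^ m with hX
  have hXtw : IsTw N (4 * ((p - 1) * j) + 4 * m)
      (fun γ => zch p (χ (Additive.ofMul γ)) ^ ((p - 1) * j)
        * zch p ((0 : Additive (Gamma0 N) →+ ZMod p) (Additive.ofMul γ)) ^ m) X :=
    ((isTw_of_isTwisted hE).pow ((p - 1) * j)).mul ((isTw_of_isTwisted hE₀).pow m)
  have hXne : ∃ τ, X τ ≠ 0 :=
    exists_mul_ne_zero ((isTw_of_isTwisted hE).pow ((p - 1) * j)).mdiff.continuous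
      ((isTw_of_isTwisted hE₀).pow m).mdiff (exists_pow_ne_zero hE.ne _)
      (exists_pow_ne_zero hE₀.ne _)
  have hmul : ∀ W, IsTw N (4 * K) (fun γ => zch p (χ (Additive.ofMul γ)) ^ j) W →
      IsTw N (12 * k) (fun _ => 1) (fun τ => W τ * X τ) := by
    intro W hW
    refine (hW.mul hXtw).congr (by omega) (fun γ => ?_) (fun τ => rfl)
    show zch p (χ (Additive.ofMul γ)) ^ j * (zch p (χ (Additive.ofMul γ)) ^ ((p - 1) * j)
        * zch p ((0 : Additive (Gamma0 N) →+ ZMod p) (Additive.ofMul γ)) ^ m) = 1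
    rw [AddMonoidHom.zero_apply, Eis.zch_zero, one_pow, mul_one, ← pow_add,
      show j + (p - 1) * j = p * j by
        conv_rhs => rw [← hp1]
        ring,
      pow_mul, zch_pow_self, one_pow]
  obtain ⟨h, hh⟩ := exists_realizes_tw N k _ _ (hmul W₁ h₁) (hmul W₂ h₂)
    (exists_mul_ne_zero h₂.mdiff.continuous hXtw.mdiff hne hXne)
  exact ⟨h, realizes_congr N hh (h₂.mdiff.mul hXtw.mdiff)
    (exists_mul_ne_zero h₂.mdiff.continuous hXtw.mdiff hne hXne)
    h₁.mdiff.continuous h₂.mdiff.continuous (fun τ => by ring)⟩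

/-- `E₁ ^ p / E₂ ^ p` is (realized by) an element of the function field of `X₀(N)`. -/
theorem exists_kum_aux (N p : ℕ) [NeZero N] [NeZero p] (χ : Additive (Gamma0 N) →+ ZMod p)
    (E₁ E₂ : ℍ → ℂ) (h₁ : IsTwisted N p χ E₁) (h₂ : IsTwisted N p 0 E₂) :
    ∃ h : FC N, Realizes N h (fun τ => E₁ τ ^ p) (fun τ => E₂ τ ^ p) := by
  refine exists_realizes_of_tw N p χ E₁ E₂ h₁ h₂ p p _ _ ?_ ?_ (exists_pow_ne_zero h₂.ne p)
  · exact (isTw_of_isTwisted h₁).pow p
  · refine ((isTw_of_isTwisted h₂).pow p).congr rfl (fun γ => ?_) (fun τ => rfl)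
    show zch p ((0 : Additive (Gamma0 N) →+ ZMod p) (Additive.ofMul γ)) ^ p
      = zch p (χ (Additive.ofMul γ)) ^ p
    rw [zch_pow_self, zch_pow_self]

/-- **Existence of Kummer functions** (interface form). -/
theorem exists_kum (N p : ℕ) [NeZero N] [NeZero p] (χ : Additive (Gamma0 N) →+ ZMod p)
    (hχ : IsAdm N p χ) (E₁ E₂ : ℍ → ℂ) (h₁ : IsTwisted N p χ E₁) (h₂ : IsTwisted N p 0 E₂) :
    ∃ h : FC N, Realizes N h (fun τ => E₁ τ ^ p) (fun τ => E₂ τ ^ p) :=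
  exists_kum_aux N p χ E₁ E₂ h₁ h₂

theorem exists_isKum (N p : ℕ) [NeZero N] [NeZero p] (χ : Additive (Gamma0 N) →+ ZMod p)
    (E₁ E₂ : ℍ → ℂ) (h₁ : IsTwisted N p χ E₁) (h₂ : IsTwisted N p 0 E₂) :
    ∃ h : FC N, IsKum N p χ h := by
  obtain ⟨h, hh⟩ := exists_kum_aux N p χ E₁ E₂ h₁ h₂
  exact ⟨h, E₁, E₂, h₁, h₂, hh⟩

end Fermat.Agent.S29.KumFun
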