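import Fermat.Agent.S29_BDefs2
import Fermat.Agent.S23_DeltaN
import Fermat.Agent.S24_Hermite

/-!
# S29, bridge (B5b): the Hecke relation for Kummer functions

For an admissible character `χ` of `Γ₀(N)` with Kummer function `h` (realized by
`E₁ ^ p / E₂ ^ p`) and a Kummer function `h'` of `T_ℓ χ`, the norm along `α` of `β h` is
`y ^ p * h'` for a nonzero function `y` of `X₀(N)`.

The file proves this (`kum_hecke_of`) relative to two analytic inputs, stated as hypotheses: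
`HN` (the norm along `α` of `β h` is realized by the products of the translates of the
numerator and of the denominator along the coset family `famT`) and `HE` (a `Γ₀(N)`-invariant
quotient of two level forms of weight `12 k` is a function of `X₀(N)`).

Own content: twisted forms of arbitrary weight in the slash formalism (`IsTw`), their products
along a coset family (`cosetProd`: automorphy with the character `tHom χ`, boundedness of every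
slash at `i∞` by the Hermite normal form), the comparison with the plain products of translates
for upper triangular families, the identity theorem on `ℍ`, and the algebra of `Realizes`.
-/

set_option autoImplicit false

noncomputable section

open UpperHalfPlane ModularCurve CongruenceSubgroup ModularForm
open scoped MatrixGroups Manifold ModularForm

namespace Fermat.Agent.S29.KumHecke

open Fermat.Agent.S29 Fermat.Agent.S16.LB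

/-! ### The additive character `zch` -/

theorem zch_zero (p : ℕ) : zch p 0 = 1 := by
  unfold zch
  simp

theorem zch_add (p : ℕ) [NeZero p] (x y : ZMod p) : zch p (x + y) = zch p x * zch p y := by
  unfold zch
  rw [← Complex.exp_add, ZMod.val_add]
  have hp : (p : ℂ) ≠ 0 := Nat.cast_ne_zero.mpr (NeZero.ne p)
  have h := Nat.div_add_mod (x.val + y.val) p
  have h2 : ((x.val : ℂ) + (y.val : ℂ)) = (p : ℂ) * ((x.val + y.val) / p : ℕ) + ((x.val + y.val) % p : ℕ) := by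
    exact_mod_cast h.symm
  have h3 : 2 * Real.pi * Complex.I * (x.val : ℂ) / p + 2 * Real.pi * Complex.I * (y.val : ℂ) / p
      = 2 * Real.pi * Complex.I * (((x.val + y.val) % p : ℕ) : ℂ) / p
        + (((x.val + y.val) / p : ℕ) : ℂ) * (2 * Real.pi * Complex.I) := by
    rw [← add_div, ← mul_add, h2]
    field_simp
    ring
  rw [h3, Complex.exp_add, Complex.exp_nat_mul_two_pi_mul_I, mul_one]

theorem zch_sum (p : ℕ) [NeZero p] {ι : Type*} (s : Finset ι) (f : ι → ZMod p) :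
    zch p (∑ i ∈ s, f i) = ∏ i ∈ s, zch p (f i) := by
  classical
  induction s using Finset.induction_on with
  | empty => simp [zch_zero]
  | insert a s ha ih => rw [Finset.sum_insert ha, Finset.prod_insert ha, zch_add, ih]

theorem zch_ne_zero (p : ℕ) (x : ZMod p) : zch p x ≠ 0 := Complex.exp_ne_zero _

/-! ### Twisted forms of arbitrary weight, in the slash formalism -/

/-- weight-`k` forms on `Γ₀(N)` with character `zch ∘ ψ` -/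
structure IsTw (N p k : ℕ) (ψ : Additive (Gamma0 N) →+ ZMod p) (W : ℍ → ℂ) : Prop where
  mdiff : MDiff W
  slash : ∀ γ : Gamma0 N, W ∣[(k : ℤ)] (γ : SL(2, ℤ)) = zch p (ψ (Additive.ofMul γ)) • W
  bdd : ∀ δ : SL(2, ℤ), IsBoundedAtImInfty (W ∣[(k : ℤ)] δ)

theorem explicit_of_slash {k : ℕ} {W : ℍ → ℂ} {γ : SL(2, ℤ)} {c : ℂ}
    (h : W ∣[(k : ℤ)] γ = c • W) (τ : ℍ) :
    W (γ • τ) = c * (((γ 1 0 : ℤ) : ℂ) * (τ : ℂ) + ((γ 1 1 : ℤ) : ℂ)) ^ k * W τ := by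
  have h1 := congrFun h τ
  rw [ModularForm.SL_slash_apply, Pi.smul_apply, smul_eq_mul] at h1
  have hden : denom γ τ ≠ 0 := denom_ne_zero _ τ
  have h2 : denom γ τ = ((γ 1 0 : ℤ) : ℂ) * (τ : ℂ) + ((γ 1 1 : ℤ) : ℂ) := by
    rw [ModularGroup.denom_apply]
  rw [← h2]
  rw [zpow_neg, zpow_natCast] at h1
  field_simp at h1
  rw [h1]; ring

theorem slash_of_explicit {k : ℕ} {W : ℍ → ℂ} {γ : SL(2, ℤ)} {c : ℂ}
    (h : ∀ τ : ℍ, W (γ • τ) = c * (((γ 1 0 : ℤ) : ℂ) * (τ : ℂ) + ((γ 1 1 : ℤ) : ℂ)) ^ k * W τ) :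
    W ∣[(k : ℤ)] γ = c • W := by
  funext τ
  rw [ModularForm.SL_slash_apply, Pi.smul_apply, smul_eq_mul, h τ]
  have hden : denom γ τ ≠ 0 := denom_ne_zero _ τ
  have h2 : denom γ τ = ((γ 1 0 : ℤ) : ℂ) * (τ : ℂ) + ((γ 1 1 : ℤ) : ℂ) := by
    rw [ModularGroup.denom_apply]
  rw [← h2, zpow_neg, zpow_natCast]
  field_simp

theorem isTw_of_isTwisted {N p : ℕ} {χ : Additive (Gamma0 N) →+ ZMod p} {E : ℍ → ℂ}
    (h : IsTwisted N p χ E) : IsTw N p 4 χ E where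
  mdiff := h.mdiff
  slash := fun γ => slash_of_explicit (fun τ => h.slash γ τ)
  bdd := h.bdd

theorem isTw_one (N p : ℕ) : IsTw N p 0 0 (1 : ℍ → ℂ) where
  mdiff := mdifferentiable_const
  slash := fun γ => by
    funext τ
    rw [ModularForm.SL_slash_apply]
    simp [zch_zero]
  bdd := fun δ => by
    have h : (1 : ℍ → ℂ) ∣[((0 : ℕ) : ℤ)] δ = 1 := by
      funext τ
      rw [ModularForm.SL_slash_apply]
      simp
    rw [h]
    exact (boundedAtImInftySubalgebra ℂ).one_mem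

theorem IsTw.mul {N p k₁ k₂ : ℕ} [NeZero p] {ψ₁ ψ₂ : Additive (Gamma0 N) →+ ZMod p}
    {W₁ W₂ : ℍ → ℂ} (h₁ : IsTw N p k₁ ψ₁ W₁) (h₂ : IsTw N p k₂ ψ₂ W₂) :
    IsTw N p (k₁ + k₂) (ψ₁ + ψ₂) (W₁ * W₂) where
  mdiff := h₁.mdiff.mul h₂.mdiff
  slash := fun γ => by
    rw [Nat.cast_add, ModularForm.mul_slash_SL2, h₁.slash γ, h₂.slash γ, AddMonoidHom.add_apply,
      zch_add]
    funext τ
    simp only [Pi.mul_apply, Pi.smul_apply, smul_eq_mul]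
    ring
  bdd := fun δ => by
    rw [Nat.cast_add, ModularForm.mul_slash_SL2]
    exact (boundedAtImInftySubalgebra ℂ).mul_mem (h₁.bdd δ) (h₂.bdd δ)

theorem IsTw.pow {N p k : ℕ} [NeZero p] {ψ : Additive (Gamma0 N) →+ ZMod p} {W : ℍ → ℂ}
    (h : IsTw N p k ψ W) (n : ℕ) : IsTw N p (n * k) (n • ψ) (W ^ n) := by
  induction n with
  | zero =>
    rw [zero_mul, zero_smul, pow_zero]
    exact isTw_one N p
  | succ n ih =>
    rw [Nat.succ_mul, succ_nsmul, pow_succ]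
    exact ih.mul h

theorem IsTw.const_smul {N p k : ℕ} {ψ : Additive (Gamma0 N) →+ ZMod p} {W : ℍ → ℂ}
    (h : IsTw N p k ψ W) (c : ℂ) : IsTw N p k ψ (c • W) where
  mdiff := h.mdiff.const_smul c
  slash := fun γ => by
    rw [ModularForm.SL_smul_slash, h.slash γ, smul_comm]
  bdd := fun δ => by
    rw [ModularForm.SL_smul_slash]
    exact (boundedAtImInftySubalgebra ℂ).smul_mem (h.bdd δ) c

theorem IsTw.isLevelForm {N p k : ℕ} {W : ℍ → ℂ} (h : IsTw N p k 0 W) : IsLevelForm N k W where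
  mdiff := h.mdiff
  slash := fun γ hγ τ => by
    have hγ0 : γ ∈ Gamma0 N := by
      rw [Gamma0_mem]
      exact (Gamma_mem.mp hγ).2.2.1
    have h1 := explicit_of_slash (h.slash ⟨γ, hγ0⟩) τ
    rw [AddMonoidHom.zero_apply, zch_zero, one_mul] at h1
    exact h1
  bdd := h.bdd

theorem IsTw.hinv {N p k : ℕ} {ψ : Additive (Gamma0 N) →+ ZMod p} {W₁ W₂ : ℍ → ℂ}
    (h₁ : IsTw N p k ψ W₁) (h₂ : IsTw N p k ψ W₂) :
    ∀ γ ∈ Gamma0 N, ∀ τ : ℍ, W₁ (γ • τ) * W₂ τ = W₁ τ * W₂ (γ • τ) := by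
  intro γ hγ τ
  rw [explicit_of_slash (h₁.slash ⟨γ, hγ⟩) τ, explicit_of_slash (h₂.slash ⟨γ, hγ⟩) τ]
  ring

/-! ### Slash by upper triangular matrices and boundedness -/

open Fermat.Agent.S23.DeltaN in
theorem isBoundedAtImInfty_slash_upper {f : ℍ → ℂ} (hf : IsBoundedAtImInfty f) (k : ℤ)
    (a b d : ℝ) (ha : 0 < a) (hd : 0 < d) :
    IsBoundedAtImInfty (f ∣[k] upperTriangularGL a b d (mul_pos ha hd).ne') := by
  rw [isBoundedAtImInfty_iff] at hf ⊢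
  obtain ⟨M, A, hMA⟩ := hf
  refine ⟨M * (a * d) ^ (k - 1) * d ^ (-k), A * d / a, fun z hz => ?_⟩
  rw [slash_upperTriangular_norm k a b d ha hd f z]
  have him : A ≤ (upperTriangularGL a b d (mul_pos ha hd).ne' • z).im := by
    rw [im_upperTriangular_smul a b d ha hd z]
    rw [div_le_iff₀ ha] at hz
    rw [le_div_iff₀ hd]
    linarith
  have h1 := hMA _ him
  have h2 : (0 : ℝ) ≤ (a * d) ^ (k - 1) := zpow_nonneg (mul_pos ha hd).le _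
  have h3 : (0 : ℝ) ≤ d ^ (-k) := zpow_nonneg hd.le _
  exact mul_le_mul_of_nonneg_right (mul_le_mul_of_nonneg_right h1 h2) h3

/-! ### Products of slashes along a coset family -/

theorem prod_slash_SL2 {ι : Type*} (s : Finset ι) (f : ι → ℍ → ℂ) (k : ℕ) (γ : SL(2, ℤ)) :
    (∏ i ∈ s, f i) ∣[((s.card * k : ℕ) : ℤ)] γ = ∏ i ∈ s, (f i ∣[(k : ℤ)] γ) := by
  classical
  induction s using Finset.induction_on with
  | empty =>
    funext τ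
    rw [Finset.prod_empty, Finset.prod_empty, ModularForm.SL_slash_apply]
    simp
  | insert a s ha ih =>
    rw [Finset.prod_insert ha, Finset.prod_insert ha, Finset.card_insert_of_notMem ha,
      show (((s.card + 1) * k : ℕ) : ℤ) = (k : ℤ) + ((s.card * k : ℕ) : ℤ) by push_cast; ring,
      ModularForm.mul_slash_SL2, ih]

/-- the product of the slashes of `E` along a coset family -/
def cosetProd {N : ℕ} (𝒜 : CosetFam N) (k : ℕ) (E : ℍ → ℂ) : ℍ → ℂ :=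
  ∏ i, E ∣[(k : ℤ)] (𝒜.A i)

theorem det_pos' {N : ℕ} (𝒜 : CosetFam N) (i : 𝒜.ι) : 0 < (𝒜.A i).det.val := by
  rw [Matrix.GeneralLinearGroup.val_det_apply, 𝒜.hA, ← Int.cast_det]
  exact_mod_cast 𝒜.hdet i

theorem σ_cosetFam {N : ℕ} (𝒜 : CosetFam N) (i : 𝒜.ι) (c : ℂ) : σ (𝒜.A i) c = c := by
  rw [σ, if_pos (det_pos' 𝒜 i)]
  rfl

theorem slash_glOf (f : ℍ → ℂ) (k : ℤ) (γ : SL(2, ℤ)) :
    f ∣[k] (Fermat.Agent.S22.glOf γ) = f ∣[k] γ := rfl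

theorem cosetProd_mdiff {N : ℕ} (𝒜 : CosetFam N) (k : ℕ) {E : ℍ → ℂ} (hE : MDiff E) :
    MDiff (cosetProd 𝒜 k E) :=
  MDifferentiable.prod fun _ _ => MDifferentiable.slash hE _ _

theorem cosetProd_slash {N p : ℕ} [NeZero p] (𝒜 : CosetFam N) (k : ℕ)
    {χ : Additive (Gamma0 N) →+ ZMod p} {E : ℍ → ℂ}
    (hE : ∀ γ : Gamma0 N, E ∣[(k : ℤ)] (γ : SL(2, ℤ)) = zch p (χ (Additive.ofMul γ)) • E)
    (γ : Gamma0 N) :
    (cosetProd 𝒜 k E) ∣[((Fintype.card 𝒜.ι * k : ℕ) : ℤ)] (γ : SL(2, ℤ))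
      = zch p (𝒜.tHom χ (Additive.ofMul γ)) • cosetProd 𝒜 k E := by
  unfold cosetProd
  rw [← Finset.card_univ, prod_slash_SL2]
  have h1 : ∀ i, (E ∣[(k : ℤ)] (𝒜.A i)) ∣[(k : ℤ)] (γ : SL(2, ℤ))
      = zch p (χ (Additive.ofMul (𝒜.kap γ i))) • (E ∣[(k : ℤ)] (𝒜.A (𝒜.perm γ i))) := by
    intro i
    rw [← slash_glOf, ← SlashAction.slash_mul, 𝒜.spec γ i, SlashAction.slash_mul, slash_glOf,
      hE (𝒜.kap γ i), ModularForm.smul_slash, σ_cosetFam]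
  rw [Finset.prod_congr rfl (fun i _ => h1 i), CosetFam.tHom_apply, zch_sum]
  funext τ
  simp only [Finset.prod_apply, Pi.smul_apply, smul_eq_mul]
  rw [Finset.prod_mul_distrib]
  congr 1
  exact Equiv.prod_comp (𝒜.perm γ) (fun j => (E ∣[(k : ℤ)] (𝒜.A j)) τ)


theorem hermite_gl {N : ℕ} (𝒜 : CosetFam N) (i : 𝒜.ι) (δ : SL(2, ℤ)) :
    ∃ (δ' : SL(2, ℤ)) (a b d : ℝ) (ha : 0 < a) (hd : 0 < d),
      𝒜.A i * Fermat.Agent.S22.glOf δ
        = Fermat.Agent.S22.glOf δ' * upperTriangularGL a b d (mul_pos ha hd).ne' := by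
  have hdet : 0 < (𝒜.a i * (δ : Matrix (Fin 2) (Fin 2) ℤ)).det := by
    rw [Matrix.det_mul, Matrix.SpecialLinearGroup.det_coe, mul_one]
    exact 𝒜.hdet i
  obtain ⟨δ', a, b, d, ha, hd, -, -, h⟩ := Fermat.Agent.S24.Hermite.exists_hermite _ hdet
  refine ⟨δ', a, b, d, by exact_mod_cast ha, by exact_mod_cast hd, ?_⟩
  apply Units.ext
  rw [Units.val_mul, Units.val_mul, 𝒜.hA, Fermat.Agent.S22.glOf_val, Fermat.Agent.S22.glOf_val,
    val_upperTriangularGL, ← map_intCast_mul, h, map_intCast_mul]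
  congr 1
  ext i j
  fin_cases i <;> fin_cases j <;> simp

theorem cosetProd_bdd {N : ℕ} (𝒜 : CosetFam N) (k : ℕ) {E : ℍ → ℂ}
    (hE : ∀ δ : SL(2, ℤ), IsBoundedAtImInfty (E ∣[(k : ℤ)] δ)) (δ : SL(2, ℤ)) :
    IsBoundedAtImInfty ((cosetProd 𝒜 k E) ∣[((Fintype.card 𝒜.ι * k : ℕ) : ℤ)] δ) := by
  unfold cosetProd
  rw [← Finset.card_univ, prod_slash_SL2]
  refine prod_mem (S := boundedAtImInftySubalgebra ℂ) (fun i _ => ?_)
  obtain ⟨δ', a, b, d, ha, hd, h⟩ := hermite_gl 𝒜 i δ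
  show IsBoundedAtImInfty ((E ∣[(k : ℤ)] (𝒜.A i)) ∣[(k : ℤ)] δ)
  rw [← slash_glOf, ← SlashAction.slash_mul, h, SlashAction.slash_mul, slash_glOf]
  exact isBoundedAtImInfty_slash_upper (hE δ') k a b d ha hd

theorem IsTw.cosetProd {N p k : ℕ} [NeZero p] (𝒜 : CosetFam N)
    {χ : Additive (Gamma0 N) →+ ZMod p} {E : ℍ → ℂ} (h : IsTw N p k χ E) :
    IsTw N p (Fintype.card 𝒜.ι * k) (𝒜.tHom χ) (cosetProd 𝒜 k E) where
  mdiff := cosetProd_mdiff 𝒜 k h.mdiff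
  slash := cosetProd_slash 𝒜 k h.slash
  bdd := cosetProd_bdd 𝒜 k h.bdd

/-! ### Upper triangular families: slashes are constant multiples of compositions -/

/-- the constant relating the slash by `𝒜.A i` and the composition with `𝒜.A i` -/
def cFac {N : ℕ} (𝒜 : CosetFam N) (k : ℕ) (i : 𝒜.ι) : ℂ :=
  (((𝒜.a i).det : ℤ) : ℂ) ^ ((k : ℤ) - 1) * (((𝒜.a i 1 1 : ℤ) : ℂ)) ^ (-(k : ℤ))

theorem a11_ne_zero {N : ℕ} (𝒜 : CosetFam N) (h10 : ∀ i, 𝒜.a i 1 0 = 0) (i : 𝒜.ι) :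
    𝒜.a i 1 1 ≠ 0 := by
  intro h
  have := 𝒜.hdet i
  rw [Matrix.det_fin_two, h10 i, h] at this
  simp at this

theorem cFac_ne_zero {N : ℕ} (𝒜 : CosetFam N) (h10 : ∀ i, 𝒜.a i 1 0 = 0) (k : ℕ) (i : 𝒜.ι) :
    cFac 𝒜 k i ≠ 0 := by
  unfold cFac
  refine mul_ne_zero (zpow_ne_zero _ ?_) (zpow_ne_zero _ ?_)
  · exact_mod_cast (𝒜.hdet i).ne'
  · exact_mod_cast a11_ne_zero 𝒜 h10 i

theorem slash_eq_cFac {N : ℕ} (𝒜 : CosetFam N) (h10 : ∀ i, 𝒜.a i 1 0 = 0) (k : ℕ) (E : ℍ → ℂ)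
    (i : 𝒜.ι) (τ : ℍ) : (E ∣[(k : ℤ)] (𝒜.A i)) τ = cFac 𝒜 k i * E (𝒜.A i • τ) := by
  rw [ModularForm.slash_apply, σ_cosetFam]
  have hdet : ((𝒜.A i).det.val : ℝ) = (((𝒜.a i).det : ℤ) : ℝ) := by
    rw [Matrix.GeneralLinearGroup.val_det_apply, 𝒜.hA, ← Int.cast_det]
  have hden : denom (𝒜.A i) τ = (((𝒜.a i 1 1 : ℤ)) : ℂ) := by
    have h1 : ((𝒜.A i : GL (Fin 2) ℝ) : Matrix (Fin 2) (Fin 2) ℝ) 1 0 = 0 := by
      rw [𝒜.hA, Matrix.map_apply, h10 i, Int.cast_zero]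
    have h2 : ((𝒜.A i : GL (Fin 2) ℝ) : Matrix (Fin 2) (Fin 2) ℝ) 1 1 = ((𝒜.a i 1 1 : ℤ) : ℝ) := by
      rw [𝒜.hA, Matrix.map_apply]
    unfold denom
    rw [h1, h2]
    push_cast
    ring
  rw [hdet, hden, abs_of_pos (by exact_mod_cast 𝒜.hdet i), Complex.ofReal_intCast]
  unfold cFac
  ring

theorem cosetProd_eq {N : ℕ} (𝒜 : CosetFam N) (h10 : ∀ i, 𝒜.a i 1 0 = 0) (k : ℕ) (E : ℍ → ℂ) :
    cosetProd 𝒜 k E = (∏ i, cFac 𝒜 k i) • (fun τ => ∏ i, E (𝒜.A i • τ)) := by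
  funext τ
  unfold cosetProd
  rw [Finset.prod_apply, Pi.smul_apply, smul_eq_mul, ← Finset.prod_mul_distrib]
  exact Finset.prod_congr rfl (fun i _ => slash_eq_cFac 𝒜 h10 k E i τ)

/-- the plain product of the translates of `E` along an upper triangular coset family -/
def plainProd {N : ℕ} (𝒜 : CosetFam N) (E : ℍ → ℂ) : ℍ → ℂ := fun τ => ∏ i, E (𝒜.A i • τ)

theorem plainProd_eq {N : ℕ} (𝒜 : CosetFam N) (h10 : ∀ i, 𝒜.a i 1 0 = 0) (k : ℕ) (E : ℍ → ℂ) :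
    plainProd 𝒜 E = (∏ i, cFac 𝒜 k i)⁻¹ • cosetProd 𝒜 k E := by
  rw [cosetProd_eq 𝒜 h10 k E, smul_smul, inv_mul_cancel₀, one_smul]
  · rfl
  · exact Finset.prod_ne_zero_iff.mpr (fun i _ => cFac_ne_zero 𝒜 h10 k i)

theorem IsTw.plainProd {N p k : ℕ} [NeZero p] (𝒜 : CosetFam N) (h10 : ∀ i, 𝒜.a i 1 0 = 0)
    {χ : Additive (Gamma0 N) →+ ZMod p} {E : ℍ → ℂ} (h : IsTw N p k χ E) :
    IsTw N p (Fintype.card 𝒜.ι * k) (𝒜.tHom χ) (plainProd 𝒜 E) := by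
  rw [plainProd_eq 𝒜 h10 k E]
  exact (h.cosetProd 𝒜).const_smul _

/-! ### The identity theorem on `ℍ` -/

theorem mdiff_mul_ne {f g : ℍ → ℂ} (hf : MDiff f) (hg : MDiff g) (hf0 : ∃ τ, f τ ≠ 0)
    (hg0 : ∃ τ, g τ ≠ 0) : ∃ τ, f τ * g τ ≠ 0 := by
  by_contra hcon
  push Not at hcon
  obtain ⟨τ₀, h0⟩ := hf0
  obtain ⟨τ₁, h1⟩ := hg0
  have hfa := Fermat.Agent.S24.JAnalytic.analyticAt_comp_ofComplex hf τ₀
  have hga : AnalyticOnNhd ℂ (fun z : ℂ => g (ofComplex z)) {z | 0 < z.im} := fun z hz =>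
    Fermat.Agent.S24.JAnalytic.analyticAt_comp_ofComplex hg ⟨z, hz⟩
  have hev : ∀ᶠ z in nhds (τ₀ : ℂ), (fun z : ℂ => g (ofComplex z)) z = 0 := by
    have h2 : ∀ᶠ z in nhds (τ₀ : ℂ), f (ofComplex z) ≠ 0 :=
      hfa.continuousAt.eventually_ne (by simpa using h0)
    filter_upwards [h2] with z hz
    exact (mul_eq_zero.mp (hcon (ofComplex z))).resolve_left hz
  have hzero := hga.eqOn_zero_of_preconnected_of_eventuallyEq_zero
    (convex_halfSpace_im_gt 0).isPreconnected τ₀.im_pos hev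
  have h3 := hzero τ₁.im_pos
  simp only [Pi.zero_apply, ofComplex_apply] at h3
  exact h1 h3

theorem mdiff_pow_ne {f : ℍ → ℂ} (hf0 : ∃ τ, f τ ≠ 0) (n : ℕ) : ∃ τ, f τ ^ n ≠ 0 := by
  obtain ⟨τ, h⟩ := hf0
  exact ⟨τ, pow_ne_zero n h⟩

theorem plainProd_ne {N : ℕ} (𝒜 : CosetFam N) (h10 : ∀ i, 𝒜.a i 1 0 = 0) {k : ℕ} {E : ℍ → ℂ}
    (hE : MDiff E) (hne : ∃ τ, E τ ≠ 0) : ∃ τ, plainProd 𝒜 E τ ≠ 0 := by
  classical
  have key : ∀ s : Finset 𝒜.ι, MDiff (fun τ => ∏ i ∈ s, E (𝒜.A i • τ)) ∧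
      ∃ τ, ∏ i ∈ s, E (𝒜.A i • τ) ≠ 0 := by
    intro s
    have hcomp : ∀ i, MDiff (fun τ => E (𝒜.A i • τ)) := by
      intro i
      have h1 : (fun τ => E (𝒜.A i • τ)) = (cFac 𝒜 k i)⁻¹ • (E ∣[(k : ℤ)] (𝒜.A i)) := by
        funext τ
        rw [Pi.smul_apply, smul_eq_mul, slash_eq_cFac 𝒜 h10 k E i τ, ← mul_assoc,
          inv_mul_cancel₀ (cFac_ne_zero 𝒜 h10 k i), one_mul]
      rw [h1]
      exact (MDifferentiable.slash hE _ _).const_smul _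
    induction s using Finset.induction_on with
    | empty => exact ⟨by simpa using mdifferentiable_const, by simp⟩
    | insert a s ha ih =>
      have h2 : (fun τ => ∏ i ∈ insert a s, E (𝒜.A i • τ))
          = (fun τ => E (𝒜.A a • τ)) * (fun τ => ∏ i ∈ s, E (𝒜.A i • τ)) := by
        funext τ
        rw [Finset.prod_insert ha]
        rfl
      refine ⟨by rw [h2]; exact (hcomp a).mul ih.1, ?_⟩
      have h3 : ∃ τ, E (𝒜.A a • τ) ≠ 0 := by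
        obtain ⟨τ, hτ⟩ := hne
        exact ⟨(𝒜.A a)⁻¹ • τ, by rwa [smul_inv_smul]⟩
      obtain ⟨τ, hτ⟩ := mdiff_mul_ne (hcomp a) ih.1 h3 ih.2
      exact ⟨τ, by rw [Finset.prod_insert ha]; exact hτ⟩
  exact (key Finset.univ).2


/-! ### Algebra of `Realizes` -/

open Fermat.Agent.S24.Tower

theorem realizes_pow' {N : ℕ} [NeZero N] {y : FC N} {W₁ W₂ : ℍ → ℂ} (h : Realizes N y W₁ W₂)
    (n : ℕ) : Realizes N (y ^ n) (fun τ => W₁ τ ^ n) (fun τ => W₂ τ ^ n) := by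
  obtain ⟨a, b, hb, hab, hpt⟩ := h
  refine ⟨a ^ n, b ^ n, pow_ne_zero n hb, ?_, fun τ => ?_⟩
  · rw [map_pow, map_pow, map_pow, ← mul_pow, hab]
  · show ((a : ℍ → ℂ) τ) ^ n * W₂ τ ^ n = ((b : ℍ → ℂ) τ) ^ n * W₁ τ ^ n
    rw [← mul_pow, ← mul_pow, hpt τ]

theorem realizes_mul' {N : ℕ} [NeZero N] {y z : FC N} {W₁ W₂ V₁ V₂ : ℍ → ℂ}
    (h : Realizes N y W₁ W₂) (h' : Realizes N z V₁ V₂) :
    Realizes N (y * z) (fun τ => W₁ τ * V₁ τ) (fun τ => W₂ τ * V₂ τ) := by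
  obtain ⟨a, b, hb, hab, hpt⟩ := h
  obtain ⟨a', b', hb', hab', hpt'⟩ := h'
  refine ⟨a * a', b * b', mul_ne_zero hb hb', ?_, fun τ => ?_⟩
  · rw [map_mul, map_mul, map_mul, ← hab, ← hab']
    ring
  · show ((a : ℍ → ℂ) τ * (a' : ℍ → ℂ) τ) * (W₂ τ * V₂ τ)
      = ((b : ℍ → ℂ) τ * (b' : ℍ → ℂ) τ) * (W₁ τ * V₁ τ)
    linear_combination (a' : ℍ → ℂ) τ * V₂ τ * hpt τ + (b : ℍ → ℂ) τ * W₁ τ * hpt' τ

theorem realizes_ne_zero {N : ℕ} [NeZero N] {y : FC N} {W₁ W₂ : ℍ → ℂ}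
    (h : Realizes N y W₁ W₂) (hW₁ : MDiff W₁) (hne : ∃ τ, W₁ τ ≠ 0) : y ≠ 0 := by
  rintro rfl
  obtain ⟨a, b, hb, hab, hpt⟩ := h
  rw [map_zero, zero_mul] at hab
  have ha : a = 0 := by
    apply IsFractionRing.injective (modRing ℂ N) (ModField ℂ N)
    rw [← hab, map_zero]
  have hb' : ∃ τ, (b : ℍ → ℂ) τ ≠ 0 := by
    by_contra hcon
    push Not at hcon
    exact hb (Subtype.ext (funext hcon))
  obtain ⟨τ, hτ⟩ := mdiff_mul_ne b.2.1 hW₁ hb' hne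
  apply hτ
  rw [← hpt τ, ha]
  show (0 : ℂ) * W₂ τ = 0
  rw [zero_mul]

theorem realizes_eq {N : ℕ} [NeZero N] {x z : FC N} {U₁ U₂ V₁ V₂ : ℍ → ℂ}
    (hx : Realizes N x U₁ U₂) (hz : Realizes N z V₁ V₂) (hU₂ : MDiff U₂) (hV₂ : MDiff V₂)
    (hU₂ne : ∃ τ, U₂ τ ≠ 0) (hV₂ne : ∃ τ, V₂ τ ≠ 0)
    (hcross : ∀ τ, U₁ τ * V₂ τ = U₂ τ * V₁ τ) : x = z := by
  obtain ⟨a, b, hb, hab, hpt⟩ := hx
  obtain ⟨a', b', hb', hab', hpt'⟩ := hz
  have key : a * b' = a' * b := by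
    by_contra hne'
    have hD : ∃ τ, ((a * b' - a' * b : modRing ℂ N) : ℍ → ℂ) τ ≠ 0 := by
      by_contra hcon
      push Not at hcon
      apply hne'
      rw [← sub_eq_zero]
      exact Subtype.ext (funext hcon)
    obtain ⟨τ₁, hτ₁⟩ := mdiff_mul_ne hU₂ hV₂ hU₂ne hV₂ne
    obtain ⟨τ, hτ⟩ := mdiff_mul_ne (a * b' - a' * b).2.1 (hU₂.mul hV₂) hD ⟨τ₁, hτ₁⟩
    apply hτ
    show ((a : ℍ → ℂ) τ * (b' : ℍ → ℂ) τ - (a' : ℍ → ℂ) τ * (b : ℍ → ℂ) τ) * (U₂ τ * V₂ τ) = 0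
    linear_combination ((b' : ℍ → ℂ) τ * V₂ τ) * hpt τ - ((b : ℍ → ℂ) τ * U₂ τ) * hpt' τ
      + (b : ℍ → ℂ) τ * (b' : ℍ → ℂ) τ * hcross τ
  have hinj := IsFractionRing.injective (modRing ℂ N) (ModField ℂ N)
  have hb0 : algebraMap (modRing ℂ N) (ModField ℂ N) b ≠ 0 := (map_ne_zero_iff _ hinj).mpr hb
  have hb0' : algebraMap (modRing ℂ N) (ModField ℂ N) b' ≠ 0 := (map_ne_zero_iff _ hinj).mpr hb'
  have h1 : phiC N x * (algebraMap (modRing ℂ N) (ModField ℂ N) b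
        * algebraMap (modRing ℂ N) (ModField ℂ N) b')
      = phiC N z * (algebraMap (modRing ℂ N) (ModField ℂ N) b
        * algebraMap (modRing ℂ N) (ModField ℂ N) b') := by
    have e1 : phiC N x * (algebraMap (modRing ℂ N) (ModField ℂ N) b
        * algebraMap (modRing ℂ N) (ModField ℂ N) b')
        = algebraMap (modRing ℂ N) (ModField ℂ N) (a * b') := by
      rw [map_mul, ← hab]
      ring
    have e2 : phiC N z * (algebraMap (modRing ℂ N) (ModField ℂ N) b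
        * algebraMap (modRing ℂ N) (ModField ℂ N) b')
        = algebraMap (modRing ℂ N) (ModField ℂ N) (a' * b) := by
      rw [map_mul, ← hab']
      ring
    rw [e1, e2, key]
  exact (phiC N).injective (mul_right_cancel₀ (mul_ne_zero hb0 hb0') h1)

/-! ### The Hecke relation for Kummer functions -/

theorem IsTw.congr {N p k k' : ℕ} {ψ ψ' : Additive (Gamma0 N) →+ ZMod p} {W : ℍ → ℂ}
    (h : IsTw N p k ψ W) (hk : k = k') (hψ : ψ = ψ') : IsTw N p k' ψ' W := by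
  subst hk
  subst hψ
  exact h

theorem famT_h10 (N ℓ : ℕ) [NeZero N] [Fact ℓ.Prime] (hℓN : ¬ ℓ ∣ N) :
    ∀ i, (famT N ℓ hℓN).a i 1 0 = 0 := by
  intro x
  show aT ℓ x 1 0 = 0
  induction x using OnePoint.rec with
  | infty => simp [aT]
  | coe j => simp [aT]

theorem tHom_zero {N : ℕ} (𝒜 : CosetFam N) (B : Type*) [AddCommGroup B] :
    𝒜.tHom (0 : Additive (Gamma0 N) →+ B) = 0 := by
  rw [← CosetFam.tEnd_apply, map_zero]

/-- The Hecke relation for Kummer functions, relative to the two analytic inputs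
`HN` (the norm along `α` of `β h` is realized by the products of the translates) and
`HE` (a `Γ₀(N)`-invariant quotient of two level forms of weight `12 k` is a function of
`X₀(N)`). -/
theorem kum_hecke_of (N p ℓ : ℕ) [NeZero N] [Fact p.Prime] [Fact ℓ.Prime] (hℓN : ¬ ℓ ∣ N)
    (HN : ∀ (h : FC N) (W₁ W₂ : ℍ → ℂ), MDiff W₁ → MDiff W₂ → Realizes N h W₁ W₂ →
      Realizes N (normA ℂ N ℓ (heckeBetaBar ℂ N ℓ h))
        (fun τ => ∏ i : (famT N ℓ hℓN).ι, W₁ ((famT N ℓ hℓN).A i • τ))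
        (fun τ => ∏ i : (famT N ℓ hℓN).ι, W₂ ((famT N ℓ hℓN).A i • τ)))
    (HE : ∀ (k : ℕ) (W₁ W₂ : ℍ → ℂ), IsLevelForm N (12 * k) W₁ → IsLevelForm N (12 * k) W₂ →
      (∃ τ, W₂ τ ≠ 0) → (∀ γ ∈ Gamma0 N, ∀ τ : ℍ, W₁ (γ • τ) * W₂ τ = W₁ τ * W₂ (γ • τ)) →
      ∃ h : FC N, Realizes N h W₁ W₂)
    (χ : Additive (Gamma0 N) →+ ZMod p) (h h' : FC N) (hk : IsKum N p χ h)
    (hk' : IsKum N p ((famT N ℓ hℓN).tHom χ) h') :
    KumRel ℂ (FC N) p (normA ℂ N ℓ (heckeBetaBar ℂ N ℓ h)) h' := by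
  classical
  obtain ⟨E₁, E₂, hE₁, hE₂, hr⟩ := hk
  obtain ⟨F₁, F₂, hF₁, hF₂, hr'⟩ := hk'
  have hp : p ≠ 0 := (Fact.out : p.Prime).ne_zero
  have : NeZero p := ⟨hp⟩
  obtain ⟨q, hq⟩ : ∃ q : ℕ, q + 1 = p := ⟨p - 1, Nat.succ_pred_eq_of_ne_zero hp⟩
  have h10 := famT_h10 N ℓ hℓN
  have hcard : Fintype.card (famT N ℓ hℓN).ι = ℓ + 1 := card_famT N ℓ hℓN
  generalize famT N ℓ hℓN = 𝒜 at *
  -- the forms
  have tE₁ := isTw_of_isTwisted hE₁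
  have tE₂ := isTw_of_isTwisted hE₂
  have tF₁ := isTw_of_isTwisted hF₁
  have tF₂ := isTw_of_isTwisted hF₂
  have tP₁ := tE₁.plainProd 𝒜 h10
  have tP₂ := tE₂.plainProd 𝒜 h10
  rw [tHom_zero] at tP₂
  have nP₁ : ∃ τ, plainProd 𝒜 E₁ τ ≠ 0 := plainProd_ne 𝒜 h10 (k := 4) hE₁.mdiff hE₁.ne
  have nP₂ : ∃ τ, plainProd 𝒜 E₂ τ ≠ 0 := plainProd_ne 𝒜 h10 (k := 4) hE₂.mdiff hE₂.ne
  have nF₁ : ∀ n : ℕ, ∃ τ, (F₁ ^ n) τ ≠ 0 := fun n => mdiff_pow_ne hF₁.ne n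
  have nF₂ : ∀ n : ℕ, ∃ τ, (F₂ ^ n) τ ≠ 0 := fun n => mdiff_pow_ne hF₂.ne n
  set m : ℕ := 2 * (ℓ + 1 + p) with hm
  set k : ℕ := ℓ + 1 + p with hk
  have hchar : ∀ ψ : Additive (Gamma0 N) →+ ZMod p,
      ψ + 0 + q • ψ + m • (0 : Additive (Gamma0 N) →+ ZMod p) = 0 := by
    intro ψ
    rw [add_zero, smul_zero, add_zero, ← succ_nsmul', hq]
    refine AddMonoidHom.ext fun x => ?_
    rw [AddMonoidHom.nsmul_apply, nsmul_eq_mul, CharP.cast_eq_zero, zero_mul,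
      AddMonoidHom.zero_apply]
  -- numerator and denominator of `y`
  have tW₁ : IsTw N p (12 * k) 0 (plainProd 𝒜 E₁ * F₂ * F₁ ^ q * F₂ ^ m) :=
    (((tP₁.mul tF₂).mul (tF₁.pow q)).mul (tF₂.pow m)).congr (by omega) (hchar _)
  have tW₂ : IsTw N p (12 * k) 0 (F₁ * plainProd 𝒜 E₂ * F₁ ^ q * F₂ ^ m) :=
    (((tF₁.mul tP₂).mul (tF₁.pow q)).mul (tF₂.pow m)).congr (by omega) (hchar _)
  have nW₁ : ∃ τ, (plainProd 𝒜 E₁ * F₂ * F₁ ^ q * F₂ ^ m) τ ≠ 0 :=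
    mdiff_mul_ne ((tP₁.mul tF₂).mul (tF₁.pow q)).mdiff (tF₂.pow m).mdiff
      (mdiff_mul_ne (tP₁.mul tF₂).mdiff (tF₁.pow q).mdiff
        (mdiff_mul_ne tP₁.mdiff tF₂.mdiff nP₁ hF₂.ne) (nF₁ q)) (nF₂ m)
  have nW₂ : ∃ τ, (F₁ * plainProd 𝒜 E₂ * F₁ ^ q * F₂ ^ m) τ ≠ 0 :=
    mdiff_mul_ne ((tF₁.mul tP₂).mul (tF₁.pow q)).mdiff (tF₂.pow m).mdiff
      (mdiff_mul_ne (tF₁.mul tP₂).mdiff (tF₁.pow q).mdiff
        (mdiff_mul_ne tF₁.mdiff tP₂.mdiff hF₁.ne nP₂) (nF₁ q)) (nF₂ m)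
  obtain ⟨y, hy⟩ := HE k _ _ tW₁.isLevelForm tW₂.isLevelForm nW₂ (IsTw.hinv tW₁ tW₂)
  have hy0 : y ≠ 0 := realizes_ne_zero hy tW₁.mdiff nW₁
  -- the two realizations
  have hX := HN h (fun τ => E₁ τ ^ p) (fun τ => E₂ τ ^ p) (tE₁.pow p).mdiff (tE₂.pow p).mdiff hr
  have hZ := realizes_mul' (realizes_pow' hy p) hr'
  have hU₂ : (fun τ => ∏ i : 𝒜.ι, (fun τ => E₂ τ ^ p) (𝒜.A i • τ)) = plainProd 𝒜 E₂ ^ p := by
    funext τ
    rw [Pi.pow_apply]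
    exact Finset.prod_pow _ _ _
  have hXZ : normA ℂ N ℓ (heckeBetaBar ℂ N ℓ h) = y ^ p * h' := by
    refine realizes_eq hX hZ ?_ ?_ ?_ ?_ ?_
    · rw [hU₂]
      exact (tP₂.pow p).mdiff
    · exact ((tW₂.pow p).mul (tF₂.pow p)).mdiff
    · obtain ⟨τ, hτ⟩ := nP₂
      exact ⟨τ, by rw [Finset.prod_pow]; exact pow_ne_zero p hτ⟩
    · exact mdiff_mul_ne (tW₂.pow p).mdiff (tF₂.pow p).mdiff (mdiff_pow_ne nW₂ p) (nF₂ p)
    · intro τ
      show (∏ i : 𝒜.ι, E₁ (𝒜.A i • τ) ^ p)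
          * ((F₁ τ * plainProd 𝒜 E₂ τ * F₁ τ ^ q * F₂ τ ^ m) ^ p * F₂ τ ^ p)
        = (∏ i : 𝒜.ι, E₂ (𝒜.A i • τ) ^ p)
          * ((plainProd 𝒜 E₁ τ * F₂ τ * F₁ τ ^ q * F₂ τ ^ m) ^ p * F₁ τ ^ p)
      rw [Finset.prod_pow, Finset.prod_pow]
      unfold plainProd
      ring
  exact ⟨1, y, one_ne_zero, hy0, by rw [map_one, one_mul]; exact hXZ⟩

end Fermat.Agent.S29.KumHecke
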