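import Mathlib
import Fermat.Agent.S29_BDefs

/-!
# S29, bridge (B4, injectivity): a Kummer function which is a `p`-th power has trivial character

If `h ∈ FC N` is a Kummer function of the character `χ` (it is the modular function
`(E₁ / E₂) ^ p` with `E₁` twisted by `χ` and `E₂` untwisted) and `h = c * y ^ p` in the function
field, then `χ = 0`: indeed `E₁ / E₂ = κ * y` as functions on `ℍ` for a constant `κ`, so
`E₁ / E₂` is invariant under `Γ₀(N)`.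
-/

set_option autoImplicit false

noncomputable section

open UpperHalfPlane ModularCurve CongruenceSubgroup
open scoped MatrixGroups Manifold

namespace Fermat.Agent.S29.KumInjC

open Fermat.Agent.S24 Fermat.Agent.S24.Tower

/-! ### The character `zch` is injective -/

theorem zch_eq_one_iff (p : ℕ) [NeZero p] (x : ZMod p) : zch p x = 1 ↔ x = 0 := by
  constructor
  · intro h
    unfold zch at h
    rw [Complex.exp_eq_one_iff] at h
    obtain ⟨n, hn⟩ := h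
    have hp : (p : ℂ) ≠ 0 := Nat.cast_ne_zero.mpr (NeZero.ne p)
    have h2pi : (2 * Real.pi * Complex.I : ℂ) ≠ 0 := Complex.two_pi_I_ne_zero
    have h1 : (x.val : ℂ) = n * p := by
      field_simp at hn
      linear_combination hn
    have h2 : (x.val : ℤ) = n * p := by exact_mod_cast h1
    have hdvd : p ∣ x.val := by
      apply Int.natCast_dvd_natCast.mp
      rw [h2]
      exact dvd_mul_left _ _
    have h0 : x.val = 0 := Nat.eq_zero_of_dvd_of_lt hdvd (ZMod.val_lt x)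
    exact (ZMod.val_eq_zero x).mp h0
  · rintro rfl
    simp [zch]

/-! ### Holomorphic functions on `ℍ` form a domain -/

theorem mdiff_iff {f : ℍ → ℂ} :
    MDiff f ↔ DifferentiableOn ℂ (fun z : ℂ => f (ofComplex z)) {z : ℂ | 0 < z.im} :=
  UpperHalfPlane.mdifferentiable_iff

theorem mdiff_mul {f g : ℍ → ℂ} (hf : MDiff f) (hg : MDiff g) : MDiff (fun τ => f τ * g τ) :=
  mdiff_iff.mpr ((mdiff_iff.mp hf).mul (mdiff_iff.mp hg))

theorem mdiff_sub {f g : ℍ → ℂ} (hf : MDiff f) (hg : MDiff g) : MDiff (fun τ => f τ - g τ) :=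
  mdiff_iff.mpr ((mdiff_iff.mp hf).sub (mdiff_iff.mp hg))

theorem mdiff_const_mul (c : ℂ) {f : ℍ → ℂ} (hf : MDiff f) : MDiff (fun τ => c * f τ) :=
  mdiff_iff.mpr ((mdiff_iff.mp hf).const_mul c)

theorem mdiff_pow {f : ℍ → ℂ} (hf : MDiff f) (n : ℕ) : MDiff (fun τ => f τ ^ n) :=
  mdiff_iff.mpr ((mdiff_iff.mp hf).pow n)

theorem mdiff_const (c : ℂ) : MDiff (fun _ : ℍ => c) :=
  mdiff_iff.mpr (differentiableOn_const c)

/-- the product of two holomorphic functions on `ℍ` vanishes only if one of them does. -/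
theorem mdiff_mul_eq_zero {f g : ℍ → ℂ} (hf : MDiff f) (hg : MDiff g)
    (h : ∀ τ, f τ * g τ = 0) : (∀ τ, f τ = 0) ∨ (∀ τ, g τ = 0) := by
  by_contra hcon
  rw [not_or] at hcon
  obtain ⟨h1, h2⟩ := hcon
  have hf0 : f ≠ 0 := fun h0 => h1 (fun τ => by rw [h0]; rfl)
  have hg0 : g ≠ 0 := fun h0 => h2 (fun τ => by rw [h0]; rfl)
  have hfg : f * g = 0 := funext h
  have τ₁ : ℍ := UpperHalfPlane.I
  have e := PointOrd.ordAt_mul hf hg τ₁
  rw [hfg] at e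
  have htop : PointOrd.ordAt (0 : ℍ → ℂ) τ₁ = ⊤ := by
    show analyticOrderAt (fun z : ℂ => (0 : ℂ)) (τ₁ : ℂ) = ⊤
    rw [analyticOrderAt_eq_top]
    exact Filter.Eventually.of_forall fun _ => rfl
  rw [htop] at e
  have e1 := PointOrd.ordAt_ne_top hf hf0 τ₁
  have e2 := PointOrd.ordAt_ne_top hg hg0 τ₁
  exact (WithTop.add_ne_top.mpr ⟨e1, e2⟩) e.symm

theorem mdiff_prod {ι : Type*} (s : Finset ι) (F : ι → ℍ → ℂ) (hF : ∀ i ∈ s, MDiff (F i)) :
    MDiff (fun τ => ∏ i ∈ s, F i τ) := by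
  classical
  induction s using Finset.induction_on with
  | empty =>
    simp only [Finset.prod_empty]
    exact mdiff_const 1
  | insert a s ha ih =>
    have h1 : (fun τ => ∏ i ∈ insert a s, F i τ) = fun τ => F a τ * ∏ i ∈ s, F i τ := by
      funext τ
      rw [Finset.prod_insert ha]
    rw [h1]
    exact mdiff_mul (hF a (Finset.mem_insert_self a s))
      (ih fun i hi => hF i (Finset.mem_insert_of_mem hi))

/-- a finite product of holomorphic functions on `ℍ` vanishes only if a factor does. -/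
theorem exists_eq_zero_of_prod {ι : Type*} (s : Finset ι) (F : ι → ℍ → ℂ)
    (hF : ∀ i ∈ s, MDiff (F i)) (h : ∀ τ, ∏ i ∈ s, F i τ = 0) : ∃ i ∈ s, ∀ τ, F i τ = 0 := by
  classical
  induction s using Finset.induction_on with
  | empty =>
    have := h UpperHalfPlane.I
    simp at this
  | insert a s ha ih =>
    have h1 : ∀ τ, F a τ * ∏ i ∈ s, F i τ = 0 := fun τ => by
      have := h τ
      rw [Finset.prod_insert ha] at this
      exact this
    rcases mdiff_mul_eq_zero (hF a (Finset.mem_insert_self a s))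
      (mdiff_prod s F fun i hi => hF i (Finset.mem_insert_of_mem hi)) h1 with h0 | h0
    · exact ⟨a, Finset.mem_insert_self a s, h0⟩
    · obtain ⟨i, hi, hi0⟩ := ih (fun i hi => hF i (Finset.mem_insert_of_mem hi)) h0
      exact ⟨i, Finset.mem_insert_of_mem hi, hi0⟩

/-- `f ^ p = g ^ p` for holomorphic functions on `ℍ` forces `f = ζ g` with a constant `ζ`. -/
theorem exists_eq_mul_of_pow_eq {f g : ℍ → ℂ} (hf : MDiff f) (hg : MDiff g) (p : ℕ) (hp : p ≠ 0)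
    (h : ∀ τ, f τ ^ p = g τ ^ p) : ∃ ζ : ℂ, ∀ τ, f τ = ζ * g τ := by
  have hprim := Complex.isPrimitiveRoot_exp p hp
  have hprod : ∀ τ, ∏ ζ ∈ Polynomial.nthRootsFinset p (1 : ℂ), (f τ - ζ * g τ) = 0 := by
    intro τ
    rw [← hprim.pow_sub_pow_eq_prod_sub_mul (f τ) (g τ) (Nat.pos_of_ne_zero hp), h τ, sub_self]
  obtain ⟨ζ, -, hζ⟩ := exists_eq_zero_of_prod (Polynomial.nthRootsFinset p (1 : ℂ))
    (fun ζ τ => f τ - ζ * g τ) (fun ζ _ => mdiff_sub hf (mdiff_const_mul ζ hg)) hprod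
  exact ⟨ζ, fun τ => sub_eq_zero.mp (hζ τ)⟩

/-! ### Injectivity of the Kummer map -/

variable (N p : ℕ) [NeZero N]

/-- the ratio of a fraction representing an element of the function field is invariant under
`Γ₀(N)`. -/
theorem ratio_invariant (y : FC N) (ay b : modRing ℂ N)
    (hfrac : phiC N y * algebraMap (modRing ℂ N) (ModField ℂ N) b
      = algebraMap (modRing ℂ N) (ModField ℂ N) ay)
    (γ : SL(2, ℤ)) (hγ : γ ∈ Gamma0 N) (τ : ℍ) :
    (ay : ℍ → ℂ) τ * (b : ℍ → ℂ) (γ • τ) = (ay : ℍ → ℂ) (γ • τ) * (b : ℍ → ℂ) τ := by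
  have hγ' : γ⁻¹ ∈ Gamma0 N := inv_mem hγ
  have hinv : γ⁻¹ • phiC N y = phiC N y :=
    (funcFieldMap_smul_iff (phiC N) (phiC_spec N) γ⁻¹).mp hγ' y
  have h1 := congrArg (fun z : ModField ℂ N => γ⁻¹ • z) hfrac
  simp only [smul_mul', hinv, smul_algebraMap_field] at h1
  -- `phiC y * A (γ⁻¹ • b) = A (γ⁻¹ • ay)`
  have h2 : algebraMap (modRing ℂ N) (ModField ℂ N) (ay * (γ⁻¹ • b))
      = algebraMap (modRing ℂ N) (ModField ℂ N) ((γ⁻¹ • ay) * b) := by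
    rw [map_mul, map_mul, ← hfrac, ← h1]
    ring
  have h3 := IsFractionRing.injective (modRing ℂ N) (ModField ℂ N) h2
  have h4 := congrFun (congrArg Subtype.val h3) τ
  have e1 : ((γ⁻¹ • b : modRing ℂ N) : ℍ → ℂ) τ = (b : ℍ → ℂ) (γ • τ) := by
    rw [Tower.smul_apply, inv_inv]
  have e2 : ((γ⁻¹ • ay : modRing ℂ N) : ℍ → ℂ) τ = (ay : ℍ → ℂ) (γ • τ) := by
    rw [Tower.smul_apply, inv_inv]
  rw [← e1, ← e2]
  exact h4

/-- **(B4, injectivity)** a Kummer function of `χ` which is a constant times a `p`-th power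
forces `χ = 0`. -/
theorem kum_inj [Fact p.Prime] (χ : Additive (Gamma0 N) →+ ZMod p) (hχ : IsAdm N p χ) (h : FC N)
    (hk : IsKum N p χ h) (hrel : KumRel ℂ (FC N) p h 1) : χ = 0 := by
  have hp : p.Prime := Fact.out
  have : NeZero p := ⟨hp.ne_zero⟩
  obtain ⟨E₁, E₂, hE₁, hE₂, a, b, hb, hab, hpt⟩ := hk
  obtain ⟨c, y, hc, hy, hhy⟩ := hrel
  rw [mul_one] at hhy
  -- a fraction for `y`
  obtain ⟨ay, s, hs, hfr⟩ := IsFractionRing.div_surjective (A := modRing ℂ N) (phiC N y)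
  have hs0 : s ≠ 0 := nonZeroDivisors.ne_zero hs
  have hsF : algebraMap (modRing ℂ N) (ModField ℂ N) s ≠ 0 :=
    (map_ne_zero_iff _ (IsFractionRing.injective (modRing ℂ N) (ModField ℂ N))).mpr hs0
  have hyfrac : phiC N y * algebraMap (modRing ℂ N) (ModField ℂ N) s
      = algebraMap (modRing ℂ N) (ModField ℂ N) ay := by
    rw [← hfr, div_mul_cancel₀ _ hsF]
  -- the identity `a * s ^ p = c * (b * ay ^ p)` in the ring of modular functions
  have hring : a * s ^ p = algebraMap ℂ (modRing ℂ N) c * (b * ay ^ p) := by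
    apply IsFractionRing.injective (modRing ℂ N) (ModField ℂ N)
    rw [map_mul, map_pow, map_mul, map_mul, map_pow, ← IsScalarTower.algebraMap_apply, ← hab,
      hhy, map_mul, AlgHom.commutes, map_pow, ← hyfrac]
    ring
  have hpt2 : ∀ τ : ℍ, (a : ℍ → ℂ) τ * (s : ℍ → ℂ) τ ^ p
      = c * ((b : ℍ → ℂ) τ * (ay : ℍ → ℂ) τ ^ p) := fun τ =>
    congrFun (congrArg Subtype.val hring) τ
  -- cancel `b`
  have hcomb : ∀ τ : ℍ, (b : ℍ → ℂ) τ
      * ((E₁ τ * (s : ℍ → ℂ) τ) ^ p - c * (E₂ τ * (ay : ℍ → ℂ) τ) ^ p) = 0 := by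
    intro τ
    have h1 := hpt τ
    have h2 := hpt2 τ
    simp only at h1
    linear_combination (-(s : ℍ → ℂ) τ ^ p) * h1 + E₂ τ ^ p * h2
  have hpow : ∀ τ : ℍ, (E₁ τ * (s : ℍ → ℂ) τ) ^ p = c * (E₂ τ * (ay : ℍ → ℂ) τ) ^ p := by
    rcases mdiff_mul_eq_zero b.2.1
      (mdiff_sub (mdiff_pow (mdiff_mul hE₁.mdiff s.2.1) p)
        (mdiff_const_mul c (mdiff_pow (mdiff_mul hE₂.mdiff ay.2.1) p))) hcomb with h0 | h0
    · exact absurd (Subtype.ext (funext h0)) hb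
    · exact fun τ => sub_eq_zero.mp (h0 τ)
  -- extract the root
  obtain ⟨c₁, hc₁⟩ := IsAlgClosed.exists_pow_nat_eq c (Nat.pos_of_ne_zero hp.ne_zero)
  have hpow' : ∀ τ : ℍ, (E₁ τ * (s : ℍ → ℂ) τ) ^ p = (c₁ * (E₂ τ * (ay : ℍ → ℂ) τ)) ^ p := by
    intro τ
    rw [hpow τ, ← hc₁, ← mul_pow]
  obtain ⟨ζ, hζ⟩ := exists_eq_mul_of_pow_eq (mdiff_mul hE₁.mdiff s.2.1)
    (mdiff_const_mul c₁ (mdiff_mul hE₂.mdiff ay.2.1)) p hp.ne_zero hpow'
  -- the character is trivial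
  apply AddMonoidHom.ext
  intro g
  obtain ⟨γ, rfl⟩ : ∃ γ : Gamma0 N, Additive.ofMul γ = g := ⟨Additive.toMul g, rfl⟩
  rw [AddMonoidHom.zero_apply, ← zch_eq_one_iff p]
  by_contra hz
  have hinvr := ratio_invariant N y ay s hyfrac (γ : SL(2, ℤ)) γ.2
  have hJ : ∀ τ : ℍ, ((((γ : SL(2, ℤ)) 1 0 : ℤ) : ℂ) * (τ : ℂ) + (((γ : SL(2, ℤ)) 1 1 : ℤ) : ℂ)) ≠ 0 :=
    fun τ => by
      rw [← ModularGroup.denom_apply]
      exact denom_ne_zero _ τ
  -- `E₁ * (s * s ∘ γ) = 0`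
  have hzero : ∀ τ : ℍ, E₁ τ * ((s : ℍ → ℂ) τ * ((γ⁻¹ : SL(2, ℤ)) • s : modRing ℂ N).1 τ) = 0 := by
    intro τ
    have e1 : ((γ⁻¹ : SL(2, ℤ)) • s : modRing ℂ N).1 τ = (s : ℍ → ℂ) ((γ : SL(2, ℤ)) • τ) := by
      show ((((γ : SL(2, ℤ))⁻¹ • s : modRing ℂ N)) : ℍ → ℂ) τ = _
      rw [Tower.smul_apply, inv_inv]
    rw [e1]
    have hs1 := hE₁.slash γ τ
    have hs2 := hE₂.slash γ τ
    rw [AddMonoidHom.zero_apply, show zch p (0 : ZMod p) = 1 from (zch_eq_one_iff p 0).mpr rfl,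
      one_mul] at hs2
    have hζ1 := hζ τ
    have hζ2 := hζ ((γ : SL(2, ℤ)) • τ)
    rw [hs1, hs2] at hζ2
    have hr := hinvr τ
    set J := ((((γ : SL(2, ℤ)) 1 0 : ℤ) : ℂ) * (τ : ℂ) + (((γ : SL(2, ℤ)) 1 1 : ℤ) : ℂ)) ^ 4
      with hJdef
    have hJ0 : J ≠ 0 := pow_ne_zero 4 (hJ τ)
    set z := zch p (χ (Additive.ofMul γ)) with hzdef
    have hz1 : z - 1 ≠ 0 := sub_ne_zero.mpr hz
    have key : (z - 1) * J * (E₁ τ * ((s : ℍ → ℂ) τ * (s : ℍ → ℂ) ((γ : SL(2, ℤ)) • τ))) = 0 := by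
      linear_combination (s : ℍ → ℂ) τ * hζ2 + (-J * (s : ℍ → ℂ) ((γ : SL(2, ℤ)) • τ)) * hζ1
        + (-ζ * c₁ * J * E₂ τ) * hr
    exact (mul_eq_zero.mp key).resolve_left (mul_ne_zero hz1 hJ0)
  have hs' : ((γ⁻¹ : SL(2, ℤ)) • s : modRing ℂ N) ≠ 0 := by
    rw [Ne, smul_eq_zero_iff_eq]
    exact hs0
  rcases mdiff_mul_eq_zero hE₁.mdiff
    (mdiff_mul s.2.1 ((γ⁻¹ : SL(2, ℤ)) • s : modRing ℂ N).2.1) hzero with h0 | h0
  · obtain ⟨τ, hτ⟩ := hE₁.ne
    exact hτ (h0 τ)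
  · rcases mdiff_mul_eq_zero s.2.1 ((γ⁻¹ : SL(2, ℤ)) • s : modRing ℂ N).2.1 h0 with h1 | h1
    · exact hs0 (Subtype.ext (funext h1))
    · exact hs' (Subtype.ext (funext h1))

end Fermat.Agent.S29.KumInjC
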