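import Mathlib
import Fermat.Agent.S14_Frob
import Fermat.Agent.S14_FrobConj

/-!
# S29, package C3 (core): cyclic-subgroup Chebotarev on number fields

`exists_frob_zpowers_of`: for a finite Galois extension `K/ℚ`, every `g ∈ Gal(K/ℚ)` is a power of
a Frobenius element at an unramified prime above a rational prime outside any given finite set,
given the analytic input `PrimePos` (package C2: a positive integer combination of the counting
functions of degree-one primes of finitely many number fields is positive at some prime outside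
any finite set).

Proof: `H = ⟨g⟩` of order `n`, `E = K^H`, `M_d = K^{⟨g^d⟩}` for `d ∣ n`.  For a rational prime
`ℓ` unramified in `K`, the primes of `M_d` of norm `ℓ` above a prime `v` of `E` of norm `ℓ` are
`[M_d : E]` in number if the Frobenius of `v` lies in `⟨g^d⟩` and none otherwise; Möbius
inversion over `d ∣ n` then counts the `v` whose Frobenius generates `H`.
-/

set_option autoImplicit false

open NumberField IsDedekindDomain
open Fermat.Agent.S14x

namespace Fermat.Agent.S29.Cheb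

section cyc

variable {Γ : Type*} [Group Γ]

theorem pow_mem_zpowers_pow_iff (γ : Γ) (a d : ℕ) (hd : d ∣ orderOf γ) :
    γ ^ a ∈ Subgroup.zpowers (γ ^ d) ↔ d ∣ a := by
  constructor
  · rintro ⟨k, hk⟩
    have hk' : (γ ^ d) ^ k = γ ^ a := hk
    have h1 : γ ^ ((a : ℤ) - d * k) = 1 := by
      rw [zpow_sub, zpow_mul, zpow_natCast, zpow_natCast, hk', mul_inv_cancel]
    have h2 : (orderOf γ : ℤ) ∣ (a : ℤ) - d * k := orderOf_dvd_iff_zpow_eq_one.mpr h1
    have h3 : (d : ℤ) ∣ (a : ℤ) - d * k := (Int.natCast_dvd_natCast.mpr hd).trans h2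
    have h4 : (d : ℤ) ∣ (a : ℤ) := by
      have := dvd_add h3 (Dvd.intro k rfl : (d : ℤ) ∣ d * k)
      simpa using this
    exact Int.natCast_dvd_natCast.mp h4
  · rintro ⟨b, rfl⟩
    rw [pow_mul]
    exact Subgroup.pow_mem _ (Subgroup.mem_zpowers _) b

theorem mem_zpowers_pow_iff (γ : Γ) (a : ℕ) :
    γ ∈ Subgroup.zpowers (γ ^ a) ↔ Nat.gcd (orderOf γ) a = 1 := by
  constructor
  · rintro ⟨k, hk⟩
    have hk' : (γ ^ a) ^ k = γ := hk
    have h1 : γ ^ ((a : ℤ) * k - 1) = 1 := by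
      rw [zpow_sub, zpow_mul, zpow_natCast, hk', zpow_one, mul_inv_cancel]
    have h2 : (orderOf γ : ℤ) ∣ (a : ℤ) * k - 1 := orderOf_dvd_iff_zpow_eq_one.mpr h1
    have hg1 : ((Nat.gcd (orderOf γ) a : ℕ) : ℤ) ∣ (a : ℤ) * k - 1 :=
      (Int.natCast_dvd_natCast.mpr (Nat.gcd_dvd_left _ _)).trans h2
    have hg2 : ((Nat.gcd (orderOf γ) a : ℕ) : ℤ) ∣ (a : ℤ) * k :=
      (Int.natCast_dvd_natCast.mpr (Nat.gcd_dvd_right _ _)).mul_right k
    have hg3 : ((Nat.gcd (orderOf γ) a : ℕ) : ℤ) ∣ 1 := by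
      have := dvd_sub hg2 hg1
      simpa using this
    exact Nat.eq_one_of_dvd_one (Int.natCast_dvd_natCast.mp (by simpa using hg3))
  · intro h
    have hb := Nat.gcd_eq_gcd_ab (orderOf γ) a
    rw [h] at hb
    refine ⟨Nat.gcdB (orderOf γ) a, ?_⟩
    show (γ ^ a) ^ (Nat.gcdB (orderOf γ) a) = γ
    have h1 : γ ^ ((orderOf γ : ℤ) * Nat.gcdA (orderOf γ) a) = 1 := by
      rw [zpow_mul, zpow_natCast, pow_orderOf_eq_one, one_zpow]
    have h2 : γ ^ ((1 : ℕ) : ℤ) = γ := by simp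
    rw [hb, zpow_add, h1, one_mul, zpow_mul, zpow_natCast] at h2
    exact h2

open ArithmeticFunction in
theorem sum_moebius_dvd (n a : ℕ) (hn : n ≠ 0) :
    ∑ d ∈ n.divisors, (moebius d) * (if d ∣ a then (1 : ℤ) else 0) =
      if Nat.gcd n a = 1 then 1 else 0 := by
  have h1 : ∑ d ∈ n.divisors, (moebius d) * (if d ∣ a then (1 : ℤ) else 0) =
      ∑ d ∈ (Nat.gcd n a).divisors, moebius d := by
    simp only [mul_ite, mul_one, mul_zero]
    rw [← Finset.sum_filter]
    apply Finset.sum_congr _ (fun _ _ => rfl)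
    ext d
    simp only [Finset.mem_filter, Nat.mem_divisors]
    constructor
    · rintro ⟨⟨h1, _⟩, h2⟩
      exact ⟨Nat.dvd_gcd h1 h2, Nat.gcd_ne_zero_left hn⟩
    · rintro ⟨h1, _⟩
      exact ⟨⟨h1.trans (Nat.gcd_dvd_left _ _), hn⟩, h1.trans (Nat.gcd_dvd_right _ _)⟩
  rw [h1, ← coe_mul_zeta_apply, moebius_mul_coe_zeta, one_apply]

open ArithmeticFunction in
theorem sum_moebius_mem (γ σ : Γ) (hn : orderOf γ ≠ 0) (hσ : σ ∈ Subgroup.zpowers γ) :
    ∑ d ∈ (orderOf γ).divisors,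
        (moebius d) * (if σ ∈ Subgroup.zpowers (γ ^ d) then (1 : ℤ) else 0) =
      if γ ∈ Subgroup.zpowers σ then 1 else 0 := by
  classical
  obtain ⟨a, ha⟩ : ∃ a : ℕ, γ ^ a = σ := by
    have hfin : IsOfFinOrder γ := orderOf_pos_iff.mp (Nat.pos_of_ne_zero hn)
    have := (hfin.mem_zpowers_iff_mem_range_orderOf).mp hσ
    obtain ⟨a, _, ha⟩ := Finset.mem_image.mp this
    exact ⟨a, ha⟩
  subst ha
  have h2 : (γ ∈ Subgroup.zpowers (γ ^ a)) ↔ Nat.gcd (orderOf γ) a = 1 := mem_zpowers_pow_iff γ a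
  have h3 : (if γ ∈ Subgroup.zpowers (γ ^ a) then (1 : ℤ) else 0) =
      if Nat.gcd (orderOf γ) a = 1 then 1 else 0 := by
    simp only [h2]
  rw [h3, ← sum_moebius_dvd (orderOf γ) a hn]
  apply Finset.sum_congr rfl
  intro d hd
  have hd' : d ∣ orderOf γ := (Nat.mem_divisors.mp hd).1
  simp only [pow_mem_zpowers_pow_iff γ a d hd']

end cyc


section fiber

variable {E M K : Type} [Field E] [NumberField E] [Field M] [NumberField M] [Field K]
  [NumberField K] [Algebra E M] [Algebra M K] [Algebra E K] [IsScalarTower E M K]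

theorem two_le_absNorm (v : Pl E) : 2 ≤ Ideal.absNorm v.asIdeal := by
  have h1 : Ideal.absNorm v.asIdeal ≠ 1 := fun h1 =>
    v.isPrime.ne_top (Ideal.absNorm_eq_one_iff.mp h1)
  have h0 : Ideal.absNorm v.asIdeal ≠ 0 := frob_absNorm_ne_zero v
  omega

/-- data at a prime `u` of the middle field above `v` -/
theorem mid_data [IsGalois E K] [IsGalois E M] (v : Pl E)
    (hunr : ∀ w : Pl K, below E w = v → eOf E w = 1)
    (σ : K ≃ₐ[E] K)
    (hσ : ∀ w : Pl K, below E w = v → IsFrobPow E σ w (Ideal.absNorm v.asIdeal))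
    (u : Pl M) (hu : below E u = v) :
    eOf E u = 1 ∧ (σ.restrictNormal M = 1 ↔ fOf E u = 1) := by
  obtain ⟨w, hw⟩ := frob_exists_above (F := M) (F' := K) u
  have hwv : below E w = v := by rw [← below_below (K := E) (L := M) w, hw, hu]
  have he : eOf E u = 1 := by
    have h1 := eOf_tower (K := E) (L := M) w
    rw [hunr w hwv, hw] at h1
    exact Nat.eq_one_of_mul_eq_one_right h1.symm
  have hI : InertiaTrivialAt E u := inertiaTrivialAt_of_eOf_eq_one u he
  have hF : IsFrobPow E (σ.restrictNormal M) u (Ideal.absNorm (below E u).asIdeal) := by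
    have := (hσ w hwv).restrictNormal (L := M)
    rw [hw] at this
    rw [hu]
    exact this
  exact ⟨he, hF.eq_one_iff hI⟩

theorem absNorm_eq_iff_fOf (u : Pl M) :
    Ideal.absNorm u.asIdeal = Ideal.absNorm (below E u).asIdeal ↔ fOf E u = 1 := by
  rw [absNorm_eq_pow_fOf (F := E) u]
  constructor
  · intro h
    have h2 := two_le_absNorm (below E u)
    have : Ideal.absNorm (below E u).asIdeal ^ fOf E u = Ideal.absNorm (below E u).asIdeal ^ 1 := by
      rw [pow_one]; exact h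
    exact Nat.pow_right_injective h2 this
  · intro h
    rw [h, pow_one]

theorem image_asIdeal_eq (v : Pl E) :
    HeightOneSpectrum.asIdeal '' {u : Pl M | below E u = v} = v.asIdeal.primesOver (𝓞 M) := by
  ext P
  constructor
  · rintro ⟨u, hu, rfl⟩
    refine ⟨u.isPrime, ⟨?_⟩⟩
    have : (below E u).asIdeal = v.asIdeal := by rw [hu]
    rw [← this]
    rfl
  · rintro ⟨hP, hlo⟩
    have hne : P ≠ ⊥ := by
      rintro rfl
      apply v.ne_bot
      rw [hlo.over]
      exact Ideal.under_bot (𝓞 E) (𝓞 M)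
    refine ⟨⟨P, hP, hne⟩, ?_, rfl⟩
    apply HeightOneSpectrum.ext
    exact hlo.over.symm

theorem ncard_above [IsGalois E M] (v : Pl E)
    (h : ∀ u : Pl M, below E u = v → eOf E u = 1 ∧ fOf E u = 1) :
    {u : Pl M | below E u = v}.ncard = Module.finrank E M := by
  classical
  have hinj : Function.Injective (HeightOneSpectrum.asIdeal : Pl M → Ideal (𝓞 M)) :=
    fun a b hab => HeightOneSpectrum.ext hab
  rw [← Set.ncard_image_of_injective _ hinj, image_asIdeal_eq]
  have hv : v.asIdeal.IsPrime := v.isPrime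
  have hvm : v.asIdeal.IsMaximal := v.isMaximal
  have key := Ideal.ncard_primesOver_mul_ramificationIdxIn_mul_inertiaDegIn v.asIdeal (𝓞 M)
    (M ≃ₐ[E] M)
  rw [IsGalois.card_aut_eq_finrank] at key
  obtain ⟨u, hu⟩ := frob_exists_above (F := E) (F' := M) v
  have hlo : u.asIdeal.LiesOver v.asIdeal := ⟨by rw [← hu]; rfl⟩
  obtain ⟨he, hf⟩ := h u hu
  have h1 : v.asIdeal.ramificationIdxIn (𝓞 M) = 1 := by
    rw [Ideal.ramificationIdxIn_eq_ramificationIdx v.asIdeal u.asIdeal (M ≃ₐ[E] M)]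
    have h3 := Ideal.ramificationIdx'_eq_ramificationIdx v.asIdeal u.asIdeal v.ne_bot
    rw [← h3]
    have : eOf E u = Ideal.ramificationIdx' (below E u).asIdeal u.asIdeal := rfl
    rw [hu] at this
    rw [← this, he]
  have h2 : v.asIdeal.inertiaDegIn (𝓞 M) = 1 := by
    rw [Ideal.inertiaDegIn_eq_inertiaDeg v.asIdeal u.asIdeal (M ≃ₐ[E] M)]
    exact hf
  rw [h1, h2, mul_one, mul_one] at key
  exact key

open scoped Classical in
/-- the fibre count, abstract three-field form -/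
theorem fiber_ncard [IsGalois E K] [IsGalois E M] (v : Pl E)
    (hunr : ∀ w : Pl K, below E w = v → eOf E w = 1)
    (σ : K ≃ₐ[E] K)
    (hσ : ∀ w : Pl K, below E w = v → IsFrobPow E σ w (Ideal.absNorm v.asIdeal)) :
    {u : Pl M | below E u = v ∧ Ideal.absNorm u.asIdeal = Ideal.absNorm v.asIdeal}.ncard =
      if σ.restrictNormal M = 1 then Module.finrank E M else 0 := by
  split_ifs with h1
  · have hall : ∀ u : Pl M, below E u = v → eOf E u = 1 ∧ fOf E u = 1 := fun u hu => by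
      obtain ⟨he, hiff⟩ := mid_data (K := K) v hunr σ hσ u hu
      exact ⟨he, hiff.mp h1⟩
    rw [← ncard_above v hall]
    congr 1
    ext u
    simp only [Set.mem_ofPred_eq, and_iff_left_iff_imp]
    intro hu
    have := (absNorm_eq_iff_fOf (E := E) u).mpr (hall u hu).2
    rw [this, hu]
  · have : {u : Pl M | below E u = v ∧
        Ideal.absNorm u.asIdeal = Ideal.absNorm v.asIdeal} = ∅ := by
      ext u
      simp only [Set.mem_ofPred_eq, Set.mem_empty_iff_false, iff_false, not_and]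
      intro hu hN
      obtain ⟨he, hiff⟩ := mid_data (K := K) v hunr σ hσ u hu
      apply h1
      rw [hiff, ← absNorm_eq_iff_fOf (E := E) u, hN, hu]
    rw [this, Set.ncard_empty]

end fiber

section sub

variable {E K : Type} [Field E] [NumberField E] [Field K] [NumberField K] [Algebra E K]
  [IsGalois E K]

theorem restrictNormal_eq_one_iff (H : Subgroup (K ≃ₐ[E] K)) [H.Normal] (σ : K ≃ₐ[E] K) :
    σ.restrictNormal (IntermediateField.fixedField H) = 1 ↔ σ ∈ H := by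
  have hfix := IntermediateField.fixingSubgroup_fixedField H
  constructor
  · intro h
    rw [← hfix, IntermediateField.mem_fixingSubgroup_iff]
    intro x hx
    have := AlgEquiv.restrictNormal_commutes σ (IntermediateField.fixedField H) ⟨x, hx⟩
    rw [h] at this
    exact this.symm
  · intro h
    rw [← hfix, IntermediateField.mem_fixingSubgroup_iff] at h
    ext x
    have := AlgEquiv.restrictNormal_commutes σ (IntermediateField.fixedField H) x
    exact this.trans (h x x.2)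

theorem finrank_fixedField_eq_index (H : Subgroup (K ≃ₐ[E] K)) :
    Module.finrank E (IntermediateField.fixedField H) = H.index := by
  have h1 := IntermediateField.finrank_fixedField_eq_card H
  have h2 := Module.finrank_mul_finrank E (IntermediateField.fixedField H) K
  have h3 := IsGalois.card_aut_eq_finrank E K
  have h4 := Subgroup.card_mul_index H
  have hpos : 0 < Nat.card H := Nat.card_pos
  rw [h1, ← h3, ← h4, mul_comm] at h2
  exact Nat.eq_of_mul_eq_mul_left hpos h2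

open scoped Classical in
/-- the fibre count for the fixed field of a subgroup of an abelian Galois group -/
theorem fiber_ncard_fixedField (hab : ∀ σ τ : K ≃ₐ[E] K, σ * τ = τ * σ)
    (H : Subgroup (K ≃ₐ[E] K)) (v : Pl E)
    (hunr : ∀ w : Pl K, below E w = v → eOf E w = 1)
    (σ : K ≃ₐ[E] K)
    (hσ : ∀ w : Pl K, below E w = v → IsFrobPow E σ w (Ideal.absNorm v.asIdeal)) :
    {u : Pl (IntermediateField.fixedField H) | below E u = v ∧
      Ideal.absNorm u.asIdeal = Ideal.absNorm v.asIdeal}.ncard =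
      if σ ∈ H then H.index else 0 := by
  have : H.Normal := ⟨fun n hn g => by rw [hab g n, mul_inv_cancel_right]; exact hn⟩
  rw [fiber_ncard (M := IntermediateField.fixedField H) (K := K) v hunr σ hσ]
  simp only [restrictNormal_eq_one_iff H σ, finrank_fixedField_eq_index H]

end sub


section regroup

theorem finite_pl_absNorm (M : Type) [Field M] [NumberField M] (ℓ : ℕ) :
    {u : Pl M | Ideal.absNorm u.asIdeal = ℓ}.Finite := by
  have hinj : Function.Injective (HeightOneSpectrum.asIdeal : Pl M → Ideal (𝓞 M)) :=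
    fun a b hab => HeightOneSpectrum.ext hab
  exact (Ideal.finite_setOfPred_absNorm_eq (S := 𝓞 M) ℓ).preimage hinj.injOn

/-- the number of primes of absolute norm `ℓ` -/
noncomputable def cntP (M : Type) [Field M] [NumberField M] (ℓ : ℕ) : ℕ :=
  {u : Pl M | Ideal.absNorm u.asIdeal = ℓ}.ncard

theorem cntP_eq_card (M : Type) [Field M] [NumberField M] (ℓ : ℕ) (hℓ : ℓ.Prime) :
    cntP M ℓ = Nat.card {I : Ideal (𝓞 M) // Ideal.absNorm I = ℓ} := by
  have hinj : Function.Injective (HeightOneSpectrum.asIdeal : Pl M → Ideal (𝓞 M)) :=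
    fun a b hab => HeightOneSpectrum.ext hab
  have himg : HeightOneSpectrum.asIdeal '' {u : Pl M | Ideal.absNorm u.asIdeal = ℓ} =
      {I : Ideal (𝓞 M) | Ideal.absNorm I = ℓ} := by
    ext I
    constructor
    · rintro ⟨u, hu, rfl⟩
      exact hu
    · intro hI
      have hI' : Ideal.absNorm I = ℓ := hI
      have hprime : I.IsPrime := Ideal.isPrime_of_irreducible_absNorm (by
        rw [hI']; exact Nat.prime_iff.mp hℓ |>.irreducible)
      have hne : I ≠ ⊥ := by
        rintro rfl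
        rw [Ideal.absNorm_bot] at hI'
        exact hℓ.ne_zero hI'.symm
      exact ⟨⟨I, hprime, hne⟩, hI', rfl⟩
  unfold cntP
  rw [← Set.ncard_image_of_injective _ hinj, himg]
  exact (Nat.card_coe_set_eq _).symm

variable {E M : Type} [Field E] [NumberField E] [Field M] [NumberField M] [Algebra E M]

theorem absNorm_below_eq (u : Pl M) {ℓ : ℕ} (hℓ : ℓ.Prime) (hu : Ideal.absNorm u.asIdeal = ℓ) :
    Ideal.absNorm (below E u).asIdeal = ℓ := by
  have h := absNorm_eq_pow_fOf (F := E) u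
  rw [hu] at h
  exact ((Nat.Prime.pow_eq_iff hℓ).mp h.symm).1

theorem cntP_eq_sum (ℓ : ℕ) (hℓ : ℓ.Prime) :
    cntP M ℓ = ∑ v ∈ (finite_pl_absNorm E ℓ).toFinset,
      {u : Pl M | below E u = v ∧ Ideal.absNorm u.asIdeal = Ideal.absNorm v.asIdeal}.ncard := by
  classical
  unfold cntP
  rw [Set.ncard_eq_toFinset_card _ (finite_pl_absNorm M ℓ),
    Finset.card_eq_sum_card_fiberwise (f := below E) (t := (finite_pl_absNorm E ℓ).toFinset)]
  · apply Finset.sum_congr rfl
    intro v hv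
    rw [Set.Finite.mem_toFinset] at hv
    have hv' : Ideal.absNorm v.asIdeal = ℓ := hv
    rw [← Set.ncard_coe_finset]
    congr 1
    ext u
    simp only [Finset.coe_filter, Set.Finite.mem_toFinset, Set.mem_ofPred_eq, hv']
    exact and_comm
  · intro u hu
    rw [Finset.mem_coe, Set.Finite.mem_toFinset] at hu ⊢
    exact absNorm_below_eq u hℓ hu

end regroup

section main

variable {E K : Type} [Field E] [NumberField E] [Field K] [NumberField K] [Algebra E K]

theorem natCast_mem_of_below (w : Pl K) {ℓ : ℕ} (h : Ideal.absNorm (below E w).asIdeal = ℓ) :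
    ((ℓ : ℕ) : 𝓞 K) ∈ w.asIdeal := by
  have h1 : ((Ideal.absNorm (below E w).asIdeal : ℕ) : 𝓞 E) ∈ (below E w).asIdeal :=
    Ideal.absNorm_mem _
  rw [h] at h1
  have h2 : algebraMap (𝓞 E) (𝓞 K) ((ℓ : ℕ) : 𝓞 E) ∈ w.asIdeal := h1
  rwa [map_natCast] at h2

variable [IsGalois E K]

open scoped Classical in
theorem cntP_fixedField (hab : ∀ σ τ : K ≃ₐ[E] K, σ * τ = τ * σ)
    (H : Subgroup (K ≃ₐ[E] K)) (ℓ : ℕ) (hℓ : ℓ.Prime)
    (hunr : ∀ w : Pl K, ((ℓ : ℕ) : 𝓞 K) ∈ w.asIdeal → eOf E w = 1)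
    (Φ : Pl E → (K ≃ₐ[E] K))
    (hΦ : ∀ v : Pl E, ∀ w : Pl K, below E w = v → IsFrobPow E (Φ v) w (Ideal.absNorm v.asIdeal)) :
    cntP (IntermediateField.fixedField H) ℓ =
      ∑ v ∈ (finite_pl_absNorm E ℓ).toFinset, if Φ v ∈ H then H.index else 0 := by
  rw [cntP_eq_sum (E := E) ℓ hℓ]
  apply Finset.sum_congr rfl
  intro v hv
  rw [Set.Finite.mem_toFinset] at hv
  have hv' : Ideal.absNorm v.asIdeal = ℓ := hv
  exact fiber_ncard_fixedField hab H v
    (fun w hw => hunr w (natCast_mem_of_below (E := E) w (by rw [hw]; exact hv'))) (Φ v) (hΦ v)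

omit [NumberField E] [NumberField K] [IsGalois E K] in
theorem card_eq_orderOf (γ : K ≃ₐ[E] K) (hγ : ∀ x : K ≃ₐ[E] K, x ∈ Subgroup.zpowers γ) :
    Nat.card (K ≃ₐ[E] K) = orderOf γ := by
  have h : Subgroup.zpowers γ = ⊤ := by
    rw [eq_top_iff]; intro x _; exact hγ x
  rw [← Nat.card_zpowers, h, Subgroup.card_top]

omit [NumberField E] [NumberField K] [IsGalois E K] in
theorem div_mul_index (γ : K ≃ₐ[E] K) (hγ : ∀ x : K ≃ₐ[E] K, x ∈ Subgroup.zpowers γ)
    (d : ℕ) (hd : d ∈ (orderOf γ).divisors) :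
    (orderOf γ / d) * (Subgroup.zpowers (γ ^ d)).index = orderOf γ := by
  have hd' := Nat.mem_divisors.mp hd
  have hd0 : d ≠ 0 := fun h => by
    rw [h, zero_dvd_iff] at hd'
    exact hd'.2 hd'.1
  have h1 := Subgroup.card_mul_index (Subgroup.zpowers (γ ^ d))
  rw [Nat.card_zpowers, orderOf_pow_of_dvd hd0 hd'.1, card_eq_orderOf γ hγ] at h1
  exact h1

open scoped Classical in
open ArithmeticFunction in
theorem sum_moebius_cntP (hab : ∀ σ τ : K ≃ₐ[E] K, σ * τ = τ * σ)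
    (γ : K ≃ₐ[E] K) (hγ : ∀ x : K ≃ₐ[E] K, x ∈ Subgroup.zpowers γ)
    (ℓ : ℕ) (hℓ : ℓ.Prime)
    (hunr : ∀ w : Pl K, ((ℓ : ℕ) : 𝓞 K) ∈ w.asIdeal → eOf E w = 1)
    (Φ : Pl E → (K ≃ₐ[E] K))
    (hΦ : ∀ v : Pl E, ∀ w : Pl K, below E w = v → IsFrobPow E (Φ v) w (Ideal.absNorm v.asIdeal)) :
    ∑ d ∈ (orderOf γ).divisors, (moebius d * ((orderOf γ / d : ℕ) : ℤ)) *
        (cntP (IntermediateField.fixedField (Subgroup.zpowers (γ ^ d))) ℓ : ℤ) =
      ∑ v ∈ (finite_pl_absNorm E ℓ).toFinset,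
        (orderOf γ : ℤ) * (if γ ∈ Subgroup.zpowers (Φ v) then 1 else 0) := by
  have hn : orderOf γ ≠ 0 := (orderOf_pos γ).ne'
  have step : ∀ d ∈ (orderOf γ).divisors, (moebius d * ((orderOf γ / d : ℕ) : ℤ)) *
        (cntP (IntermediateField.fixedField (Subgroup.zpowers (γ ^ d))) ℓ : ℤ) =
      ∑ v ∈ (finite_pl_absNorm E ℓ).toFinset, (orderOf γ : ℤ) *
        (moebius d * (if Φ v ∈ Subgroup.zpowers (γ ^ d) then (1 : ℤ) else 0)) := by
    intro d hd
    rw [cntP_fixedField hab _ ℓ hℓ hunr Φ hΦ, Nat.cast_sum, Finset.mul_sum]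
    apply Finset.sum_congr rfl
    intro v _
    have hidx := div_mul_index γ hγ d hd
    split_ifs with hmem
    · rw [mul_one, mul_assoc, ← Nat.cast_mul, hidx]
      ring
    · simp
  rw [Finset.sum_congr rfl step, Finset.sum_comm]
  apply Finset.sum_congr rfl
  intro v _
  rw [← Finset.mul_sum, sum_moebius_mem γ (Φ v) hn (hγ _)]

end main

section core

open ArithmeticFunction in
theorem sum_moebius_div (n : ℕ) (hn : 0 < n) :
    ∑ d ∈ n.divisors, (moebius d) * ((n / d : ℕ) : ℤ) = (n.totient : ℤ) := by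
  have h := (sum_eq_iff_sum_mul_moebius_eq (R := ℤ) (f := fun m => (m.totient : ℤ))
    (g := fun m => (m : ℤ))).mp (fun m _ => by exact_mod_cast Nat.sum_totient m) n hn
  rw [← h]
  exact (Nat.sum_divisorsAntidiagonal (fun i j => (moebius i : ℤ) * (j : ℤ))).symm

/-- the shape of the analytic input (package C2) -/
def PrimePos : Prop :=
  ∀ {ι : Type} [Fintype ι] (L : ι → Type) [∀ i, Field (L i)] [∀ i, NumberField (L i)]
    (c : ι → ℤ), 0 < ∑ i, c i → ∀ S : Finset ℕ,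
      ∃ ℓ : ℕ, ℓ.Prime ∧ ℓ ∉ S ∧ 0 < ∑ i, c i * (cntP (L i) ℓ : ℤ)

variable {E K : Type} [Field E] [NumberField E] [Field K] [NumberField K] [Algebra E K]
  [IsGalois E K]

open ArithmeticFunction in
/-- **Core**: a cyclic extension `K/E` with generator `γ` has, above rational primes outside any
finite set `S` containing the ramified ones, a prime `w` and a Frobenius `σ` (with exponent the
rational prime `ℓ`) generating the Galois group. -/
theorem core (hPS : PrimePos) (γ : K ≃ₐ[E] K) (hγ : ∀ x : K ≃ₐ[E] K, x ∈ Subgroup.zpowers γ)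
    (S : Finset ℕ)
    (hS : ∀ ℓ : ℕ, ℓ.Prime → ℓ ∉ S → ∀ w : Pl K, ((ℓ : ℕ) : 𝓞 K) ∈ w.asIdeal → eOf E w = 1) :
    ∃ ℓ : ℕ, ℓ.Prime ∧ ℓ ∉ S ∧ ∃ (w : Pl K) (σ : K ≃ₐ[E] K),
      ((ℓ : ℕ) : 𝓞 K) ∈ w.asIdeal ∧ IsFrobPow E σ w ℓ ∧ γ ∈ Subgroup.zpowers σ := by
  classical
  have hab : ∀ σ τ : K ≃ₐ[E] K, σ * τ = τ * σ := by
    intro σ τ
    obtain ⟨a, rfl⟩ := Subgroup.mem_zpowers_iff.mp (hγ σ)
    obtain ⟨b, rfl⟩ := Subgroup.mem_zpowers_iff.mp (hγ τ)
    rw [← zpow_add, ← zpow_add, add_comm]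
  have hn : 0 < orderOf γ := orderOf_pos γ
  choose Φ hΦ using fun v : Pl E => exists_isFrobPow_forall (F' := K) hab v
  obtain ⟨ℓ, hℓ, hℓS, hpos⟩ := hPS
    (ι := {d // d ∈ (orderOf γ).divisors})
    (fun i => ↥(IntermediateField.fixedField (Subgroup.zpowers (γ ^ (i : ℕ)))))
    (fun i => moebius (i : ℕ) * ((orderOf γ / (i : ℕ) : ℕ) : ℤ))
    (by
      rw [Finset.sum_coe_sort (orderOf γ).divisors
        (fun d => moebius d * ((orderOf γ / d : ℕ) : ℤ)), sum_moebius_div _ hn]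
      exact_mod_cast Nat.totient_pos.mpr hn) S
  refine ⟨ℓ, hℓ, hℓS, ?_⟩
  rw [Finset.sum_coe_sort (orderOf γ).divisors
    (fun d => (moebius d * ((orderOf γ / d : ℕ) : ℤ)) *
      (cntP (IntermediateField.fixedField (Subgroup.zpowers (γ ^ d))) ℓ : ℤ)),
    sum_moebius_cntP hab γ hγ ℓ hℓ (hS ℓ hℓ hℓS) Φ hΦ] at hpos
  obtain ⟨v, hv, hne⟩ := Finset.exists_ne_zero_of_sum_ne_zero hpos.ne'
  rw [Set.Finite.mem_toFinset] at hv
  have hv' : Ideal.absNorm v.asIdeal = ℓ := hv
  have hmem : γ ∈ Subgroup.zpowers (Φ v) := by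
    by_contra hcon
    apply hne
    rw [if_neg hcon, mul_zero]
  obtain ⟨w, hw⟩ := frob_exists_above (F := E) (F' := K) v
  refine ⟨w, Φ v, natCast_mem_of_below (E := E) w (by rw [hw]; exact hv'), ?_, hmem⟩
  have := hΦ v w hw
  rwa [hv'] at this

end core

section ram

variable {F F' : Type} [Field F] [NumberField F] [Field F'] [NumberField F'] [Algebra F F']

theorem eOf_eq_one_of_not_dvd_different (w : Pl F')
    (h : ¬ w.asIdeal ∣ differentIdeal (𝓞 F) (𝓞 F')) : eOf F w = 1 := by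
  have := w.isPrime
  have hlo : w.asIdeal.LiesOver (below F w).asIdeal := ⟨rfl⟩
  have h1 : Algebra.IsUnramifiedAt (𝓞 F) w.asIdeal := not_dvd_differentIdeal_iff.mp h
  have h2 : w.asIdeal.ramificationIdx (𝓞 F) = 1 := Ideal.ramificationIdx_eq_one_of_isUnramifiedAt
  have h3 : eOf F w = w.asIdeal.ramificationIdx (𝓞 F) :=
    Ideal.ramificationIdx'_eq_ramificationIdx (below F w).asIdeal w.asIdeal (below F w).ne_bot
  rw [h3, h2]

variable (F F') in
theorem finite_ramified : {w : Pl F' | eOf F w ≠ 1}.Finite := by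
  have hne : differentIdeal (𝓞 F) (𝓞 F') ≠ ⊥ := differentIdeal_ne_bot
  refine (Ideal.finite_factors hne).subset ?_
  intro w hw
  by_contra hcon
  exact hw (eOf_eq_one_of_not_dvd_different w hcon)

theorem dvd_absNorm_of_mem (w : Pl F') {ℓ : ℕ} (hℓ : ℓ.Prime)
    (hw : ((ℓ : ℕ) : 𝓞 F') ∈ w.asIdeal) : ℓ ∣ Ideal.absNorm w.asIdeal := by
  by_contra hnd
  have hN : ((Ideal.absNorm w.asIdeal : ℕ) : 𝓞 F') ∈ w.asIdeal := Ideal.absNorm_mem _
  have hco : Nat.Coprime ℓ (Ideal.absNorm w.asIdeal) := (Nat.Prime.coprime_iff_not_dvd hℓ).mpr hnd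
  have hb := Nat.gcd_eq_gcd_ab ℓ (Ideal.absNorm w.asIdeal)
  rw [hco.gcd_eq_one] at hb
  have e : (1 : 𝓞 F') = ((ℓ : ℕ) : 𝓞 F') * ((Nat.gcdA ℓ (Ideal.absNorm w.asIdeal) : ℤ) : 𝓞 F') +
      ((Ideal.absNorm w.asIdeal : ℕ) : 𝓞 F') *
        ((Nat.gcdB ℓ (Ideal.absNorm w.asIdeal) : ℤ) : 𝓞 F') := by
    have := congrArg (Int.cast : ℤ → 𝓞 F') hb
    push_cast at this
    exact this
  have h1 : (1 : 𝓞 F') ∈ w.asIdeal := by
    rw [e]
    exact add_mem (Ideal.mul_mem_right _ _ hw) (Ideal.mul_mem_right _ _ hN)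
  exact w.isPrime.ne_top ((Ideal.eq_top_iff_one _).mpr h1)

variable (F F') in
/-- a finite set of rational primes outside of which `F'/F` is unramified -/
theorem exists_finset_unram : ∃ T : Finset ℕ, ∀ ℓ : ℕ, ℓ.Prime → ℓ ∉ T →
    ∀ w : Pl F', ((ℓ : ℕ) : 𝓞 F') ∈ w.asIdeal → eOf F w = 1 := by
  classical
  refine ⟨(finite_ramified F F').toFinset.biUnion
    (fun w => (Ideal.absNorm w.asIdeal).primeFactors), ?_⟩
  intro ℓ hℓ hℓT w hw
  by_contra hcon
  apply hℓT
  rw [Finset.mem_biUnion]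
  refine ⟨w, (Set.Finite.mem_toFinset _).mpr hcon, ?_⟩
  rw [Nat.mem_primeFactors]
  exact ⟨hℓ, dvd_absNorm_of_mem w hℓ hw, frob_absNorm_ne_zero w⟩

end ram

section final

variable (K : Type) [Field K] [NumberField K] [IsGalois ℚ K]

/-- **Cyclic-subgroup Chebotarev** (from the analytic input `PrimePos`). -/
theorem exists_frob_zpowers_of (hPS : PrimePos) (g : K ≃ₐ[ℚ] K) (S : Finset ℕ) :
    ∃ ℓ : ℕ, ℓ.Prime ∧ ℓ ∉ S ∧ ∃ (w : Pl K) (F : K ≃ₐ[ℚ] K),
      ((ℓ : ℕ) : 𝓞 K) ∈ w.asIdeal ∧ InertiaTrivialAt ℚ w ∧ IsFrobPow ℚ F w ℓ ∧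
        g ∈ Subgroup.zpowers F := by
  classical
  set E : IntermediateField ℚ K := IntermediateField.fixedField (Subgroup.zpowers g) with hE
  have hfix : E.fixingSubgroup = Subgroup.zpowers g :=
    IntermediateField.fixingSubgroup_fixedField _
  have hg : g ∈ E.fixingSubgroup := by rw [hfix]; exact Subgroup.mem_zpowers g
  let e := IntermediateField.fixingSubgroupEquiv E
  set γ : K ≃ₐ[E] K := e ⟨g, hg⟩ with hγdef
  have hγ : ∀ x : K ≃ₐ[E] K, x ∈ Subgroup.zpowers γ := by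
    intro x
    obtain ⟨⟨y, hy⟩, rfl⟩ := e.surjective x
    have hy' := hy
    rw [hfix] at hy'
    obtain ⟨k, hk⟩ := Subgroup.mem_zpowers_iff.mp hy'
    refine Subgroup.mem_zpowers_iff.mpr ⟨k, ?_⟩
    rw [hγdef, ← map_zpow]
    congr 1
    exact Subtype.ext hk
  obtain ⟨T, hT⟩ := exists_finset_unram ℚ K
  have hS : ∀ ℓ : ℕ, ℓ.Prime → ℓ ∉ S ∪ T → ∀ w : Pl K, ((ℓ : ℕ) : 𝓞 K) ∈ w.asIdeal →
      eOf E w = 1 := by
    intro ℓ hℓ hℓS w hw
    have h1 := hT ℓ hℓ (fun h => hℓS (Finset.mem_union_right _ h)) w hw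
    have h2 := eOf_tower (K := ℚ) (L := E) w
    rw [h1] at h2
    exact Nat.eq_one_of_mul_eq_one_left h2.symm
  obtain ⟨ℓ, hℓ, hℓS, w, σ, hw, hσ, hmem⟩ := core hPS γ hγ (S ∪ T) hS
  refine ⟨ℓ, hℓ, fun h => hℓS (Finset.mem_union_left _ h), w, ((e.symm σ : E.fixingSubgroup) :
    K ≃ₐ[ℚ] K), hw, ?_, ?_, ?_⟩
  · exact inertiaTrivialAt_of_eOf_eq_one w
      (hT ℓ hℓ (fun h => hℓS (Finset.mem_union_right _ h)) w hw)
  · intro x
    have h1 := hσ x
    have h2 : σ (x : K) = ((e.symm σ : E.fixingSubgroup) : K ≃ₐ[ℚ] K) (x : K) := by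
      conv_lhs => rw [← e.apply_symm_apply σ]
      rfl
    rw [h2] at h1
    exact h1
  · obtain ⟨k, hk⟩ := Subgroup.mem_zpowers_iff.mp hmem
    refine Subgroup.mem_zpowers_iff.mpr ⟨k, ?_⟩
    have h3 : (e.symm σ) ^ k = ⟨g, hg⟩ := by
      rw [← map_zpow, hk, hγdef, e.symm_apply_apply]
    have h4 := congrArg (Subtype.val) h3
    rw [Subgroup.coe_zpow] at h4
    exact h4

end final

end Fermat.Agent.S29.Cheb
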