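import Mathlib
import Fermat.Agent.S14_ZAn

/-!
# S29, pillar (C2): the analytic half of the Frobenius density theorem

For a number field `L` let `idealCount L n` be the number of ideals of `𝓞 L` of norm `n`
(for `n = ℓ` prime: the number of degree-one primes of `L` above `ℓ`).  From the landed S14
bounds (`S14_Zup`, `S14_Zlow`: Euler product + simple pole of the Dedekind zeta function)

`∑_ℓ idealCount L ℓ · ℓ^{-s} = log (1 / (s - 1)) + O(1)`   (`1 < s < 2`),

hence the purely combinatorial statement `exists_prime_pos`: for finitely many number fields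
`L i` and integers `c i` with `0 < ∑ c i`, outside any finite set of primes there is a prime `ℓ`
with `0 < ∑ i, c i * idealCount (L i) ℓ`.
-/

set_option autoImplicit false

open Filter Topology NumberField IsDedekindDomain

namespace Fermat.Agent.S29.PrimeSum

noncomputable section

variable (L : Type*) [Field L] [NumberField L]

/-- number of ideals of norm `n` (the Dirichlet coefficient of the Dedekind zeta function) -/
def idealCount (n : ℕ) : ℕ := Nat.card {I : Ideal (𝓞 L) // Ideal.absNorm I = n}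

/-- the real Dirichlet term `a(n) n^{-s}` -/
def term (s : ℝ) (n : ℕ) : ℝ := (idealCount L n : ℝ) * (n : ℝ) ^ (-s)

theorem term_nonneg (s : ℝ) (n : ℕ) : 0 ≤ term L s n := by
  unfold term; positivity

/-! ### Ideals of given norm -/

/-- the finite set of ideals of norm `n` -/
def normFinset (n : ℕ) : Finset (Ideal (𝓞 L)) :=
  (Ideal.finite_setOfPred_absNorm_eq (S := 𝓞 L) n).toFinset

variable {L}

theorem mem_normFinset {n : ℕ} {I : Ideal (𝓞 L)} : I ∈ normFinset L n ↔ Ideal.absNorm I = n := by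
  simp [normFinset]

variable (L) in
theorem card_normFinset (n : ℕ) : (normFinset L n).card = idealCount L n := by
  unfold idealCount normFinset
  rw [← Set.ncard_eq_toFinset_card _ (Ideal.finite_setOfPred_absNorm_eq n), ← Nat.card_coe_set_eq]
  rfl

theorem prime_of_absNorm_prime {I : Ideal (𝓞 L)} (h : (Ideal.absNorm I).Prime) : Prime I := by
  have hI : I ≠ ⊥ := by
    rintro rfl
    rw [Ideal.absNorm_bot] at h
    exact Nat.not_prime_zero h
  exact Ideal.prime_of_isPrime hI (Ideal.isPrime_of_irreducible_absNorm h)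

theorem natCast_mem_of_prime_dvd_absNorm {P : Ideal (𝓞 L)} (hP : Prime P) {ℓ : ℕ}
    (hℓ : ℓ.Prime) (h : ℓ ∣ Ideal.absNorm P) : ((ℓ : ℕ) : 𝓞 L) ∈ P := by
  obtain ⟨P', hP'max, hP'under, hdvd⟩ := Ideal.exists_isMaximal_dvd_of_dvd_absNorm' hℓ P h
  have hPprime : P.IsPrime := (Ideal.prime_iff_isPrime hP.ne_zero).mp hP
  have hPmax : P.IsMaximal := hPprime.isMaximal hP.ne_zero
  have hle : P ≤ P' := Ideal.le_of_dvd hdvd
  have hEq : P = P' := hPmax.eq_of_le hP'max.ne_top hle
  have hmem : ((ℓ : ℕ) : ℤ) ∈ P'.under ℤ := by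
    rw [hP'under]; exact Ideal.mem_span_singleton_self _
  rw [hEq]
  have := (Ideal.mem_comap).mp hmem
  simpa using this

theorem absNorm_span_natCast (ℓ : ℕ) :
    Ideal.absNorm (Ideal.span {((ℓ : ℕ) : 𝓞 L)}) = ℓ ^ Module.finrank ℚ L := by
  rw [Ideal.absNorm_span_singleton]
  have : ((ℓ : ℕ) : 𝓞 L) = algebraMap ℤ (𝓞 L) (ℓ : ℤ) := by simp
  rw [this, Algebra.norm_algebraMap, RingOfIntegers.rank]
  simp [Int.natAbs_pow]

/-- at most `[L : ℚ]` prime ideals lie above a rational prime -/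
theorem card_le_finrank {ℓ : ℕ} (hℓ : ℓ.Prime) (T : Finset (Ideal (𝓞 L)))
    (hT : ∀ P ∈ T, Prime P ∧ ℓ ∣ Ideal.absNorm P) : T.card ≤ Module.finrank ℚ L := by
  have h1 : ∏ P ∈ T, P ∣ Ideal.span {((ℓ : ℕ) : 𝓞 L)} :=
    Finset.prod_primes_dvd _ (fun P hP ↦ (hT P hP).1) (fun P hP ↦
      Ideal.dvd_span_singleton.mpr (natCast_mem_of_prime_dvd_absNorm (hT P hP).1 hℓ (hT P hP).2))
  have h2 : Ideal.absNorm (∏ P ∈ T, P) ∣ ℓ ^ Module.finrank ℚ L := by
    rw [← absNorm_span_natCast]
    exact Ideal.absNorm_dvd_absNorm_of_le (Ideal.le_of_dvd h1)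
  rw [map_prod] at h2
  have h3 : ℓ ^ T.card ∣ ∏ P ∈ T, Ideal.absNorm P := by
    rw [← Finset.prod_const]
    exact Finset.prod_dvd_prod_of_dvd _ _ (fun P hP ↦ (hT P hP).2)
  exact (Nat.pow_dvd_pow_iff_le_right hℓ.one_lt).mp (h3.trans h2)

variable (L) in
theorem idealCount_prime_le {ℓ : ℕ} (hℓ : ℓ.Prime) : idealCount L ℓ ≤ Module.finrank ℚ L := by
  rw [← card_normFinset]
  refine card_le_finrank hℓ _ fun P hP ↦ ?_
  rw [mem_normFinset] at hP
  exact ⟨prime_of_absNorm_prime (by rw [hP]; exact hℓ), by rw [hP]⟩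

/-! ### Sums over finite sets of ideals -/

/-- `N(I)^{-s}` -/
def idealTerm (s : ℝ) (I : Ideal (𝓞 L)) : ℝ := (Ideal.absNorm I : ℝ) ^ (-s)

theorem idealTerm_nonneg (s : ℝ) (I : Ideal (𝓞 L)) : 0 ≤ idealTerm s I := by
  unfold idealTerm; positivity

open scoped Classical in
theorem sum_idealTerm_le_sum_term (s : ℝ) (F : Finset (Ideal (𝓞 L))) :
    ∑ I ∈ F, idealTerm s I ≤ ∑ n ∈ F.image (fun I ↦ Ideal.absNorm I), term L s n := by
  have h := Finset.sum_comp (s := F) (fun n : ℕ ↦ (n : ℝ) ^ (-s))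
    (fun I : Ideal (𝓞 L) ↦ Ideal.absNorm I)
  unfold idealTerm
  rw [h]
  refine Finset.sum_le_sum fun n _ ↦ ?_
  rw [nsmul_eq_mul]
  unfold term
  refine mul_le_mul_of_nonneg_right ?_ (by positivity)
  rw [← card_normFinset]
  exact_mod_cast Finset.card_le_card (fun I hI ↦ by
    rw [Finset.mem_filter] at hI
    exact mem_normFinset.mpr hI.2)

theorem sum_term_eq_sum_idealTerm (s : ℝ) (A : Finset ℕ) :
    ∑ n ∈ A, term L s n = ∑ I ∈ A.biUnion (normFinset L), idealTerm s I := by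
  classical
  rw [Finset.sum_biUnion]
  · refine Finset.sum_congr rfl fun n _ ↦ ?_
    have : ∀ I ∈ normFinset L n, idealTerm s I = (n : ℝ) ^ (-s) := fun I hI ↦ by
      unfold idealTerm; rw [mem_normFinset.mp hI]
    rw [Finset.sum_congr rfl this, Finset.sum_const, card_normFinset, nsmul_eq_mul]
    rfl
  · intro m _ n _ hmn
    refine Finset.disjoint_left.mpr fun I hI hI' ↦ hmn ?_
    rw [← mem_normFinset.mp hI, ← mem_normFinset.mp hI']

/-! ### The prime Dirichlet series -/

variable (L)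

/-- the prime Dirichlet term: `a(ℓ) ℓ^{-s}` at primes, `0` elsewhere -/
def pterm (s : ℝ) (n : ℕ) : ℝ := if n.Prime then term L s n else 0

theorem pterm_nonneg (s : ℝ) (n : ℕ) : 0 ≤ pterm L s n := by
  unfold pterm; split_ifs
  · exact term_nonneg L s n
  · exact le_rfl

theorem pterm_of_prime (s : ℝ) {n : ℕ} (hn : n.Prime) : pterm L s n = term L s n := if_pos hn

theorem pterm_le (s : ℝ) (n : ℕ) :
    pterm L s n ≤ (Module.finrank ℚ L : ℝ) * (n : ℝ) ^ (-s) := by
  unfold pterm; split_ifs with hn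
  · unfold term
    exact mul_le_mul_of_nonneg_right (by exact_mod_cast idealCount_prime_le L hn) (by positivity)
  · positivity

theorem summable_pterm {s : ℝ} (hs : 1 < s) : Summable (pterm L s) := by
  refine Summable.of_nonneg_of_le (pterm_nonneg L s) (pterm_le L s) ?_
  exact (Real.summable_nat_rpow.mpr (by linarith)).mul_left _

/-- `∑_ℓ a(ℓ) ℓ^{-s}` -/
def primeSum (s : ℝ) : ℝ := ∑' n, pterm L s n

/-- degree-one primes -/
abbrev D1 : Type _ := {v : HeightOneSpectrum (𝓞 L) // (Ideal.absNorm v.asIdeal).Prime}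

theorem summable_D1 {s : ℝ} (hs : 1 < s) :
    Summable (fun v : D1 L ↦ (Ideal.absNorm v.1.asIdeal : ℝ) ^ (-s)) :=
  (Fermat.Agent.S14x.ZAn.summable_primes (F := L) hs).subtype _

theorem tsum_D1_le_primeSum {s : ℝ} (hs : 1 < s) :
    ∑' v : D1 L, (Ideal.absNorm v.1.asIdeal : ℝ) ^ (-s) ≤ primeSum L s := by
  classical
  refine Real.tsum_le_of_sum_le (fun v ↦ by positivity) fun U ↦ ?_
  have hinj : Set.InjOn (fun v : D1 L ↦ v.1.asIdeal) (U : Set (D1 L)) := by
    intro v _ w _ h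
    exact Subtype.ext (HeightOneSpectrum.ext h)
  have h1 : ∑ v ∈ U, (Ideal.absNorm v.1.asIdeal : ℝ) ^ (-s)
      = ∑ I ∈ U.image (fun v : D1 L ↦ v.1.asIdeal), idealTerm s I := by
    rw [Finset.sum_image hinj]
    rfl
  rw [h1]
  refine (sum_idealTerm_le_sum_term s _).trans ?_
  have h2 : ∀ n ∈ (U.image (fun v : D1 L ↦ v.1.asIdeal)).image (fun I ↦ Ideal.absNorm I),
      term L s n = pterm L s n := by
    intro n hn
    obtain ⟨I, hI, rfl⟩ := Finset.mem_image.mp hn
    obtain ⟨v, _, rfl⟩ := Finset.mem_image.mp hI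
    exact (pterm_of_prime L s v.2).symm
  rw [Finset.sum_congr rfl h2]
  exact (summable_pterm L hs).sum_le_tsum _ (fun n _ ↦ pterm_nonneg L s n)

theorem primeSum_le_tsum_D1 {s : ℝ} (hs : 1 < s) :
    primeSum L s ≤ ∑' v : D1 L, (Ideal.absNorm v.1.asIdeal : ℝ) ^ (-s) := by
  classical
  refine Real.tsum_le_of_sum_le (fun n ↦ pterm_nonneg L s n) fun A ↦ ?_
  -- only primes contribute
  have h1 : ∑ n ∈ A, pterm L s n = ∑ n ∈ A.filter Nat.Prime, term L s n := by
    rw [Finset.sum_filter]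
    rfl
  rw [h1, sum_term_eq_sum_idealTerm]
  set B := (A.filter Nat.Prime).biUnion (normFinset L) with hB
  have hBprime : ∀ I ∈ B, (Ideal.absNorm I).Prime := by
    intro I hI
    obtain ⟨n, hn, hIn⟩ := Finset.mem_biUnion.mp hI
    rw [mem_normFinset.mp hIn]
    exact (Finset.mem_filter.mp hn).2
  -- the map to degree-one primes
  let toD1 : {I // I ∈ B} → D1 L := fun x ↦
    ⟨⟨x.1, (Ideal.prime_iff_isPrime (prime_of_absNorm_prime (hBprime x.1 x.2)).ne_zero).mp
        (prime_of_absNorm_prime (hBprime x.1 x.2)),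
      (prime_of_absNorm_prime (hBprime x.1 x.2)).ne_zero⟩, hBprime x.1 x.2⟩
  have hinj : Function.Injective toD1 := by
    intro x y h
    have := congrArg (fun v : D1 L ↦ v.1.asIdeal) h
    exact Subtype.ext this
  have h2 : ∑ I ∈ B, idealTerm s I
      = ∑ v ∈ B.attach.image toD1, (Ideal.absNorm v.1.asIdeal : ℝ) ^ (-s) := by
    rw [Finset.sum_image (fun x _ y _ h ↦ hinj h), ← Finset.sum_attach]
    rfl
  rw [h2]
  exact (summable_D1 L hs).sum_le_tsum _ (fun v _ ↦ by positivity)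

/-- **`∑_ℓ a(ℓ) ℓ^{-s} = log (1 / (s - 1)) + O(1)`** -/
theorem primeSum_bound :
    ∃ C : ℝ, ∀ s : ℝ, 1 < s → s < 2 → |primeSum L s - Real.log (1 / (s - 1))| ≤ C := by
  obtain ⟨C1, h1⟩ := Fermat.Agent.S14x.ZAn.S14_Zup L
  obtain ⟨C2, h2⟩ := Fermat.Agent.S14x.ZAn.S14_Zlow L
  refine ⟨max C1 C2, fun s hs1 hs2 ↦ ?_⟩
  obtain ⟨hsum, hup⟩ := h1 s hs1 hs2
  obtain ⟨-, hlow⟩ := h2 s hs1 hs2
  have h3 : ∑' v : D1 L, (Ideal.absNorm v.1.asIdeal : ℝ) ^ (-s)
      ≤ ∑' v : HeightOneSpectrum (𝓞 L), (Ideal.absNorm v.asIdeal : ℝ) ^ (-s) :=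
    hsum.tsum_subtype_le _ _ (fun v ↦ by positivity)
  have h4 := tsum_D1_le_primeSum L hs1
  have h5 := primeSum_le_tsum_D1 L hs1
  rw [abs_le]
  constructor
  · have : C2 ≤ max C1 C2 := le_max_right _ _
    linarith
  · have : C1 ≤ max C1 C2 := le_max_left _ _
    linarith

/-- **The analytic input of the Frobenius density theorem, in combinatorial form.**
For finitely many number fields `L i` and integers `c i` with `0 < ∑ c i`, outside any finite
set `S` of primes there is a prime `ℓ` with `0 < ∑ i, c i * idealCount (L i) ℓ`. -/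
theorem exists_prime_pos {ι : Type} [Fintype ι] (L : ι → Type) [∀ i, Field (L i)]
    [∀ i, NumberField (L i)] (c : ι → ℤ) (hc : 0 < ∑ i, c i) (S : Finset ℕ) :
    ∃ ℓ : ℕ, ℓ.Prime ∧ ℓ ∉ S ∧ 0 < ∑ i, c i * (idealCount (L i) ℓ : ℤ) := by
  classical
  by_contra hcon
  push Not at hcon
  choose C hC using fun i ↦ primeSum_bound (L i)
  set K : ℝ := ∑ i, |(c i : ℝ)| * C i with hK
  set M : ℝ := ∑ i, |(c i : ℝ)| * (Module.finrank ℚ (L i) : ℝ) with hM
  have hM0 : 0 ≤ M := Finset.sum_nonneg fun i _ ↦ by positivity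
  set B : ℝ := K + S.card * M with hB
  set s : ℝ := 1 + Real.exp (-(|B| + 1)) with hs
  have hexp_pos : 0 < Real.exp (-(|B| + 1)) := Real.exp_pos _
  have hexp_lt : Real.exp (-(|B| + 1)) < 1 := by
    have h0 : -(|B| + 1) < 0 := by
      have := abs_nonneg B
      linarith
    calc Real.exp (-(|B| + 1)) < Real.exp 0 := Real.exp_lt_exp.mpr h0
      _ = 1 := Real.exp_zero
  have hs1 : 1 < s := by rw [hs]; linarith
  have hs2 : s < 2 := by rw [hs]; linarith
  have hlog : Real.log (1 / (s - 1)) = |B| + 1 := by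
    rw [hs, add_sub_cancel_left, one_div, Real.log_inv, Real.log_exp, neg_neg]
  -- the combined series
  set G : ℕ → ℝ := fun n ↦ ∑ i, (c i : ℝ) * pterm (L i) s n with hG
  have hG_sum : Summable G :=
    summable_sum fun i _ ↦ (summable_pterm (L i) hs1).mul_left _
  have hG_tsum : ∑' n, G n = ∑ i, (c i : ℝ) * primeSum (L i) s := by
    rw [hG, Summable.tsum_finsetSum fun i _ ↦ (summable_pterm (L i) hs1).mul_left _]
    refine Finset.sum_congr rfl fun i _ ↦ ?_
    rw [tsum_mul_left]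
    rfl
  -- termwise upper bound
  have hG_le : ∀ n, G n ≤ if n ∈ S then M else 0 := by
    intro n
    by_cases hn : n.Prime
    · by_cases hnS : n ∈ S
      · rw [if_pos hnS, hG, hM]
        refine Finset.sum_le_sum fun i _ ↦ ?_
        have h1 : pterm (L i) s n ≤ (Module.finrank ℚ (L i) : ℝ) := by
          refine (pterm_le (L i) s n).trans ?_
          have h2 : (n : ℝ) ^ (-s) ≤ 1 :=
            Real.rpow_le_one_of_one_le_of_nonpos (by exact_mod_cast hn.one_le) (by linarith)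
          have h3 : (0 : ℝ) ≤ (Module.finrank ℚ (L i) : ℝ) := Nat.cast_nonneg _
          nlinarith
        have h0 := pterm_nonneg (L i) s n
        calc (c i : ℝ) * pterm (L i) s n ≤ |(c i : ℝ)| * pterm (L i) s n :=
              mul_le_mul_of_nonneg_right (le_abs_self _) h0
          _ ≤ |(c i : ℝ)| * (Module.finrank ℚ (L i) : ℝ) :=
              mul_le_mul_of_nonneg_left h1 (abs_nonneg _)
      · rw [if_neg hnS]
        show ∑ i, (c i : ℝ) * pterm (L i) s n ≤ 0
        have h1 : ∑ i, (c i : ℝ) * pterm (L i) s n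
            = ((∑ i, c i * (idealCount (L i) n : ℤ) : ℤ) : ℝ) * (n : ℝ) ^ (-s) := by
          push_cast
          rw [Finset.sum_mul]
          refine Finset.sum_congr rfl fun i _ ↦ ?_
          rw [pterm_of_prime (L i) s hn]
          unfold term
          ring
        rw [h1]
        have h2 : ((∑ i, c i * (idealCount (L i) n : ℤ) : ℤ) : ℝ) ≤ 0 := by
          exact_mod_cast hcon n hn hnS
        have h3 : (0 : ℝ) ≤ (n : ℝ) ^ (-s) := by positivity
        exact mul_nonpos_of_nonpos_of_nonneg h2 h3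
    · have h1 : G n = 0 := by
        rw [hG]
        refine Finset.sum_eq_zero fun i _ ↦ ?_
        unfold pterm
        rw [if_neg hn, mul_zero]
      rw [h1]
      split_ifs
      · exact hM0
      · exact le_rfl
  have hH0 : ∀ n ∉ S, (if n ∈ S then M else 0 : ℝ) = 0 := fun n hn ↦ if_neg hn
  have hH_sum : Summable (fun n : ℕ ↦ (if n ∈ S then M else 0 : ℝ)) :=
    summable_of_ne_finset_zero hH0
  have hH_tsum : ∑' n : ℕ, (if n ∈ S then M else 0 : ℝ) = S.card * M := by
    rw [tsum_eq_sum hH0, Finset.sum_congr rfl (fun n hn ↦ if_pos hn), Finset.sum_const,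
      nsmul_eq_mul]
  have h_upper : ∑' n, G n ≤ S.card * M := by
    rw [← hH_tsum]
    exact hG_sum.tsum_le_tsum hG_le hH_sum
  -- lower bound from the asymptotics
  have h_lower : (∑ i, (c i : ℝ)) * Real.log (1 / (s - 1)) - K
      ≤ ∑ i, (c i : ℝ) * primeSum (L i) s := by
    rw [hK, Finset.sum_mul, ← Finset.sum_sub_distrib]
    refine Finset.sum_le_sum fun i _ ↦ ?_
    have h1 := hC i s hs1 hs2
    have h2 : |(c i : ℝ) * (primeSum (L i) s - Real.log (1 / (s - 1)))| ≤ |(c i : ℝ)| * C i := by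
      rw [abs_mul]
      exact mul_le_mul_of_nonneg_left h1 (abs_nonneg _)
    have h3 := (abs_le.mp h2).1
    linarith
  have hc1 : (1 : ℝ) ≤ ∑ i, (c i : ℝ) := by
    have : (1 : ℤ) ≤ ∑ i, c i := hc
    exact_mod_cast this
  have hlogpos : 0 < Real.log (1 / (s - 1)) := by
    rw [hlog]
    have := abs_nonneg B
    linarith
  have h_final : Real.log (1 / (s - 1)) - K ≤ S.card * M := by
    have h1 : Real.log (1 / (s - 1)) ≤ (∑ i, (c i : ℝ)) * Real.log (1 / (s - 1)) := by
      nlinarith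
    linarith [hG_tsum ▸ h_upper]
  rw [hlog] at h_final
  have : B ≤ |B| := le_abs_self B
  linarith

end

end Fermat.Agent.S29.PrimeSum
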