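import Mathlib
import Fermat.Agent.S29_PrimeSum
import Fermat.Agent.S29_ChebCore

/-!
# S29, package C3: cyclic-subgroup Chebotarev on number fields

`exists_frob_zpowers`: for a finite Galois extension `K/ℚ`, every `g ∈ Gal(K/ℚ)` is a power of a
Frobenius element at a prime with trivial inertia above a rational prime outside any given finite
set.  (`S29_ChebCore.exists_frob_zpowers_of` fed with the analytic input
`S29_PrimeSum.exists_prime_pos`.)
-/

set_option autoImplicit false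

open NumberField IsDedekindDomain
open Fermat.Agent.S14x

namespace Fermat.Agent.S29.Cheb

theorem primePos : PrimePos := by
  intro ι _ L _ _ c hc S
  obtain ⟨ℓ, hℓ, hS, h⟩ := Fermat.Agent.S29.PrimeSum.exists_prime_pos L c hc S
  refine ⟨ℓ, hℓ, hS, ?_⟩
  have e : ∀ i, cntP (L i) ℓ = Fermat.Agent.S29.PrimeSum.idealCount (L i) ℓ :=
    fun i => cntP_eq_card (L i) ℓ hℓ
  simp only [e]
  exact h

/-- **Cyclic-subgroup Chebotarev.** -/
theorem exists_frob_zpowers (K : Type) [Field K] [NumberField K] [IsGalois ℚ K]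
    (g : K ≃ₐ[ℚ] K) (S : Finset ℕ) :
    ∃ ℓ : ℕ, ℓ.Prime ∧ ℓ ∉ S ∧ ∃ (w : Pl K) (F : K ≃ₐ[ℚ] K),
      ((ℓ : ℕ) : 𝓞 K) ∈ w.asIdeal ∧ InertiaTrivialAt ℚ w ∧ IsFrobPow ℚ F w ℓ ∧
        g ∈ Subgroup.zpowers F :=
  exists_frob_zpowers_of K primePos g S

end Fermat.Agent.S29.Cheb
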