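import Mathlib
import Fermat.Prelude.Def_EllipticCurve_FrobeniusTrace
import Fermat.Agent.Lib_ValuationIntegral

set_option autoImplicit false

open scoped Pointwise

namespace Fermat.Agent.S54Frob

open Fermat.Agent.LibValuationIntegral

theorem algInst_eq : (DivisionRing.toRatAlgebra : Algebra ℚ (AlgebraicClosure ℚ))
    = AlgebraicClosure.instAlgebra ℚ := Subsingleton.elim _ _

theorem isGalois_Qbar : IsGalois ℚ (AlgebraicClosure ℚ) := by
  rw [algInst_eq]
  exact ⟨⟩

theorem isAlgebraic_Qbar : Algebra.IsAlgebraic ℚ (AlgebraicClosure ℚ) := by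
  rw [algInst_eq]
  infer_instance

attribute [local instance] isGalois_Qbar isAlgebraic_Qbar

/-- The ring of all algebraic integers. -/
noncomputable abbrev Zbar : Subalgebra ℤ (AlgebraicClosure ℚ) :=
  integralClosure ℤ (AlgebraicClosure ℚ)

theorem isIntegral_apply (σ : AlgebraicClosure ℚ ≃ₐ[ℚ] AlgebraicClosure ℚ)
    {x : AlgebraicClosure ℚ} (hx : IsIntegral ℤ x) : IsIntegral ℤ (σ x) :=
  hx.map (σ.toAlgHom.restrictScalars ℤ)

/-- The Galois action on algebraic integers. -/
@[implicit_reducible]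
noncomputable def galAction :
    MulSemiringAction (AlgebraicClosure ℚ ≃ₐ[ℚ] AlgebraicClosure ℚ) Zbar where
  smul σ x := ⟨σ x.1, isIntegral_apply σ x.2⟩
  one_smul _ := Subtype.ext rfl
  mul_smul _ _ _ := Subtype.ext rfl
  smul_zero σ := Subtype.ext (map_zero σ)
  smul_add σ x y := Subtype.ext (map_add σ x.1 y.1)
  smul_one σ := Subtype.ext (map_one σ)
  smul_mul σ x y := Subtype.ext (map_mul σ x.1 y.1)

attribute [local instance] galAction

theorem coe_galAction_smul (σ : AlgebraicClosure ℚ ≃ₐ[ℚ] AlgebraicClosure ℚ) (x : Zbar) :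
    ((σ • x : Zbar) : AlgebraicClosure ℚ) = σ x.1 := rfl

theorem smulCommClass_galAction :
    SMulCommClass (AlgebraicClosure ℚ ≃ₐ[ℚ] AlgebraicClosure ℚ) ℤ Zbar := inferInstance

theorem isInvariant :
    Algebra.IsInvariant ℤ Zbar (AlgebraicClosure ℚ ≃ₐ[ℚ] AlgebraicClosure ℚ) := by
  refine ⟨fun b hb => ?_⟩
  have h1 : (b : AlgebraicClosure ℚ) ∈ Set.range (algebraMap ℚ (AlgebraicClosure ℚ)) := by
    rw [InfiniteGalois.mem_range_algebraMap_iff_fixed]
    intro f
    exact congrArg Subtype.val (hb f)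
  obtain ⟨r, hr⟩ := h1
  have h2 : IsIntegral ℤ r := by
    have h3 : IsIntegral ℤ (algebraMap ℚ (AlgebraicClosure ℚ) r) := hr ▸ b.2
    exact (isIntegral_algebraMap_iff (algebraMap ℚ (AlgebraicClosure ℚ)).injective).mp h3
  obtain ⟨n, hn⟩ := IsIntegrallyClosed.isIntegral_iff.mp h2
  refine ⟨n, Subtype.ext ?_⟩
  rw [← hr, ← hn]
  simp

theorem continuousSMul_galAction :
    letI : TopologicalSpace Zbar := ⊥
    ContinuousSMul (AlgebraicClosure ℚ ≃ₐ[ℚ] AlgebraicClosure ℚ) Zbar := by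
  let _ : TopologicalSpace Zbar := ⊥
  have : DiscreteTopology Zbar := ⟨rfl⟩
  rw [continuousSMul_iff_stabilizer_isOpen]
  intro b
  have h := stabilizer_isOpen_of_isIntegral (K := ℚ) (b : AlgebraicClosure ℚ)
  have heq : MulAction.stabilizer (AlgebraicClosure ℚ ≃ₐ[ℚ] AlgebraicClosure ℚ) b
      = MulAction.stabilizer (AlgebraicClosure ℚ ≃ₐ[ℚ] AlgebraicClosure ℚ)
          (b : AlgebraicClosure ℚ) := by
    ext σ
    simp only [MulAction.mem_stabilizer_iff]
    exact Subtype.ext_iff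
  rw [heq]
  exact h


/-- Existence of a valuation subring of `Qbar` over a prime `l`. -/
theorem exists_valuationSubring_liesOver (l : ℕ) (hl : l.Prime) :
    ∃ A : ValuationSubring (AlgebraicClosure ℚ), (l : AlgebraicClosure ℚ) ∈ A.nonunits := by
  let R : Subring (AlgebraicClosure ℚ) := (Int.castRingHom (AlgebraicClosure ℚ)).range
  let lR : R := ⟨(l : AlgebraicClosure ℚ), ⟨(l : ℤ), by simp⟩⟩
  have hI : Ideal.span {lR} ≠ ⊤ := by
    intro h
    rw [Ideal.span_singleton_eq_top] at h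
    obtain ⟨⟨u, ⟨m, rfl⟩⟩, hu⟩ := h.exists_right_inv
    have h1 : ((l : ℤ) : AlgebraicClosure ℚ) * ((m : ℤ) : AlgebraicClosure ℚ) = 1 := by
      have := congrArg Subtype.val hu
      simpa [lR] using this
    have h2 : (l : ℤ) * m = 1 := by exact_mod_cast h1
    have h3 : (l : ℤ) ∣ 1 := ⟨m, h2.symm⟩
    have h4 := Int.natAbs_dvd_natAbs.mpr h3
    simp at h4
    exact hl.one_lt.ne' h4
  obtain ⟨B, -, hB⟩ := Ideal.image_subset_nonunits_valuationSubring _ hI
  exact ⟨B, hB ⟨lR, Ideal.subset_span rfl, rfl⟩⟩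

/-- The inclusion of the algebraic integers in a valuation subring. -/
noncomputable def toVal (A : ValuationSubring (AlgebraicClosure ℚ)) : Zbar →+* A where
  toFun b := ⟨b.1, integral_mem A b.2⟩
  map_one' := rfl
  map_mul' _ _ := rfl
  map_zero' := rfl
  map_add' _ _ := rfl

/-- The centre of a valuation subring on the algebraic integers. -/
noncomputable def centre (A : ValuationSubring (AlgebraicClosure ℚ)) : Ideal Zbar :=
  (IsLocalRing.maximalIdeal A).comap (toVal A)

instance (A : ValuationSubring (AlgebraicClosure ℚ)) : (centre A).IsPrime := by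
  unfold centre; infer_instance

theorem mem_centre (A : ValuationSubring (AlgebraicClosure ℚ)) (b : Zbar) :
    b ∈ centre A ↔ (b : AlgebraicClosure ℚ) ∈ A.nonunits := by
  unfold centre
  rw [Ideal.mem_comap, ← ValuationSubring.coe_mem_nonunits_iff]
  rfl


/-- There is a Galois automorphism inducing the `l`-power map on the algebraic integers
modulo the centre of `A`. -/
theorem exists_frob_zbar (l : ℕ) (hl : l.Prime) (A : ValuationSubring (AlgebraicClosure ℚ))
    (hA : (l : AlgebraicClosure ℚ) ∈ A.nonunits) :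
    ∃ σ : AlgebraicClosure ℚ ≃ₐ[ℚ] AlgebraicClosure ℚ,
      ∀ b : Zbar, σ • b - b ^ l ∈ centre A := by
  let Q : Ideal Zbar := centre A
  let P : Ideal ℤ := Q.under ℤ
  have hl0 : ((l : ℕ) : Zbar ⧸ Q) = 0 := by
    have h1 : ((l : ℕ) : Zbar) ∈ Q := by
      rw [mem_centre]
      simpa using hA
    have h2 := Ideal.Quotient.eq_zero_iff_mem.mpr h1
    simpa using h2
  have : CharP (Zbar ⧸ Q) l := (CharP.charP_iff_prime_eq_zero hl).mpr hl0
  have : ExpChar (Zbar ⧸ Q) l := ExpChar.prime hl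
  let f : (Zbar ⧸ Q) →ₐ[ℤ ⧸ P] (Zbar ⧸ Q) :=
    { frobenius (Zbar ⧸ Q) l with
      commutes' := by
        intro r
        obtain ⟨n, rfl⟩ := Ideal.Quotient.mk_surjective r
        show frobenius (Zbar ⧸ Q) l (Ideal.Quotient.mk Q (algebraMap ℤ Zbar n))
          = Ideal.Quotient.mk Q (algebraMap ℤ Zbar n)
        rw [eq_intCast (algebraMap ℤ Zbar) n, map_intCast, map_intCast] }
  have hf : Function.Bijective f := by
    constructor
    · exact frobenius_inj (Zbar ⧸ Q) l
    · intro x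
      obtain ⟨b, rfl⟩ := Ideal.Quotient.mk_surjective x
      obtain ⟨c, hc⟩ := IsAlgClosed.exists_pow_nat_eq (b : AlgebraicClosure ℚ) hl.pos
      have hcint : IsIntegral ℤ c := IsIntegral.of_pow hl.pos (hc ▸ b.2)
      refine ⟨Ideal.Quotient.mk Q ⟨c, hcint⟩, ?_⟩
      show frobenius (Zbar ⧸ Q) l (Ideal.Quotient.mk Q ⟨c, hcint⟩) = _
      rw [frobenius_def, ← map_pow]
      congr 1
      exact Subtype.ext hc
  let φ : (Zbar ⧸ Q) ≃ₐ[ℤ ⧸ P] (Zbar ⧸ Q) := AlgEquiv.ofBijective f hf
  let _ : TopologicalSpace Zbar := ⊥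
  have : DiscreteTopology Zbar := ⟨rfl⟩
  have := continuousSMul_galAction
  have := isInvariant
  obtain ⟨τ, hτ⟩ := Ideal.Quotient.stabilizerHom_surjective_of_profinite
    (G := AlgebraicClosure ℚ ≃ₐ[ℚ] AlgebraicClosure ℚ) P Q φ
  refine ⟨τ.1, fun b => ?_⟩
  have h1 := congrArg (fun e => e (Ideal.Quotient.mk Q b)) hτ
  simp only [Ideal.Quotient.stabilizerHom_apply] at h1
  have h2 : φ (Ideal.Quotient.mk Q b) = Ideal.Quotient.mk Q (b ^ l) := by
    show frobenius (Zbar ⧸ Q) l (Ideal.Quotient.mk Q b) = _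
    rw [frobenius_def, map_pow]
  rw [h2] at h1
  exact Ideal.Quotient.eq.mp h1


theorem isAlgebraic_int (y : AlgebraicClosure ℚ) : IsAlgebraic ℤ y :=
  (IsFractionRing.isAlgebraic_iff ℤ ℚ (AlgebraicClosure ℚ)).mpr
    (Algebra.IsAlgebraic.isAlgebraic y)

theorem div_mem {L : Type*} [Field L] (A : ValuationSubring L) {u w y : L} (hu : u ∈ A)
    (hun : u ∉ A.nonunits) (hw : w ∈ A) (h : u * y = w) : y ∈ A := by
  rw [← A.valuation_le_one_iff]
  have hu1 : A.valuation u = 1 :=
    le_antisymm ((A.valuation_le_one_iff u).2 hu)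
      (not_lt.1 fun h' => hun (A.mem_nonunits_iff.2 h'))
  have h2 := congrArg A.valuation h
  rw [map_mul, hu1, one_mul] at h2
  rw [h2]
  exact (A.valuation_le_one_iff w).2 hw

theorem div_mem_nonunits {L : Type*} [Field L] (A : ValuationSubring L) {u w y : L} (hu : u ∈ A)
    (hun : u ∉ A.nonunits) (hw : w ∈ A.nonunits) (h : u * y = w) : y ∈ A.nonunits := by
  rw [ValuationSubring.mem_nonunits_iff] at hw ⊢
  have hu1 : A.valuation u = 1 :=
    le_antisymm ((A.valuation_le_one_iff u).2 hu)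
      (not_lt.1 fun h' => hun (A.mem_nonunits_iff.2 h'))
  have h2 := congrArg A.valuation h
  rw [map_mul, hu1, one_mul] at h2
  rw [h2]
  exact hw

theorem apply_mem_of_centre (l : ℕ) (hl : l.Prime) (A : ValuationSubring (AlgebraicClosure ℚ))
    (hA : (l : AlgebraicClosure ℚ) ∈ A.nonunits)
    (τ : AlgebraicClosure ℚ ≃ₐ[ℚ] AlgebraicClosure ℚ)
    (hτ : ∀ b : Zbar, b ∉ centre A → τ • b ∉ centre A)
    (y : AlgebraicClosure ℚ) (hy : y ∈ A) : τ y ∈ A := by
  obtain ⟨s, a, hs, ha, hsA, hsy⟩ := exists_integral_mul_eq A l hl hA y (isAlgebraic_int y) hy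
  have h1 : τ s * τ y = τ a := by rw [← map_mul, hsy]
  have h2 : τ s ∉ A.nonunits := by
    have := hτ ⟨s, hs⟩ (by rw [mem_centre]; exact hsA)
    rw [mem_centre] at this
    exact this
  exact div_mem A (integral_mem A (isIntegral_apply τ hs)) h2
    (integral_mem A (isIntegral_apply τ ha)) h1

/-- Existence of Frobenius elements in the absolute Galois group of `ℚ`. -/
theorem exists_isFrobeniusAt (l : ℕ) (hl : l.Prime) :
    ∃ A : ValuationSubring (AlgebraicClosure ℚ), A.LiesOverPrime l ∧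
      ∃ σ : AlgebraicClosure ℚ ≃ₐ[ℚ] AlgebraicClosure ℚ, A.IsFrobeniusAt σ l := by
  obtain ⟨A, hA⟩ := exists_valuationSubring_liesOver l hl
  obtain ⟨σ, hσ⟩ := exists_frob_zbar l hl A hA
  refine ⟨A, hA, σ, ?_⟩
  -- `σ` preserves the centre
  have hiff : ∀ b : Zbar, σ • b ∈ centre A ↔ b ∈ centre A := by
    intro b
    constructor
    · intro h
      have h1 : b ^ l ∈ centre A := by
        have := (centre A).sub_mem h (hσ b)
        simpa using this
      exact Ideal.IsPrime.mem_of_pow_mem inferInstance l h1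
    · intro h
      have h1 : b ^ l ∈ centre A := Ideal.pow_mem_of_mem _ h l hl.pos
      have := (centre A).add_mem (hσ b) h1
      simpa using this
  have hσA : ∀ y ∈ A, σ y ∈ A :=
    apply_mem_of_centre l hl A hA σ (fun b hb h => hb ((hiff b).mp h))
  have hσA' : ∀ y ∈ A, σ⁻¹ y ∈ A := by
    refine apply_mem_of_centre l hl A hA σ⁻¹ (fun b hb h => hb ?_)
    have := (hiff (σ⁻¹ • b)).mpr h
    rwa [smul_inv_smul] at this
  have hdec : σ ∈ A.decompositionSubgroup ℚ := by
    rw [MulAction.mem_stabilizer_iff]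
    apply le_antisymm
    · intro x hx
      rw [ValuationSubring.mem_smul_pointwise_iff_exists] at hx
      obtain ⟨y, hy, rfl⟩ := hx
      exact hσA y hy
    · intro x hx
      rw [ValuationSubring.mem_smul_pointwise_iff_exists]
      exact ⟨σ⁻¹ x, hσA' x hx, by simp⟩
  refine ⟨hdec, fun x => ?_⟩
  obtain ⟨y, rfl⟩ := IsLocalRing.residue_surjective x
  rw [← IsLocalRing.ResidueField.residue_smul, ← map_pow]
  refine Ideal.Quotient.eq.mpr ?_
  rw [← ValuationSubring.coe_mem_nonunits_iff]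
  show σ (y : AlgebraicClosure ℚ) - (y : AlgebraicClosure ℚ) ^ l ∈ A.nonunits
  obtain ⟨s, a, hs, ha, hsA, hsy⟩ :=
    exists_integral_mul_eq A l hl hA (y : AlgebraicClosure ℚ) (isAlgebraic_int _) y.2
  have hs1 : σ s - s ^ l ∈ A.nonunits := by
    have := hσ ⟨s, hs⟩
    rw [mem_centre] at this
    exact this
  have ha1 : σ a - a ^ l ∈ A.nonunits := by
    have := hσ ⟨a, ha⟩
    rw [mem_centre] at this
    exact this
  have hσs : σ s ∉ A.nonunits := by
    have := (hiff ⟨s, hs⟩).not.mpr (by rw [mem_centre]; exact hsA)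
    rw [mem_centre] at this
    exact this
  have hkey : σ s * (σ (y : AlgebraicClosure ℚ) - (y : AlgebraicClosure ℚ) ^ l)
      = (σ a - a ^ l) + (-(σ s - s ^ l)) * (y : AlgebraicClosure ℚ) ^ l := by
    have e1 : σ s * σ (y : AlgebraicClosure ℚ) = σ a := by rw [← map_mul, hsy]
    have e2 : a ^ l = s ^ l * (y : AlgebraicClosure ℚ) ^ l := by rw [← hsy, mul_pow]
    rw [mul_sub, e1, e2]
    ring
  refine div_mem_nonunits A (integral_mem A (isIntegral_apply σ hs)) hσs ?_ hkey
  refine A.nonunits.add_mem ha1 ?_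
  exact mul_mem_nonunits A (A.nonunits.neg_mem hs1) (pow_mem y.2 l)

end Fermat.Agent.S54Frob
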