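import Mathlib
import Fermat.Agent.S54_Frobenius
import Fermat.Agent.S14_Frob

/-!
# S29, pillar (C), package C4: from number-field Frobenius elements to Frobenius lifts in `G_ℚ`

* `exists_isFrobeniusAt_of_liesOver`: a Frobenius lift exists at EVERY valuation subring of
  `Qbar` over a prime `l` (the proof of `S54Frob.exists_isFrobeniusAt`, for a given `A`).
* `exists_isFrobeniusAt_of_isFrobPow`: a Frobenius element `F` at a prime `w` with trivial inertia
  of a finite Galois extension `L ⊆ Qbar` of `ℚ` is the restriction of a Frobenius lift.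
-/

set_option autoImplicit false

open scoped Pointwise
open NumberField IsDedekindDomain

namespace Fermat.Agent.S29.FrobTransfer

open Fermat.Agent.S54Frob Fermat.Agent.LibValuationIntegral

attribute [local instance] isGalois_Qbar isAlgebraic_Qbar galAction

/-- Frobenius lifts exist at every valuation subring over `l`. -/
theorem exists_isFrobeniusAt_of_liesOver (l : ℕ) (hl : l.Prime)
    (A : ValuationSubring (AlgebraicClosure ℚ)) (hA : A.LiesOverPrime l) :
    ∃ σ : AlgebraicClosure ℚ ≃ₐ[ℚ] AlgebraicClosure ℚ, A.IsFrobeniusAt σ l ∧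
      ∀ b : Zbar, σ • b - b ^ l ∈ centre A := by
  obtain ⟨σ, hσ⟩ := exists_frob_zbar l hl A hA
  refine ⟨σ, ?_, hσ⟩
  -- `σ` preserves the centre
  have hiff : ∀ b : Zbar, σ • b ∈ centre A ↔ b ∈ centre A := by
    intro b
    constructor
    · intro h
      have h1 : b ^ l ∈ centre A := by
        have := (centre A).sub_mem h (hσ b)
        simpa using this
      exact Ideal.IsPrime.mem_of_pow_mem inferInstance l h1
    · intro h
      have h1 : b ^ l ∈ centre A := Ideal.pow_mem_of_mem _ h l hl.pos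
      have := (centre A).add_mem (hσ b) h1
      simpa using this
  have hσA : ∀ y ∈ A, σ y ∈ A :=
    apply_mem_of_centre l hl A hA σ (fun b hb h => hb ((hiff b).mp h))
  have hσA' : ∀ y ∈ A, σ⁻¹ y ∈ A := by
    refine apply_mem_of_centre l hl A hA σ⁻¹ (fun b hb h => hb ?_)
    have := (hiff (σ⁻¹ • b)).mpr h
    rwa [smul_inv_smul] at this
  have hdec : σ ∈ A.decompositionSubgroup ℚ := by
    rw [MulAction.mem_stabilizer_iff]
    apply le_antisymm
    · intro x hx
      rw [ValuationSubring.mem_smul_pointwise_iff_exists] at hx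
      obtain ⟨y, hy, rfl⟩ := hx
      exact hσA y hy
    · intro x hx
      rw [ValuationSubring.mem_smul_pointwise_iff_exists]
      exact ⟨σ⁻¹ x, hσA' x hx, by simp⟩
  refine ⟨hdec, fun x => ?_⟩
  obtain ⟨y, rfl⟩ := IsLocalRing.residue_surjective x
  rw [← IsLocalRing.ResidueField.residue_smul, ← map_pow]
  refine Ideal.Quotient.eq.mpr ?_
  rw [← ValuationSubring.coe_mem_nonunits_iff]
  show σ (y : AlgebraicClosure ℚ) - (y : AlgebraicClosure ℚ) ^ l ∈ A.nonunits
  obtain ⟨s, a, hs, ha, hsA, hsy⟩ :=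
    exists_integral_mul_eq A l hl hA (y : AlgebraicClosure ℚ) (isAlgebraic_int _) y.2
  have hs1 : σ s - s ^ l ∈ A.nonunits := by
    have := hσ ⟨s, hs⟩
    rw [mem_centre] at this
    exact this
  have ha1 : σ a - a ^ l ∈ A.nonunits := by
    have := hσ ⟨a, ha⟩
    rw [mem_centre] at this
    exact this
  have hσs : σ s ∉ A.nonunits := by
    have := (hiff ⟨s, hs⟩).not.mpr (by rw [mem_centre]; exact hsA)
    rw [mem_centre] at this
    exact this
  have hkey : σ s * (σ (y : AlgebraicClosure ℚ) - (y : AlgebraicClosure ℚ) ^ l)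
      = (σ a - a ^ l) + (-(σ s - s ^ l)) * (y : AlgebraicClosure ℚ) ^ l := by
    have e1 : σ s * σ (y : AlgebraicClosure ℚ) = σ a := by rw [← map_mul, hsy]
    have e2 : a ^ l = s ^ l * (y : AlgebraicClosure ℚ) ^ l := by rw [← hsy, mul_pow]
    rw [mul_sub, e1, e2]
    ring
  refine div_mem_nonunits A (integral_mem A (isIntegral_apply σ hs)) hσs ?_ hkey
  refine A.nonunits.add_mem ha1 ?_
  exact mul_mem_nonunits A (A.nonunits.neg_mem hs1) (pow_mem y.2 l)

/-- **C4.** A Frobenius element at a prime with trivial inertia of a finite Galois extension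
`L ⊆ Qbar` of `ℚ` is the restriction of a Frobenius lift in `G_ℚ`. -/
theorem exists_isFrobeniusAt_of_isFrobPow (L : IntermediateField ℚ (AlgebraicClosure ℚ))
    [NumberField L] [IsGalois ℚ L] (ℓ : ℕ) (hℓ : ℓ.Prime) (w : S14x.Pl L)
    (hw : ((ℓ : ℕ) : 𝓞 L) ∈ w.asIdeal) (hI : S14x.InertiaTrivialAt ℚ w) (F : L ≃ₐ[ℚ] L)
    (hF : S14x.IsFrobPow ℚ F w ℓ) :
    ∃ (A : ValuationSubring (AlgebraicClosure ℚ))
      (τ : AlgebraicClosure ℚ ≃ₐ[ℚ] AlgebraicClosure ℚ),
      A.LiesOverPrime ℓ ∧ A.IsFrobeniusAt τ ℓ ∧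
      ∀ x : L, τ (x : AlgebraicClosure ℚ) = ((F x : L) : AlgebraicClosure ℚ) := by
  classical
  let ι : 𝓞 L →+* AlgebraicClosure ℚ :=
    (algebraMap L (AlgebraicClosure ℚ)).comp (algebraMap (𝓞 L) L)
  have hι : Function.Injective ι :=
    (algebraMap L (AlgebraicClosure ℚ)).injective.comp RingOfIntegers.coe_injective
  have hint : ∀ x : 𝓞 L, IsIntegral ℤ (ι x) := fun x =>
    (RingOfIntegers.isIntegral_coe x).map
      ((IsScalarTower.toAlgHom ℚ L (AlgebraicClosure ℚ)).restrictScalars ℤ)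
  let R : Subring (AlgebraicClosure ℚ) := ι.range
  let I : Ideal R := w.asIdeal.map ι.rangeRestrict
  have hsurj : Function.Surjective ι.rangeRestrict := ι.rangeRestrict_surjective
  have hImem : ∀ r : R, r ∈ I ↔ ∃ x ∈ w.asIdeal, ι x = (r : AlgebraicClosure ℚ) := by
    intro r
    rw [Ideal.mem_map_iff_of_surjective _ hsurj]
    constructor
    · rintro ⟨x, hx, rfl⟩
      exact ⟨x, hx, rfl⟩
    · rintro ⟨x, hx, h⟩
      exact ⟨x, hx, Subtype.ext h⟩
  have hItop : I ≠ ⊤ := by
    intro h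
    have h1 : (1 : R) ∈ I := by rw [h]; trivial
    obtain ⟨x, hx, hx1⟩ := (hImem 1).mp h1
    have hx' : x = 1 := hι (by rw [hx1, map_one]; rfl)
    exact w.isPrime.ne_top ((Ideal.eq_top_iff_one _).mpr (hx' ▸ hx))
  obtain ⟨A, -, hAI⟩ := Ideal.image_subset_nonunits_valuationSubring I hItop
  have hwA : ∀ x : 𝓞 L, x ∈ w.asIdeal → ι x ∈ A.nonunits := fun x hx =>
    hAI ⟨ι.rangeRestrict x, (hImem _).mpr ⟨x, hx, rfl⟩, rfl⟩
  have hAw : ∀ x : 𝓞 L, ι x ∈ A.nonunits → x ∈ w.asIdeal := by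
    intro x hx
    by_contra hxw
    obtain ⟨y, z, hz, hyz⟩ := w.isMaximal.exists_inv hxw
    have h1 : ι (y * x + z) ∈ A.nonunits := by
      rw [map_add, map_mul]
      refine A.nonunits.add_mem ?_ (hwA z hz)
      rw [mul_comm]
      exact mul_mem_nonunits A hx (integral_mem A (hint y))
    rw [hyz, map_one] at h1
    rw [ValuationSubring.mem_nonunits_iff, map_one] at h1
    exact lt_irrefl _ h1
  have hℓA : A.LiesOverPrime ℓ := by
    have h := hwA _ hw
    have e : ι ((ℓ : ℕ) : 𝓞 L) = ((ℓ : ℕ) : AlgebraicClosure ℚ) := map_natCast ι ℓ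
    rw [e] at h
    exact h
  obtain ⟨τ, hτ, hτb⟩ := exists_isFrobeniusAt_of_liesOver ℓ hℓ A hℓA
  refine ⟨A, τ, hℓA, hτ, ?_⟩
  have hres : S14x.IsFrobPow ℚ (τ.restrictNormal L) w ℓ := by
    rw [S14x.isFrobPow_iff_mem]
    intro x
    apply hAw
    have e1 : ι (galRestrict (𝓞 ℚ) ℚ L (𝓞 L) (τ.restrictNormal L) x - x ^ ℓ)
        = τ (ι x) - (ι x) ^ ℓ := by
      rw [map_sub, map_pow]
      congr 1
      show algebraMap L (AlgebraicClosure ℚ)
        ((galRestrict (𝓞 ℚ) ℚ L (𝓞 L) (τ.restrictNormal L) x : 𝓞 L) : L) = _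
      rw [S14x.frob_coe_galRestrict]
      exact AlgEquiv.restrictNormal_commutes τ L (x : L)
    rw [e1]
    have h := hτb ⟨ι x, hint x⟩
    rw [mem_centre] at h
    exact h
  have hEq : τ.restrictNormal L = F := S14x.IsFrobPow.unique hres hF hℓ.ne_zero hI
  intro x
  rw [← hEq]
  exact (AlgEquiv.restrictNormal_commutes τ L x).symm

end Fermat.Agent.S29.FrobTransfer
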