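import Mathlib
import Fermat.Prelude.Def_GaloisRep_Residual

/-!
# S29: the mod-`p` cyclotomic character of `G_ℚ`

`cyclo p : Gal(ℚ̄/ℚ) →* (ZMod p)ˣ` (Mathlib's `modularCyclotomicCharacter`), with

* `cyclo_frobenius`: `cyclo p σ = ℓ` for every Frobenius lift `σ` at a prime `ℓ ≠ p`;
* `cyclo_inertia`: `cyclo p σ = 1` on inertia at `ℓ ≠ p`;
* `cyclo_level`: `cyclo p` factors through a finite level.
-/

set_option autoImplicit false

noncomputable section

namespace Fermat.Agent.S29.Cyclo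

local notation "Qbar" => AlgebraicClosure ℚ

variable (p : ℕ) [Fact p.Prime]

theorem exists_zeta : ∃ ζ : Qbar, IsPrimitiveRoot ζ p :=
  HasEnoughRootsOfUnity.exists_primitiveRoot Qbar p

theorem card_roots : Nat.card (rootsOfUnity p Qbar) = p :=
  (exists_zeta p).choose_spec.card_rootsOfUnity

/-- exponents of a nonzero element of a field are determined modulo its order. -/
theorem modEq_of_pow_eq {F : Type*} [Field F] {z : F} (hz : z ≠ 0) {a b : ℕ}
    (h : z ^ a = z ^ b) : a ≡ b [MOD orderOf z] := by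
  have hu : (Units.mk0 z hz) ^ a = (Units.mk0 z hz) ^ b := Units.ext (by
    rw [Units.val_pow_eq_pow_val, Units.val_pow_eq_pow_val, Units.val_mk0]; exact h)
  have h1 := pow_eq_pow_iff_modEq.mp hu
  rwa [← orderOf_units, Units.val_mk0] at h1

/-- the forgetful map from `ℚ`-algebra automorphisms to ring automorphisms. -/
def toRingAutHom : (Qbar ≃ₐ[ℚ] Qbar) →* (Qbar ≃+* Qbar) where
  toFun σ := σ.toRingEquiv
  map_one' := rfl
  map_mul' _ _ := rfl

/-- **the mod-`p` cyclotomic character of `G_ℚ`.** -/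
def cyclo : (Qbar ≃ₐ[ℚ] Qbar) →* (ZMod p)ˣ :=
  (modularCyclotomicCharacter Qbar (card_roots p)).comp toRingAutHom

variable {p}

theorem cyclo_spec (σ : Qbar ≃ₐ[ℚ] Qbar) {ζ : Qbar} (hζ : IsPrimitiveRoot ζ p) :
    σ ζ = ζ ^ ((cyclo p σ : (ZMod p)ˣ) : ZMod p).val := by
  have hp0 : p ≠ 0 := (Fact.out : p.Prime).ne_zero
  have ht : (hζ.isUnit hp0).unit ∈ rootsOfUnity p Qbar := by
    rw [mem_rootsOfUnity]
    apply Units.ext
    rw [Units.val_pow_eq_pow_val, IsUnit.unit_spec, hζ.pow_eq_one, Units.val_one]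
  have h := modularCyclotomicCharacter.spec Qbar (card_roots p) (toRingAutHom σ) ht
  rw [IsUnit.unit_spec] at h
  exact h

theorem natCast_eq_of_pow_eq {ζ : Qbar} (hζ : IsPrimitiveRoot ζ p) {a b : ℕ}
    (h : ζ ^ a = ζ ^ b) : (a : ZMod p) = (b : ZMod p) := by
  have hp : p.Prime := Fact.out
  have h1 := modEq_of_pow_eq (hζ.ne_zero hp.ne_zero) h
  rw [← hζ.eq_orderOf] at h1
  exact (ZMod.natCast_eq_natCast_iff a b p).mpr h1

theorem cyclo_eq_of_apply (σ : Qbar ≃ₐ[ℚ] Qbar) {ζ : Qbar} (hζ : IsPrimitiveRoot ζ p) {c : ℕ}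
    (h : σ ζ = ζ ^ c) : ((cyclo p σ : (ZMod p)ˣ) : ZMod p) = (c : ZMod p) := by
  have h1 := cyclo_spec σ hζ
  rw [h] at h1
  have h2 := natCast_eq_of_pow_eq hζ h1
  rw [ZMod.natCast_zmod_val] at h2
  exact h2.symm

theorem zeta_mem (A : ValuationSubring Qbar) {ζ : Qbar} (hζ : IsPrimitiveRoot ζ p) : ζ ∈ A := by
  have hp : p.Prime := Fact.out
  rcases A.mem_or_inv_mem ζ with h | h
  · exact h
  · have h1 : ζ = ζ⁻¹ ^ (p - 1) := by
      have h0 : ζ ≠ 0 := hζ.ne_zero hp.ne_zero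
      have h2 : ζ ^ (p - 1) * ζ = 1 := by
        rw [← pow_succ, Nat.sub_add_cancel hp.one_le, hζ.pow_eq_one]
      rw [inv_pow]
      exact (eq_inv_of_mul_eq_one_right h2)
    rw [h1]
    exact pow_mem h _

/-- `p` is a unit at a valuation subring over `ℓ ≠ p`. -/
theorem natCast_residue_ne_zero (A : ValuationSubring Qbar) (ℓ : ℕ) (hℓ : ℓ.Prime)
    (hA : A.LiesOverPrime ℓ) (hℓp : ℓ ≠ p) : (p : IsLocalRing.ResidueField A) ≠ 0 := by
  have hp : p.Prime := Fact.out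
  intro h0
  have h1 : ((p : ℕ) : A) ∈ IsLocalRing.maximalIdeal A := by
    rw [← Ideal.Quotient.eq_zero_iff_mem]
    have : (IsLocalRing.residue A) ((p : ℕ) : A) = 0 := by rw [map_natCast]; exact h0
    exact this
  have h2 : ((ℓ : ℕ) : A) ∈ IsLocalRing.maximalIdeal A := by
    rw [← ValuationSubring.coe_mem_nonunits_iff]
    have : (((ℓ : ℕ) : A) : Qbar) = (ℓ : Qbar) := by push_cast; rfl
    rw [this]
    exact hA
  have hcop : Nat.Coprime p ℓ := (Nat.coprime_primes hp hℓ).mpr (Ne.symm hℓp)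
  have h3 : (1 : A) ∈ IsLocalRing.maximalIdeal A := by
    have hb := Nat.Coprime.gcd_eq_one hcop
    have hbez := Nat.gcd_eq_gcd_ab p ℓ
    rw [hb] at hbez
    have h4 : (1 : A) = ((p : ℕ) : A) * ((Nat.gcdA p ℓ : ℤ) : A)
        + ((ℓ : ℕ) : A) * ((Nat.gcdB p ℓ : ℤ) : A) := by
      have := congrArg (fun z : ℤ => (z : A)) hbez
      push_cast at this
      exact this
    rw [h4]
    exact Ideal.add_mem _ (Ideal.mul_mem_right _ _ h1) (Ideal.mul_mem_right _ _ h2)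
  exact (Ideal.ne_top_iff_one _).mp (IsLocalRing.maximalIdeal.isMaximal A).ne_top h3

/-- the residue of a primitive `p`-th root of unity at a valuation subring over `ℓ ≠ p` still
has order `p`. -/
theorem orderOf_residue (A : ValuationSubring Qbar) (ℓ : ℕ) (hℓ : ℓ.Prime)
    (hA : A.LiesOverPrime ℓ) (hℓp : ℓ ≠ p) {ζ : Qbar} (hζ : IsPrimitiveRoot ζ p)
    (hζA : ζ ∈ A) : orderOf (IsLocalRing.residue A ⟨ζ, hζA⟩) = p := by
  have hp : p.Prime := Fact.out
  set z := IsLocalRing.residue A ⟨ζ, hζA⟩ with hz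
  have hzp : z ^ p = 1 := by
    rw [hz, ← map_pow]
    have : (⟨ζ, hζA⟩ : A) ^ p = 1 := Subtype.ext (by
      rw [SubmonoidClass.coe_pow]; exact hζ.pow_eq_one)
    rw [this, map_one]
  have hdvd : orderOf z ∣ p := orderOf_dvd_of_pow_eq_one hzp
  rcases (Nat.dvd_prime hp).mp hdvd with h1 | h1
  · exfalso
    have hz1 : z = 1 := orderOf_eq_one_iff.mp h1
    have hζ' : IsPrimitiveRoot ζ ((p - 1) + 1) := by
      rw [Nat.sub_add_cancel hp.one_le]; exact hζ
    have hprod := hζ'.prod_one_sub_pow_eq_order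
    have hprodA : ∏ k ∈ Finset.range (p - 1), (1 - (⟨ζ, hζA⟩ : A) ^ (k + 1))
        = (((p - 1 : ℕ) : A) + 1) := by
      apply Subtype.ext
      have e1 : ((∏ k ∈ Finset.range (p - 1), (1 - (⟨ζ, hζA⟩ : A) ^ (k + 1)) : A) : Qbar)
          = ∏ k ∈ Finset.range (p - 1), (1 - ζ ^ (k + 1)) :=
        map_prod A.subtype _ _
      have e2 : (((((p - 1 : ℕ) : A) + 1 : A)) : Qbar) = ((p - 1 : ℕ) : Qbar) + 1 :=
        (map_add A.subtype _ _).trans (by rw [map_natCast, map_one])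
      rw [e1, e2, hprod]
    have hprodk := congrArg (IsLocalRing.residue A) hprodA
    rw [map_prod] at hprodk
    have hzero : ∏ k ∈ Finset.range (p - 1),
        (IsLocalRing.residue A) (1 - (⟨ζ, hζA⟩ : A) ^ (k + 1)) = 0 := by
      apply Finset.prod_eq_zero (i := 0)
      · rw [Finset.mem_range]
        have := hp.two_le
        omega
      · rw [map_sub, map_one, map_pow, ← hz, hz1, one_pow, sub_self]
    rw [hzero] at hprodk
    have hcast : (IsLocalRing.residue A) (((p - 1 : ℕ) : A) + 1)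
        = (p : IsLocalRing.ResidueField A) := by
      rw [map_add, map_one, map_natCast]
      have : ((p - 1 : ℕ) : IsLocalRing.ResidueField A) + 1 = ((p - 1 + 1 : ℕ) : IsLocalRing.ResidueField A) := by
        push_cast; rfl
      rw [this, Nat.sub_add_cancel hp.one_le]
    rw [hcast] at hprodk
    exact natCast_residue_ne_zero A ℓ hℓ hA hℓp hprodk.symm
  · exact h1

variable (p)

/-- **`cyclo p (Frob_ℓ) = ℓ`** for every Frobenius lift at a prime `ℓ ≠ p`. -/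
theorem cyclo_frobenius (ℓ : ℕ) (hℓ : ℓ.Prime) (hℓp : ℓ ≠ p)
    (A : ValuationSubring Qbar) (hA : A.LiesOverPrime ℓ)
    (σ : Qbar ≃ₐ[ℚ] Qbar) (hσ : A.IsFrobeniusAt σ ℓ) :
    ((cyclo p σ : (ZMod p)ˣ) : ZMod p) = (ℓ : ZMod p) := by
  obtain ⟨ζ, hζ⟩ := exists_zeta p
  have hζA := zeta_mem A hζ
  obtain ⟨hσA, hfr⟩ := hσ
  have h1 := hfr (IsLocalRing.residue A ⟨ζ, hζA⟩)
  rw [← IsLocalRing.ResidueField.residue_smul, ← map_pow] at h1
  have h2 : ((⟨σ, hσA⟩ : A.decompositionSubgroup ℚ) • (⟨ζ, hζA⟩ : A))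
      = (⟨ζ, hζA⟩ : A) ^ ((cyclo p σ : (ZMod p)ˣ) : ZMod p).val := Subtype.ext (by
    rw [SubmonoidClass.coe_pow]
    exact cyclo_spec σ hζ)
  rw [h2, map_pow, map_pow] at h1
  have hz0 : IsLocalRing.residue A ⟨ζ, hζA⟩ ≠ 0 := by
    intro h0
    have := orderOf_residue A ℓ hℓ hA hℓp hζ hζA
    rw [h0, orderOf_zero] at this
    exact (Fact.out : p.Prime).ne_zero this.symm
  have h1' := modEq_of_pow_eq hz0 h1
  rw [orderOf_residue A ℓ hℓ hA hℓp hζ hζA] at h1'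
  have h3 := (ZMod.natCast_eq_natCast_iff _ _ p).mpr h1'
  rw [ZMod.natCast_zmod_val] at h3
  exact h3

/-- **`cyclo p` is trivial on inertia at every prime `ℓ ≠ p`.** -/
theorem cyclo_inertia (ℓ : ℕ) (hℓ : ℓ.Prime) (hℓp : ℓ ≠ p)
    (A : ValuationSubring Qbar) (hA : A.LiesOverPrime ℓ)
    (σ : Qbar ≃ₐ[ℚ] Qbar) (hσ : σ ∈ A.inertiaSubgroupIn ℚ) : cyclo p σ = 1 := by
  obtain ⟨ζ, hζ⟩ := exists_zeta p
  have hζA := zeta_mem A hζ
  obtain ⟨τ, hτ, rfl⟩ := hσ
  have hτ' : ∀ x : IsLocalRing.ResidueField A, τ • x = x := by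
    intro x
    have h1 : MulSemiringAction.toRingAut (A.decompositionSubgroup ℚ)
        (IsLocalRing.ResidueField A) τ = 1 := hτ
    have h2 := congrArg (fun e : RingAut (IsLocalRing.ResidueField A) => e x) h1
    exact h2
  have h1 := hτ' (IsLocalRing.residue A ⟨ζ, hζA⟩)
  rw [← IsLocalRing.ResidueField.residue_smul] at h1
  have h2 : (τ • (⟨ζ, hζA⟩ : A))
      = (⟨ζ, hζA⟩ : A) ^ ((cyclo p (τ : Qbar ≃ₐ[ℚ] Qbar) : (ZMod p)ˣ) : ZMod p).val :=
    Subtype.ext (by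
      rw [SubmonoidClass.coe_pow]
      exact cyclo_spec (τ : Qbar ≃ₐ[ℚ] Qbar) hζ)
  rw [h2, map_pow] at h1
  have h3 : (IsLocalRing.residue A ⟨ζ, hζA⟩) ^ ((cyclo p (τ : Qbar ≃ₐ[ℚ] Qbar) : (ZMod p)ˣ) : ZMod p).val
      = (IsLocalRing.residue A ⟨ζ, hζA⟩) ^ 1 := by rw [h1, pow_one]
  have hz0 : IsLocalRing.residue A ⟨ζ, hζA⟩ ≠ 0 := by
    intro h0
    have := orderOf_residue A ℓ hℓ hA hℓp hζ hζA
    rw [h0, orderOf_zero] at this
    exact (Fact.out : p.Prime).ne_zero this.symm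
  have h3' := modEq_of_pow_eq hz0 h3
  rw [orderOf_residue A ℓ hℓ hA hℓp hζ hζA] at h3'
  have h4 := (ZMod.natCast_eq_natCast_iff _ _ p).mpr h3'
  rw [ZMod.natCast_zmod_val, Nat.cast_one] at h4
  exact Units.ext h4

/-- **`cyclo p` factors through a finite level** (`ℚ(ζ_p)`). -/
theorem cyclo_level : GaloisFactorsThroughFiniteLevel (cyclo p) := by
  obtain ⟨ζ, hζ⟩ := exists_zeta p
  have hp : p.Prime := Fact.out
  have hint : IsIntegral ℚ ζ := (hζ.isIntegral hp.pos).tower_top (R := ℤ)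
  refine ⟨IntermediateField.adjoin ℚ {ζ}, IntermediateField.adjoin.finiteDimensional hint,
    fun σ hσ => ?_⟩
  have h1 : σ ζ = ζ ^ 1 := by
    rw [pow_one]
    exact hσ ζ (IntermediateField.mem_adjoin_simple_self ℚ ζ)
  have h2 := cyclo_eq_of_apply σ hζ h1
  rw [Nat.cast_one] at h2
  exact Units.ext h2

end Fermat.Agent.S29.Cyclo
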