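import Mathlib

/-!
# S29 long shot, pillar (C): the group lemma

Let `k` be an algebraically closed field, `V` a finite-dimensional irreducible representation of a
group `Γ`, `χ : Γ →* kˣ` a character and `t : Γ → k` a function such that every `g` satisfies
`g² - t(g) g + χ(g) = 0` on `V`.  Then `dim V ≤ 2` (`finrank_le_two`), and if `dim V = 2` the
characteristic polynomial of every `g` is `X² - t(g) X + χ(g)` (`charpoly_eq`).  No assumption on
the characteristic.

Proof: `g ↦ χ(g) g⁻¹ = t(g) - g` is anti-multiplicative, so `t = T ∘ ρ` for a linear form `T` on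
`End V` and `x ↦ T x - x` is a linear anti-multiplicative map on `span ρ(Γ) = End V` (Burnside,
`span_range_eq_top`, from Mathlib's Jacobson density theorem).  In matrix units this is impossible
for `n ≥ 3` (`matrix_absurd`).

Also: `diagRep ψ₁ ψ₂`, the diagonal two-dimensional representation attached to two characters,
with its characteristic polynomial (`charpoly_diagRep`), for the one-dimensional case.
-/

set_option autoImplicit false

open Polynomial Module

namespace Fermat.Agent.S29.GroupLemma

variable {k V Γ : Type*} [Field k] [AddCommGroup V] [Module k V] [Group Γ]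




open scoped MonoidAlgebra in
theorem asAlgebraHom_mem_span (ρ : Representation k Γ V) (r : k[Γ]) :
    ρ.asAlgebraHom r ∈ Submodule.span k (Set.range ρ) := by
  induction r using MonoidAlgebra.induction_linear with
  | zero => rw [map_zero]; exact Submodule.zero_mem _
  | add x y hx hy => rw [map_add]; exact Submodule.add_mem _ hx hy
  | single g a =>
    rw [Representation.asAlgebraHom_single]
    exact Submodule.smul_mem _ _ (Submodule.subset_span ⟨g, rfl⟩)

open scoped MonoidAlgebra in
/-- Burnside's theorem in arbitrary finite dimension. -/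
theorem span_range_eq_top [IsAlgClosed k] [FiniteDimensional k V] [Nontrivial V]
    (ρ : Γ →* Module.End k V)
    (hirr : ∀ W : Submodule k V, (∀ g, ∀ x ∈ W, ρ g x ∈ W) → W = ⊥ ∨ W = ⊤) :
    Submodule.span k (Set.range ρ) = ⊤ := by
  classical
  let ρ' : Representation k Γ V := ρ
  have hI : Representation.IsIrreducible ρ' := by
    refine { exists_pair_ne := ⟨⊥, ⊤, ?_⟩, eq_bot_or_eq_top := ?_ }
    · intro h
      have h2 := congrArg Subrepresentation.toSubmodule h
      exact bot_ne_top h2
    · intro W
      rcases hirr W.toSubmodule (fun g x hx => W.apply_mem_toSubmodule g hx) with h | h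
      · left; exact Subrepresentation.toSubmodule_injective h
      · right; exact Subrepresentation.toSubmodule_injective h
  have hS : IsSimpleModule k[Γ] ρ'.asModule :=
    (Representation.irreducible_iff_isSimpleModule_asModule ρ').mp hI
  rw [eq_top_iff]
  rintro φ -
  have hsch : Function.Bijective (algebraMap k (Module.End k[Γ] ρ'.asModule)) :=
    IsSimpleModule.algebraMap_end_bijective_of_isAlgClosed k
  let e := ρ'.asModuleEquiv
  let f : Module.End (Module.End k[Γ] ρ'.asModule) ρ'.asModule :=
    { toFun := fun m => e.symm (φ (e m))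
      map_add' := fun x y => by simp
      map_smul' := fun ψ m => by
        obtain ⟨c, rfl⟩ := hsch.2 ψ
        simp only [RingHom.id_apply, Module.End.smul_def, Module.algebraMap_end_apply]
        simp }
  obtain ⟨b⟩ : Nonempty (Module.Basis (Fin (Module.finrank k V)) k V) :=
    ⟨Module.finBasis k V⟩
  obtain ⟨r, hr⟩ := jacobson_density f (Finset.univ.image fun i => e.symm (b i))
  have hφ : φ = ρ'.asAlgebraHom r := by
    refine b.ext fun i => ?_
    have h1 := hr (e.symm (b i)) (Finset.mem_image_of_mem _ (Finset.mem_univ i))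
    have h2 := congrArg e h1
    rw [Representation.asModuleEquiv_map_smul] at h2
    have h3 : ρ'.asModuleEquiv (e.symm (b i)) = b i := e.apply_symm_apply (b i)
    rw [h3] at h2
    rw [← h2]
    show φ (b i) = e (e.symm (φ (e (e.symm (b i)))))
    rw [e.apply_symm_apply, e.apply_symm_apply]
  rw [hφ]
  exact asAlgebraHom_mem_span ρ' r





/-- No linear map `T` on `n × n` matrices, `n ≥ 3`, makes `x ↦ T x - x` anti-multiplicative. -/
theorem matrix_absurd {n : ℕ} (hn : 3 ≤ n) (T : Matrix (Fin n) (Fin n) k →ₗ[k] k)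
    (h : ∀ M N : Matrix (Fin n) (Fin n) k,
      T (M * N) • (1 : Matrix (Fin n) (Fin n) k) - M * N = (T N • 1 - N) * (T M • 1 - M)) :
    False := by
  classical
  -- off-diagonal units
  have hoff : ∀ i j : Fin n, i ≠ j → T (Matrix.single i j (1 : k)) = 0 := by
    intro i j hij
    have h1 := h (Matrix.single i j (1 : k)) (Matrix.single i j (1 : k))
    have h0 : Matrix.single i j (1 : k) * Matrix.single i j (1 : k) = 0 := by
      rw [Matrix.single_mul_single_of_ne _ _ _ _ (Ne.symm hij)]
    rw [h0, map_zero, zero_smul, sub_zero] at h1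
    have h2 := congrFun (congrFun h1 i) i
    simp only [Matrix.zero_apply, Matrix.mul_apply, Matrix.sub_apply, Matrix.smul_apply,
      Matrix.one_apply, Matrix.single_apply, smul_eq_mul] at h2
    rw [Finset.sum_eq_single i] at h2
    · simp only [if_true, hij, and_false, if_false, and_true, Ne.symm hij, sub_zero, mul_one]
        at h2
      exact mul_self_eq_zero.mp h2.symm
    · intro b _ hb
      simp [hb, Ne.symm hb, hij]
    · intro hi; exact absurd (Finset.mem_univ i) hi
  have hdiag : ∀ i : Fin n, T (Matrix.single i i (1 : k)) = 0 := by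
    intro i
    -- choose j ≠ i and l ∉ {i, j}
    obtain ⟨j, hj⟩ : ∃ j : Fin n, j ≠ i := by
      by_cases hi : i = ⟨0, by omega⟩
      · exact ⟨⟨1, by omega⟩, by rw [hi]; intro hh; simp [Fin.ext_iff] at hh⟩
      · exact ⟨⟨0, by omega⟩, fun hh => hi hh.symm⟩
    obtain ⟨l, hli, hlj⟩ : ∃ l : Fin n, l ≠ i ∧ l ≠ j := by
      have hcard : ({i, j} : Finset (Fin n)).card < (Finset.univ : Finset (Fin n)).card := by
        rw [Finset.card_univ, Fintype.card_fin]
        exact lt_of_le_of_lt (Finset.card_insert_le _ _) (by simp; omega)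
      obtain ⟨l, -, hl⟩ := Finset.exists_mem_notMem_of_card_lt_card hcard
      simp only [Finset.mem_insert, Finset.mem_singleton, not_or] at hl
      exact ⟨l, hl.1, hl.2⟩
    have h1 := h (Matrix.single j j (1 : k)) (Matrix.single i i (1 : k))
    have h0 : Matrix.single j j (1 : k) * Matrix.single i i (1 : k) = 0 := by
      rw [Matrix.single_mul_single_of_ne _ _ _ _ hj]
    rw [h0, map_zero, zero_smul, sub_zero] at h1
    set a := T (Matrix.single i i (1 : k)) with ha
    set c := T (Matrix.single j j (1 : k)) with hc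
    have e1 : (a • (1 : Matrix (Fin n) (Fin n) k) - Matrix.single i i (1 : k)) *
        (c • (1 : Matrix (Fin n) (Fin n) k) - Matrix.single j j (1 : k)) =
        (a * c) • (1 : Matrix (Fin n) (Fin n) k) - a • Matrix.single j j (1 : k)
          - c • Matrix.single i i (1 : k) := by
      rw [sub_mul, mul_sub, mul_sub, Matrix.single_mul_single_of_ne _ _ _ _ (Ne.symm hj)]
      simp only [Matrix.smul_mul, Matrix.mul_smul, Matrix.one_mul, Matrix.mul_one, smul_smul]
      rw [mul_comm c a]
      abel
    rw [e1] at h1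
    have hll := congrFun (congrFun h1 l) l
    have hjj := congrFun (congrFun h1 j) j
    simp only [Matrix.zero_apply, Matrix.sub_apply, Matrix.smul_apply, Matrix.one_apply,
      Matrix.single_apply, smul_eq_mul, if_true] at hll hjj
    simp only [hli, hlj, Ne.symm hli, Ne.symm hlj, hj, Ne.symm hj, and_self, and_false, false_and,
      if_false, if_true, mul_zero, sub_zero, mul_one] at hll hjj
    rw [← hll] at hjj
    simpa using hjj.symm
  have hT : T = 0 := by
    refine LinearMap.ext fun M => ?_
    rw [Matrix.matrix_eq_sum_single M, map_sum]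
    refine Finset.sum_eq_zero fun i _ => ?_
    rw [map_sum]
    refine Finset.sum_eq_zero fun j _ => ?_
    have hs : Matrix.single i j (M i j) = M i j • Matrix.single i j (1 : k) := by
      rw [Matrix.smul_single, smul_eq_mul, mul_one]
    rw [hs, map_smul]
    by_cases hij : i = j
    · subst hij; rw [hdiag i, smul_zero]
    · rw [hoff i j hij, smul_zero]
  let i0 : Fin n := ⟨0, by omega⟩
  let i1 : Fin n := ⟨1, by omega⟩
  have h01 : i0 ≠ i1 := by simp [i0, i1, Fin.ext_iff]
  have h1 := h (Matrix.single i0 i1 (1 : k)) (Matrix.single i1 i0 (1 : k))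
  rw [hT] at h1
  simp only [LinearMap.zero_apply, zero_smul, zero_sub, neg_mul_neg] at h1
  rw [Matrix.single_mul_single_same, Matrix.single_mul_single_same] at h1
  have h2 := congrFun (congrFun h1 i0) i0
  simp only [Matrix.neg_apply, Matrix.single_apply, mul_one, and_self, if_true] at h2
  simp only [h01, Ne.symm h01, and_self, if_false] at h2
  exact one_ne_zero (neg_eq_zero.mp h2)





/-- `χ(g) g⁻¹ = t(g) - g`. -/
theorem star_eq (ρ : Γ →* Module.End k V) (χ : Γ →* kˣ) (t : Γ → k)
    (hq : ∀ g, ρ g * ρ g - t g • ρ g + ((χ g : kˣ) : k) • (1 : Module.End k V) = 0) (g : Γ) :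
    t g • (1 : Module.End k V) - ρ g = ((χ g : kˣ) : k) • ρ g⁻¹ := by
  have h1 : ρ g⁻¹ * ρ g = 1 := by rw [← map_mul, inv_mul_cancel, map_one]
  have h2 := congrArg (fun x => ρ g⁻¹ * x) (hq g)
  simp only [mul_add, mul_sub, mul_zero, ← mul_assoc, h1, one_mul, mul_smul_comm, mul_one] at h2
  have h3 : t g • (1 : Module.End k V) - ρ g - ((χ g : kˣ) : k) • ρ g⁻¹ =
      -(ρ g - t g • (1 : Module.End k V) + ((χ g : kˣ) : k) • ρ g⁻¹) := by abel
  rw [← sub_eq_zero, h3, h2, neg_zero]

/-- anti-multiplicativity of `g ↦ t(g) - g`. -/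
theorem star_mul (ρ : Γ →* Module.End k V) (χ : Γ →* kˣ) (t : Γ → k)
    (hq : ∀ g, ρ g * ρ g - t g • ρ g + ((χ g : kˣ) : k) • (1 : Module.End k V) = 0) (g h : Γ) :
    t (g * h) • (1 : Module.End k V) - ρ (g * h) =
      (t h • (1 : Module.End k V) - ρ h) * (t g • (1 : Module.End k V) - ρ g) := by
  rw [star_eq ρ χ t hq, star_eq ρ χ t hq, star_eq ρ χ t hq, mul_inv_rev, map_mul, map_mul,
    Units.val_mul, smul_mul_smul_comm, mul_comm]

theorem finrank_le_two [IsAlgClosed k] [FiniteDimensional k V] (ρ : Γ →* Module.End k V)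
    (hirr : ∀ W : Submodule k V, (∀ g, ∀ x ∈ W, ρ g x ∈ W) → W = ⊥ ∨ W = ⊤)
    (χ : Γ →* kˣ) (t : Γ → k)
    (hq : ∀ g, ρ g * ρ g - t g • ρ g + ((χ g : kˣ) : k) • (1 : Module.End k V) = 0) :
    Module.finrank k V ≤ 2 := by
  classical
  by_contra hcon
  have hcon' : 3 ≤ Module.finrank k V := by omega
  have hV : Nontrivial V := Module.nontrivial_of_finrank_pos (R := k) (by omega)
  have hspan := span_range_eq_top ρ hirr
  by_cases hsc : ∀ g, ρ g ∈ Submodule.span k {(1 : Module.End k V)}
  · have h1 : (⊤ : Submodule k (Module.End k V)) ≤ Submodule.span k {(1 : Module.End k V)} := by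
      rw [← hspan]
      exact Submodule.span_le.mpr (by rintro _ ⟨g, rfl⟩; exact hsc g)
    have h2 : Module.finrank k (Module.End k V) ≤ 1 := by
      have h3 := Submodule.finrank_mono h1
      rw [finrank_top] at h3
      exact h3.trans (finrank_span_singleton (K := k) (one_ne_zero (α := Module.End k V))).le
    have h4 : Module.finrank k (Module.End k V) = Module.finrank k V * Module.finrank k V :=
      Module.finrank_linearMap k k V V
    nlinarith
  · push Not at hsc
    obtain ⟨h₀, hh₀⟩ := hsc
    obtain ⟨f₀, hf₀, hf₀'⟩ := Submodule.exists_le_ker_of_notMem hh₀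
    let f : Module.End k V →ₗ[k] k := (f₀ (ρ h₀))⁻¹ • f₀
    have hf1 : f (ρ h₀) = 1 := by
      show (f₀ (ρ h₀))⁻¹ • f₀ (ρ h₀) = 1
      rw [smul_eq_mul, inv_mul_cancel₀ hf₀]
    have hf0 : f 1 = 0 := by
      have : f₀ 1 = 0 := hf₀' (Submodule.mem_span_singleton_self _)
      show (f₀ (ρ h₀))⁻¹ • f₀ 1 = 0
      rw [this, smul_zero]
    let T : Module.End k V →ₗ[k] k :=
      f ∘ₗ (LinearMap.mulLeft k (ρ h₀) + LinearMap.mulRight k (ρ h₀)) - t h₀ • f
    have hTdef : ∀ x, T x = f (ρ h₀ * x + x * ρ h₀) - t h₀ * f x := fun x => rfl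
    have hT : ∀ g, T (ρ g) = t g := by
      intro g
      have h1 := star_mul ρ χ t hq g h₀
      have h2 : ρ h₀ * ρ g + ρ g * ρ h₀ =
          t g • ρ h₀ + t h₀ • ρ g + (t (g * h₀) - t g * t h₀) • (1 : Module.End k V) := by
        rw [map_mul] at h1
        have h3 : (t h₀ • (1 : Module.End k V) - ρ h₀) * (t g • (1 : Module.End k V) - ρ g) =
            (t h₀ * t g) • (1 : Module.End k V) - t h₀ • ρ g - t g • ρ h₀ + ρ h₀ * ρ g := by
          simp only [sub_mul, mul_sub, smul_mul_assoc, mul_smul_comm, one_mul, mul_one]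
          module
        rw [h3] at h1
        linear_combination (norm := module) -h1
      rw [hTdef, h2]
      simp only [map_add, map_smul, hf1, hf0, smul_eq_mul, mul_one, mul_zero, add_zero]
      ring
    have hanti0 : ∀ g h, T (ρ g * ρ h) • (1 : Module.End k V) - ρ g * ρ h =
        (T (ρ h) • 1 - ρ h) * (T (ρ g) • 1 - ρ g) := by
      intro g h
      rw [← map_mul, hT, hT, hT]
      exact star_mul ρ χ t hq g h
    have hanti : ∀ x y : Module.End k V, T (x * y) • (1 : Module.End k V) - x * y =
        (T y • 1 - y) * (T x • 1 - x) := by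
      intro x y
      have hx : x ∈ Submodule.span k (Set.range ρ) := by rw [hspan]; exact Submodule.mem_top
      have hy : y ∈ Submodule.span k (Set.range ρ) := by rw [hspan]; exact Submodule.mem_top
      induction hx using Submodule.span_induction with
      | mem x hx =>
        obtain ⟨g, rfl⟩ := hx
        induction hy using Submodule.span_induction with
        | mem y hy => obtain ⟨h, rfl⟩ := hy; exact hanti0 g h
        | zero => simp
        | add y y' _ _ hy hy' =>
          rw [mul_add, map_add, add_smul, map_add, add_smul]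
          have e1 : (T y • (1 : Module.End k V) + T y' • 1 - (y + y')) * (T (ρ g) • 1 - ρ g) =
              (T y • 1 - y) * (T (ρ g) • 1 - ρ g) + (T y' • 1 - y') * (T (ρ g) • 1 - ρ g) := by
            rw [← add_mul]; congr 1; abel
          rw [e1, ← hy, ← hy']; abel
        | smul a y _ hy =>
          rw [mul_smul_comm, map_smul, map_smul, smul_eq_mul, smul_eq_mul, mul_smul, mul_smul,
            ← smul_sub, ← smul_sub, hy, smul_mul_assoc]
      | zero => simp
      | add x x' _ _ hx hx' =>
        rw [add_mul, map_add, add_smul, map_add, add_smul]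
        have e1 : (T y • (1 : Module.End k V) - y) * (T x • 1 + T x' • 1 - (x + x')) =
            (T y • 1 - y) * (T x • 1 - x) + (T y • 1 - y) * (T x' • 1 - x') := by
          rw [← mul_add]; congr 1; abel
        rw [e1, ← hx, ← hx']; abel
      | smul a x _ hx =>
        rw [smul_mul_assoc, map_smul, map_smul, smul_eq_mul, smul_eq_mul, mul_smul, mul_smul,
          ← smul_sub, ← smul_sub, hx, mul_smul_comm]
    let b := Module.finBasis k V
    let e := LinearMap.toMatrixAlgEquiv b
    refine matrix_absurd (k := k) (n := Module.finrank k V) hcon'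
      (T ∘ₗ e.symm.toLinearMap) (fun M N => ?_)
    have h1 := hanti (e.symm M) (e.symm N)
    have h2 := congrArg e h1
    simp only [map_sub, map_mul, map_smul, map_one, AlgEquiv.apply_symm_apply] at h2
    simpa using h2





/-- In dimension `≥ 2` an irreducible representation has a non-scalar element. -/
theorem exists_not_scalar [IsAlgClosed k] [FiniteDimensional k V] (ρ : Γ →* Module.End k V)
    (hirr : ∀ W : Submodule k V, (∀ g, ∀ x ∈ W, ρ g x ∈ W) → W = ⊥ ∨ W = ⊤)
    (h2 : 2 ≤ Module.finrank k V) :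
    ∃ h₀ : Γ, ρ h₀ ∉ Submodule.span k {(1 : Module.End k V)} := by
  by_contra hsc
  push Not at hsc
  have hV : Nontrivial V := Module.nontrivial_of_finrank_pos (R := k) (by omega)
  have hspan := span_range_eq_top ρ hirr
  have h1 : (⊤ : Submodule k (Module.End k V)) ≤ Submodule.span k {(1 : Module.End k V)} := by
    rw [← hspan]
    exact Submodule.span_le.mpr (by rintro _ ⟨g, rfl⟩; exact hsc g)
  have h3 : Module.finrank k (Module.End k V) ≤ 1 := by
    have h3 := Submodule.finrank_mono h1
    rw [finrank_top] at h3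
    exact h3.trans (finrank_span_singleton (K := k) (one_ne_zero (α := Module.End k V))).le
  have h4 : Module.finrank k (Module.End k V) = Module.finrank k V * Module.finrank k V :=
    Module.finrank_linearMap k k V V
  nlinarith

/-- Two-by-two Cayley–Hamilton. -/
theorem cayley_two (M : Matrix (Fin 2) (Fin 2) k) :
    M * M - M.trace • M + M.det • (1 : Matrix (Fin 2) (Fin 2) k) = 0 := by
  ext i j
  fin_cases i <;> fin_cases j <;>
    simp [Matrix.mul_apply, Fin.sum_univ_two, Matrix.trace_fin_two, Matrix.det_fin_two] <;> ring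

theorem trace_det_eq [IsAlgClosed k] [FiniteDimensional k V] (ρ : Γ →* Module.End k V)
    (hirr : ∀ W : Submodule k V, (∀ g, ∀ x ∈ W, ρ g x ∈ W) → W = ⊥ ∨ W = ⊤)
    (χ : Γ →* kˣ) (t : Γ → k)
    (hq : ∀ g, ρ g * ρ g - t g • ρ g + ((χ g : kˣ) : k) • (1 : Module.End k V) = 0)
    (b : Module.Basis (Fin 2) k V) (g : Γ) :
    (LinearMap.toMatrix b b (ρ g)).trace = t g ∧
      (LinearMap.toMatrix b b (ρ g)).det = ((χ g : kˣ) : k) := by
  classical
  have hfin : Module.finrank k V = 2 := by
    rw [Module.finrank_eq_card_basis b, Fintype.card_fin]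
  have hV : Nontrivial V := Module.nontrivial_of_finrank_pos (R := k) (by omega)
  let e := LinearMap.toMatrixAlgEquiv b
  have he : ∀ x : Module.End k V, LinearMap.toMatrix b b x = e x := fun x => rfl
  -- transported quadratic relation
  have hqM : ∀ g, e (ρ g) * e (ρ g) - t g • e (ρ g) +
      ((χ g : kˣ) : k) • (1 : Matrix (Fin 2) (Fin 2) k) = 0 := by
    intro g
    have := congrArg e (hq g)
    simpa using this
  -- non-scalar case
  have hns : ∀ g, ρ g ∉ Submodule.span k {(1 : Module.End k V)} →
      (e (ρ g)).trace = t g ∧ (e (ρ g)).det = ((χ g : kˣ) : k) := by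
    intro g hg
    have h1 := cayley_two (e (ρ g))
    have h2 := hqM g
    have h3 : (t g - (e (ρ g)).trace) • e (ρ g) =
        (((χ g : kˣ) : k) - (e (ρ g)).det) • (1 : Matrix (Fin 2) (Fin 2) k) := by
      linear_combination (norm := module) h1 - h2
    have htr : (e (ρ g)).trace = t g := by
      by_contra hne
      have hne' : t g - (e (ρ g)).trace ≠ 0 := sub_ne_zero.mpr (Ne.symm hne)
      apply hg
      rw [Submodule.mem_span_singleton]
      refine ⟨(t g - (e (ρ g)).trace)⁻¹ * (((χ g : kˣ) : k) - (e (ρ g)).det), ?_⟩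
      apply e.injective
      rw [map_smul, map_one, mul_smul, ← h3, smul_smul, inv_mul_cancel₀ hne', one_smul]
    refine ⟨htr, ?_⟩
    rw [htr, sub_self, zero_smul] at h3
    have h4 := congrFun (congrFun h3 0) 0
    simp only [Matrix.zero_apply, Matrix.smul_apply, Matrix.one_apply_eq, smul_eq_mul,
      mul_one] at h4
    exact (sub_eq_zero.mp h4.symm).symm
  by_cases hg : ρ g ∈ Submodule.span k {(1 : Module.End k V)}
  · obtain ⟨c, hc⟩ := Submodule.mem_span_singleton.mp hg
    obtain ⟨h₀, hh₀⟩ := exists_not_scalar ρ hirr (by omega)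
    have hc0 : c ≠ 0 := by
      rintro rfl
      rw [zero_smul] at hc
      have h1 : ρ g * ρ g⁻¹ = 1 := by rw [← map_mul, mul_inv_cancel, map_one]
      rw [← hc, zero_mul] at h1
      exact zero_ne_one h1
    have hgh : ρ (g * h₀) ∉ Submodule.span k {(1 : Module.End k V)} := by
      intro hmem
      apply hh₀
      rw [map_mul, ← hc, smul_mul_assoc, one_mul] at hmem
      have := Submodule.smul_mem _ c⁻¹ hmem
      rwa [smul_smul, inv_mul_cancel₀ hc0, one_smul] at this
    have hM : e (ρ g) = c • (1 : Matrix (Fin 2) (Fin 2) k) := by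
      rw [← hc, map_smul, map_one]
    have hdet : (e (ρ g)).det = c ^ 2 := by
      rw [hM, Matrix.det_smul, Matrix.det_one, Fintype.card_fin, mul_one]
    have htrace : (e (ρ g)).trace = 2 * c := by
      rw [hM, Matrix.trace_smul, Matrix.trace_one, Fintype.card_fin, smul_eq_mul]
      push_cast; ring
    have hχ : ((χ g : kˣ) : k) = c ^ 2 := by
      have h1 := (hns (g * h₀) hgh).2
      have h2 := (hns h₀ hh₀).2
      rw [map_mul, map_mul, Matrix.det_mul, h2, hdet, map_mul, Units.val_mul] at h1
      exact (mul_right_cancel₀ (Units.ne_zero (χ h₀)) h1).symm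
    have ht : t g = 2 * c := by
      have h1 := hqM g
      rw [hM, hχ] at h1
      have h2 := congrFun (congrFun h1 0) 0
      simp only [Matrix.zero_apply, Matrix.add_apply, Matrix.sub_apply, Matrix.smul_apply,
        Matrix.one_apply_eq, smul_eq_mul, mul_one, Matrix.mul_apply, Fin.sum_univ_two,
        Matrix.one_apply_ne (show (0 : Fin 2) ≠ 1 by decide), mul_zero, add_zero] at h2
      have h3 : c * (2 * c - t g) = 0 := by linear_combination h2
      rcases mul_eq_zero.mp h3 with h | h
      · exact absurd h hc0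
      · exact (sub_eq_zero.mp h).symm
    rw [he, htrace, hdet, ht, hχ]
    exact ⟨rfl, rfl⟩
  · rw [he]; exact hns g hg

/-- In dimension two the characteristic polynomial of every element is `X² - t(g) X + χ(g)`. -/
theorem charpoly_eq [IsAlgClosed k] [FiniteDimensional k V] (ρ : Γ →* Module.End k V)
    (hirr : ∀ W : Submodule k V, (∀ g, ∀ x ∈ W, ρ g x ∈ W) → W = ⊥ ∨ W = ⊤)
    (χ : Γ →* kˣ) (t : Γ → k)
    (hq : ∀ g, ρ g * ρ g - t g • ρ g + ((χ g : kˣ) : k) • (1 : Module.End k V) = 0)
    (h2 : Module.finrank k V = 2) (g : Γ) :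
    (ρ g).charpoly = X ^ 2 - C (t g) * X + C ((χ g : kˣ) : k) := by
  classical
  let b : Module.Basis (Fin 2) k V := Module.finBasisOfFinrankEq k V h2
  obtain ⟨htr, hdet⟩ := trace_det_eq ρ hirr χ t hq b g
  rw [← LinearMap.charpoly_toMatrix (ρ g) b, Matrix.charpoly_fin_two, htr, hdet]


/-! ### The diagonal representation attached to two characters -/

/-- The two-dimensional representation `ψ₁ ⊕ ψ₂` on `Fin 2 → k`. -/
noncomputable def diagRep (ψ₁ ψ₂ : Γ →* k) : Γ →* Module.End k (Fin 2 → k) where
  toFun g := Matrix.toLin' (Matrix.diagonal ![ψ₁ g, ψ₂ g])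
  map_one' := by
    have h : (![ψ₁ 1, ψ₂ 1] : Fin 2 → k) = fun _ => 1 := by
      funext i; fin_cases i <;> simp
    rw [h, Matrix.diagonal_one, Matrix.toLin'_one]; rfl
  map_mul' g h := by
    rw [Module.End.mul_eq_comp, ← Matrix.toLin'_mul, Matrix.diagonal_mul_diagonal]
    congr 2
    funext i; fin_cases i <;> simp

theorem diagRep_apply (ψ₁ ψ₂ : Γ →* k) (g : Γ) :
    diagRep ψ₁ ψ₂ g = Matrix.toLin' (Matrix.diagonal ![ψ₁ g, ψ₂ g]) := rfl

theorem charpoly_diagRep (ψ₁ ψ₂ : Γ →* k) (g : Γ) :
    (diagRep ψ₁ ψ₂ g).charpoly = X ^ 2 - C (ψ₁ g + ψ₂ g) * X + C (ψ₁ g * ψ₂ g) := by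
  rw [diagRep_apply, ← LinearMap.charpoly_toMatrix _ (Pi.basisFun k (Fin 2)),
    LinearMap.toMatrix_eq_toMatrix', LinearMap.toMatrix'_toLin', Matrix.charpoly_fin_two]
  simp [Matrix.trace_fin_two, Matrix.det_fin_two]

theorem finrank_fin_two : Module.finrank k (Fin 2 → k) = 2 := by
  rw [Module.finrank_fin_fun]

theorem diagRep_eq_one (ψ₁ ψ₂ : Γ →* k) (g : Γ) (h1 : ψ₁ g = 1) (h2 : ψ₂ g = 1) :
    diagRep ψ₁ ψ₂ g = 1 := by
  have h : (![ψ₁ g, ψ₂ g] : Fin 2 → k) = fun _ => 1 := by
    funext i; fin_cases i <;> simp [h1, h2]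
  rw [diagRep_apply, h, Matrix.diagonal_one, Matrix.toLin'_one]; rfl

end Fermat.Agent.S29.GroupLemma
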