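import Mathlib
import Fermat.Prelude.Def_GaloisRep_Residual
import Fermat.Agent.S29_GroupLemma
import Fermat.Agent.S29_Cyclo

/-!
# S29 (C5): from a "quadratic Frobenius module" to a residual Galois representation

`exists_rep`: let `k` be an algebraically closed field of characteristic `p`, `W ≠ 0` a
finite-dimensional `k[G_ℚ]`-module of finite level, unramified outside `N p`, on which every
Frobenius lift `σ` at a prime `ℓ ∤ N p` satisfies `σ² - a_ℓ σ + ℓ = 0`.  Then, assuming the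
Frobenius density theorem `FrobDensity`, there is a two-dimensional `ResidualGaloisRep k`,
unramified outside `N p`, with `charpoly (Frob_ℓ) = X² - a_ℓ X + ℓ` at every Frobenius lift.

Proof: a simple submodule `U ⊆ W`; by density every `g` acts on `U` as a power of a Frobenius
lift, hence satisfies a monic quadratic with constant term `χ(g)` (`χ` = cyclotomic character);
the group lemma (`S29_GroupLemma`) gives `dim U ≤ 2` and the characteristic polynomials; in
dimension one take `ψ ⊕ χ ψ⁻¹`.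
-/

set_option autoImplicit false
set_option linter.style.haveILetI false

noncomputable section

open Polynomial

namespace Fermat.Agent.S29.Glue

local notation "Qbar" => AlgebraicClosure ℚ
local notation "GQ" => (AlgebraicClosure ℚ ≃ₐ[ℚ] AlgebraicClosure ℚ)

/-- the Frobenius density theorem ("cyclic Chebotarev"), in the form consumed by the glue:
every `σ ∈ G_ℚ` agrees on a given finite level with a power of a Frobenius lift at a prime
outside a given finite set. -/
def FrobDensity : Prop :=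
  ∀ (L : IntermediateField ℚ Qbar), FiniteDimensional ℚ L → ∀ (σ : GQ) (S : Finset ℕ),
    ∃ ℓ : ℕ, ℓ.Prime ∧ ℓ ∉ S ∧ ∃ (A : ValuationSubring Qbar) (τ : GQ),
      A.LiesOverPrime ℓ ∧ A.IsFrobeniusAt τ ℓ ∧ ∃ n : ℕ, ∀ x ∈ L, σ x = (τ ^ n) x

/-! ### algebra -/

section Algebra

variable {k : Type*} [Field k]

theorem aeval_quad {E : Type*} [Ring E] [Algebra k E] (x : E) (a d : k) :
    aeval x (X ^ 2 - C a * X + C d : k[X]) = x * x - a • x + d • (1 : E) := by
  rw [map_add, map_sub, map_mul, map_pow, aeval_X, aeval_C, aeval_C,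
    Algebra.algebraMap_eq_smul_one, Algebra.algebraMap_eq_smul_one, smul_mul_assoc, one_mul, sq]

/-- if `h` satisfies `X² - a X + d`, then `hⁿ` satisfies a monic quadratic with constant term
`dⁿ`. -/
theorem exists_quad_pow [IsAlgClosed k] {E : Type*} [Ring E] [Algebra k E] (h : E) (a d : k)
    (hq : h * h - a • h + d • (1 : E) = 0) (n : ℕ) :
    ∃ t : k, h ^ n * h ^ n - t • h ^ n + d ^ n • (1 : E) = 0 := by
  obtain ⟨α, hα⟩ : ∃ α : k, α * α - a * α + d = 0 := by
    have hdeg : (X ^ 2 - C a * X + C d : k[X]).degree ≠ 0 := by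
      have h2 : (X ^ 2 - C a * X + C d : k[X]).degree = 2 := by
        rw [sub_add]
        have h3 : (C a * X - C d : k[X]).degree < (X ^ 2 : k[X]).degree := by
          rw [degree_X_pow]
          calc (C a * X - C d : k[X]).degree ≤ max (C a * X : k[X]).degree (C d : k[X]).degree :=
                degree_sub_le _ _
            _ ≤ 1 := by
                apply max_le
                · calc (C a * X : k[X]).degree ≤ (C a : k[X]).degree + (X : k[X]).degree :=
                        degree_mul_le _ _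
                    _ ≤ 0 + 1 := add_le_add degree_C_le degree_X_le
                    _ = 1 := zero_add 1
                · exact degree_C_le.trans (by norm_num)
            _ < 2 := by norm_num
        rw [degree_sub_eq_left_of_degree_lt h3, degree_X_pow]
        rfl
      rw [h2]
      norm_num
    obtain ⟨α, hα⟩ := IsAlgClosed.exists_root _ hdeg
    refine ⟨α, ?_⟩
    rw [IsRoot.def] at hα
    simp only [eval_add, eval_sub, eval_mul, eval_pow, eval_X, eval_C] at hα
    rw [← hα]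
    ring
  have hsum : α + (a - α) = a := by ring
  have hprod : α * (a - α) = d := by linear_combination -hα
  refine ⟨α ^ n + (a - α) ^ n, ?_⟩
  have hP : aeval h (X ^ 2 - C a * X + C d : k[X]) = 0 := by
    rw [aeval_quad]
    exact hq
  have hd : (C (d ^ n) : k[X]) = C α ^ n * C (a - α) ^ n := by
    rw [← hprod, map_pow, map_mul, mul_pow]
  have hdvd : (X ^ 2 - C a * X + C d : k[X]) ∣
      (X ^ 2 - C (α ^ n + (a - α) ^ n) * X + C (d ^ n) : k[X]).comp (X ^ n) := by
    have e1 : (X ^ 2 - C a * X + C d : k[X]) = (X - C α) * (X - C (a - α)) := by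
      rw [← hprod]
      simp only [map_sub, map_mul]
      ring
    have e2 : (X ^ 2 - C (α ^ n + (a - α) ^ n) * X + C (d ^ n) : k[X]).comp (X ^ n)
        = (X ^ n - C α ^ n) * (X ^ n - C (a - α) ^ n) := by
      rw [hd]
      simp only [sub_comp, add_comp, mul_comp, pow_comp, X_comp, C_comp, map_add, map_pow]
      ring
    rw [e1, e2]
    exact mul_dvd_mul (sub_dvd_pow_sub_pow X (C α) n) (sub_dvd_pow_sub_pow X (C (a - α)) n)
  obtain ⟨q, hq'⟩ := hdvd
  have h1 := congrArg (aeval h) hq'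
  rw [aeval_comp, map_mul, hP, zero_mul, map_pow, aeval_X, aeval_quad] at h1
  exact h1

end Algebra

/-! ### simple submodules and restriction -/

section Simple

variable {k W G : Type*} [Field k] [AddCommGroup W] [Module k W] [Monoid G]

/-- a nonzero finite-dimensional representation has a simple subrepresentation. -/
theorem exists_simple [Module.Finite k W] [Nontrivial W] (ρ : G →* Module.End k W) :
    ∃ U : Submodule k W, U ≠ ⊥ ∧ (∀ g, ∀ x ∈ U, ρ g x ∈ U) ∧
      ∀ U' : Submodule k W, U' ≤ U → (∀ g, ∀ x ∈ U', ρ g x ∈ U') → U' = ⊥ ∨ U' = U := by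
  classical
  let P : ℕ → Prop := fun n => ∃ U : Submodule k W, U ≠ ⊥ ∧ (∀ g, ∀ x ∈ U, ρ g x ∈ U) ∧
    Module.finrank k U = n
  have hex : ∃ n, P n := ⟨_, ⊤, top_ne_bot, fun _ _ _ => Submodule.mem_top, rfl⟩
  obtain ⟨U, hU0, hUinv, hUn⟩ := Nat.find_spec hex
  refine ⟨U, hU0, hUinv, fun U' hle hinv => ?_⟩
  by_cases h0 : U' = ⊥
  · exact Or.inl h0
  · right
    have hmin := Nat.find_min' hex ⟨U', h0, hinv, rfl⟩
    rw [← hUn] at hmin
    exact Submodule.eq_of_le_of_finrank_le hle hmin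

/-- the restriction of a representation to an invariant subspace. -/
def restrictRep (ρ : G →* Module.End k W) (U : Submodule k W)
    (hU : ∀ g, ∀ x ∈ U, ρ g x ∈ U) : G →* Module.End k U where
  toFun g := (ρ g).restrict (hU g)
  map_one' := by
    ext x
    rw [LinearMap.coe_restrict_apply, map_one]
    rfl
  map_mul' g h := by
    ext x
    rw [LinearMap.coe_restrict_apply, map_mul]
    rfl

theorem coe_restrictRep_apply (ρ : G →* Module.End k W) (U : Submodule k W)
    (hU : ∀ g, ∀ x ∈ U, ρ g x ∈ U) (g : G) (x : U) :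
    ((restrictRep ρ U hU g x : U) : W) = ρ g (x : W) := rfl

theorem restrictRep_eq_one (ρ : G →* Module.End k W) (U : Submodule k W)
    (hU : ∀ g, ∀ x ∈ U, ρ g x ∈ U) {g : G} (h : ρ g = 1) : restrictRep ρ U hU g = 1 := by
  ext x
  rw [coe_restrictRep_apply, h]
  rfl

theorem restrictRep_quad (ρ : G →* Module.End k W) (U : Submodule k W)
    (hU : ∀ g, ∀ x ∈ U, ρ g x ∈ U) {g : G} {a d : k}
    (h : ρ g * ρ g - a • ρ g + d • (1 : Module.End k W) = 0) :
    restrictRep ρ U hU g * restrictRep ρ U hU g - a • restrictRep ρ U hU g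
      + d • (1 : Module.End k U) = 0 := by
  ext x
  have h1 := LinearMap.congr_fun h (x : W)
  simp only [LinearMap.add_apply, LinearMap.sub_apply, Module.End.mul_apply, LinearMap.smul_apply,
    Module.End.one_apply, LinearMap.zero_apply] at h1
  simp only [LinearMap.add_apply, LinearMap.sub_apply, Module.End.mul_apply, LinearMap.smul_apply,
    Module.End.one_apply, LinearMap.zero_apply, Submodule.coe_add, Submodule.coe_sub,
    Submodule.coe_smul, coe_restrictRep_apply, Submodule.coe_zero]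
  exact h1

theorem restrictRep_irreducible (ρ : G →* Module.End k W) (U : Submodule k W)
    (hU : ∀ g, ∀ x ∈ U, ρ g x ∈ U)
    (hmin : ∀ U' : Submodule k W, U' ≤ U → (∀ g, ∀ x ∈ U', ρ g x ∈ U') → U' = ⊥ ∨ U' = U)
    (V : Submodule k U) (hV : ∀ g, ∀ x ∈ V, restrictRep ρ U hU g x ∈ V) : V = ⊥ ∨ V = ⊤ := by
  have hinv : ∀ g, ∀ x ∈ V.map U.subtype, ρ g x ∈ V.map U.subtype := by
    rintro g _ ⟨y, hy, rfl⟩
    exact ⟨restrictRep ρ U hU g y, hV g y hy, rfl⟩
  rcases hmin (V.map U.subtype) (Submodule.map_subtype_le U V) hinv with h | h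
  · left
    rw [eq_bot_iff]
    intro y hy
    have h1 : U.subtype y ∈ V.map U.subtype := ⟨y, hy, rfl⟩
    rw [h] at h1
    exact (Submodule.mem_bot k).mpr (Subtype.ext ((Submodule.mem_bot k).mp h1))
  · right
    apply Submodule.map_injective_of_injective U.injective_subtype
    rw [h, Submodule.map_subtype_top]

end Simple

/-! ### the cyclotomic character with values in `kˣ` -/

section Chi

variable (k : Type) [Field k] (p : ℕ) [Fact p.Prime] [CharP k p]

/-- the mod-`p` cyclotomic character, with values in `kˣ`. -/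
def chi : GQ →* kˣ :=
  (Units.map ((ZMod.castHom (dvd_refl p) k : ZMod p →+* k) : ZMod p →* k)).comp (Cyclo.cyclo p)

theorem coe_chi (σ : GQ) :
    ((chi k p σ : kˣ) : k) = ZMod.castHom (dvd_refl p) k ((Cyclo.cyclo p σ : (ZMod p)ˣ) : ZMod p) :=
  rfl

theorem chi_frobenius (ℓ : ℕ) (hℓ : ℓ.Prime) (hℓp : ℓ ≠ p)
    (A : ValuationSubring Qbar) (hA : A.LiesOverPrime ℓ) (σ : GQ) (hσ : A.IsFrobeniusAt σ ℓ) :
    ((chi k p σ : kˣ) : k) = (ℓ : k) := by
  rw [coe_chi, Cyclo.cyclo_frobenius p ℓ hℓ hℓp A hA σ hσ, map_natCast]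

theorem chi_eq_one {σ : GQ} (h : Cyclo.cyclo p σ = 1) : chi k p σ = 1 := by
  rw [chi, MonoidHom.comp_apply, h, map_one]

end Chi

/-! ### dimension one -/

section DimOne

variable {k U : Type*} [Field k] [AddCommGroup U] [Module k U]

theorem end_eq_det_smul_one (hfr : Module.finrank k U = 1) (f : Module.End k U) :
    f = LinearMap.det f • (1 : Module.End k U) := by
  obtain ⟨u, hu0, hu⟩ := finrank_eq_one_iff'.mp hfr
  obtain ⟨c, hc⟩ := hu (f u)
  have hf : f = c • (1 : Module.End k U) := by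
    apply LinearMap.ext
    intro w
    obtain ⟨b, rfl⟩ := hu w
    rw [map_smul, ← hc, LinearMap.smul_apply, Module.End.one_apply, smul_comm]
  have hdet : LinearMap.det f = c := by
    rw [hf, LinearMap.det_smul, hfr, pow_one, map_one, mul_one]
  rw [hdet]
  exact hf

end DimOne

/-! ### the main theorem -/

section Main

variable {k : Type} [Field k] [IsAlgClosed k] (p : ℕ) [Fact p.Prime] [CharP k p]

/-- **(C5)**: a nonzero quadratic Frobenius module gives a two-dimensional residual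
representation with the prescribed Frobenius characteristic polynomials. -/
theorem exists_rep (hFD : FrobDensity) (N : ℕ) (hN : N ≠ 0) (a : ℕ → k)
    {W : Type} [AddCommGroup W] [Module k W] [Module.Finite k W] [Nontrivial W]
    (ρ : GQ →* Module.End k W) (hlev : GaloisFactorsThroughFiniteLevel ρ)
    (hunr : ∀ ℓ : ℕ, ℓ.Prime → ¬ ℓ ∣ N * p → ∀ A : ValuationSubring Qbar, A.LiesOverPrime ℓ →
      ∀ σ ∈ A.inertiaSubgroupIn ℚ, ρ σ = 1)
    (hquad : ∀ ℓ : ℕ, ℓ.Prime → ¬ ℓ ∣ N * p → ∀ A : ValuationSubring Qbar, A.LiesOverPrime ℓ →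
      ∀ σ : GQ, A.IsFrobeniusAt σ ℓ →
        ρ σ * ρ σ - a ℓ • ρ σ + (ℓ : k) • (1 : Module.End k W) = 0) :
    ∃ r : ResidualGaloisRep k,
      (∀ ℓ : ℕ, ℓ.Prime → ¬ ℓ ∣ N * p → ∀ A : ValuationSubring Qbar, A.LiesOverPrime ℓ →
        ∀ σ : GQ, A.IsFrobeniusAt σ ℓ →
          LinearMap.charpoly (r.ρ σ) = X ^ 2 - C (a ℓ) * X + C (ℓ : k)) ∧
      ∀ ℓ : ℕ, ℓ.Prime → ¬ ℓ ∣ N * p → r.IsUnramifiedAt ℓ := by
  classical
  have hp : p.Prime := Fact.out
  obtain ⟨U, hU0, hUinv, hUmin⟩ := exists_simple ρ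
  have hirr := restrictRep_irreducible ρ U hUinv hUmin
  obtain ⟨Lρ, hLρfin, hLρ⟩ := hlev
  obtain ⟨Lχ, hLχfin, hLχ⟩ := Cyclo.cyclo_level p
  haveI := hLρfin
  haveI := hLχfin
  have hS : ∀ ℓ : ℕ, ℓ.Prime → ℓ ∉ (N * p).primeFactors → ¬ ℓ ∣ N * p := by
    intro ℓ hℓ hnot hdvd
    exact hnot (Nat.mem_primeFactors.mpr ⟨hℓ, hdvd, Nat.mul_ne_zero hN hp.ne_zero⟩)
  have hne : ∀ ℓ : ℕ, ¬ ℓ ∣ N * p → ℓ ≠ p := by
    rintro ℓ h rfl
    exact h (dvd_mul_left _ _)
  have hinv1 : ∀ σ : GQ, ρ σ = 1 → ρ σ⁻¹ = 1 := by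
    intro σ h
    have h1 := map_mul ρ σ⁻¹ σ
    rw [inv_mul_cancel, map_one, h, mul_one] at h1
    exact h1.symm
  -- every element satisfies a monic quadratic with constant term `χ`
  have hall : ∀ g : GQ, ∃ t : k, restrictRep ρ U hUinv g * restrictRep ρ U hUinv g
      - t • restrictRep ρ U hUinv g + ((chi k p g : kˣ) : k) • (1 : Module.End k U) = 0 := by
    intro g
    obtain ⟨ℓ, hℓ, hℓS, A, τ, hA, hτ, n, hn⟩ :=
      hFD (Lρ ⊔ Lχ) inferInstance g (N * p).primeFactors
    have hℓNp := hS ℓ hℓ hℓS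
    have hδ : ∀ x ∈ Lρ ⊔ Lχ, ((τ ^ n)⁻¹ * g) x = x := by
      intro x hx
      rw [AlgEquiv.mul_apply, hn x hx]
      exact (τ ^ n).symm_apply_apply x
    have h1 : ρ ((τ ^ n)⁻¹ * g) = 1 :=
      hLρ _ (fun x hx => hδ x ((le_sup_left : Lρ ≤ Lρ ⊔ Lχ) hx))
    have h2 : Cyclo.cyclo p ((τ ^ n)⁻¹ * g) = 1 :=
      hLχ _ (fun x hx => hδ x ((le_sup_right : Lχ ≤ Lρ ⊔ Lχ) hx))
    have hg : g = τ ^ n * ((τ ^ n)⁻¹ * g) := by group
    have hρg : restrictRep ρ U hUinv g = restrictRep ρ U hUinv τ ^ n := by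
      conv_lhs => rw [hg]
      rw [map_mul, restrictRep_eq_one ρ U hUinv h1, mul_one, map_pow]
    have hχg : chi k p g = chi k p τ ^ n := by
      conv_lhs => rw [hg]
      rw [map_mul, chi_eq_one k p h2, mul_one, map_pow]
    have hq := restrictRep_quad ρ U hUinv (hquad ℓ hℓ hℓNp A hA τ hτ)
    obtain ⟨t, ht⟩ := exists_quad_pow (restrictRep ρ U hUinv τ) (a ℓ) (ℓ : k) hq n
    refine ⟨t, ?_⟩
    rw [hρg, hχg, Units.val_pow_eq_pow_val, chi_frobenius k p ℓ hℓ (hne ℓ hℓNp) A hA τ hτ]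
    exact ht
  choose t ht using hall
  have hle := GroupLemma.finrank_le_two (restrictRep ρ U hUinv) hirr (chi k p) t ht
  have hpos : 1 ≤ Module.finrank k U := Submodule.one_le_finrank_iff.mpr hU0
  rcases Nat.lt_or_ge (Module.finrank k U) 2 with hlt | hge
  · -- dimension one: `ψ ⊕ χ ψ⁻¹`
    have hfr : Module.finrank k U = 1 := by omega
    haveI : Nontrivial U := Module.nontrivial_of_finrank_pos (R := k) (by omega)
    let ψ : GQ →* k := (LinearMap.det : Module.End k U →* k).comp (restrictRep ρ U hUinv)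
    have hψ : ∀ g, restrictRep ρ U hUinv g = ψ g • (1 : Module.End k U) :=
      fun g => end_eq_det_smul_one hfr _
    have hψinv : ∀ g, ψ g * ψ g⁻¹ = 1 := by
      intro g
      rw [← map_mul, mul_inv_cancel, map_one]
    let ψ₂ : GQ →* k :=
      { toFun := fun g => ((chi k p g : kˣ) : k) * ψ g⁻¹
        map_one' := by rw [map_one, Units.val_one, inv_one, map_one, mul_one]
        map_mul' := fun g h => by
          rw [map_mul, Units.val_mul, mul_inv_rev, map_mul]
          ring }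
    have hψ₂ : ∀ g, ψ₂ g = ((chi k p g : kˣ) : k) * ψ g⁻¹ := fun _ => rfl
    have hψone : ∀ σ : GQ, ρ σ = 1 → ψ σ = 1 := by
      intro σ h
      show LinearMap.det (restrictRep ρ U hUinv σ) = 1
      rw [restrictRep_eq_one ρ U hUinv h, map_one]
    refine ⟨{ V := Fin 2 → k
              finrank_eq := GroupLemma.finrank_fin_two
              ρ := GroupLemma.diagRep ψ ψ₂
              factorsThroughFiniteLevel := ⟨Lρ ⊔ Lχ, inferInstance, fun σ hσ => ?_⟩ }, ?_, ?_⟩
    · have h1 : ρ σ = 1 := hLρ σ (fun x hx => hσ x ((le_sup_left : Lρ ≤ Lρ ⊔ Lχ) hx))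
      have h2 : Cyclo.cyclo p σ = 1 :=
        hLχ σ (fun x hx => hσ x ((le_sup_right : Lχ ≤ Lρ ⊔ Lχ) hx))
      refine GroupLemma.diagRep_eq_one ψ ψ₂ σ (hψone σ h1) ?_
      rw [hψ₂, chi_eq_one k p h2, Units.val_one, one_mul, hψone σ⁻¹ (hinv1 σ h1)]
    · intro ℓ hℓ hℓNp A hA σ hσ
      have hq := restrictRep_quad ρ U hUinv (hquad ℓ hℓ hℓNp A hA σ hσ)
      have hχ := chi_frobenius k p ℓ hℓ (hne ℓ hℓNp) A hA σ hσ
      rw [hψ σ] at hq
      have hc2 : ψ σ * ψ σ - a ℓ * ψ σ + (ℓ : k) = 0 := by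
        have h3 : (ψ σ * ψ σ - a ℓ * ψ σ + (ℓ : k)) • (1 : Module.End k U) = 0 := by
          rw [← hq, add_smul, sub_smul, smul_mul_smul_comm, mul_one, smul_smul]
        rcases smul_eq_zero.mp h3 with h4 | h4
        · exact h4
        · exact absurd h4 one_ne_zero
      have hcc := hψinv σ
      show LinearMap.charpoly (GroupLemma.diagRep ψ ψ₂ σ) = _
      rw [GroupLemma.charpoly_diagRep, hψ₂, hχ]
      have hsum : ψ σ + (ℓ : k) * ψ σ⁻¹ = a ℓ := by
        have hc0 : ψ σ ≠ 0 := left_ne_zero_of_mul_eq_one hcc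
        apply mul_left_cancel₀ hc0
        linear_combination hc2 + (ℓ : k) * hcc
      have hprod : ψ σ * ((ℓ : k) * ψ σ⁻¹) = (ℓ : k) := by
        linear_combination (ℓ : k) * hcc
      rw [hsum, hprod]
    · intro ℓ hℓ hℓNp A hA σ hσ
      have h1 : ρ σ = 1 := hunr ℓ hℓ hℓNp A hA σ hσ
      have h2 : Cyclo.cyclo p σ = 1 := Cyclo.cyclo_inertia p ℓ hℓ (hne ℓ hℓNp) A hA σ hσ
      show GroupLemma.diagRep ψ ψ₂ σ = 1
      refine GroupLemma.diagRep_eq_one ψ ψ₂ σ (hψone σ h1) ?_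
      rw [hψ₂, chi_eq_one k p h2, Units.val_one, one_mul, hψone σ⁻¹ (hinv1 σ h1)]
  · -- dimension two
    have hfr : Module.finrank k U = 2 := le_antisymm hle hge
    refine ⟨{ V := U
              finrank_eq := hfr
              ρ := restrictRep ρ U hUinv
              factorsThroughFiniteLevel :=
                ⟨Lρ, hLρfin, fun σ hσ => restrictRep_eq_one ρ U hUinv (hLρ σ hσ)⟩ }, ?_, ?_⟩
    · intro ℓ hℓ hℓNp A hA σ hσ
      have hq := restrictRep_quad ρ U hUinv (hquad ℓ hℓ hℓNp A hA σ hσ)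
      have hχ := chi_frobenius k p ℓ hℓ (hne ℓ hℓNp) A hA σ hσ
      have ht' : ∀ g, restrictRep ρ U hUinv g * restrictRep ρ U hUinv g
          - (Function.update t σ (a ℓ)) g • restrictRep ρ U hUinv g
          + ((chi k p g : kˣ) : k) • (1 : Module.End k U) = 0 := by
        intro g
        by_cases hgσ : g = σ
        · subst hgσ
          rw [Function.update_self, hχ]
          exact hq
        · rw [Function.update_of_ne hgσ]
          exact ht g
      have h3 := GroupLemma.charpoly_eq (restrictRep ρ U hUinv) hirr (chi k p) _ ht' hfr σ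
      rw [Function.update_self, hχ] at h3
      exact h3
    · intro ℓ hℓ hℓNp A hA σ hσ
      exact restrictRep_eq_one ρ U hUinv (hunr ℓ hℓ hℓNp A hA σ hσ)

end Main

/-! ### reduction of S29 to the residue fields of `ℤ̄` -/

section Final

local notation "Zbar" => integralClosure ℤ ℂ

attribute [local instance] Ideal.Quotient.field

/-- the residue fields of `ℤ̄` are algebraically closed. -/
theorem isAlgClosed_quotient (𝔪 : Ideal Zbar) [𝔪.IsMaximal] : IsAlgClosed (Zbar ⧸ 𝔪) := by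
  refine IsAlgClosed.of_exists_root _ (fun q hq hirr => ?_)
  have hsurj : Function.Surjective (Ideal.Quotient.mk 𝔪) := Ideal.Quotient.mk_surjective
  obtain ⟨Q0, hQ0⟩ := Polynomial.map_surjective (Ideal.Quotient.mk 𝔪) hsurj q
  obtain ⟨Q, hQmap, hQdeg, hQmonic⟩ :=
    Polynomial.lifts_and_degree_eq_and_monic ((Polynomial.mem_lifts q).mpr ⟨Q0, hQ0⟩) hq
  have hdeg : (Q.map (algebraMap Zbar ℂ)).degree ≠ 0 := by
    rw [hQmonic.degree_map, hQdeg]
    exact Polynomial.degree_pos_of_irreducible hirr |>.ne'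
  obtain ⟨z, hz⟩ := IsAlgClosed.exists_root _ hdeg
  have hzint : IsIntegral Zbar z := ⟨Q, hQmonic, by
    rw [Polynomial.eval₂_eq_eval_map]; exact hz⟩
  have hzint' : IsIntegral ℤ z := isIntegral_trans z hzint
  let z' : Zbar := ⟨z, hzint'⟩
  have hz' : Q.eval z' = 0 := by
    apply Subtype.ext
    have h1 : ((Q.eval z' : Zbar) : ℂ) = (Q.map (algebraMap Zbar ℂ)).eval z := by
      rw [Polynomial.eval_map]
      exact (Polynomial.hom_eval₂ Q (RingHom.id Zbar) (algebraMap Zbar ℂ) z').trans (by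
        rw [RingHom.comp_id]; rfl)
    rw [h1]
    exact hz
  refine ⟨Ideal.Quotient.mk 𝔪 z', ?_⟩
  rw [← hQmap, Polynomial.eval_map, Polynomial.eval₂_at_apply, hz', map_zero]

/-- the kernel of a ring homomorphism from `ℤ̄` to a field of characteristic `p` is maximal. -/
theorem ker_isMaximal {k : Type} [Field k] (p : ℕ) [Fact p.Prime] [CharP k p]
    (φ : Zbar →+* k) : (RingHom.ker φ).IsMaximal := by
  have hp : p.Prime := Fact.out
  haveI : (RingHom.ker φ).IsPrime := RingHom.ker_isPrime φ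
  have hcomap : ((RingHom.ker φ).comap (algebraMap ℤ Zbar)).IsMaximal := by
    have hprime : ((RingHom.ker φ).comap (algebraMap ℤ Zbar)).IsPrime := Ideal.comap_isPrime _ _
    refine hprime.isMaximal ?_
    intro h0
    have hmem : (p : ℤ) ∈ (RingHom.ker φ).comap (algebraMap ℤ Zbar) := by
      rw [Ideal.mem_comap, RingHom.mem_ker, map_natCast, map_natCast]
      exact CharP.cast_eq_zero k p
    rw [h0, Ideal.mem_bot] at hmem
    exact hp.ne_zero (by exact_mod_cast hmem)
  exact Ideal.isMaximal_of_isIntegral_of_isMaximal_comap (R := ℤ) (RingHom.ker φ) hcomap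

/-- integrality of the prime-index `q`-coefficients of normalised eigenforms (an output of
pillar (B): `a_ℓ · Λ ⊆ Λ` for the period lattice `Λ`). -/
def CoeffIntegral : Prop :=
  ∀ (N : ℕ) (g : CuspForm (CongruenceSubgroup.Gamma0 N) 2), g.IsNormalizedEigenform →
    ∀ ℓ : ℕ, ℓ.Prime → ¬ ℓ ∣ N → IsIntegral ℤ (ModularFormClass.qCoeff g ℓ)

/-- the output of pillar (B) (+ `S29_ESTorsion`): for every normalised eigenform of level
`N ≠ 0` and every maximal ideal `𝔪 ∋ p` of `ℤ̄`, a nonzero finite-dimensional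
`(ℤ̄/𝔪)[G_ℚ]`-module of finite level, unramified outside `N p`, on which every Frobenius lift at
`ℓ ∤ N p` satisfies `σ² - a_ℓ σ + ℓ = 0`. -/
def ModuleProvider : Prop :=
  ∀ (N : ℕ) (_ : N ≠ 0) (g : CuspForm (CongruenceSubgroup.Gamma0 N) 2)
    (_ : g.IsNormalizedEigenform) (p : ℕ) (_ : p.Prime) (𝔪 : Ideal Zbar) [𝔪.IsMaximal]
    (_ : (p : Zbar) ∈ 𝔪),
    ∃ (W : Type) (_ : AddCommGroup W) (_ : Module (Zbar ⧸ 𝔪) W)
      (_ : Module.Finite (Zbar ⧸ 𝔪) W) (_ : Nontrivial W)
      (ρ : GQ →* Module.End (Zbar ⧸ 𝔪) W),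
      GaloisFactorsThroughFiniteLevel ρ ∧
      (∀ ℓ : ℕ, ℓ.Prime → ¬ ℓ ∣ N * p → ∀ A : ValuationSubring Qbar, A.LiesOverPrime ℓ →
        ∀ σ ∈ A.inertiaSubgroupIn ℚ, ρ σ = 1) ∧
      (∀ ℓ : ℕ, ℓ.Prime → ¬ ℓ ∣ N * p → ∀ A : ValuationSubring Qbar, A.LiesOverPrime ℓ →
        ∀ σ : GQ, A.IsFrobeniusAt σ ℓ →
          ∀ b : Zbar, (b : ℂ) = ModularFormClass.qCoeff g ℓ →
            ρ σ * ρ σ - (Ideal.Quotient.mk 𝔪 b) • ρ σ
              + ((ℓ : ℕ) : Zbar ⧸ 𝔪) • (1 : Module.End (Zbar ⧸ 𝔪) W) = 0)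

/-- **S29 from its three pillars.** -/
theorem s29_of (hFD : FrobDensity) (hInt : CoeffIntegral) (hMod : ModuleProvider)
    {N : ℕ} {g : CuspForm (CongruenceSubgroup.Gamma0 N) 2} (hg : g.IsNormalizedEigenform)
    {p : ℕ} (hp : p.Prime) {k : Type} [Field k] [CharP k p]
    (φ : integralClosure ℤ ℂ →+* k) :
    ∃ ρ : ResidualGaloisRep k, ρ.IsAttachedTo g φ ∧
      ∀ ℓ : ℕ, ℓ.Prime → ¬ ℓ ∣ N * p → ρ.IsUnramifiedAt ℓ := by
  classical
  haveI : Fact p.Prime := ⟨hp⟩
  by_cases hN : N = 0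
  · subst hN
    refine ⟨{ V := Fin 2 → k
              finrank_eq := GroupLemma.finrank_fin_two
              ρ := 1
              factorsThroughFiniteLevel := ⟨⊥, inferInstance, fun _ _ => rfl⟩ }, ?_, ?_⟩
    · intro ℓ _ hℓN
      exact absurd (dvd_zero ℓ) hℓN
    · intro ℓ _ hℓN
      rw [zero_mul] at hℓN
      exact absurd (dvd_zero ℓ) hℓN
  · haveI hmax : (RingHom.ker φ).IsMaximal := ker_isMaximal p φ
    have hp𝔪 : ((p : ℕ) : Zbar) ∈ RingHom.ker φ := by
      rw [RingHom.mem_ker, map_natCast]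
      exact CharP.cast_eq_zero k p
    let ι : Zbar ⧸ RingHom.ker φ →+* k := Ideal.Quotient.lift (RingHom.ker φ) φ (fun x hx => hx)
    have hι : ∀ x : Zbar, ι (Ideal.Quotient.mk (RingHom.ker φ) x) = φ x := fun x => rfl
    haveI : IsAlgClosed (Zbar ⧸ RingHom.ker φ) := isAlgClosed_quotient _
    haveI : CharP (Zbar ⧸ RingHom.ker φ) p := RingHom.charP ι ι.injective p
    obtain ⟨W, iW1, iW2, iW3, iW4, ρ, hlev, hunr, hquad⟩ := hMod N hN g hg p hp (RingHom.ker φ) hp𝔪
    let a : ℕ → Zbar ⧸ RingHom.ker φ := fun ℓ =>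
      if h : ∃ b : Zbar, (b : ℂ) = ModularFormClass.qCoeff g ℓ
      then Ideal.Quotient.mk (RingHom.ker φ) h.choose else 0
    have ha : ∀ ℓ : ℕ, ∀ b : Zbar, (b : ℂ) = ModularFormClass.qCoeff g ℓ →
        a ℓ = Ideal.Quotient.mk (RingHom.ker φ) b := by
      intro ℓ b hb
      have h : ∃ b : Zbar, (b : ℂ) = ModularFormClass.qCoeff g ℓ := ⟨b, hb⟩
      have h1 : a ℓ = Ideal.Quotient.mk (RingHom.ker φ) h.choose := dif_pos h
      rw [h1]
      congr 1
      exact Subtype.ext (h.choose_spec.trans hb.symm)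
    have hNp : ∀ ℓ : ℕ, ¬ ℓ ∣ N * p → ¬ ℓ ∣ N := fun ℓ h hd => h (Dvd.dvd.mul_right hd p)
    have hquad' : ∀ ℓ : ℕ, ℓ.Prime → ¬ ℓ ∣ N * p → ∀ A : ValuationSubring Qbar,
        A.LiesOverPrime ℓ → ∀ σ : GQ, A.IsFrobeniusAt σ ℓ →
          ρ σ * ρ σ - a ℓ • ρ σ
            + ((ℓ : ℕ) : Zbar ⧸ RingHom.ker φ) • (1 : Module.End (Zbar ⧸ RingHom.ker φ) W) = 0 := by
      intro ℓ hℓ hℓNp A hA σ hσ
      have hint := hInt N g hg ℓ hℓ (hNp ℓ hℓNp)
      rw [ha ℓ ⟨_, hint⟩ rfl]
      exact hquad ℓ hℓ hℓNp A hA σ hσ ⟨_, hint⟩ rfl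
    obtain ⟨r0, hchar, hunr0⟩ := exists_rep p hFD N hN a ρ hlev hunr hquad'
    letI : Algebra (Zbar ⧸ RingHom.ker φ) k := ι.toAlgebra
    refine ⟨r0.baseChangeAlong ι, ?_, ?_⟩
    · intro ℓ hℓ hℓN hℓk A hA σ hσ
      have hℓp : ℓ ≠ p := by
        rintro rfl
        exact hℓk (CharP.cast_eq_zero k ℓ)
      have hℓNp : ¬ ℓ ∣ N * p := by
        intro hd
        rcases (Nat.Prime.dvd_mul hℓ).mp hd with h | h
        · exact hℓN h
        · exact hℓp ((Nat.prime_dvd_prime_iff_eq hℓ hp).mp h)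
      have hint := hInt N g hg ℓ hℓ hℓN
      refine ⟨⟨_, hint⟩, rfl, ?_⟩
      show LinearMap.charpoly ((r0.ρ σ).baseChange k) = _
      rw [LinearMap.charpoly_baseChange, hchar ℓ hℓ hℓNp A hA σ hσ, ha ℓ ⟨_, hint⟩ rfl,
        Polynomial.map_add, Polynomial.map_sub, Polynomial.map_mul, Polynomial.map_pow,
        Polynomial.map_X, Polynomial.map_C, Polynomial.map_C, map_natCast]
      rfl
    · intro ℓ hℓ hℓNp A hA σ hσ
      show (r0.ρ σ).baseChange k = 1
      rw [hunr0 ℓ hℓ hℓNp A hA σ hσ]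
      exact LinearMap.baseChange_one _ _

end Final

end Fermat.Agent.S29.Glue
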