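import Mathlib
import Fermat.Agent.S29_FrobTransfer
import Fermat.Agent.S29_Glue

/-!
# S29, pillar (C), package C5: the Frobenius density statement consumed by the glue

`frobDensity_of_cheb`: the number-field statement (C3: every `g ∈ Gal(K/ℚ)` lies in the cyclic
group generated by a Frobenius element at a prime with trivial inertia outside a finite set)
implies `Glue.FrobDensity` (normal closure + transfer C4).
-/

set_option autoImplicit false

open NumberField IsDedekindDomain

namespace Fermat.Agent.S29.FrobDensity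

attribute [local instance] Fermat.Agent.S54Frob.isGalois_Qbar

/-- the statement of package C3 (`S29_Cheb.exists_frob_zpowers`). -/
def ChebStatement : Prop :=
  ∀ (K : Type) [Field K] [NumberField K] [IsGalois ℚ K] (g : K ≃ₐ[ℚ] K) (S : Finset ℕ),
    ∃ ℓ : ℕ, ℓ.Prime ∧ ℓ ∉ S ∧ ∃ (w : S14x.Pl K) (F : K ≃ₐ[ℚ] K),
      ((ℓ : ℕ) : 𝓞 K) ∈ w.asIdeal ∧ S14x.InertiaTrivialAt ℚ w ∧ S14x.IsFrobPow ℚ F w ℓ ∧
      g ∈ Subgroup.zpowers F

/-- **C5.** -/
theorem frobDensity_of_cheb (h : ChebStatement) : Glue.FrobDensity := by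
  intro L hL σ S
  have := hL
  let K : IntermediateField ℚ (AlgebraicClosure ℚ) :=
    IntermediateField.normalClosure ℚ L (AlgebraicClosure ℚ)
  have : FiniteDimensional ℚ K := inferInstance
  have : NumberField K := { to_charZero := inferInstance, to_finiteDimensional := inferInstance }
  have hnQ : Normal ℚ (AlgebraicClosure ℚ) := inferInstance
  have : Normal ℚ K := normalClosure.normal ℚ L (AlgebraicClosure ℚ)
  have : IsGalois ℚ K := ⟨⟩
  have hLK : L ≤ K := IntermediateField.le_normalClosure L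
  obtain ⟨ℓ, hℓ, hℓS, w, F, hw, hI, hF, hg⟩ := h K (σ.restrictNormal K) S
  obtain ⟨A, τ, hA, hτ, hτF⟩ :=
    FrobTransfer.exists_isFrobeniusAt_of_isFrobPow K ℓ hℓ w hw hI F hF
  refine ⟨ℓ, hℓ, hℓS, A, τ, hA, hτ, ?_⟩
  obtain ⟨n, hn⟩ : ∃ n : ℕ, F ^ n = σ.restrictNormal K :=
    (mem_powers_iff_mem_zpowers (x := F)).mpr hg
  refine ⟨n, fun x hx => ?_⟩
  have hpow : ∀ (m : ℕ) (y : K),
      (τ ^ m) (y : AlgebraicClosure ℚ) = (((F ^ m) y : K) : AlgebraicClosure ℚ) := by
    intro m
    induction m with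
    | zero => intro y; simp
    | succ m ih =>
      intro y
      rw [pow_succ, pow_succ, AlgEquiv.mul_apply, AlgEquiv.mul_apply, hτF, ih]
  have h1 := hpow n ⟨x, hLK hx⟩
  rw [h1, hn]
  exact (AlgEquiv.restrictNormal_commutes σ K ⟨x, hLK hx⟩).symm

end Fermat.Agent.S29.FrobDensity
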