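import Mathlib
import Fermat.Agent.S29_Cheb
import Fermat.Agent.S29_FrobDensity

/-!
# S29, pillar (C): the Frobenius density input of the glue, unconditionally

`frobDensity : Glue.FrobDensity` — every element of the absolute Galois group of `ℚ` agrees, on
any given finite extension, with a power of a Frobenius lift at a rational prime outside any given
finite set.  (`S29_FrobDensity.frobDensity_of_cheb` applied to `S29_Cheb.exists_frob_zpowers`.)
-/

set_option autoImplicit false

namespace Fermat.Agent.S29.FrobDensity

theorem chebStatement : ChebStatement :=
  fun K _ _ _ g S => Fermat.Agent.S29.Cheb.exists_frob_zpowers K g S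

/-- **Frobenius density (cyclic-subgroup form)**, the input `FrobDensity` of `Glue.s29_of`. -/
theorem frobDensity : Glue.FrobDensity := frobDensity_of_cheb chebStatement

end Fermat.Agent.S29.FrobDensity
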