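import Fermat.Agent.S29_Span
import Fermat.Agent.S29_Glue
import Fermat.Agent.S29_FrobDensityMain

/-!
# S29: final assembly, relative to the eigenvector statement of pillar (B)

`BridgeStatement` is (verbatim) the statement of `S29_Bridge.exists_eigenvector`: for every
normalised eigenform `g` of level `N`, every prime `p` and every ring homomorphism `φ` from `ℤ̄`
to a field `k₀` of characteristic `p`, there are integral `a_ℓ` with `a_ℓ = a_ℓ(g)` and a nonzero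
`v ∈ k₀ ⊗ J₀(N)[p]` with `T_ℓ v = φ(a_ℓ) v` for all primes `ℓ ∤ N`.

`s29_of_bridge : BridgeStatement → (the frozen S29 conclusion)`; pillars (A) (`S29_ESTorsion`)
and (C) (`S29_FrobDensityMain`, `S29_Glue`, `S29_Span`) are used unconditionally.
-/

set_option autoImplicit false
set_option linter.style.haveILetI false

noncomputable section

open ModularCurve AlgebraicCurve
open scoped TensorProduct

namespace Fermat.Agent.S29.Final

local notation "Qbar" => AlgebraicClosure ℚ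
local notation "GQ" => (AlgebraicClosure ℚ ≃ₐ[ℚ] AlgebraicClosure ℚ)
local notation "Zbar" => integralClosure ℤ ℂ

/-- the output of pillar (B): the statement of `S29_Bridge.exists_eigenvector`. -/
def BridgeStatement : Prop :=
  ∀ (N : ℕ) [NeZero N] (g : CuspForm (CongruenceSubgroup.Gamma0 N) 2)
    (_ : g.IsNormalizedEigenform) (p : ℕ) [Fact p.Prime] (k₀ : Type) [Field k₀] [CharP k₀ p]
    [Algebra (ZMod p) k₀] (φ : Zbar →+* k₀),
    ∃ a : ℕ → Zbar,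
      (∀ ℓ : ℕ, ℓ.Prime → ¬ ℓ ∣ N → ((a ℓ : Zbar) : ℂ) = ModularFormClass.qCoeff g ℓ) ∧
      ∃ v : k₀ ⊗[ZMod p] Jp N p, v ≠ 0 ∧
        ∀ (ℓ : ℕ) [NeZero ℓ], ℓ.Prime → ¬ ℓ ∣ N →
          (heckeJp N p ℓ).baseChange k₀ v = φ (a ℓ) • v

attribute [local instance] Ideal.Quotient.field

/-- the residue field of a maximal ideal of `ℤ̄` containing `p` has characteristic `p`. -/
theorem charP_quotient (p : ℕ) (hp : p.Prime) (𝔪 : Ideal Zbar) [𝔪.IsMaximal]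
    (h : ((p : ℕ) : Zbar) ∈ 𝔪) : CharP (Zbar ⧸ 𝔪) p := by
  obtain ⟨q, hq⟩ := CharP.exists (Zbar ⧸ 𝔪)
  have h0 : ((p : ℕ) : Zbar ⧸ 𝔪) = 0 := by
    rw [← map_natCast (Ideal.Quotient.mk 𝔪)]
    exact Ideal.Quotient.eq_zero_iff_mem.mpr h
  have hdvd : q ∣ p := (CharP.cast_eq_zero_iff (Zbar ⧸ 𝔪) q p).mp h0
  rcases (Nat.dvd_prime hp).mp hdvd with h1 | h1
  · subst h1
    exact absurd rfl (CharP.char_ne_one (Zbar ⧸ 𝔪) 1)
  · subst h1
    exact hq

/-- `ℤ̄` has a maximal ideal containing `2`. -/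
theorem exists_maximal_two : ∃ 𝔪 : Ideal Zbar, 𝔪.IsMaximal ∧ ((2 : ℕ) : Zbar) ∈ 𝔪 := by
  have h2 : ¬ IsUnit (((2 : ℕ) : Zbar)) := by
    intro hu
    obtain ⟨w, hw⟩ := isUnit_iff_exists_inv.mp hu
    have hw' : (2 : ℂ) * (w : ℂ) = 1 := by
      have h3 : ((((2 : ℕ) : Zbar) * w : Zbar) : ℂ) = 1 := by rw [hw]; rfl
      have h4 : (((2 : ℕ) : Zbar) : ℂ) = (2 : ℂ) := by
        exact_mod_cast (map_natCast (algebraMap Zbar ℂ) 2)
      rw [← h4]
      exact h3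
    have hwq : (w : ℂ) = algebraMap ℚ ℂ (2⁻¹ : ℚ) := by
      have h2 : (2 : ℂ) ≠ 0 := two_ne_zero
      rw [map_inv₀, map_ofNat]
      field_simp
      linear_combination hw'
    have hint : IsIntegral ℤ (algebraMap ℚ ℂ (2⁻¹ : ℚ)) := hwq ▸ w.2
    rw [isIntegral_algebraMap_iff (algebraMap ℚ ℂ).injective] at hint
    obtain ⟨y, hy⟩ := IsIntegrallyClosed.isIntegral_iff.mp hint
    have hy2 : (2 : ℚ) * (y : ℚ) = 1 := by
      have : ((algebraMap ℤ ℚ) y : ℚ) = (y : ℚ) := rfl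
      rw [← this, hy]
      norm_num
    have hy3 : (2 : ℤ) * y = 1 := by exact_mod_cast hy2
    omega
  obtain ⟨𝔪, hmax, hle⟩ := Ideal.exists_le_maximal (Ideal.span {((2 : ℕ) : Zbar)})
    (by rwa [Ne, Ideal.span_singleton_eq_top])
  exact ⟨𝔪, hmax, hle (Ideal.mem_span_singleton_self _)⟩

/-- pillar (B) gives the module provider of the glue (via `S29_Span.exists_module`). -/
theorem moduleProvider (hB : BridgeStatement) : Glue.ModuleProvider := by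
  intro N hN g hg p hp 𝔪 _ hp𝔪
  haveI : NeZero N := ⟨hN⟩
  haveI : Fact p.Prime := ⟨hp⟩
  haveI : CharP (Zbar ⧸ 𝔪) p := charP_quotient p hp 𝔪 hp𝔪
  letI : Algebra (ZMod p) (Zbar ⧸ 𝔪) := ZMod.algebra _ p
  obtain ⟨a, ha, v, hv, hev⟩ := hB N g hg p (Zbar ⧸ 𝔪) (Ideal.Quotient.mk 𝔪)
  obtain ⟨W, i1, i2, i3, i4, ρ, hlev, hunr, hquad⟩ :=
    Span.exists_module p N (fun ℓ => Ideal.Quotient.mk 𝔪 (a ℓ)) v hv hev
  refine ⟨W, i1, i2, i3, i4, ρ, hlev, hunr, ?_⟩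
  intro ℓ hℓ hℓNp A hA σ hσ b hb
  have hℓN : ¬ ℓ ∣ N := fun hd => hℓNp (Dvd.dvd.mul_right hd p)
  have hba : b = a ℓ := Subtype.ext (hb.trans (ha ℓ hℓ hℓN).symm)
  rw [hba]
  exact hquad ℓ hℓ hℓNp A hA σ hσ

/-- pillar (B) gives the integrality of the prime-index coefficients. -/
theorem coeffIntegral (hB : BridgeStatement) : Glue.CoeffIntegral := by
  intro N g hg ℓ hℓ hℓN
  have hN : N ≠ 0 := by
    rintro rfl
    exact hℓN (dvd_zero ℓ)
  haveI : NeZero N := ⟨hN⟩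
  obtain ⟨𝔪, hmax, h2⟩ := exists_maximal_two
  haveI := hmax
  haveI : Fact (Nat.Prime 2) := ⟨Nat.prime_two⟩
  haveI : CharP (Zbar ⧸ 𝔪) 2 := charP_quotient 2 Nat.prime_two 𝔪 h2
  letI : Algebra (ZMod 2) (Zbar ⧸ 𝔪) := ZMod.algebra _ 2
  obtain ⟨a, ha, -⟩ := hB N g hg 2 (Zbar ⧸ 𝔪) (Ideal.Quotient.mk 𝔪)
  rw [← ha ℓ hℓ hℓN]
  exact (a ℓ).2

/-- **S29 from the eigenvector statement of pillar (B).** -/
theorem s29_of_bridge (hB : BridgeStatement)
    {N : ℕ} {g : CuspForm (CongruenceSubgroup.Gamma0 N) 2} (hg : g.IsNormalizedEigenform)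
    {p : ℕ} (hp : p.Prime) {k : Type} [Field k] [CharP k p]
    (φ : integralClosure ℤ ℂ →+* k) :
    ∃ ρ : ResidualGaloisRep k, ρ.IsAttachedTo g φ ∧
      ∀ ℓ : ℕ, ℓ.Prime → ¬ ℓ ∣ N * p → ρ.IsUnramifiedAt ℓ :=
  Glue.s29_of FrobDensity.frobDensity (coeffIntegral hB) (moduleProvider hB) hg hp φ

end Fermat.Agent.S29.Final
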