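import Fermat.Statements.S29
import Fermat.Agent.S29_Final
import Fermat.Agent.S29_Bridge

/-!
# S29: the frozen statement from the two remaining leaves

`s29_of_open`: the conclusion of S29 (a residual Galois representation attached to a normalised
eigenform, unramified outside `N p`) from `Bridge2.PDivStatement` (B3) and
`Bridge2.NormStatement` (B5a); everything else is on main.
-/

set_option autoImplicit false

open CuspForm CuspForm.IsNormalizedEigenform

namespace Fermat.Agent.S29.Main

theorem s29_of_open (HP : Bridge2.PDivStatement) (HN : Bridge2.NormStatement)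
    {N : ℕ} {g : CuspForm (CongruenceSubgroup.Gamma0 N) 2} (hg : g.IsNormalizedEigenform)
    {p : ℕ} (hp : p.Prime) {k : Type} [Field k] [CharP k p]
    (φ : integralClosure ℤ ℂ →+* k) :
    ∃ ρ : ResidualGaloisRep k, ρ.IsAttachedTo g φ ∧
      ∀ ℓ : ℕ, ℓ.Prime → ¬ ℓ ∣ N * p → ρ.IsUnramifiedAt ℓ :=
  Final.s29_of_bridge
    (fun N _ g hg p _ k₀ _ _ _ φ => Bridge2.exists_eigenvector_of_open HP HN N g hg p k₀ φ)
    hg hp φ

end Fermat.Agent.S29.Main
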