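import Fermat.Statements.S29
import Fermat.Agent.S29_Main
import Fermat.Agent.S29_KumNorm

/-!
# S29: the frozen statement from the last remaining leaf

`s29_of_pdiv`: the conclusion of S29 from `Bridge2.PDivStatement` (B3, `p ∣ ord_v h` for Kummer
functions of admissible characters) alone; `Bridge2.NormStatement` (B5a) is discharged by
`S29_KumNorm.norm_realizes`.
-/

set_option autoImplicit false

open CuspForm CuspForm.IsNormalizedEigenform

namespace Fermat.Agent.S29.Main2

theorem normStatement : Bridge2.NormStatement :=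
  fun N ℓ _ _ _ hℓN h W₁ W₂ a b c => KumNorm.norm_realizes N ℓ hℓN h W₁ W₂ a b c

theorem s29_of_pdiv (HP : Bridge2.PDivStatement)
    {N : ℕ} {g : CuspForm (CongruenceSubgroup.Gamma0 N) 2} (hg : g.IsNormalizedEigenform)
    {p : ℕ} (hp : p.Prime) {k : Type} [Field k] [CharP k p]
    (φ : integralClosure ℤ ℂ →+* k) :
    ∃ ρ : ResidualGaloisRep k, ρ.IsAttachedTo g φ ∧
      ∀ ℓ : ℕ, ℓ.Prime → ¬ ℓ ∣ N * p → ρ.IsUnramifiedAt ℓ :=
  Main.s29_of_open HP normStatement hg hp φ

end Fermat.Agent.S29.Main2
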