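-- Statement S29 (row 28): every normalised eigenform `g` of level `N` and every ring
-- homomorphism `φ : ℤ̄ → k` to a field of characteristic `p` admit a residual Galois
-- representation attached to `(g, φ)` and unramified outside `N p`.
-- Proof: `Main2.s29_of_pdiv` (S29_Main2): the glue `Final.s29_of_bridge` (Frobenius density,
-- group lemma, cyclotomic character, Eichler–Shimura on torsion of `J₀(N)`, span of a Hecke
-- eigenvector) applied to the eigenvector of the bridge `Bridge2.exists_eigenvector_of_open`
-- (period lattice, Kummer functions of admissible characters, descent to `ℚ̄`, classes in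
-- `J₀(N)[p]`), fed with `KumDiv.pdiv_of_isKum`.
import Fermat.Statements.S29
import Fermat.Agent.S29_Main2
import Fermat.Agent.S29_KumDiv

set_option autoImplicit false
open CuspForm CuspForm.IsNormalizedEigenform

namespace Fermat.Agent.S29

theorem result
    {N : ℕ} {g : CuspForm (CongruenceSubgroup.Gamma0 N) 2} (hg : g.IsNormalizedEigenform)
    {p : ℕ} (hp : p.Prime) {k : Type} [Field k] [CharP k p]
    (φ : integralClosure ℤ ℂ →+* k) :
    ∃ ρ : ResidualGaloisRep k, ρ.IsAttachedTo g φ ∧
      ∀ ℓ : ℕ, ℓ.Prime → ¬ ℓ ∣ N * p → ρ.IsUnramifiedAt ℓ :=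
  Main2.s29_of_pdiv (fun N p _ _ χ hχ h hk => KumDiv.pdiv_of_isKum N p χ hχ h hk) hg hp φ

end Fermat.Agent.S29
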