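import Fermat.Agent.S29_BDefs2
import Fermat.Agent.S29_Eis
import Fermat.Agent.S29_KumFun
import Fermat.Agent.S29_KumInj
import Fermat.Agent.S29_KumInjC
import Fermat.Agent.S29_KumPic
import Fermat.Agent.S29_Period
import Fermat.Agent.S29_DescentMain
import Fermat.Agent.S29_DescNorm
import Fermat.Agent.S29_DescDer

/-!
# S29, bridge (B9), relative to the two leaves B3 and B5

`exists_eigenvector_of : PDivStatement → HeckeStatement → (statement of B9)`, where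
`PDivStatement` is the statement of `S29_KumDiv.pdiv_of_isKum` (B3: Kummer functions have
divisors divisible by `p`) and `HeckeStatement` is the statement of `kum_hecke` (B5: the norm
along `α` of `β h` is a Kummer function of `T_ℓ χ`).

The Kummer map `κ : X → J₀(N)[p]`, `χ ↦ classOf (descent of a Kummer function of χ)` is
additive (`kum_add`, `descent_inj`, `classOf_mul`), injective (`kum_inj`), and Hecke equivariant
(`kum_hecke`, `bcF_norm`, `hecke_classOf`); the eigenvector is the image of the eigen-character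
under `k₀ ⊗ κ`.
-/

set_option autoImplicit false
set_option linter.style.haveILetI false

noncomputable section

open UpperHalfPlane ModularCurve CongruenceSubgroup AlgebraicCurve
open scoped MatrixGroups TensorProduct

namespace Fermat.Agent.S29.BridgeAux

local notation "Qbar" => AlgebraicClosure ℚ
local notation "Zbar" => integralClosure ℤ ℂ

open Fermat.Agent.S29

/-! ### calculus of `KumRel` -/

section Calc

variable {K F : Type*} [Field K] [Field F] [Algebra K F] {p : ℕ}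

theorem kumRel_refl (h : F) : KumRel K F p h h :=
  ⟨1, 1, one_ne_zero, one_ne_zero, by rw [map_one, one_pow, one_mul, one_mul]⟩

theorem kumRel_symm {h h' : F} (hr : KumRel K F p h h') : KumRel K F p h' h := by
  obtain ⟨c, y, hc, hy, rfl⟩ := hr
  refine ⟨c⁻¹, y⁻¹, inv_ne_zero hc, inv_ne_zero hy, ?_⟩
  have hc' : algebraMap K F c ≠ 0 := (map_ne_zero _).mpr hc
  have hy' : y ^ p ≠ 0 := pow_ne_zero p hy
  rw [map_inv₀, inv_pow]
  field_simp

theorem kumRel_trans {h h' h'' : F} (h1 : KumRel K F p h h') (h2 : KumRel K F p h' h'') :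
    KumRel K F p h h'' := by
  obtain ⟨c, y, hc, hy, rfl⟩ := h1
  obtain ⟨c', y', hc', hy', rfl⟩ := h2
  exact ⟨c * c', y * y', mul_ne_zero hc hc', mul_ne_zero hy hy', by
    rw [map_mul, mul_pow]; ring⟩

theorem kumRel_mul {h₁ h₁' h₂ h₂' : F} (a : KumRel K F p h₁ h₁') (b : KumRel K F p h₂ h₂') :
    KumRel K F p (h₁ * h₂) (h₁' * h₂') := by
  obtain ⟨c, y, hc, hy, rfl⟩ := a
  obtain ⟨c', y', hc', hy', rfl⟩ := b
  exact ⟨c * c', y * y', mul_ne_zero hc hc', mul_ne_zero hy hy', by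
    rw [map_mul, mul_pow]; ring⟩

theorem kumRel_of_div {h h' : F} (hh' : h' ≠ 0) (hr : KumRel K F p (h * h'⁻¹) 1) :
    KumRel K F p h h' := by
  obtain ⟨c, y, hc, hy, e⟩ := hr
  refine ⟨c, y, hc, hy, ?_⟩
  rw [mul_one] at e
  rw [← e, inv_mul_cancel_right₀ hh']

theorem kumRel_div {h h' : F} (hh' : h' ≠ 0) (hr : KumRel K F p h h') :
    KumRel K F p (h * h'⁻¹) 1 := by
  obtain ⟨c, y, hc, hy, rfl⟩ := hr
  exact ⟨c, y, hc, hy, by rw [mul_one, mul_inv_cancel_right₀ hh']⟩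

end Calc

/-! ### transport of `KumRel` along `bcF`, `β` and the norm -/

section Transport

variable (N : ℕ) [NeZero N] {p : ℕ}

theorem kumRel_bcF {h₀ h₁ : ↥(modularFunctionFieldBar N)}
    (hr : KumRel Qbar ↥(modularFunctionFieldBar N) p h₀ h₁) :
    KumRel ℂ (FC N) p (bcF N h₀) (bcF N h₁) := by
  obtain ⟨c, y, hc, hy, rfl⟩ := hr
  refine ⟨embC c, bcF N y, (map_ne_zero embC).mpr hc, ?_, ?_⟩
  · exact fun h => hy (bcF_injective N (h.trans (map_zero _).symm))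
  · rw [map_mul, map_mul, map_pow, bcF_algebraMap]

variable (ℓ : ℕ) [NeZero ℓ]

theorem normA_mul (x y : FC (N * ℓ)) :
    normA ℂ N ℓ (x * y) = normA ℂ N ℓ x * normA ℂ N ℓ y := by
  letI := algebraAlong (heckeAlphaBar ℂ N ℓ)
  exact map_mul (Algebra.norm (FC N)) x y

theorem normA_pow (x : FC (N * ℓ)) (n : ℕ) :
    normA ℂ N ℓ (x ^ n) = normA ℂ N ℓ x ^ n := by
  letI := algebraAlong (heckeAlphaBar ℂ N ℓ)
  exact map_pow (Algebra.norm (FC N)) x n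

theorem normA_algebraMap (c : ℂ) :
    ∃ d : ℕ, normA ℂ N ℓ (algebraMap ℂ (FC (N * ℓ)) c) = algebraMap ℂ (FC N) (c ^ d) := by
  letI := algebraAlong (heckeAlphaBar ℂ N ℓ)
  refine ⟨Module.finrank (FC N) (FC (N * ℓ)), ?_⟩
  have h1 : algebraMap ℂ (FC (N * ℓ)) c = algebraMap (FC N) (FC (N * ℓ)) (algebraMap ℂ (FC N) c) :=
    ((heckeAlphaBar ℂ N ℓ).commutes c).symm
  show Algebra.norm (FC N) (algebraMap ℂ (FC (N * ℓ)) c) = _
  rw [h1, Algebra.norm_algebraMap, map_pow]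

theorem normA_ne_zero {x : FC (N * ℓ)} (hx : x ≠ 0) : normA ℂ N ℓ x ≠ 0 := by
  letI := algebraAlong (heckeAlphaBar ℂ N ℓ)
  show Algebra.norm (FC N) x ≠ 0
  by_cases hfin : Module.Finite (FC N) (FC (N * ℓ))
  · exact Algebra.norm_ne_zero_iff.mpr hx
  · rw [Algebra.norm_eq_one_of_not_module_finite hfin]
    exact one_ne_zero

theorem kumRel_norm_beta {h h₁ : FC N} (hr : KumRel ℂ (FC N) p h h₁) :
    KumRel ℂ (FC N) p (normA ℂ N ℓ (heckeBetaBar ℂ N ℓ h))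
      (normA ℂ N ℓ (heckeBetaBar ℂ N ℓ h₁)) := by
  obtain ⟨c, y, hc, hy, rfl⟩ := hr
  obtain ⟨d, hd⟩ := normA_algebraMap N ℓ c
  refine ⟨c ^ d, normA ℂ N ℓ (heckeBetaBar ℂ N ℓ y), pow_ne_zero d hc,
    normA_ne_zero N ℓ ((map_ne_zero _).mpr hy), ?_⟩
  rw [map_mul, map_mul, map_pow, AlgHom.commutes, normA_mul, normA_mul, normA_pow, hd]

end Transport

/-! ### the two open leaves, as hypotheses -/

/-- statement of B3 (`S29_KumDiv.pdiv_of_isKum`). -/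
def PDivStatement : Prop :=
  ∀ (N p : ℕ) [NeZero N] [Fact p.Prime] (χ : Additive (Gamma0 N) →+ ZMod p)
    (_ : IsAdm N p χ) (h : FC N), IsKum N p χ h → IsPDiv ℂ (FC N) p h

/-- statement of B5 (`kum_hecke`). -/
def HeckeStatement : Prop :=
  ∀ (N p ℓ : ℕ) [NeZero N] [Fact p.Prime] [Fact ℓ.Prime] (hℓN : ¬ ℓ ∣ N)
    (χ : Additive (Gamma0 N) →+ ZMod p) (_ : IsAdm N p χ)
    (_ : IsAdm N p ((Fermat.Agent.S16.LB.famT N ℓ hℓN).tHom χ)) (h h' : FC N),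
    IsKum N p χ h → IsKum N p ((Fermat.Agent.S16.LB.famT N ℓ hℓN).tHom χ) h' →
      KumRel ℂ (FC N) p (normA ℂ N ℓ (heckeBetaBar ℂ N ℓ h)) h'

/-! ### descended Kummer functions -/

section Desc

variable (N p : ℕ) [NeZero N] [Fact p.Prime]

/-- descent of `KumRel` for functions defined over `ℚ̄`. -/
theorem descent_rel {h₀ h₁ : ↥(modularFunctionFieldBar N)} (hh₀ : h₀ ≠ 0) (hh₁ : h₁ ≠ 0)
    (hr : KumRel ℂ (FC N) p (bcF N h₀) (bcF N h₁)) :
    KumRel Qbar ↥(modularFunctionFieldBar N) p h₀ h₁ := by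
  have hb : bcF N h₁ ≠ 0 := fun h => hh₁ (bcF_injective N (h.trans (map_zero _).symm))
  have h1 : KumRel ℂ (FC N) p (bcF N (h₀ * h₁⁻¹)) 1 := by
    rw [map_mul, map_inv₀]
    exact kumRel_div hb hr
  exact kumRel_of_div hh₁
    (DescDer.descent_inj N p (h₀ * h₁⁻¹) (mul_ne_zero hh₀ (inv_ne_zero hh₁)) h1)

/-- `h₀` is a descended Kummer function of `χ`. -/
def IsDesc (χ : Additive (Gamma0 N) →+ ZMod p) (h₀ : ↥(modularFunctionFieldBar N)) : Prop :=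
  IsPDiv Qbar ↥(modularFunctionFieldBar N) p h₀ ∧
    ∃ h : FC N, IsKum N p χ h ∧ KumRel ℂ (FC N) p h (bcF N h₀)

theorem exists_isDesc (hB3 : PDivStatement) (χ : Additive (Gamma0 N) →+ ZMod p)
    (hχ : IsAdm N p χ) : ∃ h₀, IsDesc N p χ h₀ := by
  obtain ⟨E₁, hE₁⟩ := Eis.exists_twisted N p χ hχ
  obtain ⟨E₂, hE₂⟩ := Eis.exists_twisted N p 0 (isAdm_zero N p)
  haveI : NeZero p := ⟨(Fact.out : p.Prime).ne_zero⟩
  obtain ⟨h, hk⟩ := KumFun.exists_isKum N p χ E₁ E₂ hE₁ hE₂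
  obtain ⟨h₀, hh₀, hrel⟩ := Descent.descent N p h (hB3 N p χ hχ h hk)
  exact ⟨h₀, hh₀, h, hk, hrel⟩

variable {N p}

theorem classOf_add_of_isDesc {χ χ' : Additive (Gamma0 N) →+ ZMod p}
    {h₀ h₀' h₀'' : ↥(modularFunctionFieldBar N)} (d : IsDesc N p χ h₀)
    (d' : IsDesc N p χ' h₀') (d'' : IsDesc N p (χ + χ') h₀'') :
    KumPic.classOf N p h₀'' d''.1 = KumPic.classOf N p h₀ d.1 + KumPic.classOf N p h₀' d'.1 := by
  obtain ⟨hh₀, h, hk, hr⟩ := d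
  obtain ⟨hh₀', h', hk', hr'⟩ := d'
  obtain ⟨hh₀'', h'', hk'', hr''⟩ := d''
  have h1 : KumRel ℂ (FC N) p h'' (h * h') := KumInj.kum_add N p χ χ' h h' h'' hk hk' hk''
  have h2 : KumRel ℂ (FC N) p (h * h') (bcF N (h₀ * h₀')) := by
    rw [map_mul]
    exact kumRel_mul hr hr'
  have h3 : KumRel ℂ (FC N) p (bcF N h₀'') (bcF N (h₀ * h₀')) :=
    kumRel_trans (kumRel_symm hr'') (kumRel_trans h1 h2)
  have h4 := descent_rel N p hh₀''.1 (mul_ne_zero hh₀.1 hh₀'.1) h3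
  rw [KumPic.classOf_eq_of_kumRel hh₀'' (KumPic.isPDiv_mul hh₀ hh₀') h4, KumPic.classOf_mul]

theorem eq_zero_of_isDesc {χ : Additive (Gamma0 N) →+ ZMod p} (hχ : IsAdm N p χ)
    {h₀ : ↥(modularFunctionFieldBar N)} (d : IsDesc N p χ h₀)
    (h0 : KumPic.classOf N p h₀ d.1 = 0) : χ = 0 := by
  obtain ⟨hh₀, h, hk, hr⟩ := d
  have h1 : KumRel Qbar ↥(modularFunctionFieldBar N) p h₀ 1 :=
    (KumPic.classOf_eq_zero_iff hh₀).mp h0
  have h2 : KumRel ℂ (FC N) p (bcF N h₀) 1 := by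
    have := kumRel_bcF N h1
    rwa [map_one] at this
  exact KumInjC.kum_inj N p χ hχ h hk (kumRel_trans hr h2)

theorem hecke_of_isDesc (hB5 : HeckeStatement) (ℓ : ℕ) [Fact ℓ.Prime] [NeZero ℓ]
    (hℓN : ¬ ℓ ∣ N) {χ : Additive (Gamma0 N) →+ ZMod p} (hχ : IsAdm N p χ)
    (hχ' : IsAdm N p ((Fermat.Agent.S16.LB.famT N ℓ hℓN).tHom χ))
    {h₀ h₀' : ↥(modularFunctionFieldBar N)} (d : IsDesc N p χ h₀)
    (d' : IsDesc N p ((Fermat.Agent.S16.LB.famT N ℓ hℓN).tHom χ) h₀') :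
    heckeJp N p ℓ (KumPic.classOf N p h₀ d.1) = KumPic.classOf N p h₀' d'.1 := by
  have hℓ : ℓ.Prime := Fact.out
  obtain ⟨hh₀, h, hk, hr⟩ := d
  obtain ⟨hh₀', h', hk', hr'⟩ := d'
  rw [KumPic.hecke_classOf ℓ hh₀]
  apply KumPic.classOf_eq_of_kumRel
  apply descent_rel N p (KumPic.isPDiv_norm ℓ hh₀).1 hh₀'.1
  rw [DescNorm.bcF_norm N ℓ hℓ hℓN h₀]
  have h1 : KumRel ℂ (FC N) p (normA ℂ N ℓ (heckeBetaBar ℂ N ℓ h))
      (normA ℂ N ℓ (heckeBetaBar ℂ N ℓ (bcF N h₀))) := kumRel_norm_beta N ℓ hr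
  have h2 : KumRel ℂ (FC N) p (normA ℂ N ℓ (heckeBetaBar ℂ N ℓ h)) h' :=
    hB5 N p ℓ hℓN χ hχ hχ' h h' hk hk'
  exact kumRel_trans (kumRel_symm h1) (kumRel_trans h2 hr')

end Desc

/-! ### the Kummer map and the eigenvector -/

section Kappa

variable (N p : ℕ) [NeZero N] [Fact p.Prime]

/-- the Kummer map on an admissible space of characters. -/
theorem exists_kappa (hB3 : PDivStatement) (hB5 : HeckeStatement)
    (X : Submodule (ZMod p) (Additive (Gamma0 N) →+ ZMod p))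
    (hadm : ∀ χ ∈ X, IsAdm N p χ)
    (hX : ∀ (ℓ : ℕ) [Fact ℓ.Prime] (hℓN : ¬ ℓ ∣ N), ∀ χ ∈ X,
      (Fermat.Agent.S16.LB.famT N ℓ hℓN).tHom χ ∈ X) :
    ∃ κ : X →ₗ[ZMod p] Jp N p, Function.Injective κ ∧
      ∀ (ℓ : ℕ) [Fact ℓ.Prime] [NeZero ℓ] (hℓN : ¬ ℓ ∣ N) (χ : X),
        heckeJp N p ℓ (κ χ)
          = κ (restrT (Fermat.Agent.S16.LB.famT N ℓ hℓN) X (hX ℓ hℓN) χ) := by
  classical
  have hex : ∀ χ : X, ∃ h₀, IsDesc N p (χ : Additive (Gamma0 N) →+ ZMod p) h₀ :=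
    fun χ => exists_isDesc N p hB3 χ (hadm χ χ.2)
  let f : X → Jp N p := fun χ => KumPic.classOf N p (hex χ).choose (hex χ).choose_spec.1
  have hadd : ∀ χ χ' : X, f (χ + χ') = f χ + f χ' := fun χ χ' =>
    classOf_add_of_isDesc (hex χ).choose_spec (hex χ').choose_spec (hex (χ + χ')).choose_spec
  let κ₀ : X →+ Jp N p := AddMonoidHom.mk' f hadd
  refine ⟨κ₀.toZModLinearMap p, ?_, ?_⟩
  · show Function.Injective κ₀
    rw [injective_iff_map_eq_zero]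
    intro χ hχ0
    exact Subtype.ext (eq_zero_of_isDesc (hadm χ χ.2) (hex χ).choose_spec hχ0)
  · intro ℓ _ _ hℓN χ
    exact hecke_of_isDesc hB5 ℓ hℓN (hadm χ χ.2) (hadm _ (hX ℓ hℓN χ χ.2)) (hex χ).choose_spec
      (hex (restrT (Fermat.Agent.S16.LB.famT N ℓ hℓN) X (hX ℓ hℓN) χ)).choose_spec

/-- **B9 relative to B3 and B5.** -/
theorem exists_eigenvector_of (hB3 : PDivStatement) (hB5 : HeckeStatement)
    (g : CuspForm (Gamma0 N) 2) (hg : g.IsNormalizedEigenform) (k₀ : Type) [Field k₀]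
    [CharP k₀ p] [Algebra (ZMod p) k₀] (φ : Zbar →+* k₀) :
    ∃ a : ℕ → Zbar,
      (∀ ℓ : ℕ, ℓ.Prime → ¬ ℓ ∣ N → ((a ℓ : Zbar) : ℂ) = ModularFormClass.qCoeff g ℓ) ∧
      ∃ v : k₀ ⊗[ZMod p] Jp N p, v ≠ 0 ∧
        ∀ (ℓ : ℕ) [NeZero ℓ], ℓ.Prime → ¬ ℓ ∣ N →
          (heckeJp N p ℓ).baseChange k₀ v = φ (a ℓ) • v := by
  obtain ⟨a, ha, X, hadm, hX, c, hc, hev⟩ := Period.exists_eigenchar N g hg p k₀ φ
  obtain ⟨κ, hκinj, hκT⟩ := exists_kappa N p hB3 hB5 X hadm hX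
  refine ⟨a, ha, κ.baseChange k₀ c, ?_, ?_⟩
  · intro h0
    apply hc
    have hinj : Function.Injective (κ.lTensor k₀) :=
      Module.Flat.lTensor_preserves_injective_linearMap κ hκinj
    exact hinj (h0.trans (map_zero _).symm)
  · intro ℓ _ hℓ hℓN
    haveI : Fact ℓ.Prime := ⟨hℓ⟩
    have h1 : (heckeJp N p ℓ) ∘ₗ κ
        = κ ∘ₗ restrT (Fermat.Agent.S16.LB.famT N ℓ hℓN) X (hX ℓ hℓN) :=
      LinearMap.ext (fun χ => hκT ℓ hℓN χ)
    have h2 : (heckeJp N p ℓ).baseChange k₀ (κ.baseChange k₀ c)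
        = ((heckeJp N p ℓ) ∘ₗ κ).baseChange k₀ c := by
      rw [LinearMap.baseChange_comp]; rfl
    rw [h2, h1, LinearMap.baseChange_comp, LinearMap.comp_apply, hev ℓ hℓN, map_smul]

end Kappa

end Fermat.Agent.S29.BridgeAux
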