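import Mathlib
import Fermat.Agent.S29_DescStab
import Fermat.Agent.S29_DescDer

/-!
# S29, descent (B6b): the coefficientwise derivations preserve the valuation rings of `X₀(N)/ℂ`
-/

set_option autoImplicit false

noncomputable section

open AlgebraicCurve ModularCurve

namespace Fermat.Agent.S29.DescStab

open Fermat.Agent.S29 Fermat.Agent.S29.DescDer

local notation "Qbar" => AlgebraicClosure ℚ

attribute [local instance] algQC

variable {N : ℕ} [NeZero N]

theorem isDer_dhat (δ : Derivation Qbar ℂ ℂ) : IsDer ℂ (fun f : FC N => dhat δ f) where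
  map_add f g := map_add (dhat δ) f g
  map_mul f g := by
    show dhat δ (f * g) = f * dhat δ g + g * dhat δ f
    rw [dhat_mul]
    ring
  map_const c := ⟨δ c, dhat_algebraMap δ c⟩

theorem dhat_jGen (δ : Derivation Qbar ℂ ℂ) :
    dhat δ (Fermat.Agent.S24.Tower.jGen ℂ N) = 0 :=
  Subtype.ext (dL_coeffEmb δ _)

/-- **(B6b)** `dhat δ` preserves the valuation ring of every place of `X₀(N)` over `ℂ`. -/
theorem stab_nonneg (δ : Derivation Qbar ℂ ℂ) (v : Place ℂ (FC N)) (f : FC N)
    (hf : 0 ≤ v.ord f) : 0 ≤ v.ord (dhat δ f) :=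
  stab_of_isDer N (isDer_dhat δ) (dhat_jGen δ) v f hf

/-- the same, in the shape of the interface. -/
theorem stab (δ : Derivation Qbar ℂ ℂ) (v : Place ℂ (FC N)) (f : FC N) (hf : 0 ≤ v.ord f) :
    dhat δ f = 0 ∨ 0 ≤ v.ord (dhat δ f) :=
  Or.inr (stab_nonneg δ v f hf)

/-- membership form. -/
theorem dhat_mem (δ : Derivation Qbar ℂ ℂ) (v : Place ℂ (FC N)) (f : FC N)
    (hf : f ∈ v.toValuationSubring) : dhat δ f ∈ v.toValuationSubring :=
  mem_of_isDer N (isDer_dhat δ) (dhat_jGen δ) v f hf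

end Fermat.Agent.S29.DescStab
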