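import Fermat.Agent.S37_Top
import Fermat.Prelude.Thm_ModularCurve_coeffMap_qExpand

/-!
# S29 (moonshot), input from S37: Eichler–Shimura on torsion, without commutativity hypotheses

For a prime `ℓ ∤ N`, a valuation subring `A` of `ℚ̄` over `ℓ` and `x ∈ J₀(N)[m]` with `ℓ ∤ m`:

* `inertia_smul_eq`: inertia at `A` fixes `x`;
* `hecke_frobenius`: `T_ℓ (σ • x) = σ • σ • x + ℓ • x` for every Frobenius lift `σ` at `A`
  (`T_ℓ = heckeOperatorAlong ℚ̄ N ℓ`).

Both come from the reduction datum of `S37_Top` (which does not need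
`HeckeOperatorsCommuteBar`): `exists_red`.
-/

set_option autoImplicit false
set_option linter.style.haveILetI false
set_option linter.unusedSectionVars false

noncomputable section

open ModularCurve AlgebraicCurve

namespace Fermat.Agent.S29.ESTors

local notation "Qbar" => AlgebraicClosure ℚ

/-- **the reduction datum at `ℓ ∤ N`**, free of any commutativity hypothesis. -/
theorem exists_red (N ℓ : ℕ) [NeZero N] [NeZero ℓ] (hℓ : ℓ.Prime) (hℓN : ¬ ℓ ∣ N)
    (A : ValuationSubring Qbar) (hA : A.LiesOverPrime ℓ) :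
    ∃ (M : Type) (_ : AddCommGroup M) (red : JZero N →+ M) (Φ Ψ : M →+ M),
      (∀ m, Φ (Ψ m) = m) ∧ (∀ m, Ψ (Φ m) = m) ∧
      (∀ m : ℕ, ¬ ℓ ∣ m → ∀ x : JZero N, m • x = 0 → red x = 0 → x = 0) ∧
      (∀ σ ∈ A.inertiaSubgroupIn ℚ, ∀ y : JZero N, red (σ • y) = red y) ∧
      (∀ σ : Qbar ≃ₐ[ℚ] Qbar, A.IsFrobeniusAt σ ℓ → ∀ y : JZero N, red (σ • y) = Φ (red y)) ∧
      (∀ z : JZero N, red (heckeOperatorAlong Qbar N ℓ z) = Φ (red z) + ℓ • Ψ (red z)) := by
  haveI : Fact ℓ.Prime := ⟨hℓ⟩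
  obtain ⟨M, hM, hNM, hℓM, ⟨r, hr⟩, hpack, hcop⟩ := Fermat.Agent.S37.Top.exists_level N ℓ hℓN A hA
  have H : Fermat.Agent.S37.RedSpec.Hyp A (modularFunctionFieldBar M) :=
    Fermat.Agent.S37.Top.hyp_bar M ℓ hℓM A hA
  haveI : CharP (IsLocalRing.ResidueField A) ℓ := Fermat.Agent.S18.ValRing.charP_residueField A hA
  refine ⟨Pic0 (IsLocalRing.ResidueField A) (Fermat.Agent.S37.specialField A (modularFunctionFieldBar M)),
    inferInstance,
    (Fermat.Agent.S37.RedSpec.redSpec r H hr).comp (Fermat.Agent.S37.Level.piStar hNM),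
    DistribSMul.toAddMonoidHom _ (Fermat.Agent.S37.Gal.frobSpec M A ℓ hℓM hA),
    DistribSMul.toAddMonoidHom _ (Fermat.Agent.S37.Gal.frobSpec M A ℓ hℓM hA)⁻¹,
    fun m => smul_inv_smul (Fermat.Agent.S37.Gal.frobSpec M A ℓ hℓM hA) m,
    fun m => inv_smul_smul (Fermat.Agent.S37.Gal.frobSpec M A ℓ hℓM hA) m, ?_, ?_, ?_, ?_⟩
  · intro m hℓm x hn hx
    have hx' : Fermat.Agent.S37.RedSpec.redSpec r H hr (Fermat.Agent.S37.Level.piStar hNM x) = 0 := hx
    have h1 : m • Fermat.Agent.S37.Level.piStar hNM x = 0 := by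
      rw [← map_nsmul, hn, map_zero]
    have hmk : ((m : ℕ) : IsLocalRing.ResidueField A) ≠ 0 := by
      rw [Ne, CharP.cast_eq_zero_iff (IsLocalRing.ResidueField A) ℓ]
      exact hℓm
    have h2 : Fermat.Agent.S37.Level.piStar hNM x = 0 :=
      Fermat.Agent.S37.RedSpec.redSpec_torsion_injective r H hr hpack
        (Fermat.Agent.S37.SpecFinal.curveHyp'_bar M ℓ hℓM A hA).const_of_ord_eq_zero m hmk
        (Fermat.Agent.S37.Level.piStar hNM x) h1 hx'
    exact Fermat.Agent.S37.Level.piStar_inj_of_coprime hNM m (hcop m hℓm) x hn h2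
  · intro σ hσ y
    show Fermat.Agent.S37.RedSpec.redSpec r H hr (Fermat.Agent.S37.Level.piStar hNM (σ • y))
      = Fermat.Agent.S37.RedSpec.redSpec r H hr (Fermat.Agent.S37.Level.piStar hNM y)
    rw [Fermat.Agent.S37.Level.piStar_smul]
    exact Fermat.Agent.S37.Gal.red_inertia A ℓ hℓM hA hr _
      (Fermat.Agent.S37.RedSpec.redSpec_mk' r H hr) σ hσ _
  · intro σ hσ y
    show Fermat.Agent.S37.RedSpec.redSpec r H hr (Fermat.Agent.S37.Level.piStar hNM (σ • y))
      = Fermat.Agent.S37.Gal.frobSpec M A ℓ hℓM hA •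
          Fermat.Agent.S37.RedSpec.redSpec r H hr (Fermat.Agent.S37.Level.piStar hNM y)
    rw [Fermat.Agent.S37.Level.piStar_smul]
    exact Fermat.Agent.S37.Gal.red_frobenius A ℓ hℓM hA hr _
      (Fermat.Agent.S37.RedSpec.redSpec_mk' r H hr) σ hσ _
  · intro z
    exact Fermat.Agent.S37.Top.hES N M ℓ hNM hℓN hℓM A hA r H hr z

/-- **inertia at `ℓ ∤ N` acts trivially on the torsion of `J₀(N)` prime to `ℓ`.** -/
theorem inertia_smul_eq (N ℓ : ℕ) [NeZero N] (hℓ : ℓ.Prime) (hℓN : ¬ ℓ ∣ N)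
    (A : ValuationSubring Qbar) (hA : A.LiesOverPrime ℓ)
    (σ : Qbar ≃ₐ[ℚ] Qbar) (hσ : σ ∈ A.inertiaSubgroupIn ℚ)
    (m : ℕ) (hℓm : ¬ ℓ ∣ m) (x : JZero N) (hx : m • x = 0) : σ • x = x := by
  haveI : NeZero ℓ := ⟨hℓ.ne_zero⟩
  obtain ⟨M, _, red, Φ, Ψ, -, -, htors, hinert, -, -⟩ := exists_red N ℓ hℓ hℓN A hA
  have hf : ∀ y : JZero N, σ • y = DistribSMul.toAddMonoidHom (JZero N) σ y := fun _ => rfl
  have h1 : m • (σ • x - x) = 0 := by
    rw [nsmul_sub, hf, ← map_nsmul, hx, map_zero, sub_zero]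
  have h2 : red (σ • x - x) = 0 := by
    rw [map_sub, hinert σ hσ, sub_self]
  exact sub_eq_zero.mp (htors m hℓm _ h1 h2)

/-- **Eichler–Shimura on torsion**: `T_ℓ (σ x) = σ² x + ℓ x` for every Frobenius lift `σ` at
`ℓ ∤ N` and every torsion point `x` of order prime to `ℓ`. -/
theorem hecke_frobenius (N ℓ : ℕ) [NeZero N] [NeZero ℓ] (hℓ : ℓ.Prime) (hℓN : ¬ ℓ ∣ N)
    (A : ValuationSubring Qbar) (hA : A.LiesOverPrime ℓ)
    (σ : Qbar ≃ₐ[ℚ] Qbar) (hσ : A.IsFrobeniusAt σ ℓ)
    (m : ℕ) (hℓm : ¬ ℓ ∣ m) (x : JZero N) (hx : m • x = 0) :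
    heckeOperatorAlong Qbar N ℓ (σ • x) = σ • σ • x + ℓ • x := by
  obtain ⟨M, _, red, Φ, Ψ, -, hΨΦ, htors, -, hfrob, hES⟩ := exists_red N ℓ hℓ hℓN A hA
  have hf : ∀ y : JZero N, σ • y = DistribSMul.toAddMonoidHom (JZero N) σ y := fun _ => rfl
  have hx1 : m • (σ • x) = 0 := by rw [hf, ← map_nsmul, hx, map_zero]
  have hx2 : m • (σ • σ • x) = 0 := by rw [hf (σ • x), ← map_nsmul, hx1, map_zero]
  have hx3 : m • (ℓ • x) = 0 := by rw [nsmul_left_comm, hx, nsmul_zero]
  have h1 : m • (heckeOperatorAlong Qbar N ℓ (σ • x) - (σ • σ • x + ℓ • x)) = 0 := by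
    rw [nsmul_sub, ← map_nsmul, hx1, map_zero, nsmul_add, hx2, hx3, add_zero, sub_zero]
  have h2 : red (heckeOperatorAlong Qbar N ℓ (σ • x) - (σ • σ • x + ℓ • x)) = 0 := by
    rw [map_sub, hES, map_add, hfrob σ hσ, hfrob σ hσ, hfrob σ hσ, map_nsmul, hΨΦ, sub_self]
  exact sub_eq_zero.mp (htors m hℓm _ h1 h2)

/-! ### the Hecke correspondence commutes with the Galois action -/

section Generic

variable {K F F' : Type*} [Field K] [Field F] [Field F'] [Algebra K F] [Algebra K F']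

/-- the inertia degree along an embedding is one when all places have degree one. -/
theorem inertiaDegAlong_eq_one (φ : F →ₐ[K] F') (hφ : φ.toRingHom.IsIntegral)
    (hF : ∀ v : Place K F, v.deg = 1) (hF' : ∀ w : Place K F', w.deg = 1) (w : Place K F') :
    w.inertiaDegAlong φ hφ = 1 := by
  letI := algebraAlong φ
  haveI := isScalarTower_along φ
  haveI := isIntegral_along φ hφ
  have h := w.deg_restrict_mul_inertiaDeg (F := F)
  rw [hF, hF', one_mul] at h
  exact h

/-- the pushforward of divisors along an embedding commutes with intertwined semilinear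
automorphisms (all places of degree one). -/
theorem pushforwardAlong_smul (φ : F →ₐ[K] F') (hφ : φ.toRingHom.IsIntegral)
    (hdeg : ∀ w : Place K F', w.inertiaDegAlong φ hφ = 1)
    (g : SemilinearAut K F) (g' : SemilinearAut K F')
    (h : SemilinearAut.IntertwinesAlong (φ : F →+* F') g g') (D : Divisor K F') :
    Divisor.pushforwardAlong φ hφ (g' • D) = g • Divisor.pushforwardAlong φ hφ D := by
  induction D using Finsupp.induction_linear with
  | zero => rw [smul_zero, map_zero, smul_zero]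
  | add D₁ D₂ h₁ h₂ => rw [smul_add, map_add, map_add, smul_add, h₁, h₂]
  | single w n =>
    rw [SemilinearAut.smul_single, Divisor.pushforwardAlong_single,
      Divisor.pushforwardAlong_single, SemilinearAut.smul_single, hdeg, hdeg,
      Fermat.Agent.S37.Level.restrictAlong_smul φ hφ g g' h w]

end Generic

section Modular

variable (N ℓ : ℕ) [NeZero N] [NeZero ℓ]

/-- the Galois actions at levels `N` and `N ℓ` are intertwined by `α` (`f ↦ f`). -/
theorem intertwines_alpha (σ : Qbar ≃ₐ[ℚ] Qbar) :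
    SemilinearAut.IntertwinesAlong
      ((heckeAlphaBar Qbar N ℓ : modularFunctionFieldBar N →ₐ[Qbar]
          modularFunctionFieldBar (N * ℓ)) :
        modularFunctionFieldBar N →+* modularFunctionFieldBar (N * ℓ))
      (arithmeticGalois (modularFunctionFieldFull N) σ)
      (arithmeticGalois (modularFunctionFieldFull (N * ℓ)) σ) := by
  intro x
  apply Subtype.ext
  rw [coe_arithmeticGalois_smul, AlgHom.coe_toRingHom, coe_heckeAlphaBar, coe_heckeAlphaBar,
    coe_arithmeticGalois_smul]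

/-- the Galois actions at levels `N` and `N ℓ` are intertwined by `β` (`f(q) ↦ f(q^ℓ)`). -/
theorem intertwines_beta (σ : Qbar ≃ₐ[ℚ] Qbar) :
    SemilinearAut.IntertwinesAlong
      ((heckeBetaBar Qbar N ℓ : modularFunctionFieldBar N →ₐ[Qbar]
          modularFunctionFieldBar (N * ℓ)) :
        modularFunctionFieldBar N →+* modularFunctionFieldBar (N * ℓ))
      (arithmeticGalois (modularFunctionFieldFull N) σ)
      (arithmeticGalois (modularFunctionFieldFull (N * ℓ)) σ) := by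
  intro x
  apply Subtype.ext
  rw [coe_arithmeticGalois_smul, AlgHom.coe_toRingHom, coe_heckeBetaBar, coe_heckeBetaBar,
    coe_arithmeticGalois_smul, ModularCurve.coeffMap_qExpand]

/-- **the Hecke operator `T_ℓ` on `J₀(N)` commutes with the Galois action** (every `N`, `ℓ`). -/
theorem heckeOperatorAlong_smul (σ : Qbar ≃ₐ[ℚ] Qbar) (x : JZero N) :
    heckeOperatorAlong Qbar N ℓ (σ • x) = σ • heckeOperatorAlong Qbar N ℓ x := by
  haveI := Fermat.Agent.S37.HeckeInputs.hasPrincipalDivisors_level N ℓ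
  rw [Fermat.Agent.S37.HeckeInputs.heckeOperatorAlong_eq_heckePic0Bar]
  obtain ⟨D, rfl⟩ := Pic0.mk_surjective x
  rw [galois_smul_pic0_def, galois_smul_pic0_def, SemilinearAut.pic0_smul_mk]
  unfold heckePic0Bar
  rw [Pic0.correspondence_mk, Pic0.correspondence_mk, SemilinearAut.pic0_smul_mk]
  refine congrArg Pic0.mk (Subtype.ext ?_)
  rw [Pic0.coe_degZeroCorrespondence, SemilinearAut.coe_degZeroSMulHom,
    SemilinearAut.coe_degZeroSMulHom, Pic0.coe_degZeroCorrespondence,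
    Divisor.correspondence_apply, Divisor.correspondence_apply,
    Fermat.Agent.S37.Level.pullbackAlong_smul (heckeBetaBar Qbar N ℓ)
      (Fermat.Agent.S37.HeckeInputs.heckeBetaBarIntegral N ℓ)
      (arithmeticGalois (modularFunctionFieldFull N) σ)
      (arithmeticGalois (modularFunctionFieldFull (N * ℓ)) σ) (intertwines_beta N ℓ σ),
    pushforwardAlong_smul (heckeAlphaBar Qbar N ℓ)
      (Fermat.Agent.S37.HeckeInputs.heckeAlphaBarIntegral N ℓ)
      (inertiaDegAlong_eq_one _ _ (Fermat.Agent.S37.Gal.deg_eq_one_bar N)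
        (Fermat.Agent.S37.Gal.deg_eq_one_bar (N * ℓ)))
      (arithmeticGalois (modularFunctionFieldFull N) σ)
      (arithmeticGalois (modularFunctionFieldFull (N * ℓ)) σ) (intertwines_alpha N ℓ σ)]

end Modular

end Fermat.Agent.S29.ESTors
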