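import Mathlib
import Fermat.Prelude.Def_FreyPackage_EigenformResidualAttachment
import Fermat.Prelude.Def_GaloisRep_Residual
import Fermat.Agent.S13_Transfer
import Fermat.Agent.S13_FreyW

/-!
# S42 from S29

`s42_of`: the statement of S29 (residual Galois representations attached to normalised
eigenforms) implies the statement of S42 (`FreyPackage.EigenformResidualAttachmentAt` at every
level): take `k = ℤ̄ ⧸ 𝔪`, read trace and determinant off the characteristic polynomial, and take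
for `F` the normal closure of the compositum of a finite level of `ρ` and of the field of
definition of the `p`-torsion of the Frey curve.
-/

set_option autoImplicit false

open WeierstrassCurve WeierstrassCurve.Affine WeierstrassCurve.Affine.Point Polynomial

namespace Fermat.Agent.S29.ForS42

local notation "Qbar" => AlgebraicClosure ℚ
local notation "Zbar" => integralClosure ℤ ℂ

theorem trace_det_of_charpoly {k V : Type*} [Field k] [AddCommGroup V] [Module k V]
    [Module.Finite k V] (h2 : Module.finrank k V = 2) (f : Module.End k V) (t d : k)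
    (hf : LinearMap.charpoly f = X ^ 2 - C t * X + C d) :
    LinearMap.trace k V f = t ∧ LinearMap.det f = d := by
  let b : Module.Basis (Fin 2) k V := Module.finBasisOfFinrankEq k V h2
  have hc : (LinearMap.toMatrix b b f).charpoly = X ^ 2 - C t * X + C d := by
    rw [LinearMap.charpoly_toMatrix]; exact hf
  constructor
  · rw [LinearMap.trace_eq_matrix_trace k b, Matrix.trace_eq_neg_charpoly_coeff, hc]
    simp [Polynomial.coeff_X_pow, Polynomial.coeff_X, Polynomial.coeff_C]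
  · rw [← LinearMap.det_toMatrix b, Matrix.det_eq_sign_charpoly_coeff, hc]
    simp [Polynomial.coeff_X_pow, Polynomial.coeff_X, Polynomial.coeff_C]

theorem smul_eq_self (W : WeierstrassCurve ℚ) (σ : Qbar ≃ₐ[ℚ] Qbar) (P : (W⁄Qbar).Point)
    (hx : σ (S13.Transfer.cx W P) = S13.Transfer.cx W P)
    (hy : σ (S13.Transfer.cy W P) = S13.Transfer.cy W P) : σ • P = P := by
  rw [algEquiv_smul_def]
  rcases P with _ | ⟨x, y, h⟩
  · rfl
  · show Point.some _ _ _ = Point.some _ _ _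
    simp only [Point.some.injEq]
    exact ⟨hx, hy⟩

theorem s42_of
    (h29 : ∀ {N : ℕ} {g : CuspForm (CongruenceSubgroup.Gamma0 N) 2} (_ : g.IsNormalizedEigenform)
      {p : ℕ} (_ : p.Prime) {k : Type} [Field k] [CharP k p] (φ : Zbar →+* k),
      ∃ ρ : ResidualGaloisRep k, ρ.IsAttachedTo g φ ∧
        ∀ ℓ : ℕ, ℓ.Prime → ¬ ℓ ∣ N * p → ρ.IsUnramifiedAt ℓ)
    (P : FreyPackage) : ∀ M : ℕ, 0 < M → P.EigenformResidualAttachmentAt M := by
  intro M _ g hg 𝔪 h𝔪 hp𝔪
  haveI := h𝔪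
  letI : Field (Zbar ⧸ 𝔪) := Ideal.Quotient.field 𝔪
  haveI : CharP (Zbar ⧸ 𝔪) P.p := by
    rw [CharP.charP_iff_prime_eq_zero P.pp]
    have h1 : ((P.p : ℕ) : Zbar ⧸ 𝔪) = Ideal.Quotient.mk 𝔪 (P.p : Zbar) := (map_natCast _ _).symm
    rw [h1]
    exact Ideal.Quotient.eq_zero_iff_mem.mpr hp𝔪
  obtain ⟨ρ, hatt, -⟩ := h29 hg P.pp (Ideal.Quotient.mk 𝔪)
  obtain ⟨L₂, hL₂fin, hL₂⟩ := ρ.factorsThroughFiniteLevel
  haveI : Finite (Submodule.torsionBy ℤ (P.freyCurve⁄Qbar).Point P.p) := by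
    apply Nat.finite_of_card_ne_zero
    rw [S13.FreyW.card_torsion_frey P]
    exact pow_ne_zero 2 P.hp0
  obtain ⟨L₁, hL₁fin, -, hL₁⟩ := S13.Transfer.exists_field P.freyCurve P.p
  haveI := hL₁fin
  haveI := hL₂fin
  haveI : FiniteDimensional ℚ ↥(L₁ ⊔ L₂) := IntermediateField.finiteDimensional_sup L₁ L₂
  have hIAC : IsAlgClosure ℚ Qbar := ⟨inferInstance, AlgebraicClosure.isAlgebraic ℚ⟩
  have hNQ : Normal ℚ Qbar := IsAlgClosure.normal ℚ Qbar
  let F' : IntermediateField ℚ Qbar := IntermediateField.normalClosure ℚ ↥(L₁ ⊔ L₂) Qbar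
  have hle : L₁ ⊔ L₂ ≤ F' := IntermediateField.le_normalClosure _
  haveI : FiniteDimensional ℚ ↥F' := normalClosure.is_finiteDimensional ℚ ↥(L₁ ⊔ L₂) Qbar
  haveI : Normal ℚ ↥F' := normalClosure.normal ℚ ↥(L₁ ⊔ L₂) Qbar
  haveI : NumberField ↥F' := { to_charZero := inferInstance, to_finiteDimensional := inferInstance }
  haveI : IsGalois ℚ ↥F' := { }
  refine ⟨Zbar ⧸ 𝔪, inferInstance, ZMod.algebra _ P.p, ρ.V, inferInstance, inferInstance, ρ.ρ,
    Ideal.Quotient.mk 𝔪, ↥F', inferInstance, inferInstance, inferInstance, inferInstance,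
    inferInstance, ?_, ρ.finrank_eq, ?_, ?_, ?_⟩
  · rw [Ideal.mk_ker]
  · intro σ hσ
    have hfix : ∀ x ∈ F', σ x = x := by
      intro x hx
      have h1 : σ.restrictNormal ↥F' = 1 := hσ
      have h2 := AlgEquiv.restrictNormal_commutes σ ↥F' ⟨x, hx⟩
      rw [h1] at h2
      exact h2.symm
    refine ⟨?_, ?_⟩
    · show galoisRepModuleEnd (S := ℚ) (K := Qbar) P.freyCurve P.p σ = 1
      apply LinearMap.ext
      intro x
      rw [galoisRepModuleEnd_apply]
      apply Subtype.ext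
      have hx : ((P.p : ℕ) : ℤ) • (x : (P.freyCurve⁄Qbar).Point) = 0 :=
        (Submodule.mem_torsionBy_iff _ _).mp x.2
      obtain ⟨h1, h2⟩ := hL₁ x hx
      exact smul_eq_self P.freyCurve σ x (hfix _ (hle (le_sup_left (b := L₂) h1)))
        (hfix _ (hle (le_sup_left (b := L₂) h2)))
    · exact hL₂ σ (fun x hx => hfix x (hle (le_sup_right (a := L₁) hx)))
  · intro ℓ hℓ hℓM hℓp A hA τ hτ
    have hℓk : ((ℓ : ℕ) : Zbar ⧸ 𝔪) ≠ 0 := by
      intro h0
      have h3 := (CharP.cast_eq_zero_iff (Zbar ⧸ 𝔪) P.p ℓ).mp h0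
      exact hℓp ((Nat.prime_dvd_prime_iff_eq P.pp hℓ).mp h3).symm
    obtain ⟨a, ha, hcp⟩ := hatt ℓ hℓ hℓM hℓk A hA τ hτ
    exact ⟨a, ha, (trace_det_of_charpoly ρ.finrank_eq _ _ _ hcp).1⟩
  · intro ℓ hℓ hℓM hℓp A hA τ hτ
    have hℓk : ((ℓ : ℕ) : Zbar ⧸ 𝔪) ≠ 0 := by
      intro h0
      have h3 := (CharP.cast_eq_zero_iff (Zbar ⧸ 𝔪) P.p ℓ).mp h0
      exact hℓp ((Nat.prime_dvd_prime_iff_eq P.pp hℓ).mp h3).symm
    obtain ⟨a, ha, hcp⟩ := hatt ℓ hℓ hℓM hℓk A hA τ hτ
    exact (trace_det_of_charpoly ρ.finrank_eq _ _ _ hcp).2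

end Fermat.Agent.S29.ForS42
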