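import Mathlib
import Fermat.Agent.S24_QLaurent

/-!
# S29, Kummer functions: the local lemma at the cusps

For two holomorphic functions `f₁, f₂` on `ℍ`, bounded at `i∞` and invariant under `τ ↦ τ + k`
(`k ∣ N`, `N = k m`), and two functions `a, b` with `q_N`-expansions `sa, sb` such that
`a f₂^p = b f₁^p`, the difference of the orders of `sa` and `sb` is divisible by `p m`
(`cusp_dvd`).
-/

set_option autoImplicit false

noncomputable section

open UpperHalfPlane Filter Topology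
open scoped MatrixGroups Manifold

namespace Fermat.Agent.S29.KumCusp

open Fermat.Agent.S24 Fermat.Agent.S24.QLaurent

variable {N : ℕ} [NeZero N]

/-- invariance under `τ ↦ τ + h` gives periodicity of `f ∘ ofComplex`. -/
theorem periodic_of_vadd {f : ℍ → ℂ} (h : ℝ) (hper : ∀ τ : ℍ, f (h +ᵥ τ) = f τ) :
    Function.Periodic (f ∘ ofComplex) h := by
  intro w
  by_cases hw : 0 < w.im
  · have hw' : 0 < (w + (h : ℂ)).im := by simpa using hw
    rw [Function.comp_apply, Function.comp_apply, ofComplex_apply_of_im_pos hw',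
      ofComplex_apply_of_im_pos hw]
    rw [← hper ⟨w, hw⟩]
    refine congrArg _ (UpperHalfPlane.ext ?_)
    simp [add_comm]
  · have hw0 : w.im ≤ 0 := not_lt.mp hw
    have hw' : (w + (h : ℂ)).im ≤ 0 := by simpa using hw0
    rw [Function.comp_apply, Function.comp_apply, ofComplex_apply_of_im_nonpos hw',
      ofComplex_apply_of_im_nonpos hw0]

/-- a holomorphic function bounded at `i∞` and `N`-periodic has a power series expansion in
`q_N`. -/
theorem exists_hasLaurentExp {f : ℍ → ℂ} (hf : MDiff f) (hb : IsBoundedAtImInfty f)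
    (hper : ∀ τ : ℍ, f (((N : ℕ) : ℝ) +ᵥ τ) = f τ) :
    ∃ s : LaurentSeries ℂ, HasLaurentExp N f s ∧ ∀ n : ℤ, n < 0 → s.coeff n = 0 := by
  have hpos : (0 : ℝ) < (N : ℝ) := Nat.cast_pos.mpr (NeZero.pos N)
  have hP := periodic_of_vadd (N : ℝ) hper
  refine ⟨HahnSeries.ofPowerSeries ℤ ℂ (qExpansion (N : ℝ) f), ?_, ?_⟩
  · refine hasLaurentExp_of_hasSum (M := 0) ?_ ?_
    · intro n hn
      rw [Nat.cast_zero, neg_zero] at hn
      have := PowerSeries.coeff_coe (f := qExpansion (N : ℝ) f) n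
      rw [if_pos hn] at this
      exact this
    · intro τ
      have h1 := hasSum_qExpansion hpos hP hf hb τ
      simp only [Nat.cast_zero, sub_zero, pow_zero, one_mul]
      have hfun : (fun n : ℕ => (HahnSeries.ofPowerSeries ℤ ℂ (qExpansion (N : ℝ) f)).coeff (n : ℤ)
            * qN N τ ^ n)
          = fun m : ℕ => (qExpansion (N : ℝ) f).coeff m • Function.Periodic.qParam (N : ℝ) ↑τ ^ m := by
        funext n
        rw [smul_eq_mul]
        congr 1
        exact LaurentSeries.coeff_coe_powerSeries _ n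
      rw [hfun]
      exact h1
  · intro n hn
    have := PowerSeries.coeff_coe (f := qExpansion (N : ℝ) f) n
    rw [if_pos hn] at this
    exact this

/-- the expansion of a `T^k`-invariant function only involves exponents `j` with `N ∣ k j`. -/
theorem dvd_of_coeff_ne_zero {f : ℍ → ℂ} {s : LaurentSeries ℂ} (hf : HasLaurentExp N f s) (k : ℤ)
    (hper : ∀ τ : ℍ, f (ModularGroup.T ^ k • τ) = f τ) (j : ℤ) (hj : s.coeff j ≠ 0) :
    (N : ℤ) ∣ k * j := by
  have h1 := HasLaurentExp.comp_T_zpow hf k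
  have h2 : (fun τ => f (ModularGroup.T ^ k • τ)) = f := funext hper
  rw [h2] at h1
  have h3 := HasLaurentExp.unique h1 hf
  have h4 : (substSeries 1 (Complex.exp (2 * Real.pi * Complex.I * k / N)) s).coeff j
      = s.coeff j := by rw [h3]
  rw [substSeries_coeff, if_pos (by simp), Nat.cast_one, Int.ediv_one] at h4
  have h5 : Complex.exp (2 * Real.pi * Complex.I * k / N) ^ j = 1 :=
    mul_left_cancel₀ hj (h4.trans (mul_one _).symm)
  rw [← Complex.exp_int_mul, Complex.exp_eq_one_iff] at h5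
  obtain ⟨n, hn⟩ := h5
  have hN : (N : ℂ) ≠ 0 := Nat.cast_ne_zero.mpr (NeZero.ne N)
  have hpi : (2 * (Real.pi : ℂ) * Complex.I) ≠ 0 := Complex.two_pi_I_ne_zero
  have h6 : (k : ℂ) * j = N * n := by
    have h7 : (j : ℂ) * (2 * Real.pi * Complex.I * k / N) * N
        = (n : ℂ) * (2 * Real.pi * Complex.I) * N := by rw [hn]
    have h8 : (2 * (Real.pi : ℂ) * Complex.I) * ((k : ℂ) * j)
        = (2 * (Real.pi : ℂ) * Complex.I) * (N * n) := by
      have h9 : (j : ℂ) * (2 * Real.pi * Complex.I * k / N) * N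
          = (2 * (Real.pi : ℂ) * Complex.I) * ((k : ℂ) * j) := by
        field_simp
      rw [← h9, h7]
      ring
    exact mul_left_cancel₀ hpi h8
  exact ⟨n, by exact_mod_cast h6⟩

theorem HasLaurentExp.pow' {f : ℍ → ℂ} {s : LaurentSeries ℂ} (hf : HasLaurentExp N f s) (p : ℕ) :
    HasLaurentExp N (f ^ p) (s ^ p) := by
  induction p with
  | zero =>
      rw [pow_zero, pow_zero]
      have := hasLaurentExp_const (N := N) 1
      rw [map_one] at this
      exact this
  | succ p ih =>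
      rw [pow_succ, pow_succ]
      exact HasLaurentExp.mul ih hf

/-- **The cusp lemma.** -/
theorem cusp_dvd (k m p : ℕ) (hkm : k * m = N) {f₁ f₂ a b : ℍ → ℂ} {sa sb : LaurentSeries ℂ}
    (h₁ : MDiff f₁) (h₂ : MDiff f₂) (hb₁ : IsBoundedAtImInfty f₁) (hb₂ : IsBoundedAtImInfty f₂)
    (hne₁ : f₁ ≠ 0) (hne₂ : f₂ ≠ 0)
    (hper₁ : ∀ τ : ℍ, f₁ (ModularGroup.T ^ (k : ℤ) • τ) = f₁ τ)
    (hper₂ : ∀ τ : ℍ, f₂ (ModularGroup.T ^ (k : ℤ) • τ) = f₂ τ)
    (ha : HasLaurentExp N a sa) (hb : HasLaurentExp N b sb) (ha0 : sa ≠ 0) (hb0 : sb ≠ 0)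
    (hrel : ∀ τ, a τ * f₂ τ ^ p = b τ * f₁ τ ^ p) :
    ((p * m : ℕ) : ℤ) ∣ sa.order - sb.order := by
  have hk0 : k ≠ 0 := by
    rintro rfl
    rw [zero_mul] at hkm
    exact NeZero.ne N hkm.symm
  -- `N`-periodicity
  have hperN : ∀ (f : ℍ → ℂ), (∀ τ : ℍ, f (ModularGroup.T ^ (k : ℤ) • τ) = f τ) →
      ∀ τ : ℍ, f (((N : ℕ) : ℝ) +ᵥ τ) = f τ := by
    intro f hf τ
    have hpow : ∀ (j : ℕ) (τ : ℍ), f (ModularGroup.T ^ ((k * j : ℕ) : ℤ) • τ) = f τ := by
      intro j
      induction j with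
      | zero => intro τ; simp
      | succ j ih =>
          intro τ
          have : ModularGroup.T ^ ((k * (j + 1) : ℕ) : ℤ)
              = ModularGroup.T ^ ((k : ℕ) : ℤ) * ModularGroup.T ^ ((k * j : ℕ) : ℤ) := by
            rw [← zpow_add]
            congr 1
            push_cast
            ring
          rw [this, mul_smul, hf, ih]
    have h := hpow m τ
    rw [hkm, UpperHalfPlane.modular_T_zpow_smul] at h
    rw [← h]
    congr 1
  obtain ⟨s₁, hs₁, -⟩ := exists_hasLaurentExp h₁ hb₁ (hperN f₁ hper₁)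
  obtain ⟨s₂, hs₂, -⟩ := exists_hasLaurentExp h₂ hb₂ (hperN f₂ hper₂)
  have hs₁0 : s₁ ≠ 0 := fun h0 => hne₁ ((HasLaurentExp.eq_zero_iff hs₁).mpr h0)
  have hs₂0 : s₂ ≠ 0 := fun h0 => hne₂ ((HasLaurentExp.eq_zero_iff hs₂).mpr h0)
  -- divisibility of the orders of `s₁`, `s₂` by `m`
  have hdvd : ∀ (f : ℍ → ℂ) (s : LaurentSeries ℂ), HasLaurentExp N f s → s ≠ 0 →
      (∀ τ : ℍ, f (ModularGroup.T ^ (k : ℤ) • τ) = f τ) → (m : ℤ) ∣ s.order := by
    intro f s hs hs0 hf
    have h := dvd_of_coeff_ne_zero hs (k : ℤ) hf s.order (fun h0 => hs0 (HahnSeries.coeff_order_eq_zero.mp h0))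
    rw [← hkm] at h
    push_cast at h
    exact (mul_dvd_mul_iff_left (Int.natCast_ne_zero.mpr hk0)).mp h
  obtain ⟨d₁, hd₁⟩ := hdvd f₁ s₁ hs₁ hs₁0 hper₁
  obtain ⟨d₂, hd₂⟩ := hdvd f₂ s₂ hs₂ hs₂0 hper₂
  -- the relation between the expansions
  have hL : HasLaurentExp N (a * f₂ ^ p) (sa * s₂ ^ p) := HasLaurentExp.mul ha (HasLaurentExp.pow' hs₂ p)
  have hR : HasLaurentExp N (b * f₁ ^ p) (sb * s₁ ^ p) := HasLaurentExp.mul hb (HasLaurentExp.pow' hs₁ p)
  have hfun : a * f₂ ^ p = b * f₁ ^ p := funext hrel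
  rw [hfun] at hL
  have hser : sa * s₂ ^ p = sb * s₁ ^ p := HasLaurentExp.unique hL hR
  have hord := congrArg HahnSeries.order hser
  rw [HahnSeries.order_mul ha0 (pow_ne_zero _ hs₂0), HahnSeries.order_mul hb0 (pow_ne_zero _ hs₁0),
    HahnSeries.order_pow, HahnSeries.order_pow, hd₁, hd₂] at hord
  refine ⟨d₁ - d₂, ?_⟩
  push_cast
  simp only [nsmul_eq_mul] at hord
  linear_combination hord

end Fermat.Agent.S29.KumCusp
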