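import Mathlib
import Fermat.Agent.S24_PointOrd
import Fermat.Agent.S29_BDefs

/-!
# S29, bridge (B3), local analytic lemma at elliptic points

* `ell_pow_eq_one`: a holomorphic function with the weight-4 automorphy under `γ`, `γ τ₀ = τ₀`,
  has `(c τ₀ + d) ^ (2 ord + 4) = 1`;
* `trace_sq_le`: an element of `SL(2, ℤ)` with a fixed point in `ℍ` has `trace ^ 2 ≤ 4`;
* `ell_dvd`: for twisted forms `E₁`, `E₂` (admissible character) and `σ ∈ Γ₀(N)` fixing `τ₁`,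
  every `m` dividing the order of `σ` in `PSL₂` divides `ord E₁ - ord E₂` at `τ₁`;
* `ord_rel`: `a E₂ ^ p = b E₁ ^ p` gives `ord a - ord b = p (ord E₁ - ord E₂)`;
* `pdiv_point`: the resulting divisibility by `p`.
-/

set_option autoImplicit false

noncomputable section

open UpperHalfPlane Filter Topology CongruenceSubgroup
open scoped MatrixGroups Manifold

namespace Fermat.Agent.S29.KumDivAux

open Fermat.Agent.S24

/-- **Elliptic local lemma.**  A holomorphic function on `ℍ` with the weight-4 automorphy under an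
element `γ` fixing `τ₀`: with `m` the order of vanishing at `τ₀` and `ρ = c τ₀ + d`,
`ρ ^ (2 m + 4) = 1`. -/
theorem ell_pow_eq_one {E : ℍ → ℂ} (hE : MDiff E) (hE0 : E ≠ 0) (γ : SL(2, ℤ)) (τ₀ : ℍ)
    (hfix : γ • τ₀ = τ₀)
    (hsl : ∀ τ : ℍ, E (γ • τ) =
      (((γ 1 0 : ℤ) : ℂ) * (τ : ℂ) + ((γ 1 1 : ℤ) : ℂ)) ^ 4 * E τ) :
    (((γ 1 0 : ℤ) : ℂ) * (τ₀ : ℂ) + ((γ 1 1 : ℤ) : ℂ)) ^
      (2 * (PointOrd.ordAt E τ₀).toNat + 4) = 1 := by
  set a : ℂ := ((γ 0 0 : ℤ) : ℂ) with ha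
  set b : ℂ := ((γ 0 1 : ℤ) : ℂ) with hb
  set c : ℂ := ((γ 1 0 : ℤ) : ℂ) with hc
  set d : ℂ := ((γ 1 1 : ℤ) : ℂ) with hd
  set M : ℂ → ℂ := fun z => (a * z + b) / (c * z + d) with hM
  have hdet : a * d - b * c = 1 := by
    have h := γ.det_coe
    rw [Matrix.det_fin_two] at h
    have h' : ((γ 0 0 * γ 1 1 - γ 0 1 * γ 1 0 : ℤ) : ℂ) = 1 := by
      rw [h]; simp
    simp only [ha, hb, hc, hd]
    push_cast at h'
    linear_combination h'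
  have hcoe : ∀ z : ℍ, ((γ • z : ℍ) : ℂ) = M z := by
    intro z
    rw [UpperHalfPlane.coe_specialLinearGroup_apply]
    simp [hM, ha, hb, hc, hd]
  have hden : ∀ z : ℍ, c * (z : ℂ) + d ≠ 0 := by
    intro z hz
    have h3 : ((γ • z : ℍ) : ℂ) = 0 := by
      rw [hcoe z]
      simp only [hM]
      rw [hz, div_zero]
    have h4 := (γ • z).im_pos
    have h5 := congrArg Complex.im h3
    rw [UpperHalfPlane.coe_im, Complex.zero_im] at h5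
    linarith
  set z₀ : ℂ := (τ₀ : ℂ) with hz₀
  set ρ : ℂ := c * z₀ + d with hρ
  have hρ0 : ρ ≠ 0 := hden τ₀
  have hMz₀ : M z₀ = z₀ := by
    rw [hz₀, ← hcoe τ₀, hfix]
  set F : ℂ → ℂ := fun z => E (ofComplex z) with hF
  have hFan : AnalyticAt ℂ F z₀ := PointOrd.analyticAt_comp_ofComplex hE τ₀
  set m : ℕ := (PointOrd.ordAt E τ₀).toNat with hm
  have hord : analyticOrderAt F z₀ = (m : ℕ∞) := by
    have := PointOrd.ordAt_ne_top hE hE0 τ₀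
    exact (ENat.natCast_toNat this).symm
  obtain ⟨g, hg, hg0, hFg⟩ := (hFan.analyticOrderAt_eq_natCast).mp hord
  have hMan : AnalyticAt ℂ M z₀ := by
    have hnum : AnalyticAt ℂ (fun z : ℂ => a * z + b) z₀ := by fun_prop
    have hdenom : AnalyticAt ℂ (fun z : ℂ => c * z + d) z₀ := by fun_prop
    exact hnum.div hdenom hρ0
  have hMcont : ContinuousAt M z₀ := hMan.continuousAt
  -- the three eventual identities
  have hev1 : ∀ᶠ z in 𝓝 z₀, F (M z) = (M z - z₀) ^ m • g (M z) :=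
    hMcont.eventually (by rw [hMz₀]; exact hFg)
  have hev2 : ∀ᶠ z in 𝓝 z₀, F (M z) = (c * z + d) ^ 4 * F z ∧ c * z + d ≠ 0 := by
    filter_upwards [isOpen_upperHalfPlaneSet.mem_nhds τ₀.im_pos] with z hz
    have h1 : ofComplex z = ⟨z, hz⟩ := ofComplex_apply_of_im_pos hz
    have h2 := hcoe ⟨z, hz⟩
    refine ⟨?_, hden ⟨z, hz⟩⟩
    show E (ofComplex (M z)) = (c * z + d) ^ 4 * E (ofComplex z)
    rw [h1, show M z = ((γ • (⟨z, hz⟩ : ℍ) : ℍ) : ℂ) from h2.symm, ofComplex_apply, hsl]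
  have hMsub : ∀ z : ℂ, c * z + d ≠ 0 → M z - z₀ = (z - z₀) * ((c * z + d) * ρ)⁻¹ := by
    intro z hz
    have h2 : a * z₀ + b = z₀ * (c * z₀ + d) := by
      have h1 := hMz₀
      simp only [hM] at h1
      rwa [div_eq_iff hρ0] at h1
    have key : (a * z + b - z₀ * (c * z + d)) * (c * z₀ + d) = z - z₀ := by
      linear_combination (z - z₀) * hdet + (c * z + d) * h2
    have h3 : M z - z₀ = (a * z + b - z₀ * (c * z + d)) / (c * z + d) := by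
      simp only [hM]
      rw [eq_div_iff hz, sub_mul, div_mul_cancel₀ _ hz]
    have hρ0' : c * z₀ + d ≠ 0 := hρ0
    have h4 := mul_inv_cancel₀ hρ0'
    rw [h3, ← key]
    show _ = _ * ((c * z + d) * (c * z₀ + d))⁻¹
    rw [div_eq_mul_inv, mul_inv]
    linear_combination (-(a * z + b - z₀ * (c * z + d)) * (c * z + d)⁻¹) * h4
  -- the two continuous functions
  set G₁ : ℂ → ℂ := fun z => (((c * z + d) * ρ)⁻¹) ^ m * g (M z) with hG₁
  set G₂ : ℂ → ℂ := fun z => (c * z + d) ^ 4 * g z with hG₂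
  have hlin : ContinuousAt (fun z : ℂ => c * z + d) z₀ := by fun_prop
  have hG₁c : ContinuousAt G₁ z₀ := by
    have h1 : ContinuousAt (fun z : ℂ => ((c * z + d) * ρ)⁻¹) z₀ :=
      (hlin.mul continuousAt_const).inv₀ (mul_ne_zero hρ0 hρ0)
    have h2 : ContinuousAt (fun z : ℂ => g (M z)) z₀ :=
      ContinuousAt.comp (by rw [hMz₀]; exact hg.continuousAt) hMcont
    exact (h1.pow m).mul h2
  have hG₂c : ContinuousAt G₂ z₀ := (hlin.pow 4).mul hg.continuousAt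
  have hEq : G₁ =ᶠ[𝓝[≠] z₀] G₂ := by
    have h3 : ∀ᶠ z in 𝓝[≠] z₀, z ≠ z₀ := eventually_mem_nhdsWithin
    filter_upwards [nhdsWithin_le_nhds hev1, nhdsWithin_le_nhds hev2, nhdsWithin_le_nhds hFg, h3]
      with z h1 h2 h4 hz
    have hzz : (z - z₀) ^ m ≠ 0 := pow_ne_zero _ (sub_ne_zero.mpr hz)
    have h5 : (z - z₀) ^ m * G₁ z = (z - z₀) ^ m * G₂ z := by
      have e1 : F (M z) = (z - z₀) ^ m * G₁ z := by
        rw [h1, hMsub z h2.2, smul_eq_mul, mul_pow, mul_assoc]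
      have e2 : F (M z) = (z - z₀) ^ m * G₂ z := by
        rw [h2.1, h4, smul_eq_mul]
        simp only [hG₂]
        ring
      rw [← e1, e2]
    exact mul_left_cancel₀ hzz h5
  have hval : G₁ z₀ = G₂ z₀ :=
    tendsto_nhds_unique_of_eventuallyEq (hG₁c.tendsto.mono_left nhdsWithin_le_nhds)
      (hG₂c.tendsto.mono_left nhdsWithin_le_nhds) hEq
  simp only [hG₁, hG₂, hMz₀] at hval
  have hval' : ((ρ * ρ)⁻¹) ^ m = ρ ^ 4 := mul_right_cancel₀ hg0 hval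
  have h6 : ρ ^ (2 * m + 4) * ((ρ * ρ)⁻¹) ^ m = ρ ^ 4 := by
    rw [pow_add, pow_mul, inv_pow, ← pow_two]
    field_simp
  rw [hval'] at h6
  have h7 : ρ ^ 4 ≠ 0 := pow_ne_zero _ hρ0
  exact mul_right_cancel₀ h7 (by rw [h6, one_mul])


/-- the fixed point equation on the level of complex numbers. -/
theorem fix_eq (γ : SL(2, ℤ)) (τ₀ : ℍ) (hfix : γ • τ₀ = τ₀) :
    (((γ 1 0 : ℤ) : ℂ) * (τ₀ : ℂ) + ((γ 1 1 : ℤ) : ℂ)) ≠ 0 ∧
    ((γ 0 0 : ℤ) : ℂ) * (τ₀ : ℂ) + ((γ 0 1 : ℤ) : ℂ)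
      = (τ₀ : ℂ) * (((γ 1 0 : ℤ) : ℂ) * (τ₀ : ℂ) + ((γ 1 1 : ℤ) : ℂ)) := by
  have hcoe : ((γ • τ₀ : ℍ) : ℂ) = (((γ 0 0 : ℤ) : ℂ) * (τ₀ : ℂ) + ((γ 0 1 : ℤ) : ℂ)) /
      (((γ 1 0 : ℤ) : ℂ) * (τ₀ : ℂ) + ((γ 1 1 : ℤ) : ℂ)) := by
    rw [UpperHalfPlane.coe_specialLinearGroup_apply]
    simp
  have hden : (((γ 1 0 : ℤ) : ℂ) * (τ₀ : ℂ) + ((γ 1 1 : ℤ) : ℂ)) ≠ 0 := by
    intro hz
    have h3 : ((γ • τ₀ : ℍ) : ℂ) = 0 := by
      rw [hcoe, hz, div_zero]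
    have h4 := (γ • τ₀).im_pos
    have h5 := congrArg Complex.im h3
    rw [UpperHalfPlane.coe_im, Complex.zero_im] at h5
    linarith
  refine ⟨hden, ?_⟩
  rw [hfix] at hcoe
  rw [eq_div_iff hden] at hcoe
  exact hcoe.symm

theorem det_cast (γ : SL(2, ℤ)) :
    ((γ 0 0 : ℤ) : ℂ) * ((γ 1 1 : ℤ) : ℂ) - ((γ 0 1 : ℤ) : ℂ) * ((γ 1 0 : ℤ) : ℂ) = 1 := by
  have h := γ.det_coe
  rw [Matrix.det_fin_two] at h
  have h' : ((γ 0 0 * γ 1 1 - γ 0 1 * γ 1 0 : ℤ) : ℂ) = 1 := by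
    rw [h]; simp
  push_cast at h'
  linear_combination h'

/-- `ρ = c τ₀ + d` is a root of the characteristic polynomial. -/
theorem rho_quadratic (γ : SL(2, ℤ)) (τ₀ : ℍ) (hfix : γ • τ₀ = τ₀) :
    (((γ 1 0 : ℤ) : ℂ) * (τ₀ : ℂ) + ((γ 1 1 : ℤ) : ℂ)) ^ 2
      - (((γ 0 0 + γ 1 1 : ℤ)) : ℂ) * (((γ 1 0 : ℤ) : ℂ) * (τ₀ : ℂ) + ((γ 1 1 : ℤ) : ℂ)) + 1
      = 0 := by
  obtain ⟨-, h2⟩ := fix_eq γ τ₀ hfix
  have hdet := det_cast γ
  push_cast
  linear_combination (-1 : ℂ) * hdet - ((γ 1 0 : ℤ) : ℂ) * h2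

/-- an element with a fixed point in `ℍ` has `trace ^ 2 ≤ 4`. -/
theorem trace_sq_le (γ : SL(2, ℤ)) (τ₀ : ℍ) (hfix : γ • τ₀ = τ₀) :
    (γ 0 0 + γ 1 1) ^ 2 ≤ 4 := by
  set ρ : ℂ := ((γ 1 0 : ℤ) : ℂ) * (τ₀ : ℂ) + ((γ 1 1 : ℤ) : ℂ) with hρ
  have hq := rho_quadratic γ τ₀ hfix
  rw [← hρ] at hq
  -- `|ρ| = 1`
  have hns : Complex.normSq ρ = 1 := by
    have h1 := ModularGroup.im_smul_eq_div_normSq γ τ₀
    rw [hfix] at h1
    have h2 : ModularGroup.denom_apply γ τ₀ = ModularGroup.denom_apply γ τ₀ := rfl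
    have h3 : UpperHalfPlane.denom (γ : GL (Fin 2) ℝ) τ₀ = ρ := by
      rw [ModularGroup.denom_apply]
    rw [h3] at h1
    have h4 := τ₀.im_pos
    have h5 : Complex.normSq ρ ≠ 0 := by
      intro h0
      rw [h0, div_zero] at h1
      linarith
    field_simp at h1
    nlinarith
  set t : ℤ := γ 0 0 + γ 1 1 with ht
  have hre := congrArg Complex.re hq
  have him := congrArg Complex.im hq
  rw [Complex.normSq_apply] at hns
  simp only [pow_two, Complex.add_re, Complex.sub_re, Complex.mul_re, Complex.one_re,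
    Complex.zero_re, Complex.add_im, Complex.sub_im, Complex.mul_im, Complex.one_im,
    Complex.zero_im, Complex.intCast_re, Complex.intCast_im] at hre him
  have h6 : (2 * ρ.re - (t : ℝ)) ^ 2 = 0 := by
    nlinarith
  have h7 : (t : ℝ) = 2 * ρ.re := by
    have := pow_eq_zero_iff (n := 2) (by norm_num) |>.mp h6
    linarith
  have h8 : ((t : ℝ)) ^ 2 ≤ 4 := by
    rw [h7]
    nlinarith [sq_nonneg ρ.im]
  exact_mod_cast h8

/-- Cayley--Hamilton in `SL(2, ℤ)`. -/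
theorem sl2_sq (σ : SL(2, ℤ)) (t : ℤ) (ht : σ 0 0 + σ 1 1 = t) :
    (σ : Matrix (Fin 2) (Fin 2) ℤ) * (σ : Matrix (Fin 2) (Fin 2) ℤ)
      = t • (σ : Matrix (Fin 2) (Fin 2) ℤ) - 1 := by
  have h := σ.det_coe
  rw [Matrix.det_fin_two] at h
  subst ht
  ext i j
  fin_cases i <;> fin_cases j <;>
    simp [-zsmul_eq_mul, Matrix.mul_apply, Fin.sum_univ_two, Matrix.smul_apply,
      Matrix.sub_apply] <;>
    first | linear_combination (-1 : ℤ) * h | linear_combination (0 : ℤ) * h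

theorem sl2_sq_of_trace_zero (σ : SL(2, ℤ)) (ht : σ 0 0 + σ 1 1 = 0) : σ ^ 2 = -1 := by
  apply Subtype.ext
  have h := sl2_sq σ 0 ht
  rw [zero_smul, zero_sub] at h
  rw [Matrix.SpecialLinearGroup.coe_pow, pow_two, h, Matrix.SpecialLinearGroup.coe_neg,
    Matrix.SpecialLinearGroup.coe_one]

theorem sl2_cube_of_trace_one (σ : SL(2, ℤ)) (ht : σ 0 0 + σ 1 1 = 1) : σ ^ 3 = -1 := by
  apply Subtype.ext
  have h := sl2_sq σ 1 ht
  rw [one_smul] at h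
  rw [Matrix.SpecialLinearGroup.coe_pow, pow_succ, pow_two, h, Matrix.SpecialLinearGroup.coe_neg,
    Matrix.SpecialLinearGroup.coe_one, sub_mul, h, one_mul]
  abel

theorem sl2_cube_of_trace_neg_one (σ : SL(2, ℤ)) (ht : σ 0 0 + σ 1 1 = -1) : σ ^ 3 = 1 := by
  apply Subtype.ext
  have h := sl2_sq σ (-1) ht
  rw [neg_one_smul] at h
  rw [Matrix.SpecialLinearGroup.coe_pow, pow_succ, pow_two, h,
    Matrix.SpecialLinearGroup.coe_one, sub_mul, neg_mul, h, one_mul]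
  abel

/-- a fixed point in `ℍ` of an element of trace `±2` forces `σ = ±1`. -/
theorem eq_one_or_neg_one_of_trace (σ : SL(2, ℤ)) (τ₁ : ℍ) (hfix : σ • τ₁ = τ₁)
    (ht : σ 0 0 + σ 1 1 = 2 ∨ σ 0 0 + σ 1 1 = -2) : σ = 1 ∨ σ = -1 := by
  obtain ⟨hρ0, h2⟩ := fix_eq σ τ₁ hfix
  have hq := rho_quadratic σ τ₁ hfix
  have hdet := σ.det_coe
  rw [Matrix.det_fin_two] at hdet
  set ρ : ℂ := ((σ 1 0 : ℤ) : ℂ) * (τ₁ : ℂ) + ((σ 1 1 : ℤ) : ℂ) with hρ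
  have him : ρ.im = (σ 1 0 : ℝ) * τ₁.im := by
    rw [hρ]
    simp
  have hre : ρ.re = (σ 1 0 : ℝ) * τ₁.re + (σ 1 1 : ℝ) := by
    rw [hρ]
    simp
  have hpos := τ₁.im_pos
  -- in both cases `ρ = ε`, `ε = ±1`
  have key : ∀ ε : ℤ, (ε = 1 ∨ ε = -1) → σ 0 0 + σ 1 1 = 2 * ε → ρ = (ε : ℂ) →
      σ 0 0 = ε ∧ σ 0 1 = 0 ∧ σ 1 0 = 0 ∧ σ 1 1 = ε := by
    intro ε hε htr hρε
    have h1 : ρ.im = 0 := by rw [hρε]; simp
    rw [him] at h1
    have hc : (σ 1 0 : ℝ) = 0 := by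
      rcases mul_eq_zero.mp h1 with h | h
      · exact h
      · exact absurd h hpos.ne'
    have hc' : σ 1 0 = 0 := by exact_mod_cast hc
    have h3 : ρ.re = (ε : ℝ) := by rw [hρε]; simp
    rw [hre, hc, zero_mul, zero_add] at h3
    have hd' : σ 1 1 = ε := by exact_mod_cast h3
    have ha' : σ 0 0 = ε := by omega
    refine ⟨ha', ?_, hc', hd'⟩
    -- `b = 0` from the fixed point equation
    rw [hρε, ha'] at h2
    have h4 : ((σ 0 1 : ℤ) : ℂ) = 0 := by linear_combination h2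
    exact_mod_cast h4
  rcases ht with ht | ht
  · left
    have hρ1 : ρ = ((1 : ℤ) : ℂ) := by
      have h1 : (ρ - 1) ^ 2 = 0 := by
        rw [ht] at hq
        push_cast at hq
        linear_combination hq
      have := pow_eq_zero_iff (n := 2) (by norm_num) |>.mp h1
      push_cast
      linear_combination this
    obtain ⟨ha, hb, hc, hd⟩ := key 1 (Or.inl rfl) (by rw [ht]; norm_num) hρ1
    ext i j
    fin_cases i <;> fin_cases j <;> simp [ha, hb, hc, hd]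
  · right
    have hρ1 : ρ = ((-1 : ℤ) : ℂ) := by
      have h1 : (ρ + 1) ^ 2 = 0 := by
        rw [ht] at hq
        push_cast at hq
        linear_combination hq
      have := pow_eq_zero_iff (n := 2) (by norm_num) |>.mp h1
      push_cast
      linear_combination this
    obtain ⟨ha, hb, hc, hd⟩ := key (-1) (Or.inr rfl) (by rw [ht]; norm_num) hρ1
    ext i j
    fin_cases i <;> fin_cases j <;> simp [ha, hb, hc, hd]

/-- **Elliptic divisibility, analytic form.**  Two holomorphic functions with the same weight-4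
automorphy under `σ`, `σ τ₁ = τ₁`: every `m` dividing the order of `σ` modulo `±1` divides the
difference of their orders at `τ₁`. -/
theorem ell_dvd_aux {E₁ E₂ : ℍ → ℂ} (h1 : MDiff E₁) (h2 : MDiff E₂) (hne1 : E₁ ≠ 0)
    (hne2 : E₂ ≠ 0) (σ : SL(2, ℤ)) (τ₁ : ℍ) (hfix : σ • τ₁ = τ₁)
    (hs1 : ∀ τ : ℍ, E₁ (σ • τ) =
      (((σ 1 0 : ℤ) : ℂ) * (τ : ℂ) + ((σ 1 1 : ℤ) : ℂ)) ^ 4 * E₁ τ)
    (hs2 : ∀ τ : ℍ, E₂ (σ • τ) =
      (((σ 1 0 : ℤ) : ℂ) * (τ : ℂ) + ((σ 1 1 : ℤ) : ℂ)) ^ 4 * E₂ τ)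
    (m : ℕ) (hm : ∀ n : ℕ, (σ ^ n = 1 ∨ σ ^ n = -1) → m ∣ n) :
    (m : ℤ) ∣ ((PointOrd.ordAt E₁ τ₁).toNat : ℤ) - ((PointOrd.ordAt E₂ τ₁).toNat : ℤ) := by
  have e1 := ell_pow_eq_one h1 hne1 σ τ₁ hfix hs1
  have e2 := ell_pow_eq_one h2 hne2 σ τ₁ hfix hs2
  have hq := rho_quadratic σ τ₁ hfix
  have htr := trace_sq_le σ τ₁ hfix
  set ρ : ℂ := ((σ 1 0 : ℤ) : ℂ) * (τ₁ : ℂ) + ((σ 1 1 : ℤ) : ℂ) with hρ
  set m₁ : ℕ := (PointOrd.ordAt E₁ τ₁).toNat with hm₁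
  set m₂ : ℕ := (PointOrd.ordAt E₂ τ₁).toNat with hm₂
  set t : ℤ := σ 0 0 + σ 1 1 with ht
  have hcases : t = -2 ∨ t = -1 ∨ t = 0 ∨ t = 1 ∨ t = 2 := by
    have h1 : -2 ≤ t := by nlinarith
    have h2 : t ≤ 2 := by nlinarith
    omega
  -- the cube-root case, common to `t = ±1`
  have cube : ρ ^ 6 = 1 → ρ ^ 2 ≠ 1 → σ ^ 3 = 1 ∨ σ ^ 3 = -1 →
      (m : ℤ) ∣ (m₁ : ℤ) - (m₂ : ℤ) := by
    intro h6 hne hσ3
    have hm3 : m ∣ 3 := hm 3 hσ3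
    have hord : orderOf (ρ ^ 2) = 3 := by
      have : Fact (Nat.Prime 3) := ⟨by norm_num⟩
      exact orderOf_eq_prime (by rw [← pow_mul]; exact h6) hne
    have d1 : 3 ∣ m₁ + 2 := by
      rw [← hord]
      apply orderOf_dvd_of_pow_eq_one
      rw [← pow_mul, show 2 * (m₁ + 2) = 2 * m₁ + 4 by ring]
      exact e1
    have d2 : 3 ∣ m₂ + 2 := by
      rw [← hord]
      apply orderOf_dvd_of_pow_eq_one
      rw [← pow_mul, show 2 * (m₂ + 2) = 2 * m₂ + 4 by ring]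
      exact e2
    have d3 : (3 : ℤ) ∣ (m₁ : ℤ) - (m₂ : ℤ) := by omega
    exact (Int.natCast_dvd_natCast.mpr hm3).trans d3
  rcases hcases with h | h | h | h | h
  · -- `t = -2`
    have hσ := eq_one_or_neg_one_of_trace σ τ₁ hfix (Or.inr h)
    have hm1 : m ∣ 1 := hm 1 (by rw [pow_one]; exact hσ)
    exact (Int.natCast_dvd_natCast.mpr hm1).trans (by simp)
  · -- `t = -1`
    rw [h] at hq
    push_cast at hq
    refine cube ?_ ?_ (Or.inl (sl2_cube_of_trace_neg_one σ h))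
    · linear_combination (ρ ^ 3 + 1) * (ρ - 1) * hq
    · intro h1
      have h2 : ρ = -2 := by linear_combination hq - h1
      rw [h2] at h1
      norm_num at h1
  · -- `t = 0`
    rw [h] at hq
    push_cast at hq
    have hρ2 : ρ ^ 2 = -1 := by linear_combination hq
    have hm2 : m ∣ 2 := hm 2 (Or.inr (sl2_sq_of_trace_zero σ h))
    have hneg : (-1 : ℂ) ≠ 1 := by norm_num
    have d1 : Even (m₁ + 2) := by
      rw [← neg_one_pow_eq_one_iff_even hneg, ← hρ2, ← pow_mul,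
        show 2 * (m₁ + 2) = 2 * m₁ + 4 by ring]
      exact e1
    have d2 : Even (m₂ + 2) := by
      rw [← neg_one_pow_eq_one_iff_even hneg, ← hρ2, ← pow_mul,
        show 2 * (m₂ + 2) = 2 * m₂ + 4 by ring]
      exact e2
    have d3 : (2 : ℤ) ∣ (m₁ : ℤ) - (m₂ : ℤ) := by
      obtain ⟨k₁, hk₁⟩ := d1
      obtain ⟨k₂, hk₂⟩ := d2
      omega
    exact (Int.natCast_dvd_natCast.mpr hm2).trans d3
  · -- `t = 1`
    rw [h] at hq
    push_cast at hq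
    refine cube ?_ ?_ (Or.inr (sl2_cube_of_trace_one σ h))
    · linear_combination (ρ ^ 3 - 1) * (ρ + 1) * hq
    · intro h1
      have h2 : ρ = 2 := by linear_combination h1 - hq
      rw [h2] at h1
      norm_num at h1
  · -- `t = 2`
    have hσ := eq_one_or_neg_one_of_trace σ τ₁ hfix (Or.inl h)
    have hm1 : m ∣ 1 := hm 1 (by rw [pow_one]; exact hσ)
    exact (Int.natCast_dvd_natCast.mpr hm1).trans (by simp)

theorem zch_zero (p : ℕ) : zch p 0 = 1 := by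
  unfold zch
  simp

theorem isTwisted_ne_zero {N p : ℕ} {χ : Additive (Gamma0 N) →+ ZMod p} {E : ℍ → ℂ}
    (h : IsTwisted N p χ E) : E ≠ 0 := by
  obtain ⟨τ, hτ⟩ := h.ne
  intro h0
  exact hτ (by rw [h0]; rfl)

/-- **Elliptic divisibility for twisted forms.** -/
theorem ell_dvd {N p : ℕ} {χ : Additive (Gamma0 N) →+ ZMod p} (hχ : IsAdm N p χ)
    {E₁ E₂ : ℍ → ℂ} (h₁ : IsTwisted N p χ E₁) (h₂ : IsTwisted N p 0 E₂)
    (σ : SL(2, ℤ)) (hσ : σ ∈ Gamma0 N) (τ₁ : ℍ) (hfix : σ • τ₁ = τ₁)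
    (m : ℕ) (hm : ∀ n : ℕ, (σ ^ n = 1 ∨ σ ^ n = -1) → m ∣ n) :
    (m : ℤ) ∣ ((PointOrd.ordAt E₁ τ₁).toNat : ℤ) - ((PointOrd.ordAt E₂ τ₁).toNat : ℤ) := by
  have htr := trace_sq_le σ τ₁ hfix
  have hχσ : χ (Additive.ofMul (⟨σ, hσ⟩ : Gamma0 N)) = 0 := hχ ⟨σ, hσ⟩ htr
  refine ell_dvd_aux h₁.mdiff h₂.mdiff (isTwisted_ne_zero h₁) (isTwisted_ne_zero h₂) σ τ₁ hfix
    (fun τ => ?_) (fun τ => ?_) m hm
  · have := h₁.slash ⟨σ, hσ⟩ τ
    rw [hχσ, zch_zero, one_mul] at this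
    exact this
  · have := h₂.slash ⟨σ, hσ⟩ τ
    rw [AddMonoidHom.zero_apply, zch_zero, one_mul] at this
    exact this

/-- orders and the relation `a E₂ ^ p = b E₁ ^ p`. -/
theorem ord_rel {a b E₁ E₂ : ℍ → ℂ} (ha : MDiff a) (hb : MDiff b) (h1 : MDiff E₁)
    (h2 : MDiff E₂) (ha0 : a ≠ 0) (hb0 : b ≠ 0) (hne1 : E₁ ≠ 0) (hne2 : E₂ ≠ 0) (p : ℕ)
    (hrel : ∀ τ : ℍ, a τ * E₂ τ ^ p = b τ * E₁ τ ^ p) (τ₁ : ℍ) :
    ((PointOrd.ordAt a τ₁).toNat : ℤ) - ((PointOrd.ordAt b τ₁).toNat : ℤ)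
      = (p : ℤ) * (((PointOrd.ordAt E₁ τ₁).toNat : ℤ) - ((PointOrd.ordAt E₂ τ₁).toNat : ℤ)) := by
  have Aa := PointOrd.analyticAt_comp_ofComplex ha τ₁
  have Ab := PointOrd.analyticAt_comp_ofComplex hb τ₁
  have A1 := PointOrd.analyticAt_comp_ofComplex h1 τ₁
  have A2 := PointOrd.analyticAt_comp_ofComplex h2 τ₁
  have hfun : (fun z : ℂ => a (ofComplex z)) * (fun z : ℂ => E₂ (ofComplex z)) ^ p
      = (fun z : ℂ => b (ofComplex z)) * (fun z : ℂ => E₁ (ofComplex z)) ^ p := by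
    funext z
    simp only [Pi.mul_apply, Pi.pow_apply]
    exact hrel _
  have hord : analyticOrderAt ((fun z : ℂ => a (ofComplex z)) * (fun z : ℂ => E₂ (ofComplex z)) ^ p)
      (τ₁ : ℂ) = analyticOrderAt ((fun z : ℂ => b (ofComplex z)) *
        (fun z : ℂ => E₁ (ofComplex z)) ^ p) (τ₁ : ℂ) := by
    rw [hfun]
  rw [analyticOrderAt_mul Aa (A2.pow p), analyticOrderAt_mul Ab (A1.pow p),
    analyticOrderAt_pow A2, analyticOrderAt_pow A1] at hord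
  have ea : analyticOrderAt (fun z : ℂ => a (ofComplex z)) (τ₁ : ℂ)
      = ((PointOrd.ordAt a τ₁).toNat : ℕ∞) :=
    (ENat.natCast_toNat (PointOrd.ordAt_ne_top ha ha0 τ₁)).symm
  have eb : analyticOrderAt (fun z : ℂ => b (ofComplex z)) (τ₁ : ℂ)
      = ((PointOrd.ordAt b τ₁).toNat : ℕ∞) :=
    (ENat.natCast_toNat (PointOrd.ordAt_ne_top hb hb0 τ₁)).symm
  have e1 : analyticOrderAt (fun z : ℂ => E₁ (ofComplex z)) (τ₁ : ℂ)
      = ((PointOrd.ordAt E₁ τ₁).toNat : ℕ∞) :=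
    (ENat.natCast_toNat (PointOrd.ordAt_ne_top h1 hne1 τ₁)).symm
  have e2 : analyticOrderAt (fun z : ℂ => E₂ (ofComplex z)) (τ₁ : ℂ)
      = ((PointOrd.ordAt E₂ τ₁).toNat : ℕ∞) :=
    (ENat.natCast_toNat (PointOrd.ordAt_ne_top h2 hne2 τ₁)).symm
  rw [ea, eb, e1, e2] at hord
  have hnat : (PointOrd.ordAt a τ₁).toNat + p * (PointOrd.ordAt E₂ τ₁).toNat
      = (PointOrd.ordAt b τ₁).toNat + p * (PointOrd.ordAt E₁ τ₁).toNat := by
    have h3 : (((PointOrd.ordAt a τ₁).toNat + p * (PointOrd.ordAt E₂ τ₁).toNat : ℕ) : ℕ∞)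
        = (((PointOrd.ordAt b τ₁).toNat + p * (PointOrd.ordAt E₁ τ₁).toNat : ℕ) : ℕ∞) := by
      push_cast
      rw [nsmul_eq_mul, nsmul_eq_mul] at hord
      exact hord
    exact_mod_cast h3
  have hint : (((PointOrd.ordAt a τ₁).toNat : ℤ)) + p * (PointOrd.ordAt E₂ τ₁).toNat
      = (PointOrd.ordAt b τ₁).toNat + p * (PointOrd.ordAt E₁ τ₁).toNat := by
    exact_mod_cast hnat
  linear_combination hint

/-- **B3 at a point of `ℍ`.**  If the place `v` is induced by the order at `τ₁` with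
multiplicity `m` (`m * x = ord a - ord b` for a fraction `a / b` of the Kummer function), and
`m` divides the order modulo `±1` of an element `σ ∈ Γ₀(N)` fixing `τ₁`, then `p ∣ x`. -/
theorem pdiv_point {N p : ℕ} {χ : Additive (Gamma0 N) →+ ZMod p} (hχ : IsAdm N p χ)
    {E₁ E₂ : ℍ → ℂ} (h₁ : IsTwisted N p χ E₁) (h₂ : IsTwisted N p 0 E₂)
    {a b : ℍ → ℂ} (ha : MDiff a) (hb : MDiff b) (ha0 : a ≠ 0) (hb0 : b ≠ 0)
    (hrel : ∀ τ : ℍ, a τ * E₂ τ ^ p = b τ * E₁ τ ^ p)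
    (σ : SL(2, ℤ)) (hσ : σ ∈ Gamma0 N) (τ₁ : ℍ) (hfix : σ • τ₁ = τ₁)
    (m : ℕ) (hm0 : 0 < m) (hm : ∀ n : ℕ, (σ ^ n = 1 ∨ σ ^ n = -1) → m ∣ n) (x : ℤ)
    (hx : (m : ℤ) * x
      = ((PointOrd.ordAt a τ₁).toNat : ℤ) - ((PointOrd.ordAt b τ₁).toNat : ℤ)) :
    (p : ℤ) ∣ x := by
  obtain ⟨k, hk⟩ := ell_dvd hχ h₁ h₂ σ hσ τ₁ hfix m hm
  have hr := ord_rel ha hb h₁.mdiff h₂.mdiff ha0 hb0 (isTwisted_ne_zero h₁)
    (isTwisted_ne_zero h₂) p hrel τ₁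
  rw [hr, hk] at hx
  have hm' : (m : ℤ) ≠ 0 := by exact_mod_cast hm0.ne'
  refine ⟨k, ?_⟩
  apply mul_left_cancel₀ hm'
  rw [hx]
  ring

end Fermat.Agent.S29.KumDivAux
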