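import Mathlib
import Fermat.Agent.S29_KumDivAux

/-!
# S29, bridge (B3), elliptic local lemma: the order-2 and order-3 forms

`ell_dvd2` (`γ ^ 2 = -1`) and `ell_dvd3` (`γ ^ 3 = ±1`, `γ ≠ ±1`) for two holomorphic functions
with the same weight-4 automorphy under `γ`, at a fixed point `τ₀` of `γ`.
-/

set_option autoImplicit false

noncomputable section

open UpperHalfPlane Filter Topology CongruenceSubgroup
open scoped MatrixGroups Manifold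

namespace Fermat.Agent.S29.KumDivAux

open Fermat.Agent.S24

/-- the divisibilities in terms of the trace of `σ`. -/
theorem ell_dvd_trace {E₁ E₂ : ℍ → ℂ} (h1 : MDiff E₁) (h2 : MDiff E₂) (hne1 : E₁ ≠ 0)
    (hne2 : E₂ ≠ 0) (σ : SL(2, ℤ)) (τ₁ : ℍ) (hfix : σ • τ₁ = τ₁)
    (hs1 : ∀ τ : ℍ, E₁ (σ • τ) =
      (((σ 1 0 : ℤ) : ℂ) * (τ : ℂ) + ((σ 1 1 : ℤ) : ℂ)) ^ 4 * E₁ τ)
    (hs2 : ∀ τ : ℍ, E₂ (σ • τ) =
      (((σ 1 0 : ℤ) : ℂ) * (τ : ℂ) + ((σ 1 1 : ℤ) : ℂ)) ^ 4 * E₂ τ) :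
    (σ 0 0 + σ 1 1 = 0 →
      (2 : ℤ) ∣ ((PointOrd.ordAt E₁ τ₁).toNat : ℤ) - ((PointOrd.ordAt E₂ τ₁).toNat : ℤ)) ∧
    ((σ 0 0 + σ 1 1 = 1 ∨ σ 0 0 + σ 1 1 = -1) →
      (3 : ℤ) ∣ ((PointOrd.ordAt E₁ τ₁).toNat : ℤ) - ((PointOrd.ordAt E₂ τ₁).toNat : ℤ)) := by
  have e1 := ell_pow_eq_one h1 hne1 σ τ₁ hfix hs1
  have e2 := ell_pow_eq_one h2 hne2 σ τ₁ hfix hs2
  have hq := rho_quadratic σ τ₁ hfix
  set ρ : ℂ := ((σ 1 0 : ℤ) : ℂ) * (τ₁ : ℂ) + ((σ 1 1 : ℤ) : ℂ) with hρ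
  set m₁ : ℕ := (PointOrd.ordAt E₁ τ₁).toNat with hm₁
  set m₂ : ℕ := (PointOrd.ordAt E₂ τ₁).toNat with hm₂
  set t : ℤ := σ 0 0 + σ 1 1 with ht
  have cube : ρ ^ 6 = 1 → ρ ^ 2 ≠ 1 → (3 : ℤ) ∣ (m₁ : ℤ) - (m₂ : ℤ) := by
    intro h6 hne
    have hord : orderOf (ρ ^ 2) = 3 := by
      have : Fact (Nat.Prime 3) := ⟨by norm_num⟩
      exact orderOf_eq_prime (by rw [← pow_mul]; exact h6) hne
    have d1 : 3 ∣ m₁ + 2 := by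
      rw [← hord]
      apply orderOf_dvd_of_pow_eq_one
      rw [← pow_mul, show 2 * (m₁ + 2) = 2 * m₁ + 4 by ring]
      exact e1
    have d2 : 3 ∣ m₂ + 2 := by
      rw [← hord]
      apply orderOf_dvd_of_pow_eq_one
      rw [← pow_mul, show 2 * (m₂ + 2) = 2 * m₂ + 4 by ring]
      exact e2
    omega
  refine ⟨fun h => ?_, fun h => ?_⟩
  · rw [h] at hq
    push_cast at hq
    have hρ2 : ρ ^ 2 = -1 := by linear_combination hq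
    have hneg : (-1 : ℂ) ≠ 1 := by norm_num
    have d1 : Even (m₁ + 2) := by
      rw [← neg_one_pow_eq_one_iff_even hneg, ← hρ2, ← pow_mul,
        show 2 * (m₁ + 2) = 2 * m₁ + 4 by ring]
      exact e1
    have d2 : Even (m₂ + 2) := by
      rw [← neg_one_pow_eq_one_iff_even hneg, ← hρ2, ← pow_mul,
        show 2 * (m₂ + 2) = 2 * m₂ + 4 by ring]
      exact e2
    obtain ⟨k₁, hk₁⟩ := d1
    obtain ⟨k₂, hk₂⟩ := d2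
    omega
  · rcases h with h | h
    · rw [h] at hq
      push_cast at hq
      refine cube ?_ ?_
      · linear_combination (ρ ^ 3 - 1) * (ρ + 1) * hq
      · intro h1
        have h2 : ρ = 2 := by linear_combination h1 - hq
        rw [h2] at h1
        norm_num at h1
    · rw [h] at hq
      push_cast at hq
      refine cube ?_ ?_
      · linear_combination (ρ ^ 3 + 1) * (ρ - 1) * hq
      · intro h1
        have h2 : ρ = -2 := by linear_combination hq - h1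
        rw [h2] at h1
        norm_num at h1

/-- `γ ^ 2 = -1` forces trace `0`. -/
theorem trace_eq_zero_of_sq (γ : SL(2, ℤ)) (hγ : γ ^ 2 = -1) : γ 0 0 + γ 1 1 = 0 := by
  have h := sl2_sq γ (γ 0 0 + γ 1 1) rfl
  have h2 : (γ : Matrix (Fin 2) (Fin 2) ℤ) * (γ : Matrix (Fin 2) (Fin 2) ℤ) = -1 := by
    have := congrArg (fun x : SL(2, ℤ) => (x : Matrix (Fin 2) (Fin 2) ℤ)) hγ
    simp only [Matrix.SpecialLinearGroup.coe_pow, Matrix.SpecialLinearGroup.coe_neg,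
      Matrix.SpecialLinearGroup.coe_one] at this
    rw [pow_two] at this
    exact this
  rw [h2] at h
  have hdet := γ.det_coe
  rw [Matrix.det_fin_two] at hdet
  by_contra ht
  have h00 : (γ 0 0 + γ 1 1) * γ 0 0 = 0 := by
    have h5 := congrFun (congrFun h 0) 0
    rw [Matrix.sub_apply, Matrix.smul_apply, Matrix.neg_apply, Matrix.one_apply_eq,
      smul_eq_mul] at h5
    linarith
  have h01 : (γ 0 0 + γ 1 1) * γ 0 1 = 0 := by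
    have h5 := congrFun (congrFun h 0) 1
    rw [Matrix.sub_apply, Matrix.smul_apply, Matrix.neg_apply,
      Matrix.one_apply_ne (by decide : (0 : Fin 2) ≠ 1), smul_eq_mul] at h5
    linarith
  rcases mul_eq_zero.mp h00 with h00 | h00
  · exact ht h00
  · rcases mul_eq_zero.mp h01 with h01 | h01
    · exact ht h01
    · rw [h00, h01] at hdet
      simp at hdet

/-- **order 2.** -/
theorem ell_dvd2 {E₁ E₂ : ℍ → ℂ} (h₁ : MDiff E₁) (h₂ : MDiff E₂) (hne₁ : E₁ ≠ 0)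
    (hne₂ : E₂ ≠ 0) (γ : SL(2, ℤ)) (τ₀ : ℍ) (hfix : γ • τ₀ = τ₀) (hγ : γ ^ 2 = -1)
    (hs₁ : ∀ τ : ℍ, E₁ (γ • τ) =
      (((γ 1 0 : ℤ) : ℂ) * (τ : ℂ) + ((γ 1 1 : ℤ) : ℂ)) ^ 4 * E₁ τ)
    (hs₂ : ∀ τ : ℍ, E₂ (γ • τ) =
      (((γ 1 0 : ℤ) : ℂ) * (τ : ℂ) + ((γ 1 1 : ℤ) : ℂ)) ^ 4 * E₂ τ) :
    (2 : ℤ) ∣ ((PointOrd.ordAt E₁ τ₀).toNat : ℤ) - ((PointOrd.ordAt E₂ τ₀).toNat : ℤ) :=
  (ell_dvd_trace h₁ h₂ hne₁ hne₂ γ τ₀ hfix hs₁ hs₂).1 (trace_eq_zero_of_sq γ hγ)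

/-- **order 3.** -/
theorem ell_dvd3 {E₁ E₂ : ℍ → ℂ} (h₁ : MDiff E₁) (h₂ : MDiff E₂) (hne₁ : E₁ ≠ 0)
    (hne₂ : E₂ ≠ 0) (γ : SL(2, ℤ)) (τ₀ : ℍ) (hfix : γ • τ₀ = τ₀)
    (hγ : γ ^ 3 = 1 ∨ γ ^ 3 = -1) (hγ1 : γ ≠ 1 ∧ γ ≠ -1)
    (hs₁ : ∀ τ : ℍ, E₁ (γ • τ) =
      (((γ 1 0 : ℤ) : ℂ) * (τ : ℂ) + ((γ 1 1 : ℤ) : ℂ)) ^ 4 * E₁ τ)
    (hs₂ : ∀ τ : ℍ, E₂ (γ • τ) =
      (((γ 1 0 : ℤ) : ℂ) * (τ : ℂ) + ((γ 1 1 : ℤ) : ℂ)) ^ 4 * E₂ τ) :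
    (3 : ℤ) ∣ ((PointOrd.ordAt E₁ τ₀).toNat : ℤ) - ((PointOrd.ordAt E₂ τ₀).toNat : ℤ) := by
  have htr := trace_sq_le γ τ₀ hfix
  have hcases : γ 0 0 + γ 1 1 = -2 ∨ γ 0 0 + γ 1 1 = -1 ∨ γ 0 0 + γ 1 1 = 0 ∨
      γ 0 0 + γ 1 1 = 1 ∨ γ 0 0 + γ 1 1 = 2 := by
    have h1 : -2 ≤ γ 0 0 + γ 1 1 := by nlinarith
    have h2 : γ 0 0 + γ 1 1 ≤ 2 := by nlinarith
    omega
  have key := (ell_dvd_trace h₁ h₂ hne₁ hne₂ γ τ₀ hfix hs₁ hs₂).2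
  rcases hcases with h | h | h | h | h
  · rcases eq_one_or_neg_one_of_trace γ τ₀ hfix (Or.inr h) with h' | h'
    · exact absurd h' hγ1.1
    · exact absurd h' hγ1.2
  · exact key (Or.inr h)
  · -- trace `0`: `γ ^ 3 = -γ`
    exfalso
    have h2 := sl2_sq_of_trace_zero γ h
    have h3 : γ ^ 3 = -γ := by
      rw [pow_succ, h2, neg_mul, one_mul]
    rw [h3] at hγ
    rcases hγ with h' | h'
    · exact hγ1.2 (by rw [← h', neg_neg])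
    · exact hγ1.1 (neg_injective h')
  · exact key (Or.inl h)
  · rcases eq_one_or_neg_one_of_trace γ τ₀ hfix (Or.inl h) with h' | h'
    · exact absurd h' hγ1.1
    · exact absurd h' hγ1.2

end Fermat.Agent.S29.KumDivAux
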