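import Fermat.Agent.S29_KumHecke
import Fermat.Agent.S29_KumNorm
import Fermat.Agent.S29_KumFun

/-!
# S29, bridge (B5): the Hecke relation for Kummer functions

`kum_hecke`: for an admissible character `χ` of `Γ₀(N)` with Kummer function `h` and a Kummer
function `h'` of `T_ℓ χ` (`ℓ ∤ N` prime), the norm along `α` of `β h` is `y ^ p * h'` up to a
nonzero constant: `KumRel ℂ (FC N) p (normA ℂ N ℓ (heckeBetaBar ℂ N ℓ h)) h'`.

This is `KumHecke.kum_hecke_of` fed with `KumNorm.norm_realizes` (the norm is the product of the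
translates) and `KumFun.exists_realizes` (invariant quotients of level forms are functions of
`X₀(N)`).
-/

set_option autoImplicit false

open UpperHalfPlane ModularCurve CongruenceSubgroup
open scoped MatrixGroups Manifold ModularForm

namespace Fermat.Agent.S29.KumHeckeMain

open Fermat.Agent.S29 Fermat.Agent.S16.LB

/-- **(B5)** the Hecke relation for Kummer functions. -/
theorem kum_hecke (N p ℓ : ℕ) [NeZero N] [Fact p.Prime] [Fact ℓ.Prime] (hℓN : ¬ ℓ ∣ N)
    (χ : Additive (Gamma0 N) →+ ZMod p) (_hχ : IsAdm N p χ)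
    (_hχ' : IsAdm N p ((famT N ℓ hℓN).tHom χ)) (h h' : FC N) (hk : IsKum N p χ h)
    (hk' : IsKum N p ((famT N ℓ hℓN).tHom χ) h') :
    KumRel ℂ (FC N) p (normA ℂ N ℓ (heckeBetaBar ℂ N ℓ h)) h' :=
  KumHecke.kum_hecke_of N p ℓ hℓN
    (fun h W₁ W₂ a b c => KumNorm.norm_realizes N ℓ hℓN h W₁ W₂ a b c)
    (fun k W₁ W₂ a b c d => KumFun.exists_realizes N k W₁ W₂ a b c d) χ h h' hk hk'

/-- the Hecke relation without the (unused) admissibility hypotheses. -/
theorem kum_hecke' (N p ℓ : ℕ) [NeZero N] [Fact p.Prime] [Fact ℓ.Prime] (hℓN : ¬ ℓ ∣ N)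
    (χ : Additive (Gamma0 N) →+ ZMod p) (h h' : FC N) (hk : IsKum N p χ h)
    (hk' : IsKum N p ((famT N ℓ hℓN).tHom χ) h') :
    KumRel ℂ (FC N) p (normA ℂ N ℓ (heckeBetaBar ℂ N ℓ h)) h' :=
  KumHecke.kum_hecke_of N p ℓ hℓN
    (fun h W₁ W₂ a b c => KumNorm.norm_realizes N ℓ hℓN h W₁ W₂ a b c)
    (fun k W₁ W₂ a b c d => KumFun.exists_realizes N k W₁ W₂ a b c d) χ h h' hk hk'

end Fermat.Agent.S29.KumHeckeMain
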