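import Mathlib
import Fermat.Agent.S29_KumHecke
import Fermat.Agent.S37_ESaConj

/-!
# S29, bridge (B5a): the norm along `α` of `β h` is realized by the products of the translates

`norm_realizes_of`: if `h` in the function field of `X₀(N)` is realized by `W₁ / W₂`, then the
norm along `α` of `β h` is realized by `∏ W₁ ∘ A_i / ∏ W₂ ∘ A_i`, the product over the coset
family `famT` of `T_ℓ`.  The statement is proved relative to the two pullback statements `HB`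
(the comparison map at level `N ℓ` sends `β h` to the composition with `τ ↦ ℓ τ`) and `HC`
(it sends `α x` to the same quotient of modular functions, viewed at level `N ℓ`).

Ingredients: (A) the image of the norm in the field of modular functions of level `N ℓ` is the
product of the conjugates by `1` and `(gmat N (t + u))⁻¹`, `t < ℓ` (from the series identities
`qExpand_norm`, `expField_conj` of S37); (D) `diag(ℓ, 1) · gmat N (t + u) = κ · [[1, t], [0, ℓ]]`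
with `κ ∈ Γ₀(N)`; the `Γ₀(N)`-invariance of quotients coming from the function field; (E) a
cross-multiplication and the cancellation of a nonzero holomorphic factor.
-/

set_option autoImplicit false

noncomputable section

open UpperHalfPlane ModularCurve CongruenceSubgroup ModularForm
open scoped MatrixGroups Manifold ModularForm

namespace Fermat.Agent.S29.KumNormE

open Fermat.Agent.S29 Fermat.Agent.S16.LB Fermat.Agent.S24 Fermat.Agent.S24.Tower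
open Fermat.Agent.S37.ESaConj Fermat.Agent.S37.ESaSeries

/-- the primitive `ℓ`-th root of unity `exp (2πi / ℓ)` as a unit of `ℂ` -/
def zetaU (ℓ : ℕ) : ℂˣ := Units.mk0 (Complex.exp (2 * Real.pi * Complex.I / ℓ)) (Complex.exp_ne_zero _)

/-- **(A)** the image of the norm of `β h` in the field of modular functions of level `N ℓ` is
the product of the conjugates of the image of `β h`. -/
theorem phiC_norm (N ℓ : ℕ) [NeZero N] [NeZero ℓ] (hℓ : ℓ.Prime) (hN : ¬ ℓ ∣ N) (u y : ℕ)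
    (hy : N * u + 1 = ℓ * y) (h : FC N) :
    phiC (N * ℓ) (heckeAlphaBar ℂ N ℓ (normA ℂ N ℓ (heckeBetaBar ℂ N ℓ h)))
      = phiC (N * ℓ) (heckeBetaBar ℂ N ℓ h)
        * ∏ b ∈ Finset.range ℓ, (gmat N (b + u))⁻¹ • phiC (N * ℓ) (heckeBetaBar ℂ N ℓ h) := by
  apply (expField ℂ (N * ℓ)).toRingHom.injective
  show expField ℂ (N * ℓ) _ = expField ℂ (N * ℓ) _
  rw [map_mul, map_prod, phiC_spec, phiC_spec, coe_heckeAlphaBar, coe_heckeBetaBar]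
  have h1 := qExpand_norm ℂ N ℓ hℓ hN (zetaU ℓ) rfl h
  have h2 : ∀ b ∈ Finset.range ℓ,
      expField ℂ (N * ℓ) ((gmat N (b + u))⁻¹ • phiC (N * ℓ) (heckeBetaBar ℂ N ℓ h))
        = qExpand ℂ N (rescale (zetaU ℓ ^ b) (h : LaurentSeries ℂ)) := fun b _ =>
    expField_conj (phiC (N * ℓ)) (phiC_spec (N * ℓ)) u y hy (zetaU ℓ) rfl b h
  rw [Finset.prod_congr rfl h2]
  exact h1


/-! ### (D) the coset representatives -/

theorem famT_A_eq_utGL (N ℓ : ℕ) [NeZero N] [Fact ℓ.Prime] (hℓN : ¬ ℓ ∣ N)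
    (i : (famT N ℓ hℓN).ι) (a b d : ℕ) (ha : a ≠ 0) (hd : d ≠ 0)
    (h : (famT N ℓ hℓN).a i = !![(a : ℤ), (b : ℤ); 0, (d : ℤ)]) :
    (famT N ℓ hℓN).A i = utGL a b d ha hd := by
  apply Units.ext
  rw [(famT N ℓ hℓN).hA, val_utGL, h]
  rfl

theorem famT_A_infty (N ℓ : ℕ) [NeZero N] [Fact ℓ.Prime] (hℓN : ¬ ℓ ∣ N) (hℓ0 : ℓ ≠ 0) :
    (famT N ℓ hℓN).A (OnePoint.infty : OnePoint (ZMod ℓ)) = utGL ℓ 0 1 hℓ0 one_ne_zero := by
  apply famT_A_eq_utGL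
  show aT ℓ OnePoint.infty = _
  rw [aT_infty]
  simp

theorem famT_A_coe (N ℓ : ℕ) [NeZero N] [Fact ℓ.Prime] (hℓN : ¬ ℓ ∣ N) (hℓ0 : ℓ ≠ 0)
    (t : ℕ) (ht : t < ℓ) :
    (famT N ℓ hℓN).A (((t : ZMod ℓ) : OnePoint (ZMod ℓ))) = utGL 1 t ℓ one_ne_zero hℓ0 := by
  apply famT_A_eq_utGL
  show aT ℓ ((t : ZMod ℓ) : OnePoint (ZMod ℓ)) = _
  rw [aT_coe, aU, ZMod.val_cast_of_lt ht]
  simp

theorem prod_zmod_eq_prod_range (ℓ : ℕ) [NeZero ℓ] {M : Type*} [CommMonoid M] (g : ZMod ℓ → M) :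
    ∏ j : ZMod ℓ, g j = ∏ t ∈ Finset.range ℓ, g (t : ZMod ℓ) := by
  symm
  refine Finset.prod_bij (fun t _ => (t : ZMod ℓ)) (fun _ _ => Finset.mem_univ _) ?_ ?_
    (fun _ _ => rfl)
  · intro t₁ h₁ t₂ h₂ h
    have := congrArg ZMod.val h
    rwa [ZMod.val_cast_of_lt (Finset.mem_range.mp h₁),
      ZMod.val_cast_of_lt (Finset.mem_range.mp h₂)] at this
  · intro j _
    exact ⟨j.val, Finset.mem_range.mpr (ZMod.val_lt j), ZMod.natCast_zmod_val j⟩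

/-- the product over the coset family `famT`, spelled out. -/
theorem prod_famT (N ℓ : ℕ) [NeZero N] [Fact ℓ.Prime] (hℓN : ¬ ℓ ∣ N) (hℓ0 : ℓ ≠ 0)
    (W : ℍ → ℂ) (τ : ℍ) :
    ∏ i : (famT N ℓ hℓN).ι, W ((famT N ℓ hℓN).A i • τ)
      = W (utGL ℓ 0 1 hℓ0 one_ne_zero • τ)
        * ∏ t ∈ Finset.range ℓ, W (utGL 1 t ℓ one_ne_zero hℓ0 • τ) := by
  have h1 := Fintype.prod_option
    (fun x : OnePoint (ZMod ℓ) => W ((famT N ℓ hℓN).A x • τ))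
  have h2 : ∏ i : (famT N ℓ hℓN).ι, W ((famT N ℓ hℓN).A i • τ)
      = W ((famT N ℓ hℓN).A (OnePoint.infty : OnePoint (ZMod ℓ)) • τ)
        * ∏ j : ZMod ℓ, W ((famT N ℓ hℓN).A ((j : OnePoint (ZMod ℓ))) • τ) := h1
  rw [h2, famT_A_infty N ℓ hℓN hℓ0, prod_zmod_eq_prod_range]
  congr 1
  exact Finset.prod_congr rfl (fun t ht => by
    rw [famT_A_coe N ℓ hℓN hℓ0 t (Finset.mem_range.mp ht)])

theorem dmat_mem (N ℓ u y : ℕ) (h : (ℓ : ℤ) * y - ((1 : ℕ) : ℤ) * u * N = 1) :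
    dmat ℓ 1 u N y h ∈ Gamma0 N := by
  rw [Gamma0_mem]
  simp [dmat]

/-- `diag(ℓ, 1) · gmat N (t + u) = dmat · [[1, t], [0, ℓ]]` as Möbius transformations. -/
theorem utGL_gmat_smul (N ℓ u y t : ℕ) (hℓ0 : ℓ ≠ 0) (hy : N * u + 1 = ℓ * y)
    (h : (ℓ : ℤ) * y - ((1 : ℕ) : ℤ) * u * N = 1) (τ : ℍ) :
    utGL ℓ 0 1 hℓ0 one_ne_zero • (gmat N (t + u) • τ)
      = dmat ℓ 1 u N y h • (utGL 1 t ℓ one_ne_zero hℓ0 • τ) := by
  have h1 := utGL_mul_sl (ℓ * 1) 0 1 1 (1 * t) ℓ (by simpa using hℓ0) one_ne_zero one_ne_zero hℓ0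
    (gmat N (t + u)) (dmat ℓ 1 u N y h) (matrix_identity N ℓ 1 N u y t (one_mul N).symm hy h) τ
  simpa only [mul_one, one_mul] using h1

/-! ### Holomorphy and non-vanishing of finite products -/

theorem mdiff_comp_utGL {W : ℍ → ℂ} (hW : MDiff W) (a b d : ℕ) (ha : a ≠ 0) (hd : d ≠ 0) :
    MDiff (fun τ : ℍ => W (utGL a b d ha hd • τ)) := by
  have hdet : (0 : ℝ) < (utGL a b d ha hd).det.val := by
    rw [Matrix.GeneralLinearGroup.val_det_apply, val_utGL, ← RingHom.mapMatrix_apply,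
      ← RingHom.map_det, Matrix.det_fin_two_of, mul_zero, sub_zero, eq_intCast]
    have ha' : (0 : ℝ) < a := by exact_mod_cast Nat.pos_of_ne_zero ha
    have hd' : (0 : ℝ) < d := by exact_mod_cast Nat.pos_of_ne_zero hd
    push_cast
    exact mul_pos ha' hd'
  exact hW.comp (mdifferentiable_smul hdet)

theorem ne_comp_smul {G : Type*} [Group G] [MulAction G ℍ] {W : ℍ → ℂ} (hne : ∃ τ, W τ ≠ 0)
    (g : G) : ∃ τ, W (g • τ) ≠ 0 := by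
  obtain ⟨τ, hτ⟩ := hne
  exact ⟨g⁻¹ • τ, by rwa [smul_inv_smul]⟩

theorem mdiff_prod {ι : Type*} (s : Finset ι) (F : ι → ℍ → ℂ) (hF : ∀ i ∈ s, MDiff (F i)) :
    MDiff (fun τ => ∏ i ∈ s, F i τ) := by
  classical
  induction s using Finset.induction_on with
  | empty => simpa using (mdifferentiable_const : MDiff (fun _ : ℍ => (1 : ℂ)))
  | insert a s ha ih =>
    have ih' := ih (fun i hi => hF i (Finset.mem_insert_of_mem hi))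
    have h2 : (fun τ => ∏ i ∈ insert a s, F i τ) = F a * (fun τ => ∏ i ∈ s, F i τ) := by
      funext τ
      rw [Finset.prod_insert ha]
      rfl
    rw [h2]
    exact (hF a (Finset.mem_insert_self a s)).mul ih'

theorem prod_ne {ι : Type*} (s : Finset ι) (F : ι → ℍ → ℂ) (hF : ∀ i ∈ s, MDiff (F i))
    (hne : ∀ i ∈ s, ∃ τ, F i τ ≠ 0) : ∃ τ, ∏ i ∈ s, F i τ ≠ 0 := by
  classical
  induction s using Finset.induction_on with
  | empty => simp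
  | insert a s ha ih =>
    have hF' : ∀ i ∈ s, MDiff (F i) := fun i hi => hF i (Finset.mem_insert_of_mem hi)
    have ih' := ih hF' (fun i hi => hne i (Finset.mem_insert_of_mem hi))
    obtain ⟨τ, hτ⟩ := KumHecke.mdiff_mul_ne (hF a (Finset.mem_insert_self a s))
      (mdiff_prod s F hF') (hne a (Finset.mem_insert_self a s)) ih'
    exact ⟨τ, by rw [Finset.prod_insert ha]; exact hτ⟩

theorem modRing_ne {M : ℕ} [NeZero M] {b : modRing ℂ M} (hb : b ≠ 0) :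
    ∃ τ, (b : ℍ → ℂ) τ ≠ 0 := by
  by_contra hcon
  push Not at hcon
  exact hb (Subtype.ext (funext hcon))


/-! ### (E) the assembly -/

theorem exists_aux (N ℓ : ℕ) (hℓ : ℓ.Prime) (hN : ¬ ℓ ∣ N) : ∃ u y : ℕ, N * u + 1 = ℓ * y := by
  have := Fact.mk hℓ
  have hN' : (N : ZMod ℓ) ≠ 0 := by
    rw [Ne, ZMod.natCast_eq_zero_iff]
    exact hN
  have hdvd : ℓ ∣ N * (-(N : ZMod ℓ)⁻¹).val + 1 := by
    rw [← ZMod.natCast_eq_zero_iff]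
    push_cast
    rw [ZMod.natCast_zmod_val]
    field_simp
    ring
  obtain ⟨y, hy⟩ := hdvd
  exact ⟨_, y, hy⟩

/-- a quotient `a / b` of modular functions which comes from the function field of `X₀(N)` is
`Γ₀(N)`-invariant, pointwise and cross-multiplied. -/
theorem inv_pointwise (N : ℕ) [NeZero N] (h : FC N) (a b : modRing ℂ N)
    (hab : phiC N h * algebraMap (modRing ℂ N) (ModField ℂ N) b
      = algebraMap (modRing ℂ N) (ModField ℂ N) a)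
    (κ : SL(2, ℤ)) (hκ : κ ∈ Gamma0 N) (τ : ℍ) :
    (a : ℍ → ℂ) (κ • τ) * (b : ℍ → ℂ) τ = (a : ℍ → ℂ) τ * (b : ℍ → ℂ) (κ • τ) := by
  have h1 : κ⁻¹ • phiC N h = phiC N h :=
    (funcFieldMap_smul_iff (phiC N) (phiC_spec N) κ⁻¹).mp (inv_mem hκ) h
  have h2 : phiC N h * algebraMap (modRing ℂ N) (ModField ℂ N) (κ⁻¹ • b)
      = algebraMap (modRing ℂ N) (ModField ℂ N) (κ⁻¹ • a) := by
    rw [← smul_algebraMap_field, ← smul_algebraMap_field, ← hab, smul_mul', h1]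
  have h3 : (κ⁻¹ • a) * b = a * (κ⁻¹ • b) := by
    apply IsFractionRing.injective (modRing ℂ N) (ModField ℂ N)
    rw [map_mul, map_mul, ← h2, ← hab]
    ring
  have h4 := congrArg (fun f : modRing ℂ N => (f : ℍ → ℂ) τ) h3
  have h5 : (a : ℍ → ℂ) (κ⁻¹⁻¹ • τ) * (b : ℍ → ℂ) τ
      = (a : ℍ → ℂ) τ * (b : ℍ → ℂ) (κ⁻¹⁻¹ • τ) := h4
  rwa [inv_inv] at h5

/-- **The norm along `α` of `β h` is realized by the products of the translates**, relative to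
the two pullback statements `HB` (for `β`: composition with `τ ↦ ℓ τ`) and `HC` (for `α`:
inclusion of level `N` into level `N ℓ`). -/
theorem norm_realizes_of (N ℓ : ℕ) [NeZero N] [Fact ℓ.Prime] (hℓN : ¬ ℓ ∣ N)
    (HB : ∀ (h : FC N) (a b : modRing ℂ N), b ≠ 0 →
      phiC N h * algebraMap (modRing ℂ N) (ModField ℂ N) b
        = algebraMap (modRing ℂ N) (ModField ℂ N) a →
      ∃ a' b' : modRing ℂ (N * ℓ), b' ≠ 0 ∧
        phiC (N * ℓ) (heckeBetaBar ℂ N ℓ h)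
            * algebraMap (modRing ℂ (N * ℓ)) (ModField ℂ (N * ℓ)) b'
          = algebraMap (modRing ℂ (N * ℓ)) (ModField ℂ (N * ℓ)) a' ∧
        (∀ τ : ℍ, (a' : ℍ → ℂ) τ
          = (a : ℍ → ℂ) ((famT N ℓ hℓN).A (OnePoint.infty : OnePoint (ZMod ℓ)) • τ)) ∧
        (∀ τ : ℍ, (b' : ℍ → ℂ) τ
          = (b : ℍ → ℂ) ((famT N ℓ hℓN).A (OnePoint.infty : OnePoint (ZMod ℓ)) • τ)))
    (HC : ∀ (x : FC N) (a b : modRing ℂ N), b ≠ 0 →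
      phiC N x * algebraMap (modRing ℂ N) (ModField ℂ N) b
        = algebraMap (modRing ℂ N) (ModField ℂ N) a →
      ∃ a' b' : modRing ℂ (N * ℓ), b' ≠ 0 ∧
        phiC (N * ℓ) (heckeAlphaBar ℂ N ℓ x)
            * algebraMap (modRing ℂ (N * ℓ)) (ModField ℂ (N * ℓ)) b'
          = algebraMap (modRing ℂ (N * ℓ)) (ModField ℂ (N * ℓ)) a' ∧
        (∀ τ : ℍ, (a' : ℍ → ℂ) τ = (a : ℍ → ℂ) τ) ∧
        (∀ τ : ℍ, (b' : ℍ → ℂ) τ = (b : ℍ → ℂ) τ))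
    (h : FC N) (W₁ W₂ : ℍ → ℂ) (hW₁ : MDiff W₁) (hW₂ : MDiff W₂) (hr : Realizes N h W₁ W₂) :
    Realizes N (normA ℂ N ℓ (heckeBetaBar ℂ N ℓ h))
      (fun τ => ∏ i : (famT N ℓ hℓN).ι, W₁ ((famT N ℓ hℓN).A i • τ))
      (fun τ => ∏ i : (famT N ℓ hℓN).ι, W₂ ((famT N ℓ hℓN).A i • τ)) := by
  classical
  have hℓ : ℓ.Prime := Fact.out
  have hℓ0 : ℓ ≠ 0 := hℓ.ne_zero
  obtain ⟨a, b, hb, hab, hpt⟩ := hr
  obtain ⟨u, y, hy⟩ := exists_aux N ℓ hℓ hℓN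
  have hd : (ℓ : ℤ) * y - ((1 : ℕ) : ℤ) * u * N = 1 := by
    have : (N : ℤ) * u + 1 = (ℓ : ℤ) * y := by exact_mod_cast hy
    push_cast
    linarith
  have hκ : dmat ℓ 1 u N y hd ∈ Gamma0 N := dmat_mem N ℓ u y hd
  have hA := phiC_norm N ℓ hℓ hℓN u y hy h
  obtain ⟨X, hX⟩ : ∃ X : FC N, X = normA ℂ N ℓ (heckeBetaBar ℂ N ℓ h) := ⟨_, rfl⟩
  rw [← hX] at hA ⊢
  obtain ⟨aX, bX, hbX, habX⟩ : ∃ aX bX : modRing ℂ N, bX ≠ 0 ∧
      phiC N X * algebraMap (modRing ℂ N) (ModField ℂ N) bX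
        = algebraMap (modRing ℂ N) (ModField ℂ N) aX := by
    obtain ⟨aX, bX, hbX, hfrac⟩ := IsFractionRing.div_surjective (A := modRing ℂ N) (phiC N X)
    have hbX0 : bX ≠ 0 := nonZeroDivisors.ne_zero hbX
    refine ⟨aX, bX, hbX0, ?_⟩
    rw [← hfrac, div_mul_cancel₀]
    exact (map_ne_zero_iff _ (IsFractionRing.injective (modRing ℂ N) (ModField ℂ N))).mpr hbX0
  obtain ⟨a', b', hb', hab', ha'pt, hb'pt⟩ := HB h a b hb hab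
  obtain ⟨aX', bX', hbX', habX', haX'pt, hbX'pt⟩ := HC X aX bX hbX habX
  simp only [famT_A_infty N ℓ hℓN hℓ0] at ha'pt hb'pt
  have hconj : ∀ t : ℕ, ((gmat N (t + u))⁻¹ • phiC (N * ℓ) (heckeBetaBar ℂ N ℓ h))
      * algebraMap (modRing ℂ (N * ℓ)) (ModField ℂ (N * ℓ)) ((gmat N (t + u))⁻¹ • b')
      = algebraMap (modRing ℂ (N * ℓ)) (ModField ℂ (N * ℓ)) ((gmat N (t + u))⁻¹ • a') := by
    intro t
    rw [← smul_algebraMap_field, ← smul_algebraMap_field, ← smul_mul', hab']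
  have hprod : phiC (N * ℓ) (heckeAlphaBar ℂ N ℓ X)
      * algebraMap (modRing ℂ (N * ℓ)) (ModField ℂ (N * ℓ))
        (b' * ∏ t ∈ Finset.range ℓ, (gmat N (t + u))⁻¹ • b')
      = algebraMap (modRing ℂ (N * ℓ)) (ModField ℂ (N * ℓ))
        (a' * ∏ t ∈ Finset.range ℓ, (gmat N (t + u))⁻¹ • a') := by
    rw [hA, map_mul, map_mul, map_prod, map_prod, ← hab',
      ← Finset.prod_congr rfl (fun t _ => hconj t), Finset.prod_mul_distrib]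
    ring
  have hring : aX' * (b' * ∏ t ∈ Finset.range ℓ, (gmat N (t + u))⁻¹ • b')
      = bX' * (a' * ∏ t ∈ Finset.range ℓ, (gmat N (t + u))⁻¹ • a') := by
    apply IsFractionRing.injective (modRing ℂ (N * ℓ)) (ModField ℂ (N * ℓ))
    rw [(algebraMap (modRing ℂ (N * ℓ)) (ModField ℂ (N * ℓ))).map_mul aX' _,
      (algebraMap (modRing ℂ (N * ℓ)) (ModField ℂ (N * ℓ))).map_mul bX' _, ← habX', ← hprod]
    ring
  -- pointwise form of `hring`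
  have hcoe : ∀ (c : modRing ℂ (N * ℓ)) (c0 : modRing ℂ N)
      (_ : ∀ τ : ℍ, (c : ℍ → ℂ) τ = (c0 : ℍ → ℂ) (utGL ℓ 0 1 hℓ0 one_ne_zero • τ)) (τ : ℍ),
      ((c * ∏ t ∈ Finset.range ℓ, (gmat N (t + u))⁻¹ • c : modRing ℂ (N * ℓ)) : ℍ → ℂ) τ
        = (c0 : ℍ → ℂ) (utGL ℓ 0 1 hℓ0 one_ne_zero • τ)
          * ∏ t ∈ Finset.range ℓ,
            (c0 : ℍ → ℂ) (dmat ℓ 1 u N y hd • (utGL 1 t ℓ one_ne_zero hℓ0 • τ)) := by
    intro c c0 hc τ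
    have hcp : ((∏ t ∈ Finset.range ℓ, (gmat N (t + u))⁻¹ • c : modRing ℂ (N * ℓ)) : ℍ → ℂ)
        = ∏ t ∈ Finset.range ℓ, (((gmat N (t + u))⁻¹ • c : modRing ℂ (N * ℓ)) : ℍ → ℂ) :=
      map_prod (modRing ℂ (N * ℓ)).val _ _
    rw [Subalgebra.coe_mul, Pi.mul_apply, hc τ, hcp, Finset.prod_apply]
    congr 1
    refine Finset.prod_congr rfl (fun t _ => ?_)
    rw [Tower.smul_apply, inv_inv, hc, utGL_gmat_smul N ℓ u y t hℓ0 hy hd τ]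
  have hstar : ∀ τ : ℍ, (aX : ℍ → ℂ) τ * ((b : ℍ → ℂ) (utGL ℓ 0 1 hℓ0 one_ne_zero • τ)
        * ∏ t ∈ Finset.range ℓ,
          (b : ℍ → ℂ) (dmat ℓ 1 u N y hd • (utGL 1 t ℓ one_ne_zero hℓ0 • τ)))
      = (bX : ℍ → ℂ) τ * ((a : ℍ → ℂ) (utGL ℓ 0 1 hℓ0 one_ne_zero • τ)
        * ∏ t ∈ Finset.range ℓ,
          (a : ℍ → ℂ) (dmat ℓ 1 u N y hd • (utGL 1 t ℓ one_ne_zero hℓ0 • τ))) := by
    intro τ
    have h4 := congrArg (fun f : modRing ℂ (N * ℓ) => (f : ℍ → ℂ) τ) hring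
    simp only [Subalgebra.coe_mul, Pi.mul_apply] at h4
    rw [← haX'pt τ, ← hbX'pt τ, ← hcoe b' b hb'pt τ, ← hcoe a' a ha'pt τ]
    simpa only [Subalgebra.coe_mul, Pi.mul_apply] using h4
  -- the holomorphic factor to be cancelled
  set D : ℍ → ℂ := fun τ => (b : ℍ → ℂ) (utGL ℓ 0 1 hℓ0 one_ne_zero • τ)
      * (∏ t ∈ Finset.range ℓ,
          (b : ℍ → ℂ) (dmat ℓ 1 u N y hd • (utGL 1 t ℓ one_ne_zero hℓ0 • τ)))
      * ∏ t ∈ Finset.range ℓ, (b : ℍ → ℂ) (utGL 1 t ℓ one_ne_zero hℓ0 • τ) with hD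
  set G : ℍ → ℂ := fun τ => (aX : ℍ → ℂ) τ * (W₂ (utGL ℓ 0 1 hℓ0 one_ne_zero • τ)
        * ∏ t ∈ Finset.range ℓ, W₂ (utGL 1 t ℓ one_ne_zero hℓ0 • τ))
      - (bX : ℍ → ℂ) τ * (W₁ (utGL ℓ 0 1 hℓ0 one_ne_zero • τ)
        * ∏ t ∈ Finset.range ℓ, W₁ (utGL 1 t ℓ one_ne_zero hℓ0 • τ)) with hG
  have hbne : ∃ τ, (b : ℍ → ℂ) τ ≠ 0 := modRing_ne hb
  have hbκ : MDiff (fun τ : ℍ => (b : ℍ → ℂ) (dmat ℓ 1 u N y hd • τ)) :=
    (b.2.comp_smul (dmat ℓ 1 u N y hd)).1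
  have hbκne : ∃ τ, (b : ℍ → ℂ) (dmat ℓ 1 u N y hd • τ) ≠ 0 := ne_comp_smul hbne _
  have hDm1 : MDiff (fun τ : ℍ => (b : ℍ → ℂ) (utGL ℓ 0 1 hℓ0 one_ne_zero • τ)) :=
    mdiff_comp_utGL b.2.1 _ _ _ _ _
  have hDm2 := mdiff_prod (Finset.range ℓ)
    (fun t τ => (b : ℍ → ℂ) (dmat ℓ 1 u N y hd • (utGL 1 t ℓ one_ne_zero hℓ0 • τ)))
    (fun t _ => mdiff_comp_utGL hbκ 1 t ℓ one_ne_zero hℓ0)
  have hDm3 := mdiff_prod (Finset.range ℓ)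
    (fun t τ => (b : ℍ → ℂ) (utGL 1 t ℓ one_ne_zero hℓ0 • τ))
    (fun t _ => mdiff_comp_utGL b.2.1 1 t ℓ one_ne_zero hℓ0)
  have hDn1 : ∃ τ, (b : ℍ → ℂ) (utGL ℓ 0 1 hℓ0 one_ne_zero • τ) ≠ 0 := ne_comp_smul hbne _
  have hDn2 := prod_ne (Finset.range ℓ)
    (fun t τ => (b : ℍ → ℂ) (dmat ℓ 1 u N y hd • (utGL 1 t ℓ one_ne_zero hℓ0 • τ)))
    (fun t _ => mdiff_comp_utGL hbκ 1 t ℓ one_ne_zero hℓ0)
    (fun t _ => ne_comp_smul (W := fun τ => (b : ℍ → ℂ) (dmat ℓ 1 u N y hd • τ)) hbκne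
      (utGL 1 t ℓ one_ne_zero hℓ0))
  have hDn3 := prod_ne (Finset.range ℓ)
    (fun t τ => (b : ℍ → ℂ) (utGL 1 t ℓ one_ne_zero hℓ0 • τ))
    (fun t _ => mdiff_comp_utGL b.2.1 1 t ℓ one_ne_zero hℓ0)
    (fun t _ => ne_comp_smul hbne (utGL 1 t ℓ one_ne_zero hℓ0))
  have hDmd : MDiff D := (hDm1.mul hDm2).mul hDm3
  have hDne : ∃ τ, D τ ≠ 0 :=
    KumHecke.mdiff_mul_ne (hDm1.mul hDm2) hDm3 (KumHecke.mdiff_mul_ne hDm1 hDm2 hDn1 hDn2) hDn3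
  have hGm : MDiff G := by
    have e1 := mdiff_prod (Finset.range ℓ) (fun t τ => W₂ (utGL 1 t ℓ one_ne_zero hℓ0 • τ))
      (fun t _ => mdiff_comp_utGL hW₂ 1 t ℓ one_ne_zero hℓ0)
    have e2 := mdiff_prod (Finset.range ℓ) (fun t τ => W₁ (utGL 1 t ℓ one_ne_zero hℓ0 • τ))
      (fun t _ => mdiff_comp_utGL hW₁ 1 t ℓ one_ne_zero hℓ0)
    exact (aX.2.1.mul ((mdiff_comp_utGL hW₂ ℓ 0 1 hℓ0 one_ne_zero).mul e1)).sub
      (bX.2.1.mul ((mdiff_comp_utGL hW₁ ℓ 0 1 hℓ0 one_ne_zero).mul e2))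
  have hGD : ∀ τ : ℍ, G τ * D τ = 0 := by
    intro τ
    have i2 : (∏ t ∈ Finset.range ℓ,
          (a : ℍ → ℂ) (dmat ℓ 1 u N y hd • (utGL 1 t ℓ one_ne_zero hℓ0 • τ)))
        * ∏ t ∈ Finset.range ℓ, (b : ℍ → ℂ) (utGL 1 t ℓ one_ne_zero hℓ0 • τ)
        = (∏ t ∈ Finset.range ℓ, (a : ℍ → ℂ) (utGL 1 t ℓ one_ne_zero hℓ0 • τ))
        * ∏ t ∈ Finset.range ℓ,
          (b : ℍ → ℂ) (dmat ℓ 1 u N y hd • (utGL 1 t ℓ one_ne_zero hℓ0 • τ)) := by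
      rw [← Finset.prod_mul_distrib, ← Finset.prod_mul_distrib]
      exact Finset.prod_congr rfl (fun t _ => inv_pointwise N h a b hab _ hκ _)
    have i3 : (∏ t ∈ Finset.range ℓ, (a : ℍ → ℂ) (utGL 1 t ℓ one_ne_zero hℓ0 • τ))
        * ∏ t ∈ Finset.range ℓ, W₂ (utGL 1 t ℓ one_ne_zero hℓ0 • τ)
        = (∏ t ∈ Finset.range ℓ, (b : ℍ → ℂ) (utGL 1 t ℓ one_ne_zero hℓ0 • τ))
        * ∏ t ∈ Finset.range ℓ, W₁ (utGL 1 t ℓ one_ne_zero hℓ0 • τ) := by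
      rw [← Finset.prod_mul_distrib, ← Finset.prod_mul_distrib]
      exact Finset.prod_congr rfl (fun t _ => hpt _)
    have i4 := hpt (utGL ℓ 0 1 hℓ0 one_ne_zero • τ)
    have i1 := hstar τ
    simp only [hG, hD]
    linear_combination
      (W₂ (utGL ℓ 0 1 hℓ0 one_ne_zero • τ)
          * (∏ t ∈ Finset.range ℓ, W₂ (utGL 1 t ℓ one_ne_zero hℓ0 • τ))
          * ∏ t ∈ Finset.range ℓ, (b : ℍ → ℂ) (utGL 1 t ℓ one_ne_zero hℓ0 • τ)) * i1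
      + ((bX : ℍ → ℂ) τ
          * (∏ t ∈ Finset.range ℓ,
              (a : ℍ → ℂ) (dmat ℓ 1 u N y hd • (utGL 1 t ℓ one_ne_zero hℓ0 • τ)))
          * (∏ t ∈ Finset.range ℓ, W₂ (utGL 1 t ℓ one_ne_zero hℓ0 • τ))
          * ∏ t ∈ Finset.range ℓ, (b : ℍ → ℂ) (utGL 1 t ℓ one_ne_zero hℓ0 • τ)) * i4
      + ((bX : ℍ → ℂ) τ * (b : ℍ → ℂ) (utGL ℓ 0 1 hℓ0 one_ne_zero • τ)
          * W₁ (utGL ℓ 0 1 hℓ0 one_ne_zero • τ)
          * ∏ t ∈ Finset.range ℓ, W₂ (utGL 1 t ℓ one_ne_zero hℓ0 • τ)) * i2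
      + ((bX : ℍ → ℂ) τ * (b : ℍ → ℂ) (utGL ℓ 0 1 hℓ0 one_ne_zero • τ)
          * W₁ (utGL ℓ 0 1 hℓ0 one_ne_zero • τ)
          * ∏ t ∈ Finset.range ℓ,
              (b : ℍ → ℂ) (dmat ℓ 1 u N y hd • (utGL 1 t ℓ one_ne_zero hℓ0 • τ))) * i3
  have hG0 : ∀ τ : ℍ, G τ = 0 := by
    by_contra hcon
    push Not at hcon
    obtain ⟨τ, hτ⟩ := KumHecke.mdiff_mul_ne hGm hDmd hcon hDne
    exact hτ (hGD τ)
  refine ⟨aX, bX, hbX, habX, fun τ => ?_⟩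
  show (aX : ℍ → ℂ) τ * ∏ i : (famT N ℓ hℓN).ι, W₂ ((famT N ℓ hℓN).A i • τ)
    = (bX : ℍ → ℂ) τ * ∏ i : (famT N ℓ hℓN).ι, W₁ ((famT N ℓ hℓN).A i • τ)
  rw [prod_famT N ℓ hℓN hℓ0 W₂ τ, prod_famT N ℓ hℓN hℓ0 W₁ τ]
  exact sub_eq_zero.mp (hG0 τ)

end Fermat.Agent.S29.KumNormE
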