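import Fermat.Agent.S29_Bridge
import Fermat.Agent.S29_Main
import Fermat.Agent.S29_KumNorm

/-!
# S29, (B5a) closed: `Bridge2.NormStatement`

`normStatement`: the statement `Bridge2.NormStatement` of `S29_Bridge` is
`KumNorm.norm_realizes` (`S29_KumNorm`).  `s29_of_pdiv`: the frozen S29 conclusion from the
single remaining leaf `Bridge2.PDivStatement` (B3).
-/

set_option autoImplicit false

open CuspForm CuspForm.IsNormalizedEigenform

namespace Fermat.Agent.S29.KumNormMain

/-- **(B5a)**: the norm statement of `S29_Bridge`. -/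
theorem normStatement : Bridge2.NormStatement :=
  fun N ℓ _ _ _ hℓN h W₁ W₂ hW₁ hW₂ hr =>
    KumNorm.norm_realizes N ℓ hℓN h W₁ W₂ hW₁ hW₂ hr

/-- the frozen S29 conclusion from the single remaining leaf (B3). -/
theorem s29_of_pdiv (HP : Bridge2.PDivStatement)
    {N : ℕ} {g : CuspForm (CongruenceSubgroup.Gamma0 N) 2} (hg : g.IsNormalizedEigenform)
    {p : ℕ} (hp : p.Prime) {k : Type} [Field k] [CharP k p]
    (φ : integralClosure ℤ ℂ →+* k) :
    ∃ ρ : ResidualGaloisRep k, ρ.IsAttachedTo g φ ∧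
      ∀ ℓ : ℕ, ℓ.Prime → ¬ ℓ ∣ N * p → ρ.IsUnramifiedAt ℓ :=
  Main.s29_of_open HP normStatement hg hp φ

end Fermat.Agent.S29.KumNormMain
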