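import Mathlib
import Fermat.Agent.S29_KumFun

/-!
# S29, bridge (B5a, pullbacks): the degeneracy maps `α`, `β` on modular functions

For `a ∈ modRing ℂ N`, both `a` itself and `τ ↦ a (ℓ τ)` are modular functions of level
`Γ(N ℓ)`, and they compute `φ_{Nℓ} ∘ α` and `φ_{Nℓ} ∘ β`:

* `pull_alpha`: if `φ_N x = a / b` then `φ_{Nℓ} (α x) = a / b` (same functions at level `N ℓ`);
* `pull_beta`: if `φ_N h = a / b` then `φ_{Nℓ} (β h) = (a ∘ L) / (b ∘ L)`, `L τ = ℓ τ`.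
-/

set_option autoImplicit false
set_option linter.style.haveILetI false
set_option linter.unusedVariables false
set_option linter.unusedSectionVars false

noncomputable section

open UpperHalfPlane ModularCurve CongruenceSubgroup
open scoped MatrixGroups Manifold ModularForm

namespace Fermat.Agent.S29.KumPull

open Fermat.Agent.S24 Fermat.Agent.S24.Tower Fermat.Agent.S29 Fermat.Agent.S29.KumFun
open Fermat.Agent.S16.LB

/-! ### substitution `τ ↦ (a τ + b) / d` between arbitrary levels -/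

theorem qN_utGL_smul_gen (N₁ N₂ : ℕ) [NeZero N₁] [NeZero N₂] (a b d : ℕ) (ha : a ≠ 0)
    (hd : d ≠ 0) (m : ℕ) (hm : a * N₂ = m * (d * N₁)) (τ : ℍ) :
    qN N₁ (utGL a b d ha hd • τ) =
      Complex.exp (2 * Real.pi * Complex.I * b / (d * N₁)) * qN N₂ τ ^ m := by
  have hdet : 0 < ((utGL a b d ha hd).det : ℝ) := det_utGL_pos a b d ha hd
  have hcoe : ((utGL a b d ha hd • τ : ℍ) : ℂ) = ((a : ℂ) * τ + b) / d := by
    rw [UpperHalfPlane.coe_smul_of_det_pos hdet]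
    simp [UpperHalfPlane.num, UpperHalfPlane.denom, utGL, ModularForm.val_upperTriangularGL]
  simp only [qN, Function.Periodic.qParam]
  rw [hcoe, ← Complex.exp_nat_mul, ← Complex.exp_add]
  congr 1
  have hd' : (d : ℂ) ≠ 0 := Nat.cast_ne_zero.mpr hd
  have h1 : (N₁ : ℂ) ≠ 0 := Nat.cast_ne_zero.mpr (NeZero.ne N₁)
  have h2 : (N₂ : ℂ) ≠ 0 := Nat.cast_ne_zero.mpr (NeZero.ne N₂)
  have hmC : (a : ℂ) * N₂ = m * (d * N₁) := by exact_mod_cast hm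
  push_cast
  field_simp
  linear_combination (τ : ℂ) * hmC

/-- substitution `τ ↦ (a τ + b) / d` from level `N₁` to level `N₂` when
`a N₂ = m d N₁`: `q_{N₁} ((aτ+b)/d) = exp (2πi b / (d N₁)) * q_{N₂}(τ) ^ m`. -/
theorem hasLaurentExp_comp_utGL_gen {N₁ N₂ : ℕ} [NeZero N₁] [NeZero N₂] {φ : ℍ → ℂ}
    {s : LaurentSeries ℂ} (hφ : HasLaurentExp N₁ φ s)
    (a b d : ℕ) (ha : a ≠ 0) (hd : d ≠ 0) (m : ℕ) (hm0 : m ≠ 0) (hm : a * N₂ = m * (d * N₁)) :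
    HasLaurentExp N₂ (fun τ => φ (utGL a b d ha hd • τ))
      (substSeries m (Complex.exp (2 * Real.pi * Complex.I * b / (d * N₁))) s) := by
  obtain ⟨M, hM, hsum⟩ := hφ
  set c := Complex.exp (2 * Real.pi * Complex.I * b / (d * N₁)) with hc
  have hc0 : c ≠ 0 := Complex.exp_ne_zero _
  have hmZ : (0 : ℤ) < (m : ℤ) := by exact_mod_cast Nat.pos_of_ne_zero hm0
  refine ⟨m * M, fun n hn => ?_, fun τ => ?_⟩
  · rw [substSeries_coeff]
    split_ifs with hdvd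
    · obtain ⟨l, rfl⟩ := hdvd
      rw [Int.mul_ediv_cancel_left _ hmZ.ne']
      have hl : l < -(M : ℤ) := by
        push_cast at hn
        nlinarith
      rw [hM l hl, zero_mul]
    · rfl
  · set q := qN N₂ τ with hq
    set τ' := utGL a b d ha hd • τ with hτ'
    have h1 := (hsum τ').mul_left (c ^ (-(M : ℤ)))
    rw [hτ', qN_utGL_smul_gen N₁ N₂ a b d ha hd m hm τ, ← hc, ← hq, ← hτ'] at h1
    have hinj : Function.Injective (fun l : ℕ => m * l) := fun x y h =>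
      Nat.eq_of_mul_eq_mul_left (Nat.pos_of_ne_zero hm0) h
    set G : ℕ → ℂ := fun n => (substSeries m c s).coeff ((n : ℤ) - (m * M : ℕ)) * q ^ n with hG
    have hG0 : ∀ n ∉ Set.range (fun l : ℕ => m * l), G n = 0 := by
      intro n hn
      simp only [hG]
      rw [substSeries_coeff, if_neg, zero_mul]
      intro hdvd
      apply hn
      have h3 : (m : ℤ) ∣ (n : ℤ) := by
        have h2 : (m : ℤ) ∣ ((m * M : ℕ) : ℤ) := ⟨M, by push_cast; ring⟩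
        have := dvd_add hdvd h2
        simpa using this
      obtain ⟨l, hl⟩ := Int.natCast_dvd_natCast.mp h3
      exact ⟨l, hl.symm⟩
    have hGm : (G ∘ fun l : ℕ => m * l) =
        fun l : ℕ => c ^ (-(M : ℤ)) * (s.coeff ((l : ℤ) - M) * (c * q ^ m) ^ l) := by
      funext l
      simp only [Function.comp_apply, hG]
      have hdiv : (((m * l : ℕ) : ℤ) - ((m * M : ℕ) : ℤ)) = (m : ℤ) * ((l : ℤ) - M) := by
        push_cast; ring
      rw [substSeries_coeff, hdiv, if_pos (Dvd.intro _ rfl), Int.mul_ediv_cancel_left _ hmZ.ne',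
        zpow_sub₀ hc0, zpow_natCast, zpow_natCast, zpow_neg, zpow_natCast, mul_pow, ← pow_mul]
      field_simp
    have h2 : HasSum G (c ^ (-(M : ℤ)) * ((c * q ^ m) ^ M * φ τ')) := by
      rw [← hinj.hasSum_iff hG0, hGm]
      exact h1
    have hval : c ^ (-(M : ℤ)) * ((c * q ^ m) ^ M * φ τ') = q ^ (m * M) * φ τ' := by
      rw [zpow_neg, zpow_natCast, mul_pow, ← pow_mul]
      field_simp
    rw [hval] at h2
    exact h2

/-! ### congruence subgroups -/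

theorem gamma_dvd {M : ℕ} [NeZero M] {γ : SL(2, ℤ)} (hγ : γ ∈ Gamma M) :
    (M : ℤ) ∣ γ 0 0 - 1 ∧ (M : ℤ) ∣ γ 0 1 ∧ (M : ℤ) ∣ γ 1 0 ∧ (M : ℤ) ∣ γ 1 1 - 1 := by
  obtain ⟨h00, h01, h10, h11⟩ := Gamma_mem.mp hγ
  refine ⟨?_, ?_, ?_, ?_⟩
  · rw [← ZMod.intCast_zmod_eq_zero_iff_dvd]; push_cast; rw [h00]; ring
  · rw [← ZMod.intCast_zmod_eq_zero_iff_dvd]; exact h01
  · rw [← ZMod.intCast_zmod_eq_zero_iff_dvd]; exact h10
  · rw [← ZMod.intCast_zmod_eq_zero_iff_dvd]; push_cast; rw [h11]; ring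

theorem mem_gamma_of_dvd {M : ℕ} [NeZero M] {γ : SL(2, ℤ)}
    (h : (M : ℤ) ∣ γ 0 0 - 1 ∧ (M : ℤ) ∣ γ 0 1 ∧ (M : ℤ) ∣ γ 1 0 ∧ (M : ℤ) ∣ γ 1 1 - 1) :
    γ ∈ Gamma M := by
  rw [Gamma_mem]
  obtain ⟨d00, d01, d10, d11⟩ := h
  refine ⟨?_, ?_, ?_, ?_⟩
  · have := (ZMod.intCast_zmod_eq_zero_iff_dvd _ M).mpr d00
    push_cast at this
    exact sub_eq_zero.mp this
  · exact (ZMod.intCast_zmod_eq_zero_iff_dvd _ M).mpr d01
  · exact (ZMod.intCast_zmod_eq_zero_iff_dvd _ M).mpr d10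
  · have := (ZMod.intCast_zmod_eq_zero_iff_dvd _ M).mpr d11
    push_cast at this
    exact sub_eq_zero.mp this

variable (N ℓ : ℕ) [NeZero N] [NeZero ℓ]

theorem mem_Gamma_of_mem_Gamma_mul {γ : SL(2, ℤ)} (hγ : γ ∈ Gamma (N * ℓ)) : γ ∈ Gamma N := by
  obtain ⟨d00, d01, d10, d11⟩ := gamma_dvd hγ
  have hN : (N : ℤ) ∣ ((N * ℓ : ℕ) : ℤ) := ⟨ℓ, by push_cast; ring⟩
  exact mem_gamma_of_dvd ⟨hN.trans d00, hN.trans d01, hN.trans d10, hN.trans d11⟩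

/-- `diag(ℓ, 1) Γ(N ℓ) diag(ℓ, 1)⁻¹ ⊆ Γ(N)`. -/
theorem exists_conj_mem_Gamma (γ : SL(2, ℤ)) (hγ : γ ∈ Gamma (N * ℓ)) :
    ∃ δ ∈ Gamma N, !![(ℓ : ℤ), ((0 : ℕ) : ℤ); 0, ((1 : ℕ) : ℤ)] * (γ : Matrix (Fin 2) (Fin 2) ℤ)
      = (δ : Matrix (Fin 2) (Fin 2) ℤ) * !![(ℓ : ℤ), ((0 : ℕ) : ℤ); 0, ((1 : ℕ) : ℤ)] := by
  obtain ⟨d00, d01, d10, d11⟩ := gamma_dvd hγ
  obtain ⟨k, hk⟩ := d10
  obtain ⟨k01, hk01⟩ := d01
  obtain ⟨k00, hk00⟩ := d00
  obtain ⟨k11, hk11⟩ := d11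
  have hdet : γ 0 0 * γ 1 1 - γ 0 1 * γ 1 0 = 1 := by
    have := γ.det_coe
    rwa [Matrix.det_fin_two] at this
  have hδ : (!![γ 0 0, (ℓ : ℤ) * γ 0 1; (N : ℤ) * k, γ 1 1] : Matrix (Fin 2) (Fin 2) ℤ).det = 1 := by
    rw [Matrix.det_fin_two_of]
    rw [hk] at hdet
    push_cast at hdet
    linear_combination hdet
  refine ⟨⟨_, hδ⟩, mem_gamma_of_dvd ⟨?_, ?_, ?_, ?_⟩, ?_⟩
  · show (N : ℤ) ∣ γ 0 0 - 1
    exact ⟨ℓ * k00, by rw [hk00]; push_cast; ring⟩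
  · show (N : ℤ) ∣ (ℓ : ℤ) * γ 0 1
    exact ⟨ℓ * ℓ * k01, by rw [hk01]; push_cast; ring⟩
  · show (N : ℤ) ∣ (N : ℤ) * k
    exact ⟨k, rfl⟩
  · show (N : ℤ) ∣ γ 1 1 - 1
    exact ⟨ℓ * k11, by rw [hk11]; push_cast; ring⟩
  · ext i j
    fin_cases i <;> fin_cases j
    · simp [Matrix.mul_apply, Fin.sum_univ_two]; ring
    · simp [Matrix.mul_apply, Fin.sum_univ_two]
    · simp [Matrix.mul_apply, Fin.sum_univ_two]; rw [hk]; push_cast; ring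
    · simp [Matrix.mul_apply, Fin.sum_univ_two]

/-! ### level raising and pullback of expansions -/

theorem hasLaurentExp_level {f : ℍ → ℂ} {s : LaurentSeries ℂ} (hf : HasLaurentExp N f s) :
    HasLaurentExp (N * ℓ) f (qExpand ℂ ℓ s) := by
  have h := hasLaurentExp_comp_utGL_gen (N₁ := N) (N₂ := N * ℓ) hf 1 0 1 one_ne_zero one_ne_zero
    ℓ (NeZero.ne ℓ) (by ring)
  have hc : Complex.exp (2 * Real.pi * Complex.I * ((0 : ℕ) : ℂ) / (((1 : ℕ) : ℂ) * (N : ℂ)))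
      = 1 := by simp
  rw [hc, JFormal.substSeries_one_eq_qExpand] at h
  simpa only [utGL_one_smul] using h

theorem hasLaurentExp_pull {f : ℍ → ℂ} {s : LaurentSeries ℂ} (hf : HasLaurentExp N f s) :
    HasLaurentExp (N * ℓ) (fun τ => f (utGL ℓ 0 1 (NeZero.ne ℓ) one_ne_zero • τ))
      (qExpand ℂ (ℓ * ℓ) s) := by
  have h := hasLaurentExp_comp_utGL_gen (N₁ := N) (N₂ := N * ℓ) hf ℓ 0 1 (NeZero.ne ℓ) one_ne_zero
    (ℓ * ℓ) (mul_ne_zero (NeZero.ne ℓ) (NeZero.ne ℓ)) (by ring)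
  have hc : Complex.exp (2 * Real.pi * Complex.I * ((0 : ℕ) : ℂ) / (((1 : ℕ) : ℂ) * (N : ℂ)))
      = 1 := by simp
  rw [hc, JFormal.substSeries_one_eq_qExpand] at h
  exact h

/-- a modular function of level `Γ(N)` is one of level `Γ(N ℓ)`. -/
theorem isModFun_level {f : ℍ → ℂ} (hf : IsModFun ℂ N f) : IsModFun ℂ (N * ℓ) f := by
  refine ⟨hf.1, fun γ hγ τ => hf.2.1 γ (mem_Gamma_of_mem_Gamma_mul N ℓ hγ) τ, fun γ => ?_⟩
  obtain ⟨s, hs⟩ := hf.2.2 γ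
  rw [cmap_self] at hs
  exact ⟨qExpand ℂ ℓ s, by rw [cmap_self]; exact hasLaurentExp_level N ℓ hs⟩

/-- `τ ↦ f (ℓ τ)` is a modular function of level `Γ(N ℓ)`. -/
theorem isModFun_pull {f : ℍ → ℂ} (hf : IsModFun ℂ N f) :
    IsModFun ℂ (N * ℓ) (fun τ => f (utGL ℓ 0 1 (NeZero.ne ℓ) one_ne_zero • τ)) := by
  have hℓ : ℓ ≠ 0 := NeZero.ne ℓ
  have hdet : (!![(ℓ : ℤ), ((0 : ℕ) : ℤ); 0, ((1 : ℕ) : ℤ)] : Matrix (Fin 2) (Fin 2) ℤ).det
      = ℓ := by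
    simp [Matrix.det_fin_two]
  have hpos : (0 : ℤ) < ℓ := by exact_mod_cast Nat.pos_of_ne_zero hℓ
  refine ⟨hf.1.comp (mdifferentiable_smul (det_utGL_pos ℓ 0 1 hℓ one_ne_zero)),
    fun γ hγ τ => ?_, fun γ => ?_⟩
  · obtain ⟨δ, hδ, h⟩ := exists_conj_mem_Gamma N ℓ γ hγ
    show f (utGL ℓ 0 1 hℓ one_ne_zero • γ • τ) = f (utGL ℓ 0 1 hℓ one_ne_zero • τ)
    rw [utGL_mul_sl ℓ 0 1 ℓ 0 1 hℓ one_ne_zero hℓ one_ne_zero γ δ h, hf.2.1 δ hδ]
  · obtain ⟨δ, a', b', d', ha', hd', -, hdet', hδ⟩ := Hermite.exists_hermite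
      (!![(ℓ : ℤ), ((0 : ℕ) : ℤ); 0, ((1 : ℕ) : ℤ)] * (γ : Matrix (Fin 2) (Fin 2) ℤ)) (by
        rw [Matrix.det_mul, hdet, Matrix.SpecialLinearGroup.det_coe, mul_one]; exact hpos)
    rw [Matrix.det_mul, hdet, Matrix.SpecialLinearGroup.det_coe, mul_one] at hdet'
    have had : a' * d' = ℓ := by exact_mod_cast hdet'
    obtain ⟨s, hs⟩ := hf.2.2 δ
    rw [cmap_self] at hs
    have h := hasLaurentExp_comp_utGL_gen (N₁ := N) (N₂ := N * ℓ) hs a' b' d' ha'.ne' hd'.ne'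
      (a' * a') (mul_ne_zero ha'.ne' ha'.ne') (by rw [← had]; ring)
    refine ⟨substSeries (a' * a')
      (Complex.exp (2 * Real.pi * Complex.I * b' / (d' * N))) s, ?_⟩
    rw [cmap_self]
    have hfun : (fun τ => f (utGL ℓ 0 1 hℓ one_ne_zero • γ • τ))
        = fun τ => f (δ • utGL a' b' d' ha'.ne' hd'.ne' • τ) := by
      funext τ
      rw [utGL_mul_sl ℓ 0 1 a' b' d' hℓ one_ne_zero ha'.ne' hd'.ne' γ δ hδ]
    show HasLaurentExp (N * ℓ) (fun τ => f (utGL ℓ 0 1 hℓ one_ne_zero • γ • τ)) _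
    rw [hfun]
    exact h

/-- the same function at level `N ℓ`. -/
def lvl (a : modRing ℂ N) : modRing ℂ (N * ℓ) := ⟨(a : ℍ → ℂ), isModFun_level N ℓ a.2⟩

/-- the pullback `τ ↦ a (ℓ τ)` at level `N ℓ`. -/
def pull (a : modRing ℂ N) : modRing ℂ (N * ℓ) :=
  ⟨fun τ => (a : ℍ → ℂ) (utGL ℓ 0 1 (NeZero.ne ℓ) one_ne_zero • τ), isModFun_pull N ℓ a.2⟩

theorem expRing_lvl (a : modRing ℂ N) :
    expRing ℂ (N * ℓ) (lvl N ℓ a) = qExpand ℂ ℓ (expRing ℂ N a) := by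
  apply expRing_eq_of
  rw [cmap_self]
  have h := hasLaurentExp_expRing a
  rw [cmap_self] at h
  exact hasLaurentExp_level N ℓ h

theorem expRing_pull (a : modRing ℂ N) :
    expRing ℂ (N * ℓ) (pull N ℓ a) = qExpand ℂ (ℓ * ℓ) (expRing ℂ N a) := by
  apply expRing_eq_of
  rw [cmap_self]
  have h := hasLaurentExp_expRing a
  rw [cmap_self] at h
  exact hasLaurentExp_pull N ℓ h

/-! ### the comparison maps at levels `N` and `N ℓ` -/

theorem lvl_ne_zero {b : modRing ℂ N} (hb : b ≠ 0) : lvl N ℓ b ≠ 0 := by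
  intro h0
  apply hb
  apply Subtype.ext
  have h1 : ((lvl N ℓ b : modRing ℂ (N * ℓ)) : ℍ → ℂ) = ((0 : modRing ℂ (N * ℓ)) : ℍ → ℂ) :=
    congrArg Subtype.val h0
  exact h1

theorem pull_ne_zero {b : modRing ℂ N} (hb : b ≠ 0) : pull N ℓ b ≠ 0 := by
  intro h0
  apply hb
  apply expRing_injective ℂ N
  have h := expRing_pull N ℓ b
  rw [h0, map_zero] at h
  rw [map_zero]
  exact ((qExpand ℂ (ℓ * ℓ)).injective (h.symm.trans (map_zero _).symm))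

/-- **`φ_{Nℓ} ∘ α`**: the same quotient of functions, at level `N ℓ`. -/
theorem pull_alpha (x : FC N) (a b : modRing ℂ N) (hb : b ≠ 0)
    (hab : phiC N x * algebraMap (modRing ℂ N) (ModField ℂ N) b
      = algebraMap (modRing ℂ N) (ModField ℂ N) a) :
    ∃ a' b' : modRing ℂ (N * ℓ), b' ≠ 0 ∧
      phiC (N * ℓ) (heckeAlphaBar ℂ N ℓ x)
          * algebraMap (modRing ℂ (N * ℓ)) (ModField ℂ (N * ℓ)) b'
        = algebraMap (modRing ℂ (N * ℓ)) (ModField ℂ (N * ℓ)) a' ∧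
      (∀ τ : ℍ, (a' : ℍ → ℂ) τ = (a : ℍ → ℂ) τ) ∧ (∀ τ : ℍ, (b' : ℍ → ℂ) τ = (b : ℍ → ℂ) τ) := by
  refine ⟨lvl N ℓ a, lvl N ℓ b, lvl_ne_zero N ℓ hb, ?_, fun τ => rfl, fun τ => rfl⟩
  apply (expField ℂ (N * ℓ)).toRingHom.injective
  show expField ℂ (N * ℓ) (phiC (N * ℓ) (heckeAlphaBar ℂ N ℓ x)
      * algebraMap (modRing ℂ (N * ℓ)) (ModField ℂ (N * ℓ)) (lvl N ℓ b))
    = expField ℂ (N * ℓ) (algebraMap (modRing ℂ (N * ℓ)) (ModField ℂ (N * ℓ)) (lvl N ℓ a))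
  have h := congrArg (expField ℂ N) hab
  rw [map_mul, expField_algebraMap, expField_algebraMap, phiC_spec] at h
  rw [map_mul, expField_algebraMap, expField_algebraMap, phiC_spec, expRing_lvl, expRing_lvl,
    coe_heckeAlphaBar, ← h, map_mul, qExpand_qExpand]
  congr 1
  exact qExpand_congr (mul_comm N ℓ) _

/-- the matrix of `β` is `diag(ℓ, 1)`. -/
theorem famT_infty_smul [Fact ℓ.Prime] (hℓN : ¬ ℓ ∣ N) (τ : ℍ) :
    (famT N ℓ hℓN).A OnePoint.infty • τ = utGL ℓ 0 1 (NeZero.ne ℓ) one_ne_zero • τ := by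
  have : (famT N ℓ hℓN).A OnePoint.infty = utGL ℓ 0 1 (NeZero.ne ℓ) one_ne_zero := by
    apply Units.ext
    show ((ModularForm.heckeDiagMatrix ℓ : GL (Fin 2) ℝ) : Matrix (Fin 2) (Fin 2) ℝ) = _
    rw [ModularForm.val_heckeDiagMatrix (NeZero.ne ℓ)]
    ext i j
    fin_cases i <;> fin_cases j <;> simp [utGL]
  rw [this]

/-- **`φ_{Nℓ} ∘ β`**: the quotient of the pullbacks along `τ ↦ ℓ τ`. -/
theorem pull_beta [Fact ℓ.Prime] (hℓN : ¬ ℓ ∣ N) (h : FC N) (a b : modRing ℂ N) (hb : b ≠ 0)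
    (hab : phiC N h * algebraMap (modRing ℂ N) (ModField ℂ N) b
      = algebraMap (modRing ℂ N) (ModField ℂ N) a) :
    ∃ a' b' : modRing ℂ (N * ℓ), b' ≠ 0 ∧
      phiC (N * ℓ) (heckeBetaBar ℂ N ℓ h)
          * algebraMap (modRing ℂ (N * ℓ)) (ModField ℂ (N * ℓ)) b'
        = algebraMap (modRing ℂ (N * ℓ)) (ModField ℂ (N * ℓ)) a' ∧
      (∀ τ : ℍ, (a' : ℍ → ℂ) τ = (a : ℍ → ℂ) ((famT N ℓ hℓN).A OnePoint.infty • τ)) ∧
      (∀ τ : ℍ, (b' : ℍ → ℂ) τ = (b : ℍ → ℂ) ((famT N ℓ hℓN).A OnePoint.infty • τ)) := by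
  refine ⟨pull N ℓ a, pull N ℓ b, pull_ne_zero N ℓ hb, ?_,
    fun τ => by rw [famT_infty_smul N ℓ hℓN τ]; rfl,
    fun τ => by rw [famT_infty_smul N ℓ hℓN τ]; rfl⟩
  apply (expField ℂ (N * ℓ)).toRingHom.injective
  show expField ℂ (N * ℓ) (phiC (N * ℓ) (heckeBetaBar ℂ N ℓ h)
      * algebraMap (modRing ℂ (N * ℓ)) (ModField ℂ (N * ℓ)) (pull N ℓ b))
    = expField ℂ (N * ℓ) (algebraMap (modRing ℂ (N * ℓ)) (ModField ℂ (N * ℓ)) (pull N ℓ a))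
  have h' := congrArg (expField ℂ N) hab
  rw [map_mul, expField_algebraMap, expField_algebraMap, phiC_spec] at h'
  rw [map_mul, expField_algebraMap, expField_algebraMap, phiC_spec, expRing_pull, expRing_pull,
    coe_heckeBetaBar, ← h', map_mul, qExpand_qExpand, qExpand_qExpand]
  congr 1
  exact qExpand_congr (by ring) _

end Fermat.Agent.S29.KumPull
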