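import Mathlib
import Fermat.Agent.S24_Galois

/-!
# S29 (B3, place side): the Galois description of the places of `F` over a point of the line

In the setting of `S24.Galois.card_placesAt_eq_card_orbits` (`Γ` acting on `L ⊇ F ⊇ K(x)` through
a finite quotient with `L^Γ = K(x)`, `H` the subgroup fixing `F`, an integer valuation `w` of `L`
with `w (x - x₀) = E` preserved by `c`, and `c` of order at least `E` on `L`), every place `v` of
`F` over `x = x₀` is a conjugate of the restriction of `w`:
`w (g • f) = m * v.ord f` for all `f ∈ F`, with `m * k = E` and `g⁻¹ * c ^ k * g ∈ H`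
(`exists_conj_of_mem_placesAt`).
-/

set_option autoImplicit false
set_option linter.unusedSectionVars false
set_option linter.unusedVariables false

noncomputable section

open AlgebraicCurve IsDedekindDomain
open scoped Pointwise IntermediateField.algebraAdjoinAdjoin

namespace Fermat.Agent.S29.PlaceConj

open Fermat.Agent.S24 Fermat.Agent.S24.Galois

section Res

/-- residue fields stay equal to the algebraically closed constant field in integral
extensions -/
theorem exists_sub_mem_of_liesOver {k A S : Type*} [Field k] [IsAlgClosed k] [CommRing A]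
    [CommRing S] (φ : k →+* A) [Algebra A S] [Algebra.IsIntegral A S]
    (p : Ideal A) [p.IsMaximal] (P : Ideal S) [P.IsPrime] [P.LiesOver p]
    (hk : ∀ a : A, ∃ c : k, a - φ c ∈ p) (b : S) :
    ∃ c : k, b - algebraMap A S (φ c) ∈ P := by
  have hPmax : P.IsMaximal := Ideal.IsMaximal.of_liesOver_isMaximal P p
  let _ := Ideal.Quotient.field p
  let _ := Ideal.Quotient.field P
  have h1 : ((Ideal.Quotient.mk p).comp φ).IsIntegral := by
    apply RingHom.isIntegral_of_surjective
    intro z
    obtain ⟨a, rfl⟩ := Ideal.Quotient.mk_surjective z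
    obtain ⟨c, hc⟩ := hk a
    refine ⟨c, ?_⟩
    rw [RingHom.comp_apply, eq_comm]
    exact Ideal.Quotient.eq.mpr hc
  have h2 : (algebraMap (A ⧸ p) (S ⧸ P)).IsIntegral := fun z =>
    Algebra.IsIntegral.isIntegral z
  have h3 := IsAlgClosed.ringHom_bijective_of_isIntegral _ (h1.trans _ _ h2)
  obtain ⟨c, hc⟩ := h3.2 (Ideal.Quotient.mk P b)
  refine ⟨c, ?_⟩
  rw [← Ideal.Quotient.eq]
  exact hc.symm

/-- the decomposition group at a prime with residue field the algebraically closed constant
field of characteristic zero has as many elements as the ramification index -/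
theorem card_stabilizer_eq_ramificationIdx
    {k A S : Type*} [Field k] [IsAlgClosed k] [CharZero k] [CommRing A] [CommRing S]
    [IsDomain A] (φ : k →+* A) [Algebra A S]
    [Module.Finite A S] [Module.Flat A S] [IsDedekindDomain S]
    {G : Type*} [Group G] [Finite G] [MulSemiringAction G S] [IsGaloisGroup G A S]
    (p : Ideal A) [p.IsMaximal] (P : Ideal S) [P.IsPrime] [P.LiesOver p]
    (hk : ∀ a : A, ∃ c : k, a - φ c ∈ p) :
    Nat.card (MulAction.stabilizer G P) = P.ramificationIdx A := by
  have hint : Algebra.IsIntegral A S := Algebra.IsIntegral.of_finite A S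
  have hPmax : P.IsMaximal := Ideal.IsMaximal.of_liesOver_isMaximal P p
  have hchar : CharZero p.ResidueField :=
    charZero_of_injective_ringHom
      (f := (algebraMap A p.ResidueField).comp φ) (RingHom.injective _)
  have hf : P.inertiaDeg A = 1 := by
    rw [Ideal.inertiaDeg_eq_of_isMaximal p P]
    let _ := Ideal.Quotient.field p
    let _ := Ideal.Quotient.field P
    rw [finrank_eq_one_iff_of_nonzero' (1 : S ⧸ P) one_ne_zero]
    intro w
    obtain ⟨b, rfl⟩ := Ideal.Quotient.mk_surjective w
    obtain ⟨c, hc⟩ := exists_sub_mem_of_liesOver φ p P hk b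
    refine ⟨(Ideal.Quotient.mk p) (φ c), ?_⟩
    rw [Algebra.smul_def, mul_one]
    exact (Ideal.Quotient.eq.mpr hc).symm
  rw [Ideal.card_stabilizer_eq (G := G) p P, Ideal.ramificationIdxIn_eq_ramificationIdx p P G,
    Ideal.inertiaDegIn_eq_inertiaDeg p P G, hf, mul_one]

end Res

section Val

variable {K L : Type*} [Field K] [Field L] [Algebra K L] (u : IntVal K L)

theorem u_inv {y : L} (hy : y ≠ 0) : u.toFun y⁻¹ = -u.toFun y := by
  have h1 := u.map_mul' y y⁻¹ hy (inv_ne_zero hy)
  rw [mul_inv_cancel₀ hy, w_one] at h1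
  linarith

theorem u_zpow {y : L} (hy : y ≠ 0) (n : ℤ) : u.toFun (y ^ n) = n * u.toFun y := by
  obtain ⟨m, rfl | rfl⟩ := n.eq_nat_or_neg
  · rw [zpow_natCast, w_pow u hy]
  · rw [zpow_neg, zpow_natCast, u_inv u (pow_ne_zero _ hy), w_pow u hy]
    ring

/-- an integer valuation which is nonnegative on a Dedekind domain and vanishes outside a prime
is a multiple of the order at that prime -/
theorem intVal_eq_mul_ord
    {D : Type*} [CommRing D] [IsDedekindDomain D] [Algebra D L] [IsFractionRing D L]
    [Algebra K D] [IsScalarTower K D L]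
    (V : HeightOneSpectrum D)
    (h0 : ∀ d : D, d ≠ 0 → 0 ≤ u.toFun (algebraMap D L d))
    (h1 : ∀ d : D, d ∉ V.asIdeal → u.toFun (algebraMap D L d) ≤ 0) :
    ∃ m : ℤ, ∀ y : L, y ≠ 0 →
      u.toFun y = m * (Place.ofHeightOneSpectrum (K := K) V).ord y := by
  have hinj : Function.Injective (algebraMap D L) := IsFractionRing.injective D L
  have hint : ∀ y : L, y ≠ 0 → V.valuation L y ≤ 1 → 0 ≤ u.toFun y := by
    intro y hy hv
    obtain ⟨n, d, hnd⟩ := V.exists_primeCompl_mul_eq_of_integer y hv
    have hd0 : (d : D) ≠ 0 := fun h => d.2 (h ▸ V.asIdeal.zero_mem)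
    have hdL : algebraMap D L d ≠ 0 := (map_ne_zero_iff _ hinj).mpr hd0
    have hn0 : n ≠ 0 := by
      rintro rfl
      rw [map_zero] at hnd
      exact (mul_ne_zero hy hdL) hnd
    have h2 := u.map_mul' y _ hy hdL
    rw [hnd] at h2
    have h3 := h0 n hn0
    have h4 := h1 d d.2
    have h5 := h0 d hd0
    linarith
  have hunit : ∀ y : L, y ≠ 0 → V.valuation L y = 1 → u.toFun y = 0 := by
    intro y hy hv
    have h2 := hint y hy hv.le
    have h3 := hint y⁻¹ (inv_ne_zero hy) (by rw [map_inv₀, hv, inv_one])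
    rw [u_inv u hy] at h3
    linarith
  obtain ⟨ϖ, hϖ⟩ := V.valuation_exists_uniformizer L
  have hϖ0 : ϖ ≠ 0 := fun h => by rw [h, map_zero] at hϖ; exact WithZero.exp_ne_zero.symm hϖ
  refine ⟨u.toFun ϖ, fun y hy => ?_⟩
  rw [Places.ord_ofHeightOneSpectrum]
  set n : ℤ := -(WithZero.log (V.valuation L y)) with hn
  have hval : V.valuation L y = WithZero.exp (-n) := by
    rw [hn, neg_neg, WithZero.exp_log ((Valuation.ne_zero_iff _).mpr hy)]
  have hu : V.valuation L (y * ϖ ^ (-n)) = 1 := by
    rw [map_mul, map_zpow₀, hϖ, hval, ← WithZero.exp_zsmul, ← WithZero.exp_add]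
    simp
  have h2 := hunit _ (mul_ne_zero hy (zpow_ne_zero _ hϖ0)) hu
  rw [u.map_mul' _ _ hy (zpow_ne_zero _ hϖ0), u_zpow u hϖ0] at h2
  linarith

end Val

section Concrete

variable {K F L : Type*} [Field K] [IsAlgClosed K] [CharZero K] [Field F] [Algebra K F]
  [Field L] [Algebra K L] [Algebra F L] [IsScalarTower K F L]

attribute [local instance] algTS

/-- a subgroup of order `m` of a cyclic group `⟨c⟩` of order `m * k` contains `c ^ k` -/
theorem pow_mem_of_card {G : Type*} [Group G] [Finite G] (c : G) (B : Subgroup G)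
    (hB : B ≤ Subgroup.zpowers c) (m k : ℕ) (hm : Nat.card B = m) (hmk : m * k = orderOf c) :
    c ^ k ∈ B := by
  have hE : 0 < orderOf c := orderOf_pos c
  have hm0 : 0 < m := Nat.pos_of_ne_zero fun h => by rw [h, zero_mul] at hmk; omega
  have hk0 : 0 < k := Nat.pos_of_ne_zero fun h => by rw [h, mul_zero] at hmk; omega
  have hle : B ≤ Subgroup.zpowers (c ^ k) := by
    intro b hb
    obtain ⟨j, rfl⟩ := Subgroup.mem_zpowers_iff.mp (hB hb)
    have h1 : (c ^ j) ^ m = 1 := by
      have h2 : (⟨c ^ j, hb⟩ : B) ^ Nat.card B = 1 := pow_card_eq_one'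
      rw [hm] at h2
      exact congrArg Subtype.val h2
    rw [← zpow_natCast, ← zpow_mul, ← orderOf_dvd_iff_zpow_eq_one, ← hmk] at h1
    have h3 : (k : ℤ) ∣ j := by
      push_cast at h1
      rw [mul_comm j] at h1
      exact (mul_dvd_mul_iff_left (by exact_mod_cast hm0.ne')).mp h1
    obtain ⟨i, rfl⟩ := h3
    rw [zpow_mul, zpow_natCast]
    exact Subgroup.zpow_mem_zpowers _ i
  have hcard : Nat.card (Subgroup.zpowers (c ^ k)) = m := by
    rw [Nat.card_zpowers, orderOf_pow' c hk0.ne', ← hmk, Nat.gcd_mul_left_left,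
      Nat.mul_div_cancel _ hk0]
  have heq := Subgroup.eq_of_le_of_card_ge hle (by rw [hcard, hm])
  rw [heq]
  exact Subgroup.mem_zpowers _

/-- the main computation at the valuation prime of an integer valuation `u` of `L` -/
theorem conj_aux
    (x : F) (hx : Transcendental K x)
    [hD : IsDedekindDomain (integralClosure (Algebra.adjoin K {x}) F)]
    [hFr : IsFractionRing (integralClosure (Algebra.adjoin K {x}) F) F]
    {G : Type*} [Group G] [Finite G] [MulSemiringAction G L]
    [hG : IsGaloisGroup G (IntermediateField.adjoin K {x}) L]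
    (x₀ : K) (u : IntVal K L) (E : ℕ) (hE : 0 < E)
    (hu : u.toFun (algebraMap F L x - algebraMap K L x₀) = E)
    (c : G) (hc : ∀ y : L, y ≠ 0 → u.toFun (c • y) = u.toFun y)
    (hord : ∀ n : ℕ, 0 < n → n < E → c ^ n ≠ 1)
    (Q : HeightOneSpectrum (integralClosure (Algebra.adjoin K {x}) F))
    (hQ : ∀ t : integralClosure (Algebra.adjoin K {x}) F, t ∈ Q.asIdeal ↔
      (t = 0 ∨ 1 ≤ u.toFun (algebraMap F L (t : F)))) :
    ∃ m k : ℕ, m * k = E ∧
      (∀ f : F, f ≠ 0 → u.toFun (algebraMap F L f)
        = m * (Place.ofHeightOneSpectrum (K := K) Q).ord f) ∧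
      c ^ k ∈ fixingSubgroup G (Set.range (algebraMap F L)) := by
  -- instances
  have hfin : FiniteDimensional (IntermediateField.adjoin K {x}) L :=
    IsGaloisGroup.finiteDimensional G _ L
  have hcomm : SMulCommClass G (Algebra.adjoin K {x}) L := smulCommClass_adjoin x
  have hfrS := isFractionRing_S (K := K) (L := L) x
  have hdedS := isDedekindDomain_S (K := K) (L := L) x
  have hfinS := finite_S (K := K) (L := L) x
  have hflatS := flat_S (K := K) (L := L) x
  have hGS := isGaloisGroup_S (K := K) (L := L) x (G := G)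
  have ht1 := isScalarTower_ATS (K := K) (L := L) x
  have ht2 := isScalarTower_TSL (K := K) (L := L) x
  have hfaith := faithfulSMul_TS (K := K) (L := L) x
  have hintTS := isIntegral_TS (K := K) (L := L) x
  have hH'F : IsGaloisGroup (fixingSubgroup G (Set.range (algebraMap F L))) F L :=
    IsGaloisGroup.of_isScalarTower G (IntermediateField.adjoin K {x}) L F
  have hH'S := isGaloisGroup_TS (K := K) (L := L) x
    (fixingSubgroup G (Set.range (algebraMap F L)))
  -- the valuation prime
  have hA := algebraMap_adjoin_mem_valGE x x₀ u E hu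
  have hS : ∀ b : integralClosure (Algebra.adjoin K {x}) L, (b : L) ∈ valGE u 0 := fun b =>
    mem_valGE_zero_of_isIntegral u hA b.2
  have hP₀ : (valIdeal u (integralClosure (Algebra.adjoin K {x}) L) hS 1).IsPrime :=
    valIdeal_one_isPrime u _ hS
  -- the element `x - x₀`
  have hxne : x - algebraMap K F x₀ ≠ 0 := by
    intro h
    rw [sub_eq_zero] at h
    exact hx (h ▸ isAlgebraic_algebraMap x₀)
  have hsL : ((algebraMap (Algebra.adjoin K {x}) (integralClosure (Algebra.adjoin K {x}) L)
      (genA x - algebraMap K (Algebra.adjoin K {x}) x₀) :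
        integralClosure (Algebra.adjoin K {x}) L) : L)
      = algebraMap F L x - algebraMap K L x₀ := by
    rw [IsScalarTower.algebraMap_apply K F L, ← map_sub]
    rfl
  have hsne : algebraMap (Algebra.adjoin K {x}) (integralClosure (Algebra.adjoin K {x}) L)
      (genA x - algebraMap K (Algebra.adjoin K {x}) x₀) ≠ 0 := by
    intro h
    have h' := congrArg (Subtype.val) h
    rw [hsL, IsScalarTower.algebraMap_apply K F L, ← map_sub] at h'
    exact hxne ((algebraMap F L).injective (h'.trans (map_zero _).symm))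
  have hsP₀ : algebraMap (Algebra.adjoin K {x}) (integralClosure (Algebra.adjoin K {x}) L)
      (genA x - algebraMap K (Algebra.adjoin K {x}) x₀)
        ∈ valIdeal u (integralClosure (Algebra.adjoin K {x}) L) hS 1 := by
    right
    rw [hsL, hu]
    exact_mod_cast hE
  -- the prime below
  have hple : idealAt x x₀
      ≤ (valIdeal u (integralClosure (Algebra.adjoin K {x}) L) hS 1).under
        (Algebra.adjoin K {x}) := by
    unfold idealAt
    rw [Ideal.span_le, Set.singleton_subset_iff]
    exact hsP₀
  have hunder_ne : (valIdeal u (integralClosure (Algebra.adjoin K {x}) L) hS 1).under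
      (Algebra.adjoin K {x}) ≠ ⊤ := Ideal.IsPrime.ne_top inferInstance
  have hpne : idealAt x x₀ ≠ ⊤ := fun h => hunder_ne (top_le_iff.mp (h ▸ hple))
  have hpmax : (idealAt x x₀).IsMaximal := idealAt_isMaximal x x₀ hpne
  have hlies : (valIdeal u (integralClosure (Algebra.adjoin K {x}) L) hS 1).LiesOver
      (idealAt x x₀) := ⟨(eq_idealAt_of_le x x₀ _ hunder_ne hple).symm⟩
  have hsmap : algebraMap (Algebra.adjoin K {x}) (integralClosure (Algebra.adjoin K {x}) L)
      (genA x - algebraMap K (Algebra.adjoin K {x}) x₀)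
        ∈ (idealAt x x₀).map
          (algebraMap (Algebra.adjoin K {x}) (integralClosure (Algebra.adjoin K {x}) L)) :=
    Ideal.mem_map_of_mem _ (Ideal.subset_span rfl)
  have hpS : (idealAt x x₀).map
      (algebraMap (Algebra.adjoin K {x}) (integralClosure (Algebra.adjoin K {x}) L)) ≠ ⊥ := by
    intro h
    rw [h] at hsmap
    exact hsne hsmap
  -- the decomposition group
  have hσ : c • valIdeal u (integralClosure (Algebra.adjoin K {x}) L) hS 1
      = valIdeal u (integralClosure (Algebra.adjoin K {x}) L) hS 1 := by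
    ext b
    rw [Ideal.mem_pointwise_smul_iff_inv_smul_mem]
    change (c⁻¹ • (b : L)) ∈ valGE u 1 ↔ (b : L) ∈ valGE u 1
    by_cases hb : (b : L) = 0
    · rw [hb, smul_zero]
    · have hb' : c⁻¹ • (b : L) ≠ 0 := by
        rwa [Ne, smul_eq_zero_iff_eq]
      have hval : u.toFun (c⁻¹ • (b : L)) = u.toFun (b : L) := by
        have := hc _ hb'
        rw [smul_inv_smul] at this
        exact this.symm
      rw [mem_valGE, mem_valGE, hval]
      simp [hb, hb']
  have hPne : valIdeal u (integralClosure (Algebra.adjoin K {x}) L) hS 1 ≠ ⊥ := by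
    intro h
    rw [h] at hsP₀
    exact hsne hsP₀
  -- the place of `L` at the valuation prime
  let V : HeightOneSpectrum (integralClosure (Algebra.adjoin K {x}) L) :=
    ⟨valIdeal u (integralClosure (Algebra.adjoin K {x}) L) hS 1, hP₀, hPne⟩
  have hcardG : Nat.card (MulAction.stabilizer G V.asIdeal)
      = Ideal.ramificationIdx' (idealAt x x₀) V.asIdeal := by
    rw [card_stabilizer_eq_ramificationIdx (algebraMap K (Algebra.adjoin K {x}))
      (idealAt x x₀) V.asIdeal (exists_sub_mem_idealAt x x₀),
      Ideal.ramificationIdx'_eq_ramificationIdx' (idealAt x x₀) V.asIdeal hpS]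
  have hordξ : (Place.ofHeightOneSpectrum (K := K) V).ord
      (algebraMap F L x - algebraMap K L x₀)
      = (Ideal.ramificationIdx' (idealAt x x₀) V.asIdeal : ℤ) := by
    rw [← hsL]
    have h1 := Places.ord_ofHeightOneSpectrum_algebraMap (K := K) (F := L) V hsne
    rw [Ideal.IsDedekindDomain.ramificationIdx'_eq_multiplicity hpS hP₀]
    rw [show (idealAt x x₀).map
      (algebraMap (Algebra.adjoin K {x}) (integralClosure (Algebra.adjoin K {x}) L))
        = Ideal.span {algebraMap (Algebra.adjoin K {x})
          (integralClosure (Algebra.adjoin K {x}) L)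
          (genA x - algebraMap K (Algebra.adjoin K {x}) x₀)} by
      unfold idealAt
      rw [Ideal.map_span, Set.image_singleton]]
    exact h1
  -- `u` is the order at the valuation prime
  obtain ⟨m₀, hm₀⟩ := intVal_eq_mul_ord u V
    (fun d hd => by
      rcases hS d with h | h
      · exact absurd (Subtype.ext h) hd
      · exact h)
    (fun d hd => by
      by_contra hcon
      exact hd (Or.inr (by
        have : (0 : ℤ) < u.toFun (d : L) := not_le.mp hcon
        have h1 : ((1 : ℕ) : ℤ) ≤ u.toFun (d : L) := by push_cast; omega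
        exact h1)))
  have hξL0 : algebraMap F L x - algebraMap K L x₀ ≠ 0 := by
    rw [← hsL]
    exact fun h => hsne (Subtype.ext h)
  have hzle : Subgroup.zpowers c ≤ MulAction.stabilizer G V.asIdeal :=
    (Subgroup.zpowers_le).mpr (MulAction.mem_stabilizer_iff.mpr hσ)
  have hEle : E ≤ Nat.card (Subgroup.zpowers c) := by
    rw [Nat.card_zpowers]
    by_contra hlt
    exact hord (orderOf c) (orderOf_pos c) (not_le.mp hlt) (pow_orderOf_eq_one c)
  have hcle : Nat.card (Subgroup.zpowers c) ≤ Nat.card (MulAction.stabilizer G V.asIdeal) :=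
    Subgroup.card_le_of_le hzle
  have h2 := hm₀ _ hξL0
  rw [hu, hordξ, ← hcardG] at h2
  have hN : (E : ℤ) ≤ (Nat.card (MulAction.stabilizer G V.asIdeal) : ℤ) := by
    exact_mod_cast hEle.trans hcle
  have hE0 : (0 : ℤ) < E := by exact_mod_cast hE
  have hm1 : m₀ = 1 := by
    rcases lt_trichotomy m₀ 1 with h | h | h
    · have : m₀ * (Nat.card (MulAction.stabilizer G V.asIdeal) : ℤ) ≤ 0 :=
        mul_nonpos_of_nonpos_of_nonneg (by omega) (by positivity)
      omega
    · exact h
    · have : 2 * (Nat.card (MulAction.stabilizer G V.asIdeal) : ℤ)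
          ≤ m₀ * (Nat.card (MulAction.stabilizer G V.asIdeal) : ℤ) :=
        mul_le_mul_of_nonneg_right (by omega) (by positivity)
      omega
  have hcardE : Nat.card (MulAction.stabilizer G V.asIdeal) = E := by
    rw [hm1, one_mul] at h2
    exact_mod_cast h2.symm
  have hstab : MulAction.stabilizer G V.asIdeal = Subgroup.zpowers c :=
    (Subgroup.eq_of_le_of_card_ge hzle (by rw [hcardE]; exact hEle)).symm
  have horder : orderOf c = E := by
    rw [← Nat.card_zpowers, ← hstab, hcardE]
  -- the prime of `T` below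
  have hVQ : V.asIdeal.LiesOver Q.asIdeal := ⟨by
    ext t
    rw [hQ t, Ideal.under_def, Ideal.mem_comap]
    change _ ↔ (algebraMap F L (t : F)) ∈ valGE u 1
    rw [mem_valGE]
    constructor
    · rintro (h | h)
      · left; rw [h]; simp
      · right; exact_mod_cast h
    · rintro (h | h)
      · left
        exact Subtype.ext ((algebraMap F L).injective (h.trans (map_zero _).symm))
      · right; exact_mod_cast h⟩
  have htf : Module.IsTorsionFree (integralClosure (Algebra.adjoin K {x}) F)
      (integralClosure (Algebra.adjoin K {x}) L) := inferInstance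
  have hordF : ∀ f : F, f ≠ 0 →
      (Place.ofHeightOneSpectrum (K := K) V).ord (algebraMap F L f)
        = (Ideal.ramificationIdx' Q.asIdeal V.asIdeal : ℤ)
          * (Place.ofHeightOneSpectrum (K := K) Q).ord f := by
    intro f hf
    rw [Places.ord_ofHeightOneSpectrum, Places.ord_ofHeightOneSpectrum,
      ← HeightOneSpectrum.valuation_liesOver L Q V f, WithZero.log_pow]
    simp
  -- the decomposition group in `H'`
  have hQmax : Q.asIdeal.IsMaximal := Q.isMaximal
  have hQp : Q.asIdeal.LiesOver (idealAt x x₀) :=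
    Ideal.LiesOver.tower_bot V.asIdeal Q.asIdeal (idealAt x x₀)
  have hkT : ∀ t : integralClosure (Algebra.adjoin K {x}) F, ∃ c : K,
      t - ((algebraMap (Algebra.adjoin K {x}) (integralClosure (Algebra.adjoin K {x}) F)).comp
        (algebraMap K (Algebra.adjoin K {x}))) c ∈ Q.asIdeal := fun t =>
    exists_sub_mem_of_liesOver (algebraMap K (Algebra.adjoin K {x})) (idealAt x x₀) Q.asIdeal
      (exists_sub_mem_idealAt x x₀) t
  have hfinTS : Module.Finite (integralClosure (Algebra.adjoin K {x}) F)
      (integralClosure (Algebra.adjoin K {x}) L) :=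
    Module.Finite.of_restrictScalars_finite (Algebra.adjoin K {x}) _ _
  have hflatTS : Module.Flat (integralClosure (Algebra.adjoin K {x}) F)
      (integralClosure (Algebra.adjoin K {x}) L) := inferInstance
  have hmapQ : Q.asIdeal.map (algebraMap (integralClosure (Algebra.adjoin K {x}) F)
      (integralClosure (Algebra.adjoin K {x}) L)) ≠ ⊥ := Ideal.map_ne_bot_of_ne_bot Q.ne_bot
  have hcardH : Nat.card (MulAction.stabilizer
      (fixingSubgroup G (Set.range (algebraMap F L))) V.asIdeal)
      = Ideal.ramificationIdx' Q.asIdeal V.asIdeal := by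
    have h3 := card_stabilizer_eq_ramificationIdx
      (G := fixingSubgroup G (Set.range (algebraMap F L)))
      ((algebraMap (Algebra.adjoin K {x}) (integralClosure (Algebra.adjoin K {x}) F)).comp
        (algebraMap K (Algebra.adjoin K {x}))) Q.asIdeal V.asIdeal hkT
    rw [Ideal.ramificationIdx'_eq_ramificationIdx' Q.asIdeal V.asIdeal hmapQ]
    exact h3
  -- group theory
  have hBle : (MulAction.stabilizer (fixingSubgroup G (Set.range (algebraMap F L)))
      V.asIdeal).map (fixingSubgroup G (Set.range (algebraMap F L))).subtype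
        ≤ Subgroup.zpowers c := by
    rw [← hstab]
    rintro _ ⟨h, hh, rfl⟩
    exact hh
  have hBcard : Nat.card ((MulAction.stabilizer (fixingSubgroup G (Set.range (algebraMap F L)))
      V.asIdeal).map (fixingSubgroup G (Set.range (algebraMap F L))).subtype)
        = Ideal.ramificationIdx' Q.asIdeal V.asIdeal := by
    rw [Subgroup.card_map_of_injective (Subgroup.subtype_injective _), hcardH]
  have hdvd : Ideal.ramificationIdx' Q.asIdeal V.asIdeal ∣ E := by
    have := Subgroup.card_dvd_of_le hBle
    rwa [hBcard, Nat.card_zpowers, horder] at this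
  obtain ⟨k, hk⟩ := hdvd
  refine ⟨Ideal.ramificationIdx' Q.asIdeal V.asIdeal, k, hk.symm, ?_, ?_⟩
  · intro f hf
    rw [hm₀ _ ((map_ne_zero _).mpr hf), hm1, one_mul, hordF f hf]
  · have h3 := pow_mem_of_card c _ hBle _ k hBcard (by rw [horder]; exact hk.symm)
    obtain ⟨h, -, hh⟩ := h3
    rw [← hh]
    exact h.2

end Concrete

section Main

variable {K F L Γ : Type*} [Field K] [IsAlgClosed K] [CharZero K] [Field F] [Algebra K F]
  [Field L] [Algebra K L] [Algebra F L] [IsScalarTower K F L]
  [Group Γ] [MulSemiringAction Γ L] [SMulCommClass Γ K L]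

attribute [local instance] algTS

/-- the conjugate `y ↦ w (γ • y)` of an integer valuation by a group element -/
def conjVal (w : IntVal K L) (γ : Γ) : IntVal K L where
  toFun y := w.toFun (γ • y)
  map_mul' a b ha hb := by
    rw [smul_mul']
    exact w.map_mul' _ _ ((smul_ne_zero_iff_ne γ).mpr ha) ((smul_ne_zero_iff_ne γ).mpr hb)
  map_add' a b ha hb hab := by
    rw [smul_add]
    exact w.map_add' _ _ ((smul_ne_zero_iff_ne γ).mpr ha) ((smul_ne_zero_iff_ne γ).mpr hb)
      (by rw [← smul_add]; exact (smul_ne_zero_iff_ne γ).mpr hab)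
  map_algebraMap' c hc := by
    rw [smul_algebraMap]
    exact w.map_algebraMap' c hc

theorem conjVal_apply (w : IntVal K L) (γ : Γ) (y : L) :
    (conjVal w γ).toFun y = w.toFun (γ • y) := rfl

/-- **Places as conjugates of a valuation.**  In the setting of
`S24.Galois.card_placesAt_eq_card_orbits`, every place `v` of `F` over `x = x₀` is, up to a
ramification index `m`, the restriction of a conjugate of `w`: `w (g • f) = m * v.ord f`, where
`m * k = E` and `g⁻¹ * c ^ k * g` fixes `F`. -/
theorem exists_conj_of_mem_placesAt (x : F) (hx : Transcendental K x)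
    (hfix : ∀ y : L, (∀ γ : Γ, γ • y = y) → y ∈ IntermediateField.adjoin K {algebraMap F L x})
    (hxfix : ∀ γ : Γ, γ • algebraMap F L x = algebraMap F L x)
    (hker : ∃ Γ₀ : Subgroup Γ, Γ₀.FiniteIndex ∧ ∀ γ ∈ Γ₀, ∀ y : L, γ • y = y)
    (H : Subgroup Γ)
    (hH : ∀ γ : Γ, γ ∈ H ↔ ∀ f : F, γ • algebraMap F L f = algebraMap F L f)
    (x₀ : K) (w : IntVal K L) (E : ℕ) (hE : 0 < E)
    (hw : w.toFun (algebraMap F L x - algebraMap K L x₀) = E)
    (c : Γ) (hc : ∀ y : L, y ≠ 0 → w.toFun (c • y) = w.toFun y)
    (hord : ∀ k : ℕ, 0 < k → k < E → ∃ y : L, c ^ k • y ≠ y)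
    (v : Place K F) (hv : v ∈ PlacesAt K x x₀) :
    ∃ (g : Γ) (m k : ℕ), m * k = E ∧
      (∀ f : F, f ≠ 0 → w.toFun (g • algebraMap F L f) = m * v.ord f) ∧
      g⁻¹ * c ^ k * g ∈ H := by
  have hfinG := finite_imageGroup (K := K) hker
  have hG := isGaloisGroup_imageGroup x hfix hxfix
  have hgen := isGenerator_of_action x hx hfix hker
  have := Places.isDedekindDomain_intRing hgen
  have := Places.isFractionRing_intRing hgen
  obtain ⟨Q, hQv, hξQ⟩ := Places.exists_prime_of_mem_placesAt hx x₀ v hv
  -- instances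
  have hfin : FiniteDimensional (IntermediateField.adjoin K {x}) L :=
    IsGaloisGroup.finiteDimensional (imageGroup K L Γ) _ L
  have hcomm : SMulCommClass (imageGroup K L Γ) (Algebra.adjoin K {x}) L :=
    smulCommClass_adjoin x
  have hfrS := isFractionRing_S (K := K) (L := L) x
  have hdedS := isDedekindDomain_S (K := K) (L := L) x
  have hfinS := finite_S (K := K) (L := L) x
  have hflatS := flat_S (K := K) (L := L) x
  have hGS := isGaloisGroup_S (K := K) (L := L) x (G := imageGroup K L Γ)
  have ht1 := isScalarTower_ATS (K := K) (L := L) x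
  have ht2 := isScalarTower_TSL (K := K) (L := L) x
  have hfaith := faithfulSMul_TS (K := K) (L := L) x
  have hintTS := isIntegral_TS (K := K) (L := L) x
  -- the valuation prime of `w`
  have hA := algebraMap_adjoin_mem_valGE x x₀ w E hw
  have hS : ∀ b : integralClosure (Algebra.adjoin K {x}) L, (b : L) ∈ valGE w 0 := fun b =>
    mem_valGE_zero_of_isIntegral w hA b.2
  have hP₀ : (valIdeal w (integralClosure (Algebra.adjoin K {x}) L) hS 1).IsPrime :=
    valIdeal_one_isPrime w _ hS
  have hsL : ((algebraMap (Algebra.adjoin K {x}) (integralClosure (Algebra.adjoin K {x}) L)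
      (genA x - algebraMap K (Algebra.adjoin K {x}) x₀) :
        integralClosure (Algebra.adjoin K {x}) L) : L)
      = algebraMap F L x - algebraMap K L x₀ := by
    rw [IsScalarTower.algebraMap_apply K F L, ← map_sub]
    rfl
  have hsP₀ : algebraMap (Algebra.adjoin K {x}) (integralClosure (Algebra.adjoin K {x}) L)
      (genA x - algebraMap K (Algebra.adjoin K {x}) x₀)
        ∈ valIdeal w (integralClosure (Algebra.adjoin K {x}) L) hS 1 := by
    right
    rw [hsL, hw]
    exact_mod_cast hE
  have hple : idealAt x x₀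
      ≤ (valIdeal w (integralClosure (Algebra.adjoin K {x}) L) hS 1).under
        (Algebra.adjoin K {x}) := by
    unfold idealAt
    rw [Ideal.span_le, Set.singleton_subset_iff]
    exact hsP₀
  have hunder_ne : (valIdeal w (integralClosure (Algebra.adjoin K {x}) L) hS 1).under
      (Algebra.adjoin K {x}) ≠ ⊤ := Ideal.IsPrime.ne_top inferInstance
  have hlies : (valIdeal w (integralClosure (Algebra.adjoin K {x}) L) hS 1).LiesOver
      (idealAt x x₀) := ⟨(eq_idealAt_of_le x x₀ _ hunder_ne hple).symm⟩
  -- the prime `Q` lies over the same point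
  have hQle : idealAt x x₀ ≤ Q.asIdeal.under (Algebra.adjoin K {x}) := by
    unfold idealAt
    rw [Ideal.span_le, Set.singleton_subset_iff]
    exact hξQ
  have hQp : Q.asIdeal.LiesOver (idealAt x x₀) :=
    ⟨(eq_idealAt_of_le x x₀ _ (Ideal.IsPrime.ne_top inferInstance) hQle).symm⟩
  -- a prime of `S` above `Q`, conjugate to the valuation prime
  obtain ⟨⟨P, hP, hPQ⟩⟩ := (inferInstance : Nonempty (Q.asIdeal.primesOver
    (integralClosure (Algebra.adjoin K {x}) L)))
  have hPp : P.LiesOver (idealAt x x₀) := Ideal.LiesOver.trans P Q.asIdeal (idealAt x x₀)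
  obtain ⟨g, hg⟩ := Algebra.IsInvariant.exists_smul_of_under_eq (Algebra.adjoin K {x})
    (integralClosure (Algebra.adjoin K {x}) L) (imageGroup K L Γ)
    (valIdeal w (integralClosure (Algebra.adjoin K {x}) L) hS 1) P
    ((Ideal.over_def _ (idealAt x x₀)).symm.trans (Ideal.over_def P (idealAt x x₀)))
  obtain ⟨γ, hγ⟩ := toImage_surjective (K := K) (L := L) (Γ := Γ) g⁻¹
  -- the conjugate valuation
  have hu : (conjVal w γ).toFun (algebraMap F L x - algebraMap K L x₀) = E := by
    rw [conjVal_apply, smul_sub, hxfix, smul_algebraMap, hw]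
  have hpow : ∀ n : ℕ, (γ⁻¹ * c * γ) ^ n = γ⁻¹ * c ^ n * γ := by
    intro n
    have h1 := conj_pow (a := γ⁻¹) (b := c) (i := n)
    rwa [inv_inv] at h1
  have hc' : ∀ y : L, y ≠ 0 → (conjVal w γ).toFun (toImage K L Γ (γ⁻¹ * c * γ) • y)
      = (conjVal w γ).toFun y := by
    intro y hy
    rw [conjVal_apply, conjVal_apply, toImage_smul, ← mul_smul, ← mul_assoc, ← mul_assoc,
      mul_inv_cancel, one_mul, mul_smul]
    exact hc _ ((smul_ne_zero_iff_ne γ).mpr hy)
  have hord' : ∀ n : ℕ, 0 < n → n < E → (toImage K L Γ (γ⁻¹ * c * γ)) ^ n ≠ 1 := by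
    intro n hn hnE h1
    obtain ⟨y, hy⟩ := hord n hn hnE
    apply hy
    have h2 : toImage K L Γ ((γ⁻¹ * c * γ) ^ n) = 1 := by rw [map_pow]; exact h1
    have h3 := (toImage_eq_one_iff _).mp h2 (γ⁻¹ • y)
    rw [hpow, mul_smul, smul_inv_smul, mul_smul, inv_smul_eq_iff, smul_inv_smul] at h3
    exact h3
  have hQ' : ∀ t : integralClosure (Algebra.adjoin K {x}) F, t ∈ Q.asIdeal ↔
      (t = 0 ∨ 1 ≤ (conjVal w γ).toFun (algebraMap F L (t : F))) := by
    intro t
    rw [hPQ.over, Ideal.under_def, Ideal.mem_comap, hg,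
      Ideal.mem_pointwise_smul_iff_inv_smul_mem, ← hγ]
    change (γ • (algebraMap F L (t : F))) ∈ valGE w 1 ↔ _
    rw [mem_valGE, conjVal_apply]
    constructor
    · rintro (h | h)
      · left
        rw [smul_eq_zero_iff_eq] at h
        exact Subtype.ext ((algebraMap F L).injective (h.trans (map_zero _).symm))
      · right; exact_mod_cast h
    · rintro (h | h)
      · left; rw [h]; simp
      · right; exact_mod_cast h
  obtain ⟨m, k, hmk, hf, hck⟩ := conj_aux x hx x₀ (conjVal w γ) E hE hu
    (toImage K L Γ (γ⁻¹ * c * γ)) hc' hord' Q hQ'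
  refine ⟨γ, m, k, hmk, fun f hf0 => ?_, ?_⟩
  · rw [← hQv]
    exact hf f hf0
  · rw [hH]
    intro f
    have h1 := (mem_fixingSubgroup_iff _).mp hck (algebraMap F L f) ⟨f, rfl⟩
    rw [← map_pow, toImage_smul, hpow] at h1
    exact h1

end Main

end Fermat.Agent.S29.PlaceConj
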