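import Fermat.Agent.S29_BDefs2
import Fermat.Agent.S29_ESTorsion
import Fermat.Prelude.Def_GaloisRep_Residual
import Fermat.Agent.S29_Glue

/-!
# S29 (C8): the Galois span of a Hecke eigenvector in `k₀ ⊗ J₀(N)[p]`

`exists_module`: from a nonzero `v ∈ k₀ ⊗[𝔽_p] J₀(N)[p]` with `T_ℓ v = a_ℓ v` for all primes
`ℓ ∤ N`, the `k₀`-span `W` of the Galois orbit of `v` is a nonzero finite-dimensional
`k₀[G_ℚ]`-module of finite level, unramified outside `N p`, on which every Frobenius lift at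
`ℓ ∤ N p` satisfies `σ² - a_ℓ σ + ℓ = 0`.

Key input (finite level): every element of `F_N ⊗ ℚ̄` is fixed by an open subgroup of `G_ℚ`
(`fixedLevel_of_mem`), hence so is every `p`-torsion class (`exists_level_point`: if
`p D = div h` and `σ h = h` then `σ D = D`).
-/

set_option autoImplicit false
set_option linter.style.haveILetI false

noncomputable section

open ModularCurve AlgebraicCurve
open scoped TensorProduct

namespace Fermat.Agent.S29.Span

local notation "Qbar" => AlgebraicClosure ℚ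
local notation "GQ" => (AlgebraicClosure ℚ ≃ₐ[ℚ] AlgebraicClosure ℚ)

/-! ### finite level of functions and of torsion classes -/

/-- `y` is fixed coefficientwise by the absolute Galois group of a number field. -/
def FixedLevel (y : LaurentSeries Qbar) : Prop :=
  ∃ L : IntermediateField ℚ Qbar, FiniteDimensional ℚ L ∧
    ∀ σ : GQ, (∀ z ∈ L, σ z = z) → coeffMap (σ : Qbar →+* Qbar) y = y

theorem fixedLevel_of_mem (F₀ : IntermediateField ℚ (LaurentSeries ℚ)) {y : LaurentSeries Qbar}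
    (hy : y ∈ laurentBaseChange Qbar F₀) : FixedLevel y := by
  rw [mem_laurentBaseChange_iff] at hy
  induction hy using Subfield.closure_induction with
  | mem y hy =>
    rcases hy with ⟨a, rfl⟩ | ⟨z, hz, rfl⟩
    · refine ⟨IntermediateField.adjoin ℚ {a},
        IntermediateField.adjoin.finiteDimensional
          ((AlgebraicClosure.instIsAlgClosure ℚ).isAlgebraic.isAlgebraic a).isIntegral,
        fun σ hσ => ?_⟩
      rw [coeffMap_algebraMap]
      congr 1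
      exact hσ a (IntermediateField.mem_adjoin_simple_self ℚ a)
    · refine ⟨⊥, inferInstance, fun σ _ => ?_⟩
      show coeffMap _ (coeffMap (algebraMap ℚ Qbar) z) = coeffMap (algebraMap ℚ Qbar) z
      rw [coeffMap_coeffMap]
      exact coeffMap_congr (RingHom.ext fun q => σ.commutes q) z
  | one => exact ⟨⊥, inferInstance, fun σ _ => map_one _⟩
  | add x y _ _ hx hy =>
    obtain ⟨L₁, h₁, hL₁⟩ := hx
    obtain ⟨L₂, h₂, hL₂⟩ := hy
    haveI := h₁
    haveI := h₂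
    refine ⟨L₁ ⊔ L₂, inferInstance, fun σ hσ => ?_⟩
    rw [map_add, hL₁ σ (fun z hz => hσ z ((le_sup_left : L₁ ≤ L₁ ⊔ L₂) hz)),
      hL₂ σ (fun z hz => hσ z ((le_sup_right : L₂ ≤ L₁ ⊔ L₂) hz))]
  | neg x _ hx =>
    obtain ⟨L₁, h₁, hL₁⟩ := hx
    exact ⟨L₁, h₁, fun σ hσ => by rw [map_neg, hL₁ σ hσ]⟩
  | inv x _ hx =>
    obtain ⟨L₁, h₁, hL₁⟩ := hx
    exact ⟨L₁, h₁, fun σ hσ => by rw [map_inv₀, hL₁ σ hσ]⟩
  | mul x y _ _ hx hy =>
    obtain ⟨L₁, h₁, hL₁⟩ := hx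
    obtain ⟨L₂, h₂, hL₂⟩ := hy
    haveI := h₁
    haveI := h₂
    refine ⟨L₁ ⊔ L₂, inferInstance, fun σ hσ => ?_⟩
    rw [map_mul, hL₁ σ (fun z hz => hσ z ((le_sup_left : L₁ ≤ L₁ ⊔ L₂) hz)),
      hL₂ σ (fun z hz => hσ z ((le_sup_right : L₂ ≤ L₁ ⊔ L₂) hz))]

/-- **every torsion class of `J₀(N)` is fixed by an open subgroup of `G_ℚ`.** -/
theorem exists_level_point (N p : ℕ) [NeZero N] (hp : p ≠ 0) (x : JZero N) (hx : p • x = 0) :
    ∃ L : IntermediateField ℚ Qbar, FiniteDimensional ℚ L ∧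
      ∀ σ : GQ, (∀ z ∈ L, σ z = z) → σ • x = x := by
  obtain ⟨D, rfl⟩ := Pic0.mk_surjective x
  have hprin : (p • (D : Divisor Qbar (modularFunctionFieldBar N)))
      ∈ Divisor.principal (K := Qbar) (F := modularFunctionFieldBar N) := by
    have h1 : Pic0.mk (p • D) = 0 := hx
    have h2 := (QuotientAddGroup.eq_zero_iff (p • D)).mp h1
    exact h2
  obtain ⟨h, hh0, hh⟩ := Divisor.mem_principal.mp hprin
  obtain ⟨L, hL, hfix⟩ := fixedLevel_of_mem (modularFunctionFieldFull N) h.2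
  refine ⟨L, hL, fun σ hσ => ?_⟩
  have hg : arithmeticGalois (modularFunctionFieldFull N) σ • h = h :=
    Subtype.ext ((coe_arithmeticGalois_smul _ σ h).trans (hfix σ hσ))
  rw [galois_smul_pic0_def, SemilinearAut.pic0_smul_mk]
  congr 1
  apply Subtype.ext
  rw [SemilinearAut.coe_degZeroSMulHom]
  ext w
  rw [SemilinearAut.divisor_smul_apply]
  have h1 := hh ((arithmeticGalois (modularFunctionFieldFull N) σ)⁻¹ • w)
  have h2 := hh w
  have key : ((arithmeticGalois (modularFunctionFieldFull N) σ)⁻¹ • w).ord h = w.ord h := by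
    have h3 := SemilinearAut.ord_smul (arithmeticGalois (modularFunctionFieldFull N) σ)
      ((arithmeticGalois (modularFunctionFieldFull N) σ)⁻¹ • w) h
    rw [smul_inv_smul, hg] at h3
    exact h3.symm
  rw [key, ← h2] at h1
  rw [Finsupp.smul_apply, Finsupp.smul_apply, nsmul_eq_mul, nsmul_eq_mul] at h1
  have hp' : ((p : ℕ) : ℤ) ≠ 0 := by exact_mod_cast hp
  exact mul_left_cancel₀ hp' h1

/-! ### the Galois and Hecke actions on `J₀(N)[p]` and on `k₀ ⊗ J₀(N)[p]` -/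

section Jp

variable (p : ℕ) (N : ℕ) [NeZero N]

theorem hecke_galJp (ℓ : ℕ) [NeZero ℓ] (σ : GQ) :
    (heckeJp N p ℓ).comp (galJp N p σ) = (galJp N p σ).comp (heckeJp N p ℓ) := by
  refine LinearMap.ext fun x => Subtype.ext ?_
  show heckeOperatorAlong Qbar N ℓ (σ • (x : JZero N))
    = σ • heckeOperatorAlong Qbar N ℓ (x : JZero N)
  exact ESTors.heckeOperatorAlong_smul N ℓ σ x

theorem galJp_inertia (ℓ : ℕ) (hℓ : ℓ.Prime) (hℓNp : ¬ ℓ ∣ N * p)
    (A : ValuationSubring Qbar) (hA : A.LiesOverPrime ℓ) (σ : GQ)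
    (hσ : σ ∈ A.inertiaSubgroupIn ℚ) : galJp N p σ = LinearMap.id := by
  refine LinearMap.ext fun x => Subtype.ext ?_
  show σ • (x : JZero N) = x
  exact ESTors.inertia_smul_eq N ℓ hℓ (fun h => hℓNp (Dvd.dvd.mul_right h p)) A hA σ hσ p
    (fun h => hℓNp (Dvd.dvd.mul_left h N)) x x.2

theorem galJp_frobenius (ℓ : ℕ) [NeZero ℓ] (hℓ : ℓ.Prime) (hℓNp : ¬ ℓ ∣ N * p)
    (A : ValuationSubring Qbar) (hA : A.LiesOverPrime ℓ) (σ : GQ)
    (hσ : A.IsFrobeniusAt σ ℓ) :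
    (heckeJp N p ℓ).comp (galJp N p σ)
      = (galJp N p σ).comp (galJp N p σ) + (ℓ : ZMod p) • LinearMap.id := by
  refine LinearMap.ext fun x => Subtype.ext ?_
  show heckeOperatorAlong Qbar N ℓ (σ • (x : JZero N))
    = ((galJp N p σ (galJp N p σ x) + (ℓ : ZMod p) • x : Jp N p) : JZero N)
  rw [ESTors.hecke_frobenius N ℓ hℓ (fun h => hℓNp (Dvd.dvd.mul_right h p)) A hA σ hσ p
    (fun h => hℓNp (Dvd.dvd.mul_left h N)) x x.2, AddSubgroup.coe_add,
    Nat.cast_smul_eq_nsmul, AddSubgroup.coe_nsmul]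
  rfl

end Jp

section Module

variable {k₀ : Type} [Field k₀] (p : ℕ) [Algebra (ZMod p) k₀] (N : ℕ) [NeZero N]

/-- the Galois action on `k₀ ⊗ J₀(N)[p]`. -/
def galV : GQ →* Module.End k₀ (k₀ ⊗[ZMod p] Jp N p) where
  toFun σ := (galJp N p σ).baseChange k₀
  map_one' := by
    rw [galJp_one, LinearMap.baseChange_id]
    rfl
  map_mul' σ τ := by
    rw [galJp_mul, LinearMap.baseChange_comp]
    rfl

theorem galV_apply (σ : GQ) (w : k₀ ⊗[ZMod p] Jp N p) :
    galV (k₀ := k₀) p N σ w = (galJp N p σ).baseChange k₀ w := rfl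

theorem hecke_galV (ℓ : ℕ) [NeZero ℓ] (σ : GQ) (w : k₀ ⊗[ZMod p] Jp N p) :
    (heckeJp N p ℓ).baseChange k₀ (galV p N σ w)
      = galV p N σ ((heckeJp N p ℓ).baseChange k₀ w) := by
  have h : ((heckeJp N p ℓ).comp (galJp N p σ)).baseChange k₀
      = ((galJp N p σ).comp (heckeJp N p ℓ)).baseChange k₀ := by rw [hecke_galJp]
  rw [LinearMap.baseChange_comp, LinearMap.baseChange_comp] at h
  exact LinearMap.congr_fun h w

theorem galV_inertia (ℓ : ℕ) (hℓ : ℓ.Prime) (hℓNp : ¬ ℓ ∣ N * p)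
    (A : ValuationSubring Qbar) (hA : A.LiesOverPrime ℓ) (σ : GQ)
    (hσ : σ ∈ A.inertiaSubgroupIn ℚ) : galV (k₀ := k₀) p N σ = 1 := by
  show (galJp N p σ).baseChange k₀ = 1
  rw [galJp_inertia p N ℓ hℓ hℓNp A hA σ hσ, LinearMap.baseChange_id]
  rfl

theorem galV_frobenius (ℓ : ℕ) [NeZero ℓ] (hℓ : ℓ.Prime) (hℓNp : ¬ ℓ ∣ N * p)
    (A : ValuationSubring Qbar) (hA : A.LiesOverPrime ℓ) (σ : GQ)
    (hσ : A.IsFrobeniusAt σ ℓ) (w : k₀ ⊗[ZMod p] Jp N p) :
    (heckeJp N p ℓ).baseChange k₀ (galV p N σ w)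
      = galV p N σ (galV p N σ w) + (ℓ : k₀) • w := by
  have h : ((heckeJp N p ℓ).comp (galJp N p σ)).baseChange k₀
      = ((galJp N p σ).comp (galJp N p σ) + (ℓ : ZMod p) • LinearMap.id).baseChange k₀ := by
    rw [galJp_frobenius p N ℓ hℓ hℓNp A hA σ hσ]
  rw [LinearMap.baseChange_comp, LinearMap.baseChange_add, LinearMap.baseChange_comp,
    LinearMap.baseChange_smul, LinearMap.baseChange_id] at h
  have h1 := LinearMap.congr_fun h w
  rw [LinearMap.comp_apply, LinearMap.add_apply, LinearMap.comp_apply, LinearMap.smul_apply,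
    LinearMap.id_apply, Nat.cast_smul_eq_nsmul] at h1
  rw [Nat.cast_smul_eq_nsmul]
  exact h1

/-- every vector of `k₀ ⊗ J₀(N)[p]` is fixed by an open subgroup of `G_ℚ`. -/
theorem exists_level_vector (hp : p ≠ 0) (v : k₀ ⊗[ZMod p] Jp N p) :
    ∃ L : IntermediateField ℚ Qbar, FiniteDimensional ℚ L ∧
      ∀ σ : GQ, (∀ z ∈ L, σ z = z) → galV p N σ v = v := by
  induction v using TensorProduct.induction_on with
  | zero => exact ⟨⊥, inferInstance, fun σ _ => map_zero _⟩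
  | tmul c x =>
    obtain ⟨L, hL, hfix⟩ := exists_level_point N p hp (x : JZero N) x.2
    refine ⟨L, hL, fun σ hσ => ?_⟩
    rw [galV_apply, LinearMap.baseChange_tmul]
    congr 1
    exact Subtype.ext (hfix σ hσ)
  | add v w hv hw =>
    obtain ⟨L₁, h₁, hL₁⟩ := hv
    obtain ⟨L₂, h₂, hL₂⟩ := hw
    haveI := h₁
    haveI := h₂
    refine ⟨L₁ ⊔ L₂, inferInstance, fun σ hσ => ?_⟩
    rw [map_add, hL₁ σ (fun z hz => hσ z ((le_sup_left : L₁ ≤ L₁ ⊔ L₂) hz)),
      hL₂ σ (fun z hz => hσ z ((le_sup_right : L₂ ≤ L₁ ⊔ L₂) hz))]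

end Module

/-! ### the span module -/

section Main

variable {k₀ : Type} [Field k₀] (p : ℕ) [Fact p.Prime] [Algebra (ZMod p) k₀] (N : ℕ) [NeZero N]

/-- **(C8)**: the Galois span of a Hecke eigenvector is a quadratic Frobenius module. -/
theorem exists_module (a : ℕ → k₀) (v : k₀ ⊗[ZMod p] Jp N p) (hv : v ≠ 0)
    (hev : ∀ (ℓ : ℕ) [NeZero ℓ], ℓ.Prime → ¬ ℓ ∣ N →
      (heckeJp N p ℓ).baseChange k₀ v = a ℓ • v) :
    ∃ (W : Type) (_ : AddCommGroup W) (_ : Module k₀ W) (_ : Module.Finite k₀ W)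
      (_ : Nontrivial W) (ρ : GQ →* Module.End k₀ W),
      GaloisFactorsThroughFiniteLevel ρ ∧
      (∀ ℓ : ℕ, ℓ.Prime → ¬ ℓ ∣ N * p → ∀ A : ValuationSubring Qbar, A.LiesOverPrime ℓ →
        ∀ σ ∈ A.inertiaSubgroupIn ℚ, ρ σ = 1) ∧
      (∀ ℓ : ℕ, ℓ.Prime → ¬ ℓ ∣ N * p → ∀ A : ValuationSubring Qbar, A.LiesOverPrime ℓ →
        ∀ σ : GQ, A.IsFrobeniusAt σ ℓ →
          ρ σ * ρ σ - a ℓ • ρ σ + (ℓ : k₀) • (1 : Module.End k₀ W) = 0) := by
  classical
  have hp : p.Prime := Fact.out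
  obtain ⟨L0, hL0fin, hL0⟩ := exists_level_vector (k₀ := k₀) p N hp.ne_zero v
  haveI := hL0fin
  haveI : IsAlgClosure ℚ Qbar := AlgebraicClosure.instIsAlgClosure ℚ
  haveI : Normal ℚ Qbar := inferInstance
  let Ln : IntermediateField ℚ Qbar := IntermediateField.normalClosure ℚ L0 Qbar
  have hLn_le : L0 ≤ Ln := IntermediateField.le_normalClosure L0
  have hnormal : Normal ℚ Ln := normalClosure.normal ℚ L0 Qbar
  have hLnfin : FiniteDimensional ℚ Ln := normalClosure.is_finiteDimensional ℚ L0 Qbar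
  let S : Set (k₀ ⊗[ZMod p] Jp N p) := Set.range (fun τ : GQ => galV (k₀ := k₀) p N τ v)
  let W : Submodule k₀ (k₀ ⊗[ZMod p] Jp N p) := Submodule.span k₀ S
  have hWinv : ∀ g : GQ, ∀ x ∈ W, galV (k₀ := k₀) p N g x ∈ W := by
    intro g x hx
    induction hx using Submodule.span_induction with
    | mem y hy =>
      obtain ⟨τ, rfl⟩ := hy
      refine Submodule.subset_span ⟨g * τ, ?_⟩
      show galV (k₀ := k₀) p N (g * τ) v = _
      rw [map_mul]
      rfl
    | zero => rw [map_zero]; exact W.zero_mem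
    | add y z _ _ hy hz => rw [map_add]; exact W.add_mem hy hz
    | smul c y _ hy => rw [map_smul]; exact W.smul_mem c hy
  have hconj : ∀ σ : GQ, (∀ z ∈ Ln, σ z = z) → ∀ τ : GQ,
      galV (k₀ := k₀) p N σ (galV (k₀ := k₀) p N τ v) = galV (k₀ := k₀) p N τ v := by
    intro σ hσ τ
    have hδ : ∀ z ∈ L0, (τ⁻¹ * σ * τ) z = z := by
      intro z hz
      have hτz : τ z ∈ Ln :=
        (IntermediateField.normal_iff_forall_map_le'.mp hnormal τ) ⟨z, hLn_le hz, rfl⟩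
      rw [AlgEquiv.mul_apply, AlgEquiv.mul_apply, hσ _ hτz]
      exact τ.symm_apply_apply z
    have h1 := hL0 (τ⁻¹ * σ * τ) hδ
    have h2 : σ * τ = τ * (τ⁻¹ * σ * τ) := by group
    calc galV (k₀ := k₀) p N σ (galV (k₀ := k₀) p N τ v)
        = galV (k₀ := k₀) p N (σ * τ) v := by rw [map_mul]; rfl
      _ = galV (k₀ := k₀) p N τ (galV (k₀ := k₀) p N (τ⁻¹ * σ * τ) v) := by
          rw [h2, map_mul]; rfl
      _ = galV (k₀ := k₀) p N τ v := by rw [h1]
  have hWfix : ∀ σ : GQ, (∀ z ∈ Ln, σ z = z) → ∀ x ∈ W, galV (k₀ := k₀) p N σ x = x := by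
    intro σ hσ x hx
    induction hx using Submodule.span_induction with
    | mem y hy => obtain ⟨τ, rfl⟩ := hy; exact hconj σ hσ τ
    | zero => exact map_zero _
    | add y z _ _ hy hz => rw [map_add, hy, hz]
    | smul c y _ hy => rw [map_smul, hy]
  have hT : ∀ (ℓ : ℕ) [NeZero ℓ], ℓ.Prime → ¬ ℓ ∣ N → ∀ x ∈ W,
      (heckeJp N p ℓ).baseChange k₀ x = a ℓ • x := by
    intro ℓ _ hℓ hℓN x hx
    induction hx using Submodule.span_induction with
    | mem y hy =>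
      obtain ⟨τ, rfl⟩ := hy
      show (heckeJp N p ℓ).baseChange k₀ (galV (k₀ := k₀) p N τ v) = _
      rw [hecke_galV, hev ℓ hℓ hℓN, map_smul]
    | zero => rw [map_zero, smul_zero]
    | add y z _ _ hy hz => rw [map_add, hy, hz, smul_add]
    | smul c y _ hy => rw [map_smul, hy, smul_comm]
  have hSfin : S.Finite := by
    let r : GQ → (L0 →ₐ[ℚ] Qbar) := fun τ => (τ : Qbar →ₐ[ℚ] Qbar).comp L0.val
    have hr : ∀ τ τ' : GQ, r τ = r τ' →
        galV (k₀ := k₀) p N τ v = galV (k₀ := k₀) p N τ' v := by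
      intro τ τ' h
      have hδ : ∀ z ∈ L0, (τ⁻¹ * τ') z = z := by
        intro z hz
        have h3 : τ z = τ' z := AlgHom.congr_fun h ⟨z, hz⟩
        rw [AlgEquiv.mul_apply, ← h3]
        exact τ.symm_apply_apply z
      have h1 := hL0 (τ⁻¹ * τ') hδ
      have h2 : τ' = τ * (τ⁻¹ * τ') := by group
      calc galV (k₀ := k₀) p N τ v
          = galV (k₀ := k₀) p N τ (galV (k₀ := k₀) p N (τ⁻¹ * τ') v) := by rw [h1]
        _ = galV (k₀ := k₀) p N (τ * (τ⁻¹ * τ')) v :=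
            (LinearMap.congr_fun (map_mul (galV (k₀ := k₀) p N) τ (τ⁻¹ * τ')) v).symm
        _ = galV (k₀ := k₀) p N τ' v := by rw [← h2]
    let g : (L0 →ₐ[ℚ] Qbar) → (k₀ ⊗[ZMod p] Jp N p) := fun e =>
      if h : ∃ τ, r τ = e then galV (k₀ := k₀) p N h.choose v else 0
    refine (Set.finite_range g).subset ?_
    rintro _ ⟨τ, rfl⟩
    have h : ∃ τ', r τ' = r τ := ⟨τ, rfl⟩
    refine ⟨r τ, ?_⟩
    show (if h : ∃ τ', r τ' = r τ then galV (k₀ := k₀) p N h.choose v else 0) = _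
    rw [dif_pos h]
    exact hr _ _ h.choose_spec
  haveI : Module.Finite k₀ W := FiniteDimensional.span_of_finite k₀ hSfin
  have hvW : v ∈ W := Submodule.subset_span ⟨1, by
    show galV (k₀ := k₀) p N 1 v = v
    rw [map_one]
    rfl⟩
  haveI : Nontrivial W := ⟨⟨⟨v, hvW⟩, 0, fun h => hv (congrArg Subtype.val h)⟩⟩
  refine ⟨W, inferInstance, inferInstance, inferInstance, inferInstance,
    Glue.restrictRep (galV (k₀ := k₀) p N) W hWinv, ?_, ?_, ?_⟩
  · refine ⟨Ln, hLnfin, fun σ hσ => ?_⟩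
    ext x
    rw [Glue.coe_restrictRep_apply]
    exact hWfix σ hσ x x.2
  · intro ℓ hℓ hℓNp A hA σ hσ
    exact Glue.restrictRep_eq_one _ W hWinv (galV_inertia p N ℓ hℓ hℓNp A hA σ hσ)
  · intro ℓ hℓ hℓNp A hA σ hσ
    haveI : NeZero ℓ := ⟨hℓ.ne_zero⟩
    ext x
    have h1 := galV_frobenius (k₀ := k₀) p N ℓ hℓ hℓNp A hA σ hσ (x : k₀ ⊗[ZMod p] Jp N p)
    have h2 := hT ℓ hℓ (fun h => hℓNp (Dvd.dvd.mul_right h p)) _ (hWinv σ x x.2)
    rw [h2] at h1
    simp only [LinearMap.add_apply, LinearMap.sub_apply, Module.End.mul_apply,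
      LinearMap.smul_apply, Module.End.one_apply, LinearMap.zero_apply, Submodule.coe_add,
      Submodule.coe_sub, Submodule.coe_smul, Glue.coe_restrictRep_apply, Submodule.coe_zero]
    rw [h1]
    abel

end Main

end Fermat.Agent.S29.Span
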