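import Mathlib
import Fermat.Prelude.Def_GaloisRep_Residual

/-!
# S30 (long shot): the interface for the `p`-adic cyclotomic character

`CycStatement`: for a complete discrete valuation ring `𝒪` of characteristic zero with `p ∈ 𝔪`
there are a character `δ : G_ℚ → 𝒪ˣ` and an involution `c ∈ G_ℚ` with `δ(c) = -1`, such that `δ`
is congruent to `1` modulo `p ^ n` on an open subgroup, `δ(Frob_ℓ) = ℓ` and `δ` is trivial on the
inertia groups away from `p`.
-/

set_option autoImplicit false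

noncomputable section

namespace Fermat.Agent.S30.Cyc

local notation "Qbar" => AlgebraicClosure ℚ
local notation "GQ" => (AlgebraicClosure ℚ ≃ₐ[ℚ] AlgebraicClosure ℚ)

/-- **(CYC)**: the `p`-adic cyclotomic character with values in `𝒪`, and a complex conjugation. -/
def CycStatement : Prop :=
  ∀ (p : ℕ) [Fact p.Prime] (O : Type) [CommRing O] [IsDomain O] [IsDiscreteValuationRing O]
    [IsAdicComplete (IsLocalRing.maximalIdeal O) O] [CharZero O]
    (_hpO : (p : O) ∈ IsLocalRing.maximalIdeal O),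
    ∃ (δ : GQ →* Oˣ) (c : GQ), c * c = 1 ∧ δ c = -1 ∧
      (∀ n : ℕ, ∃ L : IntermediateField ℚ Qbar, FiniteDimensional ℚ L ∧
        ∀ σ : GQ, (∀ x ∈ L, σ x = x) → (p : O) ^ n ∣ (δ σ : O) - 1) ∧
      (∀ ℓ : ℕ, ℓ.Prime → ℓ ≠ p → ∀ A : ValuationSubring Qbar, A.LiesOverPrime ℓ →
        ∀ σ : GQ, A.IsFrobeniusAt σ ℓ → (δ σ : O) = (ℓ : O)) ∧
      (∀ q : ℕ, q.Prime → q ≠ p → ∀ P : ValuationSubring Qbar, P.LiesOverPrime q →
        ∀ σ ∈ P.inertiaSubgroupIn ℚ, δ σ = 1)

end Fermat.Agent.S30.Cyc
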