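import Mathlib
import Fermat.Agent.S29_Cyclo
import Fermat.Agent.S30_CycDefs

/-!
# S30 (long shot): the `p`-adic cyclotomic character with values in `𝒪`

`cyc : CycStatement`: for a complete discrete valuation ring `𝒪` with `p ∈ 𝔪` the character
`δ = θ ∘ χ_cyc`, where `χ_cyc : G_ℚ → ℤ_pˣ` is Mathlib's `cyclotomicCharacter` and
`θ : ℤ_p → 𝒪` is the ring homomorphism given by the completeness of `𝒪`, together with the
complex conjugation `c` (restriction of the conjugation of `ℂ` along an embedding `ℚ̄ → ℂ`).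
-/

set_option autoImplicit false

noncomputable section

namespace Fermat.Agent.S30.Cyc

open Fermat.Agent.S29.Cyclo

local notation "Qbar" => AlgebraicClosure ℚ
local notation "GQ" => (AlgebraicClosure ℚ ≃ₐ[ℚ] AlgebraicClosure ℚ)

/-! ### The ring homomorphism `ℤ_p → 𝒪` -/

section Theta

variable (p : ℕ) [Fact p.Prime] (O : Type) [CommRing O] (I : Ideal O)

theorem natCast_pow_quot_eq_zero (hp : (p : O) ∈ I) (n : ℕ) :
    ((p ^ n : ℕ) : O ⧸ I ^ n) = 0 := by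
  have h1 : ((p ^ n : ℕ) : O ⧸ I ^ n) = Ideal.Quotient.mk (I ^ n) ((p : O) ^ n) := by
    rw [map_pow, map_natCast, Nat.cast_pow]
  rw [h1, Ideal.Quotient.eq_zero_iff_mem]
  exact Ideal.pow_mem_pow hp n

/-- the maps `ℤ_p → ℤ/p^n → 𝒪/I^n`. -/
def thetaQ (hp : (p : O) ∈ I) (n : ℕ) : ℤ_[p] →+* O ⧸ I ^ n :=
  (ZMod.castHom (ringChar.dvd (natCast_pow_quot_eq_zero p O I hp n)) (O ⧸ I ^ n)).comp
    (PadicInt.toZModPow n)

theorem thetaQ_compat (hp : (p : O) ∈ I) {m n : ℕ} (hle : m ≤ n) :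
    (Ideal.Quotient.factorPow I hle).comp (thetaQ p O I hp n) = thetaQ p O I hp m := by
  unfold thetaQ
  rw [← PadicInt.zmod_cast_comp_toZModPow m n hle, ← RingHom.comp_assoc, ← RingHom.comp_assoc]
  congr 1
  exact RingHom.ext_zmod _ _

/-- the ring homomorphism `ℤ_p → 𝒪` for an `I`-adically complete ring with `p ∈ I`. -/
def theta [IsAdicComplete I O] (hp : (p : O) ∈ I) : ℤ_[p] →+* O :=
  IsAdicComplete.liftRingHom I (thetaQ p O I hp) (fun hle => thetaQ_compat p O I hp hle)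

end Theta

/-! ### Roots of unity of `p`-power order -/

section Roots

variable (p : ℕ) [Fact p.Prime]

theorem pow_ne_zero' (n : ℕ) : p ^ n ≠ 0 := pow_ne_zero n (Fact.out : p.Prime).ne_zero

theorem neZeroPow (n : ℕ) : NeZero (p ^ n) := ⟨pow_ne_zero' p n⟩

attribute [local instance] neZeroPow

theorem exists_zeta' (n : ℕ) : ∃ ζ : Qbar, IsPrimitiveRoot ζ (p ^ n) :=
  HasEnoughRootsOfUnity.exists_primitiveRoot Qbar (p ^ n)

variable {p}

/-- a root of unity lies in every valuation subring. -/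
theorem zeta_mem' (A : ValuationSubring Qbar) {ζ : Qbar} {m : ℕ} (hm : 0 < m)
    (hζ : ζ ^ m = 1) : ζ ∈ A := by
  rcases A.mem_or_inv_mem ζ with h | h
  · exact h
  · have h1 : ζ = ζ⁻¹ ^ (m - 1) := by
      have h2 : ζ ^ (m - 1) * ζ = 1 := by
        rw [← pow_succ, Nat.sub_add_cancel hm, hζ]
      rw [inv_pow]
      exact (eq_inv_of_mul_eq_one_right h2)
    rw [h1]
    exact pow_mem h _

/-- the residue of a primitive `m`-th root of unity at a valuation subring at which `m` is a unit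
still has order `m`. -/
theorem orderOf_residue' (A : ValuationSubring Qbar) (m : ℕ) (hm0 : m ≠ 0)
    (hmA : (m : IsLocalRing.ResidueField A) ≠ 0) {ζ : Qbar} (hζ : IsPrimitiveRoot ζ m)
    (hζA : ζ ∈ A) : orderOf (IsLocalRing.residue A ⟨ζ, hζA⟩) = m := by
  set z := IsLocalRing.residue A ⟨ζ, hζA⟩ with hz
  have hmpos : 0 < m := Nat.pos_of_ne_zero hm0
  have hzm : z ^ m = 1 := by
    rw [hz, ← map_pow]
    have : (⟨ζ, hζA⟩ : A) ^ m = 1 := Subtype.ext (by
      rw [SubmonoidClass.coe_pow]; exact hζ.pow_eq_one)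
    rw [this, map_one]
  have hdvd : orderOf z ∣ m := orderOf_dvd_of_pow_eq_one hzm
  have hd0 : orderOf z ≠ 0 := fun h => hm0 (by rw [h] at hdvd; exact zero_dvd_iff.mp hdvd)
  by_contra hne
  have hlt : orderOf z < m := lt_of_le_of_ne (Nat.le_of_dvd hmpos hdvd) hne
  have hζ' : IsPrimitiveRoot ζ ((m - 1) + 1) := by
    rw [Nat.sub_add_cancel hmpos]; exact hζ
  have hprod := hζ'.prod_one_sub_pow_eq_order
  have hprodA : ∏ k ∈ Finset.range (m - 1), (1 - (⟨ζ, hζA⟩ : A) ^ (k + 1))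
      = (((m - 1 : ℕ) : A) + 1) := by
    apply Subtype.ext
    have e1 : ((∏ k ∈ Finset.range (m - 1), (1 - (⟨ζ, hζA⟩ : A) ^ (k + 1)) : A) : Qbar)
        = ∏ k ∈ Finset.range (m - 1), (1 - ζ ^ (k + 1)) :=
      map_prod A.subtype _ _
    have e2 : (((((m - 1 : ℕ) : A) + 1 : A)) : Qbar) = ((m - 1 : ℕ) : Qbar) + 1 :=
      (map_add A.subtype _ _).trans (by rw [map_natCast, map_one])
    rw [e1, e2, hprod]
  have hprodk := congrArg (IsLocalRing.residue A) hprodA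
  rw [map_prod] at hprodk
  have hzero : ∏ k ∈ Finset.range (m - 1),
      (IsLocalRing.residue A) (1 - (⟨ζ, hζA⟩ : A) ^ (k + 1)) = 0 := by
    apply Finset.prod_eq_zero (i := orderOf z - 1)
    · rw [Finset.mem_range]
      omega
    · rw [map_sub, map_one, map_pow, ← hz, Nat.sub_add_cancel (Nat.pos_of_ne_zero hd0),
        pow_orderOf_eq_one, sub_self]
  rw [hzero] at hprodk
  have hcast : (IsLocalRing.residue A) (((m - 1 : ℕ) : A) + 1)
      = (m : IsLocalRing.ResidueField A) := by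
    rw [map_add, map_one, map_natCast]
    have : ((m - 1 : ℕ) : IsLocalRing.ResidueField A) + 1
        = ((m - 1 + 1 : ℕ) : IsLocalRing.ResidueField A) := by
      push_cast; rfl
    rw [this, Nat.sub_add_cancel hmpos]
  rw [hcast] at hprodk
  exact hmA hprodk.symm

end Roots

/-! ### The `ℤ_p`-valued cyclotomic character of `G_ℚ` -/

section Chi

variable (p : ℕ) [Fact p.Prime]

/-- the `p`-adic cyclotomic character of `G_ℚ`. -/
def chi : GQ →* ℤ_[p]ˣ := (cyclotomicCharacter Qbar p).comp toRingAutHom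

variable {p}

theorem chi_spec (σ : GQ) (n : ℕ) {ζ : Qbar} (hζ : ζ ^ p ^ n = 1) :
    σ ζ = ζ ^ (PadicInt.toZModPow n ((chi p σ : ℤ_[p]ˣ) : ℤ_[p])).val :=
  cyclotomicCharacter.spec p (toRingAutHom σ) ζ hζ

/-- the character is determined by the exponents on primitive roots of unity. -/
theorem toZModPow_chi (σ : GQ) (n : ℕ) {ζ : Qbar} (hζ : IsPrimitiveRoot ζ (p ^ n)) {k : ℕ}
    (h : σ ζ = ζ ^ k) :
    PadicInt.toZModPow n ((chi p σ : ℤ_[p]ˣ) : ℤ_[p]) = (k : ZMod (p ^ n)) := by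
  have h1 := chi_spec σ n hζ.pow_eq_one
  rw [h] at h1
  have h2 := modEq_of_pow_eq (hζ.ne_zero (pow_ne_zero' p n)) h1
  rw [← hζ.eq_orderOf] at h2
  have h3 := (ZMod.natCast_eq_natCast_iff _ _ (p ^ n)).mpr h2
  rw [ZMod.natCast_zmod_val] at h3
  exact h3.symm

variable (p)

/-- `χ(Frob_ℓ) = ℓ`. -/
theorem chi_frobenius (ℓ : ℕ) (hℓ : ℓ.Prime) (hℓp : ℓ ≠ p)
    (A : ValuationSubring Qbar) (hA : A.LiesOverPrime ℓ)
    (σ : GQ) (hσ : A.IsFrobeniusAt σ ℓ) :
    ((chi p σ : ℤ_[p]ˣ) : ℤ_[p]) = (ℓ : ℤ_[p]) := by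
  rw [← PadicInt.ext_of_toZModPow]
  intro n
  obtain ⟨ζ, hζ⟩ := exists_zeta' p n
  have hpn := pow_ne_zero' p n
  have hζA := zeta_mem' A (Nat.pos_of_ne_zero hpn) hζ.pow_eq_one
  obtain ⟨hσA, hfr⟩ := hσ
  have h1 := hfr (IsLocalRing.residue A ⟨ζ, hζA⟩)
  rw [← IsLocalRing.ResidueField.residue_smul, ← map_pow] at h1
  have h2 : ((⟨σ, hσA⟩ : A.decompositionSubgroup ℚ) • (⟨ζ, hζA⟩ : A))
      = (⟨ζ, hζA⟩ : A) ^ (PadicInt.toZModPow n ((chi p σ : ℤ_[p]ˣ) : ℤ_[p])).val :=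
    Subtype.ext (by
      rw [SubmonoidClass.coe_pow]
      exact chi_spec σ n hζ.pow_eq_one)
  rw [h2, map_pow, map_pow] at h1
  have hmA : ((p ^ n : ℕ) : IsLocalRing.ResidueField A) ≠ 0 := by
    rw [Nat.cast_pow]
    exact pow_ne_zero n (natCast_residue_ne_zero A ℓ hℓ hA hℓp)
  have hord := orderOf_residue' A (p ^ n) hpn hmA hζ hζA
  have hz0 : IsLocalRing.residue A ⟨ζ, hζA⟩ ≠ 0 := by
    intro h0
    rw [h0, orderOf_zero] at hord
    exact hpn hord.symm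
  have h1' := modEq_of_pow_eq hz0 h1
  rw [hord] at h1'
  have h3 := (ZMod.natCast_eq_natCast_iff _ _ (p ^ n)).mpr h1'
  rw [ZMod.natCast_zmod_val] at h3
  rw [h3, map_natCast]

/-- `χ` is trivial on inertia at `ℓ ≠ p`. -/
theorem chi_inertia (ℓ : ℕ) (hℓ : ℓ.Prime) (hℓp : ℓ ≠ p)
    (A : ValuationSubring Qbar) (hA : A.LiesOverPrime ℓ)
    (σ : GQ) (hσ : σ ∈ A.inertiaSubgroupIn ℚ) : chi p σ = 1 := by
  apply Units.ext
  rw [Units.val_one, ← PadicInt.ext_of_toZModPow]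
  intro n
  obtain ⟨ζ, hζ⟩ := exists_zeta' p n
  have hpn := pow_ne_zero' p n
  have hζA := zeta_mem' A (Nat.pos_of_ne_zero hpn) hζ.pow_eq_one
  obtain ⟨τ, hτ, rfl⟩ := hσ
  have hτ' : ∀ x : IsLocalRing.ResidueField A, τ • x = x := by
    intro x
    have h1 : MulSemiringAction.toRingAut (A.decompositionSubgroup ℚ)
        (IsLocalRing.ResidueField A) τ = 1 := hτ
    have h2 := congrArg (fun e : RingAut (IsLocalRing.ResidueField A) => e x) h1
    exact h2
  have h1 := hτ' (IsLocalRing.residue A ⟨ζ, hζA⟩)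
  rw [← IsLocalRing.ResidueField.residue_smul] at h1
  have h2 : (τ • (⟨ζ, hζA⟩ : A))
      = (⟨ζ, hζA⟩ : A) ^
        (PadicInt.toZModPow n ((chi p (τ : GQ) : ℤ_[p]ˣ) : ℤ_[p])).val :=
    Subtype.ext (by
      rw [SubmonoidClass.coe_pow]
      exact chi_spec (τ : GQ) n hζ.pow_eq_one)
  rw [h2, map_pow] at h1
  have h3 : (IsLocalRing.residue A ⟨ζ, hζA⟩) ^
      (PadicInt.toZModPow n ((chi p (τ : GQ) : ℤ_[p]ˣ) : ℤ_[p])).val
      = (IsLocalRing.residue A ⟨ζ, hζA⟩) ^ 1 := by rw [h1, pow_one]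
  have hmA : ((p ^ n : ℕ) : IsLocalRing.ResidueField A) ≠ 0 := by
    rw [Nat.cast_pow]
    exact pow_ne_zero n (natCast_residue_ne_zero A ℓ hℓ hA hℓp)
  have hord := orderOf_residue' A (p ^ n) hpn hmA hζ hζA
  have hz0 : IsLocalRing.residue A ⟨ζ, hζA⟩ ≠ 0 := by
    intro h0
    rw [h0, orderOf_zero] at hord
    exact hpn hord.symm
  have h3' := modEq_of_pow_eq hz0 h3
  rw [hord] at h3'
  have h4 := (ZMod.natCast_eq_natCast_iff _ _ (p ^ n)).mpr h3'
  rw [ZMod.natCast_zmod_val, Nat.cast_one] at h4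
  rw [map_one]
  exact h4

/-- `χ ≡ 1 mod p ^ n` on the automorphisms fixing `ℚ(ζ_{p^n})`. -/
theorem chi_level (n : ℕ) : ∃ L : IntermediateField ℚ Qbar, FiniteDimensional ℚ L ∧
    ∀ σ : GQ, (∀ x ∈ L, σ x = x) → (p : ℤ_[p]) ^ n ∣ ((chi p σ : ℤ_[p]ˣ) : ℤ_[p]) - 1 := by
  obtain ⟨ζ, hζ⟩ := exists_zeta' p n
  have hint : IsIntegral ℚ ζ :=
    (hζ.isIntegral (Nat.pos_of_ne_zero (pow_ne_zero' p n))).tower_top (R := ℤ)
  refine ⟨IntermediateField.adjoin ℚ {ζ}, IntermediateField.adjoin.finiteDimensional hint,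
    fun σ hσ => ?_⟩
  have h1 : σ ζ = ζ ^ 1 := by
    rw [pow_one]
    exact hσ ζ (IntermediateField.mem_adjoin_simple_self ℚ ζ)
  have h2 := toZModPow_chi σ n hζ h1
  rw [Nat.cast_one] at h2
  have h3 : ((chi p σ : ℤ_[p]ˣ) : ℤ_[p]) - 1 ∈ RingHom.ker (PadicInt.toZModPow (p := p) n) := by
    rw [RingHom.mem_ker, map_sub, h2, map_one, sub_self]
  rw [PadicInt.ker_toZModPow] at h3
  exact Ideal.mem_span_singleton.mp h3

end Chi

/-! ### Complex conjugation -/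

section Conj

theorem algebraicQbar : Algebra.IsAlgebraic ℚ Qbar := AlgebraicClosure.isAlgebraic ℚ

attribute [local instance] algebraicQbar

theorem normalQbar : Normal ℚ Qbar :=
  haveI : IsAlgClosure ℚ Qbar := ⟨AlgebraicClosure.isAlgClosed ℚ, AlgebraicClosure.isAlgebraic ℚ⟩
  IsAlgClosure.normal ℚ Qbar

attribute [local instance] normalQbar

/-- an embedding of `ℚ̄` into `ℂ`. -/
def iota : Qbar →ₐ[ℚ] ℂ := IsAlgClosed.lift

/-- the `ℚ̄`-algebra structure of `ℂ` given by `iota`. -/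
@[reducible] def algC : Algebra Qbar ℂ := iota.toRingHom.toAlgebra

attribute [local instance] algC

theorem towerC : IsScalarTower ℚ Qbar ℂ :=
  IsScalarTower.of_algebraMap_eq (fun x => (iota.commutes x).symm)

attribute [local instance] towerC

/-- complex conjugation as a `ℚ`-algebra automorphism of `ℂ`. -/
def conjQ : ℂ ≃ₐ[ℚ] ℂ := Complex.conjAe.restrictScalars ℚ

theorem conjQ_apply (z : ℂ) : conjQ z = (starRingEnd ℂ) z := rfl

theorem conjQ_mul : conjQ * conjQ = 1 := by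
  apply AlgEquiv.ext
  intro z
  show conjQ (conjQ z) = z
  rw [conjQ_apply, conjQ_apply, Complex.conj_conj]

/-- the complex conjugation of `ℚ̄`. -/
def cc : GQ := AlgEquiv.restrictNormalHom Qbar conjQ

theorem cc_mul : cc * cc = 1 := by
  unfold cc
  rw [← map_mul, conjQ_mul, map_one]

theorem iota_cc (x : Qbar) : iota (cc x) = (starRingEnd ℂ) (iota x) :=
  AlgEquiv.restrictNormal_commutes conjQ Qbar x

theorem cc_root {ζ : Qbar} {m : ℕ} (hm : m ≠ 0) (hζ : ζ ^ m = 1) : cc ζ = ζ⁻¹ := by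
  apply iota.toRingHom.injective
  show iota (cc ζ) = iota ζ⁻¹
  have h1 : (iota ζ) ^ m = 1 := by rw [← map_pow, hζ, map_one]
  have h2 := Complex.norm_eq_one_of_pow_eq_one h1 hm
  rw [iota_cc, map_inv₀, Complex.inv_eq_conj h2]

theorem chi_cc (p : ℕ) [Fact p.Prime] : chi p cc = -1 := by
  apply Units.ext
  rw [Units.val_neg, Units.val_one, ← PadicInt.ext_of_toZModPow]
  intro n
  obtain ⟨ζ, hζ⟩ := exists_zeta' p n
  have hpn := pow_ne_zero' p n
  have h1 : cc ζ = ζ ^ (p ^ n - 1) := by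
    rw [cc_root hpn hζ.pow_eq_one]
    have h2 : ζ ^ (p ^ n - 1) * ζ = 1 := by
      rw [← pow_succ, Nat.sub_add_cancel (Nat.pos_of_ne_zero hpn), hζ.pow_eq_one]
    exact (eq_inv_of_mul_eq_one_left h2).symm
  rw [toZModPow_chi cc n hζ h1, map_neg, map_one,
    Nat.cast_sub (Nat.pos_of_ne_zero hpn), ZMod.natCast_self, Nat.cast_one, zero_sub]

end Conj

/-! ### The statement -/

theorem cyc : CycStatement := by
  intro p _ O _ _ _ _ _ hpO
  let θ : ℤ_[p] →+* O := theta p O (IsLocalRing.maximalIdeal O) hpO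
  refine ⟨(Units.map θ.toMonoidHom).comp (chi p), cc, cc_mul, ?_, ?_, ?_, ?_⟩
  · rw [MonoidHom.comp_apply, chi_cc]
    apply Units.ext
    rw [Units.coe_map, Units.val_neg, Units.val_one, Units.val_neg, Units.val_one]
    show θ (-1) = -1
    rw [map_neg, map_one]
  · intro n
    obtain ⟨L, hL, h⟩ := chi_level p n
    refine ⟨L, hL, fun σ hσ => ?_⟩
    obtain ⟨z, hz⟩ := h σ hσ
    refine ⟨θ z, ?_⟩
    have h1 : (((Units.map θ.toMonoidHom).comp (chi p)) σ : O)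
        = θ ((chi p σ : ℤ_[p]ˣ) : ℤ_[p]) := rfl
    rw [h1, ← map_one θ, ← map_sub, hz, map_mul, map_pow, map_natCast]
  · intro ℓ hℓ hℓp A hA σ hσ
    have h1 : (((Units.map θ.toMonoidHom).comp (chi p)) σ : O)
        = θ ((chi p σ : ℤ_[p]ˣ) : ℤ_[p]) := rfl
    rw [h1, chi_frobenius p ℓ hℓ hℓp A hA σ hσ, map_natCast]
  · intro q hq hqp P hP σ hσ
    rw [MonoidHom.comp_apply, chi_inertia p q hq hqp P hP σ hσ, map_one]

end Fermat.Agent.S30.Cyc
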