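import Mathlib
import Fermat.Prelude.Def_CuspForm_HeckeGaloisRepDatum
import Fermat.Agent.S29_BDefs2
import Fermat.Agent.S16_HeckeFam

/-!
# S30 (long shot): shared interfaces

The interfaces of the S30 plan (p-adic Galois representations attached to a character of
the Hecke algebra):

* `KappaStatement`: the Kummer class map modulo an arbitrary `m` (pillar (B) of S29 for `m` not
  necessarily prime);
* `EVStatement`: for every `n`, an eigenvector of exact order `p ^ n` in `𝒪 ⊗ J₀(N)(ℚ̄)` with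
  coordinates in `J₀(N)[p ^ n]`, for the eigensystem `χ`;
* `IsPC`, `PCStatement`: a two-dimensional pseudo-character `(t, δ)` of `G_ℚ` with values in `𝒪`
  (`g + δ(g) g⁻¹ = t(g)`), with a complex conjugation, continuity, the Frobenius values and the
  inertia invariance;
* `RepStatement`: a pseudo-character with a complex conjugation over a discrete valuation ring of
  characteristic zero is the trace of a representation on a free module of rank two.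
-/

set_option autoImplicit false

noncomputable section

open ModularCurve AlgebraicCurve Polynomial
open scoped TensorProduct

namespace Fermat.Agent.S30

local notation "Qbar" => AlgebraicClosure ℚ
local notation "GQ" => (AlgebraicClosure ℚ ≃ₐ[ℚ] AlgebraicClosure ℚ)

/-- the action of `σ ∈ G_ℚ` on `𝒪 ⊗ J₀(N)(ℚ̄)`. -/
def galT (O : Type) [CommRing O] (N : ℕ) [NeZero N] (σ : GQ) :
    O ⊗[ℤ] (JZero N) →ₗ[ℤ] O ⊗[ℤ] (JZero N) :=
  LinearMap.lTensor O (DistribSMul.toAddMonoidHom (JZero N) σ).toIntLinearMap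

/-- the Hecke operator `T_ℓ` on `𝒪 ⊗ J₀(N)(ℚ̄)`. -/
def heckeT (O : Type) [CommRing O] (N ℓ : ℕ) [NeZero N] [NeZero ℓ] :
    O ⊗[ℤ] (JZero N) →ₗ[ℤ] O ⊗[ℤ] (JZero N) :=
  LinearMap.lTensor O (heckeOperatorAlong Qbar N ℓ).toIntLinearMap

/-- **(KAPPA)**: the Kummer class map modulo `m` (any `m ≠ 0`, e.g. `m = p ^ n`): on a space of
admissible characters `Γ₀(N) → ℤ/m` it is `ℤ/m`-linear, injective and Hecke equivariant, with
values in `J₀(N)(ℚ̄)[m]`.  (`S29_BridgeCore.exists_kappa` is the case `m = p` prime.) -/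
def KappaStatement : Prop :=
  ∀ (N m : ℕ) [NeZero N] [NeZero m]
    (X : Submodule (ZMod m) (Additive (CongruenceSubgroup.Gamma0 N) →+ ZMod m))
    (_hXadm : ∀ χ ∈ X, Fermat.Agent.S29.IsAdm N m χ),
    ∃ κ : X →ₗ[ZMod m] Fermat.Agent.S29.Jp N m, Function.Injective κ ∧
      ∀ (ℓ : ℕ) [Fact ℓ.Prime] [NeZero ℓ] (hℓN : ¬ ℓ ∣ N)
        (hX : ∀ χ ∈ X, (Fermat.Agent.S16.LB.famT N ℓ hℓN).tHom χ ∈ X) (χ : X),
        κ (Fermat.Agent.S29.restrT (Fermat.Agent.S16.LB.famT N ℓ hℓN) X hX χ)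
          = Fermat.Agent.S29.heckeJp N m ℓ (κ χ)

/-- **(EV)**: for every `n` there is an eigenvector `w = ∑ aᵢ ⊗ xᵢ` of exact order `p ^ n`
(`xᵢ ∈ J₀(N)[p ^ n]`) for the eigensystem `χ`. -/
def EVStatement : Prop :=
  ∀ (p : ℕ) [Fact p.Prime] (N : ℕ) [NeZero N] (S : Finset ℕ)
    (O : Type) [CommRing O] [IsDomain O] [IsDiscreteValuationRing O] [CharZero O]
    (χ : CuspForm.heckeAlgebra N 2 (↑S : Set ℕ) →+* O) (n : ℕ),
    ∃ (r : ℕ) (a : Fin r → O) (x : Fin r → JZero N),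
      (∀ i, (p ^ n) • x i = 0) ∧
      (∀ c : O, c • (∑ i, a i ⊗ₜ[ℤ] x i : O ⊗[ℤ] (JZero N)) = 0 → (p : O) ^ n ∣ c) ∧
      ∀ (ℓ : ℕ) (hℓ : ℓ.Prime) (hℓN : ¬ ℓ ∣ N) (hℓS : ℓ ∉ (↑S : Set ℕ)),
        haveI : NeZero ℓ := ⟨hℓ.ne_zero⟩
        heckeT O N ℓ (∑ i, a i ⊗ₜ[ℤ] x i)
          = χ (CuspForm.heckeAlgebra.T hℓ hℓN hℓS) • (∑ i, a i ⊗ₜ[ℤ] x i : O ⊗[ℤ] (JZero N))

/-- a two-dimensional pseudo-character of `G_ℚ` with a complex conjugation, continuous for the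
`m`-adic topology. -/
structure IsPC {O : Type} [CommRing O] (m : Ideal O) (t : GQ → O) (δ : GQ →* Oˣ) (c : GQ) :
    Prop where
  add : ∀ g h : GQ, t (g * h) + (δ h : O) * t (g * h⁻¹) = t g * t h
  one : t 1 = 2
  comm : ∀ g h : GQ, t (g * h) = t (h * g)
  c_sq : c * c = 1
  det_c : δ c = -1
  tr_c : t c = 0
  cont_t : ∀ n : ℕ, ∃ L : IntermediateField ℚ Qbar, FiniteDimensional ℚ L ∧
    ∀ σ : GQ, (∀ x ∈ L, σ x = x) → ∀ g : GQ, t (g * σ) - t g ∈ m ^ n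
  cont_δ : ∀ n : ℕ, ∃ L : IntermediateField ℚ Qbar, FiniteDimensional ℚ L ∧
    ∀ σ : GQ, (∀ x ∈ L, σ x = x) → (δ σ : O) - 1 ∈ m ^ n

/-- **(PC)**: the pseudo-character of the eigensystem `χ`. -/
def PCStatement : Prop :=
  ∀ (p : ℕ) [Fact p.Prime] (N : ℕ) [NeZero N] (S : Finset ℕ)
    (_hpS : p ∈ S) (_hNS : ∀ q : ℕ, q.Prime → q ∣ N → q ∈ S)
    (O : Type) [CommRing O] [IsDomain O] [IsDiscreteValuationRing O]
    [IsAdicComplete (IsLocalRing.maximalIdeal O) O] [CharZero O]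
    (_hpO : (p : O) ∈ IsLocalRing.maximalIdeal O)
    (χ : CuspForm.heckeAlgebra N 2 (↑S : Set ℕ) →+* O),
    ∃ (t : GQ → O) (δ : GQ →* Oˣ) (c : GQ), IsPC (IsLocalRing.maximalIdeal O) t δ c ∧
      (∀ (ℓ : ℕ) (hℓ : ℓ.Prime) (hℓN : ¬ ℓ ∣ N) (hℓS : ℓ ∉ (↑S : Set ℕ)),
        ∀ A : ValuationSubring Qbar, A.LiesOverPrime ℓ →
          ∀ σ : GQ, A.IsFrobeniusAt σ ℓ →
            t σ = χ (CuspForm.heckeAlgebra.T hℓ hℓN hℓS) ∧ (δ σ : O) = (ℓ : O)) ∧
      (∀ q : ℕ, q.Prime → ¬ q ∣ N → q ≠ p →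
        ∀ P : ValuationSubring Qbar, P.LiesOverPrime q →
          ∀ σ ∈ P.inertiaSubgroupIn ℚ, (∀ g : GQ, t (g * σ) = t g) ∧ δ σ = 1)

/-- **(REP)**: a continuous pseudo-character with a complex conjugation over a discrete valuation
ring of characteristic zero is the trace of a Galois representation on a free module of rank
two. -/
def RepStatement : Prop :=
  ∀ (O : Type) [CommRing O] [IsDomain O] [IsDiscreteValuationRing O] [CharZero O]
    (t : GQ → O) (δ : GQ →* Oˣ) (c : GQ), IsPC (IsLocalRing.maximalIdeal O) t δ c →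
    ∃ ρ : GaloisRepAdic O,
      (∀ σ : GQ, LinearMap.charpoly (ρ.ρ σ) = X ^ 2 - C (t σ) * X + C (δ σ : O)) ∧
      (∀ σ : GQ, (∀ g : GQ, t (g * σ) = t g) → ρ.ρ σ = 1)

end Fermat.Agent.S30
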