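import Mathlib

/-!
# S30 (WP-B), algebra: eigen-functionals on faithful finite modules

`exists_eigenfunctional`: a commutative ring `R` acting faithfully on a finitely generated module
`M`, and a ring homomorphism `χ : R → O` to a valuation domain: there is an additive
`ν : M → O` with `ν (r • x) = χ r * ν x` and `ν x₀ = 1` for some `x₀`.
(`ker χ` lies in the support of `M`, so `κ(ker χ) ⊗ M ≠ 0`; a functional on this vector space is
scaled by the value of largest valuation on a finite generating set.)
-/

set_option autoImplicit false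

noncomputable section

open scoped TensorProduct

namespace Fermat.Agent.S30.EVAlg

/-- a nonzero semilinear functional with values in a field. -/
theorem exists_field_functional {R : Type*} [CommRing R] {M : Type*} [AddCommGroup M]
    [Module R M] [Module.Finite R M] (hfaith : ∀ r : R, (∀ x : M, r • x = 0) → r = 0)
    {K : Type*} [Field K] (χ : R →+* K) :
    ∃ μ : M →+ K, (∀ (r : R) (x : M), μ (r • x) = χ r * μ x) ∧ ∃ x, μ x ≠ 0 := by
  classical
  haveI hprime : (RingHom.ker χ).IsPrime := RingHom.ker_isPrime χ
  have hsupp : (⟨RingHom.ker χ, hprime⟩ : PrimeSpectrum R) ∈ Module.support R M := by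
    rw [Module.mem_support_iff_of_finite]
    intro r hr
    have h0 : r = 0 := hfaith r (fun x => Module.mem_annihilator.mp hr x)
    rw [h0]
    exact zero_mem _
  have hnt : Nontrivial ((RingHom.ker χ).ResidueField ⊗[R] M) :=
    (Module.mem_support_iff_nontrivial_residueField_tensorProduct
      (⟨RingHom.ker χ, hprime⟩ : PrimeSpectrum R)).mp hsupp
  obtain ⟨v, hv⟩ := exists_ne (0 : (RingHom.ker χ).ResidueField ⊗[R] M)
  obtain ⟨f, hf⟩ : ∃ f : Module.Dual (RingHom.ker χ).ResidueField
      ((RingHom.ker χ).ResidueField ⊗[R] M), f v ≠ 0 := by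
    by_contra hcon
    push_neg at hcon
    exact hv ((Module.forall_dual_apply_eq_zero_iff _ v).mp hcon)
  let ι : (RingHom.ker χ).ResidueField →+* K :=
    Ideal.ResidueField.lift (RingHom.ker χ) χ le_rfl (by
      intro r hr
      show IsUnit (χ r)
      exact isUnit_iff_ne_zero.mpr (fun h => hr (RingHom.mem_ker.mpr h)))
  have hι : ∀ r : R, ι (algebraMap R (RingHom.ker χ).ResidueField r) = χ r := fun r =>
    Ideal.ResidueField.lift_algebraMap _ _ _ _ r
  have hone : ∀ (a : (RingHom.ker χ).ResidueField) (x : M),
      a ⊗ₜ[R] x = a • ((1 : (RingHom.ker χ).ResidueField) ⊗ₜ[R] x) := by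
    intro a x
    rw [TensorProduct.smul_tmul', smul_eq_mul, mul_one]
  refine ⟨AddMonoidHom.mk' (fun x => ι (f ((1 : (RingHom.ker χ).ResidueField) ⊗ₜ[R] x)))
    (fun x y => ?_), fun r x => ?_, ?_⟩
  · rw [TensorProduct.tmul_add, map_add, map_add]
  · show ι (f ((1 : (RingHom.ker χ).ResidueField) ⊗ₜ[R] (r • x)))
      = χ r * ι (f ((1 : (RingHom.ker χ).ResidueField) ⊗ₜ[R] x))
    have h1 : (1 : (RingHom.ker χ).ResidueField) ⊗ₜ[R] (r • x)
        = algebraMap R (RingHom.ker χ).ResidueField r
          • ((1 : (RingHom.ker χ).ResidueField) ⊗ₜ[R] x) := by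
      rw [← hone, ← TensorProduct.smul_tmul, Algebra.smul_def, mul_one]
    rw [h1, map_smul, smul_eq_mul, map_mul, hι]
  · by_contra hcon
    push_neg at hcon
    have hfz : ∀ w : (RingHom.ker χ).ResidueField ⊗[R] M, f w = 0 := by
      intro w
      induction w using TensorProduct.induction_on with
      | zero => exact map_zero f
      | tmul a x =>
          have h0 : f ((1 : (RingHom.ker χ).ResidueField) ⊗ₜ[R] x) = 0 :=
            ι.injective (by rw [map_zero]; exact hcon x)
          rw [hone, map_smul, h0, smul_zero]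
      | add y z hy hz => rw [map_add, hy, hz, add_zero]
    exact hf (hfz v)

/-- **the eigen-functional**: `R` acts faithfully on the finite module `M`, `χ : R → O` a ring
homomorphism to a valuation domain; then there is an additive `ν : M → O` with
`ν (r • x) = χ r * ν x` taking the value `1`. -/
theorem exists_eigenfunctional {R : Type*} [CommRing R] {M : Type*} [AddCommGroup M]
    [Module R M] [Module.Finite R M] (hfaith : ∀ r : R, (∀ x : M, r • x = 0) → r = 0)
    {O : Type*} [CommRing O] [IsDomain O] [ValuationRing O] (χ : R →+* O) :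
    ∃ ν : M →+ O, (∀ (r : R) (x : M), ν (r • x) = χ r * ν x) ∧ ∃ x, ν x = 1 := by
  classical
  obtain ⟨μ, hμ, x₀, hx₀⟩ := exists_field_functional hfaith
    ((algebraMap O (FractionRing O)).comp χ)
  obtain ⟨s, hs⟩ := (Module.Finite.fg_top : (⊤ : Submodule R M).FG)
  have hmem : ∀ x : M, x ∈ Submodule.span R (s : Set M) := fun x => by rw [hs]; trivial
  have hsne : s.Nonempty := by
    by_contra h
    rw [Finset.not_nonempty_iff_eq_empty] at h
    have h1 := hmem x₀
    rw [h, Finset.coe_empty, Submodule.span_empty, Submodule.mem_bot] at h1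
    exact hx₀ (by rw [h1, map_zero])
  obtain ⟨m₀, hm₀s, hmax⟩ := Finset.exists_max_image s
    (fun m => ValuationRing.valuation O (FractionRing O) (μ m)) hsne
  have hm₀ : μ m₀ ≠ 0 := by
    intro h0
    have hall : ∀ m ∈ s, μ m = 0 := by
      intro m hm
      have h1 := hmax m hm
      simp only [h0, map_zero] at h1
      exact (Valuation.zero_iff _).mp (le_antisymm h1 zero_le')
    have hzero : ∀ x : M, μ x = 0 := by
      intro x
      have hx := hmem x
      induction hx using Submodule.span_induction with
      | mem y hy => exact hall y hy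
      | zero => exact map_zero μ
      | add y z _ _ hy hz => rw [map_add, hy, hz, add_zero]
      | smul r y _ hy => rw [hμ, hy, mul_zero]
    exact hx₀ (hzero x₀)
  have hpos : 0 < ValuationRing.valuation O (FractionRing O) (μ m₀) :=
    zero_lt_iff.mpr ((Valuation.ne_zero_iff _).mpr hm₀)
  have hint : ∀ x : M, ∃ y : O, algebraMap O (FractionRing O) y = μ x / μ m₀ := by
    intro x
    have hx := hmem x
    induction hx using Submodule.span_induction with
    | mem y hy =>
        rw [← ValuationRing.mem_integer_iff, Valuation.mem_integer_iff, map_div₀]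
        exact (div_le_one₀ hpos).mpr (hmax y hy)
    | zero => exact ⟨0, by rw [map_zero, map_zero, zero_div]⟩
    | add y z _ _ hy hz =>
        obtain ⟨a, ha⟩ := hy
        obtain ⟨b, hb⟩ := hz
        exact ⟨a + b, by rw [map_add, ha, hb, map_add, add_div]⟩
    | smul r y _ hy =>
        obtain ⟨a, ha⟩ := hy
        exact ⟨χ r * a, by rw [map_mul, ha, hμ, mul_div_assoc]; rfl⟩
  choose ν₀ hν₀ using hint
  have hinj : Function.Injective (algebraMap O (FractionRing O)) :=
    IsFractionRing.injective O (FractionRing O)
  refine ⟨AddMonoidHom.mk' ν₀ (fun x y => hinj ?_), fun r x => hinj ?_, m₀, hinj ?_⟩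
  · rw [map_add, hν₀, hν₀, hν₀, map_add, add_div]
  · show algebraMap O (FractionRing O) (ν₀ (r • x)) = algebraMap O (FractionRing O) (χ r * ν₀ x)
    rw [map_mul, hν₀, hν₀, hμ, mul_div_assoc]
    rfl
  · show algebraMap O (FractionRing O) (ν₀ m₀) = algebraMap O (FractionRing O) 1
    rw [hν₀, map_one, div_self hm₀]

end Fermat.Agent.S30.EVAlg
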