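import Mathlib
import Fermat.Agent.S30_Defs
import Fermat.Agent.S30_EVAlg
import Fermat.Agent.S29_Period

/-!
# S30 (WP-B): eigenvectors of exact order `p ^ n` in `𝒪 ⊗ J₀(N)(ℚ̄)`

`ev_of_kappa : KappaStatement → EVStatement`.

The period lattice `L ⊆ Hom_ℂ(S₂(Γ₀(N)), ℂ)` (the image of `Γ₀(N)`) is a finitely generated free
abelian group on which the Hecke algebra `𝕋` acts faithfully by transposition.  For a ring
homomorphism `χ : 𝕋 → 𝒪` there is an eigen-functional `ν : L → 𝒪` taking the value `1`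
(`S30_EVAlg`).  With a basis `ε_j` of `L`, the characters `χ_j = (ε_j^* mod m) ∘ P` of `Γ₀(N)` and
the Kummer class map `κ` modulo `m = p ^ n`, the element `∑_j ν(ε_j) ⊗ κ(χ_j)` is an eigenvector
of exact order `p ^ n`.
-/

set_option autoImplicit false
set_option linter.style.haveILetI false

noncomputable section

open UpperHalfPlane ModularCurve CongruenceSubgroup ModularCurve.Period AlgebraicCurve
open scoped MatrixGroups ModularForm TensorProduct

namespace Fermat.Agent.S30.EV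

open Fermat.Agent.S29 (IsAdm Jp heckeJp restrT coe_restrT coe_heckeJp)

local notation "Qbar" => AlgebraicClosure ℚ

/-- an additive map as a `ℤ`-linear map, for arbitrary `ℤ`-module structures. -/
def toZLin (A B : Type*) [AddCommGroup A] [AddCommGroup B] [Module ℤ A] [Module ℤ B]
    (g : A →+ B) : A →ₗ[ℤ] B where
  toFun := g
  map_add' := map_add g
  map_smul' := fun z x => by
    simpa using map_intCast_smul g ℤ ℤ z x

@[simp]
theorem toZLin_apply (A B : Type*) [AddCommGroup A] [AddCommGroup B] [Module ℤ A] [Module ℤ B]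
    (g : A →+ B) (x : A) : toZLin A B g x = g x := rfl

/-! ### characters through a lattice -/

section Core

variable {N : ℕ} (m : ℕ) {Λ : Type} [AddCommGroup Λ] {ι : Type} [Fintype ι]
  (b : Module.Basis ι ℤ Λ) (PΛ : Additive (Gamma0 N) →+ Λ)

/-- the characters `γ ↦ (j-th coordinate of PΛ γ) mod m`. -/
def chi (j : ι) : Additive (Gamma0 N) →+ ZMod m :=
  ((Int.castAddHom (ZMod m)).comp (b.coord j).toAddMonoidHom).comp PΛ

omit [Fintype ι] in
theorem chi_apply (j : ι) (γ : Additive (Gamma0 N)) :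
    chi m b PΛ j γ = ((b.repr (PΛ γ) j : ℤ) : ZMod m) := rfl

theorem comp_eq_sum (g' : Λ →+ ZMod m) :
    g'.comp PΛ = ∑ j, g' (b j) • chi m b PΛ j := by
  refine AddMonoidHom.ext fun γ => ?_
  rw [AddMonoidHom.comp_apply, AddMonoidHom.finsetSum_apply]
  simp only [AddMonoidHom.smul_apply, chi_apply, smul_eq_mul]
  conv_lhs => rw [← b.sum_repr (PΛ γ)]
  rw [map_sum]
  refine Finset.sum_congr rfl fun j _ => ?_
  rw [map_zsmul, zsmul_eq_mul, mul_comm]

theorem sum_repr_zsmul {O : Type} [AddCommGroup O] (ν : Λ →+ O) (x : Λ) :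
    ∑ j, (b.repr x j : ℤ) • ν (b j) = ν x := by
  conv_rhs => rw [← b.sum_repr x]
  rw [map_sum]
  refine Finset.sum_congr rfl fun j _ => ?_
  rw [map_zsmul]

include b in
theorem core [NeZero N] [NeZero m] (hK : KappaStatement)
    (hsurj : Function.Surjective PΛ)
    (hadm : ∀ γ : Gamma0 N, ((γ : SL(2, ℤ)) 0 0 + (γ : SL(2, ℤ)) 1 1) ^ 2 ≤ 4 →
      PΛ (Additive.ofMul γ) = 0)
    (O : Type) [CommRing O] [Module.Flat ℤ O] (ν : Λ →+ O) :
    ∃ x : ι → JZero N, (∀ i, m • x i = 0) ∧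
      (∀ c : O, c • (∑ i, ν (b i) ⊗ₜ[ℤ] x i : O ⊗[ℤ] (JZero N)) = 0 →
        ∀ i, (m : O) ∣ c * ν (b i)) ∧
      ∀ (ℓ : ℕ) [Fact ℓ.Prime] [NeZero ℓ] (hℓN : ¬ ℓ ∣ N) (τ : Λ →+ Λ) (e : O),
        (Fermat.Agent.S16.LB.famT N ℓ hℓN).tHom PΛ = τ.comp PΛ → (∀ y, ν (τ y) = e * ν y) →
        heckeT O N ℓ (∑ i, ν (b i) ⊗ₜ[ℤ] x i) = e • (∑ i, ν (b i) ⊗ₜ[ℤ] x i) := by
  classical
  let X : Submodule (ZMod m) (Additive (Gamma0 N) →+ ZMod m) :=
    Submodule.span (ZMod m) (Set.range (chi m b PΛ))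
  have hχX : ∀ j, chi m b PΛ j ∈ X := fun j => Submodule.subset_span ⟨j, rfl⟩
  have hfac : ∀ g' : Λ →+ ZMod m, g'.comp PΛ ∈ X := by
    intro g'
    rw [comp_eq_sum m b PΛ g']
    exact Submodule.sum_mem _ (fun j _ => Submodule.smul_mem _ _ (hχX j))
  have hXfac : ∀ χ' ∈ X, ∃ g' : Λ →+ ZMod m, χ' = g'.comp PΛ := by
    intro χ' hχ'
    induction hχ' using Submodule.span_induction with
    | mem y hy =>
        obtain ⟨j, rfl⟩ := hy
        exact ⟨_, rfl⟩
    | zero => exact ⟨0, (AddMonoidHom.zero_comp PΛ).symm⟩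
    | add y z _ _ hy hz =>
        obtain ⟨g1, rfl⟩ := hy
        obtain ⟨g2, rfl⟩ := hz
        exact ⟨g1 + g2, (AddMonoidHom.add_comp g1 g2 PΛ).symm⟩
    | smul r y _ hy =>
        obtain ⟨g1, rfl⟩ := hy
        exact ⟨r • g1, rfl⟩
  have hstab : ∀ (𝒜 : Fermat.Agent.S16.LB.CosetFam N) (τ : Λ →+ Λ), 𝒜.tHom PΛ = τ.comp PΛ →
      ∀ χ ∈ X, 𝒜.tHom χ ∈ X := by
    intro 𝒜 τ hτ χ' hχ'
    obtain ⟨g', rfl⟩ := hXfac χ' hχ'
    rw [Fermat.Agent.S16.LB.CosetFam.tHom_comp, hτ, ← AddMonoidHom.comp_assoc]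
    exact hfac _
  have hXadm : ∀ χ ∈ X, IsAdm N m χ := by
    intro χ' hχ' γ hγ
    obtain ⟨g', rfl⟩ := hXfac χ' hχ'
    rw [AddMonoidHom.comp_apply, hadm γ hγ, map_zero]
  obtain ⟨κ, hκinj, hκT⟩ := hK N m X hXadm
  let xs : ι → X := fun j => ⟨chi m b PΛ j, hχX j⟩
  refine ⟨fun j => ((κ (xs j) : Jp N m) : JZero N), fun i => (κ (xs i)).2, ?_, ?_⟩
  · -- the exact order
    intro c hc i
    let f : X →ₗ[ℤ] JZero N := toZLin X (JZero N) ((Jp N m).subtype.comp κ.toAddMonoidHom)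
    have hf : Function.Injective f := fun a a' haa' => hκinj (Subtype.ext haa')
    have hfl : Function.Injective (LinearMap.lTensor O f) :=
      Module.Flat.lTensor_preserves_injective_linearMap f hf
    have h1 : LinearMap.lTensor O f (∑ j, (c * ν (b j)) ⊗ₜ[ℤ] xs j) = 0 := by
      rw [← hc, map_sum, Finset.smul_sum]
      refine Finset.sum_congr rfl fun j _ => ?_
      rw [LinearMap.lTensor_tmul, TensorProduct.smul_tmul', smul_eq_mul]
      rfl
    have h2 : (∑ j, (c * ν (b j)) ⊗ₜ[ℤ] xs j : O ⊗[ℤ] X) = 0 :=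
      hfl (by rw [h1, map_zero])
    obtain ⟨γ, hγ⟩ := hsurj (b i)
    have hm0 : (Int.castAddHom (O ⧸ Ideal.span {(m : O)})) (m : ℤ) = 0 := by
      show (((m : ℕ) : ℤ) : O ⧸ Ideal.span {(m : O)}) = 0
      rw [Int.cast_natCast, ← map_natCast (Ideal.Quotient.mk (Ideal.span {(m : O)})),
        Ideal.Quotient.eq_zero_iff_mem]
      exact Ideal.subset_span rfl
    let ψ : ZMod m →+ O ⧸ Ideal.span {(m : O)} :=
      ZMod.lift m ⟨Int.castAddHom (O ⧸ Ideal.span {(m : O)}), hm0⟩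
    have hψ : ∀ z : ℤ, ψ (z : ZMod m) = (z : O ⧸ Ideal.span {(m : O)}) := fun z =>
      ZMod.lift_coe m _ z
    let ev : X →ₗ[ℤ] O ⧸ Ideal.span {(m : O)} :=
      toZLin X (O ⧸ Ideal.span {(m : O)}) (AddMonoidHom.mk' (fun ξ : X => ψ ((ξ : Additive (Gamma0 N) →+ ZMod m) γ))
        (fun ξ ξ' => by
          show ψ (((ξ : Additive (Gamma0 N) →+ ZMod m) + (ξ' : Additive (Gamma0 N) →+ ZMod m)) γ)
            = _
          rw [AddMonoidHom.add_apply, map_add]))
    let φ : O ⊗[ℤ] X →ₗ[ℤ] O ⧸ Ideal.span {(m : O)} :=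
      TensorProduct.lift ((LinearMap.mul ℤ (O ⧸ Ideal.span {(m : O)})).compl₁₂
        (toZLin O (O ⧸ Ideal.span {(m : O)}) (Ideal.Quotient.mk (Ideal.span {(m : O)})).toAddMonoidHom) ev)
    have hφ : ∀ (a : O) (ξ : X), φ (a ⊗ₜ[ℤ] ξ)
        = Ideal.Quotient.mk (Ideal.span {(m : O)}) a
          * ψ ((ξ : Additive (Gamma0 N) →+ ZMod m) γ) := fun a ξ => rfl
    have h3 := congrArg φ h2
    rw [map_sum, map_zero] at h3
    have h4 : ∀ j, ψ ((xs j : Additive (Gamma0 N) →+ ZMod m) γ) = if j = i then 1 else 0 := by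
      intro j
      show ψ (chi m b PΛ j γ) = _
      rw [chi_apply, hγ, hψ, Module.Basis.repr_self, Finsupp.single_apply]
      by_cases hji : j = i
      · rw [if_pos hji, if_pos hji.symm, Int.cast_one]
      · rw [if_neg hji, if_neg (fun h => hji h.symm), Int.cast_zero]
    simp only [hφ, h4, mul_ite, mul_one, mul_zero, Finset.sum_ite_eq', Finset.mem_univ,
      if_true] at h3
    rw [Ideal.Quotient.eq_zero_iff_mem, Ideal.mem_span_singleton] at h3
    exact h3
  · -- the eigen-equation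
    intro ℓ _ _ hℓN τ e hτ hντ
    have hX := hstab _ τ hτ
    have hT : ∀ j, restrT (Fermat.Agent.S16.LB.famT N ℓ hℓN) X hX (xs j)
        = ∑ i, ((b.repr (τ (b i)) j : ℤ) : ZMod m) • xs i := by
      intro j
      apply Subtype.ext
      rw [coe_restrT, Submodule.coe_sum]
      simp only [Submodule.coe_smul]
      show (Fermat.Agent.S16.LB.famT N ℓ hℓN).tHom
        (((Int.castAddHom (ZMod m)).comp (b.coord j).toAddMonoidHom).comp PΛ) = _
      rw [Fermat.Agent.S16.LB.CosetFam.tHom_comp, hτ, ← AddMonoidHom.comp_assoc,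
        comp_eq_sum m b PΛ]
      rfl
    have hTx : ∀ j, heckeOperatorAlong Qbar N ℓ ((κ (xs j) : Jp N m) : JZero N)
        = ∑ i, (b.repr (τ (b i)) j : ℤ) • ((κ (xs i) : Jp N m) : JZero N) := by
      intro j
      rw [← coe_heckeJp, ← hκT ℓ hℓN hX (xs j), hT, map_sum, AddSubgroup.val_finsetSum]
      refine Finset.sum_congr rfl fun i _ => ?_
      rw [map_smul, Int.cast_smul_eq_zsmul, AddSubgroup.coe_zsmul]
    show LinearMap.lTensor O (heckeOperatorAlong Qbar N ℓ).toIntLinearMap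
      (∑ i, ν (b i) ⊗ₜ[ℤ] ((κ (xs i) : Jp N m) : JZero N)) = _
    rw [map_sum]
    simp only [LinearMap.lTensor_tmul, AddMonoidHom.coe_toIntLinearMap, hTx,
      TensorProduct.tmul_sum]
    simp only [← TensorProduct.smul_tmul]
    rw [Finset.sum_comm]
    simp only [← TensorProduct.sum_tmul, sum_repr_zsmul b ν, hντ]
    rw [Finset.smul_sum]
    refine Finset.sum_congr rfl fun i _ => ?_
    rw [TensorProduct.smul_tmul', smul_eq_mul]

end Core

/-! ### the period lattice -/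

section Lattice

variable (N : ℕ) [NeZero N]

/-- the period map with values in the dual of the space of cusp forms. -/
def PM : Additive (Gamma0 N) →+ Module.Dual ℂ (CuspForm (Gamma0 N) 2) :=
  AddMonoidHom.mk' (fun γ =>
    { toFun := fun f => periodMap N f γ
      map_add' := fun f g => by
        rw [Fermat.Agent.S21.periodMap_add]
        rfl
      map_smul' := fun a f => by
        rw [Fermat.Agent.S21.periodMap_smul]
        rfl })
    (fun γ δ => LinearMap.ext fun f => map_add (periodMap N f) γ δ)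

theorem PM_apply (γ : Additive (Gamma0 N)) (f : CuspForm (Gamma0 N) 2) :
    PM N γ f = periodMap N f γ := rfl

/-- evaluation at a cusp form. -/
def evalAt (f : CuspForm (Gamma0 N) 2) : Module.Dual ℂ (CuspForm (Gamma0 N) 2) →+ ℂ :=
  AddMonoidHom.mk' (fun φ => φ f) (fun _ _ => rfl)

theorem evalAt_comp_PM (f : CuspForm (Gamma0 N) 2) :
    (evalAt N f).comp (PM N) = periodMap N f := AddMonoidHom.ext fun _ => rfl

/-- transposition by a Hecke operator given by a coset family is the Hecke operator on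
`Hom(Γ₀(N), ·)`. -/
theorem tHom_PM (𝒜 : Fermat.Agent.S16.LB.CosetFam N)
    (T : Module.End ℂ (CuspForm (Gamma0 N) 2))
    (hT : ∀ f : CuspForm (Gamma0 N) 2,
      ((T f : CuspForm (Gamma0 N) 2) : ℍ → ℂ) = ∑ i, (f : ℍ → ℂ) ∣[(2 : ℤ)] 𝒜.A i)
    (γ : Additive (Gamma0 N)) :
    𝒜.tHom (PM N) γ = (PM N γ).comp T := by
  refine LinearMap.ext fun f => ?_
  have h1 := Fermat.Agent.S16.LB.periodMap_hecke 𝒜 f (T f) (hT f)
  have h2 : (evalAt N f) (𝒜.tHom (PM N) γ) = 𝒜.tHom (periodMap N f) γ := by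
    rw [← evalAt_comp_PM, Fermat.Agent.S16.LB.CosetFam.tHom_comp]
    rfl
  show (evalAt N f) (𝒜.tHom (PM N) γ) = periodMap N (T f) γ
  rw [h2, h1]

/-- the period lattice. -/
def Lat : AddSubgroup (Module.Dual ℂ (CuspForm (Gamma0 N) 2)) := (PM N).range

theorem tHom_PM_mem (𝒜 : Fermat.Agent.S16.LB.CosetFam N) (γ : Additive (Gamma0 N)) :
    𝒜.tHom (PM N) γ ∈ Lat N := by
  show ∑ i, PM N (Additive.ofMul (𝒜.kap (Additive.toMul γ) i)) ∈ Lat N
  exact sum_mem (fun i _ => ⟨_, rfl⟩)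

theorem lat_torsionFree : IsAddTorsionFree (Lat N) where
  nsmul_right_injective n hn a b hab := by
    apply Subtype.ext
    have h : (n : ℂ) • (a : Module.Dual ℂ (CuspForm (Gamma0 N) 2))
        = (n : ℂ) • (b : Module.Dual ℂ (CuspForm (Gamma0 N) 2)) := by
      simp only [Nat.cast_smul_eq_nsmul]
      exact congrArg Subtype.val hab
    exact smul_right_injective _ (Nat.cast_ne_zero.mpr hn) h

/-- the endomorphisms of `S₂(Γ₀(N))` whose transpose preserves the period lattice. -/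
def stab : Subalgebra ℤ (Module.End ℂ (CuspForm (Gamma0 N) 2)) where
  carrier := {T | ∀ φ ∈ Lat N, φ.comp T ∈ Lat N}
  mul_mem' := fun {T T'} hT hT' φ hφ => hT' _ (hT φ hφ)
  one_mem' := fun φ hφ => hφ
  add_mem' := fun {T T'} hT hT' φ hφ => by
    rw [LinearMap.comp_add]
    exact add_mem (hT φ hφ) (hT' φ hφ)
  zero_mem' := fun φ hφ => by
    rw [LinearMap.comp_zero]
    exact zero_mem _
  algebraMap_mem' := fun z φ hφ => by
    have h1 : φ.comp (algebraMap ℤ (Module.End ℂ (CuspForm (Gamma0 N) 2)) z) = z • φ := by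
      refine LinearMap.ext fun f => ?_
      simp [Algebra.algebraMap_eq_smul_one]
    rw [h1]
    exact zsmul_mem hφ z

theorem heckeAlgebra_le_stab (S : Set ℕ) : CuspForm.heckeAlgebra N 2 S ≤ stab N := by
  refine Algebra.adjoin_le ?_
  rintro T (⟨ℓ, hℓ, hℓN, -, rfl⟩ | ⟨q, hqN, hq, -, rfl⟩)
  · haveI : Fact ℓ.Prime := ⟨hℓ⟩
    rintro φ ⟨γ, rfl⟩
    rw [← tHom_PM N (Fermat.Agent.S16.LB.famT N ℓ hℓN) (CuspForm.heckeTLin 2 hℓ hℓN) (fun f => by
      rw [CuspForm.coe_heckeTLin_apply]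
      exact Fermat.Agent.S16.LB.heckeT_eq_sum_famT N ℓ hℓN 2 f) γ]
    exact tHom_PM_mem N _ γ
  · haveI : Fact q.Prime := ⟨hq⟩
    rintro φ ⟨γ, rfl⟩
    rw [← tHom_PM N (Fermat.Agent.S16.LB.famU N q hqN) (CuspForm.heckeULin 2 hqN) (fun f => by
      rw [CuspForm.coe_heckeULin_apply]
      exact Fermat.Agent.S16.LB.heckeU_eq_sum_famU N q hqN 2 f) γ]
    exact tHom_PM_mem N _ γ

/-- the transposed action of an element of `stab` on the lattice. -/
def actAdd (T : stab N) : Lat N →+ Lat N :=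
  AddMonoidHom.mk' (fun φ => ⟨(φ : Module.Dual ℂ (CuspForm (Gamma0 N) 2)).comp
      (T : Module.End ℂ (CuspForm (Gamma0 N) 2)), T.2 φ φ.2⟩)
    (fun φ ψ => Subtype.ext (LinearMap.add_comp _ _ _))

/-- the transposed action of the Hecke algebra on the lattice. -/
def act (S : Set ℕ) : CuspForm.heckeAlgebra N 2 S →+* AddMonoid.End (Lat N) where
  toFun T := actAdd N ⟨T.1, heckeAlgebra_le_stab N S T.2⟩
  map_one' := by
    refine AddMonoidHom.ext fun φ => Subtype.ext ?_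
    rfl
  map_mul' T T' := by
    refine AddMonoidHom.ext fun φ => Subtype.ext ?_
    show (φ : Module.Dual ℂ (CuspForm (Gamma0 N) 2)).comp
        ((T * T' : CuspForm.heckeAlgebra N 2 S) : Module.End ℂ (CuspForm (Gamma0 N) 2))
      = ((φ : Module.Dual ℂ (CuspForm (Gamma0 N) 2)).comp
        (T' : Module.End ℂ (CuspForm (Gamma0 N) 2))).comp
          (T : Module.End ℂ (CuspForm (Gamma0 N) 2))
    rw [mul_comm T T']
    rfl
  map_zero' := by
    refine AddMonoidHom.ext fun φ => Subtype.ext ?_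
    exact LinearMap.comp_zero _
  map_add' T T' := by
    refine AddMonoidHom.ext fun φ => Subtype.ext ?_
    exact LinearMap.comp_add _ _ _

theorem act_apply (S : Set ℕ) (T : CuspForm.heckeAlgebra N 2 S) (φ : Lat N) :
    ((act N S T φ : Lat N) : Module.Dual ℂ (CuspForm (Gamma0 N) 2))
      = (φ : Module.Dual ℂ (CuspForm (Gamma0 N) 2)).comp
        (T : Module.End ℂ (CuspForm (Gamma0 N) 2)) := rfl

end Lattice

/-! ### the main statement -/

/-- **(WP-B)**: `KappaStatement` implies `EVStatement`. -/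
theorem ev_of_kappa (hK : KappaStatement) : EVStatement := by
  intro p _ N _ S O _ _ _ _ χ n
  classical
  haveI : Group.FG (Gamma0 N) := Fermat.Agent.S22.Small.gamma0_fg N
  haveI : AddGroup.FG (Additive (Gamma0 N)) := GroupFG.iff_add_fg.mp inferInstance
  have hLfg : (Lat N).FG := (AddGroup.fg_iff_addSubgroup_fg _).mp (AddGroup.fg_range (PM N))
  haveI : Module.Finite ℤ (Lat N) := Module.Finite.iff_addGroup_fg.mpr
    ((AddGroup.fg_iff_addSubgroup_fg _).mpr hLfg)
  haveI : IsAddTorsionFree (Lat N) := lat_torsionFree N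
  haveI : Module.Free ℤ (Lat N) := inferInstance
  let b := Module.finBasis ℤ (Lat N)
  let PΛ : Additive (Gamma0 N) →+ Lat N := (PM N).rangeRestrict
  have hsurj : Function.Surjective PΛ := (PM N).rangeRestrict_surjective
  have hadm : ∀ γ : Gamma0 N, ((γ : SL(2, ℤ)) 0 0 + (γ : SL(2, ℤ)) 1 1) ^ 2 ≤ 4 →
      PΛ (Additive.ofMul γ) = 0 := fun γ hγ =>
    Subtype.ext (LinearMap.ext fun f =>
      Fermat.Agent.S29.Period.periodMap_eq_zero_of_trace f γ hγ)
  -- the Hecke module structure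
  letI : Module (CuspForm.heckeAlgebra N 2 (↑S : Set ℕ)) (Lat N) :=
    Module.compHom (Lat N) (act N (↑S : Set ℕ))
  haveI : Module.Finite (CuspForm.heckeAlgebra N 2 (↑S : Set ℕ)) (Lat N) := by
    obtain ⟨s, hs⟩ := (Module.Finite.fg_top : (⊤ : Submodule ℤ (Lat N)).FG)
    have hall : ∀ x : Lat N,
        x ∈ Submodule.span (CuspForm.heckeAlgebra N 2 (↑S : Set ℕ)) (s : Set (Lat N)) := by
      intro x
      have hx : x ∈ Submodule.span ℤ (s : Set (Lat N)) := by rw [hs]; trivial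
      induction hx using Submodule.span_induction with
      | mem y hy => exact Submodule.subset_span hy
      | zero => exact zero_mem _
      | add y z _ _ hy hz => exact add_mem hy hz
      | smul r y _ hy => exact zsmul_mem hy r
    exact ⟨⟨s, eq_top_iff.mpr (fun x _ => hall x)⟩⟩
  have hfaith : ∀ T : CuspForm.heckeAlgebra N 2 (↑S : Set ℕ),
      (∀ φ : Lat N, T • φ = 0) → T = 0 := by
    intro T hT
    apply Subtype.ext
    refine LinearMap.ext fun f => ?_
    by_contra hne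
    apply Fermat.Agent.S29.Period.periodMap_ne_zero hne
    refine AddMonoidHom.ext fun γ => ?_
    have h1 := hT ⟨PM N γ, ⟨γ, rfl⟩⟩
    have h2 := congrArg (fun φ : Lat N => (φ : Module.Dual ℂ (CuspForm (Gamma0 N) 2)) f) h1
    exact h2
  obtain ⟨ν, hν, x₁, hx₁⟩ := EVAlg.exists_eigenfunctional hfaith χ
  have hunit : ∃ i, IsUnit (ν (b i)) := by
    by_contra hcon
    push_neg at hcon
    have h1 : ν x₁ ∈ IsLocalRing.maximalIdeal O := by
      rw [← sum_repr_zsmul b ν x₁]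
      refine Ideal.sum_mem _ (fun j _ => ?_)
      rw [zsmul_eq_mul]
      exact Ideal.mul_mem_left _ _ ((IsLocalRing.mem_maximalIdeal _).mpr (hcon j))
    rw [hx₁] at h1
    exact (IsLocalRing.mem_maximalIdeal _).mp h1 isUnit_one
  obtain ⟨i₀, hi₀⟩ := hunit
  haveI : NeZero (p ^ n) := ⟨pow_ne_zero n (Fact.out : p.Prime).ne_zero⟩
  haveI : Module.Flat ℤ O := inferInstance
  obtain ⟨x, hx, hord, hhecke⟩ := core (p ^ n) b PΛ hK hsurj hadm O ν
  refine ⟨Module.finrank ℤ (Lat N), fun i => ν (b i), x, hx, ?_, ?_⟩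
  · intro c hc
    have h1 := hord c hc i₀
    rw [Nat.cast_pow] at h1
    exact (IsUnit.dvd_mul_right hi₀).mp h1
  · intro ℓ hℓ hℓN hℓS
    haveI : Fact ℓ.Prime := ⟨hℓ⟩
    haveI : NeZero ℓ := ⟨hℓ.ne_zero⟩
    refine hhecke ℓ hℓN (act N (↑S : Set ℕ) (CuspForm.heckeAlgebra.T hℓ hℓN hℓS))
      (χ (CuspForm.heckeAlgebra.T hℓ hℓN hℓS)) ?_ (fun y => hν _ y)
    refine AddMonoidHom.ext fun γ => Subtype.ext ?_
    have h1 : ((Lat N).subtype.comp PΛ) = PM N := rfl
    have h2 : (((Fermat.Agent.S16.LB.famT N ℓ hℓN).tHom PΛ γ : Lat N) :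
        Module.Dual ℂ (CuspForm (Gamma0 N) 2))
        = (Fermat.Agent.S16.LB.famT N ℓ hℓN).tHom (PM N) γ := by
      rw [← h1, Fermat.Agent.S16.LB.CosetFam.tHom_comp]
      rfl
    rw [h2, tHom_PM N _ (CuspForm.heckeTLin 2 hℓ hℓN) (fun f => by
      rw [CuspForm.coe_heckeTLin_apply]
      exact Fermat.Agent.S16.LB.heckeT_eq_sum_famT N ℓ hℓN 2 f) γ]
    rfl

end Fermat.Agent.S30.EV
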