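import Fermat.Agent.S29_BDefs
import Fermat.Agent.S37_HeckeInputsFinal
import Fermat.Agent.S37_CurveP
import Fermat.Agent.S37_Level

/-!
# S30, Kummer functions over `ℚ̄` and `p`-torsion classes, for an arbitrary modulus `p ≠ 0`

The copy of `S29_KumPic` with `[NeZero p]` instead of `[Fact p.Prime]` (`p` is any nonzero
natural number, e.g. a prime power): for `h₀ ∈ F_N(ℚ̄)` with `p ∣ ord_v h₀` at every place,
`classOf h₀` is the class of `(1/p) div h₀` in `J₀(N)[p]`.  It is multiplicative, depends only on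
the `KumRel`-class, vanishes exactly on `c · y ^ p`, and the Hecke operator acts by
`h₀ ↦ N_α (β h₀)`.
-/

set_option autoImplicit false

noncomputable section

open ModularCurve AlgebraicCurve

namespace Fermat.Agent.S30.KumPic

local notation "Qbar" => AlgebraicClosure ℚ

open Fermat.Agent.S29

section Generic

variable {K F : Type*} [Field K] [Field F] [Algebra K F]

/-- a divisor of degree zero `D` with `p * D v = ord_v h` for all `v`. -/
def IsRootDiv (p : ℕ) (h : F) (D : Divisor.degZero (K := K) (F := F)) : Prop :=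
  ∀ v : Place K F, (p : ℤ) * (D : Divisor K F) v = v.ord h

theorem IsRootDiv.unique {p : ℕ} (hp : p ≠ 0) {h : F} {D D' : Divisor.degZero (K := K) (F := F)}
    (hD : IsRootDiv p h D) (hD' : IsRootDiv p h D') : D = D' := by
  apply Subtype.ext
  apply Finsupp.ext
  intro v
  have h1 := hD v
  have h2 := hD' v
  have hp' : (p : ℤ) ≠ 0 := Nat.cast_ne_zero.mpr hp
  exact mul_left_cancel₀ hp' (h1.trans h2.symm)

variable [HasPrincipalDivisors K F]

theorem exists_isRootDiv {p : ℕ} (hp : p ≠ 0) {h : F} (hh : IsPDiv K F p h) :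
    ∃ D : Divisor.degZero (K := K) (F := F), IsRootDiv p h D := by
  obtain ⟨D₀, hD₀, hdeg⟩ := HasPrincipalDivisors.exists_divisor (K := K) h hh.1
  have hp' : (p : ℤ) ≠ 0 := Nat.cast_ne_zero.mpr hp
  let D : Divisor K F := D₀.mapRange (fun n => n / (p : ℤ)) (by simp)
  have hD : ∀ v, (p : ℤ) * D v = v.ord h := by
    intro v
    show (p : ℤ) * (D₀.mapRange (fun n => n / (p : ℤ)) (by simp)) v = v.ord h
    rw [Finsupp.mapRange_apply, hD₀ v]
    exact Int.mul_ediv_cancel' (hh.2 v)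
  have hpD : (p : ℤ) • D = D₀ := by
    apply Finsupp.ext
    intro v
    rw [Finsupp.smul_apply, smul_eq_mul, hD v, hD₀ v]
  have hdegD : Divisor.degree D = 0 := by
    have h1 : (p : ℤ) • Divisor.degree D = 0 := by
      rw [← map_zsmul, hpD, hdeg]
    rw [smul_eq_mul] at h1
    exact (mul_eq_zero.mp h1).resolve_left hp'
  exact ⟨⟨D, hdegD⟩, hD⟩

end Generic

variable (N p : ℕ) [NeZero N] [NeZero p]

theorem p_ne_zero : p ≠ 0 := NeZero.ne p

/-- the class of a root divisor is `p`-torsion. -/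
theorem nsmul_mk_eq_zero {h₀ : ↥(modularFunctionFieldBar N)} (hh : h₀ ≠ 0)
    {D : Divisor.degZero (K := Qbar) (F := ↥(modularFunctionFieldBar N))}
    (hD : IsRootDiv p h₀ D) : p • (Pic0.mk D : JZero N) = 0 := by
  have h1 : p • (Pic0.mk D : JZero N) = Pic0.mk (p • D) := rfl
  rw [h1]
  show (QuotientAddGroup.mk (p • D) : JZero N) = 0
  rw [QuotientAddGroup.eq_zero_iff, AddSubgroup.mem_addSubgroupOf]
  refine ⟨h₀, hh, fun v => ?_⟩
  rw [AddSubgroup.coe_nsmul, Finsupp.smul_apply, nsmul_eq_mul]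
  exact hD v

/-- the class of `(1/p) div h₀`. -/
def classOf (h₀ : ↥(modularFunctionFieldBar N))
    (hh : IsPDiv Qbar (↥(modularFunctionFieldBar N)) p h₀) : Jp N p :=
  ⟨Pic0.mk (exists_isRootDiv (p_ne_zero p) hh).choose,
    nsmul_mk_eq_zero N p hh.1 (exists_isRootDiv (p_ne_zero p) hh).choose_spec⟩

/-- characterisation of `classOf`. -/
theorem classOf_eq {h₀ : ↥(modularFunctionFieldBar N)}
    (hh : IsPDiv Qbar (↥(modularFunctionFieldBar N)) p h₀)
    {D : Divisor.degZero (K := Qbar) (F := ↥(modularFunctionFieldBar N))}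
    (hD : IsRootDiv p h₀ D) : ((classOf N p h₀ hh : Jp N p) : JZero N) = Pic0.mk D := by
  have := IsRootDiv.unique (p_ne_zero p) (exists_isRootDiv (p_ne_zero p) hh).choose_spec hD
  show Pic0.mk (exists_isRootDiv (p_ne_zero p) hh).choose = Pic0.mk D
  rw [this]

variable {N p}

theorem isPDiv_mul {h₀ h₁ : ↥(modularFunctionFieldBar N)}
    (hh₀ : IsPDiv Qbar (↥(modularFunctionFieldBar N)) p h₀)
    (hh₁ : IsPDiv Qbar (↥(modularFunctionFieldBar N)) p h₁) :
    IsPDiv Qbar (↥(modularFunctionFieldBar N)) p (h₀ * h₁) :=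
  ⟨mul_ne_zero hh₀.1 hh₁.1, fun v => by
    rw [v.ord_mul hh₀.1 hh₁.1]
    exact dvd_add (hh₀.2 v) (hh₁.2 v)⟩

/-- multiplicativity. -/
theorem classOf_mul {h₀ h₁ : ↥(modularFunctionFieldBar N)}
    (hh₀ : IsPDiv Qbar (↥(modularFunctionFieldBar N)) p h₀)
    (hh₁ : IsPDiv Qbar (↥(modularFunctionFieldBar N)) p h₁) :
    classOf N p (h₀ * h₁) (isPDiv_mul hh₀ hh₁) = classOf N p h₀ hh₀ + classOf N p h₁ hh₁ := by
  obtain ⟨D₀, hD₀⟩ := exists_isRootDiv (p_ne_zero p) hh₀
  obtain ⟨D₁, hD₁⟩ := exists_isRootDiv (p_ne_zero p) hh₁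
  have hD : IsRootDiv p (h₀ * h₁) (D₀ + D₁) := by
    intro v
    rw [v.ord_mul hh₀.1 hh₁.1, AddSubgroup.coe_add, Finsupp.add_apply, mul_add, hD₀ v, hD₁ v]
  apply Subtype.ext
  rw [AddSubgroup.coe_add, classOf_eq N p _ hD, classOf_eq N p _ hD₀, classOf_eq N p _ hD₁]
  rfl

/-- a function without zeros and poles on `X₀(N)/ℚ̄` is constant. -/
theorem const_of_ord_eq_zero (s : ↥(modularFunctionFieldBar N))
    (hs : ∀ v : Place Qbar (↥(modularFunctionFieldBar N)), v.ord s = 0) :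
    ∃ c : Qbar, s = algebraMap Qbar (↥(modularFunctionFieldBar N)) c := by
  obtain ⟨x, hx⟩ := Fermat.Agent.S37.Gal.exists_isGenerator_bar N
  haveI := hx.2
  exact Fermat.Agent.S37.CurveP.const_of_ord_eq_zero hx s hs

/-- `classOf` vanishes exactly on `c · y ^ p`. -/
theorem classOf_eq_zero_iff {h₀ : ↥(modularFunctionFieldBar N)}
    (hh : IsPDiv Qbar (↥(modularFunctionFieldBar N)) p h₀) :
    classOf N p h₀ hh = 0 ↔ KumRel Qbar (↥(modularFunctionFieldBar N)) p h₀ 1 := by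
  obtain ⟨D, hD⟩ := exists_isRootDiv (p_ne_zero p) hh
  have hp' : (p : ℤ) ≠ 0 := Nat.cast_ne_zero.mpr (p_ne_zero p)
  have key : classOf N p h₀ hh = 0 ↔ (Pic0.mk D : JZero N) = 0 := by
    rw [← classOf_eq N p hh hD]
    exact ⟨fun h => by rw [h]; rfl, fun h => Subtype.ext h⟩
  rw [key]
  show (QuotientAddGroup.mk D : JZero N) = 0 ↔ _
  rw [QuotientAddGroup.eq_zero_iff, AddSubgroup.mem_addSubgroupOf]
  constructor
  · rintro ⟨y, hy, hDy⟩
    -- `h₀ / y ^ p` has no zeros and poles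
    have hyp : y ^ p ≠ 0 := pow_ne_zero p hy
    have hs : ∀ v : Place Qbar (↥(modularFunctionFieldBar N)), v.ord (h₀ * (y ^ p)⁻¹) = 0 := by
      intro v
      rw [v.ord_mul hh.1 (inv_ne_zero hyp), v.ord_inv, ← zpow_natCast, v.ord_zpow, ← hD v, hDy v]
      ring
    obtain ⟨c, hc⟩ := const_of_ord_eq_zero _ hs
    have hc0 : c ≠ 0 := by
      rintro rfl
      rw [map_zero] at hc
      exact mul_ne_zero hh.1 (inv_ne_zero hyp) hc
    refine ⟨c, y, hc0, hy, ?_⟩
    rw [mul_one, ← hc, mul_assoc, inv_mul_cancel₀ hyp, mul_one]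
  · rintro ⟨c, y, hc, hy, hrel⟩
    refine ⟨y, hy, fun v => ?_⟩
    have h1 := hD v
    rw [hrel, mul_one, v.ord_mul ((map_ne_zero _).mpr hc) (pow_ne_zero p hy),
      Fermat.Agent.S24.Places.ord_algebraMap, zero_add, ← zpow_natCast, v.ord_zpow] at h1
    exact mul_left_cancel₀ hp' h1

/-- `classOf` depends only on the `KumRel`-class. -/
theorem classOf_eq_of_kumRel {h₀ h₁ : ↥(modularFunctionFieldBar N)}
    (hh₀ : IsPDiv Qbar (↥(modularFunctionFieldBar N)) p h₀)
    (hh₁ : IsPDiv Qbar (↥(modularFunctionFieldBar N)) p h₁)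
    (hrel : KumRel Qbar (↥(modularFunctionFieldBar N)) p h₀ h₁) :
    classOf N p h₀ hh₀ = classOf N p h₁ hh₁ := by
  obtain ⟨c, y, hc, hy, hrel⟩ := hrel
  have hcy : IsPDiv Qbar (↥(modularFunctionFieldBar N)) p
      (algebraMap Qbar (↥(modularFunctionFieldBar N)) c * y ^ p) :=
    ⟨mul_ne_zero ((map_ne_zero _).mpr hc) (pow_ne_zero p hy), fun v => by
      rw [v.ord_mul ((map_ne_zero _).mpr hc) (pow_ne_zero p hy),
        Fermat.Agent.S24.Places.ord_algebraMap, zero_add, ← zpow_natCast, v.ord_zpow]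
      exact dvd_mul_right _ _⟩
  have h0 : classOf N p _ hcy = 0 :=
    (classOf_eq_zero_iff hcy).mpr ⟨c, y, hc, hy, (mul_one _).symm⟩
  have h2 := classOf_mul hcy hh₁
  rw [h0, zero_add] at h2
  rw [← h2]
  congr 1

section Hecke

variable (ℓ : ℕ) [NeZero ℓ]

/-- the divisor-level computation: `T_ℓ` maps a root divisor of `h₀` to a root divisor of
`N_α (β h₀)`. -/
theorem isRootDiv_correspondence {h₀ : ↥(modularFunctionFieldBar N)} (hh : h₀ ≠ 0)
    {D : Divisor.degZero (K := Qbar) (F := ↥(modularFunctionFieldBar N))}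
    (hD : IsRootDiv p h₀ D) :
    haveI := Fermat.Agent.S37.HeckeInputs.hasPrincipalDivisors_level N ℓ
    IsRootDiv p (normA Qbar N ℓ (heckeBetaBar Qbar N ℓ h₀))
      (Pic0.degZeroCorrespondence (heckeBetaBar Qbar N ℓ) (heckeAlphaBar Qbar N ℓ)
        (Fermat.Agent.S37.HeckeInputs.heckeBetaBarIntegral N ℓ)
        (Fermat.Agent.S37.HeckeInputs.heckeAlphaBarIntegral N ℓ)
        (Fermat.Agent.S37.HeckeInputs.fundamentalIdentityAlong_beta N ℓ) D) := by
  haveI := Fermat.Agent.S37.HeckeInputs.hasPrincipalDivisors_level N ℓ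
  intro v
  rw [Pic0.coe_degZeroCorrespondence, Divisor.correspondence_apply]
  -- `p • D = div h₀`
  obtain ⟨D₀, hD₀, -⟩ := HasPrincipalDivisors.exists_divisor (K := Qbar) h₀ hh
  have hpD : (p : ℤ) • (D : Divisor Qbar (↥(modularFunctionFieldBar N))) = D₀ := by
    apply Finsupp.ext
    intro w
    rw [Finsupp.smul_apply, smul_eq_mul, hD w, hD₀ w]
  have h1 : (p : ℤ) * (Divisor.pushforwardAlong (heckeAlphaBar Qbar N ℓ)
        (Fermat.Agent.S37.HeckeInputs.heckeAlphaBarIntegral N ℓ)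
        (Divisor.pullbackAlong (heckeBetaBar Qbar N ℓ)
          (Fermat.Agent.S37.HeckeInputs.heckeBetaBarIntegral N ℓ)
          (D : Divisor Qbar (↥(modularFunctionFieldBar N))))) v
      = (Divisor.pushforwardAlong (heckeAlphaBar Qbar N ℓ)
        (Fermat.Agent.S37.HeckeInputs.heckeAlphaBarIntegral N ℓ)
        (Divisor.pullbackAlong (heckeBetaBar Qbar N ℓ)
          (Fermat.Agent.S37.HeckeInputs.heckeBetaBarIntegral N ℓ) D₀)) v := by
    rw [← hpD, map_zsmul, map_zsmul, Finsupp.smul_apply, smul_eq_mul]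
  rw [h1]
  -- pullback of `div h₀` is `div (β h₀)`
  have h2 : ∀ w : Place Qbar (↥(laurentBaseChange Qbar (modularFunctionFieldFull (N * ℓ)))),
      (Divisor.pullbackAlong (heckeBetaBar Qbar N ℓ)
          (Fermat.Agent.S37.HeckeInputs.heckeBetaBarIntegral N ℓ) D₀) w
        = w.ord (heckeBetaBar Qbar N ℓ h₀) := by
    intro w
    letI := algebraAlong (heckeBetaBar Qbar N ℓ)
    haveI := isScalarTower_along (heckeBetaBar Qbar N ℓ)
    haveI := isIntegral_along (heckeBetaBar Qbar N ℓ)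
      (Fermat.Agent.S37.HeckeInputs.heckeBetaBarIntegral N ℓ)
    exact Divisor.pullback_apply_eq_ord hD₀ w
  -- the norm formula
  have hβ0 : heckeBetaBar Qbar N ℓ h₀ ≠ 0 := (map_ne_zero _).mpr hh
  exact Fermat.Agent.S37.HeckeInputs.normFormulaAlong_alpha N ℓ _ hβ0 _ h2 v

theorem isPDiv_norm {h₀ : ↥(modularFunctionFieldBar N)}
    (hh : IsPDiv Qbar (↥(modularFunctionFieldBar N)) p h₀) :
    IsPDiv Qbar (↥(modularFunctionFieldBar N)) p (normA Qbar N ℓ (heckeBetaBar Qbar N ℓ h₀)) := by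
  obtain ⟨D, hD⟩ := exists_isRootDiv (p_ne_zero p) hh
  have h := isRootDiv_correspondence ℓ hh.1 hD
  refine ⟨?_, fun v => ⟨_, (h v).symm⟩⟩
  letI := algebraAlong (heckeAlphaBar Qbar N ℓ)
  haveI : Module.Finite (↥(laurentBaseChange Qbar (modularFunctionFieldFull N)))
      (↥(laurentBaseChange Qbar (modularFunctionFieldFull (N * ℓ)))) :=
    Fermat.Agent.S37.HeckeInputs.finiteAlong_alpha N ℓ
  have hβ0 : heckeBetaBar Qbar N ℓ h₀ ≠ 0 := (map_ne_zero _).mpr hh.1
  exact Algebra.norm_ne_zero_iff.mpr hβ0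

/-- **Hecke on Kummer classes**: `T_ℓ (classOf h₀) = classOf (N_α (β h₀))`. -/
theorem hecke_classOf {h₀ : ↥(modularFunctionFieldBar N)}
    (hh : IsPDiv Qbar (↥(modularFunctionFieldBar N)) p h₀) :
    heckeJp N p ℓ (classOf N p h₀ hh)
      = classOf N p (normA Qbar N ℓ (heckeBetaBar Qbar N ℓ h₀)) (isPDiv_norm ℓ hh) := by
  haveI := Fermat.Agent.S37.HeckeInputs.hasPrincipalDivisors_level N ℓ
  obtain ⟨D, hD⟩ := exists_isRootDiv (p_ne_zero p) hh
  apply Subtype.ext
  rw [coe_heckeJp, classOf_eq N p hh hD,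
    classOf_eq N p (isPDiv_norm ℓ hh) (isRootDiv_correspondence ℓ hh.1 hD),
    Fermat.Agent.S37.HeckeInputs.heckeOperatorAlong_eq_heckePic0Bar]
  rfl

end Hecke

end Fermat.Agent.S30.KumPic
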