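import Mathlib
import Fermat.Agent.S29_BDefs
import Fermat.Agent.S29_BDefs2
import Fermat.Agent.S29_BridgeCore
import Fermat.Agent.S30_KumPic
import Fermat.Agent.S30_Defs

/-!
# S30 (KAPPA), core: the Kummer class map modulo an arbitrary `m`

The chain of `S29_Bridge` (Kummer class map `κ : X → J₀(N)(ℚ̄)[p]`, `𝔽_p`-linear, injective,
Hecke equivariant) for an arbitrary modulus `p ≠ 0` (`[NeZero p]` instead of `[Fact p.Prime]`),
relative to the statements of the Kummer packages modulo `p` collected in `Inputs N p`.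
-/

set_option autoImplicit false
set_option linter.style.haveILetI false

noncomputable section

open UpperHalfPlane ModularCurve CongruenceSubgroup AlgebraicCurve
open scoped MatrixGroups ModularForm TensorProduct Manifold

namespace Fermat.Agent.S30.Bridge

open Fermat.Agent.S29
open Fermat.Agent.S29.Bridge (kumRel_refl kumRel_symm kumRel_trans kumRel_mul normA_kumRel
  kumRel_bcF baseChange_injective eigen_transport)

local notation "Qbar" => AlgebraicClosure ℚ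

variable {N p : ℕ} [NeZero N] [NeZero p]

/-! ### the inputs -/

variable (N p) in
/-- the statements of the packages B2–B6. -/
structure Inputs : Prop where
  exists_kum : ∀ χ : Additive (Gamma0 N) →+ ZMod p, IsAdm N p χ → ∃ h : FC N, IsKum N p χ h
  pdiv : ∀ (χ : Additive (Gamma0 N) →+ ZMod p) (h : FC N), IsAdm N p χ → IsKum N p χ h →
    IsPDiv ℂ (FC N) p h
  kum_rel : ∀ (χ : Additive (Gamma0 N) →+ ZMod p) (h h' : FC N), IsKum N p χ h →
    IsKum N p χ h' → KumRel ℂ (FC N) p h h'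
  kum_add : ∀ (χ χ' : Additive (Gamma0 N) →+ ZMod p) (h h' h'' : FC N), IsKum N p χ h →
    IsKum N p χ' h' → IsKum N p (χ + χ') h'' → KumRel ℂ (FC N) p h'' (h * h')
  kum_inj : ∀ (χ : Additive (Gamma0 N) →+ ZMod p) (h : FC N), IsAdm N p χ → IsKum N p χ h →
    KumRel ℂ (FC N) p h 1 → χ = 0
  kum_hecke : ∀ (ℓ : ℕ) [Fact ℓ.Prime] [NeZero ℓ] (hℓN : ¬ ℓ ∣ N)
    (χ : Additive (Gamma0 N) →+ ZMod p), IsAdm N p χ →
    IsAdm N p ((Fermat.Agent.S16.LB.famT N ℓ hℓN).tHom χ) → ∀ h h' : FC N, IsKum N p χ h →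
    IsKum N p ((Fermat.Agent.S16.LB.famT N ℓ hℓN).tHom χ) h' →
    KumRel ℂ (FC N) p (normA ℂ N ℓ (heckeBetaBar ℂ N ℓ h)) h'
  descent : ∀ h : FC N, IsPDiv ℂ (FC N) p h → ∃ h₀ : ↥(modularFunctionFieldBar N),
    IsPDiv Qbar (↥(modularFunctionFieldBar N)) p h₀ ∧ KumRel ℂ (FC N) p h (bcF N h₀)
  descent_inj : ∀ h₀ : ↥(modularFunctionFieldBar N), h₀ ≠ 0 →
    KumRel ℂ (FC N) p (bcF N h₀) 1 → KumRel Qbar (↥(modularFunctionFieldBar N)) p h₀ 1
  bcF_norm : ∀ (ℓ : ℕ) [NeZero ℓ], ℓ.Prime → ¬ ℓ ∣ N → ∀ y : ↥(modularFunctionFieldBar N),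
    bcF N (normA Qbar N ℓ (heckeBetaBar Qbar N ℓ y)) = normA ℂ N ℓ (heckeBetaBar ℂ N ℓ (bcF N y))

/-- two functions over `ℚ̄` which are Kummer-equivalent over `ℂ` have the same class. -/
theorem classOf_eq_of_bcF (I : Inputs N p) {h₀ h₁ : ↥(modularFunctionFieldBar N)}
    (hh₀ : IsPDiv Qbar (↥(modularFunctionFieldBar N)) p h₀)
    (hh₁ : IsPDiv Qbar (↥(modularFunctionFieldBar N)) p h₁)
    (H : KumRel ℂ (FC N) p (bcF N h₀) (bcF N h₁)) :
    Fermat.Agent.S30.KumPic.classOf N p h₀ hh₀ = Fermat.Agent.S30.KumPic.classOf N p h₁ hh₁ := by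
  apply Fermat.Agent.S30.KumPic.classOf_eq_of_kumRel
  have hb : bcF N h₁ ≠ 0 := (map_ne_zero (bcF N)).mpr hh₁.1
  have h1 : KumRel ℂ (FC N) p (bcF N (h₀ / h₁)) 1 := by
    obtain ⟨c, y, hc, hy, e⟩ := H
    refine ⟨c, y, hc, hy, ?_⟩
    rw [map_div₀, e, mul_one]
    field_simp
  obtain ⟨c, y, hc, hy, e⟩ := I.descent_inj (h₀ / h₁) (div_ne_zero hh₀.1 hh₁.1) h1
  refine ⟨c, y, hc, hy, ?_⟩
  rw [mul_one] at e
  rw [← e]
  have := hh₁.1
  field_simp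

/-! ### Kummer classes -/

variable (N p) in
/-- `x` is the Kummer class of `χ`. -/
def IsClass (χ : Additive (Gamma0 N) →+ ZMod p) (x : Jp N p) : Prop :=
  ∃ (h : FC N) (h₀ : ↥(modularFunctionFieldBar N))
    (hh₀ : IsPDiv Qbar (↥(modularFunctionFieldBar N)) p h₀),
    IsKum N p χ h ∧ KumRel ℂ (FC N) p h (bcF N h₀) ∧ x = Fermat.Agent.S30.KumPic.classOf N p h₀ hh₀

theorem exists_isClass (I : Inputs N p) {χ : Additive (Gamma0 N) →+ ZMod p}
    (hχ : IsAdm N p χ) : ∃ x, IsClass N p χ x := by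
  obtain ⟨h, hk⟩ := I.exists_kum χ hχ
  obtain ⟨h₀, hh₀, hrel⟩ := I.descent h (I.pdiv χ h hχ hk)
  exact ⟨_, h, h₀, hh₀, hk, hrel, rfl⟩

theorem isClass_unique (I : Inputs N p) {χ : Additive (Gamma0 N) →+ ZMod p} {x x' : Jp N p}
    (hx : IsClass N p χ x) (hx' : IsClass N p χ x') : x = x' := by
  obtain ⟨h, h₀, hh₀, hk, hrel, rfl⟩ := hx
  obtain ⟨h', h₀', hh₀', hk', hrel', rfl⟩ := hx'
  apply classOf_eq_of_bcF I
  exact kumRel_trans (kumRel_symm hrel) (kumRel_trans (I.kum_rel χ h h' hk hk') hrel')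

theorem isClass_add (I : Inputs N p) {χ χ' : Additive (Gamma0 N) →+ ZMod p} {x x' x'' : Jp N p}
    (hx : IsClass N p χ x) (hx' : IsClass N p χ' x') (hx'' : IsClass N p (χ + χ') x'') :
    x'' = x + x' := by
  obtain ⟨h, h₀, hh₀, hk, hrel, rfl⟩ := hx
  obtain ⟨h', h₀', hh₀', hk', hrel', rfl⟩ := hx'
  obtain ⟨h'', h₀'', hh₀'', hk'', hrel'', rfl⟩ := hx''
  rw [← Fermat.Agent.S30.KumPic.classOf_mul hh₀ hh₀']
  apply classOf_eq_of_bcF I
  rw [map_mul]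
  exact kumRel_trans (kumRel_symm hrel'')
    (kumRel_trans (I.kum_add χ χ' h h' h'' hk hk' hk'') (kumRel_mul hrel hrel'))

theorem isClass_zero (I : Inputs N p) {χ : Additive (Gamma0 N) →+ ZMod p} (hχ : IsAdm N p χ)
    (hx : IsClass N p χ 0) : χ = 0 := by
  obtain ⟨h, h₀, hh₀, hk, hrel, e⟩ := hx
  have h1 : KumRel Qbar (↥(modularFunctionFieldBar N)) p h₀ 1 :=
    (Fermat.Agent.S30.KumPic.classOf_eq_zero_iff hh₀).mp e.symm
  have h2 : KumRel ℂ (FC N) p (bcF N h₀) 1 := by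
    have := kumRel_bcF h1
    rwa [map_one] at this
  exact I.kum_inj χ h hχ hk (kumRel_trans hrel h2)

theorem isClass_hecke (I : Inputs N p) (ℓ : ℕ) [Fact ℓ.Prime] [NeZero ℓ] (hℓN : ¬ ℓ ∣ N)
    {χ : Additive (Gamma0 N) →+ ZMod p} (hχ : IsAdm N p χ)
    (hχ' : IsAdm N p ((Fermat.Agent.S16.LB.famT N ℓ hℓN).tHom χ)) {x x' : Jp N p}
    (hx : IsClass N p χ x)
    (hx' : IsClass N p ((Fermat.Agent.S16.LB.famT N ℓ hℓN).tHom χ) x') :
    heckeJp N p ℓ x = x' := by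
  obtain ⟨h, h₀, hh₀, hk, hrel, rfl⟩ := hx
  obtain ⟨h', h₀', hh₀', hk', hrel', rfl⟩ := hx'
  rw [Fermat.Agent.S30.KumPic.hecke_classOf ℓ hh₀]
  apply classOf_eq_of_bcF I
  rw [I.bcF_norm ℓ (Fact.out : ℓ.Prime) hℓN h₀]
  exact kumRel_trans (normA_kumRel ℂ N ℓ p (kumRel_symm hrel))
    (kumRel_trans (I.kum_hecke ℓ hℓN χ hχ hχ' h h' hk hk') hrel')

/-- **the Kummer class map** on a space of admissible characters: `𝔽_p`-linear, injective and
Hecke equivariant. -/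
theorem exists_kappa (I : Inputs N p) (X : Submodule (ZMod p) (Additive (Gamma0 N) →+ ZMod p))
    (hXadm : ∀ χ ∈ X, IsAdm N p χ) :
    ∃ κ : X →ₗ[ZMod p] Jp N p, Function.Injective κ ∧
      ∀ (ℓ : ℕ) [Fact ℓ.Prime] [NeZero ℓ] (hℓN : ¬ ℓ ∣ N)
        (hX : ∀ χ ∈ X, (Fermat.Agent.S16.LB.famT N ℓ hℓN).tHom χ ∈ X) (χ : X),
        κ (restrT (Fermat.Agent.S16.LB.famT N ℓ hℓN) X hX χ) = heckeJp N p ℓ (κ χ) := by
  classical
  let κ0 : X → Jp N p := fun χ => (exists_isClass I (hXadm χ χ.2)).choose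
  have hκ0 : ∀ χ : X, IsClass N p (χ : Additive (Gamma0 N) →+ ZMod p) (κ0 χ) := fun χ =>
    (exists_isClass I (hXadm χ χ.2)).choose_spec
  let κa : X →+ Jp N p := AddMonoidHom.mk' κ0 (fun χ χ' =>
    isClass_add I (hκ0 χ) (hκ0 χ') (hκ0 (χ + χ')))
  refine ⟨κa.toZModLinearMap p, ?_, ?_⟩
  · show Function.Injective κa
    rw [injective_iff_map_eq_zero]
    intro χ hχ0
    have h1 : IsClass N p (χ : Additive (Gamma0 N) →+ ZMod p) 0 := by
      have := hκ0 χ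
      have e : κ0 χ = 0 := hχ0
      rwa [e] at this
    exact Subtype.ext (isClass_zero I (hXadm χ χ.2) h1)
  · intro ℓ _ _ hℓN hX χ
    show κ0 (restrT (Fermat.Agent.S16.LB.famT N ℓ hℓN) X hX χ) = heckeJp N p ℓ (κ0 χ)
    have h1 := hκ0 (restrT (Fermat.Agent.S16.LB.famT N ℓ hℓN) X hX χ)
    rw [coe_restrT] at h1
    exact (isClass_hecke I ℓ hℓN (hXadm χ χ.2) (hXadm _ (hX χ χ.2)) (hκ0 χ) h1).symm

end Fermat.Agent.S30.Bridge
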