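import Mathlib
import Fermat.Agent.S29_DescDer

/-!
# S30, injectivity of the descent `ℂ → ℚ̄` for an arbitrary exponent

`descent_inj` for an exponent `p ≠ 0` not necessarily prime: a function defined over `ℚ̄` which is
a constant times a `p`-th power over `ℂ` is already one over `ℚ̄`.  (Proof of
`S29_DescDer.descent_inj`; primality was only used through `0 < p`.)
-/

set_option autoImplicit false

noncomputable section

open ModularCurve AlgebraicCurve

namespace Fermat.Agent.S30.DescInj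

open Fermat.Agent.S29 Fermat.Agent.S29.DescDer

local notation "Qbar" => AlgebraicClosure ℚ

attribute [local instance] algQC

/-- **Injectivity of the descent**: a function defined over `ℚ̄` which is a constant times a
`p`-th power over `ℂ` is already a constant times a `p`-th power over `ℚ̄`. -/
theorem descent_inj (N p : ℕ) [NeZero N] [NeZero p] (h₀ : ↥(modularFunctionFieldBar N))
    (hh : h₀ ≠ 0) :
    KumRel ℂ (FC N) p (bcF N h₀) 1 → KumRel Qbar ↥(modularFunctionFieldBar N) p h₀ 1 := by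
  rintro ⟨c, y, hc, hy, e⟩
  rw [mul_one] at e
  obtain ⟨k, hk⟩ := exists_coeff_ne_zero y hy
  obtain ⟨b, hb⟩ : ∃ b : ℂ, b = (y : LaurentSeries ℂ).coeff k := ⟨_, rfl⟩
  rw [← hb] at hk
  obtain ⟨y', hy'⟩ : ∃ y' : FC N, y' = algebraMap ℂ (FC N) b⁻¹ * y := ⟨_, rfl⟩
  obtain ⟨c', hc'⟩ : ∃ c' : ℂ, c' = c * b ^ p := ⟨_, rfl⟩
  have hbF : algebraMap ℂ (FC N) b ≠ 0 := fun h0 =>
    hk ((algebraMap ℂ (FC N)).injective (h0.trans (map_zero _).symm))
  have hy'0 : y' ≠ 0 := by
    rw [hy', map_inv₀]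
    exact mul_ne_zero (inv_ne_zero hbF) hy
  have hc'0 : c' ≠ 0 := by
    rw [hc']
    exact mul_ne_zero hc (pow_ne_zero _ hk)
  have hc'F : algebraMap ℂ (FC N) c' ≠ 0 := fun h0 =>
    hc'0 ((algebraMap ℂ (FC N)).injective (h0.trans (map_zero _).symm))
  have e' : bcF N h₀ = algebraMap ℂ (FC N) c' * y' ^ p := by
    rw [e, hy', hc', map_mul, map_pow, map_inv₀, mul_pow, inv_pow]
    field_simp
  have hcoef : (y' : LaurentSeries ℂ).coeff k = 1 := by
    rw [hy', coe_algebraMap_mul, ← hb]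
    exact inv_mul_cancel₀ hk
  have hkill : ∀ δ : Derivation Qbar ℂ ℂ, dhat δ y' = 0 := by
    intro δ
    have h1 : dhat δ (algebraMap ℂ (FC N) c' * y' ^ p) = 0 := by rw [← e', dhat_bcF]
    obtain ⟨n, hn⟩ : ∃ n, p = n + 1 :=
      ⟨p - 1, (Nat.succ_pred_eq_of_pos (Nat.pos_of_ne_zero (NeZero.ne p))).symm⟩
    rw [hn, dhat_mul, dhat_algebraMap, dhat_pow] at h1
    have hn0 : ((n + 1 : ℕ) : FC N) ≠ 0 := Nat.cast_ne_zero.mpr (Nat.succ_ne_zero n)
    have hn0' : ((n + 1 : ℕ) : ℂ) ≠ 0 := Nat.cast_ne_zero.mpr (Nat.succ_ne_zero n)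
    have hyn : y' ^ n ≠ 0 := pow_ne_zero _ hy'0
    refine dhat_eq_zero_of_eq_mul δ y' k hcoef (-(δ c') / (c' * ((n + 1 : ℕ) : ℂ))) ?_
    have hcast : algebraMap ℂ (FC N) (((n + 1 : ℕ) : ℂ)) = ((n + 1 : ℕ) : FC N) := map_natCast _ _
    rw [map_div₀, map_neg, map_mul, hcast]
    rw [eq_comm, div_mul_eq_mul_div, div_eq_iff (mul_ne_zero hc'F hn0)]
    have h5 : y' ^ n * (algebraMap ℂ (FC N) (δ c') * y' +
        algebraMap ℂ (FC N) c' * ((n + 1 : ℕ) : FC N) * dhat δ y') = 0 := by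
      rw [← h1]
      ring
    have h6 := (mul_eq_zero.mp h5).resolve_left hyn
    linear_combination (-1 : FC N) * h6
  obtain ⟨y₁, hy₁⟩ := exists_bcF_eq y' hkill
  have hy₁0 : y₁ ≠ 0 := by
    rintro rfl
    exact hy'0 (by rw [← hy₁, map_zero])
  obtain ⟨u, hu⟩ : ∃ u : ↥(modularFunctionFieldBar N), u = h₀ / y₁ ^ p := ⟨_, rfl⟩
  have hu1 : bcF N u = algebraMap ℂ (FC N) c' := by
    rw [hu, map_div₀, map_pow, hy₁, e']
    field_simp
  have hu2 : u = algebraMap Qbar ↥(modularFunctionFieldBar N)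
      ((u : LaurentSeries Qbar).coeff 0) := by
    apply Subtype.ext
    ext j
    have h7 : ((bcF N u : FC N) : LaurentSeries ℂ).coeff j
        = ((algebraMap ℂ (FC N) c' : FC N) : LaurentSeries ℂ).coeff j := by rw [hu1]
    rw [coe_bcF, bcL_coeff] at h7
    have h8 : ((algebraMap ℂ (FC N) c' : FC N) : LaurentSeries ℂ)
        = HahnSeries.single 0 c' := algebraMap_laurentSeries_eq_single ℂ c'
    rw [h8] at h7
    show (u : LaurentSeries Qbar).coeff j
      = (algebraMap Qbar (LaurentSeries Qbar) ((u : LaurentSeries Qbar).coeff 0)).coeff j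
    rw [algebraMap_laurentSeries_eq_single]
    rcases eq_or_ne j 0 with rfl | hj
    · rw [HahnSeries.coeff_single_same]
    · rw [HahnSeries.coeff_single_of_ne hj] at h7 ⊢
      exact embC.injective (h7.trans (map_zero _).symm)
  have hu0 : u ≠ 0 := by
    rw [hu]
    exact div_ne_zero hh (pow_ne_zero _ hy₁0)
  refine ⟨(u : LaurentSeries Qbar).coeff 0, y₁, ?_, hy₁0, ?_⟩
  · intro h0
    rw [h0, map_zero] at hu2
    exact hu0 hu2
  · rw [mul_one, ← hu2, hu]
    field_simp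

end Fermat.Agent.S30.DescInj
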