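import Mathlib
import Fermat.Agent.S29_Descent
import Fermat.Agent.S29_DescPlace

/-!
# S30, descent `ℂ → ℚ̄` of Kummer functions modulo an arbitrary exponent

The statements of `S29_Descent.descent_of` and `S29_DescentMain.descent` for an arbitrary exponent
`p ≠ 0` (not necessarily prime): a function on `X₀(N)` over `ℂ` all of whose orders are divisible
by `p` is a constant times a `p`-th power times the base change of a function over `ℚ̄` with the
same property.  (Same proof: primality was only used through `0 < p`.)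
-/

set_option autoImplicit false

noncomputable section

open ModularCurve AlgebraicCurve

namespace Fermat.Agent.S30.Descent

open Fermat.Agent.S29 Fermat.Agent.S29.DescDer Fermat.Agent.S29.Descent Fermat.Agent.S24

local notation "Qbar" => AlgebraicClosure ℚ

attribute [local instance] algQC

variable (N : ℕ) [NeZero N]

/-- **Descent**, given the extension of places (c). -/
theorem descent_of (p : ℕ) [NeZero p] (hc : PlaceAbove N) (h : FC N)
    (hh : IsPDiv ℂ (FC N) p h) :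
    ∃ h₀ : ↥(modularFunctionFieldBar N),
      IsPDiv Qbar ↥(modularFunctionFieldBar N) p h₀ ∧ KumRel ℂ (FC N) p h (bcF N h₀) := by
  have hppos : 0 < p := Nat.pos_of_ne_zero (NeZero.ne p)
  have hx : IsGenerator ℂ (Tower.jGen ℂ N) := (modular_counts ℂ N).1
  obtain ⟨vinf, hvinf⟩ := exists_pole_of_isGenerator hx
  obtain ⟨w₁, hw₁0, hw⟩ := DescentAbs.exists_log_const hx p hppos h hh.1 hh.2 vinf
    (Set.range fun δ : Derivation Qbar ℂ ℂ => (fun f : FC N => dhat δ f))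
    (by
      rintro d ⟨δ, rfl⟩ a b
      exact (isDer_dhat N δ).map_mul a b)
    (by
      rintro d ⟨δ, rfl⟩ v f hf
      exact Or.inr (DescStab.stab_of_isDer N (isDer_dhat N δ) (dhat_jGen N δ) v f hf))
    (Tower.jGen ℂ N) hvinf
    (by
      rintro d ⟨δ, rfl⟩
      exact dhat_jGen N δ)
  have hf'0 : h * w₁ ^ p ≠ 0 := mul_ne_zero hh.1 (pow_ne_zero _ hw₁0)
  obtain ⟨k, hk⟩ := exists_coeff_ne_zero (h * w₁ ^ p) hf'0
  set a : ℂ := ((h * w₁ ^ p : FC N) : LaurentSeries ℂ).coeff k with ha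
  have hk1 : ((algebraMap ℂ (FC N) a⁻¹ * (h * w₁ ^ p) : FC N) : LaurentSeries ℂ).coeff k = 1 := by
    rw [coe_algebraMap_mul, ← ha, inv_mul_cancel₀ hk]
  have hA : algebraMap ℂ (FC N) a * algebraMap ℂ (FC N) a⁻¹ = 1 := by
    rw [← map_mul, mul_inv_cancel₀ hk, map_one]
  have hkill : ∀ δ : Derivation Qbar ℂ ℂ,
      dhat δ (algebraMap ℂ (FC N) a⁻¹ * (h * w₁ ^ p)) = 0 := by
    intro δ
    obtain ⟨c, hc'⟩ := hw (fun f : FC N => dhat δ f) ⟨δ, rfl⟩
    have hc2 : dhat δ (h * w₁ ^ p) = algebraMap ℂ (FC N) c * (h * w₁ ^ p) := hc'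
    refine dhat_eq_zero_of_eq_mul δ _ k hk1 ((δ a⁻¹ + a⁻¹ * c) * a) ?_
    rw [dhat_mul, dhat_algebraMap, hc2, map_mul, map_add, map_mul]
    linear_combination (-(algebraMap ℂ (FC N) (δ a⁻¹) + algebraMap ℂ (FC N) a⁻¹ *
      algebraMap ℂ (FC N) c) * (h * w₁ ^ p)) * hA
  obtain ⟨h₀, hh₀⟩ := exists_bcF_eq _ hkill
  have hh₀0 : h₀ ≠ 0 := by
    rintro rfl
    rw [map_zero] at hh₀
    exact mul_ne_zero ((map_ne_zero _).mpr (inv_ne_zero hk)) hf'0 hh₀.symm
  refine ⟨h₀, ⟨hh₀0, fun v => ?_⟩, a, w₁⁻¹, hk, inv_ne_zero hw₁0, ?_⟩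
  · obtain ⟨w, hwv⟩ := hc v
    rw [← hwv h₀, hh₀, w.ord_mul ((map_ne_zero _).mpr (inv_ne_zero hk)) hf'0,
      RR.ord_algebraMap, zero_add, w.ord_mul hh.1 (pow_ne_zero _ hw₁0),
      DescentAbs.ord_pow_nat]
    exact dvd_add (hh.2 w) (dvd_mul_right _ _)
  · rw [hh₀, inv_pow]
    have e : (w₁ ^ p)⁻¹ * w₁ ^ p = 1 := inv_mul_cancel₀ (pow_ne_zero _ hw₁0)
    calc h = (algebraMap ℂ (FC N) a * algebraMap ℂ (FC N) a⁻¹) * h * ((w₁ ^ p)⁻¹ * w₁ ^ p) := by
          rw [hA, e]; ring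
      _ = _ := by ring

/-- **`descent` for an arbitrary exponent `m ≠ 0`** (unconditional). -/
theorem descent (m : ℕ) [NeZero m] (h : FC N) (hh : IsPDiv ℂ (FC N) m h) :
    ∃ h₀ : ↥(modularFunctionFieldBar N),
      IsPDiv Qbar ↥(modularFunctionFieldBar N) m h₀ ∧ KumRel ℂ (FC N) m h (bcF N h₀) :=
  descent_of N m (fun v => DescPlace.exists_place_above N v) h hh

end Fermat.Agent.S30.Descent
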