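import Mathlib
import Fermat.Agent.S29_KumDiv

/-!
# S30 (KAPPA, B3 for arbitrary `m`): the divisor of a Kummer function is divisible by `m`

`pdiv_of_isKum`: if `h ∈ FC N` is a Kummer function of an admissible character
`χ : Γ₀(N) → ℤ/m` (`h = E₁ ^ m / E₂ ^ m` with twisted weight-4 forms `E₁`, `E₂`), then
`m ∣ ord_v h` at every place `v` of the function field of `X₀(N)` over `ℂ`.  This is
`S29.KumDiv.pdiv_of_isKum` without the primality hypothesis (the helper lemmas of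
`S29_KumDiv` never used it).
-/

set_option autoImplicit false
set_option linter.style.haveILetI false

noncomputable section

open UpperHalfPlane ModularCurve CongruenceSubgroup AlgebraicCurve
open scoped MatrixGroups Manifold ModularForm

namespace Fermat.Agent.S30.KumDiv

open Fermat.Agent.S24 Fermat.Agent.S24.Tower Fermat.Agent.S24.PointOrd
open Fermat.Agent.S29 Fermat.Agent.S29.KumDiv

/-- **(B3) for arbitrary `m`**: the divisor of a Kummer function modulo `m` is divisible by `m`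
(no primality; the proof is the one of `S29.KumDiv.pdiv_of_isKum`). -/
theorem pdiv_of_isKum (N p : ℕ) [NeZero N]
    (χ : Additive (Gamma0 N) →+ ZMod p) (hχ : IsAdm N p χ) (h : FC N) (hk : IsKum N p χ h) :
    IsPDiv ℂ (FC N) p h := by
  obtain ⟨E₁, E₂, hE₁, hE₂, a, b, hb, hab, hrel⟩ := hk
  simp only at hrel
  have hE₁0 : E₁ ≠ 0 := twisted_ne_zero N hE₁
  have hE₂0 : E₂ ≠ 0 := twisted_ne_zero N hE₂
  have hb0 : (b : ℍ → ℂ) ≠ 0 := val_coe_ne_zero_of_ne_zero hb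
  -- `a ≠ 0`
  have ha : a ≠ 0 := by
    intro ha0
    have hfun : (b : ℍ → ℂ) * E₁ ^ p = 0 := by
      funext τ
      have := hrel τ
      rw [ha0] at this
      have h0 : ((0 : modRing ℂ N) : ℍ → ℂ) τ = 0 := rfl
      rw [h0, zero_mul] at this
      exact this.symm
    have h1 : ordAt ((b : ℍ → ℂ) * E₁ ^ p) UpperHalfPlane.I = ⊤ := by
      rw [hfun]
      show analyticOrderAt (fun z : ℂ => (0 : ℂ)) _ = ⊤
      rw [analyticOrderAt_eq_top]
      exact Filter.Eventually.of_forall fun _ => rfl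
    have h2 : ordAt ((b : ℍ → ℂ) * E₁ ^ p) UpperHalfPlane.I
        = ordAt (b : ℍ → ℂ) UpperHalfPlane.I + p • ordAt E₁ UpperHalfPlane.I := by
      show analyticOrderAt ((fun z : ℂ => (b : ℍ → ℂ) (ofComplex z))
        * (fun z : ℂ => E₁ (ofComplex z)) ^ p) _ = _
      rw [analyticOrderAt_mul (analyticAt_comp_ofComplex b.2.1 _)
        ((analyticAt_comp_ofComplex hE₁.mdiff _).pow p),
        analyticOrderAt_pow (analyticAt_comp_ofComplex hE₁.mdiff _)]
      rfl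
    rw [h2] at h1
    have h3 := ordAt_ne_top b.2.1 hb0 UpperHalfPlane.I
    have h4 := ordAt_ne_top hE₁.mdiff hE₁0 UpperHalfPlane.I
    rw [← ENat.natCast_toNat h3, ← ENat.natCast_toNat h4] at h1
    have h5 : (((ordAt (b : ℍ → ℂ) UpperHalfPlane.I).toNat
        + p * (ordAt E₁ UpperHalfPlane.I).toNat : ℕ) : ℕ∞) = ⊤ := by
      push_cast
      simpa [nsmul_eq_mul] using h1
    exact ENat.natCast_ne_top _ h5
  have hh : h ≠ 0 := by
    intro h0
    rw [h0, map_zero, zero_mul] at hab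
    exact ha (IsFractionRing.injective (modRing ℂ N) (ModField ℂ N)
      (hab.symm.trans (map_zero _).symm))
  refine ⟨hh, fun v => ?_⟩
  have hgen : IsGenerator ℂ (jGen ℂ N) := (modular_counts ℂ N).1
  rcases Places.ord_neg_or_exists_center hgen v with hneg | ⟨x₀, hx₀⟩
  · -- a pole of `j`
    obtain ⟨γ, e, d, he, hNed, hmem, hval⟩ := exists_cusp_datum N v hneg
    have h1 := hval h a b ha hb hab
    obtain ⟨s₁, hs₁, hs₁0, hd₁, hv₁⟩ := slash_facts N hχ hE₁ γ e d hNed hmem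
    obtain ⟨s₂, hs₂, hs₂0, hd₂, hv₂⟩ := slash_facts N (isAdm_zero N p) hE₂ γ e d hNed hmem
    have ha' : γ⁻¹ • a ≠ 0 := by rwa [Ne, smul_eq_zero_iff_eq]
    have hb' : γ⁻¹ • b ≠ 0 := by rwa [Ne, smul_eq_zero_iff_eq]
    have hrel' : ∀ τ : ℍ, ((γ⁻¹ • a : modRing ℂ N) : ℍ → ℂ) τ * (E₂ ∣[(4 : ℤ)] γ) τ ^ p
        = ((γ⁻¹ • b : modRing ℂ N) : ℍ → ℂ) τ * (E₁ ∣[(4 : ℤ)] γ) τ ^ p := by
      intro τ
      have h0 := hrel (γ • τ)
      rw [Tower.smul_apply, Tower.smul_apply, inv_inv]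
      rw [hv₁, hv₂, mul_pow, mul_pow, ← mul_assoc, ← mul_assoc] at h0
      exact mul_right_cancel₀ (pow_ne_zero p (pow_ne_zero 4 (denom_ne_zero γ τ))) h0
    have hca0 : cmap ℂ (expRing ℂ N (γ⁻¹ • a)) ≠ 0 :=
      (map_ne_zero_iff _ (cmap_injective ℂ)).mpr
        ((map_ne_zero_iff _ (expRing_injective ℂ N)).mpr ha')
    have hcb0 : cmap ℂ (expRing ℂ N (γ⁻¹ • b)) ≠ 0 :=
      (map_ne_zero_iff _ (cmap_injective ℂ)).mpr
        ((map_ne_zero_iff _ (expRing_injective ℂ N)).mpr hb')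
    have h2 := exp_rel N (hasLaurentExp_expRing (γ⁻¹ • a)) (hasLaurentExp_expRing (γ⁻¹ • b))
      hs₁ hs₂ hca0 hcb0 hs₁0 hs₂0 p hrel'
    have hca : (cmap ℂ (expRing ℂ N (γ⁻¹ • a))).order = (expRing ℂ N (γ⁻¹ • a)).order :=
      val_order_eq_of_coeff_eq_zero_iff _ _ (fun k => by rw [coeffMap_coeff, map_eq_zero])
    have hcb : (cmap ℂ (expRing ℂ N (γ⁻¹ • b))).order = (expRing ℂ N (γ⁻¹ • b)).order :=
      val_order_eq_of_coeff_eq_zero_iff _ _ (fun k => by rw [coeffMap_coeff, map_eq_zero])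
    obtain ⟨k₁, hk₁⟩ := hd₁
    obtain ⟨k₂, hk₂⟩ := hd₂
    refine ⟨k₁ - k₂, ?_⟩
    have h3 : (e : ℤ) * v.ord h = e * (p * (k₁ - k₂)) := by
      rw [← h1, ← hca, ← hcb, h2, hk₁, hk₂]
      ring
    exact mul_left_cancel₀ (by exact_mod_cast he.ne') h3
  · -- a finite point of the `j`-line
    obtain ⟨γ, τ₀, e, he, hcase, hval⟩ := exists_point_datum N v x₀ hx₀
    have h1 := hval h a b ha hb hab
    have hγM := mdifferentiable_sl_smul γ
    have hne : ∀ {f : ℍ → ℂ}, f ≠ 0 → (fun τ => f (γ • τ)) ≠ 0 := by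
      intro f hf h0
      apply hf
      funext τ
      have := congrFun h0 (γ⁻¹ • τ)
      simp only [smul_inv_smul] at this
      exact this
    have ha0 : (a : ℍ → ℂ) ≠ 0 := val_coe_ne_zero_of_ne_zero ha
    have h2 := ord_rel (a := fun τ => (a : ℍ → ℂ) (γ • τ)) (b := fun τ => (b : ℍ → ℂ) (γ • τ))
      (G₁ := fun τ => E₁ (γ • τ)) (G₂ := fun τ => E₂ (γ • τ))
      (a.2.1.comp hγM) (b.2.1.comp hγM) (hE₁.mdiff.comp hγM)
      (hE₂.mdiff.comp hγM) (hne ha0) (hne hb0) (hne hE₁0) (hne hE₂0) p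
      (fun τ => hrel (γ • τ)) τ₀
    have hdiv : (e : ℤ) ∣ ((ordAt (fun τ => E₁ (γ • τ)) τ₀).toNat : ℤ)
        - (ordAt (fun τ => E₂ (γ • τ)) τ₀).toNat := by
      rcases hcase with h1e | ⟨h2e, hS, hmem⟩ | ⟨h3e, hST, hmem⟩
      · rw [h1e, Nat.cast_one]
        exact one_dvd _
      · rw [h2e]
        refine dvd_of_S τ₀ hS (elliptic_case N hχ hE₁ hE₂ γ _ τ₀ hS hmem ?_)
        simp [ModularGroup.coe_S]
      · rw [h3e]
        refine dvd_of_ST τ₀ hST (elliptic_case N hχ hE₁ hE₂ γ _ τ₀ hST hmem ?_)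
        simp [ModularGroup.coe_S, ModularGroup.coe_T, Matrix.mul_apply, Fin.sum_univ_two]
    obtain ⟨k, hk⟩ := hdiv
    refine ⟨k, ?_⟩
    have h3 : (e : ℤ) * v.ord h = e * (p * k) := by
      rw [← h1, h2, hk]
      ring
    exact mul_left_cancel₀ (by exact_mod_cast he.ne') h3

end Fermat.Agent.S30.KumDiv
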