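import Fermat.Agent.S29_KumHecke
import Fermat.Agent.S29_KumNorm
import Fermat.Agent.S29_KumFun

/-!
# S30, Kummer class map modulo `m`: the Hecke relation for Kummer functions

The `m`-version (`m ≠ 0` arbitrary, not necessarily prime) of `S29_KumHecke` /
`S29_KumHeckeMain`: for a character `χ : Γ₀(N) → ℤ/m` with Kummer function `h` and a Kummer
function `h'` of `T_ℓ χ` (`ℓ ∤ N` prime), the norm along `α` of `β h` is `y ^ m * h'` for a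
nonzero function `y` of `X₀(N)`.  The auxiliary theory of `S29_KumHecke` (twisted forms `IsTw`,
products along coset families, the algebra of `Realizes`) never uses primality and is reused.
-/

set_option autoImplicit false

noncomputable section

open UpperHalfPlane ModularCurve CongruenceSubgroup ModularForm
open scoped MatrixGroups Manifold ModularForm

namespace Fermat.Agent.S30.KumHecke

open Fermat.Agent.S29 Fermat.Agent.S16.LB Fermat.Agent.S29.KumHecke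

/-- The Hecke relation for Kummer functions, relative to the two analytic inputs
`HN` (the norm along `α` of `β h` is realized by the products of the translates) and
`HE` (a `Γ₀(N)`-invariant quotient of two level forms of weight `12 k` is a function of
`X₀(N)`). -/
theorem kum_hecke_of (N p ℓ : ℕ) [NeZero N] [NeZero p] [Fact ℓ.Prime] (hℓN : ¬ ℓ ∣ N)
    (HN : ∀ (h : FC N) (W₁ W₂ : ℍ → ℂ), MDiff W₁ → MDiff W₂ → Realizes N h W₁ W₂ →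
      Realizes N (normA ℂ N ℓ (heckeBetaBar ℂ N ℓ h))
        (fun τ => ∏ i : (famT N ℓ hℓN).ι, W₁ ((famT N ℓ hℓN).A i • τ))
        (fun τ => ∏ i : (famT N ℓ hℓN).ι, W₂ ((famT N ℓ hℓN).A i • τ)))
    (HE : ∀ (k : ℕ) (W₁ W₂ : ℍ → ℂ), IsLevelForm N (12 * k) W₁ → IsLevelForm N (12 * k) W₂ →
      (∃ τ, W₂ τ ≠ 0) → (∀ γ ∈ Gamma0 N, ∀ τ : ℍ, W₁ (γ • τ) * W₂ τ = W₁ τ * W₂ (γ • τ)) →
      ∃ h : FC N, Realizes N h W₁ W₂)
    (χ : Additive (Gamma0 N) →+ ZMod p) (h h' : FC N) (hk : IsKum N p χ h)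
    (hk' : IsKum N p ((famT N ℓ hℓN).tHom χ) h') :
    KumRel ℂ (FC N) p (normA ℂ N ℓ (heckeBetaBar ℂ N ℓ h)) h' := by
  classical
  obtain ⟨E₁, E₂, hE₁, hE₂, hr⟩ := hk
  obtain ⟨F₁, F₂, hF₁, hF₂, hr'⟩ := hk'
  have hp : p ≠ 0 := NeZero.ne p
  obtain ⟨q, hq⟩ : ∃ q : ℕ, q + 1 = p := ⟨p - 1, Nat.succ_pred_eq_of_ne_zero hp⟩
  have h10 := famT_h10 N ℓ hℓN
  have hcard : Fintype.card (famT N ℓ hℓN).ι = ℓ + 1 := card_famT N ℓ hℓN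
  generalize famT N ℓ hℓN = 𝒜 at *
  -- the forms
  have tE₁ := isTw_of_isTwisted hE₁
  have tE₂ := isTw_of_isTwisted hE₂
  have tF₁ := isTw_of_isTwisted hF₁
  have tF₂ := isTw_of_isTwisted hF₂
  have tP₁ := tE₁.plainProd 𝒜 h10
  have tP₂ := tE₂.plainProd 𝒜 h10
  rw [tHom_zero] at tP₂
  have nP₁ : ∃ τ, plainProd 𝒜 E₁ τ ≠ 0 := plainProd_ne 𝒜 h10 (k := 4) hE₁.mdiff hE₁.ne
  have nP₂ : ∃ τ, plainProd 𝒜 E₂ τ ≠ 0 := plainProd_ne 𝒜 h10 (k := 4) hE₂.mdiff hE₂.ne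
  have nF₁ : ∀ n : ℕ, ∃ τ, (F₁ ^ n) τ ≠ 0 := fun n => mdiff_pow_ne hF₁.ne n
  have nF₂ : ∀ n : ℕ, ∃ τ, (F₂ ^ n) τ ≠ 0 := fun n => mdiff_pow_ne hF₂.ne n
  set m : ℕ := 2 * (ℓ + 1 + p) with hm
  set k : ℕ := ℓ + 1 + p with hk
  have hchar : ∀ ψ : Additive (Gamma0 N) →+ ZMod p,
      ψ + 0 + q • ψ + m • (0 : Additive (Gamma0 N) →+ ZMod p) = 0 := by
    intro ψ
    rw [add_zero, smul_zero, add_zero, ← succ_nsmul', hq]
    refine AddMonoidHom.ext fun x => ?_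
    rw [AddMonoidHom.nsmul_apply, nsmul_eq_mul, CharP.cast_eq_zero, zero_mul,
      AddMonoidHom.zero_apply]
  -- numerator and denominator of `y`
  have tW₁ : IsTw N p (12 * k) 0 (plainProd 𝒜 E₁ * F₂ * F₁ ^ q * F₂ ^ m) :=
    (((tP₁.mul tF₂).mul (tF₁.pow q)).mul (tF₂.pow m)).congr (by omega) (hchar _)
  have tW₂ : IsTw N p (12 * k) 0 (F₁ * plainProd 𝒜 E₂ * F₁ ^ q * F₂ ^ m) :=
    (((tF₁.mul tP₂).mul (tF₁.pow q)).mul (tF₂.pow m)).congr (by omega) (hchar _)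
  have nW₁ : ∃ τ, (plainProd 𝒜 E₁ * F₂ * F₁ ^ q * F₂ ^ m) τ ≠ 0 :=
    mdiff_mul_ne ((tP₁.mul tF₂).mul (tF₁.pow q)).mdiff (tF₂.pow m).mdiff
      (mdiff_mul_ne (tP₁.mul tF₂).mdiff (tF₁.pow q).mdiff
        (mdiff_mul_ne tP₁.mdiff tF₂.mdiff nP₁ hF₂.ne) (nF₁ q)) (nF₂ m)
  have nW₂ : ∃ τ, (F₁ * plainProd 𝒜 E₂ * F₁ ^ q * F₂ ^ m) τ ≠ 0 :=
    mdiff_mul_ne ((tF₁.mul tP₂).mul (tF₁.pow q)).mdiff (tF₂.pow m).mdiff
      (mdiff_mul_ne (tF₁.mul tP₂).mdiff (tF₁.pow q).mdiff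
        (mdiff_mul_ne tF₁.mdiff tP₂.mdiff hF₁.ne nP₂) (nF₁ q)) (nF₂ m)
  obtain ⟨y, hy⟩ := HE k _ _ tW₁.isLevelForm tW₂.isLevelForm nW₂ (IsTw.hinv tW₁ tW₂)
  have hy0 : y ≠ 0 := realizes_ne_zero hy tW₁.mdiff nW₁
  -- the two realizations
  have hX := HN h (fun τ => E₁ τ ^ p) (fun τ => E₂ τ ^ p) (tE₁.pow p).mdiff (tE₂.pow p).mdiff hr
  have hZ := realizes_mul' (realizes_pow' hy p) hr'
  have hU₂ : (fun τ => ∏ i : 𝒜.ι, (fun τ => E₂ τ ^ p) (𝒜.A i • τ)) = plainProd 𝒜 E₂ ^ p := by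
    funext τ
    rw [Pi.pow_apply]
    exact Finset.prod_pow _ _ _
  have hXZ : normA ℂ N ℓ (heckeBetaBar ℂ N ℓ h) = y ^ p * h' := by
    refine realizes_eq hX hZ ?_ ?_ ?_ ?_ ?_
    · rw [hU₂]
      exact (tP₂.pow p).mdiff
    · exact ((tW₂.pow p).mul (tF₂.pow p)).mdiff
    · obtain ⟨τ, hτ⟩ := nP₂
      exact ⟨τ, by rw [Finset.prod_pow]; exact pow_ne_zero p hτ⟩
    · exact mdiff_mul_ne (tW₂.pow p).mdiff (tF₂.pow p).mdiff (mdiff_pow_ne nW₂ p) (nF₂ p)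
    · intro τ
      show (∏ i : 𝒜.ι, E₁ (𝒜.A i • τ) ^ p)
          * ((F₁ τ * plainProd 𝒜 E₂ τ * F₁ τ ^ q * F₂ τ ^ m) ^ p * F₂ τ ^ p)
        = (∏ i : 𝒜.ι, E₂ (𝒜.A i • τ) ^ p)
          * ((plainProd 𝒜 E₁ τ * F₂ τ * F₁ τ ^ q * F₂ τ ^ m) ^ p * F₁ τ ^ p)
      rw [Finset.prod_pow, Finset.prod_pow]
      unfold plainProd
      ring
  exact ⟨1, y, one_ne_zero, hy0, by rw [map_one, one_mul]; exact hXZ⟩

/-- **the Hecke relation for Kummer functions modulo `m`** (unconditional). -/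
theorem kum_hecke (N m ℓ : ℕ) [NeZero N] [NeZero m] [Fact ℓ.Prime] (hℓN : ¬ ℓ ∣ N)
    (χ : Additive (Gamma0 N) →+ ZMod m) (h h' : FC N) (hk : IsKum N m χ h)
    (hk' : IsKum N m ((famT N ℓ hℓN).tHom χ) h') :
    KumRel ℂ (FC N) m (normA ℂ N ℓ (heckeBetaBar ℂ N ℓ h)) h' :=
  kum_hecke_of N m ℓ hℓN
    (fun h W₁ W₂ a b c => Fermat.Agent.S29.KumNorm.norm_realizes N ℓ hℓN h W₁ W₂ a b c)
    (fun k W₁ W₂ a b c d => Fermat.Agent.S29.KumFun.exists_realizes N k W₁ W₂ a b c d)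
    χ h h' hk hk'

end Fermat.Agent.S30.KumHecke
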