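import Mathlib
import Fermat.Agent.S30_BridgeCore
import Fermat.Agent.S29_Eis
import Fermat.Agent.S29_KumFun
import Fermat.Agent.S29_KumInj
import Fermat.Agent.S29_KumInjC
import Fermat.Agent.S29_DescNorm
import Fermat.Agent.S30_KumDiv
import Fermat.Agent.S30_KumHecke
import Fermat.Agent.S30_Descent
import Fermat.Agent.S30_DescInj

/-!
# S30 (KAPPA): the Kummer class map modulo an arbitrary `m`

`kappa : KappaStatement`: on a space `X` of admissible characters `Γ₀(N) → ℤ/m` the Kummer class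
map `κ : X → J₀(N)(ℚ̄)[m]` is `ℤ/m`-linear, injective and Hecke equivariant.

The chain is `S30_BridgeCore` (= `S29_Bridge` for an arbitrary modulus), fed with the packages
modulo `m`: `S30_KumDiv`, `S30_KumHecke`, `S30_Descent`, `S30_DescInj`, `S30_KumPic`, the
modulus-free `S29_KumFun`, `S29_DescNorm`, and the copies below of `S29_Eis.exists_twisted`,
`S29_KumInj.kum_rel/kum_add`, `S29_KumInjC.kum_inj` (same proofs; primality was only used through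
`p ≠ 0`).
-/

set_option autoImplicit false
set_option linter.style.haveILetI false
set_option linter.unusedVariables false
set_option linter.unusedSectionVars false

noncomputable section

open UpperHalfPlane ModularCurve CongruenceSubgroup AlgebraicCurve
open scoped MatrixGroups ModularForm TensorProduct Manifold

namespace Fermat.Agent.S30.Kappa

open Fermat.Agent.S29

local notation "Qbar" => AlgebraicClosure ℚ

/-- the twisted weight-4 Eisenstein series of an admissible character modulo `p ≠ 0`. -/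
theorem exists_twisted (N p : ℕ) [NeZero N] [NeZero p] (χ : Additive (Gamma0 N) →+ ZMod p)
    (hχ : IsAdm N p χ) : ∃ E, IsTwisted N p χ E :=
  ⟨Eis.eis N p χ, Eis.eis_mdiff N p χ, Eis.eis_ne hχ, fun γ τ => Eis.eis_smul hχ γ τ,
    Eis.eis_bdd N p χ⟩

section RelAdd

open Fermat.Agent.S24 Fermat.Agent.S24.Tower Fermat.Agent.S29.KumFun Fermat.Agent.S29.KumInj

/-- **Independence of the choice of forms**: two Kummer functions of the same character differ by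
a `p`-th power. -/
theorem kum_rel (N p : ℕ) [NeZero N] [NeZero p] (χ : Additive (Gamma0 N) →+ ZMod p)
    (h h' : FC N) : IsKum N p χ h → IsKum N p χ h' → KumRel ℂ (FC N) p h h' := by
  rintro ⟨E₁, E₂, hE₁, hE₂, hr⟩ ⟨F₁, F₂, hF₁, hF₂, hr'⟩
  have gE₁ := good_of_isTwisted hE₁
  have gE₂ := good_of_isTwisted hE₂
  have gF₁ := good_of_isTwisted hF₁
  have gF₂ := good_of_isTwisted hF₂
  have tE₁ := isTw_of_isTwisted hE₁
  have tE₂ := isTw_of_isTwisted hE₂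
  have tF₁ := isTw_of_isTwisted hF₁
  have tF₂ := isTw_of_isTwisted hF₂
  -- `y = (E₁ F₂) / (E₂ F₁)`
  have t1 : IsTw N (4 * 2) (fun γ => zch p (χ (Additive.ofMul γ)) ^ 1)
      (fun τ => E₁ τ * F₂ τ) :=
    (tE₁.mul tF₂).congr rfl (fun γ => by
      show zch p (χ (Additive.ofMul γ))
        * zch p ((0 : Additive (Gamma0 N) →+ ZMod p) (Additive.ofMul γ)) = _
      rw [AddMonoidHom.zero_apply, Eis.zch_zero, mul_one, pow_one]) (fun τ => rfl)
  have t2 : IsTw N (4 * 2) (fun γ => zch p (χ (Additive.ofMul γ)) ^ 1)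
      (fun τ => E₂ τ * F₁ τ) :=
    (tE₂.mul tF₁).congr rfl (fun γ => by
      show zch p ((0 : Additive (Gamma0 N) →+ ZMod p) (Additive.ofMul γ))
        * zch p (χ (Additive.ofMul γ)) = _
      rw [AddMonoidHom.zero_apply, Eis.zch_zero, one_mul, pow_one]) (fun τ => rfl)
  obtain ⟨y, hy⟩ := exists_realizes_of_tw N p χ E₁ E₂ hE₁ hE₂ 2 1 _ _ t1 t2 (gE₂.mul gF₁).2
  have hy0 : y ≠ 0 := realizes_ne_zero N hy (gE₁.mul gF₂)
  have h1 := realizes_mul N (realizes_pow N hy p) hr'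
  have gD : Good (fun τ => (E₂ τ * F₁ τ) ^ p * F₂ τ ^ p) := ((gE₂.mul gF₁).pow p).mul (gF₂.pow p)
  have h2 : Realizes N (y ^ p * h') (fun τ => E₁ τ ^ p) (fun τ => E₂ τ ^ p) :=
    realizes_congr N h1 gD.1 gD.2 (gE₁.pow p).1.continuous (gE₂.pow p).1.continuous
      (fun τ => by
        show (E₁ τ * F₂ τ) ^ p * F₁ τ ^ p * E₂ τ ^ p = (E₂ τ * F₁ τ) ^ p * F₂ τ ^ p * E₁ τ ^ p
        rw [mul_pow, mul_pow]
        ring)
  have h3 : h = y ^ p * h' := realizes_unique N hr h2 (gE₂.pow p).1 (gE₂.pow p).2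
  exact ⟨1, y, one_ne_zero, hy0, by rw [map_one, one_mul, h3]⟩

/-- **Additivity**: a Kummer function of `χ + χ'` is the product of Kummer functions of `χ` and
`χ'`, up to a `p`-th power. -/
theorem kum_add (N p : ℕ) [NeZero N] [NeZero p] (χ χ' : Additive (Gamma0 N) →+ ZMod p)
    (h h' h'' : FC N) : IsKum N p χ h → IsKum N p χ' h' → IsKum N p (χ + χ') h'' →
    KumRel ℂ (FC N) p h'' (h * h') := by
  rintro ⟨E₁, E₂, hE₁, hE₂, hr⟩ ⟨F₁, F₂, hF₁, hF₂, hr'⟩ ⟨G₁, G₂, hG₁, hG₂, hr''⟩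
  have gE₁ := good_of_isTwisted hE₁
  have gE₂ := good_of_isTwisted hE₂
  have gF₁ := good_of_isTwisted hF₁
  have gF₂ := good_of_isTwisted hF₂
  have gG₁ := good_of_isTwisted hG₁
  have gG₂ := good_of_isTwisted hG₂
  have tE₁ := isTw_of_isTwisted hE₁
  have tE₂ := isTw_of_isTwisted hE₂
  have tF₁ := isTw_of_isTwisted hF₁
  have tF₂ := isTw_of_isTwisted hF₂
  have tG₁ := isTw_of_isTwisted hG₁
  have tG₂ := isTw_of_isTwisted hG₂
  -- `y = (G₁ E₂ F₂) / (G₂ E₁ F₁)`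
  have t1 : IsTw N (4 * 3) (fun γ => zch p ((χ + χ') (Additive.ofMul γ)) ^ 1)
      (fun τ => G₁ τ * E₂ τ * F₂ τ) :=
    ((tG₁.mul tE₂).mul tF₂).congr rfl (fun γ => by
      show zch p ((χ + χ') (Additive.ofMul γ))
        * zch p ((0 : Additive (Gamma0 N) →+ ZMod p) (Additive.ofMul γ))
        * zch p ((0 : Additive (Gamma0 N) →+ ZMod p) (Additive.ofMul γ)) = _
      rw [AddMonoidHom.zero_apply, Eis.zch_zero, mul_one, mul_one, pow_one]) (fun τ => rfl)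
  have t2 : IsTw N (4 * 3) (fun γ => zch p ((χ + χ') (Additive.ofMul γ)) ^ 1)
      (fun τ => G₂ τ * E₁ τ * F₁ τ) :=
    ((tG₂.mul tE₁).mul tF₁).congr rfl (fun γ => by
      show zch p ((0 : Additive (Gamma0 N) →+ ZMod p) (Additive.ofMul γ))
        * zch p (χ (Additive.ofMul γ)) * zch p (χ' (Additive.ofMul γ)) = _
      rw [AddMonoidHom.zero_apply, Eis.zch_zero, one_mul, pow_one, AddMonoidHom.add_apply,
        Eis.zch_add]) (fun τ => rfl)
  obtain ⟨y, hy⟩ := exists_realizes_of_tw N p (χ + χ') G₁ G₂ hG₁ hG₂ 3 1 _ _ t1 t2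
    ((gG₂.mul gE₁).mul gF₁).2
  have hy0 : y ≠ 0 := realizes_ne_zero N hy ((gG₁.mul gE₂).mul gF₂)
  have h1 := realizes_mul N (realizes_pow N hy p) (realizes_mul N hr hr')
  have gD : Good (fun τ => (G₂ τ * E₁ τ * F₁ τ) ^ p * (E₂ τ ^ p * F₂ τ ^ p)) :=
    (((gG₂.mul gE₁).mul gF₁).pow p).mul ((gE₂.pow p).mul (gF₂.pow p))
  have h2 : Realizes N (y ^ p * (h * h')) (fun τ => G₁ τ ^ p) (fun τ => G₂ τ ^ p) :=
    realizes_congr N h1 gD.1 gD.2 (gG₁.pow p).1.continuous (gG₂.pow p).1.continuous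
      (fun τ => by
        show (G₁ τ * E₂ τ * F₂ τ) ^ p * (E₁ τ ^ p * F₁ τ ^ p) * G₂ τ ^ p
          = (G₂ τ * E₁ τ * F₁ τ) ^ p * (E₂ τ ^ p * F₂ τ ^ p) * G₁ τ ^ p
        rw [mul_pow, mul_pow, mul_pow, mul_pow]
        ring)
  have h3 : h'' = y ^ p * (h * h') := realizes_unique N hr'' h2 (gG₂.pow p).1 (gG₂.pow p).2
  exact ⟨1, y, one_ne_zero, hy0, by rw [map_one, one_mul, h3]⟩

end RelAdd

section Inj

open Fermat.Agent.S24 Fermat.Agent.S24.Tower Fermat.Agent.S29.KumInjC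

/-- **(B4, injectivity)** a Kummer function of `χ` which is a constant times a `p`-th power
forces `χ = 0`. -/
theorem kum_inj (N p : ℕ) [NeZero N] [NeZero p] (χ : Additive (Gamma0 N) →+ ZMod p) (hχ : IsAdm N p χ) (h : FC N)
    (hk : IsKum N p χ h) (hrel : KumRel ℂ (FC N) p h 1) : χ = 0 := by
  have hp0 : p ≠ 0 := NeZero.ne p
  obtain ⟨E₁, E₂, hE₁, hE₂, a, b, hb, hab, hpt⟩ := hk
  obtain ⟨c, y, hc, hy, hhy⟩ := hrel
  rw [mul_one] at hhy
  -- a fraction for `y`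
  obtain ⟨ay, s, hs, hfr⟩ := IsFractionRing.div_surjective (A := modRing ℂ N) (phiC N y)
  have hs0 : s ≠ 0 := nonZeroDivisors.ne_zero hs
  have hsF : algebraMap (modRing ℂ N) (ModField ℂ N) s ≠ 0 :=
    (map_ne_zero_iff _ (IsFractionRing.injective (modRing ℂ N) (ModField ℂ N))).mpr hs0
  have hyfrac : phiC N y * algebraMap (modRing ℂ N) (ModField ℂ N) s
      = algebraMap (modRing ℂ N) (ModField ℂ N) ay := by
    rw [← hfr, div_mul_cancel₀ _ hsF]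
  -- the identity `a * s ^ p = c * (b * ay ^ p)` in the ring of modular functions
  have hring : a * s ^ p = algebraMap ℂ (modRing ℂ N) c * (b * ay ^ p) := by
    apply IsFractionRing.injective (modRing ℂ N) (ModField ℂ N)
    rw [map_mul, map_pow, map_mul, map_mul, map_pow, ← IsScalarTower.algebraMap_apply, ← hab,
      hhy, map_mul, AlgHom.commutes, map_pow, ← hyfrac]
    ring
  have hpt2 : ∀ τ : ℍ, (a : ℍ → ℂ) τ * (s : ℍ → ℂ) τ ^ p
      = c * ((b : ℍ → ℂ) τ * (ay : ℍ → ℂ) τ ^ p) := fun τ =>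
    congrFun (congrArg Subtype.val hring) τ
  -- cancel `b`
  have hcomb : ∀ τ : ℍ, (b : ℍ → ℂ) τ
      * ((E₁ τ * (s : ℍ → ℂ) τ) ^ p - c * (E₂ τ * (ay : ℍ → ℂ) τ) ^ p) = 0 := by
    intro τ
    have h1 := hpt τ
    have h2 := hpt2 τ
    simp only at h1
    linear_combination (-(s : ℍ → ℂ) τ ^ p) * h1 + E₂ τ ^ p * h2
  have hpow : ∀ τ : ℍ, (E₁ τ * (s : ℍ → ℂ) τ) ^ p = c * (E₂ τ * (ay : ℍ → ℂ) τ) ^ p := by
    rcases mdiff_mul_eq_zero b.2.1
      (mdiff_sub (mdiff_pow (mdiff_mul hE₁.mdiff s.2.1) p)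
        (mdiff_const_mul c (mdiff_pow (mdiff_mul hE₂.mdiff ay.2.1) p))) hcomb with h0 | h0
    · exact absurd (Subtype.ext (funext h0)) hb
    · exact fun τ => sub_eq_zero.mp (h0 τ)
  -- extract the root
  obtain ⟨c₁, hc₁⟩ := IsAlgClosed.exists_pow_nat_eq c (Nat.pos_of_ne_zero hp0)
  have hpow' : ∀ τ : ℍ, (E₁ τ * (s : ℍ → ℂ) τ) ^ p = (c₁ * (E₂ τ * (ay : ℍ → ℂ) τ)) ^ p := by
    intro τ
    rw [hpow τ, ← hc₁, ← mul_pow]
  obtain ⟨ζ, hζ⟩ := exists_eq_mul_of_pow_eq (mdiff_mul hE₁.mdiff s.2.1)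
    (mdiff_const_mul c₁ (mdiff_mul hE₂.mdiff ay.2.1)) p hp0 hpow'
  -- the character is trivial
  apply AddMonoidHom.ext
  intro g
  obtain ⟨γ, rfl⟩ : ∃ γ : Gamma0 N, Additive.ofMul γ = g := ⟨Additive.toMul g, rfl⟩
  rw [AddMonoidHom.zero_apply, ← zch_eq_one_iff p]
  by_contra hz
  have hinvr := ratio_invariant N y ay s hyfrac (γ : SL(2, ℤ)) γ.2
  have hJ : ∀ τ : ℍ, ((((γ : SL(2, ℤ)) 1 0 : ℤ) : ℂ) * (τ : ℂ) + (((γ : SL(2, ℤ)) 1 1 : ℤ) : ℂ)) ≠ 0 :=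
    fun τ => by
      rw [← ModularGroup.denom_apply]
      exact denom_ne_zero _ τ
  -- `E₁ * (s * s ∘ γ) = 0`
  have hzero : ∀ τ : ℍ, E₁ τ * ((s : ℍ → ℂ) τ * ((γ⁻¹ : SL(2, ℤ)) • s : modRing ℂ N).1 τ) = 0 := by
    intro τ
    have e1 : ((γ⁻¹ : SL(2, ℤ)) • s : modRing ℂ N).1 τ = (s : ℍ → ℂ) ((γ : SL(2, ℤ)) • τ) := by
      show ((((γ : SL(2, ℤ))⁻¹ • s : modRing ℂ N)) : ℍ → ℂ) τ = _
      rw [Tower.smul_apply, inv_inv]
    rw [e1]
    have hs1 := hE₁.slash γ τ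
    have hs2 := hE₂.slash γ τ
    rw [AddMonoidHom.zero_apply, show zch p (0 : ZMod p) = 1 from (zch_eq_one_iff p 0).mpr rfl,
      one_mul] at hs2
    have hζ1 := hζ τ
    have hζ2 := hζ ((γ : SL(2, ℤ)) • τ)
    rw [hs1, hs2] at hζ2
    have hr := hinvr τ
    set J := ((((γ : SL(2, ℤ)) 1 0 : ℤ) : ℂ) * (τ : ℂ) + (((γ : SL(2, ℤ)) 1 1 : ℤ) : ℂ)) ^ 4
      with hJdef
    have hJ0 : J ≠ 0 := pow_ne_zero 4 (hJ τ)
    set z := zch p (χ (Additive.ofMul γ)) with hzdef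
    have hz1 : z - 1 ≠ 0 := sub_ne_zero.mpr hz
    have key : (z - 1) * J * (E₁ τ * ((s : ℍ → ℂ) τ * (s : ℍ → ℂ) ((γ : SL(2, ℤ)) • τ))) = 0 := by
      linear_combination (s : ℍ → ℂ) τ * hζ2 + (-J * (s : ℍ → ℂ) ((γ : SL(2, ℤ)) • τ)) * hζ1
        + (-ζ * c₁ * J * E₂ τ) * hr
    exact (mul_eq_zero.mp key).resolve_left (mul_ne_zero hz1 hJ0)
  have hs' : ((γ⁻¹ : SL(2, ℤ)) • s : modRing ℂ N) ≠ 0 := by
    rw [Ne, smul_eq_zero_iff_eq]
    exact hs0
  rcases mdiff_mul_eq_zero hE₁.mdiff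
    (mdiff_mul s.2.1 ((γ⁻¹ : SL(2, ℤ)) • s : modRing ℂ N).2.1) hzero with h0 | h0
  · obtain ⟨τ, hτ⟩ := hE₁.ne
    exact hτ (h0 τ)
  · rcases mdiff_mul_eq_zero s.2.1 ((γ⁻¹ : SL(2, ℤ)) • s : modRing ℂ N).2.1 h0 with h1 | h1
    · exact hs0 (Subtype.ext (funext h1))
    · exact hs' (Subtype.ext (funext h1))

end Inj

/-- the inputs of `S30_BridgeCore` modulo an arbitrary `m ≠ 0`. -/
theorem inputs (N m : ℕ) [NeZero N] [NeZero m] : Fermat.Agent.S30.Bridge.Inputs N m where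
  exists_kum := fun χ hχ => by
    obtain ⟨E₁, hE₁⟩ := exists_twisted N m χ hχ
    obtain ⟨E₂, hE₂⟩ := exists_twisted N m 0 (isAdm_zero N m)
    exact KumFun.exists_isKum N m χ E₁ E₂ hE₁ hE₂
  pdiv := fun χ h hχ hk => Fermat.Agent.S30.KumDiv.pdiv_of_isKum N m χ hχ h hk
  kum_rel := fun χ h h' hk hk' => kum_rel N m χ h h' hk hk'
  kum_add := fun χ χ' h h' h'' hk hk' hk'' => kum_add N m χ χ' h h' h'' hk hk' hk''
  kum_inj := fun χ h hχ hk hrel => kum_inj N m χ hχ h hk hrel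
  kum_hecke := fun ℓ _ _ hℓN χ _ _ h h' hk hk' =>
    Fermat.Agent.S30.KumHecke.kum_hecke N m ℓ hℓN χ h h' hk hk'
  descent := fun h hh => Fermat.Agent.S30.Descent.descent N m h hh
  descent_inj := fun h₀ hh => Fermat.Agent.S30.DescInj.descent_inj N m h₀ hh
  bcF_norm := fun ℓ _ hℓ hℓN y => DescNorm.bcF_norm N ℓ hℓ hℓN y

/-- **(KAPPA)**. -/
theorem kappa : Fermat.Agent.S30.KappaStatement :=
  fun N m _ _ X hXadm => Fermat.Agent.S30.Bridge.exists_kappa (inputs N m) X hXadm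

end Fermat.Agent.S30.Kappa
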