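import Mathlib

/-!
# S30, WP-C: abstract pseudo-character algebra

Mathlib-only algebra behind the construction of the pseudo-character `t` in `PCStatement`:
* `lucas`: if `φ + d φ⁻¹` acts as a scalar on a `φ`-stable set, so does `φ ^ j + d ^ j φ ^ (-j)`;
* `exists_limit`: the limit trace, from level-wise scalars that are jointly compatible;
* `pc_add`, `pc_one`, `pc_comm`, `pc_c`, `pc_inv_mod`, `pc_inv`, `pc_frob`: the identities
  satisfied by any `t` with `g + δ(g) g⁻¹ = t(g)` on the orbits of the `w n`.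
-/

set_option autoImplicit false
set_option linter.unusedSectionVars false

namespace Fermat.Agent.S30.PCAbs

variable {O : Type} [CommRing O] {G : Type} [Group G] {M : Type} [AddCommGroup M] [Module O M]

theorem rep_mul_apply (R : G →* Module.End O M) (g h : G) (y : M) :
    R (g * h) y = R g (R h y) := by
  rw [map_mul]; rfl

theorem rep_one_apply (R : G →* Module.End O M) (y : M) : R 1 y = y := by
  rw [map_one]; rfl

theorem rep_inv_apply_apply (R : G →* Module.End O M) (g : G) (y : M) :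
    R g⁻¹ (R g y) = y := by
  rw [← rep_mul_apply, inv_mul_cancel, rep_one_apply]

theorem rep_apply_inv_apply (R : G →* Module.End O M) (g : G) (y : M) :
    R g (R g⁻¹ y) = y := by
  rw [← rep_mul_apply, mul_inv_cancel, rep_one_apply]

/-- (C3) Lucas lemma on a stable set. -/
theorem lucas (R : G →* Module.End O M) (φ : G) (Y : Set M)
    (hY : ∀ y ∈ Y, R φ y ∈ Y) (hY' : ∀ y ∈ Y, R φ⁻¹ y ∈ Y) (a d : O)
    (hrel : ∀ y ∈ Y, R φ y + d • R φ⁻¹ y = a • y) (j : ℕ) :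
    ∃ s : O, ∀ y ∈ Y, R (φ ^ j) y + d ^ j • R (φ ^ j)⁻¹ y = s • y := by
  have key : ∀ j : ℕ,
      (∃ s : O, ∀ y ∈ Y, R (φ ^ j) y + d ^ j • R (φ ^ j)⁻¹ y = s • y) ∧
      (∃ s : O, ∀ y ∈ Y, R (φ ^ (j + 1)) y + d ^ (j + 1) • R (φ ^ (j + 1))⁻¹ y = s • y) := by
    intro j
    induction j with
    | zero =>
      refine ⟨⟨2, fun y _ => ?_⟩, ⟨a, fun y hy => ?_⟩⟩
      · simp only [pow_zero, inv_one, rep_one_apply, one_smul]
        rw [two_smul]
      · simpa only [zero_add, pow_one] using hrel y hy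
    | succ j ih =>
      obtain ⟨⟨s0, h0⟩, ⟨s1, h1⟩⟩ := ih
      refine ⟨⟨s1, h1⟩, ⟨a * s1 - d * s0, fun y hy => ?_⟩⟩
      have e1 := h1 (R φ y) (hY y hy)
      have e2 := h1 (R φ⁻¹ y) (hY' y hy)
      have e0 := h0 y hy
      have er := hrel y hy
      have c1 : R (φ ^ (j + 1)) (R φ y) = R (φ ^ (j + 1 + 1)) y := by
        rw [pow_succ φ (j + 1), rep_mul_apply R (φ ^ (j + 1)) φ y]
      have c2 : R (φ ^ (j + 1))⁻¹ (R φ y) = R (φ ^ j)⁻¹ y := by
        have hg : (φ ^ j)⁻¹ = (φ ^ (j + 1))⁻¹ * φ := by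
          rw [pow_succ' φ j, mul_inv_rev, inv_mul_cancel_right]
        rw [hg, rep_mul_apply R (φ ^ (j + 1))⁻¹ φ y]
      have c3 : R (φ ^ (j + 1)) (R φ⁻¹ y) = R (φ ^ j) y := by
        have hg : φ ^ j = φ ^ (j + 1) * φ⁻¹ := by
          rw [pow_succ φ j, mul_inv_cancel_right]
        rw [hg, rep_mul_apply R (φ ^ (j + 1)) φ⁻¹ y]
      have c4 : R (φ ^ (j + 1))⁻¹ (R φ⁻¹ y) = R (φ ^ (j + 1 + 1))⁻¹ y := by
        have hg : (φ ^ (j + 1 + 1))⁻¹ = (φ ^ (j + 1))⁻¹ * φ⁻¹ := by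
          rw [pow_succ' φ (j + 1), mul_inv_rev]
        rw [hg, rep_mul_apply R (φ ^ (j + 1))⁻¹ φ⁻¹ y]
      rw [c1, c2] at e1
      rw [c3, c4] at e2
      linear_combination (norm := module) e1 + d • e2 - d • e0 + s1 • er
  exact (key j).1

theorem mem_pow_smul_top (I : Ideal O) (n : ℕ) (x : O) :
    x ∈ (I ^ n • ⊤ : Submodule O O) ↔ x ∈ I ^ n := by
  rw [smul_eq_mul, Ideal.mul_top]

theorem eq_zero_of_forall_dvd [IsDomain O] [IsDiscreteValuationRing O] (π : O)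
    (hπ : π ∈ IsLocalRing.maximalIdeal O) (c : O) (h : ∀ n : ℕ, π ^ n ∣ c) : c = 0 := by
  by_contra hc
  have hnu : ¬ IsUnit π := by
    rwa [IsLocalRing.mem_maximalIdeal, mem_nonunits_iff] at hπ
  obtain ⟨k, hk⟩ := FiniteMultiplicity.of_not_isUnit hnu hc
  exact hk (h (k + 1))

theorem exists_pow_dvd [IsDomain O] [IsDiscreteValuationRing O] (π : O) (hπ0 : π ≠ 0) (n : ℕ) :
    ∃ k : ℕ, ∀ x ∈ IsLocalRing.maximalIdeal O ^ k, π ^ n ∣ x := by
  obtain ⟨ϖ, hϖ⟩ := IsDiscreteValuationRing.exists_irreducible O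
  obtain ⟨e, u, hu⟩ :=
    IsDiscreteValuationRing.eq_unit_mul_pow_irreducible (pow_ne_zero n hπ0) hϖ
  refine ⟨e, fun x hx => ?_⟩
  rw [hϖ.maximalIdeal_eq, Ideal.span_singleton_pow, Ideal.mem_span_singleton] at hx
  rw [hu]
  exact Units.mul_left_dvd.mpr hx

theorem eq_of_forall_smul [IsDomain O] [IsDiscreteValuationRing O] (π : O)
    (hπ : π ∈ IsLocalRing.maximalIdeal O) (w : ℕ → M)
    (hexact : ∀ (n : ℕ) (c : O), c • w n = 0 → π ^ n ∣ c) (a b : O)
    (h : ∀ n : ℕ, a • w n = b • w n) : a = b := by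
  rw [← sub_eq_zero]
  refine eq_zero_of_forall_dvd π hπ _ fun n => hexact n _ ?_
  rw [sub_smul, h n, sub_self]

/-- (C7a) the limit trace. -/
theorem exists_limit [IsDomain O] [IsDiscreteValuationRing O]
    [IsAdicComplete (IsLocalRing.maximalIdeal O) O] (π : O)
    (hπ : π ∈ IsLocalRing.maximalIdeal O) (hπ0 : π ≠ 0)
    (R : G →* Module.End O M) (δ : G →* Oˣ) (w : ℕ → M)
    (hexact : ∀ (n : ℕ) (c : O), c • w n = 0 → π ^ n ∣ c)
    (hkill : ∀ n : ℕ, π ^ n • w n = 0)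
    (hrel : ∀ (n n' : ℕ) (g : G), ∃ τ : O,
      (∀ h : G, R g (R h (w n)) + (δ g : O) • R g⁻¹ (R h (w n)) = τ • R h (w n)) ∧
      (∀ h : G, R g (R h (w n')) + (δ g : O) • R g⁻¹ (R h (w n')) = τ • R h (w n'))) :
    ∃ t : G → O, ∀ (n : ℕ) (g h : G),
      R g (R h (w n)) + (δ g : O) • R g⁻¹ (R h (w n)) = t g • R h (w n) := by
  have hex : ∀ (n : ℕ) (g : G), ∃ τ : O, ∀ h : G,
      R g (R h (w n)) + (δ g : O) • R g⁻¹ (R h (w n)) = τ • R h (w n) := by
    intro n g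
    obtain ⟨τ, h1, -⟩ := hrel n n g
    exact ⟨τ, h1⟩
  choose τ hτ using hex
  have hcompat : ∀ (n n' : ℕ) (g : G), n ≤ n' → π ^ n ∣ τ n g - τ n' g := by
    intro n n' g hnn
    obtain ⟨τ', h1, h2⟩ := hrel n n' g
    have a1 : π ^ n ∣ τ n g - τ' := by
      apply hexact n
      have e1 := hτ n g 1
      have e2 := h1 1
      simp only [rep_one_apply] at e1 e2
      rw [sub_smul, ← e1, ← e2, sub_self]
    have a2 : π ^ n' ∣ τ n' g - τ' := by
      apply hexact n'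
      have e1 := hτ n' g 1
      have e2 := h2 1
      simp only [rep_one_apply] at e1 e2
      rw [sub_smul, ← e1, ← e2, sub_self]
    have a3 : π ^ n ∣ τ n' g - τ' := (pow_dvd_pow π hnn).trans a2
    have hs : τ n g - τ n' g = (τ n g - τ') - (τ n' g - τ') := by ring
    rw [hs]
    exact dvd_sub a1 a3
  have hlim : ∀ g : G, ∃ L : O, ∀ n : ℕ, τ n g - L ∈ IsLocalRing.maximalIdeal O ^ n := by
    intro g
    obtain ⟨L, hL⟩ := IsPrecomplete.prec' (I := IsLocalRing.maximalIdeal O) (M := O)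
      (fun n => τ n g) (by
        intro m n hmn
        rw [SModEq.sub_mem, mem_pow_smul_top]
        obtain ⟨c, hc⟩ := hcompat m n g hmn
        rw [hc]
        exact Ideal.mul_mem_right _ _ (Ideal.pow_mem_pow hπ m))
    refine ⟨L, fun n => ?_⟩
    have h1 := hL n
    rwa [SModEq.sub_mem, mem_pow_smul_top] at h1
  choose t ht using hlim
  refine ⟨t, fun n g h => ?_⟩
  obtain ⟨k, hk⟩ := exists_pow_dvd π hπ0 n
  have b1 : π ^ n ∣ τ (max n k) g - t g :=
    hk _ (Ideal.pow_le_pow_right (le_max_right n k) (ht g (max n k)))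
  have b2 : π ^ n ∣ τ n g - τ (max n k) g := hcompat n (max n k) g (le_max_left n k)
  have b3 : π ^ n ∣ t g - τ n g := by
    have hs : t g - τ n g = -((τ (max n k) g - t g) + (τ n g - τ (max n k) g)) := by ring
    rw [hs]
    exact (dvd_neg).mpr (dvd_add b1 b2)
  obtain ⟨c, hc⟩ := b3
  have hz : π ^ n • R h (w n) = 0 := by
    rw [← map_smul, hkill n, map_zero]
  rw [hτ n g h]
  have hs : t g = τ n g + c * π ^ n := by rw [mul_comm, ← hc]; ring
  rw [hs, add_smul, mul_smul, hz, smul_zero, add_zero]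

section Identities

variable [IsDomain O] [IsDiscreteValuationRing O] (π : O)
  (hπ : π ∈ IsLocalRing.maximalIdeal O) (hπ0 : π ≠ 0)
  (R : G →* Module.End O M) (δ : G →* Oˣ) (w : ℕ → M)
  (hexact : ∀ (n : ℕ) (c : O), c • w n = 0 → π ^ n ∣ c)
  (hkill : ∀ n : ℕ, π ^ n • w n = 0)
  (t : G → O)
  (ht : ∀ (n : ℕ) (g h : G),
      R g (R h (w n)) + (δ g : O) • R g⁻¹ (R h (w n)) = t g • R h (w n))

include hπ hπ0 hexact ht in
theorem pc_add (g h : G) : t (g * h) + (δ h : O) * t (g * h⁻¹) = t g * t h := by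
  refine eq_of_forall_smul π hπ w hexact _ _ fun n => ?_
  have E1 := ht n (g * h) 1
  have E2 := ht n (g * h⁻¹) 1
  have E3 := ht n h 1
  have E4 := ht n h g⁻¹
  have E5 := ht n g 1
  simp only [rep_one_apply] at E1 E2 E3 E5
  have E3' := congrArg (fun y => R g y) E3
  simp only [map_add, map_smul] at E3'
  have c1 : R g (R h (w n)) = R (g * h) (w n) := (rep_mul_apply R g h (w n)).symm
  have c2 : R g (R h⁻¹ (w n)) = R (g * h⁻¹) (w n) := (rep_mul_apply R g h⁻¹ (w n)).symm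
  have c3 : R h (R g⁻¹ (w n)) = R (g * h⁻¹)⁻¹ (w n) := by
    have hg : (g * h⁻¹)⁻¹ = h * g⁻¹ := by group
    rw [hg, rep_mul_apply R h g⁻¹ (w n)]
  have c4 : R h⁻¹ (R g⁻¹ (w n)) = R (g * h)⁻¹ (w n) := by
    have hg : (g * h)⁻¹ = h⁻¹ * g⁻¹ := by group
    rw [hg, rep_mul_apply R h⁻¹ g⁻¹ (w n)]
  rw [c1, c2] at E3'
  rw [c3, c4] at E4
  have hd1 : (δ (g * h) : O) = (δ g : O) * (δ h : O) := by rw [map_mul, Units.val_mul]
  have hd2 : (δ h : O) * (δ (g * h⁻¹) : O) = (δ g : O) := by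
    rw [map_mul, map_inv, ← Units.val_mul, mul_comm (δ g), mul_inv_cancel_left]
  rw [hd1] at E1
  have E2' := congrArg (fun y => (δ h : O) • y) E2
  simp only [smul_add, smul_smul, hd2] at E2'
  linear_combination (norm := module) E3' + (δ g : O) • E4 + t h • E5 - E1 - E2'

include hπ hπ0 hexact ht in
theorem pc_one : t 1 = 2 := by
  refine eq_of_forall_smul π hπ w hexact _ _ fun n => ?_
  have e := ht n 1 1
  simp only [inv_one, rep_one_apply, map_one δ, Units.val_one, one_smul] at e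
  rw [← e, two_smul]

include hπ hπ0 hexact ht in
theorem pc_comm (g h : G) : t (g * h) = t (h * g) := by
  refine eq_of_forall_smul π hπ w hexact _ _ fun n => ?_
  have e1 := ht n (g * h) g
  have e2 := ht n (h * g) 1
  simp only [rep_one_apply] at e2
  have e3 := congrArg (fun y => R g⁻¹ y) e1
  simp only [map_add, map_smul] at e3
  have c1 : R (h * g) (w n) = R g⁻¹ (R (g * h) (R g (w n))) := by
    have hg : h * g = g⁻¹ * ((g * h) * g) := by group
    rw [hg, rep_mul_apply R g⁻¹ ((g * h) * g) (w n), rep_mul_apply R (g * h) g (w n)]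
  have c2 : R (h * g)⁻¹ (w n) = R g⁻¹ (R (g * h)⁻¹ (R g (w n))) := by
    have hg : (h * g)⁻¹ = g⁻¹ * ((g * h)⁻¹ * g) := by group
    rw [hg, rep_mul_apply R g⁻¹ ((g * h)⁻¹ * g) (w n), rep_mul_apply R (g * h)⁻¹ g (w n)]
  have hd : δ (g * h) = δ (h * g) := by rw [map_mul, map_mul, mul_comm]
  rw [rep_inv_apply_apply, ← c1, ← c2, hd] at e3
  rw [← e3, ← e2]

include hπ hπ0 hexact ht in
theorem pc_c (c : G) (hc : c * c = 1) (hδc : δ c = -1) : t c = 0 := by
  refine eq_of_forall_smul π hπ w hexact _ _ fun n => ?_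
  have hci : c⁻¹ = c := inv_eq_of_mul_eq_one_left hc
  have e := ht n c 1
  rw [hci, hδc] at e
  simp only [rep_one_apply, Units.val_neg, Units.val_one, neg_smul, one_smul,
    add_neg_cancel] at e
  rw [← e, zero_smul]

include hexact hkill ht in
/-- invariance mod `π ^ n`. -/
theorem pc_inv_mod (n : ℕ) (σ : G) (hσ : ∀ h : G, R σ (R h (w n)) = R h (w n))
    (hδ : π ^ n ∣ (δ σ : O) - 1) (g : G) : π ^ n ∣ t (g * σ) - t g := by
  apply hexact n
  have e1 := ht n (g * σ) 1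
  have e2 := ht n g 1
  simp only [rep_one_apply] at e1 e2
  have hσ1 : R σ (w n) = w n := by simpa only [rep_one_apply] using hσ 1
  have hσ2 : R σ⁻¹ (R g⁻¹ (w n)) = R g⁻¹ (w n) := by
    conv_lhs => rw [← hσ g⁻¹]
    exact rep_inv_apply_apply R σ _
  have c1 : R (g * σ) (w n) = R g (w n) := by
    rw [rep_mul_apply R g σ (w n), hσ1]
  have c2 : R (g * σ)⁻¹ (w n) = R g⁻¹ (w n) := by
    rw [mul_inv_rev, rep_mul_apply R σ⁻¹ g⁻¹ (w n), hσ2]
  obtain ⟨e, he⟩ := hδ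
  have hz : π ^ n • R g⁻¹ (w n) = 0 := by rw [← map_smul, hkill n, map_zero]
  have hd : (δ (g * σ) : O) = (δ g : O) + (δ g : O) * e * π ^ n := by
    rw [map_mul, Units.val_mul]
    have hs : (δ σ : O) = 1 + π ^ n * e := by rw [← he]; ring
    rw [hs]; ring
  rw [c1, c2, hd, add_smul, mul_smul, hz, smul_zero, add_zero] at e1
  rw [sub_smul, ← e1, ← e2, sub_self]

include hπ hπ0 hexact hkill ht in
theorem pc_inv (σ : G) (hσ : ∀ (n : ℕ) (h : G), R σ (R h (w n)) = R h (w n))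
    (hδ : δ σ = 1) (g : G) : t (g * σ) = t g := by
  rw [← sub_eq_zero]
  refine eq_zero_of_forall_dvd π hπ _ fun n => ?_
  exact pc_inv_mod π R δ w hexact hkill t ht n σ (hσ n) (by rw [hδ]; simp) g

include hπ hπ0 hexact ht in
theorem pc_frob (σ : G) (a d : O) (hδ : (δ σ : O) = d)
    (hσ : ∀ (n : ℕ) (h : G), R σ (R h (w n)) + d • R σ⁻¹ (R h (w n)) = a • R h (w n)) :
    t σ = a := by
  refine eq_of_forall_smul π hπ w hexact _ _ fun n => ?_
  have e1 := ht n σ 1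
  have e2 := hσ n 1
  rw [hδ] at e1
  simp only [rep_one_apply] at e1 e2
  rw [← e1, ← e2]

end Identities

end Fermat.Agent.S30.PCAbs
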