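import Fermat.Agent.S30_Defs
import Fermat.Agent.S29_Span
import Fermat.Agent.S29_ESTorsion
import Fermat.Agent.S29_FrobDensityMain

/-!
# S30 (WP-C, geometric part): the Galois orbit of a Hecke eigenvector in `𝒪 ⊗ J₀(N)[p ^ n]`

`M := 𝒪 ⊗[ℤ] J₀(N)(ℚ̄)` with the `𝒪`-linear Galois action `galO`.  On the submodule `torsO m`
generated by the `1 ⊗ x`, `m x = 0`:

* every element has finite level (`exists_level`), and the orbit of an element is fixed by the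
  absolute Galois group of a finite normal extension (`exists_orbit_level`);
* a Frobenius lift `σ` at `ℓ ∤ N m` satisfies `T_ℓ = σ + ℓ σ⁻¹` (`hecke_eq_frob`);
* the inertia groups at `ℓ ∤ N m` act trivially (`galO_inertia`).

`joint_rel`: for Hecke eigenvectors `w n ∈ torsO (p ^ n)` and every `g ∈ G_ℚ` there is a scalar
`τ` with `g + δ(g) g⁻¹ = τ` on the orbits of `w n` and of `w n'` simultaneously (Frobenius density
at a common level + the Lucas recursion).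
-/

set_option autoImplicit false
set_option linter.style.haveILetI false

noncomputable section

open ModularCurve AlgebraicCurve
open scoped TensorProduct

namespace Fermat.Agent.S30.PCGeom

local notation "Qbar" => AlgebraicClosure ℚ
local notation "GQ" => (AlgebraicClosure ℚ ≃ₐ[ℚ] AlgebraicClosure ℚ)

open Fermat.Agent.S29

/-! ### the Lucas recursion -/

section Lucas

variable {O : Type} [CommRing O] {G : Type} [Group G] {M : Type} [AddCommGroup M] [Module O M]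

/-- if `φ + d φ⁻¹ = a` on a `φ`-stable set then `φ ^ j + d ^ j φ ^ (-j)` is a scalar on it. -/
theorem lucas_aux (R : G →* Module.End O M) (φ : G) (Y : Set M)
    (hY : ∀ y ∈ Y, R φ y ∈ Y) (hY' : ∀ y ∈ Y, R φ⁻¹ y ∈ Y) (a d : O)
    (hrel : ∀ y ∈ Y, R φ y + d • R φ⁻¹ y = a • y) (j : ℕ) :
    (∃ s : O, ∀ y ∈ Y, R (φ ^ j) y + d ^ j • R (φ ^ j)⁻¹ y = s • y) ∧
    (∃ s : O, ∀ y ∈ Y, R (φ ^ (j + 1)) y + d ^ (j + 1) • R (φ ^ (j + 1))⁻¹ y = s • y) := by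
  have hpow : ∀ (k : ℕ), ∀ y ∈ Y, R (φ ^ k) y ∈ Y ∧ R (φ ^ k)⁻¹ y ∈ Y := by
    intro k
    induction k with
    | zero =>
      intro y hy
      rw [pow_zero, inv_one, map_one]
      exact ⟨hy, hy⟩
    | succ k ih =>
      intro y hy
      constructor
      · rw [pow_succ, map_mul]
        exact (ih _ (hY y hy)).1
      · rw [pow_succ, mul_inv_rev, map_mul]
        exact hY' _ (ih y hy).2
  induction j with
  | zero =>
    refine ⟨⟨2, fun y _ => ?_⟩, ⟨a, fun y hy => ?_⟩⟩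
    · rw [pow_zero, pow_zero, inv_one, map_one, one_smul, two_smul]
      rfl
    · rw [zero_add, pow_one, pow_one]
      exact hrel y hy
  | succ j ih =>
    obtain ⟨⟨s0, h0⟩, ⟨s1, h1⟩⟩ := ih
    refine ⟨⟨s1, h1⟩, ⟨a * s1 - d * s0, fun y hy => ?_⟩⟩
    have e1 := hrel _ (hpow (j + 1) y hy).1
    have e2 := hrel _ (hpow (j + 1) y hy).2
    have e3 := h1 y hy
    have e4 := h0 y hy
    -- rewrite the products
    have p1 : R (φ ^ (j + 1 + 1)) y = R φ (R (φ ^ (j + 1)) y) := by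
      rw [pow_succ', map_mul]; rfl
    have p2 : R φ⁻¹ (R (φ ^ (j + 1)) y) = R (φ ^ j) y := by
      have : φ⁻¹ * φ ^ (j + 1) = φ ^ j := by rw [pow_succ', inv_mul_cancel_left]
      rw [← this, map_mul]; rfl
    have p3 : R (φ ^ (j + 1 + 1))⁻¹ y = R φ⁻¹ (R (φ ^ (j + 1))⁻¹ y) := by
      rw [pow_succ, mul_inv_rev, map_mul]; rfl
    have p4 : R φ (R (φ ^ (j + 1))⁻¹ y) = R (φ ^ j)⁻¹ y := by
      have : φ * (φ ^ (j + 1))⁻¹ = (φ ^ j)⁻¹ := by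
        rw [pow_succ, mul_inv_rev, mul_inv_cancel_left]
      rw [← this, map_mul]; rfl
    rw [p2] at e1
    rw [p4] at e2
    rw [p1, p3]
    -- e1 : R φ (R (φ^(j+1)) y) + d • R (φ^j) y = a • R (φ^(j+1)) y
    -- e2 : R (φ^j)⁻¹ y + d • R φ⁻¹ (R (φ^(j+1))⁻¹ y) = a • R (φ^(j+1))⁻¹ y
    have f1 : R φ (R (φ ^ (j + 1)) y) = a • R (φ ^ (j + 1)) y - d • R (φ ^ j) y :=
      eq_sub_of_add_eq e1
    have f2 : d • R φ⁻¹ (R (φ ^ (j + 1))⁻¹ y)
        = a • R (φ ^ (j + 1))⁻¹ y - R (φ ^ j)⁻¹ y := eq_sub_of_add_eq' e2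
    have f3 : d ^ (j + 1 + 1) • R φ⁻¹ (R (φ ^ (j + 1))⁻¹ y)
        = d ^ (j + 1) • (a • R (φ ^ (j + 1))⁻¹ y - R (φ ^ j)⁻¹ y) := by
      rw [← f2, smul_smul, ← pow_succ]
    rw [f1, f3, sub_smul, mul_smul, mul_smul, ← e3, ← e4, smul_add, smul_add, smul_sub,
      smul_smul a, smul_smul d (d ^ j), smul_smul (d ^ (j + 1)) a, mul_comm a (d ^ (j + 1)),
      ← pow_succ' d j]
    abel

theorem lucas (R : G →* Module.End O M) (φ : G) (Y : Set M)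
    (hY : ∀ y ∈ Y, R φ y ∈ Y) (hY' : ∀ y ∈ Y, R φ⁻¹ y ∈ Y) (a d : O)
    (hrel : ∀ y ∈ Y, R φ y + d • R φ⁻¹ y = a • y) (j : ℕ) :
    ∃ s : O, ∀ y ∈ Y, R (φ ^ j) y + d ^ j • R (φ ^ j)⁻¹ y = s • y :=
  (lucas_aux R φ Y hY hY' a d hrel j).1

end Lucas

/-! ### the Galois module `𝒪 ⊗ J₀(N)` -/

section Module

variable (O : Type) [CommRing O] (N : ℕ) [NeZero N]

/-- the action of `σ` on `J₀(N)(ℚ̄)` as a `ℤ`-linear map. -/
def galJ (σ : GQ) : JZero N →ₗ[ℤ] JZero N :=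
  (DistribSMul.toAddMonoidHom (JZero N) σ).toIntLinearMap

theorem galJ_apply (σ : GQ) (x : JZero N) : galJ N σ x = σ • x := rfl

/-- the `𝒪`-linear Galois action on `𝒪 ⊗ J₀(N)(ℚ̄)`. -/
def galO : GQ →* Module.End O (O ⊗[ℤ] JZero N) where
  toFun σ := (galJ N σ).baseChange O
  map_one' := by
    have h : galJ N 1 = LinearMap.id := LinearMap.ext fun x => one_smul GQ x
    rw [h, LinearMap.baseChange_id]
    rfl
  map_mul' σ τ := by
    have h : galJ N (σ * τ) = (galJ N σ).comp (galJ N τ) :=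
      LinearMap.ext fun x => mul_smul σ τ x
    rw [h, LinearMap.baseChange_comp]
    rfl

theorem galO_tmul (σ : GQ) (a : O) (x : JZero N) :
    galO O N σ (a ⊗ₜ[ℤ] x) = a ⊗ₜ[ℤ] (σ • x) := rfl

theorem galT_eq (σ : GQ) (y : O ⊗[ℤ] JZero N) : galT O N σ y = galO O N σ y := rfl

/-- the `𝒪`-linear Hecke operator. -/
def heckeO (ℓ : ℕ) [NeZero ℓ] : Module.End O (O ⊗[ℤ] JZero N) :=
  ((heckeOperatorAlong Qbar N ℓ).toIntLinearMap).baseChange O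

theorem heckeT_eq (ℓ : ℕ) [NeZero ℓ] (y : O ⊗[ℤ] JZero N) :
    heckeT O N ℓ y = heckeO O N ℓ y := rfl

theorem heckeO_tmul (ℓ : ℕ) [NeZero ℓ] (a : O) (x : JZero N) :
    heckeO O N ℓ (a ⊗ₜ[ℤ] x) = a ⊗ₜ[ℤ] (heckeOperatorAlong Qbar N ℓ x) := rfl

theorem heckeO_galO (ℓ : ℕ) [NeZero ℓ] (σ : GQ) (y : O ⊗[ℤ] JZero N) :
    heckeO O N ℓ (galO O N σ y) = galO O N σ (heckeO O N ℓ y) := by
  induction y using TensorProduct.induction_on with
  | zero => rw [map_zero, map_zero, map_zero]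
  | tmul a x =>
    rw [galO_tmul, heckeO_tmul, heckeO_tmul, galO_tmul,
      ESTors.heckeOperatorAlong_smul N ℓ σ x]
  | add y z hy hz => rw [map_add, map_add, map_add, map_add, hy, hz]

/-- the `𝒪`-submodule generated by the `m`-torsion of `J₀(N)`. -/
def torsO (m : ℕ) : Submodule O (O ⊗[ℤ] JZero N) :=
  Submodule.span O {y | ∃ x : JZero N, m • x = 0 ∧ y = (1 : O) ⊗ₜ[ℤ] x}

variable {O N}

theorem tmul_mem_torsO {m : ℕ} (a : O) {x : JZero N} (hx : m • x = 0) :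
    a ⊗ₜ[ℤ] x ∈ torsO O N m := by
  have h : a ⊗ₜ[ℤ] x = a • ((1 : O) ⊗ₜ[ℤ] x) := by
    rw [TensorProduct.smul_tmul', smul_eq_mul, mul_one]
  rw [h]
  exact Submodule.smul_mem _ a (Submodule.subset_span ⟨x, hx, rfl⟩)

theorem sum_mem_torsO {m r : ℕ} (a : Fin r → O) (x : Fin r → JZero N)
    (hx : ∀ i, m • x i = 0) : (∑ i, a i ⊗ₜ[ℤ] x i) ∈ torsO O N m :=
  Submodule.sum_mem _ (fun i _ => tmul_mem_torsO (a i) (hx i))

theorem galO_mem {m : ℕ} (σ : GQ) {y : O ⊗[ℤ] JZero N} (hy : y ∈ torsO O N m) :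
    galO O N σ y ∈ torsO O N m := by
  induction hy using Submodule.span_induction with
  | mem y hy =>
    obtain ⟨x, hx, rfl⟩ := hy
    rw [galO_tmul]
    refine tmul_mem_torsO 1 ?_
    have hf : σ • x = DistribSMul.toAddMonoidHom (JZero N) σ x := rfl
    rw [hf, ← map_nsmul, hx, map_zero]
  | zero => rw [map_zero]; exact Submodule.zero_mem _
  | add y z _ _ hy hz => rw [map_add]; exact Submodule.add_mem _ hy hz
  | smul c y _ hy => rw [map_smul]; exact Submodule.smul_mem _ c hy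

theorem natCast_smul_eq_zero {m : ℕ} {y : O ⊗[ℤ] JZero N} (hy : y ∈ torsO O N m) :
    (m : O) • y = 0 := by
  induction hy using Submodule.span_induction with
  | mem y hy =>
    obtain ⟨x, hx, rfl⟩ := hy
    rw [Nat.cast_smul_eq_nsmul, ← TensorProduct.tmul_smul, hx, TensorProduct.tmul_zero]
  | zero => rw [smul_zero]
  | add y z _ _ hy hz => rw [smul_add, hy, hz, add_zero]
  | smul c y _ hy => rw [smul_comm, hy, smul_zero]

/-- a Frobenius lift at `ℓ ∤ N m` satisfies `T_ℓ = σ + ℓ σ⁻¹` on `torsO m`. -/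
theorem hecke_eq_frob (ℓ : ℕ) [NeZero ℓ] (hℓ : ℓ.Prime) (hℓN : ¬ ℓ ∣ N)
    (A : ValuationSubring Qbar) (hA : A.LiesOverPrime ℓ) (σ : GQ) (hσ : A.IsFrobeniusAt σ ℓ)
    (m : ℕ) (hℓm : ¬ ℓ ∣ m) {y : O ⊗[ℤ] JZero N} (hy : y ∈ torsO O N m) :
    heckeO O N ℓ y = galO O N σ y + (ℓ : O) • galO O N σ⁻¹ y := by
  induction hy using Submodule.span_induction with
  | mem y hy =>
    obtain ⟨x, hx, rfl⟩ := hy
    have hf : σ⁻¹ • x = DistribSMul.toAddMonoidHom (JZero N) σ⁻¹ x := rfl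
    have hx' : m • (σ⁻¹ • x) = 0 := by rw [hf, ← map_nsmul, hx, map_zero]
    have h1 := ESTors.hecke_frobenius N ℓ hℓ hℓN A hA σ hσ m hℓm (σ⁻¹ • x) hx'
    rw [smul_inv_smul] at h1
    rw [heckeO_tmul, galO_tmul, galO_tmul, h1, TensorProduct.tmul_add,
      Nat.cast_smul_eq_nsmul, ← TensorProduct.tmul_smul]
  | zero => rw [map_zero, map_zero, map_zero, smul_zero, add_zero]
  | add y z _ _ hy hz =>
    rw [map_add, map_add, map_add, hy, hz, smul_add]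
    abel
  | smul c y _ hy =>
    rw [map_smul, map_smul, map_smul, hy, smul_add, smul_comm]

/-- inertia at `ℓ ∤ N m` acts trivially on `torsO m`. -/
theorem galO_inertia (ℓ : ℕ) (hℓ : ℓ.Prime) (hℓN : ¬ ℓ ∣ N)
    (A : ValuationSubring Qbar) (hA : A.LiesOverPrime ℓ) (σ : GQ)
    (hσ : σ ∈ A.inertiaSubgroupIn ℚ) (m : ℕ) (hℓm : ¬ ℓ ∣ m) {y : O ⊗[ℤ] JZero N}
    (hy : y ∈ torsO O N m) : galO O N σ y = y := by
  induction hy using Submodule.span_induction with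
  | mem y hy =>
    obtain ⟨x, hx, rfl⟩ := hy
    rw [galO_tmul, ESTors.inertia_smul_eq N ℓ hℓ hℓN A hA σ hσ m hℓm x hx]
  | zero => rw [map_zero]
  | add y z _ _ hy hz => rw [map_add, hy, hz]
  | smul c y _ hy => rw [map_smul, hy]

/-- every element of `torsO m` has finite level. -/
theorem exists_level {m : ℕ} (hm : m ≠ 0) {y : O ⊗[ℤ] JZero N} (hy : y ∈ torsO O N m) :
    ∃ L : IntermediateField ℚ Qbar, FiniteDimensional ℚ L ∧
      ∀ σ : GQ, (∀ z ∈ L, σ z = z) → galO O N σ y = y := by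
  induction hy using Submodule.span_induction with
  | mem y hy =>
    obtain ⟨x, hx, rfl⟩ := hy
    obtain ⟨L, hL, hfix⟩ := Span.exists_level_point N m hm x hx
    exact ⟨L, hL, fun σ hσ => by rw [galO_tmul, hfix σ hσ]⟩
  | zero => exact ⟨⊥, inferInstance, fun σ _ => map_zero _⟩
  | add y z _ _ hy hz =>
    obtain ⟨L₁, h₁, hL₁⟩ := hy
    obtain ⟨L₂, h₂, hL₂⟩ := hz
    haveI := h₁
    haveI := h₂
    refine ⟨L₁ ⊔ L₂, inferInstance, fun σ hσ => ?_⟩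
    rw [map_add, hL₁ σ (fun z hz => hσ z ((le_sup_left : L₁ ≤ L₁ ⊔ L₂) hz)),
      hL₂ σ (fun z hz => hσ z ((le_sup_right : L₂ ≤ L₁ ⊔ L₂) hz))]
  | smul c y _ hy =>
    obtain ⟨L, hL, hfix⟩ := hy
    exact ⟨L, hL, fun σ hσ => by rw [map_smul, hfix σ hσ]⟩

/-- the whole Galois orbit of an element of `torsO m` is fixed by the absolute Galois group of a
finite extension. -/
theorem exists_orbit_level {m : ℕ} (hm : m ≠ 0) {w : O ⊗[ℤ] JZero N} (hw : w ∈ torsO O N m) :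
    ∃ L : IntermediateField ℚ Qbar, FiniteDimensional ℚ L ∧
      ∀ σ : GQ, (∀ z ∈ L, σ z = z) → ∀ h : GQ, galO O N σ (galO O N h w) = galO O N h w := by
  obtain ⟨L0, hL0fin, hL0⟩ := exists_level hm hw
  haveI := hL0fin
  haveI : IsAlgClosure ℚ Qbar := AlgebraicClosure.instIsAlgClosure ℚ
  haveI : Normal ℚ Qbar := inferInstance
  have hLn_le : L0 ≤ IntermediateField.normalClosure ℚ L0 Qbar :=
    IntermediateField.le_normalClosure L0
  have hnormal : Normal ℚ (IntermediateField.normalClosure ℚ L0 Qbar) :=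
    normalClosure.normal ℚ L0 Qbar
  refine ⟨IntermediateField.normalClosure ℚ L0 Qbar,
    normalClosure.is_finiteDimensional ℚ L0 Qbar, fun σ hσ h => ?_⟩
  have hδ : ∀ z ∈ L0, (h⁻¹ * σ * h) z = z := by
    intro z hz
    have hτz : h z ∈ IntermediateField.normalClosure ℚ L0 Qbar :=
      (IntermediateField.normal_iff_forall_map_le'.mp hnormal h) ⟨z, hLn_le hz, rfl⟩
    rw [AlgEquiv.mul_apply, AlgEquiv.mul_apply, hσ _ hτz]
    exact h.symm_apply_apply z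
  have h1 := hL0 (h⁻¹ * σ * h) hδ
  have h2 : σ * h = h * (h⁻¹ * σ * h) := by group
  calc galO O N σ (galO O N h w)
      = galO O N (σ * h) w := (LinearMap.congr_fun (map_mul (galO O N) σ h) w).symm
    _ = galO O N h (galO O N (h⁻¹ * σ * h) w) := by
        rw [h2]
        exact LinearMap.congr_fun (map_mul (galO O N) h (h⁻¹ * σ * h)) w
    _ = galO O N h w := by rw [h1]

end Module

/-! ### the relation on orbits -/

section Joint

variable {O : Type} [CommRing O] {N : ℕ} [NeZero N]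

/-- on the orbit of a Hecke eigenvector in `torsO m`, a Frobenius lift `σ` at `ℓ ∤ N m`
satisfies `σ + ℓ σ⁻¹ = χ(T_ℓ)`. -/
theorem frob_rel (S : Finset ℕ) (χ : CuspForm.heckeAlgebra N 2 (↑S : Set ℕ) →+* O)
    {m : ℕ} {w : O ⊗[ℤ] JZero N} (hw : w ∈ torsO O N m)
    (ℓ : ℕ) (hℓ : ℓ.Prime) (hℓN : ¬ ℓ ∣ N) (hℓS : ℓ ∉ (↑S : Set ℕ)) (hℓm : ¬ ℓ ∣ m)
    (hev : haveI : NeZero ℓ := ⟨hℓ.ne_zero⟩
      heckeT O N ℓ w = χ (CuspForm.heckeAlgebra.T hℓ hℓN hℓS) • w)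
    (A : ValuationSubring Qbar) (hA : A.LiesOverPrime ℓ) (σ : GQ) (hσ : A.IsFrobeniusAt σ ℓ)
    (h : GQ) :
    galO O N σ (galO O N h w) + (ℓ : O) • galO O N σ⁻¹ (galO O N h w)
      = χ (CuspForm.heckeAlgebra.T hℓ hℓN hℓS) • galO O N h w := by
  haveI : NeZero ℓ := ⟨hℓ.ne_zero⟩
  rw [← hecke_eq_frob ℓ hℓ hℓN A hA σ hσ m hℓm (galO_mem h hw), heckeO_galO, ← heckeT_eq, hev,
    map_smul]

/-- **the joint relation**: for every `g` there is one scalar `τ` with `g + δ(g) g⁻¹ = τ` on the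
orbits of `w n` and `w n'`. -/
theorem joint_rel (p : ℕ) (hp : p.Prime) (S : Finset ℕ) (hpS : p ∈ S)
    (hNS : ∀ q : ℕ, q.Prime → q ∣ N → q ∈ S)
    (χ : CuspForm.heckeAlgebra N 2 (↑S : Set ℕ) →+* O) (δ : GQ →* Oˣ)
    (hδcont : ∀ n : ℕ, ∃ L : IntermediateField ℚ Qbar, FiniteDimensional ℚ L ∧
      ∀ σ : GQ, (∀ x ∈ L, σ x = x) → (p : O) ^ n ∣ (δ σ : O) - 1)
    (hδfrob : ∀ ℓ : ℕ, ℓ.Prime → ℓ ≠ p → ∀ A : ValuationSubring Qbar, A.LiesOverPrime ℓ →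
      ∀ σ : GQ, A.IsFrobeniusAt σ ℓ → (δ σ : O) = (ℓ : O))
    (w : ℕ → O ⊗[ℤ] JZero N) (hw : ∀ n, w n ∈ torsO O N (p ^ n))
    (hev : ∀ (n : ℕ) (ℓ : ℕ) (hℓ : ℓ.Prime) (hℓN : ¬ ℓ ∣ N) (hℓS : ℓ ∉ (↑S : Set ℕ)),
      haveI : NeZero ℓ := ⟨hℓ.ne_zero⟩
      heckeT O N ℓ (w n) = χ (CuspForm.heckeAlgebra.T hℓ hℓN hℓS) • w n)
    (n n' : ℕ) (g : GQ) :
    ∃ τ : O,
      (∀ h : GQ, galO O N g (galO O N h (w n)) + (δ g : O) • galO O N g⁻¹ (galO O N h (w n))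
        = τ • galO O N h (w n)) ∧
      (∀ h : GQ, galO O N g (galO O N h (w n')) + (δ g : O) • galO O N g⁻¹ (galO O N h (w n'))
        = τ • galO O N h (w n')) := by
  classical
  have hpn : ∀ k : ℕ, p ^ k ≠ 0 := fun k => pow_ne_zero k hp.ne_zero
  obtain ⟨L₁, hL₁fin, hL₁⟩ := exists_orbit_level (hpn n) (hw n)
  obtain ⟨L₂, hL₂fin, hL₂⟩ := exists_orbit_level (hpn n') (hw n')
  obtain ⟨L₃, hL₃fin, hL₃⟩ := hδcont (max n n')
  haveI := hL₁fin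
  haveI := hL₂fin
  haveI := hL₃fin
  obtain ⟨ℓ, hℓ, hℓS, A, φ, hA, hφ, j, hj⟩ :=
    FrobDensity.frobDensity (L₁ ⊔ L₂ ⊔ L₃) inferInstance g S
  have hℓN : ¬ ℓ ∣ N := fun hd => hℓS (hNS ℓ hℓ hd)
  have hℓp : ℓ ≠ p := fun h => hℓS (h ▸ hpS)
  have hℓS' : ℓ ∉ (↑S : Set ℕ) := fun h => hℓS (Finset.mem_coe.mp h)
  have hℓpk : ∀ k : ℕ, ¬ ℓ ∣ p ^ k := fun k hd =>
    hℓp ((Nat.prime_dvd_prime_iff_eq hℓ hp).mp (hℓ.dvd_of_dvd_pow hd))
  -- the stable set: the union of the two orbits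
  let Y : Set (O ⊗[ℤ] JZero N) :=
    {y | (∃ h : GQ, y = galO O N h (w n)) ∨ (∃ h : GQ, y = galO O N h (w n'))}
  have hYmul : ∀ (γ : GQ), ∀ y ∈ Y, galO O N γ y ∈ Y := by
    rintro γ y (⟨h, rfl⟩ | ⟨h, rfl⟩)
    · exact Or.inl ⟨γ * h, (LinearMap.congr_fun (map_mul (galO O N) γ h) (w n)).symm⟩
    · exact Or.inr ⟨γ * h, (LinearMap.congr_fun (map_mul (galO O N) γ h) (w n')).symm⟩
  have hYrel : ∀ y ∈ Y, galO O N φ y + (ℓ : O) • galO O N φ⁻¹ y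
      = χ (CuspForm.heckeAlgebra.T hℓ hℓN hℓS') • y := by
    rintro y (⟨h, rfl⟩ | ⟨h, rfl⟩)
    · exact frob_rel S χ (hw n) ℓ hℓ hℓN hℓS' (hℓpk n) (hev n ℓ hℓ hℓN hℓS') A hA φ hφ h
    · exact frob_rel S χ (hw n') ℓ hℓ hℓN hℓS' (hℓpk n') (hev n' ℓ hℓ hℓN hℓS') A hA φ hφ h
  obtain ⟨s, hs⟩ := lucas (galO O N) φ Y (hYmul φ) (hYmul φ⁻¹) _ _ hYrel j
  -- `σ₀ := (φ ^ j)⁻¹ * g` fixes the level
  obtain ⟨σ₀, hσ₀⟩ : ∃ σ₀ : GQ, σ₀ = (φ ^ j)⁻¹ * g := ⟨_, rfl⟩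
  have hσ₀fix : ∀ x ∈ L₁ ⊔ L₂ ⊔ L₃, σ₀ x = x := by
    intro x hx
    rw [hσ₀, AlgEquiv.mul_apply, hj x hx]
    exact (φ ^ j).symm_apply_apply x
  have hg : g = φ ^ j * σ₀ := by rw [hσ₀, mul_inv_cancel_left]
  have hginv : g⁻¹ = σ₀⁻¹ * (φ ^ j)⁻¹ := by rw [hg, mul_inv_rev]
  have hσ₀Y : ∀ y ∈ Y, galO O N σ₀ y = y := by
    rintro y (⟨h, rfl⟩ | ⟨h, rfl⟩)
    · exact hL₁ σ₀ (fun z hz => hσ₀fix z
        ((le_sup_left.trans le_sup_left : L₁ ≤ L₁ ⊔ L₂ ⊔ L₃) hz)) h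
    · exact hL₂ σ₀ (fun z hz => hσ₀fix z
        ((le_sup_right.trans le_sup_left : L₂ ≤ L₁ ⊔ L₂ ⊔ L₃) hz)) h
  have hσ₀Y' : ∀ y ∈ Y, galO O N σ₀⁻¹ y = y := by
    intro y hy
    have h2 : galO O N σ₀⁻¹ (galO O N σ₀ y) = y := by
      have := LinearMap.congr_fun (map_mul (galO O N) σ₀⁻¹ σ₀) y
      rw [inv_mul_cancel, map_one] at this
      exact this.symm
    rw [hσ₀Y y hy] at h2
    exact h2
  have hδσ₀ : (p : O) ^ (max n n') ∣ (δ σ₀ : O) - 1 :=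
    hL₃ σ₀ (fun z hz => hσ₀fix z ((le_sup_right : L₃ ≤ L₁ ⊔ L₂ ⊔ L₃) hz))
  have hδg : (δ g : O) = (ℓ : O) ^ j * (δ σ₀ : O) := by
    rw [hg, map_mul, map_pow, Units.val_mul, Units.val_pow_eq_pow_val,
      hδfrob ℓ hℓ hℓp A hA φ hφ]
  have key : ∀ (k : ℕ), k ≤ max n n' → ∀ y : O ⊗[ℤ] JZero N, y ∈ Y → y ∈ torsO O N (p ^ k) →
      galO O N g y + (δ g : O) • galO O N g⁻¹ y = s • y := by
    intro k hk y hyY hyT
    have h1 : galO O N g y = galO O N (φ ^ j) y := by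
      rw [hg, map_mul]
      show galO O N (φ ^ j) (galO O N σ₀ y) = _
      rw [hσ₀Y y hyY]
    have h2 : galO O N g⁻¹ y = galO O N (φ ^ j)⁻¹ y := by
      rw [hginv, map_mul]
      exact hσ₀Y' _ (hYmul _ y hyY)
    obtain ⟨u, hu⟩ := hδσ₀
    have hkill : (p : O) ^ (max n n') • galO O N (φ ^ j)⁻¹ y = 0 := by
      have h3 := natCast_smul_eq_zero (galO_mem (φ ^ j)⁻¹ hyT)
      have h4 : (p : O) ^ (max n n') = (p : O) ^ (max n n' - k) * ((p ^ k : ℕ) : O) := by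
        rw [Nat.cast_pow, ← pow_add, Nat.sub_add_cancel hk]
      rw [h4, mul_smul, h3, smul_zero]
    have hz : (δ σ₀ : O) • galO O N (φ ^ j)⁻¹ y = galO O N (φ ^ j)⁻¹ y := by
      have h5 : (δ σ₀ : O) • galO O N (φ ^ j)⁻¹ y - galO O N (φ ^ j)⁻¹ y
          = ((δ σ₀ : O) - 1) • galO O N (φ ^ j)⁻¹ y := by rw [sub_smul, one_smul]
      rw [hu, mul_comm, mul_smul, hkill, smul_zero] at h5
      exact sub_eq_zero.mp h5
    rw [h1, h2, hδg, mul_smul, hz]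
    exact hs y hyY
  refine ⟨s, fun h => ?_, fun h => ?_⟩
  · exact key n (le_max_left n n') _ (Or.inl ⟨h, rfl⟩) (galO_mem h (hw n))
  · exact key n' (le_max_right n n') _ (Or.inr ⟨h, rfl⟩) (galO_mem h (hw n'))

end Joint

end Fermat.Agent.S30.PCGeom
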