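import Fermat.Agent.S30_Defs
import Fermat.Agent.S30_CycDefs
import Fermat.Agent.S30_PCAbs
import Fermat.Agent.S30_PCGeom

/-!
# S30 (WP-C): the pseudo-character of an eigensystem

`pc_of : EVStatement → CycStatement → PCStatement`: from the eigenvectors `w n` of exact order
`p ^ n` in `𝒪 ⊗ J₀(N)[p ^ n]` and the `p`-adic cyclotomic character `δ`, the scalars by which
`g + δ(g) g⁻¹` acts on the Galois orbits of the `w n` converge to a pseudo-character `t` with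
`t(Frob_ℓ) = χ(T_ℓ)`.
-/

set_option autoImplicit false
set_option linter.style.haveILetI false

noncomputable section

open ModularCurve AlgebraicCurve
open scoped TensorProduct

namespace Fermat.Agent.S30.PC

local notation "Qbar" => AlgebraicClosure ℚ
local notation "GQ" => (AlgebraicClosure ℚ ≃ₐ[ℚ] AlgebraicClosure ℚ)

open Fermat.Agent.S30 Fermat.Agent.S30.PCGeom

/-- `p ^ n ∣ x` implies `x ∈ 𝔪 ^ n` when `p ∈ 𝔪`. -/
theorem mem_pow_of_dvd {O : Type} [CommRing O] (I : Ideal O) (π : O) (hπ : π ∈ I) (n : ℕ)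
    (x : O) (h : π ^ n ∣ x) : x ∈ I ^ n := by
  obtain ⟨e, rfl⟩ := h
  exact Ideal.mul_mem_right _ _ (Ideal.pow_mem_pow hπ n)

/-- **(PC) from (EV) and (CYC)**. -/
theorem pc_of (hEV : EVStatement) (hCyc : Fermat.Agent.S30.Cyc.CycStatement) : PCStatement := by
  intro p hp N _ S hpS hNS O _ _ _ _ _ hpO χ
  obtain ⟨δ, c, hcc, hδc, hδcont, hδfrob, hδinert⟩ := hCyc p O hpO
  have hEV' := fun n : ℕ => hEV p N S O χ n
  choose r a x hx hexact0 hev0 using hEV'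
  have hpprime : p.Prime := hp.out
  have hpn : ∀ k : ℕ, p ^ k ≠ 0 := fun k => pow_ne_zero k hpprime.ne_zero
  let w : ℕ → O ⊗[ℤ] JZero N := fun n => ∑ i, a n i ⊗ₜ[ℤ] x n i
  have hw : ∀ n, w n ∈ torsO O N (p ^ n) := fun n => sum_mem_torsO (a n) (x n) (hx n)
  have hπ0 : (p : O) ≠ 0 := Nat.cast_ne_zero.mpr hpprime.ne_zero
  have hexact : ∀ (n : ℕ) (c : O), c • w n = 0 → (p : O) ^ n ∣ c :=
    fun n c hc => hexact0 n c hc
  have hkill : ∀ n : ℕ, (p : O) ^ n • w n = 0 := by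
    intro n
    have h := natCast_smul_eq_zero (hw n)
    rwa [Nat.cast_pow] at h
  have hev : ∀ (n : ℕ) (ℓ : ℕ) (hℓ : ℓ.Prime) (hℓN : ¬ ℓ ∣ N) (hℓS : ℓ ∉ (↑S : Set ℕ)),
      haveI : NeZero ℓ := ⟨hℓ.ne_zero⟩
      heckeT O N ℓ (w n) = χ (CuspForm.heckeAlgebra.T hℓ hℓN hℓS) • w n :=
    fun n ℓ hℓ hℓN hℓS => hev0 n ℓ hℓ hℓN hℓS
  have hrel := joint_rel p hpprime S hpS hNS χ δ hδcont hδfrob w hw hev
  obtain ⟨t, ht⟩ := PCAbs.exists_limit (p : O) hpO hπ0 (galO O N) δ w hexact hkill hrel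
  refine ⟨t, δ, c, ⟨?_, ?_, ?_, hcc, hδc, ?_, ?_, ?_⟩, ?_, ?_⟩
  · exact PCAbs.pc_add (p : O) hpO hπ0 (galO O N) δ w hexact t ht
  · exact PCAbs.pc_one (p : O) hpO hπ0 (galO O N) δ w hexact t ht
  · exact PCAbs.pc_comm (p : O) hpO hπ0 (galO O N) δ w hexact t ht
  · exact PCAbs.pc_c (p : O) hpO hπ0 (galO O N) δ w hexact t ht c hcc hδc
  · -- continuity of `t`
    intro n
    obtain ⟨L₁, hL₁fin, hL₁⟩ := exists_orbit_level (hpn n) (hw n)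
    obtain ⟨L₂, hL₂fin, hL₂⟩ := hδcont n
    haveI := hL₁fin
    haveI := hL₂fin
    refine ⟨L₁ ⊔ L₂, inferInstance, fun σ hσ g => ?_⟩
    have h1 : ∀ z ∈ L₁, σ z = z := fun z hz => hσ z ((le_sup_left : L₁ ≤ L₁ ⊔ L₂) hz)
    have h2 : ∀ z ∈ L₂, σ z = z := fun z hz => hσ z ((le_sup_right : L₂ ≤ L₁ ⊔ L₂) hz)
    exact mem_pow_of_dvd _ (p : O) hpO n _
      (PCAbs.pc_inv_mod (p : O) (galO O N) δ w hexact hkill t ht n σ (hL₁ σ h1) (hL₂ σ h2) g)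
  · -- continuity of `δ`
    intro n
    obtain ⟨L, hLfin, hL⟩ := hδcont n
    exact ⟨L, hLfin, fun σ hσ => mem_pow_of_dvd _ (p : O) hpO n _ (hL σ hσ)⟩
  · -- the Frobenius values
    intro ℓ hℓ hℓN hℓS A hA σ hσ
    have hℓp : ℓ ≠ p := fun h => hℓS (Finset.mem_coe.mpr (h ▸ hpS))
    have hℓpk : ∀ k : ℕ, ¬ ℓ ∣ p ^ k := fun k hd =>
      hℓp ((Nat.prime_dvd_prime_iff_eq hℓ hpprime).mp (hℓ.dvd_of_dvd_pow hd))
    have hδσ : (δ σ : O) = (ℓ : O) := hδfrob ℓ hℓ hℓp A hA σ hσ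
    refine ⟨?_, hδσ⟩
    exact PCAbs.pc_frob (p : O) hpO hπ0 (galO O N) δ w hexact t ht σ _ (ℓ : O) hδσ
      (fun n h => frob_rel S χ (hw n) ℓ hℓ hℓN hℓS (hℓpk n) (hev n ℓ hℓ hℓN hℓS) A hA σ hσ h)
  · -- the inertia groups
    intro q hq hqN hqp P hP σ hσ
    have hqpk : ∀ k : ℕ, ¬ q ∣ p ^ k := fun k hd =>
      hqp ((Nat.prime_dvd_prime_iff_eq hq hpprime).mp (hq.dvd_of_dvd_pow hd))
    have hδσ : δ σ = 1 := hδinert q hq hqp P hP σ hσ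
    refine ⟨?_, hδσ⟩
    exact PCAbs.pc_inv (p : O) hpO hπ0 (galO O N) δ w hexact hkill t ht σ
      (fun n h => galO_inertia q hq hqN P hP σ hσ (p ^ n) (hqpk n) (galO_mem h (hw n))) hδσ

end Fermat.Agent.S30.PC
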