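import Mathlib
import Fermat.Agent.S30_Defs

/-!
# S30 (WP-E, part 1): a bounded matrix representation over the fraction field of a discrete
valuation ring stabilises a lattice

Let `O` be a discrete valuation ring with fraction field `K`, and `ρ : G →* M₂(K)` a
representation all of whose matrices have entries in `D⁻¹ O` for a fixed `D ≠ 0`.  The `O`-span
`lat O ρ` of the columns of all the `ρ g` is a `ρ`-stable lattice of `K²` (free of rank two), and the
characteristic polynomial of `ρ g` on it is `X² - t X + δ` when the trace and the determinant of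
the matrix `ρ g` are (the images of) `t` and `δ`.  For `G = G_ℚ`, if the entries of `ρ σ - 1` tend
to zero (for `σ` fixing larger and larger number fields), the representation on the lattice is
adically continuous; this gives a `GaloisRepAdic O` (`exists_galoisRepAdic`).
-/

set_option autoImplicit false

noncomputable section

open Polynomial Module

namespace Fermat.Agent.S30.RepLattice

local notation "Qbar" => AlgebraicClosure ℚ
local notation "GQ" => (AlgebraicClosure ℚ ≃ₐ[ℚ] AlgebraicClosure ℚ)

section Lattice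

variable {G : Type} [Group G] {O : Type} [CommRing O] [IsDomain O] [IsDiscreteValuationRing O]
  {K : Type} [Field K] [Algebra O K] [IsFractionRing O K]
  (ρ : G →* Matrix (Fin 2) (Fin 2) K)

variable (O)

/-- the `O`-lattice spanned by the columns of all the `ρ g`. -/
def lat : Submodule O (Fin 2 → K) :=
  Submodule.span O (Set.range fun x : G × Fin 2 => (ρ x.1).mulVec (Pi.single x.2 1))

omit [IsDomain O] [IsDiscreteValuationRing O] [IsFractionRing O K] in
theorem single_mem_lat (i : Fin 2) : (Pi.single i 1 : Fin 2 → K) ∈ lat O ρ := by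
  refine Submodule.subset_span ⟨(1, i), ?_⟩
  show (ρ 1).mulVec (Pi.single i 1) = Pi.single i 1
  rw [map_one, Matrix.one_mulVec]

omit [IsDomain O] [IsDiscreteValuationRing O] [IsFractionRing O K] in
theorem mulVec_mem_lat (g : G) {v : Fin 2 → K} (hv : v ∈ lat O ρ) :
    (ρ g).mulVec v ∈ lat O ρ := by
  induction hv using Submodule.span_induction with
  | mem x hx =>
    obtain ⟨⟨h, i⟩, rfl⟩ := hx
    refine Submodule.subset_span ⟨(g * h, i), ?_⟩
    show (ρ (g * h)).mulVec (Pi.single i 1) = (ρ g).mulVec ((ρ h).mulVec (Pi.single i 1))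
    rw [map_mul, Matrix.mulVec_mulVec]
  | zero => simp
  | add x y _ _ hx hy => rw [Matrix.mulVec_add]; exact add_mem hx hy
  | smul a x _ hx =>
    rw [Matrix.mulVec_smul]
    exact Submodule.smul_mem _ _ hx

/-- the `O`-linear map `f ↦ c • (f i)ᵢ` from `O²` to `K²`. -/
def scaleMap (c : K) : (Fin 2 → O) →ₗ[O] (Fin 2 → K) where
  toFun f := fun i => c * algebraMap O K (f i)
  map_add' f g := by
    funext i
    simp [mul_add]
  map_smul' a f := by
    funext i
    simp [Algebra.smul_def]
    ring

omit [IsDomain O] [IsDiscreteValuationRing O] in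
theorem scaleMap_injective {c : K} (hc : c ≠ 0) : Function.Injective (scaleMap O c) := by
  intro f g hfg
  funext i
  have h := congrFun hfg i
  simp only [scaleMap, LinearMap.coe_mk, AddHom.coe_mk] at h
  exact IsFractionRing.injective O K (mul_left_cancel₀ hc h)

omit [IsDomain O] [IsDiscreteValuationRing O] [IsFractionRing O K] in
theorem range_scaleMap_one_le : LinearMap.range (scaleMap O (1 : K)) ≤ lat O ρ := by
  rintro _ ⟨f, rfl⟩
  have h : scaleMap O (1 : K) f = ∑ i, f i • (Pi.single i 1 : Fin 2 → K) := by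
    funext j
    simp [scaleMap, Pi.single_apply, Algebra.smul_def]
  rw [h]
  exact Submodule.sum_mem _ fun i _ => Submodule.smul_mem _ _ (single_mem_lat O ρ i)

variable {O ρ}

omit [IsDomain O] [IsDiscreteValuationRing O] in
theorem lat_le_range_scaleMap {D : O} (hD : D ≠ 0)
    (hbd : ∀ g i j, ∃ r : O, algebraMap O K D * ρ g i j = algebraMap O K r) :
    lat O ρ ≤ LinearMap.range (scaleMap O (algebraMap O K D)⁻¹) := by
  have hD' : algebraMap O K D ≠ 0 := by
    rwa [Ne, map_eq_zero_iff _ (IsFractionRing.injective O K)]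
  refine Submodule.span_le.mpr ?_
  rintro _ ⟨⟨g, j⟩, rfl⟩
  choose r hr using fun i => hbd g i j
  refine ⟨r, ?_⟩
  funext i
  simp only [scaleMap, LinearMap.coe_mk, AddHom.coe_mk, Matrix.mulVec_single_one, Matrix.col_apply]
  rw [← hr i, inv_mul_cancel_left₀ hD']

theorem isLattice_lat {D : O} (hD : D ≠ 0)
    (hbd : ∀ g i j, ∃ r : O, algebraMap O K D * ρ g i j = algebraMap O K r) :
    Submodule.IsLattice K (lat O ρ) where
  fg := by
    have h1 := lat_le_range_scaleMap hD hbd
    have : IsNoetherian O (LinearMap.range (scaleMap O (algebraMap O K D)⁻¹)) :=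
      isNoetherian_of_isNoetherianRing_of_finite _ _
    have : IsNoetherian O (lat O ρ) := isNoetherian_of_le h1
    rw [← Module.Finite.iff_fg]
    infer_instance
  span_eq_top := by
    rw [eq_top_iff]
    intro v _
    have h : v = ∑ i, v i • (Pi.single i 1 : Fin 2 → K) := by
      funext j
      simp [Pi.single_apply]
    rw [h]
    exact Submodule.sum_mem _ fun i _ =>
      Submodule.smul_mem _ _ (Submodule.subset_span (single_mem_lat O ρ i))

variable (O ρ)

/-- the action of `ρ g` on the lattice. -/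
def latEnd (g : G) : Module.End O (lat O ρ) :=
  LinearMap.restrict ((Matrix.mulVecLin (ρ g)).restrictScalars O)
    (fun _ hv => mulVec_mem_lat O ρ g hv)

omit [IsDomain O] [IsDiscreteValuationRing O] [IsFractionRing O K] in
theorem latEnd_apply (g : G) (v : lat O ρ) :
    ((latEnd O ρ g v : lat O ρ) : Fin 2 → K) = (ρ g).mulVec v := by
  show ((Matrix.mulVecLin (ρ g)).restrictScalars O) (v : Fin 2 → K) = _
  rw [LinearMap.restrictScalars_apply, Matrix.mulVecLin_apply]

/-- the representation on the lattice. -/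
def latRep : G →* Module.End O (lat O ρ) where
  toFun := latEnd O ρ
  map_one' := LinearMap.ext fun v => Subtype.ext (by
    rw [latEnd_apply, map_one, Matrix.one_mulVec]; rfl)
  map_mul' g h := LinearMap.ext fun v => Subtype.ext (by
    rw [latEnd_apply, map_mul, Module.End.mul_apply, latEnd_apply, latEnd_apply,
      Matrix.mulVec_mulVec])

omit [IsDomain O] [IsDiscreteValuationRing O] [IsFractionRing O K] in
theorem latRep_apply (g : G) (v : lat O ρ) :
    ((latRep O ρ g v : lat O ρ) : Fin 2 → K) = (ρ g).mulVec v :=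
  latEnd_apply O ρ g v

omit [IsDomain O] [IsDiscreteValuationRing O] [IsFractionRing O K] in
theorem latRep_eq_one {g : G} (hg : ρ g = 1) : latRep O ρ g = 1 :=
  LinearMap.ext fun v => Subtype.ext (by
    rw [latRep_apply, hg, Matrix.one_mulVec]; rfl)

omit [IsDiscreteValuationRing O] in
theorem finrank_lat [IsPrincipalIdealRing O] [Submodule.IsLattice K (lat O ρ)] :
    Module.finrank O (lat O ρ) = 2 := by
  rw [Submodule.IsLattice.finrank_of_pi K]
  simp

variable {O ρ}

theorem charpoly_latRep [Submodule.IsLattice K (lat O ρ)] (g : G) (t d : O)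
    (htr : (ρ g).trace = algebraMap O K t) (hdet : (ρ g).det = algebraMap O K d) :
    LinearMap.charpoly (latRep O ρ g) = X ^ 2 - C t * X + C d := by
  classical
  have hfr : Module.finrank O (lat O ρ) = 2 := finrank_lat O ρ
  let b : Basis (Fin 2) O (lat O ρ) := Module.finBasisOfFinrankEq O (lat O ρ) hfr
  let bK : Basis (Fin 2) K (Fin 2 → K) := b.extendOfIsLattice K
  have hbK : ∀ i, bK i = (b i : Fin 2 → K) := fun i => Basis.extendOfIsLattice_apply K b i
  have hmat : (LinearMap.toMatrix b b (latRep O ρ g)).map (algebraMap O K)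
      = LinearMap.toMatrix bK bK (Matrix.mulVecLin (ρ g)) := by
    ext i j
    rw [Matrix.map_apply, LinearMap.toMatrix_apply, LinearMap.toMatrix_apply]
    have h1 : Matrix.mulVecLin (ρ g) (bK j)
        = ∑ k, algebraMap O K (b.repr (latRep O ρ g (b j)) k) • bK k := by
      rw [hbK j, Matrix.mulVecLin_apply, ← latRep_apply]
      conv_lhs => rw [← b.sum_repr (latRep O ρ g (b j))]
      rw [Submodule.coe_sum]
      refine Finset.sum_congr rfl fun k _ => ?_
      rw [Submodule.coe_smul, hbK k, algebraMap_smul]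
    rw [h1, Basis.repr_sum_self]
  have hinj : Function.Injective (Polynomial.map (algebraMap O K)) :=
    Polynomial.map_injective _ (IsFractionRing.injective O K)
  apply hinj
  rw [← LinearMap.charpoly_toMatrix (latRep O ρ g) b, ← Matrix.charpoly_map, hmat,
    LinearMap.charpoly_toMatrix (Matrix.mulVecLin (ρ g)) bK,
    ← LinearMap.charpoly_toMatrix (Matrix.mulVecLin (ρ g)) (Pi.basisFun K (Fin 2)),
    LinearMap.toMatrix_eq_toMatrix', ← Matrix.toLin'_apply', LinearMap.toMatrix'_toLin',
    Matrix.charpoly_fin_two, htr, hdet]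
  simp

omit [IsFractionRing O K] [Group G] in
/-- in a discrete valuation ring, `m ^ N ⊆ E • m ^ n` for `N` large (`E ≠ 0`). -/
theorem exists_pow_le_mul {E : O} (hE : E ≠ 0) (n : ℕ) :
    ∃ N : ℕ, ∀ s ∈ IsLocalRing.maximalIdeal O ^ N,
      ∃ r ∈ IsLocalRing.maximalIdeal O ^ n, s = E * r := by
  obtain ⟨ϖ, hϖ⟩ := IsDiscreteValuationRing.exists_irreducible O
  obtain ⟨k, u, hu⟩ := IsDiscreteValuationRing.eq_unit_mul_pow_irreducible hE hϖ
  refine ⟨n + k, fun s hs => ?_⟩
  rw [hϖ.maximalIdeal_eq, Ideal.span_singleton_pow, Ideal.mem_span_singleton] at hs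
  obtain ⟨a, rfl⟩ := hs
  refine ⟨↑u⁻¹ * ϖ ^ n * a, ?_, ?_⟩
  · rw [hϖ.maximalIdeal_eq, Ideal.span_singleton_pow, Ideal.mem_span_singleton]
    exact ⟨↑u⁻¹ * a, by ring⟩
  · rw [hu]
    have h1 : (u : O) * ((u⁻¹ : Oˣ) : O) = 1 := Units.mul_inv u
    calc ϖ ^ (n + k) * a = (u * ((u⁻¹ : Oˣ) : O)) * (ϖ ^ (n + k) * a) := by rw [h1, one_mul]
      _ = ↑u * ϖ ^ k * (↑u⁻¹ * ϖ ^ n * a) := by ring

end Lattice

/-- **A bounded, continuous matrix representation of `G_ℚ` over the fraction field of a discrete
valuation ring gives a `GaloisRepAdic`** with the same characteristic polynomials. -/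
theorem exists_galoisRepAdic {O : Type} [CommRing O] [IsDomain O] [IsDiscreteValuationRing O]
    {K : Type} [Field K] [Algebra O K] [IsFractionRing O K]
    (t δ : GQ → O) (ρ : GQ →* Matrix (Fin 2) (Fin 2) K)
    (htr : ∀ g, (ρ g).trace = algebraMap O K (t g))
    (hdet : ∀ g, (ρ g).det = algebraMap O K (δ g))
    {D : O} (hD : D ≠ 0)
    (hbd : ∀ g i j, ∃ r : O, algebraMap O K D * ρ g i j = algebraMap O K r)
    (hcont : ∀ n : ℕ, ∃ L : IntermediateField ℚ Qbar, FiniteDimensional ℚ L ∧
      ∀ σ : GQ, (∀ x ∈ L, σ x = x) → ∀ i j, ∃ r ∈ IsLocalRing.maximalIdeal O ^ n,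
        algebraMap O K D * (ρ σ - 1) i j = algebraMap O K r) :
    ∃ ρ' : GaloisRepAdic O,
      (∀ σ : GQ, LinearMap.charpoly (ρ'.ρ σ) = X ^ 2 - C (t σ) * X + C (δ σ)) ∧
      (∀ σ : GQ, ρ σ = 1 → ρ'.ρ σ = 1) := by
  have := isLattice_lat hD hbd
  have hD' : algebraMap O K D ≠ 0 := by
    rwa [Ne, map_eq_zero_iff _ (IsFractionRing.injective O K)]
  refine ⟨{ V := lat O ρ, finrank_eq := finrank_lat O ρ, ρ := latRep O ρ, isAdicContinuous := ?_ },
    fun σ => charpoly_latRep σ _ _ (htr σ) (hdet σ), fun σ hσ => latRep_eq_one O ρ hσ⟩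
  intro n
  obtain ⟨N, hN⟩ := exists_pow_le_mul (mul_ne_zero hD hD) n
  obtain ⟨L, hL, hσL⟩ := hcont N
  refine ⟨L, hL, fun σ hσ v => ?_⟩
  obtain ⟨w, hw⟩ := lat_le_range_scaleMap hD hbd v.2
  choose r hr hr' using hσL σ hσ
  have hs : ∀ i, ∃ r' ∈ IsLocalRing.maximalIdeal O ^ n, ∑ j, r i j * w j = D * D * r' :=
    fun i => hN _ (Ideal.sum_mem _ fun j _ => Ideal.mul_mem_right _ _ (hr i j))
  choose r' hr'm hr'e using hs
  have key : latRep O ρ σ v - v
      = ∑ i, r' i • (⟨Pi.single i 1, single_mem_lat O ρ i⟩ : lat O ρ) := by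
    apply Subtype.ext
    rw [Submodule.coe_sub, latRep_apply, Submodule.coe_sum]
    funext i
    have hv : ∀ j, (v : Fin 2 → K) j = (algebraMap O K D)⁻¹ * algebraMap O K (w j) := by
      intro j
      rw [← hw]
      rfl
    have hρ : ∀ j, ρ σ i j = (if i = j then 1 else 0)
        + (algebraMap O K D)⁻¹ * algebraMap O K (r i j) := by
      intro j
      have h1 := hr' i j
      rw [Matrix.sub_apply, Matrix.one_apply] at h1
      rw [← h1, inv_mul_cancel_left₀ hD']
      ring
    have h2 : algebraMap O K (∑ j, r i j * w j) = algebraMap O K (D * D * r' i) := by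
      rw [hr'e i]
    rw [Fin.sum_univ_two, map_add, map_mul, map_mul, map_mul, map_mul] at h2
    have h3 : ((∑ k, r' k • (⟨Pi.single k 1, single_mem_lat O ρ k⟩ : lat O ρ) : lat O ρ)
        : Fin 2 → K) i = algebraMap O K (r' i) := by
      rw [Submodule.coe_sum, Finset.sum_apply, Fin.sum_univ_two]
      fin_cases i <;> simp [Algebra.smul_def]
    rw [Submodule.coe_sum] at h3
    rw [h3, Pi.sub_apply, Matrix.mulVec, dotProduct, Fin.sum_univ_two, hρ 0, hρ 1, hv 0, hv 1, hv i]
    have h4 : algebraMap O K (r' i) = (algebraMap O K D)⁻¹ * (algebraMap O K D)⁻¹ *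
        (algebraMap O K (r i 0) * algebraMap O K (w 0)
          + algebraMap O K (r i 1) * algebraMap O K (w 1)) := by
      rw [h2]
      field_simp
    rw [h4]
    fin_cases i <;> simp <;> ring
  rw [key]
  exact Submodule.sum_mem _ fun i _ => Submodule.smul_mem_smul (hr'm i) Submodule.mem_top

end Fermat.Agent.S30.RepLattice
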