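import Mathlib

/-!
# S30 (long shot): Wiles' construction for two-dimensional pseudo-characters

Let `G` be a group, `K` a field with `2 ≠ 0`, `δ : G →* Kˣ` a character and `t : G → K` a central
function with `t 1 = 2` and `t (g h) + δ(h) t (g h⁻¹) = t(g) t(h)`, and let `c ∈ G` with `c² = 1`,
`δ(c) = -1`, `t(c) = 0`.  Put

  `a(g) = (t(g) + t(c g)) / 2`, `d(g) = (t(g) - t(c g)) / 2`, `x(g, h) = a(g h) - a(g) a(h)`.

Then `g ↦ !![a g, x g h₀ / x g₀ h₀; x g₀ g, d g]` (if `x g₀ h₀ ≠ 0`), resp. `g ↦ diag(a g, d g)`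
(if `x = 0`), is a representation `G → GL₂(K)` with trace `t` and determinant `δ`
(`exists_rep`).

Proof: on the space of functions `φ : G → K` with `φ (h g) + δ(g) φ (h g⁻¹) = t(g) φ(h)` the right
translations `R_g` satisfy `R_g + δ(g) R_{g⁻¹} = t(g)`; with the idempotents `e = (1 + R_c)/2`,
`e' = (1 - R_c)/2` one gets `e R_g e = a(g) e`, `e' R_g e' = d(g) e'`, and all the identities
between `a`, `d`, `x` follow from the associativity of the composition of operators.
-/

set_option autoImplicit false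

noncomputable section

namespace Fermat.Agent.S30.Wiles

variable {G : Type*} [Group G] {K : Type*} [Field K]

/-- the upper left entry. -/
def aF (t : G → K) (c : G) (g : G) : K := (t g + t (c * g)) / 2

/-- the lower right entry. -/
def dF (t : G → K) (c : G) (g : G) : K := (t g - t (c * g)) / 2

/-- the product of the off-diagonal entries. -/
def xF (t : G → K) (c : G) (g h : G) : K := aF t c (g * h) - aF t c g * aF t c h

theorem aF_add_dF (t : G → K) (c : G) (h2 : (2 : K) ≠ 0) (g : G) :
    aF t c g + dF t c g = t g := by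
  unfold aF dF
  field_simp
  ring

/-! ### The abstract algebra -/

section Alg

variable {E : Type*} [Ring E] [Algebra K E]

/-- an algebra with a homomorphism from `G` in which the Cayley–Hamilton relations hold, and the
two idempotents attached to `c` are nonzero. -/
structure Model (ρ : G →* E) (t : G → K) (δ : G →* Kˣ) (c : G) : Prop where
  rel : ∀ g : G, ρ g + (δ g : K) • ρ g⁻¹ = t g • (1 : E)
  c_sq : c * c = 1
  det_c : δ c = -1
  two : (2 : K) ≠ 0
  ep : (1 : E) + ρ c ≠ 0
  em : (1 : E) - ρ c ≠ 0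

variable {ρ : G →* E} {t : G → K} {δ : G →* Kˣ} {c : G}

namespace Model

theorem cc (M : Model ρ t δ c) : ρ c * ρ c = 1 := by
  rw [← map_mul, M.c_sq, map_one]

theorem anti (M : Model ρ t δ c) (g : G) :
    ρ c * ρ g + ρ g * ρ c = t g • ρ c + t (c * g) • (1 : E) := by
  have h1 := M.rel (c * g)
  have hcinv : c⁻¹ = c := inv_eq_of_mul_eq_one_left M.c_sq
  have hδ : ((δ (c * g) : Kˣ) : K) = -(δ g : K) := by
    rw [map_mul, M.det_c]
    simp
  rw [map_mul ρ, mul_inv_rev, hcinv, map_mul ρ, hδ] at h1
  have h2 : (δ g : K) • ρ g⁻¹ = t g • (1 : E) - ρ g := eq_sub_of_add_eq' (M.rel g)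
  have h3 : (δ g : K) • (ρ g⁻¹ * ρ c) = t g • ρ c - ρ g * ρ c := by
    rw [← smul_mul_assoc, h2, sub_mul, smul_mul_assoc, one_mul]
  rw [neg_smul, h3] at h1
  rw [← h1]
  abel

theorem conj (M : Model ρ t δ c) (g : G) :
    ρ g + ρ c * ρ g * ρ c = t g • (1 : E) + t (c * g) • ρ c := by
  have h := congrArg (fun z => ρ c * z) (M.anti g)
  simp only [mul_add, ← mul_assoc, M.cc, one_mul, mul_smul_comm, mul_one] at h
  exact h

theorem sandwichP (M : Model ρ t δ c) (g : G) :
    ((1 : E) + ρ c) * ρ g * (1 + ρ c) = (t g + t (c * g)) • ((1 : E) + ρ c) := by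
  calc ((1 : E) + ρ c) * ρ g * (1 + ρ c)
      = (ρ g + ρ c * ρ g * ρ c) + (ρ c * ρ g + ρ g * ρ c) := by
        simp only [add_mul, mul_add, one_mul, mul_one]
        abel
    _ = (t g • (1 : E) + t (c * g) • ρ c) + (t g • ρ c + t (c * g) • (1 : E)) := by
        rw [M.conj, M.anti]
    _ = (t g + t (c * g)) • ((1 : E) + ρ c) := by
        simp only [add_smul, smul_add]
        abel

theorem sandwichM (M : Model ρ t δ c) (g : G) :
    ((1 : E) - ρ c) * ρ g * (1 - ρ c) = (t g - t (c * g)) • ((1 : E) - ρ c) := by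
  calc ((1 : E) - ρ c) * ρ g * (1 - ρ c)
      = (ρ g + ρ c * ρ g * ρ c) - (ρ c * ρ g + ρ g * ρ c) := by
        simp only [sub_mul, mul_sub, one_mul, mul_one]
        abel
    _ = (t g • (1 : E) + t (c * g) • ρ c) - (t g • ρ c + t (c * g) • (1 : E)) := by
        rw [M.conj, M.anti]
    _ = (t g - t (c * g)) • ((1 : E) - ρ c) := by
        simp only [sub_smul, smul_sub]
        abel

end Model

/-- the idempotent `(1 + ρ c) / 2`. -/
def eP (K : Type*) [Field K] {E : Type*} [Ring E] [Algebra K E] (ρ : G →* E) (c : G) : E :=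
  (2 : K)⁻¹ • ((1 : E) + ρ c)

/-- the idempotent `(1 - ρ c) / 2`. -/
def eM (K : Type*) [Field K] {E : Type*} [Ring E] [Algebra K E] (ρ : G →* E) (c : G) : E :=
  (2 : K)⁻¹ • ((1 : E) - ρ c)

namespace Model

theorem eP_add_eM (M : Model ρ t δ c) : eP K ρ c + eM K ρ c = 1 := by
  have h : ((1 : E) + ρ c) + (1 - ρ c) = (2 : K) • (1 : E) := by
    rw [two_smul]
    abel
  rw [eP, eM, ← smul_add, h, smul_smul, inv_mul_cancel₀ M.two, one_smul]

theorem eP_ne (M : Model ρ t δ c) : eP K ρ c ≠ 0 := by
  rw [eP]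
  exact smul_ne_zero (inv_ne_zero M.two) M.ep

theorem eM_ne (M : Model ρ t δ c) : eM K ρ c ≠ 0 := by
  rw [eM]
  exact smul_ne_zero (inv_ne_zero M.two) M.em

theorem eP_mul_eM (M : Model ρ t δ c) : eP K ρ c * eM K ρ c = 0 := by
  have h : ((1 : E) + ρ c) * (1 - ρ c) = 0 := by
    simp only [add_mul, mul_sub, one_mul, mul_one, M.cc]
    abel
  rw [eP, eM, smul_mul_assoc, mul_smul_comm, h, smul_zero, smul_zero]

theorem eM_mul_eP (M : Model ρ t δ c) : eM K ρ c * eP K ρ c = 0 := by
  have h : ((1 : E) - ρ c) * (1 + ρ c) = 0 := by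
    simp only [sub_mul, mul_add, one_mul, mul_one, M.cc]
    abel
  rw [eP, eM, smul_mul_assoc, mul_smul_comm, h, smul_zero, smul_zero]

theorem eP_mul_eP (M : Model ρ t δ c) : eP K ρ c * eP K ρ c = eP K ρ c := by
  have h := congrArg (fun z => eP K ρ c * z) M.eP_add_eM
  simp only [mul_add, M.eP_mul_eM, add_zero, mul_one] at h
  exact h

theorem eM_mul_eM (M : Model ρ t δ c) : eM K ρ c * eM K ρ c = eM K ρ c := by
  have h := congrArg (fun z => eM K ρ c * z) M.eP_add_eM
  simp only [mul_add, M.eM_mul_eP, zero_add, mul_one] at h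
  exact h

theorem eP_rho_eP (M : Model ρ t δ c) (g : G) :
    eP K ρ c * ρ g * eP K ρ c = aF t c g • eP K ρ c := by
  rw [eP, smul_mul_assoc, smul_mul_assoc, mul_smul_comm, M.sandwichP, smul_smul, smul_smul,
    smul_smul]
  congr 1
  unfold aF
  ring

theorem eM_rho_eM (M : Model ρ t δ c) (g : G) :
    eM K ρ c * ρ g * eM K ρ c = dF t c g • eM K ρ c := by
  rw [eM, smul_mul_assoc, smul_mul_assoc, mul_smul_comm, M.sandwichM, smul_smul, smul_smul,
    smul_smul]
  congr 1
  unfold dF
  ring

/-- insertion of `1 = e + e'`. -/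
theorem ins (M : Model ρ t δ c) (u v : E) :
    u * v = u * eP K ρ c * v + u * eM K ρ c * v := by
  rw [← add_mul, ← mul_add, M.eP_add_eM, mul_one]

end Model

/-- the failure of multiplicativity of a function. -/
def defect (a : G → K) (g h : G) : K := a (g * h) - a g * a h

theorem xF_eq_defect (t : G → K) (c : G) (g h : G) : xF t c g h = defect (aF t c) g h := rfl

/-- a pair of complementary nonzero idempotents `e`, `e'` such that `e ρ(g) e` and `e' ρ(g) e'`
are scalar multiples of `e` and `e'`. -/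
structure Peirce (ρ : G →* E) (e e' : E) (a d : G → K) : Prop where
  add : e + e' = 1
  ee' : e * e' = 0
  e'e : e' * e = 0
  ne : e ≠ 0
  ne' : e' ≠ 0
  ha : ∀ g : G, e * ρ g * e = a g • e
  hd : ∀ g : G, e' * ρ g * e' = d g • e'

namespace Peirce

variable {e e' : E} {a d : G → K}

theorem ee (P : Peirce ρ e e' a d) : e * e = e := by
  have h := congrArg (fun z => e * z) P.add
  simp only [mul_add, P.ee', add_zero, mul_one] at h
  exact h

theorem e'e' (P : Peirce ρ e e' a d) : e' * e' = e' := by
  have h := congrArg (fun z => e' * z) P.add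
  simp only [mul_add, P.e'e, zero_add, mul_one] at h
  exact h

theorem ee_mul (P : Peirce ρ e e' a d) (z : E) : e * (e * z) = e * z := by
  rw [← mul_assoc, P.ee]

theorem e'e'_mul (P : Peirce ρ e e' a d) (z : E) : e' * (e' * z) = e' * z := by
  rw [← mul_assoc, P.e'e']

theorem ins (P : Peirce ρ e e' a d) (u v : E) : u * v = u * e * v + u * e' * v := by
  rw [← add_mul, ← mul_add, P.add, mul_one]

theorem inj (P : Peirce ρ e e' a d) {r s : K} (h : r • e = s • e) : r = s :=
  smul_left_injective K P.ne h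

theorem inj' (P : Peirce ρ e e' a d) {r s : K} (h : r • e' = s • e') : r = s :=
  smul_left_injective K P.ne' h

theorem a_one (P : Peirce ρ e e' a d) : a 1 = 1 := by
  have h := P.ha 1
  rw [map_one, mul_one, P.ee] at h
  refine (P.inj ?_).symm
  rw [one_smul]
  exact h

theorem d_one (P : Peirce ρ e e' a d) : d 1 = 1 := by
  have h := P.hd 1
  rw [map_one, mul_one, P.e'e'] at h
  refine (P.inj' ?_).symm
  rw [one_smul]
  exact h

theorem aa (P : Peirce ρ e e' a d) (g h : G) :
    e * ρ g * e * ρ h * e = (a g * a h) • e := by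
  calc e * ρ g * e * ρ h * e = (e * ρ g * e) * (e * ρ h * e) := by
        simp only [mul_assoc, P.ee_mul]
    _ = (a g * a h) • e := by
        rw [P.ha, P.ha, smul_mul_smul_comm, P.ee]

theorem dd (P : Peirce ρ e e' a d) (g h : G) :
    e' * ρ g * e' * ρ h * e' = (d g * d h) • e' := by
  calc e' * ρ g * e' * ρ h * e' = (e' * ρ g * e') * (e' * ρ h * e') := by
        simp only [mul_assoc, P.e'e'_mul]
    _ = (d g * d h) • e' := by
        rw [P.hd, P.hd, smul_mul_smul_comm, P.e'e']

theorem x_eq (P : Peirce ρ e e' a d) (g h : G) :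
    e * ρ g * e' * ρ h * e = defect a g h • e := by
  have h1 := P.ha (g * h)
  have h3 : e * ρ (g * h) * e = e * ρ g * e * ρ h * e + e * ρ g * e' * ρ h * e := by
    have := P.ins (e * ρ g) (ρ h * e)
    rw [map_mul]
    simp only [mul_assoc] at this ⊢
    exact this
  rw [defect, sub_smul, ← h1, ← P.aa, h3, add_sub_cancel_left]

theorem y_eq (P : Peirce ρ e e' a d) (g h : G) :
    e' * ρ g * e * ρ h * e' = defect d g h • e' := by
  have h1 := P.hd (g * h)
  have h3 : e' * ρ (g * h) * e' = e' * ρ g * e * ρ h * e' + e' * ρ g * e' * ρ h * e' := by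
    have := P.ins (e' * ρ g) (ρ h * e')
    rw [map_mul]
    simp only [mul_assoc] at this ⊢
    exact this
  rw [defect, sub_smul, ← h1, ← P.dd, h3, add_sub_cancel_right]

/-- the product of the two off-diagonal blocks, in both orders. -/
theorem xy (P : Peirce ρ e e' a d) (g h : G) : defect d h g = defect a g h := by
  -- `U = e ρ(g) e'`, `W = e' ρ(h) e`
  have hUW : (e * ρ g * e') * (e' * ρ h * e) = defect a g h • e := by
    rw [← P.x_eq]
    simp only [mul_assoc, P.e'e'_mul]
  have hWU : (e' * ρ h * e) * (e * ρ g * e') = defect d h g • e' := by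
    rw [← P.y_eq]
    simp only [mul_assoc, P.ee_mul]
  have hUe' : (e * ρ g * e') * e' = e * ρ g * e' := by rw [mul_assoc, P.e'e']
  have heU : e * (e * ρ g * e') = e * ρ g * e' := by simp only [mul_assoc, P.ee_mul]
  have h1 : (e * ρ g * e') * (e' * ρ h * e) * (e * ρ g * e') = defect a g h • (e * ρ g * e') := by
    rw [hUW, smul_mul_assoc, heU]
  have h2 : (e * ρ g * e') * (e' * ρ h * e) * (e * ρ g * e') = defect d h g • (e * ρ g * e') := by
    rw [mul_assoc, hWU, mul_smul_comm, hUe']
  by_cases hU : e * ρ g * e' = 0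
  · have ha0 : defect a g h = 0 := by
      have : defect a g h • e = 0 := by rw [← hUW, hU, zero_mul]
      exact (smul_eq_zero.mp this).resolve_right P.ne
    have hd0 : defect d h g = 0 := by
      have : defect d h g • e' = 0 := by rw [← hWU, hU, mul_zero]
      exact (smul_eq_zero.mp this).resolve_right P.ne'
    rw [ha0, hd0]
  · exact smul_left_injective K hU (h2.symm.trans h1)

theorem rank_one (P : Peirce ρ e e' a d) (g h g' h' : G) :
    defect a g h * defect a g' h' = defect a g h' * defect a g' h := by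
  have hUW : ∀ g h : G, (e * ρ g * e') * (e' * ρ h * e) = defect a g h • e := by
    intro g h
    rw [← P.x_eq]
    simp only [mul_assoc, P.e'e'_mul]
  have hWU : ∀ g h : G, (e' * ρ h * e) * (e * ρ g * e') = defect a g h • e' := by
    intro g h
    rw [← P.xy, ← P.y_eq]
    simp only [mul_assoc, P.ee_mul]
  have hUe' : ∀ g : G, (e * ρ g * e') * e' = e * ρ g * e' := by
    intro g
    rw [mul_assoc, P.e'e']
  have h1 : ((e * ρ g * e') * (e' * ρ h * e)) * ((e * ρ g' * e') * (e' * ρ h' * e))
      = (defect a g h * defect a g' h') • e := by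
    rw [hUW, hUW, smul_mul_smul_comm, P.ee]
  have h2 : ((e * ρ g * e') * (e' * ρ h * e)) * ((e * ρ g' * e') * (e' * ρ h' * e))
      = (defect a g h' * defect a g' h) • e := by
    calc ((e * ρ g * e') * (e' * ρ h * e)) * ((e * ρ g' * e') * (e' * ρ h' * e))
        = (e * ρ g * e') * (((e' * ρ h * e) * (e * ρ g' * e')) * (e' * ρ h' * e)) := by
          simp only [mul_assoc]
      _ = (e * ρ g * e') * ((defect a g' h • e') * (e' * ρ h' * e)) := by rw [hWU]
      _ = defect a g' h • (((e * ρ g * e') * e') * (e' * ρ h' * e)) := by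
          rw [smul_mul_assoc, mul_smul_comm]
          simp only [mul_assoc]
      _ = defect a g' h • (defect a g h' • e) := by rw [hUe', hUW]
      _ = (defect a g h' * defect a g' h) • e := by rw [smul_smul, mul_comm]
  exact P.inj (h1.symm.trans h2)

theorem x_mul_left (P : Peirce ρ e e' a d) (g h k : G) :
    defect a (g * h) k = a g * defect a h k + d h * defect a g k := by
  have hU : e * ρ (g * h) * e' = a g • (e * ρ h * e') + d h • (e * ρ g * e') := by
    have h1 := P.ins (e * ρ g) (ρ h * e')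
    have h2 : e * ρ g * e * (ρ h * e') = (e * ρ g * e) * (e * ρ h * e') := by
      simp only [mul_assoc, P.ee_mul]
    have h3 : e * ρ g * e' * (ρ h * e') = (e * ρ g * e') * (e' * ρ h * e') := by
      simp only [mul_assoc, P.e'e'_mul]
    rw [h2, h3, P.ha, P.hd, smul_mul_assoc, mul_smul_comm] at h1
    have h4 : e * (e * ρ h * e') = e * ρ h * e' := by simp only [mul_assoc, P.ee_mul]
    have h5 : (e * ρ g * e') * e' = e * ρ g * e' := by rw [mul_assoc, P.e'e']
    rw [h4, h5] at h1
    rw [map_mul, ← h1]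
    simp only [mul_assoc]
  have h6 := congrArg (fun z => z * (ρ k * e)) hU
  simp only [add_mul, smul_mul_assoc] at h6
  have h7 : ∀ g : G, e * ρ g * e' * (ρ k * e) = defect a g k • e := by
    intro g
    rw [← P.x_eq]
    simp only [mul_assoc]
  rw [h7, h7, h7, smul_smul, smul_smul, ← add_smul] at h6
  exact P.inj h6

theorem x_mul_right (P : Peirce ρ e e' a d) (g h k : G) :
    defect a g (h * k) = defect a g h * a k + d h * defect a g k := by
  have hW : e' * ρ (h * k) * e = a k • (e' * ρ h * e) + d h • (e' * ρ k * e) := by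
    have h1 := P.ins (e' * ρ h) (ρ k * e)
    have h2 : e' * ρ h * e * (ρ k * e) = (e' * ρ h * e) * (e * ρ k * e) := by
      simp only [mul_assoc, P.ee_mul]
    have h3 : e' * ρ h * e' * (ρ k * e) = (e' * ρ h * e') * (e' * ρ k * e) := by
      simp only [mul_assoc, P.e'e'_mul]
    rw [h2, h3, P.ha, P.hd, smul_mul_assoc, mul_smul_comm] at h1
    have h4 : e' * (e' * ρ k * e) = e' * ρ k * e := by simp only [mul_assoc, P.e'e'_mul]
    have h5 : (e' * ρ h * e) * e = e' * ρ h * e := by rw [mul_assoc, P.ee]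
    rw [h4, h5] at h1
    rw [map_mul, ← h1]
    simp only [mul_assoc]
  have h6 := congrArg (fun z => (e * ρ g) * z) hW
  simp only [mul_add, mul_smul_comm] at h6
  have h7 : ∀ k : G, e * ρ g * (e' * ρ k * e) = defect a g k • e := by
    intro k
    rw [← P.x_eq]
    simp only [mul_assoc]
  rw [h7, h7, h7, smul_smul, smul_smul, ← add_smul] at h6
  have h8 := P.inj h6
  rw [h8]
  ring

end Peirce

namespace Model

/-- the Peirce system of a model. -/
theorem peirce (M : Model ρ t δ c) : Peirce ρ (eP K ρ c) (eM K ρ c) (aF t c) (dF t c) where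
  add := M.eP_add_eM
  ee' := M.eP_mul_eM
  e'e := M.eM_mul_eP
  ne := M.eP_ne
  ne' := M.eM_ne
  ha := M.eP_rho_eP
  hd := M.eM_rho_eM

/-- the determinant identity. -/
theorem det_eq (M : Model ρ t δ c) (g : G) :
    aF t c g * dF t c g - defect (aF t c) g g = (δ g : K) := by
  have P := M.peirce
  have h1 : ρ (g * g) = t g • ρ g - (δ g : K) • (1 : E) := by
    have h := congrArg (fun z => z * ρ g) (M.rel g)
    simp only [add_mul, smul_mul_assoc, one_mul, ← map_mul, inv_mul_cancel, map_one] at h
    rw [← h]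
    abel
  have h2 : eP K ρ c * ρ (g * g) * eP K ρ c
      = (t g * aF t c g - (δ g : K)) • eP K ρ c := by
    rw [h1, mul_sub, sub_mul, mul_smul_comm, smul_mul_assoc, mul_smul_comm, smul_mul_assoc,
      mul_one, P.ee, P.ha, smul_smul, ← sub_smul]
  rw [P.ha] at h2
  have h3 := P.inj h2
  have h4 := aF_add_dF t c M.two g
  rw [defect, h3, ← h4]
  ring

end Model

end Alg

/-! ### The identities imply the matrix representation -/

theorem exists_matrix (a d δ : G → K) (a1 : a 1 = 1) (d1 : d 1 = 1)
    (hxy : ∀ g h : G, defect d h g = defect a g h)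
    (hrank : ∀ g h g' h' : G, defect a g h * defect a g' h' = defect a g h' * defect a g' h)
    (hl : ∀ g h k : G, defect a (g * h) k = a g * defect a h k + d h * defect a g k)
    (hr : ∀ g h k : G, defect a g (h * k) = defect a g h * a k + d h * defect a g k)
    (hdet : ∀ g : G, a g * d g - defect a g g = δ g) :
    ∃ ρ : G →* Matrix (Fin 2) (Fin 2) K,
      (∀ g, (ρ g).trace = a g + d g) ∧ (∀ g, (ρ g).det = δ g) ∧
      ((∀ g, ρ g = !![a g, 0; 0, d g]) ∨
        ∃ g₀ h₀ : G, defect a g₀ h₀ ≠ 0 ∧
          ∀ g, ρ g = !![a g, defect a g h₀ / defect a g₀ h₀; defect a g₀ g, d g]) := by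
  by_cases hx : ∀ g h : G, defect a g h = 0
  · have ha : ∀ g h : G, a (g * h) = a g * a h := fun g h => sub_eq_zero.mp (hx g h)
    have hd : ∀ g h : G, d (g * h) = d g * d h := fun g h =>
      sub_eq_zero.mp ((hxy h g).trans (hx h g))
    refine ⟨{ toFun := fun g => !![a g, 0; 0, d g]
              map_one' := by rw [a1, d1, Matrix.one_fin_two]
              map_mul' := fun g h => by
                rw [Matrix.mul_fin_two, ha, hd]
                simp }, ?_, ?_, Or.inl fun g => rfl⟩
    · intro g
      show (!![a g, 0; 0, d g] : Matrix (Fin 2) (Fin 2) K).trace = _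
      rw [Matrix.trace_fin_two_of]
    · intro g
      show (!![a g, 0; 0, d g] : Matrix (Fin 2) (Fin 2) K).det = _
      rw [Matrix.det_fin_two_of, ← hdet g, hx g g]
      ring
  · push Not at hx
    obtain ⟨g₀, h₀, h0⟩ := hx
    have e00 : ∀ g h : G, a (g * h) = a g * a h + defect a g h₀ / defect a g₀ h₀ * defect a g₀ h := by
      intro g h
      have h1 := hrank g h₀ g₀ h
      have h2 : defect a g h₀ / defect a g₀ h₀ * defect a g₀ h = defect a g h := by
        rw [div_mul_eq_mul_div, h1, mul_div_assoc, div_self h0, mul_one]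
      rw [h2, defect]
      ring
    have e01 : ∀ g h : G, defect a (g * h) h₀ / defect a g₀ h₀
        = a g * (defect a h h₀ / defect a g₀ h₀) + defect a g h₀ / defect a g₀ h₀ * d h := by
      intro g h
      rw [hl g h h₀]
      field_simp
    have e10 : ∀ g h : G, defect a g₀ (g * h) = defect a g₀ g * a h + d g * defect a g₀ h :=
      fun g h => hr g₀ g h
    have e11 : ∀ g h : G, d (g * h)
        = defect a g₀ g * (defect a h h₀ / defect a g₀ h₀) + d g * d h := by
      intro g h
      have h1 := hrank g₀ g h h₀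
      have h2 : defect a g₀ g * (defect a h h₀ / defect a g₀ h₀) = defect a h g := by
        rw [← mul_div_assoc, h1, mul_comm, mul_div_assoc, div_self h0, mul_one]
      have h3 := hxy h g
      rw [h2, ← h3, defect]
      ring
    have x1l : ∀ h : G, defect a 1 h = 0 := by
      intro h
      rw [defect, one_mul, a1, one_mul, sub_self]
    have x1r : ∀ g : G, defect a g 1 = 0 := by
      intro g
      rw [defect, mul_one, a1, mul_one, sub_self]
    refine ⟨{ toFun := fun g => !![a g, defect a g h₀ / defect a g₀ h₀; defect a g₀ g, d g]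
              map_one' := by rw [a1, d1, x1l, x1r, zero_div, Matrix.one_fin_two]
              map_mul' := fun g h => by
                rw [Matrix.mul_fin_two, ← e00, ← e01, ← e10, ← e11] }, ?_, ?_,
      Or.inr ⟨g₀, h₀, h0, fun g => rfl⟩⟩
    · intro g
      show (!![a g, defect a g h₀ / defect a g₀ h₀; defect a g₀ g, d g] :
        Matrix (Fin 2) (Fin 2) K).trace = _
      rw [Matrix.trace_fin_two_of]
    · intro g
      show (!![a g, defect a g h₀ / defect a g₀ h₀; defect a g₀ g, d g] :
        Matrix (Fin 2) (Fin 2) K).det = _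
      have h1 := hrank g h₀ g₀ g
      have h2 : defect a g h₀ / defect a g₀ h₀ * defect a g₀ g = defect a g g := by
        rw [div_mul_eq_mul_div, h1, mul_div_assoc, div_self h0, mul_one]
      rw [Matrix.det_fin_two_of, h2, hdet g]

/-! ### The concrete model: right translations on the solutions of the relation -/

/-- the functions satisfying the Cayley–Hamilton relation under right translation. -/
def Sol (t : G → K) (δ : G →* Kˣ) : Submodule K (G → K) where
  carrier := {φ | ∀ g h : G, φ (h * g) + (δ g : K) * φ (h * g⁻¹) = t g * φ h}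
  add_mem' := by
    intro φ ψ hφ hψ g h
    simp only [Pi.add_apply]
    rw [mul_add, mul_add, ← hφ g h, ← hψ g h]
    ring
  zero_mem' := by
    intro g h
    simp
  smul_mem' := by
    intro r φ hφ g h
    simp only [Pi.smul_apply, smul_eq_mul]
    rw [mul_left_comm (t g), ← hφ g h]
    ring

theorem mem_Sol {t : G → K} {δ : G →* Kˣ} {φ : G → K} :
    φ ∈ Sol t δ ↔ ∀ g h : G, φ (h * g) + (δ g : K) * φ (h * g⁻¹) = t g * φ h := Iff.rfl

theorem trans_mem_Sol {t : G → K} {δ : G →* Kˣ} (hcomm : ∀ g h : G, t (g * h) = t (h * g))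
    (g : G) {φ : G → K} (hφ : φ ∈ Sol t δ) :
    LinearMap.funLeft K K (fun h : G => h * g) φ ∈ Sol t δ := by
  intro g' h
  simp only [LinearMap.funLeft_apply]
  have h1 := hφ (g⁻¹ * g' * g) (h * g)
  have e1 : h * g * (g⁻¹ * g' * g) = h * g' * g := by group
  have e2 : h * g * (g⁻¹ * g' * g)⁻¹ = h * g'⁻¹ * g := by group
  have e3 : δ (g⁻¹ * g' * g) = δ g' := by
    rw [map_mul, map_mul, map_inv, mul_comm, mul_inv_cancel_left]
  have e4 : t (g⁻¹ * g' * g) = t g' := by
    rw [hcomm, ← mul_assoc, mul_inv_cancel, one_mul]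
  rw [e1, e2, e3, e4] at h1
  exact h1

/-- right translations on `Sol`. -/
def rhoSol (t : G → K) (δ : G →* Kˣ) (hcomm : ∀ g h : G, t (g * h) = t (h * g)) :
    G →* Module.End K (Sol t δ) where
  toFun g := (LinearMap.funLeft K K (fun h : G => h * g)).restrict
    (fun _ hφ => trans_mem_Sol hcomm g hφ)
  map_one' := by
    apply LinearMap.ext
    intro φ
    apply Subtype.ext
    funext h
    simp [LinearMap.funLeft_apply]
  map_mul' g g' := by
    apply LinearMap.ext
    intro φ
    apply Subtype.ext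
    funext h
    simp [LinearMap.funLeft_apply, mul_assoc]

theorem rhoSol_apply (t : G → K) (δ : G →* Kˣ) (hcomm : ∀ g h : G, t (g * h) = t (h * g))
    (g : G) (φ : Sol t δ) (h : G) :
    ((rhoSol t δ hcomm g φ : Sol t δ) : G → K) h = (φ : G → K) (h * g) := rfl

theorem model_rhoSol (t : G → K) (δ : G →* Kˣ) (c : G)
    (hadd : ∀ g h : G, t (g * h) + (δ h : K) * t (g * h⁻¹) = t g * t h)
    (hone : t 1 = 2) (hcomm : ∀ g h : G, t (g * h) = t (h * g))
    (hc : c * c = 1) (hδc : δ c = -1) (htc : t c = 0) (h2 : (2 : K) ≠ 0) :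
    Model (E := Module.End K (Sol t δ)) (rhoSol t δ hcomm) t δ c where
  rel g := by
    apply LinearMap.ext
    intro φ
    apply Subtype.ext
    funext h
    have := φ.2 g h
    simpa [rhoSol_apply] using this
  c_sq := hc
  det_c := hδc
  two := h2
  ep := by
    intro h
    have ht : t ∈ Sol t δ := fun g h => (hadd h g).trans (mul_comm _ _)
    have h3 := congrArg (fun f : Module.End K (Sol t δ) => ((f ⟨t, ht⟩ : Sol t δ) : G → K) 1) h
    simp only [LinearMap.add_apply, Module.End.one_apply, Submodule.coe_add, Pi.add_apply,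
      rhoSol_apply, one_mul, hone, htc, add_zero, LinearMap.zero_apply, Submodule.coe_zero,
      Pi.zero_apply] at h3
    exact h2 h3
  em := by
    intro h
    have ht : t ∈ Sol t δ := fun g h => (hadd h g).trans (mul_comm _ _)
    have h3 := congrArg (fun f : Module.End K (Sol t δ) => ((f ⟨t, ht⟩ : Sol t δ) : G → K) 1) h
    simp only [LinearMap.sub_apply, Module.End.one_apply, Submodule.coe_sub, Pi.sub_apply,
      rhoSol_apply, one_mul, hone, htc, sub_zero, LinearMap.zero_apply, Submodule.coe_zero,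
      Pi.zero_apply] at h3
    exact h2 h3

/-! ### The theorem -/

/-- **Wiles' construction**: a two-dimensional pseudo-character `(t, δ)` with a "complex
conjugation" `c` over a field with `2 ≠ 0` is the trace of an explicit matrix representation. -/
theorem exists_rep (t : G → K) (δ : G →* Kˣ) (c : G)
    (hadd : ∀ g h : G, t (g * h) + (δ h : K) * t (g * h⁻¹) = t g * t h)
    (hone : t 1 = 2) (hcomm : ∀ g h : G, t (g * h) = t (h * g))
    (hc : c * c = 1) (hδc : δ c = -1) (htc : t c = 0) (h2 : (2 : K) ≠ 0) :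
    ∃ ρ : G →* Matrix (Fin 2) (Fin 2) K,
      (∀ g, (ρ g).trace = t g) ∧ (∀ g, (ρ g).det = (δ g : K)) ∧
      ((∀ g, ρ g = !![aF t c g, 0; 0, dF t c g]) ∨
        ∃ g₀ h₀ : G, xF t c g₀ h₀ ≠ 0 ∧
          ∀ g, ρ g = !![aF t c g, xF t c g h₀ / xF t c g₀ h₀; xF t c g₀ g, dF t c g]) := by
  have M := model_rhoSol t δ c hadd hone hcomm hc hδc htc h2
  have P := M.peirce
  obtain ⟨ρ, h1, h2', h3⟩ := exists_matrix (aF t c) (dF t c) (fun g => (δ g : K)) P.a_one P.d_one
    P.xy P.rank_one P.x_mul_left P.x_mul_right M.det_eq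
  refine ⟨ρ, fun g => ?_, h2', h3⟩
  rw [h1, aF_add_dF t c h2]

end Fermat.Agent.S30.Wiles
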