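import Mathlib
import Fermat.Agent.S30_Defs
import Fermat.Agent.S30_Wiles
import Fermat.Agent.S30_RepLattice

/-!
# S30 (WP-E): `RepStatement`

A continuous two-dimensional pseudo-character `(t, δ)` of `G_ℚ` with a complex conjugation, over a
discrete valuation ring `O` of characteristic zero, is the trace of a Galois representation on a
free `O`-module of rank two (`rep : RepStatement`).

Wiles' explicit matrix representation over `K = Frac O` (`S30_Wiles.exists_rep`) has entries
`a = (t(g) + t(cg))/2`, `d = (t(g) - t(cg))/2`, `x(g, h₀)/x(g₀, h₀)`, `x(g₀, g)`: their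
denominators are bounded (by `4 u`, `u = 4 x(g₀, h₀) ∈ O`), and the numerators of the entries of
`ρ σ - 1` lie in any ideal containing all the `t(gσ) - t(g)`; the lattice statement
`S30_RepLattice.exists_galoisRepAdic` concludes.
-/

set_option autoImplicit false

noncomputable section

open Polynomial

namespace Fermat.Agent.S30.Rep

local notation "Qbar" => AlgebraicClosure ℚ
local notation "GQ" => (AlgebraicClosure ℚ ≃ₐ[ℚ] AlgebraicClosure ℚ)

section Numerators

variable {G : Type} [Group G] {O : Type} [CommRing O]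

/-- `2 a(g) = t(g) + t(cg)`. -/
def A2 (t : G → O) (c g : G) : O := t g + t (c * g)

/-- `2 d(g) = t(g) - t(cg)`. -/
def D2 (t : G → O) (c g : G) : O := t g - t (c * g)

/-- `4 x(g, h) = 4 (a(gh) - a(g) a(h))`. -/
def X4 (t : G → O) (c g h : G) : O := 2 * A2 t c (g * h) - A2 t c g * A2 t c h

variable {t : G → O} {c : G} {I : Ideal O} {σ : G}

theorem A2_small (hone : t 1 = 2) (htc : t c = 0) (hσ : ∀ g, t (g * σ) - t g ∈ I) :
    A2 t c σ - 2 ∈ I := by
  have h1 := hσ 1
  have h2 := hσ c
  rw [one_mul, hone] at h1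
  rw [htc, sub_zero] at h2
  have h3 : A2 t c σ - 2 = (t σ - 2) + t (c * σ) := by
    unfold A2
    ring
  rw [h3]
  exact I.add_mem h1 h2

theorem D2_small (hone : t 1 = 2) (htc : t c = 0) (hσ : ∀ g, t (g * σ) - t g ∈ I) :
    D2 t c σ - 2 ∈ I := by
  have h1 := hσ 1
  have h2 := hσ c
  rw [one_mul, hone] at h1
  rw [htc, sub_zero] at h2
  have h3 : D2 t c σ - 2 = (t σ - 2) - t (c * σ) := by
    unfold D2
    ring
  rw [h3]
  exact I.sub_mem h1 h2

theorem A2_mul_right_small (hσ : ∀ g, t (g * σ) - t g ∈ I) (g : G) :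
    A2 t c (g * σ) - A2 t c g ∈ I := by
  have h1 := hσ g
  have h2 := hσ (c * g)
  have h3 : A2 t c (g * σ) - A2 t c g = (t (g * σ) - t g) + (t (c * g * σ) - t (c * g)) := by
    unfold A2
    rw [mul_assoc]
    ring
  rw [h3]
  exact I.add_mem h1 h2

theorem A2_mul_left_small (hcomm : ∀ g h : G, t (g * h) = t (h * g))
    (hσ : ∀ g, t (g * σ) - t g ∈ I) (h : G) :
    A2 t c (σ * h) - A2 t c h ∈ I := by
  have h1 := hσ h
  have h2 := hσ (h * c)
  have e1 : t (σ * h) = t (h * σ) := hcomm _ _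
  have e2 : t (c * (σ * h)) = t (h * c * σ) := by
    rw [← mul_assoc, hcomm (c * σ) h, mul_assoc]
  have e3 : t (c * h) = t (h * c) := hcomm _ _
  have h3 : A2 t c (σ * h) - A2 t c h = (t (h * σ) - t h) + (t (h * c * σ) - t (h * c)) := by
    unfold A2
    rw [e1, e2, e3]
    ring
  rw [h3]
  exact I.add_mem h1 h2

theorem X4_left_small (hone : t 1 = 2) (htc : t c = 0)
    (hcomm : ∀ g h : G, t (g * h) = t (h * g)) (hσ : ∀ g, t (g * σ) - t g ∈ I) (h : G) :
    X4 t c σ h ∈ I := by
  have h3 : X4 t c σ h = 2 * (A2 t c (σ * h) - A2 t c h) - (A2 t c σ - 2) * A2 t c h := by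
    unfold X4
    ring
  rw [h3]
  exact I.sub_mem (I.mul_mem_left _ (A2_mul_left_small hcomm hσ h))
    (I.mul_mem_right _ (A2_small hone htc hσ))

theorem X4_right_small (hone : t 1 = 2) (htc : t c = 0)
    (hσ : ∀ g, t (g * σ) - t g ∈ I) (g : G) :
    X4 t c g σ ∈ I := by
  have h3 : X4 t c g σ = 2 * (A2 t c (g * σ) - A2 t c g) - A2 t c g * (A2 t c σ - 2) := by
    unfold X4
    ring
  rw [h3]
  exact I.sub_mem (I.mul_mem_left _ (A2_mul_right_small hσ g))
    (I.mul_mem_left _ (A2_small hone htc hσ))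

end Numerators

/-- the lattice statement, with integral numerators `e g i j` of the entries of `D • ρ g` which are
congruent to `D • 1` modulo any ideal containing all the `t(gσ) - t(g)`. -/
theorem rep_of_entries {O : Type} [CommRing O] [IsDomain O] [IsDiscreteValuationRing O]
    {t : GQ → O} {δ : GQ →* Oˣ} {c : GQ} (hpc : IsPC (IsLocalRing.maximalIdeal O) t δ c)
    (ρ : GQ →* Matrix (Fin 2) (Fin 2) (FractionRing O))
    (htr : ∀ g, (ρ g).trace = algebraMap O (FractionRing O) (t g))
    (hdet : ∀ g, (ρ g).det = algebraMap O (FractionRing O) (δ g : O))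
    (D : O) (hD : D ≠ 0) (e : GQ → Fin 2 → Fin 2 → O)
    (hρ : ∀ g i j,
      algebraMap O (FractionRing O) D * ρ g i j = algebraMap O (FractionRing O) (e g i j))
    (hsmall : ∀ (I : Ideal O) (σ : GQ), (∀ g, t (g * σ) - t g ∈ I) →
      ∀ i j, e σ i j - (if i = j then D else 0) ∈ I) :
    ∃ ρ' : GaloisRepAdic O,
      (∀ σ : GQ, LinearMap.charpoly (ρ'.ρ σ) = X ^ 2 - C (t σ) * X + C (δ σ : O)) ∧
      (∀ σ : GQ, (∀ g : GQ, t (g * σ) = t g) → ρ'.ρ σ = 1) := by
  have hD' : algebraMap O (FractionRing O) D ≠ 0 := by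
    rwa [Ne, map_eq_zero_iff _ (IsFractionRing.injective O (FractionRing O))]
  obtain ⟨ρ', h1, h2⟩ := RepLattice.exists_galoisRepAdic t (fun g => (δ g : O)) ρ htr hdet hD
    (fun g i j => ⟨e g i j, hρ g i j⟩) (by
      intro n
      obtain ⟨L, hL, hσL⟩ := hpc.cont_t n
      refine ⟨L, hL, fun σ hσ i j =>
        ⟨e σ i j - (if i = j then D else 0), hsmall _ σ (hσL σ hσ) i j, ?_⟩⟩
      rw [Matrix.sub_apply, Matrix.one_apply, mul_sub, hρ σ i j, map_sub]
      split_ifs <;> simp)
  refine ⟨ρ', h1, fun σ hσ => h2 σ ?_⟩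
  have h3 := hsmall ⊥ σ (fun g => by rw [hσ g, sub_self]; exact Ideal.zero_mem _)
  ext i j
  have h4 := h3 i j
  rw [Ideal.mem_bot, sub_eq_zero] at h4
  have h5 := hρ σ i j
  rw [h4] at h5
  rw [Matrix.one_apply]
  split_ifs at h5 ⊢ with hij
  · exact mul_left_cancel₀ hD' (h5.trans (mul_one _).symm)
  · rw [map_zero] at h5
    exact (mul_eq_zero.mp h5).resolve_left hD'

open Fermat.Agent.S30.Wiles in
/-- **(REP)** -/
theorem rep : RepStatement := by
  intro O _ _ _ _ t δ c hpc
  have hinj : Function.Injective (algebraMap O (FractionRing O)) :=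
    IsFractionRing.injective O (FractionRing O)
  have : CharZero (FractionRing O) := charZero_of_injective_algebraMap hinj
  have h2K : (2 : FractionRing O) ≠ 0 := two_ne_zero
  have h4K : (4 : FractionRing O) ≠ 0 := by norm_num
  have h4O : (4 : O) ≠ 0 := by norm_num
  let tK : GQ → FractionRing O := fun g => algebraMap O (FractionRing O) (t g)
  let δK : GQ →* (FractionRing O)ˣ :=
    (Units.map ((algebraMap O (FractionRing O) : O →+* FractionRing O) : O →* FractionRing O)).comp δ
  have hδK : ∀ g, ((δK g : (FractionRing O)ˣ) : FractionRing O)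
      = algebraMap O (FractionRing O) (δ g : O) := fun g => rfl
  obtain ⟨ρ, htr, hdet, hcase⟩ := Wiles.exists_rep tK δK c
    (fun g h => by
      have h1 := congrArg (algebraMap O (FractionRing O)) (hpc.add g h)
      rw [map_add, map_mul, map_mul] at h1
      exact h1)
    (by
      show algebraMap O (FractionRing O) (t 1) = 2
      rw [hpc.one, map_ofNat])
    (fun g h => congrArg (algebraMap O (FractionRing O)) (hpc.comm g h)) hpc.c_sq
    (by
      apply Units.ext
      rw [hδK, hpc.det_c]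
      simp)
    (by
      show algebraMap O (FractionRing O) (t c) = 0
      rw [hpc.tr_c, map_zero]) h2K
  have haF : ∀ g, aF tK c g = algebraMap O (FractionRing O) (A2 t c g) / 2 := by
    intro g
    unfold aF A2
    rw [map_add]
  have hdF : ∀ g, dF tK c g = algebraMap O (FractionRing O) (D2 t c g) / 2 := by
    intro g
    unfold dF D2
    rw [map_sub]
  have hxF : ∀ g h, xF tK c g h = algebraMap O (FractionRing O) (X4 t c g h) / 4 := by
    intro g h
    unfold xF X4
    rw [haF, haF, haF, map_sub, map_mul, map_mul, map_ofNat]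
    field_simp
    ring
  rcases hcase with hdiag | ⟨g₀, h₀, hx₀, hρ⟩
  · refine rep_of_entries hpc ρ htr (fun g => (hdet g).trans (hδK g)) 2 two_ne_zero
      (fun g => ![![A2 t c g, 0], ![0, D2 t c g]]) ?_ ?_
    · intro g i j
      rw [hdiag g, map_ofNat]
      fin_cases i <;> fin_cases j <;> simp [haF, hdF] <;> field_simp
    · intro I σ hσ i j
      fin_cases i <;> fin_cases j <;> simp
      · exact A2_small hpc.one hpc.tr_c hσ
      · exact D2_small hpc.one hpc.tr_c hσ
  · have hu0 : X4 t c g₀ h₀ ≠ 0 := by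
      intro h0
      apply hx₀
      rw [hxF, h0, map_zero, zero_div]
    have hu0' : algebraMap O (FractionRing O) (X4 t c g₀ h₀) ≠ 0 := by
      rwa [Ne, map_eq_zero_iff _ hinj]
    refine rep_of_entries hpc ρ htr (fun g => (hdet g).trans (hδK g)) (4 * X4 t c g₀ h₀)
      (mul_ne_zero h4O hu0)
      (fun g => ![![2 * X4 t c g₀ h₀ * A2 t c g, 4 * X4 t c g h₀],
        ![X4 t c g₀ h₀ * X4 t c g₀ g, 2 * X4 t c g₀ h₀ * D2 t c g]]) ?_ ?_
    · intro g i j
      rw [hρ g, map_mul, map_ofNat]
      fin_cases i <;> fin_cases j <;> simp [haF, hdF, hxF, map_mul, map_ofNat] <;> field_simp <;> ring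
    · intro I σ hσ i j
      fin_cases i <;> fin_cases j <;> simp
      · have h1 := I.mul_mem_left (2 * X4 t c g₀ h₀) (A2_small hpc.one hpc.tr_c hσ)
        have h2 : 2 * X4 t c g₀ h₀ * A2 t c σ - 4 * X4 t c g₀ h₀
            = 2 * X4 t c g₀ h₀ * (A2 t c σ - 2) := by ring
        rw [h2]
        exact h1
      · exact I.mul_mem_left _ (X4_left_small hpc.one hpc.tr_c hpc.comm hσ h₀)
      · exact I.mul_mem_left _ (X4_right_small hpc.one hpc.tr_c hσ g₀)
      · have h1 := I.mul_mem_left (2 * X4 t c g₀ h₀) (D2_small hpc.one hpc.tr_c hσ)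
        have h2 : 2 * X4 t c g₀ h₀ * D2 t c σ - 4 * X4 t c g₀ h₀
            = 2 * X4 t c g₀ h₀ * (D2 t c σ - 2) := by ring
        rw [h2]
        exact h1

end Fermat.Agent.S30.Rep
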