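-- Statement S30 (row 29): a ring homomorphism chi from the Hecke algebra of level N (away from S)
-- to a complete DVR O of characteristic 0 and residue characteristic p carries a p-adic Galois
-- representation rho over a finite extension of O (here O itself), unramified outside N p, with
-- Frobenius characteristic polynomial X^2 - chi(T_l) X + l.
-- Proof: `s30_of` (S30_Final) applied to
--   * `PC.pc_of` (S30_PC: the pseudo-character (t, delta) as a limit over the levels p^n of the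
--     Galois action on Hecke eigenvectors of O (x) J_0(N)[p^n]) fed with
--     `EV.ev_of_kappa` (S30_EV: eigenvectors of exact order p^n from the period lattice) and
--     `Kappa.kappa` (S30_Kappa: the Hecke-equivariant Kummer classes in J_0(N)[m]) and
--     `Cyc.cyc` (S30_Cyc: the p-adic cyclotomic character);
--   * `Rep.rep` (S30_Rep: a 2-dimensional pseudo-character with a complex conjugation over a
--     DVR is the trace of a representation on a free rank 2 lattice).
import Fermat.Statements.S30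
import Fermat.Agent.S30_Final
import Fermat.Agent.S30_Kappa
import Fermat.Agent.S30_EV
import Fermat.Agent.S30_Cyc
import Fermat.Agent.S30_PC
import Fermat.Agent.S30_Rep

set_option autoImplicit false
open Polynomial
open CuspForm

namespace Fermat.Agent.S30

theorem result :
    ∀ (p : ℕ) [Fact p.Prime] (N : ℕ) [NeZero N] (S : Finset ℕ)
      (_hpS : p ∈ S) (_hNS : ∀ q : ℕ, q.Prime → q ∣ N → q ∈ S)
      (𝒪' : Type) [CommRing 𝒪'] [IsDomain 𝒪'] [IsDiscreteValuationRing 𝒪']
      [IsAdicComplete (IsLocalRing.maximalIdeal 𝒪') 𝒪'] [Finite (IsLocalRing.ResidueField 𝒪')]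
      [CharZero 𝒪'] (_hp𝒪' : (p : 𝒪') ∈ IsLocalRing.maximalIdeal 𝒪')
      (χ : CuspForm.heckeAlgebra N 2 (↑S : Set ℕ) →+* 𝒪'),
      ∃ (𝒪'' : Type) (_ : CommRing 𝒪'') (_ : IsDomain 𝒪'') (_ : IsDiscreteValuationRing 𝒪'')
        (_ : IsAdicComplete (IsLocalRing.maximalIdeal 𝒪'') 𝒪'')
        (_ : Finite (IsLocalRing.ResidueField 𝒪'')) (_ : CharZero 𝒪'')
        (_ : Algebra 𝒪' 𝒪'') (_ : Module.Finite 𝒪' 𝒪'') (_ : IsLocalHom (algebraMap 𝒪' 𝒪'')),
      Function.Injective (algebraMap 𝒪' 𝒪'') ∧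
      ∃ ρ : GaloisRepAdic 𝒪'',
        (∀ (ℓ : ℕ) (hℓ : ℓ.Prime) (hℓN : ¬ ℓ ∣ N) (hℓS : ℓ ∉ (↑S : Set ℕ)),
          ∀ A : ValuationSubring (AlgebraicClosure ℚ), A.LiesOverPrime ℓ →
            ∀ σ : AlgebraicClosure ℚ ≃ₐ[ℚ] AlgebraicClosure ℚ, A.IsFrobeniusAt σ ℓ →
              LinearMap.charpoly (ρ.ρ σ) =
                X ^ 2 - C (algebraMap 𝒪' 𝒪'' (χ (CuspForm.heckeAlgebra.T hℓ hℓN hℓS))) * X
                  + C ((ℓ : 𝒪''))) ∧
        (∀ q : ℕ, q.Prime → ¬ q ∣ N → q ≠ p → ρ.IsUnramifiedAt q) :=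
  Fermat.Agent.S30.s30_of
    (Fermat.Agent.S30.PC.pc_of (Fermat.Agent.S30.EV.ev_of_kappa Fermat.Agent.S30.Kappa.kappa)
      Fermat.Agent.S30.Cyc.cyc)
    Fermat.Agent.S30.Rep.rep

end Fermat.Agent.S30
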