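import Mathlib

/-!
# S30 (WP-B): the exact-order lemma

`dvd_of_smul_eq_zero`: for `x i ∈ J[m]` independent modulo `m` and a ring `O` flat over `ℤ`,
`c • ∑ a i ⊗ x i = 0` in `O ⊗[ℤ] J` forces `m ∣ c * a i` for every `i`; hence `m ∣ c` when one
`a i` is a unit (`dvd_of_smul_eq_zero_of_isUnit`).

Proof: `ℤ^r → ℤ^r → J` (multiplication by `m`, then `k ↦ ∑ k i • x i`) is exact, and stays exact
after tensoring with `O`; read off the coordinate `i`.
-/

set_option autoImplicit false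

noncomputable section

open scoped TensorProduct

namespace Fermat.Agent.S30.ExactOrder

/-- **Exact order.**  `x i ∈ J[m]` independent modulo `m`, `O` flat over `ℤ`:
`c • ∑ a i ⊗ x i = 0` in `O ⊗ J` forces `m ∣ c * a i` for all `i`. -/
theorem dvd_of_smul_eq_zero {O J : Type*} [CommRing O] [Module.Flat ℤ O] [AddCommGroup J]
    (m : ℕ) {r : ℕ} (a : Fin r → O) (x : Fin r → J) (hx : ∀ i, m • x i = 0)
    (hindep : ∀ k : Fin r → ℤ, ∑ i, k i • x i = 0 → ∀ i, (m : ℤ) ∣ k i) (c : O)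
    (hc : c • (∑ i, a i ⊗ₜ[ℤ] x i : O ⊗[ℤ] J) = 0) (i₀ : Fin r) : (m : O) ∣ c * a i₀ := by
  classical
  set g : (Fin r → ℤ) →ₗ[ℤ] J := Fintype.linearCombination ℤ x with hg
  set f : (Fin r → ℤ) →ₗ[ℤ] (Fin r → ℤ) := (m : ℤ) • LinearMap.id with hf
  have hgapp : ∀ k : Fin r → ℤ, g k = ∑ i, k i • x i := fun k =>
    Fintype.linearCombination_apply ℤ x k
  have hex : Function.Exact f g := by
    intro k
    constructor
    · intro hk
      rw [hgapp] at hk
      have h1 := hindep k hk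
      choose q hq using h1
      refine ⟨q, ?_⟩
      ext i
      rw [hf, LinearMap.smul_apply, LinearMap.id_apply, Pi.smul_apply, smul_eq_mul, hq i]
    · rintro ⟨q, rfl⟩
      rw [hf, LinearMap.smul_apply, LinearMap.id_apply, map_smul, hgapp, Finset.smul_sum]
      refine Finset.sum_eq_zero fun i _ => ?_
      rw [smul_comm, natCast_zsmul, hx i, smul_zero]
  have hex' := Module.Flat.lTensor_exact O hex
  set A : O ⊗[ℤ] (Fin r → ℤ) := ∑ i, (c * a i) ⊗ₜ[ℤ] (Pi.single i (1 : ℤ)) with hA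
  have hgsingle : ∀ i, g (Pi.single i (1 : ℤ)) = x i := by
    intro i
    rw [hgapp, Finset.sum_eq_single i]
    · rw [Pi.single_eq_same, one_smul]
    · intro j _ hj
      rw [Pi.single_eq_of_ne hj, zero_smul]
    · intro h
      exact absurd (Finset.mem_univ i) h
  have hgA : g.lTensor O A = 0 := by
    rw [hA, map_sum]
    simp only [LinearMap.lTensor_tmul, hgsingle]
    rw [← hc, Finset.smul_sum]
    refine Finset.sum_congr rfl fun i _ => ?_
    rw [TensorProduct.smul_tmul', smul_eq_mul]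
  obtain ⟨B, hB⟩ := (hex' A).mp hgA
  -- the coordinate functional
  set coord : O ⊗[ℤ] (Fin r → ℤ) →ₗ[ℤ] O :=
    TensorProduct.lift (LinearMap.mk₂ ℤ (fun (o : O) (k : Fin r → ℤ) => k i₀ • o)
      (fun o₁ o₂ k => by simp only [smul_add])
      (fun n o k => smul_comm _ _ _)
      (fun o k₁ k₂ => by simp only [Pi.add_apply, add_smul])
      (fun n o k => by simp only [Pi.smul_apply, smul_eq_mul, mul_smul])) with hcoord
  have hcoordt : ∀ (o : O) (k : Fin r → ℤ), coord (o ⊗ₜ[ℤ] k) = k i₀ • o := fun o k => by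
    rw [hcoord]
    exact TensorProduct.lift.tmul o k
  have h1 : coord A = c * a i₀ := by
    rw [hA, map_sum]
    simp only [hcoordt]
    rw [Finset.sum_eq_single i₀]
    · rw [Pi.single_eq_same, one_smul]
    · intro j _ hj
      rw [Pi.single_eq_of_ne hj.symm, zero_smul]
    · intro h
      exact absurd (Finset.mem_univ i₀) h
  have h2 : f.lTensor O = (m : ℤ) • LinearMap.id := by
    rw [hf, LinearMap.lTensor_smul, LinearMap.lTensor_id]
  have h3 : coord A = (m : ℤ) • coord B := by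
    rw [← hB, h2, LinearMap.smul_apply, LinearMap.id_apply, map_smul]
  refine ⟨coord B, ?_⟩
  rw [← h1, h3, zsmul_eq_mul]
  push_cast
  ring

/-- the same, when one coefficient is a unit. -/
theorem dvd_of_smul_eq_zero_of_isUnit {O J : Type*} [CommRing O] [Module.Flat ℤ O]
    [AddCommGroup J] (m : ℕ) {r : ℕ} (a : Fin r → O) (x : Fin r → J) (hx : ∀ i, m • x i = 0)
    (hindep : ∀ k : Fin r → ℤ, ∑ i, k i • x i = 0 → ∀ i, (m : ℤ) ∣ k i) (c : O)
    (hc : c • (∑ i, a i ⊗ₜ[ℤ] x i : O ⊗[ℤ] J) = 0) (i₀ : Fin r) (hu : IsUnit (a i₀)) :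
    (m : O) ∣ c := by
  obtain ⟨b, hb⟩ := dvd_of_smul_eq_zero m a x hx hindep c hc i₀
  obtain ⟨u, hu'⟩ := hu
  refine ⟨b * (u⁻¹ : Oˣ), ?_⟩
  have h1 : c = c * a i₀ * (u⁻¹ : Oˣ) := by
    rw [← hu', mul_assoc, Units.mul_inv, mul_one]
  rw [h1, hb]
  ring

/-- a domain of characteristic zero is flat over `ℤ`. -/
theorem flat_int_of_charZero (O : Type*) [CommRing O] [IsDomain O] [CharZero O] :
    Module.Flat ℤ O := inferInstance

end Fermat.Agent.S30.ExactOrder
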