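import Mathlib
import Fermat.Agent.S30_Defs
import Fermat.Agent.S30_ExactOrder

/-!
# S30 (WP-B): the core tensor computation for `EVStatement`

`core_ev`: given the Kummer class map `KappaStatement`, a surjection `PL : Γ₀(N) → L` onto a free
abelian group of finite rank killing the elements of trace `² ≤ 4`, and an additive functional
`ν : L → O` (`O` flat over `ℤ`) which is a unit on one basis vector, the classes
`x j = κ ((b j)^* mod m ∘ PL) ∈ J₀(N)[m]` satisfy: `w = ∑ ν (b j) ⊗ x j` has exact order `m`, and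
`T_ℓ w = e • w` whenever the Hecke correspondence acts on `L` through an endomorphism `A` with
`ν ∘ A = e ν`.  (The analogue of `S29_Period.core` with coefficients in `O` and modulus `m`.)
-/

set_option autoImplicit false

noncomputable section

open UpperHalfPlane ModularCurve CongruenceSubgroup
open scoped MatrixGroups TensorProduct

namespace Fermat.Agent.S30.EVCore

open Fermat.Agent.S29

section Core

variable {N : ℕ} (m : ℕ) {L : Type} [AddCommGroup L] {r : ℕ}
  (b : Module.Basis (Fin r) ℤ L) (PL : Additive (Gamma0 N) →+ L)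

/-- the characters `γ ↦ (j-th coordinate of PL γ) mod m`. -/
def chi (j : Fin r) : Additive (Gamma0 N) →+ ZMod m :=
  ((Int.castAddHom (ZMod m)).comp (b.coord j).toAddMonoidHom).comp PL

theorem chi_apply (j : Fin r) (γ : Additive (Gamma0 N)) :
    chi m b PL j γ = ((b.repr (PL γ) j : ℤ) : ZMod m) := rfl

theorem comp_eq_sum (g' : L →+ ZMod m) :
    g'.comp PL = ∑ j, g' (b j) • chi m b PL j := by
  refine AddMonoidHom.ext fun γ => ?_
  rw [AddMonoidHom.comp_apply, AddMonoidHom.finsetSum_apply]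
  simp only [AddMonoidHom.smul_apply, chi_apply, smul_eq_mul]
  conv_lhs => rw [← b.sum_repr (PL γ)]
  rw [map_sum]
  refine Finset.sum_congr rfl fun j _ => ?_
  rw [map_zsmul, zsmul_eq_mul, mul_comm]

theorem sum_repr_zsmul {O : Type} [CommRing O] (ν : L →+ O) (x : L) :
    ∑ j, b.repr x j • ν (b j) = ν x := by
  conv_rhs => rw [← b.sum_repr x]
  rw [map_sum]
  refine Finset.sum_congr rfl fun j _ => ?_
  rw [map_zsmul]

include b in
theorem core_ev [NeZero N] [NeZero m] (hK : KappaStatement)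
    (hsurj : Function.Surjective PL)
    (hadm : ∀ γ : Gamma0 N, ((γ : SL(2, ℤ)) 0 0 + (γ : SL(2, ℤ)) 1 1) ^ 2 ≤ 4 →
      PL (Additive.ofMul γ) = 0)
    (O : Type) [CommRing O] [Module.Flat ℤ O] (ν : L →+ O) (j₀ : Fin r)
    (hunit : IsUnit (ν (b j₀))) :
    ∃ x : Fin r → JZero N, (∀ j, m • x j = 0) ∧
      (∀ c : O, c • (∑ j, ν (b j) ⊗ₜ[ℤ] x j : O ⊗[ℤ] (JZero N)) = 0 → (m : O) ∣ c) ∧
      ∀ (ℓ : ℕ) [Fact ℓ.Prime] [NeZero ℓ] (hℓN : ¬ ℓ ∣ N) (A : L →+ L) (e : O),
        (Fermat.Agent.S16.LB.famT N ℓ hℓN).tHom PL = A.comp PL → (∀ y, ν (A y) = e * ν y) →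
        heckeT O N ℓ (∑ j, ν (b j) ⊗ₜ[ℤ] x j)
          = e • (∑ j, ν (b j) ⊗ₜ[ℤ] x j : O ⊗[ℤ] (JZero N)) := by
  classical
  let X : Submodule (ZMod m) (Additive (Gamma0 N) →+ ZMod m) :=
    Submodule.span (ZMod m) (Set.range (chi m b PL))
  have hχX : ∀ j, chi m b PL j ∈ X := fun j => Submodule.subset_span ⟨j, rfl⟩
  have hfac : ∀ g' : L →+ ZMod m, g'.comp PL ∈ X := by
    intro g'
    rw [comp_eq_sum m b PL g']
    exact Submodule.sum_mem _ (fun j _ => Submodule.smul_mem _ _ (hχX j))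
  have hXfac : ∀ χ' ∈ X, ∃ g' : L →+ ZMod m, χ' = g'.comp PL := by
    intro χ' hχ'
    induction hχ' using Submodule.span_induction with
    | mem y hy =>
        obtain ⟨j, rfl⟩ := hy
        exact ⟨_, rfl⟩
    | zero => exact ⟨0, (AddMonoidHom.zero_comp PL).symm⟩
    | add y z _ _ hy hz =>
        obtain ⟨g1, rfl⟩ := hy
        obtain ⟨g2, rfl⟩ := hz
        exact ⟨g1 + g2, (AddMonoidHom.add_comp g1 g2 PL).symm⟩
    | smul r y _ hy =>
        obtain ⟨g1, rfl⟩ := hy
        exact ⟨r • g1, rfl⟩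
  have hstab : ∀ (𝒜 : Fermat.Agent.S16.LB.CosetFam N) (A : L →+ L), 𝒜.tHom PL = A.comp PL →
      ∀ χ ∈ X, 𝒜.tHom χ ∈ X := by
    intro 𝒜 A hA χ' hχ'
    obtain ⟨g', rfl⟩ := hXfac χ' hχ'
    rw [Fermat.Agent.S16.LB.CosetFam.tHom_comp, hA, ← AddMonoidHom.comp_assoc]
    exact hfac _
  have hXadm : ∀ χ ∈ X, IsAdm N m χ := by
    intro χ' hχ' γ hγ
    obtain ⟨g', rfl⟩ := hXfac χ' hχ'
    rw [AddMonoidHom.comp_apply, hadm γ hγ, map_zero]
  obtain ⟨κ, hκinj, hκT⟩ := hK N m X hXadm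
  let xs : Fin r → X := fun j => ⟨chi m b PL j, hχX j⟩
  let x : Fin r → JZero N := fun j => ((κ (xs j) : Jp N m) : JZero N)
  have hκz : ∀ (k : ℤ) (y : X), ((κ (k • y) : Jp N m) : JZero N) = k • ((κ y : Jp N m) : JZero N) := by
    intro k y
    rw [← Int.cast_smul_eq_zsmul (ZMod m) k y, map_smul, Int.cast_smul_eq_zsmul,
      AddSubgroup.coe_zsmul]
  have hκsum : ∀ (k : Fin r → ℤ),
      ((κ (∑ i, k i • xs i) : Jp N m) : JZero N) = ∑ i, k i • x i := by
    intro k
    rw [map_sum, AddSubmonoidClass.coe_finsetSum]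
    exact Finset.sum_congr rfl fun i _ => hκz (k i) (xs i)
  refine ⟨x, fun j => (κ (xs j)).2, ?_, ?_⟩
  · -- exact order
    intro c hc
    refine ExactOrder.dvd_of_smul_eq_zero_of_isUnit m (fun j => ν (b j)) x
      (fun j => (κ (xs j)).2) ?_ c hc j₀ hunit
    intro k hk i₁
    rw [← hκsum k] at hk
    have h1 : κ (∑ i, k i • xs i) = 0 := Subtype.ext hk
    have h2 : ∑ i, k i • xs i = 0 := hκinj (h1.trans (map_zero κ).symm)
    obtain ⟨γ, hγ⟩ := hsurj (b i₁)
    have h3 := congrArg (fun y : X => (y : Additive (Gamma0 N) →+ ZMod m) γ) h2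
    simp only [Submodule.coe_sum, Submodule.coe_smul_of_tower, AddMonoidHom.finsetSum_apply,
      AddMonoidHom.smul_apply, Submodule.coe_zero, AddMonoidHom.zero_apply] at h3
    have h4 : ∀ i, k i • ((xs i : X) : Additive (Gamma0 N) →+ ZMod m) γ
        = if i = i₁ then ((k i : ℤ) : ZMod m) else 0 := by
      intro i
      show k i • chi m b PL i γ = _
      rw [chi_apply, hγ, Module.Basis.repr_self, Finsupp.single_apply]
      split_ifs with h1 h2 h2
      · rw [zsmul_eq_mul, Int.cast_one, mul_one]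
      · exact absurd h1.symm h2
      · exact absurd h2.symm h1
      · rw [Int.cast_zero, smul_zero]
    simp only [h4, Finset.sum_ite_eq', Finset.mem_univ, if_true] at h3
    exact (ZMod.intCast_zmod_eq_zero_iff_dvd (k i₁) m).mp h3
  · -- the eigen-equation
    intro ℓ _ _ hℓN A e hA hν
    have hX := hstab (Fermat.Agent.S16.LB.famT N ℓ hℓN) A hA
    have hT : ∀ j, restrT (Fermat.Agent.S16.LB.famT N ℓ hℓN) X hX (xs j)
        = ∑ i, (b.repr (A (b i)) j) • xs i := by
      intro j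
      apply Subtype.ext
      rw [coe_restrT, Submodule.coe_sum]
      simp only [Submodule.coe_smul_of_tower]
      show (Fermat.Agent.S16.LB.famT N ℓ hℓN).tHom
        (((Int.castAddHom (ZMod m)).comp (b.coord j).toAddMonoidHom).comp PL) = _
      rw [Fermat.Agent.S16.LB.CosetFam.tHom_comp, hA, ← AddMonoidHom.comp_assoc,
        comp_eq_sum m b PL]
      refine Finset.sum_congr rfl fun i _ => ?_
      show ((b.repr (A (b i)) j : ℤ) : ZMod m) • chi m b PL i = b.repr (A (b i)) j • chi m b PL i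
      rw [Int.cast_smul_eq_zsmul]
    have hx : ∀ j, heckeOperatorAlong (AlgebraicClosure ℚ) N ℓ (x j)
        = ∑ i, (b.repr (A (b i)) j) • x i := by
      intro j
      show heckeOperatorAlong (AlgebraicClosure ℚ) N ℓ ((κ (xs j) : Jp N m) : JZero N) = _
      rw [← coe_heckeJp, ← hκT ℓ hℓN hX (xs j), hT j, hκsum]
    rw [map_sum]
    have h5 : ∀ j, heckeT O N ℓ (ν (b j) ⊗ₜ[ℤ] x j)
        = ∑ i, (b.repr (A (b i)) j • ν (b j)) ⊗ₜ[ℤ] x i := by
      intro j
      show LinearMap.lTensor O (heckeOperatorAlong (AlgebraicClosure ℚ) N ℓ).toIntLinearMap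
        (ν (b j) ⊗ₜ[ℤ] x j) = _
      rw [LinearMap.lTensor_tmul]
      show ν (b j) ⊗ₜ[ℤ] heckeOperatorAlong (AlgebraicClosure ℚ) N ℓ (x j) = _
      rw [hx j, TensorProduct.tmul_sum]
      refine Finset.sum_congr rfl fun i _ => ?_
      rw [TensorProduct.tmul_smul, TensorProduct.smul_tmul']
    simp only [h5]
    rw [Finset.sum_comm]
    simp only [← TensorProduct.sum_tmul, sum_repr_zsmul b ν, hν]
    rw [Finset.smul_sum]
    refine Finset.sum_congr rfl fun i _ => ?_
    rw [TensorProduct.smul_tmul', smul_eq_mul]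

end Core

end Fermat.Agent.S30.EVCore
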