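import Mathlib

/-!
# S30 (WP-B): the eigen-functional lemma

A commutative ring `𝕋` acting faithfully on a finite module `L` and a character `χ : 𝕋 → O` with
values in a valuation ring (a domain): there is an additive `ν : L → O` with
`ν (T x) = χ T * ν x` which takes the value `1` (`exists_eigen_functional`,
`exists_eigen_functional'`).

Proof: the kernel `𝔭` of `χ` is in the support of `L` (faithful, finite), so `κ(𝔭) ⊗ L ≠ 0`; a
nonzero `κ(𝔭)`-linear functional on it gives `L → κ(𝔭) → Frac O`; divide by the value of largest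
valuation on a finite generating set.
-/

set_option autoImplicit false

noncomputable section

open scoped TensorProduct

namespace Fermat.Agent.S30.EigenFun

variable {𝕋 L O : Type*} [CommRing 𝕋] [AddCommGroup L] [Module 𝕋 L] [Module.Finite 𝕋 L]
  [CommRing O] [IsDomain O]

/-- a faithful finite module has a nonzero eigen-functional with values in the fraction field of
any domain receiving a character of the ring. -/
theorem exists_eigen_frac (K : Type*) [Field K] [Algebra O K] [IsFractionRing O K]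
    (hfaith : ∀ T : 𝕋, (∀ x : L, T • x = 0) → T = 0) (χ : 𝕋 →+* O) :
    ∃ ν : L →+ K, ν ≠ 0 ∧ ∀ (T : 𝕋) (x : L), ν (T • x) = algebraMap O K (χ T) * ν x := by
  classical
  set 𝔭 : Ideal 𝕋 := RingHom.ker χ with h𝔭
  have : 𝔭.IsPrime := RingHom.ker_isPrime χ
  have hann : Module.annihilator 𝕋 L = ⊥ := by
    rw [eq_bot_iff]
    intro T hT
    rw [Module.mem_annihilator] at hT
    exact hfaith T hT
  have hsupp : (⟨𝔭, inferInstance⟩ : PrimeSpectrum 𝕋) ∈ Module.support 𝕋 L := by
    rw [Module.support_eq_zeroLocus, hann]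
    simp
  rw [Module.mem_support_iff_nontrivial_residueField_tensorProduct] at hsupp
  obtain ⟨z, hz⟩ := exists_ne (0 : 𝔭.ResidueField ⊗[𝕋] L)
  obtain ⟨φ, hφ⟩ : ∃ φ : Module.Dual 𝔭.ResidueField (𝔭.ResidueField ⊗[𝕋] L), φ z ≠ 0 := by
    by_contra hcon
    push Not at hcon
    exact hz ((Module.forall_dual_apply_eq_zero_iff 𝔭.ResidueField z).mp hcon)
  -- the functional on `L`
  set ν₀ : L →+ 𝔭.ResidueField :=
    { toFun := fun x => φ ((1 : 𝔭.ResidueField) ⊗ₜ[𝕋] x)
      map_zero' := by rw [TensorProduct.tmul_zero, map_zero]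
      map_add' := fun x y => by rw [TensorProduct.tmul_add, map_add] } with hν₀
  have hν₀T : ∀ (T : 𝕋) (x : L), ν₀ (T • x) = algebraMap 𝕋 𝔭.ResidueField T * ν₀ x := by
    intro T x
    show φ ((1 : 𝔭.ResidueField) ⊗ₜ[𝕋] (T • x)) = _ * φ ((1 : 𝔭.ResidueField) ⊗ₜ[𝕋] x)
    rw [← TensorProduct.smul_tmul, Algebra.smul_def, mul_one,
      show (algebraMap 𝕋 𝔭.ResidueField T) ⊗ₜ[𝕋] x
        = (algebraMap 𝕋 𝔭.ResidueField T) • ((1 : 𝔭.ResidueField) ⊗ₜ[𝕋] x) by
        rw [TensorProduct.smul_tmul', smul_eq_mul, mul_one],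
      map_smul, smul_eq_mul]
  have hν₀ne : ν₀ ≠ 0 := by
    intro h0
    apply hφ
    have hall : ∀ w : 𝔭.ResidueField ⊗[𝕋] L, φ w = 0 := by
      intro w
      induction w using TensorProduct.induction_on with
      | zero => exact map_zero φ
      | tmul c x =>
        have h1 : c ⊗ₜ[𝕋] x = c • ((1 : 𝔭.ResidueField) ⊗ₜ[𝕋] x) := by
          rw [TensorProduct.smul_tmul', smul_eq_mul, mul_one]
        rw [h1, map_smul]
        have h2 : φ ((1 : 𝔭.ResidueField) ⊗ₜ[𝕋] x) = 0 := by
          have := DFunLike.congr_fun h0 x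
          exact this
        rw [h2, smul_zero]
      | add a b ha hb => rw [map_add, ha, hb, add_zero]
    exact hall z
  -- the embedding of the residue field
  set f : 𝕋 →+* K := (algebraMap O K).comp χ with hf
  have hinj : Function.Injective (algebraMap O K) := IsFractionRing.injective O K
  have hf₁ : 𝔭 ≤ RingHom.ker f := by
    intro T hT
    rw [RingHom.mem_ker] at hT ⊢
    rw [hf, RingHom.comp_apply, hT, map_zero]
  have hf₂ : 𝔭.primeCompl ≤ (IsUnit.submonoid K).comap f := by
    intro T hT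
    rw [Submonoid.mem_comap, IsUnit.mem_submonoid_iff, isUnit_iff_ne_zero]
    intro h0
    apply hT
    show T ∈ RingHom.ker χ
    rw [RingHom.mem_ker]
    apply hinj
    rw [map_zero]
    exact h0
  set ι : 𝔭.ResidueField →+* K := Ideal.ResidueField.lift 𝔭 f hf₁ hf₂ with hι
  have hιinj : Function.Injective ι := ι.injective
  refine ⟨ι.toAddMonoidHom.comp ν₀, ?_, fun T x => ?_⟩
  · intro h0
    apply hν₀ne
    ext x
    apply hιinj
    have h1 : ι (ν₀ x) = 0 := DFunLike.congr_fun h0 x
    rw [h1, AddMonoidHom.zero_apply, map_zero]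
  · show ι (ν₀ (T • x)) = algebraMap O K (χ T) * ι (ν₀ x)
    rw [hν₀T, map_mul, hι, Ideal.ResidueField.lift_algebraMap]
    rfl

/-- **Eigen-functional.**  A commutative ring `𝕋` acting faithfully on a finite module `L`, and
a character `χ` of `𝕋` with values in a valuation ring `O` (a domain): there is an additive
`ν : L → O` with `ν (T x) = χ T * ν x` taking the value `1`. -/
theorem exists_eigen_functional [ValuationRing O]
    (hfaith : ∀ T : 𝕋, (∀ x : L, T • x = 0) → T = 0) (χ : 𝕋 →+* O) :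
    ∃ (ν : L →+ O) (x₀ : L), ν x₀ = 1 ∧ ∀ (T : 𝕋) (x : L), ν (T • x) = χ T * ν x := by
  classical
  obtain ⟨ν₁, hν₁ne, hν₁T⟩ := exists_eigen_frac (L := L) (FractionRing O) hfaith χ
  obtain ⟨s, hs⟩ := (Module.Finite.fg_top : (⊤ : Submodule 𝕋 L).FG)
  set v := ValuationRing.valuation O (FractionRing O) with hv
  have hsne : ∃ x ∈ s, ν₁ x ≠ 0 := by
    by_contra hcon
    push Not at hcon
    apply hν₁ne
    ext x
    have hx : x ∈ Submodule.span 𝕋 (s : Set L) := by rw [hs]; trivial
    rw [AddMonoidHom.zero_apply]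
    induction hx using Submodule.span_induction with
    | mem y hy => exact hcon y hy
    | zero => exact map_zero ν₁
    | add y z _ _ hy hz => rw [map_add, hy, hz, add_zero]
    | smul T y _ hy => rw [hν₁T, hy, mul_zero]
  obtain ⟨x₁, hx₁s, hx₁⟩ := hsne
  obtain ⟨x₀, hx₀s, hmax⟩ := Finset.exists_max_image s (fun x => v (ν₁ x)) ⟨x₁, hx₁s⟩
  have hx₀ : ν₁ x₀ ≠ 0 := by
    intro h0
    have h1 : v (ν₁ x₁) ≤ v (ν₁ x₀) := hmax x₁ hx₁s
    rw [h0, map_zero] at h1
    exact hx₁ ((Valuation.zero_iff v).mp (le_antisymm h1 zero_le))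
  have hvx₀ : v (ν₁ x₀) ≠ 0 := fun h => hx₀ ((Valuation.zero_iff v).mp h)
  have hint : ∀ x : L, ∃ a : O, algebraMap O (FractionRing O) a = (ν₁ x₀)⁻¹ * ν₁ x := by
    intro x
    have hx : x ∈ Submodule.span 𝕋 (s : Set L) := by rw [hs]; trivial
    induction hx using Submodule.span_induction with
    | mem y hy =>
      have h1 : v ((ν₁ x₀)⁻¹ * ν₁ y) ≤ 1 := by
        rw [map_mul, map_inv₀]
        calc (v (ν₁ x₀))⁻¹ * v (ν₁ y) ≤ (v (ν₁ x₀))⁻¹ * v (ν₁ x₀) :=
              mul_le_mul' le_rfl (hmax y hy)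
          _ = 1 := inv_mul_cancel₀ hvx₀
      exact (ValuationRing.mem_integer_iff O (FractionRing O) _).mp
        ((Valuation.mem_integer_iff v _).mpr h1)
    | zero => exact ⟨0, by rw [map_zero, map_zero, mul_zero]⟩
    | add y z _ _ hy hz =>
      obtain ⟨a, ha⟩ := hy
      obtain ⟨b, hb⟩ := hz
      exact ⟨a + b, by rw [map_add, map_add, mul_add, ha, hb]⟩
    | smul T y _ hy =>
      obtain ⟨a, ha⟩ := hy
      exact ⟨χ T * a, by rw [map_mul, ha, hν₁T]; ring⟩
  choose g hg using hint
  have hinj : Function.Injective (algebraMap O (FractionRing O)) :=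
    IsFractionRing.injective O (FractionRing O)
  have hg0 : g 0 = 0 := by
    apply hinj
    rw [hg, map_zero, map_zero, mul_zero]
  have hgadd : ∀ x y : L, g (x + y) = g x + g y := by
    intro x y
    apply hinj
    rw [hg, map_add, map_add, hg, hg, mul_add]
  refine ⟨⟨⟨g, hg0⟩, hgadd⟩, x₀, ?_, fun T x => ?_⟩
  · apply hinj
    show algebraMap O (FractionRing O) (g x₀) = algebraMap O (FractionRing O) 1
    rw [hg, map_one, inv_mul_cancel₀ hx₀]
  · apply hinj
    show algebraMap O (FractionRing O) (g (T • x)) = algebraMap O (FractionRing O) (χ T * g x)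
    rw [hg, map_mul, hg, hν₁T]
    ring

/-- the same for an action given by a ring homomorphism into the endomorphisms of a finitely
generated abelian group. -/
theorem exists_eigen_functional' {𝕋 L O : Type*} [CommRing 𝕋] [AddCommGroup L]
    [Module.Finite ℤ L] [CommRing O] [IsDomain O] [ValuationRing O]
    (a : 𝕋 →+* Module.End ℤ L) (ha : Function.Injective a) (χ : 𝕋 →+* O) :
    ∃ (ν : L →+ O) (x₀ : L), ν x₀ = 1 ∧ ∀ (T : 𝕋) (x : L), ν (a T x) = χ T * ν x := by
  let _ : Module 𝕋 L := Module.compHom L a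
  have hsmul : ∀ (T : 𝕋) (x : L), T • x = a T x := fun _ _ => rfl
  have : IsScalarTower ℤ 𝕋 L := ⟨fun n T x => by
    rw [hsmul, hsmul, map_zsmul, LinearMap.smul_apply]⟩
  have : Module.Finite 𝕋 L := Module.Finite.of_restrictScalars_finite ℤ 𝕋 L
  have hfaith : ∀ T : 𝕋, (∀ x : L, T • x = 0) → T = 0 := by
    intro T hT
    apply ha
    rw [map_zero]
    ext x
    exact hT x
  obtain ⟨ν, x₀, h1, h2⟩ := exists_eigen_functional (L := L) hfaith χ
  exact ⟨ν, x₀, h1, fun T x => h2 T x⟩

end Fermat.Agent.S30.EigenFun
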