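import Mathlib
import Fermat.Agent.S29_Eis

/-!
# S30 (long shot), WP-A: twisted Eisenstein series for a character modulo an arbitrary `m`

The copy of `S29.Eis.exists_twisted` for a modulus `m ≠ 0` which is not necessarily prime: all
the lemmas of `S29_Eis` are stated with `[NeZero p]`, only the final statement carried
`[Fact p.Prime]`.
-/

set_option autoImplicit false

noncomputable section

open UpperHalfPlane CongruenceSubgroup
open scoped MatrixGroups Manifold

namespace Fermat.Agent.S30.Eis

open Fermat.Agent.S29 Fermat.Agent.S29.Eis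

/-- **(B1) modulo `m`**: the twisted weight-4 Eisenstein series of an admissible character
`Γ₀(N) → ℤ/m`. -/
theorem exists_twisted (N m : ℕ) [NeZero N] [NeZero m] (χ : Additive (Gamma0 N) →+ ZMod m)
    (hχ : IsAdm N m χ) : ∃ E, IsTwisted N m χ E :=
  ⟨eis N m χ, eis_mdiff N m χ, eis_ne hχ, fun γ τ => eis_smul hχ γ τ, eis_bdd N m χ⟩

end Fermat.Agent.S30.Eis
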