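import Mathlib
import Fermat.Agent.S29_KumInj

/-!
# S30 (long shot), WP-A: relations between Kummer functions modulo an arbitrary `m`

The copies of `S29.KumInj.kum_rel` and `S29.KumInj.kum_add` for a modulus `p ≠ 0` which is not
necessarily prime (`[NeZero p]` instead of `[Fact p.Prime]`; the proofs are unchanged, primality
was never used).
-/

set_option autoImplicit false
set_option linter.style.haveILetI false
set_option linter.unusedVariables false
set_option linter.unusedSectionVars false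

noncomputable section

open UpperHalfPlane ModularCurve CongruenceSubgroup
open scoped MatrixGroups Manifold ModularForm

namespace Fermat.Agent.S30.KumInj

open Fermat.Agent.S24 Fermat.Agent.S24.Tower Fermat.Agent.S29 Fermat.Agent.S29.KumFun
  Fermat.Agent.S29.KumInj

/-- **Independence of the choice of forms**: two Kummer functions of the same character differ by
a `p`-th power. -/
theorem kum_rel (N p : ℕ) [NeZero N] [NeZero p] (χ : Additive (Gamma0 N) →+ ZMod p)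
    (h h' : FC N) : IsKum N p χ h → IsKum N p χ h' → KumRel ℂ (FC N) p h h' := by
  rintro ⟨E₁, E₂, hE₁, hE₂, hr⟩ ⟨F₁, F₂, hF₁, hF₂, hr'⟩
  have gE₁ := good_of_isTwisted hE₁
  have gE₂ := good_of_isTwisted hE₂
  have gF₁ := good_of_isTwisted hF₁
  have gF₂ := good_of_isTwisted hF₂
  have tE₁ := isTw_of_isTwisted hE₁
  have tE₂ := isTw_of_isTwisted hE₂
  have tF₁ := isTw_of_isTwisted hF₁
  have tF₂ := isTw_of_isTwisted hF₂
  -- `y = (E₁ F₂) / (E₂ F₁)`
  have t1 : IsTw N (4 * 2) (fun γ => zch p (χ (Additive.ofMul γ)) ^ 1)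
      (fun τ => E₁ τ * F₂ τ) :=
    (tE₁.mul tF₂).congr rfl (fun γ => by
      show zch p (χ (Additive.ofMul γ))
        * zch p ((0 : Additive (Gamma0 N) →+ ZMod p) (Additive.ofMul γ)) = _
      rw [AddMonoidHom.zero_apply, Eis.zch_zero, mul_one, pow_one]) (fun τ => rfl)
  have t2 : IsTw N (4 * 2) (fun γ => zch p (χ (Additive.ofMul γ)) ^ 1)
      (fun τ => E₂ τ * F₁ τ) :=
    (tE₂.mul tF₁).congr rfl (fun γ => by
      show zch p ((0 : Additive (Gamma0 N) →+ ZMod p) (Additive.ofMul γ))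
        * zch p (χ (Additive.ofMul γ)) = _
      rw [AddMonoidHom.zero_apply, Eis.zch_zero, one_mul, pow_one]) (fun τ => rfl)
  obtain ⟨y, hy⟩ := exists_realizes_of_tw N p χ E₁ E₂ hE₁ hE₂ 2 1 _ _ t1 t2 (gE₂.mul gF₁).2
  have hy0 : y ≠ 0 := realizes_ne_zero N hy (gE₁.mul gF₂)
  have h1 := realizes_mul N (realizes_pow N hy p) hr'
  have gD : Good (fun τ => (E₂ τ * F₁ τ) ^ p * F₂ τ ^ p) := ((gE₂.mul gF₁).pow p).mul (gF₂.pow p)
  have h2 : Realizes N (y ^ p * h') (fun τ => E₁ τ ^ p) (fun τ => E₂ τ ^ p) :=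
    realizes_congr N h1 gD.1 gD.2 (gE₁.pow p).1.continuous (gE₂.pow p).1.continuous
      (fun τ => by
        show (E₁ τ * F₂ τ) ^ p * F₁ τ ^ p * E₂ τ ^ p = (E₂ τ * F₁ τ) ^ p * F₂ τ ^ p * E₁ τ ^ p
        rw [mul_pow, mul_pow]
        ring)
  have h3 : h = y ^ p * h' := realizes_unique N hr h2 (gE₂.pow p).1 (gE₂.pow p).2
  exact ⟨1, y, one_ne_zero, hy0, by rw [map_one, one_mul, h3]⟩

/-- **Additivity**: a Kummer function of `χ + χ'` is the product of Kummer functions of `χ` and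
`χ'`, up to a `p`-th power. -/
theorem kum_add (N p : ℕ) [NeZero N] [NeZero p] (χ χ' : Additive (Gamma0 N) →+ ZMod p)
    (h h' h'' : FC N) : IsKum N p χ h → IsKum N p χ' h' → IsKum N p (χ + χ') h'' →
    KumRel ℂ (FC N) p h'' (h * h') := by
  rintro ⟨E₁, E₂, hE₁, hE₂, hr⟩ ⟨F₁, F₂, hF₁, hF₂, hr'⟩ ⟨G₁, G₂, hG₁, hG₂, hr''⟩
  have gE₁ := good_of_isTwisted hE₁
  have gE₂ := good_of_isTwisted hE₂
  have gF₁ := good_of_isTwisted hF₁
  have gF₂ := good_of_isTwisted hF₂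
  have gG₁ := good_of_isTwisted hG₁
  have gG₂ := good_of_isTwisted hG₂
  have tE₁ := isTw_of_isTwisted hE₁
  have tE₂ := isTw_of_isTwisted hE₂
  have tF₁ := isTw_of_isTwisted hF₁
  have tF₂ := isTw_of_isTwisted hF₂
  have tG₁ := isTw_of_isTwisted hG₁
  have tG₂ := isTw_of_isTwisted hG₂
  -- `y = (G₁ E₂ F₂) / (G₂ E₁ F₁)`
  have t1 : IsTw N (4 * 3) (fun γ => zch p ((χ + χ') (Additive.ofMul γ)) ^ 1)
      (fun τ => G₁ τ * E₂ τ * F₂ τ) :=
    ((tG₁.mul tE₂).mul tF₂).congr rfl (fun γ => by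
      show zch p ((χ + χ') (Additive.ofMul γ))
        * zch p ((0 : Additive (Gamma0 N) →+ ZMod p) (Additive.ofMul γ))
        * zch p ((0 : Additive (Gamma0 N) →+ ZMod p) (Additive.ofMul γ)) = _
      rw [AddMonoidHom.zero_apply, Eis.zch_zero, mul_one, mul_one, pow_one]) (fun τ => rfl)
  have t2 : IsTw N (4 * 3) (fun γ => zch p ((χ + χ') (Additive.ofMul γ)) ^ 1)
      (fun τ => G₂ τ * E₁ τ * F₁ τ) :=
    ((tG₂.mul tE₁).mul tF₁).congr rfl (fun γ => by
      show zch p ((0 : Additive (Gamma0 N) →+ ZMod p) (Additive.ofMul γ))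
        * zch p (χ (Additive.ofMul γ)) * zch p (χ' (Additive.ofMul γ)) = _
      rw [AddMonoidHom.zero_apply, Eis.zch_zero, one_mul, pow_one, AddMonoidHom.add_apply,
        Eis.zch_add]) (fun τ => rfl)
  obtain ⟨y, hy⟩ := exists_realizes_of_tw N p (χ + χ') G₁ G₂ hG₁ hG₂ 3 1 _ _ t1 t2
    ((gG₂.mul gE₁).mul gF₁).2
  have hy0 : y ≠ 0 := realizes_ne_zero N hy ((gG₁.mul gE₂).mul gF₂)
  have h1 := realizes_mul N (realizes_pow N hy p) (realizes_mul N hr hr')
  have gD : Good (fun τ => (G₂ τ * E₁ τ * F₁ τ) ^ p * (E₂ τ ^ p * F₂ τ ^ p)) :=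
    (((gG₂.mul gE₁).mul gF₁).pow p).mul ((gE₂.pow p).mul (gF₂.pow p))
  have h2 : Realizes N (y ^ p * (h * h')) (fun τ => G₁ τ ^ p) (fun τ => G₂ τ ^ p) :=
    realizes_congr N h1 gD.1 gD.2 (gG₁.pow p).1.continuous (gG₂.pow p).1.continuous
      (fun τ => by
        show (G₁ τ * E₂ τ * F₂ τ) ^ p * (E₁ τ ^ p * F₁ τ ^ p) * G₂ τ ^ p
          = (G₂ τ * E₁ τ * F₁ τ) ^ p * (E₂ τ ^ p * F₂ τ ^ p) * G₁ τ ^ p
        rw [mul_pow, mul_pow, mul_pow, mul_pow]
        ring)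
  have h3 : h'' = y ^ p * (h * h') := realizes_unique N hr'' h2 (gG₂.pow p).1 (gG₂.pow p).2
  exact ⟨1, y, one_ne_zero, hy0, by rw [map_one, one_mul, h3]⟩

end Fermat.Agent.S30.KumInj
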