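import Mathlib
import Fermat.Agent.S29_KumInjC

/-!
# S30 (long shot), WP-A: injectivity of the Kummer map modulo an arbitrary `m`

The copy of `S29.KumInjC.kum_inj` for a modulus `p ≠ 0` which is not necessarily prime
(`[NeZero p]` instead of `[Fact p.Prime]`; the proof only used `p ≠ 0`).
-/

set_option autoImplicit false

noncomputable section

open UpperHalfPlane ModularCurve CongruenceSubgroup
open scoped MatrixGroups Manifold

namespace Fermat.Agent.S30.KumInjC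

open Fermat.Agent.S24 Fermat.Agent.S24.Tower Fermat.Agent.S29 Fermat.Agent.S29.KumInjC

variable (N p : ℕ) [NeZero N]

/-- **(B4, injectivity)** a Kummer function of `χ` which is a constant times a `p`-th power
forces `χ = 0`. -/
theorem kum_inj [NeZero p] (χ : Additive (Gamma0 N) →+ ZMod p) (hχ : IsAdm N p χ) (h : FC N)
    (hk : IsKum N p χ h) (hrel : KumRel ℂ (FC N) p h 1) : χ = 0 := by
  have hp0 : p ≠ 0 := NeZero.ne p
  obtain ⟨E₁, E₂, hE₁, hE₂, a, b, hb, hab, hpt⟩ := hk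
  obtain ⟨c, y, hc, hy, hhy⟩ := hrel
  rw [mul_one] at hhy
  -- a fraction for `y`
  obtain ⟨ay, s, hs, hfr⟩ := IsFractionRing.div_surjective (A := modRing ℂ N) (phiC N y)
  have hs0 : s ≠ 0 := nonZeroDivisors.ne_zero hs
  have hsF : algebraMap (modRing ℂ N) (ModField ℂ N) s ≠ 0 :=
    (map_ne_zero_iff _ (IsFractionRing.injective (modRing ℂ N) (ModField ℂ N))).mpr hs0
  have hyfrac : phiC N y * algebraMap (modRing ℂ N) (ModField ℂ N) s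
      = algebraMap (modRing ℂ N) (ModField ℂ N) ay := by
    rw [← hfr, div_mul_cancel₀ _ hsF]
  -- the identity `a * s ^ p = c * (b * ay ^ p)` in the ring of modular functions
  have hring : a * s ^ p = algebraMap ℂ (modRing ℂ N) c * (b * ay ^ p) := by
    apply IsFractionRing.injective (modRing ℂ N) (ModField ℂ N)
    rw [map_mul, map_pow, map_mul, map_mul, map_pow, ← IsScalarTower.algebraMap_apply, ← hab,
      hhy, map_mul, AlgHom.commutes, map_pow, ← hyfrac]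
    ring
  have hpt2 : ∀ τ : ℍ, (a : ℍ → ℂ) τ * (s : ℍ → ℂ) τ ^ p
      = c * ((b : ℍ → ℂ) τ * (ay : ℍ → ℂ) τ ^ p) := fun τ =>
    congrFun (congrArg Subtype.val hring) τ
  -- cancel `b`
  have hcomb : ∀ τ : ℍ, (b : ℍ → ℂ) τ
      * ((E₁ τ * (s : ℍ → ℂ) τ) ^ p - c * (E₂ τ * (ay : ℍ → ℂ) τ) ^ p) = 0 := by
    intro τ
    have h1 := hpt τ
    have h2 := hpt2 τ
    simp only at h1
    linear_combination (-(s : ℍ → ℂ) τ ^ p) * h1 + E₂ τ ^ p * h2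
  have hpow : ∀ τ : ℍ, (E₁ τ * (s : ℍ → ℂ) τ) ^ p = c * (E₂ τ * (ay : ℍ → ℂ) τ) ^ p := by
    rcases mdiff_mul_eq_zero b.2.1
      (mdiff_sub (mdiff_pow (mdiff_mul hE₁.mdiff s.2.1) p)
        (mdiff_const_mul c (mdiff_pow (mdiff_mul hE₂.mdiff ay.2.1) p))) hcomb with h0 | h0
    · exact absurd (Subtype.ext (funext h0)) hb
    · exact fun τ => sub_eq_zero.mp (h0 τ)
  -- extract the root
  obtain ⟨c₁, hc₁⟩ := IsAlgClosed.exists_pow_nat_eq c (Nat.pos_of_ne_zero hp0)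
  have hpow' : ∀ τ : ℍ, (E₁ τ * (s : ℍ → ℂ) τ) ^ p = (c₁ * (E₂ τ * (ay : ℍ → ℂ) τ)) ^ p := by
    intro τ
    rw [hpow τ, ← hc₁, ← mul_pow]
  obtain ⟨ζ, hζ⟩ := exists_eq_mul_of_pow_eq (mdiff_mul hE₁.mdiff s.2.1)
    (mdiff_const_mul c₁ (mdiff_mul hE₂.mdiff ay.2.1)) p hp0 hpow'
  -- the character is trivial
  apply AddMonoidHom.ext
  intro g
  obtain ⟨γ, rfl⟩ : ∃ γ : Gamma0 N, Additive.ofMul γ = g := ⟨Additive.toMul g, rfl⟩
  rw [AddMonoidHom.zero_apply, ← zch_eq_one_iff p]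
  by_contra hz
  have hinvr := ratio_invariant N y ay s hyfrac (γ : SL(2, ℤ)) γ.2
  have hJ : ∀ τ : ℍ, ((((γ : SL(2, ℤ)) 1 0 : ℤ) : ℂ) * (τ : ℂ) + (((γ : SL(2, ℤ)) 1 1 : ℤ) : ℂ)) ≠ 0 :=
    fun τ => by
      rw [← ModularGroup.denom_apply]
      exact denom_ne_zero _ τ
  -- `E₁ * (s * s ∘ γ) = 0`
  have hzero : ∀ τ : ℍ, E₁ τ * ((s : ℍ → ℂ) τ * ((γ⁻¹ : SL(2, ℤ)) • s : modRing ℂ N).1 τ) = 0 := by
    intro τ
    have e1 : ((γ⁻¹ : SL(2, ℤ)) • s : modRing ℂ N).1 τ = (s : ℍ → ℂ) ((γ : SL(2, ℤ)) • τ) := by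
      show ((((γ : SL(2, ℤ))⁻¹ • s : modRing ℂ N)) : ℍ → ℂ) τ = _
      rw [Tower.smul_apply, inv_inv]
    rw [e1]
    have hs1 := hE₁.slash γ τ
    have hs2 := hE₂.slash γ τ
    rw [AddMonoidHom.zero_apply, show zch p (0 : ZMod p) = 1 from (zch_eq_one_iff p 0).mpr rfl,
      one_mul] at hs2
    have hζ1 := hζ τ
    have hζ2 := hζ ((γ : SL(2, ℤ)) • τ)
    rw [hs1, hs2] at hζ2
    have hr := hinvr τ
    set J := ((((γ : SL(2, ℤ)) 1 0 : ℤ) : ℂ) * (τ : ℂ) + (((γ : SL(2, ℤ)) 1 1 : ℤ) : ℂ)) ^ 4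
      with hJdef
    have hJ0 : J ≠ 0 := pow_ne_zero 4 (hJ τ)
    set z := zch p (χ (Additive.ofMul γ)) with hzdef
    have hz1 : z - 1 ≠ 0 := sub_ne_zero.mpr hz
    have key : (z - 1) * J * (E₁ τ * ((s : ℍ → ℂ) τ * (s : ℍ → ℂ) ((γ : SL(2, ℤ)) • τ))) = 0 := by
      linear_combination (s : ℍ → ℂ) τ * hζ2 + (-J * (s : ℍ → ℂ) ((γ : SL(2, ℤ)) • τ)) * hζ1
        + (-ζ * c₁ * J * E₂ τ) * hr
    exact (mul_eq_zero.mp key).resolve_left (mul_ne_zero hz1 hJ0)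
  have hs' : ((γ⁻¹ : SL(2, ℤ)) • s : modRing ℂ N) ≠ 0 := by
    rw [Ne, smul_eq_zero_iff_eq]
    exact hs0
  rcases mdiff_mul_eq_zero hE₁.mdiff
    (mdiff_mul s.2.1 ((γ⁻¹ : SL(2, ℤ)) • s : modRing ℂ N).2.1) hzero with h0 | h0
  · obtain ⟨τ, hτ⟩ := hE₁.ne
    exact hτ (h0 τ)
  · rcases mdiff_mul_eq_zero s.2.1 ((γ⁻¹ : SL(2, ℤ)) • s : modRing ℂ N).2.1 h0 with h1 | h1
    · exact hs0 (Subtype.ext (funext h1))
    · exact hs' (Subtype.ext (funext h1))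

end Fermat.Agent.S30.KumInjC
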