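import Mathlib
import Fermat.Prelude.Def_GaloisRep_Adic

/-!
# S30 (long shot), WP-E, generic half: from a bounded matrix representation over the fraction
field of a discrete valuation ring to a representation on a free module of rank two

For a discrete valuation ring `O` with fraction field `K` and a homomorphism
`ρK : G → M₂(K)` whose entries have bounded denominators, the `O`-span `lat ρK` of the columns
of all `ρK g` is a free `O`-module of rank two, stable under `G`; the characteristic polynomial
of `g` on it is `X² - tr(ρK g) X + det(ρK g)`; an entrywise congruence `ρK σ ≡ 1` (with a fixed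
denominator) on open subgroups gives the adic continuity.  `exists_rep_of_matrix` packages this
as a `GaloisRepAdic O`.
-/

set_option autoImplicit false
set_option linter.unusedSectionVars false
set_option linter.style.haveILetI false

noncomputable section

open Polynomial

namespace Fermat.Agent.S30.Lattice

local notation "Qbar" => AlgebraicClosure ℚ
local notation "GQ" => (AlgebraicClosure ℚ ≃ₐ[ℚ] AlgebraicClosure ℚ)

section Generic

variable {O : Type} [CommRing O] [IsDomain O] [IsDiscreteValuationRing O]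
variable {G : Type*} [Group G]

/-- the `j`-th column of a `2 × 2` matrix -/
def colv (M : Matrix (Fin 2) (Fin 2) (FractionRing O)) (j : Fin 2) : Fin 2 → FractionRing O :=
  fun i => M i j

theorem colv_mul (A B : Matrix (Fin 2) (Fin 2) (FractionRing O)) (j : Fin 2) :
    colv (A * B) j = A.mulVec (colv B j) := by
  funext i
  simp [colv, Matrix.mul_apply, Matrix.mulVec, dotProduct]

theorem colv_one (j : Fin 2) :
    colv (1 : Matrix (Fin 2) (Fin 2) (FractionRing O)) j = Pi.single j 1 := by
  funext i
  simp [colv, Matrix.one_apply, Pi.single_apply]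

/-- the lattice spanned by the columns of all `ρK g` -/
def lat (ρK : G →* Matrix (Fin 2) (Fin 2) (FractionRing O)) : Submodule O (Fin 2 → FractionRing O) :=
  Submodule.span O (Set.range (fun p : G × Fin 2 => colv (ρK p.1) p.2))

/-- the action of `g` on `K²`, as an `O`-linear map -/
def actK (ρK : G →* Matrix (Fin 2) (Fin 2) (FractionRing O)) (g : G) :
    (Fin 2 → FractionRing O) →ₗ[O] (Fin 2 → FractionRing O) :=
  (Matrix.mulVecLin (ρK g)).restrictScalars O

theorem actK_apply (ρK : G →* Matrix (Fin 2) (Fin 2) (FractionRing O)) (g : G)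
    (v : Fin 2 → FractionRing O) : actK ρK g v = (ρK g).mulVec v := rfl

theorem actK_mem_lat (ρK : G →* Matrix (Fin 2) (Fin 2) (FractionRing O)) (h : G) :
    ∀ v ∈ lat ρK, actK ρK h v ∈ lat ρK := by
  have hle : lat ρK ≤ (lat ρK).comap (actK ρK h) := by
    refine Submodule.span_le.mpr ?_
    rintro _ ⟨⟨g, j⟩, rfl⟩
    show actK ρK h (colv (ρK g) j) ∈ lat ρK
    rw [actK_apply, ← colv_mul, ← map_mul]
    exact Submodule.subset_span ⟨⟨h * g, j⟩, rfl⟩
  exact fun v hv => hle hv

theorem single_mem_lat (ρK : G →* Matrix (Fin 2) (Fin 2) (FractionRing O)) (j : Fin 2) :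
    (Pi.single j 1 : Fin 2 → FractionRing O) ∈ lat ρK := by
  rw [← colv_one, ← map_one ρK]
  exact Submodule.subset_span ⟨⟨1, j⟩, rfl⟩

/-- vectors with entries in `O` lie in the lattice -/
theorem int_mem_lat (ρK : G →* Matrix (Fin 2) (Fin 2) (FractionRing O)) (u : Fin 2 → O) :
    (fun i => algebraMap O (FractionRing O) (u i)) ∈ lat ρK := by
  have h : (fun i => algebraMap O (FractionRing O) (u i))
      = u 0 • (Pi.single 0 1 : Fin 2 → FractionRing O)
        + u 1 • (Pi.single 1 1 : Fin 2 → FractionRing O) := by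
    funext i
    fin_cases i <;> simp [Algebra.smul_def]
  rw [h]
  exact add_mem (Submodule.smul_mem _ _ (single_mem_lat ρK 0))
    (Submodule.smul_mem _ _ (single_mem_lat ρK 1))

/-- `u ↦ b⁻¹ u` -/
def fb (b : O) : (Fin 2 → O) →ₗ[O] (Fin 2 → FractionRing O) where
  toFun u := fun i => (algebraMap O (FractionRing O) b)⁻¹ * algebraMap O (FractionRing O) (u i)
  map_add' u v := by
    funext i
    simp [mul_add]
  map_smul' a u := by
    funext i
    simp [Algebra.smul_def]
    ring

theorem fb_injective {b : O} (hb : b ≠ 0) : Function.Injective (fb b) := by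
  intro u v h
  funext i
  have h1 := congrFun h i
  have hb' : algebraMap O (FractionRing O) b ≠ 0 :=
    (map_ne_zero_iff _ (IsFractionRing.injective O (FractionRing O))).mpr hb
  have h2 : algebraMap O (FractionRing O) (u i) = algebraMap O (FractionRing O) (v i) :=
    mul_left_cancel₀ (inv_ne_zero hb') h1
  exact IsFractionRing.injective O (FractionRing O) h2

theorem lat_le_range (ρK : G →* Matrix (Fin 2) (Fin 2) (FractionRing O)) {b : O} (hb : b ≠ 0)
    (hbdd : ∀ g i j, ∃ r : O,
      algebraMap O (FractionRing O) b * ρK g i j = algebraMap O (FractionRing O) r) :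
    lat ρK ≤ LinearMap.range (fb b) := by
  have hb' : algebraMap O (FractionRing O) b ≠ 0 :=
    (map_ne_zero_iff _ (IsFractionRing.injective O (FractionRing O))).mpr hb
  refine Submodule.span_le.mpr ?_
  rintro _ ⟨⟨g, j⟩, rfl⟩
  choose r hr using fun i => hbdd g i j
  refine ⟨r, ?_⟩
  funext i
  show (algebraMap O (FractionRing O) b)⁻¹ * algebraMap O (FractionRing O) (r i) = ρK g i j
  rw [← hr i, ← mul_assoc, inv_mul_cancel₀ hb', one_mul]

theorem lat_bdd (ρK : G →* Matrix (Fin 2) (Fin 2) (FractionRing O)) {b : O} (hb : b ≠ 0)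
    (hbdd : ∀ g i j, ∃ r : O,
      algebraMap O (FractionRing O) b * ρK g i j = algebraMap O (FractionRing O) r)
    {v : Fin 2 → FractionRing O} (hv : v ∈ lat ρK) (j : Fin 2) :
    ∃ w : O, algebraMap O (FractionRing O) b * v j = algebraMap O (FractionRing O) w := by
  have hb' : algebraMap O (FractionRing O) b ≠ 0 :=
    (map_ne_zero_iff _ (IsFractionRing.injective O (FractionRing O))).mpr hb
  obtain ⟨u, rfl⟩ := lat_le_range ρK hb hbdd hv
  refine ⟨u j, ?_⟩
  show algebraMap O (FractionRing O) b
    * ((algebraMap O (FractionRing O) b)⁻¹ * algebraMap O (FractionRing O) (u j)) = _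
  rw [← mul_assoc, mul_inv_cancel₀ hb', one_mul]

theorem lat_finite (ρK : G →* Matrix (Fin 2) (Fin 2) (FractionRing O)) {b : O} (hb : b ≠ 0)
    (hbdd : ∀ g i j, ∃ r : O,
      algebraMap O (FractionRing O) b * ρK g i j = algebraMap O (FractionRing O) r) :
    Module.Finite O (lat ρK) := by
  haveI : IsNoetherian O (LinearMap.range (fb (O := O) b)) :=
    isNoetherian_of_surjective (fb b).rangeRestrict (LinearMap.range_rangeRestrict _)
  haveI : IsNoetherian O (lat ρK) := isNoetherian_of_le (lat_le_range ρK hb hbdd)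
  infer_instance

theorem lat_finrank (ρK : G →* Matrix (Fin 2) (Fin 2) (FractionRing O)) {b : O} (hb : b ≠ 0)
    (hbdd : ∀ g i j, ∃ r : O,
      algebraMap O (FractionRing O) b * ρK g i j = algebraMap O (FractionRing O) r) :
    Module.finrank O (lat ρK) = 2 := by
  haveI := lat_finite ρK hb hbdd
  apply le_antisymm
  · -- an injection of the lattice into `O²`
    let e := LinearEquiv.ofInjective (fb (O := O) b) (fb_injective hb)
    let f : lat ρK →ₗ[O] (Fin 2 → O) :=
      e.symm.toLinearMap.comp (Submodule.inclusion (lat_le_range ρK hb hbdd))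
    have hf : Function.Injective f :=
      e.symm.injective.comp (Submodule.inclusion_injective _)
    have := LinearMap.finrank_le_finrank_of_injective hf
    rwa [Module.finrank_fin_fun] at this
  · -- an injection of `O²` into the lattice
    let g₀ : (Fin 2 → O) →ₗ[O] (Fin 2 → FractionRing O) :=
      (Algebra.linearMap O (FractionRing O)).compLeft (Fin 2)
    have hg₀ : ∀ u, g₀ u ∈ lat ρK := fun u => int_mem_lat ρK u
    let g₁ : (Fin 2 → O) →ₗ[O] lat ρK := LinearMap.codRestrict (lat ρK) g₀ hg₀
    have hg₁ : Function.Injective g₁ := by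
      intro u v h
      funext i
      have h1 := congrArg (fun w : lat ρK => (w : Fin 2 → FractionRing O) i) h
      exact IsFractionRing.injective O (FractionRing O) h1
    have := LinearMap.finrank_le_finrank_of_injective hg₁
    rwa [Module.finrank_fin_fun] at this

/-- the representation on the lattice -/
def latRep (ρK : G →* Matrix (Fin 2) (Fin 2) (FractionRing O)) : G →* Module.End O (lat ρK) where
  toFun g := (actK ρK g).restrict (actK_mem_lat ρK g)
  map_one' := by
    apply LinearMap.ext
    intro v
    apply Subtype.ext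
    show (ρK 1).mulVec (v : Fin 2 → FractionRing O) = v
    rw [map_one, Matrix.one_mulVec]
  map_mul' g h := by
    apply LinearMap.ext
    intro v
    apply Subtype.ext
    show (ρK (g * h)).mulVec (v : Fin 2 → FractionRing O)
      = (ρK g).mulVec ((ρK h).mulVec (v : Fin 2 → FractionRing O))
    rw [map_mul, Matrix.mulVec_mulVec]

theorem latRep_apply (ρK : G →* Matrix (Fin 2) (Fin 2) (FractionRing O)) (g : G) (v : lat ρK) :
    ((latRep ρK g v : lat ρK) : Fin 2 → FractionRing O)
      = (ρK g).mulVec (v : Fin 2 → FractionRing O) := rfl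

/-- the characteristic polynomial on the lattice -/
theorem charpoly_latRep (ρK : G →* Matrix (Fin 2) (Fin 2) (FractionRing O))
    [Module.Free O (lat ρK)] [Module.Finite O (lat ρK)]
    (hrank : Module.finrank O (lat ρK) = 2) (g : G) (t d : O)
    (htr : (ρK g).trace = algebraMap O (FractionRing O) t)
    (hdet : (ρK g).det = algebraMap O (FractionRing O) d) :
    LinearMap.charpoly (latRep ρK g) = X ^ 2 - C t * X + C d := by
  classical
  let B := Module.finBasisOfFinrankEq O (lat ρK) hrank
  rw [← LinearMap.charpoly_toMatrix (latRep ρK g) B, Matrix.charpoly_fin_two]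
  set M := LinearMap.toMatrix B B (latRep ρK g) with hM
  -- the matrix of the basis vectors
  let P : Matrix (Fin 2) (Fin 2) (FractionRing O) :=
    Matrix.of (fun i j => ((B j : lat ρK) : Fin 2 → FractionRing O) i)
  have hcol : P.col = fun j => ((B j : lat ρK) : Fin 2 → FractionRing O) := by
    funext j i
    rfl
  have hli : LinearIndependent (FractionRing O) P.col := by
    rw [hcol, ← LinearIndependent.iff_fractionRing O (FractionRing O)]
    exact B.linearIndependent.map' (lat ρK).subtype (Submodule.ker_subtype _)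
  obtain ⟨U, hU⟩ := Matrix.linearIndependent_cols_iff_isUnit.mp hli
  have hconj : ρK g * P = P * M.map (algebraMap O (FractionRing O)) := by
    ext i j
    have h1 : latRep ρK g (B j) = ∑ k, M k j • B k := by
      rw [← B.sum_repr (latRep ρK g (B j))]
      refine Finset.sum_congr rfl (fun k _ => ?_)
      rw [hM, LinearMap.toMatrix_apply]
    rw [Fin.sum_univ_two] at h1
    have h3 := congrArg (fun v : lat ρK => (v : Fin 2 → FractionRing O) i) h1
    have h4 : (ρK g).mulVec ((B j : lat ρK) : Fin 2 → FractionRing O) i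
        = M 0 j • ((B 0 : lat ρK) : Fin 2 → FractionRing O) i
          + M 1 j • ((B 1 : lat ρK) : Fin 2 → FractionRing O) i := h3
    rw [Algebra.smul_def, Algebra.smul_def] at h4
    have h5 : (ρK g).mulVec ((B j : lat ρK) : Fin 2 → FractionRing O) i
        = ρK g i 0 * ((B j : lat ρK) : Fin 2 → FractionRing O) 0
          + ρK g i 1 * ((B j : lat ρK) : Fin 2 → FractionRing O) 1 := by
      simp [Matrix.mulVec, dotProduct, Fin.sum_univ_two]
    rw [Matrix.mul_apply, Matrix.mul_apply, Fin.sum_univ_two, Fin.sum_univ_two]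
    show ρK g i 0 * ((B j : lat ρK) : Fin 2 → FractionRing O) 0
        + ρK g i 1 * ((B j : lat ρK) : Fin 2 → FractionRing O) 1
      = ((B 0 : lat ρK) : Fin 2 → FractionRing O) i * algebraMap O (FractionRing O) (M 0 j)
        + ((B 1 : lat ρK) : Fin 2 → FractionRing O) i * algebraMap O (FractionRing O) (M 1 j)
    rw [← h5, h4]
    ring
  set Um : Matrix (Fin 2) (Fin 2) (FractionRing O) := (U : Matrix (Fin 2) (Fin 2) (FractionRing O))
    with hUm
  set Ui : Matrix (Fin 2) (Fin 2) (FractionRing O) :=
    ((U⁻¹ : (Matrix (Fin 2) (Fin 2) (FractionRing O))ˣ) : Matrix (Fin 2) (Fin 2) (FractionRing O))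
    with hUi
  have hM' : M.map (algebraMap O (FractionRing O)) = Ui * ρK g * Um := by
    rw [mul_assoc, hU, hconj, ← hU, ← mul_assoc, hUi, hUm, Units.inv_mul, one_mul]
  have hinj := IsFractionRing.injective O (FractionRing O)
  have e1 : M.trace = t := by
    apply hinj
    rw [← htr, AddMonoidHom.map_trace (algebraMap O (FractionRing O)) M, hM']
    exact Matrix.trace_units_conj' U (ρK g)
  have e2 : M.det = d := by
    apply hinj
    have h3 : (Ui * ρK g * Um).det = (ρK g).det := by
      have := Matrix.det_units_conj U⁻¹ (ρK g)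
      rwa [inv_inv] at this
    rw [← hdet, RingHom.map_det, RingHom.mapMatrix_apply, hM', h3]
  rw [e1, e2]

end Generic

section Galois

variable {O : Type} [CommRing O] [IsDomain O] [IsDiscreteValuationRing O]

theorem one_mulVec_entry (x : Fin 2 → FractionRing O) (i : Fin 2) :
    x i = (1 : Matrix (Fin 2) (Fin 2) (FractionRing O)) i 0 * x 0
      + (1 : Matrix (Fin 2) (Fin 2) (FractionRing O)) i 1 * x 1 := by
  have h := congrFun (Matrix.one_mulVec x) i
  rw [← h]
  simp [Matrix.mulVec, dotProduct, Fin.sum_univ_two]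

/-- adic continuity from an entrywise congruence with a fixed denominator -/
theorem latRep_cont (ρK : GQ →* Matrix (Fin 2) (Fin 2) (FractionRing O)) {b : O} (hb : b ≠ 0)
    (hbdd : ∀ g i j, ∃ r : O,
      algebraMap O (FractionRing O) b * ρK g i j = algebraMap O (FractionRing O) r)
    {D : O} (hD : D ≠ 0)
    (hcont : ∀ n : ℕ, ∃ L : IntermediateField ℚ Qbar, FiniteDimensional ℚ L ∧
      ∀ σ : GQ, (∀ x ∈ L, σ x = x) → ∀ i j, ∃ r ∈ IsLocalRing.maximalIdeal O ^ n,
        algebraMap O (FractionRing O) D * (ρK σ - 1) i j = algebraMap O (FractionRing O) r) :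
    GaloisActionIsAdicContinuous O (latRep ρK) := by
  intro n
  obtain ⟨ϖ, hϖ⟩ := IsDiscreteValuationRing.exists_irreducible O
  obtain ⟨k, u, hk⟩ := IsDiscreteValuationRing.eq_unit_mul_pow_irreducible (mul_ne_zero hb hD) hϖ
  obtain ⟨L, hL, hσ⟩ := hcont (n + k)
  refine ⟨L, hL, fun σ hfix v => ?_⟩
  choose w hw using fun j => lat_bdd ρK hb hbdd v.2 j
  choose r hr hr' using hσ σ hfix
  have hs : ∀ i j, ∃ s : O, r i j = ϖ ^ (n + k) * s := by
    intro i j
    have h1 := hr i j
    rw [hϖ.maximalIdeal_eq, Ideal.span_singleton_pow, Ideal.mem_span_singleton] at h1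
    exact h1
  choose s hs using hs
  have hy := int_mem_lat ρK (fun i => (↑u⁻¹ : O) * (s i 0 * w 0 + s i 1 * w 1))
  have hbD : algebraMap O (FractionRing O) (b * D) ≠ 0 :=
    (map_ne_zero_iff _ (IsFractionRing.injective O (FractionRing O))).mpr (mul_ne_zero hb hD)
  have key : latRep ρK σ v - v = (ϖ ^ n) • (⟨_, hy⟩ : lat ρK) := by
    apply Subtype.ext
    funext i
    show (ρK σ).mulVec (v : Fin 2 → FractionRing O) i - (v : Fin 2 → FractionRing O) i
      = (ϖ ^ n) • algebraMap O (FractionRing O) ((↑u⁻¹ : O) * (s i 0 * w 0 + s i 1 * w 1))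
    rw [Algebra.smul_def]
    apply mul_left_cancel₀ hbD
    have e0 := hr' i 0
    have e1 := hr' i 1
    have hw0 := hw 0
    have hw1 := hw 1
    rw [hs i 0] at e0
    rw [hs i 1] at e1
    have e0' : algebraMap O (FractionRing O) D
        * (ρK σ i 0 - (1 : Matrix (Fin 2) (Fin 2) (FractionRing O)) i 0)
        = algebraMap O (FractionRing O) (ϖ ^ (n + k) * s i 0) := e0
    have e1' : algebraMap O (FractionRing O) D
        * (ρK σ i 1 - (1 : Matrix (Fin 2) (Fin 2) (FractionRing O)) i 1)
        = algebraMap O (FractionRing O) (ϖ ^ (n + k) * s i 1) := e1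
    have huu : (u : O) * (↑u⁻¹ : O) = 1 := Units.mul_inv u
    have hR : algebraMap O (FractionRing O) (b * D)
        * (algebraMap O (FractionRing O) (ϖ ^ n)
          * algebraMap O (FractionRing O) ((↑u⁻¹ : O) * (s i 0 * w 0 + s i 1 * w 1)))
        = algebraMap O (FractionRing O) (ϖ ^ (n + k) * s i 0) * algebraMap O (FractionRing O) (w 0)
          + algebraMap O (FractionRing O) (ϖ ^ (n + k) * s i 1)
            * algebraMap O (FractionRing O) (w 1) := by
      rw [← map_mul, ← map_mul, ← map_mul, ← map_mul, ← map_add]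
      congr 1
      rw [hk]
      linear_combination (ϖ ^ (n + k) * (s i 0 * w 0 + s i 1 * w 1)) * huu
    have hmv : (ρK σ).mulVec (v : Fin 2 → FractionRing O) i
        = ρK σ i 0 * (v : Fin 2 → FractionRing O) 0 + ρK σ i 1 * (v : Fin 2 → FractionRing O) 1 := by
      simp [Matrix.mulVec, dotProduct, Fin.sum_univ_two]
    have hv1 : (v : Fin 2 → FractionRing O) i
        = (1 : Matrix (Fin 2) (Fin 2) (FractionRing O)) i 0 * (v : Fin 2 → FractionRing O) 0
          + (1 : Matrix (Fin 2) (Fin 2) (FractionRing O)) i 1 * (v : Fin 2 → FractionRing O) 1 :=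
      one_mulVec_entry (v : Fin 2 → FractionRing O) i
    rw [hR, ← e0', ← e1', ← hw0, ← hw1, map_mul, hmv]
    linear_combination (-(algebraMap O (FractionRing O) b * algebraMap O (FractionRing O) D)) * hv1
  rw [key]
  have hϖm : ϖ ∈ IsLocalRing.maximalIdeal O := by
    rw [hϖ.maximalIdeal_eq]
    exact Ideal.mem_span_singleton_self ϖ
  exact Submodule.smul_mem_smul (Ideal.pow_mem_pow hϖm n) Submodule.mem_top

/-- **from a bounded, continuous matrix representation over the fraction field to a
`GaloisRepAdic`.** -/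
theorem exists_rep_of_matrix (O : Type) [CommRing O] [IsDomain O] [IsDiscreteValuationRing O]
    (t d : GQ → O) (ρK : GQ →* Matrix (Fin 2) (Fin 2) (FractionRing O))
    (htr : ∀ g, (ρK g).trace = algebraMap O (FractionRing O) (t g))
    (hdet : ∀ g, (ρK g).det = algebraMap O (FractionRing O) (d g))
    (hbdd : ∃ b : O, b ≠ 0 ∧ ∀ g i j, ∃ r : O,
      algebraMap O (FractionRing O) b * ρK g i j = algebraMap O (FractionRing O) r)
    (hcont : ∃ D : O, D ≠ 0 ∧ ∀ n : ℕ, ∃ L : IntermediateField ℚ Qbar, FiniteDimensional ℚ L ∧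
      ∀ σ : GQ, (∀ x ∈ L, σ x = x) → ∀ i j, ∃ r ∈ IsLocalRing.maximalIdeal O ^ n,
        algebraMap O (FractionRing O) D * (ρK σ - 1) i j = algebraMap O (FractionRing O) r) :
    ∃ ρ : GaloisRepAdic O,
      (∀ σ : GQ, LinearMap.charpoly (ρ.ρ σ) = X ^ 2 - C (t σ) * X + C (d σ)) ∧
      (∀ σ : GQ, ρK σ = 1 → ρ.ρ σ = 1) := by
  obtain ⟨b, hb, hbdd⟩ := hbdd
  obtain ⟨D, hD, hcont⟩ := hcont
  haveI : Module.Finite O (lat ρK) := lat_finite ρK hb hbdd
  haveI : Module.Free O (lat ρK) := Module.free_of_finite_type_torsion_free'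
  have hrank : Module.finrank O (lat ρK) = 2 := lat_finrank ρK hb hbdd
  refine ⟨{ V := lat ρK
            finrank_eq := hrank
            ρ := latRep ρK
            isAdicContinuous := latRep_cont ρK hb hbdd hD hcont }, fun σ => ?_, fun σ h1 => ?_⟩
  · exact charpoly_latRep ρK hrank σ (t σ) (d σ) (htr σ) (hdet σ)
  · show latRep ρK σ = 1
    apply LinearMap.ext
    intro v
    apply Subtype.ext
    show (ρK σ).mulVec (v : Fin 2 → FractionRing O) = v
    rw [h1, Matrix.one_mulVec]

end Galois

end Fermat.Agent.S30.Lattice
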