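import Mathlib
import Fermat.Prelude.Def_CuspForm_HeckeGaloisRepDatum
import Fermat.Agent.S29_BDefs2

/-!
# S31 (long shot): shared interfaces

`S31`: in a Hecke–Galois datum the representation is unramified outside `S`.  Plan: for an
inertia element `σ` at `q ∉ S` and every `g`, `tr ρ(g σ) = tr ρ(g)`; then Burnside + Nakayama
(the residual representation is absolutely irreducible) give `ρ(σ) = 1`.

The trace identity: modulo `𝔪 ^ k`, `tr ρ(g)` is `π (lucasSeq T_ℓ ℓ j)` where `g` agrees with the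
`j`-th power of a Frobenius lift at `ℓ` on a large number field; for `g` and `g σ` the two Lucas
elements act in the same way on `J₀(N)[p ^ n]` (Eichler–Shimura), hence differ by an element of
`p ^ k 𝕋` (Kummer classes of the period lattice + saturation).

* `lucasSeq a d`: `2, a, a² - 2d, …` (`s (j + 2) = a * s (j + 1) - d * s j`);
* `HeckeKeyStatement`: the Hecke side (`p ^ (n + v)`-torsion detects `p ^ n 𝕋`);
* `GalKeyStatement`: the Galois side (Frobenius density + Eichler–Shimura on `J₀(N)[p ^ n]`);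
* `TraceLucasStatement`, `TraceContStatement`, `BurnsideStatement`: the linear algebra of `ρ`.
-/

set_option autoImplicit false

noncomputable section

open ModularCurve AlgebraicCurve Polynomial

namespace Fermat.Agent.S31

local notation "Qbar" => AlgebraicClosure ℚ
local notation "GQ" => (AlgebraicClosure ℚ ≃ₐ[ℚ] AlgebraicClosure ℚ)

/-- the Lucas sequence `s 0 = 2`, `s 1 = a`, `s (j + 2) = a * s (j + 1) - d * s j`
(`= u ^ j + d ^ j * u ^ (-j)` when `a = u + d * u⁻¹`). -/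
def lucasSeq {R : Type*} [Ring R] (a d : R) : ℕ → R
  | 0 => 2
  | 1 => a
  | (j + 2) => a * lucasSeq a d (j + 1) - d * lucasSeq a d j

theorem lucasSeq_zero {R : Type*} [Ring R] (a d : R) : lucasSeq a d 0 = 2 := rfl

theorem lucasSeq_one {R : Type*} [Ring R] (a d : R) : lucasSeq a d 1 = a := rfl

theorem lucasSeq_succ_succ {R : Type*} [Ring R] (a d : R) (j : ℕ) :
    lucasSeq a d (j + 2) = a * lucasSeq a d (j + 1) - d * lucasSeq a d j := rfl

theorem map_lucasSeq {R R' : Type*} [Ring R] [Ring R'] (f : R →+* R') (a d : R) (j : ℕ) :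
    f (lucasSeq a d j) = lucasSeq (f a) (f d) j := by
  induction j using Nat.twoStepInduction with
  | zero => rw [lucasSeq_zero, lucasSeq_zero, map_ofNat]
  | one => rw [lucasSeq_one, lucasSeq_one]
  | more j h1 h2 => rw [lucasSeq_succ_succ, lucasSeq_succ_succ, map_sub, map_mul, map_mul, h1, h2]

/-- **(HK)**, the Hecke side: there is `v` such that for every `n` finitely many points
`y i ∈ J₀(N)[p ^ (n + v)]` detect divisibility by `p ^ n` in the Hecke algebra, for differences of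
Lucas elements. -/
def HeckeKeyStatement : Prop :=
  ∀ (p : ℕ) [Fact p.Prime] (N : ℕ) [NeZero N] (S : Finset ℕ),
    ∃ v : ℕ, ∀ n : ℕ, ∃ (r : ℕ) (y : Fin r → Fermat.Agent.S29.Jp N (p ^ (n + v))),
      ∀ (ℓ ℓ' : ℕ) [NeZero ℓ] [NeZero ℓ'] (hℓ : ℓ.Prime) (hℓN : ¬ ℓ ∣ N)
        (hℓS : ℓ ∉ (↑S : Set ℕ)) (hℓ' : ℓ'.Prime) (hℓ'N : ¬ ℓ' ∣ N) (hℓ'S : ℓ' ∉ (↑S : Set ℕ))
        (j j' : ℕ),
        (∀ i, lucasSeq (Fermat.Agent.S29.heckeJp N (p ^ (n + v)) ℓ)
              ((ℓ : ℕ) : Module.End (ZMod (p ^ (n + v))) (Fermat.Agent.S29.Jp N (p ^ (n + v))))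
              j (y i)
            = lucasSeq (Fermat.Agent.S29.heckeJp N (p ^ (n + v)) ℓ')
              ((ℓ' : ℕ) : Module.End (ZMod (p ^ (n + v))) (Fermat.Agent.S29.Jp N (p ^ (n + v))))
              j' (y i)) →
        ∃ B : CuspForm.heckeAlgebra N 2 (↑S : Set ℕ),
          lucasSeq (CuspForm.heckeAlgebra.T hℓ hℓN hℓS)
              ((ℓ : ℕ) : CuspForm.heckeAlgebra N 2 (↑S : Set ℕ)) j
            - lucasSeq (CuspForm.heckeAlgebra.T hℓ' hℓ'N hℓ'S)
              ((ℓ' : ℕ) : CuspForm.heckeAlgebra N 2 (↑S : Set ℕ)) j'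
            = ((p ^ n : ℕ) : CuspForm.heckeAlgebra N 2 (↑S : Set ℕ)) * B

/-- **(GK)**, the Galois side: for `g ∈ G_ℚ`, an inertia element `σ` at `q ∉ S`, finitely many
points `y i ∈ J₀(N)[p ^ n]` and a number field `F₀`, `g` and `g σ` agree on `F₀` with powers of
Frobenius lifts at `ℓ, ℓ' ∉ S` whose Lucas elements agree on the `y i`. -/
def GalKeyStatement : Prop :=
  ∀ (p : ℕ) [Fact p.Prime] (N : ℕ) [NeZero N] (S : Finset ℕ) (_hpS : p ∈ S)
    (_hNS : ∀ q : ℕ, q.Prime → q ∣ N → q ∈ S) (n : ℕ) (r : ℕ)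
    (y : Fin r → Fermat.Agent.S29.Jp N (p ^ n))
    (F₀ : IntermediateField ℚ Qbar) (_hF₀ : FiniteDimensional ℚ F₀)
    (q : ℕ) (_hq : q.Prime) (_hqS : q ∉ S) (P : ValuationSubring Qbar) (_hP : P.LiesOverPrime q)
    (σ : GQ) (_hσ : σ ∈ P.inertiaSubgroupIn ℚ) (g : GQ),
    ∃ (ℓ ℓ' : ℕ) (_ : NeZero ℓ) (_ : NeZero ℓ') (_ : ℓ.Prime) (_ : ℓ'.Prime) (_ : ℓ ∉ S)
      (_ : ℓ' ∉ S) (A A' : ValuationSubring Qbar) (φ φ' : GQ) (j j' : ℕ),
      A.LiesOverPrime ℓ ∧ A.IsFrobeniusAt φ ℓ ∧ (∀ x ∈ F₀, g x = (φ ^ j) x) ∧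
      A'.LiesOverPrime ℓ' ∧ A'.IsFrobeniusAt φ' ℓ' ∧ (∀ x ∈ F₀, (g * σ) x = (φ' ^ j') x) ∧
      ∀ i, lucasSeq (Fermat.Agent.S29.heckeJp N (p ^ n) ℓ)
            ((ℓ : ℕ) : Module.End (ZMod (p ^ n)) (Fermat.Agent.S29.Jp N (p ^ n))) j (y i)
          = lucasSeq (Fermat.Agent.S29.heckeJp N (p ^ n) ℓ')
            ((ℓ' : ℕ) : Module.End (ZMod (p ^ n)) (Fermat.Agent.S29.Jp N (p ^ n))) j' (y i)

/-- **(TL)**: the trace of a power, from the characteristic polynomial. -/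
def TraceLucasStatement : Prop :=
  ∀ (T : Type) [CommRing T] [IsLocalRing T] (ρ : GaloisRepAdic T) (σ : GQ) (a d : T),
    LinearMap.charpoly (ρ.ρ σ) = X ^ 2 - C a * X + C d →
    ∀ j : ℕ, LinearMap.trace T ρ.V (ρ.ρ (σ ^ j)) = lucasSeq a d j

/-- **(TC)**: the trace is continuous. -/
def TraceContStatement : Prop :=
  ∀ (T : Type) [CommRing T] [IsLocalRing T] (ρ : GaloisRepAdic T) (k : ℕ),
    ∃ L : IntermediateField ℚ Qbar, FiniteDimensional ℚ L ∧
      ∀ g g' : GQ, (∀ x ∈ L, g x = g' x) →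
        LinearMap.trace T ρ.V (ρ.ρ g) - LinearMap.trace T ρ.V (ρ.ρ g')
          ∈ IsLocalRing.maximalIdeal T ^ k

/-- **(BN)**: Burnside + Nakayama: if the residual representation is absolutely irreducible and
`tr ρ(g σ) = tr ρ(g)` for all `g`, then `ρ(σ) = 1`. -/
def BurnsideStatement : Prop :=
  ∀ (T : Type) [CommRing T] [IsLocalRing T] (ρ : GaloisRepAdic T),
    ρ.residual.IsAbsolutelyIrreducible → ∀ σ : GQ,
      (∀ g : GQ, LinearMap.trace T ρ.V (ρ.ρ (g * σ)) = LinearMap.trace T ρ.V (ρ.ρ g)) →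
      ρ.ρ σ = 1

end Fermat.Agent.S31
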