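import Mathlib
import Fermat.Prelude.Def_GaloisRep_DeformationCondition

set_option autoImplicit false

/-!
Shared definitions for the S53 development (existence of the universal deformation ring).
Everything is phrased through 2x2 matrix-valued functions on the Galois group.
-/

namespace Fermat.Agent.S53

/-- The absolute Galois group of `ℚ`, in the exact form used by the frozen definitions. -/
abbrev GQ : Type := AlgebraicClosure ℚ ≃ₐ[ℚ] AlgebraicClosure ℚ

/-- Adic continuity of a matrix-valued function on the Galois group. -/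
def MatCont {A : Type} [CommRing A] [IsLocalRing A] (r : GQ → Matrix (Fin 2) (Fin 2) A) : Prop :=
  ∀ n : ℕ, ∃ L : IntermediateField ℚ (AlgebraicClosure ℚ), FiniteDimensional ℚ L ∧
    ∀ σ : GQ, (∀ x ∈ L, σ x = x) →
      ∀ i j, (r σ - 1) i j ∈ IsLocalRing.maximalIdeal A ^ n

/-- `ρ` has matrix `r` in some basis. -/
def IsMat {A : Type} [CommRing A] [IsLocalRing A] (ρ : GaloisRepAdic A)
    (r : GQ → Matrix (Fin 2) (Fin 2) A) : Prop :=
  ∃ β : Module.Basis (Fin 2) A ρ.V, ∀ σ : GQ, LinearMap.toMatrix β β (ρ.ρ σ) = r σ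

/-- The residual representation `ρ` has matrix `r` in some basis. -/
def IsMatRes {k : Type} [Field k] (ρ : ResidualGaloisRep k)
    (r : GQ → Matrix (Fin 2) (Fin 2) k) : Prop :=
  ∃ β : Module.Basis (Fin 2) k ρ.V, ∀ σ : GQ, LinearMap.toMatrix β β (ρ.ρ σ) = r σ

/-- `r` lifts `rbar` entrywise modulo the maximal ideal. -/
def LiftsRes {𝒪 : Type} [CommRing 𝒪] [IsLocalRing 𝒪] {A : Type} [CommRing A] [IsLocalRing A]
    [Algebra 𝒪 A] (rbar : GQ → Matrix (Fin 2) (Fin 2) (IsLocalRing.ResidueField 𝒪))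
    (r : GQ → Matrix (Fin 2) (Fin 2) A) : Prop :=
  ∀ (σ : GQ) (i j : Fin 2) (x : 𝒪), IsLocalRing.residue 𝒪 x = rbar σ i j →
    r σ i j - algebraMap 𝒪 A x ∈ IsLocalRing.maximalIdeal A

/-- Linear combination of the matrices `r σ` with coefficients `c σ`. -/
noncomputable def linComb {𝒪 : Type} [CommRing 𝒪] {A : Type} [CommRing A] [Algebra 𝒪 A]
    (c : GQ →₀ 𝒪) (r : GQ → Matrix (Fin 2) (Fin 2) A) : Matrix (Fin 2) (Fin 2) A :=
  c.sum fun σ a => algebraMap 𝒪 A a • r σ

/-- Normalisation: `linComb ce r` is diagonal and the `(0,1)` entry of `linComb cn r` is `1`. -/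
def IsNormalized {𝒪 : Type} [CommRing 𝒪] {A : Type} [CommRing A] [Algebra 𝒪 A]
    (ce cn : GQ →₀ 𝒪) (r : GQ → Matrix (Fin 2) (Fin 2) A) : Prop :=
  linComb ce r 0 1 = 0 ∧ linComb ce r 1 0 = 0 ∧ linComb cn r 0 1 = 1

end Fermat.Agent.S53
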