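import Mathlib
import Fermat.Agent.S53_Defs

set_option autoImplicit false

namespace Fermat.Agent.S53.Burnside

open scoped TensorProduct

section AlgClosed

variable {K : Type*} [Field K] {W : Type*} [AddCommGroup W] [Module K W]

/-- Burnside's theorem in dimension two over an algebraically closed field. -/
theorem subalgebra_eq_top_of_irreducible [IsAlgClosed K] (hW : Module.finrank K W = 2)
    (B : Subalgebra K (Module.End K W))
    (hirr : ∀ N : Submodule K W, (∀ b ∈ B, ∀ x ∈ N, b x ∈ N) → N = ⊥ ∨ N = ⊤) :
    B = ⊤ := by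
  have hfd : FiniteDimensional K W := Module.finite_of_finrank_eq_succ hW
  have hnt : Nontrivial W := Module.nontrivial_of_finrank_pos (R := K) (by omega)
  have h1 : ∃ b₀ ∈ B, ∀ c : K, b₀ ≠ c • (1 : Module.End K W) := by
    by_contra hcon
    push Not at hcon
    obtain ⟨w, hw⟩ := exists_ne (0 : W)
    have hinv : ∀ b ∈ B, ∀ x ∈ (K ∙ w), b x ∈ (K ∙ w) := by
      intro b hb x hx
      obtain ⟨c, hc⟩ := hcon b hb
      rw [hc]
      simpa using Submodule.smul_mem _ c hx
    rcases hirr _ hinv with h | h
    · exact hw (by simpa using (Submodule.span_singleton_eq_bot.mp h))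
    · have h2 := finrank_span_singleton (K := K) hw
      rw [h, finrank_top, hW] at h2
      omega
  obtain ⟨b₀, hb₀, hns⟩ := h1
  obtain ⟨μ, hμ⟩ := Module.End.exists_eigenvalue b₀
  obtain ⟨v, hv⟩ := hμ.exists_hasEigenvector
  set c : Module.End K W := b₀ - μ • 1 with hc
  have hcB : c ∈ B := B.sub_mem hb₀ (B.smul_mem (B.one_mem) μ)
  have hc0 : c ≠ 0 := fun h => hns μ (sub_eq_zero.mp h)
  have hcv : c v = 0 := by simp [hc, hv.apply_eq_smul]
  have hv0 : v ≠ 0 := hv.2
  obtain ⟨u, hu⟩ : ∃ u, c u ≠ 0 := by
    by_contra h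
    push Not at h
    exact hc0 (LinearMap.ext h)
  let ev : B →ₗ[K] W := (LinearMap.applyₗ v).comp B.val.toLinearMap
  have hev : ∀ b : B, ev b = (b : Module.End K W) v := fun b => rfl
  have hrange : LinearMap.range ev = ⊤ := by
    have hinv : ∀ b ∈ B, ∀ x ∈ LinearMap.range ev, b x ∈ LinearMap.range ev := by
      rintro b hb x ⟨b', rfl⟩
      exact ⟨⟨b, hb⟩ * b', rfl⟩
    rcases hirr _ hinv with h | h
    · exfalso
      have hmem : v ∈ LinearMap.range ev := ⟨1, by simp [hev]⟩
      rw [h] at hmem
      exact hv0 (by simpa using hmem)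
    · exact h
  let I : Submodule K B := LinearMap.ker ev
  let ev' : I →ₗ[K] W := ((LinearMap.applyₗ u).comp B.val.toLinearMap).comp I.subtype
  have hev' : ∀ b : I, ev' b = ((b : B) : Module.End K W) u := fun b => rfl
  have hrange' : LinearMap.range ev' = ⊤ := by
    have hinv : ∀ b ∈ B, ∀ x ∈ LinearMap.range ev', b x ∈ LinearMap.range ev' := by
      rintro b hb x ⟨b', rfl⟩
      have hmem : (⟨b, hb⟩ * (b' : B) : B) ∈ I := by
        have h0 : ev (b' : B) = 0 := b'.2
        rw [hev] at h0
        show ev _ = 0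
        rw [hev]
        show b (((b' : B) : Module.End K W) v) = 0
        rw [h0, map_zero]
      exact ⟨⟨_, hmem⟩, rfl⟩
    rcases hirr _ hinv with h | h
    · exfalso
      have hcI : (⟨c, hcB⟩ : B) ∈ I := by
        show ev _ = 0
        rw [hev]
        exact hcv
      have hmem : c u ∈ LinearMap.range ev' := ⟨⟨_, hcI⟩, rfl⟩
      rw [h] at hmem
      exact hu (by simpa using hmem)
    · exact h
  have e1 := LinearMap.finrank_range_add_finrank_ker ev
  have e2 := LinearMap.finrank_range_le ev'
  rw [hrange, finrank_top, hW] at e1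
  rw [hrange', finrank_top, hW] at e2
  have e3 : Module.finrank K (Module.End K W) = 4 := by
    rw [Module.finrank_linearMap, hW]
  have e4 : Module.finrank K (Subalgebra.toSubmodule B) ≤ Module.finrank K (Module.End K W) :=
    Submodule.finrank_le _
  have e5 : Module.finrank K (Subalgebra.toSubmodule B) = Module.finrank K B := rfl
  have e6 : Module.finrank K I = Module.finrank K (LinearMap.ker ev) := rfl
  have htop : Subalgebra.toSubmodule B = ⊤ := by
    apply Submodule.eq_top_of_finrank_eq
    omega
  exact Subalgebra.toSubmodule_injective (by rw [htop]; rfl)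

end AlgClosed

section Descent

variable {G : Type*} [Monoid G] {k : Type*} [Field k] {V : Type*} [AddCommGroup V] [Module k V]

/-- Burnside for an absolutely irreducible two-dimensional representation: the image spans
the whole endomorphism algebra. -/
theorem span_range_eq_top (hV : Module.finrank k V = 2) (r : G →* Module.End k V)
    (hirr : ∀ W : Submodule (AlgebraicClosure k) (AlgebraicClosure k ⊗[k] V),
      (∀ g : G, ∀ x ∈ W, (r g).baseChange (AlgebraicClosure k) x ∈ W) → W = ⊥ ∨ W = ⊤) :
    Submodule.span k (Set.range r) = ⊤ := by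
  classical
  have hfd : Module.Finite k V := Module.finite_of_finrank_eq_succ hV
  let φ : G →* Module.End (AlgebraicClosure k) (AlgebraicClosure k ⊗[k] V) :=
    { toFun := fun g => (r g).baseChange (AlgebraicClosure k)
      map_one' := by rw [map_one, LinearMap.baseChange_one]
      map_mul' := fun g h => by rw [map_mul, LinearMap.baseChange_mul] }
  have hφ : ∀ g, φ g = (r g).baseChange (AlgebraicClosure k) := fun g => rfl
  have hB : Algebra.adjoin (AlgebraicClosure k) (Set.range φ) = ⊤ := by
    apply subalgebra_eq_top_of_irreducible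
    · rw [Module.finrank_baseChange, hV]
    · intro N hN
      apply hirr
      intro g x hx
      exact hN _ (Algebra.subset_adjoin ⟨g, rfl⟩) x hx
  have hspan : Submodule.span (AlgebraicClosure k) (Set.range φ) = ⊤ := by
    have h1 := Algebra.adjoin_eq_span (AlgebraicClosure k) (Set.range φ)
    have h2 : Submonoid.closure (Set.range φ) = MonoidHom.mrange φ := by
      rw [← MonoidHom.coe_mrange, Submonoid.closure_eq]
    rw [h2, MonoidHom.coe_mrange, hB] at h1
    rw [← h1]
    rfl
  by_contra hne
  obtain ⟨f, hf0, hf⟩ := Submodule.exists_le_ker_of_lt_top _ (lt_top_iff_ne_top.mpr hne)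
  let b : Module.Basis (Fin 2) k V := Module.finBasisOfFinrankEq k V hV
  let bK := Algebra.TensorProduct.basis (AlgebraicClosure k) b
  let E : Fin 2 → Fin 2 → Module.End k V := fun i j =>
    (LinearMap.toMatrix b b).symm (Matrix.single i j 1)
  have hfE : ∀ T : Module.End k V, f T = ∑ i, ∑ j, LinearMap.toMatrix b b T i j * f (E i j) := by
    intro T
    have hT : T = ∑ i, ∑ j, LinearMap.toMatrix b b T i j • E i j := by
      apply (LinearMap.toMatrix b b).injective
      rw [map_sum]
      conv_lhs => rw [Matrix.matrix_eq_sum_single (LinearMap.toMatrix b b T)]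
      refine Finset.sum_congr rfl fun i _ => ?_
      rw [map_sum]
      refine Finset.sum_congr rfl fun j _ => ?_
      rw [map_smul, LinearEquiv.apply_symm_apply, Matrix.smul_single, smul_eq_mul, mul_one]
    conv_lhs => rw [hT]
    simp
  let F : Module.End (AlgebraicClosure k) (AlgebraicClosure k ⊗[k] V) →ₗ[AlgebraicClosure k]
      AlgebraicClosure k :=
    ∑ i, ∑ j, algebraMap k (AlgebraicClosure k) (f (E i j)) •
      ((Matrix.entryLinearMap (AlgebraicClosure k) (AlgebraicClosure k) i j).comp
        (LinearMap.toMatrix bK bK).toLinearMap)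
  have hF : ∀ T, F T = ∑ i, ∑ j, algebraMap k (AlgebraicClosure k) (f (E i j)) *
      LinearMap.toMatrix bK bK T i j := by
    intro T
    simp [F, Algebra.smul_def]
  have hFφ : ∀ g, F (φ g) = 0 := by
    intro g
    rw [hF, hφ, LinearMap.toMatrix_baseChange]
    have h0 : f (r g) = 0 := hf (Submodule.subset_span ⟨g, rfl⟩)
    rw [hfE] at h0
    have h1 := congrArg (algebraMap k (AlgebraicClosure k)) h0
    rw [map_zero, map_sum] at h1
    rw [← h1]
    refine Finset.sum_congr rfl fun i _ => ?_
    rw [map_sum]
    refine Finset.sum_congr rfl fun j _ => ?_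
    rw [map_mul, Matrix.map_apply, mul_comm]
  have hF0 : F = 0 := by
    have hle : Submodule.span (AlgebraicClosure k) (Set.range φ) ≤ LinearMap.ker F := by
      rw [Submodule.span_le]
      rintro _ ⟨g, rfl⟩
      exact hFφ g
    rw [hspan] at hle
    exact LinearMap.ker_eq_top.mp (top_le_iff.mp hle)
  have hfE0 : ∀ i j, f (E i j) = 0 := by
    intro i j
    have h1 : F ((LinearMap.toMatrix bK bK).symm (Matrix.single i j 1)) = 0 := by
      rw [hF0]; rfl
    rw [hF] at h1
    simp only [LinearEquiv.apply_symm_apply, Matrix.single_apply] at h1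
    have h2 : algebraMap k (AlgebraicClosure k) (f (E i j)) = 0 := by
      fin_cases i <;> fin_cases j <;> simpa [Fin.sum_univ_two] using h1
    exact (FaithfulSMul.algebraMap_injective k (AlgebraicClosure k)) (by rw [h2, map_zero])
  apply hf0
  ext T
  rw [hfE]
  simp [hfE0]

end Descent

end Fermat.Agent.S53.Burnside

namespace Fermat.Agent.S53

open scoped TensorProduct

/-- Burnside for absolutely irreducible two-dimensional residual representations. -/
theorem exists_burnside {k : Type} [Field k] (ρbar : ResidualGaloisRep k)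
    (habs : ρbar.IsAbsolutelyIrreducible) :
    ∃ (rbar : GQ → Matrix (Fin 2) (Fin 2) k) (ce cn : GQ →₀ k), IsMatRes ρbar rbar ∧
      (ce.sum fun σ a => a • rbar σ) = !![1, 0; 0, 0] ∧
      (cn.sum fun σ a => a • rbar σ) = !![0, 1; 0, 0] := by
  classical
  let b : Module.Basis (Fin 2) k ρbar.V := Module.finBasisOfFinrankEq _ _ ρbar.finrank_eq
  have hspan := Burnside.span_range_eq_top ρbar.finrank_eq ρbar.ρ habs
  have key : ∀ m : Matrix (Fin 2) (Fin 2) k, ∃ c : GQ →₀ k,
      (c.sum fun σ a => a • LinearMap.toMatrix b b (ρbar.ρ σ)) = m := by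
    intro m
    have hm : (LinearMap.toMatrix b b).symm m ∈ Submodule.span k (Set.range ρbar.ρ) := by
      rw [hspan]; trivial
    obtain ⟨c, hc⟩ := Finsupp.mem_span_range_iff_exists_finsupp.mp hm
    refine ⟨c, ?_⟩
    have h2 := congrArg (LinearMap.toMatrix b b) hc
    rw [LinearEquiv.apply_symm_apply, Finsupp.sum, map_sum] at h2
    rw [← h2, Finsupp.sum]
    refine Finset.sum_congr rfl fun γ _ => ?_
    rw [map_smul]
  obtain ⟨ce, hce⟩ := key !![1, 0; 0, 0]
  obtain ⟨cn, hcn⟩ := key !![0, 1; 0, 0]
  exact ⟨fun σ => LinearMap.toMatrix b b (ρbar.ρ σ), ce, cn, ⟨b, fun σ => rfl⟩, hce, hcn⟩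

end Fermat.Agent.S53
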