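import Mathlib
import Fermat.Prelude.Def_GaloisRep_Adic
import Fermat.Agent.S53_Burnside
import Fermat.Agent.S31_Defs

/-!
# S31 (BN): trace invariance and residual absolute irreducibility force `ρ(σ) = 1`

`rho_eq_one_of_trace`: let `ρ` be a two-dimensional Galois representation over a local ring `T`
whose residual representation is absolutely irreducible.  If `tr ρ(g σ) = tr ρ(g)` for all `g`,
then `ρ(σ) = 1`.

Proof: in a basis of `ρ.V`, Burnside's theorem modulo the maximal ideal (`S53_Burnside`) shows that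
every matrix is congruent modulo `𝔪` to a `T`-linear combination of the `ρ(g)`; hence the ideal
`J` generated by the entries of `Y = ρ(σ) - 1` satisfies `J ≤ 𝔪 J` (trace pairing), and `J = 0` by
Nakayama.
-/

set_option autoImplicit false

open scoped TensorProduct

namespace Fermat.Agent.S31.Burn

local notation "GQ" => (AlgebraicClosure ℚ ≃ₐ[ℚ] AlgebraicClosure ℚ)

/-- matrix form of the Nakayama step. -/
theorem matrix_eq_zero_of_trace {T : Type} [CommRing T] [IsLocalRing T] {G : Type}
    (M : G → Matrix (Fin 2) (Fin 2) T) (Y : Matrix (Fin 2) (Fin 2) T)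
    (hlift : ∀ m0 : Matrix (Fin 2) (Fin 2) T, ∃ F ∈ Submodule.span T (Set.range M),
      ∀ a b, m0 a b - F a b ∈ IsLocalRing.maximalIdeal T)
    (htr : ∀ g, (M g * Y).trace = 0) : Y = 0 := by
  classical
  have hA : ∀ F ∈ Submodule.span T (Set.range M), (F * Y).trace = 0 := by
    intro F hF
    induction hF using Submodule.span_induction with
    | mem x hx => obtain ⟨g, rfl⟩ := hx; exact htr g
    | zero => rw [Matrix.zero_mul, Matrix.trace_zero]
    | add x y _ _ hx hy => rw [Matrix.add_mul, Matrix.trace_add, hx, hy, add_zero]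
    | smul c x _ hx => rw [Matrix.smul_mul, Matrix.trace_smul, hx, smul_zero]
  have hYJ : ∀ i j, Y i j ∈ Ideal.span (Set.range fun p : Fin 2 × Fin 2 => Y p.1 p.2) :=
    fun i j => Ideal.subset_span ⟨(i, j), rfl⟩
  have hJ : Ideal.span (Set.range fun p : Fin 2 × Fin 2 => Y p.1 p.2) = ⊥ := by
    refine Submodule.eq_bot_of_le_smul_of_le_jacobson_bot (IsLocalRing.maximalIdeal T) _
      (Submodule.fg_span (Set.finite_range _)) ?_ (IsLocalRing.maximalIdeal_le_jacobson ⊥)
    refine Ideal.span_le.mpr ?_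
    rintro _ ⟨⟨i, j⟩, rfl⟩
    obtain ⟨F, hF, hD⟩ := hlift (Matrix.single j i (1 : T))
    have h1 : Y i j = ((Matrix.single j i (1 : T) - F) * Y).trace := by
      rw [Matrix.sub_mul, Matrix.trace_sub, hA F hF, sub_zero, Matrix.trace_single_mul, one_smul]
    show Y i j ∈ IsLocalRing.maximalIdeal T •
      Ideal.span (Set.range fun p : Fin 2 × Fin 2 => Y p.1 p.2)
    rw [h1, Matrix.trace]
    refine Submodule.sum_mem _ fun a _ => ?_
    rw [Matrix.diag_apply, Matrix.mul_apply]
    refine Submodule.sum_mem _ fun b _ => ?_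
    have h2 : (Matrix.single j i (1 : T) - F) a b ∈ IsLocalRing.maximalIdeal T := by
      rw [Matrix.sub_apply]
      exact hD a b
    exact Submodule.smul_mem_smul h2 (hYJ b a)
  ext i j
  have h3 := hYJ i j
  rw [hJ, Ideal.mem_bot] at h3
  exact h3

/-- **trace invariance + residual absolute irreducibility ⇒ `ρ(σ) = 1`.** -/
theorem rho_eq_one_of_trace {T : Type} [CommRing T] [IsLocalRing T] (ρ : GaloisRepAdic T)
    (habs : ρ.residual.IsAbsolutelyIrreducible) (σ : GQ)
    (h : ∀ g : GQ, LinearMap.trace T ρ.V (ρ.ρ (g * σ)) = LinearMap.trace T ρ.V (ρ.ρ g)) :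
    ρ.ρ σ = 1 := by
  classical
  let b : Module.Basis (Fin 2) T ρ.V := Module.finBasisOfFinrankEq T ρ.V ρ.finrank_eq
  let bk : Module.Basis (Fin 2) (IsLocalRing.ResidueField T)
      (IsLocalRing.ResidueField T ⊗[T] ρ.V) :=
    Algebra.TensorProduct.basis (IsLocalRing.ResidueField T) b
  have hspan0 : Submodule.span (IsLocalRing.ResidueField T) (Set.range ρ.residual.ρ) = ⊤ :=
    Fermat.Agent.S53.Burnside.span_range_eq_top ρ.residual.finrank_eq ρ.residual.ρ habs
  have hspan : Submodule.span (IsLocalRing.ResidueField T)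
      (Set.range fun g : GQ => ((ρ.ρ g).baseChange (IsLocalRing.ResidueField T) :
        Module.End (IsLocalRing.ResidueField T) (IsLocalRing.ResidueField T ⊗[T] ρ.V))) = ⊤ :=
    hspan0
  have hl : ∀ φ ∈ Submodule.span (IsLocalRing.ResidueField T)
      (Set.range fun g : GQ => ((ρ.ρ g).baseChange (IsLocalRing.ResidueField T) :
        Module.End (IsLocalRing.ResidueField T) (IsLocalRing.ResidueField T ⊗[T] ρ.V))),
      ∃ F ∈ Submodule.span T (Set.range fun g : GQ => LinearMap.toMatrix b b (ρ.ρ g)),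
        F.map (algebraMap T (IsLocalRing.ResidueField T)) = LinearMap.toMatrix bk bk φ := by
    intro φ hφ
    induction hφ using Submodule.span_induction with
    | mem x hx =>
      obtain ⟨g, rfl⟩ := hx
      exact ⟨LinearMap.toMatrix b b (ρ.ρ g), Submodule.subset_span ⟨g, rfl⟩,
        (LinearMap.toMatrix_baseChange (IsLocalRing.ResidueField T) (ρ.ρ g) b b).symm⟩
    | zero =>
      refine ⟨0, Submodule.zero_mem _, ?_⟩
      rw [map_zero]
      ext a c
      simp
    | add x y _ _ hx hy =>
      obtain ⟨F1, hF1, e1⟩ := hx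
      obtain ⟨F2, hF2, e2⟩ := hy
      refine ⟨F1 + F2, Submodule.add_mem _ hF1 hF2, ?_⟩
      rw [map_add, ← e1, ← e2]
      ext a c
      simp
    | smul c x _ hx =>
      obtain ⟨F, hF, e⟩ := hx
      obtain ⟨t, rfl⟩ := IsLocalRing.residue_surjective c
      refine ⟨t • F, Submodule.smul_mem _ t hF, ?_⟩
      rw [map_smul, ← e]
      ext a c
      rw [Matrix.map_apply, Matrix.smul_apply, Matrix.smul_apply, Matrix.map_apply, smul_eq_mul,
        map_mul, smul_eq_mul, IsLocalRing.ResidueField.algebraMap_eq]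
  have hlift : ∀ m0 : Matrix (Fin 2) (Fin 2) T,
      ∃ F ∈ Submodule.span T (Set.range fun g : GQ => LinearMap.toMatrix b b (ρ.ρ g)),
        ∀ a c, m0 a c - F a c ∈ IsLocalRing.maximalIdeal T := by
    intro m0
    obtain ⟨F, hF, e⟩ := hl ((LinearMap.toMatrix bk bk).symm
      (m0.map (algebraMap T (IsLocalRing.ResidueField T)))) (by rw [hspan]; trivial)
    rw [LinearEquiv.apply_symm_apply] at e
    refine ⟨F, hF, fun a c => ?_⟩
    have e' := congrFun (congrFun e a) c
    rw [Matrix.map_apply, Matrix.map_apply, IsLocalRing.ResidueField.algebraMap_eq] at e'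
    rw [← IsLocalRing.residue_eq_zero_iff, map_sub, sub_eq_zero]
    exact e'.symm
  have hY : LinearMap.toMatrix b b (ρ.ρ σ) - 1 = 0 := by
    refine matrix_eq_zero_of_trace (fun g : GQ => LinearMap.toMatrix b b (ρ.ρ g)) _ hlift ?_
    intro g
    have h1 := h g
    rw [LinearMap.trace_eq_matrix_trace T b, LinearMap.trace_eq_matrix_trace T b, map_mul,
      LinearMap.toMatrix_mul] at h1
    show (LinearMap.toMatrix b b (ρ.ρ g) * (LinearMap.toMatrix b b (ρ.ρ σ) - 1)).trace = 0
    rw [Matrix.mul_sub, Matrix.mul_one, Matrix.trace_sub, h1, sub_self]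
  apply (LinearMap.toMatrix b b).injective
  rw [LinearMap.toMatrix_one]
  exact sub_eq_zero.mp hY

/-- **(BN)** of `S31_Defs`. -/
theorem burnside : Fermat.Agent.S31.BurnsideStatement :=
  fun _ _ _ ρ habs σ h => rho_eq_one_of_trace ρ habs σ h

end Fermat.Agent.S31.Burn
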