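import Fermat.Statements.S31
import Fermat.Agent.S31_Defs

/-!
# S31 (long shot): the frozen statement from the interfaces of `S31_Defs`
-/

set_option autoImplicit false
set_option linter.style.haveILetI false

open Polynomial

namespace Fermat.Agent.S31

local notation "Qbar" => AlgebraicClosure ℚ
local notation "GQ" => (AlgebraicClosure ℚ ≃ₐ[ℚ] AlgebraicClosure ℚ)

theorem s31_of (hHK : HeckeKeyStatement) (hGK : GalKeyStatement) (hTL : TraceLucasStatement)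
    (hTC : TraceContStatement) (hBN : BurnsideStatement)
    {p : ℕ} {N : ℕ} [NeZero N] {S : Finset ℕ}
    {𝒪 : Type} [CommRing 𝒪] [IsDomain 𝒪] [IsDiscreteValuationRing 𝒪]
    [IsAdicComplete (IsLocalRing.maximalIdeal 𝒪) 𝒪]
    {θ : CuspForm.heckeAlgebra N 2 (↑S : Set ℕ) →+* IsLocalRing.ResidueField 𝒪}
    {T : Type} [CommRing T] [IsLocalRing T] [IsNoetherianRing T]
    [IsAdicComplete (IsLocalRing.maximalIdeal T) T] [Algebra 𝒪 T] [IsLocalHom (algebraMap 𝒪 T)]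
    [Module.Finite 𝒪 T] [Module.Free 𝒪 T]
    (hp : p.Prime)
    (hp𝒪 : (p : 𝒪) ∈ IsLocalRing.maximalIdeal 𝒪) (hpS : p ∈ S)
    (hNS : ∀ q : ℕ, q.Prime → q ∣ N → q ∈ S)
    (H : CuspForm.HeckeGaloisRepDatum N (↑S : Set ℕ) 𝒪 θ T)
    (q : ℕ) (hq : q.Prime) (hqS : q ∉ S) :
    H.ρ.IsUnramifiedAt q := by
  intro P hP σ hσ
  haveI : Fact p.Prime := ⟨hp⟩
  refine hBN T H.ρ H.residual_absIrr σ (fun g => ?_)
  have hpT : ((p : ℕ) : T) ∈ IsLocalRing.maximalIdeal T := by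
    have h1 : (algebraMap 𝒪 T) (p : 𝒪) ∈ IsLocalRing.maximalIdeal T :=
      (IsLocalRing.mem_maximalIdeal _).mpr (fun hu =>
        (IsLocalRing.mem_maximalIdeal _).mp hp𝒪 (isUnit_of_map_unit (algebraMap 𝒪 T) _ hu))
    rwa [map_natCast] at h1
  have key : ∀ k : ℕ, LinearMap.trace T H.ρ.V (H.ρ.ρ (g * σ)) - LinearMap.trace T H.ρ.V (H.ρ.ρ g)
      ∈ IsLocalRing.maximalIdeal T ^ k := by
    intro k
    obtain ⟨v, hv⟩ := hHK p N S
    obtain ⟨r, y, hy⟩ := hv k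
    obtain ⟨L, hLfin, hL⟩ := hTC T H.ρ k
    obtain ⟨ℓ, ℓ', _, _, hℓ, hℓ', hℓS, hℓ'S, A, A', φ, φ', j, j', hA, hφ, hgφ, hA', hφ', hgφ',
      hrel⟩ := hGK p N S hpS hNS (k + v) r y L hLfin q hq hqS P hP σ hσ g
    have hℓN : ¬ ℓ ∣ N := fun hd => hℓS (hNS ℓ hℓ hd)
    have hℓ'N : ¬ ℓ' ∣ N := fun hd => hℓ'S (hNS ℓ' hℓ' hd)
    have hℓS' : ℓ ∉ (↑S : Set ℕ) := fun h => hℓS (Finset.mem_coe.mp h)
    have hℓ'S' : ℓ' ∉ (↑S : Set ℕ) := fun h => hℓ'S (Finset.mem_coe.mp h)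
    obtain ⟨B, hB⟩ := hy ℓ ℓ' hℓ hℓN hℓS' hℓ' hℓ'N hℓ'S' j j' hrel
    have h1 := hL g (φ ^ j) hgφ
    have h2 := hL (g * σ) (φ' ^ j') hgφ'
    have h3 := hTL T H.ρ φ _ _ (H.charpoly_frob ℓ hℓ hℓN hℓS' A hA φ hφ) j
    have h4 := hTL T H.ρ φ' _ _ (H.charpoly_frob ℓ' hℓ' hℓ'N hℓ'S' A' hA' φ' hφ') j'
    have h5 := congrArg H.π hB
    rw [map_sub, map_lucasSeq, map_lucasSeq, map_mul, map_natCast, map_natCast, map_natCast,
      Nat.cast_pow] at h5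
    have h6 : LinearMap.trace T H.ρ.V (H.ρ.ρ (g * σ)) - LinearMap.trace T H.ρ.V (H.ρ.ρ g)
        = (LinearMap.trace T H.ρ.V (H.ρ.ρ (g * σ)) - LinearMap.trace T H.ρ.V (H.ρ.ρ (φ' ^ j')))
          - (LinearMap.trace T H.ρ.V (H.ρ.ρ g) - LinearMap.trace T H.ρ.V (H.ρ.ρ (φ ^ j)))
          - ((p : T) ^ k * H.π B) := by
      rw [← h5, h3, h4]
      ring
    rw [h6]
    exact sub_mem (sub_mem h2 h1) (Ideal.mul_mem_right _ _ (Ideal.pow_mem_pow hpT k))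
  have hH : IsHausdorff (IsLocalRing.maximalIdeal T) T := inferInstance
  refine sub_eq_zero.mp (hH.haus _ (fun k => ?_))
  rw [SModEq.zero, smul_eq_mul, Ideal.mul_top]
  exact key k

end Fermat.Agent.S31
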