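import Fermat.Agent.S31_Defs
import Fermat.Agent.S29_Span
import Fermat.Agent.S29_ESTorsion
import Fermat.Agent.S29_FrobDensityMain
import Fermat.Agent.S30_Cyc

/-!
# S31 (long shot): the Galois side `GalKeyStatement`

For `g ∈ G_ℚ`, an inertia element `σ` at `q ∉ S`, points `y i ∈ J₀(N)[p ^ n]` and a number field
`F₀`: Frobenius density at a finite normal level `F ⊇ F₀` containing the levels of the `y i` and of
the `p ^ n`-th roots of unity gives Frobenius lifts `φ` at `ℓ`, `φ'` at `ℓ'` with `g = φ ^ j`,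
`g σ = φ' ^ j'` on `F`.  By Eichler–Shimura on `J₀(N)[p ^ n]` (`T_ℓ = φ + ℓ φ⁻¹`),
`lucasSeq T_ℓ ℓ j = φ ^ j + ℓ ^ j φ ^ (-j)`, which is `g + ℓ ^ j g⁻¹` on the `y i`; the same for
`ℓ'` gives `g σ + ℓ' ^ j' (g σ)⁻¹ = g + ℓ' ^ j' g⁻¹` (inertia acts trivially), and
`ℓ ^ j ≡ ℓ' ^ j'` modulo `p ^ n` (cyclotomic character).
-/

set_option autoImplicit false
set_option linter.style.haveILetI false

noncomputable section

open ModularCurve AlgebraicCurve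

namespace Fermat.Agent.S31.Gal

local notation "Qbar" => AlgebraicClosure ℚ
local notation "GQ" => (AlgebraicClosure ℚ ≃ₐ[ℚ] AlgebraicClosure ℚ)

open Fermat.Agent.S29

section Rep

variable (N m : ℕ) [NeZero N]

/-- the Galois action on `J₀(N)[m]` as a representation. -/
def galR : GQ →* Module.End (ZMod m) (Jp N m) where
  toFun σ := galJp N m σ
  map_one' := galJp_one N m
  map_mul' σ τ := galJp_mul N m σ τ

theorem galR_apply (σ : GQ) (x : Jp N m) : galR N m σ x = galJp N m σ x := rfl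

theorem galR_mul_apply (σ τ : GQ) (x : Jp N m) :
    galR N m (σ * τ) x = galR N m σ (galR N m τ x) := by
  rw [map_mul]
  rfl

theorem galR_inv_apply (σ : GQ) (x : Jp N m) : galR N m σ⁻¹ (galR N m σ x) = x := by
  rw [← galR_mul_apply, inv_mul_cancel, map_one]
  rfl

theorem galR_apply_inv (σ : GQ) (x : Jp N m) : galR N m σ (galR N m σ⁻¹ x) = x := by
  rw [← galR_mul_apply, mul_inv_cancel, map_one]
  rfl

/-- Eichler–Shimura on `J₀(N)[m]`: `T_ℓ = φ + ℓ φ⁻¹` for a Frobenius lift `φ` at `ℓ ∤ N m`. -/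
theorem hecke_eq (ℓ : ℕ) [NeZero ℓ] (hℓ : ℓ.Prime) (hℓNm : ¬ ℓ ∣ N * m)
    (A : ValuationSubring Qbar) (hA : A.LiesOverPrime ℓ) (φ : GQ) (hφ : A.IsFrobeniusAt φ ℓ)
    (x : Jp N m) :
    heckeJp N m ℓ x = galR N m φ x + ℓ • galR N m φ⁻¹ x := by
  have h := LinearMap.congr_fun (Span.galJp_frobenius m N ℓ hℓ hℓNm A hA φ hφ) (galR N m φ⁻¹ x)
  rw [LinearMap.comp_apply, LinearMap.add_apply, LinearMap.comp_apply, LinearMap.smul_apply,
    LinearMap.id_apply, ← galR_apply, ← galR_apply, galR_apply_inv, Nat.cast_smul_eq_nsmul] at h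
  exact h

/-- `T_ℓ` on a translate. -/
theorem hecke_zpow (ℓ : ℕ) [NeZero ℓ] (hℓ : ℓ.Prime) (hℓNm : ¬ ℓ ∣ N * m)
    (A : ValuationSubring Qbar) (hA : A.LiesOverPrime ℓ) (φ : GQ) (hφ : A.IsFrobeniusAt φ ℓ)
    (k : ℤ) (x : Jp N m) :
    heckeJp N m ℓ (galR N m (φ ^ k) x)
      = galR N m (φ ^ (k + 1)) x + ℓ • galR N m (φ ^ (k - 1)) x := by
  rw [hecke_eq N m ℓ hℓ hℓNm A hA φ hφ, ← galR_mul_apply, ← galR_mul_apply]
  have h1 : φ * φ ^ k = φ ^ (k + 1) := by rw [zpow_add, zpow_one, (Commute.zpow_self φ k).eq]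
  have h2 : φ⁻¹ * φ ^ k = φ ^ (k - 1) := by
    rw [zpow_sub, zpow_one, (Commute.zpow_self φ k).inv_right.eq]
  rw [h1, h2]

/-- the Lucas element of `T_ℓ` is `φ ^ j + ℓ ^ j φ ^ (-j)`. -/
theorem lucas_zpow (ℓ : ℕ) [NeZero ℓ] (hℓ : ℓ.Prime) (hℓNm : ¬ ℓ ∣ N * m)
    (A : ValuationSubring Qbar) (hA : A.LiesOverPrime ℓ) (φ : GQ) (hφ : A.IsFrobeniusAt φ ℓ)
    (j : ℕ) (x : Jp N m) :
    lucasSeq (heckeJp N m ℓ) ((ℓ : ℕ) : Module.End (ZMod m) (Jp N m)) j x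
      = galR N m (φ ^ (j : ℤ)) x + (ℓ ^ j) • galR N m (φ ^ (-(j : ℤ))) x := by
  induction j using Nat.twoStepInduction with
  | zero =>
    rw [lucasSeq_zero, Nat.cast_zero, neg_zero, zpow_zero, pow_zero, one_smul, map_one]
    show (2 : Module.End (ZMod m) (Jp N m)) x = x + x
    rw [← one_add_one_eq_two]
    rfl
  | one =>
    rw [lucasSeq_one, Nat.cast_one, zpow_one, pow_one, zpow_neg, zpow_one]
    exact hecke_eq N m ℓ hℓ hℓNm A hA φ hφ x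
  | more j h1 h2 =>
    rw [lucasSeq_succ_succ, LinearMap.sub_apply, Module.End.mul_apply, Module.End.mul_apply,
      h1, h2, map_add, map_nsmul, hecke_zpow N m ℓ hℓ hℓNm A hA φ hφ,
      hecke_zpow N m ℓ hℓ hℓNm A hA φ hφ, Module.End.natCast_apply]
    have e1 : ((j + 1 : ℕ) : ℤ) + 1 = ((j + 2 : ℕ) : ℤ) := by push_cast; ring
    have e2 : ((j + 1 : ℕ) : ℤ) - 1 = (j : ℤ) := by push_cast; ring
    have e3 : -((j + 1 : ℕ) : ℤ) + 1 = -(j : ℤ) := by push_cast; ring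
    have e4 : -((j + 1 : ℕ) : ℤ) - 1 = -((j + 2 : ℕ) : ℤ) := by push_cast; ring
    rw [e1, e2, e3, e4]
    module

/-- the same with natural powers. -/
theorem lucas_pow (ℓ : ℕ) [NeZero ℓ] (hℓ : ℓ.Prime) (hℓNm : ¬ ℓ ∣ N * m)
    (A : ValuationSubring Qbar) (hA : A.LiesOverPrime ℓ) (φ : GQ) (hφ : A.IsFrobeniusAt φ ℓ)
    (j : ℕ) (x : Jp N m) :
    lucasSeq (heckeJp N m ℓ) ((ℓ : ℕ) : Module.End (ZMod m) (Jp N m)) j x
      = galR N m (φ ^ j) x + (ℓ ^ j) • galR N m (φ ^ j)⁻¹ x := by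
  rw [lucas_zpow N m ℓ hℓ hℓNm A hA φ hφ j x, zpow_natCast, zpow_neg, zpow_natCast]

/-- inertia at `q ∤ N m` acts trivially. -/
theorem galR_inertia (q : ℕ) (hq : q.Prime) (hqNm : ¬ q ∣ N * m)
    (P : ValuationSubring Qbar) (hP : P.LiesOverPrime q) (σ : GQ)
    (hσ : σ ∈ P.inertiaSubgroupIn ℚ) (x : Jp N m) : galR N m σ x = x := by
  rw [galR_apply, Span.galJp_inertia m N q hq hqNm P hP σ hσ]
  rfl

/-- finitely many points of `J₀(N)[m]` have a common finite level. -/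
theorem exists_level (hm : m ≠ 0) {r : ℕ} (y : Fin r → Jp N m) :
    ∃ L : IntermediateField ℚ Qbar, FiniteDimensional ℚ L ∧
      ∀ σ : GQ, (∀ z ∈ L, σ z = z) → ∀ i, galR N m σ (y i) = y i := by
  have h : ∀ i, ∃ L : IntermediateField ℚ Qbar, FiniteDimensional ℚ L ∧
      ∀ σ : GQ, (∀ z ∈ L, σ z = z) → σ • (y i : JZero N) = (y i : JZero N) :=
    fun i => Span.exists_level_point N m hm (y i : JZero N) (y i).2
  choose L hLfin hL using h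
  haveI : ∀ i, FiniteDimensional ℚ (L i) := hLfin
  refine ⟨⨆ i, L i, IntermediateField.finiteDimensional_iSup_of_finite, fun σ hσ i => ?_⟩
  apply Subtype.ext
  rw [galR_apply, coe_galJp]
  exact hL i σ (fun z hz => hσ z ((le_iSup L i) hz))

/-- two elements of `G_ℚ` agreeing on a normal field `F` of level for `y` act in the same way on
`y`, and so do their inverses. -/
theorem agree (F : IntermediateField ℚ Qbar) (hF : Normal ℚ F) (y : Jp N m)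
    (hy : ∀ h : GQ, (∀ z ∈ F, h z = z) → galR N m h y = y) (g ψ : GQ)
    (hg : ∀ z ∈ F, g z = ψ z) :
    galR N m g y = galR N m ψ y ∧ galR N m g⁻¹ y = galR N m ψ⁻¹ y := by
  haveI : IsAlgClosure ℚ Qbar := AlgebraicClosure.instIsAlgClosure ℚ
  haveI : Normal ℚ Qbar := inferInstance
  constructor
  · have h1 : ∀ z ∈ F, (ψ⁻¹ * g) z = z := by
      intro z hz
      rw [AlgEquiv.mul_apply, hg z hz]
      exact ψ.symm_apply_apply z
    have h2 := hy _ h1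
    have h3 : g = ψ * (ψ⁻¹ * g) := by group
    rw [h3, galR_mul_apply, h2]
  · have h1 : ∀ z ∈ F, (g * ψ⁻¹) z = z := by
      intro z hz
      have hz' : ψ⁻¹ z ∈ F :=
        (IntermediateField.normal_iff_forall_map_le'.mp hF ψ⁻¹) ⟨z, hz, rfl⟩
      rw [AlgEquiv.mul_apply, hg _ hz']
      exact ψ.apply_symm_apply z
    have h2 := hy _ h1
    have h3 : ψ⁻¹ = g⁻¹ * (g * ψ⁻¹) := by group
    rw [h3, galR_mul_apply, h2]

end Rep

/-- the cyclotomic character of elements agreeing on a field of level `p ^ n`. -/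
theorem chi_congr (p : ℕ) [Fact p.Prime] (n : ℕ) (F : IntermediateField ℚ Qbar)
    (hF : ∀ h : GQ, (∀ z ∈ F, h z = z) →
      (p : ℤ_[p]) ^ n ∣ ((Fermat.Agent.S30.Cyc.chi p h : ℤ_[p]ˣ) : ℤ_[p]) - 1)
    (g ψ : GQ) (hg : ∀ z ∈ F, g z = ψ z) :
    (p : ℤ_[p]) ^ n ∣ ((Fermat.Agent.S30.Cyc.chi p g : ℤ_[p]ˣ) : ℤ_[p])
      - ((Fermat.Agent.S30.Cyc.chi p ψ : ℤ_[p]ˣ) : ℤ_[p]) := by
  have h1 : ∀ z ∈ F, (ψ⁻¹ * g) z = z := by
    intro z hz
    rw [AlgEquiv.mul_apply, hg z hz]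
    exact ψ.symm_apply_apply z
  obtain ⟨e, he⟩ := hF _ h1
  have h3 : g = ψ * (ψ⁻¹ * g) := by group
  refine ⟨((Fermat.Agent.S30.Cyc.chi p ψ : ℤ_[p]ˣ) : ℤ_[p]) * e, ?_⟩
  conv_lhs => rw [h3, map_mul, Units.val_mul]
  linear_combination ((Fermat.Agent.S30.Cyc.chi p ψ : ℤ_[p]ˣ) : ℤ_[p]) * he

/-- **(GK)**. -/
theorem gal_key : GalKeyStatement := by
  intro p hp N _ S hpS hNS n r y F₀ hF₀ q hq hqS P hP σ hσ g
  classical
  have hpprime : p.Prime := hp.out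
  have hm : p ^ n ≠ 0 := pow_ne_zero n hpprime.ne_zero
  -- the level
  obtain ⟨L₁, hL₁fin, hL₁⟩ := exists_level N (p ^ n) hm y
  obtain ⟨L₂, hL₂fin, hL₂⟩ := Fermat.Agent.S30.Cyc.chi_level p n
  haveI := hF₀
  haveI := hL₁fin
  haveI := hL₂fin
  haveI : IsAlgClosure ℚ Qbar := AlgebraicClosure.instIsAlgClosure ℚ
  haveI : Normal ℚ Qbar := inferInstance
  let F : IntermediateField ℚ Qbar := IntermediateField.normalClosure ℚ (F₀ ⊔ L₁ ⊔ L₂ :) Qbar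
  have hle : F₀ ⊔ L₁ ⊔ L₂ ≤ F := IntermediateField.le_normalClosure _
  have hFnormal : Normal ℚ F := normalClosure.normal ℚ _ Qbar
  have hFfin : FiniteDimensional ℚ F := normalClosure.is_finiteDimensional ℚ _ Qbar
  have hF₀F : F₀ ≤ F := le_trans (le_trans le_sup_left le_sup_left) hle
  have hL₁F : L₁ ≤ F := le_trans (le_trans le_sup_right le_sup_left) hle
  have hL₂F : L₂ ≤ F := le_trans le_sup_right hle
  have hyF : ∀ i, ∀ h : GQ, (∀ z ∈ F, h z = z) → galR N (p ^ n) h (y i) = y i :=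
    fun i h hh => hL₁ h (fun z hz => hh z (hL₁F hz)) i
  have hχF : ∀ h : GQ, (∀ z ∈ F, h z = z) →
      (p : ℤ_[p]) ^ n ∣ ((Fermat.Agent.S30.Cyc.chi p h : ℤ_[p]ˣ) : ℤ_[p]) - 1 :=
    fun h hh => hL₂ h (fun z hz => hh z (hL₂F hz))
  -- Frobenius density, twice
  obtain ⟨ℓ, hℓ, hℓS, A, φ, hA, hφ, j, hj⟩ := FrobDensity.frobDensity F hFfin g S
  obtain ⟨ℓ', hℓ', hℓ'S, A', φ', hA', hφ', j', hj'⟩ := FrobDensity.frobDensity F hFfin (g * σ) S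
  have hnot : ∀ t : ℕ, t.Prime → t ∉ S → ¬ t ∣ N * p ^ n := by
    intro t ht htS hd
    rcases (Nat.Prime.dvd_mul ht).mp hd with h | h
    · exact htS (hNS t ht h)
    · exact htS (((Nat.prime_dvd_prime_iff_eq ht hpprime).mp (ht.dvd_of_dvd_pow h)) ▸ hpS)
  have hnep : ∀ t : ℕ, t.Prime → t ∉ S → t ≠ p := fun t _ htS h => htS (h ▸ hpS)
  haveI : NeZero ℓ := ⟨hℓ.ne_zero⟩
  haveI : NeZero ℓ' := ⟨hℓ'.ne_zero⟩
  refine ⟨ℓ, ℓ', inferInstance, inferInstance, hℓ, hℓ', hℓS, hℓ'S, A, A', φ, φ', j, j', hA, hφ,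
    fun x hx => hj x (hF₀F hx), hA', hφ', fun x hx => hj' x (hF₀F hx), fun i => ?_⟩
  -- the congruence `ℓ ^ j ≡ ℓ' ^ j'`
  have hc1 := chi_congr p n F hχF g (φ ^ j) hj
  have hc2 := chi_congr p n F hχF (g * σ) (φ' ^ j') hj'
  have hσ1 : Fermat.Agent.S30.Cyc.chi p σ = 1 :=
    Fermat.Agent.S30.Cyc.chi_inertia p q hq (hnep q hq hqS) P hP σ hσ
  rw [map_mul, hσ1, mul_one] at hc2
  rw [map_pow, Units.val_pow_eq_pow_val,
    Fermat.Agent.S30.Cyc.chi_frobenius p ℓ hℓ (hnep ℓ hℓ hℓS) A hA φ hφ] at hc1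
  rw [map_pow, Units.val_pow_eq_pow_val,
    Fermat.Agent.S30.Cyc.chi_frobenius p ℓ' hℓ' (hnep ℓ' hℓ' hℓ'S) A' hA' φ' hφ'] at hc2
  have hc3 : (p : ℤ_[p]) ^ n ∣ ((ℓ ^ j : ℕ) : ℤ_[p]) - ((ℓ' ^ j' : ℕ) : ℤ_[p]) := by
    have h := dvd_sub hc2 hc1
    rw [sub_sub_sub_cancel_left] at h
    rw [Nat.cast_pow, Nat.cast_pow]
    exact h
  have hc4 : ((ℓ ^ j : ℕ) : ZMod (p ^ n)) = ((ℓ' ^ j' : ℕ) : ZMod (p ^ n)) := by
    have h1 : ((ℓ ^ j : ℕ) : ℤ_[p]) - ((ℓ' ^ j' : ℕ) : ℤ_[p])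
        ∈ RingHom.ker (PadicInt.toZModPow (p := p) n) := by
      rw [PadicInt.ker_toZModPow]
      exact Ideal.mem_span_singleton.mpr hc3
    have h2 := (RingHom.mem_ker).mp h1
    rw [map_sub, map_natCast, map_natCast, sub_eq_zero] at h2
    exact h2
  have hsm : ∀ z : Jp N (p ^ n), (ℓ ^ j) • z = (ℓ' ^ j') • z := by
    intro z
    rw [← Nat.cast_smul_eq_nsmul (ZMod (p ^ n)) (ℓ ^ j) z,
      ← Nat.cast_smul_eq_nsmul (ZMod (p ^ n)) (ℓ' ^ j') z, hc4]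
  -- the two Lucas elements
  obtain ⟨ha1, ha2⟩ := agree N (p ^ n) F hFnormal (y i) (hyF i) g (φ ^ j) hj
  obtain ⟨hb1, hb2⟩ := agree N (p ^ n) F hFnormal (y i) (hyF i) (g * σ) (φ' ^ j') hj'
  have hqNm := hnot q hq hqS
  have hσinv : σ⁻¹ ∈ P.inertiaSubgroupIn ℚ := inv_mem hσ
  rw [lucas_pow N (p ^ n) ℓ hℓ (hnot ℓ hℓ hℓS) A hA φ hφ j (y i),
    lucas_pow N (p ^ n) ℓ' hℓ' (hnot ℓ' hℓ' hℓ'S) A' hA' φ' hφ' j' (y i), ← ha1, ← ha2, ← hb1,
    ← hb2, galR_mul_apply, galR_inertia N (p ^ n) q hq hqNm P hP σ hσ, mul_inv_rev,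
    galR_mul_apply, galR_inertia N (p ^ n) q hq hqNm P hP σ⁻¹ hσinv, hsm]

end Fermat.Agent.S31.Gal
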