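import Mathlib
import Fermat.Agent.S30_EV

/-!
# S31 (B3): Hecke operators agreeing on torsion points are congruent in the Hecke algebra

* `exists_saturation_const`: a submodule `R` of a Noetherian `ℤ`-module has a saturation constant.
* `act_injective`: the transposed action of the Hecke algebra on the period lattice is faithful.
* `exists_saturation`: `M > 0` with: if `x ∈ 𝕋` maps the period lattice `L` into `m L` then
  `M • x ∈ m 𝕋`.
* `exists_points`: (from `KappaStatement`) finitely many points `y_i ∈ J₀(N)[m]` such that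
  `T_ℓ y_i = T_ℓ' y_i` for all `i` implies `(T_ℓ - T_ℓ') L ⊆ m L`.
* `hecke_congr`: the combination: `M • (T_ℓ - T_ℓ') ∈ m 𝕋`.
* `mem_pow_of_smul`: in a local ring with `p` in the maximal ideal and no `p`-torsion,
  `M a = p ^ (k + c) b` implies `a ∈ 𝔪 ^ k` (`c` the `p`-adic valuation of `M`).
-/

set_option autoImplicit false
set_option linter.style.haveILetI false

noncomputable section

open UpperHalfPlane ModularCurve CongruenceSubgroup ModularCurve.Period AlgebraicCurve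
open scoped MatrixGroups ModularForm TensorProduct

namespace Fermat.Agent.S31.Lattice

open Fermat.Agent.S29 (IsAdm Jp heckeJp restrT coe_restrT coe_heckeJp)
open Fermat.Agent.S30 (KappaStatement)
open Fermat.Agent.S30.EV

local notation "Qbar" => AlgebraicClosure ℚ

/-! ### saturation -/

/-- a submodule `R` of a Noetherian `ℤ`-module has a saturation constant. -/
theorem exists_saturation_const {E : Type*} [AddCommGroup E] [IsNoetherian ℤ E]
    (R : Submodule ℤ E) :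
    ∃ M : ℕ, 0 < M ∧ ∀ (z : E) (m : ℕ), m ≠ 0 → m • z ∈ R → M • z ∈ R := by
  classical
  let Sat : Submodule ℤ E :=
    { carrier := {z | ∃ m : ℕ, m ≠ 0 ∧ m • z ∈ R}
      add_mem' := by
        rintro a b ⟨m, hm, ha⟩ ⟨m', hm', hb⟩
        refine ⟨m * m', mul_ne_zero hm hm', ?_⟩
        rw [smul_add]
        refine add_mem ?_ ?_
        · rw [mul_comm, mul_smul]
          exact nsmul_mem ha m'
        · rw [mul_smul]
          exact nsmul_mem hb m
      zero_mem' := ⟨1, one_ne_zero, by rw [smul_zero]; exact zero_mem _⟩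
      smul_mem' := by
        rintro c a ⟨m, hm, ha⟩
        refine ⟨m, hm, ?_⟩
        rw [smul_comm]
        exact R.smul_mem c ha }
  obtain ⟨s, hs⟩ := (IsNoetherian.noetherian Sat : Sat.FG)
  have hmem : ∀ z ∈ s, ∃ m : ℕ, m ≠ 0 ∧ m • z ∈ R := fun z hz => by
    have h1 : z ∈ Sat := by
      rw [← hs]
      exact Submodule.subset_span hz
    exact h1
  choose! μ hμ0 hμ using hmem
  have hall : ∀ z ∈ Submodule.span ℤ (s : Set E), (∏ y ∈ s, μ y) • z ∈ R := by
    intro z hz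
    induction hz using Submodule.span_induction with
    | mem y hy =>
        obtain ⟨c, hc⟩ := Finset.dvd_prod_of_mem μ hy
        rw [hc, mul_comm, mul_smul]
        exact nsmul_mem (hμ y hy) c
    | zero => rw [smul_zero]; exact zero_mem _
    | add a b _ _ ha hb => rw [smul_add]; exact add_mem ha hb
    | smul c a _ ha => rw [smul_comm]; exact R.smul_mem c ha
  refine ⟨∏ y ∈ s, μ y, Nat.pos_of_ne_zero (Finset.prod_ne_zero_iff.mpr hμ0), ?_⟩
  intro z m hm hz
  refine hall z ?_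
  rw [hs]
  exact ⟨m, hm, hz⟩

/-! ### the Hecke action on the period lattice -/

section

variable (N : ℕ) [NeZero N]

/-- the transposed action of the Hecke algebra on the period lattice is faithful. -/
theorem act_injective (S : Set ℕ) : Function.Injective (act N S) := by
  rw [injective_iff_map_eq_zero]
  intro T hT
  apply Subtype.ext
  refine LinearMap.ext fun f => ?_
  by_contra hne
  apply Fermat.Agent.S29.Period.periodMap_ne_zero hne
  refine AddMonoidHom.ext fun γ => ?_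
  have h1 : act N S T ⟨PM N γ, ⟨γ, rfl⟩⟩ = 0 := by
    rw [hT]
    rfl
  have h2 := congrArg (fun φ : Lat N => (φ : Module.Dual ℂ (CuspForm (Gamma0 N) 2)) f) h1
  exact h2

theorem act_sub_apply (S : Set ℕ) (x y : CuspForm.heckeAlgebra N 2 S) (φ : Lat N) :
    act N S (x - y) φ = act N S x φ - act N S y φ := by
  rw [map_sub]
  rfl

theorem lat_finite : Module.Finite ℤ (Lat N) := by
  haveI : Group.FG (Gamma0 N) := Fermat.Agent.S22.Small.gamma0_fg N
  haveI : AddGroup.FG (Additive (Gamma0 N)) := GroupFG.iff_add_fg.mp inferInstance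
  have hLfg : (Lat N).FG := (AddGroup.fg_iff_addSubgroup_fg _).mp (AddGroup.fg_range (PM N))
  exact Module.Finite.iff_addGroup_fg.mpr ((AddGroup.fg_iff_addSubgroup_fg _).mpr hLfg)

/-- **saturation of the Hecke algebra in the endomorphisms of the period lattice.** -/
theorem exists_saturation (S : Set ℕ) :
    ∃ M : ℕ, 0 < M ∧ ∀ (x : CuspForm.heckeAlgebra N 2 S) (m : ℕ), m ≠ 0 →
      (∀ φ : Lat N, ∃ ψ : Lat N, act N S x φ = m • ψ) →
      ∃ u : CuspForm.heckeAlgebra N 2 S, M • x = m • u := by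
  classical
  haveI : Module.Finite ℤ (Lat N) := lat_finite N
  haveI : IsAddTorsionFree (Lat N) := lat_torsionFree N
  haveI : Module.Free ℤ (Lat N) := inferInstance
  haveI : IsNoetherian ℤ (Module.End ℤ (Lat N)) := inferInstance
  -- the action as an additive map to the `ℤ`-linear endomorphisms
  let a : CuspForm.heckeAlgebra N 2 S →+ Module.End ℤ (Lat N) :=
    AddMonoidHom.mk' (fun x => (act N S x : Lat N →+ Lat N).toIntLinearMap) (fun x y => by
      refine LinearMap.ext fun φ => ?_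
      show act N S (x + y) φ = act N S x φ + act N S y φ
      rw [map_add]
      rfl)
  have ha : ∀ x φ, a x φ = act N S x φ := fun _ _ => rfl
  have hainj : Function.Injective a := by
    intro x y hxy
    apply act_injective N S
    refine AddMonoidHom.ext fun φ => ?_
    show a x φ = a y φ
    rw [hxy]
  obtain ⟨M, hM, hsat⟩ := exists_saturation_const (AddMonoidHom.range a).toIntSubmodule
  refine ⟨M, hM, ?_⟩
  intro x m hm h
  choose z hz using h
  have hzadd : ∀ φ φ' : Lat N, z (φ + φ') = z φ + z φ' := by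
    intro φ φ'
    have h1 : m • z (φ + φ') = m • (z φ + z φ') := by
      rw [← hz, smul_add, ← hz, ← hz, map_add]
    exact nsmul_right_injective hm h1
  let zl : Module.End ℤ (Lat N) := (AddMonoidHom.mk' z hzadd).toIntLinearMap
  have hzl : m • zl = a x := by
    refine LinearMap.ext fun φ => ?_
    show m • z φ = act N S x φ
    rw [hz]
  have h1 : m • zl ∈ (AddMonoidHom.range a).toIntSubmodule := by
    rw [hzl]
    exact ⟨x, rfl⟩
  obtain ⟨u, hu⟩ := hsat zl m hm h1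
  refine ⟨u, hainj ?_⟩
  rw [map_nsmul, map_nsmul, hu, ← hzl, smul_comm]

/-- the Hecke operator `T_ℓ` on the period lattice, via the coset family. -/
theorem tHom_rangeRestrict (S : Set ℕ) {ℓ : ℕ} (hℓ : ℓ.Prime) (hℓN : ¬ ℓ ∣ N) (hℓS : ℓ ∉ S) :
    haveI : Fact ℓ.Prime := ⟨hℓ⟩
    (Fermat.Agent.S16.LB.famT N ℓ hℓN).tHom (PM N).rangeRestrict
      = (act N S (CuspForm.heckeAlgebra.T hℓ hℓN hℓS) : Lat N →+ Lat N).comp
        (PM N).rangeRestrict := by
  haveI : Fact ℓ.Prime := ⟨hℓ⟩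
  refine AddMonoidHom.ext fun γ => Subtype.ext ?_
  have h1 : ((Lat N).subtype.comp (PM N).rangeRestrict) = PM N := rfl
  have h2 : (((Fermat.Agent.S16.LB.famT N ℓ hℓN).tHom (PM N).rangeRestrict γ : Lat N) :
      Module.Dual ℂ (CuspForm (Gamma0 N) 2))
      = (Fermat.Agent.S16.LB.famT N ℓ hℓN).tHom (PM N) γ := by
    rw [← h1, Fermat.Agent.S16.LB.CosetFam.tHom_comp]
    rfl
  rw [h2, tHom_PM N _ (CuspForm.heckeTLin 2 hℓ hℓN) (fun f => by
    rw [CuspForm.coe_heckeTLin_apply]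
    exact Fermat.Agent.S16.LB.heckeT_eq_sum_famT N ℓ hℓN 2 f) γ]
  rfl

/-- **the test points**: finitely many points of `J₀(N)[m]` on which two Hecke operators agree
only if their difference maps the period lattice into `m` times itself. -/
theorem exists_points (hK : KappaStatement) (m : ℕ) [NeZero m] (S : Set ℕ) :
    ∃ (r : ℕ) (y : Fin r → JZero N), (∀ i, m • y i = 0) ∧
      ∀ (ℓ ℓ' : ℕ) (hℓ : ℓ.Prime) (hℓ' : ℓ'.Prime) (hℓN : ¬ ℓ ∣ N) (hℓ'N : ¬ ℓ' ∣ N)
        (hℓS : ℓ ∉ S) (hℓ'S : ℓ' ∉ S),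
        haveI : NeZero ℓ := ⟨hℓ.ne_zero⟩
        haveI : NeZero ℓ' := ⟨hℓ'.ne_zero⟩
        (∀ i, heckeOperatorAlong Qbar N ℓ (y i) = heckeOperatorAlong Qbar N ℓ' (y i)) →
        ∀ φ : Lat N, ∃ ψ : Lat N,
          act N S (CuspForm.heckeAlgebra.T hℓ hℓN hℓS - CuspForm.heckeAlgebra.T hℓ' hℓ'N hℓ'S) φ
            = m • ψ := by
  classical
  haveI : Module.Finite ℤ (Lat N) := lat_finite N
  haveI : IsAddTorsionFree (Lat N) := lat_torsionFree N
  haveI : Module.Free ℤ (Lat N) := inferInstance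
  let b := Module.finBasis ℤ (Lat N)
  let PΛ : Additive (Gamma0 N) →+ Lat N := (PM N).rangeRestrict
  have hsurj : Function.Surjective PΛ := (PM N).rangeRestrict_surjective
  have hadm : ∀ γ : Gamma0 N, ((γ : SL(2, ℤ)) 0 0 + (γ : SL(2, ℤ)) 1 1) ^ 2 ≤ 4 →
      PΛ (Additive.ofMul γ) = 0 := fun γ hγ =>
    Subtype.ext (LinearMap.ext fun f =>
      Fermat.Agent.S29.Period.periodMap_eq_zero_of_trace f γ hγ)
  let X : Submodule (ZMod m) (Additive (Gamma0 N) →+ ZMod m) :=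
    Submodule.span (ZMod m) (Set.range (chi m b PΛ))
  have hχX : ∀ j, chi m b PΛ j ∈ X := fun j => Submodule.subset_span ⟨j, rfl⟩
  have hfac : ∀ g' : Lat N →+ ZMod m, g'.comp PΛ ∈ X := by
    intro g'
    rw [comp_eq_sum m b PΛ g']
    exact Submodule.sum_mem _ (fun j _ => Submodule.smul_mem _ _ (hχX j))
  have hXfac : ∀ χ' ∈ X, ∃ g' : Lat N →+ ZMod m, χ' = g'.comp PΛ := by
    intro χ' hχ'
    induction hχ' using Submodule.span_induction with
    | mem y hy =>
        obtain ⟨j, rfl⟩ := hy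
        exact ⟨_, rfl⟩
    | zero => exact ⟨0, (AddMonoidHom.zero_comp PΛ).symm⟩
    | add y z _ _ hy hz =>
        obtain ⟨g1, rfl⟩ := hy
        obtain ⟨g2, rfl⟩ := hz
        exact ⟨g1 + g2, (AddMonoidHom.add_comp g1 g2 PΛ).symm⟩
    | smul r y _ hy =>
        obtain ⟨g1, rfl⟩ := hy
        exact ⟨r • g1, rfl⟩
  have hstab : ∀ (𝒜 : Fermat.Agent.S16.LB.CosetFam N) (τ : Lat N →+ Lat N),
      𝒜.tHom PΛ = τ.comp PΛ → ∀ χ ∈ X, 𝒜.tHom χ ∈ X := by
    intro 𝒜 τ hτ χ' hχ'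
    obtain ⟨g', rfl⟩ := hXfac χ' hχ'
    rw [Fermat.Agent.S16.LB.CosetFam.tHom_comp, hτ, ← AddMonoidHom.comp_assoc]
    exact hfac _
  have hXadm : ∀ χ ∈ X, IsAdm N m χ := by
    intro χ' hχ' γ hγ
    obtain ⟨g', rfl⟩ := hXfac χ' hχ'
    rw [AddMonoidHom.comp_apply, hadm γ hγ, map_zero]
  obtain ⟨κ, hκinj, hκT⟩ := hK N m X hXadm
  let xs : Fin (Module.finrank ℤ (Lat N)) → X := fun j => ⟨chi m b PΛ j, hχX j⟩
  refine ⟨Module.finrank ℤ (Lat N), fun j => ((κ (xs j) : Jp N m) : JZero N),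
    fun i => (κ (xs i)).2, ?_⟩
  intro ℓ ℓ' hℓ hℓ' hℓN hℓ'N hℓS hℓ'S hy φ
  haveI : Fact ℓ.Prime := ⟨hℓ⟩
  haveI : Fact ℓ'.Prime := ⟨hℓ'⟩
  haveI : NeZero ℓ := ⟨hℓ.ne_zero⟩
  haveI : NeZero ℓ' := ⟨hℓ'.ne_zero⟩
  have hτ := tHom_rangeRestrict N S hℓ hℓN hℓS
  have hτ' := tHom_rangeRestrict N S hℓ' hℓ'N hℓ'S
  have hX := hstab _ _ hτ
  have hX' := hstab _ _ hτ'
  -- the two Hecke operators agree on the characters `χ_j`
  have hchar : ∀ j, (Fermat.Agent.S16.LB.famT N ℓ hℓN).tHom (chi m b PΛ j)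
      = (Fermat.Agent.S16.LB.famT N ℓ' hℓ'N).tHom (chi m b PΛ j) := by
    intro j
    have h1 : heckeJp N m ℓ (κ (xs j)) = heckeJp N m ℓ' (κ (xs j)) := by
      apply Subtype.ext
      rw [coe_heckeJp, coe_heckeJp]
      exact hy j
    rw [← hκT ℓ hℓN hX (xs j), ← hκT ℓ' hℓ'N hX' (xs j)] at h1
    have h2 := congrArg (fun ξ : X => (ξ : Additive (Gamma0 N) →+ ZMod m)) (hκinj h1)
    simp only [coe_restrT] at h2
    exact h2
  obtain ⟨γ, rfl⟩ := hsurj φ
  -- coordinates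
  have hcoord : ∀ j, (m : ℤ) ∣
      b.repr (act N S (CuspForm.heckeAlgebra.T hℓ hℓN hℓS
        - CuspForm.heckeAlgebra.T hℓ' hℓ'N hℓ'S) (PΛ γ)) j := by
    intro j
    have h1 := congrArg (fun ξ : Additive (Gamma0 N) →+ ZMod m => ξ γ) (hchar j)
    have e : ∀ (𝒜 : Fermat.Agent.S16.LB.CosetFam N) (τ : Lat N →+ Lat N),
        𝒜.tHom PΛ = τ.comp PΛ →
        𝒜.tHom (chi m b PΛ j) γ = ((b.repr (τ (PΛ γ)) j : ℤ) : ZMod m) := by
      intro 𝒜 τ hτ
      show 𝒜.tHom (((Int.castAddHom (ZMod m)).comp (b.coord j).toAddMonoidHom).comp PΛ) γ = _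
      rw [Fermat.Agent.S16.LB.CosetFam.tHom_comp, hτ]
      rfl
    simp only [e _ _ hτ, e _ _ hτ'] at h1
    rw [act_sub_apply, map_sub, Finsupp.sub_apply]
    have h2 := (ZMod.intCast_eq_intCast_iff_dvd_sub _ _ m).mp h1.symm
    exact h2
  choose c hc using hcoord
  refine ⟨∑ j, c j • b j, ?_⟩
  rw [Finset.smul_sum]
  conv_lhs => rw [← b.sum_repr (act N S (CuspForm.heckeAlgebra.T hℓ hℓN hℓS
    - CuspForm.heckeAlgebra.T hℓ' hℓ'N hℓ'S) (PΛ γ))]
  refine Finset.sum_congr rfl fun j _ => ?_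
  rw [hc j, mul_smul]
  rfl

/-- the action of an element of the Hecke algebra on the period lattice, as an additive map. -/
def actHom (S : Set ℕ) (x : CuspForm.heckeAlgebra N 2 S) : Lat N →+ Lat N := act N S x

theorem actHom_apply (S : Set ℕ) (x : CuspForm.heckeAlgebra N 2 S) (φ : Lat N) :
    actHom N S x φ = act N S x φ := rfl

theorem actHom_mul (S : Set ℕ) (x y : CuspForm.heckeAlgebra N 2 S) :
    actHom N S (x * y) = (actHom N S x).comp (actHom N S y) := by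
  refine AddMonoidHom.ext fun φ => ?_
  show act N S (x * y) φ = act N S x (act N S y φ)
  rw [map_mul]
  rfl

theorem actHom_add (S : Set ℕ) (x y : CuspForm.heckeAlgebra N 2 S) :
    actHom N S (x + y) = actHom N S x + actHom N S y := by
  refine AddMonoidHom.ext fun φ => ?_
  show act N S (x + y) φ = act N S x φ + act N S y φ
  rw [map_add]
  rfl

theorem actHom_intCast (S : Set ℕ) (a : ℤ) (φ : Lat N) :
    actHom N S (a : CuspForm.heckeAlgebra N 2 S) φ = a • φ := by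
  show act N S (a : CuspForm.heckeAlgebra N 2 S) φ = a • φ
  rw [map_intCast]
  rfl

/-- the Hecke operator `T_ℓ` on `J₀(N)(ℚ̄)` as a `ℤ`-linear endomorphism. -/
def heckeEnd (ℓ : ℕ) [NeZero ℓ] : Module.End ℤ (JZero N) :=
  (heckeOperatorAlong Qbar N ℓ).toIntLinearMap

theorem heckeEnd_apply (ℓ : ℕ) [NeZero ℓ] (y : JZero N) :
    heckeEnd N ℓ y = heckeOperatorAlong Qbar N ℓ y := rfl

/-- **the test points, polynomial version**: finitely many points of `J₀(N)[m]` such that if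
`P(T_ℓ)` and `Q(T_ℓ')` agree on them, then `P(T_ℓ) - Q(T_ℓ')` maps the period lattice into `m`
times itself. -/
theorem exists_points_poly (hK : KappaStatement) (m : ℕ) [NeZero m] (S : Set ℕ) :
    ∃ (r : ℕ) (y : Fin r → JZero N), (∀ i, m • y i = 0) ∧
      ∀ (ℓ ℓ' : ℕ) (hℓ : ℓ.Prime) (hℓ' : ℓ'.Prime) (hℓN : ¬ ℓ ∣ N) (hℓ'N : ¬ ℓ' ∣ N)
        (hℓS : ℓ ∉ S) (hℓ'S : ℓ' ∉ S) (P Q : Polynomial ℤ),
        haveI : NeZero ℓ := ⟨hℓ.ne_zero⟩
        haveI : NeZero ℓ' := ⟨hℓ'.ne_zero⟩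
        (∀ i, Polynomial.aeval (heckeEnd N ℓ) P (y i)
          = Polynomial.aeval (heckeEnd N ℓ') Q (y i)) →
        ∀ φ : Lat N, ∃ ψ : Lat N,
          act N S (Polynomial.aeval (CuspForm.heckeAlgebra.T hℓ hℓN hℓS) P
            - Polynomial.aeval (CuspForm.heckeAlgebra.T hℓ' hℓ'N hℓ'S) Q) φ = m • ψ := by
  classical
  haveI : Module.Finite ℤ (Lat N) := lat_finite N
  haveI : IsAddTorsionFree (Lat N) := lat_torsionFree N
  haveI : Module.Free ℤ (Lat N) := inferInstance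
  let b := Module.finBasis ℤ (Lat N)
  let PΛ : Additive (Gamma0 N) →+ Lat N := (PM N).rangeRestrict
  have hsurj : Function.Surjective PΛ := (PM N).rangeRestrict_surjective
  have hadm : ∀ γ : Gamma0 N, ((γ : SL(2, ℤ)) 0 0 + (γ : SL(2, ℤ)) 1 1) ^ 2 ≤ 4 →
      PΛ (Additive.ofMul γ) = 0 := fun γ hγ =>
    Subtype.ext (LinearMap.ext fun f =>
      Fermat.Agent.S29.Period.periodMap_eq_zero_of_trace f γ hγ)
  let X : Submodule (ZMod m) (Additive (Gamma0 N) →+ ZMod m) :=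
    Submodule.span (ZMod m) (Set.range (chi m b PΛ))
  have hχX : ∀ j, chi m b PΛ j ∈ X := fun j => Submodule.subset_span ⟨j, rfl⟩
  have hfac : ∀ g' : Lat N →+ ZMod m, g'.comp PΛ ∈ X := by
    intro g'
    rw [comp_eq_sum m b PΛ g']
    exact Submodule.sum_mem _ (fun j _ => Submodule.smul_mem _ _ (hχX j))
  have hXfac : ∀ χ' ∈ X, ∃ g' : Lat N →+ ZMod m, χ' = g'.comp PΛ := by
    intro χ' hχ'
    induction hχ' using Submodule.span_induction with
    | mem y hy =>
        obtain ⟨j, rfl⟩ := hy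
        exact ⟨_, rfl⟩
    | zero => exact ⟨0, (AddMonoidHom.zero_comp PΛ).symm⟩
    | add y z _ _ hy hz =>
        obtain ⟨g1, rfl⟩ := hy
        obtain ⟨g2, rfl⟩ := hz
        exact ⟨g1 + g2, (AddMonoidHom.add_comp g1 g2 PΛ).symm⟩
    | smul r y _ hy =>
        obtain ⟨g1, rfl⟩ := hy
        exact ⟨r • g1, rfl⟩
  have hstab : ∀ (𝒜 : Fermat.Agent.S16.LB.CosetFam N) (τ : Lat N →+ Lat N),
      𝒜.tHom PΛ = τ.comp PΛ → ∀ χ ∈ X, 𝒜.tHom χ ∈ X := by
    intro 𝒜 τ hτ χ' hχ'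
    obtain ⟨g', rfl⟩ := hXfac χ' hχ'
    rw [Fermat.Agent.S16.LB.CosetFam.tHom_comp, hτ, ← AddMonoidHom.comp_assoc]
    exact hfac _
  have hXadm : ∀ χ ∈ X, IsAdm N m χ := by
    intro χ' hχ' γ hγ
    obtain ⟨g', rfl⟩ := hXfac χ' hχ'
    rw [AddMonoidHom.comp_apply, hadm γ hγ, map_zero]
  obtain ⟨κ, hκinj, hκT⟩ := hK N m X hXadm
  -- the class of the character attached to a functional on the lattice
  let F : (Lat N →+ ZMod m) → X := fun g' => ⟨g'.comp PΛ, hfac g'⟩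
  let cl : (Lat N →+ ZMod m) → JZero N := fun g' => ((κ (F g') : Jp N m) : JZero N)
  have hcl_add : ∀ g₁ g₂ : Lat N →+ ZMod m, cl (g₁ + g₂) = cl g₁ + cl g₂ := by
    intro g₁ g₂
    have h1 : F (g₁ + g₂) = F g₁ + F g₂ := Subtype.ext (AddMonoidHom.add_comp g₁ g₂ PΛ)
    show ((κ (F (g₁ + g₂)) : Jp N m) : JZero N) = _
    rw [h1, map_add, AddSubgroup.coe_add]
  have hcl_zsmul : ∀ (a : ℤ) (g₁ : Lat N →+ ZMod m), cl (a • g₁) = a • cl g₁ := by
    intro a g₁
    have h1 : F (a • g₁) = (a : ZMod m) • F g₁ := by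
      refine Subtype.ext (AddMonoidHom.ext fun γ => ?_)
      show a • g₁ (PΛ γ) = (a : ZMod m) • g₁ (PΛ γ)
      rw [smul_eq_mul, zsmul_eq_mul]
    show ((κ (F (a • g₁)) : Jp N m) : JZero N) = _
    rw [h1, map_smul, Int.cast_smul_eq_zsmul, AddSubgroup.coe_zsmul]
  have hcl_inj : ∀ g₁ g₂ : Lat N →+ ZMod m, cl g₁ = cl g₂ → g₁.comp PΛ = g₂.comp PΛ := by
    intro g₁ g₂ h
    exact congrArg (fun ξ : X => (ξ : Additive (Gamma0 N) →+ ZMod m)) (hκinj (Subtype.ext h))
  let gj : Fin (Module.finrank ℤ (Lat N)) → (Lat N →+ ZMod m) := fun j =>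
    (Int.castAddHom (ZMod m)).comp (b.coord j).toAddMonoidHom
  refine ⟨Module.finrank ℤ (Lat N), fun j => cl (gj j), fun i => (κ (F (gj i))).2, ?_⟩
  -- the key: for one prime, `P(T_ℓ)` on the classes
  have key : ∀ (ℓ : ℕ) (hℓ : ℓ.Prime) (hℓN : ¬ ℓ ∣ N) (hℓS : ℓ ∉ S) (P : Polynomial ℤ)
      (g' : Lat N →+ ZMod m),
      haveI : NeZero ℓ := ⟨hℓ.ne_zero⟩
      Polynomial.aeval (heckeEnd N ℓ) P (cl g')
        = cl (g'.comp (actHom N S (Polynomial.aeval (CuspForm.heckeAlgebra.T hℓ hℓN hℓS) P))) := by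
    intro ℓ hℓ hℓN hℓS P
    haveI : Fact ℓ.Prime := ⟨hℓ⟩
    haveI : NeZero ℓ := ⟨hℓ.ne_zero⟩
    have hτ : (Fermat.Agent.S16.LB.famT N ℓ hℓN).tHom PΛ
        = (actHom N S (CuspForm.heckeAlgebra.T hℓ hℓN hℓS)).comp PΛ :=
      tHom_rangeRestrict N S hℓ hℓN hℓS
    have hX := hstab _ _ hτ
    -- one step
    have step : ∀ g' : Lat N →+ ZMod m,
        heckeEnd N ℓ (cl g')
          = cl (g'.comp (actHom N S (CuspForm.heckeAlgebra.T hℓ hℓN hℓS))) := by
      intro g'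
      have h1 : restrT (Fermat.Agent.S16.LB.famT N ℓ hℓN) X hX (F g')
          = F (g'.comp (actHom N S (CuspForm.heckeAlgebra.T hℓ hℓN hℓS))) := by
        apply Subtype.ext
        rw [coe_restrT]
        show (Fermat.Agent.S16.LB.famT N ℓ hℓN).tHom (g'.comp PΛ) = _
        rw [Fermat.Agent.S16.LB.CosetFam.tHom_comp, hτ, ← AddMonoidHom.comp_assoc]
      show heckeOperatorAlong Qbar N ℓ ((κ (F g') : Jp N m) : JZero N) = _
      rw [← coe_heckeJp, ← hκT ℓ hℓN hX (F g'), h1]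
    induction P using Polynomial.induction_on with
    | C a =>
        intro g'
        have e2 : g'.comp (actHom N S (Polynomial.aeval (CuspForm.heckeAlgebra.T hℓ hℓN hℓS)
            (Polynomial.C a))) = a • g' := by
          refine AddMonoidHom.ext fun x => ?_
          rw [Polynomial.aeval_C, eq_intCast]
          show g' (actHom N S (a : CuspForm.heckeAlgebra N 2 S) x) = a • g' x
          rw [actHom_intCast, map_zsmul]
        rw [e2, hcl_zsmul, Polynomial.aeval_C, Module.algebraMap_end_apply]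
    | add P Q hP hQ =>
        intro g'
        have e : g'.comp (actHom N S (Polynomial.aeval (CuspForm.heckeAlgebra.T hℓ hℓN hℓS)
            (P + Q)))
            = g'.comp (actHom N S (Polynomial.aeval (CuspForm.heckeAlgebra.T hℓ hℓN hℓS) P))
              + g'.comp (actHom N S (Polynomial.aeval (CuspForm.heckeAlgebra.T hℓ hℓN hℓS) Q)) := by
          rw [map_add, actHom_add]
          refine AddMonoidHom.ext fun x => ?_
          show g' (_ + _) = _
          rw [map_add]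
          rfl
        rw [e, hcl_add, ← hP g', ← hQ g', map_add]
        rfl
    | monomial n a ih =>
        intro g'
        have e1 : Polynomial.aeval (heckeEnd N ℓ) (Polynomial.C a * Polynomial.X ^ (n + 1))
            = Polynomial.aeval (heckeEnd N ℓ) (Polynomial.C a * Polynomial.X ^ n)
              * heckeEnd N ℓ := by
          rw [pow_succ, ← mul_assoc, map_mul, Polynomial.aeval_X]
        have e2 : Polynomial.aeval
            (CuspForm.heckeAlgebra.T hℓ hℓN hℓS : CuspForm.heckeAlgebra N 2 S)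
            (Polynomial.C a * Polynomial.X ^ (n + 1))
            = (CuspForm.heckeAlgebra.T hℓ hℓN hℓS : CuspForm.heckeAlgebra N 2 S)
              * Polynomial.aeval
                (CuspForm.heckeAlgebra.T hℓ hℓN hℓS : CuspForm.heckeAlgebra N 2 S)
                (Polynomial.C a * Polynomial.X ^ n) := by
          rw [pow_succ, ← mul_assoc, map_mul, Polynomial.aeval_X, mul_comm]
        rw [e1, e2, Module.End.mul_apply, step g', ih, actHom_mul, AddMonoidHom.comp_assoc]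
  intro ℓ ℓ' hℓ hℓ' hℓN hℓ'N hℓS hℓ'S P Q hy φ
  have hy' : ∀ j, ((gj j).comp (actHom N S
        (Polynomial.aeval (CuspForm.heckeAlgebra.T hℓ hℓN hℓS) P))).comp PΛ
      = ((gj j).comp (actHom N S
        (Polynomial.aeval (CuspForm.heckeAlgebra.T hℓ' hℓ'N hℓ'S) Q))).comp PΛ := by
    intro j
    have h1 := hy j
    rw [key ℓ hℓ hℓN hℓS P (gj j), key ℓ' hℓ' hℓ'N hℓ'S Q (gj j)] at h1
    exact hcl_inj _ _ h1
  obtain ⟨γ, rfl⟩ := hsurj φ
  have hcoord : ∀ j, (m : ℤ) ∣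
      b.repr (act N S (Polynomial.aeval (CuspForm.heckeAlgebra.T hℓ hℓN hℓS) P
        - Polynomial.aeval (CuspForm.heckeAlgebra.T hℓ' hℓ'N hℓ'S) Q) (PΛ γ)) j := by
    intro j
    have h1 := congrArg (fun ξ : Additive (Gamma0 N) →+ ZMod m => ξ γ) (hy' j)
    have h2 : ((b.repr (act N S
          (Polynomial.aeval (CuspForm.heckeAlgebra.T hℓ hℓN hℓS) P) (PΛ γ)) j : ℤ) : ZMod m)
        = ((b.repr (act N S
          (Polynomial.aeval (CuspForm.heckeAlgebra.T hℓ' hℓ'N hℓ'S) Q) (PΛ γ)) j : ℤ) :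
          ZMod m) := h1
    rw [act_sub_apply, map_sub, Finsupp.sub_apply]
    exact (ZMod.intCast_eq_intCast_iff_dvd_sub _ _ m).mp h2.symm
  choose c hc using hcoord
  refine ⟨∑ j, c j • b j, ?_⟩
  rw [Finset.smul_sum]
  conv_lhs => rw [← b.sum_repr (act N S (Polynomial.aeval (CuspForm.heckeAlgebra.T hℓ hℓN hℓS) P
    - Polynomial.aeval (CuspForm.heckeAlgebra.T hℓ' hℓ'N hℓ'S) Q) (PΛ γ))]
  refine Finset.sum_congr rfl fun j _ => ?_
  rw [hc j, mul_smul]
  rfl

/-- **polynomials in Hecke operators agreeing on the test points are congruent modulo `m`, up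
to the saturation constant.** -/
theorem hecke_congr_poly (hK : KappaStatement) (S : Set ℕ) :
    ∃ M : ℕ, 0 < M ∧ ∀ (m : ℕ) [NeZero m],
      ∃ (r : ℕ) (y : Fin r → JZero N), (∀ i, m • y i = 0) ∧
        ∀ (ℓ ℓ' : ℕ) (hℓ : ℓ.Prime) (hℓ' : ℓ'.Prime) (hℓN : ¬ ℓ ∣ N) (hℓ'N : ¬ ℓ' ∣ N)
          (hℓS : ℓ ∉ S) (hℓ'S : ℓ' ∉ S) (P Q : Polynomial ℤ),
          haveI : NeZero ℓ := ⟨hℓ.ne_zero⟩
          haveI : NeZero ℓ' := ⟨hℓ'.ne_zero⟩
          (∀ i, Polynomial.aeval (heckeEnd N ℓ) P (y i)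
            = Polynomial.aeval (heckeEnd N ℓ') Q (y i)) →
          ∃ u : CuspForm.heckeAlgebra N 2 S,
            M • (Polynomial.aeval (CuspForm.heckeAlgebra.T hℓ hℓN hℓS) P
              - Polynomial.aeval (CuspForm.heckeAlgebra.T hℓ' hℓ'N hℓ'S) Q) = m • u := by
  obtain ⟨M, hM, hsat⟩ := exists_saturation N S
  refine ⟨M, hM, fun m _ => ?_⟩
  obtain ⟨r, y, hy, hpt⟩ := exists_points_poly N hK m S
  refine ⟨r, y, hy, fun ℓ ℓ' hℓ hℓ' hℓN hℓ'N hℓS hℓ'S P Q h => ?_⟩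
  exact hsat _ m (NeZero.ne m) (hpt ℓ ℓ' hℓ hℓ' hℓN hℓ'N hℓS hℓ'S P Q h)

/-- **Hecke operators agreeing on the test points are congruent modulo `m`, up to the
saturation constant.** -/
theorem hecke_congr (hK : KappaStatement) (S : Set ℕ) :
    ∃ M : ℕ, 0 < M ∧ ∀ (m : ℕ) [NeZero m],
      ∃ (r : ℕ) (y : Fin r → JZero N), (∀ i, m • y i = 0) ∧
        ∀ (ℓ ℓ' : ℕ) (hℓ : ℓ.Prime) (hℓ' : ℓ'.Prime) (hℓN : ¬ ℓ ∣ N) (hℓ'N : ¬ ℓ' ∣ N)
          (hℓS : ℓ ∉ S) (hℓ'S : ℓ' ∉ S),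
          haveI : NeZero ℓ := ⟨hℓ.ne_zero⟩
          haveI : NeZero ℓ' := ⟨hℓ'.ne_zero⟩
          (∀ i, heckeOperatorAlong Qbar N ℓ (y i) = heckeOperatorAlong Qbar N ℓ' (y i)) →
          ∃ u : CuspForm.heckeAlgebra N 2 S,
            M • (CuspForm.heckeAlgebra.T hℓ hℓN hℓS - CuspForm.heckeAlgebra.T hℓ' hℓ'N hℓ'S)
              = m • u := by
  obtain ⟨M, hM, hsat⟩ := exists_saturation N S
  refine ⟨M, hM, fun m _ => ?_⟩
  obtain ⟨r, y, hy, hpt⟩ := exists_points N hK m S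
  refine ⟨r, y, hy, fun ℓ ℓ' hℓ hℓ' hℓN hℓ'N hℓS hℓ'S h => ?_⟩
  exact hsat _ m (NeZero.ne m) (hpt ℓ ℓ' hℓ hℓ' hℓN hℓ'N hℓS hℓ'S h)

end

/-! ### the target side -/

/-- in a local ring with `p` in the maximal ideal and without `p`-torsion, `M a = p ^ (k + c) b`
forces `a ∈ 𝔪 ^ k`, where `c` only depends on `M`. -/
theorem mem_pow_of_smul {T : Type*} [CommRing T] [IsLocalRing T] (p : ℕ) (hp : p.Prime)
    (hpT : (p : T) ∈ IsLocalRing.maximalIdeal T) (htf : ∀ t : T, (p : T) * t = 0 → t = 0)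
    (M : ℕ) (hM : 0 < M) :
    ∃ c : ℕ, ∀ (k : ℕ) (a b : T), (M : T) * a = (p : T) ^ (k + c) * b →
      a ∈ IsLocalRing.maximalIdeal T ^ k := by
  obtain ⟨c, M', hM', rfl⟩ := Nat.exists_eq_pow_mul_and_not_dvd hM.ne' p hp.ne_one
  have hunit : IsUnit (M' : T) := by
    by_contra hnu
    have h1 : (M' : T) ∈ IsLocalRing.maximalIdeal T := (IsLocalRing.mem_maximalIdeal _).mpr hnu
    have hcop : Nat.Coprime p M' := (Nat.Prime.coprime_iff_not_dvd hp).mpr hM'
    have h2 : ((Nat.gcdA p M' : ℤ) : T) * (p : T) + ((Nat.gcdB p M' : ℤ) : T) * (M' : T) = 1 := by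
      have h3 := Nat.gcd_eq_gcd_ab p M'
      rw [hcop.gcd_eq_one] at h3
      have h4 := congrArg (Int.cast : ℤ → T) h3
      push_cast at h4
      rw [h4]
      ring
    have h5 : (1 : T) ∈ IsLocalRing.maximalIdeal T := by
      rw [← h2]
      exact add_mem (Ideal.mul_mem_left _ _ hpT) (Ideal.mul_mem_left _ _ h1)
    exact (IsLocalRing.mem_maximalIdeal _).mp h5 isUnit_one
  have htf' : ∀ (j : ℕ) (t : T), (p : T) ^ j * t = 0 → t = 0 := by
    intro j
    induction j with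
    | zero => intro t ht; rwa [pow_zero, one_mul] at ht
    | succ j ih =>
        intro t ht
        rw [pow_succ, mul_assoc] at ht
        exact htf t (ih _ ht)
  refine ⟨c, fun k a b h => ?_⟩
  obtain ⟨w, hw⟩ := hunit
  have h1 : (p : T) ^ c * ((M' : T) * a - (p : T) ^ k * b) = 0 := by
    have h2 : ((p ^ c * M' : ℕ) : T) * a = (p : T) ^ c * ((M' : T) * a) := by
      push_cast
      ring
    rw [mul_sub, ← h2, h, pow_add]
    ring
  have h3 := sub_eq_zero.mp (htf' c _ h1)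
  have h4 : a = (p : T) ^ k * ((w⁻¹ : Tˣ) * b) := by
    have h5 : a = (w⁻¹ : Tˣ) * ((M' : T) * a) := by
      rw [← hw, ← mul_assoc, Units.inv_mul, one_mul]
    rw [h5, h3]
    ring
  rw [h4]
  exact Ideal.mul_mem_right _ _ (Ideal.pow_mem_pow hpT k)

end Fermat.Agent.S31.Lattice
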