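import Mathlib

/-!
# S31: the Artin–Rees shift for a commutative ring acting faithfully on a lattice

Let `𝕋` be a commutative ring acting faithfully on a finitely generated abelian group `L` and let
`p` be an integer.  There is a constant `c` such that every `x ∈ 𝕋` with `x L ⊆ p ^ (n + c) L` is
divisible by `p ^ n` in `𝕋` (`shift`).  (Artin–Rees for the image of `𝕋` in `L ^ r`, through the
values at generators `v₁, …, v_r` of `L`, and the ideal `(p)` of `ℤ`.)
-/

set_option autoImplicit false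

namespace Fermat.Agent.S31.Shift

/-- the values of the action at a family of elements, as a `ℤ`-linear map. -/
def evZ {𝕋 : Type} [CommRing 𝕋] {L : Type} [AddCommGroup L] (act : 𝕋 →+* AddMonoid.End L)
    {r : ℕ} (v : Fin r → L) : 𝕋 →ₗ[ℤ] (Fin r → L) :=
  AddMonoidHom.toIntLinearMap
    { toFun := fun x i => act x (v i)
      map_zero' := by
        funext i
        show (act 0) (v i) = 0
        rw [map_zero]
        rfl
      map_add' := fun x y => by
        funext i
        show (act (x + y)) (v i) = (act x) (v i) + (act y) (v i)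
        rw [map_add]
        rfl }

theorem evZ_apply {𝕋 : Type} [CommRing 𝕋] {L : Type} [AddCommGroup L]
    (act : 𝕋 →+* AddMonoid.End L) {r : ℕ} (v : Fin r → L) (x : 𝕋) (i : Fin r) :
    evZ act v x i = act x (v i) := rfl

/-- **the shift**: divisibility of the action by `p ^ (n + c)` implies divisibility by `p ^ n`
in the ring. -/
theorem shift (𝕋 : Type) [CommRing 𝕋] (L : Type) [AddCommGroup L] [Module.Finite ℤ L]
    (act : 𝕋 →+* AddMonoid.End L) (hinj : Function.Injective act) (p : ℕ) :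
    ∃ c : ℕ, ∀ (n : ℕ) (x : 𝕋), (∀ v : L, ∃ u : L, act x v = (p ^ (n + c)) • u) →
      ∃ y : 𝕋, x = (p : 𝕋) ^ n * y := by
  classical
  obtain ⟨r, v, hv⟩ := Module.Finite.exists_fin (R := ℤ) (M := L)
  obtain ⟨k, hk⟩ := Ideal.exists_pow_inf_eq_pow_smul (Ideal.span {(p : ℤ)})
    (LinearMap.range (evZ act v))
  refine ⟨k, fun n x hx => ?_⟩
  choose u hu using hx
  have hψ : evZ act v x = ((p : ℤ) ^ (n + k)) • (fun i => u (v i)) := by
    funext i
    rw [evZ_apply, hu, Pi.smul_apply, ← natCast_zsmul]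
    push_cast
    rfl
  have h1 : evZ act v x ∈ (Ideal.span {(p : ℤ)}) ^ (n + k) • (⊤ : Submodule ℤ (Fin r → L)) := by
    rw [hψ]
    exact Submodule.smul_mem_smul
      (Ideal.pow_mem_pow (Ideal.mem_span_singleton_self _) _) Submodule.mem_top
  have h2 : evZ act v x ∈ (Ideal.span {(p : ℤ)}) ^ (n + k) • (⊤ : Submodule ℤ (Fin r → L))
      ⊓ LinearMap.range (evZ act v) := ⟨h1, LinearMap.mem_range_self _ _⟩
  rw [hk (n + k) (Nat.le_add_left k n), Nat.add_sub_cancel] at h2
  have h3 : evZ act v x ∈ (Ideal.span {(p : ℤ)}) ^ n • LinearMap.range (evZ act v) :=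
    Submodule.smul_mono le_rfl inf_le_right h2
  rw [Ideal.span_singleton_pow, Submodule.ideal_span_singleton_smul,
    Submodule.mem_smul_pointwise_iff_exists] at h3
  obtain ⟨z, ⟨y, rfl⟩, hz⟩ := h3
  refine ⟨y, hinj ?_⟩
  have e1 : (p : 𝕋) ^ n * y = (p ^ n : ℕ) • y := by rw [nsmul_eq_mul, Nat.cast_pow]
  have e2 : act ((p ^ n : ℕ) • y) = (p ^ n : ℕ) • act y := map_nsmul act _ _
  rw [e1, e2]
  have hgen : ∀ i, (act x) (v i) = ((p ^ n : ℕ) • act y) (v i) := by
    intro i
    have h4 := congrFun hz i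
    simp only [Pi.smul_apply, evZ_apply] at h4
    have h5 : ((p ^ n : ℕ) • act y) (v i) = (p ^ n : ℕ) • (act y (v i)) := rfl
    have h6 : ((p : ℤ) ^ n) • (act y (v i)) = (p ^ n : ℕ) • (act y (v i)) := by
      rw [← natCast_zsmul]
      push_cast
      rfl
    exact h4.symm.trans (h6.trans h5.symm)
  have hlin : AddMonoidHom.toIntLinearMap (act x : L →+ L)
      = AddMonoidHom.toIntLinearMap (((p ^ n : ℕ) • act y : AddMonoid.End L) : L →+ L) := by
    apply LinearMap.ext_on hv
    rintro _ ⟨i, rfl⟩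
    exact hgen i
  refine DFunLike.ext _ _ fun w => ?_
  exact congrArg (fun f : L →ₗ[ℤ] L => f w) hlin

end Fermat.Agent.S31.Shift
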