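import Mathlib
import Fermat.Agent.S31_Defs
import Fermat.Agent.S31_Shift
import Fermat.Agent.S31_Lattice

/-!
# S31 (HK): the Hecke side

`hecke_key : KappaStatement → HeckeKeyStatement`: there is `v` such that for every `n` finitely
many points `y i ∈ J₀(N)[p ^ (n + v)]` detect divisibility by `p ^ n` in the Hecke algebra, for
differences of Lucas elements `lucasSeq T_ℓ ℓ j - lucasSeq T_ℓ' ℓ' j'`.

Proof: the Lucas element is `P(T_ℓ)` for the Lucas polynomial `P = lucasSeq X ℓ j ∈ ℤ[X]`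
(`aeval_lucasPoly`); the test points are the Kummer classes of the coordinate characters of the
period lattice (`Lattice.exists_points_poly`), on which `P(T_ℓ) = Q(T_ℓ')` forces
`(P(T_ℓ) - Q(T_ℓ')) Λ ⊆ p ^ (n + v) Λ`; the Artin–Rees shift (`Shift.shift`) for the faithful
action of the Hecke algebra on the period lattice `Λ` gives divisibility by `p ^ n`.
-/

set_option autoImplicit false
set_option linter.style.haveILetI false

noncomputable section

open ModularCurve AlgebraicCurve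

namespace Fermat.Agent.S31.HeckeB

open Fermat.Agent.S29 (Jp heckeJp coe_heckeJp)
open Fermat.Agent.S30 (KappaStatement)
open Fermat.Agent.S30.EV
open Fermat.Agent.S31.Lattice

local notation "Qbar" => AlgebraicClosure ℚ

/-- the Lucas polynomial `lucasSeq X d j ∈ ℤ[X]`. -/
def lucasPoly (d j : ℕ) : Polynomial ℤ :=
  lucasSeq (Polynomial.X : Polynomial ℤ) ((d : ℕ) : Polynomial ℤ) j

theorem aeval_lucasPoly {A : Type*} [Ring A] [Algebra ℤ A] (a : A) (d j : ℕ) :
    Polynomial.aeval a (lucasPoly d j) = lucasSeq a ((d : ℕ) : A) j := by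
  have h := map_lucasSeq ((Polynomial.aeval a : Polynomial ℤ →ₐ[ℤ] A) : Polynomial ℤ →+* A)
    (Polynomial.X : Polynomial ℤ) ((d : ℕ) : Polynomial ℤ) j
  rw [map_natCast, RingHom.coe_coe, Polynomial.aeval_X] at h
  exact h

theorem two_apply {R M : Type*} [Semiring R] [AddCommMonoid M] [Module R M] (y : M) :
    (2 : Module.End R M) y = 2 • y := by
  have h : (2 : Module.End R M) = ((2 : ℕ) : Module.End R M) := Nat.cast_ofNat.symm
  rw [h, Module.End.natCast_apply]

/-- the Lucas operators on `J₀(N)[m]` are the restrictions of those on `J₀(N)`. -/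
theorem coe_lucasSeq_heckeJp (N m ℓ : ℕ) [NeZero N] [NeZero ℓ] (j : ℕ) (y : Jp N m) :
    ((lucasSeq (heckeJp N m ℓ) ((ℓ : ℕ) : Module.End (ZMod m) (Jp N m)) j y : Jp N m) : JZero N)
      = lucasSeq (heckeEnd N ℓ) ((ℓ : ℕ) : Module.End ℤ (JZero N)) j (y : JZero N) := by
  induction j using Nat.twoStepInduction with
  | zero =>
      rw [lucasSeq_zero, lucasSeq_zero, two_apply, two_apply, AddSubgroup.coe_nsmul]
  | one =>
      rw [lucasSeq_one, lucasSeq_one, coe_heckeJp]
      rfl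
  | more j h1 h2 =>
      rw [lucasSeq_succ_succ, lucasSeq_succ_succ, LinearMap.sub_apply, LinearMap.sub_apply,
        Module.End.mul_apply, Module.End.mul_apply, Module.End.mul_apply, Module.End.mul_apply,
        AddSubgroup.coe_sub, coe_heckeJp, h2, Module.End.natCast_apply,
        Module.End.natCast_apply, AddSubgroup.coe_nsmul, h1]
      rfl

/-- **(HK)**: the Hecke side of S31. -/
theorem hecke_key (hK : KappaStatement) : HeckeKeyStatement := by
  intro p _ N _ S
  haveI : NeZero p := ⟨(Fact.out : p.Prime).ne_zero⟩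
  haveI : Module.Finite ℤ (Lat N) := lat_finite N
  obtain ⟨c, hc⟩ := Fermat.Agent.S31.Shift.shift (CuspForm.heckeAlgebra N 2 (↑S : Set ℕ))
    (Lat N) (act N (↑S : Set ℕ)) (act_injective N (↑S : Set ℕ)) p
  refine ⟨c, fun n => ?_⟩
  haveI : NeZero (p ^ (n + c)) := ⟨pow_ne_zero _ (NeZero.ne p)⟩
  obtain ⟨r, y, hy0, hy⟩ := exists_points_poly N hK (p ^ (n + c)) (↑S : Set ℕ)
  refine ⟨r, fun i => ⟨y i, hy0 i⟩, ?_⟩
  intro ℓ ℓ' _ _ hℓ hℓN hℓS hℓ' hℓ'N hℓ'S j j' hyy
  have h1 := hy ℓ ℓ' hℓ hℓ' hℓN hℓ'N hℓS hℓ'S (lucasPoly ℓ j) (lucasPoly ℓ' j') (fun i => by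
    rw [aeval_lucasPoly, aeval_lucasPoly,
      ← coe_lucasSeq_heckeJp N (p ^ (n + c)) ℓ j ⟨y i, hy0 i⟩,
      ← coe_lucasSeq_heckeJp N (p ^ (n + c)) ℓ' j' ⟨y i, hy0 i⟩, hyy i])
  rw [aeval_lucasPoly, aeval_lucasPoly] at h1
  obtain ⟨B, hB⟩ := hc n _ h1
  exact ⟨B, by rw [hB, Nat.cast_pow]⟩

end Fermat.Agent.S31.HeckeB
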