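import Mathlib
import Fermat.Agent.S31_Defs

/-!
# S31 (long shot): continuity of the trace (`TraceContStatement`)

If `g` and `g'` agree on the level `L` given by the adic continuity of `ρ` at `k`, then
`ρ g - ρ g' = ρ g' ∘ (ρ (g'⁻¹ g) - 1)` maps `V` into `𝔪 ^ k V`, so its trace lies in `𝔪 ^ k`.
-/

set_option autoImplicit false

noncomputable section

namespace Fermat.Agent.S31.TraceCont

/-- the trace of an endomorphism of a finite free module with image in `I V` lies in `I` -/
theorem trace_mem_of_forall_mem {T V : Type*} [CommRing T] [AddCommGroup V] [Module T V]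
    [Module.Free T V] [Module.Finite T V] (I : Ideal T) (f : Module.End T V)
    (hf : ∀ v : V, f v ∈ I • (⊤ : Submodule T V)) : LinearMap.trace T V f ∈ I := by
  classical
  let b := Module.Free.chooseBasis T V
  have key : ∀ x ∈ I • (⊤ : Submodule T V), ∀ i, b.repr x i ∈ I := by
    intro x hx i
    refine Submodule.smul_induction_on (p := fun x => b.repr x i ∈ I) hx ?_ ?_
    · intro r hr w _
      rw [map_smul, Finsupp.smul_apply, smul_eq_mul]
      exact Ideal.mul_mem_right _ _ hr
    · intro x y hx hy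
      rw [map_add, Finsupp.add_apply]
      exact Ideal.add_mem _ hx hy
  rw [LinearMap.trace_eq_matrix_trace T b, Matrix.trace]
  refine Ideal.sum_mem _ (fun i _ => ?_)
  rw [Matrix.diag_apply, LinearMap.toMatrix_apply]
  exact key _ (hf _) i

/-- **(TC)** of `S31_Defs`. -/
theorem trace_cont : TraceContStatement := by
  intro T _ _ ρ k
  obtain ⟨L, hL, h⟩ := ρ.isAdicContinuous k
  refine ⟨L, hL, fun g g' hgg' => ?_⟩
  have hσ : ∀ x ∈ L, (g'⁻¹ * g) x = x := by
    intro x hx
    rw [AlgEquiv.mul_apply, hgg' x hx]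
    exact g'.symm_apply_apply x
  have h1 := h (g'⁻¹ * g) hσ
  have h2 : ρ.ρ g - ρ.ρ g' = ρ.ρ g' * (ρ.ρ (g'⁻¹ * g) - 1) := by
    rw [mul_sub, mul_one, ← map_mul, mul_inv_cancel_left]
  rw [← map_sub, h2]
  apply trace_mem_of_forall_mem
  intro v
  rw [Module.End.mul_apply, LinearMap.sub_apply, Module.End.one_apply]
  refine Submodule.smul_induction_on
    (p := fun x => ρ.ρ g' x ∈ IsLocalRing.maximalIdeal T ^ k • (⊤ : Submodule T ρ.V))
    (h1 v) ?_ ?_
  · intro r hr w _
    rw [map_smul]
    exact Submodule.smul_mem_smul hr Submodule.mem_top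
  · intro x y hx hy
    rw [map_add]
    exact Submodule.add_mem _ hx hy

end Fermat.Agent.S31.TraceCont
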