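import Mathlib
import Fermat.Agent.S31_Defs

/-!
# S31 (long shot): the trace of a power from the characteristic polynomial (`TraceLucasStatement`)

For an endomorphism `f` of a free module of rank two with characteristic polynomial
`X² - a X + d`: `tr f = a`, `tr 1 = 2` and, by Cayley–Hamilton, `f ^ (j + 2) = a f ^ (j + 1) -
d f ^ j`; hence `tr (f ^ j) = lucasSeq a d j`.
-/

set_option autoImplicit false
set_option linter.unusedSectionVars false

noncomputable section

open Polynomial

namespace Fermat.Agent.S31.TraceLucas

local notation "GQ" => (AlgebraicClosure ℚ ≃ₐ[ℚ] AlgebraicClosure ℚ)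

section Generic

variable {T : Type*} [CommRing T] [Nontrivial T] {V : Type*} [AddCommGroup V] [Module T V]
  [Module.Free T V] [Module.Finite T V]

/-- the trace from the characteristic polynomial, in rank two. -/
theorem trace_eq_of_charpoly (hV : Module.finrank T V = 2) (f : Module.End T V) (a d : T)
    (h : LinearMap.charpoly f = X ^ 2 - C a * X + C d) : LinearMap.trace T V f = a := by
  classical
  let b := Module.finBasisOfFinrankEq T V hV
  rw [LinearMap.trace_eq_matrix_trace T b f, Matrix.trace_eq_neg_charpoly_coeff,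
    LinearMap.charpoly_toMatrix, h, Fintype.card_fin]
  simp [coeff_C]

/-- Cayley–Hamilton in rank two, as a recursion for the powers. -/
theorem pow_succ_succ_eq (f : Module.End T V) (a d : T)
    (h : LinearMap.charpoly f = X ^ 2 - C a * X + C d) (j : ℕ) :
    f ^ (j + 2) = a • f ^ (j + 1) - d • f ^ j := by
  have h0 := LinearMap.aeval_self_charpoly f
  rw [h] at h0
  have h1 : f ^ 2 - a • f + d • (1 : Module.End T V) = 0 := by
    simpa [Algebra.algebraMap_eq_smul_one] using h0
  have h2 : f ^ 2 = a • f - d • (1 : Module.End T V) := by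
    rw [eq_sub_iff_add_eq, ← sub_eq_zero]
    rw [← h1]
    abel
  calc f ^ (j + 2) = f ^ j * f ^ 2 := pow_add f j 2
    _ = f ^ j * (a • f - d • (1 : Module.End T V)) := by rw [h2]
    _ = a • f ^ (j + 1) - d • f ^ j := by
        rw [mul_sub, mul_smul_comm, mul_smul_comm, mul_one, ← pow_succ]

end Generic

/-- **(TL)**: the trace of `ρ(σ ^ j)` is the Lucas sequence of the trace and the determinant. -/
theorem trace_lucas : TraceLucasStatement := by
  intro T _ _ ρ σ a d h j
  have hpow : ∀ j : ℕ, ρ.ρ (σ ^ j) = (ρ.ρ σ) ^ j := fun j => map_pow ρ.ρ σ j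
  rw [hpow]
  induction j using Nat.twoStepInduction with
  | zero =>
    rw [pow_zero, lucasSeq_zero, LinearMap.trace_one, ρ.finrank_eq]
    norm_num
  | one =>
    rw [pow_one, lucasSeq_one]
    exact trace_eq_of_charpoly ρ.finrank_eq _ a d h
  | more j h1 h2 =>
    rw [pow_succ_succ_eq _ a d h j, map_sub, map_smul, map_smul, h2, h1, lucasSeq_succ_succ,
      smul_eq_mul, smul_eq_mul]

end Fermat.Agent.S31.TraceLucas
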