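import Mathlib
import Fermat.Agent.S31_Defs
import Fermat.Agent.S30_EV

/-!
# S31 (HK): the Hecke side

`hecke_key : S30.KappaStatement → HeckeKeyStatement`.

The Hecke algebra `𝕋` acts faithfully on the period lattice `Λ` (`S30_EV`).  For `m = p ^ (n + v)`
the Kummer class map `κ` embeds `Hom(Λ, ℤ/m) ∘ PΛ` into `J₀(N)[m]`, intertwining the transpose of
`T_ℓ` with the Hecke operator of `J₀(N)`; hence, if two Lucas expressions in Hecke operators agree
on the points `y i = κ((ε_i^* mod m) ∘ PΛ)`, the corresponding element `Δ` of `𝕋` maps `Λ` into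
`m Λ`, and then `Δ ∈ p ^ n 𝕋` by the Artin–Rees lemma (`shift`).
-/

set_option autoImplicit false
set_option linter.style.haveILetI false

noncomputable section

open UpperHalfPlane ModularCurve CongruenceSubgroup ModularCurve.Period AlgebraicCurve
open scoped MatrixGroups ModularForm TensorProduct

namespace Fermat.Agent.S31.Hecke

open Fermat.Agent.S29 (IsAdm Jp heckeJp restrT coe_restrT coe_heckeJp)
open Fermat.Agent.S30 Fermat.Agent.S30.EV

/-! ### endomorphisms of an abelian group -/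

section End

variable {L : Type} [AddCommGroup L]

/-- an endomorphism as an additive map. -/
def eHom (f : AddMonoid.End L) : L →+ L := f

theorem eHom_apply (f : AddMonoid.End L) (x : L) : eHom f x = f x := rfl

theorem end_add_apply (f g : AddMonoid.End L) (x : L) : (f + g) x = f x + g x := rfl

theorem end_sub_apply (f g : AddMonoid.End L) (x : L) : (f - g) x = f x - g x := rfl

theorem end_mul_apply (f g : AddMonoid.End L) (x : L) : (f * g) x = f (g x) := rfl

theorem end_one_apply (x : L) : (1 : AddMonoid.End L) x = x := rfl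

theorem end_zero_apply (x : L) : (0 : AddMonoid.End L) x = 0 := rfl

theorem end_map_add (f : AddMonoid.End L) (x y : L) : f (x + y) = f x + f y :=
  AddMonoidHom.map_add f x y

theorem end_map_zero (f : AddMonoid.End L) : f 0 = 0 := AddMonoidHom.map_zero f

theorem end_map_zsmul (f : AddMonoid.End L) (z : ℤ) (x : L) : f (z • x) = z • f x :=
  map_zsmul f z x

theorem end_zsmul_apply (z : ℤ) (f : AddMonoid.End L) (x : L) : (z • f) x = z • f x := rfl

end End

/-! ### Artin–Rees for a faithful lattice -/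

/-- **Artin–Rees**: for a commutative ring `𝕋` acting faithfully on a finitely generated abelian
group `L`: if `x L ⊆ p ^ (n + c) L` then `x ∈ p ^ n 𝕋`. -/
theorem shift (𝕋 : Type) [CommRing 𝕋] (L : Type) [AddCommGroup L] [Module.Finite ℤ L]
    (act : 𝕋 →+* AddMonoid.End L) (hinj : Function.Injective act) (p : ℕ) :
    ∃ c : ℕ, ∀ (n : ℕ) (x : 𝕋), (∀ v : L, ∃ u : L, act x v = (p ^ (n + c)) • u) →
      ∃ y : 𝕋, x = (p : 𝕋) ^ n * y := by
  classical
  obtain ⟨r, s, hs⟩ := Module.Finite.exists_fin (R := ℤ) (M := L)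
  -- the evaluation at the generators
  let ι : 𝕋 →ₗ[ℤ] (Fin r → L) :=
    { toFun := fun x i => act x (s i)
      map_add' := fun x y => by
        funext i
        show act (x + y) (s i) = act x (s i) + act y (s i)
        rw [map_add, end_add_apply]
      map_smul' := fun z x => by
        funext i
        show act (z • x) (s i) = z • act x (s i)
        rw [map_zsmul, end_zsmul_apply] }
  have hι : ∀ x i, ι x i = act x (s i) := fun _ _ => rfl
  have hιinj : Function.Injective ι := by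
    rw [← LinearMap.ker_eq_bot, LinearMap.ker_eq_bot']
    intro x hx
    apply hinj
    rw [map_zero]
    refine AddMonoidHom.ext fun v => ?_
    show act x v = 0
    have hv : v ∈ Submodule.span ℤ (Set.range s) := by rw [hs]; trivial
    induction hv using Submodule.span_induction with
    | mem w hw =>
      obtain ⟨i, rfl⟩ := hw
      have := congrFun hx i
      rw [hι] at this
      exact this
    | zero => exact end_map_zero _
    | add a b _ _ ha hb => rw [end_map_add, ha, hb, add_zero]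
    | smul z a _ ha => rw [end_map_zsmul, ha, smul_zero]
  obtain ⟨k, hk⟩ := Ideal.exists_pow_inf_eq_pow_smul (Ideal.span {(p : ℤ)}) (LinearMap.range ι)
  refine ⟨k, fun n x hx => ?_⟩
  choose u hu using fun i => hx (s i)
  obtain ⟨z, hz⟩ : ∃ z : ℤ, z = (p : ℤ) ^ (n + k) := ⟨_, rfl⟩
  have hzmem : z ∈ Ideal.span {(p : ℤ)} ^ (n + k) := by
    rw [hz]
    exact Ideal.pow_mem_pow (Ideal.subset_span (Set.mem_singleton _)) _
  have h2 : ι x = z • u := by
    funext i
    rw [hι, hu i, Pi.smul_apply, hz, ← Nat.cast_pow, natCast_zsmul]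
  have h1 : ι x ∈ (Ideal.span {(p : ℤ)} ^ (n + k) • ⊤ ⊓ LinearMap.range ι :
      Submodule ℤ (Fin r → L)) := by
    refine ⟨?_, ⟨x, rfl⟩⟩
    rw [h2]
    exact Submodule.smul_mem_smul hzmem Submodule.mem_top
  rw [hk (n + k) (Nat.le_add_left k n), Nat.add_sub_cancel] at h1
  have h3 : (Ideal.span {(p : ℤ)} ^ n • (Ideal.span {(p : ℤ)} ^ k • ⊤ ⊓ LinearMap.range ι) :
      Submodule ℤ (Fin r → L)) ≤ Ideal.span {(p : ℤ)} ^ n • LinearMap.range ι :=
    Submodule.smul_mono le_rfl inf_le_right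
  have h4 := h3 h1
  rw [Ideal.span_singleton_pow, Submodule.ideal_span_singleton_smul,
    Submodule.mem_smul_pointwise_iff_exists] at h4
  obtain ⟨_, ⟨y, rfl⟩, hy⟩ := h4
  refine ⟨y, hιinj ?_⟩
  have h5 : (p : 𝕋) ^ n * y = ((p : ℤ) ^ n) • y := by
    rw [zsmul_eq_mul, Int.cast_pow, Int.cast_natCast]
  rw [h5, map_smul, hy]

/-! ### Lucas sequences and intertwining -/

section Lucas

variable {Λ : Type} [AddCommGroup Λ] {R : Type} [CommRing R] (act : R →+* AddMonoid.End Λ)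
  {Z : Type} [AddCommGroup Z] {A : Type} [CommRing A] {M : Type} [AddCommGroup M] [Module A M]

/-- if `h (K g') = K (g' ∘ act t)` for all `g'`, the same holds for the Lucas expressions. -/
theorem lucas_transport (K : (Λ →+ Z) →+ M) (h : Module.End A M) (t : R)
    (hint : ∀ g' : Λ →+ Z, h (K g') = K (g'.comp (eHom (act t)))) (d : ℕ) :
    ∀ (j : ℕ) (g' : Λ →+ Z),
      lucasSeq h ((d : ℕ) : Module.End A M) j (K g')
        = K (g'.comp (eHom (act (lucasSeq t (d : R) j)))) := by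
  intro j
  induction j using Nat.twoStepInduction with
  | zero =>
    intro g'
    rw [lucasSeq_zero, lucasSeq_zero]
    have h1 : g'.comp (eHom (act (2 : R))) = g' + g' := by
      refine AddMonoidHom.ext fun x => ?_
      have h2 : act (2 : R) = 1 + 1 := by rw [← one_add_one_eq_two, map_add, map_one]
      rw [h2]
      show g' ((1 + 1 : AddMonoid.End Λ) x) = g' x + g' x
      rw [end_add_apply, end_one_apply, map_add]
    rw [h1, map_add]
    show ((2 : Module.End A M)) (K g') = _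
    rw [← one_add_one_eq_two]
    rfl
  | one =>
    intro g'
    rw [lucasSeq_one, lucasSeq_one]
    exact hint g'
  | more j ih1 ih2 =>
    intro g'
    rw [lucasSeq_succ_succ, lucasSeq_succ_succ]
    have e : act (t * lucasSeq t (d : R) (j + 1) - (d : R) * lucasSeq t (d : R) j)
        = act (lucasSeq t (d : R) (j + 1)) * act t
          - (d : AddMonoid.End Λ) * act (lucasSeq t (d : R) j) := by
      rw [mul_comm t, map_sub, map_mul, map_mul, map_natCast]
    have h1 : g'.comp (eHom (act (t * lucasSeq t (d : R) (j + 1)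
          - (d : R) * lucasSeq t (d : R) j)))
        = (g'.comp (eHom (act (lucasSeq t (d : R) (j + 1))))).comp (eHom (act t))
          - d • g'.comp (eHom (act (lucasSeq t (d : R) j))) := by
      refine AddMonoidHom.ext fun x => ?_
      rw [e]
      show g' ((act (lucasSeq t (d : R) (j + 1)) * act t
          - (d : AddMonoid.End Λ) * act (lucasSeq t (d : R) j)) x)
        = g' (act (lucasSeq t (d : R) (j + 1)) (act t x))
          - d • g' (act (lucasSeq t (d : R) j) x)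
      rw [end_sub_apply, end_mul_apply, end_mul_apply, AddMonoid.End.natCast_apply, map_sub,
        map_nsmul]
    rw [h1, map_sub, map_nsmul, ← hint, ← ih2 g', ← ih1 g']
    rfl

end Lucas

/-! ### the period lattice -/

/-- the period lattice is a finitely generated abelian group. -/
theorem finite_lat (N : ℕ) [NeZero N] : Module.Finite ℤ (Lat N) := by
  haveI : Group.FG (Gamma0 N) := Fermat.Agent.S22.Small.gamma0_fg N
  haveI : AddGroup.FG (Additive (Gamma0 N)) := GroupFG.iff_add_fg.mp inferInstance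
  have hLfg : (Lat N).FG := (AddGroup.fg_iff_addSubgroup_fg _).mp (AddGroup.fg_range (PM N))
  exact Module.Finite.iff_addGroup_fg.mpr ((AddGroup.fg_iff_addSubgroup_fg _).mpr hLfg)

/-- the Hecke algebra acts faithfully on the period lattice. -/
theorem act_injective (N : ℕ) [NeZero N] (S : Set ℕ) : Function.Injective (act N S) := by
  rw [injective_iff_map_eq_zero]
  intro T hT
  apply Subtype.ext
  refine LinearMap.ext fun f => ?_
  by_contra hne
  apply Fermat.Agent.S29.Period.periodMap_ne_zero hne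
  refine AddMonoidHom.ext fun γ => ?_
  have h1 : act N S T ⟨PM N γ, ⟨γ, rfl⟩⟩ = 0 := by rw [hT]; rfl
  have h2 := congrArg
    (fun φ : Lat N => (φ : Module.Dual ℂ (CuspForm (Gamma0 N) 2)) f) h1
  exact h2

/-- the transpose of `T_ℓ` on the period lattice is the Hecke operator on characters. -/
theorem tHom_rangeRestrict (N : ℕ) [NeZero N] (S : Set ℕ) {ℓ : ℕ} [Fact ℓ.Prime]
    (hℓ : ℓ.Prime) (hℓN : ¬ ℓ ∣ N) (hℓS : ℓ ∉ S) (PΛ : Additive (Gamma0 N) →+ Lat N)
    (hPΛ : PΛ = (PM N).rangeRestrict) :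
    (Fermat.Agent.S16.LB.famT N ℓ hℓN).tHom PΛ
      = (eHom (act N S (CuspForm.heckeAlgebra.T hℓ hℓN hℓS))).comp PΛ := by
  have h1 : ((Lat N).subtype.comp PΛ) = PM N := by rw [hPΛ]; rfl
  refine AddMonoidHom.ext fun γ => Subtype.ext ?_
  have h2 : (((Fermat.Agent.S16.LB.famT N ℓ hℓN).tHom PΛ γ : Lat N) :
      Module.Dual ℂ (CuspForm (Gamma0 N) 2))
      = (Fermat.Agent.S16.LB.famT N ℓ hℓN).tHom (PM N) γ := by
    rw [← h1, Fermat.Agent.S16.LB.CosetFam.tHom_comp]
    rfl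
  rw [h2, tHom_PM N _ (CuspForm.heckeTLin 2 hℓ hℓN) (fun f => by
    rw [CuspForm.coe_heckeTLin_apply]
    exact Fermat.Agent.S16.LB.heckeT_eq_sum_famT N ℓ hℓN 2 f) γ]
  rw [hPΛ]
  rfl

/-! ### the main statement -/

/-- **(HK)** the Hecke side. -/
theorem hecke_key (hK : KappaStatement) : Fermat.Agent.S31.HeckeKeyStatement := by
  intro p _ N _ S
  classical
  haveI : Module.Finite ℤ (Lat N) := finite_lat N
  haveI : IsAddTorsionFree (Lat N) := lat_torsionFree N
  haveI : Module.Free ℤ (Lat N) := inferInstance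
  obtain ⟨c, hc⟩ := shift (CuspForm.heckeAlgebra N 2 (↑S : Set ℕ)) (Lat N) (act N (↑S : Set ℕ))
    (act_injective N _) p
  refine ⟨c, fun n => ?_⟩
  let b := Module.finBasis ℤ (Lat N)
  let PΛ : Additive (Gamma0 N) →+ Lat N := (PM N).rangeRestrict
  have hsurj : Function.Surjective PΛ := (PM N).rangeRestrict_surjective
  have hadm : ∀ γ : Gamma0 N, ((γ : SL(2, ℤ)) 0 0 + (γ : SL(2, ℤ)) 1 1) ^ 2 ≤ 4 →
      PΛ (Additive.ofMul γ) = 0 := fun γ hγ =>
    Subtype.ext (LinearMap.ext fun f =>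
      Fermat.Agent.S29.Period.periodMap_eq_zero_of_trace f γ hγ)
  obtain ⟨m, hm⟩ : ∃ m : ℕ, m = p ^ (n + c) := ⟨_, rfl⟩
  rw [← hm]
  haveI : NeZero m := ⟨by rw [hm]; exact pow_ne_zero _ (Fact.out : p.Prime).ne_zero⟩
  -- the characters through the lattice
  let X : Submodule (ZMod m) (Additive (Gamma0 N) →+ ZMod m) :=
    Submodule.span (ZMod m) (Set.range (chi m b PΛ))
  have hχX : ∀ j, chi m b PΛ j ∈ X := fun j => Submodule.subset_span ⟨j, rfl⟩
  have hfac : ∀ g' : Lat N →+ ZMod m, g'.comp PΛ ∈ X := by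
    intro g'
    rw [comp_eq_sum m b PΛ g']
    exact Submodule.sum_mem _ (fun j _ => Submodule.smul_mem _ _ (hχX j))
  have hXfac : ∀ χ' ∈ X, ∃ g' : Lat N →+ ZMod m, χ' = g'.comp PΛ := by
    intro χ' hχ'
    induction hχ' using Submodule.span_induction with
    | mem y hy =>
        obtain ⟨j, rfl⟩ := hy
        exact ⟨_, rfl⟩
    | zero => exact ⟨0, (AddMonoidHom.zero_comp PΛ).symm⟩
    | add y z _ _ hy hz =>
        obtain ⟨g1, rfl⟩ := hy
        obtain ⟨g2, rfl⟩ := hz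
        exact ⟨g1 + g2, (AddMonoidHom.add_comp g1 g2 PΛ).symm⟩
    | smul r y _ hy =>
        obtain ⟨g1, rfl⟩ := hy
        exact ⟨r • g1, rfl⟩
  have hstab : ∀ (𝒜 : Fermat.Agent.S16.LB.CosetFam N) (τ : Lat N →+ Lat N),
      𝒜.tHom PΛ = τ.comp PΛ → ∀ χ ∈ X, 𝒜.tHom χ ∈ X := by
    intro 𝒜 τ hτ χ' hχ'
    obtain ⟨g', rfl⟩ := hXfac χ' hχ'
    rw [Fermat.Agent.S16.LB.CosetFam.tHom_comp, hτ, ← AddMonoidHom.comp_assoc]
    exact hfac _
  have hXadm : ∀ χ ∈ X, IsAdm N m χ := by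
    intro χ' hχ' γ hγ
    obtain ⟨g', rfl⟩ := hXfac χ' hχ'
    rw [AddMonoidHom.comp_apply, hadm γ hγ, map_zero]
  obtain ⟨κ, hκinj, hκT⟩ := hK N m X hXadm
  -- the class map on `Hom(Λ, ℤ/m)`
  let Φ : (Lat N →+ ZMod m) →+ X :=
    { toFun := fun g' => ⟨g'.comp PΛ, hfac g'⟩
      map_zero' := Subtype.ext (AddMonoidHom.zero_comp PΛ)
      map_add' := fun g1 g2 => Subtype.ext (AddMonoidHom.add_comp g1 g2 PΛ) }
  have hΦ : ∀ g' : Lat N →+ ZMod m, ((Φ g' : X) : Additive (Gamma0 N) →+ ZMod m) = g'.comp PΛ :=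
    fun _ => rfl
  have hΦinj : Function.Injective Φ := by
    intro g1 g2 h12
    refine AddMonoidHom.ext fun x => ?_
    obtain ⟨γ, rfl⟩ := hsurj x
    have h1 := congrArg (fun ξ : X => (ξ : Additive (Gamma0 N) →+ ZMod m) γ) h12
    exact h1
  let K : (Lat N →+ ZMod m) →+ Jp N m := κ.toAddMonoidHom.comp Φ
  have hKdef : ∀ g', K g' = κ (Φ g') := fun _ => rfl
  have hKinj : Function.Injective K := fun g1 g2 h12 => hΦinj (hκinj h12)
  let cm : Fin (Module.finrank ℤ (Lat N)) → (Lat N →+ ZMod m) := fun i =>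
    (Int.castAddHom (ZMod m)).comp (b.coord i).toAddMonoidHom
  have hcm : ∀ i (x : Lat N), cm i x = ((b.repr x i : ℤ) : ZMod m) := fun _ _ => rfl
  refine ⟨Module.finrank ℤ (Lat N), fun i => K (cm i), ?_⟩
  intro ℓ ℓ' _ _ hℓ hℓN hℓS hℓ' hℓ'N hℓ'S j j' hrel
  -- the intertwining relation
  have hint : ∀ (ℓ : ℕ) [NeZero ℓ] (hℓ : ℓ.Prime) (hℓN : ¬ ℓ ∣ N) (hℓS : ℓ ∉ (↑S : Set ℕ))
      (g' : Lat N →+ ZMod m),
      heckeJp N m ℓ (K g')
        = K (g'.comp (eHom (act N (↑S : Set ℕ) (CuspForm.heckeAlgebra.T hℓ hℓN hℓS)))) := by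
    intro ℓ _ hℓ hℓN hℓS g'
    haveI : Fact ℓ.Prime := ⟨hℓ⟩
    have hτ := tHom_rangeRestrict N (↑S : Set ℕ) hℓ hℓN hℓS PΛ rfl
    have hX := hstab (Fermat.Agent.S16.LB.famT N ℓ hℓN) _ hτ
    have h1 := hκT ℓ hℓN hX (Φ g')
    have h2 : restrT (Fermat.Agent.S16.LB.famT N ℓ hℓN) X hX (Φ g')
        = Φ (g'.comp (eHom (act N (↑S : Set ℕ) (CuspForm.heckeAlgebra.T hℓ hℓN hℓS)))) := by
      apply Subtype.ext
      rw [coe_restrT, hΦ, hΦ, Fermat.Agent.S16.LB.CosetFam.tHom_comp, hτ,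
        ← AddMonoidHom.comp_assoc]
    rw [h2] at h1
    rw [hKdef, hKdef, h1]
  have L1 := lucas_transport (act N (↑S : Set ℕ)) K (heckeJp N m ℓ)
    (CuspForm.heckeAlgebra.T hℓ hℓN hℓS) (hint ℓ hℓ hℓN hℓS) ℓ j
  have L2 := lucas_transport (act N (↑S : Set ℕ)) K (heckeJp N m ℓ')
    (CuspForm.heckeAlgebra.T hℓ' hℓ'N hℓ'S) (hint ℓ' hℓ' hℓ'N hℓ'S) ℓ' j'
  -- the relation on all classes
  have hKsum : ∀ g' : Lat N →+ ZMod m, K g' = ∑ i, g' (b i) • K (cm i) := by
    intro g'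
    have h1 : Φ g' = ∑ i, g' (b i) • Φ (cm i) := by
      apply Subtype.ext
      rw [hΦ, comp_eq_sum m b PΛ g', Submodule.coe_sum]
      rfl
    rw [hKdef, h1, map_sum]
    refine Finset.sum_congr rfl fun i _ => ?_
    rw [map_smul, hKdef]
  have hall : ∀ g' : Lat N →+ ZMod m,
      lucasSeq (heckeJp N m ℓ) ((ℓ : ℕ) : Module.End (ZMod m) (Jp N m)) j (K g')
        = lucasSeq (heckeJp N m ℓ') ((ℓ' : ℕ) : Module.End (ZMod m) (Jp N m)) j' (K g') := by
    intro g'
    rw [hKsum g', map_sum, map_sum]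
    refine Finset.sum_congr rfl fun i _ => ?_
    rw [map_smul, map_smul, hrel i]
  have hΔ : ∀ g' : Lat N →+ ZMod m,
      g'.comp (eHom (act N (↑S : Set ℕ) (lucasSeq (CuspForm.heckeAlgebra.T hℓ hℓN hℓS)
          ((ℓ : ℕ) : CuspForm.heckeAlgebra N 2 (↑S : Set ℕ)) j)))
        = g'.comp (eHom (act N (↑S : Set ℕ) (lucasSeq (CuspForm.heckeAlgebra.T hℓ' hℓ'N hℓ'S)
          ((ℓ' : ℕ) : CuspForm.heckeAlgebra N 2 (↑S : Set ℕ)) j'))) :=
    fun g' => hKinj (by rw [← L1 g', ← L2 g', hall g'])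
  have hmem : ∀ x : Lat N, ∃ u : Lat N,
      act N (↑S : Set ℕ) (lucasSeq (CuspForm.heckeAlgebra.T hℓ hℓN hℓS)
          ((ℓ : ℕ) : CuspForm.heckeAlgebra N 2 (↑S : Set ℕ)) j
        - lucasSeq (CuspForm.heckeAlgebra.T hℓ' hℓ'N hℓ'S)
          ((ℓ' : ℕ) : CuspForm.heckeAlgebra N 2 (↑S : Set ℕ)) j') x = (p ^ (n + c)) • u := by
    intro x
    rw [map_sub, end_sub_apply, ← hm]
    have hD : ∀ i, (m : ℤ) ∣ b.repr (act N (↑S : Set ℕ) (lucasSeq (CuspForm.heckeAlgebra.T hℓ hℓN hℓS)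
          ((ℓ : ℕ) : CuspForm.heckeAlgebra N 2 (↑S : Set ℕ)) j) x
        - act N (↑S : Set ℕ) (lucasSeq (CuspForm.heckeAlgebra.T hℓ' hℓ'N hℓ'S)
          ((ℓ' : ℕ) : CuspForm.heckeAlgebra N 2 (↑S : Set ℕ)) j') x) i := by
      intro i
      have h1 : cm i (act N (↑S : Set ℕ) (lucasSeq (CuspForm.heckeAlgebra.T hℓ hℓN hℓS)
            ((ℓ : ℕ) : CuspForm.heckeAlgebra N 2 (↑S : Set ℕ)) j) x)
          = cm i (act N (↑S : Set ℕ) (lucasSeq (CuspForm.heckeAlgebra.T hℓ' hℓ'N hℓ'S)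
            ((ℓ' : ℕ) : CuspForm.heckeAlgebra N 2 (↑S : Set ℕ)) j') x) :=
        congrArg (fun f : Lat N →+ ZMod m => f x) (hΔ (cm i))
      rw [hcm, hcm] at h1
      rw [map_sub, Finsupp.sub_apply, ← ZMod.intCast_zmod_eq_zero_iff_dvd, Int.cast_sub, h1,
        sub_self]
    choose e he using hD
    refine ⟨∑ i, e i • b i, ?_⟩
    conv_lhs => rw [← b.sum_repr (_ - _)]
    rw [Finset.smul_sum]
    refine Finset.sum_congr rfl fun i _ => ?_
    rw [he i, mul_smul, natCast_zsmul]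
  obtain ⟨B, hB⟩ := hc n _ hmem
  exact ⟨B, by rw [hB, Nat.cast_pow]⟩

end Fermat.Agent.S31.Hecke
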