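import Mathlib
import Fermat.Agent.S31_Defs

/-!
# S31 (long shot): the Lucas sequence of `u + d u⁻¹` in an arbitrary ring

`lucasSeq (u + d * v) d j = u ^ j + d ^ j * v ^ j` for `u * v = v * u = 1` and `d` commuting with
`u` and `v` (e.g. `u` a Frobenius lift acting on `J₀(N)[m]`, `d = ℓ`, `u + d u⁻¹ = T_ℓ`).
-/

set_option autoImplicit false

namespace Fermat.Agent.S31.LucasRing

/-- the Lucas sequence of `u + d u⁻¹` and `d`, for a unit `u` commuting with `d`, in any ring:
`s j = u ^ j + d ^ j * u ^ (-j)`. -/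
theorem lucasSeq_eq {R : Type*} [Ring R] (u v d : R) (huv : u * v = 1) (hvu : v * u = 1)
    (hdu : d * u = u * d) (hdv : d * v = v * d) (j : ℕ) :
    lucasSeq (u + d * v) d j = u ^ j + d ^ j * v ^ j := by
  have hdup : ∀ k : ℕ, d * u ^ k = u ^ k * d := fun k => (Commute.pow_right (show Commute d u from hdu) k)
  have hdvp : ∀ k : ℕ, d * v ^ k = v ^ k * d := fun k => (Commute.pow_right (show Commute d v from hdv) k)
  have hdk : ∀ k i : ℕ, d ^ k * u ^ i = u ^ i * d ^ k := fun k i =>
    (Commute.pow_pow (show Commute d u from hdu) k i)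
  have huvk : ∀ k : ℕ, u * v ^ (k + 1) = v ^ k := fun k => by
    rw [pow_succ', ← mul_assoc, huv, one_mul]
  have hvuk : ∀ k : ℕ, v * u ^ (k + 1) = u ^ k := fun k => by
    rw [pow_succ', ← mul_assoc, hvu, one_mul]
  induction j using Nat.twoStepInduction with
  | zero => rw [lucasSeq_zero, pow_zero, pow_zero, pow_zero, mul_one]; norm_num
  | one => rw [lucasSeq_one, pow_one, pow_one, pow_one]
  | more j h1 h2 =>
    rw [lucasSeq_succ_succ, h1, h2]
    have e1 : (u + d * v) * (u ^ (j + 1) + d ^ (j + 1) * v ^ (j + 1))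
        = u ^ (j + 2) + d ^ (j + 1) * v ^ j + d * u ^ j + d ^ (j + 2) * v ^ (j + 2) := by
      have a1 : u * u ^ (j + 1) = u ^ (j + 2) := (pow_succ' u (j + 1)).symm
      have a2 : u * (d ^ (j + 1) * v ^ (j + 1)) = d ^ (j + 1) * v ^ j := by
        rw [← mul_assoc, ← pow_one u, ← hdk (j + 1) 1, pow_one, mul_assoc, huvk]
      have a3 : d * v * u ^ (j + 1) = d * u ^ j := by rw [mul_assoc, hvuk]
      have a4 : d * v * (d ^ (j + 1) * v ^ (j + 1)) = d ^ (j + 2) * v ^ (j + 2) := by
        have c1 : v * d ^ (j + 1) = d ^ (j + 1) * v :=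
          ((Commute.pow_left (show Commute d v from hdv) (j + 1)).eq).symm
        rw [mul_assoc d v, ← mul_assoc v, c1, mul_assoc (d ^ (j + 1)) v, ← pow_succ' v (j + 1),
          ← mul_assoc, ← pow_succ' d (j + 1)]
      rw [add_mul, mul_add, mul_add, a1, a2, a3, a4]
      abel
    rw [e1, mul_add, ← mul_assoc d (d ^ j), ← pow_succ' d j]
    abel

end Fermat.Agent.S31.LucasRing
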