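import Mathlib
import Fermat.Prelude.Def_GaloisRep_Adic
import Fermat.Agent.S53_Burnside
import Fermat.Agent.S31_Defs

/-!
# S31 (long shot), leaf (BN): Burnside + Nakayama

`burnside : BurnsideStatement`: for an adic Galois representation `ρ` over a local ring `T` whose
residual representation is absolutely irreducible, an element `σ` with
`tr ρ(g σ) = tr ρ(g)` for all `g` acts trivially.

* the residual image spans `End` over the residue field (`S53.Burnside.span_range_eq_top`);
* Nakayama: the image of `ρ` spans `End_T(V)` over `T` (`span_range_eq_top`);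
* the trace form of a finite free module is nondegenerate (`eq_zero_of_trace_mul_eq_zero`).
-/

set_option autoImplicit false

noncomputable section

namespace Fermat.Agent.S31.TraceOne

open scoped TensorProduct

local notation "GQ" => (AlgebraicClosure ℚ ≃ₐ[ℚ] AlgebraicClosure ℚ)

/-- The trace form `(Y, X) ↦ tr (Y X)` on the endomorphisms of a finite free module is
nondegenerate. -/
theorem eq_zero_of_trace_mul_eq_zero {T V : Type*} [CommRing T] [AddCommGroup V] [Module T V]
    [Module.Free T V] [Module.Finite T V] (X : Module.End T V)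
    (h : ∀ Y : Module.End T V, LinearMap.trace T V (Y * X) = 0) : X = 0 := by
  refine LinearMap.ext fun v => ?_
  rw [LinearMap.zero_apply]
  refine (Module.forall_dual_apply_eq_zero_iff T (X v)).mp fun f => ?_
  have h1 := h (dualTensorHom T V V (f ⊗ₜ[T] v))
  have h2 : dualTensorHom T V V (f ⊗ₜ[T] v) * X
      = dualTensorHom T V V ((f ∘ₗ X) ⊗ₜ[T] v) := by
    refine LinearMap.ext fun w => ?_
    rw [Module.End.mul_apply, dualTensorHom_apply, dualTensorHom_apply, LinearMap.comp_apply]
  rw [h2, LinearMap.trace_eq_contract_apply, contractLeft_apply, LinearMap.comp_apply] at h1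
  exact h1

/-- An endomorphism of a finite free module over a local ring which vanishes modulo the maximal
ideal lies in `𝔪 • End`. -/
theorem mem_smul_top_of_baseChange_eq_zero {T : Type} [CommRing T] [IsLocalRing T] {V : Type}
    [AddCommGroup V] [Module T V] [Module.Free T V] [Module.Finite T V] (Y : Module.End T V)
    (hY : Y.baseChange (IsLocalRing.ResidueField T) = 0) :
    Y ∈ IsLocalRing.maximalIdeal T • (⊤ : Submodule T (Module.End T V)) := by
  classical
  let b := Module.Free.chooseBasis T V
  have hM : ∀ i j, LinearMap.toMatrix b b Y i j ∈ IsLocalRing.maximalIdeal T := by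
    intro i j
    have h1 := LinearMap.toMatrix_baseChange (A := IsLocalRing.ResidueField T) Y b b
    rw [hY, map_zero] at h1
    have h2 := congrFun (congrFun h1 i) j
    rw [Matrix.map_apply, Matrix.zero_apply] at h2
    exact (IsLocalRing.residue_eq_zero_iff _).mp h2.symm
  have hY' : Y = ∑ i, ∑ j, LinearMap.toMatrix b b Y i j • Matrix.toLin b b (Matrix.single i j 1) := by
    conv_lhs => rw [← Matrix.toLin_toMatrix b b Y,
      Matrix.matrix_eq_sum_single (LinearMap.toMatrix b b Y)]
    rw [map_sum]
    refine Finset.sum_congr rfl fun i _ => ?_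
    rw [map_sum]
    refine Finset.sum_congr rfl fun j _ => ?_
    rw [← map_smul, Matrix.smul_single, smul_eq_mul, mul_one]
  rw [hY']
  exact Submodule.sum_mem _ fun i _ => Submodule.sum_mem _ fun j _ =>
    Submodule.smul_mem_smul (hM i j) trivial

/-- Reduction modulo the maximal ideal is semilinear for the residue map. -/
theorem baseChange_smul_residue {T : Type} [CommRing T] [IsLocalRing T] {V : Type}
    [AddCommGroup V] [Module T V] (t : T) (W : Module.End T V) :
    (t • W).baseChange (IsLocalRing.ResidueField T)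
      = IsLocalRing.residue T t • W.baseChange (IsLocalRing.ResidueField T) := by
  rw [LinearMap.baseChange_smul, ← IsLocalRing.ResidueField.algebraMap_eq, algebraMap_smul]

/-- Nakayama: if the residual representation is absolutely irreducible, the image of `ρ` spans
`End_T(V)` over `T`. -/
theorem span_range_eq_top {T : Type} [CommRing T] [IsLocalRing T] (ρ : GaloisRepAdic T)
    (habs : ρ.residual.IsAbsolutelyIrreducible) :
    Submodule.span T (Set.range ρ.ρ) = ⊤ := by
  have hres := Fermat.Agent.S53.Burnside.span_range_eq_top ρ.residual.finrank_eq ρ.residual.ρ habs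
  have key : ∀ Z ∈ Submodule.span (IsLocalRing.ResidueField T) (Set.range ρ.residual.ρ),
      ∃ W ∈ Submodule.span T (Set.range ρ.ρ),
        W.baseChange (IsLocalRing.ResidueField T) = Z := by
    intro Z hZ
    induction hZ using Submodule.span_induction with
    | mem Z hZ =>
      obtain ⟨g, rfl⟩ := hZ
      exact ⟨ρ.ρ g, Submodule.subset_span ⟨g, rfl⟩, rfl⟩
    | zero => exact ⟨0, Submodule.zero_mem _, LinearMap.baseChange_zero⟩
    | add Z₁ Z₂ _ _ h₁ h₂ =>
      obtain ⟨W₁, hW₁, rfl⟩ := h₁
      obtain ⟨W₂, hW₂, rfl⟩ := h₂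
      exact ⟨W₁ + W₂, Submodule.add_mem _ hW₁ hW₂, LinearMap.baseChange_add _ _⟩
    | smul c Z _ h =>
      obtain ⟨W, hW, rfl⟩ := h
      obtain ⟨t, rfl⟩ := IsLocalRing.residue_surjective c
      exact ⟨t • W, Submodule.smul_mem _ t hW, baseChange_smul_residue t W⟩
  refine top_le_iff.mp (Submodule.le_of_le_smul_of_le_jacobson_bot
    (I := IsLocalRing.maximalIdeal T) Module.Finite.fg_top
    (IsLocalRing.maximalIdeal_le_jacobson _) ?_)
  intro X _
  have hX : X.baseChange (IsLocalRing.ResidueField T)
      ∈ Submodule.span (IsLocalRing.ResidueField T) (Set.range ρ.residual.ρ) := by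
    rw [hres]; trivial
  obtain ⟨W, hW, hWX⟩ := key _ hX
  have hWX' : LinearMap.baseChange (IsLocalRing.ResidueField T) W
      = LinearMap.baseChange (IsLocalRing.ResidueField T) X := hWX
  have h1 : X - W ∈ IsLocalRing.maximalIdeal T • (⊤ : Submodule T (Module.End T ρ.V)) :=
    mem_smul_top_of_baseChange_eq_zero _ (by rw [LinearMap.baseChange_sub]; exact sub_eq_zero.mpr hWX'.symm)
  have h2 : X = W + (X - W) := by abel
  rw [h2]
  exact Submodule.add_mem_sup hW h1

/-- Burnside + Nakayama + nondegeneracy of the trace form. -/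
theorem unram_of_trace {T : Type} [CommRing T] [IsLocalRing T] (ρ : GaloisRepAdic T)
    (habs : ρ.residual.IsAbsolutelyIrreducible) (σ : GQ)
    (hσ : ∀ g : GQ, LinearMap.trace T ρ.V (ρ.ρ (g * σ)) = LinearMap.trace T ρ.V (ρ.ρ g)) :
    ρ.ρ σ = 1 := by
  have hspan := span_range_eq_top ρ habs
  have h0 : ∀ Y : Module.End T ρ.V, LinearMap.trace T ρ.V (Y * (ρ.ρ σ - 1)) = 0 := by
    intro Y
    have hY : Y ∈ Submodule.span T (Set.range ρ.ρ) := by rw [hspan]; trivial
    induction hY using Submodule.span_induction with
    | mem Y hY =>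
      obtain ⟨g, rfl⟩ := hY
      rw [mul_sub, mul_one, map_sub, ← map_mul, hσ, sub_self]
    | zero => rw [zero_mul, map_zero]
    | add Y₁ Y₂ _ _ h₁ h₂ => rw [add_mul, map_add, h₁, h₂, add_zero]
    | smul c Y _ h => rw [smul_mul_assoc, map_smul, h, smul_zero]
  exact sub_eq_zero.mp (eq_zero_of_trace_mul_eq_zero _ h0)

/-- **(BN)** of `S31_Defs`. -/
theorem burnside : BurnsideStatement :=
  fun _T _ _ ρ habs σ hσ => unram_of_trace ρ habs σ hσ

end Fermat.Agent.S31.TraceOne
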