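import Mathlib
import Fermat.Agent.S31_Defs

/-!
# S31 (long shot): the trace of a power from the characteristic polynomial (`TraceLucasStatement`)

For an endomorphism `f` of a free module of rank two with characteristic polynomial
`X ^ 2 - a X + d`, Cayley–Hamilton gives `f ^ (j + 2) = a f ^ (j + 1) - d f ^ j`, so the traces of
the powers of `f` are the Lucas sequence `lucasSeq a d`.
-/

set_option autoImplicit false

noncomputable section

open Polynomial

namespace Fermat.Agent.S31.TracePow

theorem trace_of_charpoly {T V : Type*} [CommRing T] [Nontrivial T] [AddCommGroup V]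
    [Module T V] [Module.Free T V] [Module.Finite T V] (h2 : Module.finrank T V = 2)
    (f : Module.End T V) (a d : T)
    (hf : LinearMap.charpoly f = X ^ 2 - C a * X + C d) :
    LinearMap.trace T V f = a := by
  let b : Module.Basis (Fin 2) T V := Module.finBasisOfFinrankEq T V h2
  have hc : (LinearMap.toMatrix b b f).charpoly = X ^ 2 - C a * X + C d := by
    rw [LinearMap.charpoly_toMatrix]; exact hf
  rw [LinearMap.trace_eq_matrix_trace T b, Matrix.trace_eq_neg_charpoly_coeff, hc]
  simp [Polynomial.coeff_X_pow, Polynomial.coeff_C]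

theorem pow_succ_succ_of_charpoly {T V : Type*} [CommRing T] [AddCommGroup V]
    [Module T V] [Module.Free T V] [Module.Finite T V]
    (f : Module.End T V) (a d : T)
    (hf : LinearMap.charpoly f = X ^ 2 - C a * X + C d) (j : ℕ) :
    f ^ (j + 2) = a • f ^ (j + 1) - d • f ^ j := by
  have h := LinearMap.aeval_self_charpoly f
  rw [hf] at h
  simp only [map_sub, map_add, map_mul, map_pow, aeval_X, aeval_C] at h
  rw [Algebra.algebraMap_eq_smul_one, Algebra.algebraMap_eq_smul_one, smul_mul_assoc, one_mul,
    sub_add, sub_eq_zero] at h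
  rw [pow_add, h, mul_sub, mul_smul_comm, mul_smul_comm, mul_one, ← pow_succ]

/-- **(TL)** of `S31_Defs`. -/
theorem trace_lucas : TraceLucasStatement := by
  intro T _ _ ρ σ a d hcp j
  rw [map_pow]
  induction j using Nat.twoStepInduction with
  | zero =>
    rw [pow_zero, LinearMap.trace_one, ρ.finrank_eq, lucasSeq_zero]
    norm_num
  | one =>
    rw [pow_one, lucasSeq_one]
    exact trace_of_charpoly ρ.finrank_eq _ a d hcp
  | more j h1 h2 =>
    rw [pow_succ_succ_of_charpoly _ a d hcp, map_sub, map_smul, map_smul, h1, h2,
      lucasSeq_succ_succ, smul_eq_mul, smul_eq_mul]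

end Fermat.Agent.S31.TracePow
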