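-- Statement S37 (row 36): the Eichler–Shimura congruence relation in the packaged form
-- `SpecializationExists` for `J₀(N)`.
-- Proof: `S37Lib.specialization_of_redData` (abstract reduction, S37_Abstract) applied to the
-- reduction datum `Top.exists_redData` (S37_Top): specialisation of places of `X₀(M)/ℚ̄`
-- (`M ∈ {N, 2N, 3N}`) to the special fibre at `ℓ` with conservation of number, injectivity on
-- prime-to-`ℓ` torsion, Galois equivariance, and the Kronecker congruence for the norm of
-- `f(q^ℓ)`.
import Fermat.Statements.S37
import Fermat.Agent.S37_Top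

set_option autoImplicit false
open ModularCurve

namespace Fermat.Agent.S37

theorem result (N p : ℕ) [NeZero N] (hcomm : ModularCurve.HeckeOperatorsCommuteBar N) : letI := ModularCurve.heckeModuleBar N; ∀ (_ : SMulCommClass (AlgebraicClosure ℚ ≃ₐ[ℚ] AlgebraicClosure ℚ) ModularCurve.HeckeAlg (ModularCurve.JZero N)), ModularCurve.SpecializationExists (K := ℚ) (L := AlgebraicClosure ℚ) N p (ModularCurve.JZero N) := by
  letI := ModularCurve.heckeModuleBar N
  intro hsm ℓ hℓ hℓNp A hA
  obtain ⟨R⟩ := Fermat.Agent.S37.Top.exists_redData N p ℓ hcomm hℓ hℓNp A hA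
  exact Fermat.Agent.S37Lib.specialization_of_redData R

end Fermat.Agent.S37
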