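import Fermat.Prelude.Def_ModularCurve_HeckeModule

/-!
# S37, abstract reduction

`SpecializationExists` for `JZero N` from a "reduction map" `red : JZero N →+ M` which is injective
on `p`-power torsion, kills inertia, intertwines Frobenius elements with an endomorphism `Φ` of
`M`, and satisfies the Eichler–Shimura congruence `red (T_ℓ z) = Φ (red z) + ℓ Ψ (red z)` with
`Φ ∘ Ψ = id`.  The target `J'` is the group of additive maps `y : HeckeAlg →+ M` with
`Φ (Φ (y t)) - Φ (y (t * T_ℓ)) + ℓ • y t = 0`, with Hecke action by translation and `F = Φ ∘ _`;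
the specialization map is `x ↦ (t ↦ red (t • x))`.
-/

set_option autoImplicit false

noncomputable section

open ModularCurve

namespace Fermat.Agent.S37Lib

/-- the data of a reduction map at `ℓ` for `JZero N` (with respect to a given Hecke-module
structure). -/
structure RedData (N p ℓ : ℕ) [NeZero N] [Module HeckeAlg (JZero N)]
    (A : ValuationSubring (AlgebraicClosure ℚ)) (hℓ : ℓ.Prime) where
  /-- the target group -/
  M : Type
  /-- its group structure -/
  inst : AddCommGroup M
  /-- the reduction map -/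
  red : JZero N →+ M
  /-- Frobenius on the target -/
  Φ : M →+ M
  /-- its inverse -/
  Ψ : M →+ M
  hΦΨ : ∀ m, Φ (Ψ m) = m
  htors : ∀ x : JZero N, (∃ n : ℕ, p ^ n • x = 0) → red x = 0 → x = 0
  hinert : ∀ σ ∈ A.inertiaSubgroupIn ℚ, ∀ y : JZero N, red (σ • y) = red y
  hfrob : ∀ σ : AlgebraicClosure ℚ ≃ₐ[ℚ] AlgebraicClosure ℚ, A.IsFrobeniusAt σ ℓ →
    ∀ y : JZero N, red (σ • y) = Φ (red y)
  hES : ∀ z : JZero N, red (heckeGen ⟨ℓ, hℓ⟩ • z) = Φ (red z) + ℓ • Ψ (red z)

attribute [instance] RedData.inst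

/-- additive functions on the Hecke algebra with values in an abelian group, with the Hecke
algebra acting by translation. -/
def HFun (M : Type) [AddCommGroup M] : Type := HeckeAlg →+ M

namespace HFun

variable {M : Type} [AddCommGroup M]

instance : AddCommGroup (HFun M) := inferInstanceAs (AddCommGroup (HeckeAlg →+ M))

/-- the underlying additive map. -/
def toHom (y : HFun M) : HeckeAlg →+ M := y

/-- the element attached to an additive map. -/
def ofHom (y : HeckeAlg →+ M) : HFun M := y

@[ext] theorem ext {y z : HFun M} (h : ∀ t, y.toHom t = z.toHom t) : y = z :=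
  AddMonoidHom.ext h

@[simp] theorem zero_apply (t : HeckeAlg) : (0 : HFun M).toHom t = 0 := rfl
@[simp] theorem add_apply (y z : HFun M) (t : HeckeAlg) :
    (y + z).toHom t = y.toHom t + z.toHom t := rfl
@[simp] theorem neg_apply (y : HFun M) (t : HeckeAlg) : (-y).toHom t = -y.toHom t := rfl
@[simp] theorem sub_apply (y z : HFun M) (t : HeckeAlg) :
    (y - z).toHom t = y.toHom t - z.toHom t := rfl
@[simp] theorem nsmul_apply (n : ℕ) (y : HFun M) (t : HeckeAlg) :
    (n • y).toHom t = n • y.toHom t := rfl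
@[simp] theorem ofHom_apply (y : HeckeAlg →+ M) (t : HeckeAlg) : (ofHom y).toHom t = y t := rfl

/-- translation by an element of the Hecke algebra. -/
def trans (s : HeckeAlg) (y : HFun M) : HFun M :=
  ofHom (y.toHom.comp (AddMonoidHom.mulRight s))

@[simp] theorem trans_apply (s : HeckeAlg) (y : HFun M) (t : HeckeAlg) :
    (trans s y).toHom t = y.toHom (t * s) := rfl

instance : Module HeckeAlg (HFun M) where
  smul := trans
  one_smul y := by
    ext t
    show y.toHom (t * 1) = y.toHom t
    rw [mul_one]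
  mul_smul a b y := by
    ext t
    show y.toHom (t * (a * b)) = y.toHom (t * a * b)
    rw [mul_assoc]
  smul_zero a := by
    ext t
    rfl
  smul_add a y z := by
    ext t
    rfl
  add_smul a b y := by
    ext t
    show y.toHom (t * (a + b)) = y.toHom (t * a) + y.toHom (t * b)
    rw [mul_add, map_add]
  zero_smul y := by
    ext t
    show y.toHom (t * 0) = 0
    rw [mul_zero, map_zero]

@[simp] theorem smul_apply (s : HeckeAlg) (y : HFun M) (t : HeckeAlg) :
    (s • y).toHom t = y.toHom (t * s) := rfl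

/-- post-composition with an endomorphism of `M`. -/
def post (Φ : M →+ M) : HFun M →+ HFun M where
  toFun y := ofHom (Φ.comp y.toHom)
  map_zero' := by
    ext t
    show Φ 0 = 0
    exact map_zero Φ
  map_add' y z := by
    ext t
    show Φ (y.toHom t + z.toHom t) = Φ (y.toHom t) + Φ (z.toHom t)
    exact map_add Φ _ _

@[simp] theorem post_apply (Φ : M →+ M) (y : HFun M) (t : HeckeAlg) :
    (post Φ y).toHom t = Φ (y.toHom t) := rfl

/-- the submodule cut out by the Eichler–Shimura relation. -/
def esSub (Φ : M →+ M) (T : HeckeAlg) (ℓ : ℕ) : Submodule HeckeAlg (HFun M) where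
  carrier := {y | ∀ t, Φ (Φ (y.toHom t)) - Φ (y.toHom (t * T)) + ℓ • y.toHom t = 0}
  add_mem' := by
    intro y z hy hz t
    have h1 := hy t
    have h2 := hz t
    simp only [add_apply, map_add, nsmul_add]
    have e : Φ (Φ (y.toHom t)) + Φ (Φ (z.toHom t)) - (Φ (y.toHom (t * T)) + Φ (z.toHom (t * T)))
        + (ℓ • y.toHom t + ℓ • z.toHom t)
        = (Φ (Φ (y.toHom t)) - Φ (y.toHom (t * T)) + ℓ • y.toHom t)
          + (Φ (Φ (z.toHom t)) - Φ (z.toHom (t * T)) + ℓ • z.toHom t) := by abel
    rw [e, h1, h2, add_zero]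
  zero_mem' := by
    intro t
    simp
  smul_mem' := by
    intro c y hy t
    have h := hy (t * c)
    simp only [smul_apply]
    rw [mul_right_comm t T c]
    exact h

theorem mem_esSub (Φ : M →+ M) (T : HeckeAlg) (ℓ : ℕ) (y : HFun M) :
    y ∈ esSub Φ T ℓ ↔ ∀ t, Φ (Φ (y.toHom t)) - Φ (y.toHom (t * T)) + ℓ • y.toHom t = 0 :=
  Iff.rfl

theorem post_mem_esSub (Φ : M →+ M) (T : HeckeAlg) (ℓ : ℕ) {y : HFun M} (hy : y ∈ esSub Φ T ℓ) :
    post Φ y ∈ esSub Φ T ℓ := by
  intro t
  have h := congrArg Φ (hy t)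
  simp only [post_apply]
  rw [map_add, map_sub, map_nsmul, map_zero] at h
  exact h

end HFun

variable {N p ℓ : ℕ} [NeZero N] [Module HeckeAlg (JZero N)]
  [SMulCommClass (AlgebraicClosure ℚ ≃ₐ[ℚ] AlgebraicClosure ℚ) HeckeAlg (JZero N)]
  {A : ValuationSubring (AlgebraicClosure ℚ)} {hℓ : ℓ.Prime}

/-- the specialization map `x ↦ (t ↦ red (t • x))`. -/
def RedData.spFun (R : RedData N p ℓ A hℓ) : JZero N →+ HFun R.M where
  toFun x := HFun.ofHom
    { toFun := fun t => R.red (t • x)
      map_zero' := by rw [zero_smul HeckeAlg x, map_zero]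
      map_add' := fun s t => by rw [add_smul, map_add] }
  map_zero' := by
    ext t
    show R.red (t • (0 : JZero N)) = 0
    rw [smul_zero, map_zero]
  map_add' x y := by
    ext t
    show R.red (t • (x + y)) = R.red (t • x) + R.red (t • y)
    rw [smul_add, map_add]

theorem RedData.spFun_apply (R : RedData N p ℓ A hℓ) (x : JZero N) (t : HeckeAlg) :
    (R.spFun x).toHom t = R.red (t • x) := rfl

theorem RedData.spFun_mem (R : RedData N p ℓ A hℓ) (x : JZero N) :
    R.spFun x ∈ HFun.esSub R.Φ (heckeGen ⟨ℓ, hℓ⟩) ℓ := by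
  intro t
  rw [R.spFun_apply, R.spFun_apply, mul_comm t (heckeGen ⟨ℓ, hℓ⟩), mul_smul, R.hES, map_add,
    map_nsmul, R.hΦΨ]
  abel

/-- **the abstract reduction.** -/
theorem specialization_of_redData (R : RedData N p ℓ A hℓ) :
    ∃ (J' : Type) (_ : AddCommGroup J') (_ : Module HeckeAlg J') (sp : JZero N →+ J')
      (F : J' →+ J'),
      IsSpecialization (K := ℚ) p (JZero N) J' A ℓ sp F ∧ SpecialFibreRelation J' ℓ hℓ F := by
  set E := HFun.esSub R.Φ (heckeGen ⟨ℓ, hℓ⟩) ℓ with hE
  let sp : JZero N →+ E :=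
    { toFun := fun x => ⟨R.spFun x, R.spFun_mem x⟩
      map_zero' := Subtype.ext (map_zero R.spFun)
      map_add' := fun x y => Subtype.ext (map_add R.spFun x y) }
  let F : E →+ E :=
    { toFun := fun y => ⟨HFun.post R.Φ y.1, HFun.post_mem_esSub R.Φ _ ℓ y.2⟩
      map_zero' := Subtype.ext (map_zero (HFun.post R.Φ))
      map_add' := fun x y => Subtype.ext (map_add (HFun.post R.Φ) x.1 y.1) }
  refine ⟨E, inferInstance, inferInstance, sp, F, ⟨?_, ?_, ?_, ?_⟩, ?_⟩
  · intro T x
    apply Subtype.ext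
    apply HFun.ext
    intro t
    show R.red (t • (T • x)) = R.red ((t * T) • x)
    rw [mul_smul]
  · intro σ hσ x
    apply Subtype.ext
    apply HFun.ext
    intro t
    show R.red (t • (σ • x)) = R.red (t • x)
    rw [← smul_comm σ t x, R.hinert σ hσ]
  · intro σ hσ x
    apply Subtype.ext
    apply HFun.ext
    intro t
    show R.red (t • (σ • x)) = R.Φ (R.red (t • x))
    rw [← smul_comm σ t x, R.hfrob σ hσ]
  · intro x hx h0
    have h1 : (R.spFun x).toHom 1 = 0 := by
      have h2 : R.spFun x = 0 := congrArg Subtype.val h0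
      rw [h2]
      rfl
    rw [R.spFun_apply, one_smul] at h1
    exact R.htors x hx h1
  · intro y
    apply Subtype.ext
    apply HFun.ext
    intro t
    have h := y.2 t
    show R.Φ (R.Φ (y.1.toHom t)) - R.Φ (y.1.toHom (t * heckeGen ⟨ℓ, hℓ⟩)) + ℓ • y.1.toHom t = 0
    exact h

end Fermat.Agent.S37Lib

end
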