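import Mathlib
import Fermat.Agent.RR_Riemann

/-!
# S37: rigidity of additive maps on divisors (the "bounded-hom lemma")

`K` algebraically closed of characteristic zero, `F/K` a function field with a generator.  An
additive map `δ : Div(F) → ℤ` (or into any group of divisors) which kills the principal divisors
and is bounded on the places kills every divisor of degree zero.

Proof: by Riemann's inequality there is `m` such that every divisor of degree `m` is linearly
equivalent to an effective one; so for a divisor `D` of degree zero and every `n` we get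
`n • D + m • P₀ ∼ Eₙ ≥ 0` with `deg Eₙ = m`, whence `|n δ(D)| ≤ 2 C m` for all `n`.
-/

set_option autoImplicit false

noncomputable section

open AlgebraicCurve

namespace Fermat.Agent.S37.Rigid

open Fermat.Agent.S24 Fermat.Agent.RR

variable {K F : Type*} [Field K] [IsAlgClosed K] [CharZero K] [Field F] [Algebra K F]

/-- an additive map which is bounded by `C` on the places is bounded by `C * deg E` on an
effective divisor `E`. -/
theorem abs_le_of_effective {x : F} (hx : IsGenerator K x) (δ : Divisor K F →+ ℤ) (C : ℤ)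
    (hC : ∀ P : Place K F, |δ (Finsupp.single P 1)| ≤ C) (E : Divisor K F)
    (hE : ∀ v, 0 ≤ E v) : |δ E| ≤ C * Divisor.degree E := by
  induction E using Finsupp.induction with
  | zero => simp
  | single_add v n E' hv hn ih =>
    have hE'v : E' v = 0 := Finsupp.notMem_support_iff.mp hv
    have hn0 : 0 ≤ n := by
      have h := hE v
      rw [Finsupp.add_apply, Finsupp.single_eq_same, hE'v, add_zero] at h
      exact h
    have hE' : ∀ w, 0 ≤ E' w := by
      intro w
      by_cases hw : w = v
      · rw [hw, hE'v]
      · have h := hE w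
        rwa [Finsupp.add_apply, Finsupp.single_eq_of_ne hw, zero_add] at h
    have ih' := ih hE'
    have hs : δ (Finsupp.single v n) = n * δ (Finsupp.single v 1) := by
      have : (Finsupp.single v n : Divisor K F) = n • Finsupp.single v 1 := by
        rw [Finsupp.smul_single, smul_eq_mul, mul_one]
      rw [this, map_zsmul, smul_eq_mul]
    have hdv : Divisor.degree (Finsupp.single v n : Divisor K F) = n := by
      rw [Divisor.degree_single, Places.deg_eq_one hx]
      simp
    rw [map_add, map_add, hs, hdv]
    have h1 : |n * δ (Finsupp.single v 1)| ≤ n * C := by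
      rw [abs_mul, abs_of_nonneg hn0]
      exact mul_le_mul_of_nonneg_left (hC v) hn0
    calc |n * δ (Finsupp.single v 1) + δ E'|
        ≤ |n * δ (Finsupp.single v 1)| + |δ E'| := abs_add_le _ _
      _ ≤ n * C + C * Divisor.degree E' := add_le_add h1 ih'
      _ = C * (n + Divisor.degree E') := by ring

/-- **Rigidity (general).**  An additive map `Div(F) → ℤ` which kills principal divisors and is
bounded on places kills all divisors of degree zero. -/
theorem rigid_general {x : F} (hx : IsGenerator K x)
    (δ : Divisor K F →+ ℤ) (C : ℤ)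
    (hC : ∀ P : Place K F, |δ (Finsupp.single P 1)| ≤ C)
    (hprin : ∀ D ∈ Divisor.principal (K := K) (F := F), δ D = 0)
    (D : Divisor K F) (hD : D ∈ Divisor.degZero (K := K) (F := F)) : δ D = 0 := by
  obtain ⟨γ, hγ⟩ := exists_riemann_bound hx
  obtain ⟨P₀⟩ := nonempty_place_of_isGenerator hx
  haveI := Places.hasPrincipalDivisors hx
  have hC0 : 0 ≤ C := le_trans (abs_nonneg _) (hC P₀)
  obtain ⟨m, hm⟩ : ∃ m : ℕ, γ < m := ⟨(γ + 1).toNat, by omega⟩
  have key : ∀ n : ℕ, |(n : ℤ) * δ D| ≤ 2 * (C * m) := by
    intro n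
    set Dn : Divisor K F := n • D + m • Finsupp.single P₀ 1 with hDn
    have hdeg : Divisor.degree Dn = m := by
      rw [hDn, map_add, map_nsmul, map_nsmul, Divisor.mem_degZero.mp hD, Divisor.degree_single,
        Places.deg_eq_one hx]
      simp
    have hfin : 0 < Module.finrank K (LSpace K F Dn) := by
      have h := hγ Dn
      rw [hdeg] at h
      omega
    obtain ⟨f, hf⟩ : ∃ f : LSpace K F Dn, f ≠ 0 := by
      by_contra hcon
      push Not at hcon
      haveI : Subsingleton (LSpace K F Dn) := ⟨fun a b => by rw [hcon a, hcon b]⟩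
      rw [Module.finrank_zero_of_subsingleton] at hfin
      exact lt_irrefl _ hfin
    have hf0 : (f : F) ≠ 0 := fun h => hf (Subtype.ext h)
    have hfL := (mem_LSpace.mp f.2).resolve_left hf0
    obtain ⟨Df, hDf, hDf0⟩ := HasPrincipalDivisors.exists_divisor (K := K) (f : F) hf0
    have hE : ∀ v, 0 ≤ (Df + Dn) v := fun v => by
      rw [Finsupp.add_apply, hDf]
      exact hfL v
    have hb := abs_le_of_effective hx δ C hC (Df + Dn) hE
    have hδDf : δ Df = 0 := hprin Df ⟨f, hf0, hDf⟩
    have hb1 : δ (Df + Dn) = δ Dn := by rw [map_add, hδDf, zero_add]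
    have hb2 : Divisor.degree (Df + Dn) = m := by rw [map_add, hDf0, zero_add, hdeg]
    rw [hb1, hb2] at hb
    have h1 : δ Dn = n * δ D + m * δ (Finsupp.single P₀ 1) := by
      rw [hDn, map_add, map_nsmul, map_nsmul]
      simp
    have h2 : |(m : ℤ) * δ (Finsupp.single P₀ 1)| ≤ C * m := by
      rw [abs_mul, abs_of_nonneg (Int.natCast_nonneg m), mul_comm]
      exact mul_le_mul_of_nonneg_right (hC P₀) (Int.natCast_nonneg m)
    have h3 : (n : ℤ) * δ D = δ Dn - m * δ (Finsupp.single P₀ 1) := by rw [h1]; ring
    rw [h3]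
    calc |δ Dn - m * δ (Finsupp.single P₀ 1)|
        ≤ |δ Dn| + |(m : ℤ) * δ (Finsupp.single P₀ 1)| := abs_sub _ _
      _ ≤ C * m + C * m := add_le_add hb h2
      _ = 2 * (C * m) := by ring
  by_contra hne
  have hpos : 1 ≤ |δ D| := Int.one_le_abs hne
  have hCm : 0 ≤ C * m := mul_nonneg hC0 (Int.natCast_nonneg m)
  have hk := key (2 * (C * m) + 1).toNat
  have hn : (((2 * (C * m) + 1).toNat : ℕ) : ℤ) = 2 * (C * m) + 1 := Int.toNat_of_nonneg (by omega)
  rw [hn, abs_mul, abs_of_nonneg (by omega : (0 : ℤ) ≤ 2 * (C * m) + 1)] at hk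
  nlinarith

/-- **Rigidity, divisor-valued form.** -/
theorem rigid_general_div {K' F' : Type*} [Field K'] [Field F'] [Algebra K' F'] {x : F}
    (hx : IsGenerator K x)
    (δ : Divisor K F →+ Divisor K' F') (C : ℤ)
    (hC : ∀ (P : Place K F) (Q : Place K' F'), |δ (Finsupp.single P 1) Q| ≤ C)
    (hprin : ∀ D ∈ Divisor.principal (K := K) (F := F), δ D = 0)
    (D : Divisor K F) (hD : D ∈ Divisor.degZero (K := K) (F := F)) : δ D = 0 := by
  ext Q
  have h := rigid_general hx ((Finsupp.applyAddHom Q).comp δ) C (fun P => hC P Q)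
    (fun D hD => by
      show (δ D) Q = 0
      rw [hprin D hD]
      rfl) D hD
  exact h

end Fermat.Agent.S37.Rigid
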