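import Mathlib
import Fermat.Prelude.Def_ModularCurve_ReductionModL
import Fermat.Prelude.Def_ModularCurve_HeckeModule
import Fermat.Agent.S37_Rigid
import Fermat.Agent.S37_PushPull

/-!
# S37 (ES-bc): from the function-level Kronecker congruence to the Eichler–Shimura congruence
on `Pic⁰`

Setting: `L` algebraically closed of characteristic zero, `A` a valuation subring of `L` with
a residue map `π : A →+* k`; `F_N`, `F_M` the function fields of `X₀(N)`, `X₀(M)` over `L`
(`F_N ⊆ F_M`); `r` a place reduction at level `M`; `g` a semilinear automorphism of the function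
field of `X₀(M)` over `k` (the coefficientwise Frobenius).  With `Π : Div(F_N) → Div(F_M)` the
pullback, put `Θ := r_* ∘ Π ∘ T_ℓ` and `Ξ := (g + ℓ g⁻¹) ∘ r_* ∘ Π`.

* (b) `Θ = Ξ` on the divisors of the `A`-integral functions of `F_N` with nonzero reduction:
  pullback formula, norm formula, the Kronecker congruence and conservation of number.
* (c) hence `Θ = Ξ` on all divisors of degree zero, by rigidity (`S37_Rigid`).
* the statement on `Pic⁰`, for the Prelude's `reductionAlong` and `heckeOperatorAlong`.
-/

set_option autoImplicit false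
set_option linter.unusedSectionVars false

noncomputable section

open HahnSeries IntermediateField AlgebraicCurve ModularCurve

namespace Fermat.Agent.S37.ES

/-! ## generic lemmas on divisors -/

section Generic

/-- induction on effective finitely supported functions. -/
theorem effective_induction {α : Type*} {p : (α →₀ ℤ) → Prop} (h0 : p 0)
    (hadd : ∀ (a : α) (n : ℤ) (E : α →₀ ℤ), 0 ≤ n → (∀ b, 0 ≤ E b) → p E →
      p (Finsupp.single a n + E))
    (E : α →₀ ℤ) (hE : ∀ a, 0 ≤ E a) : p E := by
  induction E using Finsupp.induction with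
  | zero => exact h0
  | single_add v n E' hv hn ih =>
    have hE'v : E' v = 0 := Finsupp.notMem_support_iff.mp hv
    have hn0 : 0 ≤ n := by
      have h := hE v
      rw [Finsupp.add_apply, Finsupp.single_eq_same, hE'v, add_zero] at h
      exact h
    have hE' : ∀ w, 0 ≤ E' w := by
      intro w
      by_cases hw : w = v
      · rw [hw, hE'v]
      · have h := hE w
        rwa [Finsupp.add_apply, Finsupp.single_eq_of_ne hw, zero_add] at h
    exact hadd v n E' hn0 hE' (ih hE')

variable {K F F' : Type*} [Field K] [Field F] [Field F'] [Algebra K F] [Algebra K F']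

/-- the pullback of the divisor of `f` is the divisor of `φ f`. -/
theorem pullbackAlong_eq_ord [HasPrincipalDivisors K F'] (φ : F →ₐ[K] F')
    (hφ : φ.toRingHom.IsIntegral) {f : F} {D : Divisor K F}
    (hD : ∀ v : Place K F, D v = v.ord f) (w : Place K F') :
    Divisor.pullbackAlong φ hφ D w = w.ord (φ f) := by
  letI := algebraAlong φ
  haveI := isScalarTower_along φ
  haveI := isIntegral_along φ hφ
  exact Divisor.pullback_apply_eq_ord hD w

/-- the pushforward of the divisor of `f` is the divisor of the norm of `f`. -/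
theorem pushforwardAlong_eq_ord (φ : F →ₐ[K] F') (hφ : φ.toRingHom.IsIntegral)
    (hfin : FiniteAlong K φ) (hN : NormFormulaAlong K φ hfin) {f : F'} (hf : f ≠ 0)
    {D : Divisor K F'} (hD : ∀ w : Place K F', D w = w.ord f) (v : Place K F) :
    Divisor.pushforwardAlong φ hφ D v
      = v.ord (letI := algebraAlong φ; Algebra.norm F f) := by
  letI := algebraAlong φ
  haveI := isScalarTower_along φ
  haveI := isIntegral_along φ hφ
  haveI : Module.Finite F F' := hfin
  exact hN f hf D hD v

theorem pullbackAlong_nonneg [HasPrincipalDivisors K F'] (φ : F →ₐ[K] F')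
    (hφ : φ.toRingHom.IsIntegral) {D : Divisor K F} (hD : ∀ v, 0 ≤ D v) (w : Place K F') :
    0 ≤ Divisor.pullbackAlong φ hφ D w := by
  rw [Divisor.pullbackAlong_apply]
  exact mul_nonneg (Int.natCast_nonneg _) (hD _)

theorem pushforwardAlong_nonneg (φ : F →ₐ[K] F') (hφ : φ.toRingHom.IsIntegral)
    {D : Divisor K F'} (hD : ∀ w, 0 ≤ D w) (v : Place K F) :
    0 ≤ Divisor.pushforwardAlong φ hφ D v := by
  classical
  revert v
  refine effective_induction (p := fun E => ∀ v, 0 ≤ Divisor.pushforwardAlong φ hφ E v)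
    (fun v => by simp) (fun w n E hn _ ih v => ?_) D hD
  rw [map_add, Finsupp.add_apply, Divisor.pushforwardAlong_single, Finsupp.single_apply]
  refine add_nonneg ?_ (ih v)
  split_ifs
  · exact mul_nonneg hn (Int.natCast_nonneg _)
  · exact le_rfl

/-- the push-forward of an effective divisor along a map of places is effective and its
multiplicities are bounded by the degree (if all places have degree one). -/
theorem mapDomain_bounds {K' F'' : Type*} [Field K'] [Field F''] [Algebra K' F'']
    (r : Place K F → Place K' F'') (hdeg : ∀ W : Place K F, W.deg = 1)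
    (E : Divisor K F) (hE : ∀ W, 0 ≤ E W) (Q : Place K' F'') :
    0 ≤ Finsupp.mapDomain r E Q ∧ Finsupp.mapDomain r E Q ≤ Divisor.degree E := by
  classical
  revert Q
  refine effective_induction
    (p := fun E => ∀ Q, 0 ≤ Finsupp.mapDomain r E Q ∧ Finsupp.mapDomain r E Q ≤ Divisor.degree E)
    (fun Q => by simp) (fun W n E hn _ ih Q => ?_) E hE
  rw [Finsupp.mapDomain_add, Finsupp.add_apply, Finsupp.mapDomain_single, map_add,
    Divisor.degree_single, hdeg W, Finsupp.single_apply]
  obtain ⟨h1, h2⟩ := ih Q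
  split_ifs
  · constructor
    · exact add_nonneg hn h1
    · simp only [Nat.cast_one, mul_one]
      exact add_le_add le_rfl h2
  · constructor
    · simpa using h1
    · simp only [Nat.cast_one, mul_one, zero_add]
      exact le_trans h2 (le_add_of_nonneg_left hn)

end Generic

/-! ## rigidity for a pair of maps -/

section RigidPair

open Fermat.Agent.S24

variable {K F : Type*} [Field K] [IsAlgClosed K] [CharZero K] [Field F] [Algebra K F]
variable {K' F' : Type*} [Field K'] [Field F'] [Algebra K' F']

/-- two additive maps `Div(F) → Div(F')` which are bounded on places and agree on a set `S`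
of divisors such that some multiple of every principal divisor lies in the group generated by
`S`, agree on all divisors of degree zero. -/
theorem eq_of_agree {x : F} (hx : IsGenerator K x)
    (Θ Ξ : Divisor K F →+ Divisor K' F') (C : ℤ)
    (hΘ : ∀ (P : Place K F) (Q : Place K' F'), |Θ (Finsupp.single P 1) Q| ≤ C)
    (hΞ : ∀ (P : Place K F) (Q : Place K' F'), |Ξ (Finsupp.single P 1) Q| ≤ C)
    (S : Set (Divisor K F)) (hS : ∀ D ∈ S, Θ D = Ξ D)
    (hgen : ∀ D ∈ Divisor.principal (K := K) (F := F),
      ∃ d : ℕ, d ≠ 0 ∧ d • D ∈ AddSubgroup.closure S)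
    (D : Divisor K F) (hD : D ∈ Divisor.degZero (K := K) (F := F)) : Θ D = Ξ D := by
  have hcl : ∀ E ∈ AddSubgroup.closure S, (Θ - Ξ) E = 0 := by
    intro E hE
    induction hE using AddSubgroup.closure_induction with
    | mem E hE => rw [AddMonoidHom.sub_apply, hS E hE, sub_self]
    | zero => exact map_zero _
    | add E E' _ _ h h' => rw [map_add, h, h', add_zero]
    | neg E _ h => rw [map_neg, h, neg_zero]
  have hprin : ∀ E ∈ Divisor.principal (K := K) (F := F), (Θ - Ξ) E = 0 := by
    intro E hE
    obtain ⟨d, hd, hdE⟩ := hgen E hE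
    have h := hcl _ hdE
    rw [map_nsmul] at h
    ext Q
    have hQ := congrArg (fun G : Divisor K' F' => G Q) h
    simp only [Finsupp.smul_apply, Finsupp.zero_apply, nsmul_eq_mul] at hQ
    rcases mul_eq_zero.mp hQ with h0 | h0
    · exact absurd (by exact_mod_cast h0) hd
    · exact h0
  have h := Fermat.Agent.S37.Rigid.rigid_general_div hx (Θ - Ξ) (2 * C)
    (fun P Q => by
      rw [AddMonoidHom.sub_apply, Finsupp.sub_apply]
      have h1 := hΘ P Q
      have h2 := hΞ P Q
      rw [abs_le] at h1 h2 ⊢
      constructor <;> linarith [h1.1, h1.2, h2.1, h2.2]) hprin D hD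
  rw [AddMonoidHom.sub_apply, sub_eq_zero] at h
  exact h

end RigidPair

/-! ## the modular setting -/

section Modular

variable {L : Type*} [Field L] [Algebra ℚ L] {A : ValuationSubring L}
variable {k : Type*} [Field k] {π : A →+* k} {N M ℓ : ℕ} [NeZero N] [NeZero M] [NeZero ℓ]
variable {Fκ : IntermediateField k (LaurentSeries k)}

/-- the divisors (at level `N`) of the `A`-integral functions of level `N` whose reduction is
a nonzero element of a given subfield `Fκ` of `k((q))` (e.g. the function field of level `M`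
over `k`).  For `Fκ = modularFunctionFieldFullC k N` this is the Prelude's
`integralPrincipalDivisors A π N`. -/
def integralDivisorsRel (A : ValuationSubring L) (π : A →+* k) (N : ℕ)
    (Fκ : IntermediateField k (LaurentSeries k)) :
    Set (Divisor L (laurentBaseChange L (modularFunctionFieldFull N))) :=
  {D | ∃ (y : LaurentSeries A)
      (hy : coeffMap A.subtype y ∈ laurentBaseChange L (modularFunctionFieldFull N)),
      coeffMap π y ∈ Fκ ∧ coeffMap π y ≠ 0 ∧
        ∀ P, D P = P.ord (⟨coeffMap A.subtype y, hy⟩ :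
          laurentBaseChange L (modularFunctionFieldFull N))}

/-- (GEN): a multiple of every principal divisor of level `N` lies in the group generated by
`integralDivisorsRel`. -/
def GeneratedRel (A : ValuationSubring L) (π : A →+* k) (N : ℕ)
    (Fκ : IntermediateField k (LaurentSeries k)) : Prop :=
  ∀ D ∈ Divisor.principal (K := L) (F := laurentBaseChange L (modularFunctionFieldFull N)),
    ∃ d : ℕ, d ≠ 0 ∧ d • D ∈ AddSubgroup.closure (integralDivisorsRel A π N Fκ)

theorem generatedRel_of_principalGeneratedByIntegral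
    (h : PrincipalGeneratedByIntegral A π N) :
    GeneratedRel A π N (modularFunctionFieldFullC k N) := by
  intro D hD
  refine ⟨1, one_ne_zero, ?_⟩
  rw [one_smul]
  exact h hD

/-- (ES-a), the function-level Kronecker congruence, in the shape consumed here: for an
`A`-integral `y ∈ F_N` with nonzero reduction `ȳ` in the subfield `Fκ` of `k((q))`,
the norm along `α` of `β y` is `A`-integral with reduction `(g • ȳ) * (g⁻¹ • ȳ) ^ ℓ`. -/
def KroneckerCongruence (A : ValuationSubring L) (π : A →+* k) (N ℓ : ℕ) [NeZero N]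
    [NeZero ℓ] (Fκ : IntermediateField k (LaurentSeries k)) (g : SemilinearAut k Fκ) : Prop :=
  ∀ (y : LaurentSeries A)
    (hy : coeffMap A.subtype y ∈ laurentBaseChange L (modularFunctionFieldFull N))
    (hyk : coeffMap π y ∈ Fκ), coeffMap π y ≠ 0 →
    ∃ z : LaurentSeries A,
      coeffMap A.subtype z =
        ((letI := algebraAlong (heckeAlphaBar L N ℓ)
          Algebra.norm (laurentBaseChange L (modularFunctionFieldFull N))
            (heckeBetaBar L N ℓ ⟨coeffMap A.subtype y, hy⟩) :
          laurentBaseChange L (modularFunctionFieldFull N)) : LaurentSeries L) ∧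
      coeffMap π z =
        (((g • (⟨coeffMap π y, hyk⟩ : Fκ)) *
          (g⁻¹ • (⟨coeffMap π y, hyk⟩ : Fκ)) ^ ℓ :
            Fκ) : LaurentSeries k)

/-- glue: the Kronecker congruence from its series-level form (`z̄ = φ(ȳ) * w ^ ℓ` whenever
`φ(w) = ȳ`, `φ` the coefficientwise Frobenius) and the description of `g` on series. -/
theorem kroneckerCongruence_of_series (g : SemilinearAut k Fκ)
    (φ : k →+* k)
    (hg : ∀ x : Fκ,
      ((g • x : Fκ) : LaurentSeries k)
        = coeffMap φ (x : LaurentSeries k))
    (h : ∀ (y : LaurentSeries A)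
      (hy : coeffMap A.subtype y ∈ laurentBaseChange L (modularFunctionFieldFull N)),
      ∃ z : LaurentSeries A,
        coeffMap A.subtype z =
          ((letI := algebraAlong (heckeAlphaBar L N ℓ)
            Algebra.norm (laurentBaseChange L (modularFunctionFieldFull N))
              (heckeBetaBar L N ℓ ⟨coeffMap A.subtype y, hy⟩) :
            laurentBaseChange L (modularFunctionFieldFull N)) : LaurentSeries L) ∧
        ∀ w : LaurentSeries k, coeffMap φ w = coeffMap π y →
          coeffMap π z = coeffMap φ (coeffMap π y) * w ^ ℓ) :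
    KroneckerCongruence A π N ℓ Fκ g := by
  intro y hy hyk _
  obtain ⟨z, hz, hzw⟩ := h y hy
  refine ⟨z, hz, ?_⟩
  set Y : Fκ := ⟨coeffMap π y, hyk⟩ with hY
  have h1 : coeffMap φ ((g⁻¹ • Y : Fκ) : LaurentSeries k)
      = coeffMap π y := by
    rw [← hg, smul_inv_smul]
  rw [hzw _ h1, ← hg Y]
  rfl

theorem coeffMap_subtype_ne_zero {y : LaurentSeries A} (h : coeffMap π y ≠ 0) :
    coeffMap A.subtype y ≠ 0 := by
  intro h0
  apply h
  have hy : y = 0 := by
    ext n
    have h1 := congrArg (fun s : LaurentSeries L => s.coeff n) h0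
    simp only [coeffMap_coeff, HahnSeries.coeff_zero] at h1
    rw [HahnSeries.coeff_zero]
    exact h1
  rw [hy, map_zero]

/-- **(b)** `Θ` and `Ξ` agree on the divisors of the integral functions. -/
theorem agree_on_integral
    (hle : laurentBaseChange L (modularFunctionFieldFull N)
      ≤ laurentBaseChange L (modularFunctionFieldFull M))
    (Pi : Divisor L (laurentBaseChange L (modularFunctionFieldFull N)) →+
      Divisor L (laurentBaseChange L (modularFunctionFieldFull M)))
    (hPi : ∀ (f : laurentBaseChange L (modularFunctionFieldFull N))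
      (D : Divisor L (laurentBaseChange L (modularFunctionFieldFull N))),
      (∀ P, D P = P.ord f) →
      ∀ W : Place L (laurentBaseChange L (modularFunctionFieldFull M)),
        Pi D W = W.ord (⟨(f : LaurentSeries L), hle f.2⟩ :
          laurentBaseChange L (modularFunctionFieldFull M)))
    (r : Place L (laurentBaseChange L (modularFunctionFieldFull M)) → Place k Fκ)
    (hcons : ∀ (y : LaurentSeries A)
      (hy : coeffMap A.subtype y ∈ laurentBaseChange L (modularFunctionFieldFull M))
      (hyk : coeffMap π y ∈ Fκ), coeffMap π y ≠ 0 →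
      ∀ D : Divisor L (laurentBaseChange L (modularFunctionFieldFull M)),
        (∀ P, D P = P.ord (⟨coeffMap A.subtype y, hy⟩ :
          laurentBaseChange L (modularFunctionFieldFull M))) →
        ∀ Q, Finsupp.mapDomain r D Q = Q.ord (⟨coeffMap π y, hyk⟩ : Fκ))
    (hα : HeckeAlphaBarIntegral L N ℓ) (hβ : HeckeBetaBarIntegral L N ℓ)
    [HasPrincipalDivisors L (laurentBaseChange L (modularFunctionFieldFull (N * ℓ)))]
    (hfin : FiniteAlong L (heckeAlphaBar L N ℓ))
    (hN : NormFormulaAlong L (heckeAlphaBar L N ℓ) hfin)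
    (g : SemilinearAut k Fκ)
    (hKr : KroneckerCongruence A π N ℓ Fκ g)
    (D : Divisor L (laurentBaseChange L (modularFunctionFieldFull N)))
    (hD : D ∈ integralDivisorsRel A π N Fκ) :
    Finsupp.mapDomain r (Pi (heckeDivBar hα hβ D)) =
      g • Finsupp.mapDomain r (Pi D) + ℓ • (g⁻¹ • Finsupp.mapDomain r (Pi D)) := by
  obtain ⟨y, hy, hyk, hyne, hDy⟩ := hD
  obtain ⟨z, hz, hzk⟩ := hKr y hy hyk hyne
  set f : laurentBaseChange L (modularFunctionFieldFull N) := ⟨coeffMap A.subtype y, hy⟩ with hf
  have hf0 : f ≠ 0 := fun h => coeffMap_subtype_ne_zero hyne (congrArg Subtype.val h)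
  set nf : laurentBaseChange L (modularFunctionFieldFull N) :=
    (letI := algebraAlong (heckeAlphaBar L N ℓ)
     Algebra.norm (laurentBaseChange L (modularFunctionFieldFull N)) (heckeBetaBar L N ℓ f))
    with hnf
  -- `T_ℓ D` is the divisor of the norm
  have hT : ∀ v, heckeDivBar hα hβ D v = v.ord nf := by
    intro v
    have h1 : ∀ w, Divisor.pullbackAlong (heckeBetaBar L N ℓ) hβ D w
        = w.ord (heckeBetaBar L N ℓ f) := fun w => pullbackAlong_eq_ord _ hβ hDy w
    have hβf : heckeBetaBar L N ℓ f ≠ 0 := by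
      intro h0
      exact hf0 ((heckeBetaBar L N ℓ).toRingHom.injective (by rw [AlgHom.toRingHom_eq_coe, RingHom.coe_coe, h0, map_zero]))
    exact pushforwardAlong_eq_ord _ hα hfin hN hβf h1 v
  have hzM : coeffMap A.subtype z ∈ laurentBaseChange L (modularFunctionFieldFull M) := by
    rw [hz]
    exact hle nf.2
  have hyM : coeffMap A.subtype y ∈ laurentBaseChange L (modularFunctionFieldFull M) := hle hy
  set Y : Fκ := ⟨coeffMap π y, hyk⟩ with hY
  have hY0 : Y ≠ 0 := fun h => hyne (congrArg Subtype.val h)
  have hgY : g • Y ≠ 0 := (smul_ne_zero_iff_ne g).mpr hY0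
  have hgY' : g⁻¹ • Y ≠ 0 := (smul_ne_zero_iff_ne g⁻¹).mpr hY0
  have hzkmem : coeffMap π z ∈ Fκ := by
    rw [hzk]
    exact Subtype.property _
  have hZ : (⟨coeffMap π z, hzkmem⟩ : Fκ)
      = g • Y * (g⁻¹ • Y) ^ ℓ := Subtype.ext hzk
  have hzne : coeffMap π z ≠ 0 := by
    intro h0
    have h1 : (⟨coeffMap π z, hzkmem⟩ : Fκ) = 0 := Subtype.ext h0
    rw [hZ] at h1
    exact mul_ne_zero hgY (pow_ne_zero _ hgY') h1
  have h2 : ∀ W, Pi (heckeDivBar hα hβ D) W
      = W.ord (⟨coeffMap A.subtype z, hzM⟩ : laurentBaseChange L (modularFunctionFieldFull M)) := by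
    intro W
    rw [hPi nf _ hT W]
    congr 1
    exact Subtype.ext hz.symm
  have h1 : ∀ W, Pi D W
      = W.ord (⟨coeffMap A.subtype y, hyM⟩ : laurentBaseChange L (modularFunctionFieldFull M)) :=
    fun W => hPi f D hDy W
  have c2 := hcons z hzM hzkmem hzne _ h2
  have c1 := hcons y hyM hyk hyne _ h1
  have e1 : ∀ Q : Place k Fκ, Q.ord (g • Y) = (g⁻¹ • Q).ord Y := by
    intro Q
    have h := SemilinearAut.ord_smul g (g⁻¹ • Q) Y
    rwa [smul_inv_smul] at h
  have e2 : ∀ Q : Place k Fκ, Q.ord (g⁻¹ • Y) = (g • Q).ord Y := by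
    intro Q
    have h := SemilinearAut.ord_smul g⁻¹ (g • Q) Y
    rwa [inv_smul_smul] at h
  ext Q
  rw [c2 Q, hZ, Finsupp.add_apply, Finsupp.smul_apply, SemilinearAut.divisor_smul_apply,
    SemilinearAut.divisor_smul_apply, c1, c1, inv_inv,
    Place.ord_mul _ hgY (pow_ne_zero _ hgY'), ← zpow_natCast, Place.ord_zpow, e1, e2,
    nsmul_eq_mul]

/-- **(c)** the Eichler–Shimura congruence on divisors of degree zero. -/
theorem divisor_congruence [IsAlgClosed L]
    {x : laurentBaseChange L (modularFunctionFieldFull N)}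
    (hx : Fermat.Agent.S24.IsGenerator L x)
    (hdegM : ∀ W : Place L (laurentBaseChange L (modularFunctionFieldFull M)), W.deg = 1)
    (hle : laurentBaseChange L (modularFunctionFieldFull N)
      ≤ laurentBaseChange L (modularFunctionFieldFull M))
    (Pi : Divisor L (laurentBaseChange L (modularFunctionFieldFull N)) →+
      Divisor L (laurentBaseChange L (modularFunctionFieldFull M)))
    (hPi : ∀ (f : laurentBaseChange L (modularFunctionFieldFull N))
      (D : Divisor L (laurentBaseChange L (modularFunctionFieldFull N))),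
      (∀ P, D P = P.ord f) →
      ∀ W : Place L (laurentBaseChange L (modularFunctionFieldFull M)),
        Pi D W = W.ord (⟨(f : LaurentSeries L), hle f.2⟩ :
          laurentBaseChange L (modularFunctionFieldFull M)))
    (hPipos : ∀ E : Divisor L (laurentBaseChange L (modularFunctionFieldFull N)),
      (∀ v, 0 ≤ E v) → ∀ W, 0 ≤ Pi E W)
    (c : ℤ) (hPideg : ∀ E, Divisor.degree (Pi E) = c * Divisor.degree E)
    (r : Place L (laurentBaseChange L (modularFunctionFieldFull M)) → Place k Fκ)
    (hcons : ∀ (y : LaurentSeries A)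
      (hy : coeffMap A.subtype y ∈ laurentBaseChange L (modularFunctionFieldFull M))
      (hyk : coeffMap π y ∈ Fκ), coeffMap π y ≠ 0 →
      ∀ D : Divisor L (laurentBaseChange L (modularFunctionFieldFull M)),
        (∀ P, D P = P.ord (⟨coeffMap A.subtype y, hy⟩ :
          laurentBaseChange L (modularFunctionFieldFull M))) →
        ∀ Q, Finsupp.mapDomain r D Q = Q.ord (⟨coeffMap π y, hyk⟩ : Fκ))
    (hα : HeckeAlphaBarIntegral L N ℓ) (hβ : HeckeBetaBarIntegral L N ℓ)
    [HasPrincipalDivisors L (laurentBaseChange L (modularFunctionFieldFull (N * ℓ)))]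
    (hFI : FundamentalIdentityAlong L (heckeBetaBar L N ℓ) hβ)
    (hfin : FiniteAlong L (heckeAlphaBar L N ℓ))
    (hN : NormFormulaAlong L (heckeAlphaBar L N ℓ) hfin)
    (g : SemilinearAut k Fκ)
    (hKr : KroneckerCongruence A π N ℓ Fκ g)
    (hgen : GeneratedRel A π N Fκ)
    (D : Divisor L (laurentBaseChange L (modularFunctionFieldFull N)))
    (hD : D ∈ Divisor.degZero (K := L) (F := laurentBaseChange L (modularFunctionFieldFull N))) :
    Finsupp.mapDomain r (Pi (heckeDivBar hα hβ D)) =
      g • Finsupp.mapDomain r (Pi D) + ℓ • (g⁻¹ • Finsupp.mapDomain r (Pi D)) := by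
  haveI : CharZero L := algebraRat.charZero L
  set rH : Divisor L (laurentBaseChange L (modularFunctionFieldFull M)) →+
      Divisor k Fκ := Finsupp.mapDomain.addMonoidHom r with hrH
  set Θ : Divisor L (laurentBaseChange L (modularFunctionFieldFull N)) →+
      Divisor k Fκ := rH.comp (Pi.comp (heckeDivBar hα hβ)) with hΘ
  set Ξ : Divisor L (laurentBaseChange L (modularFunctionFieldFull N)) →+
      Divisor k Fκ :=
    (DistribSMul.toAddMonoidHom (Divisor k Fκ) g
      + ℓ • DistribSMul.toAddMonoidHom (Divisor k Fκ) g⁻¹).comp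
      (rH.comp Pi) with hΞ
  have hΘapp : ∀ E, Θ E = Finsupp.mapDomain r (Pi (heckeDivBar hα hβ E)) := fun E => rfl
  have hΞapp : ∀ E, Ξ E = g • Finsupp.mapDomain r (Pi E)
      + ℓ • (g⁻¹ • Finsupp.mapDomain r (Pi E)) := fun E => rfl
  -- bounds
  set b : ℤ := (finrankAlong L (heckeBetaBar L N ℓ) : ℤ) with hb
  have hb0 : 0 ≤ b := Int.natCast_nonneg _
  have hsingle : ∀ P : Place L (laurentBaseChange L (modularFunctionFieldFull N)),
      ∀ v, 0 ≤ (Finsupp.single P (1 : ℤ) :
        Divisor L (laurentBaseChange L (modularFunctionFieldFull N))) v := by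
    intro P v
    classical
    rw [Finsupp.single_apply]
    split_ifs <;> norm_num
  have hdegP : ∀ P : Place L (laurentBaseChange L (modularFunctionFieldFull N)),
      Divisor.degree (Finsupp.single P (1 : ℤ) :
        Divisor L (laurentBaseChange L (modularFunctionFieldFull N))) = 1 := by
    intro P
    rw [Divisor.degree_single, Fermat.Agent.S24.Places.deg_eq_one hx]
    simp
  have hm : ∀ (P : Place L (laurentBaseChange L (modularFunctionFieldFull N)))
      (Q : Place k Fκ),
      0 ≤ Finsupp.mapDomain r (Pi (Finsupp.single P 1)) Q ∧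
        Finsupp.mapDomain r (Pi (Finsupp.single P 1)) Q ≤ c := by
    intro P Q
    have h := mapDomain_bounds r hdegM (Pi (Finsupp.single P 1))
      (hPipos _ (hsingle P)) Q
    rw [hPideg, hdegP, mul_one] at h
    exact h
  have hΘb : ∀ (P : Place L (laurentBaseChange L (modularFunctionFieldFull N)))
      (Q : Place k Fκ),
      0 ≤ Θ (Finsupp.single P 1) Q ∧ Θ (Finsupp.single P 1) Q ≤ c * b := by
    intro P Q
    have heff : ∀ v, 0 ≤ heckeDivBar hα hβ (Finsupp.single P 1) v := fun v =>
      pushforwardAlong_nonneg _ hα (fun w => pullbackAlong_nonneg _ hβ (hsingle P) w) v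
    have hdeg : Divisor.degree (heckeDivBar hα hβ (Finsupp.single P 1)) = b := by
      have h := Divisor.degree_correspondence (heckeBetaBar L N ℓ) (heckeAlphaBar L N ℓ) hβ hα
        hFI (Finsupp.single P 1)
      rw [hdegP, mul_one] at h
      exact h
    have h := mapDomain_bounds r hdegM (Pi (heckeDivBar hα hβ (Finsupp.single P 1)))
      (hPipos _ heff) Q
    rw [hPideg, hdeg] at h
    exact h
  have hΞb : ∀ (P : Place L (laurentBaseChange L (modularFunctionFieldFull N)))
      (Q : Place k Fκ),
      0 ≤ Ξ (Finsupp.single P 1) Q ∧ Ξ (Finsupp.single P 1) Q ≤ c + ℓ * c := by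
    intro P Q
    rw [hΞapp, Finsupp.add_apply, Finsupp.smul_apply, SemilinearAut.divisor_smul_apply,
      SemilinearAut.divisor_smul_apply, inv_inv, nsmul_eq_mul]
    obtain ⟨h1, h2⟩ := hm P (g⁻¹ • Q)
    obtain ⟨h3, h4⟩ := hm P (g • Q)
    have hℓ0 : (0 : ℤ) ≤ (ℓ : ℤ) := Int.natCast_nonneg _
    constructor
    · exact add_nonneg h1 (mul_nonneg hℓ0 h3)
    · exact add_le_add h2 (mul_le_mul_of_nonneg_left h4 hℓ0)
  have hℓ0 : (0 : ℤ) ≤ (ℓ : ℤ) := Int.natCast_nonneg _
  have key := eq_of_agree hx Θ Ξ (c * b + (c + ℓ * c))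
    (fun P Q => by
      obtain ⟨h1, h2⟩ := hΘb P Q
      obtain ⟨h3, h4⟩ := hΞb P Q
      have hc : 0 ≤ c := le_trans (hm P Q).1 (hm P Q).2
      rw [abs_of_nonneg h1]
      have : 0 ≤ ℓ * c := mul_nonneg hℓ0 hc
      linarith)
    (fun P Q => by
      obtain ⟨h1, h2⟩ := hΘb P Q
      obtain ⟨h3, h4⟩ := hΞb P Q
      have hc : 0 ≤ c := le_trans (hm P Q).1 (hm P Q).2
      rw [abs_of_nonneg h3]
      have : 0 ≤ c * b := mul_nonneg hc hb0
      linarith)
    (integralDivisorsRel A π N Fκ)
    (fun E hE => agree_on_integral hle Pi hPi r hcons hα hβ hfin hN g hKr E hE)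
    hgen D hD
  rw [hΘapp, hΞapp] at key
  exact key

/-- **Eichler–Shimura congruence on `Pic⁰`, general form**: `r` any map of places with
conservation of number for the integral series (values in a subfield `Fκ` of `k((q))`),
`red : Pic⁰(F_M) → Pic⁰(Fκ)` any additive map induced by `r_*`, `P₁ : Pic⁰(F_N) → Pic⁰(F_M)`
any additive map induced by `Pi` on divisors. -/
theorem pic0_congruence_gen [IsAlgClosed L]
    {x : laurentBaseChange L (modularFunctionFieldFull N)}
    (hx : Fermat.Agent.S24.IsGenerator L x)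
    (hdegM : ∀ W : Place L (laurentBaseChange L (modularFunctionFieldFull M)), W.deg = 1)
    (hle : laurentBaseChange L (modularFunctionFieldFull N)
      ≤ laurentBaseChange L (modularFunctionFieldFull M))
    (Pi : Divisor L (laurentBaseChange L (modularFunctionFieldFull N)) →+
      Divisor L (laurentBaseChange L (modularFunctionFieldFull M)))
    (hPi : ∀ (f : laurentBaseChange L (modularFunctionFieldFull N))
      (D : Divisor L (laurentBaseChange L (modularFunctionFieldFull N))),
      (∀ P, D P = P.ord f) →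
      ∀ W : Place L (laurentBaseChange L (modularFunctionFieldFull M)),
        Pi D W = W.ord (⟨(f : LaurentSeries L), hle f.2⟩ :
          laurentBaseChange L (modularFunctionFieldFull M)))
    (hPipos : ∀ E : Divisor L (laurentBaseChange L (modularFunctionFieldFull N)),
      (∀ v, 0 ≤ E v) → ∀ W, 0 ≤ Pi E W)
    (c : ℤ) (hPideg : ∀ E, Divisor.degree (Pi E) = c * Divisor.degree E)
    (P₁ : Pic0 L (laurentBaseChange L (modularFunctionFieldFull N)) →+
      Pic0 L (laurentBaseChange L (modularFunctionFieldFull M)))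
    (hP₁ : ∀ D : Divisor.degZero (K := L)
        (F := laurentBaseChange L (modularFunctionFieldFull N)),
      ∃ h : Pi (D : Divisor L (laurentBaseChange L (modularFunctionFieldFull N)))
          ∈ Divisor.degZero (K := L) (F := laurentBaseChange L (modularFunctionFieldFull M)),
        P₁ (Pic0.mk D) = Pic0.mk ⟨Pi D, h⟩)
    (r : Place L (laurentBaseChange L (modularFunctionFieldFull M)) → Place k Fκ)
    (hcons : ∀ (y : LaurentSeries A)
      (hy : coeffMap A.subtype y ∈ laurentBaseChange L (modularFunctionFieldFull M))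
      (hyk : coeffMap π y ∈ Fκ), coeffMap π y ≠ 0 →
      ∀ D : Divisor L (laurentBaseChange L (modularFunctionFieldFull M)),
        (∀ P, D P = P.ord (⟨coeffMap A.subtype y, hy⟩ :
          laurentBaseChange L (modularFunctionFieldFull M))) →
        ∀ Q, Finsupp.mapDomain r D Q = Q.ord (⟨coeffMap π y, hyk⟩ : Fκ))
    (red : Pic0 L (laurentBaseChange L (modularFunctionFieldFull M)) →+ Pic0 k Fκ)
    (hred : ∀ D : Divisor.degZero (K := L)
        (F := laurentBaseChange L (modularFunctionFieldFull M)),
      ∃ h : Finsupp.mapDomain r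
          (D : Divisor L (laurentBaseChange L (modularFunctionFieldFull M)))
          ∈ Divisor.degZero (K := k) (F := Fκ),
        red (Pic0.mk D) = Pic0.mk ⟨Finsupp.mapDomain r D, h⟩)
    (hα : HeckeAlphaBarIntegral L N ℓ) (hβ : HeckeBetaBarIntegral L N ℓ)
    [HasPrincipalDivisors L (laurentBaseChange L (modularFunctionFieldFull (N * ℓ)))]
    (hFI : FundamentalIdentityAlong L (heckeBetaBar L N ℓ) hβ)
    (hfin : FiniteAlong L (heckeAlphaBar L N ℓ))
    (hN : NormFormulaAlong L (heckeAlphaBar L N ℓ) hfin)
    (g : SemilinearAut k Fκ)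
    (hKr : KroneckerCongruence A π N ℓ Fκ g)
    (hgen : GeneratedRel A π N Fκ)
    (z : Pic0 L (laurentBaseChange L (modularFunctionFieldFull N))) :
    red (P₁ (heckePic0Bar hα hβ hFI hfin hN z)) =
      g • red (P₁ z) + ℓ • (g⁻¹ • red (P₁ z)) := by
  obtain ⟨D, rfl⟩ := Pic0.mk_surjective z
  have hT : heckePic0Bar hα hβ hFI hfin hN (Pic0.mk D)
      = Pic0.mk (Pic0.degZeroCorrespondence (heckeBetaBar L N ℓ) (heckeAlphaBar L N ℓ)
          hβ hα hFI D) := rfl
  obtain ⟨h1, e1⟩ := hP₁ (Pic0.degZeroCorrespondence (heckeBetaBar L N ℓ) (heckeAlphaBar L N ℓ)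
    hβ hα hFI D)
  obtain ⟨h2, e2⟩ := hP₁ D
  obtain ⟨h3, e3⟩ := hred ⟨_, h1⟩
  obtain ⟨h4, e4⟩ := hred ⟨_, h2⟩
  rw [hT, e1, e2, e3, e4, SemilinearAut.pic0_smul_mk, SemilinearAut.pic0_smul_mk]
  have hns : ∀ (n : ℕ) (E : Divisor.degZero (K := k) (F := Fκ)),
      n • Pic0.mk E = Pic0.mk (n • E) := fun n E => (QuotientAddGroup.mk_nsmul _ E n).symm
  rw [hns, ← Pic0.mk_add]
  refine congrArg Pic0.mk (Subtype.ext ?_)
  have key := divisor_congruence hx hdegM hle Pi hPi hPipos c hPideg r hcons hα hβ hFI hfin hN g
    hKr hgen (D : Divisor L (laurentBaseChange L (modularFunctionFieldFull N))) D.2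
  simp only [AddSubgroup.coe_add, AddSubgroup.coe_nsmul,
    SemilinearAut.coe_degZeroSMulHom, Pic0.coe_degZeroCorrespondence]
  exact key

/-- the same for the Prelude's total Hecke operator `heckeOperatorAlong`. -/
theorem heckeOperatorAlong_congruence_gen [IsAlgClosed L]
    {x : laurentBaseChange L (modularFunctionFieldFull N)}
    (hx : Fermat.Agent.S24.IsGenerator L x)
    (hdegM : ∀ W : Place L (laurentBaseChange L (modularFunctionFieldFull M)), W.deg = 1)
    (hle : laurentBaseChange L (modularFunctionFieldFull N)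
      ≤ laurentBaseChange L (modularFunctionFieldFull M))
    (Pi : Divisor L (laurentBaseChange L (modularFunctionFieldFull N)) →+
      Divisor L (laurentBaseChange L (modularFunctionFieldFull M)))
    (hPi : ∀ (f : laurentBaseChange L (modularFunctionFieldFull N))
      (D : Divisor L (laurentBaseChange L (modularFunctionFieldFull N))),
      (∀ P, D P = P.ord f) →
      ∀ W : Place L (laurentBaseChange L (modularFunctionFieldFull M)),
        Pi D W = W.ord (⟨(f : LaurentSeries L), hle f.2⟩ :
          laurentBaseChange L (modularFunctionFieldFull M)))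
    (hPipos : ∀ E : Divisor L (laurentBaseChange L (modularFunctionFieldFull N)),
      (∀ v, 0 ≤ E v) → ∀ W, 0 ≤ Pi E W)
    (c : ℤ) (hPideg : ∀ E, Divisor.degree (Pi E) = c * Divisor.degree E)
    (P₁ : Pic0 L (laurentBaseChange L (modularFunctionFieldFull N)) →+
      Pic0 L (laurentBaseChange L (modularFunctionFieldFull M)))
    (hP₁ : ∀ D : Divisor.degZero (K := L)
        (F := laurentBaseChange L (modularFunctionFieldFull N)),
      ∃ h : Pi (D : Divisor L (laurentBaseChange L (modularFunctionFieldFull N)))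
          ∈ Divisor.degZero (K := L) (F := laurentBaseChange L (modularFunctionFieldFull M)),
        P₁ (Pic0.mk D) = Pic0.mk ⟨Pi D, h⟩)
    (r : Place L (laurentBaseChange L (modularFunctionFieldFull M)) → Place k Fκ)
    (hcons : ∀ (y : LaurentSeries A)
      (hy : coeffMap A.subtype y ∈ laurentBaseChange L (modularFunctionFieldFull M))
      (hyk : coeffMap π y ∈ Fκ), coeffMap π y ≠ 0 →
      ∀ D : Divisor L (laurentBaseChange L (modularFunctionFieldFull M)),
        (∀ P, D P = P.ord (⟨coeffMap A.subtype y, hy⟩ :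
          laurentBaseChange L (modularFunctionFieldFull M))) →
        ∀ Q, Finsupp.mapDomain r D Q = Q.ord (⟨coeffMap π y, hyk⟩ : Fκ))
    (red : Pic0 L (laurentBaseChange L (modularFunctionFieldFull M)) →+ Pic0 k Fκ)
    (hred : ∀ D : Divisor.degZero (K := L)
        (F := laurentBaseChange L (modularFunctionFieldFull M)),
      ∃ h : Finsupp.mapDomain r
          (D : Divisor L (laurentBaseChange L (modularFunctionFieldFull M)))
          ∈ Divisor.degZero (K := k) (F := Fκ),
        red (Pic0.mk D) = Pic0.mk ⟨Finsupp.mapDomain r D, h⟩)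
    (hH : HeckeInputsAlong L N ℓ)
    (g : SemilinearAut k Fκ)
    (hKr : KroneckerCongruence A π N ℓ Fκ g)
    (hgen : GeneratedRel A π N Fκ)
    (z : Pic0 L (laurentBaseChange L (modularFunctionFieldFull N))) :
    red (P₁ (heckeOperatorAlong L N ℓ z)) =
      g • red (P₁ z) + ℓ • (g⁻¹ • red (P₁ z)) := by
  obtain ⟨hα, hβ, hP, hfin, hFI, hN⟩ := hH
  haveI := hP
  rw [heckeOperatorAlong_eq hα hβ hFI hfin hN]
  exact pic0_congruence_gen hx hdegM hle Pi hPi hPipos c hPideg P₁ hP₁ r hcons red hred
    hα hβ hFI hfin hN g hKr hgen z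

/-- **Eichler–Shimura congruence on `Pic⁰`**, for an explicit place reduction at level `M`,
a map `P₁ : Pic⁰(F_N) → Pic⁰(F_M)` induced by `Pi` on divisors, and the Hecke operator
`heckePic0Bar` at level `N`. -/
theorem pic0_congruence [IsAlgClosed L]
    {x : laurentBaseChange L (modularFunctionFieldFull N)}
    (hx : Fermat.Agent.S24.IsGenerator L x)
    (hdegM : ∀ W : Place L (laurentBaseChange L (modularFunctionFieldFull M)), W.deg = 1)
    (hle : laurentBaseChange L (modularFunctionFieldFull N)
      ≤ laurentBaseChange L (modularFunctionFieldFull M))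
    (Pi : Divisor L (laurentBaseChange L (modularFunctionFieldFull N)) →+
      Divisor L (laurentBaseChange L (modularFunctionFieldFull M)))
    (hPi : ∀ (f : laurentBaseChange L (modularFunctionFieldFull N))
      (D : Divisor L (laurentBaseChange L (modularFunctionFieldFull N))),
      (∀ P, D P = P.ord f) →
      ∀ W : Place L (laurentBaseChange L (modularFunctionFieldFull M)),
        Pi D W = W.ord (⟨(f : LaurentSeries L), hle f.2⟩ :
          laurentBaseChange L (modularFunctionFieldFull M)))
    (hPipos : ∀ E : Divisor L (laurentBaseChange L (modularFunctionFieldFull N)),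
      (∀ v, 0 ≤ E v) → ∀ W, 0 ≤ Pi E W)
    (c : ℤ) (hPideg : ∀ E, Divisor.degree (Pi E) = c * Divisor.degree E)
    (P₁ : Pic0 L (laurentBaseChange L (modularFunctionFieldFull N)) →+
      Pic0 L (laurentBaseChange L (modularFunctionFieldFull M)))
    (hP₁ : ∀ D : Divisor.degZero (K := L)
        (F := laurentBaseChange L (modularFunctionFieldFull N)),
      ∃ h : Pi (D : Divisor L (laurentBaseChange L (modularFunctionFieldFull N)))
          ∈ Divisor.degZero (K := L) (F := laurentBaseChange L (modularFunctionFieldFull M)),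
        P₁ (Pic0.mk D) = Pic0.mk ⟨Pi D, h⟩)
    (r : Place L (laurentBaseChange L (modularFunctionFieldFull M)) →
      Place k (modularFunctionFieldFullC k M))
    (hr : IsPlaceReductionAlong A π M r) (hgenM : PrincipalGeneratedByIntegral A π M)
    (hα : HeckeAlphaBarIntegral L N ℓ) (hβ : HeckeBetaBarIntegral L N ℓ)
    [HasPrincipalDivisors L (laurentBaseChange L (modularFunctionFieldFull (N * ℓ)))]
    (hFI : FundamentalIdentityAlong L (heckeBetaBar L N ℓ) hβ)
    (hfin : FiniteAlong L (heckeAlphaBar L N ℓ))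
    (hN : NormFormulaAlong L (heckeAlphaBar L N ℓ) hfin)
    (g : SemilinearAut k (modularFunctionFieldFullC k M))
    (hKr : KroneckerCongruence A π N ℓ (modularFunctionFieldFullC k M) g)
    (hgen : GeneratedRel A π N (modularFunctionFieldFullC k M))
    (z : Pic0 L (laurentBaseChange L (modularFunctionFieldFull N))) :
    reductionPic0Along r hr hgenM (P₁ (heckePic0Bar hα hβ hFI hfin hN z)) =
      g • reductionPic0Along r hr hgenM (P₁ z)
        + ℓ • (g⁻¹ • reductionPic0Along r hr hgenM (P₁ z)) := by
  obtain ⟨D, rfl⟩ := Pic0.mk_surjective z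
  have hT : heckePic0Bar hα hβ hFI hfin hN (Pic0.mk D)
      = Pic0.mk (Pic0.degZeroCorrespondence (heckeBetaBar L N ℓ) (heckeAlphaBar L N ℓ)
          hβ hα hFI D) := rfl
  obtain ⟨h1, e1⟩ := hP₁ (Pic0.degZeroCorrespondence (heckeBetaBar L N ℓ) (heckeAlphaBar L N ℓ)
    hβ hα hFI D)
  obtain ⟨h2, e2⟩ := hP₁ D
  rw [hT, e1, e2, reductionPic0Along_mk, reductionPic0Along_mk, SemilinearAut.pic0_smul_mk,
    SemilinearAut.pic0_smul_mk]
  have hns : ∀ (n : ℕ) (E : Divisor.degZero (K := k) (F := modularFunctionFieldFullC k M)),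
      n • Pic0.mk E = Pic0.mk (n • E) := fun n E => (QuotientAddGroup.mk_nsmul _ E n).symm
  rw [hns, ← Pic0.mk_add]
  refine congrArg Pic0.mk (Subtype.ext ?_)
  have key := divisor_congruence hx hdegM hle Pi hPi hPipos c hPideg r hr.2 hα hβ hFI hfin hN g
    hKr hgen (D : Divisor L (laurentBaseChange L (modularFunctionFieldFull N))) D.2
  simp only [coe_reductionDegZeroAlong, AddSubgroup.coe_add, AddSubgroup.coe_nsmul,
    SemilinearAut.coe_degZeroSMulHom, Pic0.coe_degZeroCorrespondence]
  exact key

/-- **Eichler–Shimura congruence for the Prelude's total maps** `reductionAlong` (at level `M`)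
and `heckeOperatorAlong` (at level `N`), through a level map `P₁ : Pic⁰(F_N) → Pic⁰(F_M)`. -/
theorem reductionAlong_congruence [IsAlgClosed L]
    {x : laurentBaseChange L (modularFunctionFieldFull N)}
    (hx : Fermat.Agent.S24.IsGenerator L x)
    (hdegM : ∀ W : Place L (laurentBaseChange L (modularFunctionFieldFull M)), W.deg = 1)
    (hle : laurentBaseChange L (modularFunctionFieldFull N)
      ≤ laurentBaseChange L (modularFunctionFieldFull M))
    (Pi : Divisor L (laurentBaseChange L (modularFunctionFieldFull N)) →+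
      Divisor L (laurentBaseChange L (modularFunctionFieldFull M)))
    (hPi : ∀ (f : laurentBaseChange L (modularFunctionFieldFull N))
      (D : Divisor L (laurentBaseChange L (modularFunctionFieldFull N))),
      (∀ P, D P = P.ord f) →
      ∀ W : Place L (laurentBaseChange L (modularFunctionFieldFull M)),
        Pi D W = W.ord (⟨(f : LaurentSeries L), hle f.2⟩ :
          laurentBaseChange L (modularFunctionFieldFull M)))
    (hPipos : ∀ E : Divisor L (laurentBaseChange L (modularFunctionFieldFull N)),
      (∀ v, 0 ≤ E v) → ∀ W, 0 ≤ Pi E W)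
    (c : ℤ) (hPideg : ∀ E, Divisor.degree (Pi E) = c * Divisor.degree E)
    (P₁ : Pic0 L (laurentBaseChange L (modularFunctionFieldFull N)) →+
      Pic0 L (laurentBaseChange L (modularFunctionFieldFull M)))
    (hP₁ : ∀ D : Divisor.degZero (K := L)
        (F := laurentBaseChange L (modularFunctionFieldFull N)),
      ∃ h : Pi (D : Divisor L (laurentBaseChange L (modularFunctionFieldFull N)))
          ∈ Divisor.degZero (K := L) (F := laurentBaseChange L (modularFunctionFieldFull M)),
        P₁ (Pic0.mk D) = Pic0.mk ⟨Pi D, h⟩)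
    (hRI : ReductionInputsAlong A π M) (hH : HeckeInputsAlong L N ℓ)
    (g : SemilinearAut k (modularFunctionFieldFullC k M))
    (hKr : KroneckerCongruence A π N ℓ (modularFunctionFieldFullC k M) g)
    (hgen : GeneratedRel A π N (modularFunctionFieldFullC k M))
    (z : Pic0 L (laurentBaseChange L (modularFunctionFieldFull N))) :
    reductionAlong A π M (P₁ (heckeOperatorAlong L N ℓ z)) =
      g • reductionAlong A π M (P₁ z) + ℓ • (g⁻¹ • reductionAlong A π M (P₁ z)) := by
  obtain ⟨hα, hβ, hP, hfin, hFI, hN⟩ := hH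
  haveI := hP
  rw [reductionAlong_eq hRI, heckeOperatorAlong_eq hα hβ hFI hfin hN]
  exact pic0_congruence hx hdegM hle Pi hPi hPipos c hPideg P₁ hP₁ hRI.choose
    hRI.choose_spec.1 hRI.choose_spec.2 hα hβ hFI hfin hN g hKr hgen z

/-- **one level** (`M = N`, no level map). -/
theorem reductionAlong_heckeOperatorAlong [IsAlgClosed L]
    {x : laurentBaseChange L (modularFunctionFieldFull N)}
    (hx : Fermat.Agent.S24.IsGenerator L x)
    (hRI : ReductionInputsAlong A π N) (hH : HeckeInputsAlong L N ℓ)
    (g : SemilinearAut k (modularFunctionFieldFullC k N))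
    (hKr : KroneckerCongruence A π N ℓ (modularFunctionFieldFullC k N) g)
    (z : Pic0 L (laurentBaseChange L (modularFunctionFieldFull N))) :
    reductionAlong A π N (heckeOperatorAlong L N ℓ z) =
      g • reductionAlong A π N z + ℓ • (g⁻¹ • reductionAlong A π N z) := by
  haveI : CharZero L := algebraRat.charZero L
  exact reductionAlong_congruence hx (Fermat.Agent.S24.Places.deg_eq_one hx) le_rfl
    (AddMonoidHom.id _) (fun f D hD W => hD W) (fun E hE W => hE W) 1
    (fun E => (one_mul _).symm) (AddMonoidHom.id _) (fun D => ⟨D.2, rfl⟩) hRI hH g hKr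
    (generatedRel_of_principalGeneratedByIntegral hRI.choose_spec.2) z

/-- **two levels**: the level map is the pullback along an embedding `ι : F_N → F_M` which is
the identity on Laurent series. -/
theorem reductionAlong_pullback_heckeOperatorAlong [IsAlgClosed L]
    {x : laurentBaseChange L (modularFunctionFieldFull N)}
    (hx : Fermat.Agent.S24.IsGenerator L x)
    (hdegM : ∀ W : Place L (laurentBaseChange L (modularFunctionFieldFull M)), W.deg = 1)
    (ι : laurentBaseChange L (modularFunctionFieldFull N) →ₐ[L]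
      laurentBaseChange L (modularFunctionFieldFull M))
    (hιc : ∀ f : laurentBaseChange L (modularFunctionFieldFull N),
      ((ι f : laurentBaseChange L (modularFunctionFieldFull M)) : LaurentSeries L)
        = (f : LaurentSeries L))
    (hι : ι.toRingHom.IsIntegral)
    [HasPrincipalDivisors L (laurentBaseChange L (modularFunctionFieldFull M))]
    (hFIι : FundamentalIdentityAlong L ι hι)
    (hRI : ReductionInputsAlong A π M) (hH : HeckeInputsAlong L N ℓ)
    (g : SemilinearAut k (modularFunctionFieldFullC k M))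
    (hKr : KroneckerCongruence A π N ℓ (modularFunctionFieldFullC k M) g)
    (hgen : GeneratedRel A π N (modularFunctionFieldFullC k M))
    (z : Pic0 L (laurentBaseChange L (modularFunctionFieldFull N))) :
    reductionAlong A π M
        (Fermat.Agent.S37.PushPull.pullbackPic0Along ι hι hFIι (heckeOperatorAlong L N ℓ z)) =
      g • reductionAlong A π M (Fermat.Agent.S37.PushPull.pullbackPic0Along ι hι hFIι z)
        + ℓ • (g⁻¹ • reductionAlong A π M
            (Fermat.Agent.S37.PushPull.pullbackPic0Along ι hι hFIι z)) := by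
  have hle : laurentBaseChange L (modularFunctionFieldFull N)
      ≤ laurentBaseChange L (modularFunctionFieldFull M) := by
    intro f hf
    have h := (ι ⟨f, hf⟩).2
    rwa [hιc] at h
  refine reductionAlong_congruence hx hdegM hle (Divisor.pullbackAlong ι hι)
    (fun f D hD W => ?_) (fun E hE W => pullbackAlong_nonneg ι hι hE W)
    (finrankAlong L ι) (fun E => Divisor.degree_pullbackAlong ι hι hFIι E)
    (Fermat.Agent.S37.PushPull.pullbackPic0Along ι hι hFIι)
    (fun D => ⟨Divisor.pullbackAlong_mem_degZero ι hι hFIι D.2, rfl⟩) hRI hH g hKr hgen z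
  rw [pullbackAlong_eq_ord ι hι hD W]
  congr 1
  exact Subtype.ext (hιc f)

/-- (GEN) from the fraction form of Gauss normalisation: every nonzero `u ∈ F_N` satisfies
`u * y₂ = c • y₁` with `c ≠ 0` and `y₁, y₂ ∈ F_N` integral with nonzero reductions in `Fκ`. -/
theorem generatedRel_of_frac
    [HasPrincipalDivisors L (laurentBaseChange L (modularFunctionFieldFull N))]
    (hfrac : ∀ u : laurentBaseChange L (modularFunctionFieldFull N), u ≠ 0 →
      ∃ (c : L) (y₁ y₂ : LaurentSeries A)
        (h₁ : coeffMap A.subtype y₁ ∈ laurentBaseChange L (modularFunctionFieldFull N))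
        (h₂ : coeffMap A.subtype y₂ ∈ laurentBaseChange L (modularFunctionFieldFull N)),
        c ≠ 0 ∧
        u * (⟨coeffMap A.subtype y₂, h₂⟩ : laurentBaseChange L (modularFunctionFieldFull N))
          = c • (⟨coeffMap A.subtype y₁, h₁⟩ :
              laurentBaseChange L (modularFunctionFieldFull N)) ∧
        coeffMap π y₁ ≠ 0 ∧ coeffMap π y₂ ≠ 0 ∧
        coeffMap π y₁ ∈ Fκ ∧ coeffMap π y₂ ∈ Fκ) :
    GeneratedRel A π N Fκ := by
  intro D hD
  obtain ⟨u, hu, hDu⟩ := hD
  obtain ⟨c, y₁, y₂, h₁, h₂, hc, he, hn₁, hn₂, hk₁, hk₂⟩ := hfrac u hu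
  refine ⟨1, one_ne_zero, ?_⟩
  rw [one_smul]
  set Y₁ : laurentBaseChange L (modularFunctionFieldFull N) := ⟨coeffMap A.subtype y₁, h₁⟩
    with hY₁
  set Y₂ : laurentBaseChange L (modularFunctionFieldFull N) := ⟨coeffMap A.subtype y₂, h₂⟩
    with hY₂
  have hY₁0 : Y₁ ≠ 0 := fun h => coeffMap_subtype_ne_zero hn₁ (congrArg Subtype.val h)
  have hY₂0 : Y₂ ≠ 0 := fun h => coeffMap_subtype_ne_zero hn₂ (congrArg Subtype.val h)
  obtain ⟨D₁, hD₁, -⟩ := HasPrincipalDivisors.exists_divisor (K := L) Y₁ hY₁0
  obtain ⟨D₂, hD₂, -⟩ := HasPrincipalDivisors.exists_divisor (K := L) Y₂ hY₂0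
  have hDeq : D = D₁ - D₂ := by
    ext P
    rw [Finsupp.sub_apply, hDu, hD₁, hD₂]
    have h := congrArg P.ord he
    rw [P.ord_mul hu hY₂0, Fermat.Agent.RR.ord_smul_const P hc] at h
    omega
  rw [hDeq]
  exact sub_mem (AddSubgroup.subset_closure ⟨y₁, h₁, hk₁, hn₁, hD₁⟩)
    (AddSubgroup.subset_closure ⟨y₂, h₂, hk₂, hn₂, hD₂⟩)

end Modular

/-! ## the form over `ℚ̄` used for `RedData.hES` -/

section Final

set_option synthInstance.maxHeartbeats 400000

/-- **(ES) for `reductionModL` at level `M` composed with the pullback from level `N`.** -/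
theorem hES_level (A : ValuationSubring (AlgebraicClosure ℚ)) (N M ℓ : ℕ) [NeZero N] [NeZero M]
    [NeZero ℓ] {x : modularFunctionFieldBar N}
    (hx : Fermat.Agent.S24.IsGenerator (AlgebraicClosure ℚ) x)
    (hdegM : ∀ W : Place (AlgebraicClosure ℚ) (modularFunctionFieldBar M), W.deg = 1)
    (ι : modularFunctionFieldBar N →ₐ[AlgebraicClosure ℚ] modularFunctionFieldBar M)
    (hιc : ∀ f : modularFunctionFieldBar N,
      ((ι f : modularFunctionFieldBar M) : LaurentSeries (AlgebraicClosure ℚ))
        = (f : LaurentSeries (AlgebraicClosure ℚ)))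
    (hι : ι.toRingHom.IsIntegral)
    [HasPrincipalDivisors (AlgebraicClosure ℚ) (modularFunctionFieldBar M)]
    (hFIι : FundamentalIdentityAlong (AlgebraicClosure ℚ) ι hι)
    (hRI : ReductionInputsModL A M) (hH : HeckeInputsAlong (AlgebraicClosure ℚ) N ℓ)
    (g : SemilinearAut (IsLocalRing.ResidueField A)
      (modularFunctionFieldFullC (IsLocalRing.ResidueField A) M))
    (hKr : KroneckerCongruence A (IsLocalRing.residue A) N ℓ
      (modularFunctionFieldFullC (IsLocalRing.ResidueField A) M) g)
    (hgen : GeneratedRel A (IsLocalRing.residue A) N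
      (modularFunctionFieldFullC (IsLocalRing.ResidueField A) M))
    (z : JZero N) :
    reductionModL A M
        (Fermat.Agent.S37.PushPull.pullbackPic0Along ι hι hFIι
          (heckeOperatorAlong (AlgebraicClosure ℚ) N ℓ z)) =
      g • reductionModL A M (Fermat.Agent.S37.PushPull.pullbackPic0Along ι hι hFIι z)
        + ℓ • (g⁻¹ • reductionModL A M
            (Fermat.Agent.S37.PushPull.pullbackPic0Along ι hι hFIι z)) :=
  reductionAlong_pullback_heckeOperatorAlong hx hdegM ι hιc hι hFIι hRI hH g hKr hgen z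

/-- **(ES) for `reductionModL` at level `N`** (one level). -/
theorem hES (A : ValuationSubring (AlgebraicClosure ℚ)) (N ℓ : ℕ) [NeZero N] [NeZero ℓ]
    {x : modularFunctionFieldBar N}
    (hx : Fermat.Agent.S24.IsGenerator (AlgebraicClosure ℚ) x)
    (hRI : ReductionInputsModL A N) (hH : HeckeInputsAlong (AlgebraicClosure ℚ) N ℓ)
    (g : SemilinearAut (IsLocalRing.ResidueField A)
      (modularFunctionFieldFullC (IsLocalRing.ResidueField A) N))
    (hKr : KroneckerCongruence A (IsLocalRing.residue A) N ℓ
      (modularFunctionFieldFullC (IsLocalRing.ResidueField A) N) g)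
    (z : JZero N) :
    reductionModL A N (heckeOperatorAlong (AlgebraicClosure ℚ) N ℓ z) =
      g • reductionModL A N z + ℓ • (g⁻¹ • reductionModL A N z) :=
  reductionAlong_heckeOperatorAlong hx hRI hH g hKr z

end Final

end Fermat.Agent.S37.ES
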