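import Mathlib
import Fermat.Prelude.Def_ModularCurve_HeckeOperator
import Fermat.Prelude.Def_ModularCurve_ReductionModL
import Fermat.Prelude.Def_FLTPrelim_Ramification
import Fermat.Agent.S37_ESaSeries
import Fermat.Agent.S37_ESaConj

/-!
# S37, (ES-a): the function-level Kronecker congruence

For `f` in the function field `F_N` of `X₀(N)` over `ℚ̄`, let `heckeNorm N ℓ f` be the norm, along
`heckeAlphaBar` (the inclusion `F_N ⊆ F_{Nℓ}`), of `heckeBetaBar f = f(q^ℓ)`.  If the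
`q`-expansion of `f` has coefficients in a valuation subring `A` over `ℓ ∤ N`, then so has
`heckeNorm N ℓ f`, and its coefficientwise reduction is `Φ(f̄) · (Φ⁻¹ f̄) ^ ℓ`, `Φ` the
coefficientwise Frobenius.
-/

set_option autoImplicit false
set_option linter.style.haveILetI false

noncomputable section

open ModularCurve AlgebraicCurve HahnSeries

namespace Fermat.Agent.S37.ESa

/-- the norm of `f(q^ℓ)` from level `N * ℓ` down to level `N`. -/
def heckeNorm (N ℓ : ℕ) [NeZero N] [NeZero ℓ] (f : modularFunctionFieldBar N) :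
    modularFunctionFieldBar N :=
  letI := algebraAlong (heckeAlphaBar (AlgebraicClosure ℚ) N ℓ)
  Algebra.norm (modularFunctionFieldBar N) (heckeBetaBar (AlgebraicClosure ℚ) N ℓ f)

theorem heckeNorm_def (N ℓ : ℕ) [NeZero N] [NeZero ℓ] (f : modularFunctionFieldBar N) :
    heckeNorm N ℓ f =
      (letI := algebraAlong (heckeAlphaBar (AlgebraicClosure ℚ) N ℓ)
      Algebra.norm (modularFunctionFieldBar N) (heckeBetaBar (AlgebraicClosure ℚ) N ℓ f)) :=
  rfl

/-- a primitive `ℓ`-th root of unity `ζ ∈ ℚ̄` such that, for every `f ∈ F_N`,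
`(heckeNorm f)(q^{Nℓ}) = f(q^{Nℓ²}) ∏_{b < ℓ} f(ζ^b q^N)`. -/
theorem exists_root_qExpand_heckeNorm (N ℓ : ℕ) [NeZero N] [NeZero ℓ] (hℓ : ℓ.Prime)
    (hN : ¬ ℓ ∣ N) :
    ∃ ζ : (AlgebraicClosure ℚ)ˣ, ζ ^ ℓ = 1 ∧ ∀ f : modularFunctionFieldBar N,
      qExpand (AlgebraicClosure ℚ) (N * ℓ)
          ((heckeNorm N ℓ f : modularFunctionFieldBar N) : LaurentSeries (AlgebraicClosure ℚ))
        = qExpand (AlgebraicClosure ℚ) (N * ℓ * ℓ) (f : LaurentSeries (AlgebraicClosure ℚ))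
          * ∏ b ∈ Finset.range ℓ, qExpand (AlgebraicClosure ℚ) N
              (ESaSeries.rescale (ζ ^ b) (f : LaurentSeries (AlgebraicClosure ℚ))) := by
  haveI : Algebra.IsAlgebraic ℚ (AlgebraicClosure ℚ) := AlgebraicClosure.isAlgebraic ℚ
  letI : Algebra (AlgebraicClosure ℚ) ℂ :=
    (IsAlgClosed.lift : AlgebraicClosure ℚ →ₐ[ℚ] ℂ).toRingHom.toAlgebra
  have hℓ0 : (ℓ : ℂ) ≠ 0 := Nat.cast_ne_zero.mpr (NeZero.ne ℓ)
  have hexp : Complex.exp (2 * Real.pi * Complex.I / ℓ) ^ ℓ = 1 := by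
    rw [← Complex.exp_nat_mul, Complex.exp_eq_one_iff]
    refine ⟨1, ?_⟩
    rw [Int.cast_one, one_mul]
    field_simp
  obtain ⟨c, hc⟩ := Fermat.Agent.S24.Tower.exists_algebraMap_eq_of_pow_eq_one
    (AlgebraicClosure ℚ) (Complex.exp (2 * Real.pi * Complex.I / ℓ)) ℓ (NeZero.ne ℓ) hexp
  have hc0 : c ≠ 0 := by
    rintro rfl
    rw [map_zero] at hc
    exact Complex.exp_ne_zero _ hc.symm
  have hcℓ : c ^ ℓ = 1 := by
    apply (algebraMap (AlgebraicClosure ℚ) ℂ).injective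
    rw [map_pow, hc, map_one, hexp]
  refine ⟨Units.mk0 c hc0, Units.ext (by simpa using hcℓ), fun f => ?_⟩
  have hSI := ESaConj.qExpand_norm (AlgebraicClosure ℚ) N ℓ hℓ hN (Units.mk0 c hc0) hc f
  rw [qExpand_qExpand] at hSI
  exact hSI

/-- **(ES-a).**  `φ` is the Frobenius of the residue field (any ring endomorphism with
`φ x = x ^ ℓ`); `w` plays the role of `Φ⁻¹ ȳ`. -/
theorem exists_integral_heckeNorm (N ℓ : ℕ) [NeZero N] [NeZero ℓ] (hℓ : ℓ.Prime) (hN : ¬ ℓ ∣ N)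
    (A : ValuationSubring (AlgebraicClosure ℚ)) (hA : A.LiesOverPrime ℓ)
    (φ : IsLocalRing.ResidueField A →+* IsLocalRing.ResidueField A) (hφ : ∀ x, φ x = x ^ ℓ)
    (y : LaurentSeries A) (hy : coeffMap A.subtype y ∈ modularFunctionFieldBar N) :
    ∃ z : LaurentSeries A,
      coeffMap A.subtype z
        = ((heckeNorm N ℓ ⟨coeffMap A.subtype y, hy⟩ : modularFunctionFieldBar N) :
            LaurentSeries (AlgebraicClosure ℚ)) ∧
      ∀ w : LaurentSeries (IsLocalRing.ResidueField A),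
        coeffMap φ w = coeffMap (IsLocalRing.residue A) y →
        coeffMap (IsLocalRing.residue A) z
          = coeffMap φ (coeffMap (IsLocalRing.residue A) y) * w ^ ℓ := by
  obtain ⟨ζ, hζ, hSI⟩ := exists_root_qExpand_heckeNorm N ℓ hℓ hN
  exact ESaSeries.congruence A N ℓ hℓ hA ζ hζ φ hφ y _ (hSI ⟨coeffMap A.subtype y, hy⟩)

end Fermat.Agent.S37.ESa

end
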