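import Mathlib
import Fermat.Agent.S18_Datum
import Fermat.Agent.S18_H1C

/-!
# S37, (RI-frac): fraction form of the Gauss normalisation

Every nonzero element `u` of the function field `F_N` over `ℚ̄` (level `N` prime to `ℓ`) is, up
to a nonzero constant, a quotient `y₁ / y₂` of two elements of `F_N` whose `q`-expansions have
coefficients in the valuation ring `A` and nonzero reduction modulo the maximal ideal.
-/

set_option autoImplicit false

noncomputable section

open ModularCurve Polynomial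

namespace Fermat.Agent.S37.RIFrac

open Fermat.Agent.S18 Fermat.Agent.S18.Gauss

section Generic

variable {L : Type*} [Field L] {A : ValuationSubring L}
  {F : IntermediateField L (LaurentSeries L)} {n : ℕ} (D : Datum A F n)

include D

/-- polynomials in `h` over `A` lie in `F`. -/
theorem emb_evalA_mem (d : A[X]) : emb A (evalA A d D.hA) ∈ F := by
  rw [emb_evalA, ← coe_aeval F ⟨emb A D.hA, D.h_mem⟩]
  exact SetLike.coe_mem _

/-- the combinations `∑ Q_i(h) θ^i` over `A` lie in `F`. -/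
theorem emb_comb_mem (Q : Fin n → A[X]) : emb A (D.comb Q) ∈ F := by
  rw [Datum.emb_comb]
  unfold Datum.combL
  refine sum_mem fun i _ => mul_mem ?_ (pow_mem D.θ_mem _)
  rw [← coe_aeval F ⟨emb A D.hA, D.h_mem⟩]
  exact SetLike.coe_mem _

/-- **fraction form**: a nonzero element of `F` is a constant times `y₁ / y₂` with `y₁, y₂ ∈ F`
integral series of nonzero reduction. -/
theorem exists_frac_form (y : F) (hy : y ≠ 0) :
    ∃ (c : L) (y₁ y₂ : LaurentSeries A), c ≠ 0 ∧ emb A y₁ ∈ F ∧ emb A y₂ ∈ F ∧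
      (y : LaurentSeries L) * emb A y₂ = c • emb A y₁ ∧ red A y₁ ≠ 0 ∧ red A y₂ ≠ 0 := by
  have hy' : (y : LaurentSeries L) ≠ 0 := fun h => hy (Subtype.ext h)
  obtain ⟨d, p, hd, h⟩ := D.exists_normal_form y y.2
  have hp : ∃ i, p i ≠ 0 := by
    by_contra hcon
    push Not at hcon
    have h0 : D.combL p = 0 := by
      simp only [Datum.combL, hcon, map_zero, zero_mul, Finset.sum_const_zero]
    rw [h0] at h
    exact (mul_ne_zero (emb_ne_zero A hd) hy') h
  obtain ⟨c, Q, hc, -, hne, hQe⟩ := D.exists_scale_comb p hp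
  refine ⟨c⁻¹, D.comb Q, evalA A d D.hA, inv_ne_zero hc, emb_comb_mem D Q, emb_evalA_mem D d,
    ?_, hne, hd⟩
  rw [hQe, ← HahnSeries.single_zero_mul_eq_smul, ← algebraMap_laurentSeries_eq_single,
    ← mul_assoc, ← map_mul, inv_mul_cancel₀ hc, map_one, one_mul, ← h, mul_comm]

end Generic

/-- **(RI-frac)** at every level `N` prime to `ℓ`: every nonzero `u ∈ F_N` satisfies
`u · y₂ = c · y₁` with `c ≠ 0` and `y₁, y₂ ∈ F_N` integral series of nonzero reduction. -/
theorem ri_frac (N : ℕ) [NeZero N] (ℓ : ℕ) [Fact ℓ.Prime] (hℓN : ¬ ℓ ∣ N)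
    (A : ValuationSubring (AlgebraicClosure ℚ)) (hA : A.LiesOverPrime ℓ)
    (u : modularFunctionFieldBar N) (hu : u ≠ 0) :
    ∃ (c : AlgebraicClosure ℚ) (y₁ y₂ : LaurentSeries A), c ≠ 0 ∧
      coeffMap A.subtype y₁ ∈ modularFunctionFieldBar N ∧
      coeffMap A.subtype y₂ ∈ modularFunctionFieldBar N ∧
      (u : LaurentSeries (AlgebraicClosure ℚ)) * coeffMap A.subtype y₂
        = c • coeffMap A.subtype y₁ ∧
      coeffMap (IsLocalRing.residue A) y₁ ≠ 0 ∧ coeffMap (IsLocalRing.residue A) y₂ ≠ 0 := by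
  obtain ⟨n, D, -, -, -, -⟩ := Gauss.exists_datum N ℓ hℓN A hA (H1.haupt_j N)
  exact exists_frac_form D u hu

/-- **(RI-frac)** in subtype form: `u * y₂ = c * y₁` in `F_N`. -/
theorem ri_frac' (N : ℕ) [NeZero N] (ℓ : ℕ) [Fact ℓ.Prime] (hℓN : ¬ ℓ ∣ N)
    (A : ValuationSubring (AlgebraicClosure ℚ)) (hA : A.LiesOverPrime ℓ)
    (u : modularFunctionFieldBar N) (hu : u ≠ 0) :
    ∃ (c : AlgebraicClosure ℚ) (y₁ y₂ : LaurentSeries A)
      (h₁ : coeffMap A.subtype y₁ ∈ modularFunctionFieldBar N)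
      (h₂ : coeffMap A.subtype y₂ ∈ modularFunctionFieldBar N), c ≠ 0 ∧
      u * (⟨coeffMap A.subtype y₂, h₂⟩ : modularFunctionFieldBar N)
        = algebraMap (AlgebraicClosure ℚ) (modularFunctionFieldBar N) c
          * (⟨coeffMap A.subtype y₁, h₁⟩ : modularFunctionFieldBar N) ∧
      coeffMap (IsLocalRing.residue A) y₁ ≠ 0 ∧ coeffMap (IsLocalRing.residue A) y₂ ≠ 0 := by
  obtain ⟨c, y₁, y₂, hc, h₁, h₂, h, hr₁, hr₂⟩ := ri_frac N ℓ hℓN A hA u hu
  refine ⟨c, y₁, y₂, h₁, h₂, hc, Subtype.ext ?_, hr₁, hr₂⟩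
  show (u : LaurentSeries (AlgebraicClosure ℚ)) * coeffMap A.subtype y₂
    = algebraMap (AlgebraicClosure ℚ) (LaurentSeries (AlgebraicClosure ℚ)) c
      * coeffMap A.subtype y₁
  rw [h, algebraMap_laurentSeries_eq_single, HahnSeries.single_zero_mul_eq_smul]

end Fermat.Agent.S37.RIFrac
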