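import Mathlib
import Fermat.Agent.S18_GaussField

/-!
# S37: the intrinsic special fibre (interface)

`L` a field with a valuation subring `A` (residue field `k`), `F ⊂ L((q))` a function field
given by `q`-expansions.

* `gaussSub A F : Subring F` — the elements of `F` whose `q`-expansion lies in the Gauss ring
  `S18.Gauss.gaussRing A` (fractions `a/s`, `a, s ∈ A((q))`, `s̄ ≠ 0`);
* `gaussRed A F : gaussSub A F →+* k((q))` — reduction of `q`-expansions;
* `specialField A F : IntermediateField k k((q))` — its range, the function field of the special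
  fibre;
* `IsSpecMap A F r` — `r : Place L F → Place k (specialField A F)` satisfies conservation of
  number: `r_* (div y) = div (ȳ)` for every Gauss unit `y`.

For `F = modularFunctionFieldBar M` and a Gauss datum `D` of the S18 hub, `gaussSub A F` is the
underlying subring of `D.V`, `gaussRed` is `D.rhoV`, and `specialField A F` is the range of
`D.κembAlg`.
-/

set_option autoImplicit false

noncomputable section

open ModularCurve AlgebraicCurve

namespace Fermat.Agent.S37

open Fermat.Agent.S18 Fermat.Agent.S18.Gauss

variable {L : Type*} [Field L] (A : ValuationSubring L)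
  (F : IntermediateField L (LaurentSeries L))

/-- the Gauss-integral elements of `F`. -/
def gaussSub : Subring F := (gaussRing A).comap (F.val : F →+* LaurentSeries L)

theorem mem_gaussSub {y : F} : y ∈ gaussSub A F ↔ (y : LaurentSeries L) ∈ gaussRing A := Iff.rfl

/-- the reduction of `q`-expansions `gaussSub A F → k((q))`. -/
def gaussRed : gaussSub A F →+* LaurentSeries (IsLocalRing.ResidueField A) :=
  (rho A).comp
    { toFun := fun y => (⟨((y : F) : LaurentSeries L), y.2⟩ : gaussRing A)
      map_one' := rfl
      map_mul' := fun _ _ => rfl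
      map_zero' := rfl
      map_add' := fun _ _ => rfl }

theorem gaussRed_apply (y : gaussSub A F) :
    gaussRed A F y = rho A ⟨((y : F) : LaurentSeries L), y.2⟩ := rfl

/-- fractions: `s · y = a` with `s̄ ≠ 0` gives `ȳ = ā / s̄`. -/
theorem gaussRed_eq (y : gaussSub A F) (s a : LaurentSeries A) (hs : red A s ≠ 0)
    (h : emb A s * ((y : F) : LaurentSeries L) = emb A a) :
    gaussRed A F y = red A a / red A s :=
  rho_eq A _ s a hs h

/-- (i) an integral series lying in `F` is Gauss-integral … -/
theorem series_mem_gaussSub (y : LaurentSeries A) (hy : coeffMap A.subtype y ∈ F) :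
    (⟨coeffMap A.subtype y, hy⟩ : F) ∈ gaussSub A F :=
  emb_mem_gaussRing A y

/-- … and its Gauss reduction is the coefficientwise reduction. -/
theorem gaussRed_series (y : LaurentSeries A) (hy : coeffMap A.subtype y ∈ F) :
    gaussRed A F ⟨⟨coeffMap A.subtype y, hy⟩, series_mem_gaussSub A F y hy⟩
      = coeffMap (IsLocalRing.residue A) y :=
  rho_emb A y

theorem algebraMap_mem_gaussSub {c : L} (hc : c ∈ A) : algebraMap L F c ∈ gaussSub A F :=
  algebraMap_mem_gaussRing A hc

theorem algebraMap_mem_gaussSub_iff (c : L) : algebraMap L F c ∈ gaussSub A F ↔ c ∈ A :=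
  algebraMap_mem_gaussRing_iff A c

theorem gaussRed_algebraMap {c : L} (hc : c ∈ A) :
    gaussRed A F ⟨algebraMap L F c, algebraMap_mem_gaussSub A F hc⟩
      = algebraMap (IsLocalRing.ResidueField A) (LaurentSeries (IsLocalRing.ResidueField A))
          (IsLocalRing.residue A ⟨c, hc⟩) :=
  rho_algebraMap A hc

/-- a Gauss-integral element with nonzero reduction has a Gauss-integral inverse. -/
theorem inv_mem_gaussSub (y : gaussSub A F) (hy : gaussRed A F y ≠ 0) :
    ((y : F))⁻¹ ∈ gaussSub A F := by
  have h := inv_mem_of_rho_ne_zero A ⟨((y : F) : LaurentSeries L), y.2⟩ hy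
  show (((y : F)⁻¹ : F) : LaurentSeries L) ∈ gaussRing A
  rw [IntermediateField.coe_inv]
  exact h

theorem isUnit_of_gaussRed_ne_zero (y : gaussSub A F) (hy : gaussRed A F y ≠ 0) : IsUnit y := by
  have hy0 : (y : F) ≠ 0 := by
    intro h0
    apply hy
    have : y = 0 := Subtype.ext h0
    rw [this, map_zero]
  exact IsUnit.of_mul_eq_one (⟨(y : F)⁻¹, inv_mem_gaussSub A F y hy⟩ : gaussSub A F)
    (Subtype.ext (mul_inv_cancel₀ hy0))

theorem isUnit_iff_gaussRed_ne_zero (y : gaussSub A F) : IsUnit y ↔ gaussRed A F y ≠ 0 :=
  ⟨fun h => (h.map (gaussRed A F)).ne_zero, isUnit_of_gaussRed_ne_zero A F y⟩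

/-- the range of the Gauss reduction, as a `k`-subalgebra of `k((q))`. -/
def specialAlg : Subalgebra (IsLocalRing.ResidueField A)
    (LaurentSeries (IsLocalRing.ResidueField A)) where
  toSubsemiring := (gaussRed A F).rangeS
  algebraMap_mem' := by
    intro c
    obtain ⟨a, rfl⟩ := IsLocalRing.residue_surjective c
    exact ⟨⟨algebraMap L F a, algebraMap_mem_gaussSub A F a.2⟩, gaussRed_algebraMap A F a.2⟩

theorem mem_specialAlg {x : LaurentSeries (IsLocalRing.ResidueField A)} :
    x ∈ specialAlg A F ↔ ∃ y : gaussSub A F, gaussRed A F y = x := Iff.rfl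

/-- the function field of the special fibre: the range of the Gauss reduction. -/
def specialField : IntermediateField (IsLocalRing.ResidueField A)
    (LaurentSeries (IsLocalRing.ResidueField A)) :=
  Subalgebra.toIntermediateField (specialAlg A F) (by
    rintro x ⟨y, rfl⟩
    by_cases hy : gaussRed A F y = 0
    · rw [hy, inv_zero]; exact (specialAlg A F).zero_mem
    · have hy0 : (y : F) ≠ 0 := by
        intro h0
        apply hy
        have : y = 0 := Subtype.ext h0
        rw [this, map_zero]
      refine ⟨⟨(y : F)⁻¹, inv_mem_gaussSub A F y hy⟩, ?_⟩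
      have h1 : gaussRed A F y * gaussRed A F ⟨(y : F)⁻¹, inv_mem_gaussSub A F y hy⟩ = 1 := by
        rw [← map_mul, ← map_one (gaussRed A F)]
        exact congrArg _ (Subtype.ext (mul_inv_cancel₀ hy0))
      exact eq_inv_of_mul_eq_one_right h1)

theorem mem_specialField {x : LaurentSeries (IsLocalRing.ResidueField A)} :
    x ∈ specialField A F ↔ ∃ y : gaussSub A F, gaussRed A F y = x := Iff.rfl

theorem gaussRed_mem (y : gaussSub A F) : gaussRed A F y ∈ specialField A F := ⟨y, rfl⟩

/-- the Gauss reduction as a map into the special fibre field. -/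
def gaussRedS : gaussSub A F →+* specialField A F :=
  (gaussRed A F).codRestrict (specialField A F).toSubfield.toSubring (gaussRed_mem A F)

theorem coe_gaussRedS (y : gaussSub A F) :
    ((gaussRedS A F y : specialField A F) : LaurentSeries (IsLocalRing.ResidueField A))
      = gaussRed A F y := rfl

theorem gaussRedS_surjective : Function.Surjective (gaussRedS A F) := by
  rintro ⟨x, y, rfl⟩
  exact ⟨y, rfl⟩

/-- the reduction of an integral series lies in the special fibre field. -/
theorem red_series_mem (y : LaurentSeries A) (hy : coeffMap A.subtype y ∈ F) :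
    coeffMap (IsLocalRing.residue A) y ∈ specialField A F :=
  ⟨⟨⟨coeffMap A.subtype y, hy⟩, series_mem_gaussSub A F y hy⟩, gaussRed_series A F y hy⟩

/-- **Specialisation maps**: conservation of number for all Gauss units. -/
def IsSpecMap
    (r : Place L F → Place (IsLocalRing.ResidueField A) (specialField A F)) : Prop :=
  ∀ (y : gaussSub A F), gaussRed A F y ≠ 0 →
    ∀ D : Divisor L F, (∀ P : Place L F, D P = P.ord (y : F)) →
      ∀ Q : Place (IsLocalRing.ResidueField A) (specialField A F),
        Finsupp.mapDomain r D Q = Q.ord (gaussRedS A F y)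

/-- conservation of number for integral series (the Prelude shape). -/
theorem IsSpecMap.series {r : Place L F → Place (IsLocalRing.ResidueField A) (specialField A F)}
    (hr : IsSpecMap A F r) (y : LaurentSeries A) (hy : coeffMap A.subtype y ∈ F)
    (hne : coeffMap (IsLocalRing.residue A) y ≠ 0)
    (D : Divisor L F) (hD : ∀ P : Place L F, D P = P.ord (⟨coeffMap A.subtype y, hy⟩ : F))
    (Q : Place (IsLocalRing.ResidueField A) (specialField A F)) :
    Finsupp.mapDomain r D Q
      = Q.ord (⟨coeffMap (IsLocalRing.residue A) y, red_series_mem A F y hy⟩ : specialField A F) := by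
  have h := hr ⟨⟨coeffMap A.subtype y, hy⟩, series_mem_gaussSub A F y hy⟩
    (by rw [gaussRed_series]; exact hne) D hD Q
  rw [h]
  congr 1
  exact Subtype.ext (gaussRed_series A F y hy)

/-! ### Bridge to the Gauss data of the S18 hub -/

section Bridge

variable {A F} {n : ℕ} (D : Datum A F n)

theorem datum_V_toSubring : D.V.toSubring = gaussSub A F := rfl

theorem mem_datum_V (y : F) : y ∈ D.goodVal.V ↔ y ∈ gaussSub A F := Iff.rfl

theorem datum_rhoV (y : D.goodVal.V) : D.rhoV y = gaussRed A F ⟨(y : F), y.2⟩ := rfl

theorem datum_κemb_ρ (y : D.goodVal.V) :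
    D.κemb (D.goodVal.ρ y) = gaussRed A F ⟨(y : F), y.2⟩ := D.κemb_ρ y

/-- the range of `κemb` is the special fibre field. -/
theorem range_κembAlg : D.κembAlg.fieldRange = specialField A F := by
  ext x
  constructor
  · rintro ⟨z, rfl⟩
    obtain ⟨y, rfl⟩ := IsLocalRing.residue_surjective z
    exact ⟨⟨(y : F), y.2⟩, (D.κemb_ρ y).symm⟩
  · rintro ⟨y, rfl⟩
    exact ⟨D.goodVal.ρ ⟨(y : F), y.2⟩, D.κemb_ρ _⟩

end Bridge

end Fermat.Agent.S37
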