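import Mathlib
import Fermat.Agent.S37_ES
import Fermat.Agent.S37_SpecDefs
import Fermat.Agent.S37_ESa
import Fermat.Agent.S37_RIFrac
import Fermat.Agent.S37_Unique

/-!
# S37 (ES-bc), intrinsic form

The Eichler–Shimura congruence for a specialisation map `r` (`IsSpecMap`, conservation of number
with values in the intrinsic special fibre field `specialField A F_M`), any additive map
`red : JZero M → Pic⁰(specialField)` induced by `r_*`, and the pull-back along an embedding
`ι : F_N → F_M` which is the identity on `q`-expansions:

`red (π^* (T_ℓ z)) = g • red (π^* z) + ℓ • (g⁻¹ • red (π^* z))`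

where `g` is a semilinear automorphism of the special fibre field acting on `q`-expansions as the
coefficientwise Frobenius.  All inputs which are theorems on `main` are discharged here:
the function-level Kronecker congruence (`S37_ESa`), the fraction form of the Gauss normalisation
(`S37_RIFrac`), rigidity (`S37_Rigid`) and generators / degrees of places (`S37_Unique`).
-/

set_option autoImplicit false
set_option linter.unusedSectionVars false

noncomputable section

open HahnSeries IntermediateField AlgebraicCurve ModularCurve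

namespace Fermat.Agent.S37.ES

set_option synthInstance.maxHeartbeats 400000

/-- **(ES), intrinsic form, two levels.** -/
theorem hES_spec_gen (N M ℓ : ℕ) [NeZero N] [NeZero M] [NeZero ℓ] [Fact ℓ.Prime]
    (hℓN : ¬ ℓ ∣ N) (A : ValuationSubring (AlgebraicClosure ℚ)) (hA : A.LiesOverPrime ℓ)
    (ι : modularFunctionFieldBar N →ₐ[AlgebraicClosure ℚ] modularFunctionFieldBar M)
    (hιc : ∀ f : modularFunctionFieldBar N,
      ((ι f : modularFunctionFieldBar M) : LaurentSeries (AlgebraicClosure ℚ))
        = (f : LaurentSeries (AlgebraicClosure ℚ)))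
    (hι : ι.toRingHom.IsIntegral)
    [HasPrincipalDivisors (AlgebraicClosure ℚ) (modularFunctionFieldBar M)]
    (hFIι : FundamentalIdentityAlong (AlgebraicClosure ℚ) ι hι)
    (r : Place (AlgebraicClosure ℚ) (modularFunctionFieldBar M) →
      Place (IsLocalRing.ResidueField A) (specialField A (modularFunctionFieldBar M)))
    (hr : IsSpecMap A (modularFunctionFieldBar M) r)
    (red : JZero M →+
      Pic0 (IsLocalRing.ResidueField A) (specialField A (modularFunctionFieldBar M)))
    (hred : ∀ D : Divisor.degZero (K := AlgebraicClosure ℚ) (F := modularFunctionFieldBar M),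
      ∃ h : Finsupp.mapDomain r
          (D : Divisor (AlgebraicClosure ℚ) (modularFunctionFieldBar M))
          ∈ Divisor.degZero (K := IsLocalRing.ResidueField A)
              (F := specialField A (modularFunctionFieldBar M)),
        red (Pic0.mk D) = Pic0.mk ⟨Finsupp.mapDomain r D, h⟩)
    (g : SemilinearAut (IsLocalRing.ResidueField A) (specialField A (modularFunctionFieldBar M)))
    (φ : IsLocalRing.ResidueField A →+* IsLocalRing.ResidueField A) (hφ : ∀ x, φ x = x ^ ℓ)
    (hg : ∀ x : specialField A (modularFunctionFieldBar M),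
      ((g • x : specialField A (modularFunctionFieldBar M)) :
          LaurentSeries (IsLocalRing.ResidueField A))
        = coeffMap φ (x : LaurentSeries (IsLocalRing.ResidueField A)))
    (hH : HeckeInputsAlong (AlgebraicClosure ℚ) N ℓ)
    (z : JZero N) :
    red (Fermat.Agent.S37.PushPull.pullbackPic0Along ι hι hFIι
        (heckeOperatorAlong (AlgebraicClosure ℚ) N ℓ z)) =
      g • red (Fermat.Agent.S37.PushPull.pullbackPic0Along ι hι hFIι z)
        + ℓ • (g⁻¹ • red (Fermat.Agent.S37.PushPull.pullbackPic0Along ι hι hFIι z)) := by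
  obtain ⟨x, hx⟩ := Fermat.Agent.S37.Gal.exists_isGenerator_bar N
  have hle : modularFunctionFieldBar N ≤ modularFunctionFieldBar M := by
    intro f hf
    have h := (ι ⟨f, hf⟩).2
    rwa [hιc] at h
  have hKr : KroneckerCongruence A (IsLocalRing.residue A) N ℓ
      (specialField A (modularFunctionFieldBar M)) g :=
    kroneckerCongruence_of_series g φ hg (fun y hy =>
      Fermat.Agent.S37.ESa.exists_integral_heckeNorm N ℓ Fact.out hℓN A hA φ hφ y hy)
  have hgen : GeneratedRel A (IsLocalRing.residue A) N
      (specialField A (modularFunctionFieldBar M)) := by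
    haveI := Fermat.Agent.S37.Gal.hasPrincipalDivisors_bar N
    refine generatedRel_of_frac (fun u hu => ?_)
    obtain ⟨c, y₁, y₂, h₁, h₂, hc, he, hn₁, hn₂⟩ :=
      Fermat.Agent.S37.RIFrac.ri_frac' N ℓ hℓN A hA u hu
    exact ⟨c, y₁, y₂, h₁, h₂, hc, by rw [he, Algebra.smul_def], hn₁, hn₂,
      red_series_mem A _ y₁ (hle h₁), red_series_mem A _ y₂ (hle h₂)⟩
  refine heckeOperatorAlong_congruence_gen hx (Fermat.Agent.S37.Gal.deg_eq_one_bar M) hle
    (Divisor.pullbackAlong ι hι) (fun f D hD W => ?_)
    (fun E hE W => pullbackAlong_nonneg ι hι hE W)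
    (finrankAlong (AlgebraicClosure ℚ) ι) (fun E => Divisor.degree_pullbackAlong ι hι hFIι E)
    (Fermat.Agent.S37.PushPull.pullbackPic0Along ι hι hFIι)
    (fun D => ⟨Divisor.pullbackAlong_mem_degZero ι hι hFIι D.2, rfl⟩) r
    (fun y hy hyk hne D hD Q => IsSpecMap.series A _ hr y hy hne D hD Q) red hred hH g hKr hgen z
  rw [pullbackAlong_eq_ord ι hι hD W]
  congr 1
  exact Subtype.ext (hιc f)

end Fermat.Agent.S37.ES
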