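import Mathlib
import Fermat.Agent.S37_SpecDefs
import Fermat.Agent.S18_Hub

/-!
# S37, (S3) + (S4): the reduction map on `Pic⁰` and its injectivity on prime-to-`ℓ` torsion

`L` a field with a valuation subring `A` (residue field `k`), `F ⊂ L((q))` a function field,
`κ = specialField A F` the function field of the special fibre, `r` a specialisation map
(`IsSpecMap A F r`: conservation of number for Gauss units).

* `Hyp A F`: the side conditions (all places of degree one on both sides, principal divisors on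
  `F`, scaling to Gauss units).
* `redSpec H r hr : Pic0 L F →+ Pic0 k κ`, `redSpec (mk D) = mk (r_* D)`.
* `redSpec_torsion_injective`: from the hub theorem `MainStatement` and "functions on the special
  fibre without zeros and poles are constant": `redSpec` is injective on `m`-torsion, `m` prime
  to the residue characteristic.
-/

set_option autoImplicit false

noncomputable section

open ModularCurve AlgebraicCurve

namespace Fermat.Agent.S37.RedSpec

open Fermat.Agent.S18 Fermat.Agent.S18.Gauss Fermat.Agent.RR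

variable {L : Type*} [Field L] (A : ValuationSubring L)
  (F : IntermediateField L (LaurentSeries L))

/-- the side conditions for the reduction map on `Pic⁰`. -/
structure Hyp : Prop where
  degF : ∀ P : Place L F, P.deg = 1
  degκ : ∀ Q : Place (IsLocalRing.ResidueField A) (specialField A F), Q.deg = 1
  prF : HasPrincipalDivisors L F
  scale : ∀ y : F, y ≠ 0 → ∃ c : L, c ≠ 0 ∧ algebraMap L F c * y ∈ gaussSub A F ∧
    (algebraMap L F c * y)⁻¹ ∈ gaussSub A F

variable {A F}

/-- the scaling condition from any Gauss datum. -/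
theorem scale_of_datum {n : ℕ} (D : Datum A F n) (y : F) (hy : y ≠ 0) :
    ∃ c : L, c ≠ 0 ∧ algebraMap L F c * y ∈ gaussSub A F ∧
      (algebraMap L F c * y)⁻¹ ∈ gaussSub A F :=
  D.scale y hy

/-- push-forward of divisors along a map of places. -/
def mapDiv {K₁ F₁ K₂ F₂ : Type*} [Field K₁] [Field F₁] [Algebra K₁ F₁] [Field K₂] [Field F₂]
    [Algebra K₂ F₂] (r : Place K₁ F₁ → Place K₂ F₂) : Divisor K₁ F₁ →+ Divisor K₂ F₂ :=
  Finsupp.mapDomain.addMonoidHom r

theorem mapDiv_apply {K₁ F₁ K₂ F₂ : Type*} [Field K₁] [Field F₁] [Algebra K₁ F₁] [Field K₂]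
    [Field F₂] [Algebra K₂ F₂] (r : Place K₁ F₁ → Place K₂ F₂) (D : Divisor K₁ F₁) :
    mapDiv r D = Finsupp.mapDomain r D := rfl

/-- push-forward preserves the degree when all places have degree one. -/
theorem degree_mapDiv {K₁ F₁ K₂ F₂ : Type*} [Field K₁] [Field F₁] [Algebra K₁ F₁] [Field K₂]
    [Field F₂] [Algebra K₂ F₂] (r : Place K₁ F₁ → Place K₂ F₂)
    (h₁ : ∀ P : Place K₁ F₁, P.deg = 1) (h₂ : ∀ Q : Place K₂ F₂, Q.deg = 1)
    (D : Divisor K₁ F₁) : Divisor.degree (mapDiv r D) = Divisor.degree D := by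
  induction D using Finsupp.induction_linear with
  | zero => simp
  | add D E hD hE => rw [map_add, map_add, map_add, hD, hE]
  | single P n =>
    rw [mapDiv_apply, Finsupp.mapDomain_single, Divisor.degree_single, Divisor.degree_single,
      h₁, h₂]

variable (r : Place L F → Place (IsLocalRing.ResidueField A) (specialField A F))

/-- a specialisation map sends principal divisors to principal divisors (the divisor of a
Gauss unit `y` goes to the divisor of its reduction). -/
theorem mapDiv_principal (H : Hyp A F) (hr : IsSpecMap A F r) (D : Divisor L F)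
    (hD : D ∈ Divisor.principal (K := L) (F := F)) :
    mapDiv r D ∈ Divisor.principal
      (K := IsLocalRing.ResidueField A) (F := specialField A F) := by
  obtain ⟨f, hf, hDf⟩ := hD
  obtain ⟨c, hc, hy, hyinv⟩ := H.scale f hf
  have hcF : algebraMap L F c ≠ 0 := (map_ne_zero _).mpr hc
  have hy0 : algebraMap L F c * f ≠ 0 := mul_ne_zero hcF hf
  have hunit : IsUnit (⟨algebraMap L F c * f, hy⟩ : gaussSub A F) :=
    IsUnit.of_mul_eq_one (⟨(algebraMap L F c * f)⁻¹, hyinv⟩ : gaussSub A F)
      (Subtype.ext (mul_inv_cancel₀ hy0))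
  have hred : gaussRed A F ⟨algebraMap L F c * f, hy⟩ ≠ 0 :=
    (isUnit_iff_gaussRed_ne_zero A F _).mp hunit
  have hDy : ∀ P : Place L F, D P = P.ord (algebraMap L F c * f) := by
    intro P
    rw [hDf P, P.ord_mul hcF hf, ord_algebraMap, zero_add]
  refine ⟨gaussRedS A F ⟨algebraMap L F c * f, hy⟩, ?_, fun Q => ?_⟩
  · intro h0
    apply hred
    rw [← coe_gaussRedS, h0]
    rfl
  · exact hr ⟨algebraMap L F c * f, hy⟩ hred D hDy Q

/-- the reduction map on divisors of degree zero. -/
def redDiv (H : Hyp A F) : Divisor.degZero (K := L) (F := F) →+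
    Divisor.degZero (K := IsLocalRing.ResidueField A) (F := specialField A F) :=
  ((mapDiv r).comp (Divisor.degZero (K := L) (F := F)).subtype).codRestrict _ (fun D => by
    show Divisor.degree (mapDiv r (D : Divisor L F)) = 0
    rw [degree_mapDiv r H.degF H.degκ]
    exact D.2)

theorem coe_redDiv (H : Hyp A F) (D : Divisor.degZero (K := L) (F := F)) :
    ((redDiv r H D : Divisor.degZero (K := IsLocalRing.ResidueField A) (F := specialField A F))
      : Divisor (IsLocalRing.ResidueField A) (specialField A F))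
      = Finsupp.mapDomain r (D : Divisor L F) := rfl

/-- **(S3)** the reduction map `Pic⁰(F) → Pic⁰(κ)` of a specialisation map. -/
def redSpec (H : Hyp A F) (hr : IsSpecMap A F r) :
    Pic0 L F →+ Pic0 (IsLocalRing.ResidueField A) (specialField A F) :=
  QuotientAddGroup.map _ _ (redDiv r H) (by
    intro D hD
    rw [AddSubgroup.mem_comap, AddSubgroup.mem_addSubgroupOf]
    rw [AddSubgroup.mem_addSubgroupOf] at hD
    exact mapDiv_principal r H hr _ hD)

theorem redSpec_mk (H : Hyp A F) (hr : IsSpecMap A F r)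
    (D : Divisor.degZero (K := L) (F := F)) :
    redSpec r H hr (Pic0.mk D) = Pic0.mk (redDiv r H D) := rfl

/-- the value on a class, in the shape consumed by the Eichler–Shimura and Galois steps. -/
theorem redSpec_mk' (H : Hyp A F) (hr : IsSpecMap A F r)
    (D : Divisor.degZero (K := L) (F := F)) :
    ∃ h : Finsupp.mapDomain r (D : Divisor L F) ∈
        Divisor.degZero (K := IsLocalRing.ResidueField A) (F := specialField A F),
      redSpec r H hr (Pic0.mk D) = Pic0.mk ⟨Finsupp.mapDomain r (D : Divisor L F), h⟩ :=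
  ⟨(redDiv r H D).2, rfl⟩

/-! ### (S4): injectivity on torsion prime to the residue characteristic -/

theorem ord_pow' {K E : Type*} [Field K] [Field E] [Algebra K E] (P : Place K E) (f : E) (m : ℕ) :
    P.ord (f ^ m) = (m : ℤ) * P.ord f := by
  rw [← zpow_natCast, P.ord_zpow]

/-- **(S4)** injectivity of the reduction map on `m`-torsion, `m` invertible in the residue
field: from the hub theorem `MainStatement` (a Gauss unit congruent to `1` whose divisor is
divisible by `m` is an `m`-th power) and the fact that functions on the special fibre without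
zeros and poles are constants. -/
theorem redSpec_torsion_injective (H : Hyp A F) (hr : IsSpecMap A F r)
    (hpack : ∃ (n : ℕ) (D : Datum A F n), MainStatement A D.h D.goodVal)
    (hconst : ∀ s : specialField A F, s ≠ 0 →
      (∀ Q : Place (IsLocalRing.ResidueField A) (specialField A F), Q.ord s = 0) →
      ∃ c : IsLocalRing.ResidueField A,
        s = algebraMap (IsLocalRing.ResidueField A) (specialField A F) c)
    (m : ℕ) (hm : ((m : ℕ) : IsLocalRing.ResidueField A) ≠ 0)
    (z : Pic0 L F) (hmz : m • z = 0) (hz : redSpec r H hr z = 0) : z = 0 := by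
  obtain ⟨n, D₀, hMain⟩ := hpack
  have hm0 : m ≠ 0 := by
    rintro rfl
    exact hm Nat.cast_zero
  have hmZ : (m : ℤ) ≠ 0 := Int.natCast_ne_zero.mpr hm0
  obtain ⟨D, rfl⟩ := Pic0.mk_surjective z
  -- `m D = div f`
  have h1 : (m • D : Divisor.degZero (K := L) (F := F)) ∈
      (Divisor.principal (K := L) (F := F)).addSubgroupOf (Divisor.degZero (K := L) (F := F)) :=
    (QuotientAddGroup.eq_zero_iff _).mp hmz
  rw [AddSubgroup.mem_addSubgroupOf] at h1
  obtain ⟨f, hf, hDf⟩ := h1
  have hDf' : ∀ P : Place L F, (m : ℤ) * (D : Divisor L F) P = P.ord f := by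
    intro P
    rw [← hDf P]
    simp
  -- `r_* D = div s̄`
  have h2 : redDiv r H D ∈ (Divisor.principal (K := IsLocalRing.ResidueField A)
      (F := specialField A F)).addSubgroupOf (Divisor.degZero
        (K := IsLocalRing.ResidueField A) (F := specialField A F)) :=
    (QuotientAddGroup.eq_zero_iff _).mp hz
  rw [AddSubgroup.mem_addSubgroupOf] at h2
  obtain ⟨sbar, hsbar, hDs⟩ := h2
  obtain ⟨s, hs⟩ := gaussRedS_surjective A F sbar
  have hsred : gaussRed A F s ≠ 0 := by
    intro h0
    apply hsbar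
    rw [← hs]
    exact Subtype.ext h0
  have hs0 : (s : F) ≠ 0 := by
    intro h0
    apply hsred
    have : s = 0 := Subtype.ext h0
    rw [this, map_zero]
  obtain ⟨Ds, hDs1, -⟩ := H.prF.exists_divisor (s : F) hs0
  -- `r_* (div s) = r_* D`
  have hrs : mapDiv r Ds = mapDiv r (D : Divisor L F) := by
    ext Q
    rw [mapDiv_apply, hr s hsred Ds hDs1 Q, hs]
    exact (hDs Q).symm
  -- scale `f` to a Gauss unit
  obtain ⟨c, hc, hy, hyinv⟩ := H.scale f hf
  have hcF : algebraMap L F c ≠ 0 := (map_ne_zero _).mpr hc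
  have hy0 : algebraMap L F c * f ≠ 0 := mul_ne_zero hcF hf
  -- `u = c f / s ^ m`
  have hsinv : ((s : F))⁻¹ ∈ gaussSub A F := inv_mem_gaussSub A F s hsred
  have hu_mem : algebraMap L F c * f * ((s : F))⁻¹ ^ m ∈ gaussSub A F :=
    (gaussSub A F).mul_mem hy ((gaussSub A F).pow_mem hsinv m)
  have hu0 : algebraMap L F c * f * ((s : F))⁻¹ ^ m ≠ 0 :=
    mul_ne_zero hy0 (pow_ne_zero m (inv_ne_zero hs0))
  have huinv_mem : (algebraMap L F c * f * ((s : F))⁻¹ ^ m)⁻¹ ∈ gaussSub A F := by
    have e : (algebraMap L F c * f * ((s : F))⁻¹ ^ m)⁻¹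
        = (algebraMap L F c * f)⁻¹ * (s : F) ^ m := by
      rw [mul_inv, ← inv_pow, inv_inv]
    rw [e]
    exact (gaussSub A F).mul_mem hyinv ((gaussSub A F).pow_mem s.2 m)
  have hu_unit : IsUnit (⟨_, hu_mem⟩ : gaussSub A F) :=
    IsUnit.of_mul_eq_one (⟨_, huinv_mem⟩ : gaussSub A F) (Subtype.ext (mul_inv_cancel₀ hu0))
  have hured : gaussRed A F ⟨_, hu_mem⟩ ≠ 0 := (isUnit_iff_gaussRed_ne_zero A F _).mp hu_unit
  have hordu : ∀ P : Place L F, P.ord (algebraMap L F c * f * ((s : F))⁻¹ ^ m)
      = (m : ℤ) * ((D : Divisor L F) P - Ds P) := by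
    intro P
    rw [P.ord_mul hy0 (pow_ne_zero m (inv_ne_zero hs0)), P.ord_mul hcF hf, ord_algebraMap,
      zero_add, ord_pow', P.ord_inv, ← hDf' P, hDs1 P]
    ring
  -- `r_* (div u) = 0`
  have hDu : ∀ P : Place L F, (m • ((D : Divisor L F) - Ds)) P
      = P.ord (algebraMap L F c * f * ((s : F))⁻¹ ^ m) := by
    intro P
    rw [hordu P]
    simp
  have hmap0 : mapDiv r (m • ((D : Divisor L F) - Ds)) = 0 := by
    rw [map_nsmul, map_sub, hrs, sub_self, smul_zero]
  have hubar : ∀ Q : Place (IsLocalRing.ResidueField A) (specialField A F),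
      Q.ord (gaussRedS A F ⟨_, hu_mem⟩) = 0 := by
    intro Q
    rw [← hr ⟨_, hu_mem⟩ hured _ hDu Q, ← mapDiv_apply, hmap0]
    rfl
  have hubar0 : gaussRedS A F ⟨_, hu_mem⟩ ≠ 0 := by
    intro h0
    apply hured
    rw [← coe_gaussRedS, h0]
    rfl
  obtain ⟨cbar, hcbar⟩ := hconst _ hubar0 hubar
  have hcbar0 : cbar ≠ 0 := by
    rintro rfl
    rw [map_zero] at hcbar
    exact hubar0 hcbar
  -- lift the constant
  obtain ⟨a, rfl⟩ := IsLocalRing.residue_surjective cbar
  have ha_unit : IsUnit a := by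
    by_contra hnu
    exact hcbar0 ((IsLocalRing.residue_eq_zero_iff a).mpr ((IsLocalRing.mem_maximalIdeal a).mpr hnu))
  obtain ⟨b, hab⟩ := ha_unit.exists_left_inv
  -- `u' = b u` has reduction `1`
  have hb_mem : algebraMap L F (b : L) ∈ gaussSub A F := algebraMap_mem_gaussSub A F b.2
  have hu'_mem : algebraMap L F (b : L) * (algebraMap L F c * f * ((s : F))⁻¹ ^ m)
      ∈ gaussSub A F := (gaussSub A F).mul_mem hb_mem hu_mem
  have hu'red : gaussRed A F ⟨_, hu'_mem⟩ = 1 := by
    have e1 : (⟨_, hu'_mem⟩ : gaussSub A F) = ⟨_, hb_mem⟩ * ⟨_, hu_mem⟩ := rfl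
    have e2 : gaussRed A F ⟨_, hu_mem⟩
        = algebraMap (IsLocalRing.ResidueField A) (LaurentSeries (IsLocalRing.ResidueField A))
          (IsLocalRing.residue A a) := by
      rw [← coe_gaussRedS, hcbar]
      rfl
    rw [e1, map_mul, gaussRed_algebraMap A F b.2, e2, ← map_mul, ← map_mul]
    have e3 : (⟨(b : L), b.2⟩ : A) * a = 1 := hab
    rw [e3, map_one, map_one]
  have hb0 : (b : L) ≠ 0 := by
    intro h0
    have : b = 0 := Subtype.ext h0
    rw [this, zero_mul] at hab
    exact zero_ne_one hab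
  have hbF : algebraMap L F (b : L) ≠ 0 := (map_ne_zero _).mpr hb0
  have hordu' : ∀ P : Place L F,
      P.ord (algebraMap L F (b : L) * (algebraMap L F c * f * ((s : F))⁻¹ ^ m))
        = (m : ℤ) * ((D : Divisor L F) P - Ds P) := by
    intro P
    rw [P.ord_mul hbF hu0, ord_algebraMap, zero_add, hordu P]
  -- the hub theorem
  have hρ : D₀.goodVal.ρ ⟨_, hu'_mem⟩ = 1 := by
    apply D₀.κemb_injective
    rw [datum_κemb_ρ, map_one]
    exact hu'red
  obtain ⟨t, ht⟩ := hMain m hm ⟨_, hu'_mem⟩ hρ (fun P => ⟨_, hordu' P⟩)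
  have ht' : t ^ m = algebraMap L F (b : L) * (algebraMap L F c * f * ((s : F))⁻¹ ^ m) := ht
  have ht0 : t ≠ 0 := by
    rintro rfl
    rw [zero_pow hm0] at ht'
    exact (mul_ne_zero hbF hu0) ht'.symm
  have hordt : ∀ P : Place L F, P.ord t = (D : Divisor L F) P - Ds P := by
    intro P
    have h3 := hordu' P
    rw [← ht', ord_pow'] at h3
    exact mul_left_cancel₀ hmZ h3
  -- `D = div (s t)`
  have hprin : (D : Divisor L F) ∈ Divisor.principal (K := L) (F := F) := by
    refine ⟨(s : F) * t, mul_ne_zero hs0 ht0, fun P => ?_⟩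
    rw [P.ord_mul hs0 ht0, hordt P, ← hDs1 P]
    ring
  exact (QuotientAddGroup.eq_zero_iff _).mpr (AddSubgroup.mem_addSubgroupOf.mpr hprin)

end Fermat.Agent.S37.RedSpec
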