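import Mathlib
import Fermat.Agent.S37_ESSpec
import Fermat.Agent.S37_Level
import Fermat.Agent.S37_RedSpec
import Fermat.Agent.S37_HeckeInputsFinal

/-!
# S37 (ES), final form for the top-level assembly

The Eichler–Shimura congruence for `red := redSpec r H hr ∘ piStar hNM`:

`redSpec (π^* (T_ℓ z)) = g • redSpec (π^* z) + ℓ • (g⁻¹ • redSpec (π^* z))`

for every specialisation map `r` at level `M` (`N ∣ M`, `ℓ ∤ N`) and every semilinear
automorphism `g` of the special fibre field acting on `q`-expansions as the coefficientwise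
Frobenius.
-/

set_option autoImplicit false
set_option linter.unusedSectionVars false

noncomputable section

open HahnSeries IntermediateField AlgebraicCurve ModularCurve

namespace Fermat.Agent.S37.ES

set_option synthInstance.maxHeartbeats 400000

/-- **(ES) for `redSpec r H hr ∘ piStar hNM`.** -/
theorem hES_spec (N M ℓ : ℕ) [NeZero N] [NeZero M] [NeZero ℓ] [Fact ℓ.Prime] (hNM : N ∣ M)
    (hℓN : ¬ ℓ ∣ N) (A : ValuationSubring (AlgebraicClosure ℚ)) (hA : A.LiesOverPrime ℓ)
    (r : Place (AlgebraicClosure ℚ) (modularFunctionFieldBar M) →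
      Place (IsLocalRing.ResidueField A) (specialField A (modularFunctionFieldBar M)))
    (H : Fermat.Agent.S37.RedSpec.Hyp A (modularFunctionFieldBar M))
    (hr : IsSpecMap A (modularFunctionFieldBar M) r)
    (g : SemilinearAut (IsLocalRing.ResidueField A) (specialField A (modularFunctionFieldBar M)))
    (φ : IsLocalRing.ResidueField A →+* IsLocalRing.ResidueField A) (hφ : ∀ x, φ x = x ^ ℓ)
    (hg : ∀ x : specialField A (modularFunctionFieldBar M),
      ((g • x : specialField A (modularFunctionFieldBar M)) :
          LaurentSeries (IsLocalRing.ResidueField A))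
        = coeffMap φ (x : LaurentSeries (IsLocalRing.ResidueField A)))
    (z : JZero N) :
    Fermat.Agent.S37.RedSpec.redSpec r H hr
        (Fermat.Agent.S37.Level.piStar hNM (heckeOperatorAlong (AlgebraicClosure ℚ) N ℓ z)) =
      g • Fermat.Agent.S37.RedSpec.redSpec r H hr (Fermat.Agent.S37.Level.piStar hNM z)
        + ℓ • (g⁻¹ • Fermat.Agent.S37.RedSpec.redSpec r H hr
            (Fermat.Agent.S37.Level.piStar hNM z)) :=
  hES_spec_gen N M ℓ hℓN A hA (Fermat.Agent.S37.Level.incl hNM)
    (Fermat.Agent.S37.Level.coe_incl hNM) (Fermat.Agent.S37.Level.incl_isIntegral hNM)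
    (Fermat.Agent.S37.Level.fundId_incl hNM) r hr (Fermat.Agent.S37.RedSpec.redSpec r H hr)
    (Fermat.Agent.S37.RedSpec.redSpec_mk' r H hr) g φ hφ hg
    (Fermat.Agent.S37.HeckeInputs.heckeInputsAlong N ℓ) z

end Fermat.Agent.S37.ES
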