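import Mathlib
import Fermat.Prelude.Def_ModularCurve_X0ModL
import Fermat.Prelude.Thm_ModularCurve_coeffMap_qExpand
import Fermat.Agent.S24_LaurentDefs
import Fermat.Agent.S18_ValRing

/-!
# S37 (ES-a), auxiliary pieces

* `norm_eq_prod_of_injective`: for a finite separable extension `L / F` of degree `n` and `n`
  pairwise distinct `F`-embeddings of `L` into an arbitrary field `E`, the norm is the product
  of the conjugates.
* `pow_char_eq_qExpand`: in characteristic `ℓ`, `x ^ ℓ = (Frob x)(q ^ ℓ)` for Laurent series.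
* `congruence_of_series_identity`: the Kronecker congruence, from the series identity
  `n(q^{Nℓ}) = y(q^{Nℓ²}) · ∏_{b < ℓ} y(ζ^b q^N)`.
-/

set_option autoImplicit false
set_option linter.unusedSectionVars false
set_option linter.unusedVariables false
set_option linter.style.haveILetI false

noncomputable section

open ModularCurve HahnSeries

namespace Fermat.Agent.S37.ESaux

/-! ## the norm as a product of conjugates in an arbitrary field -/

theorem norm_eq_prod_of_injective {F L E : Type*} [Field F] [Field L] [Field E] [Algebra F L]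
    [Algebra F E] [FiniteDimensional F L] [Algebra.IsSeparable F L] {ι : Type*} [Fintype ι]
    (σ : ι → L →ₐ[F] E) (hσ : Function.Injective σ)
    (hcard : Fintype.card ι = Module.finrank F L) (x : L) :
    algebraMap F E (Algebra.norm F x) = ∏ i, σ i x := by
  classical
  let Ebar := AlgebraicClosure E
  let τ : ι → L →ₐ[F] Ebar := fun i => (IsScalarTower.toAlgHom F E Ebar).comp (σ i)
  have hτ : Function.Injective τ := by
    intro i j hij
    apply hσ
    ext y
    have h := congrArg (fun f : L →ₐ[F] Ebar => f y) hij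
    exact (algebraMap E Ebar).injective h
  have hcard' : Fintype.card ι = Fintype.card (L →ₐ[F] Ebar) := by
    rw [hcard, AlgHom.card]
  have hbij : Function.Bijective τ :=
    (Fintype.bijective_iff_injective_and_card τ).mpr ⟨hτ, hcard'⟩
  have h1 := Algebra.norm_eq_prod_embeddings F Ebar x
  have h2 : ∏ s : L →ₐ[F] Ebar, s x = ∏ i, τ i x :=
    (Fintype.prod_bijective τ hbij (fun i => τ i x) (fun s => s x) (fun i => rfl)).symm
  rw [h2] at h1
  apply (algebraMap E Ebar).injective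
  rw [← IsScalarTower.algebraMap_apply, h1, map_prod]
  rfl

/-! ## characteristic `ℓ`: `x ^ ℓ = (Frob x)(q ^ ℓ)` -/

section CharL

variable {k : Type*} [Field k]

theorem qExpand_ofPowerSeries (ℓ : ℕ) [NeZero ℓ] (P : PowerSeries k) :
    qExpand k ℓ (HahnSeries.ofPowerSeries ℤ k P)
      = HahnSeries.ofPowerSeries ℤ k (P.expand ℓ (NeZero.ne ℓ)) := by
  have hℓ0 : ℓ ≠ 0 := NeZero.ne ℓ
  have hℓpos : (0 : ℤ) < (ℓ : ℤ) := by exact_mod_cast Nat.pos_of_ne_zero hℓ0
  ext n
  rcases lt_or_ge n 0 with hn | hn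
  · rw [ofPowerSeries_coeff_of_neg _ hn]
    by_cases hd : (ℓ : ℤ) ∣ n
    · obtain ⟨m, rfl⟩ := hd
      rw [qExpand_coeff_mul]
      have hm : m < 0 := by
        by_contra hm
        push Not at hm
        have := mul_nonneg hℓpos.le hm
        omega
      exact ofPowerSeries_coeff_of_neg _ hm
    · exact qExpand_coeff_of_not_dvd ℓ _ hd
  · lift n to ℕ using hn
    rw [HahnSeries.ofPowerSeries_apply_coeff, PowerSeries.coeff_expand]
    by_cases hd : ℓ ∣ n
    · rw [if_pos hd]
      obtain ⟨m, rfl⟩ := hd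
      rw [Nat.mul_div_cancel_left _ (Nat.pos_of_ne_zero hℓ0)]
      have : ((ℓ * m : ℕ) : ℤ) = (ℓ : ℤ) * (m : ℤ) := by push_cast; ring
      rw [this, qExpand_coeff_mul, HahnSeries.ofPowerSeries_apply_coeff]
    · rw [if_neg hd]
      apply qExpand_coeff_of_not_dvd
      intro h
      exact hd (Int.natCast_dvd_natCast.mp h)

/-- **Frobenius on Laurent series**: in characteristic `ℓ`, `x ^ ℓ = (Frob x)(q ^ ℓ)`. -/
theorem pow_char_eq_qExpand (ℓ : ℕ) [NeZero ℓ] (hℓ : ℓ.Prime) [CharP k ℓ] (φ : k →+* k)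
    (hφ : ∀ x, φ x = x ^ ℓ) (x : LaurentSeries k) :
    x ^ ℓ = qExpand k ℓ (coeffMap φ x) := by
  haveI : Fact ℓ.Prime := ⟨hℓ⟩
  haveI : ExpChar k ℓ := ExpChar.prime hℓ
  have hφ' : φ = frobenius k ℓ := RingHom.ext fun x => by rw [hφ, frobenius_def]
  subst hφ'
  have hx := LaurentSeries.single_order_mul_powerSeriesPart x
  set P := LaurentSeries.powerSeriesPart x with hP
  have h1 : x ^ ℓ = HahnSeries.single ((ℓ : ℤ) * x.order) (1 : k)
      * HahnSeries.ofPowerSeries ℤ k (P ^ ℓ) := by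
    conv_lhs => rw [← hx]
    rw [mul_pow, HahnSeries.single_pow, one_pow, map_pow, nsmul_eq_mul]
  have h2 : P ^ ℓ = (P.expand ℓ (NeZero.ne ℓ)).map (frobenius k ℓ) :=
    (MvPowerSeries.map_frobenius_expand (σ := Unit) ℓ (NeZero.ne ℓ) (f := P)).symm
  rw [h1, h2]
  conv_rhs => rw [← hx]
  rw [map_mul, map_mul, coeffMap_single, map_one (frobenius k ℓ), qExpand_single,
    coeffMap_ofPowerSeries, qExpand_ofPowerSeries, PowerSeries.map_expand]

end CharL

/-! ## contraction `q ^ M ↦ q` and coefficient twists -/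

section Contract

variable {R S : Type*} [CommRing R] [CommRing S]

theorem qContract_aux (M : ℕ) [NeZero M] (x : LaurentSeries R) :
    BddBelow (Function.support (fun k : ℤ => x.coeff ((M : ℤ) * k))) := by
  refine ⟨min 0 x.order, fun k hk0' => ?_⟩
  by_contra hk
  push Not at hk
  apply hk0'
  show x.coeff ((M : ℤ) * k) = 0
  have hk0 : k < 0 := lt_of_lt_of_le hk (min_le_left _ _)
  have hk1 : k < x.order := lt_of_lt_of_le hk (min_le_right _ _)
  have hM : (1 : ℤ) ≤ (M : ℤ) := by exact_mod_cast Nat.pos_of_ne_zero (NeZero.ne M)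
  have : (M : ℤ) * k ≤ k := by nlinarith
  exact HahnSeries.coeff_eq_zero_of_lt_order (lt_of_le_of_lt this hk1)

/-- the contraction `∑ a_k q^k ↦ ∑ a_{M k} q^k`. -/
def qContract (M : ℕ) [NeZero M] (x : LaurentSeries R) : LaurentSeries R :=
  HahnSeries.ofSuppBddBelow (fun k : ℤ => x.coeff ((M : ℤ) * k)) (qContract_aux M x)

theorem qContract_coeff (M : ℕ) [NeZero M] (x : LaurentSeries R) (k : ℤ) :
    (qContract M x).coeff k = x.coeff ((M : ℤ) * k) := rfl

theorem qContract_qExpand (M : ℕ) [NeZero M] (x : LaurentSeries R) :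
    qContract M (qExpand R M x) = x := by
  ext k
  rw [qContract_coeff, qExpand_coeff_mul]

theorem coeffMap_qContract (f : R →+* S) (M : ℕ) [NeZero M] (x : LaurentSeries R) :
    coeffMap f (qContract M x) = qContract M (coeffMap f x) := by
  ext k
  rfl

theorem twist_aux (m : ℕ) (c : ℤ → R) (s : LaurentSeries R) :
    BddBelow (Function.support
      (fun k : ℤ => if (m : ℤ) ∣ k then s.coeff (k / m) * c (k / m) else 0)) := by
  refine ⟨min 0 ((m : ℤ) * s.order), fun k hk0' => ?_⟩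
  by_contra hk
  push Not at hk
  apply hk0'
  show (if (m : ℤ) ∣ k then s.coeff (k / m) * c (k / m) else 0) = 0
  have hk0 : k < 0 := lt_of_lt_of_le hk (min_le_left _ _)
  have hk1 : k < (m : ℤ) * s.order := lt_of_lt_of_le hk (min_le_right _ _)
  split_ifs with hdvd
  · obtain ⟨t, rfl⟩ := hdvd
    rcases Nat.eq_zero_or_pos m with hm | hm
    · subst hm; simp at hk0
    · have hm' : (0 : ℤ) < m := by exact_mod_cast hm
      have ht : t < s.order := lt_of_mul_lt_mul_left hk1 hm'.le
      rw [Int.mul_ediv_cancel_left _ hm'.ne', HahnSeries.coeff_eq_zero_of_lt_order ht, zero_mul]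
  · rfl

/-- the twisted substitution: the coefficient of `q ^ (m t)` is `s.coeff t * c t`. -/
def twist (m : ℕ) (c : ℤ → R) (s : LaurentSeries R) : LaurentSeries R :=
  HahnSeries.ofSuppBddBelow
    (fun k : ℤ => if (m : ℤ) ∣ k then s.coeff (k / m) * c (k / m) else 0) (twist_aux m c s)

theorem twist_coeff (m : ℕ) (c : ℤ → R) (s : LaurentSeries R) (k : ℤ) :
    (twist m c s).coeff k = if (m : ℤ) ∣ k then s.coeff (k / m) * c (k / m) else 0 := rfl

theorem coeffMap_twist_of_one (f : R →+* S) (m : ℕ) [NeZero m] (c : ℤ → R)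
    (hc : ∀ t, f (c t) = 1) (s : LaurentSeries R) :
    coeffMap f (twist m c s) = qExpand S m (coeffMap f s) := by
  have hm' : (m : ℤ) ≠ 0 := by exact_mod_cast NeZero.ne m
  ext k
  rw [coeffMap_coeff, twist_coeff]
  by_cases hd : (m : ℤ) ∣ k
  · rw [if_pos hd]
    obtain ⟨t, rfl⟩ := hd
    rw [Int.mul_ediv_cancel_left _ hm', qExpand_coeff_mul, map_mul, hc, mul_one, coeffMap_coeff]
  · rw [if_neg hd, map_zero, qExpand_coeff_of_not_dvd m _ hd]

end Contract

/-! ## the congruence -/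

section Congruence

open Fermat.Agent.S18

variable (A : ValuationSubring (AlgebraicClosure ℚ))

theorem coeffMap_twist_subtype (m : ℕ) (ℓ : ℕ) [NeZero ℓ] (ζ : A)
    (hζ : (ζ : AlgebraicClosure ℚ) ^ ℓ = 1) (b : ℕ) (s : LaurentSeries A) :
    coeffMap A.subtype (twist m (fun t : ℤ => ζ ^ ((b * t) % (ℓ : ℤ)).toNat) s)
      = Fermat.Agent.S24.substSeries m ((ζ : AlgebraicClosure ℚ) ^ b) (coeffMap A.subtype s) := by
  have hℓ0 : (ℓ : ℤ) ≠ 0 := by exact_mod_cast NeZero.ne ℓ
  have hζ0 : (ζ : AlgebraicClosure ℚ) ≠ 0 := by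
    intro h
    rw [h, zero_pow (NeZero.ne ℓ)] at hζ
    exact zero_ne_one hζ
  ext k
  rw [coeffMap_coeff, twist_coeff, Fermat.Agent.S24.substSeries_coeff]
  by_cases hd : (m : ℤ) ∣ k
  · rw [if_pos hd, if_pos hd, map_mul, coeffMap_coeff]
    congr 1
    set t := k / (m : ℤ) with ht
    have hnn : 0 ≤ ((b : ℤ) * t) % (ℓ : ℤ) := Int.emod_nonneg _ hℓ0
    have key : ((ζ : AlgebraicClosure ℚ) ^ b) ^ t
        = (ζ : AlgebraicClosure ℚ) ^ (((b : ℤ) * t) % (ℓ : ℤ)).toNat := by
      rw [← zpow_natCast (ζ : AlgebraicClosure ℚ) b, ← zpow_mul,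
        ← zpow_natCast (ζ : AlgebraicClosure ℚ) (((b : ℤ) * t) % (ℓ : ℤ)).toNat,
        Int.toNat_of_nonneg hnn]
      conv_lhs => rw [← Int.emod_add_mul_ediv ((b : ℤ) * t) (ℓ : ℤ)]
      rw [zpow_add₀ hζ0, zpow_mul, zpow_natCast, hζ, one_zpow, mul_one]
    rw [key]
    simp
  · rw [if_neg hd, if_neg hd, map_zero]

/-- **the Kronecker congruence from the series identity.**  If
`n(q^{Nℓ}) = y(q^{Nℓ²}) · ∏_{b<ℓ} y(ζ^b q^N)` with `y` an `A`-integral series, then `n` is
`A`-integral and its reduction is `Frob(ȳ) · (Frob⁻¹ ȳ)^ℓ`. -/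
theorem congruence_of_series_identity (N ℓ : ℕ) [NeZero N] [NeZero ℓ] (hℓ : ℓ.Prime)
    (hA : A.LiesOverPrime ℓ) (ζ : AlgebraicClosure ℚ) (hζ : ζ ^ ℓ = 1)
    (φ : IsLocalRing.ResidueField A →+* IsLocalRing.ResidueField A) (hφ : ∀ x, φ x = x ^ ℓ)
    (y : LaurentSeries A) (n : LaurentSeries (AlgebraicClosure ℚ))
    (hn : qExpand (AlgebraicClosure ℚ) (N * ℓ) n
      = qExpand (AlgebraicClosure ℚ) (N * ℓ * ℓ) (coeffMap A.subtype y)
        * ∏ b ∈ Finset.range ℓ,
            Fermat.Agent.S24.substSeries N (ζ ^ b) (coeffMap A.subtype y)) :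
    ∃ z : LaurentSeries A, coeffMap A.subtype z = n ∧
      ∀ w : LaurentSeries (IsLocalRing.ResidueField A),
        coeffMap φ w = coeffMap (IsLocalRing.residue A) y →
          coeffMap (IsLocalRing.residue A) z
            = coeffMap φ (coeffMap (IsLocalRing.residue A) y) * w ^ ℓ := by
  haveI : Fact ℓ.Prime := ⟨hℓ⟩
  haveI : CharP (IsLocalRing.ResidueField A) ℓ := ValRing.charP_residueField A hA
  -- `ζ ∈ A` and `ζ̄ = 1`
  have hζint : IsIntegral ℤ ζ := by
    refine ⟨Polynomial.X ^ ℓ - 1, Polynomial.monic_X_pow_sub_C (1 : ℤ) (NeZero.ne ℓ), ?_⟩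
    simp [hζ]
  have hζA : ζ ∈ A := ValRing.mem_of_isIntegral_int A hζint
  set ζA : A := ⟨ζ, hζA⟩ with hζAdef
  have hζA' : ((ζA : A) : AlgebraicClosure ℚ) ^ ℓ = 1 := hζ
  have hres : IsLocalRing.residue A ζA = 1 := by
    have h1 : (IsLocalRing.residue A ζA) ^ ℓ = 1 := by
      rw [← map_pow]
      have : ζA ^ ℓ = 1 := Subtype.ext (by push_cast; exact hζ)
      rw [this, map_one]
    have h2 : (IsLocalRing.residue A ζA - 1) ^ ℓ = 0 := by
      rw [sub_pow_char, h1, one_pow, sub_self]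
    exact sub_eq_zero.mp (pow_eq_zero_iff (NeZero.ne ℓ) |>.mp h2)
  -- the integral right-hand side
  set RA : LaurentSeries A := qExpand A (N * ℓ * ℓ) y
    * ∏ b ∈ Finset.range ℓ, twist N (fun t : ℤ => ζA ^ ((b * t) % (ℓ : ℤ)).toNat) y with hRA
  have hRK : coeffMap A.subtype RA = qExpand (AlgebraicClosure ℚ) (N * ℓ) n := by
    rw [hn, hRA, map_mul, map_prod, coeffMap_qExpand]
    congr 1
    refine Finset.prod_congr rfl fun b _ => ?_
    exact coeffMap_twist_subtype A N ℓ ζA hζA' b y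
  have hRk : coeffMap (IsLocalRing.residue A) RA
      = qExpand (IsLocalRing.ResidueField A) (N * ℓ * ℓ) (coeffMap (IsLocalRing.residue A) y)
        * (qExpand (IsLocalRing.ResidueField A) N (coeffMap (IsLocalRing.residue A) y)) ^ ℓ := by
    rw [hRA, map_mul, map_prod, coeffMap_qExpand]
    congr 1
    refine (Finset.prod_congr rfl fun (b : ℕ) _ => coeffMap_twist_of_one (IsLocalRing.residue A) N
      (fun t : ℤ => ζA ^ (((b : ℤ) * t) % (ℓ : ℤ)).toNat)
      (fun t => by rw [map_pow, hres, one_pow]) y).trans ?_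
    rw [Finset.prod_const, Finset.card_range]
  refine ⟨qContract (N * ℓ) RA, ?_, ?_⟩
  · rw [coeffMap_qContract, hRK, qContract_qExpand]
  · intro w hw
    rw [coeffMap_qContract, hRk]
    have e1 : qExpand (IsLocalRing.ResidueField A) (N * ℓ * ℓ) (coeffMap (IsLocalRing.residue A) y)
        = qExpand (IsLocalRing.ResidueField A) (N * ℓ) (w ^ ℓ) := by
      rw [pow_char_eq_qExpand ℓ hℓ φ hφ w, hw, qExpand_qExpand]
    have e2 : (qExpand (IsLocalRing.ResidueField A) N (coeffMap (IsLocalRing.residue A) y)) ^ ℓ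
        = qExpand (IsLocalRing.ResidueField A) (N * ℓ)
            (coeffMap φ (coeffMap (IsLocalRing.residue A) y)) := by
      rw [← map_pow, pow_char_eq_qExpand ℓ hℓ φ hφ, qExpand_qExpand]
    rw [e1, e2, ← map_mul, qContract_qExpand, mul_comm]

end Congruence

end Fermat.Agent.S37.ESaux
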