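import Mathlib
import Fermat.Prelude.Def_ModularCurve_HeckeOperator
import Fermat.Agent.S37_ESa

/-!
# S37, (ES-a) at the level of divisors

`T_ℓ (div f) = div (N_α (β f))` for the Hecke correspondence on divisors of the function field
of `X₀(N)` over `ℚ̄`, and its combination with the Kronecker congruence for integral series.
-/

set_option autoImplicit false
set_option linter.style.haveILetI false

noncomputable section

open ModularCurve AlgebraicCurve HahnSeries

namespace Fermat.Agent.S37.ESdiv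

open Fermat.Agent.S37.ESa

variable (N ℓ : ℕ) [NeZero N] [NeZero ℓ]
variable (hα : HeckeAlphaBarIntegral (AlgebraicClosure ℚ) N ℓ)
  (hβ : HeckeBetaBarIntegral (AlgebraicClosure ℚ) N ℓ)
  [HasPrincipalDivisors (AlgebraicClosure ℚ)
    (laurentBaseChange (AlgebraicClosure ℚ) (modularFunctionFieldFull (N * ℓ)))]
  (hfin : FiniteAlong (AlgebraicClosure ℚ) (heckeAlphaBar (AlgebraicClosure ℚ) N ℓ))
  (hNF : NormFormulaAlong (AlgebraicClosure ℚ) (heckeAlphaBar (AlgebraicClosure ℚ) N ℓ) hfin)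

omit [HasPrincipalDivisors (AlgebraicClosure ℚ)
    (laurentBaseChange (AlgebraicClosure ℚ) (modularFunctionFieldFull (N * ℓ)))] in
include hfin in
theorem heckeNorm_ne_zero {f : modularFunctionFieldBar N} (hf : f ≠ 0) :
    heckeNorm N ℓ f ≠ 0 := by
  letI := algebraAlong (heckeAlphaBar (AlgebraicClosure ℚ) N ℓ)
  haveI : Module.Finite (modularFunctionFieldBar N) (modularFunctionFieldBar (N * ℓ)) := hfin
  have hβf : heckeBetaBar (AlgebraicClosure ℚ) N ℓ f ≠ 0 := (map_ne_zero _).mpr hf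
  exact Algebra.norm_ne_zero_iff.mpr hβf

include hNF in
/-- `T_ℓ (div f) = div (N_α (β f))`. -/
theorem heckeDivBar_principal (f : modularFunctionFieldBar N) (hf : f ≠ 0)
    (D : Divisor (AlgebraicClosure ℚ) (modularFunctionFieldBar N))
    (hD : ∀ P, D P = P.ord f) (v : Place (AlgebraicClosure ℚ) (modularFunctionFieldBar N)) :
    heckeDivBar hα hβ D v = v.ord (heckeNorm N ℓ f) := by
  have h1 : ∀ w, (Divisor.pullbackAlong (heckeBetaBar (AlgebraicClosure ℚ) N ℓ) hβ D) w
      = w.ord (heckeBetaBar (AlgebraicClosure ℚ) N ℓ f) := by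
    intro w
    letI := algebraAlong (heckeBetaBar (AlgebraicClosure ℚ) N ℓ)
    haveI := isScalarTower_along (heckeBetaBar (AlgebraicClosure ℚ) N ℓ)
    haveI := isIntegral_along (heckeBetaBar (AlgebraicClosure ℚ) N ℓ) hβ
    exact Divisor.pullback_apply_eq_ord hD w
  have hβf : heckeBetaBar (AlgebraicClosure ℚ) N ℓ f ≠ 0 := (map_ne_zero _).mpr hf
  exact hNF (heckeBetaBar (AlgebraicClosure ℚ) N ℓ f) hβf _ h1 v

include hNF in
/-- **(ES-a), divisor form**: for an integral series `y ∈ F_N`, `T_ℓ (div y) = div z` for an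
integral series `z ∈ F_N` whose reduction is `Φ(ȳ) · (Φ⁻¹ ȳ) ^ ℓ`. -/
theorem exists_integral_hecke (hℓ : ℓ.Prime) (hN : ¬ ℓ ∣ N)
    (A : ValuationSubring (AlgebraicClosure ℚ)) (hA : A.LiesOverPrime ℓ)
    (φ : IsLocalRing.ResidueField A →+* IsLocalRing.ResidueField A) (hφ : ∀ x, φ x = x ^ ℓ)
    (y : LaurentSeries A) (hy : coeffMap A.subtype y ∈ modularFunctionFieldBar N)
    (hy0 : coeffMap A.subtype y ≠ 0) :
    ∃ (z : LaurentSeries A) (hz : coeffMap A.subtype z ∈ modularFunctionFieldBar N),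
      coeffMap A.subtype z ≠ 0 ∧
      (∀ D : Divisor (AlgebraicClosure ℚ) (modularFunctionFieldBar N),
        (∀ P, D P = P.ord (⟨coeffMap A.subtype y, hy⟩ : modularFunctionFieldBar N)) →
        ∀ v, heckeDivBar hα hβ D v
          = v.ord (⟨coeffMap A.subtype z, hz⟩ : modularFunctionFieldBar N)) ∧
      ∀ w : LaurentSeries (IsLocalRing.ResidueField A),
        coeffMap φ w = coeffMap (IsLocalRing.residue A) y →
        coeffMap (IsLocalRing.residue A) z
          = coeffMap φ (coeffMap (IsLocalRing.residue A) y) * w ^ ℓ := by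
  obtain ⟨z, hz1, hz2⟩ := exists_integral_heckeNorm N ℓ hℓ hN A hA φ hφ y hy
  have hy0' : (⟨coeffMap A.subtype y, hy⟩ : modularFunctionFieldBar N) ≠ 0 :=
    fun h => hy0 (congrArg Subtype.val h)
  have hz : coeffMap A.subtype z ∈ modularFunctionFieldBar N := by
    rw [hz1]
    exact SetLike.coe_mem _
  have hzeq : (⟨coeffMap A.subtype z, hz⟩ : modularFunctionFieldBar N)
      = heckeNorm N ℓ ⟨coeffMap A.subtype y, hy⟩ := Subtype.ext hz1
  refine ⟨z, hz, ?_, ?_, hz2⟩
  · intro h0
    have h1 := heckeNorm_ne_zero N ℓ hfin hy0'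
    apply h1
    rw [← hzeq]
    exact Subtype.ext h0
  · intro D hD v
    rw [hzeq]
    exact heckeDivBar_principal N ℓ hα hβ hfin hNF _ hy0' D hD v

end Fermat.Agent.S37.ESdiv

end
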