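import Mathlib
import Fermat.Prelude.Def_AlgebraicCurve_DivisorClassGroup
import Fermat.Agent.RR_Defs

/-!
# S37 (RI-core, hub-independent leaves): effective divisors of degree one and additive maps

* `exists_map_of_additive` — step (iv) of the specialisation construction: an additive map
  `s : Div(F) → Div(κ)` which preserves effectivity and the degree, between curves all of whose
  places have degree one, is `Finsupp.mapDomain r` for a (unique) map of places `r`.
* `subDiv R` — the divisor of a finite-dimensional nonzero subspace `R ⊆ κ`: the least divisor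
  `D` with `R ⊆ L(D)`, i.e. `Q ↦ - min_{s ∈ R ∖ 0} ord_Q s`; its calculus (`subDiv_mono`,
  `subDiv_map_mulLeft`, `subDiv_mul`, `subDiv_span_singleton`, `le_LSpace_iff`).
-/

set_option autoImplicit false

noncomputable section

open AlgebraicCurve

namespace Fermat.Agent.S37.SubDiv

section Effective

variable {k κ : Type*} [Field k] [Field κ] [Algebra k κ]

/-- the degree of a divisor on a curve all of whose places have degree one. -/
theorem degree_eq_sum (hdeg : ∀ Q : Place k κ, Q.deg = 1) (D : Divisor k κ) :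
    Divisor.degree D = D.sum fun _ n => n := by
  rw [Divisor.degree, Finsupp.liftAddHom_apply]
  refine Finsupp.sum_congr fun Q _ => ?_
  rw [AddMonoidHom.mulRight_apply, hdeg Q, Nat.cast_one, mul_one]

/-- an effective divisor of degree zero vanishes. -/
theorem eq_zero_of_effective_of_degree (hdeg : ∀ Q : Place k κ, Q.deg = 1) {D : Divisor k κ}
    (hD : 0 ≤ D) (h0 : Divisor.degree D = 0) : D = 0 := by
  rw [degree_eq_sum hdeg, Finsupp.sum] at h0
  have h := (Finset.sum_eq_zero_iff_of_nonneg (fun Q _ => hD Q)).mp h0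
  ext Q
  by_cases hQ : Q ∈ D.support
  · exact h Q hQ
  · simpa using hQ

/-- an effective divisor of degree one is a single place. -/
theorem exists_single_of_effective_of_degree (hdeg : ∀ Q : Place k κ, Q.deg = 1)
    {D : Divisor k κ} (hD : 0 ≤ D) (h1 : Divisor.degree D = 1) :
    ∃ Q : Place k κ, D = Finsupp.single Q 1 := by
  classical
  have hne : D ≠ 0 := by
    rintro rfl
    simp at h1
  obtain ⟨Q, hQ⟩ : ∃ Q, D Q ≠ 0 := by
    by_contra hall
    push Not at hall
    exact hne (Finsupp.ext hall)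
  have hQpos : 1 ≤ D Q := by
    have := hD Q
    have h0 : (0 : ℤ) ≤ D Q := this
    omega
  refine ⟨Q, ?_⟩
  have heff : 0 ≤ D - Finsupp.single Q 1 := by
    intro Q'
    rw [Finsupp.coe_zero, Pi.zero_apply, Finsupp.sub_apply, Finsupp.single_apply]
    split_ifs with h
    · subst h
      omega
    · have := hD Q'
      have h0 : (0 : ℤ) ≤ D Q' := this
      omega
  have hdeg0 : Divisor.degree (D - Finsupp.single Q 1) = 0 := by
    rw [map_sub, h1, Divisor.degree_single, hdeg Q]
    simp
  have := eq_zero_of_effective_of_degree hdeg heff hdeg0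
  exact sub_eq_zero.mp this

end Effective

section Additive

variable {L F k κ : Type*} [Field L] [Field F] [Algebra L F] [Field k] [Field κ] [Algebra k κ]

/-- **step (iv).** An additive, effectivity and degree preserving map of divisor groups between
curves whose places all have degree one is induced by a map of places. -/
theorem exists_map_of_additive (s : Divisor L F →+ Divisor k κ)
    (heff : ∀ E : Divisor L F, 0 ≤ E → 0 ≤ s E)
    (hdeg : ∀ E : Divisor L F, Divisor.degree (s E) = Divisor.degree E)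
    (hdegF : ∀ P : Place L F, P.deg = 1) (hdegκ : ∀ Q : Place k κ, Q.deg = 1) :
    ∃ r : Place L F → Place k κ, ∀ E : Divisor L F, s E = Finsupp.mapDomain r E := by
  classical
  have hex : ∀ P : Place L F, ∃ Q : Place k κ, s (Finsupp.single P 1) = Finsupp.single Q 1 := by
    intro P
    refine exists_single_of_effective_of_degree hdegκ (heff _ ?_) ?_
    · intro P'
      rw [Finsupp.coe_zero, Pi.zero_apply, Finsupp.single_apply]
      split_ifs <;> norm_num
    · rw [hdeg, Divisor.degree_single, hdegF P]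
      simp
  choose r hr using hex
  refine ⟨r, fun E => ?_⟩
  induction E using Finsupp.induction with
  | zero => simp
  | single_add P n E _ _ ih =>
    rw [map_add, Finsupp.mapDomain_add, ih, Finsupp.mapDomain_single]
    congr 1
    have h1 : (Finsupp.single P n : Divisor L F) = n • Finsupp.single P 1 := by
      rw [Finsupp.smul_single, smul_eq_mul, mul_one]
    rw [h1, map_zsmul, hr P, Finsupp.smul_single, smul_eq_mul, mul_one]

/-- the map of places of `exists_map_of_additive` is unique. -/
theorem map_unique_of_additive {r₁ r₂ : Place L F → Place k κ}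
    (h : ∀ E : Divisor L F, Finsupp.mapDomain r₁ E = Finsupp.mapDomain r₂ E) : r₁ = r₂ := by
  funext P
  have := h (Finsupp.single P 1)
  rw [Finsupp.mapDomain_single, Finsupp.mapDomain_single] at this
  exact (Finsupp.single_left_injective (one_ne_zero : (1 : ℤ) ≠ 0)) this

end Additive

section SubDiv

variable {k κ : Type*} [Field k] [Field κ] [Algebra k κ]

/-- the elements of order at least `m` at `Q` (together with `0`). -/
def ordGE (Q : Place k κ) (m : ℤ) : Submodule k κ where
  carrier := {s | s = 0 ∨ m ≤ Q.ord s}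
  zero_mem' := Or.inl rfl
  add_mem' := by
    rintro f g hf hg
    rcases eq_or_ne f 0 with rfl | hf0
    · simpa using hg
    rcases eq_or_ne g 0 with rfl | hg0
    · simpa using hf
    rcases eq_or_ne (f + g) 0 with h0 | h0
    · exact Or.inl h0
    refine Or.inr ?_
    have h1 : m ≤ Q.ord f := hf.resolve_left hf0
    have h2 : m ≤ Q.ord g := hg.resolve_left hg0
    have h3 := Fermat.Agent.RR.ord_add_ge Q hf0 hg0 h0
    rcases min_le_iff.mp h3 with h | h <;> omega
  smul_mem' := by
    rintro c f hf
    rcases eq_or_ne c 0 with rfl | hc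
    · exact Or.inl (zero_smul _ _)
    rcases hf with rfl | hf
    · exact Or.inl (smul_zero _)
    · exact Or.inr (by rw [Fermat.Agent.RR.ord_smul_const Q hc]; exact hf)

theorem mem_ordGE {Q : Place k κ} {m : ℤ} {s : κ} : s ∈ ordGE Q m ↔ s = 0 ∨ m ≤ Q.ord s :=
  Iff.rfl

/-- the pole orders at `Q` of the nonzero elements of `R`. -/
def poleSet (R : Submodule k κ) (Q : Place k κ) : Set ℤ :=
  {n | ∃ s ∈ R, s ≠ 0 ∧ -Q.ord s = n}

/-- the largest pole order at `Q` of a nonzero element of `R`. -/
def negOrdSup (R : Submodule k κ) (Q : Place k κ) : ℤ := sSup (poleSet R Q)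

theorem poleSet_nonempty {R : Submodule k κ} (hR : R ≠ ⊥) (Q : Place k κ) :
    (poleSet R Q).Nonempty := by
  obtain ⟨s, hs, hs0⟩ := (Submodule.ne_bot_iff R).mp hR
  exact ⟨_, s, hs, hs0, rfl⟩

theorem exists_finset_span (R : Submodule k κ) [Module.Finite k R] :
    ∃ S : Finset κ, Submodule.span k (S : Set κ) = R :=
  (Submodule.fg_iff_finiteDimensional R).mpr inferInstance

theorem bddAbove_poleSet (R : Submodule k κ) [Module.Finite k R] (Q : Place k κ) :
    BddAbove (poleSet R Q) := by
  classical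
  obtain ⟨S, hS⟩ := exists_finset_span R
  obtain ⟨m, hm⟩ := (S.image fun b => -Q.ord b).exists_le
  have hle : R ≤ ordGE Q (-m) := by
    rw [← hS, Submodule.span_le]
    intro b hb
    have := hm _ (Finset.mem_image_of_mem (fun b => -Q.ord b) hb)
    exact Or.inr (by omega)
  refine ⟨m, ?_⟩
  rintro n ⟨s, hs, hs0, rfl⟩
  have : -m ≤ Q.ord s := (hle hs).resolve_left hs0
  omega

theorem neg_ord_le_negOrdSup {R : Submodule k κ} [Module.Finite k R] {s : κ} (hs : s ∈ R)
    (hs0 : s ≠ 0) (Q : Place k κ) : -Q.ord s ≤ negOrdSup R Q :=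
  le_csSup (bddAbove_poleSet R Q) ⟨s, hs, hs0, rfl⟩

theorem exists_neg_ord_eq_negOrdSup {R : Submodule k κ} [Module.Finite k R] (hR : R ≠ ⊥)
    (Q : Place k κ) : ∃ s ∈ R, s ≠ 0 ∧ -Q.ord s = negOrdSup R Q :=
  Int.csSup_mem (poleSet_nonempty hR Q) (bddAbove_poleSet R Q)

theorem finite_support_negOrdSup [HasPrincipalDivisors k κ] (R : Submodule k κ)
    [Module.Finite k R] (hR : R ≠ ⊥) : (Function.support (negOrdSup R)).Finite := by
  classical
  obtain ⟨S, hS⟩ := exists_finset_span R
  have hfin : ∀ b : κ, {Q : Place k κ | Q.ord b ≠ 0}.Finite := by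
    intro b
    rcases eq_or_ne b 0 with rfl | hb
    · simp
    obtain ⟨D, hD, -⟩ := HasPrincipalDivisors.exists_divisor (K := k) b hb
    refine D.support.finite_toSet.subset ?_
    intro Q hQ
    rw [Finset.mem_coe, Finsupp.mem_support_iff, hD Q]
    exact hQ
  have hT : (⋃ b ∈ S, {Q : Place k κ | Q.ord b ≠ 0}).Finite :=
    Set.Finite.biUnion S.finite_toSet fun b _ => hfin b
  refine hT.subset ?_
  intro Q hQ
  by_contra hcon
  have hall : ∀ b ∈ S, Q.ord b = 0 := by
    intro b hb
    by_contra hb0
    exact hcon (Set.mem_biUnion hb hb0)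
  have hle : R ≤ ordGE Q 0 := by
    rw [← hS, Submodule.span_le]
    intro b hb
    exact Or.inr (hall b hb).ge
  obtain ⟨b₀, hb₀, hb₀0⟩ : ∃ b ∈ S, b ≠ 0 := by
    by_contra hno
    push Not at hno
    apply hR
    rw [← hS, Submodule.span_eq_bot]
    exact fun b hb => hno b hb
  have hb₀R : b₀ ∈ R := hS ▸ Submodule.subset_span hb₀
  apply hQ
  apply le_antisymm
  · refine csSup_le (poleSet_nonempty hR Q) ?_
    rintro n ⟨s, hs, hs0, rfl⟩
    have := (hle hs).resolve_left hs0
    omega
  · have := neg_ord_le_negOrdSup hb₀R hb₀0 Q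
    rw [hall b₀ hb₀] at this
    simpa using this

open Classical in
/-- **the divisor of a subspace** `R ⊆ κ` (finite-dimensional, nonzero): the least divisor `D`
with `R ⊆ L(D)`. (Junk value `0` otherwise.) -/
def subDiv (R : Submodule k κ) : Divisor k κ :=
  if h : (Function.support (negOrdSup R)).Finite then Finsupp.ofSupportFinite (negOrdSup R) h
  else 0

variable [HasPrincipalDivisors k κ]

theorem subDiv_apply (R : Submodule k κ) [Module.Finite k R] (hR : R ≠ ⊥) (Q : Place k κ) :
    subDiv R Q = negOrdSup R Q := by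
  rw [subDiv, dif_pos (finite_support_negOrdSup R hR)]
  rfl

/-- every nonzero element of `R` has pole order at most `subDiv R`. -/
theorem neg_ord_le_subDiv {R : Submodule k κ} [Module.Finite k R] {s : κ} (hs : s ∈ R)
    (hs0 : s ≠ 0) (Q : Place k κ) : -Q.ord s ≤ subDiv R Q := by
  have hR : R ≠ ⊥ := (Submodule.ne_bot_iff R).mpr ⟨s, hs, hs0⟩
  rw [subDiv_apply R hR]
  exact neg_ord_le_negOrdSup hs hs0 Q

/-- the bound `subDiv R` is attained at every place. -/
theorem exists_neg_ord_eq_subDiv {R : Submodule k κ} [Module.Finite k R] (hR : R ≠ ⊥)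
    (Q : Place k κ) : ∃ s ∈ R, s ≠ 0 ∧ -Q.ord s = subDiv R Q := by
  rw [subDiv_apply R hR]
  exact exists_neg_ord_eq_negOrdSup hR Q

/-- minimality of `subDiv R`. -/
theorem subDiv_le_of_le {R : Submodule k κ} [Module.Finite k R] (hR : R ≠ ⊥) {D : Divisor k κ}
    (h : ∀ s ∈ R, s ≠ 0 → ∀ Q : Place k κ, -Q.ord s ≤ D Q) : subDiv R ≤ D := by
  intro Q
  obtain ⟨s, hs, hs0, hsQ⟩ := exists_neg_ord_eq_subDiv hR Q
  rw [← hsQ]
  exact h s hs hs0 Q

/-- `R ⊆ L(subDiv R)`. -/
theorem le_LSpace_subDiv (R : Submodule k κ) [Module.Finite k R] :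
    R ≤ Fermat.Agent.RR.LSpace k κ (subDiv R) := by
  intro s hs
  rcases eq_or_ne s 0 with rfl | hs0
  · exact Or.inl rfl
  · refine Or.inr fun Q => ?_
    have := neg_ord_le_subDiv hs hs0 Q
    omega

/-- `R ⊆ L(D)` iff `subDiv R ≤ D`. -/
theorem le_LSpace_iff {R : Submodule k κ} [Module.Finite k R] (hR : R ≠ ⊥) {D : Divisor k κ} :
    R ≤ Fermat.Agent.RR.LSpace k κ D ↔ subDiv R ≤ D := by
  constructor
  · intro h
    refine subDiv_le_of_le hR fun s hs hs0 Q => ?_
    have := (h hs).resolve_left hs0 Q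
    omega
  · intro h s hs
    rcases eq_or_ne s 0 with rfl | hs0
    · exact Or.inl rfl
    · refine Or.inr fun Q => ?_
      have h1 := neg_ord_le_subDiv hs hs0 Q
      have h2 : subDiv R Q ≤ D Q := h Q
      omega

/-- monotonicity. -/
theorem subDiv_mono {R R' : Submodule k κ} [Module.Finite k R] [Module.Finite k R'] (hR : R ≠ ⊥)
    (h : R ≤ R') : subDiv R ≤ subDiv R' :=
  subDiv_le_of_le hR fun _ hs hs0 Q => neg_ord_le_subDiv (h hs) hs0 Q

/-- the divisor of a line. -/
theorem subDiv_span_singleton {f : κ} (hf : f ≠ 0) (Q : Place k κ) :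
    subDiv (Submodule.span k {f}) Q = -Q.ord f := by
  have hR : Submodule.span k ({f} : Set κ) ≠ ⊥ := by
    rw [Ne, Submodule.span_singleton_eq_bot]
    exact hf
  apply le_antisymm
  · obtain ⟨s, hs, hs0, hsQ⟩ := exists_neg_ord_eq_subDiv hR Q
    obtain ⟨c, rfl⟩ := Submodule.mem_span_singleton.mp hs
    have hc : c ≠ 0 := by
      rintro rfl
      simp at hs0
    rw [← hsQ, Fermat.Agent.RR.ord_smul_const Q hc]
  · exact neg_ord_le_subDiv (Submodule.mem_span_singleton_self f) hf Q

/-- multiplication by a nonzero function shifts the divisor of a subspace by its divisor. -/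
theorem subDiv_map_mulLeft {R : Submodule k κ} [Module.Finite k R] (hR : R ≠ ⊥) {c : κ}
    (hc : c ≠ 0) (Q : Place k κ) :
    subDiv (R.map (LinearMap.mulLeft k c)) Q = subDiv R Q - Q.ord c := by
  have hR' : R.map (LinearMap.mulLeft k c) ≠ ⊥ := by
    obtain ⟨s, hs, hs0⟩ := (Submodule.ne_bot_iff R).mp hR
    exact (Submodule.ne_bot_iff _).mpr ⟨c * s, ⟨s, hs, rfl⟩, mul_ne_zero hc hs0⟩
  apply le_antisymm
  · obtain ⟨t, ht, ht0, htQ⟩ := exists_neg_ord_eq_subDiv hR' Q
    obtain ⟨s, hs, rfl⟩ := ht
    have hs0 : s ≠ 0 := by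
      rintro rfl
      simp at ht0
    rw [LinearMap.mulLeft_apply, Q.ord_mul hc hs0] at htQ
    have := neg_ord_le_subDiv hs hs0 Q
    omega
  · obtain ⟨s, hs, hs0, hsQ⟩ := exists_neg_ord_eq_subDiv hR Q
    have h1 : c * s ∈ R.map (LinearMap.mulLeft k c) := ⟨s, hs, rfl⟩
    have h2 := neg_ord_le_subDiv h1 (mul_ne_zero hc hs0) Q
    rw [Q.ord_mul hc hs0] at h2
    omega

omit [HasPrincipalDivisors k κ] in
/-- a product of finite-dimensional subspaces is finite-dimensional. -/
theorem finite_mul (R R' : Submodule k κ) [Module.Finite k R] [Module.Finite k R'] :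
    Module.Finite k ↥(R * R') :=
  (Submodule.fg_iff_finiteDimensional _).mp
    (Submodule.FG.mul ((Submodule.fg_iff_finiteDimensional R).mpr inferInstance)
      ((Submodule.fg_iff_finiteDimensional R').mpr inferInstance))

omit [HasPrincipalDivisors k κ] in
/-- the image of a finite-dimensional subspace under multiplication is finite-dimensional. -/
theorem finite_map_mulLeft (R : Submodule k κ) [Module.Finite k R] (c : κ) :
    Module.Finite k ↥(R.map (LinearMap.mulLeft k c)) :=
  inferInstance

/-- the divisor of a product of subspaces is the sum of the divisors. -/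
theorem subDiv_mul {R R' : Submodule k κ} [Module.Finite k R] [Module.Finite k R']
    [Module.Finite k ↥(R * R')] (hR : R ≠ ⊥) (hR' : R' ≠ ⊥) :
    subDiv (R * R') = subDiv R + subDiv R' := by
  have hRR' : R * R' ≠ ⊥ := by
    obtain ⟨s, hs, hs0⟩ := (Submodule.ne_bot_iff R).mp hR
    obtain ⟨s', hs', hs0'⟩ := (Submodule.ne_bot_iff R').mp hR'
    exact (Submodule.ne_bot_iff _).mpr ⟨s * s', Submodule.mul_mem_mul hs hs', mul_ne_zero hs0 hs0'⟩
  ext Q
  rw [Finsupp.add_apply]
  apply le_antisymm
  · have hle : R * R' ≤ ordGE Q (-(subDiv R Q + subDiv R' Q)) := by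
      rw [Submodule.mul_le]
      intro s hs s' hs'
      rcases eq_or_ne s 0 with rfl | hs0
      · exact Or.inl (zero_mul _)
      rcases eq_or_ne s' 0 with rfl | hs0'
      · exact Or.inl (mul_zero _)
      refine Or.inr ?_
      rw [Q.ord_mul hs0 hs0']
      have h1 := neg_ord_le_subDiv hs hs0 Q
      have h2 := neg_ord_le_subDiv hs' hs0' Q
      omega
    obtain ⟨t, ht, ht0, htQ⟩ := exists_neg_ord_eq_subDiv hRR' Q
    have := (hle ht).resolve_left ht0
    omega
  · obtain ⟨s, hs, hs0, hsQ⟩ := exists_neg_ord_eq_subDiv hR Q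
    obtain ⟨s', hs', hs0', hsQ'⟩ := exists_neg_ord_eq_subDiv hR' Q
    have h := neg_ord_le_subDiv (Submodule.mul_mem_mul hs hs') (mul_ne_zero hs0 hs0') Q
    rw [Q.ord_mul hs0 hs0'] at h
    omega

end SubDiv

end Fermat.Agent.S37.SubDiv
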