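import Mathlib
import Fermat.Prelude.Def_ModularCurve_HeckeOperator
import Fermat.Agent.S37_SubDiv

/-!
# S37: effectivity and coefficient bounds for the divisor-level maps

Pullback, pushforward, correspondences (in particular the Hecke correspondence `heckeDivBar`)
and `Finsupp.mapDomain` along a map of places preserve effective divisors; on a curve all of
whose places have degree one every coefficient of an effective divisor is bounded by its
degree.  These are the boundedness inputs `|δ (single P 1) Q| ≤ C` of the rigidity lemma.
-/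

set_option autoImplicit false
set_option linter.style.haveILetI false

noncomputable section

open AlgebraicCurve

namespace Fermat.Agent.S37.Eff

section Basic

variable {k κ : Type*} [Field k] [Field κ] [Algebra k κ]

/-- effectivity, pointwise. -/
theorem nonneg_iff {D : Divisor k κ} : 0 ≤ D ↔ ∀ Q, 0 ≤ D Q := Iff.rfl

/-- on a curve with places of degree one, a coefficient of an effective divisor is at most the
degree. -/
theorem apply_le_degree (hdeg : ∀ Q : Place k κ, Q.deg = 1) {D : Divisor k κ} (hD : 0 ≤ D)
    (Q : Place k κ) : D Q ≤ Divisor.degree D := by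
  classical
  rw [Fermat.Agent.S37.SubDiv.degree_eq_sum hdeg, Finsupp.sum]
  by_cases hQ : Q ∈ D.support
  · exact Finset.single_le_sum (f := fun Q => D Q) (fun Q' _ => hD Q') hQ
  · rw [Finsupp.notMem_support_iff.mp hQ]
    exact Finset.sum_nonneg fun Q' _ => hD Q'

/-- on a curve with places of degree one, an effective divisor has nonnegative degree. -/
theorem degree_nonneg (hdeg : ∀ Q : Place k κ, Q.deg = 1) {D : Divisor k κ} (hD : 0 ≤ D) :
    0 ≤ Divisor.degree D := by
  rw [Fermat.Agent.S37.SubDiv.degree_eq_sum hdeg, Finsupp.sum]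
  exact Finset.sum_nonneg fun Q' _ => hD Q'

/-- `|D Q| ≤ deg D` for effective `D`. -/
theorem abs_apply_le_degree (hdeg : ∀ Q : Place k κ, Q.deg = 1) {D : Divisor k κ} (hD : 0 ≤ D)
    (Q : Place k κ) : |D Q| ≤ Divisor.degree D := by
  rw [abs_of_nonneg (hD Q)]
  exact apply_le_degree hdeg hD Q

/-- a single place with a nonnegative coefficient is effective. -/
theorem single_nonneg (Q : Place k κ) {n : ℤ} (hn : 0 ≤ n) :
    (0 : Divisor k κ) ≤ Finsupp.single Q n := by
  classical
  intro Q'
  rw [Finsupp.coe_zero, Pi.zero_apply, Finsupp.single_apply]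
  split_ifs
  · exact hn
  · exact le_rfl

end Basic

section MapDomain

variable {L F k κ : Type*} [Field L] [Field F] [Algebra L F] [Field k] [Field κ] [Algebra k κ]

/-- `mapDomain` along a map of places preserves effectivity. -/
theorem mapDomain_nonneg (r : Place L F → Place k κ) {E : Divisor L F} (hE : 0 ≤ E) :
    0 ≤ Finsupp.mapDomain r E := by
  classical
  intro Q
  rw [Finsupp.coe_zero, Pi.zero_apply, Finsupp.mapDomain, Finsupp.sum_apply, Finsupp.sum]
  refine Finset.sum_nonneg fun P _ => ?_
  rw [Finsupp.single_apply]
  split_ifs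
  · exact hE P
  · exact le_rfl

/-- `mapDomain` along a map of places preserves the degree (places of degree one). -/
theorem degree_mapDomain (r : Place L F → Place k κ) (hdegF : ∀ P : Place L F, P.deg = 1)
    (hdegκ : ∀ Q : Place k κ, Q.deg = 1) (E : Divisor L F) :
    Divisor.degree (Finsupp.mapDomain r E) = Divisor.degree E := by
  induction E using Finsupp.induction with
  | zero => simp
  | single_add P n E _ _ ih =>
    rw [Finsupp.mapDomain_add, map_add, map_add, ih, Finsupp.mapDomain_single,
      Divisor.degree_single, Divisor.degree_single, hdegF, hdegκ]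

/-- coefficients of the image of an effective divisor are bounded by its degree. -/
theorem abs_mapDomain_apply_le (r : Place L F → Place k κ) (hdegF : ∀ P : Place L F, P.deg = 1)
    (hdegκ : ∀ Q : Place k κ, Q.deg = 1) {E : Divisor L F} (hE : 0 ≤ E) (Q : Place k κ) :
    |Finsupp.mapDomain r E Q| ≤ Divisor.degree E := by
  rw [← degree_mapDomain r hdegF hdegκ E]
  exact abs_apply_le_degree hdegκ (mapDomain_nonneg r hE) Q

end MapDomain

section PushPull

variable {K F F' : Type*} [Field K] [Field F] [Field F']
  [Algebra K F] [Algebra K F'] [Algebra F F'] [IsScalarTower K F F'] [Algebra.IsIntegral F F']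

/-- pushforward preserves effectivity. -/
theorem pushforward_nonneg {D : Divisor K F'} (hD : 0 ≤ D) : 0 ≤ Divisor.pushforward F D := by
  classical
  intro v
  rw [Finsupp.coe_zero, Pi.zero_apply, Divisor.pushforward_apply]
  refine Finset.sum_nonneg fun w _ => ?_
  split_ifs
  · exact mul_nonneg (hD w) (Nat.cast_nonneg _)
  · exact le_rfl

variable [HasPrincipalDivisors K F']

/-- pullback preserves effectivity. -/
theorem pullback_nonneg {D : Divisor K F} (hD : 0 ≤ D) : 0 ≤ Divisor.pullback F' D := by
  intro w
  rw [Finsupp.coe_zero, Pi.zero_apply, Divisor.pullback_apply]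
  exact mul_nonneg (Nat.cast_nonneg _) (hD _)

end PushPull

section Along

variable {K F F' : Type*} [Field K] [Field F] [Field F'] [Algebra K F] [Algebra K F']

/-- pushforward along an embedding preserves effectivity. -/
theorem pushforwardAlong_nonneg (φ : F →ₐ[K] F') (hφ : φ.toRingHom.IsIntegral)
    {D : Divisor K F'} (hD : 0 ≤ D) : 0 ≤ Divisor.pushforwardAlong φ hφ D := by
  letI := algebraAlong φ
  haveI := isScalarTower_along φ
  haveI := isIntegral_along φ hφ
  exact pushforward_nonneg hD

variable [HasPrincipalDivisors K F']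

/-- pullback along an embedding preserves effectivity. -/
theorem pullbackAlong_nonneg (φ : F →ₐ[K] F') (hφ : φ.toRingHom.IsIntegral)
    {D : Divisor K F} (hD : 0 ≤ D) : 0 ≤ Divisor.pullbackAlong φ hφ D := by
  letI := algebraAlong φ
  haveI := isScalarTower_along φ
  haveI := isIntegral_along φ hφ
  exact pullback_nonneg hD

/-- a correspondence preserves effectivity. -/
theorem correspondence_nonneg (φ ψ : F →ₐ[K] F') (hφ : φ.toRingHom.IsIntegral)
    (hψ : ψ.toRingHom.IsIntegral) {D : Divisor K F} (hD : 0 ≤ D) :
    0 ≤ Divisor.correspondence φ ψ hφ hψ D :=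
  pushforwardAlong_nonneg ψ hψ (pullbackAlong_nonneg φ hφ hD)

/-- the image of a place under a correspondence: effective of degree `finrankAlong φ`
(places of degree one). -/
theorem degree_correspondence_single (φ ψ : F →ₐ[K] F') (hφ : φ.toRingHom.IsIntegral)
    (hψ : ψ.toRingHom.IsIntegral) (hFI : FundamentalIdentityAlong K φ hφ)
    (hdegF : ∀ P : Place K F, P.deg = 1) (P : Place K F) :
    Divisor.degree (Divisor.correspondence φ ψ hφ hψ (Finsupp.single P 1))
      = (finrankAlong K φ : ℤ) := by
  rw [Divisor.degree_correspondence φ ψ hφ hψ hFI, Divisor.degree_single, hdegF P]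
  simp

/-- the degree of a pullback of a place (places of degree one). -/
theorem degree_pullbackAlong_single (φ : F →ₐ[K] F') (hφ : φ.toRingHom.IsIntegral)
    (hFI : FundamentalIdentityAlong K φ hφ) (hdegF : ∀ P : Place K F, P.deg = 1)
    (P : Place K F) :
    Divisor.degree (Divisor.pullbackAlong φ hφ (Finsupp.single P 1)) = (finrankAlong K φ : ℤ) := by
  rw [Divisor.degree_pullbackAlong φ hφ hFI, Divisor.degree_single, hdegF P]
  simp

end Along

section Hecke

open ModularCurve

variable {L : Type*} [Field L] [Algebra ℚ L] {N ℓ : ℕ} [NeZero N] [NeZero ℓ]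
variable (hα : HeckeAlphaBarIntegral L N ℓ) (hβ : HeckeBetaBarIntegral L N ℓ)
variable [HasPrincipalDivisors L (laurentBaseChange L (modularFunctionFieldFull (N * ℓ)))]

/-- the Hecke correspondence preserves effective divisors. -/
theorem heckeDivBar_nonneg {D : Divisor L (laurentBaseChange L (modularFunctionFieldFull N))}
    (hD : 0 ≤ D) : 0 ≤ heckeDivBar hα hβ D :=
  correspondence_nonneg _ _ hβ hα hD

/-- `T_ℓ(P)` has degree `[F_{Nℓ} : β(F_N)]` (places of degree one). -/
theorem degree_heckeDivBar_single (hFI : FundamentalIdentityAlong L (heckeBetaBar L N ℓ) hβ)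
    (hdegF : ∀ P : Place L (laurentBaseChange L (modularFunctionFieldFull N)), P.deg = 1)
    (P : Place L (laurentBaseChange L (modularFunctionFieldFull N))) :
    Divisor.degree (heckeDivBar hα hβ (Finsupp.single P 1))
      = (finrankAlong L (heckeBetaBar L N ℓ) : ℤ) :=
  degree_correspondence_single _ _ hβ hα hFI hdegF P

/-- the degree of `T_ℓ(D)`. -/
theorem degree_heckeDivBar (hFI : FundamentalIdentityAlong L (heckeBetaBar L N ℓ) hβ)
    (D : Divisor L (laurentBaseChange L (modularFunctionFieldFull N))) :
    Divisor.degree (heckeDivBar hα hβ D)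
      = (finrankAlong L (heckeBetaBar L N ℓ) : ℤ) * Divisor.degree D :=
  Divisor.degree_correspondence _ _ hβ hα hFI D

end Hecke

end Fermat.Agent.S37.Eff
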