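import Mathlib
import Fermat.Prelude.Def_AlgebraicCurve_Correspondence
import Fermat.Prelude.Def_ModularCurve_HeckeOperator
import Fermat.Agent.S37_PushPull

/-!
# S37: the pullback along an embedding commutes with semilinear automorphisms

If `g`, `g'` are semilinear automorphisms of `F`, `F'` intertwined by an embedding
`φ : F →ₐ[K] F'`, then `φ^*(g • D) = g' • φ^* D` on divisors and on `Pic⁰`.  Instance: the
pullback along the degeneracy map `heckeAlphaBar` commutes with the Galois action on `J₀`.
-/

set_option autoImplicit false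
set_option linter.style.haveILetI false
set_option linter.unusedSectionVars false

noncomputable section

open AlgebraicCurve ModularCurve

namespace Fermat.Agent.S37.GalPull

section Generic

variable {K F F' : Type*} [Field K] [Field F] [Field F'] [Algebra K F] [Algebra K F']

open scoped Pointwise

theorem restrictAlong_smul (φ : F →ₐ[K] F') (hφ : φ.toRingHom.IsIntegral)
    (g : SemilinearAut K F) (g' : SemilinearAut K F')
    (h : SemilinearAut.IntertwinesAlong (φ : F →+* F') g g') (w : Place K F') :
    (g' • w).restrictAlong φ hφ = g • (w.restrictAlong φ hφ) := by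
  letI := algebraAlong φ
  haveI := isScalarTower_along φ
  haveI := isIntegral_along φ hφ
  have hinv := h.inv
  apply Place.ext
  ext f
  show algebraMap F F' f ∈ (g' • w).toValuationSubring
    ↔ f ∈ (g • (w.restrict F)).toValuationSubring
  rw [SemilinearAut.smul_toValuationSubring, SemilinearAut.smul_toValuationSubring,
    ValuationSubring.mem_pointwise_smul_iff_inv_smul_mem,
    ValuationSubring.mem_pointwise_smul_iff_inv_smul_mem]
  have e : g'⁻¹ • algebraMap F F' f = algebraMap F F' (g⁻¹ • f) := hinv f
  rw [e]
  rfl

theorem ramificationIndexAlong_smul (φ : F →ₐ[K] F')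
    (g : SemilinearAut K F) (g' : SemilinearAut K F')
    (h : SemilinearAut.IntertwinesAlong (φ : F →+* F') g g') (w : Place K F') :
    (g' • w).ramificationIndexAlong φ = w.ramificationIndexAlong φ := by
  letI := algebraAlong φ
  have hinv := h.inv
  show Place.ramificationIndex (g' • w) F = Place.ramificationIndex w F
  unfold Place.ramificationIndex
  congr 1
  ext n
  simp only [Set.mem_setOf_eq]
  constructor
  · rintro ⟨hn, f, hf, hord⟩
    refine ⟨hn, g⁻¹ • f, ?_, ?_⟩
    · intro h0
      apply hf
      have := congrArg (g • ·) h0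
      simpa using this
    · have e : g'⁻¹ • algebraMap F F' f = algebraMap F F' (g⁻¹ • f) := hinv f
      rw [← e, ← hord]
      have h2 := SemilinearAut.ord_smul g' w (g'⁻¹ • algebraMap F F' f)
      rw [smul_inv_smul] at h2
      exact h2.symm
  · rintro ⟨hn, f, hf, hord⟩
    refine ⟨hn, g • f, ?_, ?_⟩
    · intro h0
      apply hf
      have := congrArg (g⁻¹ • ·) h0
      simpa using this
    · have e : g' • algebraMap F F' f = algebraMap F F' (g • f) := h f
      rw [← e, SemilinearAut.ord_smul, hord]

variable [HasPrincipalDivisors K F']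

/-- the pullback of divisors along an embedding commutes with intertwined semilinear
automorphisms. -/
theorem pullbackAlong_smul (φ : F →ₐ[K] F') (hφ : φ.toRingHom.IsIntegral)
    (g : SemilinearAut K F) (g' : SemilinearAut K F')
    (h : SemilinearAut.IntertwinesAlong (φ : F →+* F') g g') (D : Divisor K F) :
    Divisor.pullbackAlong φ hφ (g • D) = g' • Divisor.pullbackAlong φ hφ D := by
  ext w
  have hinv := h.inv
  rw [Divisor.pullbackAlong_apply, SemilinearAut.divisor_smul_apply,
    SemilinearAut.divisor_smul_apply, Divisor.pullbackAlong_apply,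
    restrictAlong_smul φ hφ g⁻¹ g'⁻¹ hinv w, ramificationIndexAlong_smul φ g⁻¹ g'⁻¹ hinv w]

/-- the pullback on `Pic⁰` along an embedding commutes with intertwined semilinear
automorphisms. -/
theorem pullbackPic0Along_smul (φ : F →ₐ[K] F') (hφ : φ.toRingHom.IsIntegral)
    (hFI : FundamentalIdentityAlong K φ hφ)
    (g : SemilinearAut K F) (g' : SemilinearAut K F')
    (h : SemilinearAut.IntertwinesAlong (φ : F →+* F') g g') (x : Pic0 K F) :
    PushPull.pullbackPic0Along φ hφ hFI (g • x) = g' • PushPull.pullbackPic0Along φ hφ hFI x := by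
  obtain ⟨D, rfl⟩ := Pic0.mk_surjective x
  rw [SemilinearAut.pic0_smul_mk, PushPull.pullbackPic0Along_mk, PushPull.pullbackPic0Along_mk,
    SemilinearAut.pic0_smul_mk]
  refine congrArg Pic0.mk (Subtype.ext ?_)
  exact pullbackAlong_smul φ hφ g g' h (D : Divisor K F)

end Generic

section Modular

variable (N t : ℕ) [NeZero N] [NeZero t]

theorem intertwines_heckeAlphaBar (σ : AlgebraicClosure ℚ ≃ₐ[ℚ] AlgebraicClosure ℚ) :
    SemilinearAut.IntertwinesAlong
      ((heckeAlphaBar (AlgebraicClosure ℚ) N t : modularFunctionFieldBar N →ₐ[AlgebraicClosure ℚ]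
          modularFunctionFieldBar (N * t)) : modularFunctionFieldBar N →+* modularFunctionFieldBar (N * t))
      (arithmeticGalois (modularFunctionFieldFull N) σ)
      (arithmeticGalois (modularFunctionFieldFull (N * t)) σ) := by
  intro x
  apply Subtype.ext
  rw [coe_arithmeticGalois_smul, AlgHom.coe_toRingHom, coe_heckeAlphaBar, coe_heckeAlphaBar,
    coe_arithmeticGalois_smul]

/-- the pullback along the degeneracy map `F_N ⊆ F_{N t}` commutes with the Galois action. -/
theorem pullbackPic0Along_heckeAlphaBar_galois
    [HasPrincipalDivisors (AlgebraicClosure ℚ) (modularFunctionFieldBar (N * t))]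
    (hα : (heckeAlphaBar (AlgebraicClosure ℚ) N t).toRingHom.IsIntegral)
    (hFI : FundamentalIdentityAlong (AlgebraicClosure ℚ) (heckeAlphaBar (AlgebraicClosure ℚ) N t) hα)
    (σ : AlgebraicClosure ℚ ≃ₐ[ℚ] AlgebraicClosure ℚ) (x : JZero N) :
    PushPull.pullbackPic0Along (heckeAlphaBar (AlgebraicClosure ℚ) N t) hα hFI (σ • x)
      = σ • PushPull.pullbackPic0Along (heckeAlphaBar (AlgebraicClosure ℚ) N t) hα hFI x :=
  pullbackPic0Along_smul (heckeAlphaBar (AlgebraicClosure ℚ) N t) hα hFI
    (arithmeticGalois (modularFunctionFieldFull N) σ)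
    (arithmeticGalois (modularFunctionFieldFull (N * t)) σ)
    (intertwines_heckeAlphaBar N t σ) x

end Modular

end Fermat.Agent.S37.GalPull
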