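import Mathlib
import Fermat.Prelude.Def_ModularCurve_ReductionModL
import Fermat.Prelude.Def_EllipticCurve_FrobeniusTrace
import Fermat.Agent.S18_ValRing
import Fermat.Agent.S37_Unique

/-!
# S37 (G), part 2: Galois equivariance of the reduction map

* `coeffAut k N`: the coefficientwise action of `Aut(k)` on the function field
  `modularFunctionFieldFullC k N` of `X₀(N)/k`, as semilinear automorphisms (so that it acts on
  places, divisors and `Pic⁰` through the prelude's `SemilinearAut` API).
* `placeReductionModL_smul`, `reductionModL_smul`: for `σ` in the decomposition group of `A`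
  inducing `φ` on the residue field, `red (σ • y) = φ • red y` (transport of structure plus
  uniqueness of the place reduction, `isPlaceReduction_unique`).
* `reductionModL_inertia` (G1), `reductionModL_frobenius` (G2), with `frobPic` the action of the
  coefficientwise Frobenius on `Pic⁰` and `frobPicInv` its inverse.
-/

set_option autoImplicit false
set_option linter.style.haveILetI false
set_option linter.unusedSectionVars false

noncomputable section

open ModularCurve AlgebraicCurve HahnSeries

namespace Fermat.Agent.S37.Gal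

/-! ## coefficientwise automorphisms of the function field in characteristic `ℓ` -/

section CoeffAut

variable (k : Type*) [Field k] (N : ℕ)

variable {k N} in
/-- the function field of `X₀(N)/k` is stable under coefficientwise ring endomorphisms. -/
theorem coeffMap_mem_fullC (φ : k →+* k) {x : LaurentSeries k}
    (hx : x ∈ modularFunctionFieldFullC k N) :
    coeffMap φ x ∈ modularFunctionFieldFullC k N := by
  replace hx : x ∈ Subfield.closure
      (Set.range (algebraMap k (LaurentSeries k)) ∪ divisorExpansionsC k N) := hx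
  induction hx using Subfield.closure_induction with
  | mem y hy =>
      rcases hy with ⟨a, rfl⟩ | ⟨d, hd, hdN, rfl⟩
      · rw [coeffMap_algebraMap]
        exact (modularFunctionFieldFullC k N).algebraMap_mem _
      · haveI := hd
        rw [coeffMap_qExpand, coeffMap_jqModC]
        exact jqModCd_mem_full k N hdN
  | one => simp
  | add x y _ _ hx hy => simpa using add_mem hx hy
  | neg x _ hx => simpa using neg_mem hx
  | inv x _ hx => simpa using inv_mem hx
  | mul x y _ _ hx hy => simpa using mul_mem hx hy

/-- the coefficientwise action of an automorphism of `k`, as a ring automorphism of the function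
field. -/
def coeffRingAut (φ : k ≃+* k) :
    (modularFunctionFieldFullC k N) ≃+* (modularFunctionFieldFullC k N) where
  toFun x := ⟨coeffMap (φ : k →+* k) (x : LaurentSeries k), coeffMap_mem_fullC _ x.2⟩
  invFun x := ⟨coeffMap (φ.symm : k →+* k) (x : LaurentSeries k), coeffMap_mem_fullC _ x.2⟩
  left_inv x := Subtype.ext <| by
    show coeffMap (φ.symm : k →+* k) (coeffMap (φ : k →+* k) (x : LaurentSeries k))
      = (x : LaurentSeries k)
    rw [coeffMap_coeffMap,
      coeffMap_congr (g := RingHom.id k) (RingHom.ext fun a => φ.symm_apply_apply a)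
        (x : LaurentSeries k),
      coeffMap_id]
  right_inv x := Subtype.ext <| by
    show coeffMap (φ : k →+* k) (coeffMap (φ.symm : k →+* k) (x : LaurentSeries k))
      = (x : LaurentSeries k)
    rw [coeffMap_coeffMap,
      coeffMap_congr (g := RingHom.id k) (RingHom.ext fun a => φ.apply_symm_apply a)
        (x : LaurentSeries k),
      coeffMap_id]
  map_mul' x y :=
    Subtype.ext (map_mul (coeffMap (φ : k →+* k)) (x : LaurentSeries k) (y : LaurentSeries k))
  map_add' x y :=
    Subtype.ext (map_add (coeffMap (φ : k →+* k)) (x : LaurentSeries k) (y : LaurentSeries k))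

@[simp]
theorem coe_coeffRingAut_apply (φ : k ≃+* k) (x : modularFunctionFieldFullC k N) :
    (coeffRingAut k N φ x : LaurentSeries k) = coeffMap (φ : k →+* k) (x : LaurentSeries k) :=
  rfl

theorem coeffRingAut_algebraMap (φ : k ≃+* k) (a : k) :
    coeffRingAut k N φ (algebraMap k (modularFunctionFieldFullC k N) a)
      = algebraMap k (modularFunctionFieldFullC k N) (φ a) :=
  Subtype.ext (coeffMap_algebraMap (φ : k →+* k) a)

/-- the coefficientwise action of an automorphism of `k` on the function field of `X₀(N)/k`,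
as a semilinear automorphism. -/
def coeffAut : (k ≃+* k) →* SemilinearAut k (modularFunctionFieldFullC k N) where
  toFun φ := ⟨(coeffRingAut k N φ, φ), fun a => coeffRingAut_algebraMap k N φ a⟩
  map_one' := by
    refine Subtype.ext (Prod.ext (RingEquiv.ext fun x => Subtype.ext ?_) rfl)
    show coeffMap ((1 : k ≃+* k) : k →+* k) (x : LaurentSeries k) = (x : LaurentSeries k)
    rw [show ((1 : k ≃+* k) : k →+* k) = RingHom.id k from RingHom.ext fun _ => rfl,
      coeffMap_id]
  map_mul' σ τ := by
    refine Subtype.ext (Prod.ext (RingEquiv.ext fun x => Subtype.ext ?_) rfl)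
    show coeffMap ((σ * τ : k ≃+* k) : k →+* k) (x : LaurentSeries k)
      = coeffMap (σ : k →+* k) (coeffMap (τ : k →+* k) (x : LaurentSeries k))
    rw [coeffMap_coeffMap]
    exact coeffMap_congr (RingHom.ext fun _ => rfl) _

@[simp]
theorem toRingAut_coeffAut (φ : k ≃+* k) :
    SemilinearAut.toRingAut (coeffAut k N φ) = coeffRingAut k N φ :=
  rfl

@[simp]
theorem baseAut_coeffAut (φ : k ≃+* k) : SemilinearAut.baseAut (coeffAut k N φ) = φ :=
  rfl

theorem coe_coeffAut_smul (φ : k ≃+* k) (x : modularFunctionFieldFullC k N) :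
    ((coeffAut k N φ • x : modularFunctionFieldFullC k N) : LaurentSeries k)
      = coeffMap (φ : k →+* k) (x : LaurentSeries k) :=
  rfl

variable {k} in
/-- coefficientwise maps along injective ring homomorphisms are injective. -/
theorem coeffMap_ne_zero {S : Type*} [CommRing S] [Nontrivial S] (φ : k →+* S)
    {x : LaurentSeries k} (hx : x ≠ 0) : coeffMap φ x ≠ 0 := by
  intro h
  apply hx
  ext n
  have h2 := congrArg (fun z => HahnSeries.coeff z n) h
  simp only [coeffMap_coeff, HahnSeries.coeff_zero] at h2
  rw [HahnSeries.coeff_zero]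
  exact (map_eq_zero φ).mp h2

end CoeffAut

/-! ## the action of the decomposition group on series with coefficients in `A` -/

section Decomposition

variable (A : ValuationSubring (AlgebraicClosure ℚ))

/-- the ring endomorphism of `A` induced by an element of the decomposition group. -/
def decompRingHom (σ : AlgebraicClosure ℚ ≃ₐ[ℚ] AlgebraicClosure ℚ)
    (hσ : σ ∈ A.decompositionSubgroup ℚ) : A →+* A :=
  MulSemiringAction.toRingHom (A.decompositionSubgroup ℚ) A ⟨σ, hσ⟩

theorem coe_decompRingHom (σ : AlgebraicClosure ℚ ≃ₐ[ℚ] AlgebraicClosure ℚ)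
    (hσ : σ ∈ A.decompositionSubgroup ℚ) (a : A) :
    ((decompRingHom A σ hσ a : A) : AlgebraicClosure ℚ) = σ (a : AlgebraicClosure ℚ) :=
  rfl

theorem coeffMap_subtype_decomp (σ : AlgebraicClosure ℚ ≃ₐ[ℚ] AlgebraicClosure ℚ)
    (hσ : σ ∈ A.decompositionSubgroup ℚ) (y : LaurentSeries A) :
    coeffMap A.subtype (coeffMap (decompRingHom A σ hσ) y)
      = coeffMap (σ : AlgebraicClosure ℚ →+* AlgebraicClosure ℚ) (coeffMap A.subtype y) := by
  rw [coeffMap_coeffMap, coeffMap_coeffMap]
  exact coeffMap_congr (RingHom.ext fun a => rfl) y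

theorem coeffMap_residue_decomp (σ : AlgebraicClosure ℚ ≃ₐ[ℚ] AlgebraicClosure ℚ)
    (hσ : σ ∈ A.decompositionSubgroup ℚ)
    (φ : IsLocalRing.ResidueField A ≃+* IsLocalRing.ResidueField A)
    (hφ : ∀ x : IsLocalRing.ResidueField A,
      (⟨σ, hσ⟩ : A.decompositionSubgroup ℚ) • x = φ x)
    (y : LaurentSeries A) :
    coeffMap (IsLocalRing.residue A) (coeffMap (decompRingHom A σ hσ) y)
      = coeffMap (φ : IsLocalRing.ResidueField A →+* IsLocalRing.ResidueField A)
          (coeffMap (IsLocalRing.residue A) y) := by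
  rw [coeffMap_coeffMap, coeffMap_coeffMap]
  refine coeffMap_congr (RingHom.ext fun a => ?_) y
  show IsLocalRing.residue A ((⟨σ, hσ⟩ : A.decompositionSubgroup ℚ) • a)
    = φ (IsLocalRing.residue A a)
  rw [← hφ, IsLocalRing.ResidueField.residue_smul]

end Decomposition

/-! ## (G) Galois equivariance of the reduction map -/

section Equivariance

set_option synthInstance.maxHeartbeats 400000

variable {N : ℕ} [NeZero N] (A : ValuationSubring (AlgebraicClosure ℚ))

/-- transport of structure: the conjugate of a place reduction by an element of the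
decomposition group is a place reduction. -/
theorem isPlaceReduction_conj
    {r : Place (AlgebraicClosure ℚ) (modularFunctionFieldBar N) →
      Place (IsLocalRing.ResidueField A)
        (modularFunctionFieldFullC (IsLocalRing.ResidueField A) N)}
    (hr : IsPlaceReductionAlong A (IsLocalRing.residue A) N r)
    (σ : AlgebraicClosure ℚ ≃ₐ[ℚ] AlgebraicClosure ℚ) (hσ : σ ∈ A.decompositionSubgroup ℚ)
    (φ : IsLocalRing.ResidueField A ≃+* IsLocalRing.ResidueField A)
    (hφ : ∀ x : IsLocalRing.ResidueField A,
      (⟨σ, hσ⟩ : A.decompositionSubgroup ℚ) • x = φ x) :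
    IsPlaceReductionAlong A (IsLocalRing.residue A) N
      (fun P => (coeffAut (IsLocalRing.ResidueField A) N φ)⁻¹ •
        r (arithmeticGalois (modularFunctionFieldFull N) σ • P)) := by
  classical
  set g := arithmeticGalois (L := AlgebraicClosure ℚ) (modularFunctionFieldFull N) σ with hg
  set gk := coeffAut (IsLocalRing.ResidueField A) N φ with hgk
  refine ⟨fun P => ?_, ?_⟩
  · rw [SemilinearAut.deg_smul, hr.1, SemilinearAut.deg_smul]
  · intro y hy hyk hne D hD Q
    set y' : LaurentSeries A := coeffMap (decompRingHom A σ hσ) y with hy'def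
    have e1 : coeffMap A.subtype y'
        = coeffMap (σ : AlgebraicClosure ℚ →+* AlgebraicClosure ℚ) (coeffMap A.subtype y) :=
      coeffMap_subtype_decomp A σ hσ y
    have e2 : coeffMap (IsLocalRing.residue A) y'
        = coeffMap (φ : IsLocalRing.ResidueField A →+* IsLocalRing.ResidueField A)
            (coeffMap (IsLocalRing.residue A) y) :=
      coeffMap_residue_decomp A σ hσ φ hφ y
    have hy' : coeffMap A.subtype y' ∈ modularFunctionFieldBar N := by
      rw [e1]
      exact coeffMap_mem_laurentBaseChange σ hy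
    have hyk' : coeffMap (IsLocalRing.residue A) y'
        ∈ modularFunctionFieldFullC (IsLocalRing.ResidueField A) N := by
      rw [e2]
      exact coeffMap_mem_fullC _ hyk
    have hne' : coeffMap (IsLocalRing.residue A) y' ≠ 0 := by
      rw [e2]
      exact coeffMap_ne_zero _ hne
    have ef : (⟨coeffMap A.subtype y', hy'⟩ : modularFunctionFieldBar N)
        = g • (⟨coeffMap A.subtype y, hy⟩ : modularFunctionFieldBar N) := Subtype.ext e1
    have efk : (⟨coeffMap (IsLocalRing.residue A) y', hyk'⟩ :
          modularFunctionFieldFullC (IsLocalRing.ResidueField A) N)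
        = gk • (⟨coeffMap (IsLocalRing.residue A) y, hyk⟩ :
          modularFunctionFieldFullC (IsLocalRing.ResidueField A) N) := Subtype.ext e2
    have hD' : ∀ P, (g • D) P
        = P.ord (⟨coeffMap A.subtype y', hy'⟩ : modularFunctionFieldBar N) := by
      intro P
      rw [SemilinearAut.divisor_smul_apply, hD, ef]
      have h := SemilinearAut.ord_smul g (g⁻¹ • P)
        (⟨coeffMap A.subtype y, hy⟩ : modularFunctionFieldBar N)
      rw [smul_inv_smul] at h
      exact h.symm
    have key := hr.2 y' hy' hyk' hne' (g • D) hD' (gk • Q)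
    rw [efk, SemilinearAut.ord_smul] at key
    rw [← key]
    have hcomp : Finsupp.mapDomain (fun P => gk⁻¹ • r (g • P)) D
        = gk⁻¹ • Finsupp.mapDomain r (g • D) := by
      rw [SemilinearAut.divisor_smul_def, SemilinearAut.divisor_smul_def,
        ← Finsupp.mapDomain_comp, ← Finsupp.mapDomain_comp]
      rfl
    rw [hcomp, SemilinearAut.divisor_smul_apply, inv_inv]

/-- place level: `r (σ P) = σ̄ (r P)` for `σ` in the decomposition group inducing `φ` on the
residue field. -/
theorem placeReductionModL_smul (h : ReductionInputsModL A N)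
    (σ : AlgebraicClosure ℚ ≃ₐ[ℚ] AlgebraicClosure ℚ) (hσ : σ ∈ A.decompositionSubgroup ℚ)
    (φ : IsLocalRing.ResidueField A ≃+* IsLocalRing.ResidueField A)
    (hφ : ∀ x : IsLocalRing.ResidueField A,
      (⟨σ, hσ⟩ : A.decompositionSubgroup ℚ) • x = φ x)
    (P : Place (AlgebraicClosure ℚ) (modularFunctionFieldBar N)) :
    placeReductionModL h (arithmeticGalois (modularFunctionFieldFull N) σ • P)
      = coeffAut (IsLocalRing.ResidueField A) N φ • placeReductionModL h P := by
  have hr := isPlaceReductionModL_placeReductionModL h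
  have hu := isPlaceReduction_unique (isPlaceReduction_conj A hr σ hσ φ hφ) hr h.choose_spec.2
  have hP := congrFun hu P
  rw [← hP, smul_inv_smul]

/-- **(G)** `red (σ • y) = σ̄ • red y` for `σ` in the decomposition group inducing `φ` on the
residue field (no hypothesis: if the reduction inputs fail, `red = 0`). -/
theorem reductionModL_smul
    (σ : AlgebraicClosure ℚ ≃ₐ[ℚ] AlgebraicClosure ℚ) (hσ : σ ∈ A.decompositionSubgroup ℚ)
    (φ : IsLocalRing.ResidueField A ≃+* IsLocalRing.ResidueField A)
    (hφ : ∀ x : IsLocalRing.ResidueField A,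
      (⟨σ, hσ⟩ : A.decompositionSubgroup ℚ) • x = φ x)
    (y : JZero N) :
    reductionModL A N (σ • y)
      = coeffAut (IsLocalRing.ResidueField A) N φ • reductionModL A N y := by
  classical
  by_cases h : ReductionInputsModL A N
  · obtain ⟨D, rfl⟩ := Pic0.mk_surjective y
    rw [galois_smul_pic0_def, SemilinearAut.pic0_smul_mk, reductionModL_mk h, reductionModL_mk h,
      SemilinearAut.pic0_smul_mk]
    congr 1
    apply Subtype.ext
    rw [coe_reductionDegZeroAlong, SemilinearAut.coe_degZeroSMulHom,
      SemilinearAut.coe_degZeroSMulHom, coe_reductionDegZeroAlong,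
      SemilinearAut.divisor_smul_def, SemilinearAut.divisor_smul_def,
      ← Finsupp.mapDomain_comp, ← Finsupp.mapDomain_comp]
    congr 1
    funext P
    exact placeReductionModL_smul A h σ hσ φ hφ P
  · rw [reductionModL_of_not h]
    simp

/-- **(G1)** inertia acts trivially after reduction. -/
theorem reductionModL_inertia (σ : AlgebraicClosure ℚ ≃ₐ[ℚ] AlgebraicClosure ℚ)
    (hσ : σ ∈ A.inertiaSubgroupIn ℚ) (y : JZero N) :
    reductionModL A N (σ • y) = reductionModL A N y := by
  obtain ⟨τ, hτ, rfl⟩ := hσ
  have hτ' : ∀ x : IsLocalRing.ResidueField A, τ • x = x := by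
    intro x
    have h1 : MulSemiringAction.toRingAut (A.decompositionSubgroup ℚ)
        (IsLocalRing.ResidueField A) τ = 1 := hτ
    have h2 := congrArg (fun e : RingAut (IsLocalRing.ResidueField A) => e x) h1
    exact h2
  have h := reductionModL_smul (N := N) A (τ : AlgebraicClosure ℚ ≃ₐ[ℚ] AlgebraicClosure ℚ) τ.2
    (RingEquiv.refl _) (fun x => hτ' x) y
  have h1 : coeffAut (IsLocalRing.ResidueField A) N (RingEquiv.refl _) = 1 :=
    map_one (coeffAut (IsLocalRing.ResidueField A) N)
  rw [h1, one_smul] at h
  exact h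

/-- the Frobenius automorphism `x ↦ x ^ ℓ` of the residue field. -/
def frobAut (ℓ : ℕ) [Fact ℓ.Prime] (hA : A.LiesOverPrime ℓ) :
    IsLocalRing.ResidueField A ≃+* IsLocalRing.ResidueField A :=
  haveI : CharP (IsLocalRing.ResidueField A) ℓ :=
    Fermat.Agent.S18.ValRing.charP_residueField A hA
  haveI : IsAlgClosed (IsLocalRing.ResidueField A) :=
    Fermat.Agent.S18.ValRing.isAlgClosed_residueField A
  RingEquiv.ofBijective (frobenius (IsLocalRing.ResidueField A) ℓ)
    ⟨frobenius_inj _ ℓ, fun x => by
      obtain ⟨z, hz⟩ := IsAlgClosed.exists_pow_nat_eq x (Fact.out : ℓ.Prime).pos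
      exact ⟨z, hz⟩⟩

theorem frobAut_apply (ℓ : ℕ) [Fact ℓ.Prime] (hA : A.LiesOverPrime ℓ)
    (x : IsLocalRing.ResidueField A) : frobAut A ℓ hA x = x ^ ℓ :=
  rfl

variable (N) in
/-- `Φ`: the coefficientwise Frobenius on `Pic⁰` of the reduction. -/
def frobPic (ℓ : ℕ) [Fact ℓ.Prime] (hA : A.LiesOverPrime ℓ) :
    JZeroC (IsLocalRing.ResidueField A) N →+ JZeroC (IsLocalRing.ResidueField A) N :=
  DistribSMul.toAddMonoidHom _ (coeffAut (IsLocalRing.ResidueField A) N (frobAut A ℓ hA))

variable (N) in
/-- `Ψ = Φ⁻¹`. -/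
def frobPicInv (ℓ : ℕ) [Fact ℓ.Prime] (hA : A.LiesOverPrime ℓ) :
    JZeroC (IsLocalRing.ResidueField A) N →+ JZeroC (IsLocalRing.ResidueField A) N :=
  DistribSMul.toAddMonoidHom _ (coeffAut (IsLocalRing.ResidueField A) N (frobAut A ℓ hA))⁻¹

theorem frobPic_apply (ℓ : ℕ) [Fact ℓ.Prime] (hA : A.LiesOverPrime ℓ)
    (m : JZeroC (IsLocalRing.ResidueField A) N) :
    frobPic N A ℓ hA m = coeffAut (IsLocalRing.ResidueField A) N (frobAut A ℓ hA) • m :=
  rfl

theorem frobPicInv_apply (ℓ : ℕ) [Fact ℓ.Prime] (hA : A.LiesOverPrime ℓ)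
    (m : JZeroC (IsLocalRing.ResidueField A) N) :
    frobPicInv N A ℓ hA m = (coeffAut (IsLocalRing.ResidueField A) N (frobAut A ℓ hA))⁻¹ • m :=
  rfl

theorem frobPic_frobPicInv (ℓ : ℕ) [Fact ℓ.Prime] (hA : A.LiesOverPrime ℓ)
    (m : JZeroC (IsLocalRing.ResidueField A) N) :
    frobPic N A ℓ hA (frobPicInv N A ℓ hA m) = m := by
  rw [frobPic_apply, frobPicInv_apply, smul_inv_smul]

theorem frobPicInv_frobPic (ℓ : ℕ) [Fact ℓ.Prime] (hA : A.LiesOverPrime ℓ)
    (m : JZeroC (IsLocalRing.ResidueField A) N) :
    frobPicInv N A ℓ hA (frobPic N A ℓ hA m) = m := by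
  rw [frobPic_apply, frobPicInv_apply, inv_smul_smul]

/-- **(G2)** Frobenius elements act as the coefficientwise Frobenius after reduction. -/
theorem reductionModL_frobenius (ℓ : ℕ) [Fact ℓ.Prime] (hA : A.LiesOverPrime ℓ)
    (σ : AlgebraicClosure ℚ ≃ₐ[ℚ] AlgebraicClosure ℚ) (hσ : A.IsFrobeniusAt σ ℓ) (y : JZero N) :
    reductionModL A N (σ • y) = frobPic N A ℓ hA (reductionModL A N y) := by
  obtain ⟨hσ', hfrob⟩ := hσ
  rw [frobPic_apply]
  exact reductionModL_smul A σ hσ' (frobAut A ℓ hA) (fun x => by rw [hfrob x, frobAut_apply]) y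

end Equivariance

end Fermat.Agent.S37.Gal
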