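/-
S37 leaf (helper6): "a function without poles on a curve over an algebraically closed field
is a constant" — characteristic-free, for a function field `κ/k` with a separating generator.
Input for the torsion-injectivity of the specialization map (`hconst`).
-/
import Fermat.Agent.S18_Charts

namespace Fermat.Agent.S37.KConst

set_option linter.style.haveILetI false

open AlgebraicCurve

variable {k κ : Type*} [Field k] [Field κ] [Algebra k κ]

/-- An algebraic element of an extension of an algebraically closed field is a constant. -/
theorem exists_algebraMap_of_isAlgebraic [IsAlgClosed k] (s : κ) (hs : IsAlgebraic k s) :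
    ∃ c : k, s = algebraMap k κ c := by
  have hint : IsIntegral k s := hs.isIntegral
  have hdeg : (minpoly k s).degree = 1 :=
    IsAlgClosed.degree_eq_one_of_irreducible k (minpoly.irreducible hint)
  obtain ⟨c, hc⟩ := minpoly.mem_range_of_degree_eq_one k s hdeg
  exact ⟨c, hc.symm⟩

/-- No poles ⇒ constant (`k` algebraically closed, `x` a separating transcendental generator). -/
theorem exists_algebraMap_of_ord_nonneg [IsAlgClosed k] (x : κ) (hx : Transcendental k x)
    [FiniteDimensional (IntermediateField.adjoin k {x}) κ]
    [Algebra.IsSeparable (IntermediateField.adjoin k {x}) κ] (s : κ)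
    (hs : ∀ Q : Place k κ, 0 ≤ Q.ord s) : ∃ c : k, s = algebraMap k κ c :=
  exists_algebraMap_of_isAlgebraic s
    (Fermat.Agent.S18.Charts.isAlgebraic_of_forall_ord_nonneg x hx s hs)

/-- `hconst`, in the shape consumed by `redSpec_torsion_injective`. -/
theorem hconst [IsAlgClosed k] (x : κ) (hx : Fermat.Agent.S24.IsGenerator k x)
    [Algebra.IsSeparable (IntermediateField.adjoin k {x}) κ] :
    ∀ s : κ, s ≠ 0 → (∀ Q : Place k κ, Q.ord s = 0) → ∃ c : k, s = algebraMap k κ c := by
  intro s _ hs
  haveI := hx.2
  exact exists_algebraMap_of_ord_nonneg x hx.1 s fun Q => (hs Q).ge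

end Fermat.Agent.S37.KConst
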