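import Mathlib
import Fermat.Agent.S37_Level

/-!
# S37: the pullback `π^* : JZero N → JZero M` commutes with the Galois action

Generic part: the pullback of divisors / of `Pic⁰` along an embedding of function fields commutes
with intertwined semilinear automorphisms.  Modular part: `piStar_smul`.
-/

set_option autoImplicit false
set_option linter.style.haveILetI false
set_option linter.unusedSectionVars false
set_option linter.deprecated false

noncomputable section

open ModularCurve AlgebraicCurve HahnSeries

namespace Fermat.Agent.S37.Level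

section Generic

variable {K F F' : Type*} [Field K] [Field F] [Field F'] [Algebra K F] [Algebra K F']

open scoped Pointwise

theorem restrictAlong_smul (φ : F →ₐ[K] F') (hφ : φ.toRingHom.IsIntegral)
    (g : SemilinearAut K F) (g' : SemilinearAut K F')
    (h : SemilinearAut.IntertwinesAlong (φ : F →+* F') g g') (w : Place K F') :
    (g' • w).restrictAlong φ hφ = g • (w.restrictAlong φ hφ) := by
  letI := algebraAlong φ
  haveI := isScalarTower_along φ
  haveI := isIntegral_along φ hφ
  have hinv := h.inv
  apply Place.ext
  ext f
  show algebraMap F F' f ∈ (g' • w).toValuationSubring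
    ↔ f ∈ (g • (w.restrict F)).toValuationSubring
  rw [SemilinearAut.smul_toValuationSubring, SemilinearAut.smul_toValuationSubring,
    ValuationSubring.mem_pointwise_smul_iff_inv_smul_mem,
    ValuationSubring.mem_pointwise_smul_iff_inv_smul_mem]
  have e : g'⁻¹ • algebraMap F F' f = algebraMap F F' (g⁻¹ • f) := hinv f
  rw [e]
  rfl

theorem ramificationIndexAlong_smul (φ : F →ₐ[K] F')
    (g : SemilinearAut K F) (g' : SemilinearAut K F')
    (h : SemilinearAut.IntertwinesAlong (φ : F →+* F') g g') (w : Place K F') :
    (g' • w).ramificationIndexAlong φ = w.ramificationIndexAlong φ := by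
  letI := algebraAlong φ
  have hinv := h.inv
  show Place.ramificationIndex (g' • w) F = Place.ramificationIndex w F
  unfold Place.ramificationIndex
  congr 1
  ext n
  simp only [Set.mem_setOf_eq]
  constructor
  · rintro ⟨hn, f, hf, hord⟩
    refine ⟨hn, g⁻¹ • f, ?_, ?_⟩
    · intro h0
      apply hf
      have := congrArg (g • ·) h0
      simpa using this
    · have e : g'⁻¹ • algebraMap F F' f = algebraMap F F' (g⁻¹ • f) := hinv f
      rw [← e, ← hord]
      have h2 := SemilinearAut.ord_smul g' w (g'⁻¹ • algebraMap F F' f)
      rw [smul_inv_smul] at h2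
      exact h2.symm
  · rintro ⟨hn, f, hf, hord⟩
    refine ⟨hn, g • f, ?_, ?_⟩
    · intro h0
      apply hf
      have := congrArg (g⁻¹ • ·) h0
      simpa using this
    · have e : g' • algebraMap F F' f = algebraMap F F' (g • f) := h f
      rw [← e, SemilinearAut.ord_smul, hord]

variable [HasPrincipalDivisors K F']

/-- the pullback of divisors along an embedding commutes with intertwined semilinear
automorphisms. -/
theorem pullbackAlong_smul (φ : F →ₐ[K] F') (hφ : φ.toRingHom.IsIntegral)
    (g : SemilinearAut K F) (g' : SemilinearAut K F')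
    (h : SemilinearAut.IntertwinesAlong (φ : F →+* F') g g') (D : Divisor K F) :
    Divisor.pullbackAlong φ hφ (g • D) = g' • Divisor.pullbackAlong φ hφ D := by
  ext w
  have hinv := h.inv
  rw [Divisor.pullbackAlong_apply, SemilinearAut.divisor_smul_apply,
    SemilinearAut.divisor_smul_apply, Divisor.pullbackAlong_apply,
    restrictAlong_smul φ hφ g⁻¹ g'⁻¹ hinv w, ramificationIndexAlong_smul φ g⁻¹ g'⁻¹ hinv w]

/-- the pullback on `Pic⁰` along an embedding commutes with intertwined semilinear
automorphisms. -/
theorem pullbackPic0Along_smul (φ : F →ₐ[K] F') (hφ : φ.toRingHom.IsIntegral)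
    (hFI : FundamentalIdentityAlong K φ hφ)
    (g : SemilinearAut K F) (g' : SemilinearAut K F')
    (h : SemilinearAut.IntertwinesAlong (φ : F →+* F') g g') (x : Pic0 K F) :
    Fermat.Agent.S37.PushPull.pullbackPic0Along φ hφ hFI (g • x) = g' • Fermat.Agent.S37.PushPull.pullbackPic0Along φ hφ hFI x := by
  obtain ⟨D, rfl⟩ := Pic0.mk_surjective x
  rw [SemilinearAut.pic0_smul_mk, Fermat.Agent.S37.PushPull.pullbackPic0Along_mk, Fermat.Agent.S37.PushPull.pullbackPic0Along_mk,
    SemilinearAut.pic0_smul_mk]
  refine congrArg Pic0.mk (Subtype.ext ?_)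
  exact pullbackAlong_smul φ hφ g g' h (D : Divisor K F)

end Generic

local notation "Qbar" => AlgebraicClosure ℚ

variable {N M : ℕ} [NeZero N] [NeZero M] (h : N ∣ M)

/-- the coefficientwise Galois actions at levels `N` and `M` are intertwined by the inclusion. -/
theorem intertwines_incl (σ : Qbar ≃ₐ[ℚ] Qbar) :
    SemilinearAut.IntertwinesAlong
      ((incl h : modularFunctionFieldBar N →ₐ[Qbar] modularFunctionFieldBar M) :
        modularFunctionFieldBar N →+* modularFunctionFieldBar M)
      (arithmeticGalois (modularFunctionFieldFull N) σ)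
      (arithmeticGalois (modularFunctionFieldFull M) σ) := by
  intro x
  apply Subtype.ext
  have h1 : ((arithmeticGalois (modularFunctionFieldFull M) σ •
      (incl h x : modularFunctionFieldBar M) : modularFunctionFieldBar M) : LaurentSeries Qbar)
      = coeffMap (σ : Qbar →+* Qbar) ((incl h x : modularFunctionFieldBar M) : LaurentSeries Qbar) :=
    coe_arithmeticGalois_smul (modularFunctionFieldFull M) σ (incl h x)
  have h2 : ((incl h (arithmeticGalois (modularFunctionFieldFull N) σ • x) :
      modularFunctionFieldBar M) : LaurentSeries Qbar)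
      = coeffMap (σ : Qbar →+* Qbar) (x : LaurentSeries Qbar) := by
    rw [coe_incl]
    exact coe_arithmeticGalois_smul (modularFunctionFieldFull N) σ x
  rw [coe_incl] at h1
  exact h1.trans h2.symm

/-- **`π^*` commutes with the Galois action.** -/
theorem piStar_smul (σ : Qbar ≃ₐ[ℚ] Qbar) (x : JZero N) :
    piStar h (σ • x) = σ • piStar h x :=
  pullbackPic0Along_smul (incl h) (incl_isIntegral h) (fundId_incl h)
    (arithmeticGalois (modularFunctionFieldFull N) σ)
    (arithmeticGalois (modularFunctionFieldFull M) σ) (intertwines_incl h σ) x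

end Fermat.Agent.S37.Level
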