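import Mathlib
import Fermat.Agent.S18_Package

/-!
# S37 (RI-glue): the S18 package with all its internals

`S18.Package.package` only exports the hub's `MainStatement`.  The specialisation of places
needs the intermediate facts as well: the Gauss datum, the generator, separability of the residue
field over `k(h̄)`, the transfer statements, the lattice lemma, the genus formula and `G2`.
`package'` re-exports them (same hypotheses as `package`); `package'_j`, `package'_h2`,
`package'_h3` are the three instances.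
-/

set_option autoImplicit false
set_option linter.style.haveILetI false

noncomputable section

open ModularCurve Polynomial AlgebraicCurve Fermat.Agent.S24 Fermat.Agent.S18

namespace Fermat.Agent.S37.Pkg

/-- the facts about a Gauss datum used by the specialisation of places -/
structure Facts {M : ℕ} [NeZero M] (A : ValuationSubring (AlgebraicClosure ℚ)) {n : ℕ}
    (D : Gauss.Datum A (modularFunctionFieldBar M) n) (g : ℤ) : Prop where
  n_pos : 0 < n
  isGenerator : IsGenerator (AlgebraicClosure ℚ) D.h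
  isSeparable : Algebra.IsSeparable
    (IntermediateField.adjoin (IsLocalRing.ResidueField A) {D.goodVal.hbar}) D.goodVal.κ
  chartVal : E1.ChartVal D.goodVal D.h (IntermediateField.adjoin (AlgebraicClosure ℚ) {D.h})
    (IntermediateField.adjoin (IsLocalRing.ResidueField A) {D.goodVal.hbar}) n
  isGenerator_bar : IsGenerator (IsLocalRing.ResidueField A) D.goodVal.hbar
  finrank_eq : Module.finrank (IntermediateField.adjoin (AlgebraicClosure ℚ) {D.h})
    (modularFunctionFieldBar M) = n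
  finrank_bar : Module.finrank
    (IntermediateField.adjoin (IsLocalRing.ResidueField A) {D.goodVal.hbar}) D.goodVal.κ = n
  transferZero : D.goodVal.TransferZero
  transferInf : D.goodVal.TransferInf
  latticeLemma : D.goodVal.LatticeLemma
  genusFormula : GenusFormula (AlgebraicClosure ℚ) (modularFunctionFieldBar M) g
  g2 : D.goodVal.G2 g
  archimedean : Archimedean' A
  main : MainStatement A D.h D.goodVal

set_option maxHeartbeats 1000000 in
/-- the package of `S18.Package.package`, with its internals. -/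
theorem package' (M : ℕ) [NeZero M] (ℓ : ℕ) [Fact ℓ.Prime] (hℓM : ¬ ℓ ∣ M)
    (A : ValuationSubring (AlgebraicClosure ℚ)) (hA : A.LiesOverPrime ℓ)
    {hZ : LaurentSeries ℤ} {P Q : ℤ[X]} {d : ℕ} (H : H1.Haupt M hZ P Q d)
    (B : Finset A) (hB : Set.InjOn (IsLocalRing.residue A) (B : Set A))
    (hunr : ∀ c : AlgebraicClosure ℚ, (∀ b ∈ B, (b : AlgebraicClosure ℚ) ≠ c) →
      Nat.card (PlacesAt (AlgebraicClosure ℚ) (H.gen (AlgebraicClosure ℚ)) c)
        = Module.finrank (IntermediateField.adjoin (AlgebraicClosure ℚ)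
            {H.gen (AlgebraicClosure ℚ)}) (Tower.FuncField (AlgebraicClosure ℚ) M)) :
    ∃ (n : ℕ) (D : Gauss.Datum A (modularFunctionFieldBar M) n) (g : ℤ), Facts A D g ∧
      n * d = H1.psi M ∧ D.hA = coeffMap (Int.castRingHom A) hZ ∧
      D.θA = coeffMap (Int.castRingHom A) (H1.uZ M) := by
  haveI : IsAlgClosed (IsLocalRing.ResidueField A) := ValRing.isAlgClosed_residueField A
  obtain ⟨n, D, hn, hmul, hhA, hθA⟩ := Gauss.exists_datum M ℓ hℓM A hA H
  have hgen := D.isGenerator_of_haupt H hhA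
  have hsep := Gauss.Datum.isSeparable_of_haupt ℓ hℓM hA D H hhA hθA
  have hC0 := D.chartVal_zero hsep
  have hCi := D.chartVal_inf hsep
  obtain ⟨e0, s0, hLB0⟩ :=
    LayerR.exists_localBasis_datum A hA D hn hZ (H1.uZ M) hhA hθA (Or.inl rfl) hC0
  obtain ⟨ei, si, hLBi⟩ :=
    LayerR.exists_localBasis_datum A hA D hn hZ (H1.uZ M) hhA hθA (Or.inr rfl) hCi
  have hunr' : ∀ c : AlgebraicClosure ℚ, (∀ b ∈ B, (b : AlgebraicClosure ℚ) ≠ c) →
      Nat.card (PlacesAt (AlgebraicClosure ℚ) D.h c)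
        = Module.finrank (IntermediateField.adjoin (AlgebraicClosure ℚ) {D.h})
            (modularFunctionFieldBar M) := by
    rw [D.h_eq_gen H hhA]
    exact hunr
  obtain ⟨g, hg, hG2⟩ := G2.exists_G2 D.goodVal hgen hC0 hCi B hB hunr'
    (fun b _ hu => E1.E_chart hC0 hLB0 b hu) (fun hu => E1.E_chart hCi hLBi 0 hu)
  exact ⟨n, D, g,
    { n_pos := hn
      isGenerator := hgen
      isSeparable := hsep
      chartVal := hC0
      isGenerator_bar := ⟨hC0.xbar_transcendental,
        Module.finite_of_finrank_pos (by rw [hC0.finrank_bar]; exact hn)⟩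
      finrank_eq := hC0.finrank_eq
      finrank_bar := hC0.finrank_bar
      transferZero := D.transferZero hgen
      transferInf := D.transferInf hgen
      latticeLemma := D.latticeLemma
      genusFormula := hg
      g2 := hG2
      archimedean := ValRing.archimedean' A hA
      main := HubMain.main_theorem D.goodVal (ValRing.archimedean' A hA) hgen
        (D.transferZero hgen) (D.transferInf hgen) D.latticeLemma g hg hG2 },
    hmul, hhA, hθA⟩

/-- the residue field of a valuation subring of `ℚ̄` is algebraically closed -/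
theorem isAlgClosed_residueField (A : ValuationSubring (AlgebraicClosure ℚ)) :
    IsAlgClosed (IsLocalRing.ResidueField A) := ValRing.isAlgClosed_residueField A

/-- the package with internals for `j` on any level prime to `ℓ ≥ 5`. -/
theorem package'_j (M : ℕ) [NeZero M] (ℓ : ℕ) [Fact ℓ.Prime] (hℓM : ¬ ℓ ∣ M)
    (A : ValuationSubring (AlgebraicClosure ℚ)) (hA : A.LiesOverPrime ℓ) (hℓ : 5 ≤ ℓ) :
    ∃ (n : ℕ) (D : Gauss.Datum A (modularFunctionFieldBar M) n) (g : ℤ), Facts A D g ∧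
      ∃ hZ : LaurentSeries ℤ, D.hA = coeffMap (Int.castRingHom A) hZ ∧
        D.θA = coeffMap (Int.castRingHom A) (H1.uZ M) := by
  haveI : Algebra.IsAlgebraic ℚ (AlgebraicClosure ℚ) := AlgebraicClosure.isAlgebraic ℚ
  letI : Algebra (AlgebraicClosure ℚ) ℂ :=
    (IsAlgClosed.lift : AlgebraicClosure ℚ →ₐ[ℚ] ℂ).toRingHom.toAlgebra
  obtain ⟨n, D, g, hF, -, hh, hθ⟩ := package' M ℓ hℓM A hA (H1.haupt_j M) (Branch.branchJ A)
    (Branch.hB_j A ℓ (ValRing.charP_residueField A hA) hℓ)
    (Branch.hunr_j (AlgebraicClosure ℚ) M A _ ((H1.haupt_j M).gen_rel (AlgebraicClosure ℚ)))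
  exact ⟨n, D, g, hF, _, hh, hθ⟩

/-- the package with internals for `h₂` on a level divisible by `2`, `ℓ = 3`. -/
theorem package'_h2 (M : ℕ) [NeZero M] (ℓ : ℕ) [Fact ℓ.Prime] (hℓM : ¬ ℓ ∣ M)
    (A : ValuationSubring (AlgebraicClosure ℚ)) (hA : A.LiesOverPrime ℓ) (hℓ : ℓ = 3)
    (hM : 2 ∣ M) :
    ∃ (n : ℕ) (D : Gauss.Datum A (modularFunctionFieldBar M) n) (g : ℤ), Facts A D g ∧
      ∃ hZ : LaurentSeries ℤ, D.hA = coeffMap (Int.castRingHom A) hZ ∧
        D.θA = coeffMap (Int.castRingHom A) (H1.uZ M) := by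
  haveI : Algebra.IsAlgebraic ℚ (AlgebraicClosure ℚ) := AlgebraicClosure.isAlgebraic ℚ
  letI : Algebra (AlgebraicClosure ℚ) ℂ :=
    (IsAlgClosed.lift : AlgebraicClosure ℚ →ₐ[ℚ] ℂ).toRingHom.toAlgebra
  obtain ⟨n, D, g, hF, -, hh, hθ⟩ := package' M ℓ hℓM A hA (H1.haupt_h2 M hM) (Branch.branch2 A)
    (Branch.hB_h2 A ℓ (ValRing.charP_residueField A hA) hℓ)
    (Branch.hunr_h2 (AlgebraicClosure ℚ) M A _ ((H1.haupt_h2 M hM).gen_rel (AlgebraicClosure ℚ)))
  exact ⟨n, D, g, hF, _, hh, hθ⟩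

/-- the package with internals for `h₃` on a level divisible by `3`, `ℓ = 2`. -/
theorem package'_h3 (M : ℕ) [NeZero M] (ℓ : ℕ) [Fact ℓ.Prime] (hℓM : ¬ ℓ ∣ M)
    (A : ValuationSubring (AlgebraicClosure ℚ)) (hA : A.LiesOverPrime ℓ) (hℓ : ℓ = 2)
    (hM : 3 ∣ M) :
    ∃ (n : ℕ) (D : Gauss.Datum A (modularFunctionFieldBar M) n) (g : ℤ), Facts A D g ∧
      ∃ hZ : LaurentSeries ℤ, D.hA = coeffMap (Int.castRingHom A) hZ ∧
        D.θA = coeffMap (Int.castRingHom A) (H1.uZ M) := by
  haveI : Algebra.IsAlgebraic ℚ (AlgebraicClosure ℚ) := AlgebraicClosure.isAlgebraic ℚ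
  letI : Algebra (AlgebraicClosure ℚ) ℂ :=
    (IsAlgClosed.lift : AlgebraicClosure ℚ →ₐ[ℚ] ℂ).toRingHom.toAlgebra
  obtain ⟨n, D, g, hF, -, hh, hθ⟩ := package' M ℓ hℓM A hA (H1.haupt_h3 M hM) (Branch.branch3 A)
    (Branch.hB_h3 A ℓ (ValRing.charP_residueField A hA) hℓ)
    (Branch.hunr_h3 (AlgebraicClosure ℚ) M A _ ((H1.haupt_h3 M hM).gen_rel (AlgebraicClosure ℚ)))
  exact ⟨n, D, g, hF, _, hh, hθ⟩

/-- a Gauss datum exists at every level prime to `ℓ` (built on `j`; no package needed) -/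
theorem exists_datum_j (M : ℕ) [NeZero M] (ℓ : ℕ) [Fact ℓ.Prime] (hℓM : ¬ ℓ ∣ M)
    (A : ValuationSubring (AlgebraicClosure ℚ)) (hA : A.LiesOverPrime ℓ) :
    ∃ (n : ℕ) (D : Gauss.Datum A (modularFunctionFieldBar M) n) (hZ : LaurentSeries ℤ), 0 < n ∧
      D.hA = coeffMap (Int.castRingHom A) hZ ∧
      D.θA = coeffMap (Int.castRingHom A) (H1.uZ M) := by
  obtain ⟨n, D, hn, -, hh, hθ⟩ := Gauss.exists_datum M ℓ hℓM A hA (H1.haupt_j M)
  exact ⟨n, D, _, hn, hh, hθ⟩

end Fermat.Agent.S37.Pkg
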