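import Mathlib
import Fermat.Prelude.Def_AlgebraicCurve_DivisorClassGroup

/-!
# S37: transport of places, orders and divisors along an isomorphism of function fields

For `e : κ ≃ₐ[k] κ'`:
* `placeMap e : Place k κ → Place k κ'` (valuation ring `e (O_Q)`), `placeEquiv e` the bijection;
* `ord_placeMap : (placeMap e Q).ord (e s) = Q.ord s`, `ord_placeMap' : (placeMap e Q).ord s' =
  Q.ord (e.symm s')`;
* `deg_placeMap`;
* `divMap e : Divisor k κ →+ Divisor k κ'` (`Finsupp.mapDomain`), `divMap_apply`,
  `degree_divMap`, principal divisors, `hasPrincipalDivisors`.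
-/

set_option autoImplicit false
set_option linter.style.haveILetI false
set_option linter.unusedSectionVars false

noncomputable section

open AlgebraicCurve

namespace Fermat.Agent.S37.PlaceEquiv

variable {k κ κ' : Type*} [Field k] [Field κ] [Field κ'] [Algebra k κ] [Algebra k κ']

/-- the isomorphism between a valuation ring and its image under a field isomorphism -/
def comapRingEquiv (e : κ ≃ₐ[k] κ') (A : ValuationSubring κ) :
    A ≃+* (A.comap (e.symm : κ' →+* κ) : ValuationSubring κ') where
  toFun x := ⟨e x, by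
    rw [ValuationSubring.mem_comap]
    show e.symm (e (x : κ)) ∈ A
    rw [AlgEquiv.symm_apply_apply]
    exact x.2⟩
  invFun y := ⟨e.symm y, y.2⟩
  left_inv x := Subtype.ext (e.symm_apply_apply _)
  right_inv y := Subtype.ext (e.apply_symm_apply _)
  map_mul' x y := Subtype.ext (map_mul e _ _)
  map_add' x y := Subtype.ext (map_add e _ _)

@[simp]
theorem coe_comapRingEquiv (e : κ ≃ₐ[k] κ') (A : ValuationSubring κ) (x : A) :
    ((comapRingEquiv e A x : (A.comap (e.symm : κ' →+* κ) : ValuationSubring κ')) : κ') = e x :=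
  rfl

/-- transport of a place along an isomorphism of function fields -/
def placeMap (e : κ ≃ₐ[k] κ') (Q : Place k κ) : Place k κ' where
  toValuationSubring := Q.toValuationSubring.comap (e.symm : κ' →+* κ)
  algebraMap_mem' a := by
    rw [ValuationSubring.mem_comap]
    show e.symm (algebraMap k κ' a) ∈ Q.toValuationSubring
    rw [e.symm.commutes]
    exact Q.algebraMap_mem' a
  ne_top' := by
    intro h
    apply Q.ne_top'
    rw [eq_top_iff]
    intro x _
    have hx : e x ∈ (Q.toValuationSubring.comap (e.symm : κ' →+* κ) : ValuationSubring κ') := by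
      rw [h]; exact ValuationSubring.mem_top _
    rw [ValuationSubring.mem_comap] at hx
    have hx' : e.symm (e x) ∈ Q.toValuationSubring := hx
    rwa [AlgEquiv.symm_apply_apply] at hx'
  isPrincipalIdealRing' :=
    IsPrincipalIdealRing.of_surjective
      (comapRingEquiv e Q.toValuationSubring : _ ≃+* _)
      (comapRingEquiv e Q.toValuationSubring).surjective

theorem mem_placeMap_iff (e : κ ≃ₐ[k] κ') (Q : Place k κ) (s : κ') :
    s ∈ (placeMap e Q).toValuationSubring ↔ e.symm s ∈ Q.toValuationSubring := Iff.rfl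

theorem apply_mem_placeMap_iff (e : κ ≃ₐ[k] κ') (Q : Place k κ) (s : κ) :
    e s ∈ (placeMap e Q).toValuationSubring ↔ s ∈ Q.toValuationSubring := by
  rw [mem_placeMap_iff, AlgEquiv.symm_apply_apply]

/-- orders are transported -/
theorem ord_placeMap (e : κ ≃ₐ[k] κ') (Q : Place k κ) (s : κ) :
    (placeMap e Q).ord (e s) = Q.ord s := by
  rcases eq_or_ne s 0 with rfl | hf
  · simp
  obtain ⟨π, hπ⟩ := IsDiscreteValuationRing.exists_irreducible Q.toValuationSubring
  obtain ⟨u, hu⟩ := Q.exists_unit_mul_zpow hf hπ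
  set n := Q.ord s with hn
  set ε := comapRingEquiv e Q.toValuationSubring with hε
  have hπ' : Irreducible (ε π) := (MulEquiv.irreducible_iff ε).mpr hπ
  have hu' : IsUnit (ε (u : Q.toValuationSubring)) := u.isUnit.map ε
  have hcoeu : (Subtype.val (Units.val hu'.unit) : κ') = e ((u : Q.toValuationSubring) : κ) := by
    rw [IsUnit.unit_spec]
    rfl
  have hcoeπ : (Subtype.val (ε π) : κ') = e (π : κ) := rfl
  have key : e s = (Subtype.val (Units.val hu'.unit) : κ') * ((Subtype.val (ε π) : κ') ^ n) := by
    rw [hcoeu, hcoeπ, hu, map_mul, map_zpow₀]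
  rw [key]
  exact (placeMap e Q).ord_unit_smul_zpow hu'.unit hπ' n

theorem ord_placeMap' (e : κ ≃ₐ[k] κ') (Q : Place k κ) (s : κ') :
    (placeMap e Q).ord s = Q.ord (e.symm s) := by
  rw [← ord_placeMap e Q (e.symm s), AlgEquiv.apply_symm_apply]

theorem placeMap_symm_placeMap (e : κ ≃ₐ[k] κ') (Q : Place k κ) :
    placeMap e.symm (placeMap e Q) = Q := by
  apply Place.ext
  ext x
  rw [mem_placeMap_iff, mem_placeMap_iff]
  show e.symm (e x) ∈ Q.toValuationSubring ↔ _
  rw [AlgEquiv.symm_apply_apply]

theorem placeMap_placeMap_symm (e : κ ≃ₐ[k] κ') (Q : Place k κ') :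
    placeMap e (placeMap e.symm Q) = Q := by
  apply Place.ext
  ext x
  rw [mem_placeMap_iff, mem_placeMap_iff]
  show e (e.symm x) ∈ Q.toValuationSubring ↔ _
  rw [AlgEquiv.apply_symm_apply]

/-- the bijection between the places of isomorphic function fields -/
def placeEquiv (e : κ ≃ₐ[k] κ') : Place k κ ≃ Place k κ' where
  toFun := placeMap e
  invFun := placeMap e.symm
  left_inv := placeMap_symm_placeMap e
  right_inv := placeMap_placeMap_symm e

@[simp] theorem placeEquiv_apply (e : κ ≃ₐ[k] κ') (Q : Place k κ) :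
    placeEquiv e Q = placeMap e Q := rfl

@[simp] theorem placeEquiv_symm_apply (e : κ ≃ₐ[k] κ') (Q : Place k κ') :
    (placeEquiv e).symm Q = placeMap e.symm Q := rfl

theorem placeMap_injective (e : κ ≃ₐ[k] κ') : Function.Injective (placeMap e) :=
  (placeEquiv e).injective

/-- the residue fields are isomorphic over `k` -/
def residueAlgEquiv (e : κ ≃ₐ[k] κ') (Q : Place k κ) :
    Q.ResidueField ≃ₐ[k] (placeMap e Q).ResidueField :=
  AlgEquiv.ofRingEquiv (f := IsLocalRing.ResidueField.mapEquiv
      (comapRingEquiv e Q.toValuationSubring)) <| fun a => by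
    have h3 : (comapRingEquiv e Q.toValuationSubring) (algebraMap k Q.toValuationSubring a)
        = algebraMap k (placeMap e Q).toValuationSubring a := by
      apply Subtype.ext
      rw [coe_comapRingEquiv, Place.coe_algebraMap, e.commutes]
      rfl
    show IsLocalRing.ResidueField.mapEquiv _ (IsLocalRing.residue _ _) = IsLocalRing.residue _ _
    rw [IsLocalRing.ResidueField.mapEquiv_apply, IsLocalRing.ResidueField.map_residue]
    exact congrArg _ h3

theorem deg_placeMap (e : κ ≃ₐ[k] κ') (Q : Place k κ) : (placeMap e Q).deg = Q.deg :=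
  ((residueAlgEquiv e Q).toLinearEquiv.finrank_eq).symm

/-- transport of divisors -/
def divMap (e : κ ≃ₐ[k] κ') : Divisor k κ →+ Divisor k κ' :=
  Finsupp.mapDomain.addMonoidHom (placeMap e)

theorem divMap_single (e : κ ≃ₐ[k] κ') (Q : Place k κ) (n : ℤ) :
    divMap e (Finsupp.single Q n) = Finsupp.single (placeMap e Q) n :=
  Finsupp.mapDomain_single

theorem divMap_apply (e : κ ≃ₐ[k] κ') (D : Divisor k κ) (Q : Place k κ) :
    divMap e D (placeMap e Q) = D Q :=
  Finsupp.mapDomain_apply (placeMap_injective e) D Q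

theorem divMap_apply' (e : κ ≃ₐ[k] κ') (D : Divisor k κ) (Q : Place k κ') :
    divMap e D Q = D (placeMap e.symm Q) := by
  rw [← divMap_apply e D (placeMap e.symm Q), placeMap_placeMap_symm]

theorem degree_divMap (e : κ ≃ₐ[k] κ') (D : Divisor k κ) :
    Divisor.degree (divMap e D) = Divisor.degree D := by
  induction D using Finsupp.induction with
  | zero => simp
  | single_add Q n D _ _ ih =>
    rw [map_add, map_add, map_add, ih, divMap_single, Divisor.degree_single,
      Divisor.degree_single, deg_placeMap]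

/-- the divisor of `e f` is the transport of the divisor of `f` -/
theorem divMap_eq_ord (e : κ ≃ₐ[k] κ') {D : Divisor k κ} {f : κ}
    (hD : ∀ Q, D Q = Q.ord f) (Q : Place k κ') : divMap e D Q = Q.ord (e f) := by
  rw [divMap_apply', hD, ← ord_placeMap e (placeMap e.symm Q) f, placeMap_placeMap_symm]

theorem isPrincipal_divMap (e : κ ≃ₐ[k] κ') {D : Divisor k κ} (hD : D.IsPrincipal) :
    (divMap e D).IsPrincipal := by
  obtain ⟨f, hf, hDf⟩ := hD
  exact ⟨e f, (map_ne_zero_iff e e.injective).mpr hf, fun Q => divMap_eq_ord e hDf Q⟩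

/-- principal divisors transport -/
theorem hasPrincipalDivisors (e : κ ≃ₐ[k] κ') [HasPrincipalDivisors k κ] :
    HasPrincipalDivisors k κ' := by
  refine ⟨fun f hf => ?_⟩
  obtain ⟨D, hD, hdeg⟩ := HasPrincipalDivisors.exists_divisor (K := k) (e.symm f)
    ((map_ne_zero_iff e.symm e.symm.injective).mpr hf)
  refine ⟨divMap e D, fun Q => ?_, ?_⟩
  · rw [divMap_eq_ord e hD Q, AlgEquiv.apply_symm_apply]
  · rw [degree_divMap, hdeg]

end Fermat.Agent.S37.PlaceEquiv
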