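/-
S37 leaf (helper6): separating generators of a function field in one variable, characteristic-free.

`κ/k` a field extension, `x ∈ κ` a separating generator (`κ / k(x)` finite separable).  Then
`Ω[κ⁄k] = κ · dx`, an element `y` with `dy ≠ 0` is again a separating generator, and for every
`f ≠ 0` one of `f`, `f * x` is a separating generator (`d(f x) = f dx + x df`).
This is what replaces "every transcendental element is a separating generator" (char 0) in the
theory of places of the special fibre.
-/
import Mathlib
import Fermat.Agent.S24_PlacesBasic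

set_option autoImplicit false
set_option linter.style.haveILetI false
set_option linter.unusedSectionVars false

noncomputable section

open IntermediateField

namespace Fermat.Agent.S37.SepGen

open Fermat.Agent.S24 Fermat.Agent.S24.Places

variable {k κ : Type*} [Field k] [Field κ] [Algebra k κ]

section Ker

variable {M : Type*} [AddCommGroup M] [Module κ M] [Module k M] [IsScalarTower k κ M]

/-- The constants of a derivation form an intermediate field. -/
def derKer (d : Derivation k κ M) : IntermediateField k κ where
  carrier := {s | d s = 0}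
  mul_mem' := by
    intro a b ha hb
    change d a = 0 at ha
    change d b = 0 at hb
    change d (a * b) = 0
    rw [Derivation.leibniz, ha, hb, smul_zero, smul_zero, add_zero]
  one_mem' := by simp
  add_mem' := by
    intro a b ha hb
    change d a = 0 at ha
    change d b = 0 at hb
    change d (a + b) = 0
    rw [map_add, ha, hb, add_zero]
  zero_mem' := by simp
  algebraMap_mem' := by
    intro c
    simp
  inv_mem' := by
    intro a ha
    change d a = 0 at ha
    change d a⁻¹ = 0
    rw [Derivation.leibniz_inv, ha, smul_zero]

theorem mem_derKer (d : Derivation k κ M) (s : κ) : s ∈ derKer d ↔ d s = 0 := Iff.rfl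

/-- A `k`-derivation of `κ` killing a separating generator `x` is zero. -/
theorem der_eq_zero (x : κ) [Algebra.IsSeparable (IntermediateField.adjoin k {x}) κ]
    (d : Derivation k κ M) (hd : d x = 0) (s : κ) : d s = 0 := by
  have hle : IntermediateField.adjoin k {x} ≤ derKer d := by
    rw [IntermediateField.adjoin_simple_le_iff]
    exact hd
  have hE : ∀ e : IntermediateField.adjoin k {x}, d (e : κ) = 0 := fun e => hle e.2
  let d' : Derivation (IntermediateField.adjoin k {x}) κ M :=
    { toFun := fun s => d s
      map_add' := fun a b => map_add d a b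
      map_smul' := by
        intro e a
        change d ((e : κ) * a) = (e : κ) • d a
        rw [Derivation.leibniz, hE e, smul_zero, add_zero]
      map_one_eq_zero' := d.map_one_eq_zero
      leibniz' := fun a b => d.leibniz a b }
  haveI : Algebra.FormallyUnramified (IntermediateField.adjoin k {x}) κ :=
    Algebra.FormallyUnramified.of_isSeparable _ _
  have h1 : d'.liftKaehlerDifferential
      (KaehlerDifferential.D (IntermediateField.adjoin k {x}) κ s) = d' s :=
    Derivation.liftKaehlerDifferential_comp_D d' s
  have h2 : KaehlerDifferential.D (IntermediateField.adjoin k {x}) κ s = 0 :=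
    Subsingleton.elim _ _
  rw [h2, map_zero] at h1
  exact h1.symm

end Ker

/-- `Ω[κ⁄k]` is spanned by `dx`, `x` a separating generator. -/
theorem span_D_eq_top (x : κ) [Algebra.IsSeparable (IntermediateField.adjoin k {x}) κ] :
    Submodule.span κ {KaehlerDifferential.D k κ x} = ⊤ := by
  set N : Submodule κ (Ω[κ⁄k]) := Submodule.span κ {KaehlerDifferential.D k κ x} with hN
  let d : Derivation k κ ((Ω[κ⁄k]) ⧸ N) := N.mkQ.compDer (KaehlerDifferential.D k κ)
  have hdx : d x = 0 := by
    change N.mkQ (KaehlerDifferential.D k κ x) = 0
    rw [Submodule.mkQ_apply, Submodule.Quotient.mk_eq_zero]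
    exact Submodule.subset_span rfl
  have hall : ∀ s : κ, KaehlerDifferential.D k κ s ∈ N := by
    intro s
    have h := der_eq_zero x d hdx s
    change N.mkQ (KaehlerDifferential.D k κ s) = 0 at h
    rwa [Submodule.mkQ_apply, Submodule.Quotient.mk_eq_zero] at h
  rw [eq_top_iff, ← KaehlerDifferential.span_range_derivation, Submodule.span_le]
  rintro _ ⟨s, rfl⟩
  exact hall s

/-- every differential is a multiple of `dx`. -/
theorem exists_smul_D (x : κ) [Algebra.IsSeparable (IntermediateField.adjoin k {x}) κ]
    (ω : Ω[κ⁄k]) : ∃ c : κ, ω = c • KaehlerDifferential.D k κ x := by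
  have h : ω ∈ Submodule.span κ {KaehlerDifferential.D k κ x} := by
    rw [span_D_eq_top x]; trivial
  obtain ⟨c, hc⟩ := Submodule.mem_span_singleton.mp h
  exact ⟨c, hc.symm⟩

/-- `dx ≠ 0` for a separating generator. -/
theorem D_ne_zero {x : κ} (hx : IsGenerator k x)
    [Algebra.IsSeparable (IntermediateField.adjoin k {x}) κ] :
    KaehlerDifferential.D k κ x ≠ 0 := by
  intro h0
  haveI : Subsingleton (Ω[κ⁄k]) := by
    refine ⟨fun a b => ?_⟩
    obtain ⟨ca, rfl⟩ := exists_smul_D x a
    obtain ⟨cb, rfl⟩ := exists_smul_D x b
    rw [h0, smul_zero, smul_zero]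
  haveI : Algebra.FormallyUnramified k κ := ⟨inferInstance⟩
  haveI := essFiniteType_of_isGenerator hx
  haveI : Algebra.IsSeparable k κ := (Algebra.FormallyUnramified.iff_isSeparable k κ).mp inferInstance
  exact hx.1 (Algebra.IsSeparable.isIntegral k x).isAlgebraic

/-- an element with nonzero differential is a separating generator. -/
theorem isSeparable_of_D_ne_zero {x : κ} (hx : IsGenerator k x)
    [Algebra.IsSeparable (IntermediateField.adjoin k {x}) κ] {y : κ}
    (hy : KaehlerDifferential.D k κ y ≠ 0) :
    Algebra.IsSeparable (IntermediateField.adjoin k {y}) κ := by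
  haveI := essFiniteType_of_isGenerator hx
  haveI : Algebra.EssFiniteType (IntermediateField.adjoin k {y}) κ :=
    Algebra.EssFiniteType.of_comp k (IntermediateField.adjoin k {y}) κ
  rw [← Algebra.FormallyUnramified.iff_isSeparable]
  refine ⟨?_⟩
  -- the `k`-derivation `D_{κ/k(y)}` kills `y`, hence everything
  let d₁ : Derivation k κ (Ω[κ⁄IntermediateField.adjoin k {y}]) :=
    (KaehlerDifferential.D (IntermediateField.adjoin k {y}) κ).restrictScalars k
  have hd₁y : d₁ y = 0 := by
    exact (KaehlerDifferential.D (IntermediateField.adjoin k {y}) κ).map_algebraMap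
      ⟨y, IntermediateField.mem_adjoin_simple_self k y⟩
  obtain ⟨b, hb⟩ := exists_smul_D x (KaehlerDifferential.D k κ y)
  have hb0 : b ≠ 0 := by
    rintro rfl
    rw [zero_smul] at hb
    exact hy hb
  have hlift : ∀ s : κ, d₁.liftKaehlerDifferential (KaehlerDifferential.D k κ s) = d₁ s :=
    fun s => Derivation.liftKaehlerDifferential_comp_D d₁ s
  have hd₁x : d₁ x = 0 := by
    have h1 := hlift y
    rw [hb, map_smul, hlift x, hd₁y] at h1
    exact (smul_eq_zero.mp h1).resolve_left hb0
  have hall : ∀ s : κ, KaehlerDifferential.D (IntermediateField.adjoin k {y}) κ s = 0 := by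
    intro s
    obtain ⟨a, ha⟩ := exists_smul_D x (KaehlerDifferential.D k κ s)
    have h1 := hlift s
    rw [ha, map_smul, hlift x, hd₁x, smul_zero] at h1
    exact h1.symm
  have htop : (⊤ : Submodule κ (Ω[κ⁄IntermediateField.adjoin k {y}])) = ⊥ := by
    rw [← KaehlerDifferential.span_range_derivation, Submodule.span_eq_bot]
    rintro _ ⟨s, rfl⟩
    exact hall s
  refine ⟨fun a b => ?_⟩
  have ha : a ∈ (⊤ : Submodule κ (Ω[κ⁄IntermediateField.adjoin k {y}])) := trivial
  have hb' : b ∈ (⊤ : Submodule κ (Ω[κ⁄IntermediateField.adjoin k {y}])) := trivial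
  rw [htop, Submodule.mem_bot] at ha hb'
  rw [ha, hb']

/-- a separating element of a function field is transcendental, hence a generator. -/
theorem isGenerator_of_isSeparable {x : κ} (hx : IsGenerator k x) {y : κ}
    [Algebra.IsSeparable (IntermediateField.adjoin k {y}) κ] : IsGenerator k y := by
  refine isGenerator_of_transcendental hx ?_
  intro hy
  haveI : Algebra.IsAlgebraic k (IntermediateField.adjoin k {y}) :=
    IntermediateField.isAlgebraic_adjoin_simple hy.isIntegral
  haveI : Algebra.IsAlgebraic (IntermediateField.adjoin k {y}) κ := inferInstance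
  haveI : Algebra.IsAlgebraic k κ := Algebra.IsAlgebraic.trans k (IntermediateField.adjoin k {y}) κ
  exact hx.1 (Algebra.IsAlgebraic.isAlgebraic x)

/-- **Separating generators exist next to every function**: for `f ≠ 0`, one of `f`, `f * x`
is a separating generator. -/
theorem exists_separating {x : κ} (hx : IsGenerator k x)
    [Algebra.IsSeparable (IntermediateField.adjoin k {x}) κ] (f : κ) (hf : f ≠ 0) :
    (IsGenerator k f ∧ Algebra.IsSeparable (IntermediateField.adjoin k {f}) κ) ∨
    (IsGenerator k (f * x) ∧ Algebra.IsSeparable (IntermediateField.adjoin k {f * x}) κ) := by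
  by_cases hDf : KaehlerDifferential.D k κ f = 0
  · right
    have hD : KaehlerDifferential.D k κ (f * x) ≠ 0 := by
      rw [Derivation.leibniz, hDf, smul_zero, add_zero]
      exact smul_ne_zero hf (D_ne_zero hx)
    haveI := isSeparable_of_D_ne_zero hx hD
    exact ⟨isGenerator_of_isSeparable hx, inferInstance⟩
  · left
    haveI := isSeparable_of_D_ne_zero hx hDf
    exact ⟨isGenerator_of_isSeparable hx, inferInstance⟩

end Fermat.Agent.S37.SepGen
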