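import Mathlib
import Fermat.Agent.S18_HubLift
import Fermat.Agent.S18_Charts
import Fermat.Agent.S18_G2

/-!
# S37: specialisation of places along a good valuation ring (abstract core)

`G : GoodVal O h` is a valuation ring of the function field `F/L` (characteristic zero) with
residue field `κ/k`.  Under the hypotheses established by the S18 hub (lattice lemma, transfer,
genus formula, `G2`) and the standard curve facts for `κ/k`, we construct a map
`r : Place L F → Place k κ` with **conservation of number**: for every unit `y` of `V`,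
`r_* (div y) = div (ρ y)`.

Method: for a divisor `E` put `R(E) = ρ(L(E) ∩ V)`; `dim_k R(E) = dim_L L(E)` (lattice lemma).
The base divisor of `R(E' + jH)` (`E' ≥ 0`, `H` the pole divisor of `h`, `j ≫ 0`) is
`r_* E' + j H̄`.
-/

set_option autoImplicit false
set_option linter.unusedSectionVars false
set_option linter.unusedVariables false
set_option linter.style.haveILetI false

noncomputable section

open AlgebraicCurve Fermat.Agent.S24 Fermat.Agent.RR

namespace Fermat.Agent.S37.SpecCore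

open Fermat.Agent.S18 Fermat.Agent.S18.HubRed Fermat.Agent.S18.HubDiv Fermat.Agent.S18.HubLift

/-! ### Base divisors of subspaces -/

section BaseDiv

variable {K E : Type*} [Field K] [Field E] [Algebra K E]

/-- `D` is the base divisor of the subspace `R`: the least divisor with `R ⊆ L(D)`. -/
def IsBaseDiv (R : Submodule K E) (D : Divisor K E) : Prop :=
  (∀ s ∈ R, s ≠ 0 → ∀ Q : Place K E, 0 ≤ Q.ord s + D Q) ∧
    ∀ Q : Place K E, ∃ s ∈ R, s ≠ 0 ∧ Q.ord s + D Q = 0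

theorem IsBaseDiv.le_LSpace {R : Submodule K E} {D : Divisor K E} (hD : IsBaseDiv R D) :
    R ≤ LSpace K E D := by
  intro s hs
  rcases eq_or_ne s 0 with rfl | h0
  · exact Submodule.zero_mem _
  · exact Or.inr (hD.1 s hs h0)

theorem IsBaseDiv.le_of_le_LSpace {R : Submodule K E} {D D' : Divisor K E} (hD : IsBaseDiv R D)
    (h : R ≤ LSpace K E D') : D ≤ D' := by
  intro Q
  obtain ⟨s, hs, hs0, hQ⟩ := hD.2 Q
  have := (h hs).resolve_left hs0 Q
  omega

theorem IsBaseDiv.mono {R R' : Submodule K E} {D D' : Divisor K E} (hD : IsBaseDiv R D)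
    (hD' : IsBaseDiv R' D') (h : R ≤ R') : D ≤ D' :=
  hD.le_of_le_LSpace (h.trans hD'.le_LSpace)

theorem IsBaseDiv.unique {R : Submodule K E} {D D' : Divisor K E} (hD : IsBaseDiv R D)
    (hD' : IsBaseDiv R D') : D = D' :=
  le_antisymm (hD.mono hD' le_rfl) (hD'.mono hD le_rfl)

/-- products: if `R₁ · R₂ ⊆ L(E₃)` then `D₁ + D₂ ≤ E₃`. -/
theorem IsBaseDiv.add_le {R₁ R₂ : Submodule K E} {D₁ D₂ E₃ : Divisor K E}
    (h₁ : IsBaseDiv R₁ D₁) (h₂ : IsBaseDiv R₂ D₂)
    (hmul : ∀ s₁ ∈ R₁, ∀ s₂ ∈ R₂, s₁ * s₂ ∈ LSpace K E E₃) : D₁ + D₂ ≤ E₃ := by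
  intro Q
  obtain ⟨s₁, hs₁, h10, hQ1⟩ := h₁.2 Q
  obtain ⟨s₂, hs₂, h20, hQ2⟩ := h₂.2 Q
  have h3 := (hmul s₁ hs₁ s₂ hs₂).resolve_left (mul_ne_zero h10 h20) Q
  rw [Q.ord_mul h10 h20] at h3
  rw [Finsupp.add_apply]
  omega

/-- existence of the base divisor of a bounded nonzero subspace. -/
theorem exists_isBaseDiv (R : Submodule K E) (E₀ : Divisor K E) (hR : R ≤ LSpace K E E₀)
    (s₀ : E) (hs₀ : s₀ ∈ R) (hs₀0 : s₀ ≠ 0) (D₀ : Divisor K E)
    (hD₀ : ∀ Q : Place K E, D₀ Q = Q.ord s₀) : ∃ D : Divisor K E, IsBaseDiv R D := by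
  classical
  have hex : ∀ Q : Place K E, ∃ ub : ℤ, (∃ s ∈ R, s ≠ 0 ∧ ub = -(Q.ord s)) ∧
      ∀ z : ℤ, (∃ s ∈ R, s ≠ 0 ∧ z = -(Q.ord s)) → z ≤ ub := by
    intro Q
    refine Int.exists_greatest_of_bdd ⟨E₀ Q, ?_⟩ ⟨-(Q.ord s₀), s₀, hs₀, hs₀0, rfl⟩
    rintro z ⟨s, hs, hs0, rfl⟩
    have := (hR hs).resolve_left hs0 Q
    omega
  choose d hd1 hd2 using hex
  have hlow : ∀ Q, -(Q.ord s₀) ≤ d Q := fun Q => hd2 Q _ ⟨s₀, hs₀, hs₀0, rfl⟩
  have hup : ∀ Q, d Q ≤ E₀ Q := by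
    intro Q
    obtain ⟨s, hs, hs0, hz⟩ := hd1 Q
    have := (hR hs).resolve_left hs0 Q
    omega
  refine ⟨Finsupp.onFinset (D₀.support ∪ E₀.support) d ?_, ?_, ?_⟩
  · intro Q hQ
    rw [Finset.mem_union, Finsupp.mem_support_iff, Finsupp.mem_support_iff]
    by_contra hcon
    push_neg at hcon
    have h1 := hlow Q
    have h2 := hup Q
    rw [← hD₀ Q, hcon.1] at h1
    rw [hcon.2] at h2
    omega
  · intro s hs hs0 Q
    rw [Finsupp.onFinset_apply]
    have := hd2 Q _ ⟨s, hs, hs0, rfl⟩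
    omega
  · intro Q
    obtain ⟨s, hs, hs0, hz⟩ := hd1 Q
    refine ⟨s, hs, hs0, ?_⟩
    rw [Finsupp.onFinset_apply]
    omega

/-- an effective divisor of degree zero is zero (all places of degree one). -/
theorem eq_zero_of_nonneg_of_degree (hdeg : ∀ v : Place K E, v.deg = 1) {D : Divisor K E}
    (h0 : 0 ≤ D) (hd : Divisor.degree D = 0) : D = 0 := by
  classical
  rw [LCore.degree_eq_sum, Finsupp.sum] at hd
  have h1 : ∀ v ∈ D.support, D v * (v.deg : ℤ) = 0 := by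
    refine (Finset.sum_eq_zero_iff_of_nonneg ?_).1 hd
    intro v _
    exact mul_nonneg (h0 v) (Int.natCast_nonneg _)
  ext v
  by_cases hv : v ∈ D.support
  · have := h1 v hv
    rw [hdeg v] at this
    simpa using this
  · simpa using Finsupp.notMem_support_iff.1 hv

theorem eq_of_le_of_degree_eq (hdeg : ∀ v : Place K E, v.deg = 1) {D D' : Divisor K E}
    (h : D ≤ D') (hd : Divisor.degree D = Divisor.degree D') : D = D' := by
  have h1 : D' - D = 0 := eq_zero_of_nonneg_of_degree hdeg (sub_nonneg.2 h)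
    (by rw [map_sub, hd, sub_self])
  exact (sub_eq_zero.1 h1).symm

end BaseDiv

/-! ### Reduction of subspaces -/

section Rd

variable {L F : Type*} [Field L] [Field F] [Algebra L F] {O : ValuationSubring L} {h : F}
  (G : GoodVal O h)

/-- the reduction of `W ∩ V`. -/
def Rd (W : Submodule L F) : Submodule (IsLocalRing.ResidueField O) G.κ where
  carrier := {s | ∃ x : G.V, (x : F) ∈ W ∧ G.ρ x = s}
  zero_mem' := ⟨0, W.zero_mem, map_zero _⟩
  add_mem' := by
    rintro _ _ ⟨x, hx, rfl⟩ ⟨y, hy, rfl⟩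
    exact ⟨x + y, W.add_mem hx hy, map_add _ _ _⟩
  smul_mem' := by
    rintro c _ ⟨x, hx, rfl⟩
    obtain ⟨c', rfl⟩ := IsLocalRing.residue_surjective c
    refine ⟨c' • x, ?_, (smul_residue G c' x).symm⟩
    rw [smul_V_coe, ← Algebra.smul_def]
    exact W.smul_mem _ hx

theorem mem_Rd {W : Submodule L F} {s : G.κ} :
    s ∈ Rd G W ↔ ∃ x : G.V, (x : F) ∈ W ∧ G.ρ x = s := Iff.rfl

theorem Rd_mono {W W' : Submodule L F} (hW : W ≤ W') : Rd G W ≤ Rd G W' := by
  rintro _ ⟨x, hx, rfl⟩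
  exact ⟨x, hW hx, rfl⟩

/-- lattice lemma: `dim_k ρ(W ∩ V) = dim_L W`. -/
theorem finrank_Rd (hLL : G.LatticeLemma) (W : Submodule L F) [FiniteDimensional L W] :
    FiniteDimensional (IsLocalRing.ResidueField O) (Rd G W) ∧
      Module.finrank (IsLocalRing.ResidueField O) (Rd G W) = Module.finrank L W := by
  obtain ⟨y, hyW, hsp, -, hkind⟩ := exists_good_basis G hLL W
  have h2 : Rd G W = Submodule.span (IsLocalRing.ResidueField O)
      (Set.range fun i => G.ρ (y i)) := by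
    apply le_antisymm
    · rintro _ ⟨x, hx, rfl⟩
      obtain ⟨c, rfl⟩ := hsp x hx
      rw [map_sum]
      refine Submodule.sum_mem _ fun i _ => ?_
      rw [← smul_residue]
      exact Submodule.smul_mem _ _ (Submodule.subset_span ⟨i, rfl⟩)
    · rw [Submodule.span_le]
      rintro _ ⟨i, rfl⟩
      exact ⟨y i, hyW i, rfl⟩
  rw [h2]
  refine ⟨FiniteDimensional.span_of_finite _ (Set.finite_range _), ?_⟩
  rw [finrank_span_eq_card hkind]
  simp

/-- units of `V`. -/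
theorem isUnit_iff_rho_ne_zero (y : G.V) : IsUnit y ↔ G.ρ y ≠ 0 :=
  (IsLocalRing.residue_ne_zero_iff_isUnit y).symm

theorem one_mem_Rd {W : Submodule L F} (h1 : (1 : F) ∈ W) : (1 : G.κ) ∈ Rd G W :=
  ⟨1, h1, map_one _⟩

end Rd

/-! ### Generic lemmas on `L`-spaces -/

section LGen

variable {K E : Type*} [Field K] [Field E] [Algebra K E]

theorem mul_mem_LSpace {D₁ D₂ : Divisor K E} {x₁ x₂ : E} (h₁ : x₁ ∈ LSpace K E D₁)
    (h₂ : x₂ ∈ LSpace K E D₂) : x₁ * x₂ ∈ LSpace K E (D₁ + D₂) := by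
  rcases eq_or_ne x₁ 0 with rfl | h10
  · rw [zero_mul]; exact Submodule.zero_mem _
  rcases eq_or_ne x₂ 0 with rfl | h20
  · rw [mul_zero]; exact Submodule.zero_mem _
  refine Or.inr fun v => ?_
  have a := h₁.resolve_left h10 v
  have b := h₂.resolve_left h20 v
  rw [v.ord_mul h10 h20, Finsupp.add_apply]
  omega

theorem one_mem_LSpace {D : Divisor K E} (hD : 0 ≤ D) : (1 : E) ∈ LSpace K E D :=
  Or.inr fun v => by
    rw [Place.ord_one]
    have := hD v
    simpa using this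

/-- `x ∈ L(P + A)`, `P = div f` ⇒ `x f ∈ L(A)`. -/
theorem mul_mem_LSpace_of_div {P A : Divisor K E} {f x : E} (hf : f ≠ 0)
    (hP : ∀ v : Place K E, P v = v.ord f) (hx : x ∈ LSpace K E (P + A)) :
    x * f ∈ LSpace K E A := by
  rcases eq_or_ne x 0 with rfl | hx0
  · rw [zero_mul]; exact Submodule.zero_mem _
  refine Or.inr fun v => ?_
  have a := hx.resolve_left hx0 v
  rw [Finsupp.add_apply, hP v] at a
  rw [v.ord_mul hx0 hf]
  omega

/-- `x f ∈ L(A)`, `P = div f` ⇒ `x ∈ L(A + P)`. -/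
theorem mem_LSpace_of_mul_mem {P A : Divisor K E} {f x : E} (hf : f ≠ 0)
    (hP : ∀ v : Place K E, P v = v.ord f) (hx : x * f ∈ LSpace K E A) :
    x ∈ LSpace K E (A + P) := by
  rcases eq_or_ne x 0 with rfl | hx0
  · exact Submodule.zero_mem _
  refine Or.inr fun v => ?_
  have a := hx.resolve_left (mul_ne_zero hx0 hf) v
  rw [v.ord_mul hx0 hf] at a
  rw [Finsupp.add_apply, hP v]
  omega

/-- an effective divisor of degree one is a place. -/
theorem exists_single_of_degree_one (hdeg : ∀ v : Place K E, v.deg = 1) {D : Divisor K E}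
    (h0 : 0 ≤ D) (hd : Divisor.degree D = 1) : ∃ Q : Place K E, D = Finsupp.single Q 1 := by
  classical
  have hne : D ≠ 0 := by
    rintro rfl
    rw [map_zero] at hd
    exact zero_ne_one hd
  obtain ⟨Q, hQ⟩ : ∃ Q, D Q ≠ 0 := by
    by_contra hcon
    push_neg at hcon
    exact hne (Finsupp.ext hcon)
  have hQ1 : 1 ≤ D Q := by
    have := h0 Q
    simp only [Finsupp.coe_zero, Pi.zero_apply] at this
    omega
  have hle : Finsupp.single Q 1 ≤ D := by
    intro v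
    by_cases hv : v = Q
    · subst hv; simpa using hQ1
    · rw [Finsupp.single_apply, if_neg (Ne.symm hv)]; exact h0 v
  refine ⟨Q, (eq_of_le_of_degree_eq hdeg hle ?_).symm⟩
  rw [Divisor.degree_single, hdeg, hd]
  simp

end LGen

/-! ### The main construction -/

section Main

variable {L F : Type*} [Field L] [IsAlgClosed L] [CharZero L] [Field F] [Algebra L F]
  {O : ValuationSubring L} {h : F} (G : GoodVal O h)
  [IsAlgClosed (IsLocalRing.ResidueField O)]
  (hh : IsGenerator L h) (hT0 : G.TransferZero) (hTI : G.TransferInf) (hLL : G.LatticeLemma)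
  {g : ℤ} (hgen : GenusFormula L F g) (hG2 : G.G2 g)
  (hκ : IsGenerator (IsLocalRing.ResidueField O) G.hbar)
  [Algebra.IsSeparable (IntermediateField.adjoin (IsLocalRing.ResidueField O) {G.hbar}) G.κ]
  (hres : LCore.ResConst (IsLocalRing.ResidueField O) G.κ)
  (hdegκ : ∀ Q : Place (IsLocalRing.ResidueField O) G.κ, Q.deg = 1)
  (hprκ : HasPrincipalDivisors (IsLocalRing.ResidueField O) G.κ)
  (hneκ : Nonempty (Place (IsLocalRing.ResidueField O) G.κ))
  (H : Divisor L F) (hH : ∀ v : Place L F, H v = max 0 (-(v.ord h)))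
  (hHdeg : Divisor.degree H = (Module.finrank (IntermediateField.adjoin L {h}) F : ℤ))
  (Hb : Divisor (IsLocalRing.ResidueField O) G.κ)
  (hHb : ∀ Q : Place (IsLocalRing.ResidueField O) G.κ, Hb Q = max 0 (-(Q.ord G.hbar)))
  (hHbdeg : Divisor.degree Hb = (Module.finrank (IntermediateField.adjoin L {h}) F : ℤ))

include hH in
theorem Wab_one_eq (a : ℕ) : Wab L h 1 (1 : F) a 0 = LSpace L F ((a : ℤ) • H) := by
  ext x
  rw [mem_Wab, mem_LSpace]
  refine or_congr Iff.rfl (forall_congr' fun P => ?_)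
  have hb : bd h 1 (1 : F) a 0 P = a * min (P.ord h) 0 := by
    simp [bd]
  rw [hb, Finsupp.smul_apply, hH P, smul_eq_mul]
  have : max 0 (-(P.ord h)) = -(min (P.ord h) 0) := by
    rcases le_total (P.ord h) 0 with h1 | h1
    · rw [max_eq_right (by omega), min_eq_left h1]
    · rw [max_eq_left (by omega), min_eq_right h1]; simp
  rw [this]
  constructor <;> intro hx <;> linarith

include hH in
theorem Rab_eq (a : ℕ) : Rab G 1 (1 : F) a 0 = Rd G (LSpace L F ((a : ℤ) • H)) := by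
  ext s
  constructor
  · rintro ⟨x, hx, rfl⟩
    refine ⟨x, ?_, rfl⟩
    rw [← Wab_one_eq H hH a]
    exact hx
  · rintro ⟨x, hx, rfl⟩
    refine ⟨x, ?_, rfl⟩
    show (x : F) ∈ Wab L h 1 (1 : F) a 0
    rw [Wab_one_eq H hH a]
    exact hx

include hκ hHb in
theorem mem_Lbar2_iff (a : ℕ) (s : G.κ) :
    s ∈ Lbar2 G a 0 ↔ s ∈ LSpace (IsLocalRing.ResidueField O) G.κ ((a : ℤ) • Hb) := by
  haveI : FiniteDimensional (IntermediateField.adjoin (IsLocalRing.ResidueField O) {G.hbar}) G.κ :=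
    hκ.2
  rw [Charts.mem_LSpace_iff G.hbar hκ.1 Hb hHb (a : ℤ) s]
  show (IsIntegral _ (s * G.hbar ^ 0) ∧ IsIntegral _ (s * G.hbar⁻¹ ^ a)) ↔ _
  rw [pow_zero, mul_one, zpow_neg, zpow_natCast, inv_pow]

include hh hT0 hTI hLL hgen hG2 hκ hH hHb in
/-- (F1): for `a` large, `ρ(L(aH) ∩ V) = L̄(a H̄)`. -/
theorem exists_J : ∃ J : ℕ, ∀ a : ℕ, J ≤ a →
    Rd G (LSpace L F ((a : ℤ) • H))
      = LSpace (IsLocalRing.ResidueField O) G.κ ((a : ℤ) • Hb) := by
  have hu : G.ρ (1 : G.V) = 1 := map_one _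
  have hdiv : ∀ P : Place L F, ((1 : ℕ) : ℤ) ∣ P.ord (((1 : G.V) : F)) := fun P => by simp
  obtain ⟨J, -, hlift⟩ :=
    exists_lift_bound G hh hT0 hTI hLL one_ne_zero (1 : G.V) hu hdiv hgen hG2
  refine ⟨J, fun a ha => ?_⟩
  have hh0 : h ≠ 0 := h_ne_zero hh
  ext s
  rw [← mem_Lbar2_iff G hκ Hb hHb a s]
  constructor
  · intro hs
    have hs' : s ∈ Rab G 1 (((1 : G.V) : F)) a 0 := by
      show s ∈ Rab G 1 (1 : F) a 0
      rw [Rab_eq G H hH a]; exact hs
    exact Rab_subset_Lbar2 G hT0 hTI hh0 one_ne_zero (1 : G.V) hu hdiv hs'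
  · intro hs
    have h1 : s ∈ Rab G 1 (1 : F) a 0 := hlift a 0 (by omega) s hs
    rwa [Rab_eq G H hH a] at h1

include hκ hHb in
/-- (B1): `a H̄` is the base divisor of `L̄(a H̄)`. -/
theorem isBaseDiv_LSpace_smul (a : ℕ) :
    IsBaseDiv (LSpace (IsLocalRing.ResidueField O) G.κ ((a : ℤ) • Hb)) ((a : ℤ) • Hb) := by
  have hb0 : G.hbar ≠ 0 := fun h0 => hκ.1 (h0 ▸ isAlgebraic_zero)
  refine ⟨fun s hs hs0 Q => hs.resolve_left hs0 Q, fun Q => ?_⟩
  rcases le_or_gt 0 (Q.ord G.hbar) with h1 | h1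
  · refine ⟨1, one_mem_LSpace ?_, one_ne_zero, ?_⟩
    · intro v
      rw [Finsupp.smul_apply, hHb v, smul_eq_mul]
      simp only [Finsupp.coe_zero, Pi.zero_apply]
      positivity
    · rw [Place.ord_one, Finsupp.smul_apply, hHb Q, max_eq_left (by omega)]
      simp
  · refine ⟨G.hbar ^ a, Or.inr fun v => ?_, pow_ne_zero _ hb0, ?_⟩
    · rw [ord_pow', Finsupp.smul_apply, hHb v, smul_eq_mul]
      have : 0 ≤ v.ord G.hbar + max 0 (-(v.ord G.hbar)) := by
        rcases le_total 0 (v.ord G.hbar) with h2 | h2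
        · rw [max_eq_left (by omega)]; omega
        · rw [max_eq_right (by omega)]; omega
      have ha : (0 : ℤ) ≤ a := Int.natCast_nonneg a
      nlinarith
    · rw [ord_pow', Finsupp.smul_apply, hHb Q, smul_eq_mul, max_eq_right (by omega)]
      ring

/-! #### The degree computation -/

include hH in
theorem H_nonneg : 0 ≤ H := fun v => by
  rw [hH v]
  exact le_max_left _ _

include hH in
theorem smul_H_nonneg (a : ℕ) : 0 ≤ (a : ℤ) • H := fun v => by
  have := H_nonneg H hH v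
  simp only [Finsupp.coe_zero, Pi.zero_apply] at this
  rw [Finsupp.smul_apply, smul_eq_mul]
  simp only [Finsupp.coe_zero, Pi.zero_apply]
  positivity

include hH in
theorem add_smul_H_nonneg {E' : Divisor L F} (hE' : 0 ≤ E') (a : ℕ) : 0 ≤ E' + (a : ℤ) • H :=
  add_nonneg hE' (smul_H_nonneg H hH a)

include hHdeg in
theorem degree_add_smul (E' : Divisor L F) (a : ℕ) :
    Divisor.degree (E' + (a : ℤ) • H)
      = Divisor.degree E' + a * (Module.finrank (IntermediateField.adjoin L {h}) F : ℤ) := by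
  rw [map_add, map_zsmul, hHdeg, smul_eq_mul]

include hHbdeg in
theorem degree_smul_Hb (a : ℕ) :
    Divisor.degree ((a : ℤ) • Hb)
      = a * (Module.finrank (IntermediateField.adjoin L {h}) F : ℤ) := by
  rw [map_zsmul, hHbdeg, smul_eq_mul]

include hh in
theorem finrank_pos' : (1 : ℤ) ≤ (Module.finrank (IntermediateField.adjoin L {h}) F : ℤ) := by
  haveI : FiniteDimensional (IntermediateField.adjoin L {h}) F := hh.2
  have : 0 < Module.finrank (IntermediateField.adjoin L {h}) F := Module.finrank_pos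
  exact_mod_cast this

include hH in
theorem one_mem_RE {E' : Divisor L F} (hE' : 0 ≤ E') (a : ℕ) :
    (1 : G.κ) ∈ Rd G (LSpace L F (E' + (a : ℤ) • H)) :=
  one_mem_Rd G (one_mem_LSpace (add_smul_H_nonneg H hH hE' a))

variable (d₀ : ℤ)
  (hd₀ : ∀ D : Divisor L F, d₀ < Divisor.degree D →
    (Module.finrank L (LSpace L F D) : ℤ) = Divisor.degree D + 1 - g)
  (J : ℕ)
  (hJ : ∀ a : ℕ, J ≤ a → Rd G (LSpace L F ((a : ℤ) • H))
    = LSpace (IsLocalRing.ResidueField O) G.κ ((a : ℤ) • Hb))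
  (hJd : d₀ < (J : ℤ))

include hh hLL hH hHdeg hd₀ hJd in
/-- (M2): `dim_k R(E' + aH) = deg E' + a n + 1 - g`. -/
theorem finrank_RE (E' : Divisor L F) (hE' : 0 ≤ E') (a : ℕ) (ha : J ≤ a) :
    FiniteDimensional (IsLocalRing.ResidueField O) (Rd G (LSpace L F (E' + (a : ℤ) • H))) ∧
    (Module.finrank (IsLocalRing.ResidueField O) (Rd G (LSpace L F (E' + (a : ℤ) • H))) : ℤ)
      = Divisor.degree E' + a * (Module.finrank (IntermediateField.adjoin L {h}) F : ℤ)
        + 1 - g := by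
  haveI := finiteDimensional_LSpace hh (E' + (a : ℤ) • H)
  obtain ⟨h1, h2⟩ := finrank_Rd G hLL (LSpace L F (E' + (a : ℤ) • H))
  refine ⟨h1, ?_⟩
  have hn := finrank_pos' hh
  have h3 := LCore.degree_nonneg hE'
  have h4 : (J : ℤ) ≤ a := by exact_mod_cast ha
  have h5 : (0 : ℤ) ≤ a := Int.natCast_nonneg a
  rw [h2, hd₀ _ ?_, degree_add_smul H hHdeg]
  rw [degree_add_smul H hHdeg]
  nlinarith

include hh hH hHdeg hd₀ in
/-- (M3): the complement of an effective divisor. -/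
theorem exists_complement (E' : Divisor L F) (hE' : 0 ≤ E') :
    ∃ (m : ℕ) (f : G.V) (Df E'' : Divisor L F), IsUnit f ∧
      (∀ P : Place L F, Df P = P.ord (f : F)) ∧ Divisor.degree Df = 0 ∧ 0 ≤ E'' ∧
      E' + E'' = Df + (m : ℤ) • H := by
  classical
  have hpr := Places.hasPrincipalDivisors hh
  have hn := finrank_pos' hh
  have h3 := LCore.degree_nonneg hE'
  set m : ℕ := (Divisor.degree E' + |g| + |d₀| + 1).toNat with hm
  have hmZ : (m : ℤ) = Divisor.degree E' + |g| + |d₀| + 1 :=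
    Int.toNat_of_nonneg (by positivity)
  have hdeg : Divisor.degree ((m : ℤ) • H - E')
      = m * (Module.finrank (IntermediateField.adjoin L {h}) F : ℤ) - Divisor.degree E' := by
    rw [map_sub, map_zsmul, hHdeg, smul_eq_mul]
  have hm0 : (0 : ℤ) ≤ m := Int.natCast_nonneg m
  have hlarge : d₀ < Divisor.degree ((m : ℤ) • H - E') := by
    rw [hdeg]
    nlinarith [abs_nonneg g, le_abs_self d₀]
  have hfr := hd₀ _ hlarge
  haveI := finiteDimensional_LSpace hh ((m : ℤ) • H - E')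
  have hpos : 0 < Module.finrank L (LSpace L F ((m : ℤ) • H - E')) := by
    have : (0 : ℤ) < (Module.finrank L (LSpace L F ((m : ℤ) • H - E')) : ℤ) := by
      rw [hfr, hdeg]
      nlinarith [abs_nonneg d₀, le_abs_self g]
    exact_mod_cast this
  obtain ⟨f₀, hf₀, hf₀0⟩ : ∃ f₀ ∈ LSpace L F ((m : ℤ) • H - E'), f₀ ≠ 0 := by
    have hne : LSpace L F ((m : ℤ) • H - E') ≠ ⊥ := by
      intro hbot
      rw [hbot, finrank_bot] at hpos
      exact lt_irrefl _ hpos
    exact Submodule.exists_mem_ne_zero_of_ne_bot hne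
  obtain ⟨c, hc0, hc1, hc2⟩ := G.scale f₀ hf₀0
  have hfF : algebraMap L F c * f₀ ≠ 0 := mul_ne_zero ((map_ne_zero _).2 hc0) hf₀0
  have hfu : IsUnit (⟨algebraMap L F c * f₀, hc1⟩ : G.V) :=
    IsUnit.of_mul_eq_one (⟨(algebraMap L F c * f₀)⁻¹, hc2⟩ : G.V)
      (Subtype.ext (mul_inv_cancel₀ hfF))
  obtain ⟨Df, hDf, hDfdeg⟩ := hpr.exists_divisor (algebraMap L F c * f₀) hfF
  have hordf : ∀ P : Place L F, P.ord (algebraMap L F c * f₀) = P.ord f₀ := fun P => by
    rw [← Algebra.smul_def, ord_smul_const P hc0]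
  refine ⟨m, ⟨algebraMap L F c * f₀, hc1⟩, Df, Df + (m : ℤ) • H - E', hfu, hDf, hDfdeg, ?_,
    by abel⟩
  intro P
  have := hf₀.resolve_left hf₀0 P
  simp only [Finsupp.coe_sub, Finsupp.coe_add, Pi.sub_apply, Pi.add_apply, Finsupp.coe_zero,
    Pi.zero_apply] at this ⊢
  rw [hDf P, hordf P]
  linarith

/-- (M4): products land in `L((m+a+b)H)` after multiplication by `f`. -/
theorem mul_mul_mem {E' E'' Df : Divisor L F} {m : ℕ} {f : F} (hf : f ≠ 0)
    (hDf : ∀ P : Place L F, Df P = P.ord f) (hsum : E' + E'' = Df + (m : ℤ) • H) {a b : ℕ}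
    {x₁ x₂ : F} (h₁ : x₁ ∈ LSpace L F (E' + (a : ℤ) • H))
    (h₂ : x₂ ∈ LSpace L F (E'' + (b : ℤ) • H)) :
    x₁ * x₂ * f ∈ LSpace L F (((m + a + b : ℕ) : ℤ) • H) := by
  have h3 := mul_mem_LSpace h₁ h₂
  have hE : (E' + (a : ℤ) • H) + (E'' + (b : ℤ) • H)
      = Df + ((m + a + b : ℕ) : ℤ) • H := by
    have : (E' + (a : ℤ) • H) + (E'' + (b : ℤ) • H)
        = (E' + E'') + ((a : ℤ) • H + (b : ℤ) • H) := by abel
    rw [this, hsum]
    push_cast
    rw [add_smul, add_smul]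
    abel
  rw [hE] at h3
  exact mul_mem_LSpace_of_div hf hDf h3

include hJ in
theorem rho_mul_mem {E' E'' Df : Divisor L F} {m : ℕ} (f : G.V) (hf : (f : F) ≠ 0)
    (hDf : ∀ P : Place L F, Df P = P.ord (f : F)) (hsum : E' + E'' = Df + (m : ℤ) • H)
    {a b : ℕ} (hab : J ≤ m + a + b) {s₁ s₂ : G.κ}
    (h₁ : s₁ ∈ Rd G (LSpace L F (E' + (a : ℤ) • H)))
    (h₂ : s₂ ∈ Rd G (LSpace L F (E'' + (b : ℤ) • H))) :
    s₁ * s₂ * G.ρ f
      ∈ LSpace (IsLocalRing.ResidueField O) G.κ (((m + a + b : ℕ) : ℤ) • Hb) := by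
  obtain ⟨x₁, hx₁, rfl⟩ := h₁
  obtain ⟨x₂, hx₂, rfl⟩ := h₂
  rw [← hJ _ hab]
  exact ⟨x₁ * x₂ * f, mul_mul_mem H hf hDf hsum hx₁ hx₂, by simp only [map_mul]⟩

include hκ hHb hJ in
/-- (N1): the base divisor of `R(aH)` is `a H̄`. -/
theorem isBaseDiv_RE_zero (a : ℕ) (ha : J ≤ a) :
    IsBaseDiv (Rd G (LSpace L F ((a : ℤ) • H))) ((a : ℤ) • Hb) := by
  rw [hJ a ha]
  exact isBaseDiv_LSpace_smul G hκ Hb hHb a

include hh hH hHdeg hd₀ hprκ hJ in
/-- (M5): `R(E' + aH)` has a base divisor. -/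
theorem exists_isBaseDiv_RE (E' : Divisor L F) (hE' : 0 ≤ E') (a : ℕ) (ha : J ≤ a) :
    ∃ D, IsBaseDiv (Rd G (LSpace L F (E' + (a : ℤ) • H))) D := by
  obtain ⟨m, f, Df, E'', hfu, hDf, hDfdeg, hE'', hsum⟩ :=
    exists_complement G hh H hH hHdeg d₀ hd₀ E' hE'
  have hρf : G.ρ f ≠ 0 := (isUnit_iff_rho_ne_zero G f).1 hfu
  have hfF : (f : F) ≠ 0 := fun h0 => hρf (by
    have : f = 0 := Subtype.ext h0
    rw [this, map_zero])
  obtain ⟨Dfb, hDfb, -⟩ := hprκ.exists_divisor (G.ρ f) hρf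
  refine exists_isBaseDiv _ (((m + a + 0 : ℕ) : ℤ) • Hb + Dfb) ?_ 1 (one_mem_RE G H hH hE' a)
    one_ne_zero 0 (fun Q => by simp)
  intro s hs
  have h1 := rho_mul_mem G H Hb J hJ f hfF hDf hsum (a := a) (b := 0) (by omega) hs
    (one_mem_RE G H hH hE'' 0)
  rw [mul_one] at h1
  exact mem_LSpace_of_mul_mem hρf hDfb h1

include hh hLL hH hHdeg hd₀ hJd hκ hres hdegκ hprκ hneκ hHb hHbdeg hJ in
/-- (M6): lower bound for the degree of the base divisor. -/
theorem degree_le_of_isBaseDiv (E' : Divisor L F) (hE' : 0 ≤ E') (a : ℕ) (ha : J ≤ a)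
    {D : Divisor (IsLocalRing.ResidueField O) G.κ}
    (hD : IsBaseDiv (Rd G (LSpace L F (E' + (a : ℤ) • H))) D) :
    Divisor.degree E' + a * (Module.finrank (IntermediateField.adjoin L {h}) F : ℤ)
      ≤ Divisor.degree D := by
  have hle : (a : ℤ) • Hb ≤ D := by
    refine IsBaseDiv.mono (isBaseDiv_RE_zero G hκ H Hb hHb J hJ a ha) hD (Rd_mono G ?_)
    exact LCore.LSpace_mono (le_add_of_nonneg_left hE')
  have h1 := LCore.finrank_LSpace_le_of_le hκ hres hdegκ hprκ hneκ hle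
  have hfd := LCore.finiteDimensional_LSpace hκ hres hdegκ hprκ hneκ D
  obtain ⟨hfd2, h2⟩ := finrank_RE G hh hLL H hH hHdeg d₀ hd₀ J hJd E' hE' a ha
  obtain ⟨-, h3⟩ := finrank_RE G hh hLL H hH hHdeg d₀ hd₀ J hJd 0 le_rfl a ha
  rw [zero_add, hJ a ha, map_zero, zero_add] at h3
  have h4 : Module.finrank (IsLocalRing.ResidueField O) (Rd G (LSpace L F (E' + (a : ℤ) • H)))
      ≤ Module.finrank (IsLocalRing.ResidueField O)
          (LSpace (IsLocalRing.ResidueField O) G.κ D) :=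
    Submodule.finrank_mono hD.le_LSpace
  have h4' : (Module.finrank (IsLocalRing.ResidueField O)
      (Rd G (LSpace L F (E' + (a : ℤ) • H))) : ℤ)
      ≤ Module.finrank (IsLocalRing.ResidueField O)
          (LSpace (IsLocalRing.ResidueField O) G.κ D) := by exact_mod_cast h4
  rw [degree_smul_Hb G Hb hHbdeg] at h1
  linarith

include hh hLL hH hHdeg hd₀ hJd hκ hres hdegκ hprκ hneκ hHb hHbdeg hJ in
/-- (M7): upper bound for the degree of the base divisor. -/
theorem degree_isBaseDiv_le (E' : Divisor L F) (hE' : 0 ≤ E') (a : ℕ) (ha : J ≤ a)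
    {D : Divisor (IsLocalRing.ResidueField O) G.κ}
    (hD : IsBaseDiv (Rd G (LSpace L F (E' + (a : ℤ) • H))) D) :
    Divisor.degree D
      ≤ Divisor.degree E' + a * (Module.finrank (IntermediateField.adjoin L {h}) F : ℤ) := by
  obtain ⟨m, f, Df, E'', hfu, hDf, hDfdeg, hE'', hsum⟩ :=
    exists_complement G hh H hH hHdeg d₀ hd₀ E' hE'
  have hρf : G.ρ f ≠ 0 := (isUnit_iff_rho_ne_zero G f).1 hfu
  have hfF : (f : F) ≠ 0 := fun h0 => hρf (by
    have : f = 0 := Subtype.ext h0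
    rw [this, map_zero])
  obtain ⟨Dfb, hDfb, hDfbdeg⟩ := hprκ.exists_divisor (G.ρ f) hρf
  obtain ⟨D'', hD''⟩ := exists_isBaseDiv_RE G hh hprκ H hH hHdeg Hb d₀ hd₀ J hJ E'' hE'' a ha
  have h1 := degree_le_of_isBaseDiv G hh hLL hκ hres hdegκ hprκ hneκ H hH hHdeg Hb hHb hHbdeg
    d₀ hd₀ J hJ hJd E'' hE'' a ha hD''
  have h2 : D + D'' ≤ ((m + a + a : ℕ) : ℤ) • Hb + Dfb := by
    refine IsBaseDiv.add_le hD hD'' fun s₁ hs₁ s₂ hs₂ => ?_
    have h := rho_mul_mem G H Hb J hJ f hfF hDf hsum (a := a) (b := a) (by omega) hs₁ hs₂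
    exact mem_LSpace_of_mul_mem hρf hDfb h
  have h3 := LCore.degree_mono h2
  rw [map_add, map_add, degree_smul_Hb G Hb hHbdeg, hDfbdeg] at h3
  have h4 := congrArg Divisor.degree hsum
  rw [map_add, map_add, hDfdeg, map_zsmul, hHdeg, smul_eq_mul] at h4
  push_cast at h3
  linarith

include hh hLL hH hHdeg hd₀ hJd hκ hres hdegκ hprκ hneκ hHb hHbdeg hJ in
/-- (∗): the degree of the base divisor. -/
theorem degree_isBaseDiv (E' : Divisor L F) (hE' : 0 ≤ E') (a : ℕ) (ha : J ≤ a)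
    {D : Divisor (IsLocalRing.ResidueField O) G.κ}
    (hD : IsBaseDiv (Rd G (LSpace L F (E' + (a : ℤ) • H))) D) :
    Divisor.degree D
      = Divisor.degree E' + a * (Module.finrank (IntermediateField.adjoin L {h}) F : ℤ) :=
  le_antisymm
    (degree_isBaseDiv_le G hh hLL hκ hres hdegκ hprκ hneκ H hH hHdeg Hb hHb hHbdeg
      d₀ hd₀ J hJ hJd E' hE' a ha hD)
    (degree_le_of_isBaseDiv G hh hLL hκ hres hdegκ hprκ hneκ H hH hHdeg Hb hHb hHbdeg
      d₀ hd₀ J hJ hJd E' hE' a ha hD)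

include hh hLL hH hHdeg hd₀ hJd hκ hres hdegκ hprκ hneκ hHb hHbdeg hJ in
/-- (M8): additivity of base divisors. -/
theorem isBaseDiv_add (E₁ E₂ : Divisor L F) (hE₁ : 0 ≤ E₁) (hE₂ : 0 ≤ E₂) (a₁ a₂ : ℕ)
    (ha₁ : J ≤ a₁) (ha₂ : J ≤ a₂) {D₁ D₂ D₃ : Divisor (IsLocalRing.ResidueField O) G.κ}
    (hD₁ : IsBaseDiv (Rd G (LSpace L F (E₁ + (a₁ : ℤ) • H))) D₁)
    (hD₂ : IsBaseDiv (Rd G (LSpace L F (E₂ + (a₂ : ℤ) • H))) D₂)
    (hD₃ : IsBaseDiv (Rd G (LSpace L F ((E₁ + E₂) + ((a₁ + a₂ : ℕ) : ℤ) • H))) D₃) :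
    D₁ + D₂ = D₃ := by
  have hle : D₁ + D₂ ≤ D₃ := by
    refine IsBaseDiv.add_le hD₁ hD₂ fun s₁ hs₁ s₂ hs₂ => hD₃.le_LSpace ?_
    obtain ⟨x₁, hx₁, rfl⟩ := hs₁
    obtain ⟨x₂, hx₂, rfl⟩ := hs₂
    refine ⟨x₁ * x₂, ?_, map_mul _ _ _⟩
    have h3 := mul_mem_LSpace hx₁ hx₂
    have hE : (E₁ + (a₁ : ℤ) • H) + (E₂ + (a₂ : ℤ) • H)
        = (E₁ + E₂) + ((a₁ + a₂ : ℕ) : ℤ) • H := by
      push_cast
      rw [add_smul]
      abel
    rw [hE] at h3
    exact h3
  refine eq_of_le_of_degree_eq hdegκ hle ?_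
  rw [map_add,
    degree_isBaseDiv G hh hLL hκ hres hdegκ hprκ hneκ H hH hHdeg Hb hHb hHbdeg
      d₀ hd₀ J hJ hJd E₁ hE₁ a₁ ha₁ hD₁,
    degree_isBaseDiv G hh hLL hκ hres hdegκ hprκ hneκ H hH hHdeg Hb hHb hHbdeg
      d₀ hd₀ J hJ hJd E₂ hE₂ a₂ ha₂ hD₂,
    degree_isBaseDiv G hh hLL hκ hres hdegκ hprκ hneκ H hH hHdeg Hb hHb hHbdeg
      d₀ hd₀ J hJ hJd (E₁ + E₂) (add_nonneg hE₁ hE₂) (a₁ + a₂) (by omega) hD₃,
    map_add]
  push_cast
  ring

theorem single_nonneg' (P : Place L F) : (0 : Divisor L F) ≤ Finsupp.single P 1 := by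
  classical
  intro v
  rw [Finsupp.single_apply]
  split_ifs <;> simp

include hh hLL hH hHdeg hd₀ hJd hκ hres hdegκ hprκ hneκ hHb hHbdeg hJ in
/-- (N2): the specialisation of a place. -/
theorem exists_place (P : Place L F) :
    ∃ Q : Place (IsLocalRing.ResidueField O) G.κ,
      IsBaseDiv (Rd G (LSpace L F (Finsupp.single P 1 + (J : ℤ) • H)))
        (Finsupp.single Q 1 + (J : ℤ) • Hb) := by
  have hdegF := Places.deg_eq_one hh
  have hP0 := single_nonneg' P
  obtain ⟨D, hD⟩ := exists_isBaseDiv_RE G hh hprκ H hH hHdeg Hb d₀ hd₀ J hJ _ hP0 J le_rfl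
  have hdeg := degree_isBaseDiv G hh hLL hκ hres hdegκ hprκ hneκ H hH hHdeg Hb hHb hHbdeg
    d₀ hd₀ J hJ hJd _ hP0 J le_rfl hD
  rw [Divisor.degree_single, hdegF P] at hdeg
  have hle : (J : ℤ) • Hb ≤ D :=
    IsBaseDiv.mono (isBaseDiv_RE_zero G hκ H Hb hHb J hJ J le_rfl) hD
      (Rd_mono G (LCore.LSpace_mono (le_add_of_nonneg_left hP0)))
  obtain ⟨Q, hQ⟩ := exists_single_of_degree_one hdegκ (sub_nonneg.2 hle)
    (by rw [map_sub, hdeg, degree_smul_Hb G Hb hHbdeg]; push_cast; ring)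
  refine ⟨Q, ?_⟩
  have : D = Finsupp.single Q 1 + (J : ℤ) • Hb := by rw [← hQ]; abel
  rw [← this]
  exact hD

include hh hLL hH hHdeg hd₀ hJd hκ hres hdegκ hprκ hneκ hHb hHbdeg hJ in
/-- (N3): the base divisor of `R(E' + aH)` is `r_* E' + a H̄`. -/
theorem isBaseDiv_mapDomain (r : Place L F → Place (IsLocalRing.ResidueField O) G.κ)
    (hr : ∀ P : Place L F, IsBaseDiv (Rd G (LSpace L F (Finsupp.single P 1 + (J : ℤ) • H)))
      (Finsupp.single (r P) 1 + (J : ℤ) • Hb)) :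
    ∀ (N : ℕ) (E' : Divisor L F), 0 ≤ E' → Divisor.degree E' = N → ∀ a : ℕ, J ≤ a →
      IsBaseDiv (Rd G (LSpace L F (E' + (a : ℤ) • H)))
        (Finsupp.mapDomain r E' + (a : ℤ) • Hb) := by
  classical
  have hdegF := Places.deg_eq_one hh
  intro N
  induction N with
  | zero =>
    intro E' hE' hN a ha
    have h0 : E' = 0 := eq_zero_of_nonneg_of_degree hdegF hE' (by simpa using hN)
    subst h0
    rw [zero_add, Finsupp.mapDomain_zero, zero_add]
    exact isBaseDiv_RE_zero G hκ H Hb hHb J hJ a ha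
  | succ N ih =>
    intro E' hE' hN a ha
    have hne : E' ≠ 0 := by
      rintro rfl
      rw [map_zero] at hN
      push_cast at hN
      omega
    obtain ⟨P, hP⟩ : ∃ P, E' P ≠ 0 := by
      by_contra hcon
      push_neg at hcon
      exact hne (Finsupp.ext hcon)
    have hP1 : 1 ≤ E' P := by
      have := hE' P
      simp only [Finsupp.coe_zero, Pi.zero_apply] at this
      omega
    have hP0 := single_nonneg' P
    obtain ⟨E'', hE''def⟩ : ∃ E'' : Divisor L F, E'' = E' - Finsupp.single P 1 := ⟨_, rfl⟩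
    have hE''0 : 0 ≤ E'' := by
      intro v
      rw [hE''def, Finsupp.sub_apply, Finsupp.single_apply]
      simp only [Finsupp.coe_zero, Pi.zero_apply]
      by_cases hv : P = v
      · subst hv; rw [if_pos rfl]; omega
      · rw [if_neg hv]
        have := hE' v
        simp only [Finsupp.coe_zero, Pi.zero_apply] at this
        omega
    have hE''deg : Divisor.degree E'' = N := by
      rw [hE''def, map_sub, hN, Divisor.degree_single, hdegF P]
      push_cast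
      ring
    have hsplit : E' = E'' + Finsupp.single P 1 := by rw [hE''def]; abel
    have ih1 := ih E'' hE''0 hE''deg a ha
    obtain ⟨D, hD⟩ := exists_isBaseDiv_RE G hh hprκ H hH hHdeg Hb d₀ hd₀ J hJ E' hE' a ha
    obtain ⟨D₃, hD₃⟩ :=
      exists_isBaseDiv_RE G hh hprκ H hH hHdeg Hb d₀ hd₀ J hJ E' hE' (a + J) (by omega)
    have hD₃' : IsBaseDiv (Rd G (LSpace L F
        ((E'' + Finsupp.single P 1) + ((a + J : ℕ) : ℤ) • H))) D₃ := by
      rw [← hsplit]; exact hD₃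
    have e1 := isBaseDiv_add G hh hLL hκ hres hdegκ hprκ hneκ H hH hHdeg Hb hHb hHbdeg
      d₀ hd₀ J hJ hJd E'' (Finsupp.single P 1) hE''0 hP0 a J ha le_rfl ih1 (hr P) hD₃'
    have hD₃'' : IsBaseDiv (Rd G (LSpace L F ((E' + 0) + ((a + J : ℕ) : ℤ) • H))) D₃ := by
      rw [add_zero]; exact hD₃
    have hz : IsBaseDiv (Rd G (LSpace L F (0 + (J : ℤ) • H))) ((J : ℤ) • Hb) := by
      rw [zero_add]; exact isBaseDiv_RE_zero G hκ H Hb hHb J hJ J le_rfl
    have e2 := isBaseDiv_add G hh hLL hκ hres hdegκ hprκ hneκ H hH hHdeg Hb hHb hHbdeg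
      d₀ hd₀ J hJ hJd E' 0 hE' le_rfl a J ha le_rfl hD hz hD₃''
    have h4 : Finsupp.mapDomain r E' = Finsupp.mapDomain r E'' + Finsupp.single (r P) 1 := by
      conv_lhs => rw [hsplit]
      rw [Finsupp.mapDomain_add, Finsupp.mapDomain_single]
    have hDeq : D = Finsupp.mapDomain r E' + (a : ℤ) • Hb := by
      have h3 : D + (J : ℤ) • Hb = (Finsupp.mapDomain r E'' + (a : ℤ) • Hb)
          + (Finsupp.single (r P) 1 + (J : ℤ) • Hb) := by rw [e2, e1]
      rw [h4]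
      apply add_right_cancel (b := (J : ℤ) • Hb)
      rw [h3]
      abel
    rw [← hDeq]
    exact hD

include hh hH in
/-- (N4): conservation of number from (N3). -/
theorem conservation_of_isBaseDiv (r : Place L F → Place (IsLocalRing.ResidueField O) G.κ)
    (hr : ∀ (E' : Divisor L F), 0 ≤ E' →
      IsBaseDiv (Rd G (LSpace L F (E' + (J : ℤ) • H)))
        (Finsupp.mapDomain r E' + (J : ℤ) • Hb))
    (y : G.V) (hy : IsUnit y) (D : Divisor L F) (hD : ∀ P : Place L F, D P = P.ord (y : F))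
    (Q : Place (IsLocalRing.ResidueField O) G.κ) :
    Finsupp.mapDomain r D Q = Q.ord (G.ρ y) := by
  classical
  obtain ⟨yi, hyi⟩ := hy.exists_right_inv
  have hρy : G.ρ y ≠ 0 := (isUnit_iff_rho_ne_zero G y).1 hy
  have hρyi : G.ρ y * G.ρ yi = 1 := by rw [← map_mul, hyi, map_one]
  have hρyi0 : G.ρ yi ≠ 0 := right_ne_zero_of_mul_eq_one hρyi
  have hyF : (y : F) ≠ 0 := fun h0 => hρy (by
    have : y = 0 := Subtype.ext h0
    rw [this, map_zero])
  have hyiF : (y : F) * (yi : F) = 1 := congrArg Subtype.val hyi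
  have hyiF0 : (yi : F) ≠ 0 := right_ne_zero_of_mul_eq_one hyiF
  have hordyi : ∀ P : Place L F, P.ord (yi : F) = -(P.ord (y : F)) := fun P => by
    have := P.ord_mul hyF hyiF0
    rw [hyiF, Place.ord_one] at this
    omega
  have hordρ : Q.ord (G.ρ yi) = -(Q.ord (G.ρ y)) := by
    have := Q.ord_mul hρy hρyi0
    rw [hρyi, Place.ord_one] at this
    omega
  set Dp : Divisor L F := D.mapRange (fun z => max z 0) (by simp) with hDp
  set Dm : Divisor L F := D.mapRange (fun z => max (-z) 0) (by simp) with hDm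
  have hrel : ∀ P : Place L F, Dp P - Dm P = P.ord (y : F) := fun P => by
    rw [hDp, hDm, Finsupp.mapRange_apply, Finsupp.mapRange_apply, ← hD P]
    rcases le_total (D P) 0 with h1 | h1
    · rw [max_eq_right h1, max_eq_left (by omega)]; omega
    · rw [max_eq_left h1, max_eq_right (by omega)]; omega
  have hDp0 : 0 ≤ Dp := fun v => by
    rw [hDp, Finsupp.mapRange_apply]; exact le_max_right _ _
  have hDm0 : 0 ≤ Dm := fun v => by
    rw [hDm, Finsupp.mapRange_apply]; exact le_max_right _ _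
  have hDsplit : D = Dp - Dm := by
    ext P
    rw [Finsupp.sub_apply, hrel P, hD P]
  have hBp := hr Dp hDp0
  have hBm := hr Dm hDm0
  -- multiplication by `y` maps `L(Dp + JH)` into `L(Dm + JH)`
  have hA : ∀ x : F, x ∈ LSpace L F (Dp + (J : ℤ) • H) → x * (y : F) ∈ LSpace L F (Dm + (J : ℤ) • H) := by
    intro x hx
    rcases eq_or_ne x 0 with rfl | hx0
    · rw [zero_mul]; exact Submodule.zero_mem _
    refine Or.inr fun P => ?_
    have h1 := hx.resolve_left hx0 P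
    rw [Finsupp.add_apply] at h1 ⊢
    rw [P.ord_mul hx0 hyF]
    have := hrel P
    omega
  have hB : ∀ x : F, x ∈ LSpace L F (Dm + (J : ℤ) • H) → x * (yi : F) ∈ LSpace L F (Dp + (J : ℤ) • H) := by
    intro x hx
    rcases eq_or_ne x 0 with rfl | hx0
    · rw [zero_mul]; exact Submodule.zero_mem _
    refine Or.inr fun P => ?_
    have h1 := hx.resolve_left hx0 P
    rw [Finsupp.add_apply] at h1 ⊢
    rw [P.ord_mul hx0 hyiF0, hordyi P]
    have := hrel P
    omega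
  obtain ⟨s, ⟨x, hx, rfl⟩, hs0, hsQ⟩ := hBp.2 Q
  obtain ⟨t, ⟨x', hx', rfl⟩, ht0, htQ⟩ := hBm.2 Q
  have h1 := hBm.1 (G.ρ x * G.ρ y) ⟨x * y, hA _ hx, map_mul _ _ _⟩ (mul_ne_zero hs0 hρy) Q
  have h2 := hBp.1 (G.ρ x' * G.ρ yi) ⟨x' * yi, hB _ hx', map_mul _ _ _⟩ (mul_ne_zero ht0 hρyi0) Q
  rw [Q.ord_mul hs0 hρy] at h1
  rw [Q.ord_mul ht0 hρyi0, hordρ] at h2
  rw [Finsupp.add_apply] at h1 h2 hsQ htQ
  have h3 : Finsupp.mapDomain r D Q = Finsupp.mapDomain r Dp Q - Finsupp.mapDomain r Dm Q := by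
    rw [hDsplit, ← Finsupp.mapDomain.addMonoidHom_apply, map_sub, Finsupp.sub_apply]
    rfl
  rw [h3]
  omega

end Main

/-- **Specialisation of places with conservation of number** (abstract form).

`G` a good valuation ring of the function field `F/L` (char. 0) with residue field `κ/k`;
hypotheses on the generic fibre: the package of the S18 hub; on the special fibre: the standard
curve facts for `κ/k` with the separable generator `h̄` whose pole divisor has degree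
`[F : L(h)]`. -/
theorem exists_spec {L F : Type*} [Field L] [IsAlgClosed L] [CharZero L] [Field F] [Algebra L F]
    {O : ValuationSubring L} {h : F} (G : GoodVal O h)
    [IsAlgClosed (IsLocalRing.ResidueField O)]
    (hh : IsGenerator L h) (hT0 : G.TransferZero) (hTI : G.TransferInf) (hLL : G.LatticeLemma)
    {g : ℤ} (hgen : GenusFormula L F g) (hG2 : G.G2 g)
    (hκ : IsGenerator (IsLocalRing.ResidueField O) G.hbar)
    [Algebra.IsSeparable (IntermediateField.adjoin (IsLocalRing.ResidueField O) {G.hbar}) G.κ]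
    (hres : LCore.ResConst (IsLocalRing.ResidueField O) G.κ)
    (hdegκ : ∀ Q : Place (IsLocalRing.ResidueField O) G.κ, Q.deg = 1)
    (hprκ : HasPrincipalDivisors (IsLocalRing.ResidueField O) G.κ)
    (hneκ : Nonempty (Place (IsLocalRing.ResidueField O) G.κ))
    (Hb : Divisor (IsLocalRing.ResidueField O) G.κ)
    (hHb : ∀ Q : Place (IsLocalRing.ResidueField O) G.κ, Hb Q = max 0 (-(Q.ord G.hbar)))
    (hHbdeg : Divisor.degree Hb = (Module.finrank (IntermediateField.adjoin L {h}) F : ℤ)) :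
    ∃ r : Place L F → Place (IsLocalRing.ResidueField O) G.κ,
      ∀ (y : G.V), IsUnit y → ∀ D : Divisor L F, (∀ P : Place L F, D P = P.ord (y : F)) →
        ∀ Q : Place (IsLocalRing.ResidueField O) G.κ,
          Finsupp.mapDomain r D Q = Q.ord (G.ρ y) := by
  obtain ⟨H, hH, hHdeg⟩ := G2.exists_poleDivisor hh
  obtain ⟨J₁, hJ₁⟩ := exists_J G hh hT0 hTI hLL hgen hG2 hκ H hH Hb hHb
  obtain ⟨d₀, hd₀⟩ := hgen
  obtain ⟨J, hJdef⟩ : ∃ J : ℕ, J = max J₁ (d₀.toNat + 1) := ⟨_, rfl⟩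
  have hJ : ∀ a : ℕ, J ≤ a → Rd G (LSpace L F ((a : ℤ) • H))
      = LSpace (IsLocalRing.ResidueField O) G.κ ((a : ℤ) • Hb) :=
    fun a ha => hJ₁ a (le_trans (by rw [hJdef]; exact le_max_left _ _) ha)
  have hJd : d₀ < (J : ℤ) := by
    have h1 := Int.self_le_toNat d₀
    have h2 : d₀.toNat + 1 ≤ J := by rw [hJdef]; exact le_max_right _ _
    have h3 : ((d₀.toNat + 1 : ℕ) : ℤ) ≤ (J : ℤ) := by exact_mod_cast h2
    push_cast at h3
    omega
  choose r hr using exists_place G hh hLL hκ hres hdegκ hprκ hneκ H hH hHdeg Hb hHb hHbdeg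
    d₀ hd₀ J hJ hJd
  refine ⟨r, fun y hy D hD Q =>
    conservation_of_isBaseDiv G hh H hH Hb J r (fun E' hE' => ?_) y hy D hD Q⟩
  have hdnn := LCore.degree_nonneg hE'
  exact isBaseDiv_mapDomain G hh hLL hκ hres hdegκ hprκ hneκ H hH hHdeg Hb hHb hHbdeg
    d₀ hd₀ J hJ hJd r hr (Divisor.degree E').toNat E' hE' (Int.toNat_of_nonneg hdnn).symm
    J le_rfl

end Fermat.Agent.S37.SpecCore
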