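import Mathlib
import Fermat.Agent.S37_SpecDefs
import Fermat.Agent.S37_PlaceEquiv
import Fermat.Agent.S18_GaussSep
import Fermat.Agent.S18_GaussSeries
import Fermat.Agent.S18_Datum

/-!
# S37 (RI-glue): from the hub's residue field to the intrinsic special fibre

For a Gauss datum `D` of the S18 hub on `F ⊂ L((q))`:
* `κEquiv D : D.goodVal.κ ≃ₐ[k] specialField A F` (the embedding `κemb` onto its range), with
  `κEquiv D (D.goodVal.ρ y) = gaussRedS A F ⟨y, _⟩`;
* `isSpecMap_of_core`: a map `r₀ : Place L F → Place k D.goodVal.κ` with conservation of number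
  for the units of the Gauss valuation ring gives a specialisation map
  `Place L F → Place k (specialField A F)` in the sense of `IsSpecMap`;
* `coeffMap_mem_specialField`: if the generators of the datum have integer coefficients, the
  special fibre field is stable under `coeffMap φ` for every ring endomorphism `φ` of `k`.
-/

set_option autoImplicit false
set_option linter.style.haveILetI false
set_option linter.unusedSectionVars false

noncomputable section

open ModularCurve AlgebraicCurve Fermat.Agent.S18 Fermat.Agent.S18.Gauss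

namespace Fermat.Agent.S37.SpecGlue

open Fermat.Agent.S37 Fermat.Agent.S37.PlaceEquiv

variable {L : Type*} [Field L] {A : ValuationSubring L}
  {F : IntermediateField L (LaurentSeries L)} {n : ℕ} (D : Datum A F n)

/-- `κemb` as a map into the special fibre field -/
def κHom : D.goodVal.κ →ₐ[IsLocalRing.ResidueField A] specialField A F :=
  D.κembAlg.codRestrict (specialField A F).toSubalgebra (fun x => by
    have h : D.κembAlg x ∈ D.κembAlg.fieldRange := ⟨x, rfl⟩
    rw [range_κembAlg D] at h
    exact h)

theorem coe_κHom (x : D.goodVal.κ) :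
    ((κHom D x : specialField A F) : LaurentSeries (IsLocalRing.ResidueField A)) = D.κemb x :=
  rfl

theorem κHom_bijective : Function.Bijective (κHom D) := by
  refine ⟨(κHom D).toRingHom.injective, ?_⟩
  rintro ⟨x, hx⟩
  rw [← range_κembAlg D] at hx
  obtain ⟨z, hz⟩ := hx
  exact ⟨z, Subtype.ext hz⟩

/-- the hub's residue field is the intrinsic special fibre field -/
def κEquiv : D.goodVal.κ ≃ₐ[IsLocalRing.ResidueField A] specialField A F :=
  AlgEquiv.ofBijective (κHom D) (κHom_bijective D)

theorem coe_κEquiv (x : D.goodVal.κ) :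
    ((κEquiv D x : specialField A F) : LaurentSeries (IsLocalRing.ResidueField A)) = D.κemb x :=
  rfl

/-- the isomorphism intertwines the two reductions -/
theorem κEquiv_ρ (y : D.goodVal.V) :
    κEquiv D (D.goodVal.ρ y) = gaussRedS A F ⟨(y : F), y.2⟩ :=
  Subtype.ext (datum_κemb_ρ D y)

/-- a Gauss-integral element with nonzero reduction is a unit of the Gauss valuation ring -/
theorem isUnit_V_of_gaussRed_ne_zero (y : gaussSub A F) (hy : gaussRed A F y ≠ 0) :
    IsUnit (⟨(y : F), y.2⟩ : D.goodVal.V) := by
  have hy0 : (y : F) ≠ 0 := by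
    intro h0
    apply hy
    have : y = 0 := Subtype.ext h0
    rw [this, map_zero]
  exact IsUnit.of_mul_eq_one (⟨(y : F)⁻¹, inv_mem_gaussSub A F y hy⟩ : D.goodVal.V)
    (Subtype.ext (mul_inv_cancel₀ hy0))

/-- **glue**: conservation of number on the hub's residue field gives a specialisation map to the
intrinsic special fibre. -/
theorem isSpecMap_of_core
    (r₀ : Place L F → Place (IsLocalRing.ResidueField A) D.goodVal.κ)
    (h₀ : ∀ (y : D.goodVal.V), IsUnit y → ∀ E : Divisor L F, (∀ P, E P = P.ord (y : F)) →
      ∀ Q, Finsupp.mapDomain r₀ E Q = Q.ord (D.goodVal.ρ y)) :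
    IsSpecMap A F (fun P => placeMap (κEquiv D) (r₀ P)) := by
  intro y hy E hE Q
  have h1 := h₀ ⟨(y : F), y.2⟩ (isUnit_V_of_gaussRed_ne_zero D y hy) E hE
    (placeMap (κEquiv D).symm Q)
  have h2 := divMap_apply' (κEquiv D) (Finsupp.mapDomain r₀ E) Q
  have h3 : Finsupp.mapDomain (fun P => placeMap (κEquiv D) (r₀ P)) E
      = divMap (κEquiv D) (Finsupp.mapDomain r₀ E) :=
    Finsupp.mapDomain_comp (f := r₀) (g := placeMap (κEquiv D))
  rw [h3, h2, h1, ord_placeMap' (κEquiv D).symm Q, AlgEquiv.symm_symm, κEquiv_ρ]

/-- existence form -/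
theorem exists_isSpecMap_of_core
    (h : ∃ r₀ : Place L F → Place (IsLocalRing.ResidueField A) D.goodVal.κ,
      ∀ (y : D.goodVal.V), IsUnit y → ∀ E : Divisor L F, (∀ P, E P = P.ord (y : F)) →
        ∀ Q, Finsupp.mapDomain r₀ E Q = Q.ord (D.goodVal.ρ y)) :
    ∃ r : Place L F → Place (IsLocalRing.ResidueField A) (specialField A F), IsSpecMap A F r := by
  obtain ⟨r₀, h₀⟩ := h
  exact ⟨_, isSpecMap_of_core D r₀ h₀⟩

/-! ### stability of the special fibre field under coefficientwise endomorphisms -/

/-- the special fibre field is `k(h̄, θ̄)` -/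
theorem specialField_eq_adjoin :
    specialField A F = IntermediateField.adjoin (IsLocalRing.ResidueField A)
      {red A D.hA, red A D.θA} := by
  rw [← range_κembAlg D, D.range_κemb]

theorem coeffMap_intSeries (φ : IsLocalRing.ResidueField A →+* IsLocalRing.ResidueField A)
    (x : LaurentSeries ℤ) :
    coeffMap φ (coeffMap (Int.castRingHom (IsLocalRing.ResidueField A)) x)
      = coeffMap (Int.castRingHom (IsLocalRing.ResidueField A)) x := by
  rw [coeffMap_coeffMap]
  exact coeffMap_congr (RingHom.ext_int _ _) x

/-- if the generators of the datum have integer coefficients, the special fibre field is stable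
under every coefficientwise ring endomorphism of `k`. -/
theorem coeffMap_mem_specialField {hZ θZ : LaurentSeries ℤ}
    (hh : D.hA = coeffMap (Int.castRingHom A) hZ) (hθ : D.θA = coeffMap (Int.castRingHom A) θZ)
    (φ : IsLocalRing.ResidueField A →+* IsLocalRing.ResidueField A)
    {x : LaurentSeries (IsLocalRing.ResidueField A)} (hx : x ∈ specialField A F) :
    coeffMap φ x ∈ specialField A F := by
  rw [specialField_eq_adjoin D] at hx ⊢
  induction hx using IntermediateField.adjoin_induction with
  | mem x hx =>
    rcases hx with rfl | rfl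
    · rw [hh, red_intSeries, coeffMap_intSeries]
      apply IntermediateField.subset_adjoin
      exact Set.mem_insert _ _
    · rw [hθ, red_intSeries, coeffMap_intSeries]
      apply IntermediateField.subset_adjoin
      exact Set.mem_insert_of_mem _ rfl
  | algebraMap c =>
    rw [algebraMap_laurentSeries_eq_single, coeffMap_single, ← algebraMap_laurentSeries_eq_single]
    exact IntermediateField.algebraMap_mem _ _
  | add x y _ _ hx hy => rw [map_add]; exact add_mem hx hy
  | inv x _ hx => rw [map_inv₀]; exact inv_mem hx
  | mul x y _ _ hx hy => rw [map_mul]; exact mul_mem hx hy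

/-- the special fibre field of `X₀(M)` (`ℓ ∤ M`) is stable under every coefficientwise ring
endomorphism of the residue field (it is `k(j̄, ū)` with `j̄, ū ∈ 𝔽_ℓ((q))`). -/
theorem coeffMap_mem_specialField_bar (M : ℕ) [NeZero M] (ℓ : ℕ) [Fact ℓ.Prime] (hℓM : ¬ ℓ ∣ M)
    (A : ValuationSubring (AlgebraicClosure ℚ)) (hA : A.LiesOverPrime ℓ)
    (φ : IsLocalRing.ResidueField A →+* IsLocalRing.ResidueField A)
    {x : LaurentSeries (IsLocalRing.ResidueField A)}
    (hx : x ∈ specialField A (modularFunctionFieldBar M)) :
    coeffMap φ x ∈ specialField A (modularFunctionFieldBar M) := by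
  obtain ⟨n, D, -, -, hh, hθ⟩ := Gauss.exists_datum M ℓ hℓM A hA (H1.haupt_j M)
  exact coeffMap_mem_specialField D hh hθ φ hx

end Fermat.Agent.S37.SpecGlue
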