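import Mathlib
import Fermat.Agent.S37_Package
import Fermat.Agent.S37_SpecGlue
import Fermat.Agent.S37_SpecCore

/-!
# S37 (RI): specialisation maps for `X₀(M)` at a prime of good reduction

* `CurveHyp k κ x`: the standard curve facts for a function field `κ/k` with generator `x`
  (supplied by `S37_CurveP` in characteristic `ℓ`);
* `exists_isSpecMap_of_facts`: package (with internals) + curve facts on the hub's residue field
  ⇒ a specialisation map `Place ℚ̄ F_M → Place k (specialField A F_M)`;
* `CurveHyp.transport`: the curve facts on the intrinsic special fibre field.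
-/

set_option autoImplicit false
set_option linter.style.haveILetI false
set_option linter.unusedSectionVars false

noncomputable section

open ModularCurve AlgebraicCurve Fermat.Agent.S24 Fermat.Agent.S18 Fermat.Agent.S18.Gauss

namespace Fermat.Agent.S37.SpecMain

open Fermat.Agent.S37 Fermat.Agent.S37.PlaceEquiv

/-- the curve facts for a function field `κ/k` with generator `x` used by the specialisation
of places. -/
structure CurveHyp (k κ : Type*) [Field k] [Field κ] [Algebra k κ] (x : κ) : Prop where
  resConst : Fermat.Agent.RR.LCore.ResConst k κ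
  deg_eq_one : ∀ Q : Place k κ, Q.deg = 1
  hasPrincipalDivisors : HasPrincipalDivisors k κ
  nonempty : Nonempty (Place k κ)
  exists_poleDivisor : ∃ Hb : Divisor k κ, (∀ Q, Hb Q = max 0 (-(Q.ord x))) ∧
    Divisor.degree Hb = (Module.finrank (IntermediateField.adjoin k {x}) κ : ℤ)
  const_of_ord_eq_zero : ∀ s : κ, s ≠ 0 → (∀ Q : Place k κ, Q.ord s = 0) →
    ∃ c : k, s = algebraMap k κ c

/-- the facts on an isomorphic field which survive transport (used on the intrinsic special
fibre field). -/
structure CurveHyp' (k κ : Type*) [Field k] [Field κ] [Algebra k κ] : Prop where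
  deg_eq_one : ∀ Q : Place k κ, Q.deg = 1
  hasPrincipalDivisors : HasPrincipalDivisors k κ
  nonempty : Nonempty (Place k κ)
  const_of_ord_eq_zero : ∀ s : κ, s ≠ 0 → (∀ Q : Place k κ, Q.ord s = 0) →
    ∃ c : k, s = algebraMap k κ c

theorem CurveHyp.transport {k κ κ' : Type*} [Field k] [Field κ] [Field κ'] [Algebra k κ]
    [Algebra k κ'] {x : κ} (hC : CurveHyp k κ x) (e : κ ≃ₐ[k] κ') : CurveHyp' k κ' where
  deg_eq_one Q := by
    rw [← placeMap_placeMap_symm e Q, deg_placeMap]
    exact hC.deg_eq_one _
  hasPrincipalDivisors :=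
    haveI := hC.hasPrincipalDivisors
    PlaceEquiv.hasPrincipalDivisors e
  nonempty := hC.nonempty.map (placeMap e)
  const_of_ord_eq_zero s hs hord := by
    obtain ⟨c, hc⟩ := hC.const_of_ord_eq_zero (e.symm s)
      ((map_ne_zero_iff e.symm e.symm.injective).mpr hs) (fun Q => by
        rw [← ord_placeMap' e Q s]
        exact hord _)
    refine ⟨c, ?_⟩
    rw [← e.apply_symm_apply s, hc, e.commutes]

section Spec

variable {M : ℕ} [NeZero M] {A : ValuationSubring (AlgebraicClosure ℚ)} {n : ℕ}
  (D : Datum A (modularFunctionFieldBar M) n)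

/-- package with internals + curve facts on the hub's residue field ⇒ a specialisation map -/
theorem exists_isSpecMap_of_facts {g : ℤ} (hF : Pkg.Facts A D g)
    (hC : CurveHyp (IsLocalRing.ResidueField A) D.goodVal.κ D.goodVal.hbar) :
    ∃ r : Place (AlgebraicClosure ℚ) (modularFunctionFieldBar M) →
        Place (IsLocalRing.ResidueField A) (specialField A (modularFunctionFieldBar M)),
      IsSpecMap A (modularFunctionFieldBar M) r := by
  haveI := Pkg.isAlgClosed_residueField A
  haveI := hF.isSeparable
  obtain ⟨Hb, hHb, hHbdeg⟩ := hC.exists_poleDivisor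
  apply SpecGlue.exists_isSpecMap_of_core D
  exact SpecCore.exists_spec D.goodVal hF.isGenerator hF.transferZero hF.transferInf
    hF.latticeLemma hF.genusFormula hF.g2 hF.isGenerator_bar hC.resConst hC.deg_eq_one
    hC.hasPrincipalDivisors hC.nonempty Hb hHb (by rw [hHbdeg, hF.finrank_bar, hF.finrank_eq])

/-- the curve facts on the intrinsic special fibre field -/
theorem curveHyp'_special
    (hC : CurveHyp (IsLocalRing.ResidueField A) D.goodVal.κ D.goodVal.hbar) :
    CurveHyp' (IsLocalRing.ResidueField A) (specialField A (modularFunctionFieldBar M)) :=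
  hC.transport (SpecGlue.κEquiv D)

end Spec

/-- at every level prime to `ℓ` there is a Gauss datum whose residue field has the separable
generator `h̄` (no package needed). -/
theorem exists_datum_curve (M : ℕ) [NeZero M] (ℓ : ℕ) [Fact ℓ.Prime] (hℓM : ¬ ℓ ∣ M)
    (A : ValuationSubring (AlgebraicClosure ℚ)) (hA : A.LiesOverPrime ℓ) :
    ∃ (n : ℕ) (D : Datum A (modularFunctionFieldBar M) n),
      IsGenerator (IsLocalRing.ResidueField A) D.goodVal.hbar ∧
      Algebra.IsSeparable
        (IntermediateField.adjoin (IsLocalRing.ResidueField A) {D.goodVal.hbar}) D.goodVal.κ := by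
  obtain ⟨n, D, hn, -, hhA, hθA⟩ := Gauss.exists_datum M ℓ hℓM A hA (H1.haupt_j M)
  have hsep := Gauss.Datum.isSeparable_of_haupt ℓ hℓM hA D (H1.haupt_j M) hhA hθA
  have hC0 := D.chartVal_zero hsep
  exact ⟨n, D, ⟨hC0.xbar_transcendental,
    Module.finite_of_finrank_pos (by rw [hC0.finrank_bar]; exact hn)⟩, hsep⟩

end Fermat.Agent.S37.SpecMain
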