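import Mathlib
import Fermat.Agent.S37_SpecMain
import Fermat.Agent.S37_CurveP

/-!
# S37 (RI): specialisation maps of `X₀(M)` — final statements

* `curveHyp`: the curve facts of `S37_CurveP` as a `SpecMain.CurveHyp`;
* `exists_isSpecMap_j`, `exists_isSpecMap_h2`, `exists_isSpecMap_h3`: a specialisation map
  `Place ℚ̄ F_M → Place k (specialField A F_M)` with conservation of number, in the three package
  cases (`ℓ ≥ 5`; `ℓ = 3`, `2 ∣ M`; `ℓ = 2`, `3 ∣ M`);
* `curveHyp'_bar`: all places of the special fibre field have degree one, principal divisors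
  exist, functions without zeros and poles are constants — at every level prime to `ℓ`.
-/

set_option autoImplicit false
set_option linter.style.haveILetI false

noncomputable section

open ModularCurve AlgebraicCurve Fermat.Agent.S24 Fermat.Agent.S18 Fermat.Agent.S18.Gauss

namespace Fermat.Agent.S37.SpecFinal

open Fermat.Agent.S37 Fermat.Agent.S37.SpecMain

/-- the curve facts from `S37_CurveP` -/
theorem curveHyp {k κ : Type*} [Field k] [IsAlgClosed k] [Field κ] [Algebra k κ] {x : κ}
    (hx : IsGenerator k x) [Algebra.IsSeparable (IntermediateField.adjoin k {x}) κ] :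
    CurveHyp k κ x :=
  ⟨CurveP.resConst hx, CurveP.deg_eq_one hx, CurveP.hasPrincipalDivisors hx,
    CurveP.nonempty_place hx, CurveP.exists_poleDivisor hx,
    fun s _ hs => CurveP.const_of_ord_eq_zero hx s hs⟩

/-- specialisation map for `ℓ ≥ 5` at every level prime to `ℓ`. -/
theorem exists_isSpecMap_j (M ℓ : ℕ) [NeZero M] [Fact ℓ.Prime] (hℓM : ¬ ℓ ∣ M)
    (A : ValuationSubring (AlgebraicClosure ℚ)) (hA : A.LiesOverPrime ℓ) (hℓ : 5 ≤ ℓ) :
    ∃ r : Place (AlgebraicClosure ℚ) (modularFunctionFieldBar M) →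
        Place (IsLocalRing.ResidueField A) (specialField A (modularFunctionFieldBar M)),
      IsSpecMap A (modularFunctionFieldBar M) r := by
  obtain ⟨n, D, g, hF, -⟩ := Pkg.package'_j M ℓ hℓM A hA hℓ
  haveI := Pkg.isAlgClosed_residueField A
  haveI := hF.isSeparable
  exact exists_isSpecMap_of_facts D hF (curveHyp hF.isGenerator_bar)

/-- specialisation map for `ℓ = 3` at a level divisible by `2`. -/
theorem exists_isSpecMap_h2 (M ℓ : ℕ) [NeZero M] [Fact ℓ.Prime] (hℓM : ¬ ℓ ∣ M)
    (A : ValuationSubring (AlgebraicClosure ℚ)) (hA : A.LiesOverPrime ℓ) (hℓ : ℓ = 3)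
    (hM : 2 ∣ M) :
    ∃ r : Place (AlgebraicClosure ℚ) (modularFunctionFieldBar M) →
        Place (IsLocalRing.ResidueField A) (specialField A (modularFunctionFieldBar M)),
      IsSpecMap A (modularFunctionFieldBar M) r := by
  obtain ⟨n, D, g, hF, -⟩ := Pkg.package'_h2 M ℓ hℓM A hA hℓ hM
  haveI := Pkg.isAlgClosed_residueField A
  haveI := hF.isSeparable
  exact exists_isSpecMap_of_facts D hF (curveHyp hF.isGenerator_bar)

/-- specialisation map for `ℓ = 2` at a level divisible by `3`. -/
theorem exists_isSpecMap_h3 (M ℓ : ℕ) [NeZero M] [Fact ℓ.Prime] (hℓM : ¬ ℓ ∣ M)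
    (A : ValuationSubring (AlgebraicClosure ℚ)) (hA : A.LiesOverPrime ℓ) (hℓ : ℓ = 2)
    (hM : 3 ∣ M) :
    ∃ r : Place (AlgebraicClosure ℚ) (modularFunctionFieldBar M) →
        Place (IsLocalRing.ResidueField A) (specialField A (modularFunctionFieldBar M)),
      IsSpecMap A (modularFunctionFieldBar M) r := by
  obtain ⟨n, D, g, hF, -⟩ := Pkg.package'_h3 M ℓ hℓM A hA hℓ hM
  haveI := Pkg.isAlgClosed_residueField A
  haveI := hF.isSeparable
  exact exists_isSpecMap_of_facts D hF (curveHyp hF.isGenerator_bar)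

/-- the curve facts on the special fibre field at every level prime to `ℓ`. -/
theorem curveHyp'_bar (M ℓ : ℕ) [NeZero M] [Fact ℓ.Prime] (hℓM : ¬ ℓ ∣ M)
    (A : ValuationSubring (AlgebraicClosure ℚ)) (hA : A.LiesOverPrime ℓ) :
    CurveHyp' (IsLocalRing.ResidueField A) (specialField A (modularFunctionFieldBar M)) := by
  obtain ⟨n, D, hgen, hsep⟩ := exists_datum_curve M ℓ hℓM A hA
  haveI := Pkg.isAlgClosed_residueField A
  haveI := hsep
  exact curveHyp'_special D (curveHyp hgen)

end Fermat.Agent.S37.SpecFinal
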