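import Mathlib
import Fermat.Agent.S37_SpecDefs
import Fermat.Agent.S37_RIFrac
import Fermat.Agent.S37_Galois
import Fermat.Agent.S18_Datum
import Fermat.Agent.S18_GaussSep

/-!
# S37 (S2)+(G) on the intrinsic special fibre

`A` a valuation subring of `ℚ̄` over `ℓ`, `k` its residue field, `F_M` the function field of
`X₀(M)` over `ℚ̄` (`ℓ ∤ M`), `κ = specialField A F_M ⊂ k((q))` (helper4's `S37_SpecDefs`).

* `coeffAutOn E hE`: the coefficientwise action of `Aut(k)` on a coefficient-stable intermediate
  field `E ⊂ k((q))`, as semilinear automorphisms.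
* `coeffStable_specialField`: `κ` is coefficient-stable.
* `isSpecMap_unique`: a specialisation map `r : Place ℚ̄ F_M → Place k κ` is unique
  (rigidity at level `M`, the fraction form of Gauss normalisation, and the `q`-adic place of
  `κ`).
* `specMap_smul`: `r (σ • P) = φ • r P` for `σ` in the decomposition group of `A` inducing `φ`
  on `k`.
* `red_smul`, `red_inertia`, `red_frobenius`: the same on `Pic⁰`, for every additive map `red`
  which is induced by `r` on divisor classes; `frobSpec` is the coefficientwise Frobenius.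
-/

set_option autoImplicit false
set_option linter.style.haveILetI false
set_option linter.unusedSectionVars false

noncomputable section

open ModularCurve AlgebraicCurve HahnSeries

namespace Fermat.Agent.S37.Gal

open Fermat.Agent.S18 Fermat.Agent.S18.Gauss

/-! ## intermediate fields of `k((q))`: the `q`-adic place and coefficientwise automorphisms -/

section Generic

variable {k : Type*} [Field k] (E : IntermediateField k (LaurentSeries k))

/-- the `q`-adic order on an intermediate field of `k((q))`. -/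
def qValOn : Fermat.Agent.S24.IntVal k E where
  toFun f := (f : LaurentSeries k).order
  map_mul' a b ha hb := by
    have ha' : (a : LaurentSeries k) ≠ 0 := fun h => ha (Subtype.ext h)
    have hb' : (b : LaurentSeries k) ≠ 0 := fun h => hb (Subtype.ext h)
    show ((a : LaurentSeries k) * (b : LaurentSeries k)).order = _
    exact HahnSeries.order_mul ha' hb'
  map_add' a b _ _ hab := by
    have hab' : (a : LaurentSeries k) + (b : LaurentSeries k) ≠ 0 := fun h => hab (Subtype.ext h)
    show min _ _ ≤ ((a : LaurentSeries k) + (b : LaurentSeries k)).order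
    exact HahnSeries.min_order_le_order_add hab'
  map_algebraMap' c hc := by
    show (algebraMap k (LaurentSeries k) c).order = 0
    rw [algebraMap_laurentSeries_eq_single]
    exact HahnSeries.order_single hc

/-- an element of nonzero `q`-order has a zero or a pole at some place. -/
theorem exists_place_ord_ne_zero (x : E) (hx0 : x ≠ 0) (hx : (x : LaurentSeries k).order ≠ 0) :
    ∃ Q : Place k E, Q.ord x ≠ 0 := by
  obtain ⟨Q, e, he, hQ⟩ := Fermat.Agent.RR.exists_place_of_intVal (qValOn E) ⟨x, hx0, hx⟩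
  refine ⟨Q, fun h => hx ?_⟩
  have := hQ x hx0
  rw [h, mul_zero] at this
  exact this

/-- `E` is stable under all coefficientwise automorphisms. -/
def CoeffStable : Prop :=
  ∀ (φ : k ≃+* k) (x : LaurentSeries k), x ∈ E → coeffMap (φ : k →+* k) x ∈ E

variable {E}

/-- the coefficientwise action of an automorphism of `k`, as a ring automorphism of `E`. -/
def coeffRingAutOn (hE : CoeffStable E) (φ : k ≃+* k) : E ≃+* E where
  toFun x := ⟨coeffMap (φ : k →+* k) (x : LaurentSeries k), hE φ _ x.2⟩
  invFun x := ⟨coeffMap (φ.symm : k →+* k) (x : LaurentSeries k), hE φ.symm _ x.2⟩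
  left_inv x := Subtype.ext <| by
    show coeffMap (φ.symm : k →+* k) (coeffMap (φ : k →+* k) (x : LaurentSeries k))
      = (x : LaurentSeries k)
    rw [coeffMap_coeffMap,
      coeffMap_congr (g := RingHom.id k) (RingHom.ext fun a => φ.symm_apply_apply a)
        (x : LaurentSeries k),
      coeffMap_id]
  right_inv x := Subtype.ext <| by
    show coeffMap (φ : k →+* k) (coeffMap (φ.symm : k →+* k) (x : LaurentSeries k))
      = (x : LaurentSeries k)
    rw [coeffMap_coeffMap,
      coeffMap_congr (g := RingHom.id k) (RingHom.ext fun a => φ.apply_symm_apply a)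
        (x : LaurentSeries k),
      coeffMap_id]
  map_mul' x y :=
    Subtype.ext (map_mul (coeffMap (φ : k →+* k)) (x : LaurentSeries k) (y : LaurentSeries k))
  map_add' x y :=
    Subtype.ext (map_add (coeffMap (φ : k →+* k)) (x : LaurentSeries k) (y : LaurentSeries k))

theorem coeffRingAutOn_algebraMap (hE : CoeffStable E) (φ : k ≃+* k) (a : k) :
    coeffRingAutOn hE φ (algebraMap k E a) = algebraMap k E (φ a) :=
  Subtype.ext (coeffMap_algebraMap (φ : k →+* k) a)

/-- the coefficientwise action of `Aut(k)` on a coefficient-stable intermediate field of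
`k((q))`, as semilinear automorphisms. -/
def coeffAutOn (hE : CoeffStable E) : (k ≃+* k) →* SemilinearAut k E where
  toFun φ := ⟨(coeffRingAutOn hE φ, φ), fun a => coeffRingAutOn_algebraMap hE φ a⟩
  map_one' := by
    refine Subtype.ext (Prod.ext (RingEquiv.ext fun x => Subtype.ext ?_) rfl)
    show coeffMap ((1 : k ≃+* k) : k →+* k) (x : LaurentSeries k) = (x : LaurentSeries k)
    rw [show ((1 : k ≃+* k) : k →+* k) = RingHom.id k from RingHom.ext fun _ => rfl,
      coeffMap_id]
  map_mul' σ τ := by
    refine Subtype.ext (Prod.ext (RingEquiv.ext fun x => Subtype.ext ?_) rfl)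
    show coeffMap ((σ * τ : k ≃+* k) : k →+* k) (x : LaurentSeries k)
      = coeffMap (σ : k →+* k) (coeffMap (τ : k →+* k) (x : LaurentSeries k))
    rw [coeffMap_coeffMap]
    exact coeffMap_congr (RingHom.ext fun _ => rfl) _

theorem coe_coeffAutOn_smul (hE : CoeffStable E) (φ : k ≃+* k) (x : E) :
    ((coeffAutOn hE φ • x : E) : LaurentSeries k) = coeffMap (φ : k →+* k) (x : LaurentSeries k) :=
  rfl

@[simp]
theorem baseAut_coeffAutOn (hE : CoeffStable E) (φ : k ≃+* k) :
    SemilinearAut.baseAut (coeffAutOn hE φ) = φ :=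
  rfl

end Generic

/-! ## the decomposition group and the Gauss ring -/

section GaussGalois

variable (A : ValuationSubring (AlgebraicClosure ℚ))

theorem emb_decomp (σ : AlgebraicClosure ℚ ≃ₐ[ℚ] AlgebraicClosure ℚ)
    (hσ : σ ∈ A.decompositionSubgroup ℚ) (y : LaurentSeries A) :
    emb A (coeffMap (decompRingHom A σ hσ) y)
      = coeffMap (σ : AlgebraicClosure ℚ →+* AlgebraicClosure ℚ) (emb A y) :=
  coeffMap_subtype_decomp A σ hσ y

theorem red_decomp (σ : AlgebraicClosure ℚ ≃ₐ[ℚ] AlgebraicClosure ℚ)
    (hσ : σ ∈ A.decompositionSubgroup ℚ)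
    (φ : IsLocalRing.ResidueField A ≃+* IsLocalRing.ResidueField A)
    (hφ : ∀ x : IsLocalRing.ResidueField A,
      (⟨σ, hσ⟩ : A.decompositionSubgroup ℚ) • x = φ x)
    (y : LaurentSeries A) :
    red A (coeffMap (decompRingHom A σ hσ) y)
      = coeffMap (φ : IsLocalRing.ResidueField A →+* IsLocalRing.ResidueField A) (red A y) :=
  coeffMap_residue_decomp A σ hσ φ hφ y

/-- the Gauss ring is stable under the decomposition group. -/
theorem coeffMap_mem_gaussRing (σ : AlgebraicClosure ℚ ≃ₐ[ℚ] AlgebraicClosure ℚ)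
    (hσ : σ ∈ A.decompositionSubgroup ℚ)
    (φ : IsLocalRing.ResidueField A ≃+* IsLocalRing.ResidueField A)
    (hφ : ∀ x : IsLocalRing.ResidueField A,
      (⟨σ, hσ⟩ : A.decompositionSubgroup ℚ) • x = φ x)
    {x : LaurentSeries (AlgebraicClosure ℚ)} (hx : x ∈ gaussRing A) :
    coeffMap (σ : AlgebraicClosure ℚ →+* AlgebraicClosure ℚ) x ∈ gaussRing A := by
  obtain ⟨s, a, hs, h⟩ := hx
  refine ⟨coeffMap (decompRingHom A σ hσ) s, coeffMap (decompRingHom A σ hσ) a, ?_, ?_⟩
  · rw [red_decomp A σ hσ φ hφ]
    exact coeffMap_ne_zero _ hs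
  · rw [emb_decomp, emb_decomp, ← map_mul, h]

/-- the Gauss reduction intertwines the decomposition group with its action on the residue
field. -/
theorem rho_coeffMap (σ : AlgebraicClosure ℚ ≃ₐ[ℚ] AlgebraicClosure ℚ)
    (hσ : σ ∈ A.decompositionSubgroup ℚ)
    (φ : IsLocalRing.ResidueField A ≃+* IsLocalRing.ResidueField A)
    (hφ : ∀ x : IsLocalRing.ResidueField A,
      (⟨σ, hσ⟩ : A.decompositionSubgroup ℚ) • x = φ x)
    (x : gaussRing A) :
    rho A ⟨coeffMap (σ : AlgebraicClosure ℚ →+* AlgebraicClosure ℚ)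
          (x : LaurentSeries (AlgebraicClosure ℚ)),
        coeffMap_mem_gaussRing A σ hσ φ hφ x.2⟩
      = coeffMap (φ : IsLocalRing.ResidueField A →+* IsLocalRing.ResidueField A) (rho A x) := by
  obtain ⟨s, a, hs, h⟩ := x.2
  have hs' : red A (coeffMap (decompRingHom A σ hσ) s) ≠ 0 := by
    rw [red_decomp A σ hσ φ hφ]
    exact coeffMap_ne_zero _ hs
  have h' : emb A (coeffMap (decompRingHom A σ hσ) s)
      * coeffMap (σ : AlgebraicClosure ℚ →+* AlgebraicClosure ℚ)
          (x : LaurentSeries (AlgebraicClosure ℚ))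
      = emb A (coeffMap (decompRingHom A σ hσ) a) := by
    rw [emb_decomp, emb_decomp, ← map_mul, h]
  rw [rho_eq A ⟨coeffMap (σ : AlgebraicClosure ℚ →+* AlgebraicClosure ℚ)
          (x : LaurentSeries (AlgebraicClosure ℚ)),
        coeffMap_mem_gaussRing A σ hσ φ hφ x.2⟩ _ _ hs' h', rho_eq A x s a hs h,
    red_decomp A σ hσ φ hφ, red_decomp A σ hσ φ hφ, map_div₀]

end GaussGalois

/-! ## the special fibre of `X₀(M)` -/

section Spec

set_option synthInstance.maxHeartbeats 400000

variable {M : ℕ} [NeZero M] (A : ValuationSubring (AlgebraicClosure ℚ))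

/-- **(g3)** the special fibre field is stable under coefficientwise automorphisms. -/
theorem coeffStable_specialField (ℓ : ℕ) [Fact ℓ.Prime] (hℓM : ¬ ℓ ∣ M)
    (hA : A.LiesOverPrime ℓ) :
    CoeffStable (specialField A (modularFunctionFieldBar M)) := by
  obtain ⟨n, D, -, -, hh, hθ⟩ := Gauss.exists_datum M ℓ hℓM A hA (H1.haupt_j M)
  have e : specialField A (modularFunctionFieldBar M)
      = IntermediateField.adjoin (IsLocalRing.ResidueField A) {red A D.hA, red A D.θA} := by
    rw [← range_κembAlg D, D.range_κemb]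
  have hfix : ∀ (φ : IsLocalRing.ResidueField A ≃+* IsLocalRing.ResidueField A)
      (z : LaurentSeries ℤ),
      coeffMap (φ : IsLocalRing.ResidueField A →+* IsLocalRing.ResidueField A)
        (red A (coeffMap (Int.castRingHom A) z)) = red A (coeffMap (Int.castRingHom A) z) := by
    intro φ z
    unfold red
    rw [coeffMap_coeffMap, coeffMap_coeffMap, coeffMap_coeffMap]
    exact coeffMap_congr (RingHom.ext_int _ _) z
  intro φ x hx
  rw [e] at hx ⊢
  replace hx : x ∈ Subfield.closure
      (Set.range (algebraMap (IsLocalRing.ResidueField A)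
        (LaurentSeries (IsLocalRing.ResidueField A))) ∪ {red A D.hA, red A D.θA}) := hx
  induction hx using Subfield.closure_induction with
  | mem y hy =>
      rcases hy with ⟨a, rfl⟩ | rfl | rfl
      · rw [coeffMap_algebraMap]
        exact IntermediateField.algebraMap_mem _ _
      · rw [hh, hfix, ← hh]
        exact IntermediateField.subset_adjoin _ _ (Set.mem_insert _ _)
      · rw [hθ, hfix, ← hθ]
        exact IntermediateField.subset_adjoin _ _ (Set.mem_insert_of_mem _ rfl)
  | one => simp
  | add x y _ _ hx hy => simpa using add_mem hx hy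
  | neg x _ hx => simpa using neg_mem hx
  | inv x _ hx => simpa using inv_mem hx
  | mul x y _ _ hx hy => simpa using mul_mem hx hy

/-- two additive maps induced by spec maps agree on principal divisors. -/
theorem isSpecMap_principal (ℓ : ℕ) [Fact ℓ.Prime] (hℓM : ¬ ℓ ∣ M) (hA : A.LiesOverPrime ℓ)
    {r₁ r₂ : Place (AlgebraicClosure ℚ) (modularFunctionFieldBar M) →
      Place (IsLocalRing.ResidueField A) (specialField A (modularFunctionFieldBar M))}
    (h₁ : IsSpecMap A (modularFunctionFieldBar M) r₁)
    (h₂ : IsSpecMap A (modularFunctionFieldBar M) r₂)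
    (D : Divisor (AlgebraicClosure ℚ) (modularFunctionFieldBar M))
    (hD : D ∈ Divisor.principal (K := AlgebraicClosure ℚ) (F := modularFunctionFieldBar M)) :
    Finsupp.mapDomain r₁ D = Finsupp.mapDomain r₂ D := by
  obtain ⟨u, hu, hDu⟩ := hD
  obtain ⟨c, y₁, y₂, hy₁, hy₂, hc, hrel, hne₁, hne₂⟩ :=
    Fermat.Agent.S37.RIFrac.ri_frac' M ℓ hℓM A hA u hu
  have hY₁ : (⟨coeffMap A.subtype y₁, hy₁⟩ : modularFunctionFieldBar M) ≠ 0 :=
    fun h => emb_ne_zero A hne₁ (congrArg Subtype.val h)
  have hY₂ : (⟨coeffMap A.subtype y₂, hy₂⟩ : modularFunctionFieldBar M) ≠ 0 :=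
    fun h => emb_ne_zero A hne₂ (congrArg Subtype.val h)
  obtain ⟨D₁, hD₁, -⟩ := (hasPrincipalDivisors_bar M).exists_divisor _ hY₁
  obtain ⟨D₂, hD₂, -⟩ := (hasPrincipalDivisors_bar M).exists_divisor _ hY₂
  have hDD : D = D₁ - D₂ := by
    ext v
    rw [Finsupp.sub_apply, hDu v, hD₁ v, hD₂ v]
    have h := congrArg v.ord hrel
    rw [v.ord_mul hu hY₂, v.ord_mul ((map_ne_zero _).mpr hc) hY₁,
      Fermat.Agent.RR.ord_algebraMap, zero_add] at h
    omega
  have hE : ∀ (y : LaurentSeries A) (hy : coeffMap A.subtype y ∈ modularFunctionFieldBar M)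
      (_ : coeffMap (IsLocalRing.residue A) y ≠ 0)
      (E : Divisor (AlgebraicClosure ℚ) (modularFunctionFieldBar M))
      (_ : ∀ P, E P = P.ord (⟨coeffMap A.subtype y, hy⟩ : modularFunctionFieldBar M)),
      Finsupp.mapDomain r₁ E = Finsupp.mapDomain r₂ E := by
    intro y hy hne E hE
    ext Q
    rw [IsSpecMap.series A _ h₁ y hy hne E hE Q, IsSpecMap.series A _ h₂ y hy hne E hE Q]
  rw [hDD, Finsupp.mapDomain_sub, Finsupp.mapDomain_sub, hE y₁ hy₁ hne₁ D₁ hD₁,
    hE y₂ hy₂ hne₂ D₂ hD₂]

/-- **(S2)** a specialisation map is unique. -/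
theorem isSpecMap_unique (ℓ : ℕ) [Fact ℓ.Prime] (hℓM : ¬ ℓ ∣ M) (hA : A.LiesOverPrime ℓ)
    {r₁ r₂ : Place (AlgebraicClosure ℚ) (modularFunctionFieldBar M) →
      Place (IsLocalRing.ResidueField A) (specialField A (modularFunctionFieldBar M))}
    (h₁ : IsSpecMap A (modularFunctionFieldBar M) r₁)
    (h₂ : IsSpecMap A (modularFunctionFieldBar M) r₂) : r₁ = r₂ := by
  classical
  set δ : Divisor (AlgebraicClosure ℚ) (modularFunctionFieldBar M) →+
      Divisor (IsLocalRing.ResidueField A) (specialField A (modularFunctionFieldBar M)) :=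
    Finsupp.mapDomain.addMonoidHom r₁ - Finsupp.mapDomain.addMonoidHom r₂ with hδ
  have hδapp : ∀ D, δ D = Finsupp.mapDomain r₁ D - Finsupp.mapDomain r₂ D := fun D => rfl
  have hprin : ∀ D ∈ Divisor.principal (K := AlgebraicClosure ℚ)
      (F := modularFunctionFieldBar M), δ D = 0 := by
    intro D hD
    rw [hδapp, isSpecMap_principal A ℓ hℓM hA h₁ h₂ D hD, sub_self]
  have hC : ∀ (P : Place (AlgebraicClosure ℚ) (modularFunctionFieldBar M))
      (Q : Place (IsLocalRing.ResidueField A) (specialField A (modularFunctionFieldBar M))),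
      |δ (Finsupp.single P 1) Q| ≤ 2 := by
    intro P Q
    rw [hδapp, Finsupp.mapDomain_single, Finsupp.mapDomain_single, Finsupp.sub_apply,
      Finsupp.single_apply, Finsupp.single_apply]
    split_ifs <;> simp
  have hδdeg0 : ∀ D ∈ Divisor.degZero (K := AlgebraicClosure ℚ) (F := modularFunctionFieldBar M),
      δ D = 0 := fun D hD => rigid_div_principal M δ 2 hC hprin D hD
  have hdeg := deg_eq_one_bar M
  have hconst : ∀ P Q : Place (AlgebraicClosure ℚ) (modularFunctionFieldBar M),
      Finsupp.single (r₁ P) (1 : ℤ) - Finsupp.single (r₂ P) 1 =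
        Finsupp.single (r₁ Q) 1 - Finsupp.single (r₂ Q) 1 := by
    intro P Q
    have hPQ : Finsupp.single P (1 : ℤ) - Finsupp.single Q 1 ∈
        Divisor.degZero (K := AlgebraicClosure ℚ) (F := modularFunctionFieldBar M) := by
      rw [Divisor.mem_degZero, map_sub, Divisor.degree_single, Divisor.degree_single, hdeg, hdeg,
        sub_self]
    have h := hδdeg0 _ hPQ
    rw [hδapp, Finsupp.mapDomain_sub, Finsupp.mapDomain_sub, Finsupp.mapDomain_single,
      Finsupp.mapDomain_single, Finsupp.mapDomain_single, Finsupp.mapDomain_single,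
      sub_eq_zero] at h
    exact sub_eq_sub_iff_sub_eq_sub.mpr h
  by_contra hne
  obtain ⟨P₀, hP₀⟩ : ∃ P₀, r₁ P₀ ≠ r₂ P₀ := by
    by_contra hall
    push Not at hall
    exact hne (funext hall)
  have hr₁const : ∀ Q, r₁ Q = r₁ P₀ := by
    intro Q
    have h := congrArg (fun E => E (r₁ P₀)) (hconst Q P₀)
    simp only [Finsupp.sub_apply, Finsupp.single_apply, if_neg (Ne.symm hP₀)] at h
    by_contra hQ
    rw [if_neg hQ] at h
    split_ifs at h <;> omega
  -- the divisor of `j`
  have hjmem := coeffMap_subtype_jqModC_mem M A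
  have hjne : coeffMap (IsLocalRing.residue A) (jqModC A) ≠ 0 := by
    rw [coeffMap_jqModC]
    exact jqModC_ne_zero_of_nontrivial _
  have hj0 : (⟨coeffMap A.subtype (jqModC A), hjmem⟩ : modularFunctionFieldBar M) ≠ 0 := by
    intro h
    have h2 := congrArg Subtype.val h
    simp only [coeffMap_jqModC] at h2
    exact jqModC_ne_zero_of_nontrivial (AlgebraicClosure ℚ) h2
  obtain ⟨Dj, hDj, hDj0⟩ := (hasPrincipalDivisors_bar M).exists_divisor _ hj0
  have hmapconst : ∀ D : Divisor (AlgebraicClosure ℚ) (modularFunctionFieldBar M),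
      Finsupp.mapDomain r₁ D = Finsupp.single (r₁ P₀) (Divisor.degree D) := by
    intro D
    induction D using Finsupp.induction with
    | zero => simp
    | single_add P n D _ _ ih =>
      rw [Finsupp.mapDomain_add, ih, Finsupp.mapDomain_single, hr₁const P, map_add,
        Divisor.degree_single, hdeg, Nat.cast_one, mul_one, ← Finsupp.single_add]
  set jb : specialField A (modularFunctionFieldBar M) :=
    ⟨coeffMap (IsLocalRing.residue A) (jqModC A),
      red_series_mem A (modularFunctionFieldBar M) (jqModC A) hjmem⟩ with hjb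
  have hjb0 : jb ≠ 0 := fun h => hjne (congrArg Subtype.val h)
  have hord : ((jb : specialField A (modularFunctionFieldBar M)) :
      LaurentSeries (IsLocalRing.ResidueField A)).order ≠ 0 := by
    show (coeffMap (IsLocalRing.residue A) (jqModC A)).order ≠ 0
    rw [coeffMap_jqModC]
    have h1 : (jqModC (IsLocalRing.ResidueField A)).coeff (-1) ≠ 0 := by
      rw [coeff_jqModC_neg_one]
      exact one_ne_zero
    have h2 := HahnSeries.order_le_of_coeff_ne_zero h1
    omega
  obtain ⟨Q, hQ⟩ := exists_place_ord_ne_zero _ jb hjb0 hord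
  apply hQ
  have h := IsSpecMap.series A _ h₁ (jqModC A) hjmem hjne Dj hDj Q
  rw [hmapconst Dj, hDj0, Finsupp.single_zero, Finsupp.zero_apply] at h
  exact h.symm

/-- transport of structure: the conjugate of a spec map by an element of the decomposition
group is a spec map. -/
theorem isSpecMap_conj
    (hst : CoeffStable (specialField A (modularFunctionFieldBar M)))
    {r : Place (AlgebraicClosure ℚ) (modularFunctionFieldBar M) →
      Place (IsLocalRing.ResidueField A) (specialField A (modularFunctionFieldBar M))}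
    (hr : IsSpecMap A (modularFunctionFieldBar M) r)
    (σ : AlgebraicClosure ℚ ≃ₐ[ℚ] AlgebraicClosure ℚ) (hσ : σ ∈ A.decompositionSubgroup ℚ)
    (φ : IsLocalRing.ResidueField A ≃+* IsLocalRing.ResidueField A)
    (hφ : ∀ x : IsLocalRing.ResidueField A,
      (⟨σ, hσ⟩ : A.decompositionSubgroup ℚ) • x = φ x) :
    IsSpecMap A (modularFunctionFieldBar M)
      (fun P => (coeffAutOn hst φ)⁻¹ •
        r (arithmeticGalois (modularFunctionFieldFull M) σ • P)) := by
  classical
  set g := arithmeticGalois (L := AlgebraicClosure ℚ) (modularFunctionFieldFull M) σ with hg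
  set gk := coeffAutOn hst φ with hgk
  intro y hy D hD Q
  have hmem : (g • (y : modularFunctionFieldBar M) : modularFunctionFieldBar M)
      ∈ gaussSub A (modularFunctionFieldBar M) :=
    coeffMap_mem_gaussRing A σ hσ φ hφ y.2
  set y' : gaussSub A (modularFunctionFieldBar M) :=
    ⟨g • (y : modularFunctionFieldBar M), hmem⟩ with hy'def
  have e2 : gaussRed A (modularFunctionFieldBar M) y'
      = coeffMap (φ : IsLocalRing.ResidueField A →+* IsLocalRing.ResidueField A)
          (gaussRed A (modularFunctionFieldBar M) y) :=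
    rho_coeffMap A σ hσ φ hφ
      ⟨((y : modularFunctionFieldBar M) : LaurentSeries (AlgebraicClosure ℚ)), y.2⟩
  have hy' : gaussRed A (modularFunctionFieldBar M) y' ≠ 0 := by
    rw [e2]
    exact coeffMap_ne_zero _ hy
  have efk : gaussRedS A (modularFunctionFieldBar M) y'
      = gk • gaussRedS A (modularFunctionFieldBar M) y := Subtype.ext e2
  have hD' : ∀ P, (g • D) P = P.ord ((y' : gaussSub A (modularFunctionFieldBar M)) :
      modularFunctionFieldBar M) := by
    intro P
    rw [SemilinearAut.divisor_smul_apply, hD]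
    have h := SemilinearAut.ord_smul g (g⁻¹ • P) (y : modularFunctionFieldBar M)
    rw [smul_inv_smul] at h
    exact h.symm
  have key := hr y' hy' (g • D) hD' (gk • Q)
  rw [efk, SemilinearAut.ord_smul] at key
  rw [← key]
  have hcomp : Finsupp.mapDomain (fun P => gk⁻¹ • r (g • P)) D
      = gk⁻¹ • Finsupp.mapDomain r (g • D) := by
    rw [SemilinearAut.divisor_smul_def, SemilinearAut.divisor_smul_def,
      ← Finsupp.mapDomain_comp, ← Finsupp.mapDomain_comp]
    rfl
  rw [hcomp, SemilinearAut.divisor_smul_apply, inv_inv]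

/-- place level: `r (σ P) = σ̄ (r P)` for `σ` in the decomposition group inducing `φ` on the
residue field. -/
theorem specMap_smul (ℓ : ℕ) [Fact ℓ.Prime] (hℓM : ¬ ℓ ∣ M) (hA : A.LiesOverPrime ℓ)
    {r : Place (AlgebraicClosure ℚ) (modularFunctionFieldBar M) →
      Place (IsLocalRing.ResidueField A) (specialField A (modularFunctionFieldBar M))}
    (hr : IsSpecMap A (modularFunctionFieldBar M) r)
    (σ : AlgebraicClosure ℚ ≃ₐ[ℚ] AlgebraicClosure ℚ) (hσ : σ ∈ A.decompositionSubgroup ℚ)
    (φ : IsLocalRing.ResidueField A ≃+* IsLocalRing.ResidueField A)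
    (hφ : ∀ x : IsLocalRing.ResidueField A,
      (⟨σ, hσ⟩ : A.decompositionSubgroup ℚ) • x = φ x)
    (P : Place (AlgebraicClosure ℚ) (modularFunctionFieldBar M)) :
    r (arithmeticGalois (modularFunctionFieldFull M) σ • P)
      = coeffAutOn (coeffStable_specialField A ℓ hℓM hA) φ • r P := by
  have hu := isSpecMap_unique A ℓ hℓM hA
    (isSpecMap_conj A (coeffStable_specialField A ℓ hℓM hA) hr σ hσ φ hφ) hr
  have hP := congrFun hu P
  rw [← hP, smul_inv_smul]

/-- **(G)** for every additive map `red` induced by a spec map `r` on divisor classes: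
`red (σ • y) = σ̄ • red y` for `σ` in the decomposition group inducing `φ`. -/
theorem red_smul (ℓ : ℕ) [Fact ℓ.Prime] (hℓM : ¬ ℓ ∣ M) (hA : A.LiesOverPrime ℓ)
    {r : Place (AlgebraicClosure ℚ) (modularFunctionFieldBar M) →
      Place (IsLocalRing.ResidueField A) (specialField A (modularFunctionFieldBar M))}
    (hr : IsSpecMap A (modularFunctionFieldBar M) r)
    (red : JZero M →+ Pic0 (IsLocalRing.ResidueField A)
      (specialField A (modularFunctionFieldBar M)))
    (hred : ∀ D : Divisor.degZero (K := AlgebraicClosure ℚ) (F := modularFunctionFieldBar M),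
      ∃ h : Finsupp.mapDomain r (D : Divisor (AlgebraicClosure ℚ) (modularFunctionFieldBar M))
          ∈ Divisor.degZero (K := IsLocalRing.ResidueField A)
            (F := specialField A (modularFunctionFieldBar M)),
        red (Pic0.mk D) = Pic0.mk ⟨_, h⟩)
    (σ : AlgebraicClosure ℚ ≃ₐ[ℚ] AlgebraicClosure ℚ) (hσ : σ ∈ A.decompositionSubgroup ℚ)
    (φ : IsLocalRing.ResidueField A ≃+* IsLocalRing.ResidueField A)
    (hφ : ∀ x : IsLocalRing.ResidueField A,
      (⟨σ, hσ⟩ : A.decompositionSubgroup ℚ) • x = φ x)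
    (y : JZero M) :
    red (σ • y) = coeffAutOn (coeffStable_specialField A ℓ hℓM hA) φ • red y := by
  classical
  obtain ⟨D, rfl⟩ := Pic0.mk_surjective y
  rw [galois_smul_pic0_def, SemilinearAut.pic0_smul_mk]
  obtain ⟨h1, e1⟩ := hred (SemilinearAut.degZeroSMulHom
    (arithmeticGalois (L := AlgebraicClosure ℚ) (modularFunctionFieldFull M) σ) D)
  obtain ⟨h2, e2⟩ := hred D
  rw [e1, e2, SemilinearAut.pic0_smul_mk]
  congr 1
  apply Subtype.ext
  show Finsupp.mapDomain r ((arithmeticGalois (L := AlgebraicClosure ℚ)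
      (modularFunctionFieldFull M) σ) • (D : Divisor (AlgebraicClosure ℚ)
        (modularFunctionFieldBar M)))
    = coeffAutOn (coeffStable_specialField A ℓ hℓM hA) φ • Finsupp.mapDomain r
        (D : Divisor (AlgebraicClosure ℚ) (modularFunctionFieldBar M))
  rw [SemilinearAut.divisor_smul_def, SemilinearAut.divisor_smul_def,
    ← Finsupp.mapDomain_comp, ← Finsupp.mapDomain_comp]
  congr 1
  funext P
  exact specMap_smul A ℓ hℓM hA hr σ hσ φ hφ P

/-- **(G1)** inertia acts trivially after specialisation. -/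
theorem red_inertia (ℓ : ℕ) [Fact ℓ.Prime] (hℓM : ¬ ℓ ∣ M) (hA : A.LiesOverPrime ℓ)
    {r : Place (AlgebraicClosure ℚ) (modularFunctionFieldBar M) →
      Place (IsLocalRing.ResidueField A) (specialField A (modularFunctionFieldBar M))}
    (hr : IsSpecMap A (modularFunctionFieldBar M) r)
    (red : JZero M →+ Pic0 (IsLocalRing.ResidueField A)
      (specialField A (modularFunctionFieldBar M)))
    (hred : ∀ D : Divisor.degZero (K := AlgebraicClosure ℚ) (F := modularFunctionFieldBar M),
      ∃ h : Finsupp.mapDomain r (D : Divisor (AlgebraicClosure ℚ) (modularFunctionFieldBar M))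
          ∈ Divisor.degZero (K := IsLocalRing.ResidueField A)
            (F := specialField A (modularFunctionFieldBar M)),
        red (Pic0.mk D) = Pic0.mk ⟨_, h⟩)
    (σ : AlgebraicClosure ℚ ≃ₐ[ℚ] AlgebraicClosure ℚ) (hσ : σ ∈ A.inertiaSubgroupIn ℚ)
    (y : JZero M) : red (σ • y) = red y := by
  obtain ⟨τ, hτ, rfl⟩ := hσ
  have hτ' : ∀ x : IsLocalRing.ResidueField A, τ • x = x := by
    intro x
    have h1 : MulSemiringAction.toRingAut (A.decompositionSubgroup ℚ)
        (IsLocalRing.ResidueField A) τ = 1 := hτ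
    have h2 := congrArg (fun e : RingAut (IsLocalRing.ResidueField A) => e x) h1
    exact h2
  have h := red_smul A ℓ hℓM hA hr red hred
    (τ : AlgebraicClosure ℚ ≃ₐ[ℚ] AlgebraicClosure ℚ) τ.2 (RingEquiv.refl _) (fun x => hτ' x) y
  have h1 : coeffAutOn (coeffStable_specialField (M := M) A ℓ hℓM hA) (RingEquiv.refl _) = 1 :=
    map_one (coeffAutOn (coeffStable_specialField (M := M) A ℓ hℓM hA))
  rw [h1, one_smul] at h
  exact h

variable (M) in
/-- the coefficientwise Frobenius of the special fibre field. -/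
def frobSpec (ℓ : ℕ) [Fact ℓ.Prime] (hℓM : ¬ ℓ ∣ M) (hA : A.LiesOverPrime ℓ) :
    SemilinearAut (IsLocalRing.ResidueField A) (specialField A (modularFunctionFieldBar M)) :=
  coeffAutOn (coeffStable_specialField A ℓ hℓM hA) (frobAut A ℓ hA)

theorem coe_frobSpec_smul (ℓ : ℕ) [Fact ℓ.Prime] (hℓM : ¬ ℓ ∣ M) (hA : A.LiesOverPrime ℓ)
    (x : specialField A (modularFunctionFieldBar M)) :
    ((frobSpec M A ℓ hℓM hA • x : specialField A (modularFunctionFieldBar M)) :
        LaurentSeries (IsLocalRing.ResidueField A))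
      = coeffMap (frobAut A ℓ hA : IsLocalRing.ResidueField A →+* IsLocalRing.ResidueField A)
          (x : LaurentSeries (IsLocalRing.ResidueField A)) :=
  rfl

theorem coe_frobSpec_inv_smul (ℓ : ℕ) [Fact ℓ.Prime] (hℓM : ¬ ℓ ∣ M) (hA : A.LiesOverPrime ℓ)
    (x : specialField A (modularFunctionFieldBar M)) :
    (((frobSpec M A ℓ hℓM hA)⁻¹ • x : specialField A (modularFunctionFieldBar M)) :
        LaurentSeries (IsLocalRing.ResidueField A))
      = coeffMap ((frobAut A ℓ hA).symm :
          IsLocalRing.ResidueField A →+* IsLocalRing.ResidueField A)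
          (x : LaurentSeries (IsLocalRing.ResidueField A)) :=
  rfl

/-- **(G2)** Frobenius elements act as the coefficientwise Frobenius after specialisation. -/
theorem red_frobenius (ℓ : ℕ) [Fact ℓ.Prime] (hℓM : ¬ ℓ ∣ M) (hA : A.LiesOverPrime ℓ)
    {r : Place (AlgebraicClosure ℚ) (modularFunctionFieldBar M) →
      Place (IsLocalRing.ResidueField A) (specialField A (modularFunctionFieldBar M))}
    (hr : IsSpecMap A (modularFunctionFieldBar M) r)
    (red : JZero M →+ Pic0 (IsLocalRing.ResidueField A)
      (specialField A (modularFunctionFieldBar M)))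
    (hred : ∀ D : Divisor.degZero (K := AlgebraicClosure ℚ) (F := modularFunctionFieldBar M),
      ∃ h : Finsupp.mapDomain r (D : Divisor (AlgebraicClosure ℚ) (modularFunctionFieldBar M))
          ∈ Divisor.degZero (K := IsLocalRing.ResidueField A)
            (F := specialField A (modularFunctionFieldBar M)),
        red (Pic0.mk D) = Pic0.mk ⟨_, h⟩)
    (σ : AlgebraicClosure ℚ ≃ₐ[ℚ] AlgebraicClosure ℚ) (hσ : A.IsFrobeniusAt σ ℓ)
    (y : JZero M) : red (σ • y) = frobSpec M A ℓ hℓM hA • red y := by
  obtain ⟨hσ', hfrob⟩ := hσ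
  exact red_smul A ℓ hℓM hA hr red hred σ hσ' (frobAut A ℓ hA)
    (fun x => by rw [hfrob x, frobAut_apply]) y

end Spec

end Fermat.Agent.S37.Gal
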