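import Fermat.Agent.S37_Abstract
import Fermat.Agent.S37_Level
import Fermat.Agent.S37_LevelGal
import Fermat.Agent.S37_SpecFinal
import Fermat.Agent.S37_RedSpec
import Fermat.Agent.S37_SpecGal
import Fermat.Agent.S37_ESSpec
import Fermat.Agent.S37_HeckeInputsFinal
import Fermat.Agent.S18_Package
import Fermat.Agent.S18_Index

/-!
# S37: top-level assembly

`exists_redData`: the reduction datum (`S37Lib.RedData`) for `JZero N` at a prime `ℓ ∤ N * p`
and a valuation subring `A` of `ℚ̄` over `ℓ`, in the two-level intrinsic form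

* `M ∈ {N, 2N, 3N}` a level at which the S18 package exists (`exists_level`);
* `r` the specialisation map of places of `F_M` to places of the special-fibre field
  `specialField A F_M ⊂ k((q))` (`SpecFinal.exists_isSpecMap_*`);
* `red := redSpec r ∘ π^*`, `π^* = Level.piStar` the pullback along `F_N ⊆ F_M`;
* `Φ`, `Ψ` the actions on `Pic⁰` of the coefficientwise Frobenius `Gal.frobSpec` and its inverse.

Inputs: torsion injectivity (`RedSpec.redSpec_torsion_injective` + `Level.piStar_inj_of_coprime`),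
Galois equivariance (`Gal.red_inertia`, `Gal.red_frobenius`, `Level.piStar_smul`), the
Eichler–Shimura congruence (`ES.hES_spec_gen`) and the Hecke inputs
(`HeckeInputs.heckeInputsAlong`).
-/

set_option autoImplicit false
set_option linter.style.haveILetI false
set_option linter.unusedSectionVars false

noncomputable section

open ModularCurve AlgebraicCurve

namespace Fermat.Agent.S37.Top

/-- the side conditions of the reduction map at every level prime to `ℓ`. -/
theorem hyp_bar (M ℓ : ℕ) [NeZero M] [Fact ℓ.Prime] (hℓM : ¬ ℓ ∣ M)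
    (A : ValuationSubring (AlgebraicClosure ℚ)) (hA : A.LiesOverPrime ℓ) :
    RedSpec.Hyp A (modularFunctionFieldBar M) := by
  obtain ⟨n, D, hZ, -, -, -⟩ := Pkg.exists_datum_j M ℓ hℓM A hA
  exact ⟨Gal.deg_eq_one_bar M, (SpecFinal.curveHyp'_bar M ℓ hℓM A hA).deg_eq_one,
    Gal.hasPrincipalDivisors_bar M, fun y hy => RedSpec.scale_of_datum D y hy⟩

/-- the auxiliary level: `M ∈ {N, 2N, 3N}` with `ℓ ∤ M`, a specialisation map at level `M`, the
hub package at level `M`, and `[F_M : F_N]` prime to every `m` prime to `ℓ`. -/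
theorem exists_level (N ℓ : ℕ) [NeZero N] [Fact ℓ.Prime] (hℓN : ¬ ℓ ∣ N)
    (A : ValuationSubring (AlgebraicClosure ℚ)) (hA : A.LiesOverPrime ℓ) :
    ∃ (M : ℕ) (_ : NeZero M) (_ : N ∣ M), ¬ ℓ ∣ M ∧
      (∃ r : Place (AlgebraicClosure ℚ) (modularFunctionFieldBar M) →
          Place (IsLocalRing.ResidueField A) (specialField A (modularFunctionFieldBar M)),
        IsSpecMap A (modularFunctionFieldBar M) r) ∧
      (∃ (n : ℕ) (D : S18.Gauss.Datum A (modularFunctionFieldBar M) n),
        S18.MainStatement A D.h D.goodVal) ∧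
      ∀ m : ℕ, ¬ ℓ ∣ m →
        Nat.Coprime m ((modularFunctionFieldBar N).relfinrank (modularFunctionFieldBar M)) := by
  have hℓp : ℓ.Prime := Fact.out
  have hN0 : N ≠ 0 := NeZero.ne N
  have hself : ∀ m : ℕ,
      Nat.Coprime m ((modularFunctionFieldBar N).relfinrank (modularFunctionFieldBar N)) := by
    intro m
    rw [IntermediateField.relfinrank_self]
    exact Nat.coprime_one_right m
  by_cases h5 : 5 ≤ ℓ
  · exact ⟨N, inferInstance, dvd_rfl, hℓN, SpecFinal.exists_isSpecMap_j N ℓ hℓN A hA h5,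
      S18.Package.package_j N ℓ hℓN A hA h5, fun m _ => hself m⟩
  · have h23 : ℓ = 2 ∨ ℓ = 3 := by
      have h2 := hℓp.two_le
      have hlt : ℓ < 5 := Nat.lt_of_not_ge h5
      have h4 : ℓ ≠ 4 := by
        rintro rfl
        exact absurd hℓp (by norm_num)
      omega
    rcases h23 with h2 | h3
    · by_cases hN3 : 3 ∣ N
      · exact ⟨N, inferInstance, dvd_rfl, hℓN,
          SpecFinal.exists_isSpecMap_h3 N ℓ hℓN A hA h2 hN3,
          S18.Package.package_h3 N ℓ hℓN A hA h2 hN3, fun m _ => hself m⟩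
      · haveI : Fact (Nat.Prime 3) := ⟨Nat.prime_three⟩
        haveI : NeZero (3 * N) := ⟨Nat.mul_ne_zero (by norm_num) hN0⟩
        have hℓ3N : ¬ ℓ ∣ 3 * N := by
          intro hd
          rcases (Nat.Prime.dvd_mul hℓp).mp hd with hd | hd
          · rw [h2] at hd
            exact absurd hd (by norm_num)
          · exact hℓN hd
        refine ⟨3 * N, inferInstance, Dvd.intro_left 3 rfl, hℓ3N,
          SpecFinal.exists_isSpecMap_h3 (3 * N) ℓ hℓ3N A hA h2 (Dvd.intro N rfl),
          S18.Package.package_h3 (3 * N) ℓ hℓ3N A hA h2 (Dvd.intro N rfl), ?_⟩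
        intro m hm
        rw [S18.Index.relfinrank_level_bar 3 N hN3]
        have hm2 : ¬ 2 ∣ m := by
          rw [← h2]
          exact hm
        have h2c : Nat.Coprime m 2 :=
          ((Nat.Prime.coprime_iff_not_dvd Nat.prime_two).mpr hm2).symm
        have : Nat.Coprime m (2 ^ 2) := Nat.Coprime.pow_right 2 h2c
        exact this
    · by_cases hN2 : 2 ∣ N
      · exact ⟨N, inferInstance, dvd_rfl, hℓN,
          SpecFinal.exists_isSpecMap_h2 N ℓ hℓN A hA h3 hN2,
          S18.Package.package_h2 N ℓ hℓN A hA h3 hN2, fun m _ => hself m⟩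
      · haveI : Fact (Nat.Prime 2) := ⟨Nat.prime_two⟩
        haveI : NeZero (2 * N) := ⟨Nat.mul_ne_zero (by norm_num) hN0⟩
        have hℓ2N : ¬ ℓ ∣ 2 * N := by
          intro hd
          rcases (Nat.Prime.dvd_mul hℓp).mp hd with hd | hd
          · rw [h3] at hd
            exact absurd hd (by norm_num)
          · exact hℓN hd
        refine ⟨2 * N, inferInstance, Dvd.intro_left 2 rfl, hℓ2N,
          SpecFinal.exists_isSpecMap_h2 (2 * N) ℓ hℓ2N A hA h3 (Dvd.intro N rfl),
          S18.Package.package_h2 (2 * N) ℓ hℓ2N A hA h3 (Dvd.intro N rfl), ?_⟩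
        intro m hm
        rw [S18.Index.relfinrank_level_bar 2 N hN2]
        have hm3 : ¬ 3 ∣ m := by
          rw [← h3]
          exact hm
        exact ((Nat.Prime.coprime_iff_not_dvd Nat.prime_three).mpr hm3).symm

set_option synthInstance.maxHeartbeats 400000 in
/-- the Eichler–Shimura congruence in the two-level form, for the reduction map of a
specialisation map `r` at level `M` and the pullback `π^* = Level.piStar`. -/
theorem hES (N M ℓ : ℕ) [NeZero N] [NeZero M] [NeZero ℓ] [Fact ℓ.Prime] (hNM : N ∣ M)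
    (hℓN : ¬ ℓ ∣ N) (hℓM : ¬ ℓ ∣ M)
    (A : ValuationSubring (AlgebraicClosure ℚ)) (hA : A.LiesOverPrime ℓ)
    (r : Place (AlgebraicClosure ℚ) (modularFunctionFieldBar M) →
      Place (IsLocalRing.ResidueField A) (specialField A (modularFunctionFieldBar M)))
    (H : RedSpec.Hyp A (modularFunctionFieldBar M))
    (hr : IsSpecMap A (modularFunctionFieldBar M) r) (z : JZero N) :
    RedSpec.redSpec r H hr (Level.piStar hNM (heckeOperatorAlong (AlgebraicClosure ℚ) N ℓ z))
      = Gal.frobSpec M A ℓ hℓM hA • RedSpec.redSpec r H hr (Level.piStar hNM z)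
        + ℓ • ((Gal.frobSpec M A ℓ hℓM hA)⁻¹ • RedSpec.redSpec r H hr (Level.piStar hNM z)) :=
  ES.hES_spec_gen N M ℓ hℓN A hA (Level.incl hNM) (fun f => Level.coe_incl hNM f)
    (Level.incl_isIntegral hNM) (Level.fundId_incl hNM) r hr (RedSpec.redSpec r H hr)
    (RedSpec.redSpec_mk' r H hr) (Gal.frobSpec M A ℓ hℓM hA)
    (Gal.frobAut A ℓ hA : IsLocalRing.ResidueField A →+* IsLocalRing.ResidueField A)
    (Gal.frobAut_apply A ℓ hA) (Gal.coe_frobSpec_smul A ℓ hℓM hA)
    (HeckeInputs.heckeInputsAlong N ℓ) z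

/-- **the reduction datum.** -/
theorem exists_redData (N p ℓ : ℕ) [NeZero N] (hcomm : HeckeOperatorsCommuteBar N)
    (hℓ : ℓ.Prime) (hℓNp : ¬ ℓ ∣ N * p)
    (A : ValuationSubring (AlgebraicClosure ℚ)) (hA : A.LiesOverPrime ℓ) :
    letI := heckeModuleBar N
    Nonempty (S37Lib.RedData N p ℓ A hℓ) := by
  letI := heckeModuleBar N
  haveI : Fact ℓ.Prime := ⟨hℓ⟩
  haveI : NeZero ℓ := ⟨hℓ.ne_zero⟩
  have hℓN : ¬ ℓ ∣ N := fun h => hℓNp (Dvd.dvd.mul_right h p)
  have hℓp : ¬ ℓ ∣ p := fun h => hℓNp (Dvd.dvd.mul_left h N)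
  obtain ⟨M, hM, hNM, hℓM, ⟨r, hr⟩, hpack, hcop⟩ := exists_level N ℓ hℓN A hA
  have H : RedSpec.Hyp A (modularFunctionFieldBar M) := hyp_bar M ℓ hℓM A hA
  haveI : CharP (IsLocalRing.ResidueField A) ℓ := S18.ValRing.charP_residueField A hA
  refine ⟨{
    M := Pic0 (IsLocalRing.ResidueField A) (specialField A (modularFunctionFieldBar M))
    inst := inferInstance
    red := (RedSpec.redSpec r H hr).comp (Level.piStar hNM)
    Φ := DistribSMul.toAddMonoidHom _ (Gal.frobSpec M A ℓ hℓM hA)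
    Ψ := DistribSMul.toAddMonoidHom _ (Gal.frobSpec M A ℓ hℓM hA)⁻¹
    hΦΨ := fun m => smul_inv_smul (Gal.frobSpec M A ℓ hℓM hA) m
    htors := ?_
    hinert := ?_
    hfrob := ?_
    hES := ?_ }⟩
  · rintro x ⟨n, hn⟩ hx
    have hℓpn : ¬ ℓ ∣ p ^ n := fun h => hℓp (hℓ.dvd_of_dvd_pow h)
    have hx' : RedSpec.redSpec r H hr (Level.piStar hNM x) = 0 := hx
    have h1 : p ^ n • Level.piStar hNM x = 0 := by
      rw [← map_nsmul, hn, map_zero]
    have hmk : (((p ^ n : ℕ) : ℕ) : IsLocalRing.ResidueField A) ≠ 0 := by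
      rw [Ne, CharP.cast_eq_zero_iff (IsLocalRing.ResidueField A) ℓ]
      exact hℓpn
    have h2 : Level.piStar hNM x = 0 :=
      RedSpec.redSpec_torsion_injective r H hr hpack
        (SpecFinal.curveHyp'_bar M ℓ hℓM A hA).const_of_ord_eq_zero (p ^ n) hmk
        (Level.piStar hNM x) h1 hx'
    exact Level.piStar_inj_of_coprime hNM (p ^ n) (hcop (p ^ n) hℓpn) x hn h2
  · intro σ hσ y
    show RedSpec.redSpec r H hr (Level.piStar hNM (σ • y))
      = RedSpec.redSpec r H hr (Level.piStar hNM y)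
    rw [Level.piStar_smul]
    exact Gal.red_inertia A ℓ hℓM hA hr _ (RedSpec.redSpec_mk' r H hr) σ hσ _
  · intro σ hσ y
    show RedSpec.redSpec r H hr (Level.piStar hNM (σ • y))
      = Gal.frobSpec M A ℓ hℓM hA • RedSpec.redSpec r H hr (Level.piStar hNM y)
    rw [Level.piStar_smul]
    exact Gal.red_frobenius A ℓ hℓM hA hr _ (RedSpec.redSpec_mk' r H hr) σ hσ _
  · intro z
    show RedSpec.redSpec r H hr (Level.piStar hNM (heckeGen ⟨ℓ, hℓ⟩ • z))
      = Gal.frobSpec M A ℓ hℓM hA • RedSpec.redSpec r H hr (Level.piStar hNM z)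
        + ℓ • ((Gal.frobSpec M A ℓ hℓM hA)⁻¹ • RedSpec.redSpec r H hr (Level.piStar hNM z))
    rw [heckeModuleBar_heckeGen_smul hcomm, heckeOperatorBar_apply]
    exact hES N M ℓ hNM hℓN hℓM A hA r H hr z

end Fermat.Agent.S37.Top
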