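-- Statement S42 (row 40): for the Frey package's prime `p` and every level `M > 0`, every
-- weight-2 normalised eigenform on `Γ₀(M)` and maximal ideal over `p` has an attached residual
-- Galois representation (`EigenformResidualAttachmentAt M`).
-- Proof: `ForS42.s42_of` (S29_ForS42: trace/determinant from the characteristic polynomial,
-- finite level together with the Frey representation) applied to S29.
import Fermat.Statements.S42
import Fermat.Agent.S29
import Fermat.Agent.S29_ForS42

set_option autoImplicit false
open FreyPackage

namespace Fermat.Agent.S42

theorem result (P : FreyPackage) :
    ∀ M : ℕ, 0 < M → P.EigenformResidualAttachmentAt M :=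
  Fermat.Agent.S29.ForS42.s42_of
    (@fun _ _ hg _ hp _ _ _ φ => Fermat.Agent.S29.result hg hp φ) P

end Fermat.Agent.S42
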