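import Mathlib
import Fermat.Prelude.Def_FormalHecke_Eigensystem

set_option autoImplicit false

namespace Fermat.Agent.S49

open FormalHecke

variable {R : Type*} [CommRing R]

theorem eigensystem_mul_of_coprime {e a : ℕ → R} (h : IsEigensystem e a) :
    ∀ m n : ℕ, m.Coprime n → a (m * n) = a m * a n := by
  obtain ⟨h1, hrec⟩ := h
  intro m
  induction m using Nat.strong_induction_on with
  | _ m ih =>
    intro n hmn
    rcases Nat.lt_or_ge m 2 with hm | hm
    · interval_cases m
      · have hn : n = 1 := by simpa using hmn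
        subst hn
        simp [h1]
      · simp [h1]
    · have hℓ : (Nat.minFac m).Prime := Nat.minFac_prime (by omega)
      obtain ⟨m', hm'⟩ := Nat.minFac_dvd m
      set ℓ := Nat.minFac m with hℓdef
      have hℓ2 : 2 ≤ ℓ := hℓ.two_le
      have hm'pos : 0 < m' := by
        rcases Nat.eq_zero_or_pos m' with h0 | h0
        · rw [h0, mul_zero] at hm'; omega
        · exact h0
      have hm'lt : m' < m := by
        rw [hm']; nlinarith
      have hcop' : m'.Coprime n := Nat.Coprime.coprime_dvd_left ⟨ℓ, by rw [hm', mul_comm]⟩ hmn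
      have hℓn : ¬ ℓ ∣ n := by
        intro hdvd
        have : ℓ ∣ Nat.gcd m n := Nat.dvd_gcd (Nat.minFac_dvd m) hdvd
        rw [hmn] at this
        exact hℓ.one_lt.ne' (Nat.dvd_one.mp this)
      have e1 := hrec ℓ hℓ (m' * n)
      have e2 := hrec ℓ hℓ m'
      have hmm : m * n = ℓ * (m' * n) := by rw [hm', mul_assoc]
      rw [hmm, hm']
      by_cases hd : ℓ ∣ m'
      · obtain ⟨m'', hm''⟩ := hd
        have hm''lt : m'' < m := by
          have : m'' ≤ m' := by rw [hm'']; nlinarith
          omega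
        have hcop'' : m''.Coprime n :=
          Nat.Coprime.coprime_dvd_left ⟨ℓ, by rw [hm'', mul_comm]⟩ hcop'
        have hd1 : ℓ ∣ m' * n := Dvd.dvd.mul_right ⟨m'', hm''⟩ n
        have hdiv1 : m' * n / ℓ = m'' * n := by
          rw [hm'', mul_assoc]; exact Nat.mul_div_cancel_left _ hℓ.pos
        have hdiv2 : m' / ℓ = m'' := by
          rw [hm'']; exact Nat.mul_div_cancel_left _ hℓ.pos
        rw [if_pos hd1, hdiv1, ih m'' hm''lt n hcop'', ih m' hm'lt n hcop'] at e1
        rw [if_pos ⟨m'', hm''⟩, hdiv2] at e2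
        linear_combination e1 - a n * e2
      · have hd1 : ¬ ℓ ∣ m' * n := by
          intro hdvd
          rcases (Nat.Prime.dvd_mul hℓ).mp hdvd with h' | h'
          · exact hd h'
          · exact hℓn h'
        rw [if_neg hd1, ih m' hm'lt n hcop'] at e1
        rw [if_neg hd] at e2
        linear_combination e1 - a n * e2

theorem eigensystem_prime_pow {e a : ℕ → R} (h : IsEigensystem e a) (ℓ r : ℕ) (hℓ : ℓ.Prime) :
    a (ℓ ^ (r + 2)) = a ℓ * a (ℓ ^ (r + 1)) - e ℓ * a (ℓ ^ r) := by
  obtain ⟨h1, hrec⟩ := h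
  have e1 := hrec ℓ hℓ (ℓ ^ (r + 1))
  have hd : ℓ ∣ ℓ ^ (r + 1) := dvd_pow_self ℓ (by omega)
  have hdiv : ℓ ^ (r + 1) / ℓ = ℓ ^ r := by
    rw [pow_succ]; exact Nat.mul_div_cancel _ hℓ.pos
  have hpow : ℓ * ℓ ^ (r + 1) = ℓ ^ (r + 2) := by ring
  rw [if_pos hd, hdiv, hpow] at e1
  linear_combination e1

theorem eigensystem_isRecursive {e a : ℕ → R} (h : IsEigensystem e a) : IsRecursive e a :=
  ⟨h.1, eigensystem_mul_of_coprime h, fun ℓ r hℓ => eigensystem_prime_pow h ℓ r hℓ⟩

theorem eigen_eq_zero_of_one {e lam c : ℕ → R}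
    (hrec : ∀ ℓ : ℕ, ℓ.Prime → ∀ n : ℕ,
      c (ℓ * n) + e ℓ * (if ℓ ∣ n then c (n / ℓ) else 0) = lam ℓ * c n)
    (h1 : c 1 = 0) : ∀ n : ℕ, 1 ≤ n → c n = 0 := by
  intro n
  induction n using Nat.strong_induction_on with
  | _ n ih =>
    intro hn
    rcases Nat.lt_or_ge n 2 with hlt | hge
    · have : n = 1 := by omega
      rw [this]; exact h1
    · have hℓ : (Nat.minFac n).Prime := Nat.minFac_prime (by omega)
      obtain ⟨m, hm⟩ := Nat.minFac_dvd n
      set ℓ := Nat.minFac n with hℓdef
      have hℓ2 : 2 ≤ ℓ := hℓ.two_le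
      have hmpos : 0 < m := by
        rcases Nat.eq_zero_or_pos m with h0 | h0
        · rw [h0, mul_zero] at hm; omega
        · exact h0
      have hmlt : m < n := by rw [hm]; nlinarith
      have e1 := hrec ℓ hℓ m
      rw [ih m hmlt hmpos, mul_zero] at e1
      rw [hm]
      by_cases hd : ℓ ∣ m
      · obtain ⟨m', hm'⟩ := hd
        have hm'pos : 0 < m' := by
          rcases Nat.eq_zero_or_pos m' with h0 | h0
          · rw [h0, mul_zero] at hm'; omega
          · exact h0
        have hm'lt : m' < n := by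
          have : m' ≤ m := by rw [hm']; nlinarith
          omega
        have hdiv : m / ℓ = m' := by rw [hm']; exact Nat.mul_div_cancel_left _ hℓ.pos
        rw [if_pos ⟨m', hm'⟩, hdiv, ih m' hm'lt hm'pos, mul_zero, add_zero] at e1
        exact e1
      · rw [if_neg hd, mul_zero, add_zero] at e1
        exact e1

end Fermat.Agent.S49
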