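import Mathlib

set_option autoImplicit false

namespace Fermat.Agent.S49

theorem exists_common_eigenvector_aux {K V : Type*} [Field K] [IsAlgClosed K] [AddCommGroup V]
    [Module K V] [FiniteDimensional K V] (𝒯 : Set (Module.End K V))
    (hcomm : ∀ s ∈ 𝒯, ∀ t ∈ 𝒯, s * t = t * s) :
    ∀ (n : ℕ) (W : Submodule K V), Module.finrank K W ≤ n → W ≠ ⊥ →
      (∀ t ∈ 𝒯, ∀ w ∈ W, t w ∈ W) →
      ∃ v ∈ W, v ≠ 0 ∧ ∀ t ∈ 𝒯, ∃ c : K, t v = c • v := by
  intro n
  induction n with
  | zero =>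
    intro W hW hne _
    exfalso
    exact hne (Submodule.finrank_eq_zero.mp (Nat.le_zero.mp hW))
  | succ n ih =>
    intro W hW hne hinv
    by_cases hscal : ∀ t ∈ 𝒯, ∃ c : K, ∀ w ∈ W, t w = c • w
    · obtain ⟨v, hvW, hv0⟩ := Submodule.exists_mem_ne_zero_of_ne_bot hne
      exact ⟨v, hvW, hv0, fun t ht => let ⟨c, hc⟩ := hscal t ht; ⟨c, hc v hvW⟩⟩
    · simp only [not_forall, not_exists] at hscal
      obtain ⟨t, ht, htns⟩ := hscal
      let tW : Module.End K W := t.restrict (fun w hw => hinv t ht w hw)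
      have : Nontrivial W := Submodule.nontrivial_iff_ne_bot.mpr hne
      obtain ⟨c, hc⟩ := Module.End.exists_eigenvalue tW
      obtain ⟨w, hw⟩ := hc.exists_hasEigenvector
      have hw1 : tW w = c • w := hw.apply_eq_smul
      have hw0 : w ≠ 0 := hw.2
      let W' : Submodule K V := W ⊓ LinearMap.ker (t - c • (1 : Module.End K V))
      have hmem : ∀ x : V, x ∈ W' ↔ (x ∈ W ∧ t x = c • x) := by
        intro x
        simp only [W', Submodule.mem_inf, LinearMap.mem_ker, LinearMap.sub_apply,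
          LinearMap.smul_apply, Module.End.one_apply, sub_eq_zero]
      have hW'le : W' ≤ W := inf_le_left
      have hW'ne : W' ≠ ⊥ := by
        intro h
        have hmemw : (w : V) ∈ W' := by
          rw [hmem]
          refine ⟨w.2, ?_⟩
          have := congrArg (Subtype.val) hw1
          simpa [tW] using this
        rw [h, Submodule.mem_bot] at hmemw
        exact hw0 (Subtype.ext hmemw)
      have hW'lt : W' < W := by
        refine lt_of_le_of_ne hW'le ?_
        intro h
        obtain ⟨x, hxW, hx⟩ := htns c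
        apply hx
        have hx' : x ∈ W' := h ▸ hxW
        exact ((hmem x).mp hx').2
      have hfr : Module.finrank K W' ≤ n := by
        have := Submodule.finrank_lt_finrank_of_lt hW'lt
        omega
      have hinv' : ∀ s ∈ 𝒯, ∀ x ∈ W', s x ∈ W' := by
        intro s hs x hx
        rw [hmem] at hx ⊢
        refine ⟨hinv s hs x hx.1, ?_⟩
        have hc' : t (s x) = s (t x) := by
          have := congrArg (fun f : Module.End K V => f x) (hcomm t ht s hs)
          simpa [Module.End.mul_apply] using this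
        rw [hc', hx.2, map_smul]
      obtain ⟨v, hvW', hv0, hv⟩ := ih W' hfr hW'ne hinv'
      exact ⟨v, hW'le hvW', hv0, hv⟩

theorem exists_eigen_character {K V T : Type*} [Field K] [IsAlgClosed K] [AddCommGroup V]
    [Module K V] [FiniteDimensional K V] [CommRing T] (φ : T →+* Module.End K V)
    (hφ : Function.Injective φ) (𝔪 : Ideal T) [h𝔪 : 𝔪.IsPrime] :
    ∃ (v : V) (χ : T →+* K), v ≠ 0 ∧ (∀ t, φ t v = χ t • v) ∧ RingHom.ker χ ≤ 𝔪 := by
  classical
  have hex : ∃ n, ∃ s : T, s ∉ 𝔪 ∧ Module.finrank K (LinearMap.range (φ s)) = n :=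
    ⟨_, 1, (Ideal.ne_top_iff_one 𝔪).mp h𝔪.ne_top, rfl⟩
  obtain ⟨s₀, hs₀, hn⟩ := Nat.find_spec hex
  have hmin : ∀ s, s ∉ 𝔪 → Nat.find hex ≤ Module.finrank K (LinearMap.range (φ s)) :=
    fun s hs => Nat.find_min' hex ⟨s, hs, rfl⟩
  have hW : ∀ x : V, φ s₀ x ∈ LinearMap.range (φ s₀) := fun x => ⟨x, rfl⟩
  have hWne : LinearMap.range (φ s₀) ≠ ⊥ := by
    intro h
    rw [LinearMap.range_eq_bot] at h
    have : s₀ = 0 := hφ (by rw [h, map_zero])
    exact hs₀ (this ▸ 𝔪.zero_mem)
  have hcommφ : ∀ s t : T, ∀ x : V, φ s (φ t x) = φ t (φ s x) := by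
    intro s t x
    rw [← Module.End.mul_apply, ← Module.End.mul_apply, ← map_mul, ← map_mul, mul_comm]
  have hWinv : ∀ t : T, ∀ w ∈ LinearMap.range (φ s₀), φ t w ∈ LinearMap.range (φ s₀) := by
    rintro t _ ⟨x, rfl⟩
    exact ⟨φ t x, (hcommφ t s₀ x).symm⟩
  have hinj : ∀ s, s ∉ 𝔪 → ∀ w ∈ LinearMap.range (φ s₀), φ s w = 0 → w = 0 := by
    intro s hs
    have hle : LinearMap.range (φ (s * s₀)) ≤ LinearMap.range (φ s₀) := by
      rintro _ ⟨x, rfl⟩
      refine ⟨φ s x, ?_⟩
      rw [map_mul, Module.End.mul_apply, hcommφ]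
    have hss : s * s₀ ∉ 𝔪 := fun h => (h𝔪.mem_or_mem h).elim hs hs₀
    have heq : LinearMap.range (φ (s * s₀)) = LinearMap.range (φ s₀) :=
      Submodule.eq_of_le_of_finrank_le hle (by rw [hn]; exact hmin _ hss)
    let sW : Module.End K (LinearMap.range (φ s₀)) := (φ s).restrict (fun w hw => hWinv s w hw)
    have hsurj : Function.Surjective sW := by
      rintro ⟨w, hw⟩
      rw [← heq] at hw
      obtain ⟨y, rfl⟩ := hw
      refine ⟨⟨φ s₀ y, hW y⟩, Subtype.ext ?_⟩
      simp only [sW, LinearMap.coe_restrict_apply]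
      rw [map_mul, Module.End.mul_apply]
    have hinjW : Function.Injective sW := LinearMap.injective_iff_surjective.mpr hsurj
    intro w hw hsw
    have : sW ⟨w, hw⟩ = 0 := Subtype.ext (by simpa [sW, LinearMap.coe_restrict_apply] using hsw)
    have h0 := hinjW (this.trans (map_zero sW).symm)
    exact congrArg Subtype.val h0
  obtain ⟨v, hvW, hv0, hv⟩ := exists_common_eigenvector_aux (Set.range φ)
    (by rintro _ ⟨s, rfl⟩ _ ⟨t, rfl⟩; rw [← map_mul, ← map_mul, mul_comm])
    _ (LinearMap.range (φ s₀)) le_rfl hWne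
    (by rintro _ ⟨t, rfl⟩ w hw; exact hWinv t w hw)
  choose χf hχf using (fun t : T => hv (φ t) ⟨t, rfl⟩)
  have hinjv : Function.Injective (fun c : K => c • v) := smul_left_injective K hv0
  let χ : T →+* K :=
    { toFun := χf
      map_one' := hinjv (by simp only; rw [← hχf, map_one, Module.End.one_apply, one_smul])
      map_mul' := fun s t => hinjv (by
        simp only
        rw [← hχf, map_mul, Module.End.mul_apply, hχf t, map_smul, hχf s, smul_smul, mul_comm])
      map_zero' := hinjv (by simp only; rw [← hχf, map_zero, LinearMap.zero_apply, zero_smul])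
      map_add' := fun s t => hinjv (by
        simp only
        rw [← hχf, map_add, LinearMap.add_apply, hχf s, hχf t, add_smul]) }
  refine ⟨v, χ, hv0, hχf, ?_⟩
  intro t ht
  by_contra htm
  apply hv0
  apply hinj t htm v hvW
  rw [hχf t]
  have : χf t = 0 := ht
  rw [this, zero_smul]

theorem exists_maximal_over {T : Type*} [CommRing T] (χ : T →+* ℂ)
    (hint : ∀ t, IsIntegral ℤ (χ t))
    (𝔪 : Ideal T) [h𝔪 : 𝔪.IsMaximal] (hker : RingHom.ker χ ≤ 𝔪) :
    ∃ 𝔪' : Ideal (integralClosure ℤ ℂ), 𝔪'.IsMaximal ∧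
      ∀ t ∈ 𝔪, (⟨χ t, hint t⟩ : integralClosure ℤ ℂ) ∈ 𝔪' := by
  let θ : T →+* integralClosure ℤ ℂ :=
    { toFun := fun t => ⟨χ t, hint t⟩
      map_one' := Subtype.ext (map_one χ)
      map_mul' := fun s t => Subtype.ext (map_mul χ s t)
      map_zero' := Subtype.ext (map_zero χ)
      map_add' := fun s t => Subtype.ext (map_add χ s t) }
  letI : Algebra T (integralClosure ℤ ℂ) := θ.toAlgebra
  have : Algebra.IsIntegral T (integralClosure ℤ ℂ) :=
    ⟨fun x => (integralClosure.isIntegral x).tower_top⟩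
  have hk : RingHom.ker (algebraMap T (integralClosure ℤ ℂ)) ≤ 𝔪 := by
    intro t ht
    apply hker
    have h1 : θ t = 0 := ht
    have h2 : χ t = 0 := congrArg Subtype.val h1
    exact h2
  obtain ⟨Q, hQ, hQc⟩ := Ideal.exists_ideal_over_maximal_of_isIntegral
    (S := integralClosure ℤ ℂ) 𝔪 hk
  refine ⟨Q, hQ, fun t ht => ?_⟩
  have : t ∈ Ideal.comap (algebraMap T (integralClosure ℤ ℂ)) Q := hQc ▸ ht
  exact this

end Fermat.Agent.S49
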