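import Fermat.Agent.S49_Eig
import Fermat.Agent.S49_Lifting
import Fermat.Agent.S49_Formal

set_option autoImplicit false
open CuspForm EisensteinWeightOne CongruenceSubgroup ModularFormClass UpperHalfPlane

namespace Fermat.Agent.S49

variable {N : ℕ}

theorem main_abstract [NeZero N] (h : CuspForm.HasIntegralBasis N) {a : ℕ → ℤ}
    (heig : FormalHecke.IsEigensystem
      (fun ℓ => if ℓ ∣ N then 0 else ((chiNegThree ℓ : ℤ) : ℤ)) a)
    (hreal : CuspForm.IsLatticeRealized N a)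
    {T : Type*} [CommRing T] (φ : T →+* Module.End ℂ (CuspForm (Gamma0 N) 2))
    (hφ_inj : Function.Injective φ)
    (hφ_mem : ∀ t, φ t ∈ CuspForm.heckeAlgebra N 2 ∅)
    (hT : ∀ (ℓ : ℕ) (hℓ : ℓ.Prime) (hℓN : ¬ ℓ ∣ N), ∃ t, φ t = CuspForm.heckeTLin 2 hℓ hℓN)
    (hU : ∀ (q : ℕ) (_ : q.Prime) (hqN : q ∣ N), ∃ t, φ t = CuspForm.heckeULin 2 hqN) :
    ∃ (f : CuspForm (Gamma0 N) 2) (_ : f.IsNormalizedEigenform)
      (𝔪' : Ideal (integralClosure ℤ ℂ)), 𝔪'.IsMaximal ∧
      ((3 : ℕ) : integralClosure ℤ ℂ) ∈ 𝔪' ∧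
      ∀ (ℓ : ℕ) (_ : ℓ.Prime) (_ : ¬ ℓ ∣ N),
        ∃ c : integralClosure ℤ ℂ, (c : ℂ) = ModularFormClass.qCoeff f ℓ ∧
          c - (a ℓ : integralClosure ℤ ℂ) ∈ 𝔪' := by
  classical
  obtain ⟨f₀, hf₀, af, haf, hbr⟩ := hreal
  have hcong : ∀ n, (3 : ℤ) ∣ af n - a n := fun n => by
    have := dvd_add (hbr n) (bridge_coeff a n)
    simpa using this
  have h1 : (3 : ℤ) ∣ af 1 - 1 := by
    have := hcong 1
    rwa [heig.1] at this
  have hE : ∀ t : T, ∃ c : ℤ, Eig3 f₀ (φ t) c := fun t =>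
    eig3_exists haf hcong heig (hφ_mem t)
  let 𝔪 : Ideal T :=
    { carrier := {t | Div3 (φ t f₀)}
      add_mem' := fun {s t} hs ht => by
        show Div3 (φ (s + t) f₀)
        rw [map_add, LinearMap.add_apply]
        exact div3_add hs ht
      zero_mem' := by
        show Div3 (φ 0 f₀)
        rw [map_zero, LinearMap.zero_apply]
        exact div3_zero
      smul_mem' := fun s t ht => by
        show Div3 (φ (s • t) f₀)
        rw [smul_eq_mul, map_mul, Module.End.mul_apply]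
        exact div3_hecke (hφ_mem s) ht }
  have hmem : ∀ t, t ∈ 𝔪 ↔ Div3 (φ t f₀) := fun t => Iff.rfl
  have hsub : ∀ (t : T) (c : ℤ), Eig3 f₀ (φ t) c → t - (c : T) ∈ 𝔪 := by
    intro t c hc
    rw [hmem, map_sub, map_intCast, LinearMap.sub_apply, Module.End.intCast_apply,
      ← Int.cast_smul_eq_zsmul ℂ]
    exact hc
  have hf₀int : IntCoeff f₀ := intCoeff_of_mem_qIntegralSet hf₀
  have h3mem : ((3 : ℕ) : T) ∈ 𝔪 := by
    rw [hmem, map_natCast, Module.End.natCast_apply]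
    have : (3 : ℕ) • f₀ = (((3 * 1 : ℤ)) : ℂ) • f₀ := by
      rw [← Nat.cast_smul_eq_nsmul ℂ]; norm_num
    rw [this]
    exact div3_three_smul 1 hf₀int
  have hmax : 𝔪.IsMaximal := by
    rw [Ideal.isMaximal_iff]
    refine ⟨?_, ?_⟩
    · rw [hmem, map_one, Module.End.one_apply]
      exact not_div3_self haf h1
    · intro J x hJ hx hxJ
      obtain ⟨c, hc⟩ := hE x
      have hc3 : ¬ (3 : ℤ) ∣ c := by
        rintro ⟨k, rfl⟩
        apply hx
        rw [hmem]
        have : φ x f₀ = (φ x f₀ - ((3 * k : ℤ) : ℂ) • f₀) + ((3 * k : ℤ) : ℂ) • f₀ := by abel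
        rw [this]
        exact div3_add hc (div3_three_smul k hf₀int)
      have hcJ : (c : T) ∈ J := by
        have := J.sub_mem hxJ (hJ (hsub x c hc))
        simpa using this
      have h3J : ((3 : ℕ) : T) ∈ J := hJ h3mem
      have hcop : IsCoprime (3 : ℤ) c :=
        (Int.prime_three.irreducible.coprime_iff_not_dvd).mpr hc3
      obtain ⟨u, w, huw⟩ := hcop
      have h1T : (1 : T) = (u : T) * ((3 : ℕ) : T) + (w : T) * (c : T) := by
        have := congrArg (Int.cast : ℤ → T) huw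
        push_cast at this
        rw [← this]; push_cast; ring
      rw [h1T]
      exact J.add_mem (J.mul_mem_left _ h3J) (J.mul_mem_left _ hcJ)
  have hfd : FiniteDimensional ℂ (CuspForm (Gamma0 N) 2) :=
    finiteDimensional_of_hasIntegralBasis h
  obtain ⟨v, χ, hv0, hχ, hker⟩ := exists_eigen_character φ hφ_inj 𝔪
  have hL : ∀ t : T, ∀ l ∈ CuspForm.intLattice N 2, φ t l ∈ CuspForm.intLattice N 2 :=
    fun t l hl => CuspForm.mem_intLattice_of_mem_heckeAlgebra (by norm_num) (hφ_mem t) hl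
  let r : T →ₗ[ℤ] Module.End ℤ (CuspForm.intLattice N 2) :=
    { toFun := fun t => ((φ t).restrictScalars ℤ).restrict (hL t)
      map_add' := fun s t => LinearMap.ext fun l => Subtype.ext (by
        show (φ (s + t)) (l : CuspForm (Gamma0 N) 2) = (φ s) l + (φ t) l
        rw [map_add, LinearMap.add_apply])
      map_smul' := fun c t => LinearMap.ext fun l => Subtype.ext (by
        show (φ (c • t)) (l : CuspForm (Gamma0 N) 2) = c • (φ t) l
        rw [map_zsmul, LinearMap.smul_apply]) }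
  have hr : Function.Injective r := by
    rw [injective_iff_map_eq_zero]
    intro t ht
    apply hφ_inj
    rw [map_zero]
    apply LinearMap.ext_on (span_intLattice_eq_top h)
    intro l hl
    have h0 : (r t) ⟨l, hl⟩ = 0 := by rw [ht]; rfl
    exact congrArg Subtype.val h0
  have hLfin : Module.Finite ℤ (CuspForm.intLattice N 2) :=
    Module.Finite.iff_fg.mpr (CuspForm.intLattice_fg N 2)
  have hTfin : Module.Finite ℤ T := Module.Finite.of_injective r hr
  have hint : ∀ t, IsIntegral ℤ (χ t) := fun t =>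
    (IsIntegral.of_finite ℤ t).map χ.toIntAlgHom
  obtain ⟨𝔪', h𝔪', hθ⟩ := exists_maximal_over χ hint 𝔪 hker
  let lam : ℕ → ℂ := fun ℓ =>
    if hℓ : ℓ.Prime then
      (if hN : ℓ ∣ N then χ (Classical.choose (hU ℓ hℓ hN))
        else χ (Classical.choose (hT ℓ hℓ hN)))
    else 0
  let e' : ℕ → ℂ := fun ℓ => if ℓ ∣ N then 0 else (ℓ : ℂ)
  have hrec : ∀ ℓ : ℕ, ℓ.Prime → ∀ n : ℕ,
      qCoeff v (ℓ * n) + e' ℓ * (if ℓ ∣ n then qCoeff v (n / ℓ) else 0) = lam ℓ * qCoeff v n := by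
    intro ℓ hℓ n
    by_cases hN : ℓ ∣ N
    · have hspec := Classical.choose_spec (hU ℓ hℓ hN)
      have h1 := hχ (Classical.choose (hU ℓ hℓ hN))
      rw [hspec] at h1
      have h2 := congrArg (fun g : CuspForm (Gamma0 N) 2 => qCoeff g n) h1
      simp only [qCoeff_heckeULin hℓ, qCoeff_smul'] at h2
      simp only [lam, e', dif_pos hℓ, dif_pos hN, if_pos hN, zero_mul, add_zero]
      rw [mul_comm ℓ n]
      exact h2
    · have hspec := Classical.choose_spec (hT ℓ hℓ hN)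
      have h1 := hχ (Classical.choose (hT ℓ hℓ hN))
      rw [hspec] at h1
      have h2 := congrArg (fun g : CuspForm (Gamma0 N) 2 => qCoeff g n) h1
      simp only [qCoeff_heckeTLin, qCoeff_smul'] at h2
      simp only [lam, e', dif_pos hℓ, dif_neg hN, if_neg hN, mul_ite, mul_zero]
      rw [mul_comm ℓ n]
      exact h2
  have hc1 : qCoeff v 1 ≠ 0 := by
    intro h0
    apply hv0
    apply eq_zero_of_qCoeff
    intro n
    rcases Nat.eq_zero_or_pos n with rfl | hn
    · exact qCoeff_zero_idx v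
    · exact eigen_eq_zero_of_one hrec h0 n hn
  let f : CuspForm (Gamma0 N) 2 := (qCoeff v 1)⁻¹ • v
  have hb : ∀ n, qCoeff f n = (qCoeff v 1)⁻¹ * qCoeff v n := fun n => qCoeff_smul' _ v n
  have hb1 : qCoeff f 1 = 1 := by rw [hb, inv_mul_cancel₀ hc1]
  have hrec' : ∀ ℓ : ℕ, ℓ.Prime → ∀ n : ℕ,
      qCoeff f (ℓ * n) + e' ℓ * (if ℓ ∣ n then qCoeff f (n / ℓ) else 0) = lam ℓ * qCoeff f n := by
    intro ℓ hℓ n
    have := congrArg (fun z => (qCoeff v 1)⁻¹ * z) (hrec ℓ hℓ n)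
    simp only [hb]
    simp only [mul_add] at this
    rw [show lam ℓ * ((qCoeff v 1)⁻¹ * qCoeff v n) = (qCoeff v 1)⁻¹ * (lam ℓ * qCoeff v n) by ring,
      ← this]
    split_ifs <;> ring
  have hlam : ∀ ℓ : ℕ, ℓ.Prime → qCoeff f ℓ = lam ℓ := by
    intro ℓ hℓ
    have := hrec' ℓ hℓ 1
    rw [mul_one, if_neg (by simpa using hℓ.one_lt.ne' : ¬ ℓ ∣ 1), mul_zero, add_zero, hb1,
      mul_one] at this
    exact this
  have hES : FormalHecke.IsEigensystem e' (fun n => qCoeff f n) :=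
    ⟨hb1, fun ℓ hℓ n => by
      show qCoeff f (ℓ * n) + e' ℓ * (if ℓ ∣ n then qCoeff f (n / ℓ) else 0) =
        qCoeff f ℓ * qCoeff f n
      rw [hlam ℓ hℓ]; exact hrec' ℓ hℓ n⟩
  obtain ⟨-, hmul, hpow⟩ := eigensystem_isRecursive hES
  have hnorm : f.IsNormalizedEigenform :=
    { qCoeff_one := hb1
      qCoeff_mul_of_coprime := hmul
      qCoeff_prime_pow_of_not_dvd := fun p r hp hpN => by
        have := hpow p r hp
        simp only [e', if_neg hpN] at this
        exact this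
      qCoeff_prime_pow_of_dvd := fun p r hp hpN => by
        have := hpow p r hp
        simp only [e', if_pos hpN, zero_mul, sub_zero] at this
        exact this }
  refine ⟨f, hnorm, 𝔪', h𝔪', ?_, ?_⟩
  · have := hθ _ h3mem
    have heq : (⟨χ ((3 : ℕ) : T), hint _⟩ : integralClosure ℤ ℂ) =
        ((3 : ℕ) : integralClosure ℤ ℂ) := by
      apply Subtype.ext
      exact (map_natCast χ 3).trans (map_natCast (integralClosure ℤ ℂ).val 3).symm
    rw [heq] at this
    exact this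
  · intro ℓ hℓ hℓN
    let tℓ := Classical.choose (hT ℓ hℓ hℓN)
    have hspec : φ tℓ = CuspForm.heckeTLin 2 hℓ hℓN := Classical.choose_spec (hT ℓ hℓ hℓN)
    refine ⟨⟨χ tℓ, hint tℓ⟩, ?_, ?_⟩
    · rw [hlam ℓ hℓ]
      simp only [lam, dif_pos hℓ, dif_neg hℓN]
      rfl
    · have hE3 : Eig3 f₀ (φ tℓ) (a ℓ) := by
        rw [hspec]
        exact eig3_gen_T haf hcong heig hℓ hℓN
      have := hθ _ (hsub tℓ (a ℓ) hE3)
      have heq : (⟨χ (tℓ - (a ℓ : T)), hint _⟩ : integralClosure ℤ ℂ) =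
          (⟨χ tℓ, hint tℓ⟩ : integralClosure ℤ ℂ) - (a ℓ : integralClosure ℤ ℂ) := by
        apply Subtype.ext
        simp
      rw [heq] at this
      exact this

end Fermat.Agent.S49
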