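import Fermat.Agent.S49_Lattice

set_option autoImplicit false
open CuspForm EisensteinWeightOne CongruenceSubgroup ModularFormClass UpperHalfPlane

namespace Fermat.Agent.S49

variable {N : ℕ}

theorem three_dvd_sub_chi (ℓ : ℕ) : (3 : ℤ) ∣ (ℓ : ℤ) - chiNegThree ℓ := by
  unfold chiNegThree
  split_ifs <;> omega

theorem e1Chi3_eq : e1Chi3In ℤ =
    1 + (3 : PowerSeries ℤ) * PowerSeries.mk (fun n => if n = 0 then 0 else 2 * sigmaChi n) := by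
  ext n
  unfold e1Chi3In e1Chi3
  have h3 : (3 : PowerSeries ℤ) = PowerSeries.C (3 : ℤ) := by
    rw [map_ofNat]
  rw [h3, map_add, PowerSeries.coeff_C_mul, PowerSeries.coeff_mk, PowerSeries.coeff_map,
    PowerSeries.coeff_mk, PowerSeries.coeff_one]
  by_cases hn : n = 0
  · simp [hn]
  · simp [hn]; ring

theorem bridge_coeff (a : ℕ → ℤ) (n : ℕ) :
    (3 : ℤ) ∣ (bridgeProduct a).coeff n - a n := by
  unfold bridgeProduct
  rw [e1Chi3_eq, mul_add, mul_one, map_add, PowerSeries.coeff_mk, add_sub_cancel_left]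
  have h3 : (3 : PowerSeries ℤ) = PowerSeries.C (3 : ℤ) := by
    rw [map_ofNat]
  rw [← mul_assoc, mul_comm (PowerSeries.mk a), mul_assoc, h3, PowerSeries.coeff_C_mul]
  exact dvd_mul_right _ _

def Eig3 (f₀ : CuspForm (Gamma0 N) 2) (t : Module.End ℂ (CuspForm (Gamma0 N) 2)) (c : ℤ) : Prop :=
  Div3 (t f₀ - (c : ℂ) • f₀)

theorem eig3_add {f₀ : CuspForm (Gamma0 N) 2} {t t' : Module.End ℂ (CuspForm (Gamma0 N) 2)}
    {c c' : ℤ} (h : Eig3 f₀ t c) (h' : Eig3 f₀ t' c') : Eig3 f₀ (t + t') (c + c') := by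
  unfold Eig3 at *
  have : (t + t') f₀ - ((c + c' : ℤ) : ℂ) • f₀ = (t f₀ - (c : ℂ) • f₀) + (t' f₀ - (c' : ℂ) • f₀) := by
    rw [LinearMap.add_apply]; push_cast; rw [add_smul]; abel
  rw [this]
  exact div3_add h h'

theorem eig3_mul [NeZero N] {f₀ : CuspForm (Gamma0 N) 2}
    {t t' : Module.End ℂ (CuspForm (Gamma0 N) 2)}
    (ht : t ∈ CuspForm.heckeAlgebra N 2 ∅)
    {c c' : ℤ} (h : Eig3 f₀ t c) (h' : Eig3 f₀ t' c') : Eig3 f₀ (t * t') (c * c') := by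
  unfold Eig3 at *
  have : (t * t') f₀ - ((c * c' : ℤ) : ℂ) • f₀ =
      t (t' f₀ - (c' : ℂ) • f₀) + (c' : ℂ) • (t f₀ - (c : ℂ) • f₀) := by
    rw [Module.End.mul_apply, map_sub, map_smul, smul_sub, smul_smul]; push_cast
    rw [mul_comm (c' : ℂ) (c : ℂ)]; abel
  rw [this]
  exact div3_add (div3_hecke ht h') (div3_int_smul c' h)

theorem eig3_algebraMap (f₀ : CuspForm (Gamma0 N) 2) (n : ℤ) :
    Eig3 f₀ (algebraMap ℤ (Module.End ℂ (CuspForm (Gamma0 N) 2)) n) n := by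
  unfold Eig3
  have : (algebraMap ℤ (Module.End ℂ (CuspForm (Gamma0 N) 2)) n) f₀ - (n : ℂ) • f₀ = 0 := by
    rw [eq_intCast, Module.End.intCast_apply, Int.cast_smul_eq_zsmul, sub_self]
  rw [this]
  exact div3_zero

theorem eig3_unique {f₀ : CuspForm (Gamma0 N) 2} {af : ℕ → ℤ}
    (haf : ∀ n, (af n : ℂ) = qCoeff f₀ n) (h1 : (3 : ℤ) ∣ af 1 - 1)
    {t : Module.End ℂ (CuspForm (Gamma0 N) 2)} {c c' : ℤ}
    (h : Eig3 f₀ t c) (h' : Eig3 f₀ t c') : (3 : ℤ) ∣ c - c' := by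
  unfold Eig3 at *
  have hd := div3_sub h' h
  have : (t f₀ - (c' : ℂ) • f₀) - (t f₀ - (c : ℂ) • f₀) = ((c - c' : ℤ) : ℂ) • f₀ := by
    push_cast; rw [sub_smul]; abel
  rw [this] at hd
  obtain ⟨m, hm⟩ := hd 1
  rw [qCoeff_smul', ← haf] at hm
  have hm' : (c - c') * af 1 = 3 * m := by exact_mod_cast hm
  obtain ⟨k, hk⟩ := h1
  have : (c - c') = 3 * (m - (c - c') * k) := by
    have : af 1 = 1 + 3 * k := by linarith
    rw [this] at hm'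
    linarith
  exact ⟨_, this⟩

theorem not_div3_self {f₀ : CuspForm (Gamma0 N) 2} {af : ℕ → ℤ}
    (haf : ∀ n, (af n : ℂ) = qCoeff f₀ n) (h1 : (3 : ℤ) ∣ af 1 - 1) : ¬ Div3 f₀ := by
  intro h
  obtain ⟨m, hm⟩ := h 1
  rw [← haf] at hm
  have hm' : af 1 = 3 * m := by exact_mod_cast hm
  obtain ⟨k, hk⟩ := h1
  omega

theorem eig3_gen_T {f₀ : CuspForm (Gamma0 N) 2} {af a : ℕ → ℤ}
    (haf : ∀ n, (af n : ℂ) = qCoeff f₀ n) (hcong : ∀ n, (3 : ℤ) ∣ af n - a n)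
    (heig : FormalHecke.IsEigensystem
      (fun ℓ => if ℓ ∣ N then 0 else ((chiNegThree ℓ : ℤ) : ℤ)) a)
    {ℓ : ℕ} (hℓ : ℓ.Prime) (hℓN : ¬ ℓ ∣ N) :
    Eig3 f₀ (CuspForm.heckeTLin 2 hℓ hℓN) (a ℓ) := by
  intro n
  rw [qCoeff_sub', qCoeff_smul', qCoeff_heckeTLin]
  simp only [← haf]
  have hrec := heig.2 ℓ hℓ n
  simp only [if_neg hℓN] at hrec
  obtain ⟨k1, hk1⟩ := hcong (n * ℓ)
  obtain ⟨k2, hk2⟩ := hcong n
  obtain ⟨k3, hk3⟩ := three_dvd_sub_chi ℓ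
  rw [mul_comm ℓ n] at hrec
  by_cases hd : ℓ ∣ n
  · rw [if_pos hd] at hrec ⊢
    obtain ⟨k4, hk4⟩ := hcong (n / ℓ)
    refine ⟨k1 + ℓ * k4 + k3 * a (n / ℓ) - a ℓ * k2, ?_⟩
    have : af (n * ℓ) + (ℓ : ℤ) * af (n / ℓ) - a ℓ * af n =
        3 * (k1 + ℓ * k4 + k3 * a (n / ℓ) - a ℓ * k2) := by
      have e1 : af (n * ℓ) = a (n * ℓ) + 3 * k1 := by linarith
      have e2 : af n = a n + 3 * k2 := by linarith
      have e3 : (ℓ : ℤ) = chiNegThree ℓ + 3 * k3 := by linarith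
      have e4 : af (n / ℓ) = a (n / ℓ) + 3 * k4 := by linarith
      rw [e1, e2, e4]
      have e5 : (ℓ : ℤ) * (a (n / ℓ) + 3 * k4) =
          chiNegThree ℓ * a (n / ℓ) + 3 * (k3 * a (n / ℓ) + ℓ * k4) := by
        linear_combination (a (n / ℓ)) * e3
      rw [e5]
      linear_combination hrec
    exact_mod_cast this
  · rw [if_neg hd] at hrec ⊢
    refine ⟨k1 - a ℓ * k2, ?_⟩
    have : af (n * ℓ) - a ℓ * af n = 3 * (k1 - a ℓ * k2) := by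
      have e1 : af (n * ℓ) = a (n * ℓ) + 3 * k1 := by linarith
      have e2 : af n = a n + 3 * k2 := by linarith
      rw [e1, e2]
      linear_combination hrec
    rw [add_zero]
    exact_mod_cast this

theorem eig3_gen_U [NeZero N] {f₀ : CuspForm (Gamma0 N) 2} {af a : ℕ → ℤ}
    (haf : ∀ n, (af n : ℂ) = qCoeff f₀ n) (hcong : ∀ n, (3 : ℤ) ∣ af n - a n)
    (heig : FormalHecke.IsEigensystem
      (fun ℓ => if ℓ ∣ N then 0 else ((chiNegThree ℓ : ℤ) : ℤ)) a)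
    {q : ℕ} (hq : q.Prime) (hqN : q ∣ N) :
    Eig3 f₀ (CuspForm.heckeULin 2 hqN) (a q) := by
  intro n
  rw [qCoeff_sub', qCoeff_smul', qCoeff_heckeULin hq]
  simp only [← haf]
  have hrec := heig.2 q hq n
  simp only [if_pos hqN, zero_mul, add_zero] at hrec
  obtain ⟨k1, hk1⟩ := hcong (n * q)
  obtain ⟨k2, hk2⟩ := hcong n
  rw [mul_comm q n] at hrec
  refine ⟨k1 - a q * k2, ?_⟩
  have : af (n * q) - a q * af n = 3 * (k1 - a q * k2) := by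
    have e1 : af (n * q) = a (n * q) + 3 * k1 := by linarith
    have e2 : af n = a n + 3 * k2 := by linarith
    rw [e1, e2]
    linear_combination hrec
  exact_mod_cast this

theorem eig3_exists [NeZero N] {f₀ : CuspForm (Gamma0 N) 2} {af a : ℕ → ℤ}
    (haf : ∀ n, (af n : ℂ) = qCoeff f₀ n) (hcong : ∀ n, (3 : ℤ) ∣ af n - a n)
    (heig : FormalHecke.IsEigensystem
      (fun ℓ => if ℓ ∣ N then 0 else ((chiNegThree ℓ : ℤ) : ℤ)) a)
    {t : Module.End ℂ (CuspForm (Gamma0 N) 2)} (ht : t ∈ CuspForm.heckeAlgebra N 2 ∅) :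
    ∃ c : ℤ, Eig3 f₀ t c := by
  unfold CuspForm.heckeAlgebra at ht
  induction ht using Algebra.adjoin_induction with
  | mem x hx =>
    rcases hx with ⟨ℓ, hℓ, hℓN, -, rfl⟩ | ⟨q, hqN, hq, -, rfl⟩
    · exact ⟨a ℓ, eig3_gen_T haf hcong heig hℓ hℓN⟩
    · exact ⟨a q, eig3_gen_U haf hcong heig hq hqN⟩
  | algebraMap r => exact ⟨r, eig3_algebraMap f₀ r⟩
  | add x y _ _ hx hy =>
    obtain ⟨c, hc⟩ := hx
    obtain ⟨c', hc'⟩ := hy
    exact ⟨c + c', eig3_add hc hc'⟩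
  | mul x y hx' _ hx hy =>
    obtain ⟨c, hc⟩ := hx
    obtain ⟨c', hc'⟩ := hy
    exact ⟨c * c', eig3_mul hx' hc hc'⟩

end Fermat.Agent.S49
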