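import Mathlib

set_option autoImplicit false

/-!
# Pure algebra for the `5`-isogeny parametrisation (S51)

Short Weierstrass form `Y² = X³ + A X + B`.  The duplication map on `x`-coordinates is
`D(X) = n(X) / (4 f(X))` with `f = X³ + A X + B`, `n = X⁴ - 2 A X² - 8 B X + A²`.
-/

namespace Fermat.Agent.S51.FiveAlg

variable {K : Type*} [Field K]

/-- the cubic `X³ + A X + B` -/
def fP (A B X : K) : K := X ^ 3 + A * X + B

/-- numerator of the duplication map -/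
def nP (A B X : K) : K := X ^ 4 - 2 * A * X ^ 2 - 8 * B * X + A ^ 2

/-- the `3`-division polynomial -/
def psi3 (A B X : K) : K := 3 * X ^ 4 + 6 * A * X ^ 2 + 12 * B * X - A ^ 2

/-- the sextic factor of the `4`-division polynomial -/
def h6 (A B X : K) : K :=
  X ^ 6 + 5 * A * X ^ 4 + 20 * B * X ^ 3 - 5 * A ^ 2 * X ^ 2 - 4 * A * B * X - 8 * B ^ 2 - A ^ 3

/-- the `5`-division polynomial -/
def psi5 (A B X : K) : K := 32 * fP A B X ^ 2 * h6 A B X - psi3 A B X ^ 3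

theorem psi3_eq (A B X : K) : psi3 A B X = X * (4 * fP A B X) - nP A B X := by
  simp only [psi3, fP, nP]; ring

/-- `h6² = n³ + A n M² + B M³` with `M = 4 f` -/
theorem h6_sq (A B X : K) :
    h6 A B X ^ 2 = nP A B X ^ 3 + A * nP A B X * (4 * fP A B X) ^ 2 + B * (4 * fP A B X) ^ 3 := by
  simp only [h6, fP, nP]; ring

/-- Silverman's resultant identity -/
theorem silverman (A B X : K) :
    (12 * X ^ 2 + 16 * A) * nP A B X - (3 * X ^ 3 - 5 * A * X - 27 * B) * (4 * fP A B X) =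
      4 * (4 * A ^ 3 + 27 * B ^ 2) := by
  simp only [fP, nP]; ring

/-- the numerator of `D(D(X)) - X` is `-ψ₃ ψ₅` -/
theorem quadruple_num (A B X : K) :
    (nP A B X ^ 4 - 2 * A * nP A B X ^ 2 * (4 * fP A B X) ^ 2 - 8 * B * nP A B X * (4 * fP A B X) ^ 3 +
        A ^ 2 * (4 * fP A B X) ^ 4) -
      X * (4 * (4 * fP A B X) *
        (nP A B X ^ 3 + A * nP A B X * (4 * fP A B X) ^ 2 + B * (4 * fP A B X) ^ 3)) =
      -(psi3 A B X * psi5 A B X) := by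
  simp only [psi5, psi3, h6, fP, nP]; ring


/-- homogenised substitution `n₁ = x₂ M₁` -/
theorem quadruple_subst (A B x1 x2 n1 M1 : K) (h : n1 = x2 * M1) :
    (n1 ^ 4 - 2 * A * n1 ^ 2 * M1 ^ 2 - 8 * B * n1 * M1 ^ 3 + A ^ 2 * M1 ^ 4) -
      x1 * (4 * M1 * (n1 ^ 3 + A * n1 * M1 ^ 2 + B * M1 ^ 3)) =
      M1 ^ 4 * (nP A B x2 - 4 * x1 * fP A B x2) := by
  subst h
  simp only [fP, nP]; ring

theorem f_subst (A B x2 n1 M1 : K) (h : n1 = x2 * M1) :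
    n1 ^ 3 + A * n1 * M1 ^ 2 + B * M1 ^ 3 = M1 ^ 3 * fP A B x2 := by
  subst h
  simp only [fP]; ring

/-- if `x₂ = D(x₁)` then `M(x₁)⁴ (n(x₂) - 4 x₁ f(x₂)) = -ψ₃(x₁) ψ₅(x₁)` -/
theorem psi3_mul_psi5 (A B x1 x2 : K) (R1 : nP A B x1 = 4 * x2 * fP A B x1) :
    (4 * fP A B x1) ^ 4 * (nP A B x2 - 4 * x1 * fP A B x2) = -(psi3 A B x1 * psi5 A B x1) := by
  rw [← quadruple_num, quadruple_subst A B x1 x2 (nP A B x1) (4 * fP A B x1) (by rw [R1]; ring)]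

/-- if `x₂ = D(x₁)` then `M(x₁)³ f(x₂) = h6(x₁)²` -/
theorem f_double (A B x1 x2 : K) (R1 : nP A B x1 = 4 * x2 * fP A B x1) :
    (4 * fP A B x1) ^ 3 * fP A B x2 = h6 A B x1 ^ 2 := by
  rw [h6_sq, f_subst A B x2 (nP A B x1) (4 * fP A B x1) (by rw [R1]; ring)]

theorem psi3_of_double (A B x1 x2 : K) (R1 : nP A B x1 = 4 * x2 * fP A B x1) :
    psi3 A B x1 = (x1 - x2) * (4 * fP A B x1) := by
  rw [psi3_eq, R1]; ring

/-- **(A2)** the `x`-coordinate of a point of exact order `5` is a root of `ψ₅`. -/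
theorem psi5_of_five_torsion_aux (A B x1 x2 : K) (hf1 : fP A B x1 ≠ 0) (h4 : (4 : K) ≠ 0)
    (h12 : x1 ≠ x2)
    (R1 : nP A B x1 = 4 * x2 * fP A B x1) (R2 : nP A B x2 = 4 * x1 * fP A B x2) :
    psi5 A B x1 = 0 := by
  have h := psi3_mul_psi5 A B x1 x2 R1
  rw [R2, sub_self, mul_zero] at h
  have h3 : psi3 A B x1 ≠ 0 := by
    rw [psi3_of_double A B x1 x2 R1]
    exact mul_ne_zero (sub_ne_zero.mpr h12) (mul_ne_zero h4 hf1)
  have h' : psi3 A B x1 * psi5 A B x1 = 0 := by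
    have := h.symm
    rwa [neg_eq_zero] at this
  exact (mul_eq_zero.mp h').resolve_left h3

section nonvanishing

variable (A B x1 : K) (h2 : (2 : K) ≠ 0) (hΔ : 4 * A ^ 3 + 27 * B ^ 2 ≠ 0)

include h2 hΔ

/-- `n` and `f` have no common root -/
theorem n_ne_zero_of_f_eq_zero (hf : fP A B x1 = 0) : nP A B x1 ≠ 0 := by
  intro hn
  have h := silverman A B x1
  rw [hf, hn] at h
  simp only [mul_zero, sub_zero] at h
  have h4 : (4 : K) ≠ 0 := by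
    have : (4 : K) = 2 * 2 := by norm_num
    rw [this]; exact mul_ne_zero h2 h2
  exact (mul_ne_zero h4 hΔ) h.symm

/-- `ψ₃` and `f` have no common root -/
theorem f_ne_zero_of_psi3_eq_zero (h3 : psi3 A B x1 = 0) : fP A B x1 ≠ 0 := by
  intro hf
  have hn : nP A B x1 = 0 := by
    have := psi3_eq A B x1
    rw [h3, hf] at this
    simp only [mul_zero, zero_sub] at this
    have h' : nP A B x1 = -0 := by rw [this]; ring
    simpa using h'
  exact n_ne_zero_of_f_eq_zero A B x1 h2 hΔ hf hn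

/-- `ψ₃` and `h6` have no common root -/
theorem h6_ne_zero_of_psi3_eq_zero (h3 : psi3 A B x1 = 0) : h6 A B x1 ≠ 0 := by
  intro h6z
  have hf := f_ne_zero_of_psi3_eq_zero A B x1 h2 hΔ h3
  have hn : nP A B x1 = x1 * (4 * fP A B x1) := by
    have := psi3_eq A B x1
    rw [h3] at this
    exact (sub_eq_zero.mp this.symm).symm
  have h := h6_sq A B x1
  rw [h6z, f_subst A B x1 (nP A B x1) (4 * fP A B x1) hn] at h
  have h4 : (4 : K) ≠ 0 := by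
    have : (4 : K) = 2 * 2 := by norm_num
    rw [this]; exact mul_ne_zero h2 h2
  have : (4 * fP A B x1) ^ 3 * fP A B x1 ≠ 0 :=
    mul_ne_zero (pow_ne_zero _ (mul_ne_zero h4 hf)) hf
  exact this (by rw [← h]; ring)

/-- a root of `ψ₅` is not a root of `ψ₃` -/
theorem psi3_ne_zero_of_psi5_eq_zero (h5 : psi5 A B x1 = 0) : psi3 A B x1 ≠ 0 := by
  intro h3
  have hf := f_ne_zero_of_psi3_eq_zero A B x1 h2 hΔ h3
  have h6ne := h6_ne_zero_of_psi3_eq_zero A B x1 h2 hΔ h3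
  have h : psi5 A B x1 = 32 * fP A B x1 ^ 2 * h6 A B x1 := by
    rw [psi5, h3]; ring
  rw [h5] at h
  have h32 : (32 : K) ≠ 0 := by
    have : (32 : K) = 2 ^ 5 := by norm_num
    rw [this]; exact pow_ne_zero _ h2
  exact (mul_ne_zero (mul_ne_zero h32 (pow_ne_zero _ hf)) h6ne) h.symm

/-- a root of `ψ₅` is not a root of `f` -/
theorem f_ne_zero_of_psi5_eq_zero (h5 : psi5 A B x1 = 0) : fP A B x1 ≠ 0 := by
  intro hf
  have h : psi5 A B x1 = -psi3 A B x1 ^ 3 := by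
    rw [psi5, hf]; ring
  rw [h5] at h
  have h3 : psi3 A B x1 = 0 := by
    have : psi3 A B x1 ^ 3 = 0 := by
      have h' := h.symm
      rwa [neg_eq_zero] at h'
    exact pow_eq_zero_iff (by norm_num) |>.mp this
  exact f_ne_zero_of_psi3_eq_zero A B x1 h2 hΔ h3 hf

/-- a root of `ψ₅` is not a root of `h6` -/
theorem h6_ne_zero_of_psi5_eq_zero (h5 : psi5 A B x1 = 0) : h6 A B x1 ≠ 0 := by
  intro h6z
  have h : psi5 A B x1 = -psi3 A B x1 ^ 3 := by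
    rw [psi5, h6z]; ring
  rw [h5] at h
  have h3 : psi3 A B x1 = 0 := by
    have : psi3 A B x1 ^ 3 = 0 := by
      have h' := h.symm
      rwa [neg_eq_zero] at h'
    exact pow_eq_zero_iff (by norm_num) |>.mp this
  exact h6_ne_zero_of_psi3_eq_zero A B x1 h2 hΔ h3 h6z

/-- a root `x₁` of `ψ₅` is the `x`-coordinate of a point of exact order `5`: if
`x₂ = D(x₁)` then `x₂ ≠ x₁`, `f(x₂) ≠ 0` and `D(x₂) = x₁`. -/
theorem five_torsion_alg_aux (h5 : psi5 A B x1 = 0) :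
    fP A B x1 ≠ 0 ∧ ∀ x2 : K, nP A B x1 = 4 * x2 * fP A B x1 →
      x2 ≠ x1 ∧ fP A B x2 ≠ 0 ∧ nP A B x2 = 4 * x1 * fP A B x2 := by
  have h4 : (4 : K) ≠ 0 := by
    have : (4 : K) = 2 * 2 := by norm_num
    rw [this]; exact mul_ne_zero h2 h2
  have hf := f_ne_zero_of_psi5_eq_zero A B x1 h2 hΔ h5
  have hM : 4 * fP A B x1 ≠ 0 := mul_ne_zero h4 hf
  refine ⟨hf, fun x2 R1 => ⟨?_, ?_, ?_⟩⟩
  · intro h
    have := psi3_of_double A B x1 x2 R1
    rw [h, sub_self, zero_mul] at this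
    exact psi3_ne_zero_of_psi5_eq_zero A B x1 h2 hΔ h5 this
  · intro h
    have := f_double A B x1 x2 R1
    rw [h, mul_zero] at this
    exact h6_ne_zero_of_psi5_eq_zero A B x1 h2 hΔ h5
      (pow_eq_zero_iff (by norm_num) |>.mp this.symm)
  · have := psi3_mul_psi5 A B x1 x2 R1
    rw [h5, mul_zero, neg_zero] at this
    have h' := (mul_eq_zero.mp this).resolve_left (pow_ne_zero _ hM)
    exact sub_eq_zero.mp h'

end nonvanishing

/-! ### Interface (characteristic zero) -/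

section interface

variable [CharZero K]

/-- **(A1)** a root `x₁` of `ψ₅` is the `x`-coordinate of a point of exact order `5`. -/
theorem five_torsion_alg (A B x1 : K) (hΔ : 4 * A ^ 3 + 27 * B ^ 2 ≠ 0)
    (h5 : psi5 A B x1 = 0) :
    fP A B x1 ≠ 0 ∧ ∀ x2 : K, nP A B x1 = 4 * x2 * fP A B x1 →
      x2 ≠ x1 ∧ fP A B x2 ≠ 0 ∧ nP A B x2 = 4 * x1 * fP A B x2 :=
  five_torsion_alg_aux A B x1 two_ne_zero hΔ h5

/-- **(A2)** the `x`-coordinate of a point of exact order `5` is a root of `ψ₅`. -/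
theorem psi5_of_five_torsion (A B x1 x2 : K) (hf1 : fP A B x1 ≠ 0) (h12 : x1 ≠ x2)
    (R1 : nP A B x1 = 4 * x2 * fP A B x1) (R2 : nP A B x2 = 4 * x1 * fP A B x2) :
    psi5 A B x1 = 0 :=
  psi5_of_five_torsion_aux A B x1 x2 hf1 (by norm_num) h12 R1 R2

open Polynomial in
/-- `ψ₅` as a polynomial -/
noncomputable def psi5Poly (A B : K) : Polynomial K :=
  C 32 * (X ^ 3 + C A * X + C B) ^ 2 *
      (X ^ 6 + C (5 * A) * X ^ 4 + C (20 * B) * X ^ 3 - C (5 * A ^ 2) * X ^ 2 - C (4 * A * B) * X -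
        C (8 * B ^ 2 + A ^ 3)) -
    (C 3 * X ^ 4 + C (6 * A) * X ^ 2 + C (12 * B) * X - C (A ^ 2)) ^ 3

omit [CharZero K] in
theorem eval_psi5Poly (A B x : K) : (psi5Poly A B).eval x = psi5 A B x := by
  simp only [psi5Poly, psi5, fP, h6, psi3, Polynomial.eval_sub, Polynomial.eval_mul,
    Polynomial.eval_pow, Polynomial.eval_add, Polynomial.eval_C, Polynomial.eval_X]
  ring

theorem natDegree_psi5Poly (A B : K) : (psi5Poly A B).natDegree = 12 := by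
  unfold psi5Poly
  compute_degree!

theorem psi5Poly_ne_zero (A B : K) : psi5Poly A B ≠ 0 := by
  intro h
  have := natDegree_psi5Poly A B
  rw [h, Polynomial.natDegree_zero] at this
  norm_num at this

/-- **(A2b)** `ψ₅` has at most `12` roots. -/
theorem exists_finset_psi5 (A B : K) :
    ∃ s : Finset K, s.card ≤ 12 ∧ ∀ x, psi5 A B x = 0 → x ∈ s := by
  classical
  refine ⟨(psi5Poly A B).roots.toFinset, ?_, fun x hx => ?_⟩
  · calc (psi5Poly A B).roots.toFinset.card ≤ Multiset.card (psi5Poly A B).roots :=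
        Multiset.toFinset_card_le _
      _ ≤ (psi5Poly A B).natDegree := Polynomial.card_roots' _
      _ = 12 := natDegree_psi5Poly A B
  · rw [Multiset.mem_toFinset, Polynomial.mem_roots (psi5Poly_ne_zero A B), Polynomial.IsRoot,
      eval_psi5Poly]
    exact hx

/-- **(A2c)** `ψ₅` has a root over an algebraically closed field. -/
theorem exists_root_psi5 [IsAlgClosed K] (A B : K) : ∃ x, psi5 A B x = 0 := by
  have hdeg : (psi5Poly A B).degree ≠ 0 := by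
    rw [Polynomial.degree_eq_natDegree (psi5Poly_ne_zero A B), natDegree_psi5Poly]
    norm_num
  obtain ⟨x, hx⟩ := IsAlgClosed.exists_root (psi5Poly A B) hdeg
  exact ⟨x, by rw [← eval_psi5Poly]; exact hx⟩

omit [CharZero K] in
/-- the polynomial identity behind the `X₀(5)` parametrisation -/
theorem five_core (A e1 e2 : K)
    (hRel : A ^ 2 + 2 * (e1 ^ 2 - e2) * A - (e1 ^ 4 - 5 * e1 ^ 2 * e2 - 5 * e2 ^ 2) = 0) :
    6912 * A ^ 3 * (4 * (e1 ^ 2 - e2 + A) - 11 * (e1 ^ 2 - 4 * e2)) * (e1 ^ 2 - 4 * e2) ^ 5 * 16 =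
      ((4 * (e1 ^ 2 - e2 + A) - 11 * (e1 ^ 2 - 4 * e2)) ^ 2 +
        10 * (4 * (e1 ^ 2 - e2 + A) - 11 * (e1 ^ 2 - 4 * e2)) * (e1 ^ 2 - 4 * e2) +
        5 * (e1 ^ 2 - 4 * e2) ^ 2) ^ 3 *
      (64 * A ^ 3 + 27 * (e1 * (e1 ^ 2 - 6 * e2 - 2 * A)) ^ 2) := by
  linear_combination (16 * (-16384 * A ^ 7 + 54272 * A ^ 6 * e1 ^ 2 - 524288 * A ^ 6 * e2 - 14336 * A ^ 5 * e1 ^ 4 + 980992 * A ^ 5 * e1 ^ 2 * e2 - 6127616 * A ^ 5 * e2 ^ 2 - 88832 * A ^ 4 * e1 ^ 6 + 850944 * A ^ 4 * e1 ^ 4 * e2 + 3124224 * A ^ 4 * e1 ^ 2 * e2 ^ 2 - 30932992 * A ^ 4 * e2 ^ 3 + 45824 * A ^ 3 * e1 ^ 8 - 1605632 * A ^ 3 * e1 ^ 6 * e2 + 13578240 * A ^ 3 * e1 ^ 4 * e2 ^ 2 - 23932928 * A ^ 3 * e1 ^ 2 * e2 ^ 3 - 57032704 * A ^ 3 * e2 ^ 4 + 34560 * A ^ 2 * e1 ^ 10 - 359424 * A ^ 2 * e1 ^ 8 * e2 - 2833920 * A ^ 2 * e1 ^ 6 * e2 ^ 2 + 42522624 * A ^ 2 * e1 ^ 4 * e2 ^ 3 - 120296448 * A ^ 2 * e1 ^ 2 * e2 ^ 4 - 6912 * A *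 e1 ^ 12 + 366336 * A * e1 ^ 10 * e2 - 4831488 * A * e1 ^ 8 * e2 ^ 2 + 23169024 * A * e1 ^ 6 * e2 ^ 3 - 27924480 * A * e1 ^ 4 * e2 ^ 4 - 43960320 * A * e1 ^ 2 * e2 ^ 5 - 6912 * e1 ^ 14 + 152064 * e1 ^ 12 * e2 - 1181952 * e1 ^ 10 * e2 ^ 2 + 3386880 * e1 ^ 8 * e2 ^ 3 + 241920 * e1 ^ 6 * e2 ^ 4 - 10368000 * e1 ^ 4 * e2 ^ 5 - 6220800 * e1 ^ 2 * e2 ^ 6)) * hRel

/-- **(A3)** the `X₀(5)` parametrisation: a pair `x₁ ≠ x₂` with `D(x₁) = x₂`, `D(x₂) = x₁`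
gives a point `s` with `j = (s² + 10 s + 5)³ / s`. -/
theorem five_param (A B x1 x2 : K) (hΔ : 4 * A ^ 3 + 27 * B ^ 2 ≠ 0) (h12 : x1 ≠ x2)
    (R1 : nP A B x1 = 4 * x2 * fP A B x1) (R2 : nP A B x2 = 4 * x1 * fP A B x2)
    (e1 e2 s : K) (he1 : e1 = x1 + x2) (he2 : e2 = x1 * x2)
    (hs : s = 4 * (e1 ^ 2 - e2 + A) / (e1 ^ 2 - 4 * e2) - 11) :
    s ≠ 0 ∧ 6912 * A ^ 3 * s = (s ^ 2 + 10 * s + 5) ^ 3 * (4 * A ^ 3 + 27 * B ^ 2) := by
  have hx : x1 - x2 ≠ 0 := sub_ne_zero.mpr h12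
  have hδ : e1 ^ 2 - 4 * e2 ≠ 0 := by
    have : e1 ^ 2 - 4 * e2 = (x1 - x2) ^ 2 := by rw [he1, he2]; ring
    rw [this]; exact pow_ne_zero _ hx
  simp only [nP, fP] at R1 R2
  have hLin : 4 * B = e1 * (e1 ^ 2 - 6 * e2 - 2 * A) := by
    have h : (x1 - x2) * (4 * B - e1 * (e1 ^ 2 - 6 * e2 - 2 * A)) = 0 := by
      rw [he1, he2]; linear_combination R2 - R1
    exact sub_eq_zero.mp ((mul_eq_zero.mp h).resolve_left hx)
  have hRel : A ^ 2 + 2 * (e1 ^ 2 - e2) * A - (e1 ^ 4 - 5 * e1 ^ 2 * e2 - 5 * e2 ^ 2) = 0 := by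
    have h : 2 * (A ^ 2 + 2 * (e1 ^ 2 - e2) * A - (e1 ^ 4 - 5 * e1 ^ 2 * e2 - 5 * e2 ^ 2)) = 0 := by
      have hLin' := hLin
      rw [he1, he2] at hLin' ⊢
      linear_combination R1 + R2 + 3 * (x1 + x2) * hLin'
    exact (mul_eq_zero.mp h).resolve_left two_ne_zero
  have key := five_core A e1 e2 hRel
  rw [← hLin] at key
  have hmain : 6912 * A ^ 3 * s = (s ^ 2 + 10 * s + 5) ^ 3 * (4 * A ^ 3 + 27 * B ^ 2) := by
    have hs' : s = (4 * (e1 ^ 2 - e2 + A) - 11 * (e1 ^ 2 - 4 * e2)) / (e1 ^ 2 - 4 * e2) := by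
      rw [hs]; field_simp
    rw [hs']
    field_simp
    linear_combination (1 / 16 : K) * key
  refine ⟨fun h0 => ?_, hmain⟩
  rw [h0] at hmain
  have : (125 : K) * (4 * A ^ 3 + 27 * B ^ 2) = 0 := by linear_combination -hmain
  rcases mul_eq_zero.mp this with h | h
  · norm_num at h
  · exact hΔ h

end interface

end Fermat.Agent.S51.FiveAlg
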