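import Mathlib
import Fermat.Prelude.Def_FLTPrelim_GaloisRep
import Fermat.Agent.S51_FiveAlg

/-!
# S51: a reducible mod-5 representation gives a rational point on `X₀(5)`

If `E[5]` is not an irreducible Galois module, then `E[5]` contains a Galois-stable line
`{0, ±P, ±2P}`; the symmetric functions of `x(P)`, `x(2P)` are rational and give a rational
parameter `s` with `j(E) = (s² + 10 s + 5)³ / s`.
-/

set_option autoImplicit false
set_option linter.unusedSectionVars false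

namespace Fermat.Agent.S51.Five

open Fermat.Agent.S51.FiveAlg
open WeierstrassCurve WeierstrassCurve.Affine WeierstrassCurve.Affine.Point

section Abstract

variable {G : Type*} [AddCommGroup G] {K : Type*} [Field K]

/-- abstract `x`-coordinate data on an abelian group: behaviour under negation, injectivity up
to sign, detection of `2`-torsion and the duplication formula. -/
structure IsXCoord (A B : K) (xc : G → K) : Prop where
  neg : ∀ P, xc (-P) = xc P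
  inj : ∀ P Q, P ≠ 0 → Q ≠ 0 → xc P = xc Q → Q = P ∨ Q = -P
  two : ∀ P, P ≠ 0 → ((2 : ℤ) • P = 0 ↔ fP A B (xc P) = 0)
  dbl : ∀ P, P ≠ 0 → (2 : ℤ) • P ≠ 0 →
    nP A B (xc P) = 4 * xc ((2 : ℤ) • P) * fP A B (xc P)

variable {A B : K} {xc : G → K}

theorem two_zsmul_ne_zero {P : G} (hP : P ≠ 0) (h5 : (5 : ℤ) • P = 0) : (2 : ℤ) • P ≠ 0 := by
  intro h2
  apply hP
  have : P = (5 : ℤ) • P - (2 : ℤ) • ((2 : ℤ) • P) := by module
  rw [this, h5, h2, smul_zero, sub_zero]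

theorem three_zsmul_ne_zero {P : G} (hP : P ≠ 0) (h5 : (5 : ℤ) • P = 0) : (3 : ℤ) • P ≠ 0 := by
  intro h3
  apply hP
  have : P = (2 : ℤ) • ((3 : ℤ) • P) - (5 : ℤ) • P := by module
  rw [this, h5, h3, smul_zero, sub_zero]

theorem two_two_zsmul {P : G} (h5 : (5 : ℤ) • P = 0) : (2 : ℤ) • ((2 : ℤ) • P) = -P := by
  have : (2 : ℤ) • ((2 : ℤ) • P) = (5 : ℤ) • P - P := by module
  rw [this, h5, zero_sub]

/-- the basic relations satisfied by the `x`-coordinates of `P` and `2P` for a point of order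
five -/
theorem five_torsion_relations (hx : IsXCoord A B xc) {P : G} (hP : P ≠ 0)
    (h5 : (5 : ℤ) • P = 0) :
    fP A B (xc P) ≠ 0 ∧ xc P ≠ xc ((2 : ℤ) • P) ∧
      nP A B (xc P) = 4 * xc ((2 : ℤ) • P) * fP A B (xc P) ∧
      nP A B (xc ((2 : ℤ) • P)) = 4 * xc P * fP A B (xc ((2 : ℤ) • P)) := by
  have h2 := two_zsmul_ne_zero hP h5
  have h4 := two_two_zsmul h5
  have h4ne : (2 : ℤ) • ((2 : ℤ) • P) ≠ 0 := by rw [h4]; exact neg_ne_zero.mpr hP
  refine ⟨fun h => h2 ((hx.two P hP).mpr h), ?_, hx.dbl P hP h2, ?_⟩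
  · intro hxx
    rcases hx.inj P _ hP h2 hxx with h | h
    · apply hP
      have : P = (2 : ℤ) • P - P := by module
      rw [this, h, sub_self]
    · apply three_zsmul_ne_zero hP h5
      have : (3 : ℤ) • P = (2 : ℤ) • P + P := by module
      rw [this, h, neg_add_cancel]
  · have := hx.dbl _ h2 h4ne
    rw [h4, hx.neg] at this
    exact this

/-- the `x`-coordinates of the multiples of a point of order five -/
theorem xc_zsmul (hx : IsXCoord A B xc) {P : G} (h5 : (5 : ℤ) • P = 0) (a : ℤ)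
    (ha : a • P ≠ 0) :
    (xc (a • P) = xc P ∧ xc (a • ((2 : ℤ) • P)) = xc ((2 : ℤ) • P)) ∨
    (xc (a • P) = xc ((2 : ℤ) • P) ∧ xc (a • ((2 : ℤ) • P)) = xc P) := by
  have h4 := two_two_zsmul h5
  have hr0 : 0 ≤ a % 5 := Int.emod_nonneg _ (by norm_num)
  have hr5 : a % 5 < 5 := Int.emod_lt_of_pos _ (by norm_num)
  have haP : a • P = (a % 5) • P := by
    have h1 : a • P = (a % 5) • P + (a / 5) • ((5 : ℤ) • P) := by
      rw [smul_smul, ← add_smul, mul_comm, Int.emod_add_mul_ediv]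
    rw [h1, h5, smul_zero, add_zero]
  have haP2 : a • ((2 : ℤ) • P) = (a % 5) • ((2 : ℤ) • P) := by
    rw [smul_comm a, haP, smul_comm]
  rw [haP] at ha
  rw [haP, haP2]
  generalize a % 5 = r at *
  interval_cases r
  · exact absurd (zero_smul ℤ P) ha
  · left; simp
  · right
    refine ⟨rfl, ?_⟩
    rw [h4, hx.neg]
  · right
    have h3 : (3 : ℤ) • P = -((2 : ℤ) • P) := by
      have : (3 : ℤ) • P = (5 : ℤ) • P - (2 : ℤ) • P := by module
      rw [this, h5, zero_sub]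
    have h6 : (3 : ℤ) • ((2 : ℤ) • P) = P := by
      have : (3 : ℤ) • ((2 : ℤ) • P) = (5 : ℤ) • P + P := by module
      rw [this, h5, zero_add]
    rw [h3, hx.neg, h6]
    exact ⟨rfl, rfl⟩
  · left
    have h4' : (4 : ℤ) • P = -P := by
      have : (4 : ℤ) • P = (5 : ℤ) • P - P := by module
      rw [this, h5, zero_sub]
    have h8 : (4 : ℤ) • ((2 : ℤ) • P) = -((2 : ℤ) • P) := by
      have : (4 : ℤ) • ((2 : ℤ) • P) = (2 : ℤ) • ((5 : ℤ) • P) - (2 : ℤ) • P := by module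
      rw [this, h5, smul_zero, zero_sub]
    rw [h4', hx.neg, h8, hx.neg]
    exact ⟨rfl, rfl⟩

/-- at most `25` points are killed by `5` -/
theorem exists_finset_five_torsion [CharZero K] (hx : IsXCoord A B xc) :
    ∃ T : Finset G, T.card ≤ 25 ∧ ∀ P : G, (5 : ℤ) • P = 0 → P ∈ T := by
  classical
  obtain ⟨s, hs, hroots⟩ := exists_finset_psi5 A B
  have hfib : ∀ x : K, ∃ F : Finset G, F.card ≤ 2 ∧ ∀ P : G, P ≠ 0 → xc P = x → P ∈ F := by
    intro x
    by_cases hex : ∃ P : G, P ≠ 0 ∧ xc P = x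
    · obtain ⟨P0, hP0, hP0x⟩ := hex
      refine ⟨{P0, -P0}, Finset.card_le_two, fun P hP hPx => ?_⟩
      rcases hx.inj P0 P hP0 hP (hP0x.trans hPx.symm) with h | h
      · rw [h]; simp
      · rw [h]; simp
    · exact ⟨∅, by simp, fun P hP hPx => absurd ⟨P, hP, hPx⟩ hex⟩
  choose F hF hFmem using hfib
  refine ⟨insert 0 (s.biUnion F), ?_, ?_⟩
  · calc (insert 0 (s.biUnion F)).card ≤ (s.biUnion F).card + 1 := Finset.card_insert_le _ _
      _ ≤ s.card * 2 + 1 := by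
        gcongr
        exact Finset.card_biUnion_le_card_mul s F 2 (fun x _ => hF x)
      _ ≤ 25 := by omega
  · intro P h5
    by_cases hP : P = 0
    · rw [hP]; exact Finset.mem_insert_self _ _
    · obtain ⟨hf1, h12, R1, R2⟩ := five_torsion_relations hx hP h5
      have hroot := psi5_of_five_torsion A B _ _ hf1 h12 R1 R2
      exact Finset.mem_insert_of_mem
        (Finset.mem_biUnion.mpr ⟨xc P, hroots _ hroot, hFmem _ P hP rfl⟩)

/-- existence of a point of order five -/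
theorem exists_five_torsion [CharZero K] [IsAlgClosed K] (hx : IsXCoord A B xc)
    (hΔ : 4 * A ^ 3 + 27 * B ^ 2 ≠ 0) (hsurj : ∀ x : K, ∃ P : G, P ≠ 0 ∧ xc P = x) :
    ∃ P : G, P ≠ 0 ∧ (5 : ℤ) • P = 0 := by
  obtain ⟨x1, hx1⟩ := exists_root_psi5 A B
  obtain ⟨P, hP, hPx⟩ := hsurj x1
  obtain ⟨hf1, hall⟩ := five_torsion_alg A B x1 hΔ hx1
  rw [← hPx] at hf1 hall
  have h2 : (2 : ℤ) • P ≠ 0 := fun h => hf1 ((hx.two P hP).mp h)
  obtain ⟨h21, hf2, R2⟩ := hall _ (hx.dbl P hP h2)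
  have h4 : (2 : ℤ) • ((2 : ℤ) • P) ≠ 0 := fun h => hf2 ((hx.two _ h2).mp h)
  have R2' := hx.dbl _ h2 h4
  have hxc : xc P = xc ((2 : ℤ) • ((2 : ℤ) • P)) := by
    have h0 : (4 : K) * fP A B (xc ((2 : ℤ) • P)) ≠ 0 := mul_ne_zero (by norm_num) hf2
    apply mul_right_cancel₀ h0
    linear_combination R2' - R2
  refine ⟨P, hP, ?_⟩
  rcases hx.inj P _ hP h4 hxc with h | h
  · exfalso
    apply h21
    have h3 : (2 : ℤ) • P = -P := by
      have : (2 : ℤ) • P = ((2 : ℤ) • ((2 : ℤ) • P) - P) - P := by module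
      rw [this, h, sub_self, zero_sub]
    rw [h3, hx.neg]
  · have : (5 : ℤ) • P = (2 : ℤ) • ((2 : ℤ) • P) + P := by module
    rw [this, h, neg_add_cancel]

end Abstract

section Curve

variable {K : Type*} [Field K] [CharZero K] [DecidableEq K] (W : WeierstrassCurve.Affine K)

/-- the shifted `x`-coordinate `x + b₂/12` of a point (junk value `0` at the origin) -/
noncomputable def xc : W.Point → K
  | .zero => 0
  | .some x _ _ => x + W.b₂ / 12

/-- the coefficient `A = -c₄/48` of the short Weierstrass form -/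
noncomputable def cA : K := -W.c₄ / 48

/-- the coefficient `B = -c₆/864` of the short Weierstrass form -/
noncomputable def cB : K := -W.c₆ / 864

theorem xc_some {x y : K} (h : W.Nonsingular x y) : xc W (.some x y h) = x + W.b₂ / 12 := rfl

theorem sq_eq_four_fP {x y : K} (h : W.Equation x y) :
    (y - W.negY x y) ^ 2 = 4 * fP (cA W) (cB W) (x + W.b₂ / 12) := by
  rw [W.equation_iff] at h
  simp only [fP, cA, cB, negY, WeierstrassCurve.b₂, WeierstrassCurve.b₄, WeierstrassCurve.b₆,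
    WeierstrassCurve.c₄, WeierstrassCurve.c₆]
  linear_combination 4 * h

theorem four_disc : 4 * (cA W) ^ 3 + 27 * (cB W) ^ 2 = -W.Δ / 16 := by
  have := W.c_relation
  simp only [cA, cB]
  linear_combination (1 / 27648 : K) * this

theorem isXCoord : IsXCoord (cA W) (cB W) (xc W) where
  neg := by
    rintro (_ | ⟨x, y, h⟩)
    · rfl
    · rfl
  inj := by
    rintro (_ | ⟨x₁, y₁, h₁⟩) (_ | ⟨x₂, y₂, h₂⟩) hP hQ hx
    · exact absurd rfl hP
    · exact absurd rfl hP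
    · exact absurd rfl hQ
    · have hxx : x₂ = x₁ := by
        rw [xc_some, xc_some] at hx
        exact (add_right_cancel hx).symm
      exact X_eq_iff.mp hxx
  two := by
    rintro (_ | ⟨x, y, h⟩) hP
    · exact absurd rfl hP
    · rw [two_zsmul, xc_some]
      have hsq := sq_eq_four_fP W h.1
      by_cases hy : y = W.negY x y
      · rw [add_self_of_Y_eq hy]
        refine ⟨fun _ => ?_, fun _ => rfl⟩
        have : y - W.negY x y = 0 := sub_eq_zero.mpr hy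
        rw [this] at hsq
        have h4 : (4 : K) ≠ 0 := by norm_num
        have := hsq.symm
        simpa [h4] using this
      · rw [add_self_of_Y_ne hy]
        refine ⟨fun h0 => absurd h0 (some_ne_zero _), fun h0 => ?_⟩
        rw [h0, mul_zero] at hsq
        exact absurd (sub_eq_zero.mp ((pow_eq_zero_iff two_ne_zero).mp hsq)) hy
  dbl := by
    rintro (_ | ⟨x, y, h⟩) hP h2
    · exact absurd rfl hP
    · rw [two_zsmul] at h2 ⊢
      have hy : y ≠ W.negY x y := fun hy => h2 (add_self_of_Y_eq hy)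
      rw [add_self_of_Y_ne hy, xc_some, xc_some]
      have hu : y - W.negY x y ≠ 0 := sub_ne_zero.mpr hy
      have hℓ : W.slope x x y y * (y - W.negY x y) =
          3 * x ^ 2 + 2 * W.a₂ * x + W.a₄ - W.a₁ * y := by
        rw [slope_of_Y_ne rfl hy, div_mul_cancel₀ _ hu]
      have heq := (W.equation_iff x y).mp h.1
      generalize W.slope x x y y = ℓ at hℓ ⊢
      simp only [fP, nP, cA, cB, negY, addX, WeierstrassCurve.b₂, WeierstrassCurve.b₄,
        WeierstrassCurve.b₆, WeierstrassCurve.c₄, WeierstrassCurve.c₆] at hℓ ⊢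
      linear_combination (8 * (x + (W.a₁ ^ 2 + 4 * W.a₂) / 12) + 4 * (ℓ ^ 2 + W.a₁ * ℓ - W.a₂
        - 2 * x + (W.a₁ ^ 2 + 4 * W.a₂) / 12)) * heq
        - (ℓ * (2 * y + W.a₁ * x + W.a₃) + (3 * x ^ 2 + 2 * W.a₂ * x + W.a₄ - W.a₁ * y)
          + W.a₁ * (2 * y + W.a₁ * x + W.a₃)) * hℓ

theorem xc_surjective [IsAlgClosed K] (hΔ : W.Δ ≠ 0) (x₀ : K) :
    ∃ P : W.Point, P ≠ 0 ∧ xc W P = x₀ := by
  set x : K := x₀ - W.b₂ / 12 with hx
  obtain ⟨r, hr⟩ := IsAlgClosed.exists_eq_mul_self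
    (4 * x ^ 3 + W.b₂ * x ^ 2 + 2 * W.b₄ * x + W.b₆)
  have heq : W.Equation x ((r - W.a₁ * x - W.a₃) / 2) := by
    rw [W.equation_iff]
    simp only [WeierstrassCurve.b₂, WeierstrassCurve.b₄, WeierstrassCurve.b₆] at hr
    linear_combination (-1 / 4 : K) * hr
  have hns := (W.equation_iff_nonsingular_of_Δ_ne_zero hΔ).mp heq
  exact ⟨.some _ _ hns, some_ne_zero _, by rw [xc_some, hx]; ring⟩

end Curve

theorem isGalois_Qbar : IsGalois ℚ (AlgebraicClosure ℚ) :=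
  haveI : IsAlgClosure ℚ (AlgebraicClosure ℚ) := AlgebraicClosure.instIsAlgClosure ℚ
  inferInstance

/-- an element of `ℚ̄` fixed by the absolute Galois group is rational -/
theorem mem_range_of_fixed (a : AlgebraicClosure ℚ)
    (h : ∀ σ : AlgebraicClosure ℚ ≃ₐ[ℚ] AlgebraicClosure ℚ, σ a = a) :
    ∃ r : ℚ, algebraMap ℚ (AlgebraicClosure ℚ) r = a :=
  haveI := isGalois_Qbar
  (InfiniteGalois.mem_range_algebraMap_iff_fixed (k := ℚ) (K := AlgebraicClosure ℚ) a).mpr h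

/-- a proper nonzero subspace of an `𝔽_p`-vector space with at most `p²` elements is a line -/
theorem exists_generator (p : ℕ) [Fact p.Prime] {M : Type*} [AddCommGroup M] [Module (ZMod p) M]
    [Finite M] (hcard : Nat.card M ≤ p ^ 2) (N : Submodule (ZMod p) M) (hbot : N ≠ ⊥)
    (htop : N ≠ ⊤) : ∃ P ∈ N, P ≠ 0 ∧ ∀ Q ∈ N, ∃ a : ℤ, Q = a • P := by
  have hp : 1 < p := (Fact.out : p.Prime).one_lt
  have h1 : Nat.card M = p ^ Module.finrank (ZMod p) M := by
    rw [Module.natCard_eq_pow_finrank (K := ZMod p) (V := M), Nat.card_zmod]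
  have h2 : Module.finrank (ZMod p) M ≤ 2 := by
    rw [h1] at hcard
    exact (Nat.pow_le_pow_iff_right hp).mp hcard
  have h3 : Module.finrank (ZMod p) N < Module.finrank (ZMod p) M := Submodule.finrank_lt htop
  have h4 : Module.finrank (ZMod p) N ≠ 0 := by
    intro h0
    exact hbot (Submodule.finrank_eq_zero.mp h0)
  have h5 : Module.finrank (ZMod p) N = 1 := by omega
  obtain ⟨v, hv, hall⟩ := finrank_eq_one_iff'.mp h5
  refine ⟨v, v.2, fun h0 => hv (Subtype.ext h0), fun Q hQ => ?_⟩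
  obtain ⟨c, hc⟩ := hall ⟨Q, hQ⟩
  refine ⟨(c.val : ℤ), ?_⟩
  have : Q = c • (v : M) := by
    have := congrArg Subtype.val hc
    simpa using this.symm
  rw [this, natCast_zsmul, ← Nat.cast_smul_eq_nsmul (ZMod p), ZMod.natCast_zmod_val]

section Main

/-- Galois equivariance of the shifted `x`-coordinate -/
theorem xc_smul (E : WeierstrassCurve ℚ)
    (σ : AlgebraicClosure ℚ ≃ₐ[ℚ] AlgebraicClosure ℚ) (P : (E⁄(AlgebraicClosure ℚ)).Point) :
    xc (E⁄(AlgebraicClosure ℚ)) (σ • P) = σ (xc (E⁄(AlgebraicClosure ℚ)) P) := by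
  rcases P with _ | ⟨x, y, h⟩
  · exact (map_zero σ).symm
  · rw [algEquiv_smul_def]
    change xc _ (Point.some _ _ _) = _
    have hb : (E⁄(AlgebraicClosure ℚ)).b₂ = algebraMap ℚ (AlgebraicClosure ℚ) E.b₂ :=
      WeierstrassCurve.map_b₂ E (algebraMap ℚ (AlgebraicClosure ℚ))
    rw [xc_some, xc_some, map_add, map_div₀, map_ofNat, hb, AlgEquiv.commutes]
    rfl

/-- a five-torsion point generating a Galois-stable line gives rational symmetric functions
of `x(P)` and `x(2P)` -/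
theorem symm_fixed (E : WeierstrassCurve ℚ) {P : (E⁄(AlgebraicClosure ℚ)).Point} (hP : P ≠ 0)
    (h5 : (5 : ℤ) • P = 0) (σ : AlgebraicClosure ℚ ≃ₐ[ℚ] AlgebraicClosure ℚ) (a : ℤ)
    (ha : σ • P = a • P) :
    σ (xc (E⁄(AlgebraicClosure ℚ)) P + xc (E⁄(AlgebraicClosure ℚ)) ((2 : ℤ) • P)) =
        xc (E⁄(AlgebraicClosure ℚ)) P + xc (E⁄(AlgebraicClosure ℚ)) ((2 : ℤ) • P) ∧
      σ (xc (E⁄(AlgebraicClosure ℚ)) P * xc (E⁄(AlgebraicClosure ℚ)) ((2 : ℤ) • P)) =
        xc (E⁄(AlgebraicClosure ℚ)) P * xc (E⁄(AlgebraicClosure ℚ)) ((2 : ℤ) • P) := by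
  have hx := isXCoord (E⁄(AlgebraicClosure ℚ))
  have hne : a • P ≠ 0 := by
    rw [← ha]
    exact fun h0 => hP ((smul_eq_zero_iff_eq σ).mp h0)
  have h1 : σ (xc (E⁄(AlgebraicClosure ℚ)) P) = xc (E⁄(AlgebraicClosure ℚ)) (a • P) := by
    rw [← xc_smul, ha]
  have h2 : σ (xc (E⁄(AlgebraicClosure ℚ)) ((2 : ℤ) • P)) =
      xc (E⁄(AlgebraicClosure ℚ)) (a • ((2 : ℤ) • P)) := by
    rw [← xc_smul, algEquiv_smul_zsmul, ha, smul_comm]
  rw [map_add, map_mul, h1, h2]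
  rcases xc_zsmul hx h5 a hne with ⟨h3, h4⟩ | ⟨h3, h4⟩
  · rw [h3, h4]; exact ⟨rfl, rfl⟩
  · rw [h3, h4]; exact ⟨add_comm _ _, mul_comm _ _⟩

/-- **Five-isogeny**: if the mod-5 representation of `E/ℚ` is not irreducible then `E` gives a
rational point on `X₀(5)`. -/
theorem five_isogeny_aux (E : WeierstrassCurve ℚ) (hΔ : E.Δ ≠ 0)
    (h : ¬ GaloisRepIsIrreducible (K := AlgebraicClosure ℚ) ℚ E 5) :
    ∃ s : ℚ, s ≠ 0 ∧ E.c₄ ^ 3 * s = (s ^ 2 + 10 * s + 5) ^ 3 * E.Δ := by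
  have hΔK : (E⁄(AlgebraicClosure ℚ)).Δ ≠ 0 := by
    have : (E⁄(AlgebraicClosure ℚ)).Δ = algebraMap ℚ (AlgebraicClosure ℚ) E.Δ :=
      WeierstrassCurve.map_Δ E (algebraMap ℚ (AlgebraicClosure ℚ))
    rw [this]
    exact (map_ne_zero_iff _ (algebraMap ℚ (AlgebraicClosure ℚ)).injective).mpr hΔ
  have hx := isXCoord (E⁄(AlgebraicClosure ℚ))
  have hD : 4 * cA (E⁄(AlgebraicClosure ℚ)) ^ 3 + 27 * cB (E⁄(AlgebraicClosure ℚ)) ^ 2 ≠ 0 := by
    rw [four_disc]
    exact div_ne_zero (neg_ne_zero.mpr hΔK) (by norm_num)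
  have hmem : ∀ P : (E⁄(AlgebraicClosure ℚ)).Point,
      P ∈ Submodule.torsionBy ℤ (E⁄(AlgebraicClosure ℚ)).Point ((5 : ℕ) : ℤ) ↔ (5 : ℤ) • P = 0 :=
    fun P => by rw [Submodule.mem_torsionBy_iff]; rfl
  -- nontriviality of the five-torsion
  obtain ⟨P0, hP0, hP05⟩ := exists_five_torsion hx hD (xc_surjective _ hΔK)
  have hnontriv : Nontrivial (Submodule.torsionBy ℤ (E⁄(AlgebraicClosure ℚ)).Point ((5 : ℕ) : ℤ)) :=
    ⟨⟨⟨P0, (hmem P0).mpr hP05⟩, 0, fun h0 => hP0 (congrArg Subtype.val h0)⟩⟩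
  -- a stable proper nonzero submodule
  have hN : ∃ N : Submodule (ZMod 5)
      (Submodule.torsionBy ℤ (E⁄(AlgebraicClosure ℚ)).Point ((5 : ℕ) : ℤ)),
      IsGaloisStable ℚ N ∧ N ≠ ⊥ ∧ N ≠ ⊤ := by
    by_contra hcon
    apply h
    refine ⟨hnontriv, fun N hN => ?_⟩
    by_contra hne
    rw [not_or] at hne
    exact hcon ⟨N, hN, hne.1, hne.2⟩
  obtain ⟨N, hstab, hbot, htop⟩ := hN
  -- the five-torsion has at most 25 elements
  obtain ⟨T, hT, hTmem⟩ := exists_finset_five_torsion hx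
  let ι : Submodule.torsionBy ℤ (E⁄(AlgebraicClosure ℚ)).Point ((5 : ℕ) : ℤ) → T :=
    fun P => ⟨P.1, hTmem P.1 ((hmem P.1).mp P.2)⟩
  have hι : Function.Injective ι := fun P Q hPQ =>
    Subtype.ext (congrArg (fun t : T => (t : (E⁄(AlgebraicClosure ℚ)).Point)) hPQ)
  have hfin : Finite (Submodule.torsionBy ℤ (E⁄(AlgebraicClosure ℚ)).Point ((5 : ℕ) : ℤ)) :=
    Finite.of_injective ι hι
  have hcard : Nat.card (Submodule.torsionBy ℤ (E⁄(AlgebraicClosure ℚ)).Point ((5 : ℕ) : ℤ))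
      ≤ 5 ^ 2 := by
    calc Nat.card (Submodule.torsionBy ℤ (E⁄(AlgebraicClosure ℚ)).Point ((5 : ℕ) : ℤ))
        ≤ Nat.card T := Nat.card_le_card_of_injective ι hι
      _ = T.card := Nat.card_eq_finsetCard T
      _ ≤ 5 ^ 2 := by norm_num; exact hT
  have : Fact (Nat.Prime 5) := ⟨by norm_num⟩
  obtain ⟨P, hPN, hPne, hgen⟩ := exists_generator 5 hcard N hbot htop
  -- the underlying point
  have hp0 : (P : (E⁄(AlgebraicClosure ℚ)).Point) ≠ 0 := fun h0 => hPne (Subtype.ext h0)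
  have hp5 : (5 : ℤ) • (P : (E⁄(AlgebraicClosure ℚ)).Point) = 0 := (hmem _).mp P.2
  obtain ⟨hf1, h12, R1, R2⟩ := five_torsion_relations hx hp0 hp5
  have hfix : ∀ σ : AlgebraicClosure ℚ ≃ₐ[ℚ] AlgebraicClosure ℚ,
      ∃ a : ℤ, σ • (P : (E⁄(AlgebraicClosure ℚ)).Point) =
        a • (P : (E⁄(AlgebraicClosure ℚ)).Point) := by
    intro σ
    obtain ⟨a, ha⟩ := hgen (σ • P) (hstab σ P hPN)
    exact ⟨a, congrArg Subtype.val ha⟩
  set x1 := xc (E⁄(AlgebraicClosure ℚ)) (P : (E⁄(AlgebraicClosure ℚ)).Point) with hx1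
  set x2 := xc (E⁄(AlgebraicClosure ℚ)) ((2 : ℤ) • (P : (E⁄(AlgebraicClosure ℚ)).Point)) with hx2
  obtain ⟨ε1, hε1⟩ := mem_range_of_fixed (x1 + x2) (fun σ => by
    obtain ⟨a, ha⟩ := hfix σ
    exact (symm_fixed E hp0 hp5 σ a ha).1)
  obtain ⟨ε2, hε2⟩ := mem_range_of_fixed (x1 * x2) (fun σ => by
    obtain ⟨a, ha⟩ := hfix σ
    exact (symm_fixed E hp0 hp5 σ a ha).2)
  -- the parameter
  have hcore := five_param (cA (E⁄(AlgebraicClosure ℚ))) (cB (E⁄(AlgebraicClosure ℚ))) x1 x2 hD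
    h12 R1 R2 (x1 + x2) (x1 * x2) _ rfl rfl rfl
  have hA : cA (E⁄(AlgebraicClosure ℚ)) = algebraMap ℚ (AlgebraicClosure ℚ) (-E.c₄ / 48) := by
    have : (E⁄(AlgebraicClosure ℚ)).c₄ = algebraMap ℚ (AlgebraicClosure ℚ) E.c₄ :=
      WeierstrassCurve.map_c₄ E (algebraMap ℚ (AlgebraicClosure ℚ))
    rw [cA, this, map_div₀, map_neg, map_ofNat]
  have hΔ' : (E⁄(AlgebraicClosure ℚ)).Δ = algebraMap ℚ (AlgebraicClosure ℚ) E.Δ :=
    WeierstrassCurve.map_Δ E (algebraMap ℚ (AlgebraicClosure ℚ))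
  rw [four_disc, hΔ', hA, ← hε1, ← hε2] at hcore
  refine ⟨4 * (ε1 ^ 2 - ε2 + -E.c₄ / 48) / (ε1 ^ 2 - 4 * ε2) - 11, ?_, ?_⟩
  · intro h0
    apply hcore.1
    have := congrArg (algebraMap ℚ (AlgebraicClosure ℚ)) h0
    simpa using this
  · apply (algebraMap ℚ (AlgebraicClosure ℚ)).injective
    have h2 := hcore.2
    simp only [map_mul, map_pow, map_add, map_sub, map_div₀, map_neg, map_ofNat] at h2 ⊢
    linear_combination (-16 : AlgebraicClosure ℚ) * h2

end Main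

end Fermat.Agent.S51.Five

namespace Fermat.Agent.S51

open WeierstrassCurve WeierstrassCurve.Affine WeierstrassCurve.Affine.Point

/-- **Five-isogeny**: if the mod-5 representation of `E/ℚ` is not irreducible then `E` gives a
rational point on `X₀(5)`: `j(E) = (s² + 10 s + 5)³ / s` for some nonzero rational `s`. -/
theorem five_isogeny (E : WeierstrassCurve ℚ) (hΔ : E.Δ ≠ 0)
    (h : ¬ GaloisRepIsIrreducible (K := AlgebraicClosure ℚ) ℚ E 5) :
    ∃ s : ℚ, s ≠ 0 ∧ E.c₄ ^ 3 * s = (s ^ 2 + 10 * s + 5) ^ 3 * E.Δ :=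
  Five.five_isogeny_aux E hΔ h

end Fermat.Agent.S51
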