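/-
S51 helper: rational points of the elliptic curve `y² = x (x + 9) (x - 16)` (a model of `X₀(15)`),
via a complete 2-descent on the 2-isogenous curve `y² = x (x - 1) (x - 81)`.
-/
import Mathlib

set_option autoImplicit false

namespace Fermat.Agent.S51
namespace Descent


/-- positive coprime factor of a square is a square -/
theorem sq_of_pos_coprime {x y z : ℤ} (hx : 0 < x) (hc : IsCoprime x y) (h : x * y = z ^ 2) :
    ∃ a : ℤ, x = a ^ 2 := by
  obtain ⟨a, ha | ha⟩ := Int.sq_of_isCoprime hc h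
  · exact ⟨a, ha⟩
  · exfalso
    have : 0 ≤ a ^ 2 := sq_nonneg a
    omega

theorem nine_mul_eq_sq {k u : ℤ} (h : 9 * k = u ^ 2) : ∃ u' : ℤ, u = 3 * u' ∧ k = u' ^ 2 := by
  have h3 : (3 : ℤ) ∣ u := by
    have : (3 : ℤ) ∣ u ^ 2 := ⟨3 * k, by rw [← h]; ring⟩
    exact Int.prime_three.dvd_of_dvd_pow this
  obtain ⟨u', rfl⟩ := h3
  refine ⟨u', rfl, ?_⟩
  have : 9 * k = 9 * u' ^ 2 := by rw [h]; ring
  linarith

theorem mod_three_aux (u m e A B : ℤ) (hm : ¬ (3 : ℤ) ∣ m) (he : ¬ (3 : ℤ) ∣ e)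
    (h : u ^ 2 = m * (3 * A - e ^ 2) * (m - 3 * B)) : False := by
  have key : ∀ u m e : ZMod 3, m ≠ 0 → e ≠ 0 → u ^ 2 ≠ m * (0 - e ^ 2) * (m - 0) := by decide
  have hm' : (m : ZMod 3) ≠ 0 := by
    rwa [Ne, ZMod.intCast_zmod_eq_zero_iff_dvd]
  have he' : (e : ZMod 3) ≠ 0 := by
    rwa [Ne, ZMod.intCast_zmod_eq_zero_iff_dvd]
  apply key (u : ZMod 3) (m : ZMod 3) (e : ZMod 3) hm' he'
  have := congrArg (Int.cast : ℤ → ZMod 3) h
  push_cast at this
  have h3 : (3 : ZMod 3) = 0 := by decide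
  rw [h3] at this
  simpa using this

theorem isCoprime_three_of_not_dvd {m : ℤ} (h : ¬ (3 : ℤ) ∣ m) : IsCoprime m 3 :=
  (Int.prime_three.irreducible.coprime_iff_not_dvd.mpr h).symm

/-- Step S2: `m` is a perfect square. -/
theorem m_is_square (m e u : ℤ) (hm : 0 < m) (hme : IsCoprime m e)
    (h : u ^ 2 = m * (m - e ^ 2) * (m - 81 * e ^ 2)) : ∃ a : ℤ, m = a ^ 2 := by
  have hcβ : IsCoprime m (m - e ^ 2) := by
    have : IsCoprime m (e ^ 2) := hme.pow_right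
    have h2 : IsCoprime m (-(e ^ 2) + m * 1) := (this.neg_right).add_mul_left_right 1
    convert h2 using 1; ring
  by_cases h3 : (3 : ℤ) ∣ m
  swap
  · -- coprime case
    have hc3 : IsCoprime m 3 := isCoprime_three_of_not_dvd h3
    have hcγ : IsCoprime m (m - 81 * e ^ 2) := by
      have h81 : IsCoprime m (81 * e ^ 2) := by
        have : IsCoprime m ((3 : ℤ) ^ 4 * e ^ 2) := (hc3.pow_right).mul_right hme.pow_right
        convert this using 2; norm_num
      have h2 : IsCoprime m (-(81 * e ^ 2) + m * 1) := (h81.neg_right).add_mul_left_right 1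
      convert h2 using 1; ring
    exact sq_of_pos_coprime (z := u) hm (hcβ.mul_right hcγ) (by linear_combination -h)
  · obtain ⟨m1, rfl⟩ := h3
    have he3 : ¬ (3 : ℤ) ∣ e := by
      intro hd
      have : IsCoprime (3 : ℤ) e := hme.of_mul_left_left
      have h1 := this.isUnit_of_dvd' (dvd_refl _) hd
      exact absurd h1 (by decide)
    obtain ⟨u1, rfl, h1⟩ := nine_mul_eq_sq (k := m1 * (3 * m1 - e ^ 2) * (m1 - 27 * e ^ 2)) (u := u)
      (by rw [h]; ring)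
    by_cases h3 : (3 : ℤ) ∣ m1
    swap
    · exact (mod_three_aux u1 m1 e m1 (9 * e ^ 2) h3 he3 (by rw [← h1]; ring)).elim
    obtain ⟨m2, rfl⟩ := h3
    obtain ⟨u2, rfl, h2⟩ := nine_mul_eq_sq (k := m2 * (3 * (3 * m2) - e ^ 2) * (m2 - 9 * e ^ 2))
      (u := u1) (by rw [← h1]; ring)
    have hm2 : 0 < m2 := by omega
    by_cases h3 : (3 : ℤ) ∣ m2
    swap
    · have hc3 : IsCoprime m2 3 := isCoprime_three_of_not_dvd h3
      have hm2e : IsCoprime m2 e := (hme.of_mul_left_right).of_mul_left_right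
      have hc1 : IsCoprime m2 (3 * (3 * m2) - e ^ 2) :=
        (hcβ.of_mul_left_right).of_mul_left_right
      have hc2 : IsCoprime m2 (m2 - 9 * e ^ 2) := by
        have h9 : IsCoprime m2 (9 * e ^ 2) := by
          have : IsCoprime m2 ((3 : ℤ) ^ 2 * e ^ 2) := (hc3.pow_right).mul_right hm2e.pow_right
          convert this using 2; norm_num
        have h2 : IsCoprime m2 (-(9 * e ^ 2) + m2 * 1) := (h9.neg_right).add_mul_left_right 1
        convert h2 using 1; ring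
      obtain ⟨a, ha⟩ := sq_of_pos_coprime (z := u2) hm2 (hc1.mul_right hc2) (by linear_combination h2)
      exact ⟨3 * a, by rw [ha]; ring⟩
    obtain ⟨m3, rfl⟩ := h3
    obtain ⟨u3, rfl, h3'⟩ := nine_mul_eq_sq
      (k := m3 * (3 * (3 * (3 * m3)) - e ^ 2) * (m3 - 3 * e ^ 2)) (u := u2) (by rw [← h2]; ring)
    by_cases h3 : (3 : ℤ) ∣ m3
    swap
    · exact (mod_three_aux u3 m3 e (9 * m3) (e ^ 2) h3 he3 (by rw [← h3']; ring)).elim
    obtain ⟨m4, rfl⟩ := h3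
    obtain ⟨u4, rfl, h4⟩ := nine_mul_eq_sq
      (k := m4 * (3 * (3 * (3 * (3 * m4))) - e ^ 2) * (m4 - e ^ 2)) (u := u3)
      (by rw [← h3']; ring)
    have hm4 : 0 < m4 := by omega
    have hm4e : IsCoprime m4 e :=
      (((hme.of_mul_left_right).of_mul_left_right).of_mul_left_right).of_mul_left_right
    have hc1 : IsCoprime m4 (3 * (3 * (3 * (3 * m4))) - e ^ 2) :=
      (((hcβ.of_mul_left_right).of_mul_left_right).of_mul_left_right).of_mul_left_right
    have hc2 : IsCoprime m4 (m4 - e ^ 2) := by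
      have h2 : IsCoprime m4 (-(e ^ 2) + m4 * 1) := (hm4e.pow_right.neg_right).add_mul_left_right 1
      convert h2 using 1; ring
    obtain ⟨a, ha⟩ := sq_of_pos_coprime (z := u4) hm4 (hc1.mul_right hc2) (by linear_combination h4)
    exact ⟨9 * a, by rw [ha]; ring⟩



theorem sq_mod_four (x : ℤ) : x ^ 2 % 4 = 0 ∨ x ^ 2 % 4 = 1 := by
  rcases Int.emod_two_eq_zero_or_one x with h | h
  · left
    obtain ⟨k, rfl⟩ : ∃ k, x = 2 * k := ⟨x / 2, by omega⟩
    have : (2 * k) ^ 2 = 4 * k ^ 2 := by ring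
    omega
  · right
    obtain ⟨k, rfl⟩ : ∃ k, x = 2 * k + 1 := ⟨x / 2, by omega⟩
    have : (2 * k + 1) ^ 2 = 4 * (k ^ 2 + k) + 1 := by ring
    omega

theorem odd_sq_eq (x : ℤ) (hx : x % 2 = 1) : ∃ j : ℤ, x ^ 2 = 8 * j + 1 := by
  obtain ⟨k, rfl⟩ : ∃ k, x = 2 * k + 1 := ⟨x / 2, by omega⟩
  obtain ⟨r, hr⟩ := Int.even_mul_succ_self k
  exact ⟨r, by have : (2 * k + 1) ^ 2 = 4 * (k * (k + 1)) + 1 := by ring
               rw [this, hr]; ring⟩

theorem even_of_sq_even (x t : ℤ) (h : x ^ 2 = 2 * t) : x % 2 = 0 := by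
  rcases Int.emod_two_eq_zero_or_one x with h' | h'
  · exact h'
  · obtain ⟨j, hj⟩ := odd_sq_eq x h'
    omega

/-- Step S3/S4: the class of `(a² - e², a² - 81 e²)`. -/
theorem beta_gamma_class (a e w : ℤ) (hae : IsCoprime a e) (hw : w ≠ 0)
    (h : w ^ 2 = (a ^ 2 - e ^ 2) * (a ^ 2 - 81 * e ^ 2)) :
    ∃ b c d : ℤ, (d = 1 ∨ d = -1 ∨ d = 5 ∨ d = -5) ∧ a ^ 2 - e ^ 2 = d * b ^ 2 ∧
      a ^ 2 - 81 * e ^ 2 = d * c ^ 2 := by
  set β := a ^ 2 - e ^ 2 with hβdef
  set γ := a ^ 2 - 81 * e ^ 2 with hγdef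
  have hβ0 : β ≠ 0 := by
    rintro h0; rw [h0, zero_mul] at h; exact hw (pow_eq_zero_iff (two_ne_zero) |>.mp h)
  have hgpos : 0 < Int.gcd β γ := Int.gcd_pos_of_ne_zero_left _ hβ0
  obtain ⟨β', γ', hg1, hβ, hγ⟩ := Int.exists_gcd_one hgpos
  set g := Int.gcd β γ with hgdef
  -- g ∣ 80
  have hβe : IsCoprime β e := by
    have h1 : IsCoprime (a ^ 2) e := hae.pow_left
    have h2 : IsCoprime (a ^ 2 + (-e) * e) e := h1.add_mul_right_left (-e)
    convert h2 using 1; rw [hβdef]; ring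
  have hgβ : (g : ℤ) ∣ β := Int.gcd_dvd_left _ _
  have hgγ : (g : ℤ) ∣ γ := Int.gcd_dvd_right _ _
  have hge : IsCoprime (g : ℤ) e := hβe.of_isCoprime_of_dvd_left hgβ
  have hg80' : (g : ℤ) ∣ 80 := by
    have h1 : (g : ℤ) ∣ 80 * e ^ 2 := by
      have : 80 * e ^ 2 = β - γ := by rw [hβdef, hγdef]; ring
      rw [this]; exact dvd_sub hgβ hgγ
    exact (hge.pow_right (n := 2)).dvd_of_dvd_mul_right h1
  have hg80 : g ∣ 80 := by exact_mod_cast hg80'
  -- w = g * w'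
  have hgw : (g : ℤ) ∣ w := by
    have : (g : ℤ) ^ 2 ∣ w ^ 2 := ⟨β' * γ', by rw [h, hβ, hγ]; ring⟩
    exact (Int.pow_dvd_pow_iff two_ne_zero).mp this
  obtain ⟨w', rfl⟩ := hgw
  have hg0 : (g : ℤ) ≠ 0 := by exact_mod_cast hgpos.ne'
  have hw' : w' ≠ 0 := by rintro rfl; simp at hw
  have hprod : β' * γ' = w' ^ 2 := by
    have : (g : ℤ) ^ 2 * (β' * γ') = (g : ℤ) ^ 2 * w' ^ 2 := by
      have h2 := h; rw [hβ, hγ] at h2; linear_combination -h2
    exact mul_left_cancel₀ (pow_ne_zero 2 hg0) this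
  obtain ⟨B, hB⟩ := Int.sq_of_gcd_eq_one hg1 hprod
  obtain ⟨C, hC⟩ := Int.sq_of_gcd_eq_one (by rwa [Int.gcd_comm]) (by rw [mul_comm]; exact hprod)
  have hw'pos : 0 < w' ^ 2 := by positivity
  -- signs
  obtain ⟨ε, hε, hB', hC'⟩ : ∃ ε : ℤ, (ε = 1 ∨ ε = -1) ∧ β' = ε * B ^ 2 ∧ γ' = ε * C ^ 2 := by
    rcases hB with hB | hB <;> rcases hC with hC | hC
    · exact ⟨1, Or.inl rfl, by rw [hB]; ring, by rw [hC]; ring⟩
    · exfalso; rw [hB, hC] at hprod; nlinarith [sq_nonneg B, sq_nonneg C, sq_nonneg (B * C)]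
    · exfalso; rw [hB, hC] at hprod; nlinarith [sq_nonneg B, sq_nonneg C, sq_nonneg (B * C)]
    · exact ⟨-1, Or.inr rfl, by rw [hB]; ring, by rw [hC]; ring⟩
  have hβ2 : β = ε * g * B ^ 2 := by rw [hβ, hB']; ring
  have hγ2 : γ = ε * g * C ^ 2 := by rw [hγ, hC']; ring
  -- B, C not both even
  have hBC : ¬ (B % 2 = 0 ∧ C % 2 = 0) := by
    rintro ⟨h1, h2⟩
    have hd1 : (2 : ℤ) ∣ β' := by
      rw [hB']; exact Dvd.dvd.mul_left (Dvd.dvd.pow (Int.dvd_of_emod_eq_zero h1) two_ne_zero) _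
    have hd2 : (2 : ℤ) ∣ γ' := by
      rw [hC']; exact Dvd.dvd.mul_left (Dvd.dvd.pow (Int.dvd_of_emod_eq_zero h2) two_ne_zero) _
    have : (2 : ℤ) ∣ ((Int.gcd β' γ' : ℕ) : ℤ) := Int.dvd_coe_gcd hd1 hd2
    rw [hg1] at this; norm_num at this
  -- parity facts when β is even
  have hodd : (2 : ℤ) ∣ β → a % 2 = 1 ∧ e % 2 = 1 := by
    intro h2
    have hnot : ¬ (a % 2 = 0 ∧ e % 2 = 0) := by
      rintro ⟨h1, h2⟩
      have := hae.isUnit_of_dvd' (Int.dvd_of_emod_eq_zero h1) (Int.dvd_of_emod_eq_zero h2)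
      exact absurd this (by decide)
    rcases Int.emod_two_eq_zero_or_one a with ha | ha <;>
      rcases Int.emod_two_eq_zero_or_one e with he | he
    · exact absurd ⟨ha, he⟩ hnot
    · exfalso
      obtain ⟨j, hj⟩ := odd_sq_eq e he
      obtain ⟨k, rfl⟩ : ∃ k, a = 2 * k := ⟨a / 2, by omega⟩
      obtain ⟨r, hr⟩ := h2
      have : (2 * k) ^ 2 = 4 * k ^ 2 := by ring
      rw [hβdef] at hr; omega
    · exfalso
      obtain ⟨j, hj⟩ := odd_sq_eq a ha
      obtain ⟨k, rfl⟩ : ∃ k, e = 2 * k := ⟨e / 2, by omega⟩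
      obtain ⟨r, hr⟩ := h2
      have : (2 * k) ^ 2 = 4 * k ^ 2 := by ring
      rw [hβdef] at hr; omega
    · exact ⟨ha, he⟩
  have hmem : g ∈ Nat.divisors 80 := Nat.mem_divisors.mpr ⟨hg80, by norm_num⟩
  have hdiv : Nat.divisors 80 = {1, 2, 4, 5, 8, 10, 16, 20, 40, 80} := by decide
  rw [hdiv] at hmem
  simp only [Finset.mem_insert, Finset.mem_singleton] at hmem
  have hγβ : γ = β - 80 * e ^ 2 := by rw [hβdef, hγdef]; ring
  -- the two contradiction patterns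
  have bad2 : ∀ δ : ℤ, (δ = 1 ∨ δ = 5) → (g : ℤ) = 2 * δ → False := by
    intro δ hδ hgδ
    have h2β : (2 : ℤ) ∣ β := ⟨ε * δ * B ^ 2, by rw [hβ2, hgδ]; ring⟩
    obtain ⟨ha, he⟩ := hodd h2β
    obtain ⟨ja, hja⟩ := odd_sq_eq a ha
    obtain ⟨je, hje⟩ := odd_sq_eq e he
    apply hBC
    have hβ8 : β = 8 * (ja - je) := by rw [hβdef, hja, hje]; ring
    have hγ8 : γ = 8 * (ja - je - 10 * e ^ 2) := by rw [hγβ, hβ8]; ring
    rw [hgδ] at hβ2 hγ2
    constructor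
    · rcases Int.emod_two_eq_zero_or_one B with hb | hb
      · exact hb
      · exfalso
        obtain ⟨j, hj⟩ := odd_sq_eq B hb
        rw [hj] at hβ2
        rcases hε with rfl | rfl <;> rcases hδ with rfl | rfl <;> omega
    · rcases Int.emod_two_eq_zero_or_one C with hc | hc
      · exact hc
      · exfalso
        obtain ⟨j, hj⟩ := odd_sq_eq C hc
        rw [hj] at hγ2
        rcases hε with rfl | rfl <;> rcases hδ with rfl | rfl <;> omega
  have bad8 : ∀ δ : ℤ, (δ = 1 ∨ δ = 5) → (g : ℤ) = 8 * δ → False := by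
    intro δ hδ hgδ
    have h2β : (2 : ℤ) ∣ β := ⟨ε * (4 * δ) * B ^ 2, by rw [hβ2, hgδ]; ring⟩
    obtain ⟨ha, he⟩ := hodd h2β
    obtain ⟨je, hje⟩ := odd_sq_eq e he
    have hB4 := sq_mod_four B
    have hC4 := sq_mod_four C
    have key : ε * δ * (B ^ 2 - C ^ 2) = 10 * e ^ 2 := by
      have : 8 * (ε * δ * (B ^ 2 - C ^ 2)) = 8 * (10 * e ^ 2) := by
        have h3 : β - γ = 80 * e ^ 2 := by rw [hγβ]; ring
        rw [hβ2, hγ2, hgδ] at h3; linear_combination h3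
      linarith
    rw [hje] at key
    rcases hε with rfl | rfl <;> rcases hδ with rfl | rfl <;> omega
  rcases hmem with hg | hg | hg | hg | hg | hg | hg | hg | hg | hg
  · -- g = 1
    refine ⟨B, C, ε, ?_, by rw [hβ2, hg]; push_cast; ring, by rw [hγ2, hg]; push_cast; ring⟩
    rcases hε with rfl | rfl <;> simp
  · exact (bad2 1 (Or.inl rfl) (by rw [hg]; norm_num)).elim
  · -- g = 4
    refine ⟨2 * B, 2 * C, ε, ?_, by rw [hβ2, hg]; push_cast; ring, by rw [hγ2, hg]; push_cast; ring⟩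
    rcases hε with rfl | rfl <;> simp
  · -- g = 5
    refine ⟨B, C, 5 * ε, ?_, by rw [hβ2, hg]; push_cast; ring, by rw [hγ2, hg]; push_cast; ring⟩
    rcases hε with rfl | rfl <;> simp
  · exact (bad8 1 (Or.inl rfl) (by rw [hg]; norm_num)).elim
  · exact (bad2 5 (Or.inr rfl) (by rw [hg]; norm_num)).elim
  · -- g = 16
    refine ⟨4 * B, 4 * C, ε, ?_, by rw [hβ2, hg]; push_cast; ring, by rw [hγ2, hg]; push_cast; ring⟩
    rcases hε with rfl | rfl <;> simp
  · -- g = 20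
    refine ⟨2 * B, 2 * C, 5 * ε, ?_, by rw [hβ2, hg]; push_cast; ring, by rw [hγ2, hg]; push_cast; ring⟩
    rcases hε with rfl | rfl <;> simp
  · exact (bad8 5 (Or.inr rfl) (by rw [hg]; norm_num)).elim
  · -- g = 80
    refine ⟨4 * B, 4 * C, 5 * ε, ?_, by rw [hβ2, hg]; push_cast; ring, by rw [hγ2, hg]; push_cast; ring⟩
    rcases hε with rfl | rfl <;> simp



theorem isSquare_of_isSquare_cube (n : ℕ) (hn : n ≠ 0) (h : IsSquare (n ^ 3)) : IsSquare n := by
  obtain ⟨k, hk⟩ := h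
  have h1 : n ^ 2 ∣ k ^ 2 := ⟨n, by rw [pow_two k, ← hk]; ring⟩
  have h2 : n ∣ k := (Nat.pow_dvd_pow_iff two_ne_zero).mp h1
  obtain ⟨l, rfl⟩ := h2
  refine ⟨l, ?_⟩
  have : n ^ 2 * n = n ^ 2 * (l * l) := by rw [← pow_succ, hk]; ring
  exact Nat.eq_of_mul_eq_mul_left (by positivity) this

/-- the 2-descent classification for rational points of `y² = x (x-1) (x-81)` -/
theorem rat_class (x y : ℚ) (hy : y ≠ 0) (h : y ^ 2 = x * (x - 1) * (x - 81)) :
    ∃ r p q d : ℚ, (d = 1 ∨ d = -1 ∨ d = 5 ∨ d = -5) ∧ x = r ^ 2 ∧ x - 1 = d * p ^ 2 ∧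
      x - 81 = d * q ^ 2 := by
  set m := x.num with hm
  set n := x.den with hn
  have hnpos : 0 < n := x.den_pos
  have hn0 : (n : ℚ) ≠ 0 := by exact_mod_cast hnpos.ne'
  have hx : x = (m : ℚ) / n := (Rat.num_div_den x).symm
  have hcop : IsCoprime m (n : ℤ) := by
    rw [Int.isCoprime_iff_gcd_eq_one]
    have := x.reduced
    simpa [Int.gcd, hm, hn] using this
  -- the product as a fraction
  set N : ℤ := m * (m - n) * (m - 81 * n) with hN
  have hq : x * (x - 1) * (x - 81) = (N : ℚ) / ((n ^ 3 : ℕ) : ℤ) := by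
    rw [hx, hN]; push_cast; field_simp
  have hcopN : IsCoprime N ((n ^ 3 : ℕ) : ℤ) := by
    have h1 : IsCoprime (m - n) (n : ℤ) := by
      have : IsCoprime (m + (-1) * n) (n : ℤ) := hcop.add_mul_right_left (-1)
      convert this using 1; ring
    have h2 : IsCoprime (m - 81 * n) (n : ℤ) := by
      have : IsCoprime (m + (-81) * n) (n : ℤ) := hcop.add_mul_right_left (-81)
      convert this using 1; ring
    have : IsCoprime N (n : ℤ) := (hcop.mul_left h1).mul_left h2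
    push_cast
    exact this.pow_right
  have hn3pos : (0 : ℤ) < ((n ^ 3 : ℕ) : ℤ) := by positivity
  have hsq : IsSquare ((N : ℚ) / ((n ^ 3 : ℕ) : ℤ)) := by rw [← hq, ← h]; exact ⟨y, sq y⟩
  rw [Rat.isSquare_iff] at hsq
  have hcopnat : Nat.Coprime N.natAbs (((n ^ 3 : ℕ) : ℤ)).natAbs := Int.isCoprime_iff_gcd_eq_one.mp hcopN
  have hden_eq : ((N : ℚ) / ((n ^ 3 : ℕ) : ℤ)).den = n ^ 3 := by
    have := Rat.den_div_eq_of_coprime hn3pos hcopnat
    exact_mod_cast this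
  rw [Rat.num_div_eq_of_coprime hn3pos hcopnat, hden_eq] at hsq
  obtain ⟨⟨u, hu⟩, hden'⟩ := hsq
  obtain ⟨e, he⟩ := isSquare_of_isSquare_cube n hnpos.ne' hden'
  have he0 : e ≠ 0 := by rintro rfl; simp at he; omega
  have heZ : (n : ℤ) = (e : ℤ) ^ 2 := by rw [he]; push_cast; ring
  -- N ≠ 0
  have hN0 : N ≠ 0 := by
    intro h0
    have : y ^ 2 = 0 := by rw [h, hq, h0]; simp
    exact hy (pow_eq_zero_iff two_ne_zero |>.mp this)
  have hu0 : u ≠ 0 := by rintro rfl; exact hN0 (by simpa using hu)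
  have hu2 : u ^ 2 = m * (m - (e : ℤ) ^ 2) * (m - 81 * (e : ℤ) ^ 2) := by
    rw [← heZ, ← hN, hu]; ring
  have hme : IsCoprime m (e : ℤ) := by
    rw [heZ] at hcop
    exact (IsCoprime.pow_right_iff (by norm_num)).mp hcop
  have heZ0 : (e : ℤ) ≠ 0 := by exact_mod_cast he0
  -- m > 0
  have hmpos : 0 < m := by
    by_contra hle
    push Not at hle
    have he2 : 0 < (e : ℤ) ^ 2 := by positivity
    have h1 : m - (e : ℤ) ^ 2 < 0 := by linarith
    have h2 : m - 81 * (e : ℤ) ^ 2 < 0 := by linarith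
    have h3 : 0 < (m - (e : ℤ) ^ 2) * (m - 81 * (e : ℤ) ^ 2) := mul_pos_of_neg_of_neg h1 h2
    have h4 : m * ((m - (e : ℤ) ^ 2) * (m - 81 * (e : ℤ) ^ 2)) ≤ 0 :=
      mul_nonpos_of_nonpos_of_nonneg hle h3.le
    have h5 : 0 < u ^ 2 := by positivity
    rw [hu2, mul_assoc] at h5
    linarith
  obtain ⟨a, ha⟩ := m_is_square m e u hmpos hme hu2
  have ha0 : a ≠ 0 := by rintro rfl; simp at ha; omega
  have hae : IsCoprime a (e : ℤ) := by
    rw [ha] at hme
    exact (IsCoprime.pow_left_iff (by norm_num)).mp hme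
  have hau : a ∣ u := by
    have : a ^ 2 ∣ u ^ 2 := ⟨(m - (e : ℤ) ^ 2) * (m - 81 * (e : ℤ) ^ 2), by rw [hu2, ha]; ring⟩
    exact (Int.pow_dvd_pow_iff two_ne_zero).mp this
  obtain ⟨w, rfl⟩ := hau
  have hw0 : w ≠ 0 := by rintro rfl; simp at hu0
  have hw2 : w ^ 2 = (a ^ 2 - (e : ℤ) ^ 2) * (a ^ 2 - 81 * (e : ℤ) ^ 2) := by
    have hu2' : (a * w) ^ 2 = a ^ 2 * (a ^ 2 - (e : ℤ) ^ 2) * (a ^ 2 - 81 * (e : ℤ) ^ 2) := by
      rw [hu2, ha]
    have : a ^ 2 * w ^ 2 = a ^ 2 * ((a ^ 2 - (e : ℤ) ^ 2) * (a ^ 2 - 81 * (e : ℤ) ^ 2)) := by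
      linear_combination hu2'
    exact mul_left_cancel₀ (pow_ne_zero 2 ha0) this
  obtain ⟨b, c, d, hd, hb, hc⟩ := beta_gamma_class a e w hae hw0 hw2
  have heQ : (e : ℚ) ≠ 0 := by exact_mod_cast he0
  have hxe : x = (a : ℚ) ^ 2 / (e : ℚ) ^ 2 := by
    rw [hx, ha]
    have : (n : ℚ) = (e : ℚ) ^ 2 := by exact_mod_cast heZ
    rw [this]; push_cast; ring
  have hbQ : ((a : ℚ) ^ 2 - (e : ℚ) ^ 2) = d * b ^ 2 := by exact_mod_cast hb
  have hcQ : ((a : ℚ) ^ 2 - 81 * (e : ℚ) ^ 2) = d * c ^ 2 := by exact_mod_cast hc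
  refine ⟨a / e, b / e, c / e, d, ?_, ?_, ?_, ?_⟩
  · rcases hd with rfl | rfl | rfl | rfl <;> simp
  · rw [hxe]; field_simp
  · rw [hxe]; field_simp; linear_combination hbQ
  · rw [hxe]; field_simp; linear_combination hcQ



theorem exists_square_triple (x y : ℚ) (hy : y ≠ 0) (h : y ^ 2 = x * (x - 1) * (x - 81)) :
    ∃ x' : ℚ, (x' = x ∨ x' = 81 / x ∨ x' = (x - 81) / (x - 1) ∨ x' = 81 * (x - 1) / (x - 81)) ∧
      IsSquare x' ∧ IsSquare (x' - 1) ∧ IsSquare (x' - 81) := by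
  obtain ⟨r, p, q, d, hd, hx, hp, hq⟩ := rat_class x y hy h
  have hx0 : x ≠ 0 := by rintro rfl; simp at h; exact hy h
  have hx1 : x - 1 ≠ 0 := by intro h0; rw [h0] at h; simp at h; exact hy h
  have hx81 : x - 81 ≠ 0 := by intro h0; rw [h0] at h; simp at h; exact hy h
  have hr0 : r ≠ 0 := by rintro rfl; simp at hx; exact hx0 hx
  have hp0 : p ≠ 0 := by rintro rfl; simp at hp; exact hx1 hp
  have hq0 : q ≠ 0 := by rintro rfl; simp at hq; exact hx81 hq
  rcases hd with rfl | rfl | rfl | rfl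
  · refine ⟨x, Or.inl rfl, ⟨r, by rw [hx]; ring⟩, ⟨p, by rw [hp]; ring⟩, ⟨q, by rw [hq]; ring⟩⟩
  · refine ⟨81 / x, Or.inr (Or.inl rfl), ⟨9 / r, ?_⟩, ⟨q / r, ?_⟩, ⟨9 * p / r, ?_⟩⟩
    · rw [hx]; field_simp; norm_num
    · rw [hx] at hq ⊢; field_simp; linear_combination -hq
    · rw [hx] at hp ⊢; field_simp; linear_combination -81 * hp
  · refine ⟨81 * (x - 1) / (x - 81), Or.inr (Or.inr (Or.inr rfl)), ⟨9 * p / q, ?_⟩, ⟨4 * r / q, ?_⟩, ⟨36 / q, ?_⟩⟩
    · rw [hp, hq]; field_simp; ring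
    · have h1 : 81 * (x - 1) / (x - 81) - 1 = 80 * x / (x - 81) := by field_simp; ring
      rw [h1, hq, hx]; field_simp; norm_num
    · have h1 : 81 * (x - 1) / (x - 81) - 81 = 81 * 80 / (x - 81) := by field_simp; ring
      rw [h1, hq]; field_simp; norm_num
  · refine ⟨(x - 81) / (x - 1), Or.inr (Or.inr (Or.inl rfl)), ⟨q / p, ?_⟩, ⟨4 / p, ?_⟩, ⟨4 * r / p, ?_⟩⟩
    · rw [hp, hq]; field_simp
    · have h1 : (x - 81) / (x - 1) - 1 = -80 / (x - 1) := by field_simp; ring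
      rw [h1, hp]; field_simp; norm_num
    · have h1 : (x - 81) / (x - 1) - 81 = -80 * x / (x - 1) := by field_simp; ring
      rw [h1, hp, hx]; field_simp; norm_num

theorem sol_of_square_triple (x : ℚ) (h0 : IsSquare x) (h1 : IsSquare (x - 1))
    (h2 : IsSquare (x - 81)) :
    ∃ a e b c : ℕ, e ≠ 0 ∧ a ^ 2 = b ^ 2 + e ^ 2 ∧ a ^ 2 = c ^ 2 + 81 * e ^ 2 ∧
      ((a : ℤ) ^ 2 = x.num) := by
  obtain ⟨⟨A, hA⟩, ⟨e, he⟩⟩ := Rat.isSquare_iff.mp h0
  have hdpos : 0 < x.den := x.den_pos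
  have he0 : e ≠ 0 := by rintro rfl; simp at he
  have heQ : (e : ℚ) ≠ 0 := by exact_mod_cast he0
  have hxd : x * ((e : ℚ) ^ 2) = (x.num : ℚ) := by
    have : ((x.den : ℕ) : ℚ) = (e : ℚ) ^ 2 := by rw [he]; push_cast; ring
    rw [← this]; exact Rat.mul_den_eq_num x
  have hsqe : IsSquare ((e : ℚ) ^ 2) := ⟨e, sq _⟩
  -- x - 1
  have h1' : IsSquare ((x.num - (e : ℤ) ^ 2 : ℤ) : ℚ) := by
    have : ((x.num - (e : ℤ) ^ 2 : ℤ) : ℚ) = (x - 1) * (e : ℚ) ^ 2 := by
      push_cast; rw [← hxd]; ring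
    rw [this]; exact h1.mul hsqe
  have h2' : IsSquare ((x.num - 81 * (e : ℤ) ^ 2 : ℤ) : ℚ) := by
    have : ((x.num - 81 * (e : ℤ) ^ 2 : ℤ) : ℚ) = (x - 81) * (e : ℚ) ^ 2 := by
      push_cast; rw [← hxd]; ring
    rw [this]; exact h2.mul hsqe
  rw [Rat.isSquare_intCast_iff] at h1' h2'
  obtain ⟨B, hB⟩ := h1'
  obtain ⟨C, hC⟩ := h2'
  refine ⟨A.natAbs, e, B.natAbs, C.natAbs, he0, ?_, ?_, ?_⟩
  · zify
    rw [sq_abs, sq_abs]
    have : A ^ 2 = x.num := by rw [hA]; ring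
    linarith [hB]
  · zify
    rw [sq_abs, sq_abs]
    have : A ^ 2 = x.num := by rw [hA]; ring
    linarith [hC]
  · rw [Int.natCast_natAbs, sq_abs, hA]; ring

theorem num_le_of_eq_div (x : ℚ) (N D : ℕ) (hD : 0 < D) (hN : 0 < N) (hx : x = (N : ℚ) / D) :
    x.num ≤ N := by
  have hD' : (D : ℚ) ≠ 0 := by exact_mod_cast hD.ne'
  have hden : (x.den : ℚ) ≠ 0 := by exact_mod_cast x.den_pos.ne'
  have h1 : (x.num : ℚ) * D = (N : ℚ) * x.den := by
    have : x = (x.num : ℚ) / x.den := (Rat.num_div_den x).symm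
    rw [this] at hx
    field_simp at hx
    linarith
  have h2 : x.num * (D : ℤ) = (N : ℤ) * x.den := by exact_mod_cast h1
  have hcop : IsCoprime x.num (x.den : ℤ) := by
    rw [Int.isCoprime_iff_gcd_eq_one]
    have := x.reduced
    simpa [Int.gcd] using this
  have hdvd : x.num ∣ (N : ℤ) := by
    have : x.num ∣ (N : ℤ) * x.den := ⟨D, h2.symm⟩
    exact hcop.dvd_of_dvd_mul_right this
  exact Int.le_of_dvd (by exact_mod_cast hN) hdvd

/-- the infinite descent -/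
theorem no_sol : ∀ a e b c : ℕ, e ≠ 0 → a ^ 2 = b ^ 2 + e ^ 2 → a ^ 2 = c ^ 2 + 81 * e ^ 2 → False := by
  intro a
  induction a using Nat.strong_induction_on with
  | _ a ih =>
    intro e b c he hb hc
    have hepos : 0 < e := Nat.pos_of_ne_zero he
    have he2 : 0 < e ^ 2 := by positivity
    have hba : b < a := by
      by_contra hle; push Not at hle
      have : a ^ 2 ≤ b ^ 2 := Nat.pow_le_pow_left hle 2
      omega
    have hca : c < a := by
      by_contra hle; push Not at hle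
      have : a ^ 2 ≤ c ^ 2 := Nat.pow_le_pow_left hle 2
      omega
    have ha9 : 9 ≤ a := by
      by_contra hlt; push Not at hlt
      have h8 : a ≤ 8 := by omega
      have : a ^ 2 ≤ 8 ^ 2 := Nat.pow_le_pow_left h8 2
      have : 1 ≤ e ^ 2 := he2
      omega
    -- rational versions
    have hbQ : (a : ℚ) ^ 2 = (b : ℚ) ^ 2 + (e : ℚ) ^ 2 := by exact_mod_cast hb
    have hcQ : (a : ℚ) ^ 2 = (c : ℚ) ^ 2 + 81 * (e : ℚ) ^ 2 := by exact_mod_cast hc
    have heQ : (0 : ℚ) < e := by exact_mod_cast hepos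
    have habQ : (0 : ℚ) < (a : ℚ) - b := by
      have : (b : ℚ) < a := by exact_mod_cast hba
      linarith
    have hacQ : (0 : ℚ) < (a : ℚ) - c := by
      have : (c : ℚ) < a := by exact_mod_cast hca
      linarith
    have hbnn : (0 : ℚ) ≤ b := by positivity
    have hcnn : (0 : ℚ) ≤ c := by positivity
    have hapos : (0 : ℚ) < a := by
      have : (9 : ℚ) ≤ a := by exact_mod_cast ha9
      linarith
    have hbcpos : (0 : ℚ) < (b : ℚ) + c := by
      rcases Nat.eq_zero_or_pos b with hb0 | hb0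
      · rcases Nat.eq_zero_or_pos c with hc0 | hc0
        · exfalso; subst hb0; subst hc0; omega
        · have : (0 : ℚ) < c := by exact_mod_cast hc0
          linarith
      · have : (0 : ℚ) < b := by exact_mod_cast hb0
        linarith
    have hab' : (0 : ℚ) < (a : ℚ) + b := by linarith
    have hac' : (0 : ℚ) < (a : ℚ) + c := by linarith
    -- the half point
    set xQ : ℚ := ((a : ℚ) + c) / ((a : ℚ) - b) with hxQ
    set yQ : ℚ := ((a : ℚ) + c) * ((b : ℚ) + c) / (((a : ℚ) - b) * e) with hyQ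
    have hyQ0 : yQ ≠ 0 := by
      rw [hyQ]; positivity
    have e1 : ((a : ℚ) - b) * ((a : ℚ) + b) = (e : ℚ) ^ 2 := by linear_combination hbQ
    have e2 : ((a : ℚ) - c) * ((a : ℚ) + c) = 81 * (e : ℚ) ^ 2 := by linear_combination hcQ
    have hx1 : xQ - 1 = ((b : ℚ) + c) / ((a : ℚ) - b) := by
      rw [hxQ]; field_simp; ring
    have habne : (a : ℚ) - b ≠ 0 := habQ.ne'
    have habne' : (a : ℚ) + b ≠ 0 := hab'.ne'
    have hacne' : (a : ℚ) + c ≠ 0 := hac'.ne'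
    have hene : (e : ℚ) ≠ 0 := heQ.ne'
    have hx81 : xQ - 81 = ((a : ℚ) + c) * ((b : ℚ) + c) / (((a : ℚ) - b) * ((a : ℚ) + b)) := by
      have h0 : xQ - 81 = (((a : ℚ) + c) - 81 * ((a : ℚ) - b)) / ((a : ℚ) - b) := by
        rw [hxQ]; field_simp
      rw [h0, div_eq_div_iff habne (mul_ne_zero habne habne')]
      linear_combination ((a : ℚ) - b) * ((-81) * e1 + e2)
    have hcurve : yQ ^ 2 = xQ * (xQ - 1) * (xQ - 81) := by
      rw [hx1, hx81, hxQ, hyQ, div_pow, mul_pow, mul_pow, ← e1]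
      field_simp
    obtain ⟨x', hx', s0, s1, s2⟩ := exists_square_triple xQ yQ hyQ0 hcurve
    obtain ⟨a', e', b', c', he', hb', hc', hnum⟩ := sol_of_square_triple x' s0 s1 s2
    -- size bound
    have hnumle : x'.num ≤ ((a + c : ℕ) : ℤ) := by
      have hacN : 0 < a - c := by omega
      have habN : 0 < a - b := by omega
      have castac : ((a - c : ℕ) : ℚ) = (a : ℚ) - c := by rw [Nat.cast_sub hca.le]
      have castab : ((a - b : ℕ) : ℚ) = (a : ℚ) - b := by rw [Nat.cast_sub hba.le]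
      rcases hx' with rfl | rfl | rfl | rfl
      · exact num_le_of_eq_div _ (a + c) (a - b) habN (by omega) (by rw [hxQ, castab]; push_cast; ring)
      · have : (81 : ℚ) / xQ = ((a - c : ℕ) : ℚ) / ((a + b : ℕ) : ℚ) := by
          rw [hxQ, castac, div_div_eq_mul_div]; push_cast
          rw [div_eq_div_iff hacne' habne']
          linear_combination 81 * e1 - e2
        have h3 := num_le_of_eq_div _ (a - c) (a + b) (by omega) hacN this
        have : ((a - c : ℕ) : ℤ) ≤ ((a + c : ℕ) : ℤ) := by exact_mod_cast (by omega : a - c ≤ a + c)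
        linarith
      · have : (xQ - 81) / (xQ - 1) = ((a + c : ℕ) : ℚ) / ((a + b : ℕ) : ℚ) := by
          have hbcne : (b : ℚ) + c ≠ 0 := hbcpos.ne'
          rw [hx1, hx81]; push_cast; field_simp
        exact num_le_of_eq_div _ (a + c) (a + b) (by omega) (by omega) this
      · have : 81 * (xQ - 1) / (xQ - 81) = ((a - c : ℕ) : ℚ) / ((a - b : ℕ) : ℚ) := by
          have hbcne : (b : ℚ) + c ≠ 0 := hbcpos.ne'
          have h0 : 81 * (xQ - 1) / (xQ - 81) = 81 * ((a : ℚ) + b) / ((a : ℚ) + c) := by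
            rw [hx1, hx81]; field_simp
          rw [h0, castac, castab, div_eq_div_iff hacne' habne]
          linear_combination 81 * e1 - e2
        have h3 := num_le_of_eq_div _ (a - c) (a - b) habN hacN this
        have : ((a - c : ℕ) : ℤ) ≤ ((a + c : ℕ) : ℤ) := by exact_mod_cast (by omega : a - c ≤ a + c)
        linarith
    have ha'lt : a' < a := by
      by_contra hle; push Not at hle
      have h1 : a ^ 2 ≤ a' ^ 2 := Nat.pow_le_pow_left hle 2
      have h2 : (a' : ℤ) ^ 2 ≤ ((a + c : ℕ) : ℤ) := by rw [hnum]; exact hnumle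
      have h3 : a' ^ 2 ≤ a + c := by exact_mod_cast h2
      have h4 : 9 * a ≤ a ^ 2 := by nlinarith
      omega
    exact ih a' ha'lt e' b' c' he' hb' hc'

theorem no_point (x y : ℚ) (h : y ^ 2 = x * (x - 1) * (x - 81)) : y = 0 := by
  by_contra hy
  obtain ⟨x', -, s0, s1, s2⟩ := exists_square_triple x y hy h
  obtain ⟨a, e, b, c, he, hb, hc, -⟩ := sol_of_square_triple x' s0 s1 s2
  exact no_sol a e b c he hb hc

end Descent

/-- The rational points of `y² = x (x + 9) (x - 16)` (a model of `X₀(15)`). -/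
theorem points_E (G H : ℚ) (h : H ^ 2 = G * (G + 9) * (G - 16)) :
    G = 0 ∨ G = -9 ∨ G = 16 ∨ G = 36 ∨ G = -4 := by
  by_cases h16 : G = 16
  · exact Or.inr (Or.inr (Or.inl h16))
  have h16' : G - 16 ≠ 0 := sub_ne_zero.mpr h16
  have key := Descent.no_point (G * (G + 9) / (G - 16)) (H * (36 - G) * (G + 4) / (G - 16) ^ 2) (by
    field_simp
    linear_combination ((36 - G) ^ 2 * (G + 4) ^ 2) * h)
  have h2 : H * (36 - G) * (G + 4) = 0 := by
    rcases div_eq_zero_iff.mp key with h3 | h3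
    · exact h3
    · exact absurd (pow_eq_zero_iff two_ne_zero |>.mp h3) h16'
  rcases mul_eq_zero.mp h2 with h3 | h3
  · rcases mul_eq_zero.mp h3 with h4 | h4
    · rw [h4] at h
      have : G * (G + 9) * (G - 16) = 0 := by rw [← h]; ring
      rcases mul_eq_zero.mp this with h5 | h5
      · rcases mul_eq_zero.mp h5 with h6 | h6
        · exact Or.inl h6
        · exact Or.inr (Or.inl (by linarith))
      · exact absurd h5 h16'
    · exact Or.inr (Or.inr (Or.inr (Or.inl (by linarith))))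
  · exact Or.inr (Or.inr (Or.inr (Or.inr (by linarith))))

end Fermat.Agent.S51
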