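import Mathlib
import Fermat.Agent.S51_Descent

/-!
# Rational points of `X₀(15)` in the plane model given by the Hauptmoduln of `X₀(3)` and `X₀(5)`

With `t = 729 (η₃/η₁)¹²` and `s = 125 (η₅/η₁)⁶` one has `j = (t+27)(t+3)³/t = (s²+10s+5)³/s`.
The curve `(t+27)(t+3)³ s = (s²+10s+5)³ t` is a (singular) plane model of `X₀(15)`; the function
`G = 4 η₃ η₅⁵/(η₁ η₁₅⁵)` is a rational function `b/a` of `(t, s)` and is the `x`-coordinate of the
Weierstrass model `H² = G (G + 9) (G - 16)`, whose rational points are known (`points_E`).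
-/

namespace Fermat.Agent.S51

namespace X015

theorem sq_ne_five (x : ℚ) : x ^ 2 ≠ 5 := by
  intro h
  have h5 : IsSquare ((5 : ℕ) : ℚ) := ⟨x, by push_cast; rw [← h]; ring⟩
  rw [Rat.isSquare_natCast_iff] at h5
  obtain ⟨r, hr⟩ := h5
  have hr2 : r ≤ 2 := by nlinarith
  interval_cases r <;> omega

/-- The relation between `G` and `s` on `X₀(15)`, in homogeneous form `G = b/a`, together with the
known rational points of `H² = G (G + 9) (G - 16)`, pins down `s`. -/
theorem of_ratio (s a b : ℚ) (hs : s ≠ 0) (hab : a ≠ 0 ∨ b ≠ 0)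
    (hP : s ^ 2 * (b - 36 * a) ^ 3 * (b + 4 * a) - 500 * s * a * b ^ 2 * (13 * b - 108 * a) - 62500 * a * b ^ 3 = 0) :
    (s = -25 / 2 ∨ s = -25 / 8 ∨ s = -10 ∨ s = -40) ∨ (s = -125 / 8 ∧ b + 36 * a = 0) := by
  have ha : a ≠ 0 := by
    rintro rfl
    have hb : b ≠ 0 := by simpa using hab
    have h0 : s ^ 2 * b ^ 4 = 0 := by linear_combination hP
    exact absurd h0 (mul_ne_zero (pow_ne_zero 2 hs) (pow_ne_zero 4 hb))
  by_cases h36 : b + 36 * a = 0
  · right
    refine ⟨?_, h36⟩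
    have hb : b = -36 * a := by linarith
    subst hb
    have h0 : a ^ 4 * (8 * s + 125) ^ 2 = 0 := by linear_combination hP / 186624
    have h1 : (8 * s + 125) ^ 2 = 0 := by
      rcases mul_eq_zero.mp h0 with h | h
      · exact absurd (pow_eq_zero_iff (by norm_num) |>.mp h) ha
      · exact h
    have h2 : 8 * s + 125 = 0 := pow_eq_zero_iff (by norm_num) |>.mp h1
    linarith
  · left
    obtain ⟨G, hb⟩ : ∃ G : ℚ, b = G * a := ⟨b / a, by field_simp⟩
    have hPG : s ^ 2 * (G - 36) ^ 3 * (G + 4) - 500 * s * G ^ 2 * (13 * G - 108)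
        - 62500 * G ^ 3 = 0 := by
      have h0 : a ^ 4 * (s ^ 2 * (G - 36) ^ 3 * (G + 4) - 500 * s * G ^ 2 * (13 * G - 108)
          - 62500 * G ^ 3) = 0 := by
        rw [hb] at hP; linear_combination hP
      rcases mul_eq_zero.mp h0 with h | h
      · exact absurd (pow_eq_zero_iff (by norm_num) |>.mp h) ha
      · exact h
    have hG0 : G ≠ 0 := by
      intro h0
      rw [h0] at hPG
      have h1 : s ^ 2 = 0 := by linear_combination hPG / (-186624)
      exact hs (pow_eq_zero_iff (by norm_num) |>.mp h1)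
    have hG36 : G + 36 ≠ 0 := by
      intro h
      apply h36
      rw [hb]; linear_combination a * h
    have hE := points_E G ((2 * s * (G - 36) ^ 3 * (G + 4) - 500 * G ^ 2 * (13 * G - 108))
      / (500 * G * (G + 36))) (by
        field_simp
        linear_combination (4 * (G - 36) ^ 3 * (G + 4)) * hPG)
    rcases hE with h | h | h | h | h
    · exact absurd h hG0
    · -- `G = -9`
      rw [h] at hPG
      have h1 : (s + 10) ^ 2 = 0 := by linear_combination hPG / 455625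
      have h2 : s + 10 = 0 := pow_eq_zero_iff (by norm_num) |>.mp h1
      right; right; left; linarith
    · -- `G = 16`
      rw [h] at hPG
      have h1 : (s + 40) ^ 2 = 0 := by linear_combination hPG / (-160000)
      have h2 : s + 40 = 0 := pow_eq_zero_iff (by norm_num) |>.mp h1
      right; right; right; linarith
    · -- `G = 36`
      rw [h] at hPG
      left; linarith
    · -- `G = -4`
      rw [h] at hPG
      right; left; linarith

end X015

/-- The rational points of `X₀(15)` away from the cusps, in the `(t, s)`-model: the four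
non-cuspidal rational points have `s ∈ {-25/2, -25/8, -10, -40}`. -/
theorem x015_points (t s : ℚ) (ht : t ≠ 0) (hs : s ≠ 0)
    (h : (t + 27) * (t + 3) ^ 3 * s = (s ^ 2 + 10 * s + 5) ^ 3 * t) :
    s = -25 / 2 ∨ s = -25 / 8 ∨ s = -10 ∨ s = -40 := by
  have _ := ht
  obtain ⟨a, ha⟩ : ∃ a : ℚ, a = -4 * t ^ 2 * s + 15 * t ^ 2 + t * s ^ 3 + 24 * t * s ^ 2 + 7 * t * s
      + 250 * t - 54 * s ^ 3 - 621 * s ^ 2 - 1458 * s := ⟨_, rfl⟩
  obtain ⟨b, hb⟩ : ∃ b : ℚ, b = 36 * t ^ 2 * s + 36 * t * s ^ 3 + 144 * t * s ^ 2 + 612 * t * s + 216 * s ^ 3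
      + 1404 * s ^ 2 + 972 * s - 540 := ⟨_, rfl⟩
  obtain ⟨a', ha'⟩ : ∃ a' : ℚ, a' = 2 * t ^ 2 * s + 35 * t ^ 2 + 5 * t * s ^ 2 + 56 * t * s + 625 * t
      - 9 * s ^ 4 - 225 * s ^ 3 - 1692 * s ^ 2 - 3645 * s := ⟨_, rfl⟩
  obtain ⟨b', hb'⟩ : ∃ b' : ℚ, b' = 72 * t ^ 2 * s + 1296 * t * s + 36 * s ^ 4 + 720 * s ^ 3 + 3528 * s ^ 2
      + 2520 * s - 1260 := ⟨_, rfl⟩
  have hP : s ^ 2 * (b - 36 * a) ^ 3 * (b + 4 * a) - 500 * s * a * b ^ 2 * (13 * b - 108 * a) - 62500 * a * b ^ 3 = 0 := by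
    rw [ha, hb]
    linear_combination (116640000 * t ^ 4 * s ^ 5 + 1632960000 * t ^ 4 * s ^ 4 - 1283040000 * t ^ 4 * s ^ 3
        - 21695040000 * t ^ 4 * s ^ 2 - 9447840000 * t ^ 4 * s + 233280000 * t ^ 3 * s ^ 7 + 2916000000 * t ^ 3 * s ^ 6
        + 4665600000 * t ^ 3 * s ^ 5 - 69284160000 * t ^ 3 * s ^ 4 - 477990720000 * t ^ 3 * s ^ 3
        - 885414240000 * t ^ 3 * s ^ 2 - 289733760000 * t ^ 3 * s - 4199040000 * t ^ 2 * s ^ 7 - 109175040000 * t ^ 2 * s ^ 6
        - 792568800000 * t ^ 2 * s ^ 5 - 3804330240000 * t ^ 2 * s ^ 4 - 11236631040000 * t ^ 2 * s ^ 3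
        - 8708808960000 * t ^ 2 * s ^ 2 - 1212472800000 * t ^ 2 * s + 25194240000 * t * s ^ 7 - 1020366720000 * t * s ^ 6
        - 10487102400000 * t * s ^ 5 - 44515072800000 * t * s ^ 4 - 84400704000000 * t * s ^ 3 + 6304858560000 * t * s ^ 2
        + 23046431040000 * t * s - 1180980000000 * t - 403107840000 * s ^ 8 - 7507883520000 * s ^ 7
        - 53966062080000 * s ^ 6 - 213294435840000 * s ^ 5 - 507525367680000 * s ^ 4 - 548828174880000 * s ^ 3
        + 62815538880000 * s ^ 2 + 95857784640000 * s - 19683000000000) * h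
  have hP' : s ^ 2 * (b' - 36 * a') ^ 3 * (b' + 4 * a') - 500 * s * a' * b' ^ 2 * (13 * b' - 108 * a')
      - 62500 * a' * b' ^ 3 = 0 := by
    rw [ha', hb']
    linear_combination (-3732480000 * t ^ 4 * s ^ 4 - 92378880000 * t ^ 4 * s ^ 3 - 633588480000 * t ^ 4 * s ^ 2
        - 280052640000 * t ^ 4 * s - 6531840000 * t ^ 3 * s ^ 5 - 247743360000 * t ^ 3 * s ^ 4 - 3828124800000 * t ^ 3 * s ^ 3
        - 23362058880000 * t ^ 3 * s ^ 2 - 9921864960000 * t ^ 3 * s + 5598720000 * t ^ 2 * s ^ 7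
        + 180558720000 * t ^ 2 * s ^ 6 + 1827982080000 * t ^ 2 * s ^ 5 + 4539162240000 * t ^ 2 * s ^ 4
        - 27681471360000 * t ^ 2 * s ^ 3 - 192545579520000 * t ^ 2 * s ^ 2 - 70470388800000 * t ^ 2 * s
        - 3732480000 * t * s ^ 9 - 203420160000 * t * s ^ 8 - 4378898880000 * t * s ^ 7 - 47404012320000 * t * s ^ 6
        - 272695921920000 * t * s ^ 5 - 804327861600000 * t * s ^ 4 - 927369414720000 * t * s ^ 3
        + 510821730720000 * t * s ^ 2 + 513490803840000 * t * s - 35006580000000 * t - 933120000 * s ^ 10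
        - 116290080000 * s ^ 9 - 4722636960000 * s ^ 8 - 92571802560000 * s ^ 7 - 984853339200000 * s ^ 6
        - 5769261676800000 * s ^ 5 - 17314082190720000 * s ^ 4 - 20496412601280000 * s ^ 3 + 1373320992960000 * s ^ 2
        + 3395518237440000 * s - 625117500000000) * h
  by_cases hab : a ≠ 0 ∨ b ≠ 0
  · rcases X015.of_ratio s a b hs hab hP with h1 | ⟨h1, h2⟩
    · exact h1
    · exfalso
      rw [ha, hb, h1] at h2
      nlinarith [sq_nonneg (t - 475 / 64)]
  by_cases hab' : a' ≠ 0 ∨ b' ≠ 0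
  · rcases X015.of_ratio s a' b' hs hab' hP' with h1 | ⟨h1, h2⟩
    · exact h1
    · exfalso
      rw [ha', hb', h1] at h2
      nlinarith [sq_nonneg (t - 475 / 64)]
  exfalso
  push Not at hab hab'
  obtain ⟨ha0, hb0⟩ := hab
  obtain ⟨ha0', hb0'⟩ := hab'
  rw [ha0] at ha
  rw [hb0] at hb
  rw [ha0'] at ha'
  rw [hb0'] at hb'
  have hE : (s ^ 2 + 10 * s + 5) * (s ^ 2 + 4 * s - 1) = 0 := by
    linear_combination (-((17 / 10875) * s ^ 2 + (18 / 3625) * s)) * ha - (-(17 / 391500) * s ^ 2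
        - (1661 / 1566000) * s - (17 / 12528)) * hb
      - ((17 / 43500) * s ^ 2 - (439 / 43500) * s) * ha' - ((17 / 174000) * s ^ 2 + (149 / 261000) * s
          + (19 / 4176)) * hb'
  rcases mul_eq_zero.mp hE with h1 | h1
  · exact X015.sq_ne_five ((s + 5) / 2) (by linear_combination h1 / 4)
  · exact X015.sq_ne_five (s + 2) (by linear_combination h1)

end Fermat.Agent.S51
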