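-- Statement S51 (row 45): a semistable elliptic curve over ℚ has irreducible mod 3 or mod 5
-- representation.  Proof: otherwise the curve has rational 3- and 5-isogenies, which gives a
-- non-cuspidal rational point on X₀(15); these are known (2-descent on y² = x(x+9)(x-16)) and their
-- j-invariants have denominators prime to 5 but numerators divisible by 5 exactly once or twice,
-- which is incompatible with semistability at 5.
import Fermat.Statements.S51
import Fermat.Agent.S51_Three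
import Fermat.Agent.S51_Five
import Fermat.Agent.S51_X015

set_option autoImplicit false
open WeierstrassCurve WeierstrassCurve.Affine WeierstrassCurve.Affine.Point
open CuspForm ModularFormClass UpperHalfPlane
open WeierstrassCurve

namespace Fermat.Agent.S51

/-- If `c³ a = b d` with `c, d` coprime, `5 ∤ a`, `5 ∣ b` then `125 ∣ b`. -/
theorem five_adic_key (a b c d : ℤ) (hcop : IsCoprime c d) (heq : c ^ 3 * a = b * d)
    (ha : ¬ (5 : ℤ) ∣ a) (hb5 : (5 : ℤ) ∣ b) (hb : ¬ (125 : ℤ) ∣ b) : False := by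
  have hp : Prime (5 : ℤ) := by norm_num
  have h1 : (5 : ℤ) ∣ c ^ 3 * a := by rw [heq]; exact Dvd.dvd.mul_right hb5 d
  have hc : (5 : ℤ) ∣ c := by
    rcases hp.dvd_or_dvd h1 with h | h
    · exact hp.dvd_of_dvd_pow h
    · exact absurd h ha
  have h125 : (125 : ℤ) ∣ b * d := by
    rw [← heq]
    have : (125 : ℤ) ∣ c ^ 3 := by
      have := pow_dvd_pow_of_dvd hc 3
      norm_num at this
      exact this
    exact Dvd.dvd.mul_right this a
  have hd : (5 : ℤ) ∣ d := by
    by_contra hd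
    have hcop5 : IsCoprime (5 : ℤ) d := (Prime.coprime_iff_not_dvd hp).mpr hd
    have hcop125 : IsCoprime (125 : ℤ) d := by
      have := hcop5.pow_left (m := 3)
      norm_num at this
      exact this
    exact hb (hcop125.dvd_of_dvd_mul_right h125)
  have h5 : (5 : ℤ) ∣ 1 := by
    obtain ⟨u, v, huv⟩ := hcop
    rw [← huv]
    exact dvd_add (Dvd.dvd.mul_left hc u) (Dvd.dvd.mul_left hd v)
  norm_num at h5

theorem result (W : WeierstrassCurve ℤ) (hΔ : W.Δ ≠ 0) (hW : W.IsSemistableModel) : W.ModRepIsIrreducible 3 ∨ W.ModRepIsIrreducible 5 := by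
  by_contra hcon
  push Not at hcon
  obtain ⟨h3, h5⟩ := hcon
  have hΔ' : (W.map (Int.castRingHom ℚ)).Δ ≠ 0 := by
    rw [WeierstrassCurve.map_Δ]; simpa using hΔ
  obtain ⟨t, ht, h3t⟩ := three_isogeny (W.map (Int.castRingHom ℚ)) hΔ' h3
  obtain ⟨s, hs, h5s⟩ := five_isogeny (W.map (Int.castRingHom ℚ)) hΔ' h5
  rw [WeierstrassCurve.map_c₄, WeierstrassCurve.map_Δ] at h3t h5s
  simp only [eq_intCast] at h3t h5s
  have hΔQ : (W.Δ : ℚ) ≠ 0 := by exact_mod_cast hΔ
  have hF : (t + 27) * (t + 3) ^ 3 * s = (s ^ 2 + 10 * s + 5) ^ 3 * t := by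
    have h0 : ((t + 27) * (t + 3) ^ 3 * s - (s ^ 2 + 10 * s + 5) ^ 3 * t) * (W.Δ : ℚ) = 0 := by
      linear_combination t * h5s - s * h3t
    rcases mul_eq_zero.mp h0 with h | h
    · linarith
    · exact absurd h hΔQ
  have hcop : IsCoprime W.c₄ W.Δ := by
    rw [Int.isCoprime_iff_gcd_eq_one]
    by_contra hg
    obtain ⟨p, hp, hpd⟩ := Nat.exists_prime_and_dvd hg
    have h1 : (p : ℤ) ∣ W.c₄ := Int.natCast_dvd.mpr (hpd.trans (Nat.gcd_dvd_left _ _))
    have h2 : (p : ℤ) ∣ W.Δ := Int.natCast_dvd.mpr (hpd.trans (Nat.gcd_dvd_right _ _))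
    exact hW p hp h2 h1
  rcases x015_points t s ht hs hF with rfl | rfl | rfl | rfl
  · -- `s = -25/2`, `j = -5 · 29³ / 2⁵`
    have hQ : (W.c₄ : ℚ) ^ 3 * (-32 : ℤ) = (121945 : ℤ) * (W.Δ : ℚ) := by
      push_cast; linear_combination (64 / 25 : ℚ) * h5s
    have hZ : W.c₄ ^ 3 * (-32) = 121945 * W.Δ := by exact_mod_cast hQ
    exact five_adic_key (-32) 121945 W.c₄ W.Δ hcop hZ (by norm_num) (by norm_num) (by norm_num)
  · -- `s = -25/8`, `j = 5 · 211³ / 2¹⁵`
    have hQ : (W.c₄ : ℚ) ^ 3 * (32768 : ℤ) = (46969655 : ℤ) * (W.Δ : ℚ) := by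
      push_cast; linear_combination (-262144 / 25 : ℚ) * h5s
    have hZ : W.c₄ ^ 3 * 32768 = 46969655 * W.Δ := by exact_mod_cast hQ
    exact five_adic_key 32768 46969655 W.c₄ W.Δ hcop hZ (by norm_num) (by norm_num) (by norm_num)
  · -- `s = -10`, `j = -25/2`
    have hQ : (W.c₄ : ℚ) ^ 3 * (-2 : ℤ) = (25 : ℤ) * (W.Δ : ℚ) := by
      push_cast; linear_combination (1 / 5 : ℚ) * h5s
    have hZ : W.c₄ ^ 3 * (-2) = 25 * W.Δ := by exact_mod_cast hQ
    exact five_adic_key (-2) 25 W.c₄ W.Δ hcop hZ (by norm_num) (by norm_num) (by norm_num)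
  · -- `s = -40`, `j = -5² · 241³ / 2³`
    have hQ : (W.c₄ : ℚ) ^ 3 * (-8 : ℤ) = (349938025 : ℤ) * (W.Δ : ℚ) := by
      push_cast; linear_combination (1 / 5 : ℚ) * h5s
    have hZ : W.c₄ ^ 3 * (-8) = 349938025 * W.Δ := by exact_mod_cast hQ
    exact five_adic_key (-8) 349938025 W.c₄ W.Δ hcop hZ (by norm_num) (by norm_num) (by norm_num)

end Fermat.Agent.S51
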