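import Mathlib
import Fermat.Prelude.Def_FLTPrelim_GaloisRep

set_option autoImplicit false

/-!
# S51, common tools: points of a Weierstrass curve over an algebraically closed field,
duplication formula on `x`-coordinates, counting torsion points, Galois-stable lines.

All statements are for a general field; the scaled coordinate `u = 12 x + b₂` is used so that
the duplication formula reads `4 u' (u³ - 3 c₄ u - 2 c₆) = u⁴ + 6 c₄ u² + 16 c₆ u + 9 c₄²`.
-/

open WeierstrassCurve WeierstrassCurve.Affine WeierstrassCurve.Affine.Point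

namespace Fermat.Agent.S51.Common

/-! ### Linear algebra over `𝔽_p` -/

/-- A proper nonzero subspace of a small `𝔽_p`-vector space is a line. -/
theorem exists_generator_of_card_lt {p : ℕ} [Fact p.Prime] {V : Type*} [AddCommGroup V]
    [Module (ZMod p) V] [Finite V] (hcard : Nat.card V < p ^ 3) (N : Submodule (ZMod p) V)
    (h0 : N ≠ ⊥) (h1 : N ≠ ⊤) :
    ∃ P ∈ N, P ≠ 0 ∧ ∀ Q ∈ N, ∃ a : ZMod p, Q = a • P := by
  have hp : p.Prime := Fact.out
  have hV : Module.finrank (ZMod p) V < 3 := by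
    have h := Module.natCard_eq_pow_finrank (K := ZMod p) (V := V)
    rw [Nat.card_zmod] at h
    rw [h] at hcard
    exact (Nat.pow_lt_pow_iff_right hp.one_lt).mp hcard
  have hN1 : Module.finrank (ZMod p) N < Module.finrank (ZMod p) V :=
    Submodule.finrank_lt h1
  have hN0 : 1 ≤ Module.finrank (ZMod p) N := Submodule.one_le_finrank_iff.mpr h0
  have hN : Module.finrank (ZMod p) N = 1 := by omega
  obtain ⟨v, hv, hspan⟩ := finrank_eq_one_iff'.mp hN
  refine ⟨v, v.2, fun h => hv (Subtype.ext h), fun Q hQ => ?_⟩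
  obtain ⟨c, hc⟩ := hspan ⟨Q, hQ⟩
  exact ⟨c, by rw [← Submodule.coe_smul, hc]⟩

/-! ### Points on a Weierstrass curve over a field -/

section Curve

variable {K : Type*} [Field K] (W : Affine K)

/-- `(2y + a₁x + a₃)² = 4x³ + b₂x² + 2b₄x + b₆` on the curve. -/
theorem polyY_sq {x y : K} (h : W.Equation x y) :
    (2 * y + W.a₁ * x + W.a₃) ^ 2 = 4 * x ^ 3 + W.b₂ * x ^ 2 + 2 * W.b₄ * x + W.b₆ := by
  rw [equation_iff] at h
  simp only [b₂, b₄, b₆]
  linear_combination 4 * h

/-- The scaled `2`-division polynomial: `u³ - 3c₄u - 2c₆ = 432 (4x³ + b₂x² + 2b₄x + b₆)` for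
`u = 12x + b₂`. -/
theorem g_eq (x : K) :
    (12 * x + W.b₂) ^ 3 - 3 * W.c₄ * (12 * x + W.b₂) - 2 * W.c₆ =
      432 * (4 * x ^ 3 + W.b₂ * x ^ 2 + 2 * W.b₄ * x + W.b₆) := by
  simp only [c₄, c₆, b₂, b₄, b₆]
  ring

/-- `u³ - 3c₄u - 2c₆ = 432 (2y + a₁x + a₃)²` on the curve, `u = 12x + b₂`. -/
theorem g_eq_sq {x y : K} (h : W.Equation x y) :
    (12 * x + W.b₂) ^ 3 - 3 * W.c₄ * (12 * x + W.b₂) - 2 * W.c₆ =
      432 * (2 * y + W.a₁ * x + W.a₃) ^ 2 := by
  rw [g_eq, polyY_sq W h]

/-- A point is fixed by negation iff `2y + a₁x + a₃ = 0`. -/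
theorem Y_eq_negY_iff (x y : K) : y = W.negY x y ↔ 2 * y + W.a₁ * x + W.a₃ = 0 := by
  simp only [negY]
  constructor
  · intro h
    linear_combination h
  · intro h
    linear_combination h

/-- Over an algebraically closed field every `x` is the `x`-coordinate of a point. -/
theorem exists_equation [IsAlgClosed K] (x : K) : ∃ y : K, W.Equation x y := by
  have hdeg : (Polynomial.C (1 : K) * Polynomial.X ^ 2 +
      Polynomial.C (W.a₁ * x + W.a₃) * Polynomial.X +
      Polynomial.C (-(x ^ 3 + W.a₂ * x ^ 2 + W.a₄ * x + W.a₆))).degree ≠ 0 := by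
    rw [Polynomial.degree_quadratic one_ne_zero]
    decide
  obtain ⟨y, hy⟩ := IsAlgClosed.exists_root _ hdeg
  refine ⟨y, ?_⟩
  rw [equation_iff]
  simp only [Polynomial.IsRoot.def, Polynomial.eval_add, Polynomial.eval_mul, Polynomial.eval_C,
    Polynomial.eval_pow, Polynomial.eval_X] at hy
  linear_combination hy

/-- Over an algebraically closed field, if `Δ ≠ 0`, every `x` is the `x`-coordinate of a
nonsingular point. -/
theorem exists_nonsingular [IsAlgClosed K] (hΔ : W.Δ ≠ 0) (x : K) :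
    ∃ y : K, W.Nonsingular x y := by
  obtain ⟨y, hy⟩ := exists_equation W x
  exact ⟨y, (equation_iff_nonsingular_of_Δ_ne_zero hΔ).mp hy⟩

variable [DecidableEq K]

/-- Duplication formula on `x`-coordinates. -/
theorem add_self_of_ne {x y : K} (h : W.Nonsingular x y) (hy : y ≠ W.negY x y) :
    ∃ (x' y' : K) (h' : W.Nonsingular x' y'),
      Point.some x y h + Point.some x y h = Point.some x' y' h' ∧
      x' * (4 * x ^ 3 + W.b₂ * x ^ 2 + 2 * W.b₄ * x + W.b₆) =
        x ^ 4 - W.b₄ * x ^ 2 - 2 * W.b₆ * x - W.b₈ := by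
  refine ⟨_, _, _, add_self_of_Y_ne hy, ?_⟩
  have heq := (equation_iff _ _).mp h.1
  have hsq := polyY_sq W h.1
  have hD : 2 * y + W.a₁ * x + W.a₃ ≠ 0 := fun h0 => hy ((Y_eq_negY_iff W x y).mpr h0)
  have hs : W.slope x x y y * (2 * y + W.a₁ * x + W.a₃) =
      3 * x ^ 2 + 2 * W.a₂ * x + W.a₄ - W.a₁ * y := by
    rw [slope_of_Y_ne rfl hy]
    have : y - W.negY x y = 2 * y + W.a₁ * x + W.a₃ := by simp only [negY]; ring
    rw [this, div_mul_cancel₀ _ hD]
  generalize W.slope x x y y = ℓ at hs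
  simp only [addX, b₂, b₄, b₆, b₈] at hsq ⊢
  linear_combination (-(ℓ ^ 2 + W.a₁ * ℓ - W.a₂ - x - x)) * hsq +
    (ℓ * (2 * y + W.a₁ * x + W.a₃) + (3 * x ^ 2 + 2 * W.a₂ * x + W.a₄ - W.a₁ * y) +
      W.a₁ * (2 * y + W.a₁ * x + W.a₃)) * hs + (-(W.a₁ ^ 2 + 4 * W.a₂ + 8 * x)) * heq

/-- Duplication formula in the scaled coordinate `u = 12x + b₂`:
`4 u' (u³ - 3c₄u - 2c₆) = u⁴ + 6c₄u² + 16c₆u + 9c₄²`. -/
theorem add_self_of_ne_u {x y : K} (h : W.Nonsingular x y) (hy : y ≠ W.negY x y) :
    ∃ (x' y' : K) (h' : W.Nonsingular x' y'),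
      Point.some x y h + Point.some x y h = Point.some x' y' h' ∧
      4 * (12 * x' + W.b₂) * ((12 * x + W.b₂) ^ 3 - 3 * W.c₄ * (12 * x + W.b₂) - 2 * W.c₆) =
        (12 * x + W.b₂) ^ 4 + 6 * W.c₄ * (12 * x + W.b₂) ^ 2 + 16 * W.c₆ * (12 * x + W.b₂) +
          9 * W.c₄ ^ 2 := by
  obtain ⟨x', y', h', hadd, hx'⟩ := add_self_of_ne W h hy
  refine ⟨x', y', h', hadd, ?_⟩
  simp only [c₄, c₆, b₂, b₄, b₆, b₈] at hx' ⊢
  linear_combination 20736 * hx'

/-- `P + P = 0` for an affine point iff `y = negY x y`. -/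
theorem add_self_eq_zero_iff {x y : K} (h : W.Nonsingular x y) :
    Point.some x y h + Point.some x y h = 0 ↔ y = W.negY x y := by
  constructor
  · intro h0
    by_contra hy
    rw [add_self_of_Y_ne hy] at h0
    exact Point.some_ne_zero _ h0
  · intro hy
    exact add_self_of_Y_eq hy

/-- A set of points whose `x`-coordinates lie in a finite set `S` is finite, of cardinality at
most `2 * #S + 1`. -/
theorem finite_and_ncard_le_of_X_mem {W : Affine K} (T : Set W.Point) (S : Finset K)
    (hS : ∀ (x y : K) (h : W.Nonsingular x y), Point.some x y h ∈ T → x ∈ S) :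
    T.Finite ∧ T.ncard ≤ 2 * S.card + 1 := by
  classical
  let rep : K → W.Point := fun x =>
    if hx : ∃ P : W.Point, P.xRep = ![x, 1] then hx.choose else 0
  let g : Option (S × Bool) → W.Point := fun o =>
    match o with
    | none => 0
    | Option.some (x, true) => rep x
    | Option.some (x, false) => -rep x
  have hsub : T ⊆ ↑(Finset.univ.image g) := by
    intro P hP
    rw [Finset.coe_image, Finset.coe_univ, Set.image_univ]
    match P, hP with
    | 0, _ => exact ⟨none, rfl⟩
    | Point.some x y h, hP =>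
      have hxS : x ∈ S := hS x y h hP
      have hex : ∃ P : W.Point, P.xRep = ![x, 1] := ⟨Point.some x y h, rfl⟩
      have hrep : rep x = hex.choose := dif_pos hex
      have hx : (Point.some x y h).xRep = (rep x).xRep := by
        rw [hrep, hex.choose_spec]
        rfl
      rcases eq_or_eq_neg_of_xRep_eq_xRep hx with h1 | h1
      · exact ⟨Option.some (⟨x, hxS⟩, true), h1.symm⟩
      · exact ⟨Option.some (⟨x, hxS⟩, false), h1.symm⟩
  refine ⟨(Finset.finite_toSet _).subset hsub, ?_⟩
  calc T.ncard ≤ (↑(Finset.univ.image g) : Set W.Point).ncard :=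
        Set.ncard_le_ncard hsub (Finset.finite_toSet _)
    _ = (Finset.univ.image g).card := Set.ncard_coe_finset _
    _ ≤ (Finset.univ : Finset (Option (S × Bool))).card := Finset.card_image_le
    _ = 2 * S.card + 1 := by
        simp [Finset.card_univ, Fintype.card_option, Fintype.card_prod, mul_comm]

/-- The `n`-torsion is finite of cardinality at most `2 * #S + 1` if the `x`-coordinates of the
nonzero `n`-torsion points lie in the finite set `S`. -/
theorem finite_torsion_and_card_le {W : Affine K} (n : ℕ) (S : Finset K)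
    (hS : ∀ (x y : K) (h : W.Nonsingular x y), n • Point.some x y h = 0 → x ∈ S) :
    Finite (Submodule.torsionBy ℤ W.Point n) ∧
      Nat.card (Submodule.torsionBy ℤ W.Point n) ≤ 2 * S.card + 1 := by
  have key := finite_and_ncard_le_of_X_mem
    (T := ((Submodule.torsionBy ℤ W.Point n : Submodule ℤ W.Point) : Set W.Point)) S (by
      intro x y h hmem
      apply hS x y h
      have h2 : ((n : ℤ)) • Point.some x y h = 0 := (Submodule.mem_torsionBy_iff _ _).mp hmem
      rwa [natCast_zsmul] at h2)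
  refine ⟨key.1.to_subtype, ?_⟩
  have hc : Nat.card (Submodule.torsionBy ℤ W.Point n) =
      ((Submodule.torsionBy ℤ W.Point n : Submodule ℤ W.Point) : Set W.Point).ncard :=
    Nat.card_coe_set_eq _
  rw [hc]
  exact key.2

/-- A nonzero `n`-torsion point makes the `n`-torsion module nontrivial. -/
theorem nontrivial_torsion_of_point {W : Affine K} {n : ℕ} (P : W.Point) (hP : P ≠ 0)
    (hn : n • P = 0) : Nontrivial (Submodule.torsionBy ℤ W.Point n) := by
  have hmem : P ∈ Submodule.torsionBy ℤ W.Point n := by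
    rw [Submodule.mem_torsionBy_iff, natCast_zsmul]
    exact hn
  exact ⟨⟨⟨P, hmem⟩, 0, fun h => hP (congrArg Subtype.val h)⟩⟩

end Curve

/-! ### Galois action -/

section Galois

variable {F : Type*} [Field F] {K : Type*} [Field K] [DecidableEq K] [Algebra F K]
  (W : WeierstrassCurve F)

/-- The Galois action on affine points is the coordinatewise one. -/
theorem smul_some (σ : K ≃ₐ[F] K) {x y : K} (h : (W⁄K).Nonsingular x y) :
    ∃ h' : (W⁄K).Nonsingular (σ x) (σ y),
      σ • (Point.some x y h : (W⁄K).Point) = Point.some (σ x) (σ y) h' :=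
  ⟨_, rfl⟩

theorem smul_eq_zero_iff (σ : K ≃ₐ[F] K) (P : (W⁄K).Point) : σ • P = 0 ↔ P = 0 := by
  constructor
  · intro h
    cases P with
    | zero => rfl
    | some x y hxy =>
      obtain ⟨h', he⟩ := smul_some W σ hxy
      rw [he] at h
      exact absurd h (Point.some_ne_zero h')
  · rintro rfl
    exact smul_zero σ

omit [DecidableEq K] in
/-- An element fixed by the whole Galois group is rational. -/
theorem exists_algebraMap_eq_of_fixed [IsGalois F K] (x : K)
    (h : ∀ σ : K ≃ₐ[F] K, σ x = x) : ∃ r : F, algebraMap F K r = x :=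
  (InfiniteGalois.mem_range_algebraMap_iff_fixed x).mpr h

/-- If the torsion module is nontrivial and not irreducible, it has a proper nonzero stable
submodule. -/
theorem exists_stable_of_not_irreducible {n : ℕ}
    (hnt : Nontrivial (Submodule.torsionBy ℤ (W⁄K).Point n))
    (h : ¬ GaloisRepIsIrreducible (K := K) F W n) :
    ∃ N : Submodule (ZMod n) (Submodule.torsionBy ℤ (W⁄K).Point n),
      IsGaloisStable F N ∧ N ≠ ⊥ ∧ N ≠ ⊤ := by
  by_contra hcon
  apply h
  refine ⟨hnt, fun N hN => ?_⟩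
  by_contra hN'
  exact hcon ⟨N, hN, fun h0 => hN' (Or.inl h0), fun h1 => hN' (Or.inr h1)⟩

/-- A proper nonzero Galois-stable submodule of a small `p`-torsion module is generated by a
point `P`, and every Galois conjugate of `P` is a multiple `a • P` with `a < p`. -/
theorem exists_point_generator {p : ℕ} [Fact p.Prime]
    [Finite (Submodule.torsionBy ℤ (W⁄K).Point p)]
    (hcard : Nat.card (Submodule.torsionBy ℤ (W⁄K).Point p) < p ^ 3)
    (N : Submodule (ZMod p) (Submodule.torsionBy ℤ (W⁄K).Point p))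
    (hN : IsGaloisStable F N) (h0 : N ≠ ⊥) (h1 : N ≠ ⊤) :
    ∃ P : (W⁄K).Point, P ≠ 0 ∧ p • P = 0 ∧
      ∀ σ : K ≃ₐ[F] K, ∃ a : ℕ, a < p ∧ σ • P = a • P := by
  obtain ⟨P, hPN, hP0, hgen⟩ := exists_generator_of_card_lt hcard N h0 h1
  have hp : p.Prime := Fact.out
  have : NeZero p := ⟨hp.ne_zero⟩
  refine ⟨P, fun h => hP0 (Subtype.ext h), ?_, fun σ => ?_⟩
  · have := P.2
    rw [Submodule.mem_torsionBy_iff] at this
    rw [← this]
    exact (natCast_zsmul _ _).symm
  · obtain ⟨a, ha⟩ := hgen (σ • P) (hN σ P hPN)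
    refine ⟨a.val, ZMod.val_lt a, ?_⟩
    have h2 : (σ • P : Submodule.torsionBy ℤ (W⁄K).Point p) = a.val • P := by
      rw [ha, ← Nat.cast_smul_eq_nsmul (ZMod p), ZMod.natCast_zmod_val]
    have h3 := congrArg (Subtype.val) h2
    rw [AddSubmonoidClass.coe_nsmul] at h3
    exact h3

/-- **Summary.** If the mod `p` representation is not irreducible, the `p`-torsion is nontrivial
and has fewer than `p ^ 3` elements, then there is a nonzero `p`-torsion point `P` all of whose
Galois conjugates are multiples `a • P`, `a < p`. -/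
theorem exists_point_of_not_irreducible {p : ℕ} [Fact p.Prime]
    (hnt : Nontrivial (Submodule.torsionBy ℤ (W⁄K).Point p))
    [Finite (Submodule.torsionBy ℤ (W⁄K).Point p)]
    (hcard : Nat.card (Submodule.torsionBy ℤ (W⁄K).Point p) < p ^ 3)
    (h : ¬ GaloisRepIsIrreducible (K := K) F W p) :
    ∃ P : (W⁄K).Point, P ≠ 0 ∧ p • P = 0 ∧
      ∀ σ : K ≃ₐ[F] K, ∃ a : ℕ, a < p ∧ σ • P = a • P := by
  obtain ⟨N, hN, h0, h1⟩ := exists_stable_of_not_irreducible W hnt h
  exact exists_point_generator W hcard N hN h0 h1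

omit [DecidableEq K] in
/-- Coefficients of the base change. -/
theorem bc_b₂ : (W⁄K).b₂ = algebraMap F K W.b₂ := map_b₂ W _

omit [DecidableEq K] in
theorem bc_c₄ : (W⁄K).c₄ = algebraMap F K W.c₄ := map_c₄ W _

omit [DecidableEq K] in
theorem bc_c₆ : (W⁄K).c₆ = algebraMap F K W.c₆ := map_c₆ W _

omit [DecidableEq K] in
theorem bc_Δ : (W⁄K).Δ = algebraMap F K W.Δ := map_Δ W _

end Galois

/-! ### The algebraic closure of `ℚ` with the instance used in the frozen statements -/

section Qbar

theorem algebra_Qbar_eq :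
    (DivisionRing.toRatAlgebra : Algebra ℚ (AlgebraicClosure ℚ)) = AlgebraicClosure.instAlgebra ℚ :=
  Subsingleton.elim _ _

/-- `ℚ̄ / ℚ` is Galois, for the `ℚ`-algebra instance `DivisionRing.toRatAlgebra` used by the
frozen statements. -/
theorem isGalois_Qbar : IsGalois ℚ (AlgebraicClosure ℚ) := by
  rw [algebra_Qbar_eq]
  infer_instance

end Qbar

end Fermat.Agent.S51.Common
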