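import Mathlib
import Fermat.Prelude.Def_FLTPrelim_GaloisRep
import Fermat.Agent.S51_Common

set_option autoImplicit false

/-!
# S51: a reducible mod `3` representation gives a rational point on `X₀(3)`

`three_isogeny`: if `E[3]` is not irreducible then there is `t ≠ 0` in `ℚ` with
`c₄³ t = (t + 27)(t + 3)³ Δ`.
-/

open WeierstrassCurve WeierstrassCurve.Affine WeierstrassCurve.Affine.Point

namespace Fermat.Agent.S51.Three

open Fermat.Agent.S51.Common

/-! ### Pure algebra (coordinate `u = 12x + b₂`) -/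

/-- Algebra core for the rational `3`-isogeny: a rational root `u` of the (scaled) `3`-division
polynomial which is not a root of the (scaled) `2`-division polynomial gives a rational point on
`X₀(3)` above `j`. -/
theorem core3 (u c4 c6 Δ : ℚ) (hrel : 1728 * Δ = c4 ^ 3 - c6 ^ 2) (hΔ : Δ ≠ 0)
    (hψ : u ^ 4 - 6 * c4 * u ^ 2 - 8 * c6 * u - 3 * c4 ^ 2 = 0)
    (hg : u ^ 3 - 3 * c4 * u - 2 * c6 ≠ 0) :
    ∃ t : ℚ, t ≠ 0 ∧ c4 ^ 3 * t = (t + 27) * (t + 3) ^ 3 * Δ := by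
  have key : 512 * c4 ^ 3 * ((u ^ 2 - c4) ^ 3 - 2 * (u ^ 3 - 3 * c4 * u - 2 * c6) ^ 2) *
      (u ^ 3 - 3 * c4 * u - 2 * c6) ^ 6 =
      (u ^ 2 - c4) ^ 3 * (9 * (u ^ 2 - c4) ^ 3 - 16 * (u ^ 3 - 3 * c4 * u - 2 * c6) ^ 2) ^ 3 *
        (c4 ^ 3 - c6 ^ 2) := by
    linear_combination (-169 * u^20 * c4^3 - 343 * u^20 * c6^2 + 1638 * u^18 * c4^4 + 9114 * u^18 * c4 * c6^2 - 520 * u^17 * c4^3 * c6 + 6664 * u^17 * c6^3 - 1785 * u^16 * c4^5 - 94983 * u^16 * c4^2 * c6^2 + 18432 * u^15 * c4^4 * c6 - 129024 * u^15 * c4 * c6^3 - 18072 * u^14 * c4^6 + 513304 * u^14 * c4^3 * c6^2 - 42112 * u^14 * c6^4 - 110880 * u^13 * c4^5 * c6 + 940320 * u^13 * c4^2 * c6^3 + 41166 * u^12 * c4^7 - 1582734 * u^12 * c4^4 * c6^2 + 550848 * u^12 * c4 * c6^4 + 130176 * u^11 * c4^6 * c6 - 3463296 * u^11 * c4^3 * c6^3 + 97280 * u^11 * c6^5 + 41796 * u^10 * c4^8 + 2567100 * u^10 * c4^5 * c6^2 - 2760960 * u^10 * c4^2 * c6^4 + 539280 * u^9 * c4^7 * c6 + 6825840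 * u^9 * c4^4 * c6^3 - 883200 * u^9 * c4 * c6^5 - 158490 * u^8 * c4^9 - 966438 * u^8 * c4^6 * c6^2 + 6777920 * u^8 * c4^3 * c6^4 - 94208 * u^8 * c6^6 - 1472256 * u^7 * c4^8 * c6 - 6023424 * u^7 * c4^5 * c6^3 + 2961408 * u^7 * c4^2 * c6^5 + 44712 * u^6 * c4^10 - 2812968 * u^6 * c4^7 * c6^2 - 8000640 * u^6 * c4^4 * c6^4 + 552960 * u^6 * c4 * c6^6 + 809568 * u^5 * c4^9 * c6 - 652896 * u^5 * c4^6 * c6^3 - 4459520 * u^5 * c4^3 * c6^5 + 32768 * u^5 * c6^7 + 73467 * u^4 * c4^11 + 2658501 * u^4 * c4^8 * c6^2 + 2521152 * u^4 * c4^5 * c6^4 - 1105920 * u^4 * c4^2 * c6^6 + 300672 * u^3 * c4^10 * c6 + 3450240 * u^3 * c4^7 * c6^3 + 2393088 * u^3 * c4^4 * c6^5 - 98304 * u^3 * c4 * c6^7 + 8262 * u^2 * c4^12 + 392634 * u^2 * c4^9 * c6^2 + 2068992 * u^2 * c4^6 * c6^4 + 815104 * u^2 * c4^3 * c6^6 + 14904 * u * c4^11 * c6 + 192456 * u * c4^8 * c6^3 + 579072 * u * c4^5 * c6^5 + 98304 * u * c4^2 * c6^7 + 243 * c4^13 + 4941 * c4^10 * c6^2 + 31680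 * c4^7 * c6^4 + 61440 * c4^4 * c6^6) * hψ
  have hΔ' : Δ = (c4 ^ 3 - c6 ^ 2) / 1728 := by rw [← hrel]; ring
  generalize u ^ 3 - 3 * c4 * u - 2 * c6 = g at hg key
  generalize u ^ 2 - c4 = M at key
  have heq : c4 ^ 3 * (27 * (M ^ 3 - 2 * g ^ 2) / (2 * g ^ 2)) =
      (27 * (M ^ 3 - 2 * g ^ 2) / (2 * g ^ 2) + 27) *
        (27 * (M ^ 3 - 2 * g ^ 2) / (2 * g ^ 2) + 3) ^ 3 * Δ := by
    rw [hΔ']
    field_simp
    linear_combination (27 : ℚ) * key
  refine ⟨27 * (M ^ 3 - 2 * g ^ 2) / (2 * g ^ 2), ?_, heq⟩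
  intro h0
  rw [h0] at heq
  apply hΔ
  linear_combination (-(1 : ℚ) / 729) * heq

/-- The scaled `3`-division polynomial and the scaled `2`-division polynomial have no common
root when `Δ ≠ 0`. -/
theorem g_ne_zero_of_psi {K : Type*} [Field K] [CharZero K] (u c4 c6 Δ : K)
    (hrel : 1728 * Δ = c4 ^ 3 - c6 ^ 2) (hΔ : Δ ≠ 0)
    (hψ : u ^ 4 - 6 * c4 * u ^ 2 - 8 * c6 * u - 3 * c4 ^ 2 = 0) :
    u ^ 3 - 3 * c4 * u - 2 * c6 ≠ 0 := by
  intro hg
  have h1 : Δ * u = 0 := by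
    linear_combination (u / 1728) * hrel - ((-c6 / 3 + c4 * u / 6) / 3456) * hψ -
      ((c6 * u / 3 + c4 ^ 2 / 2 - c4 * u ^ 2 / 6) / 3456) * hg
  have hu : u = 0 := (mul_eq_zero.mp h1).resolve_left hΔ
  subst hu
  have hc6 : c6 = 0 := by linear_combination (-(1 : K) / 2) * hg
  have hc4 : c4 = 0 := by
    have : c4 ^ 2 = 0 := by linear_combination (-(1 : K) / 3) * hψ
    exact pow_eq_zero_iff (two_ne_zero) |>.mp this
  apply hΔ
  rw [hc4, hc6] at hrel
  linear_combination (1 / 1728 : K) * hrel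

/-! ### `3`-torsion points -/

section Curve

variable {K : Type*} [Field K] [CharZero K] [DecidableEq K] (W : Affine K)

omit [CharZero K] in
theorem three_nsmul_eq (P : W.Point) : 3 • P = P + P + P := by
  rw [show (3 : ℕ) = 2 + 1 from rfl, add_nsmul, two_nsmul, one_nsmul]

/-- The `u`-coordinate of a nonzero `3`-torsion point is a root of the scaled `3`-division
polynomial and not a root of the scaled `2`-division polynomial. -/
theorem psi_of_three_nsmul {x y : K} (h : W.Nonsingular x y)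
    (h3 : 3 • Point.some x y h = 0) :
    (12 * x + W.b₂) ^ 4 - 6 * W.c₄ * (12 * x + W.b₂) ^ 2 - 8 * W.c₆ * (12 * x + W.b₂) -
        3 * W.c₄ ^ 2 = 0 ∧
      (12 * x + W.b₂) ^ 3 - 3 * W.c₄ * (12 * x + W.b₂) - 2 * W.c₆ ≠ 0 := by
  rw [three_nsmul_eq] at h3
  have hy : y ≠ W.negY x y := by
    intro hy
    rw [(add_self_eq_zero_iff W h).mpr hy, zero_add] at h3
    exact Point.some_ne_zero h h3
  obtain ⟨x', y', h', hadd, hu⟩ := add_self_of_ne_u W h hy
  rw [hadd] at h3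
  have hneg : Point.some x' y' h' = -Point.some x y h := eq_neg_of_add_eq_zero_left h3
  rw [Point.neg_some] at hneg
  have hx : x' = x := by
    have := hneg
    simp only [Point.some.injEq] at this
    exact this.1
  rw [hx] at hu
  refine ⟨by linear_combination (1 / 3 : K) * hu, ?_⟩
  rw [g_eq_sq W h.1]
  have hD : 2 * y + W.a₁ * x + W.a₃ ≠ 0 := fun h0 => hy ((Y_eq_negY_iff W x y).mpr h0)
  exact mul_ne_zero (by norm_num) (pow_ne_zero 2 hD)

/-- Conversely a point whose `u`-coordinate is a root of the scaled `3`-division polynomial is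
a `3`-torsion point (when `Δ ≠ 0`). -/
theorem three_nsmul_of_psi (hΔ : W.Δ ≠ 0) {x y : K} (h : W.Nonsingular x y)
    (hψ : (12 * x + W.b₂) ^ 4 - 6 * W.c₄ * (12 * x + W.b₂) ^ 2 - 8 * W.c₆ * (12 * x + W.b₂) -
        3 * W.c₄ ^ 2 = 0) :
    3 • Point.some x y h = 0 := by
  have hg := g_ne_zero_of_psi (12 * x + W.b₂) W.c₄ W.c₆ W.Δ W.c_relation hΔ hψ
  have hy : y ≠ W.negY x y := by
    intro hy
    apply hg
    rw [g_eq_sq W h.1, (Y_eq_negY_iff W x y).mp hy]
    ring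
  obtain ⟨x', y', h', hadd, hu⟩ := add_self_of_ne_u W h hy
  have hx : x' = x := by
    have h1 : 48 * (x' - x) * ((12 * x + W.b₂) ^ 3 - 3 * W.c₄ * (12 * x + W.b₂) - 2 * W.c₆) = 0 := by
      linear_combination hu - 3 * hψ
    have h2 : 48 * (x' - x) = 0 := (mul_eq_zero.mp h1).resolve_right hg
    have h3 : x' - x = 0 := (mul_eq_zero.mp h2).resolve_left (by norm_num)
    exact sub_eq_zero.mp h3
  rw [three_nsmul_eq, hadd]
  rcases (Point.X_eq_iff (h₁ := h') (h₂ := h)).mp hx with h1 | h1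
  · exfalso
    rw [h1] at hadd
    have : Point.some x y h = 0 := by
      have := hadd
      rwa [add_eq_right] at this
    exact Point.some_ne_zero h this
  · rw [h1]
    exact neg_add_cancel _

end Curve

/-! ### The main theorem -/

theorem three_isogeny (E : WeierstrassCurve ℚ) (hΔ : E.Δ ≠ 0)
    (h : ¬ GaloisRepIsIrreducible (K := AlgebraicClosure ℚ) ℚ E 3) :
    ∃ t : ℚ, t ≠ 0 ∧ E.c₄ ^ 3 * t = (t + 27) * (t + 3) ^ 3 * E.Δ := by
  have hinj : Function.Injective (algebraMap ℚ (AlgebraicClosure ℚ)) :=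
    (algebraMap ℚ (AlgebraicClosure ℚ)).injective
  have hΔK : (E⁄(AlgebraicClosure ℚ)).Δ ≠ 0 := by
    rw [bc_Δ]
    exact (map_ne_zero _).mpr hΔ
  -- the quartic `q(U) = U⁴ - 6c₄U² - 8c₆U - 3c₄²`
  set c4K : AlgebraicClosure ℚ := (E⁄(AlgebraicClosure ℚ)).c₄ with hc4K
  set c6K : AlgebraicClosure ℚ := (E⁄(AlgebraicClosure ℚ)).c₆ with hc6K
  set b2K : AlgebraicClosure ℚ := (E⁄(AlgebraicClosure ℚ)).b₂ with hb2K
  let q : Polynomial (AlgebraicClosure ℚ) := Polynomial.X ^ 4 +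
    (Polynomial.C (-6 * c4K) * Polynomial.X ^ 2 + Polynomial.C (-8 * c6K) * Polynomial.X +
      Polynomial.C (-3 * c4K ^ 2))
  have hqdeg : q.degree = 4 := by
    have hlt : (Polynomial.C (-6 * c4K) * Polynomial.X ^ 2 + Polynomial.C (-8 * c6K) * Polynomial.X +
        Polynomial.C (-3 * c4K ^ 2)).degree < ((Polynomial.X : Polynomial (AlgebraicClosure ℚ)) ^ 4).degree := by
      rw [Polynomial.degree_X_pow]
      exact lt_trans Polynomial.degree_quadratic_lt (by decide)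
    rw [Polynomial.degree_add_eq_left_of_degree_lt hlt, Polynomial.degree_X_pow]
    rfl
  have hq0 : q ≠ 0 := by
    intro h0
    rw [h0, Polynomial.degree_zero] at hqdeg
    exact absurd hqdeg (by decide)
  have hqeval : ∀ u : AlgebraicClosure ℚ, q.eval u =
      u ^ 4 - 6 * c4K * u ^ 2 - 8 * c6K * u - 3 * c4K ^ 2 := by
    intro u
    simp only [q, Polynomial.eval_add, Polynomial.eval_mul, Polynomial.eval_C,
      Polynomial.eval_pow, Polynomial.eval_X]
    ring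
  -- Step 1: a nonzero `3`-torsion point
  have hnt : Nontrivial (Submodule.torsionBy ℤ (E⁄(AlgebraicClosure ℚ)).Point 3) := by
    obtain ⟨u₀, hu₀⟩ := IsAlgClosed.exists_root q (by rw [hqdeg]; decide)
    rw [Polynomial.IsRoot.def, hqeval] at hu₀
    obtain ⟨y₀, hy₀⟩ := exists_nonsingular (E⁄(AlgebraicClosure ℚ)) hΔK ((u₀ - b2K) / 12)
    have hu : 12 * ((u₀ - b2K) / 12) + b2K = u₀ := by ring
    have h3 := three_nsmul_of_psi (E⁄(AlgebraicClosure ℚ)) hΔK hy₀ (by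
      rw [← hb2K, ← hc4K, ← hc6K, hu]
      exact hu₀)
    exact nontrivial_torsion_of_point _ (Point.some_ne_zero hy₀) h3
  -- Step 2: at most `9` torsion points
  have hcount := finite_torsion_and_card_le (W := E⁄(AlgebraicClosure ℚ)) 3
    (q.roots.toFinset.image fun u => (u - b2K) / 12) (by
      intro x y hxy h3
      have hψ := (psi_of_three_nsmul (E⁄(AlgebraicClosure ℚ)) hxy h3).1
      rw [Finset.mem_image]
      refine ⟨12 * x + b2K, ?_, by ring⟩
      rw [Multiset.mem_toFinset, Polynomial.mem_roots hq0, Polynomial.IsRoot.def, hqeval]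
      exact hψ)
  have := hcount.1
  have hcard : Nat.card (Submodule.torsionBy ℤ (E⁄(AlgebraicClosure ℚ)).Point 3) < 3 ^ 3 := by
    refine lt_of_le_of_lt hcount.2 ?_
    have h1 : (q.roots.toFinset.image fun u => (u - b2K) / 12).card ≤ 4 := by
      refine le_trans Finset.card_image_le (le_trans (Multiset.toFinset_card_le _) ?_)
      have := Polynomial.card_roots' q
      have h4 : q.natDegree = 4 := Polynomial.natDegree_eq_of_degree_eq_some hqdeg
      omega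
    omega
  -- Step 3: a Galois-stable line
  have : Fact (Nat.Prime 3) := ⟨Nat.prime_three⟩
  obtain ⟨P, hP0, hP3, hσ⟩ := exists_point_of_not_irreducible (F := ℚ) (K := AlgebraicClosure ℚ)
    E hnt hcard h
  -- Step 4: the `x`-coordinate is rational
  cases P with
  | zero => exact absurd rfl hP0
  | some x y hxy =>
    have hfix : ∀ σ : AlgebraicClosure ℚ ≃ₐ[ℚ] AlgebraicClosure ℚ, σ x = x := by
      intro σ
      obtain ⟨a, ha, hσa⟩ := hσ σ
      obtain ⟨h', he⟩ := smul_some E σ hxy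
      rw [he] at hσa
      interval_cases a
      · rw [zero_smul] at hσa
        exact absurd hσa (Point.some_ne_zero h')
      · rw [one_smul] at hσa
        simp only [Point.some.injEq] at hσa
        exact hσa.1
      · have h2 : (2 : ℕ) • Point.some x y hxy = -Point.some x y hxy := by
          rw [three_nsmul_eq, ← two_nsmul] at hP3
          exact eq_neg_of_add_eq_zero_left hP3
        rw [h2, Point.neg_some] at hσa
        simp only [Point.some.injEq] at hσa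
        exact hσa.1
    have := isGalois_Qbar
    obtain ⟨r, hr⟩ := exists_algebraMap_eq_of_fixed (F := ℚ) x hfix
    -- Step 5: descend the equations to `ℚ`
    obtain ⟨hψ, hg⟩ := psi_of_three_nsmul (E⁄(AlgebraicClosure ℚ)) hxy hP3
    rw [bc_b₂, bc_c₄, bc_c₆, ← hr] at hψ hg
    have hψ' : (12 * r + E.b₂) ^ 4 - 6 * E.c₄ * (12 * r + E.b₂) ^ 2 -
        8 * E.c₆ * (12 * r + E.b₂) - 3 * E.c₄ ^ 2 = 0 := by
      apply hinj
      simp only [map_sub, map_add, map_mul, map_pow, map_ofNat, _root_.map_zero]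
      exact hψ
    have hg' : (12 * r + E.b₂) ^ 3 - 3 * E.c₄ * (12 * r + E.b₂) - 2 * E.c₆ ≠ 0 := by
      intro h0
      apply hg
      have := congrArg (algebraMap ℚ (AlgebraicClosure ℚ)) h0
      simp only [map_sub, map_add, map_mul, map_pow, map_ofNat, _root_.map_zero] at this
      exact this
    exact core3 (12 * r + E.b₂) E.c₄ E.c₆ E.Δ E.c_relation hΔ hψ' hg'

end Fermat.Agent.S51.Three

namespace Fermat.Agent.S51

open Fermat.Agent.S51.Three in
/-- **S51, part (3).** If the mod `3` representation of `E / ℚ` is not irreducible, then `E` has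
a rational `3`-isogeny: there is `t ≠ 0` with `c₄³ t = (t + 27)(t + 3)³ Δ`. -/
theorem three_isogeny (E : WeierstrassCurve ℚ) (hΔ : E.Δ ≠ 0)
    (h : ¬ GaloisRepIsIrreducible (K := AlgebraicClosure ℚ) ℚ E 3) :
    ∃ t : ℚ, t ≠ 0 ∧ E.c₄ ^ 3 * t = (t + 27) * (t + 3) ^ 3 * E.Δ :=
  Three.three_isogeny E hΔ h

end Fermat.Agent.S51
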