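import Fermat.Agent.S53_Defs

set_option autoImplicit false
set_option linter.unusedSectionVars false

/-!
S53 glue: Galois representations versus 2x2 matrix-valued functions.
-/

open IsLocalRing GaloisRep

namespace Fermat.Agent.S53

open scoped TensorProduct

namespace Glue

section Generic

variable {R : Type*} [CommRing R] {V : Type*} [AddCommGroup V] [Module R V]
variable {V' : Type*} [AddCommGroup V'] [Module R V']

theorem repr_mem_of_mem_smul_top (b : Module.Basis (Fin 2) R V) (I : Ideal R) {x : V}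
    (hx : x ∈ I • (⊤ : Submodule R V)) (i : Fin 2) : b.repr x i ∈ I := by
  refine Submodule.smul_induction_on (p := fun x => b.repr x i ∈ I) hx ?_ ?_
  · intro r hr n _
    rw [map_smul, Finsupp.smul_apply, smul_eq_mul]
    exact I.mul_mem_right _ hr
  · intro x y hx hy
    rw [map_add, Finsupp.add_apply]
    exact I.add_mem hx hy

theorem mem_smul_top_of_forall_mem (I : Ideal R) (v : Fin 2 → R) (hv : ∀ i, v i ∈ I) :
    v ∈ I • (⊤ : Submodule R (Fin 2 → R)) := by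
  have h : v = v 0 • (Pi.single 0 1 : Fin 2 → R) + v 1 • (Pi.single 1 1 : Fin 2 → R) := by
    ext i; fin_cases i <;> simp
  rw [h]
  exact Submodule.add_mem _ (Submodule.smul_mem_smul (hv 0) trivial)
    (Submodule.smul_mem_smul (hv 1) trivial)

/-- Transport of a basis along an intertwining equivalence preserves the matrix. -/
theorem toMatrix_map_of_intertwine (b : Module.Basis (Fin 2) R V) (e : V ≃ₗ[R] V')
    (f : V →ₗ[R] V) (f' : V' →ₗ[R] V') (h : ∀ x, e (f x) = f' (e x)) :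
    LinearMap.toMatrix (b.map e) (b.map e) f' = LinearMap.toMatrix b b f := by
  ext i j
  rw [LinearMap.toMatrix_apply, LinearMap.toMatrix_apply, Module.Basis.map_apply, ← h,
    Module.Basis.map_repr, LinearEquiv.trans_apply, LinearEquiv.symm_apply_apply]

/-- Equal matrices in two bases: the change of basis intertwines. -/
theorem equiv_intertwine_of_toMatrix_eq (b : Module.Basis (Fin 2) R V)
    (b' : Module.Basis (Fin 2) R V') (f : V →ₗ[R] V) (f' : V' →ₗ[R] V')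
    (h : LinearMap.toMatrix b b f = LinearMap.toMatrix b' b' f') (x : V) :
    (b.equivFun.trans b'.equivFun.symm) (f x) = f' ((b.equivFun.trans b'.equivFun.symm) x) := by
  apply b'.equivFun.injective
  have h1 := LinearMap.toMatrix_mulVec_repr b b f x
  have h2 := LinearMap.toMatrix_mulVec_repr b' b' f' (b'.equivFun.symm (b.equivFun x))
  have h3 : ⇑(b'.repr (b'.equivFun.symm (b.equivFun x))) = ⇑(b.repr x) := by
    have := b'.equivFun.apply_symm_apply (b.equivFun x)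
    exact this
  rw [h3, ← h, h1] at h2
  rw [LinearEquiv.trans_apply, LinearEquiv.apply_symm_apply, LinearEquiv.trans_apply]
  exact h2

/-- Conjugating the matrix by an invertible matrix is a change of basis. -/
theorem exists_basis_conj (b : Module.Basis (Fin 2) R V) (g h : Matrix (Fin 2) (Fin 2) R)
    (hgh : g * h = 1) (hhg : h * g = 1) :
    ∃ b' : Module.Basis (Fin 2) R V, ∀ f : V →ₗ[R] V,
      LinearMap.toMatrix b' b' f = g * LinearMap.toMatrix b b f * h := by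
  let T : V ≃ₗ[R] V := LinearEquiv.ofLinearMap (Matrix.toLin b b h) (Matrix.toLin b b g)
    (by rw [← Matrix.toLin_mul, hhg, Matrix.toLin_one])
    (by rw [← Matrix.toLin_mul, hgh, Matrix.toLin_one])
  refine ⟨b.map T, fun f => ?_⟩
  have h1 : LinearMap.toMatrix (b.map T) (b.map T) f =
      LinearMap.toMatrix b b (T.symm.toLinearMap ∘ₗ f ∘ₗ T.toLinearMap) := by
    ext i j
    rw [LinearMap.toMatrix_apply, LinearMap.toMatrix_apply, Module.Basis.map_apply,
      Module.Basis.map_repr, LinearEquiv.trans_apply]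
    rfl
  have hT : LinearMap.toMatrix b b T.toLinearMap = h := LinearMap.toMatrix_toLin b b h
  have hT' : LinearMap.toMatrix b b T.symm.toLinearMap = g := LinearMap.toMatrix_toLin b b g
  rw [h1, LinearMap.toMatrix_comp b b b, LinearMap.toMatrix_comp b b b, hT, hT', mul_assoc]

/-- Matrices of the same map in two bases are conjugate. -/
theorem exists_unit_conj (b b' : Module.Basis (Fin 2) R V) :
    ∃ g : (Matrix (Fin 2) (Fin 2) R)ˣ, ∀ f : V →ₗ[R] V,
      LinearMap.toMatrix b' b' f = (g : Matrix (Fin 2) (Fin 2) R) * LinearMap.toMatrix b b f *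
        ((g⁻¹ : (Matrix (Fin 2) (Fin 2) R)ˣ) : Matrix (Fin 2) (Fin 2) R) := by
  refine ⟨⟨b'.toMatrix b, b.toMatrix b', Module.Basis.toMatrix_mul_toMatrix_flip b' b,
    Module.Basis.toMatrix_mul_toMatrix_flip b b'⟩, fun f => ?_⟩
  exact (basis_toMatrix_mul_linearMap_toMatrix_mul_basis_toMatrix b' b b' b f).symm

end Generic

end Glue

variable {A : Type} [CommRing A] [IsLocalRing A]

theorem IsMat.matCont {ρ : GaloisRepAdic A} {r : GQ → Matrix (Fin 2) (Fin 2) A}
    (h : IsMat ρ r) : MatCont r := by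
  obtain ⟨β, hβ⟩ := h
  intro n
  obtain ⟨L, hL, hh⟩ := ρ.isAdicContinuous n
  refine ⟨L, hL, fun σ hσ i j => ?_⟩
  have h1 := Glue.repr_mem_of_mem_smul_top β _ (hh σ hσ (β j)) i
  have h2 : (r σ - 1) i j = β.repr (ρ.ρ σ (β j) - β j) i := by
    rw [← hβ σ, Matrix.sub_apply, LinearMap.toMatrix_apply, map_sub, Finsupp.sub_apply,
      Matrix.one_apply, Module.Basis.repr_self, Finsupp.single_apply]
    congr 1
    by_cases hij : i = j
    · simp [hij]
    · simp [hij, Ne.symm hij]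
  rw [h2]
  exact h1

theorem IsMat.map_one {ρ : GaloisRepAdic A} {r : GQ → Matrix (Fin 2) (Fin 2) A}
    (h : IsMat ρ r) : r 1 = 1 := by
  obtain ⟨β, hβ⟩ := h
  rw [← hβ 1, _root_.map_one]
  exact LinearMap.toMatrix_one β

theorem IsMat.map_mul {ρ : GaloisRepAdic A} {r : GQ → Matrix (Fin 2) (Fin 2) A}
    (h : IsMat ρ r) (σ τ : GQ) : r (σ * τ) = r σ * r τ := by
  obtain ⟨β, hβ⟩ := h
  rw [← hβ, ← hβ, ← hβ, _root_.map_mul]
  exact LinearMap.toMatrix_mul β _ _

theorem exists_isMat_of_matCont (r : GQ → Matrix (Fin 2) (Fin 2) A) (h1 : r 1 = 1)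
    (hmul : ∀ σ τ : GQ, r (σ * τ) = r σ * r τ) (hc : MatCont r) :
    ∃ ρ : GaloisRepAdic A, IsMat ρ r := by
  let M : GQ →* Matrix (Fin 2) (Fin 2) A := { toFun := r, map_one' := h1, map_mul' := hmul }
  let ρ : GaloisRepAdic A :=
    { V := Fin 2 → A
      finrank_eq := Module.finrank_fin_fun A
      ρ := (MonoidHomClass.toMonoidHom
        (Matrix.toLinAlgEquiv' : Matrix (Fin 2) (Fin 2) A ≃ₐ[A] _)).comp M
      isAdicContinuous := by
        intro n
        obtain ⟨L, hL, h⟩ := hc n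
        refine ⟨L, hL, fun σ hσ v => ?_⟩
        apply Glue.mem_smul_top_of_forall_mem
        intro i
        have h1 : (((MonoidHomClass.toMonoidHom
            (Matrix.toLinAlgEquiv' : Matrix (Fin 2) (Fin 2) A ≃ₐ[A] _)).comp M) σ) v - v
            = (r σ - 1).mulVec v := by
          rw [Matrix.sub_mulVec, Matrix.one_mulVec]
          rfl
        rw [h1]
        simp only [Matrix.mulVec, dotProduct]
        exact Ideal.sum_mem _ fun j _ => Ideal.mul_mem_right _ _ (h σ hσ i j) }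
  refine ⟨ρ, Pi.basisFun A (Fin 2), fun σ => ?_⟩
  rw [LinearMap.toMatrix_eq_toMatrix']
  exact LinearMap.toMatrix'_toLin' (r σ)

theorem exists_isMat (ρ : GaloisRepAdic A) : ∃ r : GQ → Matrix (Fin 2) (Fin 2) A, IsMat ρ r :=
  ⟨fun σ => LinearMap.toMatrix (Module.finBasisOfFinrankEq A ρ.V ρ.finrank_eq)
    (Module.finBasisOfFinrankEq A ρ.V ρ.finrank_eq) (ρ.ρ σ), _, fun _ => rfl⟩

theorem IsMat.isEquiv {ρ ρ' : GaloisRepAdic A} {r : GQ → Matrix (Fin 2) (Fin 2) A}
    (h : IsMat ρ r) (h' : IsMat ρ' r) : ρ.IsEquiv ρ' := by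
  obtain ⟨β, hβ⟩ := h
  obtain ⟨β', hβ'⟩ := h'
  exact ⟨{ toLinearEquiv := β.equivFun.trans β'.equivFun.symm
           map_apply := fun σ x => Glue.equiv_intertwine_of_toMatrix_eq β β' (ρ.ρ σ) (ρ'.ρ σ)
             (by rw [hβ, hβ']) x }⟩

theorem IsMat.of_isEquiv {ρ ρ' : GaloisRepAdic A} {r : GQ → Matrix (Fin 2) (Fin 2) A}
    (h : IsMat ρ r) (e : ρ.IsEquiv ρ') : IsMat ρ' r := by
  obtain ⟨β, hβ⟩ := h
  obtain ⟨e⟩ := e
  refine ⟨β.map e.toLinearEquiv, fun σ => ?_⟩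
  rw [← hβ σ]
  exact Glue.toMatrix_map_of_intertwine β e.toLinearEquiv (ρ.ρ σ) (ρ'.ρ σ) (e.map_apply σ)

theorem IsMat.conj {ρ : GaloisRepAdic A} {r : GQ → Matrix (Fin 2) (Fin 2) A}
    (h : IsMat ρ r) (g : (Matrix (Fin 2) (Fin 2) A)ˣ) :
    IsMat ρ (fun σ => (g : Matrix (Fin 2) (Fin 2) A) * r σ * ((g⁻¹ : (Matrix (Fin 2) (Fin 2) A)ˣ) : Matrix (Fin 2) (Fin 2) A)) := by
  obtain ⟨β, hβ⟩ := h
  obtain ⟨β', hβ'⟩ := Glue.exists_basis_conj β (g : Matrix (Fin 2) (Fin 2) A)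
    ((g⁻¹ : (Matrix (Fin 2) (Fin 2) A)ˣ) : Matrix (Fin 2) (Fin 2) A) g.mul_inv g.inv_mul
  exact ⟨β', fun σ => by rw [hβ', hβ]⟩

theorem IsMat.exists_conj {ρ : GaloisRepAdic A} {r r' : GQ → Matrix (Fin 2) (Fin 2) A}
    (h : IsMat ρ r) (h' : IsMat ρ r') :
    ∃ g : (Matrix (Fin 2) (Fin 2) A)ˣ, ∀ σ : GQ,
      r' σ = (g : Matrix (Fin 2) (Fin 2) A) * r σ * ((g⁻¹ : (Matrix (Fin 2) (Fin 2) A)ˣ) : Matrix (Fin 2) (Fin 2) A) := by
  obtain ⟨β, hβ⟩ := h
  obtain ⟨β', hβ'⟩ := h'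
  obtain ⟨g, hg⟩ := Glue.exists_unit_conj β β'
  exact ⟨g, fun σ => by rw [← hβ', ← hβ, hg]⟩

theorem IsMat.baseChangeAlong {B : Type} [CommRing B] [IsLocalRing B] (φ : A →+* B)
    (hφ : IsLocalHom φ) {ρ : GaloisRepAdic A} {r : GQ → Matrix (Fin 2) (Fin 2) A}
    (h : IsMat ρ r) : IsMat (ρ.baseChangeAlong φ hφ) (fun σ => (r σ).map φ) := by
  obtain ⟨β, hβ⟩ := h
  let _ : Algebra A B := φ.toAlgebra
  refine ⟨Algebra.TensorProduct.basis B β, fun σ => ?_⟩
  have h := LinearMap.toMatrix_baseChange (A := B) (ρ.ρ σ) β β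
  rw [hβ σ] at h
  exact h

theorem IsMat.residual {ρ : GaloisRepAdic A} {r : GQ → Matrix (Fin 2) (Fin 2) A}
    (h : IsMat ρ r) : IsMatRes ρ.residual (fun σ => (r σ).map (IsLocalRing.residue A)) := by
  obtain ⟨β, hβ⟩ := h
  refine ⟨Algebra.TensorProduct.basis (ResidueField A) β, fun σ => ?_⟩
  have h := LinearMap.toMatrix_baseChange (A := ResidueField A) (ρ.ρ σ) β β
  rw [hβ σ] at h
  exact h

variable {k : Type} [Field k]

theorem exists_isMatRes (ρ : ResidualGaloisRep k) :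
    ∃ r : GQ → Matrix (Fin 2) (Fin 2) k, IsMatRes ρ r :=
  ⟨fun σ => LinearMap.toMatrix (Module.finBasisOfFinrankEq k ρ.V ρ.finrank_eq)
    (Module.finBasisOfFinrankEq k ρ.V ρ.finrank_eq) (ρ.ρ σ), _, fun _ => rfl⟩

theorem IsMatRes.isEquiv {ρ ρ' : ResidualGaloisRep k} {r : GQ → Matrix (Fin 2) (Fin 2) k}
    (h : IsMatRes ρ r) (h' : IsMatRes ρ' r) : ρ.IsEquiv ρ' := by
  obtain ⟨β, hβ⟩ := h
  obtain ⟨β', hβ'⟩ := h'
  exact ⟨{ toLinearEquiv := β.equivFun.trans β'.equivFun.symm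
           map_apply := fun σ x => Glue.equiv_intertwine_of_toMatrix_eq β β' (ρ.ρ σ) (ρ'.ρ σ)
             (by rw [hβ, hβ']) x }⟩

theorem IsMatRes.of_isEquiv {ρ ρ' : ResidualGaloisRep k} {r : GQ → Matrix (Fin 2) (Fin 2) k}
    (h : IsMatRes ρ r) (e : ρ.IsEquiv ρ') : IsMatRes ρ' r := by
  obtain ⟨β, hβ⟩ := h
  obtain ⟨e⟩ := e
  refine ⟨β.map e.toLinearEquiv, fun σ => ?_⟩
  rw [← hβ σ]
  exact Glue.toMatrix_map_of_intertwine β e.toLinearEquiv (ρ.ρ σ) (ρ'.ρ σ) (e.map_apply σ)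

theorem IsMatRes.exists_conj {ρ : ResidualGaloisRep k} {r r' : GQ → Matrix (Fin 2) (Fin 2) k}
    (h : IsMatRes ρ r) (h' : IsMatRes ρ r') :
    ∃ g : (Matrix (Fin 2) (Fin 2) k)ˣ, ∀ σ : GQ,
      r' σ = (g : Matrix (Fin 2) (Fin 2) k) * r σ * ((g⁻¹ : (Matrix (Fin 2) (Fin 2) k)ˣ) : Matrix (Fin 2) (Fin 2) k) := by
  obtain ⟨β, hβ⟩ := h
  obtain ⟨β', hβ'⟩ := h'
  obtain ⟨g, hg⟩ := Glue.exists_unit_conj β β'
  exact ⟨g, fun σ => by rw [← hβ', ← hβ, hg]⟩

theorem IsMatRes.baseChange (k' : Type) [Field k'] [Algebra k k'] {ρ : ResidualGaloisRep k}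
    {r : GQ → Matrix (Fin 2) (Fin 2) k} (h : IsMatRes ρ r) :
    IsMatRes (ρ.baseChange k') (fun σ => (r σ).map (algebraMap k k')) := by
  obtain ⟨β, hβ⟩ := h
  refine ⟨Algebra.TensorProduct.basis k' β, fun σ => ?_⟩
  have h := LinearMap.toMatrix_baseChange (A := k') (ρ.ρ σ) β β
  rw [hβ σ] at h
  exact h

theorem IsMatRes.baseChangeAlong {k' : Type} [Field k'] (ψ : k →+* k') {ρ : ResidualGaloisRep k}
    {r : GQ → Matrix (Fin 2) (Fin 2) k} (h : IsMatRes ρ r) :
    IsMatRes (ρ.baseChangeAlong ψ) (fun σ => (r σ).map ψ) := by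
  let _ : Algebra k k' := ψ.toAlgebra
  exact IsMatRes.baseChange k' h

theorem IsMatRes.ofResidual {ρ : ResidualGaloisRep k} {r : GQ → Matrix (Fin 2) (Fin 2) k}
    (h : IsMatRes ρ r) : IsMat (GaloisRepAdic.ofResidualGaloisRep ρ) r := by
  obtain ⟨β, hβ⟩ := h
  exact ⟨β, hβ⟩

namespace Glue

/-- Lift an invertible matrix over the residue field to an invertible matrix. -/
theorem exists_unit_lift (gbar : (Matrix (Fin 2) (Fin 2) (ResidueField A))ˣ) :
    ∃ g : (Matrix (Fin 2) (Fin 2) A)ˣ,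
      (g : Matrix (Fin 2) (Fin 2) A).map (residue A) = gbar ∧
      ((g⁻¹ : (Matrix (Fin 2) (Fin 2) A)ˣ) : Matrix (Fin 2) (Fin 2) A).map (residue A) =
        ((gbar⁻¹ : (Matrix (Fin 2) (Fin 2) (ResidueField A))ˣ) :
          Matrix (Fin 2) (Fin 2) (ResidueField A)) := by
  obtain ⟨P', hP'⟩ : ∃ P' : Matrix (Fin 2) (Fin 2) A,
      P'.map (residue A) = (gbar : Matrix (Fin 2) (Fin 2) (ResidueField A)) := by
    refine ⟨(gbar : Matrix (Fin 2) (Fin 2) (ResidueField A)).map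
      (Function.surjInv (residue_surjective (R := A))), ?_⟩
    ext i j
    simp [Function.surjInv_eq]
  have hdet : IsUnit P'.det := by
    have h1 : residue A P'.det = (gbar : Matrix (Fin 2) (Fin 2) (ResidueField A)).det := by
      rw [RingHom.map_det, RingHom.mapMatrix_apply, hP']
    have h2 : (gbar : Matrix (Fin 2) (Fin 2) (ResidueField A)).det *
        ((gbar⁻¹ : (Matrix (Fin 2) (Fin 2) (ResidueField A))ˣ) :
          Matrix (Fin 2) (Fin 2) (ResidueField A)).det = 1 := by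
      rw [← Matrix.det_mul, Units.mul_inv, Matrix.det_one]
    by_contra hnu
    have h3 := (residue_eq_zero_iff _).mpr hnu
    rw [h1] at h3
    rw [h3, zero_mul] at h2
    exact zero_ne_one h2
  have hPP : P' * P'⁻¹ = 1 := Matrix.mul_nonsing_inv _ hdet
  have hPP' : P'⁻¹ * P' = 1 := Matrix.nonsing_inv_mul _ hdet
  refine ⟨⟨P', P'⁻¹, hPP, hPP'⟩, hP', ?_⟩
  show (P'⁻¹).map (residue A) = _
  have h1 : (P' * P'⁻¹).map (residue A) = 1 := by
    rw [hPP]
    ext i j
    rw [Matrix.map_apply, Matrix.one_apply, Matrix.one_apply]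
    split_ifs <;> simp
  rw [Matrix.map_mul, hP'] at h1
  calc (P'⁻¹).map (residue A)
      = (((gbar⁻¹ : (Matrix (Fin 2) (Fin 2) (ResidueField A))ˣ) :
          Matrix (Fin 2) (Fin 2) (ResidueField A)) * gbar) * (P'⁻¹).map (residue A) := by
        rw [Units.inv_mul, one_mul]
    _ = ((gbar⁻¹ : (Matrix (Fin 2) (Fin 2) (ResidueField A))ˣ) :
          Matrix (Fin 2) (Fin 2) (ResidueField A)) * (gbar * (P'⁻¹).map (residue A)) := by
        rw [mul_assoc]
    _ = _ := by rw [h1, mul_one]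

end Glue

/-- Residual criterion. -/
theorem residual_isEquiv_iff {𝒪 : Type} [CommRing 𝒪] [IsLocalRing 𝒪] {A : Type} [CommRing A]
    [IsLocalRing A] [Algebra 𝒪 A] [IsLocalHom (algebraMap 𝒪 A)]
    (ρbar : ResidualGaloisRep (ResidueField 𝒪))
    {rbar : GQ → Matrix (Fin 2) (Fin 2) (ResidueField 𝒪)} (hbar : IsMatRes ρbar rbar)
    (ρ : GaloisRepAdic A) :
    ρ.residual.IsEquiv (ρbar.baseChangeAlong (IsLocalRing.ResidueField.map (algebraMap 𝒪 A))) ↔
      ∃ r : GQ → Matrix (Fin 2) (Fin 2) A, IsMat ρ r ∧ LiftsRes rbar r := by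
  have hb := IsMatRes.baseChangeAlong (IsLocalRing.ResidueField.map (algebraMap 𝒪 A)) hbar
  have hlift : ∀ r : GQ → Matrix (Fin 2) (Fin 2) A,
      LiftsRes rbar r ↔ ∀ σ, (r σ).map (residue A) =
        (rbar σ).map (IsLocalRing.ResidueField.map (algebraMap 𝒪 A)) := by
    intro r
    constructor
    · intro h σ
      ext i j
      obtain ⟨x, hx⟩ := residue_surjective (rbar σ i j)
      have h1 := (residue_eq_zero_iff _).mpr (h σ i j x hx)
      rw [map_sub, sub_eq_zero] at h1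
      rw [Matrix.map_apply, Matrix.map_apply, h1, ← hx, ResidueField.map_residue]
    · intro h σ i j x hx
      rw [← residue_eq_zero_iff, map_sub, sub_eq_zero]
      have h1 := congrFun (congrFun (h σ) i) j
      rw [Matrix.map_apply, Matrix.map_apply] at h1
      rw [h1, ← hx, ResidueField.map_residue]
  constructor
  · intro e
    obtain ⟨r₁, hr₁⟩ := exists_isMat ρ
    have h1 := hr₁.residual
    have h2 : IsMatRes ρ.residual
        (fun σ => (rbar σ).map (IsLocalRing.ResidueField.map (algebraMap 𝒪 A))) := by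
      obtain ⟨e⟩ := e
      exact hb.of_isEquiv ⟨e.symm⟩
    obtain ⟨gbar, hgbar⟩ := h1.exists_conj h2
    obtain ⟨g, hg, hg'⟩ := Glue.exists_unit_lift gbar
    refine ⟨_, hr₁.conj g, (hlift _).mpr fun σ => ?_⟩
    rw [Matrix.map_mul, Matrix.map_mul, hg, hg']
    exact (hgbar σ).symm
  · rintro ⟨r, hr, hl⟩
    have h1 := hr.residual
    have h2 : (fun σ => (r σ).map (residue A)) =
        (fun σ => (rbar σ).map (IsLocalRing.ResidueField.map (algebraMap 𝒪 A))) :=
      funext ((hlift r).mp hl)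
    rw [h2] at h1
    exact h1.isEquiv hb

end Fermat.Agent.S53
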