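import Mathlib
import Fermat.Agent.S53_Defs

set_option autoImplicit false

namespace Fermat.Agent.S53.NormalForm

open IsLocalRing Matrix Polynomial

/-- An ideal with a vanishing power gives an adically complete ring. -/
theorem isAdicComplete_of_pow_eq_bot {R : Type*} [CommRing R] (I : Ideal R) (n : ℕ)
    (h : I ^ n = ⊥) : IsAdicComplete I R := by
  have hle : ∀ m, n ≤ m → (I ^ m • ⊤ : Submodule R R) = ⊥ := by
    intro m hm
    have h1 : I ^ m ≤ I ^ n := Ideal.pow_le_pow_right hm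
    rw [h] at h1
    rw [smul_eq_mul, Ideal.mul_top]
    exact le_bot_iff.mp h1
  refine { toIsHausdorff := ⟨fun x hx => ?_⟩, toIsPrecomplete := ⟨fun f hf => ?_⟩ }
  · have h1 := hx n
    rw [hle n le_rfl, SModEq.bot] at h1
    exact h1
  · refine ⟨f n, fun m => ?_⟩
    rcases le_total m n with hmn | hnm
    · exact hf hmn
    · have h1 := hf hnm
      rw [hle n le_rfl, SModEq.bot] at h1
      rw [h1]

/-- Artinian local rings are complete with respect to the maximal ideal. -/
theorem isAdicComplete_of_isArtinianRing (A : Type*) [CommRing A] [IsLocalRing A]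
    [IsArtinianRing A] : IsAdicComplete (maximalIdeal A) A := by
  obtain ⟨n, hn⟩ := IsArtinianRing.isNilpotent_jacobson_bot (R := A)
  rw [IsLocalRing.jacobson_eq_maximalIdeal (⊥ : Ideal A) bot_ne_top] at hn
  exact isAdicComplete_of_pow_eq_bot _ n hn

variable {A : Type*} [CommRing A] [IsLocalRing A]

/-- The instance of Hensel's lemma for monic quadratics that is used below. -/
def QuadHensel (A : Type*) [CommRing A] [IsLocalRing A] : Prop :=
  ∀ τ δ a₀ : A, a₀ * a₀ - τ * a₀ + δ ∈ maximalIdeal A → IsUnit (2 * a₀ - τ) →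
    ∃ β : A, β * β - τ * β + δ = 0 ∧ β - a₀ ∈ maximalIdeal A

theorem quadHensel_of_henselianRing [HenselianRing A (maximalIdeal A)] : QuadHensel A := by
  intro τ δ a₀ h0 hu
  have hmonic : (X ^ 2 + (- C τ * X + C δ) : A[X]).Monic := by
    apply Polynomial.monic_X_pow_add
    refine lt_of_le_of_lt (Polynomial.degree_add_le _ _) ?_
    refine max_lt ?_ ?_
    · refine lt_of_le_of_lt (Polynomial.degree_mul_le _ _) ?_
      refine lt_of_le_of_lt (add_le_add (Polynomial.degree_neg (C τ) ▸ Polynomial.degree_C_le)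
        Polynomial.degree_X_le) ?_
      decide
    · exact lt_of_le_of_lt Polynomial.degree_C_le (by decide)
  have heval : (X ^ 2 + (- C τ * X + C δ) : A[X]).eval a₀ = a₀ * a₀ - τ * a₀ + δ := by
    simp; ring
  have hder : (X ^ 2 + (- C τ * X + C δ) : A[X]).derivative.eval a₀ = 2 * a₀ - τ := by
    simp; ring
  obtain ⟨β, hβ, hβ'⟩ := HenselianRing.is_henselian (I := maximalIdeal A)
    (X ^ 2 + (- C τ * X + C δ) : A[X]) hmonic a₀ (by rw [heval]; exact h0)
    (by rw [hder]; exact hu.map _)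
  refine ⟨β, ?_, hβ'⟩
  have h1 : (X ^ 2 + (- C τ * X + C δ) : A[X]).eval β = 0 := hβ
  simp at h1
  linear_combination h1

theorem quadHensel_of_isAdicComplete [IsAdicComplete (maximalIdeal A) A] : QuadHensel A :=
  quadHensel_of_henselianRing

theorem quadHensel_of_isArtinianRing [IsArtinianRing A] : QuadHensel A :=
  haveI := isAdicComplete_of_isArtinianRing A
  quadHensel_of_isAdicComplete

theorem mem_maximalIdeal_iff_residue {z : A} : z ∈ maximalIdeal A ↔ residue A z = 0 :=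
  (residue_eq_zero_iff z).symm

/-- Existence of the normal form: a matrix `x` congruent to `diag(1,0)` can be diagonalised by a
conjugation congruent to the identity, and at the same time the `(0,1)` entry of a second matrix
`y` (congruent to a unit there) is normalised to `1`. -/
theorem exists_conj_normal (hH : QuadHensel A) (x y : Matrix (Fin 2) (Fin 2) A)
    (hx00 : x 0 0 - 1 ∈ maximalIdeal A) (hx01 : x 0 1 ∈ maximalIdeal A)
    (hx10 : x 1 0 ∈ maximalIdeal A) (hx11 : x 1 1 ∈ maximalIdeal A)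
    (hy : y 0 1 - 1 ∈ maximalIdeal A) :
    ∃ g h : Matrix (Fin 2) (Fin 2) A, g * h = 1 ∧ h * g = 1 ∧
      (∀ i j, (g - 1) i j ∈ maximalIdeal A) ∧ (∀ i j, (h - 1) i j ∈ maximalIdeal A) ∧
      (g * x * h) 0 1 = 0 ∧ (g * x * h) 1 0 = 0 ∧ (g * y * h) 0 1 = 1 := by
  rw [mem_maximalIdeal_iff_residue] at hx00 hx01 hx10 hx11 hy
  rw [map_sub, map_one, sub_eq_zero] at hx00 hy
  obtain ⟨a, b, c, d, rfl⟩ : ∃ a b c d, x = !![a, b; c, d] :=
    ⟨_, _, _, _, (Matrix.eta_fin_two x)⟩
  obtain ⟨y00, y01, y10, y11, rfl⟩ : ∃ a b c d, y = !![a, b; c, d] :=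
    ⟨_, _, _, _, (Matrix.eta_fin_two y)⟩
  simp only [Matrix.of_apply, Matrix.cons_val', Matrix.cons_val_zero, Matrix.cons_val_one,
    Matrix.cons_val_fin_one] at hx00 hx01 hx10 hx11 hy
  have hχ : a * a - (a + d) * a + (a * d - b * c) ∈ maximalIdeal A := by
    rw [mem_maximalIdeal_iff_residue]
    simp [hx00, hx01, hx10, hx11]
  have hunit : IsUnit (2 * a - (a + d)) := by
    have h2 : 2 * a - (a + d) = a - d := by ring
    rw [h2]
    have : residue A (a - d) ≠ 0 := by simp [hx00, hx11]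
    by_contra hnu
    exact this ((residue_eq_zero_iff _).mpr hnu)
  obtain ⟨β, hβ, hβa⟩ := hH (a + d) (a * d - b * c) a hχ hunit
  rw [mem_maximalIdeal_iff_residue, map_sub, sub_eq_zero] at hβa
  obtain ⟨e, he⟩ : ∃ e, e = β - d := ⟨_, rfl⟩
  have hre : residue A e = 1 := by simp [he, hβa, hx00, hx11]
  have hrel : e * e + (d - a) * e - b * c = 0 := by rw [he]; linear_combination hβ
  have hΔu : IsUnit (e * e + b * c) := by
    have : residue A (e * e + b * c) ≠ 0 := by simp [hre, hx01]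
    by_contra hnu
    exact this ((residue_eq_zero_iff _).mpr hnu)
  obtain ⟨Δi, hΔi⟩ := hΔu.exists_right_inv
  have hrΔi : residue A Δi = 1 := by
    have := congrArg (residue A) hΔi
    simpa [hre, hx01] using this
  obtain ⟨w, hw⟩ : ∃ w, w = e * e * y01 - e * b * y00 - b * b * y10 + b * e * y11 :=
    ⟨_, rfl⟩
  obtain ⟨u, hu⟩ : ∃ u, u = Δi * w := ⟨_, rfl⟩
  have hru : residue A u = 1 := by simp [hu, hw, hrΔi, hre, hx01, hy]
  have huu : IsUnit u := by
    by_contra hnu
    have := (residue_eq_zero_iff _).mpr hnu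
    rw [hru] at this
    exact one_ne_zero this
  obtain ⟨ui, hui⟩ := huu.exists_right_inv
  have hrui : residue A ui = 1 := by
    have := congrArg (residue A) hui
    simpa [hru] using this
  refine ⟨!![Δi * e, Δi * b; -(u * Δi * c), u * Δi * e], !![e, -(b * ui); c, e * ui],
    ?_, ?_, ?_, ?_, ?_, ?_, ?_⟩
  · ext i j
    fin_cases i <;> fin_cases j <;> simp [Matrix.mul_apply, Fin.sum_univ_two]
    · linear_combination hΔi
    · ring
    · ring
    · linear_combination (u * ui) * hΔi + hui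
  · ext i j
    fin_cases i <;> fin_cases j <;> simp [Matrix.mul_apply, Fin.sum_univ_two]
    · linear_combination hΔi + (b * c * Δi) * hui
    · linear_combination (-(b * e * Δi)) * hui
    · linear_combination (-(c * e * Δi)) * hui
    · linear_combination hΔi + (e * e * Δi) * hui
  · intro i j
    rw [mem_maximalIdeal_iff_residue]
    fin_cases i <;> fin_cases j <;> simp [hrΔi, hre, hx01, hx10, hru]
  · intro i j
    rw [mem_maximalIdeal_iff_residue]
    fin_cases i <;> fin_cases j <;> simp [hre, hx01, hx10, hrui]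
  · simp [Matrix.mul_apply, Fin.sum_univ_two]
    linear_combination (Δi * ui * b) * hrel
  · simp [Matrix.mul_apply, Fin.sum_univ_two]
    linear_combination (u * Δi * c) * hrel
  · simp [Matrix.mul_apply, Fin.sum_univ_two]
    linear_combination hui - ui * hu - (Δi * ui) * hw

/-- Rigidity of the normal form: an intertwiner between two normalised pairs is scalar. -/
theorem scalar_of_intertwines (x x' y y' g : Matrix (Fin 2) (Fin 2) A)
    (hx01 : x 0 1 = 0) (hx10 : x 1 0 = 0) (hx'01 : x' 0 1 = 0) (hx'10 : x' 1 0 = 0)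
    (hx00 : x 0 0 - 1 ∈ maximalIdeal A) (hx11 : x 1 1 ∈ maximalIdeal A)
    (hx'00 : x' 0 0 - 1 ∈ maximalIdeal A) (hx'11 : x' 1 1 ∈ maximalIdeal A)
    (hy : y 0 1 = 1) (hy' : y' 0 1 = 1)
    (hgx : g * x = x' * g) (hgy : g * y = y' * g) :
    g = g 0 0 • (1 : Matrix (Fin 2) (Fin 2) A) := by
  rw [mem_maximalIdeal_iff_residue] at hx00 hx11 hx'00 hx'11
  rw [map_sub, map_one, sub_eq_zero] at hx00 hx'00
  have h01 := congrFun (congrFun hgx 0) 1
  have h10 := congrFun (congrFun hgx 1) 0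
  have hy01 := congrFun (congrFun hgy 0) 1
  simp only [Matrix.mul_apply, Fin.sum_univ_two, hx01, hx10, hx'01, hx'10, hy, hy', mul_zero,
    zero_mul, zero_add, add_zero, mul_one, one_mul] at h01 h10 hy01
  have hu1 : IsUnit (x 1 1 - x' 0 0) := by
    have : residue A (x 1 1 - x' 0 0) ≠ 0 := by simp [hx11, hx'00]
    by_contra hnu
    exact this ((residue_eq_zero_iff _).mpr hnu)
  have hu2 : IsUnit (x 0 0 - x' 1 1) := by
    have : residue A (x 0 0 - x' 1 1) ≠ 0 := by simp [hx00, hx'11]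
    by_contra hnu
    exact this ((residue_eq_zero_iff _).mpr hnu)
  have hg01 : g 0 1 = 0 := by
    have : g 0 1 * (x 1 1 - x' 0 0) = 0 := by linear_combination h01
    exact (hu1.mul_left_eq_zero).mp this
  have hg10 : g 1 0 = 0 := by
    have : g 1 0 * (x 0 0 - x' 1 1) = 0 := by linear_combination h10
    exact (hu2.mul_left_eq_zero).mp this
  have hg11 : g 1 1 = g 0 0 := by
    rw [hg01] at hy01
    linear_combination -hy01
  ext i j
  fin_cases i <;> fin_cases j <;> simp [hg01, hg10, hg11]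

end Fermat.Agent.S53.NormalForm

namespace Fermat.Agent.S53

open IsLocalRing

variable {𝒪 : Type} [CommRing 𝒪] {A : Type} [CommRing A] [IsLocalRing A] [Algebra 𝒪 A]

namespace NormalForm

theorem linComb_conj (c : GQ →₀ 𝒪) (r : GQ → Matrix (Fin 2) (Fin 2) A)
    (g h : Matrix (Fin 2) (Fin 2) A) :
    linComb c (fun σ => g * r σ * h) = g * linComb c r * h := by
  simp only [linComb, Finsupp.sum, Finset.mul_sum, Finset.sum_mul, Matrix.mul_smul,
    Matrix.smul_mul]

theorem linComb_intertwine (c : GQ →₀ 𝒪) (r r' : GQ → Matrix (Fin 2) (Fin 2) A)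
    (g : Matrix (Fin 2) (Fin 2) A) (hg : ∀ σ, g * r σ = r' σ * g) :
    g * linComb c r = linComb c r' * g := by
  simp only [linComb, Finsupp.sum, Finset.mul_sum, Finset.sum_mul, Matrix.mul_smul,
    Matrix.smul_mul, hg]

end NormalForm

/-- Existence of the normal form of a lift. -/
theorem exists_normalize [HenselianRing A (maximalIdeal A)]
    (ce cn : GQ →₀ 𝒪) (r : GQ → Matrix (Fin 2) (Fin 2) A)
    (h00 : linComb ce r 0 0 - 1 ∈ maximalIdeal A) (h01 : linComb ce r 0 1 ∈ maximalIdeal A)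
    (h10 : linComb ce r 1 0 ∈ maximalIdeal A) (h11 : linComb ce r 1 1 ∈ maximalIdeal A)
    (hn : linComb cn r 0 1 - 1 ∈ maximalIdeal A) :
    ∃ g : (Matrix (Fin 2) (Fin 2) A)ˣ,
      (∀ i j, ((g : Matrix (Fin 2) (Fin 2) A) - 1) i j ∈ maximalIdeal A) ∧
      IsNormalized ce cn (fun σ => (g : Matrix (Fin 2) (Fin 2) A) * r σ *
        ((g⁻¹ : (Matrix (Fin 2) (Fin 2) A)ˣ) : Matrix (Fin 2) (Fin 2) A)) := by
  obtain ⟨g, h, hgh, hhg, hg1, -, hx01, hx10, hy01⟩ :=
    NormalForm.exists_conj_normal NormalForm.quadHensel_of_henselianRing (linComb ce r)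
      (linComb cn r) h00 h01 h10 h11 hn
  refine ⟨⟨g, h, hgh, hhg⟩, hg1, ?_⟩
  show IsNormalized ce cn (fun σ => g * r σ * h)
  refine ⟨?_, ?_, ?_⟩
  · rw [NormalForm.linComb_conj]; exact hx01
  · rw [NormalForm.linComb_conj]; exact hx10
  · rw [NormalForm.linComb_conj]; exact hy01

/-- Rigidity of the normal form. -/
theorem normalized_rigid (ce cn : GQ →₀ 𝒪) (r r' : GQ → Matrix (Fin 2) (Fin 2) A)
    (h00 : linComb ce r 0 0 - 1 ∈ maximalIdeal A) (h11 : linComb ce r 1 1 ∈ maximalIdeal A)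
    (h00' : linComb ce r' 0 0 - 1 ∈ maximalIdeal A) (h11' : linComb ce r' 1 1 ∈ maximalIdeal A)
    (hr : IsNormalized ce cn r) (hr' : IsNormalized ce cn r')
    (g : (Matrix (Fin 2) (Fin 2) A)ˣ)
    (hg : ∀ σ : GQ, r' σ = (g : Matrix (Fin 2) (Fin 2) A) * r σ *
        ((g⁻¹ : (Matrix (Fin 2) (Fin 2) A)ˣ) : Matrix (Fin 2) (Fin 2) A)) : r' = r := by
  have hconj : ∀ σ, (g : Matrix (Fin 2) (Fin 2) A) * r σ = r' σ * g := by
    intro σ
    rw [hg σ, mul_assoc, Units.inv_mul, mul_one]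
  have hx := NormalForm.linComb_intertwine ce r r' g hconj
  have hy := NormalForm.linComb_intertwine cn r r' g hconj
  have hsc := NormalForm.scalar_of_intertwines (linComb ce r) (linComb ce r') (linComb cn r)
    (linComb cn r') g hr.1 hr.2.1 hr'.1 hr'.2.1 h00 h11 h00' h11' hr.2.2 hr'.2.2 hx hy
  funext σ
  have h1 := hconj σ
  rw [hsc, Matrix.smul_mul, Matrix.mul_smul, Matrix.one_mul, Matrix.mul_one] at h1
  have h2 : r' σ = r' σ * ((g : Matrix (Fin 2) (Fin 2) A) *
      ((g⁻¹ : (Matrix (Fin 2) (Fin 2) A)ˣ) : Matrix (Fin 2) (Fin 2) A)) := by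
    rw [Units.mul_inv, mul_one]
  rw [h2]
  conv_lhs => rw [hsc]
  rw [Matrix.smul_mul, Matrix.one_mul, Matrix.mul_smul, ← Matrix.smul_mul, ← h1, Matrix.smul_mul,
    ← Matrix.mul_smul]
  have h3 : (g 0 0) • ((g⁻¹ : (Matrix (Fin 2) (Fin 2) A)ˣ) : Matrix (Fin 2) (Fin 2) A) =
      (g : Matrix (Fin 2) (Fin 2) A) * ((g⁻¹ : (Matrix (Fin 2) (Fin 2) A)ˣ) :
        Matrix (Fin 2) (Fin 2) A) := by
    conv_rhs => rw [hsc]
    rw [Matrix.smul_mul, Matrix.one_mul]
  rw [h3, Units.mul_inv, mul_one]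

end Fermat.Agent.S53
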