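import Mathlib
import Fermat.Prelude.Def_GaloisRep_DeformationCondition

set_option autoImplicit false
set_option linter.style.haveILetI false
set_option linter.unusedSectionVars false

/-!
S53: basic facts about artinian test algebras and complete noetherian local algebras
over a local ring `𝒪` (shared by several S53 modules).
-/

open IsLocalRing GaloisRep

namespace Fermat.Agent.S53

/-- A ring hom out of a local ring with nilpotent maximal ideal into a nontrivial ring is local. -/
theorem isLocalHom_of_nilpotent {A B : Type*} [CommRing A] [IsLocalRing A] [CommRing B]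
    [Nontrivial B] (hnil : ∃ N : ℕ, maximalIdeal A ^ N = ⊥) (φ : A →+* B) : IsLocalHom φ := by
  refine ⟨fun a ha => ?_⟩
  by_contra hna
  obtain ⟨N, hN⟩ := hnil
  have h1 : a ^ N ∈ maximalIdeal A ^ N := Ideal.pow_mem_pow ((mem_maximalIdeal a).mpr hna) N
  rw [hN, Ideal.mem_bot] at h1
  have h2 : IsUnit (φ a ^ N) := ha.pow N
  rw [← map_pow, h1, map_zero] at h2
  exact not_isUnit_zero h2

variable {𝒪 : Type} [CommRing 𝒪] [IsLocalRing 𝒪]

section

variable {A : Type} [CommRing A] [IsLocalRing A] [Algebra 𝒪 A]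

theorem testAlg_exists_pow_eq_bot (hA : IsArtinianTestAlgebra 𝒪 A) :
    ∃ N : ℕ, maximalIdeal A ^ N = ⊥ := by
  haveI := hA.isArtinian
  obtain ⟨n, hn⟩ := IsArtinianRing.isNilpotent_jacobson_bot (R := A)
  rw [jacobson_eq_maximalIdeal _ bot_ne_top, Ideal.zero_eq_bot] at hn
  exact ⟨n, hn⟩

/-- The residue field of a local `𝒪`-algebra with local structure map and surjective residue map
is finite when that of `𝒪` is. -/
theorem finite_residueField_of_surjective [Finite (ResidueField 𝒪)]
    [IsLocalHom (algebraMap 𝒪 A)]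
    (hres : Function.Surjective (residue A ∘ algebraMap 𝒪 A)) : Finite (ResidueField A) := by
  refine Finite.of_surjective (ResidueField.map (algebraMap 𝒪 A)) ?_
  intro y
  obtain ⟨x, hx⟩ := hres y
  exact ⟨residue 𝒪 x, by rw [ResidueField.map_residue]; exact hx⟩

theorem testAlg_finite [Finite (ResidueField 𝒪)] (hA : IsArtinianTestAlgebra 𝒪 A) :
    Finite A := by
  haveI := hA.isArtinian
  haveI := hA.isLocalHom
  haveI : Finite (ResidueField A) := finite_residueField_of_surjective hA.residue_surjective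
  obtain ⟨N, hN⟩ := testAlg_exists_pow_eq_bot hA
  haveI : Finite (A ⧸ (⊥ : Ideal A)) :=
    (IsLocalRing.finite_quotient_iff (R := A)).mpr ⟨N, hN.le⟩
  exact Finite.of_equiv _ (RingEquiv.quotientBot A).toEquiv

/-- A finite local `𝒪`-algebra with local structure map and surjective residue map is a test
algebra. -/
theorem testAlg_of_finite [Finite A] (h1 : IsLocalHom (algebraMap 𝒪 A))
    (h2 : Function.Surjective (residue A ∘ algebraMap 𝒪 A)) : IsArtinianTestAlgebra 𝒪 A :=
  ⟨h1, h2, inferInstance⟩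

/-- The image of a test algebra under a surjective algebra hom onto a local algebra is a test
algebra. -/
theorem testAlg_of_surjective {B : Type} [CommRing B] [IsLocalRing B] [Algebra 𝒪 B]
    (hA : IsArtinianTestAlgebra 𝒪 A) (φ : A →ₐ[𝒪] B) (hφ : Function.Surjective φ) :
    IsArtinianTestAlgebra 𝒪 B := by
  haveI := hA.isArtinian
  haveI := hA.isLocalHom
  haveI : IsLocalHom (φ : A →+* B) := IsLocalHom.of_surjective _ hφ
  refine ⟨?_, ?_, ?_⟩
  · refine ⟨fun x hx => ?_⟩
    have h3 : IsUnit ((φ : A →+* B) (algebraMap 𝒪 A x)) := by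
      have : (φ : A →+* B) (algebraMap 𝒪 A x) = algebraMap 𝒪 B x := φ.commutes x
      rw [this]; exact hx
    exact isUnit_of_map_unit (algebraMap 𝒪 A) x (isUnit_of_map_unit (φ : A →+* B) _ h3)
  · intro y
    obtain ⟨b, rfl⟩ := residue_surjective y
    obtain ⟨a, rfl⟩ := hφ b
    obtain ⟨x, hx⟩ := hA.residue_surjective (residue A a)
    refine ⟨x, ?_⟩
    simp only [Function.comp_apply] at hx ⊢
    have h4 : algebraMap 𝒪 A x - a ∈ maximalIdeal A := by
      rw [← Ideal.Quotient.eq]; exact hx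
    have h5 : (φ : A →+* B) (algebraMap 𝒪 A x - a) ∈ maximalIdeal B := by
      rw [mem_maximalIdeal] at h4 ⊢
      exact fun h => h4 (isUnit_of_map_unit (φ : A →+* B) _ h)
    have h6 : algebraMap 𝒪 B x - φ a ∈ maximalIdeal B := by
      have : (φ : A →+* B) (algebraMap 𝒪 A x - a) = algebraMap 𝒪 B x - φ a := by
        rw [map_sub]; congr 1; exact φ.commutes x
      rw [← this]; exact h5
    exact (Ideal.Quotient.eq.mpr h6)
  · exact Function.Surjective.isArtinianRing (f := (φ : A →+* B)) hφ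

/-- The canonical map from a test algebra to the residue field of `𝒪`. -/
theorem testAlg_exists_toResidue (hA : IsArtinianTestAlgebra 𝒪 A) :
    ∃ t : A →ₐ[𝒪] ResidueField 𝒪, Function.Surjective t ∧
      ∀ a : A, t a = 0 ↔ a ∈ maximalIdeal A := by
  haveI := hA.isLocalHom
  have hbij : Function.Bijective (ResidueField.map (algebraMap 𝒪 A)) := by
    refine ⟨(ResidueField.map (algebraMap 𝒪 A)).injective, ?_⟩
    intro y
    obtain ⟨x, hx⟩ := hA.residue_surjective y
    exact ⟨residue 𝒪 x, by rw [ResidueField.map_residue]; exact hx⟩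
  let e : ResidueField 𝒪 ≃+* ResidueField A := RingEquiv.ofBijective _ hbij
  let t0 : A →+* ResidueField 𝒪 := (e.symm : ResidueField A →+* ResidueField 𝒪).comp (residue A)
  have ht0 : ∀ x : 𝒪, t0 (algebraMap 𝒪 A x) = algebraMap 𝒪 (ResidueField 𝒪) x := by
    intro x
    show e.symm (residue A (algebraMap 𝒪 A x)) = _
    rw [RingEquiv.symm_apply_eq]
    show _ = ResidueField.map (algebraMap 𝒪 A) (residue 𝒪 x)
    rw [ResidueField.map_residue]
  refine ⟨{ t0 with commutes' := ht0 }, ?_, ?_⟩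
  · intro y
    obtain ⟨a, ha⟩ := residue_surjective (e y)
    refine ⟨a, ?_⟩
    show e.symm (residue A a) = y
    rw [ha, RingEquiv.symm_apply_apply]
  · intro a
    show e.symm (residue A a) = 0 ↔ _
    rw [map_eq_zero_iff _ e.symm.injective, residue_eq_zero_iff]

end

/-- The residue field of `𝒪` is a test algebra. -/
theorem testAlg_residueField : IsArtinianTestAlgebra 𝒪 (ResidueField 𝒪) := by
  refine ⟨?_, ?_, inferInstance⟩
  · refine ⟨fun x hx => ?_⟩
    by_contra h
    have : residue 𝒪 x = 0 := (residue_eq_zero_iff x).mpr ((mem_maximalIdeal x).mpr h)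
    rw [ResidueField.algebraMap_eq, this] at hx
    exact not_isUnit_zero hx
  · intro y
    obtain ⟨x, rfl⟩ := residue_surjective y
    obtain ⟨x', rfl⟩ := residue_surjective x
    exact ⟨x', rfl⟩

/-- Artinian quotients of a noetherian local algebra with arbitrarily small kernel. -/
theorem exists_test_quotient (A : Type) [CommRing A] [IsLocalRing A] [IsNoetherianRing A]
    [Algebra 𝒪 A] [IsLocalHom (algebraMap 𝒪 A)]
    (hres : Function.Surjective (residue A ∘ algebraMap 𝒪 A)) (n : ℕ) :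
    ∃ (B : Type) (_ : CommRing B) (_ : IsLocalRing B) (_ : Algebra 𝒪 B) (q : A →ₐ[𝒪] B),
      IsArtinianTestAlgebra 𝒪 B ∧ IsLocalHom (q : A →+* B) ∧ Function.Surjective q ∧
      RingHom.ker (q : A →+* B) = maximalIdeal A ^ (n + 1) := by
  have hne : maximalIdeal A ^ (n + 1) ≠ ⊤ := by
    intro h
    have h1 : (1 : A) ∈ maximalIdeal A ^ (n + 1) := h ▸ Submodule.mem_top
    have h2 : (1 : A) ∈ maximalIdeal A := Ideal.pow_le_self (by omega) h1
    exact (maximalIdeal.isMaximal A).ne_top ((Ideal.eq_top_iff_one _).mpr h2)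
  haveI : Nontrivial (A ⧸ maximalIdeal A ^ (n + 1)) := Ideal.Quotient.nontrivial_iff.mpr hne
  haveI hloc : IsLocalRing (A ⧸ maximalIdeal A ^ (n + 1)) :=
    IsLocalRing.of_surjective' (Ideal.Quotient.mk _) Ideal.Quotient.mk_surjective
  have hq : IsLocalHom (Ideal.Quotient.mk (maximalIdeal A ^ (n + 1))) :=
    IsLocalHom.of_surjective _ Ideal.Quotient.mk_surjective
  refine ⟨A ⧸ maximalIdeal A ^ (n + 1), inferInstance, hloc, inferInstance,
    Ideal.Quotient.mkₐ 𝒪 _, ?_, hq, Ideal.Quotient.mk_surjective, Ideal.mk_ker⟩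
  have hmax : maximalIdeal (A ⧸ maximalIdeal A ^ (n + 1)) =
      (maximalIdeal A).map (Ideal.Quotient.mk (maximalIdeal A ^ (n + 1))) := by
    ext x
    obtain ⟨x, rfl⟩ := Ideal.Quotient.mk_surjective x
    rw [Ideal.mem_map_iff_of_surjective _ Ideal.Quotient.mk_surjective]
    constructor
    · intro hx
      refine ⟨x, ?_, rfl⟩
      rw [mem_maximalIdeal] at hx ⊢
      exact fun h => hx (h.map _)
    · rintro ⟨y, hy, hyx⟩
      rw [← hyx, mem_maximalIdeal]
      rw [mem_maximalIdeal] at hy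
      exact fun h => hy (isUnit_of_map_unit (Ideal.Quotient.mk (maximalIdeal A ^ (n + 1))) y h)
  refine ⟨?_, ?_, ?_⟩
  · refine ⟨fun x hx => ?_⟩
    have h3 : IsUnit (Ideal.Quotient.mk (maximalIdeal A ^ (n + 1)) (algebraMap 𝒪 A x)) := hx
    exact isUnit_of_map_unit (algebraMap 𝒪 A) x
      (isUnit_of_map_unit (Ideal.Quotient.mk (maximalIdeal A ^ (n + 1))) _ h3)
  · intro y
    obtain ⟨b, rfl⟩ := residue_surjective y
    obtain ⟨a, rfl⟩ := Ideal.Quotient.mk_surjective b
    obtain ⟨x, hx⟩ := hres (residue A a)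
    refine ⟨x, ?_⟩
    simp only [Function.comp_apply] at hx ⊢
    have h4 : algebraMap 𝒪 A x - a ∈ maximalIdeal A := by
      rw [← Ideal.Quotient.eq]; exact hx
    refine Ideal.Quotient.eq.mpr ?_
    rw [hmax]
    have : algebraMap 𝒪 (A ⧸ maximalIdeal A ^ (n + 1)) x -
        Ideal.Quotient.mk (maximalIdeal A ^ (n + 1)) a =
        Ideal.Quotient.mk (maximalIdeal A ^ (n + 1)) (algebraMap 𝒪 A x - a) := by
      rw [map_sub]; rfl
    rw [this]
    exact Ideal.mem_map_of_mem _ h4
  · rw [isArtinianRing_iff_isNilpotent_maximalIdeal]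
    refine ⟨n + 1, ?_⟩
    rw [hmax, ← Ideal.map_pow, Ideal.zero_eq_bot, Ideal.map_eq_bot_iff_le_ker, Ideal.mk_ker]

/-- The quotients `A ⧸ m ^ (n + 1)` of a noetherian local algebra are test algebras. -/
theorem exists_isLocalRing_quot_pow (A : Type) [CommRing A] [IsLocalRing A] [IsNoetherianRing A]
    [Algebra 𝒪 A] [IsLocalHom (algebraMap 𝒪 A)]
    (hres : Function.Surjective (residue A ∘ algebraMap 𝒪 A)) (n : ℕ) :
    ∃ _ : IsLocalRing (A ⧸ maximalIdeal A ^ (n + 1)),
      IsArtinianTestAlgebra 𝒪 (A ⧸ maximalIdeal A ^ (n + 1)) := by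
  have hne : maximalIdeal A ^ (n + 1) ≠ ⊤ := by
    intro h
    have h1 : (1 : A) ∈ maximalIdeal A ^ (n + 1) := h ▸ Submodule.mem_top
    have h2 : (1 : A) ∈ maximalIdeal A := Ideal.pow_le_self (by omega) h1
    exact (maximalIdeal.isMaximal A).ne_top ((Ideal.eq_top_iff_one _).mpr h2)
  haveI : Nontrivial (A ⧸ maximalIdeal A ^ (n + 1)) := Ideal.Quotient.nontrivial_iff.mpr hne
  haveI hloc : IsLocalRing (A ⧸ maximalIdeal A ^ (n + 1)) :=
    IsLocalRing.of_surjective' (Ideal.Quotient.mk _) Ideal.Quotient.mk_surjective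
  have hq : IsLocalHom (Ideal.Quotient.mk (maximalIdeal A ^ (n + 1))) :=
    IsLocalHom.of_surjective _ Ideal.Quotient.mk_surjective
  refine ⟨hloc, ?_⟩
  have hmax : maximalIdeal (A ⧸ maximalIdeal A ^ (n + 1)) =
      (maximalIdeal A).map (Ideal.Quotient.mk (maximalIdeal A ^ (n + 1))) := by
    ext x
    obtain ⟨x, rfl⟩ := Ideal.Quotient.mk_surjective x
    rw [Ideal.mem_map_iff_of_surjective _ Ideal.Quotient.mk_surjective]
    constructor
    · intro hx
      refine ⟨x, ?_, rfl⟩
      rw [mem_maximalIdeal] at hx ⊢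
      exact fun h => hx (h.map _)
    · rintro ⟨y, hy, hyx⟩
      rw [← hyx, mem_maximalIdeal]
      rw [mem_maximalIdeal] at hy
      exact fun h => hy (isUnit_of_map_unit (Ideal.Quotient.mk (maximalIdeal A ^ (n + 1))) y h)
  refine ⟨?_, ?_, ?_⟩
  · refine ⟨fun x hx => ?_⟩
    have h3 : IsUnit (Ideal.Quotient.mk (maximalIdeal A ^ (n + 1)) (algebraMap 𝒪 A x)) := hx
    exact isUnit_of_map_unit (algebraMap 𝒪 A) x
      (isUnit_of_map_unit (Ideal.Quotient.mk (maximalIdeal A ^ (n + 1))) _ h3)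
  · intro y
    obtain ⟨b, rfl⟩ := residue_surjective y
    obtain ⟨a, rfl⟩ := Ideal.Quotient.mk_surjective b
    obtain ⟨x, hx⟩ := hres (residue A a)
    refine ⟨x, ?_⟩
    simp only [Function.comp_apply] at hx ⊢
    have h4 : algebraMap 𝒪 A x - a ∈ maximalIdeal A := by
      rw [← Ideal.Quotient.eq]; exact hx
    refine Ideal.Quotient.eq.mpr ?_
    rw [hmax]
    have : algebraMap 𝒪 (A ⧸ maximalIdeal A ^ (n + 1)) x -
        Ideal.Quotient.mk (maximalIdeal A ^ (n + 1)) a =
        Ideal.Quotient.mk (maximalIdeal A ^ (n + 1)) (algebraMap 𝒪 A x - a) := by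
      rw [map_sub]; rfl
    rw [this]
    exact Ideal.mem_map_of_mem _ h4
  · rw [isArtinianRing_iff_isNilpotent_maximalIdeal]
    refine ⟨n + 1, ?_⟩
    rw [hmax, ← Ideal.map_pow, Ideal.zero_eq_bot, Ideal.map_eq_bot_iff_le_ker, Ideal.mk_ker]

end Fermat.Agent.S53
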