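import Fermat.Agent.S53_Limit
import Fermat.Agent.S53_TestAlg

set_option autoImplicit false
set_option linter.style.haveILetI false
set_option linter.unusedSectionVars false

/-!
S53: abstract pro-representability theorem, deduced from the limit theorem `exists_limit`.
-/

open IsLocalRing GaloisRep

namespace Fermat.Agent.S53

namespace ProRep

/-- An injective ring hom out of a finite commutative ring is local. -/
theorem isLocalHom_of_injective_of_finite {A B : Type*} [CommRing A] [CommRing B] [Finite A]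
    (φ : A →+* B) (hφ : Function.Injective φ) : IsLocalHom φ := by
  refine ⟨fun a ha => ?_⟩
  have hinj : Function.Injective (fun x : A => a * x) := by
    intro x y hxy
    apply hφ
    have h1 : φ a * φ x = φ a * φ y := by
      rw [← map_mul, ← map_mul]; exact congrArg φ hxy
    exact ha.mul_left_cancel h1
  obtain ⟨b, hb⟩ := (Finite.injective_iff_surjective.mp hinj) 1
  exact IsUnit.of_mul_eq_one b hb

section

variable {𝒪 : Type} [CommRing 𝒪] [IsLocalRing 𝒪] [Finite (ResidueField 𝒪)]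
variable {S : Type} [CommRing S] [Algebra 𝒪 S]
variable (Good : ∀ ⦃A : Type⦄ [CommRing A] [IsLocalRing A] [Algebra 𝒪 A], (S →ₐ[𝒪] A) → Prop)

/-- The family of ideals whose quotient is a test algebra carrying a good point. -/
def goodIdeals : Set (Ideal S) :=
  {K | ∃ _ : IsLocalRing (S ⧸ K), IsArtinianTestAlgebra 𝒪 (S ⧸ K) ∧
    Good (Ideal.Quotient.mkₐ 𝒪 K)}

variable {Good}

/-- The kernel of a good point of a test algebra is a good ideal. -/
theorem ker_mem_goodIdeals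
    (h_inj : ∀ ⦃A B : Type⦄ [CommRing A] [IsLocalRing A] [Algebra 𝒪 A]
      [CommRing B] [IsLocalRing B] [Algebra 𝒪 B],
      IsArtinianTestAlgebra 𝒪 A → IsArtinianTestAlgebra 𝒪 B →
      ∀ (φ : A →ₐ[𝒪] B), IsLocalHom (φ : A →+* B) → Function.Injective φ →
        ∀ f : S →ₐ[𝒪] A, Good (φ.comp f) → Good f)
    {A : Type} [CommRing A] [IsLocalRing A] [Algebra 𝒪 A] (hA : IsArtinianTestAlgebra 𝒪 A)
    (f : S →ₐ[𝒪] A) (hf : Good f) : RingHom.ker f ∈ goodIdeals Good := by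
  haveI := testAlg_finite hA
  have hfbar : Function.Injective (Ideal.kerLiftAlg f) := Ideal.kerLiftAlg_injective f
  haveI : Finite (S ⧸ RingHom.ker f) := Finite.of_injective _ hfbar
  haveI hloc : IsLocalHom ((Ideal.kerLiftAlg f : S ⧸ RingHom.ker f →ₐ[𝒪] A) :
      S ⧸ RingHom.ker f →+* A) :=
    isLocalHom_of_injective_of_finite _ hfbar
  haveI hlr : IsLocalRing (S ⧸ RingHom.ker f) :=
    RingHom.domain_isLocalRing ((Ideal.kerLiftAlg f : S ⧸ RingHom.ker f →ₐ[𝒪] A) :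
      S ⧸ RingHom.ker f →+* A)
  have hmem : ∀ y : S ⧸ RingHom.ker f,
      y ∈ maximalIdeal (S ⧸ RingHom.ker f) ↔ Ideal.kerLiftAlg f y ∈ maximalIdeal A := by
    intro y
    rw [mem_maximalIdeal, mem_maximalIdeal, mem_nonunits_iff, mem_nonunits_iff]
    exact not_congr (isUnit_map_iff ((Ideal.kerLiftAlg f :
      S ⧸ RingHom.ker f →ₐ[𝒪] A) : S ⧸ RingHom.ker f →+* A) y).symm
  have htest : IsArtinianTestAlgebra 𝒪 (S ⧸ RingHom.ker f) := by
    refine testAlg_of_finite ⟨fun x hx => ?_⟩ ?_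
    · haveI := hA.isLocalHom
      have h1 : IsUnit (Ideal.kerLiftAlg f (algebraMap 𝒪 (S ⧸ RingHom.ker f) x)) :=
        hx.map (Ideal.kerLiftAlg f)
      rw [AlgHom.commutes] at h1
      exact isUnit_of_map_unit (algebraMap 𝒪 A) x h1
    · intro y
      obtain ⟨b, rfl⟩ := residue_surjective y
      obtain ⟨x, hx⟩ := hA.residue_surjective (residue A (Ideal.kerLiftAlg f b))
      refine ⟨x, ?_⟩
      simp only [Function.comp_apply] at hx ⊢
      have h4 : algebraMap 𝒪 A x - Ideal.kerLiftAlg f b ∈ maximalIdeal A := by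
        rw [← Ideal.Quotient.eq]; exact hx
      refine Ideal.Quotient.eq.mpr ?_
      rw [hmem, map_sub, AlgHom.commutes]
      exact h4
  refine ⟨hlr, htest, ?_⟩
  refine h_inj htest hA (Ideal.kerLiftAlg f) hloc hfbar _ ?_
  have : (Ideal.kerLiftAlg f).comp (Ideal.Quotient.mkₐ 𝒪 (RingHom.ker f)) = f :=
    AlgHom.ext fun s => rfl
  rw [this]
  exact hf

/-- The canonical map to the residue field attached to a good ideal. -/
theorem goodIdeals_toResidue
    (h_comp : ∀ ⦃A B : Type⦄ [CommRing A] [IsLocalRing A] [Algebra 𝒪 A]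
      [CommRing B] [IsLocalRing B] [Algebra 𝒪 B],
      IsArtinianTestAlgebra 𝒪 A → IsArtinianTestAlgebra 𝒪 B →
      ∀ (φ : A →ₐ[𝒪] B), IsLocalHom (φ : A →+* B) → ∀ f : S →ₐ[𝒪] A, Good f → Good (φ.comp f))
    (ε₀ : S →ₐ[𝒪] ResidueField 𝒪)
    (h_res_unique : ∀ f : S →ₐ[𝒪] ResidueField 𝒪, Good f → f = ε₀)
    {K : Ideal S} (hK : K ∈ goodIdeals Good) :
    ∃ (_ : IsLocalRing (S ⧸ K)) (t : S ⧸ K →ₐ[𝒪] ResidueField 𝒪),
      IsArtinianTestAlgebra 𝒪 (S ⧸ K) ∧ Good (Ideal.Quotient.mkₐ 𝒪 K) ∧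
      t.comp (Ideal.Quotient.mkₐ 𝒪 K) = ε₀ ∧ ∀ a, t a = 0 ↔ a ∈ maximalIdeal (S ⧸ K) := by
  obtain ⟨hloc, htest, hgood⟩ := hK
  obtain ⟨t, -, ht0⟩ := testAlg_exists_toResidue htest
  have tloc : IsLocalHom (t : S ⧸ K →+* ResidueField 𝒪) :=
    isLocalHom_of_nilpotent (testAlg_exists_pow_eq_bot htest) _
  exact ⟨hloc, t, htest, hgood,
    h_res_unique _ (h_comp htest testAlg_residueField t tloc _ hgood), ht0⟩

theorem up_mem_goodIdeals
    (h_comp : ∀ ⦃A B : Type⦄ [CommRing A] [IsLocalRing A] [Algebra 𝒪 A]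
      [CommRing B] [IsLocalRing B] [Algebra 𝒪 B],
      IsArtinianTestAlgebra 𝒪 A → IsArtinianTestAlgebra 𝒪 B →
      ∀ (φ : A →ₐ[𝒪] B), IsLocalHom (φ : A →+* B) → ∀ f : S →ₐ[𝒪] A, Good f → Good (φ.comp f))
    {K K' : Ideal S} (hK : K ∈ goodIdeals Good) (hKK' : K ≤ K') (hne : K' ≠ ⊤) :
    K' ∈ goodIdeals Good := by
  obtain ⟨hloc, htest, hgood⟩ := hK
  haveI : Nontrivial (S ⧸ K') := Ideal.Quotient.nontrivial_iff.mpr hne
  have hsurj : Function.Surjective (Ideal.Quotient.factorₐ 𝒪 hKK') :=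
    Ideal.Quotient.factor_surjective hKK'
  haveI hloc' : IsLocalRing (S ⧸ K') :=
    IsLocalRing.of_surjective' (Ideal.Quotient.factor hKK') (Ideal.Quotient.factor_surjective hKK')
  have hφ : IsLocalHom ((Ideal.Quotient.factorₐ 𝒪 hKK' : S ⧸ K →ₐ[𝒪] S ⧸ K') :
      S ⧸ K →+* S ⧸ K') := IsLocalHom.of_surjective _ hsurj
  have htest' := testAlg_of_surjective htest (Ideal.Quotient.factorₐ 𝒪 hKK') hsurj
  refine ⟨hloc', htest', ?_⟩
  have := h_comp htest htest' (Ideal.Quotient.factorₐ 𝒪 hKK') hφ _ hgood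
  rwa [Ideal.Quotient.factorₐ_comp_mk] at this

theorem inf_mem_goodIdeals
    (h_comp : ∀ ⦃A B : Type⦄ [CommRing A] [IsLocalRing A] [Algebra 𝒪 A]
      [CommRing B] [IsLocalRing B] [Algebra 𝒪 B],
      IsArtinianTestAlgebra 𝒪 A → IsArtinianTestAlgebra 𝒪 B →
      ∀ (φ : A →ₐ[𝒪] B), IsLocalHom (φ : A →+* B) → ∀ f : S →ₐ[𝒪] A, Good f → Good (φ.comp f))
    (h_inj : ∀ ⦃A B : Type⦄ [CommRing A] [IsLocalRing A] [Algebra 𝒪 A]
      [CommRing B] [IsLocalRing B] [Algebra 𝒪 B],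
      IsArtinianTestAlgebra 𝒪 A → IsArtinianTestAlgebra 𝒪 B →
      ∀ (φ : A →ₐ[𝒪] B), IsLocalHom (φ : A →+* B) → Function.Injective φ →
        ∀ f : S →ₐ[𝒪] A, Good (φ.comp f) → Good f)
    (h_fib : ∀ ⦃A B C P : Type⦄ [CommRing A] [IsLocalRing A] [Algebra 𝒪 A]
      [CommRing B] [IsLocalRing B] [Algebra 𝒪 B] [CommRing C] [IsLocalRing C] [Algebra 𝒪 C]
      [CommRing P] [IsLocalRing P] [Algebra 𝒪 P],
      IsArtinianTestAlgebra 𝒪 A → IsArtinianTestAlgebra 𝒪 B → IsArtinianTestAlgebra 𝒪 C →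
      IsArtinianTestAlgebra 𝒪 P →
      ∀ (f : A →ₐ[𝒪] C) (g : B →ₐ[𝒪] C) (pA : P →ₐ[𝒪] A) (pB : P →ₐ[𝒪] B),
        IsLocalHom (pA : P →+* A) → IsLocalHom (pB : P →+* B) →
        f.comp pA = g.comp pB →
        Function.Injective (fun x => (pA x, pB x)) →
        (∀ a b, f a = g b → ∃ x, pA x = a ∧ pB x = b) →
        ∀ h : S →ₐ[𝒪] P, Good (pA.comp h) → Good (pB.comp h) → Good h)
    (ε₀ : S →ₐ[𝒪] ResidueField 𝒪)
    (h_res_unique : ∀ f : S →ₐ[𝒪] ResidueField 𝒪, Good f → f = ε₀)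
    {K K' : Ideal S} (hK : K ∈ goodIdeals Good) (hK' : K' ∈ goodIdeals Good) :
    K ⊓ K' ∈ goodIdeals Good := by
  obtain ⟨hloc, t, htest, hgood, ht, ht0⟩ := goodIdeals_toResidue h_comp ε₀ h_res_unique hK
  obtain ⟨hloc', t', htest', hgood', ht', ht0'⟩ :=
    goodIdeals_toResidue h_comp ε₀ h_res_unique hK'
  have tloc' : IsLocalHom (t' : S ⧸ K' →+* ResidueField 𝒪) :=
    isLocalHom_of_nilpotent (testAlg_exists_pow_eq_bot htest') _
  haveI : IsLocalHom t' := ⟨fun a h => tloc'.map_nonunit a h⟩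
  haveI hE : IsLocalRing (AlgHom.pullback t t') := AlgHom.isLocalRing_pullback t t'
  have hpA : IsLocalHom ((AlgHom.pullbackFst t t' : AlgHom.pullback t t' →ₐ[𝒪] S ⧸ K) :
      AlgHom.pullback t t' →+* S ⧸ K) := by
    refine ⟨fun x hx => ?_⟩
    obtain ⟨⟨a, b⟩, hab⟩ := x
    rw [AlgHom.isUnit_pullback_mk_iff]
    refine ⟨hx, ?_⟩
    have e : t a = t' b := hab
    by_contra hb
    have hb' : b ∈ maximalIdeal (S ⧸ K') := (mem_maximalIdeal b).mpr hb
    rw [← ht0', ← e, ht0] at hb'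
    exact ((mem_maximalIdeal a).mp hb') hx
  have hpB : IsLocalHom ((AlgHom.pullbackSnd t t' : AlgHom.pullback t t' →ₐ[𝒪] S ⧸ K') :
      AlgHom.pullback t t' →+* S ⧸ K') := by
    refine ⟨fun x hx => ?_⟩
    obtain ⟨⟨a, b⟩, hab⟩ := x
    rw [AlgHom.isUnit_pullback_mk_iff]
    refine ⟨?_, hx⟩
    have e : t a = t' b := hab
    by_contra ha
    have ha' : a ∈ maximalIdeal (S ⧸ K) := (mem_maximalIdeal a).mpr ha
    rw [← ht0, e, ht0'] at ha'
    exact ((mem_maximalIdeal b).mp ha') hx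
  haveI := testAlg_finite htest
  haveI := testAlg_finite htest'
  haveI : Finite (AlgHom.pullback t t') :=
    Finite.of_injective (fun x : AlgHom.pullback t t' => (x : (S ⧸ K) × (S ⧸ K')))
      Subtype.val_injective
  have hEtest : IsArtinianTestAlgebra 𝒪 (AlgHom.pullback t t') := by
    refine testAlg_of_finite ⟨fun x hx => ?_⟩ ?_
    · haveI := htest.isLocalHom
      have h1 : IsUnit (AlgHom.pullbackFst t t' (algebraMap 𝒪 (AlgHom.pullback t t') x)) :=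
        hx.map (AlgHom.pullbackFst t t')
      rw [AlgHom.commutes] at h1
      exact isUnit_of_map_unit (algebraMap 𝒪 (S ⧸ K)) x h1
    · intro y
      obtain ⟨e, rfl⟩ := residue_surjective y
      obtain ⟨x, hx⟩ := htest.residue_surjective (residue _ (AlgHom.pullbackFst t t' e))
      refine ⟨x, ?_⟩
      simp only [Function.comp_apply] at hx ⊢
      have h4 : algebraMap 𝒪 (S ⧸ K) x - AlgHom.pullbackFst t t' e ∈ maximalIdeal (S ⧸ K) := by
        rw [← Ideal.Quotient.eq]; exact hx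
      refine Ideal.Quotient.eq.mpr ?_
      rw [mem_maximalIdeal, mem_nonunits_iff]
      intro hu
      have h5 : IsUnit (AlgHom.pullbackFst t t' (algebraMap 𝒪 (AlgHom.pullback t t') x - e)) :=
        hu.map (AlgHom.pullbackFst t t')
      rw [map_sub, AlgHom.commutes] at h5
      exact ((mem_maximalIdeal _).mp h4) h5
  have hmem : ∀ s : S, ((Ideal.Quotient.mkₐ 𝒪 K).prod (Ideal.Quotient.mkₐ 𝒪 K')) s ∈
      AlgHom.pullback t t' := by
    intro s
    show t (Ideal.Quotient.mkₐ 𝒪 K s) = t' (Ideal.Quotient.mkₐ 𝒪 K' s)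
    have e1 : t (Ideal.Quotient.mkₐ 𝒪 K s) = ε₀ s := congrArg (fun g => g s) ht
    have e2 : t' (Ideal.Quotient.mkₐ 𝒪 K' s) = ε₀ s := congrArg (fun g => g s) ht'
    rw [e1, e2]
  have hgoodh : Good (AlgHom.codRestrict
      ((Ideal.Quotient.mkₐ 𝒪 K).prod (Ideal.Quotient.mkₐ 𝒪 K')) (AlgHom.pullback t t') hmem) := by
    refine h_fib htest htest' testAlg_residueField hEtest t t' (AlgHom.pullbackFst t t')
      (AlgHom.pullbackSnd t t') hpA hpB (AlgHom.pullback_comm_sq t t') ?_ ?_ _ hgood hgood'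
    · intro x y hxy
      exact Subtype.ext (Prod.ext (congrArg Prod.fst hxy) (congrArg Prod.snd hxy))
    · intro a b hab
      exact ⟨⟨(a, b), hab⟩, rfl, rfl⟩
  have hmemK := ker_mem_goodIdeals h_inj hEtest _ hgoodh
  have hker : RingHom.ker (AlgHom.codRestrict
      ((Ideal.Quotient.mkₐ 𝒪 K).prod (Ideal.Quotient.mkₐ 𝒪 K')) (AlgHom.pullback t t') hmem) =
      K ⊓ K' := by
    ext s
    rw [RingHom.mem_ker, Ideal.mem_inf]
    constructor
    · intro hs
      have h1 : ((Ideal.Quotient.mkₐ 𝒪 K).prod (Ideal.Quotient.mkₐ 𝒪 K')) s = 0 :=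
        congrArg Subtype.val hs
      exact ⟨Ideal.Quotient.eq_zero_iff_mem.mp (congrArg Prod.fst h1),
        Ideal.Quotient.eq_zero_iff_mem.mp (congrArg Prod.snd h1)⟩
    · rintro ⟨h1, h2⟩
      apply Subtype.ext
      exact Prod.ext (Ideal.Quotient.eq_zero_iff_mem.mpr h1) (Ideal.Quotient.eq_zero_iff_mem.mpr h2)
  rw [hker] at hmemK
  exact hmemK

end

/-- A local hom maps powers of the maximal ideal into powers of the maximal ideal. -/
theorem map_pow_mem {R C : Type*} [CommRing R] [IsLocalRing R] [CommRing C] [IsLocalRing C]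
    (φ : R →+* C) (hφ : IsLocalHom φ) (n : ℕ) (y : R) (hy : y ∈ maximalIdeal R ^ n) :
    φ y ∈ maximalIdeal C ^ n := by
  have h1 : (maximalIdeal R).map φ ≤ maximalIdeal C := by
    rw [Ideal.map_le_iff_le_comap]
    intro y hy
    rw [Ideal.mem_comap, mem_maximalIdeal, mem_nonunits_iff]
    intro h
    exact ((mem_maximalIdeal y).mp hy) (hφ.map_nonunit y h)
  have h2 : (maximalIdeal R ^ n).map φ ≤ maximalIdeal C ^ n := by
    rw [Ideal.map_pow]
    exact Ideal.pow_right_mono h1 n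
  exact h2 (Ideal.mem_map_of_mem φ hy)

/-- Two algebra homs agreeing on a dense subalgebra and killing a power of the maximal ideal
are equal. -/
theorem hom_ext_of_dense {𝒪 : Type} [CommRing 𝒪] {S : Type} [CommRing S] [Algebra 𝒪 S]
    {R : Type} [CommRing R] [IsLocalRing R] [Algebra 𝒪 R] (u : S →ₐ[𝒪] R)
    (hdense : ∀ (n : ℕ) (x : R), ∃ s : S, x - u s ∈ maximalIdeal R ^ n)
    {C : Type*} [CommRing C] [Algebra 𝒪 C] (α β : R →ₐ[𝒪] C) (hαβ : α.comp u = β.comp u)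
    (N : ℕ) (hα : ∀ y ∈ maximalIdeal R ^ N, α y = 0) (hβ : ∀ y ∈ maximalIdeal R ^ N, β y = 0) :
    α = β := by
  ext x
  obtain ⟨s, hs⟩ := hdense N x
  have h1 := hα _ hs
  have h2 := hβ _ hs
  rw [map_sub, sub_eq_zero] at h1 h2
  have h3 : α (u s) = β (u s) := congrArg (fun g => g s) hαβ
  rw [h1, h2, h3]

end ProRep

open ProRep in
theorem exists_prorep
    (𝒪 : Type) [CommRing 𝒪] [IsDomain 𝒪] [IsDiscreteValuationRing 𝒪]
    [IsAdicComplete (maximalIdeal 𝒪) 𝒪] [Finite (ResidueField 𝒪)]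
    {S : Type} [CommRing S] [Algebra 𝒪 S]
    (Good : ∀ ⦃A : Type⦄ [CommRing A] [IsLocalRing A] [Algebra 𝒪 A], (S →ₐ[𝒪] A) → Prop)
    (ε₀ : S →ₐ[𝒪] ResidueField 𝒪)
    (h_res : Good ε₀)
    (h_res_unique : ∀ f : S →ₐ[𝒪] ResidueField 𝒪, Good f → f = ε₀)
    (h_comp : ∀ ⦃A B : Type⦄ [CommRing A] [IsLocalRing A] [Algebra 𝒪 A]
      [CommRing B] [IsLocalRing B] [Algebra 𝒪 B],
      IsArtinianTestAlgebra 𝒪 A → IsArtinianTestAlgebra 𝒪 B →
      ∀ (φ : A →ₐ[𝒪] B), IsLocalHom (φ : A →+* B) → ∀ f : S →ₐ[𝒪] A, Good f → Good (φ.comp f))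
    (h_inj : ∀ ⦃A B : Type⦄ [CommRing A] [IsLocalRing A] [Algebra 𝒪 A]
      [CommRing B] [IsLocalRing B] [Algebra 𝒪 B],
      IsArtinianTestAlgebra 𝒪 A → IsArtinianTestAlgebra 𝒪 B →
      ∀ (φ : A →ₐ[𝒪] B), IsLocalHom (φ : A →+* B) → Function.Injective φ →
        ∀ f : S →ₐ[𝒪] A, Good (φ.comp f) → Good f)
    (h_fib : ∀ ⦃A B C P : Type⦄ [CommRing A] [IsLocalRing A] [Algebra 𝒪 A]
      [CommRing B] [IsLocalRing B] [Algebra 𝒪 B] [CommRing C] [IsLocalRing C] [Algebra 𝒪 C]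
      [CommRing P] [IsLocalRing P] [Algebra 𝒪 P],
      IsArtinianTestAlgebra 𝒪 A → IsArtinianTestAlgebra 𝒪 B → IsArtinianTestAlgebra 𝒪 C →
      IsArtinianTestAlgebra 𝒪 P →
      ∀ (f : A →ₐ[𝒪] C) (g : B →ₐ[𝒪] C) (pA : P →ₐ[𝒪] A) (pB : P →ₐ[𝒪] B),
        IsLocalHom (pA : P →+* A) → IsLocalHom (pB : P →+* B) →
        f.comp pA = g.comp pB →
        Function.Injective (fun x => (pA x, pB x)) →
        (∀ a b, f a = g b → ∃ x, pA x = a ∧ pB x = b) →
        ∀ h : S →ₐ[𝒪] P, Good (pA.comp h) → Good (pB.comp h) → Good h)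
    (h_tan : ∃ N : ℕ, ∀ ⦃A : Type⦄ [CommRing A] [IsLocalRing A] [Algebra 𝒪 A],
      IsArtinianTestAlgebra 𝒪 A → maximalIdeal A ^ 2 = ⊥ →
      (maximalIdeal 𝒪).map (algebraMap 𝒪 A) = ⊥ →
      ∀ f : S →ₐ[𝒪] A, Function.Surjective f → Good f → Nat.card A ≤ N) :
    ∃ (R : Type) (_ : CommRing R) (_ : IsLocalRing R) (_ : IsNoetherianRing R)
      (_ : IsAdicComplete (maximalIdeal R) R) (_ : Algebra 𝒪 R)
      (_ : IsLocalHom (algebraMap 𝒪 R)) (u : S →ₐ[𝒪] R),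
      Function.Surjective (residue R ∘ algebraMap 𝒪 R) ∧
      (∀ ⦃B : Type⦄ [CommRing B] [IsLocalRing B] [Algebra 𝒪 B], IsArtinianTestAlgebra 𝒪 B →
        ∀ q : R →ₐ[𝒪] B, IsLocalHom (q : R →+* B) → Good (q.comp u)) ∧
      (∀ (A : Type) [CommRing A] [IsLocalRing A] [IsNoetherianRing A]
        [IsAdicComplete (maximalIdeal A) A] [Algebra 𝒪 A] [IsLocalHom (algebraMap 𝒪 A)],
        Function.Surjective (residue A ∘ algebraMap 𝒪 A) → ∀ f : S →ₐ[𝒪] A,
        (∀ ⦃B : Type⦄ [CommRing B] [IsLocalRing B] [Algebra 𝒪 B], IsArtinianTestAlgebra 𝒪 B →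
          ∀ q : A →ₐ[𝒪] B, IsLocalHom (q : A →+* B) → Function.Surjective q →
            Good (q.comp f)) →
        ∃! φ : R →ₐ[𝒪] A, IsLocalHom (φ : R →+* A) ∧ φ.comp u = f) := by
  have hε₀surj : Function.Surjective ε₀ := by
    intro y
    obtain ⟨x, rfl⟩ := residue_surjective y
    exact ⟨algebraMap 𝒪 S x, by rw [AlgHom.commutes]; rfl⟩
  have hK₀max : (RingHom.ker ε₀).IsMaximal := RingHom.ker_isMaximal_of_surjective ε₀ hε₀surj
  have hK₀ : RingHom.ker ε₀ ∈ goodIdeals Good :=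
    ker_mem_goodIdeals h_inj testAlg_residueField ε₀ h_res
  have hle : ∀ K ∈ goodIdeals Good, K ≤ RingHom.ker ε₀ := by
    intro K hK s hs
    obtain ⟨hloc, t, htest, hgood, ht, ht0⟩ := goodIdeals_toResidue h_comp ε₀ h_res_unique hK
    rw [RingHom.mem_ker, ← ht]
    show t (Ideal.Quotient.mk K s) = 0
    rw [Ideal.Quotient.eq_zero_iff_mem.mpr hs, map_zero]
  have htan' : ∃ N : ℕ, ∀ K ∈ goodIdeals Good, RingHom.ker ε₀ ^ 2 ≤ K →
      (maximalIdeal 𝒪).map (algebraMap 𝒪 S) ≤ K → Nat.card (S ⧸ K) ≤ N := by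
    obtain ⟨N, hN⟩ := h_tan
    refine ⟨N, fun K hK h2 hπ => ?_⟩
    obtain ⟨hloc, t, htest, hgood, ht, ht0⟩ := goodIdeals_toResidue h_comp ε₀ h_res_unique hK
    refine hN htest ?_ ?_ (Ideal.Quotient.mkₐ 𝒪 K) (Ideal.Quotient.mkₐ_surjective 𝒪 K) hgood
    · rw [eq_bot_iff, sq, Ideal.mul_le]
      intro x hx y hy
      obtain ⟨s, rfl⟩ := Ideal.Quotient.mk_surjective x
      obtain ⟨s', rfl⟩ := Ideal.Quotient.mk_surjective y
      have hs : s ∈ RingHom.ker ε₀ := by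
        rw [← ht0] at hx
        rw [RingHom.mem_ker, ← ht]
        exact hx
      have hs' : s' ∈ RingHom.ker ε₀ := by
        rw [← ht0] at hy
        rw [RingHom.mem_ker, ← ht]
        exact hy
      rw [Ideal.mem_bot, ← map_mul]
      exact Ideal.Quotient.eq_zero_iff_mem.mpr (h2 (by rw [sq]; exact Ideal.mul_mem_mul hs hs'))
    · rw [eq_bot_iff, Ideal.map_le_iff_le_comap]
      intro x hx
      rw [Ideal.mem_comap, Ideal.mem_bot]
      show Ideal.Quotient.mk K (algebraMap 𝒪 S x) = 0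
      exact Ideal.Quotient.eq_zero_iff_mem.mpr (hπ (Ideal.mem_map_of_mem _ hx))
  obtain ⟨R, iR1, iR2, iR3, iR4, iR5, iR6, u, hRres, hdense, hin, hmaps⟩ :=
    exists_limit 𝒪 S (goodIdeals Good) (RingHom.ker ε₀) hK₀max hK₀ hle
      (fun K hK => by obtain ⟨h, ht, -⟩ := hK; exact ⟨h, ht⟩)
      (fun K hK K' hK' => inf_mem_goodIdeals h_comp h_inj h_fib ε₀ h_res_unique hK hK')
      (fun K hK K' hKK' hK'K₀ => up_mem_goodIdeals h_comp hK hKK'
        (fun h => hK₀max.ne_top (top_le_iff.mp (h ▸ hK'K₀))))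
      htan'
  refine ⟨R, iR1, iR2, iR3, iR4, iR5, iR6, u, hRres, ?_, ?_⟩
  · intro B _ _ _ hB q hq
    obtain ⟨N, hN⟩ := testAlg_exists_pow_eq_bot hB
    obtain ⟨hloc, htest, hgood⟩ := hin (N + 1) (Nat.succ_le_succ (Nat.zero_le N))
    have hkill : ∀ s ∈ (maximalIdeal R ^ (N + 1)).comap (u : S →+* R), (q.comp u) s = 0 := by
      intro s hs
      have h1 : (q : R →+* B) (u s) ∈ maximalIdeal B ^ (N + 1) := map_pow_mem _ hq _ _ hs
      rw [pow_succ, hN, Ideal.bot_mul, Ideal.mem_bot] at h1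
      exact h1
    have hqbar_loc : IsLocalHom ((Ideal.Quotient.liftₐ _ (q.comp u) hkill :
        S ⧸ (maximalIdeal R ^ (N + 1)).comap (u : S →+* R) →ₐ[𝒪] B) :
        S ⧸ (maximalIdeal R ^ (N + 1)).comap (u : S →+* R) →+* B) :=
      isLocalHom_of_nilpotent (testAlg_exists_pow_eq_bot htest) _
    have := h_comp htest hB (Ideal.Quotient.liftₐ _ (q.comp u) hkill) hqbar_loc _ hgood
    rwa [Ideal.Quotient.liftₐ_comp] at this
  · intro A _ _ _ _ _ iA hAres f hf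
    have hψ : ∀ n : ℕ, ∃ ψ : R →ₐ[𝒪] A ⧸ maximalIdeal A ^ (n + 1),
        ψ.comp u = (Ideal.Quotient.mkₐ 𝒪 _).comp f ∧
        ∃ N : ℕ, ∀ y ∈ maximalIdeal R ^ N, ψ y = 0 := by
      intro n
      obtain ⟨hloc, htest⟩ := exists_isLocalRing_quot_pow A hAres n
      have hq : IsLocalHom ((Ideal.Quotient.mkₐ 𝒪 (maximalIdeal A ^ (n + 1)) :
          A →ₐ[𝒪] A ⧸ maximalIdeal A ^ (n + 1)) : A →+* A ⧸ maximalIdeal A ^ (n + 1)) :=
        IsLocalHom.of_surjective _ (Ideal.Quotient.mkₐ_surjective 𝒪 _)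
      have hg := hf htest (Ideal.Quotient.mkₐ 𝒪 _) hq (Ideal.Quotient.mkₐ_surjective 𝒪 _)
      have hK := ker_mem_goodIdeals h_inj htest _ hg
      obtain ⟨qK, hqK⟩ := hmaps _ hK
      obtain ⟨hlocK, htestK, hgoodK⟩ := hK
      refine ⟨(Ideal.kerLiftAlg _).comp qK, ?_, ?_⟩
      · rw [AlgHom.comp_assoc, hqK]
        exact AlgHom.ext fun s => rfl
      · obtain ⟨N, hN⟩ := testAlg_exists_pow_eq_bot htestK
        have hqKs : Function.Surjective qK := by
          intro y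
          obtain ⟨s, rfl⟩ := Ideal.Quotient.mkₐ_surjective 𝒪 _ y
          exact ⟨u s, congrArg (fun g => g s) hqK⟩
        have hqKloc := IsLocalHom.of_surjective qK.toRingHom hqKs
        refine ⟨N, fun y hy => ?_⟩
        have h1 := map_pow_mem _ hqKloc _ _ hy
        rw [hN, Ideal.mem_bot] at h1
        show Ideal.kerLiftAlg _ (qK y) = 0
        have h1' : qK y = 0 := h1
        rw [h1', map_zero]
    choose ψ hψu hψN using hψ
    have hφn : ∀ n : ℕ, ∃ φn : R →ₐ[𝒪] A ⧸ maximalIdeal A ^ n,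
        φn.comp u = (Ideal.Quotient.mkₐ 𝒪 _).comp f ∧
        ∃ N : ℕ, ∀ y ∈ maximalIdeal R ^ N, φn y = 0 := by
      intro n
      refine ⟨(Ideal.Quotient.factorₐ 𝒪 (Ideal.pow_le_pow_right (Nat.le_succ n))).comp (ψ n),
        ?_, ?_⟩
      · rw [AlgHom.comp_assoc, hψu, ← AlgHom.comp_assoc, Ideal.Quotient.factorₐ_comp_mk]
      · obtain ⟨N, hN⟩ := hψN n
        refine ⟨N, fun y hy => ?_⟩
        rw [AlgHom.comp_apply, hN y hy, map_zero]
    choose φn hφnu hφnN using hφn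
    have hcompat : ∀ {m n : ℕ} (hle : m ≤ n),
        (Ideal.Quotient.factorₐ 𝒪 (Ideal.pow_le_pow_right hle)).comp (φn n) = φn m := by
      intro m n hle
      obtain ⟨N1, hN1⟩ := hφnN n
      obtain ⟨N2, hN2⟩ := hφnN m
      refine hom_ext_of_dense u hdense _ _ ?_ (max N1 N2) ?_ ?_
      · rw [AlgHom.comp_assoc, hφnu, hφnu, ← AlgHom.comp_assoc, Ideal.Quotient.factorₐ_comp_mk]
      · intro y hy
        rw [AlgHom.comp_apply, hN1 y (Ideal.pow_le_pow_right (le_max_left _ _) hy), map_zero]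
      · intro y hy
        exact hN2 y (Ideal.pow_le_pow_right (le_max_right _ _) hy)
    have hφmk : ∀ n, (Ideal.Quotient.mkₐ 𝒪 (maximalIdeal A ^ n)).comp
        (IsAdicComplete.liftAlgHom (maximalIdeal A) φn hcompat) = φn n :=
      IsAdicComplete.mkₐ_comp_liftAlgHom (maximalIdeal A) φn hcompat
    have hφu : (IsAdicComplete.liftAlgHom (maximalIdeal A) φn hcompat).comp u = f := by
      apply IsAdicComplete.algHom_ext (maximalIdeal A)
      intro n
      rw [← AlgHom.comp_assoc, hφmk, hφnu]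
    have hφloc : IsLocalHom ((IsAdicComplete.liftAlgHom (maximalIdeal A) φn hcompat :
        R →ₐ[𝒪] A) : R →+* A) := by
      refine ⟨fun x hx => ?_⟩
      by_contra hnx
      obtain ⟨N, hN⟩ := hφnN 1
      have h1 : x ^ N ∈ maximalIdeal R ^ N :=
        Ideal.pow_mem_pow ((mem_maximalIdeal x).mpr hnx) N
      have h2 := hN _ h1
      rw [← hφmk 1] at h2
      have h3 : (IsAdicComplete.liftAlgHom (maximalIdeal A) φn hcompat) (x ^ N) ∈
          maximalIdeal A ^ 1 := Ideal.Quotient.eq_zero_iff_mem.mp h2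
      rw [pow_one, map_pow] at h3
      exact ((mem_maximalIdeal _).mp h3) (hx.pow N)
    refine ⟨IsAdicComplete.liftAlgHom (maximalIdeal A) φn hcompat, ⟨hφloc, hφu⟩, ?_⟩
    rintro φ' ⟨hφ'loc, hφ'u⟩
    apply IsAdicComplete.algHom_ext (maximalIdeal A)
    intro n
    obtain ⟨N, hN⟩ := hφnN n
    rw [hφmk]
    refine hom_ext_of_dense u hdense _ _ ?_ (max N n) ?_ ?_
    · rw [AlgHom.comp_assoc, hφ'u, hφnu]
    · intro y hy
      have h1 : (φ' : R →+* A) y ∈ maximalIdeal A ^ n :=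
        map_pow_mem _ hφ'loc _ _ (Ideal.pow_le_pow_right (le_max_right _ _) hy)
      exact Ideal.Quotient.eq_zero_iff_mem.mpr h1
    · intro y hy
      exact hN y (Ideal.pow_le_pow_right (le_max_left _ _) hy)

end Fermat.Agent.S53
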