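import Mathlib

set_option autoImplicit false

/-!
# S53 helper: cardinality bounds and the minimal chain of ideals

Pure commutative algebra (Mathlib only), all in the namespace `Fermat.Agent.S53.Chain`.

* `le_of_le_sup_sq_of_pow_le` : nilpotent Nakayama.
* `finite_and_card_quotient_le` : (B) a uniform cardinality bound for quotients.
* `exists_chain`, `exists_chain_succ` : (Q) the minimal chain of ideals in a family of
  primary ideals with a uniform generator bound.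
* `exists_generators_of_card_le`, `hgen_of_htan` : a cardinality bound on the "tangent"
  quotients gives the uniform generator bound.
-/

namespace Fermat.Agent.S53.Chain

open IsLocalRing

section Nakayama

/-- Nilpotent Nakayama, relative form: `I ≤ J ⊔ I ^ 2` and `I ^ n ≤ J` give `I ≤ J`. -/
theorem le_of_le_sup_sq_of_pow_le {R : Type*} [CommRing R] (I J : Ideal R)
    (h : I ≤ J ⊔ I ^ 2) (n : ℕ) (hn : I ^ n ≤ J) : I ≤ J := by
  have key : ∀ m : ℕ, I ≤ J ⊔ I ^ (m + 1) := by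
    intro m
    induction m with
    | zero => simp
    | succ m ih =>
      refine ih.trans (sup_le le_sup_left ?_)
      calc I ^ (m + 1) = I ^ m * I := pow_succ I m
        _ ≤ I ^ m * (J ⊔ I ^ 2) := Ideal.mul_mono_right h
        _ = I ^ m * J ⊔ I ^ m * I ^ 2 := Ideal.mul_sup _ _ _
        _ ≤ J ⊔ I ^ (m + 1 + 1) := by
          refine sup_le_sup Ideal.mul_le_right ?_
          rw [← pow_add]
  have h1 : I ^ (n + 1) ≤ I ^ n := Ideal.pow_le_pow_right (Nat.le_succ n)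
  calc I ≤ J ⊔ I ^ (n + 1) := key n
    _ ≤ J ⊔ J := sup_le_sup le_rfl (h1.trans hn)
    _ = J := sup_idem J

/-- Nilpotent Nakayama: `I ≤ J ⊔ I ^ 2` and `I` nilpotent give `I ≤ J`. -/
theorem le_of_le_sup_sq_of_pow_eq_bot {R : Type*} [CommRing R] (I J : Ideal R)
    (h : I ≤ J ⊔ I ^ 2) (n : ℕ) (hn : I ^ n = ⊥) : I ≤ J :=
  le_of_le_sup_sq_of_pow_le I J h n (hn ▸ bot_le)

end Nakayama

section Card

universe u v

variable {S : Type u} [CommRing S]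

/-- Module version of the cardinality bound: a module killed by `𝔐 ^ n` on which `𝔐` acts
through `d` fixed elements of `𝔐`, with `M / 𝔐 M` of cardinality at most `c`, is finite of
cardinality at most `c ^ (1 + d + ... + d ^ (n - 1))`. -/
theorem finite_and_card_le (𝔐 : Ideal S) {d : ℕ} (t : Fin d → S) (ht : ∀ i, t i ∈ 𝔐) (n : ℕ) :
    ∀ (M : Type v) [AddCommGroup M] [Module S M] (c : ℕ),
      (𝔐 ^ n • (⊤ : Submodule S M) = ⊥) →
      (∀ μ ∈ 𝔐, ∀ m : M, ∃ f : Fin d → M, μ • m = ∑ i, t i • f i) →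
      Finite (M ⧸ (𝔐 • ⊤ : Submodule S M)) →
      Nat.card (M ⧸ (𝔐 • ⊤ : Submodule S M)) ≤ c →
      Finite M ∧ Nat.card M ≤ c ^ (∑ i ∈ Finset.range n, d ^ i) := by
  induction n with
  | zero =>
    intro M _ _ c h0 _ _ _
    have hsub : Subsingleton M := by
      rw [pow_zero, Ideal.one_eq_top, Submodule.top_smul] at h0
      exact (Submodule.subsingleton_iff S).1 (subsingleton_of_bot_eq_top h0.symm)
    refine ⟨inferInstance, ?_⟩
    simp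
  | succ n ih =>
    intro M _ _ c hpow hgen hfin hcard
    set N : Submodule S M := 𝔐 • ⊤ with hN
    -- every element of `N` is a combination of the `t i`
    have hNgen : ∀ x ∈ N, ∃ g : Fin d → M, x = ∑ i, t i • g i := by
      intro x hx
      refine Submodule.smul_induction_on hx ?_ ?_
      · intro μ hμ m _
        exact hgen μ hμ m
      · rintro x y ⟨g, rfl⟩ ⟨g', rfl⟩
        exact ⟨g + g', by simp [smul_add, Finset.sum_add_distrib]⟩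
    -- (a) `N` is killed by `𝔐 ^ n`
    have ha : 𝔐 ^ n • (⊤ : Submodule S N) = ⊥ := by
      rw [eq_bot_iff]
      refine Submodule.smul_le.2 ?_
      intro r hr x _
      rw [Submodule.mem_bot]
      apply Subtype.ext
      have h1 : r • (x : M) ∈ 𝔐 ^ (n + 1) • (⊤ : Submodule S M) := by
        rw [pow_succ, Submodule.mul_smul]
        exact Submodule.smul_mem_smul hr x.2
      rw [hpow, Submodule.mem_bot] at h1
      simpa using h1
    -- (b) `𝔐` acts on `N` through the `t i`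
    have hb : ∀ μ ∈ 𝔐, ∀ x : N, ∃ f : Fin d → N, μ • x = ∑ i, t i • f i := by
      intro μ hμ x
      obtain ⟨g, hg⟩ := hNgen x x.2
      refine ⟨fun i => ⟨μ • g i, Submodule.smul_mem_smul hμ Submodule.mem_top⟩, ?_⟩
      apply Subtype.ext
      simp only [Submodule.coe_smul, Submodule.coe_sum, hg, Finset.smul_sum]
      refine Finset.sum_congr rfl fun i _ => ?_
      rw [smul_comm]
    -- (c) `N / 𝔐 N` is covered by `(M / N) ^ d`
    let ℓ : Fin d → M →ₗ[S] N := fun i =>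
      LinearMap.codRestrict N (LinearMap.lsmul S M (t i))
        (fun m => Submodule.smul_mem_smul (ht i) Submodule.mem_top)
    have hℓ : ∀ i, N ≤ Submodule.comap (ℓ i) (𝔐 • (⊤ : Submodule S N)) := by
      intro i m hm
      rw [Submodule.mem_comap]
      have : ℓ i m = t i • (⟨m, hm⟩ : N) := Subtype.ext rfl
      rw [this]
      exact Submodule.smul_mem_smul (ht i) Submodule.mem_top
    let Q : (Fin d → M ⧸ N) →ₗ[S] (N ⧸ (𝔐 • ⊤ : Submodule S N)) :=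
      ∑ i, (Submodule.mapQ N (𝔐 • (⊤ : Submodule S N)) (ℓ i) (hℓ i)).comp (LinearMap.proj i)
    have hQ : Function.Surjective Q := by
      intro y
      obtain ⟨x, rfl⟩ := Submodule.Quotient.mk_surjective _ y
      obtain ⟨g, hg⟩ := hNgen x x.2
      refine ⟨fun i => Submodule.Quotient.mk (g i), ?_⟩
      have hx : x = ∑ i, ℓ i (g i) := by
        apply Subtype.ext
        rw [Submodule.coe_sum, hg]; rfl
      simp only [Q, LinearMap.sum_apply, LinearMap.comp_apply, LinearMap.proj_apply,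
        Submodule.mapQ_apply]
      rw [hx, ← Submodule.mkQ_apply, map_sum]
      rfl
    have hfin' : Finite (N ⧸ (𝔐 • ⊤ : Submodule S N)) := Finite.of_surjective Q hQ
    have hcard' : Nat.card (N ⧸ (𝔐 • ⊤ : Submodule S N)) ≤ c ^ d := by
      calc Nat.card (N ⧸ (𝔐 • ⊤ : Submodule S N)) ≤ Nat.card (Fin d → M ⧸ N) :=
            Nat.card_le_card_of_surjective Q hQ
        _ = Nat.card (M ⧸ N) ^ d := by rw [Nat.card_fun, Nat.card_fin]
        _ ≤ c ^ d := Nat.pow_le_pow_left hcard d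
    obtain ⟨hNfin, hNcard⟩ := ih N (c ^ d) ha hb hfin' hcard'
    -- (e) assemble
    have e : M ≃ (M ⧸ N) × N := AddSubgroup.addGroupEquivQuotientProdAddSubgroup (s := N.toAddSubgroup)
    have hMfin : Finite M := Finite.of_equiv _ e.symm
    refine ⟨hMfin, ?_⟩
    have hsum : ∑ i ∈ Finset.range (n + 1), d ^ i = d * ∑ i ∈ Finset.range n, d ^ i + 1 := by
      rw [Finset.sum_range_succ', Finset.mul_sum]
      simp [pow_succ, mul_comm]
    calc Nat.card M = Nat.card ((M ⧸ N) × N) := Nat.card_congr e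
      _ = Nat.card (M ⧸ N) * Nat.card N := Nat.card_prod _ _
      _ ≤ c * (c ^ d) ^ (∑ i ∈ Finset.range n, d ^ i) := Nat.mul_le_mul hcard hNcard
      _ = c ^ (∑ i ∈ Finset.range (n + 1), d ^ i) := by
        rw [hsum, ← pow_mul, pow_succ, mul_comm]

/-- **(B)** Uniform cardinality bound: if `𝔐 ^ n ≤ K`, `𝔐` is generated modulo `K` by `d` of its
elements and `S ⧸ 𝔐` is finite, then `S ⧸ K` is finite with an explicit bound depending only on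
`n`, `d` and the cardinality of `S ⧸ 𝔐`. -/
theorem finite_and_card_quotient_le (𝔐 K : Ideal S) [Finite (S ⧸ 𝔐)] (n d : ℕ)
    (hpow : 𝔐 ^ n ≤ K)
    (hgen : ∃ t : Fin d → S, (∀ i, t i ∈ 𝔐) ∧ 𝔐 ≤ Ideal.span (Set.range t) ⊔ K) :
    Finite (S ⧸ K) ∧ Nat.card (S ⧸ K) ≤ Nat.card (S ⧸ 𝔐) ^ (∑ i ∈ Finset.range n, d ^ i) := by
  obtain ⟨t, ht, hle⟩ := hgen
  -- the surjection `S ⧸ 𝔐 → (S ⧸ K) ⧸ 𝔐 (S ⧸ K)`
  have hker : (𝔐 : Submodule S S) ≤ LinearMap.ker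
      ((𝔐 • (⊤ : Submodule S (S ⧸ K))).mkQ ∘ₗ (Submodule.mkQ K)) := by
    intro s hs
    rw [LinearMap.mem_ker, LinearMap.comp_apply, Submodule.mkQ_apply, Submodule.mkQ_apply,
      Submodule.Quotient.mk_eq_zero]
    have : (Submodule.Quotient.mk s : S ⧸ K) = s • (Submodule.Quotient.mk 1 : S ⧸ K) := by
      rw [← Submodule.Quotient.mk_smul, smul_eq_mul, mul_one]
    rw [this]
    exact Submodule.smul_mem_smul hs Submodule.mem_top
  let q : (S ⧸ 𝔐) →ₗ[S] ((S ⧸ K) ⧸ (𝔐 • (⊤ : Submodule S (S ⧸ K)))) :=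
    Submodule.liftQ 𝔐 _ hker
  have hq : Function.Surjective q := by
    intro y
    obtain ⟨x, rfl⟩ := Submodule.Quotient.mk_surjective _ y
    obtain ⟨s, rfl⟩ := Submodule.Quotient.mk_surjective _ x
    exact ⟨Submodule.Quotient.mk s, rfl⟩
  have hfin : Finite ((S ⧸ K) ⧸ (𝔐 • (⊤ : Submodule S (S ⧸ K)))) := Finite.of_surjective q hq
  have hcard : Nat.card ((S ⧸ K) ⧸ (𝔐 • (⊤ : Submodule S (S ⧸ K)))) ≤ Nat.card (S ⧸ 𝔐) :=
    Nat.card_le_card_of_surjective q hq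
  refine finite_and_card_le 𝔐 t ht n (S ⧸ K) (Nat.card (S ⧸ 𝔐)) ?_ ?_ hfin hcard
  · rw [eq_bot_iff]
    refine Submodule.smul_le.2 ?_
    intro r hr x _
    obtain ⟨s, rfl⟩ := Submodule.Quotient.mk_surjective _ x
    rw [Submodule.mem_bot, ← Submodule.Quotient.mk_smul, Submodule.Quotient.mk_eq_zero]
    exact K.mul_mem_right _ (hpow hr)
  · intro μ hμ x
    obtain ⟨s, rfl⟩ := Submodule.Quotient.mk_surjective _ x
    obtain ⟨y, hy, κ, hκ, hsum⟩ := Submodule.mem_sup.1 (hle hμ)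
    obtain ⟨a, rfl⟩ := (Ideal.mem_span_range_iff_exists_fun).1 hy
    refine ⟨fun i => Submodule.Quotient.mk (a i * s), ?_⟩
    simp only [← Submodule.Quotient.mk_smul]
    change (Submodule.mkQ K) (μ • s) = ∑ i, (Submodule.mkQ K) (t i • (a i * s))
    rw [← map_sum, Submodule.mkQ_apply, Submodule.mkQ_apply, Submodule.Quotient.eq, ← hsum]
    have : (∑ i, a i * t i + κ) • s - ∑ i, t i • (a i * s) = κ * s := by
      simp only [smul_eq_mul, add_mul, Finset.sum_mul]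
      rw [add_comm, add_sub_assoc]
      have : ∑ i, a i * t i * s - ∑ i, t i * (a i * s) = 0 := by
        rw [sub_eq_zero]
        exact Finset.sum_congr rfl fun i _ => by ring
      rw [this, add_zero]
    rw [this]
    exact K.mul_mem_right _ hκ

end Card

section Chain

variable {S : Type*} [CommRing S]

/-- In an intersection-closed family of ideals with a uniform generator bound, the members
containing `𝔐 ^ n` have a minimum (if there is one at all). -/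
theorem exists_min_of_family (𝔐 : Ideal S) [Finite (S ⧸ 𝔐)] (𝒦 : Set (Ideal S))
    (hinf : ∀ K ∈ 𝒦, ∀ K' ∈ 𝒦, K ⊓ K' ∈ 𝒦) (d : ℕ)
    (hgen : ∀ K ∈ 𝒦, ∃ t : Fin d → S, (∀ i, t i ∈ 𝔐) ∧ 𝔐 ≤ Ideal.span (Set.range t) ⊔ K)
    (n : ℕ) (hne : ∃ K ∈ 𝒦, 𝔐 ^ n ≤ K) :
    ∃ K ∈ 𝒦, 𝔐 ^ n ≤ K ∧ Finite (S ⧸ K) ∧ ∀ K' ∈ 𝒦, 𝔐 ^ n ≤ K' → K ≤ K' := by
  classical
  set B := Nat.card (S ⧸ 𝔐) ^ (∑ i ∈ Finset.range n, d ^ i) with hB
  set C : Set ℕ := {m | ∃ K ∈ 𝒦, 𝔐 ^ n ≤ K ∧ Nat.card (S ⧸ K) = m} with hC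
  have hCne : C.Nonempty := by
    obtain ⟨K, hK, hKn⟩ := hne
    exact ⟨_, K, hK, hKn, rfl⟩
  have hCbdd : BddAbove C := by
    refine ⟨B, ?_⟩
    rintro m ⟨K, hK, hKn, rfl⟩
    exact (finite_and_card_quotient_le 𝔐 K n d hKn (hgen K hK)).2
  obtain ⟨K, hK, hKn, hKcard⟩ := Nat.sSup_mem hCne hCbdd
  have hKfin : Finite (S ⧸ K) := (finite_and_card_quotient_le 𝔐 K n d hKn (hgen K hK)).1
  refine ⟨K, hK, hKn, hKfin, ?_⟩
  intro K' hK' hK'n
  have hI : K ⊓ K' ∈ 𝒦 := hinf K hK K' hK'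
  have hIn : 𝔐 ^ n ≤ K ⊓ K' := le_inf hKn hK'n
  have hIfin : Finite (S ⧸ (K ⊓ K')) :=
    (finite_and_card_quotient_le 𝔐 _ n d hIn (hgen _ hI)).1
  have hle : Nat.card (S ⧸ (K ⊓ K')) ≤ Nat.card (S ⧸ K) := by
    rw [hKcard]
    exact le_csSup hCbdd ⟨_, hI, hIn, rfl⟩
  have hsurj : Function.Surjective (Ideal.Quotient.factor (inf_le_left : K ⊓ K' ≤ K)) :=
    Ideal.Quotient.factor_surjective _
  have hbij := hsurj.bijective_of_nat_card_le hle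
  intro x hx
  have h0 : Ideal.Quotient.factor (inf_le_left : K ⊓ K' ≤ K) (Ideal.Quotient.mk _ x) = 0 := by
    rw [Ideal.Quotient.factor_mk]; exact Ideal.Quotient.eq_zero_iff_mem.2 hx
  have h1 : Ideal.Quotient.mk (K ⊓ K') x = 0 := hbij.1 (by rw [h0, map_zero])
  exact (Ideal.Quotient.eq_zero_iff_mem.1 h1).2

/-- **(Q)** The minimal chain. `𝒦` is a nonempty family of ideals below `𝔐`, each containing a
power of `𝔐`, closed under `⊓`, upward closed below `𝔐`, with a uniform bound `d` on the number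
of generators of `𝔐` modulo its members, and `S ⧸ 𝔐` is finite. Then `Kn n`, the minimum of
`{K ∈ 𝒦 | 𝔐 ^ n ≤ K}` (with `Kn 0 = ⊤`), is a decreasing chain with finite quotients, cofinal
in `𝒦`, and `Kn (n + 1) ⊔ 𝔐 ^ n = Kn n`. -/
theorem exists_chain (𝔐 : Ideal S) [Finite (S ⧸ 𝔐)] (𝒦 : Set (Ideal S)) (hne : 𝒦.Nonempty)
    (hinf : ∀ K ∈ 𝒦, ∀ K' ∈ 𝒦, K ⊓ K' ∈ 𝒦)
    (hup : ∀ K ∈ 𝒦, ∀ K' : Ideal S, K ≤ K' → K' ≤ 𝔐 → K' ∈ 𝒦)
    (hle : ∀ K ∈ 𝒦, K ≤ 𝔐) (hpow : ∀ K ∈ 𝒦, ∃ n, 𝔐 ^ n ≤ K) (d : ℕ)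
    (hgen : ∀ K ∈ 𝒦, ∃ t : Fin d → S, (∀ i, t i ∈ 𝔐) ∧ 𝔐 ≤ Ideal.span (Set.range t) ⊔ K) :
    ∃ Kn : ℕ → Ideal S,
      Kn 0 = ⊤ ∧ Kn 1 = 𝔐 ∧
      (∀ n, 1 ≤ n → Kn n ∈ 𝒦) ∧
      (∀ n, 𝔐 ^ n ≤ Kn n) ∧
      (∀ n, Finite (S ⧸ Kn n)) ∧
      (∀ n, ∀ K ∈ 𝒦, 𝔐 ^ n ≤ K → Kn n ≤ K) ∧
      Antitone Kn ∧
      (∀ n, Kn (n + 1) ⊔ 𝔐 ^ n = Kn n) ∧
      (∀ K ∈ 𝒦, ∃ n, 1 ≤ n ∧ Kn n ≤ K) := by
  classical
  have hex : ∀ n, 1 ≤ n →
      ∃ K ∈ 𝒦, 𝔐 ^ n ≤ K ∧ Finite (S ⧸ K) ∧ ∀ K' ∈ 𝒦, 𝔐 ^ n ≤ K' → K ≤ K' := by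
    intro n hn
    refine exists_min_of_family 𝔐 𝒦 hinf d hgen n ?_
    obtain ⟨K₀, hK₀⟩ := hne
    exact ⟨K₀ ⊔ 𝔐 ^ n, hup K₀ hK₀ _ le_sup_left
      (sup_le (hle K₀ hK₀) (Ideal.pow_le_self (by omega))), le_sup_right⟩
  let Kn : ℕ → Ideal S := fun n => if h : 1 ≤ n then Classical.choose (hex n h) else ⊤
  have hKn0 : Kn 0 = ⊤ := by simp [Kn]
  have hspec : ∀ n, 1 ≤ n → Kn n ∈ 𝒦 ∧ 𝔐 ^ n ≤ Kn n ∧ Finite (S ⧸ Kn n) ∧
      ∀ K' ∈ 𝒦, 𝔐 ^ n ≤ K' → Kn n ≤ K' := by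
    intro n hn
    have := Classical.choose_spec (hex n hn)
    simp only [Kn, dif_pos hn]
    exact this
  have hmin : ∀ n, ∀ K ∈ 𝒦, 𝔐 ^ n ≤ K → Kn n ≤ K := by
    intro n K hK hKn
    rcases Nat.eq_zero_or_pos n with rfl | hn
    · rw [pow_zero, Ideal.one_eq_top] at hKn
      rw [hKn0]; exact hKn
    · exact (hspec n hn).2.2.2 K hK hKn
  have hpowle : ∀ n, 𝔐 ^ n ≤ Kn n := by
    intro n
    rcases Nat.eq_zero_or_pos n with rfl | hn
    · rw [hKn0]; exact le_top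
    · exact (hspec n hn).2.1
  have hanti_succ : ∀ n, Kn (n + 1) ≤ Kn n := by
    intro n
    rcases Nat.eq_zero_or_pos n with rfl | hn
    · rw [hKn0]; exact le_top
    · exact hmin (n + 1) (Kn n) (hspec n hn).1
        ((Ideal.pow_le_pow_right (Nat.le_succ n)).trans (hspec n hn).2.1)
  refine ⟨Kn, hKn0, ?_, fun n hn => (hspec n hn).1, hpowle, ?_, hmin,
    antitone_nat_of_succ_le hanti_succ, ?_, ?_⟩
  · refine le_antisymm (hle _ (hspec 1 le_rfl).1) ?_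
    have := (hspec 1 le_rfl).2.1
    rwa [pow_one] at this
  · intro n
    rcases Nat.eq_zero_or_pos n with rfl | hn
    · rw [hKn0]
      have : Subsingleton (S ⧸ (⊤ : Ideal S)) := Ideal.Quotient.subsingleton_iff.2 rfl
      infer_instance
    · exact (hspec n hn).2.2.1
  · intro n
    rcases Nat.eq_zero_or_pos n with rfl | hn
    · rw [hKn0, pow_zero, Ideal.one_eq_top, sup_top_eq]
    · refine le_antisymm (sup_le (hanti_succ n) (hpowle n)) ?_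
      refine hmin n _ (hup _ (hspec (n + 1) (by omega)).1 _ le_sup_left
        (sup_le (hle _ (hspec (n + 1) (by omega)).1) (Ideal.pow_le_self (by omega)))) le_sup_right
  · intro K hK
    obtain ⟨n, hn⟩ := hpow K hK
    exact ⟨n + 1, by omega, hmin (n + 1) K hK ((Ideal.pow_le_pow_right (Nat.le_succ n)).trans hn)⟩

/-- Lifting generators from a quotient: generators of the image of `𝔐` in `S ⧸ K` lift to
generators of `𝔐` modulo `K`. -/
theorem exists_lift_generators (𝔐 K : Ideal S) {d : ℕ} (t : Fin d → S ⧸ K)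
    (ht : ∀ i, t i ∈ 𝔐.map (Ideal.Quotient.mk K))
    (hgen : 𝔐.map (Ideal.Quotient.mk K) ≤ Ideal.span (Set.range t)) :
    ∃ t' : Fin d → S, (∀ i, Ideal.Quotient.mk K (t' i) = t i) ∧ (∀ i, t' i ∈ 𝔐) ∧
      𝔐 ≤ Ideal.span (Set.range t') ⊔ K := by
  have hsurj : Function.Surjective (Ideal.Quotient.mk K) := Ideal.Quotient.mk_surjective
  have hmem : ∀ i, ∃ s : S, s ∈ 𝔐 ∧ Ideal.Quotient.mk K s = t i := by
    intro i
    obtain ⟨s, hs, hst⟩ := (Ideal.mem_map_iff_of_surjective _ hsurj).1 (ht i)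
    exact ⟨s, hs, hst⟩
  choose t' ht'mem ht' using hmem
  refine ⟨t', ht', ht'mem, ?_⟩
  intro x hx
  have h1 : Ideal.Quotient.mk K x ∈ Ideal.span (Set.range t) :=
    hgen (Ideal.mem_map_of_mem _ hx)
  obtain ⟨a, ha⟩ := (Ideal.mem_span_range_iff_exists_fun).1 h1
  choose a' ha' using fun i => hsurj (a i)
  have h2 : x - ∑ i, a' i * t' i ∈ K := by
    rw [← Ideal.Quotient.eq_zero_iff_mem, map_sub, map_sum, sub_eq_zero, ← ha]
    refine Finset.sum_congr rfl fun i _ => ?_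
    rw [map_mul, ha', ht']
  have h3 : x = ∑ i, a' i * t' i + (x - ∑ i, a' i * t' i) := by ring
  rw [h3]
  refine Ideal.add_mem _ (Ideal.mem_sup_left ?_) (Ideal.mem_sup_right h2)
  exact (Ideal.mem_span_range_iff_exists_fun).2 ⟨a', rfl⟩

end Chain

section Glue

variable {S : Type*} [CommRing S]

/-- **(Q)**, shifted indexing: `K n` is the minimum of `{K ∈ 𝒦 | 𝔐 ^ (n + 1) ≤ K}`, so that
`S ⧸ K n` plays the role of `R ⧸ 𝔪 ^ (n + 1)`. -/
theorem exists_chain_succ (𝔐 : Ideal S) [Finite (S ⧸ 𝔐)] (𝒦 : Set (Ideal S)) (hne : 𝒦.Nonempty)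
    (hinf : ∀ K ∈ 𝒦, ∀ K' ∈ 𝒦, K ⊓ K' ∈ 𝒦)
    (hup : ∀ K ∈ 𝒦, ∀ K' : Ideal S, K ≤ K' → K' ≤ 𝔐 → K' ∈ 𝒦)
    (hle : ∀ K ∈ 𝒦, K ≤ 𝔐) (hpow : ∀ K ∈ 𝒦, ∃ n, 𝔐 ^ n ≤ K) (d : ℕ)
    (hgen : ∀ K ∈ 𝒦, ∃ t : Fin d → S, (∀ i, t i ∈ 𝔐) ∧ 𝔐 ≤ Ideal.span (Set.range t) ⊔ K) :
    ∃ K : ℕ → Ideal S,
      K 0 = 𝔐 ∧
      (∀ n, K n ∈ 𝒦) ∧
      (∀ n, K n ≤ 𝔐) ∧
      (∀ n, 𝔐 ^ (n + 1) ≤ K n) ∧
      (∀ n, K (n + 1) ⊔ 𝔐 ^ (n + 1) = K n) ∧
      (∀ n, Finite (S ⧸ K n)) ∧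
      (∀ n, K (n + 1) ≤ K n) ∧
      (∀ n, ∀ K' ∈ 𝒦, 𝔐 ^ (n + 1) ≤ K' → K n ≤ K') ∧
      (∀ K' ∈ 𝒦, ∃ n, K n ≤ K') := by
  obtain ⟨Kn, -, h1, hmem, hpowle, hfin, hmin, hanti, hsup, hcof⟩ :=
    exists_chain 𝔐 𝒦 hne hinf hup hle hpow d hgen
  refine ⟨fun n => Kn (n + 1), h1, fun n => hmem _ (Nat.succ_pos n),
    fun n => hle _ (hmem _ (Nat.succ_pos n)), fun n => hpowle _, fun n => hsup _,
    fun n => hfin _, fun n => hanti (Nat.le_succ _), fun n => hmin _, ?_⟩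
  intro K' hK'
  obtain ⟨n, hn, hle'⟩ := hcof K' hK'
  obtain ⟨m, rfl⟩ : ∃ m, n = m + 1 := ⟨n - 1, by omega⟩
  exact ⟨m, hle'⟩

/-- A cardinality bound on `S ⧸ (K ⊔ 𝔐 ^ 2 ⊔ J)` gives generators of `𝔐` modulo `J ⊔ K`,
as soon as a power of `𝔐` lies in `K`. -/
theorem exists_generators_of_card_le (𝔐 K J : Ideal S) (hK : K ≤ 𝔐) (hJ : J ≤ 𝔐)
    [Finite (S ⧸ (K ⊔ 𝔐 ^ 2 ⊔ J))] (N : ℕ) (hcard : Nat.card (S ⧸ (K ⊔ 𝔐 ^ 2 ⊔ J)) ≤ N)
    (n : ℕ) (hn : 𝔐 ^ n ≤ K) :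
    ∃ t : Fin N → S, (∀ i, t i ∈ 𝔐) ∧ 𝔐 ≤ Ideal.span (Set.range t) ⊔ J ⊔ K := by
  classical
  set K' : Ideal S := K ⊔ 𝔐 ^ 2 ⊔ J with hK'
  have hK'le : K' ≤ 𝔐 := sup_le (sup_le hK (Ideal.pow_le_self (by norm_num))) hJ
  -- enumerate the quotient
  let e := Finite.equivFin (S ⧸ K')
  let g : Fin N → S ⧸ K' := fun i =>
    if h : (i : ℕ) < Nat.card (S ⧸ K') then e.symm ⟨i, h⟩ else 0
  have hg : Function.Surjective g := by
    intro y
    refine ⟨⟨e y, lt_of_lt_of_le (e y).2 hcard⟩, ?_⟩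
    simp [g]
  let t : Fin N → S := fun i => if (Quotient.out (g i) : S) ∈ 𝔐 then Quotient.out (g i) else 0
  have ht : ∀ i, t i ∈ 𝔐 := by
    intro i
    by_cases h : (Quotient.out (g i) : S) ∈ 𝔐
    · simp only [t, if_pos h]; exact h
    · simp only [t, if_neg h]; exact zero_mem _
  refine ⟨t, ht, ?_⟩
  have h1 : 𝔐 ≤ (Ideal.span (Set.range t) ⊔ J ⊔ K) ⊔ 𝔐 ^ 2 := by
    intro x hx
    obtain ⟨i, hi⟩ := hg (Ideal.Quotient.mk K' x)
    have hout : Ideal.Quotient.mk K' (Quotient.out (g i)) = g i := Ideal.Quotient.mk_out _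
    have hdiff : (Quotient.out (g i) : S) - x ∈ K' := by
      rw [← Ideal.Quotient.eq, hout, hi]
    have hmem : (Quotient.out (g i) : S) ∈ 𝔐 := by
      have := 𝔐.add_mem (hK'le hdiff) hx
      simpa using this
    have hti : t i = Quotient.out (g i) := by simp only [t, if_pos hmem]
    have hx' : x = t i - ((Quotient.out (g i) : S) - x) := by rw [hti]; ring
    rw [hx']
    refine Ideal.sub_mem _ ?_ ?_
    · exact Ideal.mem_sup_left (Ideal.mem_sup_left (Ideal.mem_sup_left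
        (Ideal.subset_span ⟨i, rfl⟩)))
    · have : K' ≤ (Ideal.span (Set.range t) ⊔ J ⊔ K) ⊔ 𝔐 ^ 2 :=
        sup_le (sup_le (le_sup_of_le_left le_sup_right) le_sup_right)
          (le_sup_of_le_left (le_sup_of_le_left le_sup_right))
      exact this hdiff
  exact le_of_le_sup_sq_of_pow_le 𝔐 _ h1 n (hn.trans le_sup_right)

/-- The uniform generator bound needed by `exists_chain` from a cardinality bound on the
"tangent" quotients (the hypothesis `htan` of `exists_limit`), when the maximal ideal of the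
coefficient ring is principal. -/
theorem hgen_of_htan {𝒪 : Type*} [CommRing 𝒪] [Algebra 𝒪 S] (𝔪 : Ideal 𝒪) (ϖ : 𝒪)
    (h𝔪 : 𝔪 = Ideal.span {ϖ}) (𝔐 : Ideal S) (𝒦 : Set (Ideal S))
    (hup : ∀ K ∈ 𝒦, ∀ K' : Ideal S, K ≤ K' → K' ≤ 𝔐 → K' ∈ 𝒦)
    (hle : ∀ K ∈ 𝒦, K ≤ 𝔐) (hpow : ∀ K ∈ 𝒦, ∃ n, 𝔐 ^ n ≤ K)
    (hfin : ∀ K ∈ 𝒦, Finite (S ⧸ K))
    (h𝔪𝔐 : 𝔪.map (algebraMap 𝒪 S) ≤ 𝔐) (N : ℕ)
    (htan : ∀ K ∈ 𝒦, 𝔐 ^ 2 ≤ K → 𝔪.map (algebraMap 𝒪 S) ≤ K → Nat.card (S ⧸ K) ≤ N) :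
    ∀ K ∈ 𝒦, ∃ t : Fin (N + 1) → S, (∀ i, t i ∈ 𝔐) ∧ 𝔐 ≤ Ideal.span (Set.range t) ⊔ K := by
  intro K hK
  set J : Ideal S := 𝔪.map (algebraMap 𝒪 S) with hJ
  have hK'mem : K ⊔ 𝔐 ^ 2 ⊔ J ∈ 𝒦 :=
    hup K hK _ (le_sup_of_le_left le_sup_left)
      (sup_le (sup_le (hle K hK) (Ideal.pow_le_self (by norm_num))) h𝔪𝔐)
  have : Finite (S ⧸ (K ⊔ 𝔐 ^ 2 ⊔ J)) := hfin _ hK'mem
  have hcard : Nat.card (S ⧸ (K ⊔ 𝔐 ^ 2 ⊔ J)) ≤ N :=
    htan _ hK'mem (le_sup_of_le_left le_sup_right) le_sup_right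
  obtain ⟨n, hn⟩ := hpow K hK
  obtain ⟨t, ht, hgen⟩ := exists_generators_of_card_le 𝔐 K J (hle K hK) h𝔪𝔐 N hcard n hn
  have hϖ : algebraMap 𝒪 S ϖ ∈ 𝔐 :=
    h𝔪𝔐 (Ideal.mem_map_of_mem _ (h𝔪 ▸ Ideal.subset_span rfl))
  refine ⟨Fin.cons (algebraMap 𝒪 S ϖ) t, ?_, ?_⟩
  · intro i
    refine Fin.cases ?_ (fun j => ?_) i
    · simpa using hϖ
    · simpa using ht j
  · refine hgen.trans ?_
    rw [Fin.range_cons, Ideal.span_insert, hJ, h𝔪, Ideal.map_span, Set.image_singleton]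
    exact sup_le (sup_le (le_sup_of_le_left le_sup_right) (le_sup_of_le_left le_sup_left))
      le_sup_right

/-- If `S ⧸ K` is local with nilpotent maximal ideal and `K ≤ K₀` with `K₀` maximal, then a
power of `K₀` lies in `K`. -/
theorem pow_le_of_maximalIdeal_pow_eq_bot (K₀ K : Ideal S) (hK₀ : K₀ ≠ ⊤) (hK : K ≤ K₀)
    [IsLocalRing (S ⧸ K)] (N : ℕ) (hN : maximalIdeal (S ⧸ K) ^ N = ⊥) : K₀ ^ N ≤ K := by
  have hmap : K₀.map (Ideal.Quotient.mk K) ≤ maximalIdeal (S ⧸ K) := by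
    refine IsLocalRing.le_maximalIdeal ?_
    intro htop
    apply hK₀
    have h1 : (1 : S ⧸ K) ∈ K₀.map (Ideal.Quotient.mk K) := htop ▸ Submodule.mem_top
    obtain ⟨x, hx, hx1⟩ :=
      (Ideal.mem_map_iff_of_surjective _ Ideal.Quotient.mk_surjective).1 h1
    have h2 : x - 1 ∈ K := by
      rw [← Ideal.Quotient.eq_zero_iff_mem, map_sub, hx1, map_one, sub_self]
    have h3 : (1 : S) ∈ K₀ := by
      have := K₀.sub_mem hx (hK h2)
      simpa using this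
    exact (Ideal.eq_top_iff_one K₀).2 h3
  intro x hx
  have h1 : Ideal.Quotient.mk K x ∈ (K₀.map (Ideal.Quotient.mk K)) ^ N := by
    rw [← Ideal.map_pow]
    exact Ideal.mem_map_of_mem _ hx
  have h2 : Ideal.Quotient.mk K x ∈ maximalIdeal (S ⧸ K) ^ N := Ideal.pow_right_mono hmap N h1
  rw [hN, Ideal.mem_bot] at h2
  exact Ideal.Quotient.eq_zero_iff_mem.1 h2

end Glue

end Fermat.Agent.S53.Chain
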