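import Mathlib
import Fermat.Prelude.Def_GaloisRep_DeformationCondition
import Fermat.Agent.S53_TestAlg
import Fermat.Agent.S53_Chain

set_option autoImplicit false
set_option linter.style.haveILetI false
set_option linter.unusedSectionVars false

/-!
# S53: tangent bound from finiteness of dual-number points

* `Fermat.Agent.S53.Tangent.exists_generators_of_card_algHom_le` : (T) a bound on the number of
  algebra homs to the dual numbers bounds the number of generators of the maximal ideal modulo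
  the coefficient ring.
* `Fermat.Agent.S53.tangent_bound` : the interface theorem of the S53 architecture.
-/

namespace Fermat.Agent.S53.Tangent

open IsLocalRing Fermat.Agent.S53.Chain

section Hyperplane

variable {𝒪 : Type*} [CommRing 𝒪] [IsLocalRing 𝒪]
variable {A : Type*} [CommRing A] [IsLocalRing A] [Algebra 𝒪 A]

/-- Zorn: a maximal ideal-hyperplane `H ⊇ J` below the maximal ideal avoiding `t`. -/
theorem exists_hyperplane (J : Ideal A) (t : A) (htJ : t ∉ J)
    (hJ2 : maximalIdeal A ^ 2 ≤ J) :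
    ∃ H : Ideal A, J ≤ H ∧ t ∉ H ∧ maximalIdeal A ≤ H ⊔ Ideal.span {t} := by
  obtain ⟨H, hJH, hmax⟩ := zorn_le_nonempty₀ {H : Ideal A | t ∉ H} (by
    intro c hcs hc y hy
    refine ⟨sSup c, ?_, fun z hz => le_sSup hz⟩
    intro ht
    obtain ⟨z, hz, htz⟩ := (Submodule.mem_sSup_of_directed ⟨y, hy⟩ hc.directedOn).1 ht
    exact hcs hz htz) J htJ
  refine ⟨H, hJH, hmax.1, ?_⟩
  intro x hx
  by_cases hxH : x ∈ H
  · exact Ideal.mem_sup_left hxH
  · have hnot : ¬ (H ⊔ Ideal.span {x}) ≤ H := by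
      intro hle
      exact hxH (hle (Ideal.mem_sup_right (Ideal.subset_span rfl)))
    have htmem : t ∈ H ⊔ Ideal.span {x} := by
      by_contra hcon
      exact hnot (hmax.2 (show (H ⊔ Ideal.span {x}) ∈ {H : Ideal A | t ∉ H} from hcon) le_sup_left)
    obtain ⟨h, hh, y, hy, hsum⟩ := Submodule.mem_sup.1 htmem
    obtain ⟨a, rfl⟩ := Ideal.mem_span_singleton'.1 hy
    have ha : IsUnit a := by
      by_contra hau
      have ham : a ∈ maximalIdeal A := (IsLocalRing.mem_maximalIdeal a).2 hau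
      have : a * x ∈ maximalIdeal A ^ 2 := by
        rw [pow_two]; exact Ideal.mul_mem_mul ham hx
      exact hmax.1 (hsum ▸ H.add_mem hh (hJH (hJ2 this)))
    obtain ⟨u, rfl⟩ := ha
    have hx_eq : x = (↑u⁻¹ : A) * t - (↑u⁻¹ : A) * h := by
      rw [← hsum, mul_add, add_sub_cancel_left, Units.inv_mul_cancel_left]
    rw [hx_eq]
    refine Ideal.sub_mem _ (Ideal.mem_sup_right ?_) (Ideal.mem_sup_left (H.mul_mem_left _ hh))
    exact Ideal.mul_mem_left _ _ (Ideal.subset_span rfl)

/-- From an ideal-hyperplane `H` with `𝔪 = H + (t)` we get an algebra hom to the dual numbers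
killing `H` and not killing `t`. The `𝒪`-algebra structure on the dual numbers is the one used in
`GaloisRep.TangentFinite`. -/
theorem exists_algHom_of_hyperplane
    (hres : Function.Surjective (IsLocalRing.residue A ∘ algebraMap 𝒪 A))
    (H : Ideal A) (t : A) (ht : t ∈ maximalIdeal A) (htH : t ∉ H)
    (hJ : maximalIdeal A ^ 2 ≤ H) (hO : Ideal.map (algebraMap 𝒪 A) (maximalIdeal 𝒪) ≤ H)
    (hsup : maximalIdeal A ≤ H ⊔ Ideal.span {t}) :
    letI : Algebra 𝒪 (DualNumber (ResidueField 𝒪)) :=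
      ((algebraMap (ResidueField 𝒪) (DualNumber (ResidueField 𝒪))).comp
        (algebraMap 𝒪 (ResidueField 𝒪))).toAlgebra
    ∃ φ : A →ₐ[𝒪] DualNumber (ResidueField 𝒪), (∀ x ∈ H, φ x = 0) ∧ φ t ≠ 0 := by
  let _ : Algebra 𝒪 (DualNumber (ResidueField 𝒪)) :=
    ((algebraMap (ResidueField 𝒪) (DualNumber (ResidueField 𝒪))).comp
      (algebraMap 𝒪 (ResidueField 𝒪))).toAlgebra
  have hHm : H ≤ maximalIdeal A := IsLocalRing.le_maximalIdeal (fun h => htH (h ▸ Submodule.mem_top))
  -- (F1) every element is a scalar modulo the maximal ideal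
  have F1 : ∀ a : A, ∃ c : 𝒪, a - algebraMap 𝒪 A c ∈ maximalIdeal A := by
    intro a
    obtain ⟨c, hc⟩ := hres (IsLocalRing.residue A a)
    refine ⟨c, ?_⟩
    rw [← IsLocalRing.residue_eq_zero_iff, map_sub, sub_eq_zero]
    exact hc.symm
  -- (F2) scalars in the maximal ideal come from the maximal ideal
  have F2 : ∀ c : 𝒪, algebraMap 𝒪 A c ∈ maximalIdeal A → c ∈ maximalIdeal 𝒪 := by
    intro c hc
    rw [IsLocalRing.mem_maximalIdeal, mem_nonunits_iff] at hc ⊢
    exact fun hu => hc (hu.map _)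
  have F2' : ∀ c : 𝒪, c ∈ maximalIdeal 𝒪 → algebraMap 𝒪 A c ∈ H :=
    fun c hc => hO (Ideal.mem_map_of_mem _ hc)
  -- (F3) existence of the expansion
  have F3 : ∀ a : A, ∃ c c' : 𝒪, a - algebraMap 𝒪 A c - algebraMap 𝒪 A c' * t ∈ H := by
    intro a
    obtain ⟨c, hc⟩ := F1 a
    obtain ⟨h, hh, y, hy, hsum⟩ := Submodule.mem_sup.1 (hsup hc)
    obtain ⟨s, rfl⟩ := Ideal.mem_span_singleton'.1 hy
    obtain ⟨c', hc'⟩ := F1 s
    refine ⟨c, c', ?_⟩
    have h2 : (s - algebraMap 𝒪 A c') * t ∈ H := by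
      apply hJ
      rw [pow_two]; exact Ideal.mul_mem_mul hc' ht
    have : a - algebraMap 𝒪 A c - algebraMap 𝒪 A c' * t = h + (s - algebraMap 𝒪 A c') * t := by
      rw [← hsum]; ring
    rw [this]
    exact H.add_mem hh h2
  -- (F4) uniqueness of the expansion
  have F4 : ∀ c c' : 𝒪, algebraMap 𝒪 A c + algebraMap 𝒪 A c' * t ∈ H →
      c ∈ maximalIdeal 𝒪 ∧ c' ∈ maximalIdeal 𝒪 := by
    intro c c' hmem
    have h1 : algebraMap 𝒪 A c ∈ maximalIdeal A := by
      have := (maximalIdeal A).sub_mem (hHm hmem) ((maximalIdeal A).mul_mem_left (algebraMap 𝒪 A c') ht)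
      simpa using this
    have hc := F2 c h1
    refine ⟨hc, ?_⟩
    have h2 : algebraMap 𝒪 A c' * t ∈ H := by
      have := H.sub_mem hmem (F2' c hc)
      simpa using this
    rw [IsLocalRing.mem_maximalIdeal, mem_nonunits_iff]
    intro hu
    obtain ⟨u, hu'⟩ := hu.map (algebraMap 𝒪 A)
    apply htH
    have : t = (↑u⁻¹ : A) * (algebraMap 𝒪 A c' * t) := by
      rw [← hu', ← mul_assoc]; simp
    rw [this]
    exact H.mul_mem_left _ h2
  choose c₀ c₀' hc₀ using F3
  -- the map and its characterisation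
  set φf : A → DualNumber (ResidueField 𝒪) := fun a =>
    TrivSqZeroExt.inl (IsLocalRing.residue 𝒪 (c₀ a)) + TrivSqZeroExt.inr (IsLocalRing.residue 𝒪 (c₀' a))
    with hφf
  have K : ∀ (a : A) (c c' : 𝒪), a - algebraMap 𝒪 A c - algebraMap 𝒪 A c' * t ∈ H →
      φf a = TrivSqZeroExt.inl (IsLocalRing.residue 𝒪 c) + TrivSqZeroExt.inr (IsLocalRing.residue 𝒪 c') := by
    intro a c c' hmem
    have hdiff : algebraMap 𝒪 A (c - c₀ a) + algebraMap 𝒪 A (c' - c₀' a) * t ∈ H := by
      have := H.sub_mem (hc₀ a) hmem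
      have e : a - algebraMap 𝒪 A (c₀ a) - algebraMap 𝒪 A (c₀' a) * t
          - (a - algebraMap 𝒪 A c - algebraMap 𝒪 A c' * t)
          = algebraMap 𝒪 A (c - c₀ a) + algebraMap 𝒪 A (c' - c₀' a) * t := by
        simp only [map_sub]; ring
      rwa [e] at this
    obtain ⟨h1, h2⟩ := F4 _ _ hdiff
    rw [← IsLocalRing.residue_eq_zero_iff, map_sub, sub_eq_zero] at h1 h2
    simp only [hφf, h1, h2]
  refine ⟨
    { toFun := φf
      map_one' := by
        have := K 1 1 0 (by simp)
        rw [this]; simp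
      map_mul' := by
        intro a b
        have ha := hc₀ a
        have hb := hc₀ b
        have hab := K (a * b) (c₀ a * c₀ b) (c₀ a * c₀' b + c₀ b * c₀' a) (by
          have ht2 : t * t ∈ H := by
            apply hJ; rw [pow_two]; exact Ideal.mul_mem_mul ht ht
          have e : a * b - algebraMap 𝒪 A (c₀ a * c₀ b)
              - algebraMap 𝒪 A (c₀ a * c₀' b + c₀ b * c₀' a) * t
              = (a - algebraMap 𝒪 A (c₀ a) - algebraMap 𝒪 A (c₀' a) * t) * b
                + (algebraMap 𝒪 A (c₀ a) + algebraMap 𝒪 A (c₀' a) * t)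
                  * (b - algebraMap 𝒪 A (c₀ b) - algebraMap 𝒪 A (c₀' b) * t)
                + algebraMap 𝒪 A (c₀' a) * algebraMap 𝒪 A (c₀' b) * (t * t) := by
            simp only [map_mul, map_add]; ring
          rw [e]
          exact H.add_mem (H.add_mem (H.mul_mem_right _ ha) (H.mul_mem_left _ hb))
            (H.mul_mem_left _ ht2))
        rw [hab]
        simp only [hφf]
        apply TrivSqZeroExt.ext
        · simp
        · simp [mul_comm]
      map_zero' := by
        have := K 0 0 0 (by simp)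
        rw [this]; simp
      map_add' := by
        intro a b
        have hab := K (a + b) (c₀ a + c₀ b) (c₀' a + c₀' b) (by
          have e : a + b - algebraMap 𝒪 A (c₀ a + c₀ b) - algebraMap 𝒪 A (c₀' a + c₀' b) * t
              = (a - algebraMap 𝒪 A (c₀ a) - algebraMap 𝒪 A (c₀' a) * t)
                + (b - algebraMap 𝒪 A (c₀ b) - algebraMap 𝒪 A (c₀' b) * t) := by
            simp only [map_add]; ring
          rw [e]
          exact H.add_mem (hc₀ a) (hc₀ b))
        rw [hab]
        simp only [hφf, map_add, TrivSqZeroExt.inl_add, TrivSqZeroExt.inr_add]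
        abel
      commutes' := by
        intro c
        have := K (algebraMap 𝒪 A c) c 0 (by simp)
        rw [this]
        simp only [map_zero, TrivSqZeroExt.inr_zero, add_zero]
        rfl }, ?_, ?_⟩
  · intro x hx
    have := K x 0 0 (by simpa using hx)
    change φf x = 0
    rw [this]; simp
  · have := K t 0 1 (by simp)
    change φf t ≠ 0
    rw [this]
    intro h0
    have := congrArg TrivSqZeroExt.snd h0
    simp at this

end Hyperplane

section Count

variable {𝒪 : Type*} [CommRing 𝒪] [IsLocalRing 𝒪]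
variable {A : Type*} [CommRing A] [IsLocalRing A] [Algebra 𝒪 A]

/-- Greedy count: if no `N` elements generate the maximal ideal modulo `J`, there are `N + 1`
distinct algebra homs to the dual numbers killing `J`. -/
theorem exists_finset_algHom
    (hres : Function.Surjective (IsLocalRing.residue A ∘ algebraMap 𝒪 A)) (N : ℕ) :
    letI : Algebra 𝒪 (DualNumber (ResidueField 𝒪)) :=
      ((algebraMap (ResidueField 𝒪) (DualNumber (ResidueField 𝒪))).comp
        (algebraMap 𝒪 (ResidueField 𝒪))).toAlgebra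
    ∀ J : Ideal A, maximalIdeal A ^ 2 ≤ J →
      Ideal.map (algebraMap 𝒪 A) (maximalIdeal 𝒪) ≤ J →
      (∀ t : Fin N → A, (∀ i, t i ∈ maximalIdeal A) →
        ¬ maximalIdeal A ≤ Ideal.span (Set.range t) ⊔ J) →
      ∃ Φ : Finset (A →ₐ[𝒪] DualNumber (ResidueField 𝒪)),
        Φ.card = N + 1 ∧ ∀ φ ∈ Φ, ∀ x ∈ J, φ x = 0 := by
  classical
  letI : Algebra 𝒪 (DualNumber (ResidueField 𝒪)) :=
    ((algebraMap (ResidueField 𝒪) (DualNumber (ResidueField 𝒪))).comp
      (algebraMap 𝒪 (ResidueField 𝒪))).toAlgebra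
  induction N with
  | zero =>
    intro J hJ2 hJO hno
    have h0 := hno (fun i => i.elim0) (fun i => i.elim0)
    have hnle : ¬ maximalIdeal A ≤ J := by
      intro hle
      exact h0 (hle.trans le_sup_right)
    obtain ⟨t, ht, htJ⟩ := Set.not_subset.1 hnle
    obtain ⟨H, hJH, htH, hsup⟩ := exists_hyperplane J t htJ hJ2
    obtain ⟨φ, hφH, -⟩ := exists_algHom_of_hyperplane hres H t ht htH (hJ2.trans hJH)
      (hJO.trans hJH) hsup
    exact ⟨{φ}, by simp, fun ψ hψ x hx => by
      rw [Finset.mem_singleton.1 hψ]; exact hφH x (hJH hx)⟩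
  | succ N ih =>
    intro J hJ2 hJO hno
    have h0 := hno (fun _ => 0) (fun _ => zero_mem _)
    have hnle : ¬ maximalIdeal A ≤ J := by
      intro hle
      exact h0 (hle.trans le_sup_right)
    obtain ⟨t₀, ht₀, htJ⟩ := Set.not_subset.1 hnle
    obtain ⟨H, hJH, htH, hsup⟩ := exists_hyperplane J t₀ htJ hJ2
    obtain ⟨φ₀, hφH, hφt⟩ := exists_algHom_of_hyperplane hres H t₀ ht₀ htH (hJ2.trans hJH)
      (hJO.trans hJH) hsup
    obtain ⟨Φ, hcard, hΦ⟩ := ih (J ⊔ Ideal.span {t₀}) (hJ2.trans le_sup_left)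
      (hJO.trans le_sup_left) (by
        intro t ht hle
        refine hno (Fin.cons t₀ t) ?_ ?_
        · intro i
          refine Fin.cases ?_ (fun j => ?_) i
          · simpa using ht₀
          · simpa using ht j
        · refine hle.trans ?_
          rw [Fin.range_cons, Ideal.span_insert]
          refine sup_le (le_sup_of_le_left le_sup_right) (sup_le le_sup_right ?_)
          exact le_sup_of_le_left le_sup_left)
    have hnot : φ₀ ∉ Φ := by
      intro hmem
      exact hφt (hΦ φ₀ hmem t₀ (Ideal.mem_sup_right (Ideal.subset_span rfl)))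
    refine ⟨insert φ₀ Φ, by rw [Finset.card_insert_of_notMem hnot, hcard], ?_⟩
    intro ψ hψ x hx
    rcases Finset.mem_insert.1 hψ with rfl | hψ
    · exact hφH x (hJH hx)
    · exact hΦ ψ hψ x (Ideal.mem_sup_left hx)

/-- **(T)** A bound `N` on the number of `𝒪`-algebra homs `A → k[ε]` gives `N` generators of the
maximal ideal of `A` modulo the maximal ideal of `𝒪`, provided the maximal ideal of `A` is
nilpotent. The algebra structure on the dual numbers is the one of `GaloisRep.TangentFinite`. -/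
theorem exists_generators_of_card_algHom_le
    (hloc : IsLocalHom (algebraMap 𝒪 A))
    (hres : Function.Surjective (IsLocalRing.residue A ∘ algebraMap 𝒪 A))
    (n : ℕ) (hn : maximalIdeal A ^ n = ⊥) (N : ℕ)
    (hN : letI : Algebra 𝒪 (DualNumber (ResidueField 𝒪)) :=
        ((algebraMap (ResidueField 𝒪) (DualNumber (ResidueField 𝒪))).comp
          (algebraMap 𝒪 (ResidueField 𝒪))).toAlgebra
      ∀ Φ : Finset (A →ₐ[𝒪] DualNumber (ResidueField 𝒪)), Φ.card ≤ N) :
    ∃ t : Fin N → A, (∀ i, t i ∈ maximalIdeal A) ∧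
      maximalIdeal A ≤ Ideal.span (Set.range t) ⊔
        Ideal.map (algebraMap 𝒪 A) (maximalIdeal 𝒪) := by
  have hOm : Ideal.map (algebraMap 𝒪 A) (maximalIdeal 𝒪) ≤ maximalIdeal A := by
    rw [Ideal.map_le_iff_le_comap]
    intro c hc
    rw [Ideal.mem_comap, IsLocalRing.mem_maximalIdeal, mem_nonunits_iff]
    rw [IsLocalRing.mem_maximalIdeal, mem_nonunits_iff] at hc
    exact fun hu => hc (hloc.map_nonunit c hu)
  by_contra hcon
  push Not at hcon
  have hno : ∀ t : Fin N → A, (∀ i, t i ∈ maximalIdeal A) →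
      ¬ maximalIdeal A ≤ Ideal.span (Set.range t) ⊔
        (maximalIdeal A ^ 2 ⊔ Ideal.map (algebraMap 𝒪 A) (maximalIdeal 𝒪)) := by
    intro t ht hle
    refine hcon t ht ?_
    refine le_of_le_sup_sq_of_pow_eq_bot _ _ ?_ n hn
    refine hle.trans ?_
    refine sup_le (le_sup_of_le_left le_sup_left) (sup_le le_sup_right ?_)
    exact le_sup_of_le_left le_sup_right
  obtain ⟨Φ, hcard, -⟩ := exists_finset_algHom hres N _ le_sup_left le_sup_right hno
  have := hN Φ
  omega

/-- Variant of **(T)** when the maximal ideal of `𝒪` is principal: `N + 1` honest generators. -/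
theorem exists_generators_of_card_algHom_le'
    (hloc : IsLocalHom (algebraMap 𝒪 A))
    (hres : Function.Surjective (IsLocalRing.residue A ∘ algebraMap 𝒪 A))
    (ϖ : 𝒪) (hϖ : maximalIdeal 𝒪 = Ideal.span {ϖ})
    (n : ℕ) (hn : maximalIdeal A ^ n = ⊥) (N : ℕ)
    (hN : letI : Algebra 𝒪 (DualNumber (ResidueField 𝒪)) :=
        ((algebraMap (ResidueField 𝒪) (DualNumber (ResidueField 𝒪))).comp
          (algebraMap 𝒪 (ResidueField 𝒪))).toAlgebra
      ∀ Φ : Finset (A →ₐ[𝒪] DualNumber (ResidueField 𝒪)), Φ.card ≤ N) :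
    ∃ t : Fin (N + 1) → A, (∀ i, t i ∈ maximalIdeal A) ∧
      maximalIdeal A ≤ Ideal.span (Set.range t) := by
  obtain ⟨t, ht, hle⟩ := exists_generators_of_card_algHom_le hloc hres n hn N hN
  have hϖm : algebraMap 𝒪 A ϖ ∈ maximalIdeal A := by
    rw [IsLocalRing.mem_maximalIdeal, mem_nonunits_iff]
    intro hu
    have h1 : ϖ ∈ maximalIdeal 𝒪 := hϖ ▸ Ideal.subset_span rfl
    rw [IsLocalRing.mem_maximalIdeal, mem_nonunits_iff] at h1
    exact h1 (hloc.map_nonunit ϖ hu)
  refine ⟨Fin.cons (algebraMap 𝒪 A ϖ) t, ?_, ?_⟩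
  · intro i
    refine Fin.cases ?_ (fun j => ?_) i
    · simpa using hϖm
    · simpa using ht j
  · refine hle.trans ?_
    rw [Fin.range_cons, Ideal.span_insert, hϖ, Ideal.map_span, Set.image_singleton]
    exact sup_le le_sup_right le_sup_left

/-- For Artinian local rings the maximal ideal is nilpotent. -/
theorem exists_pow_maximalIdeal_eq_bot (A : Type*) [CommRing A] [IsLocalRing A]
    [IsArtinianRing A] : ∃ n : ℕ, maximalIdeal A ^ n = ⊥ := by
  have h := IsArtinianRing.isNilpotent_jacobson_bot (R := A)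
  rw [IsLocalRing.jacobson_eq_maximalIdeal ⊥ bot_ne_top] at h
  exact h

end Count

end Fermat.Agent.S53.Tangent

namespace Fermat.Agent.S53

open IsLocalRing GaloisRep

namespace Tangent

/-- The dual numbers over the residue field, with the algebra structure of
`GaloisRep.TangentFinite`, form a test algebra. -/
theorem testAlg_dualNumber (𝒪 : Type) [CommRing 𝒪] [IsLocalRing 𝒪] [Finite (ResidueField 𝒪)] :
    letI : Algebra 𝒪 (DualNumber (ResidueField 𝒪)) :=
      ((algebraMap (ResidueField 𝒪) (DualNumber (ResidueField 𝒪))).comp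
        (algebraMap 𝒪 (ResidueField 𝒪))).toAlgebra
    IsArtinianTestAlgebra 𝒪 (DualNumber (ResidueField 𝒪)) := by
  letI : Algebra 𝒪 (DualNumber (ResidueField 𝒪)) :=
    ((algebraMap (ResidueField 𝒪) (DualNumber (ResidueField 𝒪))).comp
      (algebraMap 𝒪 (ResidueField 𝒪))).toAlgebra
  have hfin : Finite (DualNumber (ResidueField 𝒪)) :=
    inferInstanceAs (Finite (ResidueField 𝒪 × ResidueField 𝒪))
  have halg : ∀ c : 𝒪, algebraMap 𝒪 (DualNumber (ResidueField 𝒪)) c
      = TrivSqZeroExt.inl (residue 𝒪 c) := fun c => rfl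
  refine testAlg_of_finite ⟨fun c hc => ?_⟩ ?_
  · rw [halg, TrivSqZeroExt.isUnit_inl_iff] at hc
    exact (residue_ne_zero_iff_isUnit c).1 hc.ne_zero
  · intro y
    obtain ⟨x, rfl⟩ := residue_surjective y
    obtain ⟨c, hc⟩ := residue_surjective (R := 𝒪) x.fst
    refine ⟨c, ?_⟩
    rw [Function.comp_apply, halg, ← sub_eq_zero, ← map_sub, residue_eq_zero_iff,
      mem_maximalIdeal, mem_nonunits_iff, TrivSqZeroExt.isUnit_iff_isUnit_fst]
    simp [hc]

end Tangent

variable (𝒪 : Type) [CommRing 𝒪] [IsDomain 𝒪] [IsDiscreteValuationRing 𝒪]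
  [IsAdicComplete (maximalIdeal 𝒪) 𝒪] [Finite (ResidueField 𝒪)]
variable {S : Type} [CommRing S] [Algebra 𝒪 S]

/-- Tangent bound from finiteness of dual-number points. -/
theorem tangent_bound
    (Good : ∀ ⦃A : Type⦄ [CommRing A] [IsLocalRing A] [Algebra 𝒪 A], (S →ₐ[𝒪] A) → Prop)
    (h_comp : ∀ ⦃A B : Type⦄ [CommRing A] [IsLocalRing A] [Algebra 𝒪 A]
      [CommRing B] [IsLocalRing B] [Algebra 𝒪 B],
      IsArtinianTestAlgebra 𝒪 A → IsArtinianTestAlgebra 𝒪 B →
      ∀ (φ : A →ₐ[𝒪] B), IsLocalHom (φ : A →+* B) → ∀ f : S →ₐ[𝒪] A, Good f → Good (φ.comp f))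
    (h_fin : letI : Algebra 𝒪 (DualNumber (ResidueField 𝒪)) :=
        ((algebraMap (ResidueField 𝒪) (DualNumber (ResidueField 𝒪))).comp
          (algebraMap 𝒪 (ResidueField 𝒪))).toAlgebra
      Finite {f : S →ₐ[𝒪] DualNumber (ResidueField 𝒪) // Good f}) :
    ∃ N : ℕ, ∀ ⦃A : Type⦄ [CommRing A] [IsLocalRing A] [Algebra 𝒪 A],
      IsArtinianTestAlgebra 𝒪 A → maximalIdeal A ^ 2 = ⊥ →
      (maximalIdeal 𝒪).map (algebraMap 𝒪 A) = ⊥ →
      ∀ f : S →ₐ[𝒪] A, Function.Surjective f → Good f → Nat.card A ≤ N := by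
  letI : Algebra 𝒪 (DualNumber (ResidueField 𝒪)) :=
    ((algebraMap (ResidueField 𝒪) (DualNumber (ResidueField 𝒪))).comp
      (algebraMap 𝒪 (ResidueField 𝒪))).toAlgebra
  have hfin' : Finite {f : S →ₐ[𝒪] DualNumber (ResidueField 𝒪) // Good f} := h_fin
  have hD : IsArtinianTestAlgebra 𝒪 (DualNumber (ResidueField 𝒪)) := Tangent.testAlg_dualNumber 𝒪
  set N₀ : ℕ := Nat.card {f : S →ₐ[𝒪] DualNumber (ResidueField 𝒪) // Good f} with hN₀
  refine ⟨Nat.card (ResidueField 𝒪) ^ (∑ i ∈ Finset.range 2, N₀ ^ i), ?_⟩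
  intro A _ _ _ hA hsq hϖ f hf hGood
  have hlocA : IsLocalHom (algebraMap 𝒪 A) := hA.isLocalHom
  -- the number of homs to the dual numbers is bounded
  have hN : ∀ Φ : Finset (A →ₐ[𝒪] DualNumber (ResidueField 𝒪)), Φ.card ≤ N₀ := by
    intro Φ
    let G : Φ → {g : S →ₐ[𝒪] DualNumber (ResidueField 𝒪) // Good g} := fun φ =>
      ⟨φ.1.comp f, h_comp hA hD φ.1 (isLocalHom_of_nilpotent ⟨2, hsq⟩ _) f hGood⟩
    have hG : Function.Injective G := by
      intro φ ψ h
      have h' : φ.1.comp f = ψ.1.comp f := congrArg Subtype.val h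
      apply Subtype.ext
      apply AlgHom.ext
      intro a
      obtain ⟨s, rfl⟩ := hf a
      exact DFunLike.congr_fun h' s
    calc Φ.card = Nat.card Φ := (Nat.card_eq_finsetCard Φ).symm
      _ ≤ N₀ := Nat.card_le_card_of_injective G hG
  -- generators of the maximal ideal
  obtain ⟨t, ht, hle⟩ := Tangent.exists_generators_of_card_algHom_le hlocA hA.residue_surjective
    2 hsq N₀ hN
  rw [hϖ, sup_bot_eq] at hle
  -- the residue field of `A` is finite, of cardinality at most that of `𝒪`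
  have hsurj : Function.Surjective (ResidueField.map (algebraMap 𝒪 A)) := by
    intro y
    obtain ⟨x, hx⟩ := hA.residue_surjective y
    exact ⟨residue 𝒪 x, by rw [ResidueField.map_residue]; exact hx⟩
  have hfinA : Finite (A ⧸ maximalIdeal A) :=
    show Finite (ResidueField A) from Finite.of_surjective _ hsurj
  have hcardA : Nat.card (A ⧸ maximalIdeal A) ≤ Nat.card (ResidueField 𝒪) :=
    Nat.card_le_card_of_surjective (ResidueField.map (algebraMap 𝒪 A)) hsurj
  obtain ⟨-, hcard⟩ := Chain.finite_and_card_quotient_le (maximalIdeal A) ⊥ 2 N₀ hsq.le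
    ⟨t, ht, hle.trans le_sup_left⟩
  calc Nat.card A = Nat.card (A ⧸ (⊥ : Ideal A)) :=
        Nat.card_congr (RingEquiv.quotientBot A).toEquiv.symm
    _ ≤ Nat.card (A ⧸ maximalIdeal A) ^ (∑ i ∈ Finset.range 2, N₀ ^ i) := hcard
    _ ≤ Nat.card (ResidueField 𝒪) ^ (∑ i ∈ Finset.range 2, N₀ ^ i) :=
        Nat.pow_le_pow_left hcardA _

end Fermat.Agent.S53
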