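import Fermat.Agent.S53_Defs
import Fermat.Agent.S53_TestAlg
import Fermat.Agent.S53_Glue
import Fermat.Agent.S53_NormalForm
import Fermat.Agent.S53_Burnside
import Fermat.Agent.S53_Tangent
import Fermat.Agent.S53_ProRep

set_option autoImplicit false
set_option linter.style.haveILetI false
set_option linter.unusedSectionVars false

/-!
S53: final assembly. The deformation functor is realised as a subfunctor of the functor of points
of the polynomial ring on the matrix entries, and the abstract pro-representability theorem is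
applied.
-/

open IsLocalRing GaloisRep

namespace Fermat.Agent.S53.Main

/-- The polynomial ring on the matrix entries. -/
abbrev Poly (𝒪 : Type) [CommRing 𝒪] : Type := MvPolynomial (GQ × Fin 2 × Fin 2) 𝒪

section Basic

variable {𝒪 : Type} [CommRing 𝒪]
variable {A : Type} [CommRing A] [Algebra 𝒪 A] {B : Type} [CommRing B] [Algebra 𝒪 B]

/-- The matrix-valued function attached to an algebra hom out of `Poly 𝒪`. -/
noncomputable def matOf (f : Poly 𝒪 →ₐ[𝒪] A) : GQ → Matrix (Fin 2) (Fin 2) A :=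
  fun σ => Matrix.of fun i j => f (MvPolynomial.X (σ, i, j))

/-- The algebra hom attached to a matrix-valued function. -/
noncomputable def homOf (r : GQ → Matrix (Fin 2) (Fin 2) A) : Poly 𝒪 →ₐ[𝒪] A :=
  MvPolynomial.aeval fun p : GQ × Fin 2 × Fin 2 => r p.1 p.2.1 p.2.2

theorem matOf_apply (f : Poly 𝒪 →ₐ[𝒪] A) (σ : GQ) (i j : Fin 2) :
    matOf f σ i j = f (MvPolynomial.X (σ, i, j)) := rfl

theorem matOf_homOf (r : GQ → Matrix (Fin 2) (Fin 2) A) : matOf (homOf (𝒪 := 𝒪) r) = r := by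
  funext σ
  ext i j
  simp [matOf, homOf]

theorem matOf_comp (φ : A →ₐ[𝒪] B) (f : Poly 𝒪 →ₐ[𝒪] A) :
    matOf (φ.comp f) = fun σ => (matOf f σ).map φ := by
  funext σ
  ext i j
  rfl

theorem hom_ext_matOf {f g : Poly 𝒪 →ₐ[𝒪] A} (h : matOf f = matOf g) : f = g := by
  apply MvPolynomial.algHom_ext
  rintro ⟨σ, i, j⟩
  exact congrFun (congrFun (congrFun h σ) i) j

theorem linComb_apply (c : GQ →₀ 𝒪) (r : GQ → Matrix (Fin 2) (Fin 2) A) (i j : Fin 2) :
    linComb c r i j = c.sum fun σ a => algebraMap 𝒪 A a * r σ i j := by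
  unfold linComb
  rw [Finsupp.sum, Finsupp.sum, Matrix.sum_apply]
  rfl

theorem linComb_map (φ : A →ₐ[𝒪] B) (c : GQ →₀ 𝒪) (r : GQ → Matrix (Fin 2) (Fin 2) A) :
    linComb c (fun σ => (r σ).map φ) = (linComb c r).map φ := by
  ext i j
  rw [Matrix.map_apply, linComb_apply, linComb_apply, Finsupp.sum, Finsupp.sum, map_sum]
  refine Finset.sum_congr rfl fun σ _ => ?_
  rw [map_mul, Matrix.map_apply, AlgHom.commutes]

theorem linComb_conj (c : GQ →₀ 𝒪) (r : GQ → Matrix (Fin 2) (Fin 2) A)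
    (g h : Matrix (Fin 2) (Fin 2) A) :
    linComb c (fun σ => g * r σ * h) = g * linComb c r * h := by
  unfold linComb
  rw [Finsupp.sum, Finsupp.sum, Finset.mul_sum, Finset.sum_mul]
  refine Finset.sum_congr rfl fun σ _ => ?_
  rw [Matrix.mul_smul, Matrix.smul_mul]

end Basic

section Lifts

variable {𝒪 : Type} [CommRing 𝒪] [IsLocalRing 𝒪]
variable {A : Type} [CommRing A] [IsLocalRing A] [Algebra 𝒪 A]
variable {B : Type} [CommRing B] [IsLocalRing B] [Algebra 𝒪 B]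

theorem liftsRes_map_iff (φ : A →ₐ[𝒪] B) (hφ : IsLocalHom (φ : A →+* B))
    {rbar : GQ → Matrix (Fin 2) (Fin 2) (ResidueField 𝒪)} {r : GQ → Matrix (Fin 2) (Fin 2) A} :
    LiftsRes rbar (fun σ => (r σ).map φ) ↔ LiftsRes rbar r := by
  have key : ∀ y : A, φ y ∈ maximalIdeal B ↔ y ∈ maximalIdeal A := by
    intro y
    rw [mem_maximalIdeal, mem_maximalIdeal, mem_nonunits_iff, mem_nonunits_iff]
    exact not_congr (isUnit_map_iff (φ : A →+* B) y)
  unfold LiftsRes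
  refine forall_congr' fun σ => forall_congr' fun i => forall_congr' fun j =>
    forall_congr' fun x => forall_congr' fun _ => ?_
  rw [← key, map_sub, AlgHom.commutes]
  exact Iff.rfl

theorem liftsRes_iff_residue [IsLocalHom (algebraMap 𝒪 A)]
    {rbar : GQ → Matrix (Fin 2) (Fin 2) (ResidueField 𝒪)} {r : GQ → Matrix (Fin 2) (Fin 2) A} :
    LiftsRes rbar r ↔ ∀ σ i j, residue A (r σ i j) =
      ResidueField.map (algebraMap 𝒪 A) (rbar σ i j) := by
  constructor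
  · intro h σ i j
    obtain ⟨x, hx⟩ := residue_surjective (rbar σ i j)
    have h1 := h σ i j x hx
    rw [← hx, ResidueField.map_residue]
    rw [← residue_eq_zero_iff, map_sub, sub_eq_zero] at h1
    exact h1
  · intro h σ i j x hx
    rw [← residue_eq_zero_iff, map_sub, sub_eq_zero, h σ i j, ← hx, ResidueField.map_residue]

theorem residue_linComb [IsLocalHom (algebraMap 𝒪 A)]
    {rbar : GQ → Matrix (Fin 2) (Fin 2) (ResidueField 𝒪)} {r : GQ → Matrix (Fin 2) (Fin 2) A}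
    (h : LiftsRes rbar r) (c : GQ →₀ 𝒪) (i j : Fin 2) :
    residue A (linComb c r i j) = ResidueField.map (algebraMap 𝒪 A)
      ((c.sum fun σ a => residue 𝒪 a • rbar σ) i j) := by
  rw [liftsRes_iff_residue] at h
  rw [linComb_apply, Finsupp.sum, Finsupp.sum, Matrix.sum_apply, map_sum, map_sum]
  refine Finset.sum_congr rfl fun σ _ => ?_
  rw [map_mul, h σ i j, Matrix.smul_apply, smul_eq_mul, map_mul, ResidueField.map_residue]

/-- Consequences of lifting for the two normalising combinations. -/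
theorem linComb_mem_of_liftsRes [IsLocalHom (algebraMap 𝒪 A)]
    {rbar : GQ → Matrix (Fin 2) (Fin 2) (ResidueField 𝒪)} {r : GQ → Matrix (Fin 2) (Fin 2) A}
    (h : LiftsRes rbar r) {ce cn : GQ →₀ 𝒪}
    (hE : (ce.sum fun σ a => residue 𝒪 a • rbar σ) = !![1, 0; 0, 0])
    (hN : (cn.sum fun σ a => residue 𝒪 a • rbar σ) = !![0, 1; 0, 0]) :
    linComb ce r 0 0 - 1 ∈ maximalIdeal A ∧ linComb ce r 0 1 ∈ maximalIdeal A ∧
    linComb ce r 1 0 ∈ maximalIdeal A ∧ linComb ce r 1 1 ∈ maximalIdeal A ∧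
    linComb cn r 0 1 - 1 ∈ maximalIdeal A := by
  have e := residue_linComb h ce
  have n := residue_linComb h cn
  rw [hE] at e
  rw [hN] at n
  refine ⟨?_, ?_, ?_, ?_, ?_⟩
  · rw [← residue_eq_zero_iff, map_sub, e 0 0]; simp
  · rw [← residue_eq_zero_iff, e 0 1]; simp
  · rw [← residue_eq_zero_iff, e 1 0]; simp
  · rw [← residue_eq_zero_iff, e 1 1]; simp
  · rw [← residue_eq_zero_iff, map_sub, n 0 1]; simp

theorem matCont_iff_of_nilpotent (hN : ∃ N : ℕ, maximalIdeal A ^ N = ⊥)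
    (r : GQ → Matrix (Fin 2) (Fin 2) A) :
    MatCont r ↔ ∃ L : IntermediateField ℚ (AlgebraicClosure ℚ), FiniteDimensional ℚ L ∧
      ∀ σ : GQ, (∀ x ∈ L, σ x = x) → r σ = 1 := by
  constructor
  · intro h
    obtain ⟨N, hN⟩ := hN
    obtain ⟨L, hL, hL'⟩ := h N
    refine ⟨L, hL, fun σ hσ => ?_⟩
    ext i j
    have := hL' σ hσ i j
    rw [hN, Ideal.mem_bot, Matrix.sub_apply, sub_eq_zero] at this
    exact this
  · rintro ⟨L, hL, hL'⟩ n
    refine ⟨L, hL, fun σ hσ i j => ?_⟩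
    rw [hL' σ hσ, sub_self]
    exact Ideal.zero_mem _

end Lifts

section GoodSec

variable {𝒪 : Type} [CommRing 𝒪] [IsLocalRing 𝒪]

theorem isNormalized_map {A : Type} [CommRing A] [Algebra 𝒪 A] {B : Type} [CommRing B]
    [Algebra 𝒪 B] (φ : A →ₐ[𝒪] B) {ce cn : GQ →₀ 𝒪} {r : GQ → Matrix (Fin 2) (Fin 2) A}
    (h : IsNormalized ce cn r) : IsNormalized ce cn (fun σ => (r σ).map φ) := by
  obtain ⟨h1, h2, h3⟩ := h
  refine ⟨?_, ?_, ?_⟩
  · rw [linComb_map, Matrix.map_apply, h1, map_zero]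
  · rw [linComb_map, Matrix.map_apply, h2, map_zero]
  · rw [linComb_map, Matrix.map_apply, h3, map_one]

theorem isNormalized_of_map {A : Type} [CommRing A] [Algebra 𝒪 A] {B : Type} [CommRing B]
    [Algebra 𝒪 B] (φ : A →ₐ[𝒪] B) (hφ : Function.Injective φ) {ce cn : GQ →₀ 𝒪}
    {r : GQ → Matrix (Fin 2) (Fin 2) A}
    (h : IsNormalized ce cn (fun σ => (r σ).map φ)) : IsNormalized ce cn r := by
  obtain ⟨h1, h2, h3⟩ := h
  rw [linComb_map, Matrix.map_apply] at h1 h2 h3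
  refine ⟨hφ ?_, hφ ?_, hφ ?_⟩
  · rw [h1, map_zero]
  · rw [h2, map_zero]
  · rw [h3, map_one]

variable (𝒟 : ∀ ⦃A : Type⦄ [CommRing A] [IsLocalRing A] [Algebra 𝒪 A], GaloisRepAdic A → Prop)
variable (rbar : GQ → Matrix (Fin 2) (Fin 2) (ResidueField 𝒪)) (ce cn : GQ →₀ 𝒪)

/-- The subfunctor of normalised lifts of type `𝒟`. -/
def Good ⦃A : Type⦄ [CommRing A] [IsLocalRing A] [Algebra 𝒪 A] (f : Poly 𝒪 →ₐ[𝒪] A) : Prop :=
  LiftsRes rbar (matOf f) ∧ IsNormalized ce cn (matOf f) ∧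
    ∃ ρ : GaloisRepAdic A, IsMat ρ (matOf f) ∧ 𝒟 ρ

variable {𝒟 rbar ce cn}

theorem good_comp (h𝒟 : IsDeformationCondition 𝒪 𝒟) ⦃A B : Type⦄ [CommRing A] [IsLocalRing A]
    [Algebra 𝒪 A] [CommRing B] [IsLocalRing B] [Algebra 𝒪 B]
    (hA : IsArtinianTestAlgebra 𝒪 A) (hB : IsArtinianTestAlgebra 𝒪 B) (φ : A →ₐ[𝒪] B)
    (hφ : IsLocalHom (φ : A →+* B)) (f : Poly 𝒪 →ₐ[𝒪] A) (hf : Good 𝒟 rbar ce cn f) :
    Good 𝒟 rbar ce cn (φ.comp f) := by
  obtain ⟨h1, h2, ρ, h3, h4⟩ := hf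
  refine ⟨?_, ?_, ρ.baseChangeAlong (φ : A →+* B) hφ, ?_, h𝒟.baseChangeAlong hA hB φ hφ h4⟩
  · rw [matOf_comp]; exact (liftsRes_map_iff φ hφ).mpr h1
  · rw [matOf_comp]; exact isNormalized_map φ h2
  · rw [matOf_comp]; exact h3.baseChangeAlong (φ : A →+* B) hφ

theorem good_inj (h𝒟 : IsDeformationCondition 𝒪 𝒟) ⦃A B : Type⦄ [CommRing A] [IsLocalRing A]
    [Algebra 𝒪 A] [CommRing B] [IsLocalRing B] [Algebra 𝒪 B]
    (hA : IsArtinianTestAlgebra 𝒪 A) (hB : IsArtinianTestAlgebra 𝒪 B) (φ : A →ₐ[𝒪] B)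
    (hφ : IsLocalHom (φ : A →+* B)) (hinj : Function.Injective φ) (f : Poly 𝒪 →ₐ[𝒪] A)
    (hf : Good 𝒟 rbar ce cn (φ.comp f)) : Good 𝒟 rbar ce cn f := by
  obtain ⟨h1, h2, ρ', h3, h4⟩ := hf
  rw [matOf_comp] at h1 h2 h3
  have h1' := (liftsRes_map_iff φ hφ).mp h1
  have h2' := isNormalized_of_map φ hinj h2
  have hinjM : Function.Injective (fun M : Matrix (Fin 2) (Fin 2) A => M.map φ) :=
    Matrix.map_injective hinj
  have hone : matOf f 1 = 1 := by
    apply hinjM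
    show (matOf f 1).map φ = (1 : Matrix (Fin 2) (Fin 2) A).map φ
    rw [h3.map_one, Matrix.map_one _ (map_zero φ) (map_one φ)]
  have hmul : ∀ σ τ : GQ, matOf f (σ * τ) = matOf f σ * matOf f τ := by
    intro σ τ
    apply hinjM
    show (matOf f (σ * τ)).map φ = (matOf f σ * matOf f τ).map φ
    rw [h3.map_mul, Matrix.map_mul]
  have hc : MatCont (matOf f) := by
    rw [matCont_iff_of_nilpotent (testAlg_exists_pow_eq_bot hA)]
    obtain ⟨L, hL, hL'⟩ :=
      (matCont_iff_of_nilpotent (testAlg_exists_pow_eq_bot hB) _).mp h3.matCont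
    refine ⟨L, hL, fun σ hσ => hinjM ?_⟩
    show (matOf f σ).map φ = (1 : Matrix (Fin 2) (Fin 2) A).map φ
    rw [hL' σ hσ, Matrix.map_one _ (map_zero φ) (map_one φ)]
  obtain ⟨ρ, hρ⟩ := exists_isMat_of_matCont _ hone hmul hc
  refine ⟨h1', h2', ρ, hρ, ?_⟩
  have e : ρ'.IsEquiv (ρ.baseChangeAlong (φ : A →+* B) hφ) :=
    h3.isEquiv (hρ.baseChangeAlong (φ : A →+* B) hφ)
  exact h𝒟.of_baseChangeAlong_injective hA hB φ hφ hinj (h𝒟.of_isEquiv hB e h4)

theorem good_fib (h𝒟 : IsDeformationCondition 𝒪 𝒟) ⦃A B C P : Type⦄ [CommRing A] [IsLocalRing A]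
    [Algebra 𝒪 A] [CommRing B] [IsLocalRing B] [Algebra 𝒪 B] [CommRing C] [IsLocalRing C]
    [Algebra 𝒪 C] [CommRing P] [IsLocalRing P] [Algebra 𝒪 P]
    (hA : IsArtinianTestAlgebra 𝒪 A) (hB : IsArtinianTestAlgebra 𝒪 B)
    (hC : IsArtinianTestAlgebra 𝒪 C) (hP : IsArtinianTestAlgebra 𝒪 P)
    (f : A →ₐ[𝒪] C) (g : B →ₐ[𝒪] C) (pA : P →ₐ[𝒪] A) (pB : P →ₐ[𝒪] B)
    (hpA : IsLocalHom (pA : P →+* A)) (hpB : IsLocalHom (pB : P →+* B))
    (hcomm : f.comp pA = g.comp pB)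
    (hinj : Function.Injective (fun x => (pA x, pB x)))
    (hsurj : ∀ a b, f a = g b → ∃ x, pA x = a ∧ pB x = b)
    (h : Poly 𝒪 →ₐ[𝒪] P) (hgA : Good 𝒟 rbar ce cn (pA.comp h))
    (hgB : Good 𝒟 rbar ce cn (pB.comp h)) : Good 𝒟 rbar ce cn h := by
  obtain ⟨a1, a2, ρA, a3, a4⟩ := hgA
  obtain ⟨b1, b2, ρB, b3, b4⟩ := hgB
  rw [matOf_comp] at a1 a2 a3 b1 b2 b3
  have h1' := (liftsRes_map_iff pA hpA).mp a1
  have hinjM : ∀ M N : Matrix (Fin 2) (Fin 2) P, M.map pA = N.map pA → M.map pB = N.map pB →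
      M = N := by
    intro M N hMA hMB
    ext i j
    apply hinj
    show (pA (M i j), pB (M i j)) = (pA (N i j), pB (N i j))
    have e1 : pA (M i j) = pA (N i j) := congrFun (congrFun hMA i) j
    have e2 : pB (M i j) = pB (N i j) := congrFun (congrFun hMB i) j
    rw [e1, e2]
  have hentry : ∀ x y : P, pA x = pA y → pB x = pB y → x = y := by
    intro x y e1 e2
    apply hinj
    show (pA x, pB x) = (pA y, pB y)
    rw [e1, e2]
  have h2' : IsNormalized ce cn (matOf h) := by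
    obtain ⟨a21, a22, a23⟩ := a2
    obtain ⟨b21, b22, b23⟩ := b2
    rw [linComb_map, Matrix.map_apply] at a21 a22 a23 b21 b22 b23
    refine ⟨hentry _ _ ?_ ?_, hentry _ _ ?_ ?_, hentry _ _ ?_ ?_⟩
    · rw [a21, map_zero]
    · rw [b21, map_zero]
    · rw [a22, map_zero]
    · rw [b22, map_zero]
    · rw [a23, map_one]
    · rw [b23, map_one]
  have hone : matOf h 1 = 1 := by
    apply hinjM
    · rw [a3.map_one, Matrix.map_one _ (map_zero pA) (map_one pA)]
    · rw [b3.map_one, Matrix.map_one _ (map_zero pB) (map_one pB)]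
  have hmul : ∀ σ τ : GQ, matOf h (σ * τ) = matOf h σ * matOf h τ := by
    intro σ τ
    apply hinjM
    · rw [a3.map_mul, Matrix.map_mul]
    · rw [b3.map_mul, Matrix.map_mul]
  have hc : MatCont (matOf h) := by
    rw [matCont_iff_of_nilpotent (testAlg_exists_pow_eq_bot hP)]
    obtain ⟨L, hL, hL'⟩ :=
      (matCont_iff_of_nilpotent (testAlg_exists_pow_eq_bot hA) _).mp a3.matCont
    obtain ⟨L2, hL2, hL2'⟩ :=
      (matCont_iff_of_nilpotent (testAlg_exists_pow_eq_bot hB) _).mp b3.matCont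
    refine ⟨L ⊔ L2, IntermediateField.finiteDimensional_sup L L2, fun σ hσ => hinjM _ _ ?_ ?_⟩
    · rw [hL' σ (fun x hx => hσ x ((le_sup_left : L ≤ L ⊔ L2) hx)),
        Matrix.map_one _ (map_zero pA) (map_one pA)]
    · rw [hL2' σ (fun x hx => hσ x ((le_sup_right : L2 ≤ L ⊔ L2) hx)),
        Matrix.map_one _ (map_zero pB) (map_one pB)]
  obtain ⟨ρ, hρ⟩ := exists_isMat_of_matCont _ hone hmul hc
  refine ⟨h1', h2', ρ, hρ, ?_⟩
  have eA : ρA.IsEquiv (ρ.baseChangeAlong (pA : P →+* A) hpA) :=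
    a3.isEquiv (hρ.baseChangeAlong (pA : P →+* A) hpA)
  have eB : ρB.IsEquiv (ρ.baseChangeAlong (pB : P →+* B) hpB) :=
    b3.isEquiv (hρ.baseChangeAlong (pB : P →+* B) hpB)
  exact h𝒟.of_fibreProduct hA hB hC hP f g pA pB hpA hpB hcomm hinj hsurj
    (h𝒟.of_isEquiv hA eA a4) (h𝒟.of_isEquiv hB eB b4)

theorem good_res (ρbar : ResidualGaloisRep (ResidueField 𝒪)) (hrbar : IsMatRes ρbar rbar)
    (hbar : 𝒟 (GaloisRepAdic.ofResidualGaloisRep ρbar))
    (hE : (ce.sum fun σ a => residue 𝒪 a • rbar σ) = !![1, 0; 0, 0])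
    (hN : (cn.sum fun σ a => residue 𝒪 a • rbar σ) = !![0, 1; 0, 0]) :
    Good 𝒟 rbar ce cn (homOf rbar) := by
  have hl : ∀ c : GQ →₀ 𝒪, linComb c rbar = c.sum fun σ a => residue 𝒪 a • rbar σ := by
    intro c
    unfold linComb
    rw [ResidueField.algebraMap_eq]
  refine ⟨?_, ?_, GaloisRepAdic.ofResidualGaloisRep ρbar, ?_, hbar⟩
  · rw [matOf_homOf]
    intro σ i j x hx
    rw [ResidueField.algebraMap_eq, hx, sub_self]
    exact Ideal.zero_mem _
  · rw [matOf_homOf]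
    refine ⟨?_, ?_, ?_⟩
    · rw [hl, hE]; rfl
    · rw [hl, hE]; rfl
    · rw [hl, hN]; rfl
  · rw [matOf_homOf]
    exact hrbar.ofResidual

theorem good_res_unique (f : Poly 𝒪 →ₐ[𝒪] ResidueField 𝒪) (hf : Good 𝒟 rbar ce cn f) :
    f = homOf rbar := by
  apply hom_ext_matOf
  rw [matOf_homOf]
  funext σ
  ext i j
  obtain ⟨x, hx⟩ := residue_surjective (rbar σ i j)
  have h1 := hf.1 σ i j x hx
  rw [(maximalIdeal (ResidueField 𝒪)).eq_bot_of_prime, Ideal.mem_bot, sub_eq_zero,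
    ResidueField.algebraMap_eq, hx] at h1
  exact h1

end GoodSec

section Tan
variable {𝒪 : Type} [CommRing 𝒪] [IsLocalRing 𝒪]
variable {𝒟 : ∀ ⦃A : Type⦄ [CommRing A] [IsLocalRing A] [Algebra 𝒪 A], GaloisRepAdic A → Prop}
variable {rbar : GQ → Matrix (Fin 2) (Fin 2) (ResidueField 𝒪)} {ce cn : GQ →₀ 𝒪}

theorem isLocalHom_dual :
    letI : Algebra 𝒪 (DualNumber (ResidueField 𝒪)) :=
      ((algebraMap (ResidueField 𝒪) (DualNumber (ResidueField 𝒪))).comp
        (algebraMap 𝒪 (ResidueField 𝒪))).toAlgebra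
    IsLocalHom (algebraMap 𝒪 (DualNumber (ResidueField 𝒪))) := by
  letI alg : Algebra 𝒪 (DualNumber (ResidueField 𝒪)) :=
      ((algebraMap (ResidueField 𝒪) (DualNumber (ResidueField 𝒪))).comp
        (algebraMap 𝒪 (ResidueField 𝒪))).toAlgebra
  show IsLocalHom ((algebraMap (ResidueField 𝒪) (DualNumber (ResidueField 𝒪))).comp
        (algebraMap 𝒪 (ResidueField 𝒪)))
  haveI : IsLocalHom (algebraMap 𝒪 (ResidueField 𝒪)) := by
    rw [ResidueField.algebraMap_eq]; infer_instance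
  infer_instance

theorem good_tangent_finite (ρbar : ResidualGaloisRep (ResidueField 𝒪))
    (hrbar : IsMatRes ρbar rbar)
    (hE : (ce.sum fun σ a => residue 𝒪 a • rbar σ) = !![1, 0; 0, 0])
    (hN : (cn.sum fun σ a => residue 𝒪 a • rbar σ) = !![0, 1; 0, 0])
    (hfin : TangentFinite 𝒪 ρbar 𝒟) :
    letI : Algebra 𝒪 (DualNumber (ResidueField 𝒪)) :=
      ((algebraMap (ResidueField 𝒪) (DualNumber (ResidueField 𝒪))).comp
        (algebraMap 𝒪 (ResidueField 𝒪))).toAlgebra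
    Finite {f : Poly 𝒪 →ₐ[𝒪] DualNumber (ResidueField 𝒪) // Good 𝒟 rbar ce cn f} := by
  letI alg : Algebra 𝒪 (DualNumber (ResidueField 𝒪)) :=
      ((algebraMap (ResidueField 𝒪) (DualNumber (ResidueField 𝒪))).comp
        (algebraMap 𝒪 (ResidueField 𝒪))).toAlgebra
  letI alg2 : Algebra (ResidueField 𝒪) (ResidueField (DualNumber (ResidueField 𝒪))) :=
    ((IsLocalRing.residue (DualNumber (ResidueField 𝒪))).comp
      (algebraMap (ResidueField 𝒪) (DualNumber (ResidueField 𝒪)))).toAlgebra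
  haveI hloc : IsLocalHom (algebraMap 𝒪 (DualNumber (ResidueField 𝒪))) := isLocalHom_dual
  unfold TangentFinite at hfin
  -- the residual equivalence for a good point
  have hres : ∀ (f : Poly 𝒪 →ₐ[𝒪] DualNumber (ResidueField 𝒪)) (ρ : GaloisRepAdic (DualNumber (ResidueField 𝒪))),
      LiftsRes rbar (matOf f) → IsMat ρ (matOf f) →
      ρ.residual.IsEquiv (ρbar.baseChange (ResidueField (DualNumber (ResidueField 𝒪)))) := by
    intro f ρ hl hm
    have h1 := hm.residual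
    have h2 := hrbar.baseChange (ResidueField (DualNumber (ResidueField 𝒪)))
    have heq : (fun σ => (matOf f σ).map (IsLocalRing.residue (DualNumber (ResidueField 𝒪)))) =
        (fun σ => (rbar σ).map (algebraMap (ResidueField 𝒪)
          (ResidueField (DualNumber (ResidueField 𝒪))))) := by
      funext σ
      ext i j
      obtain ⟨x, hx⟩ := residue_surjective (rbar σ i j)
      have h3 := hl σ i j x hx
      rw [← residue_eq_zero_iff, map_sub, sub_eq_zero] at h3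
      rw [Matrix.map_apply, Matrix.map_apply, h3, ← hx]
      rfl
    rw [heq] at h1
    exact h1.isEquiv h2
  choose ρ hρ using fun f : {f : Poly 𝒪 →ₐ[𝒪] DualNumber (ResidueField 𝒪) // Good 𝒟 rbar ce cn f} =>
    f.2.2.2
  refine @Finite.of_injective _ _ hfin (fun f => Quotient.mk _ ⟨ρ f, (hρ f).2, hres f.1 (ρ f) f.2.1 (hρ f).1⟩) ?_
  intro f f' hff'
  have e : (ρ f).IsEquiv (ρ f') := Quotient.exact hff'
  have hm' : IsMat (ρ f') (matOf f.1) := (hρ f).1.of_isEquiv e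
  obtain ⟨g, hg⟩ := hm'.exists_conj (hρ f').1
  have m1 := linComb_mem_of_liftsRes f.2.1 hE hN
  have m2 := linComb_mem_of_liftsRes f'.2.1 hE hN
  have := normalized_rigid ce cn (matOf f.1) (matOf f'.1) m1.1 m1.2.2.2.1 m2.1 m2.2.2.2.1
    f.2.2.1 f'.2.2.1 g hg
  exact Subtype.ext (hom_ext_matOf this.symm)

end Tan

section Final

variable {𝒪 : Type} [CommRing 𝒪] [IsLocalRing 𝒪]

theorem exists_lift_sum (rbar : GQ → Matrix (Fin 2) (Fin 2) (ResidueField 𝒪))
    (c0 : GQ →₀ ResidueField 𝒪) :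
    ∃ c : GQ →₀ 𝒪, (c.sum fun σ a => residue 𝒪 a • rbar σ) = c0.sum fun σ a => a • rbar σ := by
  classical
  let s : ResidueField 𝒪 → 𝒪 := fun a =>
    if a = 0 then 0 else Function.surjInv (residue_surjective (R := 𝒪)) a
  have hs0 : s 0 = 0 := if_pos rfl
  have hs : ∀ a, residue 𝒪 (s a) = a := by
    intro a
    by_cases h : a = 0
    · simp [s, h]
    · simp only [s, h, if_false]
      exact Function.surjInv_eq _ a
  refine ⟨c0.mapRange s hs0, ?_⟩
  rw [Finsupp.sum_mapRange_index (by intro σ; simp)]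
  simp only [hs]

/-- Separation of elements of a noetherian local algebra by artinian test quotients. -/
theorem cnl_ext (A : Type) [CommRing A] [IsLocalRing A] [IsNoetherianRing A]
    [Algebra 𝒪 A] [IsLocalHom (algebraMap 𝒪 A)]
    (hres : Function.Surjective (residue A ∘ algebraMap 𝒪 A)) {x y : A}
    (h : ∀ ⦃B : Type⦄ [CommRing B] [IsLocalRing B] [Algebra 𝒪 B], IsArtinianTestAlgebra 𝒪 B →
      ∀ q : A →ₐ[𝒪] B, IsLocalHom (q : A →+* B) → Function.Surjective q → q x = q y) :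
    x = y := by
  have h1 : x - y ∈ (⨅ i : ℕ, maximalIdeal A ^ i) := by
    rw [Ideal.mem_iInf]
    intro n
    obtain ⟨B, _, _, _, q, hB, hq, hqs, hker⟩ := exists_test_quotient A hres n
    have h2 : x - y ∈ RingHom.ker (q : A →+* B) := by
      rw [RingHom.mem_ker, map_sub, sub_eq_zero]
      exact h hB q hq hqs
    rw [hker] at h2
    exact Ideal.pow_le_pow_right (Nat.le_succ n) h2
  rw [Ideal.iInf_pow_eq_bot_of_isLocalRing _ (maximalIdeal.isMaximal A).ne_top, Ideal.mem_bot,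
    sub_eq_zero] at h1
  exact h1

theorem liftsRes_conj {A : Type} [CommRing A] [IsLocalRing A] [Algebra 𝒪 A]
    [IsLocalHom (algebraMap 𝒪 A)]
    {rbar : GQ → Matrix (Fin 2) (Fin 2) (ResidueField 𝒪)} {r : GQ → Matrix (Fin 2) (Fin 2) A}
    (h : LiftsRes rbar r) (g : (Matrix (Fin 2) (Fin 2) A)ˣ)
    (hg : ∀ i j, ((g : Matrix (Fin 2) (Fin 2) A) - 1) i j ∈ maximalIdeal A) :
    LiftsRes rbar (fun σ => (g : Matrix (Fin 2) (Fin 2) A) * r σ *
      ((g⁻¹ : (Matrix (Fin 2) (Fin 2) A)ˣ) : Matrix (Fin 2) (Fin 2) A)) := by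
  rw [liftsRes_iff_residue] at h ⊢
  have hg1 : (g : Matrix (Fin 2) (Fin 2) A).map (residue A) = 1 := by
    ext i j
    have := hg i j
    rw [← residue_eq_zero_iff, Matrix.sub_apply, map_sub, sub_eq_zero] at this
    rw [Matrix.map_apply, this]
    by_cases hij : i = j
    · subst hij; simp
    · simp [Matrix.one_apply_ne hij]
  have hg2 : ((g⁻¹ : (Matrix (Fin 2) (Fin 2) A)ˣ) : Matrix (Fin 2) (Fin 2) A).map (residue A)
      = 1 := by
    have h3 : ((g : Matrix (Fin 2) (Fin 2) A) *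
        ((g⁻¹ : (Matrix (Fin 2) (Fin 2) A)ˣ) : Matrix (Fin 2) (Fin 2) A)).map (residue A) = 1 := by
      rw [Units.mul_inv, Matrix.map_one _ (map_zero _) (map_one _)]
    rw [Matrix.map_mul, hg1, Matrix.one_mul] at h3
    exact h3
  intro σ i j
  have h4 : residue A (((g : Matrix (Fin 2) (Fin 2) A) * r σ *
      ((g⁻¹ : (Matrix (Fin 2) (Fin 2) A)ˣ) : Matrix (Fin 2) (Fin 2) A)) i j) =
      (((g : Matrix (Fin 2) (Fin 2) A) * r σ *
      ((g⁻¹ : (Matrix (Fin 2) (Fin 2) A)ˣ) : Matrix (Fin 2) (Fin 2) A)).map (residue A)) i j := rfl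
  rw [h4, Matrix.map_mul, Matrix.map_mul, hg1, hg2, Matrix.one_mul, Matrix.mul_one,
    Matrix.map_apply, h σ i j]

end Final

end Fermat.Agent.S53.Main
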