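import Fermat.Statements.S53
import Fermat.Agent.S53_Main

set_option autoImplicit false
set_option autoImplicit false
open GaloisRep

namespace Fermat.Agent.S53

open IsLocalRing Main in
theorem result
    (𝒪 : Type) [CommRing 𝒪] [IsDomain 𝒪] [IsDiscreteValuationRing 𝒪]
    [IsAdicComplete (IsLocalRing.maximalIdeal 𝒪) 𝒪] [Finite (IsLocalRing.ResidueField 𝒪)]
    (ρbar : ResidualGaloisRep (IsLocalRing.ResidueField 𝒪))
    (𝒟 : ∀ ⦃A : Type⦄ [CommRing A] [IsLocalRing A] [Algebra 𝒪 A], GaloisRepAdic A → Prop)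
    (habs : ρbar.IsAbsolutelyIrreducible)
    (h𝒟 : GaloisRep.IsDeformationCondition 𝒪 𝒟)
    (hbar : 𝒟 (GaloisRepAdic.ofResidualGaloisRep ρbar))
    (hfin : GaloisRep.TangentFinite 𝒪 ρbar 𝒟) :
    Nonempty (GaloisRep.DeformationRingData 𝒪 ρbar 𝒟) := by
  -- Burnside and the normalising coefficients
  obtain ⟨rbar, ce0, cn0, hrbar, hE0, hN0⟩ := exists_burnside ρbar habs
  obtain ⟨ce, hce⟩ := exists_lift_sum rbar ce0
  obtain ⟨cn, hcn⟩ := exists_lift_sum rbar cn0
  have hE : (ce.sum fun σ a => residue 𝒪 a • rbar σ) = !![1, 0; 0, 0] := hce.trans hE0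
  have hN : (cn.sum fun σ a => residue 𝒪 a • rbar σ) = !![0, 1; 0, 0] := hcn.trans hN0
  -- the pro-representing ring
  obtain ⟨R, iR1, iR2, iR3, iR4, iR5, iR6, u, hRres, hV, hU⟩ :=
    exists_prorep 𝒪 (Good 𝒟 rbar ce cn) (homOf rbar) (good_res ρbar hrbar hbar hE hN)
      (fun f hf => good_res_unique f hf) (good_comp h𝒟) (good_inj h𝒟) (good_fib h𝒟)
      (tangent_bound 𝒪 (Good 𝒟 rbar ce cn) (good_comp h𝒟)
        (good_tangent_finite ρbar hrbar hE hN hfin))
  -- the universal matrix-valued function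
  have hgoodq : ∀ ⦃B : Type⦄ [CommRing B] [IsLocalRing B] [Algebra 𝒪 B],
      IsArtinianTestAlgebra 𝒪 B → ∀ q : R →ₐ[𝒪] B, IsLocalHom (q : R →+* B) →
      LiftsRes rbar (fun σ => (matOf u σ).map q) ∧
      IsNormalized ce cn (fun σ => (matOf u σ).map q) ∧
      ∃ ρ : GaloisRepAdic B, IsMat ρ (fun σ => (matOf u σ).map q) ∧ 𝒟 ρ := by
    intro B _ _ _ hB q hq
    have := hV hB q hq
    unfold Good at this
    rw [matOf_comp] at this
    exact this
  have hliftR : LiftsRes rbar (matOf u) := by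
    obtain ⟨B, _, _, _, q, hB, hq, hqs, hker⟩ := exists_test_quotient R hRres 0
    exact (liftsRes_map_iff q hq).mp (hgoodq hB q hq).1
  have hnormR : IsNormalized ce cn (matOf u) := by
    refine ⟨cnl_ext R hRres fun B _ _ _ hB q hq hqs => ?_,
      cnl_ext R hRres fun B _ _ _ hB q hq hqs => ?_,
      cnl_ext R hRres fun B _ _ _ hB q hq hqs => ?_⟩
    · have h1 := (hgoodq hB q hq).2.1.1
      rw [linComb_map, Matrix.map_apply] at h1
      rw [h1, map_zero]
    · have h1 := (hgoodq hB q hq).2.1.2.1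
      rw [linComb_map, Matrix.map_apply] at h1
      rw [h1, map_zero]
    · have h1 := (hgoodq hB q hq).2.1.2.2
      rw [linComb_map, Matrix.map_apply] at h1
      rw [h1, map_one]
  have honeR : matOf u 1 = 1 := by
    ext i j
    refine cnl_ext R hRres fun B _ _ _ hB q hq hqs => ?_
    obtain ⟨ρ, hρ, -⟩ := (hgoodq hB q hq).2.2
    have h1 := hρ.map_one
    have h2 : q (matOf u 1 i j) = ((matOf u 1).map q) i j := rfl
    rw [h2, h1, ← Matrix.map_apply (f := q), Matrix.map_one _ (map_zero q) (map_one q)]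
  have hmulR : ∀ σ τ : GQ, matOf u (σ * τ) = matOf u σ * matOf u τ := by
    intro σ τ
    ext i j
    refine cnl_ext R hRres fun B _ _ _ hB q hq hqs => ?_
    obtain ⟨ρ, hρ, -⟩ := (hgoodq hB q hq).2.2
    have h1 := hρ.map_mul σ τ
    have h2 : q (matOf u (σ * τ) i j) = ((matOf u (σ * τ)).map q) i j := rfl
    rw [h2, h1, ← Matrix.map_mul]
    rfl
  have hcontR : MatCont (matOf u) := by
    intro n
    obtain ⟨B, _, _, _, q, hB, hq, hqs, hker⟩ := exists_test_quotient R hRres n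
    obtain ⟨ρ, hρ, -⟩ := (hgoodq hB q hq).2.2
    obtain ⟨L, hL, hL'⟩ :=
      (matCont_iff_of_nilpotent (testAlg_exists_pow_eq_bot hB) _).mp hρ.matCont
    refine ⟨L, hL, fun σ hσ i j => ?_⟩
    have h1 := hL' σ hσ
    have h2 : (matOf u σ - 1) i j ∈ RingHom.ker (q : R →+* B) := by
      rw [RingHom.mem_ker]
      have h3 : (q : R →+* B) ((matOf u σ - 1) i j) =
          ((matOf u σ).map q) i j - ((1 : Matrix (Fin 2) (Fin 2) R).map q) i j := by
        rw [Matrix.sub_apply, map_sub]; rfl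
      rw [h3, h1, Matrix.map_one _ (map_zero q) (map_one q), sub_self]
    rw [hker] at h2
    exact Ideal.pow_le_pow_right (Nat.le_succ n) h2
  obtain ⟨ρR, hρR⟩ := exists_isMat_of_matCont _ honeR hmulR hcontR
  have hDR : 𝒟 ρR := by
    rw [h𝒟.iff_forall_surjective iR6 hRres ρR]
    intro B _ _ _ hB q hq hqs
    obtain ⟨ρ, hρ, hD⟩ := (hgoodq hB q hq).2.2
    exact h𝒟.of_isEquiv hB (hρ.isEquiv (hρR.baseChangeAlong (q : R →+* B) hq)) hD
  have hresR : ρR.residual.IsEquiv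
      (ρbar.baseChangeAlong (IsLocalRing.ResidueField.map (algebraMap 𝒪 R))) :=
    (residual_isEquiv_iff ρbar hrbar ρR).mpr ⟨_, hρR, hliftR⟩
  refine ⟨{ R := R
            residue_surjective := hRres
            absIrr := habs
            ρ := ρR
            isOfType := hDR
            residual_isEquiv := hresR
            universal := ?_ }⟩
  intro A _ _ _ _ _ iA hAres ρA hDA hresA
  obtain ⟨r0, hr0, hl0⟩ := (residual_isEquiv_iff ρbar hrbar ρA).mp hresA
  have m0 := linComb_mem_of_liftsRes hl0 hE hN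
  obtain ⟨g, hg1, hnormA⟩ :=
    exists_normalize ce cn r0 m0.1 m0.2.1 m0.2.2.1 m0.2.2.2.1 m0.2.2.2.2
  have hrA := hr0.conj g
  have hlA := liftsRes_conj hl0 g hg1
  have mA := linComb_mem_of_liftsRes hlA hE hN
  obtain ⟨φ, ⟨hφloc, hφu⟩, hφuniq⟩ := hU A hAres (homOf _) (by
    intro B _ _ _ hB q hq hqs
    unfold Good
    rw [matOf_comp, matOf_homOf]
    exact ⟨(liftsRes_map_iff q hq).mpr hlA, isNormalized_map q hnormA,
      ρA.baseChangeAlong (q : A →+* B) hq, hrA.baseChangeAlong (q : A →+* B) hq,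
      (h𝒟.iff_forall_surjective iA hAres ρA).mp hDA hB q hq hqs⟩)
  refine ⟨φ, ⟨hφloc, ?_⟩, ?_⟩
  · have h1 := hρR.baseChangeAlong (φ : R →+* A) hφloc
    have h2 : (fun σ => (matOf u σ).map (φ : R →+* A)) = matOf (φ.comp u) := by
      rw [matOf_comp]; rfl
    rw [h2, hφu, matOf_homOf] at h1
    exact h1.isEquiv hrA
  · rintro φ' ⟨hφ'loc, hequiv⟩
    refine hφuniq φ' ⟨hφ'loc, ?_⟩
    apply hom_ext_matOf
    rw [matOf_homOf, matOf_comp]
    have h1 : IsMat ρA (fun σ => (matOf u σ).map φ') :=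
      (hρR.baseChangeAlong (φ' : R →+* A) hφ'loc).of_isEquiv hequiv
    obtain ⟨g', hg'⟩ := hrA.exists_conj h1
    have hl' : LiftsRes rbar (fun σ => (matOf u σ).map φ') :=
      (liftsRes_map_iff φ' hφ'loc).mpr hliftR
    have m' := linComb_mem_of_liftsRes hl' hE hN
    exact normalized_rigid ce cn _ _ mA.1 mA.2.2.2.1 m'.1 m'.2.2.2.1 hnormA
      (isNormalized_map φ' hnormR) g' hg'

end Fermat.Agent.S53
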