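import Mathlib
import Fermat.Prelude.Def_GaloisRep_DeformationCondition
import Fermat.Agent.S53_TestAlg

/-!
# Commutative algebra for the deformation ring (S53): limits of towers of finite local rings

* `exists_compatible_of_finite`: Konig's lemma for sequences of finite nonempty types.
* `exists_compatible_of_surjective`: lifting along a tower of surjections.
* `mem_of_forall_mem_sup_pow`: finitely generated ideals are adically closed in an adically
  complete ring all of whose quotients by powers of the ideal are finite.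
* `isNoetherianRing_of_isAdicComplete_of_finite`: an `I`-adically complete ring with `I`
  finitely generated and `R ⧸ I` finite is Noetherian.
-/

set_option autoImplicit false

namespace Fermat.Agent.S53.Limit

universe u v

section Konig

open CategoryTheory in
/-- Konig's lemma: an inverse sequence of nonempty finite types has a compatible family. -/
theorem exists_compatible_of_finite {X : ℕ → Type u} [∀ n, Finite (X n)] [∀ n, Nonempty (X n)]
    (f : ∀ n, X (n + 1) → X n) : ∃ y : ∀ n, X n, ∀ n, f n (y (n + 1)) = y n := by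
  let F : ℕᵒᵖ ⥤ Type u := Functor.ofOpSequence (X := X) (fun n => TypeCat.ofHom (f n))
  have h1 : ∀ j : ℕᵒᵖ, Finite (F.obj j) := fun j => inferInstanceAs (Finite (X j.unop))
  have h2 : ∀ j : ℕᵒᵖ, Nonempty (F.obj j) := fun j => inferInstanceAs (Nonempty (X j.unop))
  obtain ⟨s, hs⟩ := nonempty_sections_of_finite_inverse_system F
  refine ⟨fun n => s (Opposite.op n), fun n => ?_⟩
  have := hs (homOfLE (Nat.le_add_right n 1)).op
  rw [Functor.ofOpSequence_map_homOfLE_succ] at this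
  exact this

/-- In a tower of surjections every element extends to a compatible family. -/
theorem exists_compatible_of_surjective : ∀ (n : ℕ) {X : ℕ → Type u} (f : ∀ k, X (k + 1) → X k)
    (_ : ∀ k, Function.Surjective (f k)) (x : X n),
    ∃ y : ∀ k, X k, (∀ k, f k (y (k + 1)) = y k) ∧ y n = x := by
  intro n
  induction n with
  | zero =>
    intro X f hf x
    refine ⟨fun k => Nat.rec (motive := fun k => X k) x
      (fun k yk => Classical.choose (hf k yk)) k, fun k => ?_, rfl⟩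
    exact Classical.choose_spec (hf k _)
  | succ n ih =>
    intro X f hf x
    obtain ⟨y, hy, hx⟩ := ih (X := fun k => X (k + 1)) (fun k => f (k + 1))
      (fun k => hf (k + 1)) x
    refine ⟨fun k => Nat.casesOn (motive := fun k => X k) k (f 0 (y 0)) (fun k => y k),
      fun k => ?_, hx⟩
    cases k with
    | zero => rfl
    | succ k => exact hy k

end Konig

section Noetherian

variable {R : Type u} [CommRing R]

theorem smodEq_pow_smul_top_iff (I : Ideal R) (n : ℕ) (x y : R) :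
    x ≡ y [SMOD (I ^ n • ⊤ : Submodule R R)] ↔ x - y ∈ I ^ n := by
  rw [SModEq.sub_mem, smul_eq_mul, Ideal.mul_top]

/-- Finitely generated ideals are closed for the `I`-adic topology when `R` is `I`-adically
complete and the quotients `R ⧸ I ^ n` are finite. -/
theorem mem_of_forall_mem_sup_pow (I : Ideal R) [IsAdicComplete I R]
    (hfin : ∀ n, Finite (R ⧸ I ^ n)) (J : Ideal R) (hJ : J.FG) (x : R)
    (hx : ∀ n, x ∈ J ⊔ I ^ n) : x ∈ J := by
  classical
  obtain ⟨r, a, rfl⟩ := Submodule.fg_iff_exists_fin_generating_family.mp hJ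
  let X : ℕ → Type u := fun n => {c : Fin r → R ⧸ I ^ n //
    Ideal.Quotient.mk (I ^ n) x = ∑ i, c i * Ideal.Quotient.mk (I ^ n) (a i)}
  have hX : ∀ n, Finite (X n) := fun n => by
    have := hfin n
    exact Subtype.finite
  have hne : ∀ n, Nonempty (X n) := by
    intro n
    obtain ⟨u, hu, z, hz, rfl⟩ := Submodule.mem_sup.mp (hx n)
    obtain ⟨c, rfl⟩ := Ideal.mem_span_range_iff_exists_fun.mp hu
    refine ⟨⟨fun i => Ideal.Quotient.mk _ (c i), ?_⟩⟩
    simp [map_add, map_sum, map_mul, Ideal.Quotient.eq_zero_iff_mem.mpr hz]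
  let f : ∀ n, X (n + 1) → X n := fun n c =>
    ⟨fun i => Ideal.Quotient.factor (Ideal.pow_le_pow_right (Nat.le_succ n)) (c.1 i), by
      have := congrArg (Ideal.Quotient.factor (Ideal.pow_le_pow_right (Nat.le_succ n))) c.2
      simpa [map_sum, map_mul] using this⟩
  obtain ⟨y, hy⟩ := exists_compatible_of_finite f
  choose g hg using fun (i : Fin r) (n : ℕ) => Ideal.Quotient.mk_surjective ((y n).1 i)
  have hc : ∀ i n, g i n ≡ g i (n + 1) [SMOD (I ^ n • ⊤ : Submodule R R)] := by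
    intro i n
    rw [smodEq_pow_smul_top_iff, ← Ideal.Quotient.eq, hg]
    have h1 := congrArg (fun c => c.1 i) (hy n)
    simp only [f] at h1
    rw [← h1, ← hg i (n + 1)]
    rfl
  choose l hl using fun i => IsPrecomplete.prec' (I := I) (g i)
    ((AdicCompletion.isAdicCauchy_iff I R (g i)).mpr (hc i))
  have hxl : x = ∑ i, l i * a i := by
    rw [← sub_eq_zero]
    refine IsHausdorff.haus' (I := I) _ fun n => ?_
    rw [smodEq_pow_smul_top_iff, sub_zero, ← Ideal.Quotient.eq, (y n).2, map_sum]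
    refine Finset.sum_congr rfl fun i _ => ?_
    rw [map_mul, ← hg i n]
    congr 1
    rw [Ideal.Quotient.eq, ← smodEq_pow_smul_top_iff]
    exact hl i n
  rw [hxl]
  exact Ideal.sum_mem _ fun i _ => Ideal.mul_mem_left _ _ (Ideal.subset_span ⟨i, rfl⟩)

theorem isPrecomplete_quotient (I K : Ideal R) [IsPrecomplete I R] :
    IsPrecomplete (I.map (Ideal.Quotient.mk K)) (R ⧸ K) := by
  rw [← Ideal.Quotient.algebraMap_eq, IsPrecomplete.map_algebraMap_iff,
    ← AdicCompletion.of_surjective_iff]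
  intro y
  obtain ⟨x, rfl⟩ := AdicCompletion.map_surjective I (f := Submodule.mkQ K)
    (Submodule.mkQ_surjective K) y
  obtain ⟨m, rfl⟩ := AdicCompletion.of_surjective I R x
  exact ⟨Submodule.mkQ K m, by rw [AdicCompletion.map_of]⟩

/-- The quotient of an adically complete ring with finite quotients `R ⧸ I ^ n` by a finitely
generated ideal is adically complete. -/
theorem isAdicComplete_quotient (I : Ideal R) [IsAdicComplete I R]
    (hfin : ∀ n, Finite (R ⧸ I ^ n)) (K : Ideal R) (hK : K.FG) :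
    IsAdicComplete (I.map (Ideal.Quotient.mk K)) (R ⧸ K) := by
  have := isPrecomplete_quotient I K
  refine { haus' := fun x hx => ?_ }
  obtain ⟨x, rfl⟩ := Ideal.Quotient.mk_surjective x
  rw [Ideal.Quotient.eq_zero_iff_mem]
  refine mem_of_forall_mem_sup_pow I hfin K hK x fun n => ?_
  have h := hx n
  rw [smodEq_pow_smul_top_iff, sub_zero, ← Ideal.map_pow, Ideal.mem_quotient_iff_mem_sup] at h
  rwa [sup_comm]

theorem isNoetherianRing_aux : ∀ (d : ℕ) (R : Type u) [CommRing R] (I : Ideal R)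
    [IsAdicComplete I R] [Finite (R ⧸ I)] (s : Fin d → R),
    Ideal.span (Set.range s) = I → IsNoetherianRing R := by
  intro d
  induction d with
  | zero =>
    intro R _ I _ _ s hs
    have hI : I = ⊥ := by
      rw [← hs, Ideal.span_eq_bot]
      rintro x ⟨i, -⟩
      exact i.elim0
    subst hI
    have : Finite R := Finite.of_equiv (R ⧸ (⊥ : Ideal R)) (RingEquiv.quotientBot R).toEquiv
    infer_instance
  | succ d ih =>
    intro R _ I _ _ s hs
    have hIfg : I.FG := by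
      rw [← hs]
      exact Submodule.fg_span (Set.finite_range s)
    have hfin : ∀ n, Finite (R ⧸ I ^ n) := fun n => Ideal.finite_quotient_pow hIfg n
    set t : R := s 0 with ht
    set K : Ideal R := Ideal.span {t} with hK
    have hKfg : K.FG := ⟨{t}, by simp [hK]⟩
    have htI : t ∈ I := by
      rw [← hs]
      exact Ideal.subset_span ⟨0, rfl⟩
    have hKI : K ≤ I := by
      rw [hK, Ideal.span_singleton_le_iff_mem]
      exact htI
    -- the quotient ring is Noetherian by induction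
    have hcomp : IsAdicComplete (I.map (Ideal.Quotient.mk K)) (R ⧸ K) :=
      isAdicComplete_quotient I hfin K hKfg
    have : Finite ((R ⧸ K) ⧸ I.map (Ideal.Quotient.mk K)) := by
      refine Finite.of_surjective
        (Ideal.quotientMap (I.map (Ideal.Quotient.mk K)) (Ideal.Quotient.mk K)
          Ideal.le_comap_map) ?_
      exact Ideal.quotientMap_surjective Ideal.Quotient.mk_surjective
    have hN : IsNoetherianRing (R ⧸ K) := by
      refine ih (R ⧸ K) (I.map (Ideal.Quotient.mk K))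
        (fun i => Ideal.Quotient.mk K (s i.succ)) ?_
      rw [← hs, Ideal.map_span]
      refine le_antisymm (Ideal.span_mono ?_) (Ideal.span_le.mpr ?_)
      · rintro _ ⟨i, rfl⟩
        exact ⟨s i.succ, ⟨i.succ, rfl⟩, rfl⟩
      · rintro _ ⟨_, ⟨i, rfl⟩, rfl⟩
        refine Fin.cases ?_ (fun j => ?_) i
        · have : Ideal.Quotient.mk K (s 0) = 0 :=
            Ideal.Quotient.eq_zero_iff_mem.mpr (Ideal.subset_span rfl)
          rw [this]
          exact Ideal.zero_mem _
        · exact Ideal.subset_span ⟨j, rfl⟩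
    -- Cohen's theorem
    refine IsNoetherianRing.of_prime fun P hP => ?_
    obtain ⟨r, u, hu⟩ := Submodule.fg_iff_exists_fin_generating_family.mp
      (hN.noetherian (P.map (Ideal.Quotient.mk K)))
    have hu' : ∀ i, ∃ a ∈ P, Ideal.Quotient.mk K a = u i := fun i =>
      (Ideal.mem_map_iff_of_surjective _ Ideal.Quotient.mk_surjective).mp
        (hu ▸ Ideal.subset_span ⟨i, rfl⟩)
    choose a haP hau using hu'
    set Q : Ideal R := Ideal.span (Set.range a) with hQ
    have hQfg : Q.FG := Submodule.fg_span (Set.finite_range a)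
    have hQP : Q ≤ P := by
      rw [hQ, Ideal.span_le]
      rintro _ ⟨i, rfl⟩
      exact haP i
    have key : ∀ x ∈ P, ∃ q ∈ Q, ∃ y : R, x = q + y * t := by
      intro x hx
      have h1 : Ideal.Quotient.mk K x ∈ Ideal.span (Set.range u) := by
        rw [Ideal.submodule_span_eq] at hu
        rw [hu]
        exact Ideal.mem_map_of_mem _ hx
      obtain ⟨c, hc⟩ := Ideal.mem_span_range_iff_exists_fun.mp h1
      choose c' hc' using fun i => Ideal.Quotient.mk_surjective (c i)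
      have h2 : x - ∑ i, c' i * a i ∈ K := by
        rw [← Ideal.Quotient.eq, map_sum, ← hc]
        refine Finset.sum_congr rfl fun i _ => ?_
        rw [map_mul, hc', hau]
      obtain ⟨y, hy⟩ := Ideal.mem_span_singleton'.mp h2
      refine ⟨∑ i, c' i * a i, Ideal.sum_mem _ fun i _ =>
        Ideal.mul_mem_left _ _ (Ideal.subset_span ⟨i, rfl⟩), y, ?_⟩
      rw [hy]
      ring
    by_cases htP : t ∈ P
    · have : P = Q ⊔ K := by
        refine le_antisymm (fun x hx => ?_) (sup_le hQP ?_)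
        · obtain ⟨q, hq, y, rfl⟩ := key x hx
          exact Submodule.add_mem_sup hq (Ideal.mul_mem_left _ _ (Ideal.subset_span rfl))
        · rw [hK, Ideal.span_singleton_le_iff_mem]
          exact htP
      rw [this]
      exact Submodule.FG.sup hQfg hKfg
    · have hPn : ∀ n, P ≤ Q ⊔ I ^ n := by
        intro n
        induction n with
        | zero => simp
        | succ n ihn =>
          intro x hx
          obtain ⟨q, hq, y, rfl⟩ := key x hx
          have hyP : y ∈ P := by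
            have : y * t ∈ P := by
              have := P.sub_mem hx (hQP hq)
              simpa using this
            exact (hP.mem_or_mem this).resolve_right htP
          obtain ⟨q', hq', z, hz, hyz⟩ := Submodule.mem_sup.mp (ihn hyP)
          rw [← hyz, add_mul, ← add_assoc]
          refine Submodule.add_mem_sup (Q.add_mem hq (Ideal.mul_mem_right _ _ hq')) ?_
          rw [pow_succ]
          exact Ideal.mul_mem_mul hz htI
      have : P = Q := le_antisymm
        (fun x hx => mem_of_forall_mem_sup_pow I hfin Q hQfg x fun n => hPn n hx) hQP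
      rw [this]
      exact hQfg

/-- **D1**. An `I`-adically complete ring such that `I` is finitely generated and `R ⧸ I` is
finite is Noetherian. -/
theorem isNoetherianRing_of_isAdicComplete_of_finite (I : Ideal R) [IsAdicComplete I R]
    (hI : I.FG) [Finite (R ⧸ I)] : IsNoetherianRing R := by
  obtain ⟨d, s, hs⟩ := Submodule.fg_iff_exists_fin_generating_family.mp hI
  exact isNoetherianRing_aux d R I s hs

end Noetherian

section Helpers

theorem eq_of_forall_mk_pow_succ_eq {A : Type*} [CommRing A] (I : Ideal A) [IsHausdorff I A]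
    {a b : A} (h : ∀ n, Ideal.Quotient.mk (I ^ (n + 1)) a = Ideal.Quotient.mk (I ^ (n + 1)) b) :
    a = b := by
  rw [← sub_eq_zero]
  refine IsHausdorff.haus' (I := I) _ fun n => ?_
  rw [smodEq_pow_smul_top_iff, sub_zero]
  exact Ideal.pow_le_pow_right (Nat.le_succ n) ((Ideal.Quotient.eq).mp (h n))

theorem map_mem_maximalIdeal_of_surjective {A B : Type*} [CommRing A] [CommRing B]
    [IsLocalRing A] [IsLocalRing B] (f : A →+* B) (hf : Function.Surjective f) {y : A}
    (hy : y ∈ IsLocalRing.maximalIdeal A) : f y ∈ IsLocalRing.maximalIdeal B := by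
  rw [← IsLocalRing.map_maximalIdeal_of_surjective f hf]
  exact Ideal.mem_map_of_mem f hy

end Helpers

section Tower

open IsLocalRing

variable (𝒪 : Type v) [CommRing 𝒪] {R : ℕ → Type u} [∀ n, CommRing (R n)]
  [∀ n, Algebra 𝒪 (R n)] (π : ∀ n, R (n + 1) →ₐ[𝒪] R n)

/-- The inverse limit of the tower `π`, as a subalgebra of the product. -/
def Lim : Subalgebra 𝒪 (∀ n, R n) where
  carrier := {x | ∀ n, π n (x (n + 1)) = x n}
  mul_mem' := by
    intro x y hx hy n
    simp only [Pi.mul_apply, map_mul, hx n, hy n]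
  add_mem' := by
    intro x y hx hy n
    simp only [Pi.add_apply, map_add, hx n, hy n]
  algebraMap_mem' := by
    intro r n
    simp only [Pi.algebraMap_apply, AlgHom.commutes]

/-- The projection from the limit to the `n`-th term of the tower. -/
def proj (n : ℕ) : Lim 𝒪 π →ₐ[𝒪] R n := (Pi.evalAlgHom 𝒪 R n).comp (Lim 𝒪 π).val

theorem proj_apply (n : ℕ) (x : Lim 𝒪 π) : proj 𝒪 π n x = x.1 n := rfl

theorem π_proj (n : ℕ) (x : Lim 𝒪 π) : π n (proj 𝒪 π (n + 1) x) = proj 𝒪 π n x := x.2 n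

theorem lim_ext {x y : Lim 𝒪 π} (h : ∀ n, proj 𝒪 π n x = proj 𝒪 π n y) : x = y :=
  Subtype.ext (funext h)

/-- A compatible family defines an element of the limit. -/
def ofCompatible (y : ∀ n, R n) (hy : ∀ n, π n (y (n + 1)) = y n) : Lim 𝒪 π := ⟨y, hy⟩

theorem proj_ofCompatible (y : ∀ n, R n) (hy : ∀ n, π n (y (n + 1)) = y n) (n : ℕ) :
    proj 𝒪 π n (ofCompatible 𝒪 π y hy) = y n := rfl

theorem proj_surjective (hπ : ∀ n, Function.Surjective (π n)) (n : ℕ) :
    Function.Surjective (proj 𝒪 π n) := by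
  intro x
  obtain ⟨y, hy, hx⟩ := exists_compatible_of_surjective n (fun k => π k) hπ x
  exact ⟨⟨y, hy⟩, hx⟩

theorem proj_eq_zero_of_le {k n : ℕ} (hkn : k ≤ n) (x : Lim 𝒪 π) (h : proj 𝒪 π n x = 0) :
    proj 𝒪 π k x = 0 := by
  induction n, hkn using Nat.le_induction with
  | base => exact h
  | succ n hkn ih =>
    apply ih
    rw [← π_proj, h, map_zero]

/-- Finitely generated ideals of the limit of a tower of finite rings are closed. -/
theorem mem_span_of_forall_proj_mem [∀ n, Finite (R n)] {N : ℕ} (b : Fin N → Lim 𝒪 π)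
    (x : Lim 𝒪 π)
    (hx : ∀ k, proj 𝒪 π k x ∈ Ideal.span (Set.range fun j => proj 𝒪 π k (b j))) :
    x ∈ Ideal.span (Set.range b) := by
  classical
  let X : ℕ → Type u := fun k =>
    {c : Fin N → R k // proj 𝒪 π k x = ∑ j, c j * proj 𝒪 π k (b j)}
  have hX : ∀ k, Finite (X k) := fun k => Subtype.finite
  have hne : ∀ k, Nonempty (X k) := fun k => by
    obtain ⟨c, hc⟩ := Ideal.mem_span_range_iff_exists_fun.mp (hx k)
    exact ⟨⟨c, hc.symm⟩⟩
  let f : ∀ k, X (k + 1) → X k := fun k c => ⟨fun j => π k (c.1 j), by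
    have := congrArg (π k) c.2
    simpa only [map_sum, map_mul, π_proj] using this⟩
  obtain ⟨y, hy⟩ := exists_compatible_of_finite f
  let C : Fin N → Lim 𝒪 π := fun j => ⟨fun k => (y k).1 j, fun k => by
    have h1 := congrArg (fun c => c.1 j) (hy k)
    exact h1⟩
  have hxC : x = ∑ j, C j * b j := by
    refine lim_ext 𝒪 π fun k => ?_
    rw [map_sum, (y k).2]
    refine Finset.sum_congr rfl fun j _ => ?_
    rw [map_mul]
    rfl
  rw [hxC]
  exact Ideal.sum_mem _ fun j _ => Ideal.mul_mem_left _ _ (Ideal.subset_span ⟨j, rfl⟩)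

variable [∀ n, IsLocalRing (R n)]

/-- Hypotheses on the tower: surjective transition maps whose kernels are the appropriate
powers of the maximal ideals, so that `R n` plays the role of `L ⧸ 𝔪 ^ (n + 1)`. -/
class IsTower : Prop where
  surj : ∀ n, Function.Surjective (π n)
  ker_eq : ∀ n, RingHom.ker (π n) = maximalIdeal (R (n + 1)) ^ (n + 1)
  pow_eq_bot : ∀ n, maximalIdeal (R n) ^ (n + 1) = ⊥

theorem maximalIdeal_zero_eq_bot (h : IsTower 𝒪 π) : maximalIdeal (R 0) = ⊥ := by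
  have := h.pow_eq_bot 0
  simpa using this

variable [IsTower 𝒪 π]

theorem isUnit_proj_iff (x : Lim 𝒪 π) (n : ℕ) :
    IsUnit (proj 𝒪 π n x) ↔ IsUnit (proj 𝒪 π 0 x) := by
  induction n with
  | zero => rfl
  | succ n ih =>
    have : IsLocalHom (π n).toRingHom := IsLocalHom.of_surjective _ (IsTower.surj n)
    rw [← ih, ← π_proj 𝒪 π n x]
    exact (isUnit_map_iff (π n).toRingHom _).symm

theorem isUnit_of_isUnit_proj_zero (x : Lim 𝒪 π) (hx : IsUnit (proj 𝒪 π 0 x)) : IsUnit x := by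
  have hu : ∀ n, x.1 n * Ring.inverse (x.1 n) = 1 := fun n =>
    Ring.mul_inverse_cancel _ ((isUnit_proj_iff 𝒪 π x n).mpr hx)
  refine IsUnit.of_mul_eq_one (⟨fun n => Ring.inverse (x.1 n), fun n => ?_⟩ : Lim 𝒪 π)
    (lim_ext 𝒪 π fun n => ?_)
  · refine left_inv_eq_right_inv (a := x.1 n) ?_ (hu n)
    have h1 := congrArg (π n) (hu (n + 1))
    rw [map_mul, map_one, x.2 n] at h1
    rw [mul_comm]
    exact h1
  · rw [map_mul, map_one]
    exact hu n

instance isLocalRing_lim : IsLocalRing (Lim 𝒪 π) := by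
  have : IsLocalHom (proj 𝒪 π 0).toRingHom :=
    ⟨fun x hx => isUnit_of_isUnit_proj_zero 𝒪 π x hx⟩
  exact RingHom.domain_isLocalRing (proj 𝒪 π 0).toRingHom

theorem mem_maximalIdeal_lim_iff (x : Lim 𝒪 π) :
    x ∈ maximalIdeal (Lim 𝒪 π) ↔ proj 𝒪 π 0 x = 0 := by
  rw [mem_maximalIdeal, mem_nonunits_iff]
  constructor
  · intro h
    have h1 : proj 𝒪 π 0 x ∈ maximalIdeal (R 0) := by
      rw [mem_maximalIdeal, mem_nonunits_iff]
      exact fun h2 => h (isUnit_of_isUnit_proj_zero 𝒪 π x h2)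
    rw [maximalIdeal_zero_eq_bot 𝒪 π inferInstance] at h1
    exact h1
  · intro h hu
    have := hu.map (proj 𝒪 π 0)
    rw [h] at this
    exact not_isUnit_zero this

theorem proj_mem_maximalIdeal {x : Lim 𝒪 π} (hx : x ∈ maximalIdeal (Lim 𝒪 π)) (n : ℕ) :
    proj 𝒪 π n x ∈ maximalIdeal (R n) := by
  rw [mem_maximalIdeal, mem_nonunits_iff] at hx ⊢
  rw [isUnit_proj_iff]
  exact fun h => hx (isUnit_of_isUnit_proj_zero 𝒪 π x h)

theorem map_proj_maximalIdeal_le (n : ℕ) :
    Ideal.map (proj 𝒪 π n) (maximalIdeal (Lim 𝒪 π)) ≤ maximalIdeal (R n) := by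
  rw [Ideal.map_le_iff_le_comap]
  exact fun x hx => proj_mem_maximalIdeal 𝒪 π hx n

theorem pow_le_ker_proj (n : ℕ) :
    maximalIdeal (Lim 𝒪 π) ^ (n + 1) ≤ RingHom.ker (proj 𝒪 π n) := by
  rw [← Ideal.map_eq_bot_iff_le_ker, Ideal.map_pow, eq_bot_iff,
    ← IsTower.pow_eq_bot (𝒪 := 𝒪) (π := π) n]
  exact Ideal.pow_right_mono (map_proj_maximalIdeal_le 𝒪 π n) _

theorem proj_mem_pow_of_proj_eq_zero (n : ℕ) (x : Lim 𝒪 π) (h : proj 𝒪 π n x = 0) (k : ℕ) :
    proj 𝒪 π k x ∈ maximalIdeal (R k) ^ (n + 1) := by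
  rcases le_total k n with hkn | hnk
  · rw [proj_eq_zero_of_le 𝒪 π hkn x h]
    exact Ideal.zero_mem _
  · induction k, hnk using Nat.le_induction with
    | base =>
      rw [h]
      exact Ideal.zero_mem _
    | succ k hnk ih =>
      have h1 : maximalIdeal (R k) ^ (n + 1) =
          Ideal.map (π k).toRingHom (maximalIdeal (R (k + 1)) ^ (n + 1)) := by
        rw [Ideal.map_pow, map_maximalIdeal_of_surjective (π k).toRingHom (IsTower.surj k)]
      rw [h1] at ih
      obtain ⟨z, hz, hzx⟩ :=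
        (Ideal.mem_map_iff_of_surjective (π k).toRingHom (IsTower.surj k)).mp ih
      have hker : proj 𝒪 π (k + 1) x - z ∈ RingHom.ker (π k) := by
        rw [RingHom.mem_ker, map_sub, π_proj]
        exact sub_eq_zero.mpr hzx.symm
      rw [IsTower.ker_eq] at hker
      have := Ideal.add_mem _ (Ideal.pow_le_pow_right (Nat.succ_le_succ hnk) hker) hz
      simpa using this

variable [∀ n, Finite (R n)]

theorem exists_generators : ∃ (r : ℕ) (a : Fin r → Lim 𝒪 π),
    (∀ i, a i ∈ maximalIdeal (Lim 𝒪 π)) ∧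
    ∀ n, maximalIdeal (R n) ≤ Ideal.map (proj 𝒪 π n) (Ideal.span (Set.range a)) := by
  obtain ⟨r, u, hu⟩ := Submodule.fg_iff_exists_fin_generating_family.mp
    ((inferInstance : IsNoetherianRing (R 1)).noetherian (maximalIdeal (R 1)))
  choose a ha using fun i => proj_surjective 𝒪 π IsTower.surj 1 (u i)
  have hsurj : ∀ n, Function.Surjective (proj 𝒪 π n) := proj_surjective 𝒪 π IsTower.surj
  refine ⟨r, a, fun i => ?_, ?_⟩
  · rw [mem_maximalIdeal, mem_nonunits_iff]
    intro h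
    have h1 : IsUnit (proj 𝒪 π 1 (a i)) := h.map (proj 𝒪 π 1)
    rw [ha] at h1
    have h2 : u i ∈ maximalIdeal (R 1) := hu ▸ Ideal.subset_span ⟨i, rfl⟩
    exact (mem_maximalIdeal _).mp h2 h1
  · have h1 : maximalIdeal (R 1) ≤ Ideal.map (proj 𝒪 π 1) (Ideal.span (Set.range a)) := by
      rw [← hu, Ideal.map_span, Ideal.submodule_span_eq]
      refine Ideal.span_mono ?_
      rintro _ ⟨i, rfl⟩
      exact ⟨a i, ⟨i, rfl⟩, ha i⟩
    have hsucc : ∀ n, maximalIdeal (R (n + 1)) ≤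
        Ideal.map (proj 𝒪 π (n + 1)) (Ideal.span (Set.range a)) := by
      intro n
      induction n with
      | zero => exact h1
      | succ n ih =>
        refine Submodule.le_of_le_smul_of_le_jacobson_bot (I := maximalIdeal (R (n + 2)))
          ((inferInstance : IsNoetherianRing (R (n + 2))).noetherian _)
          (maximalIdeal_le_jacobson _) ?_
        intro y hy
        have hy1 : π (n + 1) y ∈ maximalIdeal (R (n + 1)) :=
          map_mem_maximalIdeal_of_surjective (π (n + 1)).toRingHom (IsTower.surj (n + 1)) hy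
        obtain ⟨x, hxJ, hx⟩ :=
          (Ideal.mem_map_iff_of_surjective (proj 𝒪 π (n + 1)) (hsurj (n + 1))).mp (ih hy1)
        have hz : proj 𝒪 π (n + 2) x ∈
            Ideal.map (proj 𝒪 π (n + 2)) (Ideal.span (Set.range a)) :=
          Ideal.mem_map_of_mem _ hxJ
        have hker : y - proj 𝒪 π (n + 2) x ∈ RingHom.ker (π (n + 1)) := by
          rw [RingHom.mem_ker, map_sub, π_proj, hx, sub_self]
        rw [IsTower.ker_eq] at hker
        have hy' : y = proj 𝒪 π (n + 2) x + (y - proj 𝒪 π (n + 2) x) := by ring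
        rw [hy']
        refine Submodule.add_mem_sup hz ?_
        rw [smul_eq_mul, ← pow_two]
        exact Ideal.pow_le_pow_right (by omega) hker
    intro n
    cases n with
    | zero =>
      rw [maximalIdeal_zero_eq_bot 𝒪 π inferInstance]
      exact bot_le
    | succ n => exact hsucc n

theorem mem_pow_of_proj_eq_zero {r : ℕ} (a : Fin r → Lim 𝒪 π)
    (ha : ∀ n, maximalIdeal (R n) ≤ Ideal.map (proj 𝒪 π n) (Ideal.span (Set.range a)))
    (n : ℕ) (x : Lim 𝒪 π) (h : proj 𝒪 π n x = 0) :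
    x ∈ Ideal.span (Set.range a) ^ (n + 1) := by
  have hfg : (Ideal.span (Set.range a) ^ (n + 1)).FG :=
    Ideal.FG.pow (Submodule.fg_span (Set.finite_range a))
  obtain ⟨N, b, hb⟩ := Submodule.fg_iff_exists_fin_generating_family.mp hfg
  rw [← hb]
  refine mem_span_of_forall_proj_mem 𝒪 π b x fun k => ?_
  have h1 := proj_mem_pow_of_proj_eq_zero 𝒪 π n x h k
  have h2 : maximalIdeal (R k) ^ (n + 1) ≤
      Ideal.map (proj 𝒪 π k) (Ideal.span (Set.range a) ^ (n + 1)) := by
    rw [Ideal.map_pow]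
    exact Ideal.pow_right_mono (ha k) _
  have h3 := h2 h1
  rw [← hb, Ideal.submodule_span_eq, Ideal.map_span] at h3
  convert h3 using 2
  ext y
  constructor
  · rintro ⟨j, rfl⟩
    exact ⟨b j, ⟨j, rfl⟩, rfl⟩
  · rintro ⟨_, ⟨j, rfl⟩, rfl⟩
    exact ⟨j, rfl⟩

theorem maximalIdeal_lim_fg : (maximalIdeal (Lim 𝒪 π)).FG := by
  obtain ⟨r, a, ha, ha'⟩ := exists_generators 𝒪 π
  have : maximalIdeal (Lim 𝒪 π) = Ideal.span (Set.range a) := by
    refine le_antisymm (fun x hx => ?_) ?_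
    · have := mem_pow_of_proj_eq_zero 𝒪 π a ha' 0 x ((mem_maximalIdeal_lim_iff 𝒪 π x).mp hx)
      simpa using this
    · rw [Ideal.span_le]
      rintro _ ⟨i, rfl⟩
      exact ha i
  rw [this]
  exact Submodule.fg_span (Set.finite_range a)

/-- **D2, key statement**: the kernel of the `n`-th projection is the `(n+1)`-st power of the
maximal ideal of the limit. -/
theorem ker_proj (n : ℕ) :
    RingHom.ker (proj 𝒪 π n) = maximalIdeal (Lim 𝒪 π) ^ (n + 1) := by
  refine le_antisymm (fun x hx => ?_) (pow_le_ker_proj 𝒪 π n)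
  obtain ⟨r, a, ha, ha'⟩ := exists_generators 𝒪 π
  have hle : Ideal.span (Set.range a) ≤ maximalIdeal (Lim 𝒪 π) := by
    rw [Ideal.span_le]
    rintro _ ⟨i, rfl⟩
    exact ha i
  exact Ideal.pow_right_mono hle _ (mem_pow_of_proj_eq_zero 𝒪 π a ha' n x hx)

theorem proj_eq_proj_iff (n : ℕ) (x y : Lim 𝒪 π) :
    proj 𝒪 π n x = proj 𝒪 π n y ↔ x - y ∈ maximalIdeal (Lim 𝒪 π) ^ (n + 1) := by
  rw [← ker_proj, RingHom.mem_ker, map_sub, sub_eq_zero]

instance isAdicComplete_lim : IsAdicComplete (maximalIdeal (Lim 𝒪 π)) (Lim 𝒪 π) where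
  haus' := by
    intro x hx
    refine lim_ext 𝒪 π fun n => ?_
    have := hx (n + 1)
    rw [smodEq_pow_smul_top_iff, ← proj_eq_proj_iff] at this
    exact this
  prec' := by
    intro f hf
    have hcompat : ∀ k, π k (proj 𝒪 π (k + 1) (f (k + 2))) = proj 𝒪 π k (f (k + 1)) := by
      intro k
      rw [π_proj, eq_comm, proj_eq_proj_iff, ← smodEq_pow_smul_top_iff]
      exact hf (Nat.le_succ (k + 1))
    refine ⟨ofCompatible 𝒪 π (fun k => proj 𝒪 π k (f (k + 1))) hcompat, fun n => ?_⟩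
    cases n with
    | zero =>
      rw [smodEq_pow_smul_top_iff, pow_zero, Ideal.one_eq_top]
      exact Submodule.mem_top
    | succ k =>
      rw [smodEq_pow_smul_top_iff, ← proj_eq_proj_iff]
      rfl

instance finite_quotient_maximalIdeal_lim :
    Finite (Lim 𝒪 π ⧸ maximalIdeal (Lim 𝒪 π)) := by
  have h : RingHom.ker (proj 𝒪 π 0).toRingHom = maximalIdeal (Lim 𝒪 π) := by
    have := ker_proj 𝒪 π 0
    rw [zero_add, pow_one] at this
    exact this
  rw [← h]
  exact Finite.of_equiv (R 0) (RingHom.quotientKerEquivOfSurjective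
    (f := (proj 𝒪 π 0).toRingHom) (proj_surjective 𝒪 π IsTower.surj 0)).symm.toEquiv

/-- **D2**: the limit of the tower is Noetherian. -/
instance isNoetherianRing_lim : IsNoetherianRing (Lim 𝒪 π) :=
  isNoetherianRing_of_isAdicComplete_of_finite (maximalIdeal (Lim 𝒪 π)) (maximalIdeal_lim_fg 𝒪 π)

end Tower

section Chain

open IsLocalRing

variable (𝒪 : Type v) [CommRing 𝒪] {S : Type u} [CommRing S] [Algebra 𝒪 S]
  (K : ℕ → Ideal S) (hanti : ∀ n, K (n + 1) ≤ K n)

/-- Transition maps of the tower `S ⧸ K n`. -/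
def chainMap (n : ℕ) : S ⧸ K (n + 1) →ₐ[𝒪] S ⧸ K n := Ideal.Quotient.factorₐ 𝒪 (hanti n)

/-- The limit of the tower `S ⧸ K n`. -/
abbrev chainLim : Subalgebra 𝒪 (∀ n, S ⧸ K n) :=
  Lim 𝒪 (R := fun n => S ⧸ K n) (chainMap 𝒪 K hanti)

/-- The projections of the limit of the tower `S ⧸ K n`. -/
abbrev chainProj (n : ℕ) : chainLim 𝒪 K hanti →ₐ[𝒪] S ⧸ K n :=
  proj 𝒪 (R := fun n => S ⧸ K n) (chainMap 𝒪 K hanti) n

/-- The canonical map from `S` to the limit of the tower `S ⧸ K n`. -/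
def chainLift : S →ₐ[𝒪] chainLim 𝒪 K hanti :=
  (AlgHom.pi (fun n => Ideal.Quotient.mkₐ 𝒪 (K n))).codRestrict _ (fun _ _ => rfl)

theorem chainProj_chainLift (n : ℕ) (s : S) :
    chainProj 𝒪 K hanti n (chainLift 𝒪 K hanti s) = Ideal.Quotient.mk (K n) s := rfl

theorem maximalIdeal_quotient_eq (M : Ideal S) [hM : M.IsMaximal] (J : Ideal S) (hJM : J ≤ M)
    [IsLocalRing (S ⧸ J)] : maximalIdeal (S ⧸ J) = M.map (Ideal.Quotient.mk J) := by
  have hmax : (M.map (Ideal.Quotient.mk J)).IsMaximal := by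
    refine (Ideal.map_eq_top_or_isMaximal_of_surjective _ Ideal.Quotient.mk_surjective
      hM).resolve_left ?_
    intro h
    have h1 : (1 : S ⧸ J) ∈ M.map (Ideal.Quotient.mk J) := h ▸ Submodule.mem_top
    obtain ⟨x, hx, hx1⟩ := (Ideal.mem_map_iff_of_surjective _ Ideal.Quotient.mk_surjective).mp h1
    have h2 : x - 1 ∈ J := Ideal.Quotient.eq.mp hx1
    have h3 : (1 : S) ∈ M := by
      have := M.sub_mem hx (hJM h2)
      simpa using this
    exact hM.ne_top ((Ideal.eq_top_iff_one _).mpr h3)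
  exact (IsLocalRing.eq_maximalIdeal hmax).symm

theorem isTower_chain (M : Ideal S) [M.IsMaximal] [∀ n, IsLocalRing (S ⧸ K n)]
    (hKM : ∀ n, K n ≤ M) (hMK : ∀ n, M ^ (n + 1) ≤ K n)
    (hsup : ∀ n, K (n + 1) ⊔ M ^ (n + 1) = K n) :
    IsTower 𝒪 (R := fun n => S ⧸ K n) (chainMap 𝒪 K hanti) where
  surj := fun n => Ideal.Quotient.factor_surjective (hanti n)
  ker_eq := fun n => by
    rw [maximalIdeal_quotient_eq M (K (n + 1)) (hKM (n + 1)), ← Ideal.map_pow]
    change RingHom.ker (Ideal.Quotient.factor (hanti n)) = _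
    rw [Ideal.Quotient.factor_ker, ← hsup n, Ideal.map_sup, Ideal.map_quotient_self, bot_sup_eq]
  pow_eq_bot := fun n => by
    rw [maximalIdeal_quotient_eq M (K n) (hKM n), ← Ideal.map_pow,
      Ideal.map_eq_bot_iff_le_ker, Ideal.mk_ker]
    exact hMK n

variable [∀ n, IsLocalRing (S ⧸ K n)] [IsTower 𝒪 (R := fun n => S ⧸ K n) (chainMap 𝒪 K hanti)]
  [∀ n, Finite (S ⧸ K n)]

theorem comap_chainLift_pow (n : ℕ) :
    (maximalIdeal (chainLim 𝒪 K hanti) ^ (n + 1)).comap
      (chainLift 𝒪 K hanti : S →+* chainLim 𝒪 K hanti) = K n := by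
  ext s
  rw [Ideal.mem_comap, ← ker_proj, RingHom.mem_ker]
  change chainProj 𝒪 K hanti n (chainLift 𝒪 K hanti s) = 0 ↔ _
  rw [chainProj_chainLift, Ideal.Quotient.eq_zero_iff_mem]

theorem exists_sub_chainLift_mem_pow (n : ℕ) (x : chainLim 𝒪 K hanti) :
    ∃ s : S, x - chainLift 𝒪 K hanti s ∈ maximalIdeal (chainLim 𝒪 K hanti) ^ n := by
  cases n with
  | zero => exact ⟨0, by rw [pow_zero, Ideal.one_eq_top]; exact Submodule.mem_top⟩
  | succ k =>
    obtain ⟨s, hs⟩ := Ideal.Quotient.mk_surjective (chainProj 𝒪 K hanti k x)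
    refine ⟨s, ?_⟩
    rw [← proj_eq_proj_iff]
    change chainProj 𝒪 K hanti k x = chainProj 𝒪 K hanti k (chainLift 𝒪 K hanti s)
    rw [chainProj_chainLift, hs]

end Chain

section MinIdeal

variable {S : Type u} [CommRing S]

/-- A nonempty family of ideals closed under intersection with finite quotients of bounded
cardinality has a smallest element. -/
theorem exists_min_of_card_le (𝒦 : Set (Ideal S)) (hne : 𝒦.Nonempty)
    (hinf : ∀ K ∈ 𝒦, ∀ K' ∈ 𝒦, K ⊓ K' ∈ 𝒦) (hfin : ∀ K ∈ 𝒦, Finite (S ⧸ K))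
    (B : ℕ) (hB : ∀ K ∈ 𝒦, Nat.card (S ⧸ K) ≤ B) :
    ∃ K ∈ 𝒦, ∀ K' ∈ 𝒦, K ≤ K' := by
  have hT : ((fun K : Ideal S => Nat.card (S ⧸ K)) '' 𝒦).Finite := by
    refine (Set.finite_Iic B).subset ?_
    rintro _ ⟨K, hK, rfl⟩
    exact hB K hK
  obtain ⟨_, ⟨K, hK, rfl⟩, hmax⟩ := Set.exists_max_image _ id hT (hne.image _)
  refine ⟨K, hK, fun K' hK' => ?_⟩
  have hK'' := hinf K hK K' hK'
  have hle : K ⊓ K' ≤ K := inf_le_left
  have := hfin _ hK''
  have hsurj : Function.Surjective (Ideal.Quotient.factor hle) :=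
    Ideal.Quotient.factor_surjective hle
  have hcard : Nat.card (S ⧸ K ⊓ K') = Nat.card (S ⧸ K) :=
    le_antisymm (hmax _ ⟨_, hK'', rfl⟩) (Nat.card_le_card_of_surjective _ hsurj)
  have hbij := (Nat.bijective_iff_surjective_and_card (Ideal.Quotient.factor hle)).mpr
    ⟨hsurj, hcard⟩
  intro x hx
  have h1 : Ideal.Quotient.factor hle (Ideal.Quotient.mk _ x) = 0 := by
    rw [Ideal.Quotient.factor_mk, Ideal.Quotient.eq_zero_iff_mem]
    exact hx
  have h2 : Ideal.Quotient.mk (K ⊓ K') x = 0 := hbij.1 (by rw [h1, map_zero])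
  exact (Ideal.Quotient.eq_zero_iff_mem.mp h2).2

end MinIdeal

section PolyBound

open IsLocalRing

/-- Successive approximation: a subring `B` that surjects onto `A ⧸ I` and contains a set of
generators of `I` is dense for the `I`-adic topology. -/
theorem exists_mem_subring_sub_mem_pow {A : Type*} [CommRing A] (I : Ideal A) (B : Subring A)
    (G : Set A) (hGB : G ⊆ B) (hGI : G ⊆ I) (hI : I ≤ Ideal.span G)
    (h1 : ∀ x : A, ∃ b ∈ B, x - b ∈ I) (j : ℕ) : ∀ x : A, ∃ b ∈ B, x - b ∈ I ^ j := by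
  induction j with
  | zero =>
    intro x
    exact ⟨0, B.zero_mem, by rw [pow_zero, Ideal.one_eq_top]; exact Submodule.mem_top⟩
  | succ j ih =>
    have key : ∀ y ∈ Ideal.span G, y ∈ I ∧ ∃ b ∈ B, y - b ∈ I ^ (j + 1) := by
      intro y hy
      induction hy using Submodule.span_induction with
      | mem g hg => exact ⟨hGI hg, g, hGB hg, by rw [sub_self]; exact Ideal.zero_mem _⟩
      | zero => exact ⟨I.zero_mem, 0, B.zero_mem, by rw [sub_self]; exact Ideal.zero_mem _⟩
      | add y z _ _ hy hz =>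
        obtain ⟨hyI, b, hb, hyb⟩ := hy
        obtain ⟨hzI, c, hc, hzc⟩ := hz
        refine ⟨I.add_mem hyI hzI, b + c, B.add_mem hb hc, ?_⟩
        have : y + z - (b + c) = (y - b) + (z - c) := by ring
        rw [this]
        exact Ideal.add_mem _ hyb hzc
      | smul c y _ hy =>
        obtain ⟨hyI, b, hb, hyb⟩ := hy
        obtain ⟨bc, hbc, hc⟩ := ih c
        refine ⟨I.mul_mem_left c hyI, bc * b, B.mul_mem hbc hb, ?_⟩
        have h2 : (c - bc) * y ∈ I ^ (j + 1) := by
          rw [pow_succ]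
          exact Ideal.mul_mem_mul hc hyI
        have : c • y - bc * b = (c - bc) * y + bc * (y - b) := by
          rw [smul_eq_mul]
          ring
        rw [this]
        exact Ideal.add_mem _ h2 (Ideal.mul_mem_left _ _ hyb)
    intro x
    obtain ⟨b0, hb0, hx⟩ := h1 x
    obtain ⟨-, b1, hb1, hx1⟩ := key _ (hI hx)
    refine ⟨b0 + b1, B.add_mem hb0 hb1, ?_⟩
    have : x - (b0 + b1) = x - b0 - b1 := by ring
    rw [this]
    exact hx1

/-- A finite quotient with at most `N` elements gives `N` elements of `M` covering `M` modulo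
the ideal. -/
theorem exists_fin_cover {S : Type*} [CommRing S] (M K' : Ideal S) [Finite (S ⧸ K')] (N : ℕ)
    (hN : Nat.card (S ⧸ K') ≤ N) :
    ∃ s : Fin N → S, (∀ i, s i ∈ M) ∧ ∀ y ∈ M, ∃ i, y - s i ∈ K' := by
  classical
  let e : S ⧸ K' → Fin N := fun y => Fin.castLE hN (Finite.equivFin (S ⧸ K') y)
  have he : Function.Injective e := fun a b hab =>
    (Finite.equivFin (S ⧸ K')).injective (Fin.castLE_injective hN hab)
  refine ⟨fun i => if h : ∃ y ∈ M, e (Ideal.Quotient.mk K' y) = i then h.choose else 0,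
    fun i => ?_, fun y hy => ⟨e (Ideal.Quotient.mk K' y), ?_⟩⟩
  · by_cases h : ∃ y ∈ M, e (Ideal.Quotient.mk K' y) = i
    · dsimp only
      rw [dif_pos h]
      exact h.choose_spec.1
    · dsimp only
      rw [dif_neg h]
      exact M.zero_mem
  · have h : ∃ z ∈ M, e (Ideal.Quotient.mk K' z) = e (Ideal.Quotient.mk K' y) := ⟨y, hy, rfl⟩
    dsimp only
    rw [dif_pos h]
    exact Ideal.Quotient.eq.mp (he h.choose_spec.2).symm

variable (𝒪 : Type v) [CommRing 𝒪] [IsLocalRing 𝒪]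

/-- The ideal `(𝔪_𝒪, X_1, …, X_N)` of the polynomial ring over `𝒪`. -/
noncomputable def polyIdeal (N : ℕ) : Ideal (MvPolynomial (Fin N) 𝒪) :=
  (maximalIdeal 𝒪).map (MvPolynomial.C : 𝒪 →+* MvPolynomial (Fin N) 𝒪) ⊔
    Ideal.span (Set.range MvPolynomial.X)

theorem finite_quotient_polyIdeal_pow [Finite (ResidueField 𝒪)] (hfg : (maximalIdeal 𝒪).FG)
    (N n : ℕ) : Finite (MvPolynomial (Fin N) 𝒪 ⧸ polyIdeal 𝒪 N ^ n) := by
  have hfg' : (polyIdeal 𝒪 N).FG :=
    Submodule.FG.sup (hfg.map _) (Submodule.fg_span (Set.finite_range _))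
  have : Finite (MvPolynomial (Fin N) 𝒪 ⧸ polyIdeal 𝒪 N) := by
    have hfin : Finite (𝒪 ⧸ maximalIdeal 𝒪) := ‹Finite (ResidueField 𝒪)›
    let g : 𝒪 ⧸ maximalIdeal 𝒪 →+* MvPolynomial (Fin N) 𝒪 ⧸ polyIdeal 𝒪 N :=
      Ideal.quotientMap (polyIdeal 𝒪 N) MvPolynomial.C
        (Ideal.map_le_iff_le_comap.mp le_sup_left)
    refine Finite.of_surjective g ?_
    intro y
    obtain ⟨p, rfl⟩ := Ideal.Quotient.mk_surjective y
    have hp : ∃ a : 𝒪, MvPolynomial.C a - p ∈
        Ideal.span (Set.range (MvPolynomial.X : Fin N → MvPolynomial (Fin N) 𝒪)) := by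
      induction p using MvPolynomial.induction_on with
      | C a => exact ⟨a, by rw [sub_self]; exact Ideal.zero_mem _⟩
      | add p q hp hq =>
        obtain ⟨a, ha⟩ := hp
        obtain ⟨b, hb⟩ := hq
        refine ⟨a + b, ?_⟩
        have : MvPolynomial.C (a + b) - (p + q) =
            (MvPolynomial.C a - p) + (MvPolynomial.C b - q) := by
          rw [map_add]
          ring
        rw [this]
        exact Ideal.add_mem _ ha hb
      | mul_X p i _ =>
        refine ⟨0, ?_⟩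
        rw [map_zero, zero_sub, neg_mem_iff]
        exact Ideal.mul_mem_left _ _ (Ideal.subset_span ⟨i, rfl⟩)
    obtain ⟨a, ha⟩ := hp
    refine ⟨Ideal.Quotient.mk _ a, ?_⟩
    change Ideal.Quotient.mk (polyIdeal 𝒪 N) (MvPolynomial.C a) = _
    exact Ideal.Quotient.eq.mpr (Ideal.mem_sup_right ha)
  exact Ideal.finite_quotient_pow hfg' n

/-- A local `𝒪`-algebra with nilpotent maximal ideal generated by `N` elements together with
the image of `𝔪_𝒪` is a quotient of a fixed finite ring. -/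
theorem card_le_of_generators [Finite (ResidueField 𝒪)] (hfg : (maximalIdeal 𝒪).FG)
    {A : Type u} [CommRing A] [IsLocalRing A] [Algebra 𝒪 A] [IsLocalHom (algebraMap 𝒪 A)]
    (hres : Function.Surjective (residue A ∘ algebraMap 𝒪 A))
    (N n : ℕ) (hn : maximalIdeal A ^ (n + 1) = ⊥) (t : Fin N → A)
    (ht : ∀ i, t i ∈ maximalIdeal A)
    (hgen : maximalIdeal A ≤
      Ideal.span (Set.range t) ⊔ (maximalIdeal 𝒪).map (algebraMap 𝒪 A)) :
    Nat.card A ≤ Nat.card (MvPolynomial (Fin N) 𝒪 ⧸ polyIdeal 𝒪 N ^ (n + 1)) := by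
  have hfinP := finite_quotient_polyIdeal_pow 𝒪 hfg N (n + 1)
  let ev : MvPolynomial (Fin N) 𝒪 →ₐ[𝒪] A := MvPolynomial.aeval t
  have hmO : ∀ a ∈ maximalIdeal 𝒪, algebraMap 𝒪 A a ∈ maximalIdeal A := fun a ha =>
    map_nonunit (algebraMap 𝒪 A) a ha
  have hmap : (polyIdeal 𝒪 N).map ev ≤ maximalIdeal A := by
    rw [polyIdeal, Ideal.map_sup, sup_le_iff]
    constructor
    · rw [Ideal.map_le_iff_le_comap, Ideal.map_le_iff_le_comap]
      intro a ha
      rw [Ideal.mem_comap, Ideal.mem_comap]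
      have : ev (MvPolynomial.C a) = algebraMap 𝒪 A a := MvPolynomial.aeval_C t a
      rw [this]
      exact hmO a ha
    · rw [Ideal.map_span, Ideal.span_le]
      rintro _ ⟨_, ⟨i, rfl⟩, rfl⟩
      have : ev (MvPolynomial.X i) = t i := MvPolynomial.aeval_X t i
      rw [SetLike.mem_coe, this]
      exact ht i
  have hker : polyIdeal 𝒪 N ^ (n + 1) ≤ RingHom.ker ev := by
    rw [← Ideal.map_eq_bot_iff_le_ker, Ideal.map_pow, eq_bot_iff, ← hn]
    exact Ideal.pow_right_mono hmap _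
  have hsurj : Function.Surjective ev := by
    intro x
    let G : Set A := Set.range t ∪ (algebraMap 𝒪 A) '' (maximalIdeal 𝒪 : Set 𝒪)
    have hGB : G ⊆ (ev.range.toSubring : Set A) := by
      rintro _ (⟨i, rfl⟩ | ⟨a, -, rfl⟩)
      · exact ⟨MvPolynomial.X i, MvPolynomial.aeval_X t i⟩
      · exact ⟨MvPolynomial.C a, MvPolynomial.aeval_C t a⟩
    have hGI : G ⊆ (maximalIdeal A : Set A) := by
      rintro _ (⟨i, rfl⟩ | ⟨a, ha, rfl⟩)
      · exact ht i
      · exact hmO a ha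
    have hI : maximalIdeal A ≤ Ideal.span G := by
      rw [Ideal.span_union]
      exact hgen
    have h1 : ∀ x : A, ∃ b ∈ ev.range.toSubring, x - b ∈ maximalIdeal A := by
      intro x
      obtain ⟨a, ha⟩ := hres (residue A x)
      refine ⟨algebraMap 𝒪 A a, ⟨MvPolynomial.C a, MvPolynomial.aeval_C t a⟩, ?_⟩
      exact Ideal.Quotient.eq.mp ha.symm
    obtain ⟨b, ⟨p, hp⟩, hxb⟩ :=
      exists_mem_subring_sub_mem_pow (maximalIdeal A) ev.range.toSubring G hGB hGI hI h1 (n + 1) x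
    rw [hn, Ideal.mem_bot, sub_eq_zero] at hxb
    exact ⟨p, by rw [hxb]; exact hp⟩
  refine Nat.card_le_card_of_surjective
    (Ideal.Quotient.lift (polyIdeal 𝒪 N ^ (n + 1)) ev.toRingHom fun p hp => hker hp) ?_
  exact Ideal.Quotient.lift_surjective_of_surjective _ _ hsurj

end PolyBound

end Fermat.Agent.S53.Limit

open IsLocalRing GaloisRep

namespace Fermat.Agent.S53

variable (𝒪 : Type) [CommRing 𝒪] [IsDomain 𝒪] [IsDiscreteValuationRing 𝒪]
  [IsAdicComplete (maximalIdeal 𝒪) 𝒪] [Finite (ResidueField 𝒪)]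
variable (S : Type) [CommRing S] [Algebra 𝒪 S]

/-- The quotient `S ⧸ K` is a local artinian test algebra. -/
def IsTestQuot (K : Ideal S) : Prop :=
  ∃ _ : IsLocalRing (S ⧸ K), IsArtinianTestAlgebra 𝒪 (S ⧸ K)

/-- Limit of a system of test quotients. -/
theorem exists_limit (𝒦 : Set (Ideal S)) (K₀ : Ideal S) (hK₀max : K₀.IsMaximal)
    (hK₀ : K₀ ∈ 𝒦) (hle : ∀ K ∈ 𝒦, K ≤ K₀)
    (htest : ∀ K ∈ 𝒦, IsTestQuot 𝒪 S K)
    (hinf : ∀ K ∈ 𝒦, ∀ K' ∈ 𝒦, K ⊓ K' ∈ 𝒦)
    (hup : ∀ K ∈ 𝒦, ∀ K' : Ideal S, K ≤ K' → K' ≤ K₀ → K' ∈ 𝒦)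
    (htan : ∃ N : ℕ, ∀ K ∈ 𝒦, K₀ ^ 2 ≤ K → (maximalIdeal 𝒪).map (algebraMap 𝒪 S) ≤ K →
      Nat.card (S ⧸ K) ≤ N) :
    ∃ (R : Type) (_ : CommRing R) (_ : IsLocalRing R) (_ : IsNoetherianRing R)
      (_ : IsAdicComplete (maximalIdeal R) R) (_ : Algebra 𝒪 R)
      (_ : IsLocalHom (algebraMap 𝒪 R)) (u : S →ₐ[𝒪] R),
      Function.Surjective (residue R ∘ algebraMap 𝒪 R) ∧
      (∀ (n : ℕ) (x : R), ∃ s : S, x - u s ∈ maximalIdeal R ^ n) ∧
      (∀ n : ℕ, 1 ≤ n → (maximalIdeal R ^ n).comap (u : S →+* R) ∈ 𝒦) ∧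
      (∀ K ∈ 𝒦, ∃ q : R →ₐ[𝒪] S ⧸ K, q.comp u = Ideal.Quotient.mkₐ 𝒪 K) := by
  classical
  obtain ⟨N, hN⟩ := htan
  have hfg : (maximalIdeal 𝒪).FG := (inferInstance : IsNoetherianRing 𝒪).noetherian _
  -- basic facts for members of `𝒦`
  have hloc : ∀ K ∈ 𝒦, IsLocalRing (S ⧸ K) := fun K hK => by
    obtain ⟨h, -⟩ := htest K hK
    exact h
  have hfinK : ∀ K ∈ 𝒦, Finite (S ⧸ K) := fun K hK => by
    obtain ⟨h, ht⟩ := htest K hK
    exact testAlg_finite ht
  have hmaxK : ∀ (K : Ideal S) (hK : K ∈ 𝒦),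
      @maximalIdeal (S ⧸ K) _ (hloc K hK) = K₀.map (Ideal.Quotient.mk K) := fun K hK =>
    @Limit.maximalIdeal_quotient_eq S _ K₀ hK₀max K (hle K hK) (hloc K hK)
  have hϖ : (maximalIdeal 𝒪).map (algebraMap 𝒪 S) ≤ K₀ := by
    obtain ⟨h, ht⟩ := htest K₀ hK₀
    have := ht.isLocalHom
    rw [Ideal.map_le_iff_le_comap]
    intro a ha
    rw [Ideal.mem_comap]
    have h1 : algebraMap 𝒪 (S ⧸ K₀) a ∈ maximalIdeal (S ⧸ K₀) :=
      map_nonunit (algebraMap 𝒪 (S ⧸ K₀)) a ha
    rw [hmaxK K₀ hK₀, Ideal.map_quotient_self] at h1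
    exact Ideal.Quotient.eq_zero_iff_mem.mp h1
  have hnil : ∀ K ∈ 𝒦, ∃ n : ℕ, K₀ ^ n ≤ K := fun K hK => by
    obtain ⟨h, ht⟩ := htest K hK
    obtain ⟨n, hn⟩ := testAlg_exists_pow_eq_bot ht
    refine ⟨n, ?_⟩
    rw [hmaxK K hK, ← Ideal.map_pow, Ideal.map_eq_bot_iff_le_ker, Ideal.mk_ker] at hn
    exact hn
  -- the uniform bound
  have hbound : ∀ (n : ℕ) (K : Ideal S), K ∈ 𝒦 → K₀ ^ (n + 1) ≤ K → Nat.card (S ⧸ K) ≤
      Nat.card (MvPolynomial (Fin N) 𝒪 ⧸ Limit.polyIdeal 𝒪 N ^ (n + 1)) := by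
    intro n K hK hpow
    obtain ⟨h, ht⟩ := htest K hK
    have := ht.isLocalHom
    have hfinA := hfinK K hK
    set K' : Ideal S := K ⊔ K₀ ^ 2 ⊔ (maximalIdeal 𝒪).map (algebraMap 𝒪 S) with hK'
    have hK'mem : K' ∈ 𝒦 := hup K hK K' (le_sup_of_le_left le_sup_left)
      (sup_le (sup_le (hle K hK) (Ideal.pow_le_self two_ne_zero)) hϖ)
    have := hfinK K' hK'mem
    have hcard : Nat.card (S ⧸ K') ≤ N :=
      hN K' hK'mem (le_sup_of_le_left le_sup_right) le_sup_right
    obtain ⟨s, hsM, hs⟩ := Limit.exists_fin_cover K₀ K' N hcard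
    have hmax := hmaxK K hK
    have ht_mem : ∀ i, Ideal.Quotient.mk K (s i) ∈ maximalIdeal (S ⧸ K) := fun i => by
      rw [hmax]
      exact Ideal.mem_map_of_mem _ (hsM i)
    have hK'map : K'.map (Ideal.Quotient.mk K) ≤
        (maximalIdeal 𝒪).map (algebraMap 𝒪 (S ⧸ K)) ⊔
          maximalIdeal (S ⧸ K) • maximalIdeal (S ⧸ K) := by
      rw [hK', Ideal.map_sup, Ideal.map_sup, Ideal.map_quotient_self, bot_sup_eq, Ideal.map_pow,
        Ideal.map_map, ← hmax, smul_eq_mul, ← pow_two, sup_comm]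
      exact le_rfl
    have hgen0 : maximalIdeal (S ⧸ K) ≤
        (Ideal.span (Set.range fun i => Ideal.Quotient.mk K (s i)) ⊔
          (maximalIdeal 𝒪).map (algebraMap 𝒪 (S ⧸ K))) ⊔
            maximalIdeal (S ⧸ K) • maximalIdeal (S ⧸ K) := by
      intro y hy
      rw [hmax] at hy
      obtain ⟨x, hx, rfl⟩ :=
        (Ideal.mem_map_iff_of_surjective _ Ideal.Quotient.mk_surjective).mp hy
      obtain ⟨i, hi⟩ := hs x hx
      have h1 : Ideal.Quotient.mk K x =
          Ideal.Quotient.mk K (s i) + Ideal.Quotient.mk K (x - s i) := by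
        rw [← map_add]
        congr 1
        ring
      rw [h1, sup_assoc]
      exact Submodule.add_mem_sup (Ideal.subset_span ⟨i, rfl⟩)
        (hK'map (Ideal.mem_map_of_mem _ hi))
    have hgen : maximalIdeal (S ⧸ K) ≤
        Ideal.span (Set.range fun i => Ideal.Quotient.mk K (s i)) ⊔
          (maximalIdeal 𝒪).map (algebraMap 𝒪 (S ⧸ K)) :=
      Submodule.le_of_le_smul_of_le_jacobson_bot
        ((inferInstance : IsNoetherianRing (S ⧸ K)).noetherian _)
        (maximalIdeal_le_jacobson _) hgen0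
    have hm : maximalIdeal (S ⧸ K) ^ (n + 1) = ⊥ := by
      rw [hmax, ← Ideal.map_pow, Ideal.map_eq_bot_iff_le_ker, Ideal.mk_ker]
      exact hpow
    exact Limit.card_le_of_generators 𝒪 hfg ht.residue_surjective N n hm _ ht_mem hgen
  -- the chain of minimal ideals
  have hmin : ∀ n : ℕ, ∃ K ∈ 𝒦, K₀ ^ (n + 1) ≤ K ∧
      ∀ K' ∈ 𝒦, K₀ ^ (n + 1) ≤ K' → K ≤ K' := by
    intro n
    obtain ⟨K, ⟨hK, hK1⟩, hK2⟩ := Limit.exists_min_of_card_le
      {K | K ∈ 𝒦 ∧ K₀ ^ (n + 1) ≤ K} ⟨K₀, hK₀, Ideal.pow_le_self (Nat.succ_ne_zero n)⟩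
      (fun K hK K' hK' => ⟨hinf K hK.1 K' hK'.1, le_inf hK.2 hK'.2⟩)
      (fun K hK => hfinK K hK.1) _ (fun K hK => hbound n K hK.1 hK.2)
    exact ⟨K, hK, hK1, fun K' hK' h' => hK2 K' ⟨hK', h'⟩⟩
  choose Kn hKn_mem hKn_pow hKn_min using hmin
  have hanti : ∀ n, Kn (n + 1) ≤ Kn n := fun n =>
    hKn_min (n + 1) (Kn n) (hKn_mem n)
      ((Ideal.pow_le_pow_right (Nat.le_succ _)).trans (hKn_pow n))
  have hKnle : ∀ n, Kn n ≤ K₀ := fun n => hle _ (hKn_mem n)
  have hsup : ∀ n, Kn (n + 1) ⊔ K₀ ^ (n + 1) = Kn n := fun n =>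
    le_antisymm (sup_le (hanti n) (hKn_pow n))
      (hKn_min n _ (hup (Kn (n + 1)) (hKn_mem (n + 1)) _ le_sup_left
        (sup_le (hKnle (n + 1)) (Ideal.pow_le_self (Nat.succ_ne_zero n)))) le_sup_right)
  -- the tower and its limit
  haveI hlocn : ∀ n, IsLocalRing (S ⧸ Kn n) := fun n => hloc _ (hKn_mem n)
  haveI hfinn : ∀ n, Finite (S ⧸ Kn n) := fun n => hfinK _ (hKn_mem n)
  haveI htower : Limit.IsTower 𝒪 (R := fun n => S ⧸ Kn n) (Limit.chainMap 𝒪 Kn hanti) :=
    Limit.isTower_chain 𝒪 Kn hanti K₀ hKnle hKn_pow hsup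
  obtain ⟨h0, ht0⟩ := htest (Kn 0) (hKn_mem 0)
  have hloc0 := ht0.isLocalHom
  refine ⟨Limit.chainLim 𝒪 Kn hanti, inferInstance, inferInstance, inferInstance, inferInstance,
    inferInstance, ⟨fun a ha => ?_⟩, Limit.chainLift 𝒪 Kn hanti, ?_, ?_, ?_, ?_⟩
  · have h1 : IsUnit (algebraMap 𝒪 (S ⧸ Kn 0) a) := by
      have := ha.map (Limit.chainProj 𝒪 Kn hanti 0)
      rwa [AlgHom.commutes] at this
    exact isUnit_of_map_unit (algebraMap 𝒪 (S ⧸ Kn 0)) a h1
  · intro y
    obtain ⟨x, rfl⟩ := Ideal.Quotient.mk_surjective y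
    obtain ⟨a, ha⟩ := ht0.residue_surjective (residue _ (Limit.chainProj 𝒪 Kn hanti 0 x))
    refine ⟨a, ?_⟩
    have h1 : algebraMap 𝒪 (S ⧸ Kn 0) a - Limit.chainProj 𝒪 Kn hanti 0 x ∈
        maximalIdeal (S ⧸ Kn 0) := Ideal.Quotient.eq.mp ha
    rw [Limit.maximalIdeal_zero_eq_bot 𝒪 (R := fun n => S ⧸ Kn n) _ htower, Ideal.mem_bot] at h1
    refine Ideal.Quotient.eq.mpr ?_
    rw [Limit.mem_maximalIdeal_lim_iff, map_sub, AlgHom.commutes]
    exact h1
  · exact fun n x => Limit.exists_sub_chainLift_mem_pow 𝒪 Kn hanti n x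
  · intro n hn
    obtain ⟨k, rfl⟩ := Nat.exists_eq_succ_of_ne_zero (Nat.one_le_iff_ne_zero.mp hn)
    rw [Limit.comap_chainLift_pow]
    exact hKn_mem k
  · intro K hK
    obtain ⟨n, hn⟩ := hnil K hK
    have hKnK : Kn n ≤ K :=
      hKn_min n K hK ((Ideal.pow_le_pow_right (Nat.le_succ n)).trans hn)
    exact ⟨(Ideal.Quotient.factorₐ 𝒪 hKnK).comp (Limit.chainProj 𝒪 Kn hanti n), rfl⟩

end Fermat.Agent.S53
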