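import Mathlib
import Fermat.Statements.S57

set_option autoImplicit false
open Algebra Algebra.PatchingLevel

namespace Fermat.Agent.S57

open CategoryTheory RingTheory.Sequence IsLocalRing

section Abstract

variable {B : Type} [CommRing B] [IsLocalRing B] [IsNoetherianRing B]

lemma pd_arith (a q : WithBot ℕ∞) (m n : ℕ) (h1 : q = a + (m : ℕ)) (h2 : q ≤ (n : ℕ))
    (h3 : n ≤ m) : a ≤ ((0 : ℕ) : WithBot ℕ∞) := by
  have h4 : a + (m : ℕ) ≤ ((0 : ℕ) : WithBot ℕ∞) + (m : ℕ) := by
    rw [← h1, Nat.cast_zero, zero_add]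
    exact h2.trans (by exact_mod_cast h3)
  exact ENat.WithBot.add_le_add_natCast_right_iff.mp h4

lemma hasProjDimLT_of_isFiniteLength (ys : List B) (hreg : IsRegular B ys)
    (hmax : Ideal.ofList ys = maximalIdeal B)
    (L : Type) [AddCommGroup L] [Module B L] (hL : IsFiniteLength B L) :
    HasProjectiveDimensionLT (ModuleCat.of B L) (ys.length + 1) := by
  induction hL with
  | of_subsingleton =>
    rename_i M _ _ _
    have h0 : HasProjectiveDimensionLT (ModuleCat.of B M) 0 :=
      (ModuleCat.isZero_of_subsingleton (ModuleCat.of B M)).hasProjectiveDimensionLT_zero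
    exact hasProjectiveDimensionLT_of_ge _ 0 _ (Nat.zero_le _)
  | of_simple_quotient h ih =>
    rename_i M _ _ N hsimple
    obtain ⟨I, hI, ⟨e⟩⟩ := isSimpleModule_iff_quot_maximal.mp hsimple
    have hIm : I = Ideal.ofList ys := by rw [hmax]; exact IsLocalRing.eq_maximalIdeal hI
    subst hIm
    have hk : HasProjectiveDimensionLT (ModuleCat.of B (Shrink.{0} (B ⧸ Ideal.ofList ys)))
        (ys.length + 1) := by
      have := ModuleCat.projectiveDimension_quotient_eq_length (R := B) ys hreg
      exact (projectiveDimension_le_iff _ _).mp this.le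
    have h3 : HasProjectiveDimensionLT (ModuleCat.of B (M ⧸ N)) (ys.length + 1) :=
      hasProjectiveDimensionLT_of_iso
        ((Shrink.linearEquiv B (B ⧸ Ideal.ofList ys)).trans e.symm).toModuleIso _
    let S : ShortComplex (ModuleCat.{0} B) :=
      { X₁ := ModuleCat.of B N
        X₂ := ModuleCat.of B M
        X₃ := ModuleCat.of B (M ⧸ N)
        f := ModuleCat.ofHom N.subtype
        g := ModuleCat.ofHom N.mkQ
        zero := by ext x; simp }
    have hS : S.ShortExact := by
      refine ModuleCat.shortComplex_shortExact S ?_ ?_ ?_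
      · intro x
        simp only [S, ModuleCat.hom_ofHom]
        constructor
        · intro hx
          exact ⟨⟨x, by simpa using hx⟩, rfl⟩
        · rintro ⟨y, rfl⟩
          simp
      · exact N.injective_subtype
      · exact N.mkQ_surjective
    exact hS.hasProjectiveDimensionLT_X₂ _ ih h3

theorem free_of_free_source {A B : Type} [CommRing A] [CommRing B] [IsLocalRing B]
    [IsNoetherianRing B] [Algebra A B] {N : Type} [AddCommGroup N] [Module A N] [Module B N]
    [IsScalarTower A B N] [Module.Free A N] [Module.Finite A N] [Nontrivial N]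
    (xs : List A) (hxs : IsWeaklyRegular A xs) (hmaxA : (Ideal.ofList xs).IsMaximal)
    (ys : List B) (hys : IsRegular B ys) (hmaxB : Ideal.ofList ys = maximalIdeal B)
    (hlen : ys.length ≤ xs.length) : Module.Free B N := by
  classical
  set fs : List B := xs.map (algebraMap A B) with hfs
  have h1 : IsWeaklyRegular N xs :=
    ((TensorProduct.rid A N).isWeaklyRegular_congr xs).mp hxs.isWeaklyRegular_lTensor
  have h2 : IsWeaklyRegular N fs := (isWeaklyRegular_map_algebraMap_iff B N xs).mpr h1
  have : Module.Finite B N := Module.Finite.of_restrictScalars_finite A B N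
  have hproper : (Ideal.ofList xs) • (⊤ : Submodule A N) ≠ ⊤ :=
    Module.FaithfullyFlat.submodule_ne_top hmaxA
  have hmem : ∀ f ∈ fs, f ∈ maximalIdeal B := by
    intro f hf
    obtain ⟨x, hx, rfl⟩ := List.mem_map.mp hf
    by_contra hnot
    have hu : IsUnit (algebraMap A B x) := by
      simpa [IsLocalRing.mem_maximalIdeal, mem_nonunits_iff] using hnot
    obtain ⟨u, hu⟩ := hu
    apply hproper
    rw [_root_.eq_top_iff]
    intro n _
    have : n = x • ((↑u⁻¹ : B) • n) := by
      rw [← algebraMap_smul B x, ← mul_smul, ← hu, Units.mul_inv, one_smul]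
    rw [this]
    exact Submodule.smul_mem_smul (Ideal.subset_span hx) Submodule.mem_top
  -- the quotient
  have hT : Module.IsTorsionBySet A (N ⧸ (Ideal.ofList fs • ⊤ : Submodule B N))
      (Ideal.ofList xs : Set A) := by
    rintro q ⟨a, ha⟩
    induction q using Submodule.Quotient.induction_on with
    | H n =>
      show a • Submodule.Quotient.mk n = 0
      rw [← Submodule.Quotient.mk_smul, Submodule.Quotient.mk_eq_zero, ← algebraMap_smul B a]
      refine Submodule.smul_mem_smul ?_ Submodule.mem_top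
      rw [hfs, ← Ideal.map_ofList]
      exact Ideal.mem_map_of_mem _ ha
  have hfinA : Module.Finite A (N ⧸ (Ideal.ofList fs • ⊤ : Submodule B N)) :=
    Module.Finite.of_surjective
      ((Ideal.ofList fs • ⊤ : Submodule B N).mkQ.restrictScalars A)
      (fun q => Submodule.Quotient.induction_on _ q fun n => ⟨n, rfl⟩)
  have hartA : IsArtinian A (N ⧸ (Ideal.ofList fs • ⊤ : Submodule B N)) := by
    let _ : Field (A ⧸ Ideal.ofList xs) := Ideal.Quotient.field _
    let _ := hT.module
    have hss : IsSemisimpleModule A (N ⧸ (Ideal.ofList fs • ⊤ : Submodule B N)) :=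
      hT.isSemisimpleModule_iff.mp inferInstance
    infer_instance
  have hart : IsArtinian B (N ⧸ (Ideal.ofList fs • ⊤ : Submodule B N)) :=
    isArtinian_of_tower A hartA
  have hfl : IsFiniteLength B (N ⧸ (Ideal.ofList fs • ⊤ : Submodule B N)) :=
    isFiniteLength_iff_isNoetherian_isArtinian.mpr ⟨inferInstance, hart⟩
  have hQ := hasProjDimLT_of_isFiniteLength ys hys hmaxB _ hfl
  have hpd : projectiveDimension
      (ModuleCat.of B (N ⧸ (Ideal.ofList fs • ⊤ : Submodule B N))) =
      projectiveDimension (ModuleCat.of B N) + (fs.length : ℕ) :=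
    ModuleCat.projectiveDimension_quotient_eq_add_length_of_isWeaklyRegular
      (ModuleCat.of B N) fs h2 hmem
  have hle : projectiveDimension
      (ModuleCat.of B (N ⧸ (Ideal.ofList fs • ⊤ : Submodule B N))) ≤ (ys.length : ℕ) :=
    (projectiveDimension_le_iff _ _).mpr hQ
  have hlen' : ys.length ≤ fs.length := by simpa [hfs] using hlen
  have hle3 : projectiveDimension (ModuleCat.of B N) ≤ ((0 : ℕ) : WithBot ℕ∞) :=
    pd_arith _ _ _ _ hpd hle hlen'
  have hproj : Projective (ModuleCat.of B N) :=
    (projective_iff_hasProjectiveDimensionLE_zero _).mpr ((projectiveDimension_le_iff _ 0).mp hle3)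
  have : Module.Projective B N := (IsProjective.iff_projective (R := B) N).mpr hproj
  exact Module.free_of_flat_of_isLocalRing

end Abstract

section PowerSeriesPart

open MvPowerSeries

variable (R : Type) [CommRing R] (r : ℕ)

/-- power series whose coefficients vanish at all monomials not involving the first `i` variables -/
def varIdeal (i : ℕ) : Ideal (MvPowerSeries (Fin r) R) where
  carrier := {f | ∀ m : Fin r →₀ ℕ, (∀ j : Fin r, j.val < i → m j = 0) → coeff m f = 0}
  add_mem' := by
    intro f g hf hg m hm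
    rw [map_add, hf m hm, hg m hm, add_zero]
  zero_mem' := by intro m _; simp
  smul_mem' := by
    intro c f hf m hm
    rw [smul_eq_mul, coeff_mul]
    apply Finset.sum_eq_zero
    rintro ⟨a, b⟩ hab
    rw [Finset.HasAntidiagonal.mem_antidiagonal] at hab
    have hb : coeff b f = 0 := hf b (fun j hj => by
      have h1 := hm j hj
      rw [← hab] at h1
      simp only [Finsupp.coe_add, Pi.add_apply, Nat.add_eq_zero_iff] at h1
      exact h1.2)
    rw [hb, mul_zero]

variable {R r}

lemma mem_varIdeal {i : ℕ} {f : MvPowerSeries (Fin r) R} :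
    f ∈ varIdeal R r i ↔ ∀ m : Fin r →₀ ℕ, (∀ j : Fin r, j.val < i → m j = 0) → coeff m f = 0 :=
  Iff.rfl

lemma varIdeal_zero : varIdeal R r 0 = ⊥ := by
  rw [eq_bot_iff]
  intro f hf
  rw [Ideal.mem_bot]
  ext m
  rw [mem_varIdeal] at hf
  simpa using hf m (fun j hj => absurd hj (Nat.not_lt_zero _))

lemma varIdeal_mono {i i' : ℕ} (h : i ≤ i') : varIdeal R r i ≤ varIdeal R r i' := by
  intro f hf m hm
  exact hf m (fun j hj => hm j (lt_of_lt_of_le hj h))

lemma X_mem_varIdeal {i : ℕ} (s : Fin r) (hs : s.val < i) :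
    (X s : MvPowerSeries (Fin r) R) ∈ varIdeal R r i := by
  classical
  intro m hm
  rw [coeff_X, if_neg]
  intro h
  have := hm s hs
  rw [h] at this
  simp at this

lemma varIdeal_succ {i : ℕ} (hi : i < r) :
    varIdeal R r (i + 1) = varIdeal R r i ⊔ Ideal.span {(X ⟨i, hi⟩ : MvPowerSeries (Fin r) R)} := by
  classical
  apply le_antisymm
  · intro f hf
    let h : MvPowerSeries (Fin r) R := fun m => if m ⟨i, hi⟩ = 0 then coeff m f else 0
    have hh : ∀ m, coeff m h = if m ⟨i, hi⟩ = 0 then coeff m f else 0 := fun m => rfl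
    have h1 : h ∈ varIdeal R r i := by
      intro m hm
      rw [hh]
      split_ifs with h0
      · apply hf m
        intro j hj
        rcases Nat.lt_succ_iff_lt_or_eq.mp hj with hlt | heq
        · exact hm j hlt
        · have : j = ⟨i, hi⟩ := Fin.ext heq
          rw [this]; exact h0
      · rfl
    have h2 : f - h ∈ Ideal.span {(X ⟨i, hi⟩ : MvPowerSeries (Fin r) R)} := by
      rw [Ideal.mem_span_singleton, X_dvd_iff]
      intro m hm
      rw [map_sub, hh, if_pos hm, sub_self]
    have : f = h + (f - h) := by ring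
    rw [this]
    exact Submodule.add_mem_sup h1 h2
  · refine sup_le (varIdeal_mono (Nat.le_succ i)) ?_
    rw [Ideal.span_le]
    intro x hx
    rw [Set.mem_singleton_iff] at hx
    rw [hx]
    exact X_mem_varIdeal _ (Nat.lt_succ_self i)

lemma X_mul_mem_varIdeal {i : ℕ} (hi : i < r) (g : MvPowerSeries (Fin r) R)
    (hg : X ⟨i, hi⟩ * g ∈ varIdeal R r i) : g ∈ varIdeal R r i := by
  classical
  intro m hm
  have key := hg (Finsupp.single ⟨i, hi⟩ 1 + m) (by
    intro j hj
    have hne : (⟨i, hi⟩ : Fin r) ≠ j := by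
      intro h
      rw [← h] at hj
      exact absurd hj (lt_irrefl _)
    rw [Finsupp.add_apply, hm j hj, add_zero, Finsupp.single_apply, if_neg hne])
  rw [X_def, coeff_add_monomial_mul, one_mul] at key
  exact key

variable (R r) in
/-- the variables, totalised -/
noncomputable def Xtot (n : ℕ) : MvPowerSeries (Fin r) R :=
  if h : n < r then X ⟨n, h⟩ else 0

lemma Xlist_spec (i : ℕ) (hi : i ≤ r) :
    IsWeaklyRegular (MvPowerSeries (Fin r) R) ((List.range i).map (Xtot R r)) ∧
    Ideal.ofList ((List.range i).map (Xtot R r)) = varIdeal R r i := by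
  induction i with
  | zero =>
    refine ⟨by simp, ?_⟩
    simp [varIdeal_zero]
  | succ i ih =>
    obtain ⟨ih1, ih2⟩ := ih (Nat.le_of_succ_le hi)
    have hi' : i < r := hi
    have hX : Xtot R r i = X ⟨i, hi'⟩ := dif_pos hi'
    rw [List.range_succ, List.map_append, List.map_singleton, hX]
    constructor
    · rw [isWeaklyRegular_append_iff]
      refine ⟨ih1, ?_⟩
      rw [isWeaklyRegular_singleton_iff, ih2, isSMulRegular_quotient_iff_mem_of_smul_mem]
      intro g hg
      rw [smul_eq_mul, Ideal.mul_top] at hg ⊢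
      exact X_mul_mem_varIdeal hi' g hg
    · rw [Ideal.ofList_append, Ideal.ofList_singleton, ih2, varIdeal_succ hi']

lemma mem_varIdeal_top {f : MvPowerSeries (Fin r) R} :
    f ∈ varIdeal R r r ↔ constantCoeff f = 0 := by
  rw [mem_varIdeal]
  constructor
  · intro h
    rw [← coeff_zero_eq_constantCoeff_apply]
    exact h 0 (fun j _ => rfl)
  · intro h m hm
    have : m = 0 := by
      ext j
      exact hm j j.isLt
    rw [this, coeff_zero_eq_constantCoeff_apply, h]

/-- the regular system of parameters -/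
noncomputable def paramList (R : Type) [CommRing R] (r : ℕ) (ϖ : R) :
    List (MvPowerSeries (Fin r) R) :=
  (List.range r).map (Xtot R r) ++ [C ϖ]

lemma paramList_length (ϖ : R) : (paramList R r ϖ).length = r + 1 := by
  simp [paramList]

lemma paramList_isWeaklyRegular [IsDomain R] (ϖ : R) (hϖ : ϖ ≠ 0) :
    IsWeaklyRegular (MvPowerSeries (Fin r) R) (paramList R r ϖ) := by
  obtain ⟨h1, h2⟩ := Xlist_spec (R := R) r le_rfl
  rw [paramList, isWeaklyRegular_append_iff]
  refine ⟨h1, ?_⟩
  rw [isWeaklyRegular_singleton_iff, h2, isSMulRegular_quotient_iff_mem_of_smul_mem]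
  intro g hg
  rw [smul_eq_mul, Ideal.mul_top] at hg ⊢
  rw [mem_varIdeal_top] at hg ⊢
  rw [smul_eq_mul, map_mul, constantCoeff_C] at hg
  exact (mul_eq_zero.mp hg).resolve_left hϖ

lemma ofList_paramList [IsLocalRing R] (ϖ : R) (hϖ : maximalIdeal R = Ideal.span {ϖ}) :
    Ideal.ofList (paramList R r ϖ) = maximalIdeal (MvPowerSeries (Fin r) R) := by
  obtain ⟨h1, h2⟩ := Xlist_spec (R := R) r le_rfl
  rw [paramList, Ideal.ofList_append, Ideal.ofList_singleton, h2]
  have hmem : ∀ f : MvPowerSeries (Fin r) R,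
      f ∈ maximalIdeal (MvPowerSeries (Fin r) R) ↔ constantCoeff f ∈ maximalIdeal R := by
    intro f
    rw [IsLocalRing.mem_maximalIdeal, IsLocalRing.mem_maximalIdeal, mem_nonunits_iff,
      mem_nonunits_iff, MvPowerSeries.isUnit_iff_constantCoeff]
  apply le_antisymm
  · refine sup_le ?_ ?_
    · intro f hf
      rw [hmem, mem_varIdeal_top.mp hf]
      exact Ideal.zero_mem _
    · rw [Ideal.span_le]
      intro x hx
      rw [Set.mem_singleton_iff] at hx
      rw [hx, SetLike.mem_coe, hmem, constantCoeff_C, hϖ]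
      exact Ideal.mem_span_singleton_self ϖ
  · intro f hf
    rw [hmem, hϖ, Ideal.mem_span_singleton] at hf
    obtain ⟨c, hc⟩ := hf
    have : f = (f - C ϖ * C c) + C ϖ * C c := by ring
    rw [this]
    refine Submodule.add_mem_sup ?_ (Ideal.mul_mem_right _ _ (Ideal.mem_span_singleton_self _))
    rw [mem_varIdeal_top, map_sub, map_mul, constantCoeff_C, constantCoeff_C, hc, sub_self]

end PowerSeriesPart

section Descent

lemma descend {𝒪 : Type} [CommRing 𝒪]
    {r : ℕ} {R : Type} [CommRing R] [Algebra 𝒪 R]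
    {M : Type} [AddCommGroup M] [Module R M] [Nontrivial M]
    {J : Ideal (MvPowerSeries (Fin r) 𝒪)}
    (L : Algebra.PatchingLevel 𝒪 r R M J)
    (hfree : Module.Free (MvPowerSeries (Fin r) 𝒪) L.N) :
    Module.Free R M ∧ Module.annihilator R M = ⊥ ∧
      RingHom.ker L.ψ = Ideal.span (Set.range fun i : Fin r => L.φ (MvPowerSeries.X i)) := by
  classical
  set I : Ideal (MvPowerSeries (Fin r) 𝒪) :=
    Ideal.span (Set.range fun i : Fin r => L.φ (MvPowerSeries.X i)) with hI
  let bN := Module.Free.chooseBasis (MvPowerSeries (Fin r) 𝒪) L.N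
  have hnt : Nontrivial L.N := L.π_surjective.nontrivial
  have hne : Nonempty (Module.Free.ChooseBasisIndex (MvPowerSeries (Fin r) 𝒪) L.N) :=
    bN.index_nonempty
  have hmemI : ∀ x : L.N, x ∈ I • (⊤ : Submodule (MvPowerSeries (Fin r) 𝒪) L.N) →
      ∀ j, bN.repr x j ∈ I := by
    intro x hx j
    rw [← bN.span_eq, Submodule.mem_ideal_smul_span_iff_exists_sum] at hx
    obtain ⟨a, ha, rfl⟩ := hx
    rw [← Finsupp.linearCombination_apply, bN.repr_linearCombination]
    exact ha j
  have hker : RingHom.ker L.ψ = I := by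
    apply le_antisymm
    · intro a ha
      obtain ⟨j⟩ := hne
      have h1 : L.π (a • bN j) = 0 := by
        rw [L.π_smul, (RingHom.mem_ker).mp ha, zero_smul]
      have h3 := hmemI _ ((L.ker_π _).mp h1) j
      simpa using h3
    · rw [hI, Ideal.span_le]
      rintro _ ⟨i, rfl⟩
      exact L.ψ_φ_X i
  let v : Module.Free.ChooseBasisIndex (MvPowerSeries (Fin r) 𝒪) L.N → M := fun j => L.π (bN j)
  have hπsum : ∀ l : Module.Free.ChooseBasisIndex (MvPowerSeries (Fin r) 𝒪) L.N →₀
      MvPowerSeries (Fin r) 𝒪,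
      L.π (Finsupp.linearCombination (MvPowerSeries (Fin r) 𝒪) bN l) =
        Finsupp.linearCombination R v (l.mapRange L.ψ (map_zero _)) := by
    intro l
    rw [Finsupp.linearCombination_apply, Finsupp.linearCombination_apply,
      Finsupp.sum_mapRange_index (by intro; simp), map_finsuppSum]
    refine Finsupp.sum_congr ?_
    intro j _
    rw [L.π_smul]
  have hli : LinearIndependent R v := by
    rw [linearIndependent_iff]
    intro l hl
    obtain ⟨l', rfl⟩ := Finsupp.mapRange_surjective L.ψ (map_zero _) L.ψ_surjective l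
    rw [← hπsum] at hl
    have h3 := hmemI _ ((L.ker_π _).mp hl)
    ext j
    have h4 := h3 j
    rw [bN.repr_linearCombination, ← hker] at h4
    simpa using (RingHom.mem_ker).mp h4
  have hsp : ⊤ ≤ Submodule.span R (Set.range v) := by
    intro m _
    obtain ⟨x, rfl⟩ := L.π_surjective m
    rw [← bN.linearCombination_repr x, hπsum, Finsupp.linearCombination_apply]
    exact Submodule.sum_mem _ (fun j _ => Submodule.smul_mem _ _ (Submodule.subset_span ⟨j, rfl⟩))
  have hfreeM : Module.Free R M := Module.Free.of_basis (Module.Basis.mk hli hsp)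
  refine ⟨hfreeM, ?_, hker⟩
  exact Module.annihilator_eq_bot.mpr inferInstance

end Descent

section Main

/-- a copy of a ring, used as the source of a ring endomorphism -/
def Src (B : Type) : Type := B

instance instCommRingSrc (B : Type) [CommRing B] : CommRing (Src B) := inferInstanceAs (CommRing B)

lemma patching_free {𝒪 : Type} [CommRing 𝒪] [IsDomain 𝒪] [IsDiscreteValuationRing 𝒪]
    {r : ℕ} {R : Type} [CommRing R] [Algebra 𝒪 R]
    {M : Type} [AddCommGroup M] [Module R M] [Nontrivial M]
    (L : Algebra.PatchingLevel 𝒪 r R M ⊥) : Module.Free (MvPowerSeries (Fin r) 𝒪) L.N := by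
  obtain ⟨ϖ, hϖ⟩ := IsDiscreteValuationRing.exists_irreducible 𝒪
  have hmax : maximalIdeal 𝒪 = Ideal.span {ϖ} := hϖ.maximalIdeal_eq
  have hnt : Nontrivial L.N := L.π_surjective.nontrivial
  let φ' : Src (MvPowerSeries (Fin r) 𝒪) →+* MvPowerSeries (Fin r) 𝒪 := L.φ.toRingHom
  let _ : Algebra (Src (MvPowerSeries (Fin r) 𝒪)) (MvPowerSeries (Fin r) 𝒪) := φ'.toAlgebra
  let _ : Module (Src (MvPowerSeries (Fin r) 𝒪)) L.N := Module.compHom L.N φ'
  have : IsScalarTower (Src (MvPowerSeries (Fin r) 𝒪)) (MvPowerSeries (Fin r) 𝒪) L.N :=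
    ⟨fun a b n => mul_smul (φ' a) b n⟩
  have hli : LinearIndependent (Src (MvPowerSeries (Fin r) 𝒪)) L.b := by
    rw [Fintype.linearIndependent_iff]
    intro g hg i
    exact Ideal.mem_bot.mp ((L.b_rel g).mp hg i)
  have hsp : ⊤ ≤ Submodule.span (Src (MvPowerSeries (Fin r) 𝒪)) (Set.range L.b) := by
    intro x _
    obtain ⟨c, hc⟩ := L.b_span x
    rw [hc]
    exact Submodule.sum_mem _ (fun i _ => Submodule.smul_mem _
      (c i : Src (MvPowerSeries (Fin r) 𝒪)) (Submodule.subset_span ⟨i, rfl⟩))
  let bas := Module.Basis.mk hli hsp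
  have : Module.Free (Src (MvPowerSeries (Fin r) 𝒪)) L.N := Module.Free.of_basis bas
  have : Module.Finite (Src (MvPowerSeries (Fin r) 𝒪)) L.N := Module.Finite.of_basis bas
  have hmaxB := ofList_paramList (r := r) ϖ hmax
  have hwr := paramList_isWeaklyRegular (r := r) ϖ hϖ.ne_zero
  have hreg : IsRegular (MvPowerSeries (Fin r) 𝒪) (paramList 𝒪 r ϖ) :=
    IsRegular.of_isWeaklyRegular_of_mem_maximalIdeal _
      (fun x hx => hmaxB ▸ Ideal.subset_span hx) hwr
  have hmaxA : (Ideal.ofList (paramList 𝒪 r ϖ)).IsMaximal := by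
    rw [hmaxB]; infer_instance
  exact free_of_free_source (A := Src (MvPowerSeries (Fin r) 𝒪)) (paramList 𝒪 r ϖ) hwr hmaxA
    (paramList 𝒪 r ϖ) hreg hmaxB le_rfl

end Main

theorem result
    {𝒪 : Type} [CommRing 𝒪] [IsDomain 𝒪] [IsDiscreteValuationRing 𝒪]
    {r : ℕ} {R : Type} [CommRing R] [Algebra 𝒪 R]
    {M : Type} [AddCommGroup M] [Module R M] [Nontrivial M]
    (L : Algebra.PatchingLevel 𝒪 r R M ⊥) :
    Module.Free R M ∧ Module.annihilator R M = ⊥ ∧
      RingHom.ker L.ψ = Ideal.span (Set.range fun i : Fin r => L.φ (MvPowerSeries.X i)) :=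
  descend L (patching_free L)

end Fermat.Agent.S57
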