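import Fermat.Prelude.Def_Algebra_PatchingDatum
import Mathlib

set_option autoImplicit false

namespace Fermat.Agent.S57Descent

theorem repr_mem_of_mem_smul_top {Λ N ι : Type*} [CommRing Λ] [AddCommGroup N] [Module Λ N]
    (e : Module.Basis ι Λ N) (I : Ideal Λ) {x : N} (hx : x ∈ I • (⊤ : Submodule Λ N)) (j : ι) :
    e.repr x j ∈ I := by
  refine Submodule.smul_induction_on (p := fun x => e.repr x j ∈ I) hx ?_ ?_
  · intro a ha n _
    rw [map_smul, Finsupp.smul_apply, smul_eq_mul]
    exact I.mul_mem_right _ ha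
  · intro x y hx hy
    rw [map_add, Finsupp.add_apply]
    exact I.add_mem hx hy

theorem descent {𝒪 : Type} [CommRing 𝒪] {r : ℕ} {R : Type} [CommRing R] [Algebra 𝒪 R]
    {M : Type} [AddCommGroup M] [Module R M] [Nontrivial M]
    {J : Ideal (MvPowerSeries (Fin r) 𝒪)}
    (L : Algebra.PatchingLevel 𝒪 r R M J)
    (hfree : Module.Free (MvPowerSeries (Fin r) 𝒪) L.N) :
    Module.Free R M ∧ Module.annihilator R M = ⊥ ∧
      RingHom.ker L.ψ = Ideal.span (Set.range fun i : Fin r => L.φ (MvPowerSeries.X i)) := by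
  classical
  set I : Ideal (MvPowerSeries (Fin r) 𝒪) :=
    Ideal.span (Set.range fun i : Fin r => L.φ (MvPowerSeries.X i)) with hI
  let e := Module.Free.chooseBasis (MvPowerSeries (Fin r) 𝒪) L.N
  -- `I ≤ ker ψ`
  have hIle : I ≤ RingHom.ker L.ψ := by
    rw [hI, Ideal.span_le]
    rintro _ ⟨i, rfl⟩
    exact L.ψ_φ_X i
  -- the index type is nonempty
  have hne : Nonempty (Module.Free.ChooseBasisIndex (MvPowerSeries (Fin r) 𝒪) L.N) := by
    by_contra hemp
    rw [not_nonempty_iff] at hemp
    obtain ⟨m, hm⟩ := exists_ne (0 : M)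
    obtain ⟨x, rfl⟩ := L.π_surjective m
    apply hm
    have hx : x = 0 := by
      apply e.repr.injective
      ext j
      exact (hemp.false j).elim
    rw [hx, map_zero]
  obtain ⟨j0⟩ := hne
  -- `ker ψ ≤ I`
  have hker : RingHom.ker L.ψ = I := by
    apply le_antisymm _ hIle
    intro f hf
    have h1 : L.π (f • e j0) = 0 := by
      rw [L.π_smul, RingHom.mem_ker.mp hf, zero_smul]
    have h2 := repr_mem_of_mem_smul_top e I ((L.ker_π _).mp h1) j0
    rw [map_smul, Finsupp.smul_apply, Module.Basis.repr_self, Finsupp.single_eq_same,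
      smul_eq_mul, mul_one] at h2
    exact h2
  -- the family `π (e j)` is a basis of `M` over `R`
  have hli : LinearIndependent R (fun j => L.π (e j)) := by
    rw [linearIndependent_iff']
    intro s g hg j hj
    choose a ha using fun i => L.ψ_surjective (g i)
    have h1 : L.π (∑ i ∈ s, a i • e i) = 0 := by
      rw [map_sum]
      rw [← hg]
      refine Finset.sum_congr rfl fun i _ => ?_
      rw [L.π_smul, ha]
    have h2 := repr_mem_of_mem_smul_top e I ((L.ker_π _).mp h1) j
    rw [map_sum] at h2
    simp only [map_smul, Module.Basis.repr_self, Finsupp.coe_finsetSum, Finsupp.coe_smul,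
      Finset.sum_apply, Pi.smul_apply, smul_eq_mul] at h2
    rw [Finset.sum_eq_single j] at h2
    · rw [Finsupp.single_eq_same, mul_one] at h2
      rw [← ha j]
      exact RingHom.mem_ker.mp (hIle h2)
    · intro i _ hij
      rw [Finsupp.single_eq_of_ne (Ne.symm hij), mul_zero]
    · intro hj'
      exact absurd hj hj'
  have hsp : ⊤ ≤ Submodule.span R (Set.range fun j => L.π (e j)) := by
    intro m _
    obtain ⟨x, rfl⟩ := L.π_surjective m
    rw [← e.linearCombination_repr x, Finsupp.linearCombination_apply, Finsupp.sum, map_sum]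
    refine Submodule.sum_mem _ fun i _ => ?_
    rw [L.π_smul]
    exact Submodule.smul_mem _ _ (Submodule.subset_span ⟨i, rfl⟩)
  refine ⟨Module.Free.of_basis (Module.Basis.mk hli hsp), ?_, hker⟩
  rw [eq_bot_iff]
  intro c hc
  rw [Module.mem_annihilator] at hc
  have h1 := hc (L.π (e j0))
  have h2 := linearIndependent_iff'.mp hli {j0} (fun _ => c) (by simpa using h1) j0
    (Finset.mem_singleton_self j0)
  exact h2

end Fermat.Agent.S57Descent
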